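import Mathlib
import Fermat.Prelude.Def_ModularCurve_ArithmeticGalois

/-!
# S34 lab (helper25): the top bridge `(FUN) ⇒ (U)`

Step 8 of the S34 plan in a form that does not depend on the interface of the geometric steps.

* `gg25_pic0_double_diff` (abstract, Prelude `SemilinearAut` only): let `g, h` be semilinear
  automorphisms of a function field `F / K` and `m > 0`.  If for EVERY `f ≠ 0` all of whose
  orders are divisible by `m` the double difference `(gh f) · f / (g f · h f)` is an `m`-th
  power in `F`, then `(g - 1)(h - 1)` kills the `m`-torsion of `Pic⁰`: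
  `(g * h) • x - g • x - h • x + x = 0` whenever `m • x = 0`.
* `gg25_U_of_fun` : the same for `JZero N` and two elements `s, t` of `Gal(ℚ̄/ℚ)` (arithmetic
  action); `gg25_U_of_fun_sq` : the shape `t • t • x - t • x - t • x + x = 0` consumed by
  `s34e60_main` (the hypothesis `hU`), for one `t`.
* `gg25_coe_smul` : the action on functions is coefficientwise.
-/

set_option autoImplicit false

open AlgebraicCurve ModularCurve

namespace Fermat.Agent.S34

section Abstract

variable {K F : Type*} [Field K] [Field F] [Algebra K F]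

/-- order of `g • f` at `v` = order of `f` at `g⁻¹ • v`. -/
theorem gg25_ord_smul (g : SemilinearAut K F) (v : Place K F) (f : F) :
    v.ord (g • f) = (g⁻¹ • v).ord f := by
  have h := SemilinearAut.ord_smul g (g⁻¹ • v) f
  rwa [smul_inv_smul] at h

/-- If `m • D = div f` then `ord_v (g • f) = m * (g • D) v`. -/
theorem gg25_ord_smul_of_div (g : SemilinearAut K F) (m : ℤ) (D : Divisor K F) (f : F)
    (hD : ∀ v : Place K F, m * D v = v.ord f) (v : Place K F) :
    v.ord (g • f) = m * (g • D) v := by
  rw [gg25_ord_smul, SemilinearAut.divisor_smul_apply, hD]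

/-- **The abstract top bridge.** -/
theorem gg25_pic0_double_diff (g h : SemilinearAut K F) (m : ℕ) (hm : 0 < m)
    (hfun : ∀ f : F, f ≠ 0 → (∀ v : Place K F, (m : ℤ) ∣ v.ord f) →
      ∃ w : F, (g * h) • f * f = w ^ m * (g • f * h • f))
    (x : Pic0 K F) (hx : (m : ℤ) • x = 0) :
    (g * h) • x - g • x - h • x + x = 0 := by
  obtain ⟨D, rfl⟩ := Pic0.mk_surjective x
  -- `m • D` is principal
  have h1 : ((m : ℤ) • D : Divisor.degZero (K := K) (F := F)) ∈
      (Divisor.principal (K := K) (F := F)).addSubgroupOf (Divisor.degZero (K := K) (F := F)) := by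
    have h2 : Pic0.mk ((m : ℤ) • D) = (m : ℤ) • Pic0.mk D := rfl
    rw [← h2] at hx
    exact (QuotientAddGroup.eq_zero_iff _).mp hx
  rw [AddSubgroup.mem_addSubgroupOf] at h1
  obtain ⟨f, hf0, hf⟩ := h1
  have hfD : ∀ v : Place K F, (m : ℤ) * (D : Divisor K F) v = v.ord f := by
    intro v
    rw [← hf v]
    simp
  have hdiv : ∀ v : Place K F, (m : ℤ) ∣ v.ord f := fun v => ⟨_, (hfD v).symm⟩
  obtain ⟨w, hw⟩ := hfun f hf0 hdiv
  have hgf0 : g • f ≠ 0 := by simpa using hf0
  have hhf0 : h • f ≠ 0 := by simpa using hf0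
  have hghf0 : (g * h) • f ≠ 0 := by simpa using hf0
  have hw0 : w ≠ 0 := by
    rintro rfl
    rw [zero_pow hm.ne', zero_mul] at hw
    exact mul_ne_zero hghf0 hf0 hw
  have hmZ : (m : ℤ) ≠ 0 := by exact_mod_cast hm.ne'
  -- the divisor of the double difference
  have hE : ∀ v : Place K F,
      ((g * h) • (D : Divisor K F) - g • (D : Divisor K F) - h • (D : Divisor K F)
        + (D : Divisor K F)) v = v.ord w := by
    intro v
    have e1 := congrArg v.ord hw
    rw [v.ord_mul hghf0 hf0, v.ord_mul (pow_ne_zero m hw0) (mul_ne_zero hgf0 hhf0),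
      v.ord_mul hgf0 hhf0, gg25_ord_smul_of_div (g * h) m D f hfD,
      gg25_ord_smul_of_div g m D f hfD, gg25_ord_smul_of_div h m D f hfD, ← hfD v,
      ← zpow_natCast, v.ord_zpow] at e1
    simp only [Finsupp.add_apply, Finsupp.sub_apply]
    have e2 : (m : ℤ) * (((g * h) • (D : Divisor K F)) v - (g • (D : Divisor K F)) v
        - (h • (D : Divisor K F)) v + (D : Divisor K F) v) = (m : ℤ) * v.ord w := by
      linarith
    exact mul_left_cancel₀ hmZ e2
  -- conclude in the quotient
  have hcls : (g * h) • Pic0.mk D - g • Pic0.mk D - h • Pic0.mk D + Pic0.mk D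
      = Pic0.mk (SemilinearAut.degZeroSMulHom (g * h) D - SemilinearAut.degZeroSMulHom g D
          - SemilinearAut.degZeroSMulHom h D + D) := by
    rw [SemilinearAut.pic0_smul_mk, SemilinearAut.pic0_smul_mk, SemilinearAut.pic0_smul_mk]
    rfl
  rw [hcls]
  refine (QuotientAddGroup.eq_zero_iff _).mpr ?_
  rw [AddSubgroup.mem_addSubgroupOf]
  refine ⟨w, hw0, fun v => ?_⟩
  rw [← hE v]
  rfl

end Abstract

section JZero

local notation "Q̄" => AlgebraicClosure ℚ

/-- The arithmetic action on functions is coefficientwise. -/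
theorem gg25_coe_smul (N : ℕ) (σ : Q̄ ≃ₐ[ℚ] Q̄) (f : ↥(modularFunctionFieldBar N)) :
    ((arithmeticGalois (modularFunctionFieldFull N) σ • f : ↥(modularFunctionFieldBar N)) :
      LaurentSeries Q̄) = coeffMap (σ : Q̄ →+* Q̄) (f : LaurentSeries Q̄) :=
  rfl

/-- **(FUN) ⇒ (U)** on `JZero N`: if for every nonzero function `f` of level `N` with all orders
divisible by `m` the double difference `s(t f) · f / (s f · t f)` is an `m`-th power, then
`(s - 1)(t - 1)` kills `J₀(N)[m]`. -/
theorem gg25_U_of_fun (N : ℕ) (m : ℕ) (hm : 0 < m) (s t : Q̄ ≃ₐ[ℚ] Q̄)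
    (hfun : ∀ f : ↥(modularFunctionFieldBar N), f ≠ 0 →
      (∀ v : Place Q̄ ↥(modularFunctionFieldBar N), (m : ℤ) ∣ v.ord f) →
      ∃ w : ↥(modularFunctionFieldBar N),
        arithmeticGalois (modularFunctionFieldFull N) (s * t) • f * f =
          w ^ m * (arithmeticGalois (modularFunctionFieldFull N) s • f *
            arithmeticGalois (modularFunctionFieldFull N) t • f))
    (x : JZero N) (hx : m • x = 0) :
    s • t • x - s • x - t • x + x = 0 := by
  have hx' : (m : ℤ) • x = 0 := by rwa [natCast_zsmul]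
  have h := gg25_pic0_double_diff (arithmeticGalois (modularFunctionFieldFull N) s)
    (arithmeticGalois (modularFunctionFieldFull N) t) m hm
    (fun f hf hdiv => by
      obtain ⟨w, hw⟩ := hfun f hf hdiv
      exact ⟨w, by rw [← map_mul]; exact hw⟩) x hx'
  rw [← map_mul, ← galois_smul_pic0_def, ← galois_smul_pic0_def, ← galois_smul_pic0_def,
    mul_smul] at h
  exact h

/-- The shape of the hypothesis `hU` of `s34e60_main` (one inertia element). -/
theorem gg25_U_of_fun_sq (N : ℕ) (m : ℕ) (hm : 0 < m) (t : Q̄ ≃ₐ[ℚ] Q̄)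
    (hfun : ∀ f : ↥(modularFunctionFieldBar N), f ≠ 0 →
      (∀ v : Place Q̄ ↥(modularFunctionFieldBar N), (m : ℤ) ∣ v.ord f) →
      ∃ w : ↥(modularFunctionFieldBar N),
        arithmeticGalois (modularFunctionFieldFull N) (t * t) • f * f =
          w ^ m * (arithmeticGalois (modularFunctionFieldFull N) t • f *
            arithmeticGalois (modularFunctionFieldFull N) t • f))
    (x : JZero N) (hx : m • x = 0) :
    t • t • x - t • x - t • x + x = 0 :=
  gg25_U_of_fun N m hm t t hfun x hx

end JZero

end Fermat.Agent.S34
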