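import Fermat.Agent.S37.LevelUpConc1
import Fermat.Prelude.Def_GaloisRep_LocalConditions

/-!
# S34 lab, package P0 (helper33): level change for the unipotence input `(U)`

`(U)` for a level `M`, primes `p` and `q` (`lc33_U p q M`) is the hypothesis `hU` of
`s34e60_main`: for every `n`, every inertia element `t` at `q` and every class `x` of
`JZero M` killed by `p ^ n`,  `t • t • x - t • x - t • x + x = 0`.

* `lc33_pullPic h : JZero N →+ JZero M` for `N ∣ M`, the pull-back of divisor classes along the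
  inclusion of function fields (`tv1_iota h`), `lc33_pullPic_smul` (Galois-equivariance),
  `lc33_pullPic_nsmul_eq_zero` (`π^* x = 0 ⇒ (ψ(M) / ψ(N)) • x = 0`, from `π_* π^* = deg`);
* `lc33_transfer` : for `N ∣ M`, `ψ(M) / ψ(N)` prime to `m`, and `s`, `t` Galois elements:
  if `(s - 1)(t - 1)` kills the `m`-torsion of `JZero M` then it kills the `m`-torsion of
  `JZero N`;
* `lc33_U_of_dvd` : `(U)` at level `M` gives `(U)` at level `N` when `N ∣ M` and `ψ(M) / ψ(N)`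
  is prime to `p`;
* `lc33_U_mul_prime` : the case `M = N * ℓ`, `ℓ` prime, `ℓ ∤ N`, `p ∤ ℓ + 1`;
* `lc33_p0 p q ∈ {2, 3}` (`≠ q`, `p0 + 1` prime to `p`), `lc33_M N p q = lcm(N, p0)`:
  the auxiliary prime and level; `lc33_U_of_M` : `(U)` at level `lc33_M N p q` gives `(U)` at
  level `N`;
* `lc33_main` : `(U)` at level `N` with `q ∥ N`, `q ≠ p` (literally the hypothesis `hU` of
  `s34e60_main`) from `(U)` at every level `M` with `q ∥ M` and `p0 ∣ M` for a prime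
  `p0 ∈ {2, 3}`, `p0 ≠ q`;
* `lc33_main_mul` : the same with the auxiliary level written `q * M'`, `q ∤ M'`, `p0 ∣ M'`.
-/

set_option autoImplicit false
set_option linter.style.haveILetI false

namespace Fermat.Agent.S34

open ModularCurve AlgebraicCurve Fermat.Agent.S37

local notation "Qb" => AlgebraicClosure ℚ
local notation "GQ" => AlgebraicClosure ℚ ≃ₐ[ℚ] AlgebraicClosure ℚ

/-- The unipotence input `(U)` at level `M`: `(t - 1)² = 0` on the `p`-power torsion of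
`JZero M` for the inertia elements `t` at `q` (the hypothesis `hU` of `s34e60_main`). -/
def lc33_U (p q M : ℕ) [NeZero M] : Prop :=
  ∀ (n : ℕ) (P : ValuationSubring Qb), P.LiesOverPrime q →
    ∀ t ∈ P.inertiaSubgroupIn ℚ, ∀ x : JZero M, (p ^ n) • x = 0 →
      t • t • x - t • x - t • x + x = 0

section lc33_pull

variable {N M : ℕ} [NeZero N] [NeZero M] (h : N ∣ M)

/-- The pull-back on divisors of degree zero. -/
noncomputable def lc33_pull0 :
    Divisor.degZero (K := Qb) (F := ↥(modularFunctionFieldBar N)) →+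
      Divisor.degZero (K := Qb) (F := ↥(modularFunctionFieldBar M)) :=
  ((tv1_pull h).domRestrict (Divisor.degZero (K := Qb) (F := ↥(modularFunctionFieldBar N)))).codRestrict
    _ (fun D => tv1_degree_pull_eq_zero h (Divisor.mem_degZero.mp D.2))

theorem lc33_coe_pull0 (D : Divisor.degZero (K := Qb) (F := ↥(modularFunctionFieldBar N))) :
    ((lc33_pull0 h D : Divisor.degZero (K := Qb) (F := ↥(modularFunctionFieldBar M))) :
      Divisor Qb ↥(modularFunctionFieldBar M)) = tv1_pull h (D : Divisor Qb ↥(modularFunctionFieldBar N)) :=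
  rfl

/-- The pull-back `π^* : JZero N →+ JZero M` of divisor classes, `N ∣ M`. -/
noncomputable def lc33_pullPic : JZero N →+ JZero M :=
  QuotientAddGroup.map _ _ (lc33_pull0 h) (by
    rintro ⟨D, hD0⟩ hD
    simp only [AddSubgroup.mem_addSubgroupOf] at hD ⊢
    exact tv1_pull_mem_principal h hD)

theorem lc33_pullPic_mk (D : Divisor.degZero (K := Qb) (F := ↥(modularFunctionFieldBar N))) :
    lc33_pullPic h (Pic0.mk D) = Pic0.mk (lc33_pull0 h D) :=
  rfl

/-- `π^*` commutes with the Galois action. -/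
theorem lc33_pullPic_smul (σ : GQ) (x : JZero N) :
    lc33_pullPic h (σ • x) = σ • lc33_pullPic h x := by
  obtain ⟨D, rfl⟩ := Pic0.mk_surjective x
  rw [galois_smul_pic0_def, galois_smul_pic0_def, SemilinearAut.pic0_smul_mk, lc33_pullPic_mk,
    lc33_pullPic_mk, SemilinearAut.pic0_smul_mk]
  congr 1
  apply Subtype.ext
  rw [lc33_coe_pull0, SemilinearAut.coe_degZeroSMulHom, SemilinearAut.coe_degZeroSMulHom,
    lc33_coe_pull0]
  exact tv1_pull_smul h σ _

/-- A class is zero iff its divisor is principal. -/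
theorem lc33_mk_eq_zero_iff {L : ℕ} (D : Divisor.degZero (K := Qb) (F := ↥(modularFunctionFieldBar L))) :
    (Pic0.mk D : JZero L) = 0 ↔
      (D : Divisor Qb ↥(modularFunctionFieldBar L)) ∈
        Divisor.principal (K := Qb) (F := ↥(modularFunctionFieldBar L)) := by
  rw [Pic0.mk, QuotientAddGroup.eq_zero_iff, AddSubgroup.mem_addSubgroupOf]

/-- `π^* x = 0 ⇒ (ψ(M) / ψ(N)) • x = 0` (from `π_* π^* = ψ(M) / ψ(N)`). -/
theorem lc33_pullPic_nsmul_eq_zero (x : JZero N) (hx : lc33_pullPic h x = 0) :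
    (dedekindPsi M / dedekindPsi N) • x = 0 := by
  obtain ⟨D, rfl⟩ := Pic0.mk_surjective x
  rw [lc33_pullPic_mk, lc33_mk_eq_zero_iff, lc33_coe_pull0] at hx
  have h1 := tv1_principal_of_pull h hx
  have h2 : (dedekindPsi M / dedekindPsi N) • (Pic0.mk D : JZero N)
      = Pic0.mk ((dedekindPsi M / dedekindPsi N) • D) := rfl
  rw [h2, lc33_mk_eq_zero_iff]
  exact h1

end lc33_pull

section lc33_transfer

variable {N M : ℕ} [NeZero N] [NeZero M]

/-- **Level change.**  For `N ∣ M` with `ψ(M) / ψ(N)` prime to `m` and Galois elements `s`, `t`: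
if `(s - 1)(t - 1)` kills the `m`-torsion of `JZero M`, then it kills the `m`-torsion of
`JZero N`. -/
theorem lc33_transfer (h : N ∣ M) {m : ℕ}
    (hcop : Nat.Coprime (dedekindPsi M / dedekindPsi N) m) (s t : GQ)
    (hM : ∀ y : JZero M, m • y = 0 → s • t • y - s • y - t • y + y = 0)
    (x : JZero N) (hx : m • x = 0) :
    s • t • x - s • x - t • x + x = 0 := by
  set z : JZero N := s • t • x - s • x - t • x + x with hz
  have key : ∀ (σ : GQ) (w : JZero N), m • w = 0 → m • (σ • w) = 0 := fun σ w hw => by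
    rw [smul_comm m σ w, hw, smul_zero]
  have hmz : m • z = 0 := by
    rw [hz, nsmul_add, nsmul_sub, nsmul_sub, key s _ (key t x hx), key s x hx, key t x hx, hx,
      sub_zero, sub_zero, add_zero]
  have hy : m • lc33_pullPic h x = 0 := by
    rw [← map_nsmul, hx, map_zero]
  have hpz : lc33_pullPic h z = 0 := by
    rw [hz, map_add, map_sub, map_sub, lc33_pullPic_smul, lc33_pullPic_smul, lc33_pullPic_smul]
    exact hM _ hy
  have hdz := lc33_pullPic_nsmul_eq_zero h z hpz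
  have h1 : addOrderOf z ∣ dedekindPsi M / dedekindPsi N :=
    addOrderOf_dvd_of_nsmul_eq_zero hdz
  have h2 : addOrderOf z ∣ m := addOrderOf_dvd_of_nsmul_eq_zero hmz
  have h3 : addOrderOf z = 1 := Nat.eq_one_of_dvd_coprimes hcop h1 h2
  exact AddMonoid.addOrderOf_eq_one_iff.mp h3

/-- `(U)` at level `M` gives `(U)` at level `N` for `N ∣ M` with `ψ(M) / ψ(N)` prime to `p`. -/
theorem lc33_U_of_dvd (h : N ∣ M) {p : ℕ} (q : ℕ)
    (hcop : Nat.Coprime (dedekindPsi M / dedekindPsi N) p) (hU : lc33_U p q M) :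
    lc33_U p q N := by
  intro n P hP t ht x hx
  exact lc33_transfer h (Nat.Coprime.pow_right n hcop) t t
    (fun y hy => hU n P hP t ht y hy) x hx

end lc33_transfer

/-! ### The degree `ψ(M) / ψ(N)` and the choice of the auxiliary level -/

section lc33_level

/-- `ψ(N ℓ) / ψ(N) = ℓ + 1` for a prime `ℓ ∤ N`. -/
theorem lc33_psi_mul_prime (N : ℕ) [NeZero N] {ℓ : ℕ} (hℓ : ℓ.Prime) (hℓN : ¬ ℓ ∣ N) :
    dedekindPsi (N * ℓ) / dedekindPsi N = ℓ + 1 := by
  have hcop : Nat.Coprime N ℓ := (Nat.Coprime.symm ((Nat.Prime.coprime_iff_not_dvd hℓ).mpr hℓN))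
  have h1 : dedekindPsi ℓ = ℓ + 1 := by
    have := Fermat.Agent.Lib.G0C.dedekindPsi_prime_pow hℓ (e := 1) one_pos
    simpa using this
  rw [Fermat.Agent.Lib.G0C.dedekindPsi_mul hcop, h1,
    Nat.mul_div_cancel_left _ (Fermat.Agent.S18.nd38_psi_pos N)]

/-- `ψ(N) / ψ(N) = 1`. -/
theorem lc33_psi_self (N : ℕ) [NeZero N] : dedekindPsi N / dedekindPsi N = 1 :=
  Nat.div_self (Fermat.Agent.S18.nd38_psi_pos N)

/-- `(U)` at level `N ℓ` gives `(U)` at level `N` for a prime `ℓ ∤ N` with `ℓ + 1` prime to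
`p`. -/
theorem lc33_U_mul_prime (N : ℕ) [NeZero N] {ℓ : ℕ} (hℓ : ℓ.Prime) (hℓN : ¬ ℓ ∣ N) {p : ℕ}
    (q : ℕ) (hcop : Nat.Coprime (ℓ + 1) p)
    (hU : haveI : NeZero (N * ℓ) := ⟨mul_ne_zero (NeZero.ne N) hℓ.ne_zero⟩; lc33_U p q (N * ℓ)) :
    lc33_U p q N := by
  haveI : NeZero (N * ℓ) := ⟨mul_ne_zero (NeZero.ne N) hℓ.ne_zero⟩
  refine lc33_U_of_dvd (dvd_mul_right N ℓ) q ?_ hU
  rw [lc33_psi_mul_prime N hℓ hℓN]
  exact hcop

/-- The auxiliary prime `p0 ∈ {2, 3}`: `p0 ≠ q` and `p0 + 1` is prime to `p` (for `q ≠ p`). -/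
def lc33_p0 (p q : ℕ) : ℕ := if q = 2 ∨ (q ≠ 3 ∧ p = 3) then 3 else 2

theorem lc33_p0_eq (p q : ℕ) : lc33_p0 p q = 2 ∨ lc33_p0 p q = 3 := by
  unfold lc33_p0
  split_ifs
  · exact Or.inr rfl
  · exact Or.inl rfl

theorem lc33_p0_prime (p q : ℕ) : (lc33_p0 p q).Prime := by
  rcases lc33_p0_eq p q with h | h <;> rw [h]
  · exact Nat.prime_two
  · exact Nat.prime_three

theorem lc33_p0_ne (p q : ℕ) : lc33_p0 p q ≠ q := by
  unfold lc33_p0
  split_ifs with h
  · rcases h with h | h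
    · omega
    · exact fun h' => h.1 h'.symm
  · intro h'
    exact h (Or.inl h'.symm)

theorem lc33_p0_coprime {p q : ℕ} (hp : p.Prime) (hqp : q ≠ p) :
    Nat.Coprime (lc33_p0 p q + 1) p := by
  unfold lc33_p0
  split_ifs with h
  · -- `p0 = 3`, degree `4`, and `p ≠ 2`
    have hp2 : p ≠ 2 := by
      rcases h with h | h
      · exact fun h' => hqp (h.trans h'.symm)
      · rw [h.2]; decide
    have h2 : Nat.Coprime 2 p := (Nat.coprime_primes Nat.prime_two hp).mpr (Ne.symm hp2)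
    exact Nat.Coprime.pow_left 2 h2
  · -- `p0 = 2`, degree `3`, and `p ≠ 3`
    have hp3 : p ≠ 3 := by
      intro h'
      apply h
      by_cases hq3 : q = 3
      · exact absurd (hq3.trans h'.symm) hqp
      · exact Or.inr ⟨hq3, h'⟩
    exact (Nat.coprime_primes Nat.prime_three hp).mpr (Ne.symm hp3)

/-- The auxiliary level `M = lcm(N, p0)` (`= q · lcm(N / q, p0)` when `q ∣ N`). -/
def lc33_M (N p q : ℕ) : ℕ := Nat.lcm N (lc33_p0 p q)

theorem lc33_M_ne_zero (N p q : ℕ) [NeZero N] : lc33_M N p q ≠ 0 :=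
  Nat.lcm_ne_zero (NeZero.ne N) (lc33_p0_prime p q).ne_zero

instance lc33_M_neZero (N p q : ℕ) [NeZero N] : NeZero (lc33_M N p q) :=
  ⟨lc33_M_ne_zero N p q⟩

theorem lc33_dvd_M (N p q : ℕ) : N ∣ lc33_M N p q := Nat.dvd_lcm_left _ _

theorem lc33_p0_dvd_M (N p q : ℕ) : lc33_p0 p q ∣ lc33_M N p q := Nat.dvd_lcm_right _ _

theorem lc33_M_eq (N p q : ℕ) :
    lc33_M N p q = if lc33_p0 p q ∣ N then N else N * lc33_p0 p q := by
  unfold lc33_M
  split_ifs with h
  · exact Nat.lcm_eq_left h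
  · exact ((Nat.Prime.coprime_iff_not_dvd (lc33_p0_prime p q)).mpr h).symm.lcm_eq_mul

theorem lc33_M_dvd_mul (N p q : ℕ) : lc33_M N p q ∣ N * lc33_p0 p q :=
  Nat.lcm_dvd (dvd_mul_right _ _) (dvd_mul_left _ _)

/-- `q ∣ M` when `q ∣ N`. -/
theorem lc33_q_dvd_M {N q : ℕ} (p : ℕ) (hqN : q ∣ N) : q ∣ lc33_M N p q :=
  hqN.trans (lc33_dvd_M N p q)

/-- `q² ∤ M` when `q² ∤ N` (`q` prime). -/
theorem lc33_q_sq_not_dvd_M {N q : ℕ} (p : ℕ) (hq : q.Prime) (hq2 : ¬ q ^ 2 ∣ N) :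
    ¬ q ^ 2 ∣ lc33_M N p q := by
  intro h
  have h1 : q ^ 2 ∣ N * lc33_p0 p q := h.trans (lc33_M_dvd_mul N p q)
  have hcop : Nat.Coprime (q ^ 2) (lc33_p0 p q) :=
    Nat.Coprime.pow_left 2 ((Nat.coprime_primes hq (lc33_p0_prime p q)).mpr
      (Ne.symm (lc33_p0_ne p q)))
  exact hq2 (hcop.dvd_of_dvd_mul_right h1)

/-- The degree of the auxiliary level over level `N` is prime to `p`. -/
theorem lc33_M_coprime (N : ℕ) [NeZero N] {p q : ℕ} (hp : p.Prime) (hqp : q ≠ p) :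
    Nat.Coprime (dedekindPsi (lc33_M N p q) / dedekindPsi N) p := by
  rw [lc33_M_eq]
  split_ifs with h
  · rw [lc33_psi_self]
    exact Nat.coprime_one_left p
  · rw [lc33_psi_mul_prime N (lc33_p0_prime p q) h]
    exact lc33_p0_coprime hp hqp

end lc33_level

/-! ### Main statements -/

section lc33_main

variable {N : ℕ} [NeZero N] {p q : ℕ}

/-- **P0, explicit auxiliary level**: `(U)` at level `M = lcm(N, p0)` gives `(U)` at level `N`
(`p0 = lc33_p0 p q ∈ {2, 3}`, `p0 ≠ q`, `q ≠ p`). -/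
theorem lc33_U_of_M (hp : p.Prime) (hqp : q ≠ p) (hU : lc33_U p q (lc33_M N p q)) :
    lc33_U p q N :=
  lc33_U_of_dvd (lc33_dvd_M N p q) q (lc33_M_coprime N hp hqp) hU

/-- **P0, main form**: `(U)` at level `N` with `q ∥ N`, `q ≠ p`, from `(U)` at every level `M`
divisible by a prime `p0 ∈ {2, 3}`, `p0 ≠ q`, with `q ∥ M`. -/
theorem lc33_main (hp : p.Prime) (hq : q.Prime) (hqp : q ≠ p) (hqN : q ∣ N)
    (hq2 : ¬ q ^ 2 ∣ N)
    (hUM : ∀ (M p0 : ℕ) [NeZero M], p0.Prime → (p0 = 2 ∨ p0 = 3) → p0 ≠ q → p0 ∣ M → q ∣ M →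
      ¬ q ^ 2 ∣ M → N ∣ M →
      ∀ (n : ℕ) (P : ValuationSubring Qb), P.LiesOverPrime q →
        ∀ t ∈ P.inertiaSubgroupIn ℚ, ∀ x : JZero M, (p ^ n) • x = 0 →
          t • t • x - t • x - t • x + x = 0) :
    ∀ (n : ℕ) (P : ValuationSubring Qb), P.LiesOverPrime q →
      ∀ t ∈ P.inertiaSubgroupIn ℚ, ∀ x : JZero N, (p ^ n) • x = 0 →
        t • t • x - t • x - t • x + x = 0 :=
  lc33_U_of_M hp hqp
    (hUM (lc33_M N p q) (lc33_p0 p q) (lc33_p0_prime p q) (lc33_p0_eq p q) (lc33_p0_ne p q)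
      (lc33_p0_dvd_M N p q) (lc33_q_dvd_M p hqN) (lc33_q_sq_not_dvd_M p hq hq2)
      (lc33_dvd_M N p q))

/-- Transport of `(U)` along an equality of levels. -/
theorem lc33_U_congr {M₁ M₂ : ℕ} [NeZero M₁] [NeZero M₂] (h : M₁ = M₂) (p q : ℕ)
    (hU : lc33_U p q M₁) : lc33_U p q M₂ := by
  subst h
  exact hU

/-- The auxiliary level in the shape `q * M'`: for `N = q * N'` with `q ∤ N'`,
`lcm(N, p0) = q * lcm(N', p0)`. -/
theorem lc33_M_eq_mul {N' : ℕ} (p : ℕ) {q : ℕ} (hq : q.Prime) :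
    lc33_M (q * N') p q = q * Nat.lcm N' (lc33_p0 p q) := by
  have hp0 := lc33_p0_prime p q
  have hne := lc33_p0_ne p q
  have hcop : Nat.Coprime (lc33_p0 p q) q := (Nat.coprime_primes hp0 hq).mpr hne
  unfold lc33_M
  by_cases h : lc33_p0 p q ∣ N'
  · rw [Nat.lcm_eq_left h, Nat.lcm_eq_left (h.trans (dvd_mul_left N' q))]
  · have h' : ¬ lc33_p0 p q ∣ q * N' := fun hd => h (hcop.dvd_of_dvd_mul_left hd)
    rw [((Nat.Prime.coprime_iff_not_dvd hp0).mpr h).symm.lcm_eq_mul,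
      ((Nat.Prime.coprime_iff_not_dvd hp0).mpr h').symm.lcm_eq_mul, mul_assoc]

/-- **P0, main form with the auxiliary level written `q * M'`**: `(U)` at level `N` with
`q ∥ N`, `q ≠ p`, from `(U)` at every level `q * M'` with `q ∤ M'` and `p0 ∣ M'` for a prime
`p0 ∈ {2, 3}`, `p0 ≠ q`. -/
theorem lc33_main_mul (hp : p.Prime) (hq : q.Prime) (hqp : q ≠ p) (hqN : q ∣ N)
    (hq2 : ¬ q ^ 2 ∣ N)
    (hUM : ∀ (M' p0 : ℕ) [NeZero M'] [NeZero (q * M')], p0.Prime → (p0 = 2 ∨ p0 = 3) →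
      p0 ≠ q → p0 ∣ M' → ¬ q ∣ M' → N ∣ q * M' →
      ∀ (n : ℕ) (P : ValuationSubring Qb), P.LiesOverPrime q →
        ∀ t ∈ P.inertiaSubgroupIn ℚ, ∀ x : JZero (q * M'), (p ^ n) • x = 0 →
          t • t • x - t • x - t • x + x = 0) :
    ∀ (n : ℕ) (P : ValuationSubring Qb), P.LiesOverPrime q →
      ∀ t ∈ P.inertiaSubgroupIn ℚ, ∀ x : JZero N, (p ^ n) • x = 0 →
        t • t • x - t • x - t • x + x = 0 := by
  obtain ⟨N', hN'⟩ := hqN
  have hN'0 : N' ≠ 0 := by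
    rintro rfl
    exact NeZero.ne N (by rw [hN', mul_zero])
  have hqN' : ¬ q ∣ N' := by
    rintro ⟨c, rfl⟩
    exact hq2 ⟨c, by rw [hN']; ring⟩
  have hp0 := lc33_p0_prime p q
  have hne := lc33_p0_ne p q
  have hM'0 : Nat.lcm N' (lc33_p0 p q) ≠ 0 := Nat.lcm_ne_zero hN'0 hp0.ne_zero
  haveI : NeZero (Nat.lcm N' (lc33_p0 p q)) := ⟨hM'0⟩
  haveI : NeZero (q * Nat.lcm N' (lc33_p0 p q)) := ⟨mul_ne_zero hq.ne_zero hM'0⟩
  have hqM' : ¬ q ∣ Nat.lcm N' (lc33_p0 p q) := by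
    intro hd
    have h1 : q ∣ N' * lc33_p0 p q :=
      hd.trans (Nat.lcm_dvd (dvd_mul_right _ _) (dvd_mul_left _ _))
    rcases (Nat.Prime.dvd_mul hq).mp h1 with h2 | h2
    · exact hqN' h2
    · exact hne ((Nat.prime_dvd_prime_iff_eq hq hp0).mp h2).symm
  have hEq : lc33_M N p q = q * Nat.lcm N' (lc33_p0 p q) := by
    rw [hN']
    exact lc33_M_eq_mul p hq
  have hNM : N ∣ q * Nat.lcm N' (lc33_p0 p q) := by
    rw [← hEq]
    exact lc33_dvd_M N p q
  have hU' : lc33_U p q (q * Nat.lcm N' (lc33_p0 p q)) :=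
    hUM (Nat.lcm N' (lc33_p0 p q)) (lc33_p0 p q) hp0 (lc33_p0_eq p q) hne
      (Nat.dvd_lcm_right _ _) hqM' hNM
  exact lc33_U_of_M hp hqp (lc33_U_congr hEq.symm p q hU')

end lc33_main

end Fermat.Agent.S34
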