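import Fermat.Agent.S31.Endgame60
import Fermat.Prelude.Def_GaloisRep_LocalConditions

/-!
# S34 endgame in hypothesis form (helper60)

`s34e60_main` : in a Hecke-Galois datum the representation has unipotent inertia at `q ≠ p`,
**provided** the following input `(U)` holds for the Jacobian `JZero N`:

  for every `n`, every inertia element `t` at `q` and every class `x` killed by `p ^ n`,
  `t • t • x - t • x - t • x + x = 0`, i.e. `(t - 1)² = 0` on the `p ^ n`-torsion.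

The proof follows the S31 endgame: for `t` in an inertia group at `q` and a number field `F`
choose a Frobenius element `τ` at `ℓ ∉ S` with `t = τ ^ j` on `F`; then
`V_j(T_ℓ, ℓ) = t + ℓ ^ j t⁻¹ = t + t⁻¹ = 2` on the `p ^ n`-torsion classes in the image of the
lattice, so `V_j(T_ℓ, ℓ) - 2 ∈ p ^ k 𝕋`, so `tr ρ(t) = 2`; and `det ρ(t) = lim ℓ ^ j = 1`.
-/

set_option autoImplicit false
set_option linter.style.haveILetI false

namespace Fermat.Agent.S34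

open ModularCurve ModularCurve.Period CongruenceSubgroup Fermat.Agent.S42 Fermat.Agent.S31
open Polynomial

local notation "Qb" => AlgebraicClosure ℚ
local notation "GQ" => AlgebraicClosure ℚ ≃ₐ[ℚ] AlgebraicClosure ℚ

/-! ### The abstract Jacobian-side identity -/

/-- If `t = τ ^ j` on `θ c` and `t⁻¹ θ c`, `d ^ j ≡ 1` modulo `m`, and `(t - 1)² = 0` on the
classes killed by `m`, then `θ (V_j(T_L, d) c - 2 c) = 0`. -/
theorem s34e60_theta_two {G L J : Type*} [Group G] [AddCommGroup L] [AddCommGroup J]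
    [DistribMulAction G J] (θ : L →+ J) (m : ℕ)
    (TL : Module.End ℤ L) (TJ : Module.End ℤ J)
    (hh : ∀ x, TJ (θ x) = θ (TL x))
    (τ t : G) (d j : ℕ)
    (hf : ∀ x : J, m • x = 0 → τ • τ • x - TJ (τ • x) + d • x = 0)
    (hU : ∀ x : J, m • x = 0 → t • t • x - t • x - t • x + x = 0)
    (hmod : d ^ j ≡ 1 [MOD m])
    (c : L) (hc : m • θ c = 0)
    (hg : t • θ c = τ ^ j • θ c) (hg' : t⁻¹ • θ c = (τ ^ j)⁻¹ • θ c) :
    θ (s31j1_V TL d j c - (2 : ℤ) • c) = 0 := by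
  have hy : m • (t⁻¹ • θ c) = 0 := by rw [smul_comm m t⁻¹ (θ c), hc, smul_zero]
  have e₁ : θ (s31j1_V TL d j c) = t • θ c + d ^ j • t⁻¹ • θ c := by
    rw [← s31j1_V_transfer θ TL TJ hh,
      s31j1_V_powsum τ TJ d m (s31j1_hecke_of_frob τ TJ d m hf) j (θ c) hc, hg, hg']
  have e₂ := hU (t⁻¹ • θ c) hy
  rw [smul_inv_smul] at e₂
  have e₃ : d ^ j • t⁻¹ • θ c = t⁻¹ • θ c := by
    have h := s31j1_smul_congr hmod _ hy
    rwa [one_smul] at h
  rw [map_sub, e₁, e₃, map_zsmul, two_smul, ← e₂]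
  abel

/-! ### The concrete Jacobian side -/

section Concrete

variable (N : ℕ) [NeZero N]

/-- The Jacobian side: for `θ : Hom_par(Γ₀(N), ℤ) → JZero N` killed by `p ^ n`, with kernel
inside `p ^ n L` and Hecke-equivariant at the primes `ℓ ∤ N p`, and `t` in an inertia group at
`q ≠ p` with `(t - 1)² = 0` on the `p ^ n`-torsion: there is a Frobenius element `τ` at `ℓ ∉ S`
with `t = τ ^ j` on `F`, `ℓ ^ j ≡ 1` modulo `p ^ n`, and `V_j(T_ℓ, ℓ) - 2` maps `L` into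
`p ^ n L`. -/
theorem s34e60_delta {p : ℕ} (hp : p.Prime) (n : ℕ)
    (θ : ↥(parabolicHoms ℤ (Gamma0 N) ℤ) →+ JZero N)
    (htors : ∀ x, (p ^ n) • θ x = 0)
    (hker : ∀ x, θ x = 0 → ∃ y, x = (p ^ n) • y)
    (hhec : ∀ ℓ : {ℓ : ℕ // ℓ.Prime ∧ ¬ ℓ ∣ N}, (ℓ : ℕ) ≠ p → ∀ x,
      heckeOperatorBar N ⟨ℓ, ℓ.2.1⟩ (θ x) = θ (m9e54_TL N ℓ x))
    {q : ℕ} (hq : q.Prime) (hqp : q ≠ p)
    (P : ValuationSubring Qb) (hP : P.LiesOverPrime q) (t : GQ)
    (ht : t ∈ P.inertiaSubgroupIn ℚ)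
    (hU : ∀ x : JZero N, (p ^ n) • x = 0 → t • t • x - t • x - t • x + x = 0)
    (F : IntermediateField ℚ Qb) [FiniteDimensional ℚ F] (S : Finset ℕ) (hpS : p ∈ S)
    (hNS : ∀ r : ℕ, r.Prime → r ∣ N → r ∈ S) :
    ∃ (ℓ : {ℓ : ℕ // ℓ.Prime ∧ ¬ ℓ ∣ N}) (A : ValuationSubring Qb) (τ : GQ) (j : ℕ),
      (ℓ : ℕ) ∉ S ∧ A.LiesOverPrime ℓ ∧ A.IsFrobeniusAt τ ℓ ∧
      (∀ x ∈ F, t x = (τ ^ j) x) ∧ (ℓ : ℕ) ^ j ≡ 1 [MOD p ^ n] ∧
      ∀ x, ∃ y, s31j1_V (m9e54_TL N ℓ) ℓ j x - (2 : ℤ) • x = (p ^ n) • y := by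
  classical
  have hm : 0 < p ^ n := pow_pos hp.pos n
  haveI : Module.Finite ℤ ↥(parabolicHoms ℤ (Gamma0 N) ℤ) :=
    Module.Finite.iff_fg.mpr (m9e54_fg N)
  obtain ⟨s, hs⟩ :=
    (Module.Finite.fg_top : (⊤ : Submodule ℤ ↥(parabolicHoms ℤ (Gamma0 N) ℤ)).FG)
  set tset : Finset (JZero N) :=
    s.image (fun c => θ c) ∪ s.image (fun c => t⁻¹ • θ c) with htset
  obtain ⟨F₁, hF₁fin, hF₁⟩ := os25_open_stab_finset N tset
  obtain ⟨F₂, hF₂fin, hF₂⟩ := ru58_exists_level (p ^ n) hm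
  haveI := hF₁fin
  haveI := hF₂fin
  obtain ⟨ℓ, A, τ, j, hℓ, hℓS, hA, hτ, h₁⟩ := fp37_frob_pow_field (F ⊔ F₁ ⊔ F₂) t S
  have hℓN : ¬ ℓ ∣ N := fun h => hℓS (hNS ℓ hℓ h)
  have hℓp : ℓ ≠ p := fun h => hℓS (h ▸ hpS)
  have hF : F ≤ F ⊔ F₁ ⊔ F₂ := le_sup_of_le_left le_sup_left
  have hF₁le : F₁ ≤ F ⊔ F₁ ⊔ F₂ := le_sup_of_le_left le_sup_right
  have hF₂le : F₂ ≤ F ⊔ F₁ ⊔ F₂ := le_sup_right
  have hcop : Nat.Coprime ℓ (p ^ n) :=
    Nat.Coprime.pow_right n ((Nat.coprime_primes hℓ hp).mpr hℓp)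
  have hcopq : Nat.Coprime q (p ^ n) :=
    Nat.Coprime.pow_right n ((Nat.coprime_primes hq hp).mpr hqp)
  have hmod : ℓ ^ j ≡ 1 [MOD p ^ n] := by
    obtain ⟨ζ, hζ⟩ := ru58_exists_primitiveRoot (p ^ n) hm
    have hz := hζ.pow_eq_one
    have k1 : t ζ = ζ := ru58_inertia P hP t ht hm hcopq ζ hz
    have k2 : t ζ = ζ ^ (ℓ ^ j) := by
      rw [h₁ ζ (hF₂le (hF₂ ζ hz)), ru58_frob_pow A hA τ hτ hm hcop j ζ hz]
    refine (ru58_pow_eq_pow_iff hm hζ _ _).mp ?_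
    rw [pow_one, ← k2, k1]
  refine ⟨⟨ℓ, hℓ, hℓN⟩, A, τ, j, hℓS, hA, hτ, fun x hx => h₁ x (hF hx), hmod, ?_⟩
  have hnp : ¬ ℓ ∣ p := fun h => hℓp ((Nat.prime_dvd_prime_iff_eq hℓ hp).mp h)
  have hf : ∀ x : JZero N, (p ^ n) • x = 0 →
      τ • τ • x - heckeOperatorBar N ⟨ℓ, hℓ⟩ (τ • x) + ℓ • x = 0 :=
    fun x hx => fi69_frob N p ℓ hℓ hℓN hnp A hA τ hτ x n hx
  have stab : ∀ x ∈ tset, ∀ σ : GQ, (∀ a ∈ F₁, σ a = a) → σ • x = x :=
    fun x hx σ hσ => hF₁ σ hσ x hx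
  have key : ∀ c ∈ s, θ (s31j1_V (m9e54_TL N ⟨ℓ, hℓ, hℓN⟩) ℓ j c - (2 : ℤ) • c) = 0 := by
    intro c hc
    have hx1 : θ c ∈ tset := by
      rw [htset]
      exact Finset.mem_union_left _ (Finset.mem_image_of_mem _ hc)
    have hx2 : t⁻¹ • θ c ∈ tset := by
      rw [htset]
      exact Finset.mem_union_right _ (Finset.mem_image_of_mem (fun c => t⁻¹ • θ c) hc)
    have a1 : t • θ c = τ ^ j • θ c :=
      s31j1_smul_eq_of_agree (J := JZero N) F₁ (θ c) (stab _ hx1) t (τ ^ j)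
        (fun a ha => h₁ a (hF₁le ha))
    have a1' : t • (t⁻¹ • θ c) = τ ^ j • (t⁻¹ • θ c) :=
      s31j1_smul_eq_of_agree (J := JZero N) F₁ (t⁻¹ • θ c) (stab _ hx2) t (τ ^ j)
        (fun a ha => h₁ a (hF₁le ha))
    have b1 : t⁻¹ • θ c = (τ ^ j)⁻¹ • θ c := by
      rw [smul_inv_smul] at a1'
      exact eq_inv_smul_iff.mpr a1'.symm
    exact s34e60_theta_two θ (p ^ n) (m9e54_TL N ⟨ℓ, hℓ, hℓN⟩) (heckeOperatorBar N ⟨ℓ, hℓ⟩)
      (hhec ⟨ℓ, hℓ, hℓN⟩ hℓp) τ t ℓ j hf hU hmod c (htors c) a1 b1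
  have hΦ : θ.toIntLinearMap ∘ₗ (s31j1_V (m9e54_TL N ⟨ℓ, hℓ, hℓN⟩) ℓ j
      - (2 : ℤ) • (1 : Module.End ℤ ↥(parabolicHoms ℤ (Gamma0 N) ℤ))) = 0 := by
    refine LinearMap.ext_on hs (fun c hc => ?_)
    rw [LinearMap.comp_apply, LinearMap.sub_apply, LinearMap.smul_apply, Module.End.one_apply,
      LinearMap.zero_apply]
    exact key c hc
  intro x
  refine hker _ ?_
  have h3 := LinearMap.congr_fun hΦ x
  rw [LinearMap.comp_apply, LinearMap.sub_apply, LinearMap.smul_apply, Module.End.one_apply,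
    LinearMap.zero_apply] at h3
  exact h3

/-- The Jacobian side with the lattice map `Θ` of `thz31_closed_I_Theta_Z` plugged in. -/
theorem s34e60_delta_closed {p : ℕ} (hp : p.Prime) (n : ℕ)
    {q : ℕ} (hq : q.Prime) (hqp : q ≠ p)
    (P : ValuationSubring Qb) (hP : P.LiesOverPrime q) (t : GQ)
    (ht : t ∈ P.inertiaSubgroupIn ℚ)
    (hU : ∀ x : JZero N, (p ^ n) • x = 0 → t • t • x - t • x - t • x + x = 0)
    (F : IntermediateField ℚ Qb) [FiniteDimensional ℚ F] (S : Finset ℕ) (hpS : p ∈ S)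
    (hNS : ∀ r : ℕ, r.Prime → r ∣ N → r ∈ S) :
    ∃ (ℓ : ℕ) (A : ValuationSubring Qb) (τ : GQ) (j : ℕ),
      ℓ.Prime ∧ ¬ ℓ ∣ N ∧ ℓ ∉ S ∧ A.LiesOverPrime ℓ ∧ A.IsFrobeniusAt τ ℓ ∧
      (∀ x ∈ F, t x = (τ ^ j) x) ∧ ℓ ^ j ≡ 1 [MOD p ^ n] ∧
      ∀ x, ∃ y, (aeval (hl42_TL N ℓ) (s31e60_lucV (ℓ : ℤ) j)
        - (2 : ℤ) • (1 : Module.End ℤ ↥(parabolicHoms ℤ (Gamma0 N) ℤ))) x
          = ((p : ℤ) ^ n) • y := by
  haveI : NeZero (p ^ n) := ⟨pow_ne_zero n hp.ne_zero⟩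
  obtain ⟨Θ, h1, h2, h3⟩ := thz31_closed_I_Theta_Z N (p ^ n)
  have htors : ∀ x, (p ^ n) • Θ x = 0 := by
    intro x
    have := h1 x
    rwa [natCast_zsmul] at this
  have hhec : ∀ ℓ : {ℓ : ℕ // ℓ.Prime ∧ ¬ ℓ ∣ N}, (ℓ : ℕ) ≠ p → ∀ x,
      heckeOperatorBar N ⟨ℓ, ℓ.2.1⟩ (Θ x) = Θ (m9e54_TL N ℓ x) := by
    intro ℓ hne x
    have hnd : ¬ (ℓ : ℕ) ∣ N * p ^ n := fun h =>
      (ℓ.2.1.dvd_mul.mp h).elim ℓ.2.2
        (fun h' => hne ((Nat.prime_dvd_prime_iff_eq ℓ.2.1 hp).mp (ℓ.2.1.dvd_of_dvd_pow h')))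
    obtain ⟨hχ, e⟩ := h3 ⟨ℓ, ℓ.2.1⟩ hnd x
    exact e
  obtain ⟨ℓ, A, τ, j, hℓS, hA, hτ, hg, hmod, hdiv⟩ :=
    s34e60_delta N hp n Θ htors h2 hhec hq hqp P hP t ht hU F S hpS hNS
  refine ⟨ℓ, A, τ, j, ℓ.2.1, ℓ.2.2, hℓS, hA, hτ, hg, hmod, fun x => ?_⟩
  obtain ⟨y, hy⟩ := hdiv x
  refine ⟨y, ?_⟩
  rw [LinearMap.sub_apply, LinearMap.smul_apply, Module.End.one_apply, ← s31j1_TL_eq N ℓ,
    ← s31j1_V_eq_aeval, hy, ← Nat.cast_pow, natCast_zsmul]

/-- **The Hecke-algebra congruence behind S34.**  For `S ∋ p` containing the primes of `N`,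
`q ≠ p`, `t` in an inertia group at `q` with `(t - 1)² = 0` on the `p`-power torsion of
`JZero N`, a number field `F` and every `k`: there is a Frobenius element `τ` at `ℓ ∉ S` with
`t = τ ^ j` on `F`, `ℓ ^ j ≡ 1` modulo `p ^ k` and `V_j(T_ℓ, ℓ) - 2 ∈ p ^ k 𝕋`. -/
theorem s34e60_hecke_congr (S : Finset ℕ) {p : ℕ} (hp : p.Prime) (hpS : p ∈ S)
    (hNS : ∀ r : ℕ, r.Prime → r ∣ N → r ∈ S) (k : ℕ)
    {q : ℕ} (hq : q.Prime) (hqp : q ≠ p)
    (P : ValuationSubring Qb) (hP : P.LiesOverPrime q) (t : GQ)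
    (ht : t ∈ P.inertiaSubgroupIn ℚ)
    (hU : ∀ (n : ℕ) (x : JZero N), (p ^ n) • x = 0 → t • t • x - t • x - t • x + x = 0)
    (F : IntermediateField ℚ Qb) [FiniteDimensional ℚ F] :
    ∃ (ℓ : ℕ) (hℓ : ℓ.Prime) (hℓN : ¬ ℓ ∣ N) (hℓS : ℓ ∉ (S : Set ℕ))
      (A : ValuationSubring Qb) (τ : GQ) (j : ℕ),
      A.LiesOverPrime ℓ ∧ A.IsFrobeniusAt τ ℓ ∧ (∀ x ∈ F, t x = (τ ^ j) x) ∧
      ℓ ^ j ≡ 1 [MOD p ^ k] ∧
      ∃ t' : CuspForm.heckeAlgebra N 2 (S : Set ℕ),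
        aeval (CuspForm.heckeAlgebra.T hℓ hℓN hℓS) (s31e60_lucV (ℓ : ℤ) j)
          - (2 : ℤ) • (1 : CuspForm.heckeAlgebra N 2 (S : Set ℕ)) = ((p : ℤ) ^ k) • t' := by
  obtain ⟨c, hc⟩ := hs42_sat_act N (S : Set ℕ) (p : ℤ) (by exact_mod_cast hp.ne_zero)
  obtain ⟨ℓ, A, τ, j, hℓ, hℓN, hℓS, hA, hτ, hg, hmod, hdiv⟩ :=
    s34e60_delta_closed N hp (k + c) hq hqp P hP t ht (hU (k + c)) F S hpS hNS
  have hℓS' : ℓ ∉ (S : Set ℕ) := fun h => hℓS (Finset.mem_coe.mp h)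
  refine ⟨ℓ, hℓ, hℓN, hℓS', A, τ, j, hA, hτ, hg,
    hmod.of_dvd (pow_dvd_pow p (Nat.le_add_right k c)), ?_⟩
  refine hc k _ (fun x => ?_)
  obtain ⟨y, hy⟩ := hdiv x
  refine ⟨y, ?_⟩
  rw [map_sub, s31e60_map_aeval_lucV, hl42_act_T, map_zsmul, map_one]
  exact hy

end Concrete

/-! ### Determinants modulo an ideal -/

/-- An endomorphism that is the identity modulo `I` has determinant `1` modulo `I`. -/
theorem s34e60_det_sub_one_mem {A : Type*} [CommRing A] {V : Type*} [AddCommGroup V]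
    [Module A V] [Module.Free A V] [Module.Finite A V] (I : Ideal A) (f : Module.End A V)
    (hf : ∀ v, f v - v ∈ I • (⊤ : Submodule A V)) : LinearMap.det f - 1 ∈ I := by
  classical
  set b := Module.Free.chooseBasis A V with hb
  have hrepr : ∀ w ∈ I • (⊤ : Submodule A V), ∀ i, b.repr w i ∈ I := by
    intro w hw i
    refine Submodule.smul_induction_on hw ?_ ?_
    · intro a ha v _
      rw [map_smul, Finsupp.smul_apply, smul_eq_mul]
      exact I.mul_mem_right _ ha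
    · intro x y hx hy
      rw [map_add, Finsupp.add_apply]
      exact I.add_mem hx hy
  have hM : (Ideal.Quotient.mk I).mapMatrix (LinearMap.toMatrix b b f) = 1 := by
    ext i j
    rw [RingHom.mapMatrix_apply, Matrix.map_apply, LinearMap.toMatrix_apply, Matrix.one_apply]
    have h1 := hrepr _ (hf (b j)) i
    rw [map_sub, Finsupp.sub_apply, Module.Basis.repr_self, Finsupp.single_apply] at h1
    have h2 := (Ideal.Quotient.eq_zero_iff_mem).mpr h1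
    rw [map_sub, sub_eq_zero] at h2
    rw [h2]
    by_cases hij : j = i
    · rw [if_pos hij, if_pos hij.symm, map_one]
    · rw [if_neg hij, if_neg (fun h => hij h.symm), map_zero]
  have h3 : Ideal.Quotient.mk I (Matrix.det (LinearMap.toMatrix b b f)) = 1 := by
    rw [RingHom.map_det, hM, Matrix.det_one]
  rw [← LinearMap.det_toMatrix b f, ← Ideal.Quotient.eq_zero_iff_mem, map_sub, h3, map_one,
    sub_self]

/-- If `ρ (g⁻¹ h)` is trivial modulo `I`, then `det ρ h ≡ det ρ g` modulo `I`. -/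
theorem s34e60_det_congr {A : Type*} [CommRing A] {V : Type*} [AddCommGroup V] [Module A V]
    [Module.Free A V] [Module.Finite A V] {G : Type*} [Group G] (ρ : G →* Module.End A V)
    (I : Ideal A) (g h : G)
    (hgh : ∀ v, ρ (g⁻¹ * h) v - v ∈ I • (⊤ : Submodule A V)) :
    LinearMap.det (ρ h) - LinearMap.det (ρ g) ∈ I := by
  have h1 := s34e60_det_sub_one_mem I (ρ (g⁻¹ * h)) hgh
  have e : LinearMap.det (ρ h) - LinearMap.det (ρ g)
      = LinearMap.det (ρ g) * (LinearMap.det (ρ (g⁻¹ * h)) - 1) := by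
    rw [mul_sub, mul_one, ← map_mul, ← map_mul, mul_inv_cancel_left]
  rw [e]
  exact I.mul_mem_left _ h1

/-- The characteristic polynomial of an endomorphism of a free module of rank `2`. -/
theorem s34e60_charpoly_rank_two {A : Type*} [CommRing A] [Nontrivial A] {V : Type*}
    [AddCommGroup V] [Module A V] [Module.Free A V] [Module.Finite A V]
    (hV : Module.finrank A V = 2) (f : Module.End A V) :
    LinearMap.charpoly f = X ^ 2 - C (LinearMap.trace A V f) * X + C (LinearMap.det f) := by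
  classical
  set b : Module.Basis (Fin 2) A V := Module.finBasisOfFinrankEq A V hV with hb
  rw [← LinearMap.charpoly_toMatrix f b, Matrix.charpoly_fin_two,
    LinearMap.trace_eq_matrix_trace A b f, ← LinearMap.det_toMatrix b f]

/-- The determinant from a characteristic polynomial `X² - a X + d` in rank `2`. -/
theorem s34e60_det_of_charpoly {A : Type*} [CommRing A] [Nontrivial A] {V : Type*}
    [AddCommGroup V] [Module A V] [Module.Free A V] [Module.Finite A V]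
    (hV : Module.finrank A V = 2) (f : Module.End A V) (a d : A)
    (h : LinearMap.charpoly f = X ^ 2 - C a * X + C d) : LinearMap.det f = d := by
  have h1 := s34e60_charpoly_rank_two hV f
  rw [h] at h1
  have h2 := congrArg (fun P : A[X] => P.coeff 0) h1
  simp only [coeff_add, coeff_sub, coeff_C_zero, coeff_X_pow, mul_coeff_zero, coeff_X_zero,
    mul_zero] at h2
  simpa using h2.symm

section Main

variable {p : ℕ} {N : ℕ} [NeZero N] {S : Finset ℕ}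
  {𝒪 : Type} [CommRing 𝒪] [IsDomain 𝒪] [IsDiscreteValuationRing 𝒪]
  [IsAdicComplete (IsLocalRing.maximalIdeal 𝒪) 𝒪]
  {θ : CuspForm.heckeAlgebra N 2 (↑S : Set ℕ) →+* IsLocalRing.ResidueField 𝒪}
  {T : Type} [CommRing T] [IsLocalRing T] [IsNoetherianRing T]
  [IsAdicComplete (IsLocalRing.maximalIdeal T) T] [Algebra 𝒪 T] [IsLocalHom (algebraMap 𝒪 T)]
  [Module.Finite 𝒪 T] [Module.Free 𝒪 T]

/-- **S34 in hypothesis form**: a Hecke-Galois datum has unipotent inertia at `q ≠ p`, given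
that `(t - 1)² = 0` on the `p`-power torsion of `JZero N` for the inertia elements `t` at `q`. -/
theorem s34e60_main (hp : p.Prime)
    (hp𝒪 : (p : 𝒪) ∈ IsLocalRing.maximalIdeal 𝒪) (hpS : p ∈ S)
    (hNS : ∀ q : ℕ, q.Prime → q ∣ N → q ∈ S)
    (H : CuspForm.HeckeGaloisRepDatum N (↑S : Set ℕ) 𝒪 θ T)
    (q : ℕ) (hq : q.Prime) (hqp : q ≠ p)
    (hU : ∀ (n : ℕ) (P : ValuationSubring Qb), P.LiesOverPrime q →
      ∀ t ∈ P.inertiaSubgroupIn ℚ, ∀ x : JZero N, (p ^ n) • x = 0 →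
        t • t • x - t • x - t • x + x = 0) :
    H.ρ.IsUnipotentOnInertiaAt q := by
  intro P hP t ht
  -- `p` lies in the maximal ideal of `T`
  have hpT : (p : T) ∈ IsLocalRing.maximalIdeal T := by
    have h1 : (algebraMap 𝒪 T) (p : 𝒪) ∈ IsLocalRing.maximalIdeal T := by
      rw [IsLocalRing.mem_maximalIdeal, mem_nonunits_iff] at hp𝒪 ⊢
      exact fun hu => hp𝒪 (isUnit_of_map_unit (algebraMap 𝒪 T) _ hu)
    rwa [map_natCast] at h1
  -- trace and determinant modulo every power of the maximal ideal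
  have key : ∀ n : ℕ,
      LinearMap.trace T H.ρ.V (H.ρ.ρ t) - 2 ∈ IsLocalRing.maximalIdeal T ^ n ∧
      LinearMap.det (H.ρ.ρ t) - 1 ∈ IsLocalRing.maximalIdeal T ^ n := by
    intro n
    obtain ⟨E, hE, hcont⟩ := H.ρ.isAdicContinuous n
    haveI := hE
    obtain ⟨ℓ, hℓ, hℓN, hℓS, A, τ, j, hA, hτ, hg, hmod, t', ht'⟩ :=
      s34e60_hecke_congr N S hp hpS hNS n hq hqp P hP t ht
        (fun m x hx => hU m P hP t ht x hx) E
    have hfix : ∀ v, H.ρ.ρ (t⁻¹ * τ ^ j) v - v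
        ∈ IsLocalRing.maximalIdeal T ^ n • (⊤ : Submodule T H.ρ.V) :=
      fun v => hcont _ (s31e60_inv_mul_fix E t (τ ^ j) hg) v
    have c1 := s31e60_trace_congr H.ρ.ρ (IsLocalRing.maximalIdeal T ^ n) t (τ ^ j) hfix
    have d1 := s34e60_det_congr H.ρ.ρ (IsLocalRing.maximalIdeal T ^ n) t (τ ^ j) hfix
    rw [s31e60_frob_trace H hℓ hℓN hℓS A hA τ hτ j] at c1
    have c3 : aeval (H.π (CuspForm.heckeAlgebra.T hℓ hℓN hℓS)) (s31e60_lucV (ℓ : ℤ) j) - 2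
        ∈ IsLocalRing.maximalIdeal T ^ n := by
      have h3 := congrArg H.π ht'
      rw [map_sub, s31e60_map_aeval_lucV, map_zsmul, map_one, map_zsmul, zsmul_eq_mul,
        zsmul_eq_mul, Int.cast_pow, Int.cast_natCast, mul_one, Int.cast_ofNat] at h3
      rw [h3]
      exact Ideal.mul_mem_right _ _ (Ideal.pow_mem_pow hpT n)
    have hdet : LinearMap.det (H.ρ.ρ (τ ^ j)) = ((ℓ : ℕ) : T) ^ j := by
      rw [map_pow, map_pow, s34e60_det_of_charpoly H.ρ.finrank_eq _ _ _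
        (H.charpoly_frob ℓ hℓ hℓN hℓS A hA τ hτ)]
    have c4 : ((ℓ : ℕ) : T) ^ j - 1 ∈ IsLocalRing.maximalIdeal T ^ n := by
      obtain ⟨u, hu⟩ := Int.modEq_iff_dvd.mp (Int.natCast_modEq_iff.mpr hmod.symm)
      have h5 : (((ℓ ^ j : ℕ) : ℤ) : T) - ((1 : ℕ) : ℤ) = (((p ^ n : ℕ) : ℤ) : T) * (u : T) := by
        rw [← Int.cast_sub, hu, Int.cast_mul]
      have h6 : ((ℓ : ℕ) : T) ^ j - 1 = (p : T) ^ n * (u : T) := by
        have := h5
        push_cast at this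
        exact this
      rw [h6]
      exact Ideal.mul_mem_right _ _ (Ideal.pow_mem_pow hpT n)
    constructor
    · have e : LinearMap.trace T H.ρ.V (H.ρ.ρ t) - 2
          = (aeval (H.π (CuspForm.heckeAlgebra.T hℓ hℓN hℓS)) (s31e60_lucV (ℓ : ℤ) j) - 2)
            - (aeval (H.π (CuspForm.heckeAlgebra.T hℓ hℓN hℓS)) (s31e60_lucV (ℓ : ℤ) j)
              - LinearMap.trace T H.ρ.V (H.ρ.ρ t)) := by
        ring
      rw [e]
      exact Ideal.sub_mem _ c3 c1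
    · have e : LinearMap.det (H.ρ.ρ t) - 1
          = (((ℓ : ℕ) : T) ^ j - 1)
            - (LinearMap.det (H.ρ.ρ (τ ^ j)) - LinearMap.det (H.ρ.ρ t)) := by
        rw [hdet]
        ring
      rw [e]
      exact Ideal.sub_mem _ c4 d1
  -- separatedness of `T`
  have hH : IsHausdorff (IsLocalRing.maximalIdeal T) T := inferInstance
  have htr : LinearMap.trace T H.ρ.V (H.ρ.ρ t) = 2 :=
    sub_eq_zero.mp (hH.haus' _ (fun n => by
      rw [SModEq.zero, smul_eq_mul, Ideal.mul_top]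
      exact (key n).1))
  have hdet : LinearMap.det (H.ρ.ρ t) = 1 :=
    sub_eq_zero.mp (hH.haus' _ (fun n => by
      rw [SModEq.zero, smul_eq_mul, Ideal.mul_top]
      exact (key n).2))
  rw [s34e60_charpoly_rank_two H.ρ.finrank_eq, htr, hdet, map_one,
    show (C (2 : T) : T[X]) = 2 from map_ofNat C 2]
  ring

end Main

end Fermat.Agent.S34
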