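import Fermat.Agent.S34.Iface47
import Fermat.Agent.S34.GalGlue25
import Fermat.Agent.S34.LevelChange33
import Fermat.Agent.S34.Unip60

/-!
# S34 assembly (helper60): the frozen statement from the interface packages

The top of the assembly, against the interface `Iface47` (helper47):

* `s34a60_U_of_FFU` : the function-field statement `s34i47_FFU M q m` gives `(t - 1)² = 0` on
  the classes of `JZero M` killed by `m` (through `gg25_U_of_fun_sq`, helper25).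
* `s34a60_U_of_FFU_levels` : `(U)` at level `N` (`q ∥ N`, `q ≠ p`) from `s34i47_FFU M q (p ^ n)`
  at the levels `M` with `q ∥ M` and `p₀ ∣ M`, `p₀ ∈ {2, 3}`, `p₀ ≠ q` (level change on `Pic⁰`:
  `lc33_main`, helper33).  So the packages `s34i47_Pkg_Level` and `s34i47_Pkg_Pic` of the
  interface are not needed as separate inputs.
* `s34a60_U_of_pkgs` : `(U)` from the nine remaining packages
  (`UZ`, `LP`, `Krull`, `LD`, `Main`, `Frame`, `Fin`, `Core`, `FieldDef`).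
* `s34a60_result_of_pkgs` : the frozen statement S34 from the same nine packages (endgame
  `s34e60_main`).
-/

set_option autoImplicit false
set_option linter.style.haveILetI false

namespace Fermat.Agent.S34

open ModularCurve AlgebraicCurve

local notation "Qb" => AlgebraicClosure ℚ

/-- `s34i47_FFU M q m` gives `(t - 1)² = 0` on the classes of `JZero M` killed by `m`, for the
inertia elements `t` at `q`. -/
theorem s34a60_U_of_FFU (M q m : ℕ) (hm : 0 < m) (h : s34i47_FFU M q m)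
    (P : ValuationSubring Qb) (hP : P.LiesOverPrime q) (t : Qb ≃ₐ[ℚ] Qb)
    (ht : t ∈ P.inertiaSubgroupIn ℚ) (x : JZero M) (hx : m • x = 0) :
    t • t • x - t • x - t • x + x = 0 := by
  refine gg25_U_of_fun_sq M m hm t (fun f hf hv => ?_) x hx
  obtain ⟨g, hg⟩ := h P hP t ht f hf hv
  refine ⟨g, ?_⟩
  have hσf : arithmeticRingAut (modularFunctionFieldFull M) t f ≠ 0 :=
    (map_ne_zero_iff _ (arithmeticRingAut (modularFunctionFieldFull M) t).injective).mpr hf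
  have e1 : arithmeticGalois (modularFunctionFieldFull M) (t * t) • f
      = arithmeticRingAut (modularFunctionFieldFull M) t
          (arithmeticRingAut (modularFunctionFieldFull M) t f) := by
    rw [map_mul, mul_smul]
    rfl
  have e2 : arithmeticGalois (modularFunctionFieldFull M) t • f
      = arithmeticRingAut (modularFunctionFieldFull M) t f := rfl
  rw [e1, e2, hg, s34i47_dd]
  field_simp

/-- **(U) at level `N` from the function-field statements at the auxiliary levels.**  For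
`q ∥ N`, `q ≠ p`: if `s34i47_FFU M q (p ^ n)` holds for all `n` at every level `M` with `q ∥ M`
divisible by a prime `p₀ ∈ {2, 3}`, `p₀ ≠ q`, then `(U)` holds at level `N`. -/
theorem s34a60_U_of_FFU_levels {N p q : ℕ} [NeZero N] (hp : p.Prime) (hq : q.Prime)
    (hqp : q ≠ p) (hqN : q ∣ N) (hq2 : ¬ q ^ 2 ∣ N)
    (hFFU : ∀ M p₀ : ℕ, NeZero M → (p₀ = 2 ∨ p₀ = 3) → p₀ ≠ q → p₀ ∣ M → q ∣ M → ¬ q ^ 2 ∣ M →
      ∀ n : ℕ, s34i47_FFU M q (p ^ n)) :
    s34i47_U N q p :=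
  lc33_main hp hq hqp hqN hq2
    (fun M p₀ hM _ h23 hp₀q hp₀M hqM hq2M _ n P hP t ht x hx =>
      s34a60_U_of_FFU M q (p ^ n) (pow_pos hp.pos n) (hFFU M p₀ hM h23 hp₀q hp₀M hqM hq2M n)
        P hP t ht x hx)

/-- **(U) from the interface packages**: the nine packages `UZ`, `LP`, `Krull`, `LD`, `Main`,
`Frame`, `Fin`, `Core`, `FieldDef` of `Iface47` give `(U)` at every level `N` with `q ∥ N`,
`q ≠ p`. -/
theorem s34a60_U_of_pkgs (hUZ : s34i47_Pkg_UZ) (hLP : s34i47_Pkg_LP) (hKr : s34i47_Pkg_Krull)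
    (hLD : s34i47_Pkg_LD) (hMain : s34i47_Pkg_Main) (hFrame : s34i47_Pkg_Frame)
    (hFin : s34i47_Pkg_Fin) (hCore : s34i47_Pkg_Core) (hFD : s34i47_Pkg_FieldDef)
    {N p q : ℕ} [NeZero N] (hp : p.Prime) (hq : q.Prime) (hqp : q ≠ p) (hqN : q ∣ N)
    (hq2 : ¬ q ^ 2 ∣ N) : s34i47_U N q p := by
  refine s34a60_U_of_FFU_levels hp hq hqp hqN hq2 ?_
  intro M p₀ hM h23 hp₀q hp₀M hqM hq2M n
  have hcop : Nat.Coprime (p ^ n) q :=
    Nat.Coprime.pow_left n ((Nat.coprime_primes hp hq).mpr (Ne.symm hqp))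
  exact hFD M q (p ^ n) hM hq (pow_pos hp.pos n)
    (hCore hUZ hLP hKr hLD hMain M q (p ^ n) hM hq (pow_pos hp.pos n) hcop
      (hFrame M q p₀ hq hqM hq2M h23 hp₀q hp₀M) (hFin M hM))

section Main

variable {p : ℕ} {N : ℕ} [NeZero N] {S : Finset ℕ}
  {𝒪 : Type} [CommRing 𝒪] [IsDomain 𝒪] [IsDiscreteValuationRing 𝒪]
  [IsAdicComplete (IsLocalRing.maximalIdeal 𝒪) 𝒪]
  {θ : CuspForm.heckeAlgebra N 2 (↑S : Set ℕ) →+* IsLocalRing.ResidueField 𝒪}
  {T : Type} [CommRing T] [IsLocalRing T] [IsNoetherianRing T]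
  [IsAdicComplete (IsLocalRing.maximalIdeal T) T] [Algebra 𝒪 T] [IsLocalHom (algebraMap 𝒪 T)]
  [Module.Finite 𝒪 T] [Module.Free 𝒪 T]

/-- **S34 from the function-field statements**: unipotent inertia at `q ∥ N`, `q ≠ p`, from
`s34i47_FFU M q (p ^ n)` at the levels `M` with `q ∥ M` and `p₀ ∣ M`, `p₀ ∈ {2, 3}`, `p₀ ≠ q`. -/
theorem s34a60_result_of_FFU (hp : p.Prime)
    (hp𝒪 : (p : 𝒪) ∈ IsLocalRing.maximalIdeal 𝒪) (hpS : p ∈ S)
    (hNS : ∀ q : ℕ, q.Prime → q ∣ N → q ∈ S)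
    (H : CuspForm.HeckeGaloisRepDatum N (↑S : Set ℕ) 𝒪 θ T)
    (q : ℕ) (hq : q.Prime) (hqp : q ≠ p) (hqN : q ∣ N) (hq2 : ¬ q ^ 2 ∣ N)
    (hFFU : ∀ M p₀ : ℕ, NeZero M → (p₀ = 2 ∨ p₀ = 3) → p₀ ≠ q → p₀ ∣ M → q ∣ M → ¬ q ^ 2 ∣ M →
      ∀ n : ℕ, s34i47_FFU M q (p ^ n)) :
    H.ρ.IsUnipotentOnInertiaAt q :=
  s34e60_main hp hp𝒪 hpS hNS H q hq hqp (s34a60_U_of_FFU_levels hp hq hqp hqN hq2 hFFU)

/-- **S34 from the interface packages** (`UZ`, `LP`, `Krull`, `LD`, `Main`, `Frame`, `Fin`,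
`Core`, `FieldDef` of `Iface47`). -/
theorem s34a60_result_of_pkgs (hUZ : s34i47_Pkg_UZ) (hLP : s34i47_Pkg_LP)
    (hKr : s34i47_Pkg_Krull) (hLD : s34i47_Pkg_LD) (hMain : s34i47_Pkg_Main)
    (hFrame : s34i47_Pkg_Frame) (hFin : s34i47_Pkg_Fin) (hCore : s34i47_Pkg_Core)
    (hFD : s34i47_Pkg_FieldDef) (hp : p.Prime)
    (hp𝒪 : (p : 𝒪) ∈ IsLocalRing.maximalIdeal 𝒪) (hpS : p ∈ S)
    (hNS : ∀ q : ℕ, q.Prime → q ∣ N → q ∈ S)
    (H : CuspForm.HeckeGaloisRepDatum N (↑S : Set ℕ) 𝒪 θ T)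
    (q : ℕ) (hq : q.Prime) (hqp : q ≠ p) (hqN : q ∣ N) (hq2 : ¬ q ^ 2 ∣ N) :
    H.ρ.IsUnipotentOnInertiaAt q :=
  s34e60_main hp hp𝒪 hpS hNS H q hq hqp
    (s34a60_U_of_pkgs hUZ hLP hKr hLD hMain hFrame hFin hCore hFD hp hq hqp hqN hq2)

end Main

end Fermat.Agent.S34
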