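import Fermat.Agent.S34.Iface47

/-!
# S34 lab, row 501 (helper57): the package `s34i47_Pkg_Core` of the interface

`ca57_core : s34i47_Pkg_Core` — the assembly of the abstract chain of `Iface47` over the frame:

  (UZ) + (LP) + (KR) + (LD) + (Main) + `s34i47_Frame M q` + `s34i47_FinSupp M` ⟹ `s34i47_Core M q m`.

Nothing but modus ponens and four small adapters:

* `ca57_algebraMap_mem`, `ca57_place` : a horizontal valuation ring is a Prelude place of `F / K`;
  `ca57_ord`, `ca57_rat`, `ca57_fin` : the place forms of "orders divisible by `m`", "rational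
  zeros and poles", "finitely many zeros and poles" give the valuation-subring forms
  `s34i47_Ord`, `s34i47_Rat`, `s34i47_Fin`;
* `ca57_chart_map` : a ring automorphism of `F` mapping `R` into `R` and the generators `s` into
  `s` maps the chart `pk15_chart R s` into itself;
* `ca57_dd_cong` : (G1) for `τ` and (G2) for `σ` give `σ(τ f) f / (σ f · τ f) ≡ 1 mod π W`;
* `ca57_frac_inv` : `hfrac` for the chart at `h⁻¹` from `hfrac` for the chart at `h`.

Imports `Iface47` only.  All names are prefixed `ca57_`.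
-/

set_option autoImplicit false

open ModularCurve AlgebraicCurve

namespace Fermat.Agent.S34

open Fermat.Agent.S18

local notation "Q̄" => AlgebraicClosure ℚ

section ca57_places

variable {R K F : Type*} [CommRing R] [IsDomain R] [IsDiscreteValuationRing R] [Field K]
  [Algebra R K] [IsFractionRing R K] [Field F] [Algebra R F] [Algebra K F] [IsScalarTower R K F]

/-- A valuation subring of `F` containing `R` and `π⁻¹` contains `K = Frac R`. -/
theorem ca57_algebraMap_mem {π : R} (hπ : Irreducible π) (O : ValuationSubring F)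
    (hR : ∀ r : R, algebraMap R F r ∈ O) (hπO : (algebraMap R F π)⁻¹ ∈ O) (a : K) :
    algebraMap K F a ∈ O := by
  obtain ⟨r, s, hs, rfl⟩ := IsFractionRing.div_surjective (A := R) a
  have hs0 : s ≠ 0 := nonZeroDivisors.ne_zero hs
  obtain ⟨n, e, rfl⟩ := IsDiscreteValuationRing.eq_unit_mul_pow_irreducible hs0 hπ
  have h1 : algebraMap K F (algebraMap R K r / algebraMap R K (↑e * π ^ n)) =
      algebraMap R F r * (algebraMap R F ((e⁻¹ : Rˣ) : R) * ((algebraMap R F π)⁻¹) ^ n) := by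
    rw [map_div₀, ← IsScalarTower.algebraMap_apply, ← IsScalarTower.algebraMap_apply, map_mul,
      map_pow]
    have he : algebraMap R F (e : R) * algebraMap R F ((e⁻¹ : Rˣ) : R) = 1 := by
      rw [← map_mul, Units.mul_inv, map_one]
    rw [eq_inv_of_mul_eq_one_right he, div_eq_mul_inv, mul_inv, inv_pow]
  rw [h1]
  exact O.mul_mem _ _ (hR r) (O.mul_mem _ _ (hR _) (pow_mem hπO n))

/-- The Prelude place of `F / K` attached to a horizontal valuation ring. -/
def ca57_place {π : R} (hπ : Irreducible π) (O : ValuationSubring F)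
    (hO : s34i47_IsHoriz π O) : Place K F :=
  ⟨O, ca57_algebraMap_mem hπ O hO.2.2.1 hO.2.2.2, hO.1, hO.2.1⟩

theorem ca57_place_toValuationSubring {π : R} (hπ : Irreducible π) (O : ValuationSubring F)
    (hO : s34i47_IsHoriz π O) :
    (ca57_place (K := K) hπ O hO).toValuationSubring = O := rfl

/-- `m ∣ ord_P f` at all places gives the valuation-subring form `s34i47_Ord`. -/
theorem ca57_ord {π : R} (hπ : Irreducible π) (m : ℕ) (f : F) (hf : f ≠ 0)
    (h : ∀ P : Place K F, (m : ℤ) ∣ P.ord f) : s34i47_Ord π m f :=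
  fun O hO => lp7_hord_of_place_dvr π hπ f hf m h O hO.1 hO.2.1 hO.2.2.1 hO.2.2.2

/-- Rationality of the zeros and poles: from the place form to `s34i47_Rat`. -/
theorem ca57_rat {π : R} (hπ : Irreducible π) (f : F)
    (h : ∀ P : Place K F, (f ∈ P.toValuationSubring ∧ f⁻¹ ∈ P.toValuationSubring) ∨
      s34i47_IsRat K P.toValuationSubring) : s34i47_Rat K π f :=
  fun O hO => h (ca57_place hπ O hO)

/-- Finiteness of the zeros and poles: from the place form to `s34i47_Fin`. -/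
theorem ca57_fin {π : R} (hπ : Irreducible π) (f : F)
    (h : {P : Place K F | ¬ (f ∈ P.toValuationSubring ∧
      f⁻¹ ∈ P.toValuationSubring)}.Finite) : s34i47_Fin π f := by
  refine (h.image (fun P : Place K F => P.toValuationSubring)).subset ?_
  rintro O ⟨hO, hnot⟩
  exact ⟨ca57_place hπ O hO, hnot, rfl⟩

end ca57_places

section ca57_charts

variable {R F : Type*} [CommRing R] [Field F] [Algebra R F]

/-- A ring automorphism of `F` which maps `R` into `R` and the set `s` into itself maps the chart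
`pk15_chart R s` (the integral closure of `R[s]` in `F`) into itself. -/
theorem ca57_chart_map (σ : F ≃+* F)
    (hσR : ∀ r : R, ∃ r' : R, σ (algebraMap R F r) = algebraMap R F r')
    (s : Set F) (hσs : ∀ x ∈ s, σ x ∈ s) (x : F) (hx : x ∈ pk15_chart R s) :
    σ x ∈ pk15_chart R s := by
  rw [pk15_mem_chart] at hx ⊢
  have hadj : ∀ y ∈ Algebra.adjoin R s, σ y ∈ Algebra.adjoin R s := by
    intro y hy
    induction hy using Algebra.adjoin_induction with
    | mem y hy => exact Algebra.subset_adjoin (hσs y hy)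
    | algebraMap r =>
      obtain ⟨r', hr'⟩ := hσR r
      rw [hr']
      exact Subalgebra.algebraMap_mem _ r'
    | add y z _ _ hy hz =>
      rw [map_add]
      exact Subalgebra.add_mem _ hy hz
    | mul y z _ _ hy hz =>
      rw [map_mul]
      exact Subalgebra.mul_mem _ hy hz
  obtain ⟨p, hp, hpx⟩ := hx
  let φS : ↥(Algebra.adjoin R s) →+* ↥(Algebra.adjoin R s) :=
    ((σ : F →+* F).comp (algebraMap ↥(Algebra.adjoin R s) F)).codRestrict
      (Algebra.adjoin R s) (fun y => hadj y y.2)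
  have hcomp : (algebraMap ↥(Algebra.adjoin R s) F).comp φS =
      (σ : F →+* F).comp (algebraMap ↥(Algebra.adjoin R s) F) := by
    ext y
    rfl
  refine ⟨p.map φS, hp.map _, ?_⟩
  rw [Polynomial.eval₂_map, hcomp]
  have h1 := Polynomial.hom_eval₂ p (algebraMap ↥(Algebra.adjoin R s) F) (σ : F →+* F) x
  rw [hpx, map_zero] at h1
  exact h1.symm

/-- `hfrac` for the chart at `h⁻¹` from `hfrac` for the chart at `h`. -/
theorem ca57_frac_inv (h : F) (hh0 : h ≠ 0)
    (hfrac : ∀ x : F, ∃ a ∈ pk15_chart R ({h} : Set F), ∃ b ∈ pk15_chart R ({h} : Set F),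
      b ≠ 0 ∧ x * b = a) :
    ∀ x : F, ∃ a ∈ pk15_chart R ({h⁻¹} : Set F), ∃ b ∈ pk15_chart R ({h⁻¹} : Set F),
      b ≠ 0 ∧ x * b = a := by
  intro x
  have h112 : pk15_chart R ({h} : Set F) ≤ pk15_chart R ({h, h⁻¹} : Set F) :=
    pk15_chart_mono (by simp)
  have hh₂ : h⁻¹ ∈ pk15_chart R ({h⁻¹} : Set F) := pk15_subset_chart _ (Set.mem_singleton _)
  obtain ⟨a, ha, b, hb, hb0, hab⟩ := hfrac x
  obtain ⟨k, hk⟩ := pk15_chart_loc' h hh0 a (h112 ha)
  obtain ⟨l, hl⟩ := pk15_chart_loc' h hh0 b (h112 hb)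
  refine ⟨h⁻¹ ^ (k + l) * a, ?_, h⁻¹ ^ (k + l) * b, ?_, ?_, ?_⟩
  · have e : h⁻¹ ^ (k + l) * a = h⁻¹ ^ l * (h⁻¹ ^ k * a) := by rw [pow_add]; ring
    rw [e]
    exact Subalgebra.mul_mem _ (Subalgebra.pow_mem _ hh₂ _) hk
  · have e : h⁻¹ ^ (k + l) * b = h⁻¹ ^ k * (h⁻¹ ^ l * b) := by rw [pow_add]; ring
    rw [e]
    exact Subalgebra.mul_mem _ (Subalgebra.pow_mem _ hh₂ _) hl
  · exact mul_ne_zero (pow_ne_zero _ (inv_ne_zero hh0)) hb0
  · rw [← hab]
    ring

/-- The double difference is `≡ 1 mod π W` as soon as `τ` preserves the valuations (G1) and `σ`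
is trivial on `W / π W` (G2). -/
theorem ca57_dd_cong {π : R} (W : Subring F) (σ τ : F ≃+* F)
    (hσ : s34i47_GalProps π W σ) (hτ : s34i47_GalProps π W τ) (f : F) (hf : f ≠ 0) :
    (algebraMap R F π)⁻¹ * (s34i47_dd σ τ f - 1) ∈ W := by
  have hτf : τ f ≠ 0 := fun h0 => hf ((map_eq_zero_iff τ τ.injective).mp h0)
  have hσf : σ f ≠ 0 := fun h0 => hf ((map_eq_zero_iff σ σ.injective).mp h0)
  have hγW : τ f / f ∈ W := hτ.2.1 f hf
  have hγinvW : (τ f / f)⁻¹ ∈ W := by
    have h := hτ.2.1 f⁻¹ (inv_ne_zero hf)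
    have e : τ f⁻¹ / f⁻¹ = (τ f / f)⁻¹ := by
      rw [map_inv₀, inv_div, div_inv_eq_mul, mul_comm, div_eq_mul_inv]
    rwa [e] at h
  have hG2 := hσ.2.2 (τ f / f) hγW
  have e0 : s34i47_dd σ τ f - 1 = (σ (τ f / f) - τ f / f) * (τ f / f)⁻¹ := by
    rw [s34i47_dd, map_div₀]
    field_simp
  rw [e0, ← mul_assoc]
  exact W.mul_mem hG2 hγinvW

theorem ca57_dd_ne_zero (σ τ : F ≃+* F) (f : F) (hf : f ≠ 0) : s34i47_dd σ τ f ≠ 0 := by
  have hτf : τ f ≠ 0 := fun h0 => hf ((map_eq_zero_iff τ τ.injective).mp h0)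
  have hσf : σ f ≠ 0 := fun h0 => hf ((map_eq_zero_iff σ σ.injective).mp h0)
  have hστf : σ (τ f) ≠ 0 := fun h0 => hτf ((map_eq_zero_iff σ σ.injective).mp h0)
  exact div_ne_zero (mul_ne_zero hστf hf) (mul_ne_zero hσf hτf)

end ca57_charts

/-- **The package `s34i47_Pkg_Core`**: the abstract chain of the interface over the frame. -/
theorem ca57_core : s34i47_Pkg_Core := by
  intro hUZ hLP hKr hLD hMain M q m _ _ hm hmq hFrame hFin
  intro R K instR instD instDVR instK instNF instQ instRK instFR instRF instST π hπ hunit hqR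
    σ τ hσ hτ f hf hord hrat
  obtain ⟨h, W, hW, hC, hLS₁, hLS₂, hGal⟩ := hFrame R K π hπ hunit hqR
  obtain ⟨hGσ, hσh⟩ := hGal σ hσ
  obtain ⟨hGτ, hτh⟩ := hGal τ hτ
  have hC' := hC
  obtain ⟨htr, h12W, hsat₁, hsat₂, -, hN₁, hN₂, hfin, hfrac⟩ := hC'
  have hh0 : h ≠ 0 := by
    rintro rfl
    exact htr isAlgebraic_zero
  have h112 : pk15_chart R ({h} : Set ↥(modularFunctionFieldFullC K M)) ≤
      pk15_chart R ({h, h⁻¹} : Set ↥(modularFunctionFieldFullC K M)) :=
    pk15_chart_mono (by simp)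
  have h212 : pk15_chart R ({h⁻¹} : Set ↥(modularFunctionFieldFullC K M)) ≤
      pk15_chart R ({h, h⁻¹} : Set ↥(modularFunctionFieldFullC K M)) :=
    pk15_chart_mono (by simp)
  have hfrac₂ := ca57_frac_inv (R := R) h hh0 hfrac
  -- the hypotheses on `f` in valuation-subring form
  have hOrd : s34i47_Ord π m f := ca57_ord (K := K) hπ m f hf hord
  have hRat : s34i47_Rat K π f := ca57_rat (K := K) hπ f hrat
  have hFinS : s34i47_Fin π f := ca57_fin (K := K) hπ f (hFin K f hf)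
  -- (UZ), (LP), (KR) on both charts
  have hUZ₁ := hUZ R K ↥(modularFunctionFieldFullC K M) π hπ _ hN₁ hfrac hLS₁
  have hUZ₂ := hUZ R K ↥(modularFunctionFieldFullC K M) π hπ _ hN₂ hfrac₂ hLS₂
  have hLP₁ := hLP R K ↥(modularFunctionFieldFullC K M) π hπ _ m hm f hf hUZ₁ hOrd hRat hFinS
  have hLP₂ := hLP R K ↥(modularFunctionFieldFullC K M) π hπ _ m hm f hf hUZ₂ hOrd hRat hFinS
  obtain ⟨hKr₁, hKr₂⟩ :=
    hKr R K ↥(modularFunctionFieldFullC K M) π hπ h htr hN₁ hN₂ hfin hfrac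
  -- the charts are stable under the two automorphisms
  have hs₁ : ∀ ρ : ↥(modularFunctionFieldFullC K M) ≃+* ↥(modularFunctionFieldFullC K M),
      ρ h = h → ∀ x ∈ ({h} : Set ↥(modularFunctionFieldFullC K M)),
        ρ x ∈ ({h} : Set ↥(modularFunctionFieldFullC K M)) := by
    intro ρ hρ x hx
    rw [Set.mem_singleton_iff] at hx ⊢
    rw [hx, hρ]
  have hs₂ : ∀ ρ : ↥(modularFunctionFieldFullC K M) ≃+* ↥(modularFunctionFieldFullC K M),
      ρ h = h → ∀ x ∈ ({h⁻¹} : Set ↥(modularFunctionFieldFullC K M)),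
        ρ x ∈ ({h⁻¹} : Set ↥(modularFunctionFieldFullC K M)) := by
    intro ρ hρ x hx
    rw [Set.mem_singleton_iff] at hx ⊢
    rw [hx, map_inv₀, hρ]
  have hσB₁ := ca57_chart_map (s34i47_coeffEquiv σ M) hGσ.1 _ (hs₁ _ hσh)
  have hτB₁ := ca57_chart_map (s34i47_coeffEquiv τ M) hGτ.1 _ (hs₁ _ hτh)
  have hσB₂ := ca57_chart_map (s34i47_coeffEquiv σ M) hGσ.1 _ (hs₂ _ hσh)
  have hτB₂ := ca57_chart_map (s34i47_coeffEquiv τ M) hGτ.1 _ (hs₂ _ hτh)
  -- the local datum on both charts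
  have hLD₁ := hLD R K ↥(modularFunctionFieldFullC K M) π hπ m hm W _
    (s34i47_coeffEquiv σ M) (s34i47_coeffEquiv τ M) f hf hW.1
    (fun x hx => h12W x (h112 hx)) hsat₁ hGσ hGτ hσB₁ hτB₁ hKr₁ hLP₁
  have hLD₂ := hLD R K ↥(modularFunctionFieldFullC K M) π hπ m hm W _
    (s34i47_coeffEquiv σ M) (s34i47_coeffEquiv τ M) f hf hW.1
    (fun x hx => h12W x (h212 hx)) hsat₂ hGσ hGτ hσB₂ hτB₂ hKr₂ hLP₂
  -- the nodal two-chart lemma
  have hu := ca57_dd_cong W (s34i47_coeffEquiv σ M) (s34i47_coeffEquiv τ M) hGσ hGτ f hf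
  obtain ⟨f₀, c, hf₀, hfc⟩ := hMain R K ↥(modularFunctionFieldFullC K M) π hπ m hm
    (hunit m hmq) (cap87_algClosed_in (modularFunctionFieldFullC K M)) W h hW hC _ hu hLD₁ hLD₂
  refine ⟨f₀, algebraMap R K c, hf₀, ?_, ?_⟩
  · intro h0
    have h1 : f₀ ^ m * s34i47_dd (s34i47_coeffEquiv σ M) (s34i47_coeffEquiv τ M) f = 0 := by
      rw [hfc, IsScalarTower.algebraMap_apply R K ↥(modularFunctionFieldFullC K M), h0, map_zero]
    rcases mul_eq_zero.mp h1 with h2 | h2
    · exact hf₀ (pow_eq_zero_iff (Nat.pos_iff_ne_zero.mp hm) |>.mp h2)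
    · exact ca57_dd_ne_zero _ _ f hf h2
  · rw [hfc, IsScalarTower.algebraMap_apply R K ↥(modularFunctionFieldFullC K M)]

end Fermat.Agent.S34
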