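import Mathlib
import Fermat.Agent.S18.Pack15
import Fermat.Agent.S18.FieldDef27
import Fermat.Prelude.Def_ModularCurve_ArithmeticGalois
import Fermat.Prelude.Def_FLTPrelim_Ramification

/-!
# S34 lab: the interface (helper47, architect)

Goal `(U)`: for `q ∥ N`, `q ≠ p`, every inertia element `t` at `q` satisfies `(t - 1)^2 = 0` on
`J₀(N)[p^n]` (`s34i47_U`, literally the hypothesis `hU` of `s34e60_main`, helper60).

Every package proves ONE implication between the `Prop`s below (the list of package theorems is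
at the end of this file, as `s34i47_Pkg_*`).  No package needs another package's proof, only its
`Prop`.  Assembly is modus ponens.

## Layers

* abstract (Mathlib + `pk15_chart`): `s34i47_LocStr` (coordinates at the closed points of the
  special fibre) ⟹ `s34i47_UniqueZero` ⟹ `s34i47_LocPrin` ⟹ (with `s34i47_Krull` and the Galois
  hypotheses `s34i47_GalProps`) `s34i47_LocalDatum` ⟹ (nodal two-chart lemma `ntc47_main`)
  `f₀ ^ m * u = c`.
* concrete: `s34i47_Frame M q` (the two valuations, the charts, the local structure, the Galois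
  hypotheses; level `M = q M'`, over every number field) ⟹ `s34i47_Core M q m` ⟹ `s34i47_FFU M q m`
  (function field over `ℚ̄`) ⟹ level change ⟹ `s34i47_FFU N q m` ⟹ `s34i47_U N q p`.
-/

set_option autoImplicit false

open ModularCurve AlgebraicCurve

namespace Fermat.Agent.S34

open Fermat.Agent.S18

local notation "Q̄" => AlgebraicClosure ℚ

/-! ## 0. Definitions -/

/-- The double difference `Φ_{σ,τ}(f) = σ(τ f) f / (σ f · τ f)`. -/
def s34i47_dd {F : Type*} [Field F] (σ τ : F ≃+* F) (f : F) : F :=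
  σ (τ f) * f / (σ f * τ f)

/-- `O` is a *horizontal* discrete valuation ring of `F` over `R`: `O ≠ ⊤`, principal, contains
`R` and `π⁻¹` (hence the fraction field of `R`).  These are the places of `F` over `Frac R`. -/
def s34i47_IsHoriz {R F : Type*} [CommRing R] [Field F] [Algebra R F] (π : R)
    (O : ValuationSubring F) : Prop :=
  O ≠ ⊤ ∧ IsPrincipalIdealRing O ∧ (∀ r : R, algebraMap R F r ∈ O) ∧ (algebraMap R F π)⁻¹ ∈ O

/-- `O` passes *through* the prime `n` of the chart `B`: `B ⊆ O` and the centre of `O` on `B` is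
contained in `n`. -/
def s34i47_Through {R F : Type*} [CommRing R] [Field F] [Algebra R F] (B : Subalgebra R F)
    (n : Ideal B) (O : ValuationSubring F) : Prop :=
  (∀ x ∈ B, x ∈ O) ∧ ∀ x : B, x ∉ n → (x : F)⁻¹ ∈ O

/-- `O` is `K`-rational: every element of `O` is congruent to a constant modulo the maximal
ideal of `O`. -/
def s34i47_IsRat (K : Type*) {F : Type*} [Field K] [Field F] [Algebra K F]
    (O : ValuationSubring F) : Prop :=
  ∀ x ∈ O, ∃ c : K, x = algebraMap K F c ∨ (x - algebraMap K F c)⁻¹ ∉ O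

/-- The coefficientwise map `F_{K₁}(M) → F_{K₂}(M)` induced by a ring homomorphism of the
constant fields. -/
noncomputable def s34i47_coeffHom {K1 K2 : Type*} [Field K1] [Field K2] (φ : K1 →+* K2) (M : ℕ) :
    ↥(modularFunctionFieldFullC K1 M) →+* ↥(modularFunctionFieldFullC K2 M) :=
  ((coeffMap φ).comp (modularFunctionFieldFullC K1 M).toSubring.subtype).codRestrict
    (modularFunctionFieldFullC K2 M).toSubring fun x => fd27_coeffMap_mem φ M x.2

@[simp]
theorem s34i47_coeffHom_coe {K1 K2 : Type*} [Field K1] [Field K2] (φ : K1 →+* K2) (M : ℕ)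
    (x : ↥(modularFunctionFieldFullC K1 M)) :
    ((s34i47_coeffHom φ M x : ↥(modularFunctionFieldFullC K2 M)) : LaurentSeries K2) =
      coeffMap φ (x : LaurentSeries K1) := rfl

/-- The coefficientwise automorphism of `F_K(M)` induced by an automorphism of `K`. -/
noncomputable def s34i47_coeffEquiv {K : Type*} [Field K] (σ : K ≃+* K) (M : ℕ) :
    ↥(modularFunctionFieldFullC K M) ≃+* ↥(modularFunctionFieldFullC K M) :=
  RingEquiv.ofRingHom (s34i47_coeffHom (σ : K →+* K) M) (s34i47_coeffHom (σ.symm : K →+* K) M)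
    (by
      ext x : 1
      apply Subtype.ext
      show coeffMap (σ : K →+* K) (coeffMap (σ.symm : K →+* K) (x : LaurentSeries K)) = _
      rw [coeffMap_coeffMap,
        coeffMap_congr (g := RingHom.id K) (RingHom.ext fun a => σ.apply_symm_apply a)
          (x : LaurentSeries K), coeffMap_id]
      rfl)
    (by
      ext x : 1
      apply Subtype.ext
      show coeffMap (σ.symm : K →+* K) (coeffMap (σ : K →+* K) (x : LaurentSeries K)) = _
      rw [coeffMap_coeffMap,
        coeffMap_congr (g := RingHom.id K) (RingHom.ext fun a => σ.symm_apply_apply a)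
          (x : LaurentSeries K), coeffMap_id]
      rfl)

@[simp]
theorem s34i47_coeffEquiv_coe {K : Type*} [Field K] (σ : K ≃+* K) (M : ℕ)
    (x : ↥(modularFunctionFieldFullC K M)) :
    ((s34i47_coeffEquiv σ M x : ↥(modularFunctionFieldFullC K M)) : LaurentSeries K) =
      coeffMap (σ : K →+* K) (x : LaurentSeries K) := rfl

/-- `σ` is *inertial* for the discrete valuation ring `R ⊆ K`: it preserves `R` and acts
trivially on the residue field. -/
def s34i47_Inertial (R : Type*) {K : Type*} [CommRing R] [IsLocalRing R] [Field K] [Algebra R K]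
    (σ : K ≃+* K) : Prop :=
  ∀ r : R, ∃ r' : R, σ (algebraMap R K r) = algebraMap R K r' ∧
    r' - r ∈ IsLocalRing.maximalIdeal R

/-! ## 1. Abstract `Prop`s -/

section Abstract

variable {R K F : Type*} [CommRing R] [Field K] [Field F] [Algebra R F] [Algebra K F]

/-- **(W)** The properties of the ring `W = V_∞ ⊓ V_0` used by the nodal two-chart lemma. -/
def s34i47_WProps (π : R) (W : Subring F) : Prop :=
  (∀ r : R, algebraMap R F r ∈ W) ∧ (algebraMap R F π)⁻¹ ∉ W ∧
  (∀ m : ℕ, 0 < m → ∀ x : F, x ^ m ∈ W → x ∈ W) ∧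
  (∀ x ∈ W, (1 + algebraMap R F π * x)⁻¹ ∈ W)

/-- **(G)** The Galois hypotheses on an automorphism `σ` of `F`:
(G0) `σ R ⊆ R`; (G1) `σ x / x ∈ W` for `x ≠ 0` (the valuations are `σ`-invariant);
(G2) `σ x ≡ x mod π W` for `x ∈ W` (`σ` is trivial on the special fibre). -/
def s34i47_GalProps (π : R) (W : Subring F) (σ : F ≃+* F) : Prop :=
  (∀ r : R, ∃ r' : R, σ (algebraMap R F r) = algebraMap R F r') ∧
  (∀ x : F, x ≠ 0 → σ x / x ∈ W) ∧
  (∀ x ∈ W, (algebraMap R F π)⁻¹ * (σ x - x) ∈ W)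

/-- **(C)** The chart hypotheses for the Hauptmodul `h` (those of `tc_main` / `pk15_star` that
are not automatic, with `V` replaced by `W`). -/
def s34i47_ChartProps (K : Type*) [Field K] [Algebra K F] (π : R) (W : Subring F) (h : F) : Prop :=
  Transcendental K h ∧
  (∀ x ∈ pk15_chart R ({h, h⁻¹} : Set F), x ∈ W) ∧
  (∀ x ∈ pk15_chart R ({h} : Set F), (algebraMap R F π)⁻¹ * x ∈ W →
    (algebraMap R F π)⁻¹ * x ∈ pk15_chart R ({h} : Set F)) ∧
  (∀ x ∈ pk15_chart R ({h⁻¹} : Set F), (algebraMap R F π)⁻¹ * x ∈ W →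
    (algebraMap R F π)⁻¹ * x ∈ pk15_chart R ({h⁻¹} : Set F)) ∧
  (∀ x ∈ pk15_chart R ({h, h⁻¹} : Set F), (algebraMap R F π)⁻¹ * x ∈ W →
    (algebraMap R F π)⁻¹ * x ∈ pk15_chart R ({h, h⁻¹} : Set F)) ∧
  IsNoetherianRing (pk15_chart R ({h} : Set F)) ∧
  IsNoetherianRing (pk15_chart R ({h⁻¹} : Set F)) ∧
  (∃ G : Finset F, ∀ x ∈ pk15_chart R ({h} : Set F),
    x ∈ Submodule.span (Algebra.adjoin R ({h} : Set F)) (G : Set F)) ∧
  (∀ x : F, ∃ a ∈ pk15_chart R ({h} : Set F), ∃ b ∈ pk15_chart R ({h} : Set F),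
    b ≠ 0 ∧ x * b = a)

/-- **(LS)** Local structure of the chart `B` at the closed points of its special fibre: at every
maximal ideal `n ∋ π` the maximal ideal of `B_n` is `(z, z', π)` with `z, z' ∈ B`, and
EITHER `z' = π` (a smooth point of the special fibre, `𝔪 = (z, π)`)
OR `z z' = π ^ κ · unit of B_n` (a node, with good coordinates). -/
def s34i47_LocStr (π : R) (B : Subalgebra R F) : Prop :=
  ∀ n : Ideal B, n.IsMaximal → algebraMap R B π ∈ n →
    ∃ z z' : B, z ∈ n ∧ z' ∈ n ∧
      (∀ x ∈ n, ∃ s : B, s ∉ n ∧ ∃ a b c : B, s * x = a * z + b * z' + c * algebraMap R B π) ∧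
      (z' = algebraMap R B π ∨
        ∃ (κ : ℕ) (s s' : B), s ∉ n ∧ s' ∉ n ∧ s * z * z' = algebraMap R B π ^ κ * s')

/-- **(UZ)** Unique-zero property: every rational horizontal `O` through a closed point `n` of
the special fibre has a uniformiser `p` which is a unit at every other horizontal `O'`
through `n`. -/
def s34i47_UniqueZero (K : Type*) [Field K] [Algebra K F] (π : R) (B : Subalgebra R F) : Prop :=
  ∀ n : Ideal B, n.IsMaximal → algebraMap R B π ∈ n →
    ∀ O : ValuationSubring F, s34i47_IsHoriz π O → s34i47_Through B n O → s34i47_IsRat K O →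
      ∃ p : F, p ≠ 0 ∧ p ∈ O ∧ p⁻¹ ∉ O ∧ (∀ x ∈ O, x⁻¹ ∉ O → x * p⁻¹ ∈ O) ∧
        ∀ O' : ValuationSubring F, s34i47_IsHoriz π O' → s34i47_Through B n O' → O' ≠ O →
          p ∈ O' ∧ p⁻¹ ∈ O'

/-- **(LP)** `f` is locally an `m`-th power up to a horizontal unit: at every closed point `n`
of the special fibre there is `c ≠ 0` with `f / c ^ m` a unit of every horizontal `O`
through `n`. -/
def s34i47_LocPrin (π : R) (m : ℕ) (B : Subalgebra R F) (f : F) : Prop :=
  ∀ n : Ideal B, n.IsMaximal → algebraMap R B π ∈ n →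
    ∃ c : F, c ≠ 0 ∧ ∀ O : ValuationSubring F, s34i47_IsHoriz π O → s34i47_Through B n O →
      f / c ^ m ∈ O ∧ c ^ m / f ∈ O

/-- **(KR)** Krull property of `B` at the closed points of the special fibre: a function which
is regular along every horizontal `O` through `n` lies in `B_n[1/π]`. -/
def s34i47_Krull (π : R) (B : Subalgebra R F) : Prop :=
  ∀ n : Ideal B, n.IsMaximal → algebraMap R B π ∈ n → ∀ x : F,
    (∀ O : ValuationSubring F, s34i47_IsHoriz π O → s34i47_Through B n O → x ∈ O) →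
    ∃ s : B, s ∉ n ∧ ∃ k : ℕ, algebraMap R F π ^ k * ((s : F) * x) ∈ B

/-- **(LD)** The local datum consumed by `ntc47_main` (`hLD₁`, `hLD₂`). -/
def s34i47_LocalDatum (π : R) (m : ℕ) (W : Subring F) (B : Subalgebra R F) (u : F) : Prop :=
  ∀ n : Ideal B, n.IsMaximal → algebraMap R B π ∈ n →
    ∃ φ : F, (algebraMap R F π)⁻¹ * (φ - 1) ∈ W ∧
      ∃ s : B, s ∉ n ∧ (s : F) * (φ ^ m * u) ∈ B

/-- `m ∣ ord_O f` at every horizontal `O`, in the valuation-subring form of S18. -/
def s34i47_Ord (π : R) (m : ℕ) (f : F) : Prop :=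
  ∀ O : ValuationSubring F, s34i47_IsHoriz π O → ∃ ε w : F, ε ∈ O ∧ ε⁻¹ ∈ O ∧ f = ε * w ^ m

/-- Every zero and pole of `f` on the generic fibre is `K`-rational. -/
def s34i47_Rat (K : Type*) [Field K] [Algebra K F] (π : R) (f : F) : Prop :=
  ∀ O : ValuationSubring F, s34i47_IsHoriz π O → (f ∈ O ∧ f⁻¹ ∈ O) ∨ s34i47_IsRat K O

/-- `f` has finitely many zeros and poles on the generic fibre. -/
def s34i47_Fin (π : R) (f : F) : Prop :=
  {O : ValuationSubring F | s34i47_IsHoriz π O ∧ ¬ (f ∈ O ∧ f⁻¹ ∈ O)}.Finite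

end Abstract

/-! ## 2. Concrete `Prop`s -/

/-- **FRAME** at level `M` and residue characteristic `q` (to be proved for `q ∥ M` and
`p₀ ∣ M`, `p₀ ∈ {2, 3}`, `p₀ ≠ q`): over every number field `K` and every discrete valuation
ring `R` of `K` of residue characteristic `q` there are a Hauptmodul `h` and a ring `W`
(`= V_∞ ⊓ V_0`) with the properties (W), (C), (LS) for both affine charts, and (G) for the
coefficientwise action of every inertial automorphism of `K`, which moreover fixes `h`. -/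
def s34i47_Frame (M q : ℕ) : Prop :=
  ∀ (R K : Type) [CommRing R] [IsDomain R] [IsDiscreteValuationRing R] [Field K] [NumberField K]
    [Algebra K Q̄] [Algebra R K] [IsFractionRing R K]
    [Algebra R ↥(modularFunctionFieldFullC K M)]
    [IsScalarTower R K ↥(modularFunctionFieldFullC K M)] (π : R), Irreducible π →
    (∀ n : ℕ, Nat.Coprime n q → IsUnit (n : R)) → ¬ IsUnit (q : R) →
    ∃ (h : ↥(modularFunctionFieldFullC K M)) (W : Subring ↥(modularFunctionFieldFullC K M)),
      s34i47_WProps π W ∧ s34i47_ChartProps K π W h ∧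
      s34i47_LocStr π (pk15_chart R ({h} : Set ↥(modularFunctionFieldFullC K M))) ∧
      s34i47_LocStr π (pk15_chart R ({h⁻¹} : Set ↥(modularFunctionFieldFullC K M))) ∧
      ∀ σ : K ≃+* K, s34i47_Inertial R σ →
        s34i47_GalProps π W (s34i47_coeffEquiv σ M) ∧ s34i47_coeffEquiv σ M h = h

/-- **FIN**: a nonzero function of `F_K(M)` has finitely many zeros and poles. -/
def s34i47_FinSupp (M : ℕ) : Prop :=
  ∀ (K : Type) [Field K] [NumberField K] [Algebra K Q̄]
    (f : ↥(modularFunctionFieldFullC K M)), f ≠ 0 →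
    {P : Place K ↥(modularFunctionFieldFullC K M) | ¬ (f ∈ P.toValuationSubring ∧
      f⁻¹ ∈ P.toValuationSubring)}.Finite

/-- **CORE** at level `M`, residue characteristic `q`, exponent `m`: over a number field `K`
with a discrete valuation ring `R` of residue characteristic `q` and two inertial automorphisms
`σ, τ`: if all orders of `f` are divisible by `m` and all zeros and poles of `f` are
`K`-rational, then the double difference of `f` is a constant times an `m`-th power. -/
def s34i47_Core (M q m : ℕ) : Prop :=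
  ∀ (R K : Type) [CommRing R] [IsDomain R] [IsDiscreteValuationRing R] [Field K] [NumberField K]
    [Algebra K Q̄] [Algebra R K] [IsFractionRing R K]
    [Algebra R ↥(modularFunctionFieldFullC K M)]
    [IsScalarTower R K ↥(modularFunctionFieldFullC K M)] (π : R), Irreducible π →
    (∀ n : ℕ, Nat.Coprime n q → IsUnit (n : R)) → ¬ IsUnit (q : R) →
    ∀ σ τ : K ≃+* K, s34i47_Inertial R σ → s34i47_Inertial R τ →
    ∀ f : ↥(modularFunctionFieldFullC K M), f ≠ 0 →
      (∀ P : Place K ↥(modularFunctionFieldFullC K M), (m : ℤ) ∣ P.ord f) →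
      (∀ P : Place K ↥(modularFunctionFieldFullC K M),
        (f ∈ P.toValuationSubring ∧ f⁻¹ ∈ P.toValuationSubring) ∨
          s34i47_IsRat K P.toValuationSubring) →
      ∃ (f₀ : ↥(modularFunctionFieldFullC K M)) (c : K), f₀ ≠ 0 ∧ c ≠ 0 ∧
        f₀ ^ m * s34i47_dd (s34i47_coeffEquiv σ M) (s34i47_coeffEquiv τ M) f =
          algebraMap K ↥(modularFunctionFieldFullC K M) c

/-- **FFU**: the function-field form of `(U)` over `ℚ̄` at level `N`: for `t` in an inertia
group at `q` and `f` with all orders divisible by `m`, the double difference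
`t(t f) f / (t f)^2` is an `m`-th power. -/
def s34i47_FFU (N q m : ℕ) : Prop :=
  ∀ A : ValuationSubring Q̄, A.LiesOverPrime q → ∀ t ∈ A.inertiaSubgroupIn ℚ,
    ∀ f : ↥(modularFunctionFieldBar N), f ≠ 0 →
      (∀ v : Place Q̄ ↥(modularFunctionFieldBar N), (m : ℤ) ∣ v.ord f) →
      ∃ g : ↥(modularFunctionFieldBar N),
        g ^ m = s34i47_dd (arithmeticRingAut (modularFunctionFieldFull N) t)
          (arithmeticRingAut (modularFunctionFieldFull N) t) f

/-- **(U)**: literally the hypothesis `hU` of `s34e60_main` (helper60). -/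
def s34i47_U (N q p : ℕ) : Prop :=
  ∀ (n : ℕ) (P : ValuationSubring Q̄), P.LiesOverPrime q → ∀ t ∈ P.inertiaSubgroupIn ℚ,
    ∀ x : JZero N, (p ^ n) • x = 0 → t • t • x - t • x - t • x + x = 0

/-! ## 3. The package theorems (each package proves exactly one of these `Prop`s) -/

/-- **P5a** (abstract, Mathlib only): (LS) ⟹ (UZ). -/
def s34i47_Pkg_UZ : Prop :=
  ∀ (R K F : Type) [CommRing R] [IsDomain R] [IsDiscreteValuationRing R] [Field K] [Field F]
    [Algebra R K] [IsFractionRing R K] [Algebra R F] [Algebra K F] [IsScalarTower R K F]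
    (π : R), Irreducible π → ∀ (B : Subalgebra R F), IsNoetherianRing B →
    (∀ x : F, ∃ a ∈ B, ∃ b ∈ B, b ≠ 0 ∧ x * b = a) →
    s34i47_LocStr π B → s34i47_UniqueZero K π B

/-- **P5b** (abstract, Mathlib only): (UZ) + orders divisible by `m` + rational zeros and
poles + finiteness ⟹ (LP). -/
def s34i47_Pkg_LP : Prop :=
  ∀ (R K F : Type) [CommRing R] [IsDomain R] [IsDiscreteValuationRing R] [Field K] [Field F]
    [Algebra R K] [IsFractionRing R K] [Algebra R F] [Algebra K F] [IsScalarTower R K F]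
    (π : R), Irreducible π → ∀ (B : Subalgebra R F) (m : ℕ), 0 < m → ∀ f : F, f ≠ 0 →
    s34i47_UniqueZero K π B → s34i47_Ord π m f → s34i47_Rat K π f → s34i47_Fin π f →
    s34i47_LocPrin π m B f

/-- **P5c** (abstract, Mathlib only): the Krull property of the two affine charts
(`B[1/π]` is the integral closure of `K[h]` in `F`, a Dedekind domain). -/
def s34i47_Pkg_Krull : Prop :=
  ∀ (R K F : Type) [CommRing R] [IsDomain R] [IsDiscreteValuationRing R] [Field K] [CharZero K]
    [Field F] [Algebra R K] [IsFractionRing R K] [Algebra R F] [Algebra K F] [IsScalarTower R K F]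
    (π : R), Irreducible π → ∀ h : F, Transcendental K h →
    IsNoetherianRing (pk15_chart R ({h} : Set F)) →
    IsNoetherianRing (pk15_chart R ({h⁻¹} : Set F)) →
    (∃ G : Finset F, ∀ x ∈ pk15_chart R ({h} : Set F),
      x ∈ Submodule.span (Algebra.adjoin R ({h} : Set F)) (G : Set F)) →
    (∀ x : F, ∃ a ∈ pk15_chart R ({h} : Set F), ∃ b ∈ pk15_chart R ({h} : Set F),
      b ≠ 0 ∧ x * b = a) →
    s34i47_Krull π (pk15_chart R ({h} : Set F)) ∧ s34i47_Krull π (pk15_chart R ({h⁻¹} : Set F))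

/-- **P6** (abstract, Mathlib only): (LP) + (KR) + (G) for `σ` and `τ` + saturation ⟹ the local
datum (LD) for the double difference `u = σ(τ f) f / (σ f · τ f)`. -/
def s34i47_Pkg_LD : Prop :=
  ∀ (R K F : Type) [CommRing R] [IsDomain R] [IsDiscreteValuationRing R] [Field K] [Field F]
    [Algebra R K] [IsFractionRing R K] [Algebra R F] [Algebra K F] [IsScalarTower R K F]
    (π : R), Irreducible π → ∀ (m : ℕ), 0 < m → ∀ (W : Subring F) (B : Subalgebra R F)
    (σ τ : F ≃+* F) (f : F), f ≠ 0 →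
    (∀ r : R, algebraMap R F r ∈ W) → (∀ x ∈ B, x ∈ W) →
    (∀ x ∈ B, (algebraMap R F π)⁻¹ * x ∈ W → (algebraMap R F π)⁻¹ * x ∈ B) →
    s34i47_GalProps π W σ → s34i47_GalProps π W τ →
    (∀ x ∈ B, σ x ∈ B) → (∀ x ∈ B, τ x ∈ B) →
    s34i47_Krull π B → s34i47_LocPrin π m B f →
    s34i47_LocalDatum π m W B (s34i47_dd σ τ f)

/-- **P7b** (abstract; `ntc47_main` + `pk15_chart_cap`): (W) + (C) + (LD) on both charts ⟹
`f₀ ^ m * u = c`. -/
def s34i47_Pkg_Main : Prop :=
  ∀ (R K F : Type) [CommRing R] [IsDomain R] [IsDiscreteValuationRing R] [Field K] [Field F]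
    [Algebra R K] [IsFractionRing R K] [Algebra R F] [Algebra K F] [IsScalarTower R K F]
    (π : R), Irreducible π → ∀ (m : ℕ), 0 < m → IsUnit (m : R) →
    (∀ y : F, IsAlgebraic K y → ∃ c : K, y = algebraMap K F c) →
    ∀ (W : Subring F) (h : F), s34i47_WProps π W → s34i47_ChartProps K π W h →
    ∀ u : F, (algebraMap R F π)⁻¹ * (u - 1) ∈ W →
    s34i47_LocalDatum π m W (pk15_chart R ({h} : Set F)) u →
    s34i47_LocalDatum π m W (pk15_chart R ({h⁻¹} : Set F)) u →
    ∃ (f₀ : F) (c : R), f₀ ≠ 0 ∧ f₀ ^ m * u = algebraMap R F c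

/-- **P1–P4** (concrete): the frame at level `M` with `q ∥ M` and `p₀ ∣ M`. -/
def s34i47_Pkg_Frame : Prop :=
  ∀ (M q p₀ : ℕ), q.Prime → q ∣ M → ¬ q ^ 2 ∣ M → (p₀ = 2 ∨ p₀ = 3) → p₀ ≠ q → p₀ ∣ M →
    s34i47_Frame M q

/-- **FIN** (concrete): finiteness of zeros and poles. -/
def s34i47_Pkg_Fin : Prop := ∀ M : ℕ, NeZero M → s34i47_FinSupp M

/-- **ASM** (assembly of the abstract chain over the frame). -/
def s34i47_Pkg_Core : Prop :=
  s34i47_Pkg_UZ → s34i47_Pkg_LP → s34i47_Pkg_Krull → s34i47_Pkg_LD → s34i47_Pkg_Main →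
    ∀ (M q m : ℕ), NeZero M → q.Prime → 0 < m → Nat.Coprime m q →
      s34i47_Frame M q → s34i47_FinSupp M → s34i47_Core M q m

/-- **P9b** (field of definition, rationality of the zeros and poles over a large number
field, `m`-th root of the constant): CORE ⟹ FFU at the same level. -/
def s34i47_Pkg_FieldDef : Prop :=
  ∀ (M q m : ℕ), NeZero M → q.Prime → 0 < m → s34i47_Core M q m → s34i47_FFU M q m

/-- **P0** (level change by norm descent, as `nd38_*` in S18). -/
def s34i47_Pkg_Level : Prop :=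
  ∀ (N q p : ℕ), NeZero N → q.Prime → p.Prime → p ≠ q →
    (∀ p₀ : ℕ, (p₀ = 2 ∨ p₀ = 3) → p₀ ≠ q → ∀ n : ℕ, s34i47_FFU (Nat.lcm N p₀) q (p ^ n)) →
    ∀ n : ℕ, s34i47_FFU N q (p ^ n)

/-- **P9a** (divisor classes): FFU for all `p ^ n` ⟹ `(U)`. -/
def s34i47_Pkg_Pic : Prop :=
  ∀ (N q p : ℕ), NeZero N → (∀ n : ℕ, s34i47_FFU N q (p ^ n)) → s34i47_U N q p

/-- **ASSEMBLY**: all packages ⟹ `(U)` for `q ∥ N`, `q ≠ p`. -/
theorem s34i47_assembly (hUZ : s34i47_Pkg_UZ) (hLP : s34i47_Pkg_LP) (hKr : s34i47_Pkg_Krull)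
    (hLD : s34i47_Pkg_LD) (hMain : s34i47_Pkg_Main) (hFrame : s34i47_Pkg_Frame)
    (hFin : s34i47_Pkg_Fin) (hCore : s34i47_Pkg_Core) (hFD : s34i47_Pkg_FieldDef)
    (hLevel : s34i47_Pkg_Level) (hPic : s34i47_Pkg_Pic)
    (N q p : ℕ) [NeZero N] (hq : q.Prime) (hp : p.Prime) (hpq : p ≠ q) (hqN : q ∣ N)
    (hq2 : ¬ q ^ 2 ∣ N) : s34i47_U N q p := by
  refine hPic N q p inferInstance (hLevel N q p inferInstance hq hp hpq ?_)
  intro p₀ hp₀ hp₀q n
  have hp₀prime : p₀.Prime := by
    rcases hp₀ with rfl | rfl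
    · exact Nat.prime_two
    · exact Nat.prime_three
  have hne : NeZero (Nat.lcm N p₀) := ⟨Nat.lcm_ne_zero (NeZero.ne N) hp₀prime.ne_zero⟩
  have hqM : q ∣ Nat.lcm N p₀ := hqN.trans (Nat.dvd_lcm_left N p₀)
  have hq2M : ¬ q ^ 2 ∣ Nat.lcm N p₀ := by
    intro hd
    have h1 : q ^ 2 ∣ N * p₀ := hd.trans (Nat.lcm_dvd_mul N p₀)
    have hcop : Nat.Coprime (q ^ 2) p₀ :=
      Nat.Coprime.pow_left 2 ((Nat.coprime_primes hq hp₀prime).mpr (Ne.symm hp₀q))
    exact hq2 (hcop.dvd_of_dvd_mul_right h1)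
  have hcop : Nat.Coprime (p ^ n) q :=
    Nat.Coprime.pow_left n ((Nat.coprime_primes hp hq).mpr hpq)
  exact hFD _ q _ hne hq (pow_pos hp.pos n)
    (hCore hUZ hLP hKr hLD hMain _ q _ hne hq (pow_pos hp.pos n) hcop
      (hFrame _ q p₀ hq hqM hq2M hp₀ hp₀q (Nat.dvd_lcm_right N p₀)) (hFin _ hne))

end Fermat.Agent.S34
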