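import Mathlib
import Fermat.Agent.S18.FieldDef27
import Fermat.Agent.S42.OpenStab25

/-!
# S34 lab (helper45): rational support — descent of a Kummer function from `ℚ̄` to a number field

Twin of registry row P9b (RatSupp88).  All names are prefixed `rs45_`.

Notation: `F̄ = modularFunctionFieldBar M` (function field of `X₀(M)` over `ℚ̄`),
`F_L = modularFunctionFieldFullC L M` for an intermediate field `L` of `ℚ̄ / ℚ`,
`ι = fd27_iota (algebraMap L ℚ̄) M : F_L →+* F̄` (coefficientwise base change).

* `rs45_act M L τ : F_L →+* F_L` — the coefficientwise action of `τ : L ≃ₐ[ℚ] L`;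
* `rs45_smul_iota` (4): for `L / ℚ` normal, `arithmeticGalois σ • ι x = ι (rs45_act (σ|L) x)`;
  `rs45_smul_iota_of_fix`: `σ` fixing `L` pointwise fixes `ι x`;
* `rs45_RatPlace M L P`: the place `P` of `F̄` is fixed by every `σ` fixing `L` pointwise;
* `rs45_ratPlace_smul` (3): for `L / ℚ` normal, Galois translates of `L`-rational places are
  `L`-rational;
* `rs45_value` (2): at an `L`-rational place every `x : F_L` with `ι x ∈ O_P` has a value in `L`:
  `∃ c : L, v_P (ι x - c) < 1`; `rs45_value_ord` is the `ord` form; `rs45_value_unique`;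
* `rs45_value_smul` (3): the value of `rs45_act (s|L) x` at `s • P` is `(s|L) c`;
* `rs45_exists` (1): every `f : F̄` and every finite set `T` of algebraic numbers admit a finite
  GALOIS extension `L` of `ℚ` inside `ℚ̄` with `T ⊆ L`, `f = ι f_L`, and every place in the
  support of `div f` is `L`-rational.
-/

set_option autoImplicit false
set_option linter.style.haveILetI false
set_option linter.unusedSectionVars false

open ModularCurve AlgebraicCurve IntermediateField

namespace Fermat.Agent.S34

open Fermat.Agent.S18 Fermat.Agent.S24 Fermat.Agent.S37 Fermat.Agent.S42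

local notation "Qb" => AlgebraicClosure ℚ

section General

variable {K F : Type*} [Field K] [Field F] [Algebra K F]

/-- `v(f) < 1` iff `f = 0` or `0 < ord f`. -/
theorem rs45_lt_one_iff (v : Place K F) (f : F) :
    v.adicValuation f < 1 ↔ f = 0 ∨ 0 < v.ord f := by
  rcases eq_or_ne f 0 with rfl | hf
  · simp
  · rw [wp1b_ord_pos_iff v hf]
    simp [hf]

/-- a nonzero constant has valuation `≥ 1`. -/
theorem rs45_not_lt_one_const (v : Place K F) (c : K) (hc : c ≠ 0) :
    ¬ v.adicValuation (algebraMap K F c) < 1 := by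
  rw [rs45_lt_one_iff]
  rintro (h | h)
  · exact hc ((map_eq_zero_iff _ (algebraMap K F).injective).mp h)
  · rw [wp1_ord_algebraMap] at h
    exact lt_irrefl _ h

/-- transport of `v(f) < 1` along a semilinear automorphism. -/
theorem rs45_lt_one_smul (g : SemilinearAut K F) (v : Place K F) (f : F)
    (h : v.adicValuation f < 1) : (g • v).adicValuation (g • f) < 1 := by
  rw [rs45_lt_one_iff] at h ⊢
  rcases h with h | h
  · left; rw [h, smul_zero]
  · right; rw [SemilinearAut.ord_smul]; exact h

end General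

section Action

variable (M : ℕ) (L : IntermediateField ℚ Qb)

/-- The coefficientwise action of `τ : L ≃ₐ[ℚ] L` on `F_L = modularFunctionFieldFullC L M`. -/
noncomputable def rs45_act (τ : L ≃ₐ[ℚ] L) :
    ↥(modularFunctionFieldFullC L M) →+* ↥(modularFunctionFieldFullC L M) :=
  ((coeffMap (τ : L →+* L)).comp (modularFunctionFieldFullC L M).toSubring.subtype).codRestrict
    (modularFunctionFieldFullC L M).toSubring fun x =>
      fd27_coeffMap_mem (τ : L →+* L) M x.2

@[simp]
theorem rs45_act_coe (τ : L ≃ₐ[ℚ] L) (x : ↥(modularFunctionFieldFullC L M)) :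
    ((rs45_act M L τ x : ↥(modularFunctionFieldFullC L M)) : LaurentSeries L) =
      coeffMap (τ : L →+* L) (x : LaurentSeries L) := rfl

theorem rs45_act_algebraMap (τ : L ≃ₐ[ℚ] L) (c : L) :
    rs45_act M L τ (algebraMap L ↥(modularFunctionFieldFullC L M) c) =
      algebraMap L ↥(modularFunctionFieldFullC L M) (τ c) := by
  apply Subtype.ext
  rw [rs45_act_coe]
  exact fd27_coeffMap_algebraMap (τ : L →+* L) c

/-- **(4)** The arithmetic Galois action restricted to `F_L`, for `L / ℚ` normal. -/
theorem rs45_smul_iota [Normal ℚ L] (σ : Qb ≃ₐ[ℚ] Qb) (x : ↥(modularFunctionFieldFullC L M)) :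
    arithmeticGalois (modularFunctionFieldFull M) σ • fd27_iota (algebraMap L Qb) M x =
      fd27_iota (algebraMap L Qb) M (rs45_act M L (σ.restrictNormal L) x) := by
  apply Subtype.ext
  rw [coe_arithmeticGalois_smul, fd27_iota_coe, fd27_iota_coe, rs45_act_coe, coeffMap_coeffMap,
    coeffMap_coeffMap]
  refine coeffMap_congr (RingHom.ext fun a => ?_) _
  exact (AlgEquiv.restrictNormal_commutes σ L a).symm

/-- An automorphism fixing `L` pointwise fixes the image of `F_L`. -/
theorem rs45_smul_iota_of_fix (σ : Qb ≃ₐ[ℚ] Qb) (hσ : ∀ a ∈ L, σ a = a)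
    (x : ↥(modularFunctionFieldFullC L M)) :
    arithmeticGalois (modularFunctionFieldFull M) σ • fd27_iota (algebraMap L Qb) M x =
      fd27_iota (algebraMap L Qb) M x := by
  apply Subtype.ext
  rw [coe_arithmeticGalois_smul, fd27_iota_coe, coeffMap_coeffMap]
  refine coeffMap_congr (RingHom.ext fun a => ?_) _
  exact hσ (a : Qb) a.2

/-- The arithmetic action on constants. -/
theorem rs45_smul_const (σ : Qb ≃ₐ[ℚ] Qb) (c : Qb) :
    arithmeticGalois (modularFunctionFieldFull M) σ •
        algebraMap Qb ↥(modularFunctionFieldBar M) c =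
      algebraMap Qb ↥(modularFunctionFieldBar M) (σ c) :=
  SemilinearAut.smul_algebraMap _ c

/-- A place of `F̄` is `L`-rational if it is fixed by every automorphism of `ℚ̄` fixing `L`
pointwise. -/
def rs45_RatPlace (P : Place Qb ↥(modularFunctionFieldBar M)) : Prop :=
  ∀ σ : Qb ≃ₐ[ℚ] Qb, (∀ a ∈ L, σ a = a) →
    arithmeticGalois (modularFunctionFieldFull M) σ • P = P

/-- **(3)** Galois translates of `L`-rational places are `L`-rational (`L / ℚ` normal). -/
theorem rs45_ratPlace_smul [Normal ℚ L] {P : Place Qb ↥(modularFunctionFieldBar M)}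
    (hP : rs45_RatPlace M L P) (s : Qb ≃ₐ[ℚ] Qb) :
    rs45_RatPlace M L (arithmeticGalois (modularFunctionFieldFull M) s • P) := by
  intro σ hσ
  have h1 : ∀ a ∈ L, (s⁻¹ * σ * s) a = a := by
    intro a ha
    have hsa : s a ∈ L := by
      have h := AlgEquiv.restrictNormal_commutes s L ⟨a, ha⟩
      have h' : s a = ((s.restrictNormal L) ⟨a, ha⟩ : Qb) := h.symm
      rw [h']
      exact ((s.restrictNormal L) ⟨a, ha⟩).2
    show s⁻¹ (σ (s a)) = a
    rw [hσ _ hsa]
    exact s.symm_apply_apply a
  have h2 := hP (s⁻¹ * σ * s) h1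
  rw [map_mul, map_mul, mul_smul, mul_smul] at h2
  have h3 := congrArg (fun Q => arithmeticGalois (modularFunctionFieldFull M) s • Q) h2
  simp only [map_inv, smul_inv_smul] at h3
  exact h3

variable [NeZero M]

/-- **(2)** At an `L`-rational place, every element of `F_L` which is regular there has a value
in `L`. -/
theorem rs45_value {P : Place Qb ↥(modularFunctionFieldBar M)} (hP : rs45_RatPlace M L P)
    (x : ↥(modularFunctionFieldFullC L M))
    (hx : fd27_iota (algebraMap L Qb) M x ∈ P.toValuationSubring) :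
    ∃ c : L, P.adicValuation (fd27_iota (algebraMap L Qb) M x -
      algebraMap Qb ↥(modularFunctionFieldBar M) (c : Qb)) < 1 := by
  haveI := hi63_finite_x M
  obtain ⟨c0, hc0⟩ := wp1_exists_const (hi63_x M) (hi63_x_transcendental M) P _ hx
  have hval : P.adicValuation (fd27_iota (algebraMap L Qb) M x -
      algebraMap Qb ↥(modularFunctionFieldBar M) c0) < 1 := by
    rw [rs45_lt_one_iff]
    rcases hc0 with h | h
    · left; rw [h, sub_self]
    · right; exact h
  suffices hmem : c0 ∈ L from ⟨⟨c0, hmem⟩, hval⟩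
  haveI : IsAlgClosure ℚ Qb := ⟨inferInstance, AlgebraicClosure.isAlgebraic ℚ⟩
  haveI : IsGalois ℚ Qb := IsAlgClosure.isGalois ℚ Qb
  rw [← InfiniteGalois.fixedField_fixingSubgroup L, IntermediateField.mem_fixedField_iff]
  intro σ hσ
  have hσL : ∀ a ∈ L, σ a = a := fun a ha => hσ ⟨a, ha⟩
  by_contra hne
  set g := arithmeticGalois (modularFunctionFieldFull M) σ with hg
  have h1 := rs45_lt_one_smul g P _ hval
  rw [hP σ hσL, smul_sub, rs45_smul_iota_of_fix M L σ hσL, rs45_smul_const] at h1
  have h2 := Valuation.map_sub_lt P.adicValuation hval h1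
  have h3 : fd27_iota (algebraMap L Qb) M x - algebraMap Qb ↥(modularFunctionFieldBar M) c0 -
      (fd27_iota (algebraMap L Qb) M x - algebraMap Qb ↥(modularFunctionFieldBar M) (σ c0)) =
      algebraMap Qb ↥(modularFunctionFieldBar M) (σ c0 - c0) := by
    rw [map_sub]; ring
  rw [h3] at h2
  exact rs45_not_lt_one_const P _ (sub_ne_zero.mpr hne) h2

/-- The value is unique. -/
theorem rs45_value_unique (P : Place Qb ↥(modularFunctionFieldBar M))
    (y : ↥(modularFunctionFieldBar M)) (c c' : Qb)
    (h : P.adicValuation (y - algebraMap Qb ↥(modularFunctionFieldBar M) c) < 1)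
    (h' : P.adicValuation (y - algebraMap Qb ↥(modularFunctionFieldBar M) c') < 1) : c = c' := by
  by_contra hne
  have h2 := Valuation.map_sub_lt P.adicValuation h h'
  have h3 : y - algebraMap Qb ↥(modularFunctionFieldBar M) c -
      (y - algebraMap Qb ↥(modularFunctionFieldBar M) c') =
      algebraMap Qb ↥(modularFunctionFieldBar M) (c' - c) := by
    rw [map_sub]; ring
  rw [h3] at h2
  exact rs45_not_lt_one_const P _ (sub_ne_zero.mpr (Ne.symm hne)) h2

/-- `ord` form of `rs45_value`. -/
theorem rs45_value_ord {P : Place Qb ↥(modularFunctionFieldBar M)} (hP : rs45_RatPlace M L P)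
    (x : ↥(modularFunctionFieldFullC L M))
    (hx : fd27_iota (algebraMap L Qb) M x ∈ P.toValuationSubring) :
    ∃ c : L, fd27_iota (algebraMap L Qb) M x =
        algebraMap Qb ↥(modularFunctionFieldBar M) (c : Qb) ∨
      0 < P.ord (fd27_iota (algebraMap L Qb) M x -
        algebraMap Qb ↥(modularFunctionFieldBar M) (c : Qb)) := by
  obtain ⟨c, hc⟩ := rs45_value M L hP x hx
  refine ⟨c, ?_⟩
  rcases (rs45_lt_one_iff P _).mp hc with h | h
  · left; exact sub_eq_zero.mp h
  · right; exact h

/-- **(3)** The value of `(s|L) x` at `s • P` is `(s|L) c`. -/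
theorem rs45_value_smul [Normal ℚ L] (P : Place Qb ↥(modularFunctionFieldBar M))
    (s : Qb ≃ₐ[ℚ] Qb) (x : ↥(modularFunctionFieldFullC L M)) (c : L)
    (h : P.adicValuation (fd27_iota (algebraMap L Qb) M x -
      algebraMap Qb ↥(modularFunctionFieldBar M) (c : Qb)) < 1) :
    (arithmeticGalois (modularFunctionFieldFull M) s • P).adicValuation
      (fd27_iota (algebraMap L Qb) M (rs45_act M L (s.restrictNormal L) x) -
        algebraMap Qb ↥(modularFunctionFieldBar M) ((s.restrictNormal L c : L) : Qb)) < 1 := by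
  have h1 := rs45_lt_one_smul (arithmeticGalois (modularFunctionFieldFull M) s) P _ h
  rw [smul_sub, rs45_smul_iota, rs45_smul_const] at h1
  have h2 : s (c : Qb) = ((s.restrictNormal L c : L) : Qb) :=
    (AlgEquiv.restrictNormal_commutes s L c).symm
  rw [h2] at h1
  exact h1

/-- **(1)** Every `f : F̄` (and every finite set `T` of algebraic numbers) is defined over a finite
Galois extension `L` of `ℚ` inside `ℚ̄` over which the support of `div f` is rational. -/
theorem rs45_exists (f : ↥(modularFunctionFieldBar M)) (T : Finset Qb) :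
    ∃ L : IntermediateField ℚ Qb, FiniteDimensional ℚ L ∧ IsGalois ℚ L ∧ (∀ t ∈ T, t ∈ L) ∧
      (∃ fL : ↥(modularFunctionFieldFullC L M), fd27_iota (algebraMap L Qb) M fL = f) ∧
      ∀ P : Place Qb ↥(modularFunctionFieldBar M), P.ord f ≠ 0 → rs45_RatPlace M L P := by
  classical
  haveI := hi63_hasPrincipalDivisors_bar M
  -- a finite set of algebraic numbers whose fixers fix the support of `div f`
  obtain ⟨S, hS⟩ : ∃ S : Finset Qb, ∀ σ : Qb ≃ₐ[ℚ] Qb, (∀ a ∈ S, σ a = a) →
      ∀ P : Place Qb ↥(modularFunctionFieldBar M), P.ord f ≠ 0 →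
        arithmeticGalois (modularFunctionFieldFull M) σ • P = P := by
    rcases eq_or_ne f 0 with rfl | hf0
    · exact ⟨∅, fun σ _ P hP => absurd (by simp) hP⟩
    obtain ⟨D, hD, -⟩ := HasPrincipalDivisors.exists_divisor (K := Qb) f hf0
    obtain ⟨S, hS⟩ := os25_Open.finset D.support
      (fun P _ => os25_open_place (modularFunctionFieldFull M) P)
    refine ⟨S, fun σ hσ P hP => hS σ hσ P ?_⟩
    rw [Finsupp.mem_support_iff, hD]
    exact hP
  obtain ⟨K0, hK0, hT0, hf0⟩ := fd27_exists M {(f : LaurentSeries Qb)}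
    (fun x hx => by rw [Finset.mem_singleton.mp hx]; exact f.2) (T ∪ S)
  obtain ⟨y, hy, hyf⟩ := hf0 _ (Finset.mem_singleton_self _)
  haveI := hK0
  have halg : Algebra.IsAlgebraic ℚ Qb := AlgebraicClosure.isAlgebraic ℚ
  haveI : IsAlgClosure ℚ Qb := ⟨inferInstance, halg⟩
  haveI : Normal ℚ Qb := IsAlgClosure.normal ℚ Qb
  have hfd : FiniteDimensional ℚ ↥(IntermediateField.normalClosure ℚ K0 Qb) :=
    normalClosure.is_finiteDimensional ℚ K0 Qb
  have hnorm : Normal ℚ ↥(IntermediateField.normalClosure ℚ K0 Qb) :=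
    normalClosure.normal ℚ K0 Qb
  have hsep : Algebra.IsSeparable ℚ ↥(IntermediateField.normalClosure ℚ K0 Qb) :=
    ⟨fun x => (minpoly.irreducible (hnorm.isIntegral x)).separable⟩
  have hle : K0 ≤ IntermediateField.normalClosure ℚ K0 Qb := K0.le_normalClosure
  obtain ⟨z, hz, hzy⟩ := fd27_lift hle M y hy
  refine ⟨IntermediateField.normalClosure ℚ K0 Qb, hfd, ⟨⟩, ?_, ⟨⟨z, hz⟩, ?_⟩, ?_⟩
  · intro t ht
    exact hle (hT0 t (Finset.mem_union_left _ ht))
  · apply Subtype.ext
    rw [fd27_iota_coe]
    exact hzy.trans hyf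
  · intro P hP σ hσ
    exact hS σ (fun a ha => hσ a (hle (hT0 a (Finset.mem_union_right _ ha)))) P hP

end Action

end Fermat.Agent.S34
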