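import Mathlib
import Fermat.Agent.S34.Iface47
import Fermat.Agent.S34.RatSupp45
import Fermat.Agent.S18.ConstExtModular25

/-!
# S34 lab (helper45): the package `s34i47_Pkg_FieldDef` of the interface `Iface47`

`fd45_pkg_fieldDef : s34i47_Pkg_FieldDef`, i.e. for every level `M ≠ 0`, prime `q`, exponent
`m > 0`:  `s34i47_Core M q m → s34i47_FFU M q m`.

Proof.  Let `f ≠ 0` in `F̄ = modularFunctionFieldBar M` with all orders divisible by `m`, `A` a
valuation subring of `ℚ̄` over `q`, `t` in its inertia group.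

1. `rs45_exists` (RatSupp45): a finite Galois `L ⊆ ℚ̄` with `f = ι f_L` and every place in the
   support of `div f` is `L`-rational.
2. `R := A ∩ L` is a discrete valuation ring of residue characteristic `q`, and the restriction
   `σ := t|_L` is inertial for `R` (`fd45_inertial`).
3. The hypotheses of CORE for `f_L`: divisibility of the orders descends (`cx_modular_place_dvd`),
   and every place `P` of `F_L` is either outside the support of `div f_L` or `L`-rational
   (`fd45_isRat`, from `rs45_value_ord` at an extension `P'` of `P`).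
4. CORE gives `f₀ ^ m * u_L = c` with `c ∈ L`; apply `ι` (which intertwines the coefficientwise
   action of `σ` with the arithmetic action of `t`, `fd45_iota_coeffEquiv`), extract an `m`-th
   root `γ` of `c` in `ℚ̄` and put `g := γ / ι f₀`.

All names are prefixed `fd45_`.
-/

set_option autoImplicit false
set_option linter.style.haveILetI false
set_option linter.unusedSectionVars false

open ModularCurve AlgebraicCurve IntermediateField

namespace Fermat.Agent.S34

open Fermat.Agent.S18 Fermat.Agent.S24 Fermat.Agent.S37 Fermat.Agent.S42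

local notation "Qb" => AlgebraicClosure ℚ

/-! ## 1. Inertia -/

/-- Elements of the inertia group preserve the valuation ring and act trivially on the residue
field. -/
theorem fd45_inertia {E : Type*} [Field E] (K : Type*) [Field K] [Algebra K E]
    (A : ValuationSubring E) {σ : E ≃ₐ[K] E} (hσ : σ ∈ A.inertiaSubgroupIn K) :
    (∀ x : E, x ∈ A → σ x ∈ A) ∧ ∀ x : E, x ∈ A → σ x - x ∈ A.nonunits := by
  obtain ⟨τ, hτ, rfl⟩ := Subgroup.mem_map.mp hσ
  refine ⟨fun x hx => ?_, fun x hx => ?_⟩
  · have h := (A.subMulAction K).smul_mem ⟨τ.1, τ.2⟩ (x := x) hx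
    exact h
  · have h1 : MulSemiringAction.toRingAut (A.decompositionSubgroup K)
        (IsLocalRing.ResidueField A) τ = 1 := MonoidHom.mem_ker.mp hτ
    have h2 : τ • (IsLocalRing.residue A ⟨x, hx⟩) = IsLocalRing.residue A ⟨x, hx⟩ := by
      have := congrArg (fun f => f (IsLocalRing.residue A ⟨x, hx⟩)) h1
      simpa using this
    rw [← IsLocalRing.ResidueField.residue_smul] at h2
    have h3 : IsLocalRing.residue A (τ • (⟨x, hx⟩ : A) - ⟨x, hx⟩) = 0 := by
      rw [map_sub, h2, sub_self]
    rw [IsLocalRing.residue_eq_zero_iff] at h3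
    exact ValuationSubring.coe_mem_nonunits_iff.mpr h3

/-- The restriction to a normal subfield `L` of an inertia element at `A` is inertial for the
valuation ring `A ∩ L`. -/
theorem fd45_inertial (A : ValuationSubring Qb) (L : IntermediateField ℚ Qb) [Normal ℚ L]
    {t : Qb ≃ₐ[ℚ] Qb} (ht : t ∈ A.inertiaSubgroupIn ℚ) :
    s34i47_Inertial (↥(A.comap (algebraMap (↥L) Qb))) (K := ↥L)
      (t.restrictNormal L).toRingEquiv := by
  obtain ⟨hdec, hin⟩ := fd45_inertia ℚ A ht
  intro r
  have hcomm : ∀ a : ↥L, algebraMap (↥L) Qb (t.restrictNormal L a) = t (algebraMap (↥L) Qb a) :=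
    fun a => AlgEquiv.restrictNormal_commutes t L a
  have hr : algebraMap (↥L) Qb (r : ↥L) ∈ A := r.2
  have hmem : t.restrictNormal L (r : ↥L) ∈ A.comap (algebraMap (↥L) Qb) := by
    rw [ValuationSubring.mem_comap, hcomm]
    exact hdec _ hr
  refine ⟨⟨t.restrictNormal L (r : ↥L), hmem⟩, rfl, ?_⟩
  rw [← ValuationSubring.coe_mem_nonunits_iff, nf23_mem_nonunits_comap]
  have h1 : algebraMap (↥L) Qb
      (((⟨t.restrictNormal L (r : ↥L), hmem⟩ - r : ↥(A.comap (algebraMap (↥L) Qb))) : ↥L)) =
      t (algebraMap (↥L) Qb (r : ↥L)) - algebraMap (↥L) Qb (r : ↥L) := by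
    rw [← hcomm, ← map_sub]
    rfl
  rw [h1]
  exact hin _ hr

/-! ## 2. The base change `ι` and the two actions -/

/-- `ι` intertwines the coefficientwise action of `t|_L` on `F_L` with the arithmetic action of
`t` on `F̄`. -/
theorem fd45_iota_coeffEquiv (M : ℕ) (L : IntermediateField ℚ Qb) [Normal ℚ L]
    (t : Qb ≃ₐ[ℚ] Qb) (x : ↥(modularFunctionFieldFullC (↥L) M)) :
    fd27_iota (algebraMap (↥L) Qb) M (s34i47_coeffEquiv (t.restrictNormal L).toRingEquiv M x) =
      arithmeticRingAut (modularFunctionFieldFull M) t (fd27_iota (algebraMap (↥L) Qb) M x) := by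
  apply Subtype.ext
  rw [coe_arithmeticRingAut_apply, fd27_iota_coe, fd27_iota_coe, s34i47_coeffEquiv_coe,
    coeffMap_coeffMap, coeffMap_coeffMap]
  refine coeffMap_congr (RingHom.ext fun a => ?_) _
  exact AlgEquiv.restrictNormal_commutes t L a

/-- `ι` maps the double difference over `L` to the double difference over `ℚ̄`. -/
theorem fd45_iota_dd (M : ℕ) (L : IntermediateField ℚ Qb) [Normal ℚ L]
    (t : Qb ≃ₐ[ℚ] Qb) (x : ↥(modularFunctionFieldFullC (↥L) M)) :
    fd27_iota (algebraMap (↥L) Qb) M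
        (s34i47_dd (s34i47_coeffEquiv (t.restrictNormal L).toRingEquiv M)
          (s34i47_coeffEquiv (t.restrictNormal L).toRingEquiv M) x) =
      s34i47_dd (arithmeticRingAut (modularFunctionFieldFull M) t)
        (arithmeticRingAut (modularFunctionFieldFull M) t)
        (fd27_iota (algebraMap (↥L) Qb) M x) := by
  unfold s34i47_dd
  rw [map_div₀, map_mul, map_mul, fd45_iota_coeffEquiv, fd45_iota_coeffEquiv]

/-! ## 3. Rationality of the places of `F_L` in the support -/

/-- A place `P` of `F_L` below an `L`-rational place `P'` of `F̄` is `L`-rational in the sense of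
the interface. -/
theorem fd45_isRat (M : ℕ) [NeZero M] (L : IntermediateField ℚ Qb)
    (P : Place (↥L) ↥(modularFunctionFieldFullC (↥L) M))
    (P' : Place Qb ↥(modularFunctionFieldBar M))
    (hP' : ∀ u : ↥(modularFunctionFieldFullC (↥L) M),
      P'.ord (fd27_iota (algebraMap (↥L) Qb) M u) = P.ord u)
    (hrat : rs45_RatPlace M L P') :
    s34i47_IsRat (↥L) P.toValuationSubring := by
  intro x hx
  have hx' : fd27_iota (algebraMap (↥L) Qb) M x ∈ P'.toValuationSubring := by
    rw [wp1_mem_iff_ord_nonneg, hP']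
    exact (wp1_mem_iff_ord_nonneg P x).mp hx
  obtain ⟨c, hc⟩ := rs45_value_ord M L hrat x hx'
  refine ⟨c, ?_⟩
  have hιc : fd27_iota (algebraMap (↥L) Qb) M
      (algebraMap (↥L) ↥(modularFunctionFieldFullC (↥L) M) c) =
      algebraMap Qb ↥(modularFunctionFieldBar M) ((c : ↥L) : Qb) :=
    fd27_iota_algebraMap (algebraMap (↥L) Qb) M c
  rcases hc with hc | hc
  · left
    apply fd27_iota_injective (algebraMap (↥L) Qb) M
    rw [hc, hιc]
  · right
    rw [← hιc, ← map_sub, hP'] at hc
    intro hmem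
    have h1 := (wp1_mem_iff_ord_nonneg P _).mp hmem
    rw [Place.ord_inv] at h1
    omega

/-! ## 4. The package -/

/-- **`s34i47_Pkg_FieldDef`**: CORE at level `M` ⟹ FFU at level `M`. -/
theorem fd45_pkg_fieldDef : s34i47_Pkg_FieldDef := by
  intro M q m hM hq hm hcore A hA t ht f hf hord
  haveI := hM
  obtain ⟨L, hfd, hgal, -, ⟨fL, hfL⟩, hrat⟩ := rs45_exists M f ∅
  haveI := hfd
  haveI := hgal
  haveI hnf : NumberField (↥L) := fd27_numberField L hfd
  haveI hdvr : IsDiscreteValuationRing (A.comap (algebraMap (↥L) Qb)) :=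
    nf23_comap_isDVR_of_liesOverPrime (algebraMap (↥L) Qb) A hq.ne_zero hA
  obtain ⟨π, hπ⟩ := IsDiscreteValuationRing.exists_irreducible (A.comap (algebraMap (↥L) Qb))
  letI alg : Algebra (A.comap (algebraMap (↥L) Qb)) ↥(modularFunctionFieldFullC (↥L) M) :=
    ((algebraMap (↥L) ↥(modularFunctionFieldFullC (↥L) M)).comp
      (algebraMap (A.comap (algebraMap (↥L) Qb)) (↥L))).toAlgebra
  haveI htower : IsScalarTower (A.comap (algebraMap (↥L) Qb)) (↥L)
      ↥(modularFunctionFieldFullC (↥L) M) :=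
    IsScalarTower.of_algebraMap_eq (fun _ => rfl)
  have hunit : ∀ n : ℕ, Nat.Coprime n q → IsUnit ((n : ℕ) : A.comap (algebraMap (↥L) Qb)) := by
    intro n hn
    obtain ⟨μ, hμ⟩ := nf23_exists_natCast_mul_eq_one (algebraMap (↥L) Qb) A hA hn
    exact IsUnit.of_mul_eq_one _ hμ
  have hqnu : ¬ IsUnit ((q : ℕ) : A.comap (algebraMap (↥L) Qb)) := by
    intro hu
    have h1 : ((q : ↥L)) ∈ (A.comap (algebraMap (↥L) Qb)).nonunits := by
      rw [nf23_mem_nonunits_comap, map_natCast]
      exact hA
    have h2 : ((q : ℕ) : A.comap (algebraMap (↥L) Qb)) ∈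
        IsLocalRing.maximalIdeal (A.comap (algebraMap (↥L) Qb)) := by
      rw [← ValuationSubring.coe_mem_nonunits_iff]
      exact h1
    exact h2 hu
  have hσ := fd45_inertial A L ht
  have hfL0 : fL ≠ 0 := by
    rintro rfl
    apply hf
    rw [← hfL, map_zero]
  have hdiv : ∀ P : Place (↥L) ↥(modularFunctionFieldFullC (↥L) M), (m : ℤ) ∣ P.ord fL := by
    intro P
    refine cx_modular_place_dvd (K0 := ↥L) (fd27_iota (algebraMap (↥L) Qb) M)
      (fun u => fd27_iota_coe _ _ u) (m : ℤ) _ ?_ P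
    intro P'
    rw [hfL]
    exact hord P'
  have hratL : ∀ P : Place (↥L) ↥(modularFunctionFieldFullC (↥L) M),
      (fL ∈ P.toValuationSubring ∧ fL⁻¹ ∈ P.toValuationSubring) ∨
        s34i47_IsRat (↥L) P.toValuationSubring := by
    intro P
    obtain ⟨P', hP'⟩ := cx_modular_place_exists (K0 := ↥L) (fd27_iota (algebraMap (↥L) Qb) M)
      (fun u => fd27_iota_coe _ _ u) P
    by_cases h0 : P.ord fL = 0
    · left
      refine ⟨(wp1_mem_iff_ord_nonneg P fL).mpr (by rw [h0]), ?_⟩
      rw [wp1_mem_iff_ord_nonneg, Place.ord_inv, h0]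
      simp
    · right
      refine fd45_isRat M L P P' hP' (hrat P' ?_)
      rw [← hfL, hP']
      exact h0
  obtain ⟨f₀, c, hf0, -, hfc⟩ := hcore (↥(A.comap (algebraMap (↥L) Qb))) (↥L) π hπ hunit hqnu
    (t.restrictNormal L).toRingEquiv (t.restrictNormal L).toRingEquiv hσ hσ fL hfL0 hdiv hratL
  have hι := congrArg (fd27_iota (algebraMap (↥L) Qb) M) hfc
  rw [map_mul, map_pow, fd45_iota_dd, hfL, fd27_iota_algebraMap] at hι
  obtain ⟨γ, hγ⟩ := IsAlgClosed.exists_pow_nat_eq (algebraMap (↥L) Qb c) hm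
  have hf0' : fd27_iota (algebraMap (↥L) Qb) M f₀ ≠ 0 :=
    (map_ne_zero_iff _ (fd27_iota_injective (algebraMap (↥L) Qb) M)).mpr hf0
  refine ⟨algebraMap Qb ↥(modularFunctionFieldBar M) γ * (fd27_iota (algebraMap (↥L) Qb) M f₀)⁻¹, ?_⟩
  rw [mul_pow, ← map_pow, hγ, ← hι, inv_pow, mul_comm, ← mul_assoc,
    inv_mul_cancel₀ (pow_ne_zero m hf0'), one_mul]

end Fermat.Agent.S34
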