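import Fermat.Agent.S34.Iface47
import Fermat.Agent.S18.ConstExtModular25
import Fermat.Agent.S24.PlacesBasic

/-!
# S34 lab (helper29): the package `s34i47_Pkg_Fin` of the interface

`fs29_Pkg_Fin : s34i47_Pkg_Fin` — for a number field `K` inside `ℚ̄` and a nonzero function `f`
of `F_K(M) = modularFunctionFieldFullC K M`, only finitely many places of `F_K(M) / K` are zeros
or poles of `f`.

Proof: every place `P` of `F_K(M) / K` extends to a place `P'` of `ℚ̄ · F(M)` with the same
orders (`cx_modular_place_exists`, constant field extensions are unramified); `P ↦ P'` is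
injective because `P` is recovered from the orders; over `ℚ̄` the set of zeros and poles of a
nonzero function is finite (`wp1_finite_ord_ne_zero`).

All names are prefixed `fs29_`.
-/

set_option autoImplicit false
set_option linter.style.haveILetI false

open ModularCurve AlgebraicCurve IntermediateField

namespace Fermat.Agent.S34

open Fermat.Agent.S18 Fermat.Agent.S24

local notation "Q̄" => AlgebraicClosure ℚ

/-- A function of order zero at a place is a unit of its valuation ring. -/
theorem fs29_unit_of_ord_eq_zero {K F : Type*} [Field K] [Field F] [Algebra K F]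
    (P : Place K F) (f : F) (h : P.ord f = 0) :
    f ∈ P.toValuationSubring ∧ f⁻¹ ∈ P.toValuationSubring := by
  refine ⟨(wp1_mem_iff_ord_nonneg P f).mpr h.ge, (wp1_mem_iff_ord_nonneg P f⁻¹).mpr ?_⟩
  rw [P.ord_inv, h, neg_zero]

/-- A place which is a zero or a pole of `f` has nonzero order at `f`. -/
theorem fs29_ord_ne_zero {K F : Type*} [Field K] [Field F] [Algebra K F]
    (P : Place K F) (f : F)
    (h : ¬ (f ∈ P.toValuationSubring ∧ f⁻¹ ∈ P.toValuationSubring)) : P.ord f ≠ 0 :=
  fun h0 => h (fs29_unit_of_ord_eq_zero P f h0)

/-- Transcendence is transported along an equality of intermediate fields. -/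
theorem fs29_transcendental_transport {K L : Type*} [Field K] [Field L] [Algebra K L]
    {S T : IntermediateField K L} (h : S = T) (y : S) (z : T) (hyz : (y : L) = (z : L))
    (hz : Transcendental K z) : Transcendental K y := by
  subst h
  have hy : y = z := Subtype.ext hyz
  subst hy
  exact hz

/-- Over `ℚ̄` a nonzero function of `ℚ̄ · F(M)` has finitely many zeros and poles. -/
theorem fs29_finite_bar (M : ℕ) [NeZero M] (g : ↥(modularFunctionFieldBar M)) (hg : g ≠ 0) :
    {P' : Place Q̄ ↥(modularFunctionFieldBar M) | P'.ord g ≠ 0}.Finite := by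
  haveI := relimc_finite Q̄ M
  -- the coordinate `J` as an element of `ℚ̄ · F(M)`
  have hmem : (jqModC Q̄ : LaurentSeries Q̄) ∈ modularFunctionFieldBar M := by
    rw [cx_bar_eq_fullC]
    exact (relimc_J Q̄ M).2
  set y : ↥(modularFunctionFieldBar M) := ⟨jqModC Q̄, hmem⟩ with hy
  have hyz : ((y : ↥(modularFunctionFieldBar M)) : LaurentSeries Q̄) =
      ((relimc_J Q̄ M : ↥(modularFunctionFieldFullC Q̄ M)) : LaurentSeries Q̄) := rfl
  have htr : Transcendental Q̄ y :=
    fs29_transcendental_transport (cx_bar_eq_fullC M) y (relimc_J Q̄ M) hyz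
      (relimc_J_transcendental Q̄ M)
  haveI : FiniteDimensional Q̄⟮y⟯ ↥(modularFunctionFieldBar M) :=
    cx_finiteDimensional_transport (cx_bar_eq_fullC M) y (relimc_J Q̄ M) hyz
  exact wp1_finite_ord_ne_zero y htr g hg

/-- **FIN** at level `M`: over a number field, a nonzero function of `F_K(M)` has finitely many
zeros and poles. -/
theorem fs29_finSupp (M : ℕ) [NeZero M] : s34i47_FinSupp M := by
  intro K _ _ _ f hf
  classical
  haveI : CharZero K := inferInstance
  -- the canonical embedding into `ℚ̄ · F(M)`
  have hι : ∀ g : ↥(modularFunctionFieldFullC K M),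
      ((cx_iota K M g : ↥(modularFunctionFieldBar M)) : LaurentSeries Q̄) =
        coeffMap (algebraMap K Q̄) (g : LaurentSeries K) := fun g => cx_iota_coe K M g
  -- every place extends with the same orders
  choose E hE using fun P : Place K ↥(modularFunctionFieldFullC K M) =>
    cx_modular_place_exists (cx_iota K M) hι P
  -- the extension determines the place
  have hinj : Function.Injective E := by
    intro P Q h
    apply Place.ext
    ext g
    rw [wp1_mem_iff_ord_nonneg, wp1_mem_iff_ord_nonneg, ← hE P g, ← hE Q g, h]
  have hf' : cx_iota K M f ≠ 0 := (map_ne_zero (cx_iota K M)).mpr hf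
  refine ((fs29_finite_bar M (cx_iota K M f) hf').preimage hinj.injOn).subset ?_
  intro P hP
  show (E P).ord (cx_iota K M f) ≠ 0
  rw [hE P f]
  exact fs29_ord_ne_zero P f hP

/-- **The package `s34i47_Pkg_Fin`** of the interface. -/
theorem fs29_Pkg_Fin : s34i47_Pkg_Fin := fun M hM => by
  haveI := hM
  exact fs29_finSupp M

end Fermat.Agent.S34
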