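import Fermat.Agent.S34.AtkinLehnerL97
import Fermat.Agent.S34.Iface47
import Fermat.Agent.S18.GaussPack55

/-!
# S34 lab, package P1b part B (helper97): the second valuation `V_0 = w^* V_∞`

* `al97V_mem_iff_of_normal` : for `x * b = c * a` with `a, b` integral series of nonzero
  reduction, `x` lies in the Gauss ring iff the constant `c` is integral.
* `al97V_qExpand_mem_iff` : Gauss membership is invariant under `q ↦ q^ℓ`.
* `al97V_comap φ N ℓ hℓ hN V := V.comap w` (`w = al97L_w`), `al97V_mem_comap`,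
  `al97V_comap_comap`; transport of `R ⊆ V`, `π⁻¹ ∉ V`, `hmax` (`al97V_algebraMap_mem_comap`,
  `al97V_inv_not_mem_comap`, `al97V_hmax_comap`).
* Restrictions to level `N` of the Gauss ring `V_∞ = gv85_V res F(Nℓ) hF` and of
  `V_0 = al97V_comap V_∞`: along `α` and along `β` all four are the Gauss ring of level `N`
  (`al97V_alpha_mem`, `al97V_beta_mem`, `al97V_alpha_mem_comap`, `al97V_beta_mem_comap`).
* `al97V_w_coeffEquiv` : `w` commutes with `s34i47_coeffEquiv σ`;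
  `al97V_GalProps` : the Galois hypotheses (G) of the interface for `W = V ⊓ w^* V` from the
  corresponding facts for `V` alone.
* Discrete valuation ring instance (`V_∞ = c1g55_V R K (N * ℓ) hπ`): `al97V_V0`, `al97V_mem_V0`,
  `al97V_alpha_mem_Vinf`, `al97V_beta_mem_Vinf`, `al97V_alpha_mem_V0`, `al97V_beta_mem_V0`,
  `al97V_algebraMap_mem_V0`, `al97V_pi_inv_not_mem_V0`, `al97V_hmax_V0`, `al97V_GalProps_W`.
-/

set_option autoImplicit false
set_option linter.unusedSectionVars false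
set_option linter.style.haveILetI false

namespace Fermat.Agent.S34

open ModularCurve AlgebraicCurve IntermediateField
open Fermat.Agent.S24 Fermat.Agent.S37 Fermat.Agent.S18

section al97V_gauss

variable {R K κ : Type*} [CommRing R] [IsDomain R] [ValuationRing R] [Field K] [Algebra R K]
  [IsFractionRing R K] [Field κ] (res : R →+* κ)

/-- **Normal form criterion** for the Gauss ring: if `x * b = c * a` with `a`, `b` integral
series of nonzero reduction, then `x` is in the Gauss ring iff `c` is integral. -/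
theorem al97V_mem_iff_of_normal (hres : ∀ r : R, ¬ IsUnit r → res r = 0)
    (x : LaurentSeries K) (a b : LaurentSeries R) (c : K)
    (ha : coeffMap res a ≠ 0) (hb : coeffMap res b ≠ 0)
    (hab : x * coeffMap (algebraMap R K) b = HahnSeries.C c * coeffMap (algebraMap R K) a) :
    (∃ s t : LaurentSeries R, coeffMap res s ≠ 0 ∧
      coeffMap (algebraMap R K) s * x = coeffMap (algebraMap R K) t) ↔
      ∃ r : R, algebraMap R K r = c := by
  constructor
  · rintro ⟨s, t, hs, hst⟩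
    by_cases hc : c = 0
    · exact ⟨0, by rw [map_zero, hc]⟩
    rcases ValuationRing.isInteger_or_isInteger R c with ⟨r, hr⟩ | ⟨r, hr⟩
    · exact ⟨r, hr⟩
    · by_cases hu : IsUnit r
      · obtain ⟨u, rfl⟩ := hu
        exact ⟨((u⁻¹ : Rˣ) : R), by rw [map_units_inv, hr, inv_inv]⟩
      · exfalso
        have hr0 : res r = 0 := hres r hu
        have hC : (HahnSeries.C c⁻¹ : LaurentSeries K) * HahnSeries.C c = 1 := by
          rw [← map_mul, inv_mul_cancel₀ hc, map_one]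
        have h2 : coeffMap (algebraMap R K) (s * a) =
            coeffMap (algebraMap R K) (HahnSeries.C r * (t * b)) := by
          rw [map_mul, map_mul, map_mul, gv85_coeffMap_C, hr, ← hst]
          calc coeffMap (algebraMap R K) s * coeffMap (algebraMap R K) a
              = coeffMap (algebraMap R K) s *
                  ((HahnSeries.C c⁻¹ * HahnSeries.C c) * coeffMap (algebraMap R K) a) := by
                rw [hC, one_mul]
            _ = HahnSeries.C c⁻¹ *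
                  (coeffMap (algebraMap R K) s * x * coeffMap (algebraMap R K) b) := by
                rw [mul_assoc (HahnSeries.C c⁻¹), ← hab]
                ring
        have h3 := gv85_emb_injective h2
        have h4 : coeffMap res s * coeffMap res a = 0 := by
          rw [← map_mul, h3, map_mul, gv85_coeffMap_C, hr0, map_zero, zero_mul]
        rcases mul_eq_zero.mp h4 with h | h
        · exact hs h
        · exact ha h
  · rintro ⟨r, rfl⟩
    refine ⟨b, HahnSeries.C r * a, hb, ?_⟩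
    rw [map_mul, gv85_coeffMap_C, ← hab, mul_comm]

/-- **The Gauss ring is invariant under `q ↦ q^ℓ`**: for `x` in a field `F` with (HF), the series
`x(q^ℓ)` satisfies the Gauss condition iff `x` does. -/
theorem al97V_qExpand_mem_iff (hres : ∀ r : R, ¬ IsUnit r → res r = 0)
    (F : IntermediateField K (LaurentSeries K)) (hF : gv85_HF res F) (x : F)
    (ℓ : ℕ) [NeZero ℓ] :
    (∃ s t : LaurentSeries R, coeffMap res s ≠ 0 ∧
      coeffMap (algebraMap R K) s * qExpand K ℓ (x : LaurentSeries K) =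
        coeffMap (algebraMap R K) t) ↔
    (∃ s t : LaurentSeries R, coeffMap res s ≠ 0 ∧
      coeffMap (algebraMap R K) s * (x : LaurentSeries K) = coeffMap (algebraMap R K) t) := by
  by_cases hx : x = 0
  · have h1 : ∃ s t : LaurentSeries R, coeffMap res s ≠ 0 ∧
        coeffMap (algebraMap R K) s * qExpand K ℓ ((x : F) : LaurentSeries K) =
          coeffMap (algebraMap R K) t :=
      ⟨1, 0, by rw [map_one]; exact one_ne_zero, by rw [hx]; simp⟩
    have h2 : ∃ s t : LaurentSeries R, coeffMap res s ≠ 0 ∧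
        coeffMap (algebraMap R K) s * ((x : F) : LaurentSeries K) =
          coeffMap (algebraMap R K) t :=
      ⟨1, 0, by rw [map_one]; exact one_ne_zero, by rw [hx]; simp⟩
    exact ⟨fun _ => h2, fun _ => h1⟩
  obtain ⟨a, b, c, -, ha, hb, hab⟩ := hF x hx
  have hab' : qExpand K ℓ (x : LaurentSeries K) * coeffMap (algebraMap R K) (qExpand R ℓ b) =
      HahnSeries.C c * coeffMap (algebraMap R K) (qExpand R ℓ a) := by
    rw [coeffMap_qExpand, coeffMap_qExpand, ← map_mul, hab, map_mul, qExpand_C]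
  have ha' : coeffMap res (qExpand R ℓ a) ≠ 0 := by
    rw [coeffMap_qExpand]
    intro h
    exact ha (qExpand_injective ℓ (by rw [h, map_zero]))
  have hb' : coeffMap res (qExpand R ℓ b) ≠ 0 := by
    rw [coeffMap_qExpand]
    intro h
    exact hb (qExpand_injective ℓ (by rw [h, map_zero]))
  rw [al97V_mem_iff_of_normal res hres _ _ _ c ha' hb' hab',
    al97V_mem_iff_of_normal res hres _ a b c ha hb hab]

end al97V_gauss

section al97V_comap

variable {K : Type*} [Field K] (φ : K →+* Kbar)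
variable (N ℓ : ℕ) [NeZero N] [NeZero ℓ] (hℓ : ℓ.Prime) (hN : ¬ ℓ ∣ N)

/-- `w^* V` for a valuation subring `V` of `F(Nℓ)_K` (`V_0 := w^* V_∞`). -/
noncomputable def al97V_comap (V : ValuationSubring ↥(modularFunctionFieldFullC K (N * ℓ))) :
    ValuationSubring ↥(modularFunctionFieldFullC K (N * ℓ)) :=
  V.comap (al97L_wRing φ N ℓ hℓ hN).toRingHom

theorem al97V_mem_comap (V : ValuationSubring ↥(modularFunctionFieldFullC K (N * ℓ)))
    (x : ↥(modularFunctionFieldFullC K (N * ℓ))) :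
    x ∈ al97V_comap φ N ℓ hℓ hN V ↔ al97L_w φ N ℓ hℓ hN x ∈ V := Iff.rfl

theorem al97V_mem_comap' (V : ValuationSubring ↥(modularFunctionFieldFullC K (N * ℓ)))
    (x : ↥(modularFunctionFieldFullC K (N * ℓ))) :
    x ∈ al97V_comap φ N ℓ hℓ hN V ↔ al97L_wRing φ N ℓ hℓ hN x ∈ V := Iff.rfl

theorem al97V_w_mem_comap (V : ValuationSubring ↥(modularFunctionFieldFullC K (N * ℓ)))
    (x : ↥(modularFunctionFieldFullC K (N * ℓ))) :
    al97L_w φ N ℓ hℓ hN x ∈ al97V_comap φ N ℓ hℓ hN V ↔ x ∈ V := by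
  rw [al97V_mem_comap, al97L_w_w]

/-- `w^* (w^* V) = V`. -/
theorem al97V_comap_comap (V : ValuationSubring ↥(modularFunctionFieldFullC K (N * ℓ))) :
    al97V_comap φ N ℓ hℓ hN (al97V_comap φ N ℓ hℓ hN V) = V := by
  ext x
  rw [al97V_mem_comap, al97V_mem_comap, al97L_w_w]

variable {R : Type*} [CommRing R] [Algebra R K]
  [Algebra R ↥(modularFunctionFieldFullC K (N * ℓ))]
  [IsScalarTower R K ↥(modularFunctionFieldFullC K (N * ℓ))]

/-- `w` fixes the constants of `R`. -/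
theorem al97V_w_algebraMap (r : R) :
    al97L_wRing φ N ℓ hℓ hN (algebraMap R ↥(modularFunctionFieldFullC K (N * ℓ)) r) =
      algebraMap R ↥(modularFunctionFieldFullC K (N * ℓ)) r := by
  rw [IsScalarTower.algebraMap_apply R K ↥(modularFunctionFieldFullC K (N * ℓ)),
    al97L_wRing_algebraMap]

theorem al97V_algebraMap_mem_comap
    (V : ValuationSubring ↥(modularFunctionFieldFullC K (N * ℓ)))
    (hV : ∀ r : R, algebraMap R ↥(modularFunctionFieldFullC K (N * ℓ)) r ∈ V) (r : R) :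
    algebraMap R ↥(modularFunctionFieldFullC K (N * ℓ)) r ∈ al97V_comap φ N ℓ hℓ hN V := by
  rw [al97V_mem_comap', al97V_w_algebraMap]
  exact hV r

theorem al97V_inv_not_mem_comap
    (V : ValuationSubring ↥(modularFunctionFieldFullC K (N * ℓ))) (π : R)
    (hV : (algebraMap R ↥(modularFunctionFieldFullC K (N * ℓ)) π)⁻¹ ∉ V) :
    (algebraMap R ↥(modularFunctionFieldFullC K (N * ℓ)) π)⁻¹ ∉ al97V_comap φ N ℓ hℓ hN V := by
  rw [al97V_mem_comap', map_inv₀, al97V_w_algebraMap]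
  exact hV

theorem al97V_hmax_comap
    (V : ValuationSubring ↥(modularFunctionFieldFullC K (N * ℓ))) (π : R)
    (hV : ∀ x ∈ V, x⁻¹ ∉ V →
      (algebraMap R ↥(modularFunctionFieldFullC K (N * ℓ)) π)⁻¹ * x ∈ V)
    (x : ↥(modularFunctionFieldFullC K (N * ℓ))) (hx : x ∈ al97V_comap φ N ℓ hℓ hN V)
    (hx' : x⁻¹ ∉ al97V_comap φ N ℓ hℓ hN V) :
    (algebraMap R ↥(modularFunctionFieldFullC K (N * ℓ)) π)⁻¹ * x ∈
      al97V_comap φ N ℓ hℓ hN V := by
  rw [al97V_mem_comap'] at hx hx' ⊢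
  rw [map_inv₀] at hx'
  rw [map_mul, map_inv₀, al97V_w_algebraMap]
  exact hV _ hx hx'

end al97V_comap

section al97V_restrict

variable {R K κ : Type*} [CommRing R] [IsDomain R] [ValuationRing R] [Field K] [Algebra R K]
  [IsFractionRing R K] [Field κ] (res : R →+* κ) (φ : K →+* Kbar)
variable (N ℓ : ℕ) [NeZero N] [NeZero ℓ] (hℓ : ℓ.Prime) (hN : ¬ ℓ ∣ N)
variable (hF' : gv85_HF res (modularFunctionFieldFullC K N))
  (hF : gv85_HF res (modularFunctionFieldFullC K (N * ℓ)))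

/-- `V_∞ ∩ α(F(N)) = α(V')`. -/
theorem al97V_alpha_mem (x : ↥(modularFunctionFieldFullC K N)) :
    al97L_alpha K N ℓ x ∈ gv85_V res (modularFunctionFieldFullC K (N * ℓ)) hF ↔
      x ∈ gv85_V res (modularFunctionFieldFullC K N) hF' := by
  rw [gv85_mem_V, gv85_mem_V, al97L_alpha_coe]

/-- `V_∞ ∩ β(F(N)) = β(V')`. -/
theorem al97V_beta_mem (hres : ∀ r : R, ¬ IsUnit r → res r = 0)
    (x : ↥(modularFunctionFieldFullC K N)) :
    al97L_beta K N ℓ x ∈ gv85_V res (modularFunctionFieldFullC K (N * ℓ)) hF ↔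
      x ∈ gv85_V res (modularFunctionFieldFullC K N) hF' := by
  rw [gv85_mem_V, gv85_mem_V, al97L_beta_coe]
  exact al97V_qExpand_mem_iff res hres _ hF' x ℓ

/-- `V_0 ∩ α(F(N)) = α(V')`. -/
theorem al97V_alpha_mem_comap (hres : ∀ r : R, ¬ IsUnit r → res r = 0)
    (x : ↥(modularFunctionFieldFullC K N)) :
    al97L_alpha K N ℓ x ∈ al97V_comap φ N ℓ hℓ hN
        (gv85_V res (modularFunctionFieldFullC K (N * ℓ)) hF) ↔
      x ∈ gv85_V res (modularFunctionFieldFullC K N) hF' := by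
  rw [al97V_mem_comap, al97L_w_alpha_apply]
  exact al97V_beta_mem res N ℓ hF' hF hres x

/-- `V_0 ∩ β(F(N)) = β(V')`. -/
theorem al97V_beta_mem_comap (x : ↥(modularFunctionFieldFullC K N)) :
    al97L_beta K N ℓ x ∈ al97V_comap φ N ℓ hℓ hN
        (gv85_V res (modularFunctionFieldFullC K (N * ℓ)) hF) ↔
      x ∈ gv85_V res (modularFunctionFieldFullC K N) hF' := by
  rw [al97V_mem_comap, al97L_w_beta_apply]
  exact al97V_alpha_mem res N ℓ hF' hF x

end al97V_restrict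

section al97V_galois

variable {K : Type*} [Field K] (φ : K →+* Kbar)
variable (N ℓ : ℕ) [NeZero N] [NeZero ℓ] (hℓ : ℓ.Prime) (hN : ¬ ℓ ∣ N)

/-- `w` commutes with the coefficientwise action of every automorphism of `K`. -/
theorem al97V_w_coeffEquiv (σ : K ≃+* K) (x : ↥(modularFunctionFieldFullC K (N * ℓ))) :
    al97L_wRing φ N ℓ hℓ hN (s34i47_coeffEquiv σ (N * ℓ) x) =
      s34i47_coeffEquiv σ (N * ℓ) (al97L_wRing φ N ℓ hℓ hN x) := by
  apply Subtype.ext
  rw [s34i47_coeffEquiv_coe]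
  exact al97L_w_coeffMap φ φ (σ : K →+* K) N ℓ hℓ hN x _ (s34i47_coeffEquiv_coe σ _ x)

theorem al97V_coeffEquiv_algebraMap (σ : K ≃+* K) (M : ℕ) (c : K) :
    s34i47_coeffEquiv σ M (algebraMap K ↥(modularFunctionFieldFullC K M) c) =
      algebraMap K ↥(modularFunctionFieldFullC K M) (σ c) := by
  apply Subtype.ext
  rw [s34i47_coeffEquiv_coe]
  exact cx_coeffMap_algebraMap (σ : K →+* K) c

variable {R : Type*} [CommRing R] [Algebra R K]
  [Algebra R ↥(modularFunctionFieldFullC K (N * ℓ))]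
  [IsScalarTower R K ↥(modularFunctionFieldFullC K (N * ℓ))]

/-- **(G) for `W = V ⊓ w^* V`** from the corresponding facts for `V` alone: if the coefficientwise
action of `σ` preserves `R`, preserves the valuation of `V` (`σ x / x ∈ V`) and is trivial on
`V / π V`, then it satisfies the Galois hypotheses of the interface for `W = V ⊓ w^* V`. -/
theorem al97V_GalProps (π : R) (V : ValuationSubring ↥(modularFunctionFieldFullC K (N * ℓ)))
    (σ : K ≃+* K)
    (h0 : ∀ r : R, ∃ r' : R, σ (algebraMap R K r) = algebraMap R K r')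
    (h1 : ∀ x : ↥(modularFunctionFieldFullC K (N * ℓ)), x ≠ 0 →
      s34i47_coeffEquiv σ (N * ℓ) x / x ∈ V)
    (h2 : ∀ x ∈ V, (algebraMap R ↥(modularFunctionFieldFullC K (N * ℓ)) π)⁻¹ *
      (s34i47_coeffEquiv σ (N * ℓ) x - x) ∈ V) :
    s34i47_GalProps π (V.toSubring ⊓ (al97V_comap φ N ℓ hℓ hN V).toSubring)
      (s34i47_coeffEquiv σ (N * ℓ)) := by
  refine ⟨fun r => ?_, fun x hx => ?_, fun x hx => ?_⟩
  · obtain ⟨r', hr'⟩ := h0 r
    refine ⟨r', ?_⟩
    rw [IsScalarTower.algebraMap_apply R K ↥(modularFunctionFieldFullC K (N * ℓ)),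
      al97V_coeffEquiv_algebraMap, hr',
      ← IsScalarTower.algebraMap_apply R K ↥(modularFunctionFieldFullC K (N * ℓ))]
  · refine Subring.mem_inf.mpr ⟨h1 x hx, ?_⟩
    show s34i47_coeffEquiv σ (N * ℓ) x / x ∈ al97V_comap φ N ℓ hℓ hN V
    rw [al97V_mem_comap', map_div₀, al97V_w_coeffEquiv]
    exact h1 _ (fun h => hx ((map_eq_zero_iff _ (al97L_wRing φ N ℓ hℓ hN).injective).mp h))
  · obtain ⟨hxV, hxV0⟩ := Subring.mem_inf.mp hx
    refine Subring.mem_inf.mpr ⟨h2 x hxV, ?_⟩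
    show _ ∈ al97V_comap φ N ℓ hℓ hN V
    have hxV0' : al97L_wRing φ N ℓ hℓ hN x ∈ V := hxV0
    rw [al97V_mem_comap', map_mul, map_inv₀, al97V_w_algebraMap, map_sub, al97V_w_coeffEquiv]
    exact h2 _ hxV0'

end al97V_galois

section al97V_dvr

variable {R K : Type} [CommRing R] [IsDomain R] [IsDiscreteValuationRing R] [Field K]
  [Algebra R K] [IsFractionRing R K] (φ : K →+* Kbar)
variable (N ℓ : ℕ) [NeZero N] [NeZero ℓ] (hℓ : ℓ.Prime) (hN : ¬ ℓ ∣ N)
  {π : R} (hπ : Irreducible π)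

theorem al97V_residue_of_not_isUnit (r : R) (hr : ¬ IsUnit r) : IsLocalRing.residue R r = 0 :=
  (IsLocalRing.residue_eq_zero_iff r).mpr ((IsLocalRing.mem_maximalIdeal r).mpr hr)

/-- **The second valuation ring** `V_0 = w^* V_∞` of `F(Nℓ)_K` over a discrete valuation ring
(`V_∞ = c1g55_V R K (N * ℓ) hπ`, definitionally `cm85_Vinf (N * ℓ) hπ`). -/
noncomputable def al97V_V0 : ValuationSubring ↥(modularFunctionFieldFullC K (N * ℓ)) :=
  al97V_comap φ N ℓ hℓ hN (c1g55_V R K (N * ℓ) hπ)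

theorem al97V_mem_V0 (x : ↥(modularFunctionFieldFullC K (N * ℓ))) :
    x ∈ al97V_V0 φ N ℓ hℓ hN hπ ↔ al97L_w φ N ℓ hℓ hN x ∈ c1g55_V R K (N * ℓ) hπ := Iff.rfl

/-- `α x ∈ V_∞ ↔ x ∈ V'`. -/
theorem al97V_alpha_mem_Vinf (x : ↥(modularFunctionFieldFullC K N)) :
    al97L_alpha K N ℓ x ∈ c1g55_V R K (N * ℓ) hπ ↔ x ∈ c1g55_V R K N hπ :=
  al97V_alpha_mem (IsLocalRing.residue R) N ℓ (c1g55_HF R K N hπ) (c1g55_HF R K (N * ℓ) hπ) x

/-- `β x ∈ V_∞ ↔ x ∈ V'`. -/
theorem al97V_beta_mem_Vinf (x : ↥(modularFunctionFieldFullC K N)) :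
    al97L_beta K N ℓ x ∈ c1g55_V R K (N * ℓ) hπ ↔ x ∈ c1g55_V R K N hπ :=
  al97V_beta_mem (IsLocalRing.residue R) N ℓ (c1g55_HF R K N hπ) (c1g55_HF R K (N * ℓ) hπ)
    al97V_residue_of_not_isUnit x

/-- `α x ∈ V_0 ↔ x ∈ V'`. -/
theorem al97V_alpha_mem_V0 (x : ↥(modularFunctionFieldFullC K N)) :
    al97L_alpha K N ℓ x ∈ al97V_V0 φ N ℓ hℓ hN hπ ↔ x ∈ c1g55_V R K N hπ :=
  al97V_alpha_mem_comap (IsLocalRing.residue R) φ N ℓ hℓ hN (c1g55_HF R K N hπ)
    (c1g55_HF R K (N * ℓ) hπ) al97V_residue_of_not_isUnit x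

/-- `β x ∈ V_0 ↔ x ∈ V'`. -/
theorem al97V_beta_mem_V0 (x : ↥(modularFunctionFieldFullC K N)) :
    al97L_beta K N ℓ x ∈ al97V_V0 φ N ℓ hℓ hN hπ ↔ x ∈ c1g55_V R K N hπ :=
  al97V_beta_mem_comap (IsLocalRing.residue R) φ N ℓ hℓ hN (c1g55_HF R K N hπ)
    (c1g55_HF R K (N * ℓ) hπ) x

variable [Algebra R ↥(modularFunctionFieldFullC K (N * ℓ))]
  [IsScalarTower R K ↥(modularFunctionFieldFullC K (N * ℓ))]

theorem al97V_algebraMap_mem_V0 (r : R) :
    algebraMap R ↥(modularFunctionFieldFullC K (N * ℓ)) r ∈ al97V_V0 φ N ℓ hℓ hN hπ :=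
  al97V_algebraMap_mem_comap φ N ℓ hℓ hN _ (c1g55_algebraMap_mem hπ) r

theorem al97V_pi_inv_not_mem_V0 :
    (algebraMap R ↥(modularFunctionFieldFullC K (N * ℓ)) π)⁻¹ ∉ al97V_V0 φ N ℓ hℓ hN hπ :=
  al97V_inv_not_mem_comap φ N ℓ hℓ hN _ π (c1g55_pi_inv_not_mem hπ)

theorem al97V_hmax_V0 (x : ↥(modularFunctionFieldFullC K (N * ℓ)))
    (hx : x ∈ al97V_V0 φ N ℓ hℓ hN hπ) (hx' : x⁻¹ ∉ al97V_V0 φ N ℓ hℓ hN hπ) :
    (algebraMap R ↥(modularFunctionFieldFullC K (N * ℓ)) π)⁻¹ * x ∈ al97V_V0 φ N ℓ hℓ hN hπ :=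
  al97V_hmax_comap φ N ℓ hℓ hN _ π (fun y hy hy' => c1g55_hmax hπ y hy hy') x hx hx'

/-- (G) for `W = V_∞ ⊓ V_0` from the corresponding facts for `V_∞`. -/
theorem al97V_GalProps_W (σ : K ≃+* K)
    (h0 : ∀ r : R, ∃ r' : R, σ (algebraMap R K r) = algebraMap R K r')
    (h1 : ∀ x : ↥(modularFunctionFieldFullC K (N * ℓ)), x ≠ 0 →
      s34i47_coeffEquiv σ (N * ℓ) x / x ∈ c1g55_V R K (N * ℓ) hπ)
    (h2 : ∀ x ∈ c1g55_V R K (N * ℓ) hπ,
      (algebraMap R ↥(modularFunctionFieldFullC K (N * ℓ)) π)⁻¹ *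
        (s34i47_coeffEquiv σ (N * ℓ) x - x) ∈ c1g55_V R K (N * ℓ) hπ) :
    s34i47_GalProps π ((c1g55_V R K (N * ℓ) hπ).toSubring ⊓ (al97V_V0 φ N ℓ hℓ hN hπ).toSubring)
      (s34i47_coeffEquiv σ (N * ℓ)) :=
  al97V_GalProps φ N ℓ hℓ hN π _ σ h0 h1 h2

end al97V_dvr

end Fermat.Agent.S34
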