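import Fermat.Agent.S37.AtkinLehner97
import Fermat.Agent.S18.ConstExtModular25

/-!
# S34 lab, package P1b (helper97): the Atkin–Lehner involution over a general constant field

`al97_exists` (S37) gives the Atkin–Lehner involution at a prime `ℓ ∤ N` on the formal function
field of level `N ℓ` over `ℚ̄`.  Here it is descended to `modularFunctionFieldFullC L (N * ℓ)` for
EVERY field `L` with a ring homomorphism `φ : L →+* ℚ̄` (e.g. a number field inside `ℚ̄`):

* `al97L_w φ N ℓ hℓ hN : F(Nℓ)_L ≃ₐ[L] F(Nℓ)_L`, with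
* `al97L_w_w`        : `w (w x) = x`;
* `al97L_w_alpha`    : `w` of (the image in level `N ℓ` of) `x ∈ F(N)_L` is `x(q^ℓ)`  (`w ∘ α = β`);
* `al97L_w_beta`     : `w` of `x(q^ℓ)` is `x`  (`w ∘ β = α`);
* `al97L_w_gen`      : `w (j(q^e)) = j(q^(swap e))` on the generators;
* `al97L_w_iota`     : compatibility with the `ℚ̄`-involution along `φ`;
* `al97L_w_coeffMap` : `w` commutes with `coeffMap σ` for EVERY field homomorphism `σ : L →+* L'`
  (no compatibility with the embeddings into `ℚ̄` is needed): this is the semilinearity with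
  respect to the Galois action on coefficients;
* `al97L_alpha`, `al97L_beta` : the two degeneracy maps `F(N)_L →ₐ[L] F(Nℓ)_L`
  (inclusion, `q ↦ q^ℓ`), `al97L_w_comp_alpha`, `al97L_w_comp_beta`.
-/

set_option autoImplicit false
set_option linter.unusedSectionVars false
set_option linter.style.haveILetI false

namespace Fermat.Agent.S34

open ModularCurve AlgebraicCurve IntermediateField
open Fermat.Agent.S24 Fermat.Agent.S37 Fermat.Agent.S18

section al97L_iota

variable {L : Type*} [Field L]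

/-- `coeffMap` along a homomorphism of fields is injective. -/
theorem al97L_coeffMap_injective {L' : Type*} [Field L'] (σ : L →+* L') :
    Function.Injective (coeffMap σ) := by
  intro x y h
  ext k
  apply σ.injective
  rw [← coeffMap_coeff, ← coeffMap_coeff, h]

/-- The canonical map `F(M)_L → F(M)_{ℚ̄}`: `coeffMap` along `φ : L → ℚ̄`. -/
noncomputable def al97L_iota (φ : L →+* Kbar) (M : ℕ) :
    ↥(modularFunctionFieldFullC L M) →+* ↥(modularFunctionFieldBar M) :=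
  ((coeffMap φ).comp (algebraMap ↥(modularFunctionFieldFullC L M) (LaurentSeries L))).codRestrict
      (modularFunctionFieldBar M) (fun f => by
        rw [cx_bar_eq_fullC]
        exact cx_coeffMap_mem_fullC φ M f.2)

theorem al97L_iota_coe (φ : L →+* Kbar) (M : ℕ) (f : ↥(modularFunctionFieldFullC L M)) :
    ((al97L_iota φ M f : ↥(modularFunctionFieldBar M)) : LaurentSeries Kbar) =
      coeffMap φ (f : LaurentSeries L) := rfl

theorem al97L_iota_injective (φ : L →+* Kbar) (M : ℕ) :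
    Function.Injective (al97L_iota φ M) := by
  intro x y h
  apply Subtype.ext
  apply al97L_coeffMap_injective φ
  rw [← al97L_iota_coe, ← al97L_iota_coe, h]

theorem al97L_iota_algebraMap (φ : L →+* Kbar) (M : ℕ) (c : L) :
    al97L_iota φ M (algebraMap L ↥(modularFunctionFieldFullC L M) c) =
      algebraMap Kbar ↥(modularFunctionFieldBar M) (φ c) := by
  apply Subtype.ext
  rw [al97L_iota_coe]
  exact cx_coeffMap_algebraMap φ c

/-- The generator `j(q^d)` over `L` maps to `JJ d`. -/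
theorem al97L_coeffMap_gen (φ : L →+* Kbar) (d : ℕ) [NeZero d] :
    coeffMap φ (qExpand L d (jqModC L)) = JJ d := by
  rw [coeffMap_qExpand, coeffMap_jqModC, JJ_of_neZero, coeffEmb, coeffMap_qExpand, ← jqModC_rat,
    coeffMap_jqModC]

end al97L_iota

section al97L_bar

variable (N ℓ : ℕ) [NeZero N] [NeZero ℓ] (hℓ : ℓ.Prime) (hN : ¬ ℓ ∣ N)

/-- The Atkin–Lehner endomorphism over `ℚ̄` (a choice of `al97_exists`). -/
noncomputable def al97L_wBar :
    ↥(modularFunctionFieldBar (N * ℓ)) →ₐ[Kbar] ↥(modularFunctionFieldBar (N * ℓ)) :=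
  Classical.choose (al97_exists N ℓ hℓ hN)

theorem al97L_wBar_alpha :
    (al97L_wBar N ℓ hℓ hN).comp (heckeAlphaBar Kbar N ℓ) = heckeBetaBar Kbar N ℓ :=
  (Classical.choose_spec (al97_exists N ℓ hℓ hN)).1

theorem al97L_wBar_beta :
    (al97L_wBar N ℓ hℓ hN).comp (heckeBetaBar Kbar N ℓ) = heckeAlphaBar Kbar N ℓ :=
  (Classical.choose_spec (al97_exists N ℓ hℓ hN)).2.1

theorem al97L_wBar_gen (e : ℕ) (he : e ∣ N * ℓ) (x : ↥(modularFunctionFieldBar (N * ℓ)))
    (hx : (x : LaurentSeries Kbar) = JJ e) :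
    ((al97L_wBar N ℓ hℓ hN x : ↥(modularFunctionFieldBar (N * ℓ))) : LaurentSeries Kbar) =
      JJ (al97_swap ℓ e) :=
  (Classical.choose_spec (al97_exists N ℓ hℓ hN)).2.2 e he x hx

/-- The `ℚ̄`-endomorphism is an involution. -/
theorem al97L_wBar_wBar (x : ↥(modularFunctionFieldBar (N * ℓ))) :
    al97L_wBar N ℓ hℓ hN (al97L_wBar N ℓ hℓ hN x) = x := by
  haveI : NeZero (N * ℓ) := ⟨Nat.mul_ne_zero (NeZero.ne N) (NeZero.ne ℓ)⟩
  have h : (al97L_wBar N ℓ hℓ hN).comp (al97L_wBar N ℓ hℓ hN) =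
      AlgHom.id Kbar ↥(modularFunctionFieldBar (N * ℓ)) := by
    apply IntermediateField.algHom_ext_of_eq_adjoin Kbar (asmAb_eq_adjoin (N * ℓ))
    rintro x ⟨d, rfl⟩
    have hd : d.1 ∣ N * ℓ := Nat.dvd_of_mem_divisors d.2
    apply Subtype.ext
    rw [AlgHom.comp_apply, al97L_wBar_gen N ℓ hℓ hN (al97_swap ℓ d.1)
      (Nat.dvd_of_mem_divisors (al97_swap_mem hℓ d.2)) _
      (al97L_wBar_gen N ℓ hℓ hN d.1 hd _ rfl), al97_swap_swap hℓ hN hd]
    rfl
  exact DFunLike.congr_fun h x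

end al97L_bar

section al97L_descend

variable {L : Type*} [Field L] (φ : L →+* Kbar)
variable (N ℓ : ℕ) [NeZero N] [NeZero ℓ] (hℓ : ℓ.Prime) (hN : ¬ ℓ ∣ N)

/-- Pointwise descent: the `ℚ̄`-involution preserves the image of `F(Nℓ)_L`. -/
theorem al97L_exists_pt (x : LaurentSeries L)
    (hx : x ∈ IntermediateField.adjoin L (divisorExpansionsC L (N * ℓ))) :
    ∃ y : ↥(modularFunctionFieldFullC L (N * ℓ)),
      al97L_iota φ (N * ℓ) y = al97L_wBar N ℓ hℓ hN (al97L_iota φ (N * ℓ) ⟨x, hx⟩) := by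
  induction hx using IntermediateField.adjoin_induction with
  | mem y hy =>
    obtain ⟨d, hd, hdM, rfl⟩ := hy
    haveI := hd
    have hmem : al97_swap ℓ d ∈ (N * ℓ).divisors :=
      al97_swap_mem hℓ (Nat.mem_divisors.mpr
        ⟨hdM, Nat.mul_ne_zero (NeZero.ne N) (NeZero.ne ℓ)⟩)
    have hs0 : al97_swap ℓ d ≠ 0 := fun h0 => by
      have := Nat.pos_of_mem_divisors hmem
      omega
    haveI : NeZero (al97_swap ℓ d) := ⟨hs0⟩
    refine ⟨⟨qExpand L (al97_swap ℓ d) (jqModC L),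
      jqModCd_mem_full L (N * ℓ) (Nat.dvd_of_mem_divisors hmem)⟩, ?_⟩
    apply Subtype.ext
    rw [al97L_iota_coe, al97L_wBar_gen N ℓ hℓ hN d hdM _
      (by rw [al97L_iota_coe]; exact al97L_coeffMap_gen φ d)]
    exact al97L_coeffMap_gen φ (al97_swap ℓ d)
  | algebraMap c =>
    refine ⟨algebraMap L _ c, ?_⟩
    have h : (⟨algebraMap L (LaurentSeries L) c, IntermediateField.algebraMap_mem _ c⟩ :
        ↥(modularFunctionFieldFullC L (N * ℓ))) = algebraMap L _ c := rfl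
    rw [h, al97L_iota_algebraMap, AlgHom.commutes]
  | add x y hx hy ihx ihy =>
    obtain ⟨a, ha⟩ := ihx
    obtain ⟨b, hb⟩ := ihy
    refine ⟨a + b, ?_⟩
    have h : (⟨x + y, add_mem hx hy⟩ : ↥(modularFunctionFieldFullC L (N * ℓ)))
        = ⟨x, hx⟩ + ⟨y, hy⟩ := rfl
    rw [h, map_add, map_add, map_add, ha, hb]
  | inv x hx ihx =>
    obtain ⟨a, ha⟩ := ihx
    refine ⟨a⁻¹, ?_⟩
    have h : (⟨x⁻¹, inv_mem hx⟩ : ↥(modularFunctionFieldFullC L (N * ℓ)))
        = (⟨x, hx⟩ : ↥(modularFunctionFieldFullC L (N * ℓ)))⁻¹ := rfl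
    rw [h, map_inv₀, map_inv₀, map_inv₀, ha]
  | mul x y hx hy ihx ihy =>
    obtain ⟨a, ha⟩ := ihx
    obtain ⟨b, hb⟩ := ihy
    refine ⟨a * b, ?_⟩
    have h : (⟨x * y, mul_mem hx hy⟩ : ↥(modularFunctionFieldFullC L (N * ℓ)))
        = ⟨x, hx⟩ * ⟨y, hy⟩ := rfl
    rw [h, map_mul, map_mul, map_mul, ha, hb]

/-- The underlying function of the involution over `L`. -/
noncomputable def al97L_wFun (x : ↥(modularFunctionFieldFullC L (N * ℓ))) :
    ↥(modularFunctionFieldFullC L (N * ℓ)) :=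
  Classical.choose (al97L_exists_pt φ N ℓ hℓ hN x.1 x.2)

theorem al97L_iota_wFun (x : ↥(modularFunctionFieldFullC L (N * ℓ))) :
    al97L_iota φ (N * ℓ) (al97L_wFun φ N ℓ hℓ hN x) =
      al97L_wBar N ℓ hℓ hN (al97L_iota φ (N * ℓ) x) :=
  Classical.choose_spec (al97L_exists_pt φ N ℓ hℓ hN x.1 x.2)

theorem al97L_wFun_wFun (x : ↥(modularFunctionFieldFullC L (N * ℓ))) :
    al97L_wFun φ N ℓ hℓ hN (al97L_wFun φ N ℓ hℓ hN x) = x := by
  apply al97L_iota_injective φ
  rw [al97L_iota_wFun, al97L_iota_wFun, al97L_wBar_wBar]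

/-- The involution as a ring automorphism. -/
noncomputable def al97L_wRing :
    ↥(modularFunctionFieldFullC L (N * ℓ)) ≃+* ↥(modularFunctionFieldFullC L (N * ℓ)) where
  toFun := al97L_wFun φ N ℓ hℓ hN
  invFun := al97L_wFun φ N ℓ hℓ hN
  left_inv := al97L_wFun_wFun φ N ℓ hℓ hN
  right_inv := al97L_wFun_wFun φ N ℓ hℓ hN
  map_mul' x y := by
    apply al97L_iota_injective φ
    rw [map_mul, al97L_iota_wFun, al97L_iota_wFun, al97L_iota_wFun, map_mul, map_mul]
  map_add' x y := by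
    apply al97L_iota_injective φ
    rw [map_add, al97L_iota_wFun, al97L_iota_wFun, al97L_iota_wFun, map_add, map_add]

theorem al97L_wRing_algebraMap (c : L) :
    al97L_wRing φ N ℓ hℓ hN (algebraMap L ↥(modularFunctionFieldFullC L (N * ℓ)) c) =
      algebraMap L ↥(modularFunctionFieldFullC L (N * ℓ)) c := by
  apply al97L_iota_injective φ
  show al97L_iota φ (N * ℓ) (al97L_wFun φ N ℓ hℓ hN _) = _
  rw [al97L_iota_wFun, al97L_iota_algebraMap, AlgHom.commutes]

/-- **The Atkin–Lehner involution `w_ℓ` on `F(Nℓ)_L`** (`ℓ` prime, `ℓ ∤ N`), for every field `L`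
with a homomorphism to `ℚ̄`. -/
noncomputable def al97L_w :
    ↥(modularFunctionFieldFullC L (N * ℓ)) ≃ₐ[L] ↥(modularFunctionFieldFullC L (N * ℓ)) :=
  { al97L_wRing φ N ℓ hℓ hN with
    commutes' := al97L_wRing_algebraMap φ N ℓ hℓ hN }

theorem al97L_w_apply (x : ↥(modularFunctionFieldFullC L (N * ℓ))) :
    al97L_w φ N ℓ hℓ hN x = al97L_wRing φ N ℓ hℓ hN x := rfl

/-- Compatibility with the `ℚ̄`-involution. -/
theorem al97L_w_iota (x : ↥(modularFunctionFieldFullC L (N * ℓ))) :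
    al97L_iota φ (N * ℓ) (al97L_w φ N ℓ hℓ hN x) =
      al97L_wBar N ℓ hℓ hN (al97L_iota φ (N * ℓ) x) :=
  al97L_iota_wFun φ N ℓ hℓ hN x

/-- `w` is an involution. -/
theorem al97L_w_w (x : ↥(modularFunctionFieldFullC L (N * ℓ))) :
    al97L_w φ N ℓ hℓ hN (al97L_w φ N ℓ hℓ hN x) = x :=
  al97L_wFun_wFun φ N ℓ hℓ hN x

theorem al97L_w_symm : (al97L_w φ N ℓ hℓ hN).symm = al97L_w φ N ℓ hℓ hN := rfl

/-- `w ∘ α = β`: `w` maps a series of level `N` to its `q ↦ q^ℓ` substitution. -/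
theorem al97L_w_alpha (x : ↥(modularFunctionFieldFullC L N))
    (y : ↥(modularFunctionFieldFullC L (N * ℓ)))
    (hxy : (y : LaurentSeries L) = (x : LaurentSeries L)) :
    ((al97L_w φ N ℓ hℓ hN y : ↥(modularFunctionFieldFullC L (N * ℓ))) : LaurentSeries L) =
      qExpand L ℓ (x : LaurentSeries L) := by
  apply al97L_coeffMap_injective φ
  rw [← al97L_iota_coe φ (N * ℓ), al97L_w_iota]
  have h1 : al97L_iota φ (N * ℓ) y = heckeAlphaBar Kbar N ℓ (al97L_iota φ N x) := by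
    apply Subtype.ext
    rw [coe_heckeAlphaBar, al97L_iota_coe, al97L_iota_coe, hxy]
  rw [h1, ← AlgHom.comp_apply, al97L_wBar_alpha, coe_heckeBetaBar, al97L_iota_coe,
    coeffMap_qExpand]

/-- `w ∘ β = α`: `w` maps the `q ↦ q^ℓ` substitution of a series of level `N` to that series. -/
theorem al97L_w_beta (x : ↥(modularFunctionFieldFullC L N))
    (y : ↥(modularFunctionFieldFullC L (N * ℓ)))
    (hxy : (y : LaurentSeries L) = qExpand L ℓ (x : LaurentSeries L)) :
    ((al97L_w φ N ℓ hℓ hN y : ↥(modularFunctionFieldFullC L (N * ℓ))) : LaurentSeries L) =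
      (x : LaurentSeries L) := by
  apply al97L_coeffMap_injective φ
  rw [← al97L_iota_coe φ (N * ℓ), al97L_w_iota]
  have h1 : al97L_iota φ (N * ℓ) y = heckeBetaBar Kbar N ℓ (al97L_iota φ N x) := by
    apply Subtype.ext
    rw [coe_heckeBetaBar, al97L_iota_coe, al97L_iota_coe, hxy, coeffMap_qExpand]
  rw [h1, ← AlgHom.comp_apply, al97L_wBar_beta, coe_heckeAlphaBar, al97L_iota_coe]

/-- Values on the generators: `w (j(q^e)) = j(q^(swap e))`. -/
theorem al97L_w_gen (e : ℕ) [NeZero e] [NeZero (al97_swap ℓ e)] (he : e ∣ N * ℓ)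
    (x : ↥(modularFunctionFieldFullC L (N * ℓ)))
    (hx : (x : LaurentSeries L) = qExpand L e (jqModC L)) :
    ((al97L_w φ N ℓ hℓ hN x : ↥(modularFunctionFieldFullC L (N * ℓ))) : LaurentSeries L) =
      qExpand L (al97_swap ℓ e) (jqModC L) := by
  apply al97L_coeffMap_injective φ
  rw [← al97L_iota_coe φ (N * ℓ), al97L_w_iota, al97L_wBar_gen N ℓ hℓ hN e he _
    (by rw [al97L_iota_coe, hx]; exact al97L_coeffMap_gen φ e)]
  exact (al97L_coeffMap_gen φ (al97_swap ℓ e)).symm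

end al97L_descend

section al97L_degeneracy

variable (L : Type*) [Field L] (N ℓ : ℕ) [NeZero N] [NeZero ℓ]

/-- The degeneracy map `α : F(N)_L → F(Nℓ)_L` (inclusion of `q`-expansions). -/
noncomputable def al97L_alpha :
    ↥(modularFunctionFieldFullC L N) →ₐ[L] ↥(modularFunctionFieldFullC L (N * ℓ)) :=
  IntermediateField.inclusion (full_degeneracyC_le L (dvd_mul_right N ℓ))

/-- The degeneracy map `β : F(N)_L → F(Nℓ)_L` (`q ↦ q^ℓ`). -/
noncomputable def al97L_beta :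
    ↥(modularFunctionFieldFullC L N) →ₐ[L] ↥(modularFunctionFieldFullC L (N * ℓ)) :=
  ((qExpandAlgHomC L ℓ).comp (modularFunctionFieldFullC L N).val).codRestrict
    (modularFunctionFieldFullC L (N * ℓ)).toSubalgebra
    (fun x => full_degeneracyC_map_le L N ℓ ⟨x.1, x.2, rfl⟩)

theorem al97L_alpha_coe (x : ↥(modularFunctionFieldFullC L N)) :
    ((al97L_alpha L N ℓ x : ↥(modularFunctionFieldFullC L (N * ℓ))) : LaurentSeries L) =
      (x : LaurentSeries L) :=
  IntermediateField.coe_inclusion _ x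

theorem al97L_beta_coe (x : ↥(modularFunctionFieldFullC L N)) :
    ((al97L_beta L N ℓ x : ↥(modularFunctionFieldFullC L (N * ℓ))) : LaurentSeries L) =
      qExpand L ℓ (x : LaurentSeries L) := rfl

end al97L_degeneracy

section al97L_swap

variable {L : Type*} [Field L] (φ : L →+* Kbar)
variable (N ℓ : ℕ) [NeZero N] [NeZero ℓ] (hℓ : ℓ.Prime) (hN : ¬ ℓ ∣ N)

/-- `w (α x) = β x`. -/
theorem al97L_w_alpha_apply (x : ↥(modularFunctionFieldFullC L N)) :
    al97L_w φ N ℓ hℓ hN (al97L_alpha L N ℓ x) = al97L_beta L N ℓ x :=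
  Subtype.ext (al97L_w_alpha φ N ℓ hℓ hN x _ rfl)

/-- `w (β x) = α x`. -/
theorem al97L_w_beta_apply (x : ↥(modularFunctionFieldFullC L N)) :
    al97L_w φ N ℓ hℓ hN (al97L_beta L N ℓ x) = al97L_alpha L N ℓ x :=
  Subtype.ext (al97L_w_beta φ N ℓ hℓ hN x _ rfl)

/-- `w ∘ α = β`. -/
theorem al97L_w_comp_alpha :
    ((al97L_w φ N ℓ hℓ hN : ↥(modularFunctionFieldFullC L (N * ℓ)) →ₐ[L]
      ↥(modularFunctionFieldFullC L (N * ℓ)))).comp (al97L_alpha L N ℓ) = al97L_beta L N ℓ :=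
  AlgHom.ext (al97L_w_alpha_apply φ N ℓ hℓ hN)

/-- `w ∘ β = α`. -/
theorem al97L_w_comp_beta :
    ((al97L_w φ N ℓ hℓ hN : ↥(modularFunctionFieldFullC L (N * ℓ)) →ₐ[L]
      ↥(modularFunctionFieldFullC L (N * ℓ)))).comp (al97L_beta L N ℓ) = al97L_alpha L N ℓ :=
  AlgHom.ext (al97L_w_beta_apply φ N ℓ hℓ hN)

end al97L_swap

section al97L_semilinear

variable {L L' : Type*} [Field L] [Field L']

/-- Functoriality in the constants: `coeffMap σ : F(M)_L → F(M)_{L'}` for a homomorphism of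
fields `σ : L → L'` (for `L' = L` and `σ` an automorphism: the semilinear action on
coefficients). -/
noncomputable def al97L_cm (σ : L →+* L') (M : ℕ) :
    ↥(modularFunctionFieldFullC L M) →+* ↥(modularFunctionFieldFullC L' M) :=
  ((coeffMap σ).comp (algebraMap ↥(modularFunctionFieldFullC L M) (LaurentSeries L))).codRestrict
      (modularFunctionFieldFullC L' M) (fun f => cx_coeffMap_mem_fullC σ M f.2)

theorem al97L_cm_coe (σ : L →+* L') (M : ℕ) (f : ↥(modularFunctionFieldFullC L M)) :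
    ((al97L_cm σ M f : ↥(modularFunctionFieldFullC L' M)) : LaurentSeries L') =
      coeffMap σ (f : LaurentSeries L) := rfl

theorem al97L_cm_algebraMap (σ : L →+* L') (M : ℕ) (c : L) :
    al97L_cm σ M (algebraMap L ↥(modularFunctionFieldFullC L M) c) =
      algebraMap L' ↥(modularFunctionFieldFullC L' M) (σ c) := by
  apply Subtype.ext
  rw [al97L_cm_coe]
  exact cx_coeffMap_algebraMap σ c

variable (φ : L →+* Kbar) (φ' : L' →+* Kbar) (σ : L →+* L')
variable (N ℓ : ℕ) [NeZero N] [NeZero ℓ] (hℓ : ℓ.Prime) (hN : ¬ ℓ ∣ N)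

theorem al97L_w_cm_aux (x : LaurentSeries L)
    (hx : x ∈ IntermediateField.adjoin L (divisorExpansionsC L (N * ℓ))) :
    al97L_cm σ (N * ℓ) (al97L_wRing φ N ℓ hℓ hN ⟨x, hx⟩) =
      al97L_wRing φ' N ℓ hℓ hN (al97L_cm σ (N * ℓ) ⟨x, hx⟩) := by
  induction hx using IntermediateField.adjoin_induction with
  | mem y hy =>
    obtain ⟨d, hd, hdM, rfl⟩ := hy
    haveI := hd
    have hmem : al97_swap ℓ d ∈ (N * ℓ).divisors :=
      al97_swap_mem hℓ (Nat.mem_divisors.mpr
        ⟨hdM, Nat.mul_ne_zero (NeZero.ne N) (NeZero.ne ℓ)⟩)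
    have hs0 : al97_swap ℓ d ≠ 0 := fun h0 => by
      have := Nat.pos_of_mem_divisors hmem
      omega
    haveI : NeZero (al97_swap ℓ d) := ⟨hs0⟩
    apply Subtype.ext
    rw [al97L_cm_coe, ← al97L_w_apply, ← al97L_w_apply, al97L_w_gen φ N ℓ hℓ hN d hdM _ rfl,
      al97L_w_gen φ' N ℓ hℓ hN d hdM _
        (by rw [al97L_cm_coe, coeffMap_qExpand, coeffMap_jqModC]),
      coeffMap_qExpand, coeffMap_jqModC]
  | algebraMap c =>
    have h : (⟨algebraMap L (LaurentSeries L) c, IntermediateField.algebraMap_mem _ c⟩ :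
        ↥(modularFunctionFieldFullC L (N * ℓ))) = algebraMap L _ c := rfl
    rw [h, al97L_wRing_algebraMap, al97L_cm_algebraMap, al97L_wRing_algebraMap]
  | add x y hx hy ihx ihy =>
    have h : (⟨x + y, add_mem hx hy⟩ : ↥(modularFunctionFieldFullC L (N * ℓ)))
        = ⟨x, hx⟩ + ⟨y, hy⟩ := rfl
    rw [h, map_add, map_add, map_add, map_add, ihx, ihy]
  | inv x hx ihx =>
    have h : (⟨x⁻¹, inv_mem hx⟩ : ↥(modularFunctionFieldFullC L (N * ℓ)))
        = (⟨x, hx⟩ : ↥(modularFunctionFieldFullC L (N * ℓ)))⁻¹ := rfl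
    rw [h, map_inv₀, map_inv₀, map_inv₀, map_inv₀, ihx]
  | mul x y hx hy ihx ihy =>
    have h : (⟨x * y, mul_mem hx hy⟩ : ↥(modularFunctionFieldFullC L (N * ℓ)))
        = ⟨x, hx⟩ * ⟨y, hy⟩ := rfl
    rw [h, map_mul, map_mul, map_mul, map_mul, ihx, ihy]

/-- **Semilinearity**: the involution commutes with `coeffMap σ` for every homomorphism of
fields `σ : L → L'` (whatever the embeddings `φ`, `φ'` into `ℚ̄` used to construct it). -/
theorem al97L_w_cm (x : ↥(modularFunctionFieldFullC L (N * ℓ))) :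
    al97L_cm σ (N * ℓ) (al97L_w φ N ℓ hℓ hN x) =
      al97L_w φ' N ℓ hℓ hN (al97L_cm σ (N * ℓ) x) :=
  al97L_w_cm_aux φ φ' σ N ℓ hℓ hN x.1 x.2

/-- Semilinearity on underlying series. -/
theorem al97L_w_coeffMap (x : ↥(modularFunctionFieldFullC L (N * ℓ)))
    (y : ↥(modularFunctionFieldFullC L' (N * ℓ)))
    (hxy : (y : LaurentSeries L') = coeffMap σ (x : LaurentSeries L)) :
    ((al97L_w φ' N ℓ hℓ hN y : ↥(modularFunctionFieldFullC L' (N * ℓ))) : LaurentSeries L') =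
      coeffMap σ ((al97L_w φ N ℓ hℓ hN x : ↥(modularFunctionFieldFullC L (N * ℓ))) :
        LaurentSeries L) := by
  have hy : y = al97L_cm σ (N * ℓ) x := Subtype.ext hxy
  rw [hy, ← al97L_w_cm φ φ' σ N ℓ hℓ hN x, al97L_cm_coe]

/-- The involution does not depend on the embedding into `ℚ̄`. -/
theorem al97L_w_indep (φ₁ φ₂ : L →+* Kbar) :
    al97L_w φ₁ N ℓ hℓ hN = al97L_w φ₂ N ℓ hℓ hN := by
  apply AlgEquiv.ext
  intro x
  have h := al97L_w_coeffMap φ₁ φ₂ (RingHom.id L) N ℓ hℓ hN x x (by rw [coeffMap_id])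
  apply Subtype.ext
  rw [h, coeffMap_id]

end al97L_semilinear

end Fermat.Agent.S34
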