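import Fermat.Agent.S34.ChartM15c
import Fermat.Agent.S34.AtkinLehnerL97

/-!
# S34 lab (helper15, twin of the FRAME assembly): `s34i47_Pkg_Frame` from three closed inputs

Level `M = M' * q`, `q` prime, `q ∤ M'`, `p₀ ∣ M'`, `p₀ ∈ {2, 3}`.  Canonical objects over a discrete
valuation ring `R` with fraction field `K ⊆ ℚ̄`:

* `h = pk85_h2 K (M' * q)` resp. `pk85_h3 K (M' * q)` (Hauptmodul of level `p₀`),
* `V_∞ = cm85_Vinf (M' * q) hπ` (Gauss valuation ring of the `q`-expansion),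
* `V_0 = cm15_V0 φ M' q hq hqM hπ := V_∞.comap (al97L_w φ M' q hq hqM)` (Atkin–Lehner transport),
* `W = wa5_W V_∞ V_0`.

Proved here: `R ⊆ V_0`, `π⁻¹ ∉ V_0`, `h, h⁻¹ ∈ V_0` (`cm15_V0_*`), hence with ChartM15c the
properties (W) and (C) of the frame as soon as `W` is integral over the Gauss ring of level `M'`.

The three inputs still to be supplied (each a closed `Prop`):

* `cm15_FrameInt M' q hq hqM` (P1a): `cm15_WInt` for `W`, i.e. every element of `V_∞ ⊓ V_0` is
  integral over the Gauss valuation ring of level `M'`;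
* `cm15_FrameGal M' q hq hqM` (P1c): `s34i47_GalProps π W (s34i47_coeffEquiv σ (M' * q))` for
  every inertial `σ`;
* `cm15_FrameLS2 M' q h2` / `cm15_FrameLS3 M' q h3` (P3 + P4): `s34i47_LocStr` for the two affine
  charts of `h`.

`cm15_frame_level2/3` : inputs ⟹ `s34i47_Frame (M' * q) q`;
`cm15_pkg_frame` : inputs for all `(M', q)` ⟹ `s34i47_Pkg_Frame`.

All names are prefixed `cm15_`.
-/

set_option autoImplicit false
set_option linter.unusedSectionVars false
set_option linter.style.haveILetI false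

open ModularCurve IntermediateField Polynomial

namespace Fermat.Agent.S34

open Fermat.Agent.S18 Fermat.Agent.S24

local notation "Q̄" => AlgebraicClosure ℚ

section V0

variable {R K : Type} [CommRing R] [IsDomain R] [IsDiscreteValuationRing R] [Field K] [CharZero K]
  [Algebra R K] [IsFractionRing R K] (φ : K →+* Q̄)
  (M' q : ℕ) [NeZero M'] [NeZero q] (hq : q.Prime) (hqM : ¬ q ∣ M')

/-- `V_0 := w_q^* V_∞`: the transport of the Gauss valuation ring by the Atkin–Lehner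
involution. -/
noncomputable def cm15_V0 {π : R} (hπ : Irreducible π) :
    ValuationSubring ↥(modularFunctionFieldFullC K (M' * q)) :=
  (cm85_Vinf (K := K) (M' * q) hπ).comap (al97L_w φ M' q hq hqM).toRingEquiv.toRingHom

theorem cm15_mem_V0 {π : R} (hπ : Irreducible π) (x : ↥(modularFunctionFieldFullC K (M' * q))) :
    x ∈ cm15_V0 φ M' q hq hqM hπ ↔ al97L_w φ M' q hq hqM x ∈ cm85_Vinf (K := K) (M' * q) hπ :=
  Iff.rfl

variable [Algebra R ↥(modularFunctionFieldFullC K (M' * q))]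
  [IsScalarTower R K ↥(modularFunctionFieldFullC K (M' * q))]

/-- `w` fixes the constants of `R`. -/
theorem cm15_w_algebraMap (r : R) :
    al97L_w φ M' q hq hqM (algebraMap R ↥(modularFunctionFieldFullC K (M' * q)) r) =
      algebraMap R ↥(modularFunctionFieldFullC K (M' * q)) r := by
  rw [IsScalarTower.algebraMap_apply R K ↥(modularFunctionFieldFullC K (M' * q))]
  exact (al97L_w φ M' q hq hqM).commutes _

theorem cm15_V0_algebraMap {π : R} (hπ : Irreducible π) (r : R) :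
    algebraMap R ↥(modularFunctionFieldFullC K (M' * q)) r ∈ cm15_V0 φ M' q hq hqM hπ := by
  rw [cm15_mem_V0, cm15_w_algebraMap]
  exact pk85_hRV (M' * q) hπ r

theorem cm15_V0_pi_inv {π : R} (hπ : Irreducible π) :
    (algebraMap R ↥(modularFunctionFieldFullC K (M' * q)) π)⁻¹ ∉ cm15_V0 φ M' q hq hqM hπ := by
  rw [cm15_mem_V0, map_inv₀, cm15_w_algebraMap]
  rw [IsScalarTower.algebraMap_apply R K ↥(modularFunctionFieldFullC K (M' * q))]
  exact gv85_pi_inv_not_mem (IsLocalRing.residue R) π (pk85_res_iff hπ) hπ.ne_zero _ _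

/-- an element of level `M'` with `R`-integral expansion `y`, whose inverse has the `R`-integral
expansion `y'`: it and its inverse lie in `V_0`. -/
theorem cm15_V0_of_integral {π : R} (hπ : Irreducible π)
    (x : ↥(modularFunctionFieldFullC K M')) (X : ↥(modularFunctionFieldFullC K (M' * q)))
    (hX : (X : LaurentSeries K) = (x : LaurentSeries K)) (y y' : LaurentSeries R)
    (hy : (x : LaurentSeries K) = coeffMap (algebraMap R K) y) (hyy' : y * y' = 1) :
    X ∈ cm15_V0 φ M' q hq hqM hπ ∧ X⁻¹ ∈ cm15_V0 φ M' q hq hqM hπ := by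
  have hw : ((al97L_w φ M' q hq hqM X : ↥(modularFunctionFieldFullC K (M' * q))) :
      LaurentSeries K) = coeffMap (algebraMap R K) (qExpand R q y) := by
    rw [al97L_w_alpha φ M' q hq hqM x X hX, hy, coeffMap_qExpand]
  constructor
  · rw [cm15_mem_V0]
    exact gv85_mem_V_of_integral _ _ _ _ _ hw
  · rw [cm15_mem_V0, map_inv₀]
    refine gv85_mem_V_of_integral _ _ _ _ (qExpand R q y') ?_
    have h1 : coeffMap (algebraMap R K) (qExpand R q y) *
        coeffMap (algebraMap R K) (qExpand R q y') = 1 := by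
      rw [← map_mul, ← map_mul, hyy', map_one, map_one]
    have h2 : (((al97L_w φ M' q hq hqM X)⁻¹ : ↥(modularFunctionFieldFullC K (M' * q))) :
        LaurentSeries K) = ((al97L_w φ M' q hq hqM X : ↥(modularFunctionFieldFullC K (M' * q))) :
        LaurentSeries K)⁻¹ := rfl
    rw [h2, hw]
    exact inv_eq_of_mul_eq_one_right h1

/-- the level-2 Hauptmodul and its inverse lie in `V_0`. -/
theorem cm15_V0_h2 {π : R} (hπ : Irreducible π) (h2 : 2 ∣ M') :
    pk85_h2 K (M' * q) (h2.trans (dvd_mul_right M' q)) ∈ cm15_V0 φ M' q hq hqM hπ ∧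
      (pk85_h2 K (M' * q) (h2.trans (dvd_mul_right M' q)))⁻¹ ∈ cm15_V0 φ M' q hq hqM hπ :=
  cm15_V0_of_integral φ M' q hq hqM hπ (pk85_h2 K M' h2) _ rfl (h70_h2 R) (h70_h2inv R)
    (h70_coeffMap_h2 (algebraMap R K)).symm (h70_h2_mul_h2inv R)

/-- the level-3 Hauptmodul and its inverse lie in `V_0`. -/
theorem cm15_V0_h3 {π : R} (hπ : Irreducible π) (h3 : 3 ∣ M') :
    pk85_h3 K (M' * q) (h3.trans (dvd_mul_right M' q)) ∈ cm15_V0 φ M' q hq hqM hπ ∧
      (pk85_h3 K (M' * q) (h3.trans (dvd_mul_right M' q)))⁻¹ ∈ cm15_V0 φ M' q hq hqM hπ :=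
  cm15_V0_of_integral φ M' q hq hqM hπ (pk85_h3 K M' h3) _ rfl (h34_h3R R) (h34_h3Rinv R)
    (h34_coeffMap_h3R (algebraMap R K)).symm (h34_h3R_mul_inv R)

end V0

/-! ### The three inputs -/

/-- **Input P1a**: every element of `W = V_∞ ⊓ V_0` is integral over the Gauss valuation ring of
the good level `M'` ("`V_∞` and `V_0` are the only extensions"). -/
def cm15_FrameInt (M' q : ℕ) [NeZero M'] [NeZero q] (hq : q.Prime) (hqM : ¬ q ∣ M') : Prop :=
  ∀ (R K : Type) [CommRing R] [IsDomain R] [IsDiscreteValuationRing R] [Field K] [NumberField K]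
    [Algebra K Q̄] [Algebra R K] [IsFractionRing R K] (π : R) (hπ : Irreducible π),
    (∀ n : ℕ, Nat.Coprime n q → IsUnit (n : R)) → ¬ IsUnit (q : R) →
    cm15_WInt R K M' (M' * q) (dvd_mul_right M' q) hπ
      (wa5_W (cm85_Vinf (K := K) (M' * q) hπ) (cm15_V0 (algebraMap K Q̄) M' q hq hqM hπ))

/-- **Input P1c**: the Galois hypotheses (G) for the coefficientwise action of every inertial
automorphism, with respect to `W = V_∞ ⊓ V_0`. -/
def cm15_FrameGal (M' q : ℕ) [NeZero M'] [NeZero q] (hq : q.Prime) (hqM : ¬ q ∣ M') : Prop :=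
  ∀ (R K : Type) [CommRing R] [IsDomain R] [IsDiscreteValuationRing R] [Field K] [NumberField K]
    [Algebra K Q̄] [Algebra R K] [IsFractionRing R K]
    [Algebra R ↥(modularFunctionFieldFullC K (M' * q))]
    [IsScalarTower R K ↥(modularFunctionFieldFullC K (M' * q))] (π : R) (hπ : Irreducible π),
    (∀ n : ℕ, Nat.Coprime n q → IsUnit (n : R)) → ¬ IsUnit (q : R) →
    ∀ σ : K ≃+* K, s34i47_Inertial R σ →
      s34i47_GalProps π
        (wa5_W (cm85_Vinf (K := K) (M' * q) hπ) (cm15_V0 (algebraMap K Q̄) M' q hq hqM hπ))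
        (s34i47_coeffEquiv σ (M' * q))

/-- **Input P3 + P4, `p₀ = 2`**: the local structure (LS) of the two affine charts of the level-2
Hauptmodul at level `M' * q`. -/
def cm15_FrameLS2 (M' q : ℕ) [NeZero M'] [NeZero q] (h2 : 2 ∣ M') : Prop :=
  ∀ (R K : Type) [CommRing R] [IsDomain R] [IsDiscreteValuationRing R] [Field K] [NumberField K]
    [Algebra K Q̄] [Algebra R K] [IsFractionRing R K]
    [Algebra R ↥(modularFunctionFieldFullC K (M' * q))]
    [IsScalarTower R K ↥(modularFunctionFieldFullC K (M' * q))] (π : R), Irreducible π →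
    (∀ n : ℕ, Nat.Coprime n q → IsUnit (n : R)) → ¬ IsUnit (q : R) →
    s34i47_LocStr π (pk15_chart R ({pk85_h2 K (M' * q) (h2.trans (dvd_mul_right M' q))} :
      Set ↥(modularFunctionFieldFullC K (M' * q)))) ∧
    s34i47_LocStr π (pk15_chart R ({(pk85_h2 K (M' * q) (h2.trans (dvd_mul_right M' q)))⁻¹} :
      Set ↥(modularFunctionFieldFullC K (M' * q))))

/-- **Input P3 + P4, `p₀ = 3`.** -/
def cm15_FrameLS3 (M' q : ℕ) [NeZero M'] [NeZero q] (h3 : 3 ∣ M') : Prop :=
  ∀ (R K : Type) [CommRing R] [IsDomain R] [IsDiscreteValuationRing R] [Field K] [NumberField K]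
    [Algebra K Q̄] [Algebra R K] [IsFractionRing R K]
    [Algebra R ↥(modularFunctionFieldFullC K (M' * q))]
    [IsScalarTower R K ↥(modularFunctionFieldFullC K (M' * q))] (π : R), Irreducible π →
    (∀ n : ℕ, Nat.Coprime n q → IsUnit (n : R)) → ¬ IsUnit (q : R) →
    s34i47_LocStr π (pk15_chart R ({pk85_h3 K (M' * q) (h3.trans (dvd_mul_right M' q))} :
      Set ↥(modularFunctionFieldFullC K (M' * q)))) ∧
    s34i47_LocStr π (pk15_chart R ({(pk85_h3 K (M' * q) (h3.trans (dvd_mul_right M' q)))⁻¹} :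
      Set ↥(modularFunctionFieldFullC K (M' * q))))

/-! ### The frame -/

/-- **FRAME at level `M' * q`, `2 ∣ M'`**, from the three inputs. -/
theorem cm15_frame_level2 (M' q : ℕ) [NeZero M'] [NeZero q] (hq : q.Prime) (hqM : ¬ q ∣ M')
    (h2 : 2 ∣ M') (hInt : cm15_FrameInt M' q hq hqM) (hGal : cm15_FrameGal M' q hq hqM)
    (hLS : cm15_FrameLS2 M' q h2) : s34i47_Frame (M' * q) q := by
  intro R K _ _ _ _ _ _ _ _ _ _ π hπ hunit hqR
  haveI : Algebra.IsAlgebraic K Q̄ := cx_isAlgebraic_closure K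
  letI : Algebra R ↥(modularFunctionFieldFullC K M') :=
    ((algebraMap K ↥(modularFunctionFieldFullC K M')).comp (algebraMap R K)).toAlgebra
  haveI : IsScalarTower R K ↥(modularFunctionFieldFullC K M') :=
    IsScalarTower.of_algebraMap_eq (fun _ => rfl)
  have hMu : IsUnit (M' : R) :=
    hunit M' (Nat.Coprime.symm ((Nat.Prime.coprime_iff_not_dvd hq).mpr hqM))
  obtain ⟨hh₀, hh₀'⟩ := cm15_V0_h2 (R := R) (algebraMap K Q̄) M' q hq hqM hπ h2
  obtain ⟨hW, hC, hσh⟩ := cm15_frame_chart_level2 (R := R) (K := K) M' (M' * q)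
    (dvd_mul_right M' q) hπ h2 hMu (cm15_V0 (algebraMap K Q̄) M' q hq hqM hπ)
    (cm15_V0_algebraMap (algebraMap K Q̄) M' q hq hqM hπ)
    (cm15_V0_pi_inv (algebraMap K Q̄) M' q hq hqM hπ) hh₀ hh₀' (hInt R K π hπ hunit hqR)
  obtain ⟨hLS₁, hLS₂⟩ := hLS R K π hπ hunit hqR
  exact ⟨_, _, hW, hC, hLS₁, hLS₂, fun σ hσ => ⟨hGal R K π hπ hunit hqR σ hσ, hσh σ⟩⟩

/-- **FRAME at level `M' * q`, `3 ∣ M'`**, from the three inputs. -/
theorem cm15_frame_level3 (M' q : ℕ) [NeZero M'] [NeZero q] (hq : q.Prime) (hqM : ¬ q ∣ M')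
    (h3 : 3 ∣ M') (hInt : cm15_FrameInt M' q hq hqM) (hGal : cm15_FrameGal M' q hq hqM)
    (hLS : cm15_FrameLS3 M' q h3) : s34i47_Frame (M' * q) q := by
  intro R K _ _ _ _ _ _ _ _ _ _ π hπ hunit hqR
  haveI : Algebra.IsAlgebraic K Q̄ := cx_isAlgebraic_closure K
  letI : Algebra R ↥(modularFunctionFieldFullC K M') :=
    ((algebraMap K ↥(modularFunctionFieldFullC K M')).comp (algebraMap R K)).toAlgebra
  haveI : IsScalarTower R K ↥(modularFunctionFieldFullC K M') :=
    IsScalarTower.of_algebraMap_eq (fun _ => rfl)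
  have hMu : IsUnit (M' : R) :=
    hunit M' (Nat.Coprime.symm ((Nat.Prime.coprime_iff_not_dvd hq).mpr hqM))
  obtain ⟨hh₀, hh₀'⟩ := cm15_V0_h3 (R := R) (algebraMap K Q̄) M' q hq hqM hπ h3
  obtain ⟨hW, hC, hσh⟩ := cm15_frame_chart_level3 (R := R) (K := K) M' (M' * q)
    (dvd_mul_right M' q) hπ h3 hMu (cm15_V0 (algebraMap K Q̄) M' q hq hqM hπ)
    (cm15_V0_algebraMap (algebraMap K Q̄) M' q hq hqM hπ)
    (cm15_V0_pi_inv (algebraMap K Q̄) M' q hq hqM hπ) hh₀ hh₀' (hInt R K π hπ hunit hqR)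
  obtain ⟨hLS₁, hLS₂⟩ := hLS R K π hπ hunit hqR
  exact ⟨_, _, hW, hC, hLS₁, hLS₂, fun σ hσ => ⟨hGal R K π hπ hunit hqR σ hσ, hσh σ⟩⟩

/-- **`s34i47_Pkg_Frame` from the three inputs** (for all `M'`, `q`). -/
theorem cm15_pkg_frame
    (hInt : ∀ (M' q : ℕ) [NeZero M'] [NeZero q] (hq : q.Prime) (hqM : ¬ q ∣ M'),
      cm15_FrameInt M' q hq hqM)
    (hGal : ∀ (M' q : ℕ) [NeZero M'] [NeZero q] (hq : q.Prime) (hqM : ¬ q ∣ M'),
      cm15_FrameGal M' q hq hqM)
    (hLS2 : ∀ (M' q : ℕ) [NeZero M'] [NeZero q], q.Prime → ¬ q ∣ M' → 2 ≠ q → ∀ h2 : 2 ∣ M',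
      cm15_FrameLS2 M' q h2)
    (hLS3 : ∀ (M' q : ℕ) [NeZero M'] [NeZero q], q.Prime → ¬ q ∣ M' → 3 ≠ q → ∀ h3 : 3 ∣ M',
      cm15_FrameLS3 M' q h3) :
    s34i47_Pkg_Frame := by
  intro M q p₀ hq hqM hq2 hp₀ hp₀q hp₀M
  obtain ⟨M', hM'⟩ := hqM
  rw [mul_comm] at hM'
  subst hM'
  have hM'0 : M' ≠ 0 := by
    rintro rfl
    apply hq2
    rw [zero_mul]
    exact dvd_zero _
  haveI : NeZero M' := ⟨hM'0⟩
  haveI : NeZero q := ⟨hq.ne_zero⟩
  have hqM' : ¬ q ∣ M' := by
    rintro ⟨c, rfl⟩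
    exact hq2 ⟨c, by ring⟩
  have hp₀prime : p₀.Prime := by
    rcases hp₀ with rfl | rfl
    · exact Nat.prime_two
    · exact Nat.prime_three
  have hp₀M' : p₀ ∣ M' := by
    rcases (Nat.Prime.dvd_mul hp₀prime).mp hp₀M with h | h
    · exact h
    · exact absurd ((Nat.prime_dvd_prime_iff_eq hp₀prime hq).mp h) hp₀q
  rcases hp₀ with rfl | rfl
  · exact cm15_frame_level2 M' q hq hqM' hp₀M' (hInt M' q hq hqM') (hGal M' q hq hqM')
      (hLS2 M' q hq hqM' hp₀q hp₀M')
  · exact cm15_frame_level3 M' q hq hqM' hp₀M' (hInt M' q hq hqM') (hGal M' q hq hqM')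
      (hLS3 M' q hq hqM' hp₀q hp₀M')

end Fermat.Agent.S34
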