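import Fermat.Agent.S18.Pack85

/-!
# S34 lab, package P2 (helper85, twin): the chart package at an ARBITRARY level

`pk85_chartData` (S18) needs the level `M` to be a unit of the discrete valuation ring `R`, because
of the saturation (`sat23_*`, via the reduction map) and the Dedekind special fibres (`sm79_*`).
Everything else in that package is level-free.  This file isolates the level-free half, for the
modular function field `F = F(M)_K` of ANY level `M` divisible by `p₀ ∈ {2, 3}` over a discrete
valuation ring `R` with fraction field `K` of characteristic zero (no hypothesis on the residue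
characteristic, in particular `M = q M'` with `q` the residue characteristic is allowed):

* `cm85_Vinf`  : the Gauss valuation ring `V_∞` of the `q`-expansion (`gv85_V`),
* `cm85_Facts` : the level-free chart facts for a Hauptmodul `h` and `V = V_∞`:
  `h` transcendental, `R ⊆ V`, `π⁻¹ ∉ V`, `m_V = π V` (`hmax`), `h, h⁻¹ ∈ V`, the two affine charts
  `pk15_chart R {h}`, `pk15_chart R {h⁻¹}` are noetherian, `hfin` (finite over `R[h]`),
  `hfrac` (fraction field `F`), and the Gauss criterion,
* `cm85_facts_level2`, `cm85_facts_level3`, `cm85_facts` : the facts for the explicit Hauptmoduln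
  of level `2` and `3`.

All names are prefixed `cm85_`.
-/

set_option autoImplicit false
set_option linter.unusedSectionVars false
set_option linter.style.haveILetI false

open ModularCurve IntermediateField Polynomial

namespace Fermat.Agent.S34

open Fermat.Agent.S18 Fermat.Agent.S24

section cm85_facts

variable {R K : Type} [CommRing R] [IsDomain R] [IsDiscreteValuationRing R] [Field K]
  [Algebra R K] [IsFractionRing R K] (M : ℕ) [NeZero M]

/-- The Gauss valuation ring `V_∞` of the `q`-expansion at `∞` on `F(M)_K` (any level `M`). -/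
noncomputable def cm85_Vinf {π : R} (hπ : Irreducible π) :
    ValuationSubring ↥(modularFunctionFieldFullC K M) :=
  gv85_V (IsLocalRing.residue R) (modularFunctionFieldFullC K M) (pk85_HF K M hπ)

/-- The level-free chart facts for a Hauptmodul `h` and a valuation subring `V` of `F(M)_K`. -/
def cm85_Facts (R K : Type) [CommRing R] [IsDomain R] [IsDiscreteValuationRing R] [Field K]
    [Algebra R K] (M : ℕ) [Algebra R ↥(modularFunctionFieldFullC K M)] (π : R)
    (h : ↥(modularFunctionFieldFullC K M))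
    (V : ValuationSubring ↥(modularFunctionFieldFullC K M)) : Prop :=
  Transcendental K h ∧
  (∀ r : R, algebraMap R ↥(modularFunctionFieldFullC K M) r ∈ V) ∧
  (algebraMap R ↥(modularFunctionFieldFullC K M) π)⁻¹ ∉ V ∧
  (∀ x ∈ V, x⁻¹ ∉ V → (algebraMap R ↥(modularFunctionFieldFullC K M) π)⁻¹ * x ∈ V) ∧
  h ∈ V ∧ h⁻¹ ∈ V ∧
  IsNoetherianRing (pk15_chart R ({h} : Set ↥(modularFunctionFieldFullC K M))) ∧
  IsNoetherianRing (pk15_chart R ({h⁻¹} : Set ↥(modularFunctionFieldFullC K M))) ∧
  (∃ G : Finset ↥(modularFunctionFieldFullC K M),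
    ∀ x ∈ pk15_chart R ({h} : Set ↥(modularFunctionFieldFullC K M)),
      x ∈ Submodule.span (Algebra.adjoin R ({h} : Set ↥(modularFunctionFieldFullC K M)))
        (G : Set ↥(modularFunctionFieldFullC K M))) ∧
  (∃ G : Finset ↥(modularFunctionFieldFullC K M),
    ∀ x ∈ pk15_chart R ({h⁻¹} : Set ↥(modularFunctionFieldFullC K M)),
      x ∈ Submodule.span (Algebra.adjoin R ({h⁻¹} : Set ↥(modularFunctionFieldFullC K M)))
        (G : Set ↥(modularFunctionFieldFullC K M))) ∧
  (∀ x : ↥(modularFunctionFieldFullC K M),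
    ∃ a ∈ pk15_chart R ({h} : Set ↥(modularFunctionFieldFullC K M)),
    ∃ b ∈ pk15_chart R ({h} : Set ↥(modularFunctionFieldFullC K M)), b ≠ 0 ∧ x * b = a) ∧
  (∀ x : ↥(modularFunctionFieldFullC K M),
    ∃ a ∈ pk15_chart R ({h⁻¹} : Set ↥(modularFunctionFieldFullC K M)),
    ∃ b ∈ pk15_chart R ({h⁻¹} : Set ↥(modularFunctionFieldFullC K M)), b ≠ 0 ∧ x * b = a) ∧
  (∀ (x : ↥(modularFunctionFieldFullC K M)) (y : LaurentSeries R),
    (x : LaurentSeries K) = coeffMap (algebraMap R K) y →
    x ∈ V ∧ ((algebraMap R ↥(modularFunctionFieldFullC K M) π)⁻¹ * x ∈ V ↔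
      coeffMap (IsLocalRing.residue R) y = 0))

variable [Algebra R ↥(modularFunctionFieldFullC K M)]
  [IsScalarTower R K ↥(modularFunctionFieldFullC K M)]

/-- **The level-free chart facts from a Hauptmodul** with `R`-integral `q`-expansion `hR` and
`R`-integral inverse expansion `hRinv`. No hypothesis on the level. -/
theorem cm85_facts_of [CharZero K] {π : R} (hπ : Irreducible π)
    (h : ↥(modularFunctionFieldFullC K M)) (hR hRinv : LaurentSeries R)
    (hcoe : (h : LaurentSeries K) = coeffMap (algebraMap R K) hR) (hinv : hR * hRinv = 1)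
    (hh : Transcendental K h) :
    cm85_Facts R K M π h (cm85_Vinf M hπ) := by
  set V := cm85_Vinf (K := K) M hπ with hV
  have hconv : ∀ r : R, algebraMap R ↥(modularFunctionFieldFullC K M) r =
      algebraMap K ↥(modularFunctionFieldFullC K M) (algebraMap R K r) :=
    fun r => IsScalarTower.algebraMap_apply R K ↥(modularFunctionFieldFullC K M) r
  have hRV : ∀ r : R, algebraMap R ↥(modularFunctionFieldFullC K M) r ∈ V := pk85_hRV M hπ
  have hπV : (algebraMap R ↥(modularFunctionFieldFullC K M) π)⁻¹ ∉ V := by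
    rw [hconv]
    exact gv85_pi_inv_not_mem (IsLocalRing.residue R) π (pk85_res_iff hπ) hπ.ne_zero _ _
  have hmax : ∀ x ∈ V, x⁻¹ ∉ V →
      (algebraMap R ↥(modularFunctionFieldFullC K M) π)⁻¹ * x ∈ V := by
    intro x hx hx'
    rw [hconv]
    exact gv85_hmax (IsLocalRing.residue R) π (pk85_res_iff hπ) hπ.ne_zero _ _ x hx hx'
  have hhV : h ∈ V := (pk85_gauss M hπ h hR hcoe).1
  have hcoe' : ((h⁻¹ : ↥(modularFunctionFieldFullC K M)) : LaurentSeries K) =
      coeffMap (algebraMap R K) hRinv := by
    have h1 : coeffMap (algebraMap R K) hR * coeffMap (algebraMap R K) hRinv = 1 := by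
      rw [← map_mul, hinv, map_one]
    have h2 : ((h⁻¹ : ↥(modularFunctionFieldFullC K M)) : LaurentSeries K) =
        ((h : ↥(modularFunctionFieldFullC K M)) : LaurentSeries K)⁻¹ := rfl
    rw [h2, hcoe]
    exact inv_eq_of_mul_eq_one_right h1
  have hhV' : h⁻¹ ∈ V := (pk85_gauss M hπ h⁻¹ hRinv hcoe').1
  have hh' : Transcendental K h⁻¹ := cap87_transcendental_inv h hh
  haveI : FiniteDimensional K⟮relimc_J K M⟯ ↥(modularFunctionFieldFullC K M) := relimc_finite K M
  haveI : FiniteDimensional K⟮h⟯ ↥(modularFunctionFieldFullC K M) :=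
    wp1b_finite_of_transcendental (relimc_J K M) h hh
  haveI : FiniteDimensional K⟮h⁻¹⟯ ↥(modularFunctionFieldFullC K M) :=
    wp1b_finite_of_transcendental (relimc_J K M) h⁻¹ hh'
  obtain ⟨hN₁, hfin₁, hfrac₁⟩ := pk85_chart_finite (R := R) (K := K) h hh
  obtain ⟨hN₂, hfin₂, hfrac₂⟩ := pk85_chart_finite (R := R) (K := K) h⁻¹ hh'
  exact ⟨hh, hRV, hπV, hmax, hhV, hhV', hN₁, hN₂, hfin₁, hfin₂, hfrac₁, hfrac₂,
    fun x y hxy => pk85_gauss M hπ x y hxy⟩

end cm85_facts

section cm85_levels

variable {R K : Type} [CommRing R] [IsDomain R] [IsDiscreteValuationRing R] [Field K] [CharZero K]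
  [Algebra R K] [IsFractionRing R K] (M : ℕ) [NeZero M]
  [Algebra R ↥(modularFunctionFieldFullC K M)]
  [IsScalarTower R K ↥(modularFunctionFieldFullC K M)]

/-- **The level-free chart facts at any level `M` with `3 ∣ M`**, `h = pk85_h3 K M h3`. -/
theorem cm85_facts_level3 {π : R} (hπ : Irreducible π) (h3 : 3 ∣ M) :
    cm85_Facts R K M π (pk85_h3 K M h3) (cm85_Vinf M hπ) :=
  cm85_facts_of M hπ (pk85_h3 K M h3) (h34_h3R R) (h34_h3Rinv R)
    (h34_coeffMap_h3R (algebraMap R K)).symm (h34_h3R_mul_inv R) (pk85_h3_transcendental K M h3)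

/-- **The level-free chart facts at any level `M` with `2 ∣ M`**, `h = pk85_h2 K M h2`. -/
theorem cm85_facts_level2 {π : R} (hπ : Irreducible π) (h2 : 2 ∣ M) :
    cm85_Facts R K M π (pk85_h2 K M h2) (cm85_Vinf M hπ) :=
  cm85_facts_of M hπ (pk85_h2 K M h2) (h70_h2 R) (h70_h2inv R)
    (h70_coeffMap_h2 (algebraMap R K)).symm (h70_h2_mul_h2inv R) (pk85_h2_transcendental K M h2)

/-- **The level-free chart facts**: at any level `M` divisible by `p₀ ∈ {2, 3}` there is a
Hauptmodul `h` (of level `p₀`) satisfying `cm85_Facts` with the Gauss valuation ring `V_∞`. -/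
theorem cm85_facts {π : R} (hπ : Irreducible π) (p₀ : ℕ) (hp₀ : p₀ = 2 ∨ p₀ = 3) (hp₀M : p₀ ∣ M) :
    ∃ h : ↥(modularFunctionFieldFullC K M), cm85_Facts R K M π h (cm85_Vinf M hπ) := by
  rcases hp₀ with rfl | rfl
  · exact ⟨_, cm85_facts_level2 M hπ hp₀M⟩
  · exact ⟨_, cm85_facts_level3 M hπ hp₀M⟩

end cm85_levels

end Fermat.Agent.S34
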