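import Mathlib

/-!
# S34 lab, package P1d (helper5): the subring `W = V₁ ⊓ V₂` (abstract, Mathlib only)

For valuation subrings `V₁ V₂` (more generally a family `V i`) of a field `F` and an element
`p : F` lying in every maximal ideal (`p⁻¹ ∉ V i`), the intersection `W` satisfies exactly the
hypotheses on `W` of `ntc47_main` (S34/NodalTwoChart47.lean):

* `wa5_root`   : `x ^ m ∈ W → x ∈ W`            (`hWroot`),
* `wa5_unit`   : `x ∈ W → (1 + p x)⁻¹ ∈ W`      (`hWunit`),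
* `wa5_inv_not_mem` : `p⁻¹ ∉ W`                 (`hπW`),

packaged for an `R`-algebra `F` and `π : R` in `wa5_ntc_hyps` (two valuations) and
`wa5_ntc_hyps_iInf` (a family).  The second half is the abstract form of step (6a) of the
double-difference argument: if `τ` preserves the valuations and `σ` is trivial on `W / p W`,
then `u := σ(τ f) f / (σ f · τ f)` satisfies `u ≡ 1 mod p W` (`wa5_dd`, `wa5_dd_val`).

All names are prefixed `wa5_`.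
-/

set_option autoImplicit false

namespace Fermat.Agent.S34

section single

variable {F : Type*} [Field F]

/-- A valuation subring is closed under `m`-th roots (`m ≠ 0`). -/
theorem wa5_root_val (V : ValuationSubring F) (m : ℕ) (hm : m ≠ 0) (x : F)
    (hx : x ^ m ∈ V) : x ∈ V := by
  rcases V.mem_or_inv_mem x with h | h
  · exact h
  · by_cases hx0 : x = 0
    · rw [hx0]; exact V.zero_mem
    · obtain ⟨d, rfl⟩ : ∃ d, m = d + 1 := ⟨m - 1, by omega⟩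
      have : x = x ^ (d + 1) * x⁻¹ ^ d := by
        rw [pow_succ, mul_assoc, mul_comm x, ← mul_assoc, ← mul_pow, mul_inv_cancel₀ hx0,
          one_pow, one_mul]
      rw [this]
      exact V.mul_mem _ _ hx (V.pow_mem h d)

/-- If `p⁻¹ ∉ V` then `p ∈ V`. -/
theorem wa5_mem_of_inv_not_mem (V : ValuationSubring F) (p : F) (hp : p⁻¹ ∉ V) : p ∈ V := by
  rcases V.mem_or_inv_mem p with h | h
  · exact h
  · exact absurd h hp

/-- If `p⁻¹ ∉ V` (i.e. `p` lies in the maximal ideal) and `x ∈ V` then `1 + p x` is a unit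
of `V`. -/
theorem wa5_unit_val (V : ValuationSubring F) (p : F) (hp : p⁻¹ ∉ V) (x : F) (hx : x ∈ V) :
    (1 + p * x)⁻¹ ∈ V := by
  have hp1 : V.valuation p < 1 := by
    by_contra hcon
    rw [not_lt] at hcon
    apply hp
    rw [← ValuationSubring.valuation_le_one_iff, map_inv₀]
    by_cases hp0 : p = 0
    · rw [hp0, map_zero] at hcon
      exact absurd hcon (not_le.mpr zero_lt_one)
    · have hv0 : V.valuation p ≠ 0 := (Valuation.ne_zero_iff _).mpr hp0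
      exact (inv_le_one₀ (zero_lt_iff.mpr hv0)).mpr hcon
  have hx1 : V.valuation x ≤ 1 := (ValuationSubring.valuation_le_one_iff V x).mpr hx
  have hpx : V.valuation (p * x) < 1 := by
    rw [map_mul]
    calc V.valuation p * V.valuation x ≤ V.valuation p * 1 := by gcongr
      _ = V.valuation p := mul_one _
      _ < 1 := hp1
  have h1 : V.valuation (1 + p * x) = 1 := by
    have := Valuation.map_add_eq_of_lt_left V.valuation (x := 1) (y := p * x)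
      (by rw [map_one]; exact hpx)
    rw [this, map_one]
  rw [← ValuationSubring.valuation_le_one_iff, map_inv₀, h1, inv_one]

/-- `1 + p x ≠ 0` under the same hypotheses. -/
theorem wa5_one_add_ne_zero (V : ValuationSubring F) (p : F) (hp : p⁻¹ ∉ V) (x : F)
    (hx : x ∈ V) : 1 + p * x ≠ 0 := by
  intro h
  apply hp
  have h1 : p * (-x) = 1 := by linear_combination -h
  have h2 : p⁻¹ = -x := (eq_inv_of_mul_eq_one_right h1).symm
  rw [h2]; exact V.neg_mem _ hx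

end single

section two

variable {F : Type*} [Field F]

/-- `W := V₁ ⊓ V₂` as a subring of `F`. -/
def wa5_W (V₁ V₂ : ValuationSubring F) : Subring F := V₁.toSubring ⊓ V₂.toSubring

theorem wa5_mem_W (V₁ V₂ : ValuationSubring F) (x : F) :
    x ∈ wa5_W V₁ V₂ ↔ x ∈ V₁ ∧ x ∈ V₂ := by
  rw [wa5_W, Subring.mem_inf]
  exact Iff.rfl

theorem wa5_W_le_left (V₁ V₂ : ValuationSubring F) {x : F} (hx : x ∈ wa5_W V₁ V₂) : x ∈ V₁ :=
  ((wa5_mem_W V₁ V₂ x).mp hx).1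

theorem wa5_W_le_right (V₁ V₂ : ValuationSubring F) {x : F} (hx : x ∈ wa5_W V₁ V₂) : x ∈ V₂ :=
  ((wa5_mem_W V₁ V₂ x).mp hx).2

/-- `hWroot` of `ntc47_main`. -/
theorem wa5_root (V₁ V₂ : ValuationSubring F) (m : ℕ) (hm : m ≠ 0) (x : F)
    (hx : x ^ m ∈ wa5_W V₁ V₂) : x ∈ wa5_W V₁ V₂ := by
  rw [wa5_mem_W] at hx ⊢
  exact ⟨wa5_root_val V₁ m hm x hx.1, wa5_root_val V₂ m hm x hx.2⟩

/-- `hWunit` of `ntc47_main`. -/
theorem wa5_unit (V₁ V₂ : ValuationSubring F) (p : F) (hp₁ : p⁻¹ ∉ V₁) (hp₂ : p⁻¹ ∉ V₂)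
    (x : F) (hx : x ∈ wa5_W V₁ V₂) : (1 + p * x)⁻¹ ∈ wa5_W V₁ V₂ := by
  rw [wa5_mem_W] at hx ⊢
  exact ⟨wa5_unit_val V₁ p hp₁ x hx.1, wa5_unit_val V₂ p hp₂ x hx.2⟩

/-- `hπW` of `ntc47_main` (one of the two valuations suffices). -/
theorem wa5_inv_not_mem (V₁ V₂ : ValuationSubring F) (p : F) (hp₁ : p⁻¹ ∉ V₁) :
    p⁻¹ ∉ wa5_W V₁ V₂ := fun h => hp₁ (wa5_W_le_left V₁ V₂ h)

/-- `p ∈ W`. -/
theorem wa5_mem (V₁ V₂ : ValuationSubring F) (p : F) (hp₁ : p⁻¹ ∉ V₁) (hp₂ : p⁻¹ ∉ V₂) :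
    p ∈ wa5_W V₁ V₂ :=
  (wa5_mem_W V₁ V₂ p).mpr ⟨wa5_mem_of_inv_not_mem V₁ p hp₁, wa5_mem_of_inv_not_mem V₂ p hp₂⟩

/-- congruence `x ≡ y mod p W` is checked on the two valuation rings separately. -/
theorem wa5_cong_iff (V₁ V₂ : ValuationSubring F) (p x y : F) :
    p⁻¹ * (x - y) ∈ wa5_W V₁ V₂ ↔ p⁻¹ * (x - y) ∈ V₁ ∧ p⁻¹ * (x - y) ∈ V₂ :=
  wa5_mem_W V₁ V₂ _

/-- All hypotheses of `ntc47_main` that concern `W` alone, for `W = V₁ ⊓ V₂`. -/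
theorem wa5_ntc_hyps {R : Type*} [CommRing R] [Algebra R F] (V₁ V₂ : ValuationSubring F)
    (hR₁ : ∀ r : R, algebraMap R F r ∈ V₁) (hR₂ : ∀ r : R, algebraMap R F r ∈ V₂)
    (π : R) (hπ₁ : (algebraMap R F π)⁻¹ ∉ V₁) (hπ₂ : (algebraMap R F π)⁻¹ ∉ V₂)
    (m : ℕ) (hm : m ≠ 0) :
    (∀ r : R, algebraMap R F r ∈ wa5_W V₁ V₂) ∧
    (algebraMap R F π)⁻¹ ∉ wa5_W V₁ V₂ ∧
    (∀ x : F, x ^ m ∈ wa5_W V₁ V₂ → x ∈ wa5_W V₁ V₂) ∧
    (∀ x ∈ wa5_W V₁ V₂, (1 + algebraMap R F π * x)⁻¹ ∈ wa5_W V₁ V₂) :=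
  ⟨fun r => (wa5_mem_W V₁ V₂ _).mpr ⟨hR₁ r, hR₂ r⟩,
   wa5_inv_not_mem V₁ V₂ _ hπ₁,
   fun x hx => wa5_root V₁ V₂ m hm x hx,
   fun x hx => wa5_unit V₁ V₂ _ hπ₁ hπ₂ x hx⟩

end two

section family

variable {F : Type*} [Field F] {ι : Type*}

/-- `W := ⨅ i, V i` as a subring of `F`. -/
def wa5_Wf (V : ι → ValuationSubring F) : Subring F := ⨅ i, (V i).toSubring

theorem wa5_mem_Wf (V : ι → ValuationSubring F) (x : F) :
    x ∈ wa5_Wf V ↔ ∀ i, x ∈ V i := by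
  rw [wa5_Wf, Subring.mem_iInf]
  exact Iff.rfl

theorem wa5_root_f (V : ι → ValuationSubring F) (m : ℕ) (hm : m ≠ 0) (x : F)
    (hx : x ^ m ∈ wa5_Wf V) : x ∈ wa5_Wf V := by
  rw [wa5_mem_Wf] at hx ⊢
  exact fun i => wa5_root_val (V i) m hm x (hx i)

theorem wa5_unit_f (V : ι → ValuationSubring F) (p : F) (hp : ∀ i, p⁻¹ ∉ V i)
    (x : F) (hx : x ∈ wa5_Wf V) : (1 + p * x)⁻¹ ∈ wa5_Wf V := by
  rw [wa5_mem_Wf] at hx ⊢
  exact fun i => wa5_unit_val (V i) p (hp i) x (hx i)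

theorem wa5_inv_not_mem_f (V : ι → ValuationSubring F) (p : F) (i : ι) (hp : p⁻¹ ∉ V i) :
    p⁻¹ ∉ wa5_Wf V := fun h => hp ((wa5_mem_Wf V _).mp h i)

/-- The two-valuation `W` is the family `W` over `Bool`/`Fin 2`-style index. -/
theorem wa5_W_eq_Wf (V₁ V₂ : ValuationSubring F) :
    wa5_W V₁ V₂ = wa5_Wf (fun b : Bool => if b then V₁ else V₂) := by
  ext x
  rw [wa5_mem_W, wa5_mem_Wf]
  constructor
  · rintro ⟨h1, h2⟩ b
    cases b
    · simpa using h2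
    · simpa using h1
  · intro h
    exact ⟨by simpa using h true, by simpa using h false⟩

/-- Family version of `wa5_ntc_hyps`. -/
theorem wa5_ntc_hyps_iInf {R : Type*} [CommRing R] [Algebra R F] [Nonempty ι]
    (V : ι → ValuationSubring F)
    (hR : ∀ i, ∀ r : R, algebraMap R F r ∈ V i)
    (π : R) (hπ : ∀ i, (algebraMap R F π)⁻¹ ∉ V i)
    (m : ℕ) (hm : m ≠ 0) :
    (∀ r : R, algebraMap R F r ∈ wa5_Wf V) ∧
    (algebraMap R F π)⁻¹ ∉ wa5_Wf V ∧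
    (∀ x : F, x ^ m ∈ wa5_Wf V → x ∈ wa5_Wf V) ∧
    (∀ x ∈ wa5_Wf V, (1 + algebraMap R F π * x)⁻¹ ∈ wa5_Wf V) :=
  ⟨fun r => (wa5_mem_Wf V _).mpr fun i => hR i r,
   wa5_inv_not_mem_f V _ (Classical.arbitrary ι) (hπ _),
   fun x hx => wa5_root_f V m hm x hx,
   fun x hx => wa5_unit_f V _ hπ x hx⟩

end family

section doublediff

variable {F : Type*} [Field F]

/-- Abstract step (6a): if `g` is a unit of `W` and `σ` is trivial on `W / p W`, then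
`σ g / g ≡ 1 mod p W`. -/
theorem wa5_ratio_cong (W : Subring F) (p : F) (σ : F ≃+* F)
    (hσ : ∀ y ∈ W, p⁻¹ * (σ y - y) ∈ W)
    (g : F) (hg0 : g ≠ 0) (hg : g ∈ W) (hginv : g⁻¹ ∈ W) :
    p⁻¹ * (σ g / g - 1) ∈ W := by
  have h1 : p⁻¹ * (σ g / g - 1) = g⁻¹ * (p⁻¹ * (σ g - g)) := by
    field_simp
  rw [h1]
  exact W.mul_mem hginv (hσ g hg)

/-- Abstract step (6a) for the double difference `u = σ(τ f) · f / (σ f · τ f)`:
if `τ f / f` is a unit of `W` and `σ` is trivial on `W / p W`, then `u ≡ 1 mod p W`. -/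
theorem wa5_dd (W : Subring F) (p : F) (σ τ : F ≃+* F)
    (hσ : ∀ y ∈ W, p⁻¹ * (σ y - y) ∈ W)
    (f : F) (hf0 : f ≠ 0) (hτ : τ f / f ∈ W) (hτ' : f / τ f ∈ W) :
    p⁻¹ * (σ (τ f) * f / (σ f * τ f) - 1) ∈ W := by
  have hτf0 : τ f ≠ 0 := (map_ne_zero τ).mpr hf0
  have hσf0 : σ f ≠ 0 := (map_ne_zero σ).mpr hf0
  have hg0 : τ f / f ≠ 0 := div_ne_zero hτf0 hf0
  have hginv : (τ f / f)⁻¹ ∈ W := by rw [inv_div]; exact hτ'
  have key := wa5_ratio_cong W p σ hσ (τ f / f) hg0 hτ hginv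
  have h2 : σ (τ f / f) / (τ f / f) = σ (τ f) * f / (σ f * τ f) := by
    rw [map_div₀]
    field_simp
  rw [h2] at key
  exact key

/-- If `τ` preserves the valuation of `V` then `τ f / f` is a unit of `V` (`f ≠ 0`). -/
theorem wa5_ratio_mem_val (V : ValuationSubring F) (τ : F ≃+* F)
    (hval : ∀ x : F, V.valuation (τ x) = V.valuation x) (f : F) (hf0 : f ≠ 0) :
    τ f / f ∈ V ∧ f / τ f ∈ V := by
  have hv0 : V.valuation f ≠ 0 := (Valuation.ne_zero_iff _).mpr hf0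
  constructor
  · rw [← ValuationSubring.valuation_le_one_iff, map_div₀, hval, div_self hv0]
  · rw [← ValuationSubring.valuation_le_one_iff, map_div₀, hval, div_self hv0]

/-- (6a) for `W = V₁ ⊓ V₂`: `τ` preserves both valuations, `σ` is trivial on `W / p W`. -/
theorem wa5_dd_val (V₁ V₂ : ValuationSubring F) (p : F) (σ τ : F ≃+* F)
    (hval₁ : ∀ x : F, V₁.valuation (τ x) = V₁.valuation x)
    (hval₂ : ∀ x : F, V₂.valuation (τ x) = V₂.valuation x)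
    (hσ : ∀ y ∈ wa5_W V₁ V₂, p⁻¹ * (σ y - y) ∈ wa5_W V₁ V₂)
    (f : F) (hf0 : f ≠ 0) :
    p⁻¹ * (σ (τ f) * f / (σ f * τ f) - 1) ∈ wa5_W V₁ V₂ := by
  have h1 := wa5_ratio_mem_val V₁ τ hval₁ f hf0
  have h2 := wa5_ratio_mem_val V₂ τ hval₂ f hf0
  exact wa5_dd (wa5_W V₁ V₂) p σ τ hσ f hf0
    ((wa5_mem_W V₁ V₂ _).mpr ⟨h1.1, h2.1⟩) ((wa5_mem_W V₁ V₂ _).mpr ⟨h1.2, h2.2⟩)

/-- `σ` trivial on `V₁ / p V₁` and on `V₂ / p V₂` implies `σ` trivial on `W / p W`. -/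
theorem wa5_triv_of_triv (V₁ V₂ : ValuationSubring F) (p : F) (σ : F ≃+* F)
    (h₁ : ∀ y ∈ V₁, p⁻¹ * (σ y - y) ∈ V₁) (h₂ : ∀ y ∈ V₂, p⁻¹ * (σ y - y) ∈ V₂) :
    ∀ y ∈ wa5_W V₁ V₂, p⁻¹ * (σ y - y) ∈ wa5_W V₁ V₂ := fun y hy =>
  (wa5_mem_W V₁ V₂ _).mpr ⟨h₁ y (wa5_W_le_left V₁ V₂ hy), h₂ y (wa5_W_le_right V₁ V₂ hy)⟩

/-- A factorisation criterion for `τ x / x ∈ Vˣ`: if `x = c * y` with `τ c = c` and `y`, `τ y`
units of `V`, then `τ x / x ∈ V` and `x / τ x ∈ V`. -/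
theorem wa5_ratio_mem_of_factor (V : ValuationSubring F) (τ : F ≃+* F) (x c y : F)
    (hx : x = c * y) (hc : τ c = c) (hc0 : c ≠ 0) (hy0 : y ≠ 0)
    (hyinv : y⁻¹ ∈ V) (hy : y ∈ V) (hτy : τ y ∈ V) (hτyinv : (τ y)⁻¹ ∈ V) :
    τ x / x ∈ V ∧ x / τ x ∈ V := by
  have hτy0 : τ y ≠ 0 := (map_ne_zero τ).mpr hy0
  constructor
  · have : τ x / x = τ y * y⁻¹ := by
      rw [hx, map_mul, hc]; field_simp
    rw [this]; exact V.mul_mem _ _ hτy hyinv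
  · have : x / τ x = y * (τ y)⁻¹ := by
      rw [hx, map_mul, hc]; field_simp
    rw [this]; exact V.mul_mem _ _ hy hτyinv

end doublediff

end Fermat.Agent.S34
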