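import Mathlib
import Fermat.Agent.S34.Iface47
import Fermat.Agent.S34.AtkinLehnerL97
import Fermat.Agent.S34.ChartM85
import Fermat.Agent.S34.WAbs5

/-!
# S34 lab: interface, part c (helper47, architect) — the FRAME split into three packages

The frame `s34i47_Frame M q` (Iface47) at a level `M = M' * q`, `q ∤ M'`, is built on the
CANONICAL data

* `V_∞ := cm85_Vinf (M' * q) hπ` (helper85; the Gauss valuation ring of the `q`-expansion),
* `w := al97L_w (algebraMap K ℚ̄) M' q hq hM'` (helper97; the Atkin–Lehner involution of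
  `F_K(M' q)`),
* `V_0 := s34i47c_V0 = V_∞.comap w`,
* `W := s34i47c_W = wa5_W V_∞ V_0` (helper5),
* `h` one of the two Hauptmoduln `pk85_h2 K M _` (`q ≠ 2`), `pk85_h3 K M _` (`q ≠ 3`)
  (`s34i47c_IsHaupt`).

Three packages, each a closed `Prop`:

* `s34i47c_Pkg_FrameSat` (P1a + P2): (W) for `W` and (C) = `s34i47_ChartProps K π W h`;
* `s34i47c_Pkg_FrameGal` (P1b + P1c): (G) for the coefficientwise action of every inertial
  automorphism of `K`, which fixes `h`;
* `s34i47c_Pkg_FrameLS` (P3 + P4 + P4′): (LS) = `s34i47_LocStr π B` for the two affine charts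
  `B = pk15_chart R {h}`, `pk15_chart R {h⁻¹}`.  NOTE: (LS) does not mention `W`, `V_∞`, `V_0`.

`s34i47c_frame_of` : the three packages give `s34i47_Pkg_Frame`.
-/

set_option autoImplicit false

open ModularCurve AlgebraicCurve

namespace Fermat.Agent.S34

open Fermat.Agent.S18

local notation "Q̄" => AlgebraicClosure ℚ

/-- `h` is one of the two Hauptmoduln of `F_K(M)` available in residue characteristic `q`:
the level-2 Hauptmodul if `q ≠ 2` and `2 ∣ M`, the level-3 Hauptmodul if `q ≠ 3` and `3 ∣ M`. -/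
def s34i47c_IsHaupt (K : Type) [Field K] [CharZero K] (M q : ℕ) [NeZero M]
    (h : ↥(modularFunctionFieldFullC K M)) : Prop :=
  (q ≠ 2 ∧ ∃ h2 : 2 ∣ M, h = pk85_h2 K M h2) ∨ (q ≠ 3 ∧ ∃ h3 : 3 ∣ M, h = pk85_h3 K M h3)

section Canonical

variable {R K : Type} [CommRing R] [IsDomain R] [IsDiscreteValuationRing R] [Field K]
  [Algebra R K] [IsFractionRing R K] [Algebra K Q̄]
  (M' q : ℕ) [NeZero M'] [NeZero q] (hq : q.Prime) (hM' : ¬ q ∣ M')

/-- The second valuation ring `V_0 = w_q^* V_∞` of `F_K(M' q)`. -/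
noncomputable def s34i47c_V0 {π : R} (hπ : Irreducible π) :
    ValuationSubring ↥(modularFunctionFieldFullC K (M' * q)) :=
  (cm85_Vinf (M' * q) hπ).comap
    ((al97L_w (algebraMap K Q̄) M' q hq hM' :
      ↥(modularFunctionFieldFullC K (M' * q)) ≃ₐ[K] ↥(modularFunctionFieldFullC K (M' * q))) :
      ↥(modularFunctionFieldFullC K (M' * q)) →+* ↥(modularFunctionFieldFullC K (M' * q)))

theorem s34i47c_mem_V0 {π : R} (hπ : Irreducible π)
    (x : ↥(modularFunctionFieldFullC K (M' * q))) :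
    x ∈ s34i47c_V0 M' q hq hM' hπ ↔
      al97L_w (algebraMap K Q̄) M' q hq hM' x ∈ cm85_Vinf (K := K) (M' * q) hπ :=
  Iff.rfl

/-- The ring `W = V_∞ ⊓ V_0` of `F_K(M' q)`. -/
noncomputable def s34i47c_W {π : R} (hπ : Irreducible π) :
    Subring ↥(modularFunctionFieldFullC K (M' * q)) :=
  wa5_W (cm85_Vinf (M' * q) hπ) (s34i47c_V0 M' q hq hM' hπ)

theorem s34i47c_mem_W {π : R} (hπ : Irreducible π)
    (x : ↥(modularFunctionFieldFullC K (M' * q))) :
    x ∈ s34i47c_W M' q hq hM' hπ ↔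
      x ∈ cm85_Vinf (K := K) (M' * q) hπ ∧
        al97L_w (algebraMap K Q̄) M' q hq hM' x ∈ cm85_Vinf (K := K) (M' * q) hπ :=
  wa5_mem_W _ _ x

end Canonical

/-- **FRAME-SAT** (P1a + P2) at level `M' * q`: (W) for the canonical `W` and (C) for every
admissible Hauptmodul. -/
def s34i47c_FrameSat (M' q : ℕ) [NeZero M'] [NeZero q] (hq : q.Prime) (hM' : ¬ q ∣ M') : Prop :=
  ∀ (R K : Type) [CommRing R] [IsDomain R] [IsDiscreteValuationRing R] [Field K] [NumberField K]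
    [Algebra K Q̄] [Algebra R K] [IsFractionRing R K]
    [Algebra R ↥(modularFunctionFieldFullC K (M' * q))]
    [IsScalarTower R K ↥(modularFunctionFieldFullC K (M' * q))] (π : R) (hπ : Irreducible π),
    (∀ n : ℕ, Nat.Coprime n q → IsUnit (n : R)) → ¬ IsUnit (q : R) →
    s34i47_WProps π (s34i47c_W (K := K) M' q hq hM' hπ) ∧
    ∀ h : ↥(modularFunctionFieldFullC K (M' * q)), s34i47c_IsHaupt K (M' * q) q h →
      s34i47_ChartProps K π (s34i47c_W (K := K) M' q hq hM' hπ) h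

/-- **FRAME-GAL** (P1b + P1c) at level `M' * q`: (G) for the coefficientwise action of every
inertial automorphism of `K` on the canonical `W`; it fixes the Hauptmoduln. -/
def s34i47c_FrameGal (M' q : ℕ) [NeZero M'] [NeZero q] (hq : q.Prime) (hM' : ¬ q ∣ M') : Prop :=
  ∀ (R K : Type) [CommRing R] [IsDomain R] [IsDiscreteValuationRing R] [Field K] [NumberField K]
    [Algebra K Q̄] [Algebra R K] [IsFractionRing R K]
    [Algebra R ↥(modularFunctionFieldFullC K (M' * q))]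
    [IsScalarTower R K ↥(modularFunctionFieldFullC K (M' * q))] (π : R) (hπ : Irreducible π),
    (∀ n : ℕ, Nat.Coprime n q → IsUnit (n : R)) → ¬ IsUnit (q : R) →
    ∀ σ : K ≃+* K, s34i47_Inertial R σ →
      s34i47_GalProps π (s34i47c_W (K := K) M' q hq hM' hπ) (s34i47_coeffEquiv σ (M' * q)) ∧
      ∀ h : ↥(modularFunctionFieldFullC K (M' * q)), s34i47c_IsHaupt K (M' * q) q h →
        s34i47_coeffEquiv σ (M' * q) h = h

/-- **FRAME-LS** (P3 + P4 + P4′) at level `M' * q`: the local structure (LS) of the two affine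
charts of every admissible Hauptmodul at the closed points of the special fibre. -/
def s34i47c_FrameLS (M' q : ℕ) [NeZero M'] [NeZero q] : Prop :=
  ∀ (R K : Type) [CommRing R] [IsDomain R] [IsDiscreteValuationRing R] [Field K] [NumberField K]
    [Algebra K Q̄] [Algebra R K] [IsFractionRing R K]
    [Algebra R ↥(modularFunctionFieldFullC K (M' * q))]
    [IsScalarTower R K ↥(modularFunctionFieldFullC K (M' * q))] (π : R), Irreducible π →
    (∀ n : ℕ, Nat.Coprime n q → IsUnit (n : R)) → ¬ IsUnit (q : R) →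
    ∀ h : ↥(modularFunctionFieldFullC K (M' * q)), s34i47c_IsHaupt K (M' * q) q h →
      s34i47_LocStr π (pk15_chart R ({h} : Set ↥(modularFunctionFieldFullC K (M' * q)))) ∧
      s34i47_LocStr π (pk15_chart R ({h⁻¹} : Set ↥(modularFunctionFieldFullC K (M' * q))))

/-- Package statement for FRAME-SAT. -/
def s34i47c_Pkg_FrameSat : Prop :=
  ∀ (M' q : ℕ) [NeZero M'] [NeZero q] (hq : q.Prime) (hM' : ¬ q ∣ M'),
    s34i47c_FrameSat M' q hq hM'

/-- Package statement for FRAME-GAL. -/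
def s34i47c_Pkg_FrameGal : Prop :=
  ∀ (M' q : ℕ) [NeZero M'] [NeZero q] (hq : q.Prime) (hM' : ¬ q ∣ M'),
    s34i47c_FrameGal M' q hq hM'

/-- Package statement for FRAME-LS. -/
def s34i47c_Pkg_FrameLS : Prop :=
  ∀ (M' q : ℕ) [NeZero M'] [NeZero q], q.Prime → ¬ q ∣ M' → s34i47c_FrameLS M' q

/-- **FRAME from its three packages.** -/
theorem s34i47c_frame_of (hSat : s34i47c_Pkg_FrameSat) (hGal : s34i47c_Pkg_FrameGal)
    (hLS : s34i47c_Pkg_FrameLS) : s34i47_Pkg_Frame := by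
  intro M q p₀ hq hqM hq2 hp₀ hp₀q hp₀M
  obtain ⟨M', rfl⟩ := hqM
  have hM'0 : M' ≠ 0 := by
    rintro rfl
    exact hq2 (by simp)
  have hqM' : ¬ q ∣ M' := by
    rintro ⟨c, rfl⟩
    exact hq2 ⟨c, by ring⟩
  have : NeZero M' := ⟨hM'0⟩
  have : NeZero q := ⟨hq.ne_zero⟩
  rw [Nat.mul_comm q M'] at hp₀M ⊢
  intro R K _ _ _ _ _ _ _ _ _ _ π hπ hunit hqR
  -- the Hauptmodul
  obtain ⟨h, hh⟩ : ∃ h : ↥(modularFunctionFieldFullC K (M' * q)),
      s34i47c_IsHaupt K (M' * q) q h := by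
    rcases hp₀ with rfl | rfl
    · exact ⟨pk85_h2 K (M' * q) hp₀M, Or.inl ⟨Ne.symm hp₀q, hp₀M, rfl⟩⟩
    · exact ⟨pk85_h3 K (M' * q) hp₀M, Or.inr ⟨Ne.symm hp₀q, hp₀M, rfl⟩⟩
  obtain ⟨hW, hC⟩ := hSat M' q hq hqM' R K π hπ hunit hqR
  obtain ⟨hLS₁, hLS₂⟩ := hLS M' q hq hqM' R K π hπ hunit hqR h hh
  refine ⟨h, s34i47c_W (K := K) M' q hq hqM' hπ, hW, hC h hh, hLS₁, hLS₂, ?_⟩
  intro σ hσ
  obtain ⟨hG, hfix⟩ := hGal M' q hq hqM' R K π hπ hunit hqR σ hσ
  exact ⟨hG, hfix h hh⟩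

end Fermat.Agent.S34
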