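import Mathlib
import Fermat.Agent.S18.GaussPack55
import Fermat.Agent.S18.FieldDef27

/-!
# S34 lab, P1c (helper87): inertia on the Gauss valuation rings of `F(M)_L`

Everything is stated for an ARBITRARY level `M` (no invertibility of the level in `R`).

* `in87_map φ M` : the coefficientwise ring homomorphism `F(M)_{K₁} → F(M)_{K₂}` induced by a
  homomorphism `φ : K₁ →+* K₂` of constant fields; `in87_aut M : (K ≃+* K) →* (F ≃+* F)` the
  induced action of the automorphisms of the constant field on `F = F(M)_K`.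
* `in87_gv_mem`, `in87_gv_sub_mem` : for the Gauss valuation ring `gv85_V` of any intermediate
  field `F ⊆ K((q))`: if `σ` restricts to `σR : R →+* R` reflecting the maximal ideal then the
  coefficientwise action of `σ` maps `V` into `V`  **(I1)**; if moreover `σR r ≡ r mod π` for all
  `r` (inertia) then `π⁻¹ (σ x - x) ∈ V` for all `x ∈ V`  **(I2)**.
* `in87_mem_V`, `in87_sub_mem_V` : (I1), (I2) for `c1g55_V R K M hπ` (= `V_∞`) and `in87_aut`.
* `in87_comap_*` : transport of (I1), (I2) to `V.comap w` for a ring endomorphism `w` of `F`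
  commuting with `σ` and fixing `π` (= `V_0 = w_q^* V_∞`), and `in87_inf_*` for the intersection
  of two valuation rings (= `W = V_∞ ⊓ V_0`).
* `in87_inertia_*` : the concrete case `R = A ∩ L` for a valuation subring `A` of `ℚ̄`, a normal
  subfield `L ⊆ ℚ̄` and `σ` in the inertia group of `A`: `σ|_L` preserves `R`, is trivial modulo
  the maximal ideal, has finite order, and is compatible with the arithmetic Galois action on
  `modularFunctionFieldBar M` through `fd27_iota`.
-/

set_option autoImplicit false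
set_option linter.unusedSectionVars false
set_option linter.style.haveILetI false

open ModularCurve IntermediateField

namespace Fermat.Agent.S34

open Fermat.Agent.S18

/-! ### The coefficientwise action on `F(M)_K` -/

section Map

variable {K1 K2 K3 : Type*} [Field K1] [Field K2] [Field K3]

/-- The coefficientwise map `F(M)_{K₁} → F(M)_{K₂}` induced by a homomorphism of the constant
fields. -/
noncomputable def in87_map (φ : K1 →+* K2) (M : ℕ) :
    ↥(modularFunctionFieldFullC K1 M) →+* ↥(modularFunctionFieldFullC K2 M) :=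
  ((coeffMap φ).comp (modularFunctionFieldFullC K1 M).toSubring.subtype).codRestrict
    (modularFunctionFieldFullC K2 M).toSubring fun x => fd27_coeffMap_mem φ M x.2

@[simp]
theorem in87_map_coe (φ : K1 →+* K2) (M : ℕ) (x : ↥(modularFunctionFieldFullC K1 M)) :
    ((in87_map φ M x : ↥(modularFunctionFieldFullC K2 M)) : LaurentSeries K2) =
      coeffMap φ (x : LaurentSeries K1) := rfl

theorem in87_map_algebraMap (φ : K1 →+* K2) (M : ℕ) (c : K1) :
    in87_map φ M (algebraMap K1 ↥(modularFunctionFieldFullC K1 M) c) =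
      algebraMap K2 ↥(modularFunctionFieldFullC K2 M) (φ c) := by
  apply Subtype.ext
  rw [in87_map_coe]
  exact fd27_coeffMap_algebraMap φ c

theorem in87_map_map (ψ : K2 →+* K3) (φ : K1 →+* K2) (M : ℕ)
    (x : ↥(modularFunctionFieldFullC K1 M)) :
    in87_map ψ M (in87_map φ M x) = in87_map (ψ.comp φ) M x := by
  apply Subtype.ext
  rw [in87_map_coe, in87_map_coe, in87_map_coe, coeffMap_coeffMap]

theorem in87_map_id (M : ℕ) (x : ↥(modularFunctionFieldFullC K1 M)) :
    in87_map (RingHom.id K1) M x = x := by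
  apply Subtype.ext
  rw [in87_map_coe, coeffMap_id]

theorem in87_map_congr {φ ψ : K1 →+* K2} (h : ∀ c, φ c = ψ c) (M : ℕ)
    (x : ↥(modularFunctionFieldFullC K1 M)) : in87_map φ M x = in87_map ψ M x := by
  rw [RingHom.ext h]

theorem in87_map_injective (φ : K1 →+* K2) (M : ℕ) : Function.Injective (in87_map φ M) :=
  (in87_map φ M).injective

/-- `fd27_iota` is `in87_map` into `ℚ̄`. -/
theorem in87_iota_coe {K : Type*} [Field K] (φ : K →+* AlgebraicClosure ℚ) (M : ℕ)
    (x : ↥(modularFunctionFieldFullC K M)) :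
    ((fd27_iota φ M x : ↥(modularFunctionFieldBar M)) : LaurentSeries (AlgebraicClosure ℚ)) =
      coeffMap φ (x : LaurentSeries K) := rfl

variable {K : Type*} [Field K]

/-- The action of the automorphisms of the constant field on `F(M)_K`. -/
noncomputable def in87_aut (M : ℕ) :
    (K ≃+* K) →* (↥(modularFunctionFieldFullC K M) ≃+* ↥(modularFunctionFieldFullC K M)) where
  toFun σ :=
    { toFun := in87_map (σ : K →+* K) M
      invFun := in87_map (σ.symm : K →+* K) M
      left_inv := fun x => by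
        rw [in87_map_map]
        rw [in87_map_congr (ψ := RingHom.id K) (fun c => σ.symm_apply_apply c), in87_map_id]
      right_inv := fun x => by
        rw [in87_map_map]
        rw [in87_map_congr (ψ := RingHom.id K) (fun c => σ.apply_symm_apply c), in87_map_id]
      map_mul' := fun x y => map_mul _ x y
      map_add' := fun x y => map_add _ x y }
  map_one' := by
    refine RingEquiv.ext fun x => ?_
    show in87_map ((1 : K ≃+* K) : K →+* K) M x = x
    rw [in87_map_congr (φ := ((1 : K ≃+* K) : K →+* K)) (ψ := RingHom.id K) (fun c => rfl),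
      in87_map_id]
  map_mul' σ τ := by
    refine RingEquiv.ext fun x => ?_
    show in87_map ((σ * τ : K ≃+* K) : K →+* K) M x =
      in87_map (σ : K →+* K) M (in87_map (τ : K →+* K) M x)
    rw [in87_map_map]
    exact in87_map_congr (fun c => rfl) M x

theorem in87_aut_apply (M : ℕ) (σ : K ≃+* K) (x : ↥(modularFunctionFieldFullC K M)) :
    in87_aut M σ x = in87_map (σ : K →+* K) M x := rfl

@[simp]
theorem in87_aut_coe (M : ℕ) (σ : K ≃+* K) (x : ↥(modularFunctionFieldFullC K M)) :
    ((in87_aut M σ x : ↥(modularFunctionFieldFullC K M)) : LaurentSeries K) =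
      coeffMap (σ : K →+* K) (x : LaurentSeries K) := rfl

theorem in87_aut_algebraMap (M : ℕ) (σ : K ≃+* K) (c : K) :
    in87_aut M σ (algebraMap K ↥(modularFunctionFieldFullC K M) c) =
      algebraMap K ↥(modularFunctionFieldFullC K M) (σ c) :=
  in87_map_algebraMap (σ : K →+* K) M c

/-- A finite order automorphism of the constants acts with finite order. -/
theorem in87_aut_pow_eq_one (M : ℕ) (σ : K ≃+* K) (k : ℕ) (hk : σ ^ k = 1) :
    (in87_aut (K := K) M σ) ^ k = 1 := by
  rw [← map_pow, hk, map_one]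

end Map

/-! ### (I1), (I2) for the Gauss valuation ring of an intermediate field of `K((q))` -/

section Gauss

variable {R K κ : Type*} [CommRing R] [IsDomain R] [Field K] [Algebra R K] [IsFractionRing R K]
  [Field κ] [ValuationRing R]

theorem in87_coeffMap_comm (σ : K →+* K) (σR : R →+* R)
    (hσ : ∀ r, algebraMap R K (σR r) = σ (algebraMap R K r)) (s : LaurentSeries R) :
    coeffMap (algebraMap R K) (coeffMap σR s) = coeffMap σ (coeffMap (algebraMap R K) s) := by
  rw [coeffMap_coeffMap, coeffMap_coeffMap]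
  exact coeffMap_congr (RingHom.ext hσ) s

theorem in87_red_ne_zero (res : R →+* κ) (σR : R →+* R)
    (hloc : ∀ r, res (σR r) = 0 → res r = 0) (s : LaurentSeries R)
    (hs : coeffMap res s ≠ 0) : coeffMap res (coeffMap σR s) ≠ 0 := by
  intro h
  apply hs
  ext n
  have h1 := congrArg (fun z => z.coeff n) h
  simp only [coeffMap_coeff, HahnSeries.coeff_zero] at h1
  rw [coeffMap_coeff, HahnSeries.coeff_zero]
  exact hloc _ h1

/-- **(I1)**, general form: if `σ` restricts to an endomorphism `σR` of `R` reflecting the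
maximal ideal, the coefficientwise action of `σ` maps the Gauss valuation ring into itself. -/
theorem in87_gv_mem (res : R →+* κ) (F : IntermediateField K (LaurentSeries K))
    (hF : gv85_HF res F) (σ : K →+* K) (σR : R →+* R)
    (hσ : ∀ r, algebraMap R K (σR r) = σ (algebraMap R K r))
    (hloc : ∀ r, res (σR r) = 0 → res r = 0)
    (x y : F) (hxy : (y : LaurentSeries K) = coeffMap σ (x : LaurentSeries K))
    (hx : x ∈ gv85_V res F hF) : y ∈ gv85_V res F hF := by
  obtain ⟨s, t, hs, hst⟩ := hx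
  refine ⟨coeffMap σR s, coeffMap σR t, in87_red_ne_zero res σR hloc s hs, ?_⟩
  rw [in87_coeffMap_comm σ σR hσ, in87_coeffMap_comm σ σR hσ, hxy, ← map_mul, hst]

/-- **(I2)**, general form: if moreover `σR r ≡ r mod π` for all `r ∈ R`, then
`π⁻¹ (σ x - x) ∈ V` for all `x ∈ V`. -/
theorem in87_gv_sub_mem (res : R →+* κ) (π : R) (hres : ∀ r, res r = 0 ↔ π ∣ r) (hπ0 : π ≠ 0)
    (F : IntermediateField K (LaurentSeries K))
    (hF : gv85_HF res F) (σ : K →+* K) (σR : R →+* R)
    (hσ : ∀ r, algebraMap R K (σR r) = σ (algebraMap R K r))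
    (hin : ∀ r, π ∣ σR r - r)
    (x y : F) (hxy : (y : LaurentSeries K) = coeffMap σ (x : LaurentSeries K))
    (hx : x ∈ gv85_V res F hF) :
    (algebraMap K F (algebraMap R K π))⁻¹ * (y - x) ∈ gv85_V res F hF := by
  have hloc : ∀ r, res (σR r) = 0 → res r = 0 := by
    intro r hr
    rw [hres] at hr ⊢
    have h1 := dvd_sub hr (hin r)
    rwa [sub_sub_cancel] at h1
  obtain ⟨s, t, hs, hst⟩ := hx
  obtain ⟨s', hs'⟩ := gv85_exists_div (coeffMap σR s - s) π hπ0 (fun n => by
    rw [HahnSeries.coeff_sub, coeffMap_coeff]; exact hin _)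
  obtain ⟨t', ht'⟩ := gv85_exists_div (coeffMap σR t - t) π hπ0 (fun n => by
    rw [HahnSeries.coeff_sub, coeffMap_coeff]; exact hin _)
  have hπK : algebraMap R K π ≠ 0 := fun h =>
    hπ0 (IsFractionRing.injective R K (by rw [h, map_zero]))
  have hC0 : (HahnSeries.C (algebraMap R K π) : LaurentSeries K) ≠ 0 := HahnSeries.C_ne_zero hπK
  refine ⟨s * coeffMap σR s, s * t' - s' * t, ?_, ?_⟩
  · rw [map_mul]
    exact mul_ne_zero hs (in87_red_ne_zero res σR hloc s hs)
  · have h1 : (((algebraMap K F (algebraMap R K π))⁻¹ * (y - x) : F) : LaurentSeries K) =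
        (HahnSeries.C (algebraMap R K π))⁻¹ * ((y : LaurentSeries K) - (x : LaurentSeries K)) :=
      gv85_coe_inv_mul F _ (y - x)
    have e1 : coeffMap (algebraMap R K) (coeffMap σR s) * (y : LaurentSeries K) =
        coeffMap (algebraMap R K) (coeffMap σR t) := by
      rw [in87_coeffMap_comm σ σR hσ, in87_coeffMap_comm σ σR hσ, hxy, ← map_mul, hst]
    have e2 : coeffMap (algebraMap R K) (coeffMap σR s) =
        coeffMap (algebraMap R K) s +
          HahnSeries.C (algebraMap R K π) * coeffMap (algebraMap R K) s' := by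
      rw [← gv85_coeffMap_C, ← map_mul, ← hs', map_sub]; ring
    have e3 : coeffMap (algebraMap R K) (coeffMap σR t) =
        coeffMap (algebraMap R K) t +
          HahnSeries.C (algebraMap R K π) * coeffMap (algebraMap R K) t' := by
      rw [← gv85_coeffMap_C, ← map_mul, ← ht', map_sub]; ring
    rw [h1, map_mul, map_sub, map_mul, map_mul]
    rw [e2] at e1 ⊢
    rw [e3] at e1
    have e4 : HahnSeries.C (algebraMap R K π) *
        ((coeffMap (algebraMap R K) s *
            (coeffMap (algebraMap R K) s +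
              HahnSeries.C (algebraMap R K π) * coeffMap (algebraMap R K) s')) *
          ((HahnSeries.C (algebraMap R K π))⁻¹ * ((y : LaurentSeries K) - (x : LaurentSeries K))))
        = HahnSeries.C (algebraMap R K π) *
          (coeffMap (algebraMap R K) s * coeffMap (algebraMap R K) t' -
            coeffMap (algebraMap R K) s' * coeffMap (algebraMap R K) t) := by
      have e5 : HahnSeries.C (algebraMap R K π) *
          ((coeffMap (algebraMap R K) s *
              (coeffMap (algebraMap R K) s +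
                HahnSeries.C (algebraMap R K π) * coeffMap (algebraMap R K) s')) *
            ((HahnSeries.C (algebraMap R K π))⁻¹ *
              ((y : LaurentSeries K) - (x : LaurentSeries K)))) =
          (HahnSeries.C (algebraMap R K π) * (HahnSeries.C (algebraMap R K π))⁻¹) *
            (coeffMap (algebraMap R K) s *
              ((coeffMap (algebraMap R K) s +
                HahnSeries.C (algebraMap R K π) * coeffMap (algebraMap R K) s') *
                  (y : LaurentSeries K)) -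
             (coeffMap (algebraMap R K) s +
                HahnSeries.C (algebraMap R K π) * coeffMap (algebraMap R K) s') *
              (coeffMap (algebraMap R K) s * (x : LaurentSeries K))) := by ring
      rw [e5, e1, hst, mul_inv_cancel₀ hC0]
      ring
    exact mul_left_cancel₀ hC0 e4

end Gauss

/-! ### (I1), (I2) for `V_∞ = c1g55_V R K M hπ` -/

section Modular

variable {R K : Type} [CommRing R] [IsDomain R] [IsDiscreteValuationRing R] [Field K]
  [Algebra R K] [IsFractionRing R K]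

/-- A ring automorphism of a discrete valuation ring reflects divisibility by a uniformiser. -/
theorem in87_equiv_dvd {π : R} (hπ : Irreducible π) (σR : R ≃+* R) (r : R) (h : π ∣ σR r) :
    π ∣ r := by
  have h1 : σR.symm π ∣ r := by
    have := map_dvd σR.symm h
    rwa [RingEquiv.symm_apply_apply] at this
  have h2 : Irreducible (σR.symm π) := (MulEquiv.irreducible_iff σR.symm).mpr hπ
  exact (IsDiscreteValuationRing.associated_of_irreducible R hπ h2).dvd.trans h1

/-- **(I1) for `V_∞`**: if `σ` restricts to an endomorphism `σR` of `R` reflecting the maximal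
ideal then `σ V_∞ ⊆ V_∞`. -/
theorem in87_mem_V (M : ℕ) {π : R} (hπ : Irreducible π) (σ : K ≃+* K) (σR : R →+* R)
    (hσ : ∀ r, algebraMap R K (σR r) = σ (algebraMap R K r))
    (hloc : ∀ r, π ∣ σR r → π ∣ r)
    (x : ↥(modularFunctionFieldFullC K M)) (hx : x ∈ c1g55_V R K M hπ) :
    in87_aut M σ x ∈ c1g55_V R K M hπ :=
  in87_gv_mem (IsLocalRing.residue R) _ (c1g55_HF R K M hπ) (σ : K →+* K) σR hσ
    (fun r hr => (c1g55_hres hπ r).mpr (hloc r ((c1g55_hres hπ _).mp hr))) x _ rfl hx

/-- (I1) for `V_∞` when `σ` restricts to an automorphism of `R`. -/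
theorem in87_mem_V_of_equiv (M : ℕ) {π : R} (hπ : Irreducible π) (σ : K ≃+* K) (σR : R ≃+* R)
    (hσ : ∀ r, algebraMap R K (σR r) = σ (algebraMap R K r))
    (x : ↥(modularFunctionFieldFullC K M)) (hx : x ∈ c1g55_V R K M hπ) :
    in87_aut M σ x ∈ c1g55_V R K M hπ :=
  in87_mem_V M hπ σ (σR : R →+* R) hσ (fun r h => in87_equiv_dvd hπ σR r h) x hx

/-- **(I2) for `V_∞`**: if `σ` restricts to `σR` on `R` and `σR r ≡ r mod π` for all `r`, then
`π⁻¹ (σ x - x) ∈ V_∞` for all `x ∈ V_∞`. -/
theorem in87_sub_mem_V (M : ℕ) {π : R} (hπ : Irreducible π) (σ : K ≃+* K) (σR : R →+* R)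
    (hσ : ∀ r, algebraMap R K (σR r) = σ (algebraMap R K r))
    (hin : ∀ r, π ∣ σR r - r)
    (x : ↥(modularFunctionFieldFullC K M)) (hx : x ∈ c1g55_V R K M hπ) :
    (algebraMap K ↥(modularFunctionFieldFullC K M) (algebraMap R K π))⁻¹ *
      (in87_aut M σ x - x) ∈ c1g55_V R K M hπ :=
  in87_gv_sub_mem (IsLocalRing.residue R) π (c1g55_hres hπ) hπ.ne_zero _ (c1g55_HF R K M hπ)
    (σ : K →+* K) σR hσ hin x _ rfl hx

/-- (I1) from (I2)-type hypotheses. -/
theorem in87_mem_V_of_inertia (M : ℕ) {π : R} (hπ : Irreducible π) (σ : K ≃+* K) (σR : R →+* R)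
    (hσ : ∀ r, algebraMap R K (σR r) = σ (algebraMap R K r))
    (hin : ∀ r, π ∣ σR r - r)
    (x : ↥(modularFunctionFieldFullC K M)) (hx : x ∈ c1g55_V R K M hπ) :
    in87_aut M σ x ∈ c1g55_V R K M hπ := by
  refine in87_mem_V M hπ σ σR hσ (fun r hr => ?_) x hx
  have h1 := dvd_sub hr (hin r)
  rwa [sub_sub_cancel] at h1

/-- (I2) for `V_∞` with the `R`-algebra structure of `F(M)_K`. -/
theorem in87_sub_mem_V' (M : ℕ) [Algebra R ↥(modularFunctionFieldFullC K M)]
    [IsScalarTower R K ↥(modularFunctionFieldFullC K M)]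
    {π : R} (hπ : Irreducible π) (σ : K ≃+* K) (σR : R →+* R)
    (hσ : ∀ r, algebraMap R K (σR r) = σ (algebraMap R K r))
    (hin : ∀ r, π ∣ σR r - r)
    (x : ↥(modularFunctionFieldFullC K M)) (hx : x ∈ c1g55_V R K M hπ) :
    (algebraMap R ↥(modularFunctionFieldFullC K M) π)⁻¹ *
      (in87_aut M σ x - x) ∈ c1g55_V R K M hπ := by
  rw [c1g55_algebraMap_eq]
  exact in87_sub_mem_V M hπ σ σR hσ hin x hx

/-- `σ` fixes the image of `π` in `F(M)_K` up to the restriction `σR`. -/
theorem in87_aut_algebraMap_R (M : ℕ) (σ : K ≃+* K) (σR : R →+* R)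
    (hσ : ∀ r, algebraMap R K (σR r) = σ (algebraMap R K r)) (r : R) :
    in87_aut M σ (algebraMap K ↥(modularFunctionFieldFullC K M) (algebraMap R K r)) =
      algebraMap K ↥(modularFunctionFieldFullC K M) (algebraMap R K (σR r)) := by
  rw [in87_aut_algebraMap, hσ]

end Modular

/-! ### Transport to `V.comap w` (`V_0 = w_q^* V_∞`) and to intersections (`W = V_∞ ⊓ V_0`) -/

section Transport

variable {F : Type*} [Field F]

/-- (I1) for `V.comap w` when `w` commutes with `τ`. -/
theorem in87_comap_mem (V : ValuationSubring F) (w : F →+* F) (τ : F → F)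
    (hcomm : ∀ x, w (τ x) = τ (w x)) (hτ : ∀ x ∈ V, τ x ∈ V)
    (x : F) (hx : x ∈ V.comap w) : τ x ∈ V.comap w := by
  rw [ValuationSubring.mem_comap] at hx ⊢
  rw [hcomm]
  exact hτ _ hx

/-- (I2) for `V.comap w` when `w` commutes with `τ` and fixes `p`. -/
theorem in87_comap_sub_mem (V : ValuationSubring F) (w : F →+* F) (τ : F → F) (p : F)
    (hp : w p = p) (hcomm : ∀ x, w (τ x) = τ (w x)) (hτ : ∀ x ∈ V, p⁻¹ * (τ x - x) ∈ V)
    (x : F) (hx : x ∈ V.comap w) : p⁻¹ * (τ x - x) ∈ V.comap w := by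
  rw [ValuationSubring.mem_comap] at hx ⊢
  rw [map_mul, map_inv₀, map_sub, hp, hcomm]
  exact hτ _ hx

/-- (I1) for an intersection of two subrings. -/
theorem in87_inf_mem (W₁ W₂ : Subring F) (τ : F → F)
    (h₁ : ∀ x ∈ W₁, τ x ∈ W₁) (h₂ : ∀ x ∈ W₂, τ x ∈ W₂)
    (x : F) (hx : x ∈ W₁ ⊓ W₂) : τ x ∈ W₁ ⊓ W₂ := by
  rw [Subring.mem_inf] at hx ⊢
  exact ⟨h₁ x hx.1, h₂ x hx.2⟩

/-- (I2) for an intersection of two subrings. -/
theorem in87_inf_sub_mem (W₁ W₂ : Subring F) (τ : F → F) (p : F)
    (h₁ : ∀ x ∈ W₁, p⁻¹ * (τ x - x) ∈ W₁) (h₂ : ∀ x ∈ W₂, p⁻¹ * (τ x - x) ∈ W₂)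
    (x : F) (hx : x ∈ W₁ ⊓ W₂) : p⁻¹ * (τ x - x) ∈ W₁ ⊓ W₂ := by
  rw [Subring.mem_inf] at hx ⊢
  exact ⟨h₁ x hx.1, h₂ x hx.2⟩

/-- (I1) and (I2) for `W = V.toSubring ⊓ (V.comap w).toSubring`. -/
theorem in87_W (V : ValuationSubring F) (w : F →+* F) (τ : F → F) (p : F)
    (hp : w p = p) (hcomm : ∀ x, w (τ x) = τ (w x))
    (h1 : ∀ x ∈ V, τ x ∈ V) (h2 : ∀ x ∈ V, p⁻¹ * (τ x - x) ∈ V) :
    (∀ x ∈ V.toSubring ⊓ (V.comap w).toSubring, τ x ∈ V.toSubring ⊓ (V.comap w).toSubring) ∧
    (∀ x ∈ V.toSubring ⊓ (V.comap w).toSubring,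
      p⁻¹ * (τ x - x) ∈ V.toSubring ⊓ (V.comap w).toSubring) :=
  ⟨in87_inf_mem _ _ τ h1 (in87_comap_mem V w τ hcomm h1),
    in87_inf_sub_mem _ _ τ p h2 (in87_comap_sub_mem V w τ p hp hcomm h2)⟩

end Transport

/-! ### The concrete case: inertia of a valuation subring of `ℚ̄` -/

section Concrete

local notation "Qb" => AlgebraicClosure ℚ
local notation "GQ" => AlgebraicClosure ℚ ≃ₐ[ℚ] AlgebraicClosure ℚ

/-- An element of the decomposition group preserves the valuation ring. -/
theorem in87_decomp_mem {K L : Type*} [Field K] [Field L] [Algebra K L] (A : ValuationSubring L)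
    {σ : L ≃ₐ[K] L} (hσ : σ ∈ A.decompositionSubgroup K) (x : L) (hx : x ∈ A) : σ x ∈ A :=
  ((⟨σ, hσ⟩ : A.decompositionSubgroup K) • (⟨x, hx⟩ : A)).2

/-- Elements of the inertia group lie in the decomposition group. -/
theorem in87_inertia_le_decomp {K L : Type*} [Field K] [Field L] [Algebra K L]
    (A : ValuationSubring L) {σ : L ≃ₐ[K] L} (hσ : σ ∈ A.inertiaSubgroupIn K) :
    σ ∈ A.decompositionSubgroup K := by
  obtain ⟨τ, -, rfl⟩ := Subgroup.mem_map.mp hσ
  exact τ.2

/-- Elements of the inertia group act trivially on the residue field. -/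
theorem in87_inertia_congr {K L : Type*} [Field K] [Field L] [Algebra K L]
    (A : ValuationSubring L) {σ : L ≃ₐ[K] L}
    (hσ : σ ∈ A.inertiaSubgroupIn K) (x : L) (hx : x ∈ A) : σ x - x ∈ A.nonunits := by
  obtain ⟨τ, hτ, rfl⟩ := Subgroup.mem_map.mp hσ
  have h1 : MulSemiringAction.toRingAut (A.decompositionSubgroup K)
      (IsLocalRing.ResidueField A) τ = 1 := MonoidHom.mem_ker.mp hτ
  have h2 : τ • (IsLocalRing.residue A ⟨x, hx⟩) = IsLocalRing.residue A ⟨x, hx⟩ := by
    have := congrArg (fun f => f (IsLocalRing.residue A ⟨x, hx⟩)) h1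
    simpa using this
  rw [← IsLocalRing.ResidueField.residue_smul] at h2
  have h3 : IsLocalRing.residue A (τ • (⟨x, hx⟩ : A) - ⟨x, hx⟩) = 0 := by
    rw [map_sub, h2, sub_self]
  rw [IsLocalRing.residue_eq_zero_iff] at h3
  exact ValuationSubring.coe_mem_nonunits_iff.mpr h3

variable (L : IntermediateField ℚ Qb) [Normal ℚ L]

/-- Restriction of the absolute Galois group to a normal subfield, as ring automorphisms. -/
noncomputable def in87_resL : GQ →* (L ≃+* L) where
  toFun σ := (AlgEquiv.restrictNormalHom (F := ℚ) (K₁ := Qb) L σ).toRingEquiv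
  map_one' := by rw [map_one]; rfl
  map_mul' σ τ := by rw [map_mul]; rfl

theorem in87_resL_commutes (σ : GQ) (x : L) :
    algebraMap L Qb (in87_resL L σ x) = σ (algebraMap L Qb x) :=
  AlgEquiv.restrictNormal_commutes σ L x

/-- The action of the absolute Galois group on `F(M)_L`, `L ⊆ ℚ̄` normal. -/
noncomputable def in87_act (M : ℕ) :
    GQ →* (↥(modularFunctionFieldFullC L M) ≃+* ↥(modularFunctionFieldFullC L M)) :=
  (in87_aut (K := L) M).comp (in87_resL L)

theorem in87_act_coe (M : ℕ) (σ : GQ) (x : ↥(modularFunctionFieldFullC L M)) :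
    ((in87_act L M σ x : ↥(modularFunctionFieldFullC L M)) : LaurentSeries L) =
      coeffMap (in87_resL L σ : L →+* L) (x : LaurentSeries L) := rfl

theorem in87_act_algebraMap (M : ℕ) (σ : GQ) (c : L) :
    in87_act L M σ (algebraMap L ↥(modularFunctionFieldFullC L M) c) =
      algebraMap L ↥(modularFunctionFieldFullC L M) (in87_resL L σ c) :=
  in87_aut_algebraMap M (in87_resL L σ) c

/-- **Compatibility with the arithmetic Galois action** on `modularFunctionFieldBar M`. -/
theorem in87_iota_act (M : ℕ) (σ : GQ) (x : ↥(modularFunctionFieldFullC L M)) :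
    fd27_iota (algebraMap L Qb) M (in87_act L M σ x) =
      arithmeticGalois (modularFunctionFieldFull M) σ • fd27_iota (algebraMap L Qb) M x := by
  apply Subtype.ext
  rw [coe_arithmeticGalois_smul, fd27_iota_coe, fd27_iota_coe, in87_act_coe, coeffMap_coeffMap,
    coeffMap_coeffMap]
  exact coeffMap_congr (RingHom.ext fun c => in87_resL_commutes L σ c) _

/-- Finite order of the action when `L` is a number field. -/
theorem in87_act_finOrder [FiniteDimensional ℚ L] (M : ℕ) (σ : GQ) :
    ∃ k : ℕ, 0 < k ∧ (in87_act L M σ) ^ k = 1 := by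
  haveI : Finite (L ≃ₐ[ℚ] L) := inferInstance
  refine ⟨orderOf (AlgEquiv.restrictNormalHom (F := ℚ) (K₁ := Qb) L σ), orderOf_pos _, ?_⟩
  rw [← map_pow]
  have h1 : (in87_resL L σ) ^ orderOf (AlgEquiv.restrictNormalHom (F := ℚ) (K₁ := Qb) L σ) = 1 := by
    rw [← map_pow]
    have h2 : AlgEquiv.restrictNormalHom (F := ℚ) (K₁ := Qb) L
        (σ ^ orderOf (AlgEquiv.restrictNormalHom (F := ℚ) (K₁ := Qb) L σ)) = 1 := by
      rw [map_pow, pow_orderOf_eq_one]
    show (AlgEquiv.restrictNormalHom (F := ℚ) (K₁ := Qb) L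
        (σ ^ orderOf (AlgEquiv.restrictNormalHom (F := ℚ) (K₁ := Qb) L σ))).toRingEquiv = 1
    rw [h2]; rfl
  rw [show (in87_act L M) (σ ^ orderOf (AlgEquiv.restrictNormalHom (F := ℚ) (K₁ := Qb) L σ)) =
    in87_aut M ((in87_resL L σ) ^ orderOf (AlgEquiv.restrictNormalHom (F := ℚ) (K₁ := Qb) L σ))
    from by rw [← map_pow]; rfl, h1, map_one]

variable (A : ValuationSubring Qb)

/-- The restriction of a decomposition element to `R = A ∩ L`. -/
noncomputable def in87_sigmaR (σ : GQ) (hσ : σ ∈ A.decompositionSubgroup ℚ) :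
    ↥(A.comap (algebraMap L Qb)) →+* ↥(A.comap (algebraMap L Qb)) where
  toFun r := ⟨in87_resL L σ (r : L), by
    rw [ValuationSubring.mem_comap, in87_resL_commutes]
    exact in87_decomp_mem A hσ _ r.2⟩
  map_one' := Subtype.ext (map_one (in87_resL L σ))
  map_mul' a b := Subtype.ext (map_mul (in87_resL L σ) (a : L) (b : L))
  map_zero' := Subtype.ext (map_zero (in87_resL L σ))
  map_add' a b := Subtype.ext (map_add (in87_resL L σ) (a : L) (b : L))

theorem in87_sigmaR_coe (σ : GQ) (hσ : σ ∈ A.decompositionSubgroup ℚ)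
    (r : ↥(A.comap (algebraMap L Qb))) :
    algebraMap ↥(A.comap (algebraMap L Qb)) L (in87_sigmaR L A σ hσ r) =
      in87_resL L σ (algebraMap ↥(A.comap (algebraMap L Qb)) L r) := rfl

/-- Inertia is trivial modulo a uniformiser of `R = A ∩ L`. -/
theorem in87_sigmaR_dvd_sub [IsDiscreteValuationRing ↥(A.comap (algebraMap L Qb))]
    {π : ↥(A.comap (algebraMap L Qb))} (hπ : Irreducible π)
    (σ : GQ) (hσ : σ ∈ A.inertiaSubgroupIn ℚ) (r : ↥(A.comap (algebraMap L Qb))) :
    π ∣ in87_sigmaR L A σ (in87_inertia_le_decomp A hσ) r - r := by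
  have h1 : ((in87_sigmaR L A σ (in87_inertia_le_decomp A hσ) r - r :
      ↥(A.comap (algebraMap L Qb))) : L) ∈ (A.comap (algebraMap L Qb)).nonunits := by
    rw [nf23_mem_nonunits_comap]
    have h2 : algebraMap L Qb ((in87_sigmaR L A σ (in87_inertia_le_decomp A hσ) r - r :
        ↥(A.comap (algebraMap L Qb))) : L) = σ (algebraMap L Qb (r : L)) - algebraMap L Qb (r : L) := by
      rw [← in87_resL_commutes, ← map_sub]; rfl
    rw [h2]
    exact in87_inertia_congr A hσ _ r.2
  rw [ValuationSubring.coe_mem_nonunits_iff, hπ.maximalIdeal_eq, Ideal.mem_span_singleton] at h1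
  exact h1

/-- **(I1), concrete**: inertia (indeed the decomposition group) preserves `V_∞`. -/
theorem in87_decomp_mem_V (M : ℕ) [IsDiscreteValuationRing ↥(A.comap (algebraMap L Qb))]
    {π : ↥(A.comap (algebraMap L Qb))} (hπ : Irreducible π)
    (σ : GQ) (hσ : σ ∈ A.decompositionSubgroup ℚ) (hσ' : σ⁻¹ ∈ A.decompositionSubgroup ℚ)
    (x : ↥(modularFunctionFieldFullC L M))
    (hx : x ∈ c1g55_V ↥(A.comap (algebraMap L Qb)) L M hπ) :
    in87_act L M σ x ∈ c1g55_V ↥(A.comap (algebraMap L Qb)) L M hπ := by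
  refine in87_mem_V M hπ (in87_resL L σ) (in87_sigmaR L A σ hσ) (in87_sigmaR_coe L A σ hσ)
    (fun r hr => ?_) x hx
  -- `σR` has the inverse `(σ⁻¹)R`
  have h1 := map_dvd (in87_sigmaR L A σ⁻¹ hσ') hr
  have h2 : in87_sigmaR L A σ⁻¹ hσ' (in87_sigmaR L A σ hσ r) = r := by
    apply Subtype.ext
    show in87_resL L σ⁻¹ (in87_resL L σ (r : L)) = (r : L)
    rw [← RingAut.mul_apply, ← map_mul, inv_mul_cancel, map_one]; rfl
  rw [h2] at h1
  -- `(σ⁻¹)R π` is associated to `π`
  have h3 : Irreducible (in87_sigmaR L A σ⁻¹ hσ' π) := by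
    have hequiv : ∀ a, in87_sigmaR L A σ hσ (in87_sigmaR L A σ⁻¹ hσ' a) = a := by
      intro a
      apply Subtype.ext
      show in87_resL L σ (in87_resL L σ⁻¹ (a : L)) = (a : L)
      rw [← RingAut.mul_apply, ← map_mul, mul_inv_cancel, map_one]; rfl
    have hequiv' : ∀ a, in87_sigmaR L A σ⁻¹ hσ' (in87_sigmaR L A σ hσ a) = a := by
      intro a
      apply Subtype.ext
      show in87_resL L σ⁻¹ (in87_resL L σ (a : L)) = (a : L)
      rw [← RingAut.mul_apply, ← map_mul, inv_mul_cancel, map_one]; rfl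
    let e : ↥(A.comap (algebraMap L Qb)) ≃+* ↥(A.comap (algebraMap L Qb)) :=
      RingEquiv.ofRingHom (in87_sigmaR L A σ⁻¹ hσ') (in87_sigmaR L A σ hσ)
        (RingHom.ext hequiv') (RingHom.ext hequiv)
    exact (MulEquiv.irreducible_iff e).mpr hπ
  exact (IsDiscreteValuationRing.associated_of_irreducible _ hπ h3).dvd.trans h1

/-- **(I1), concrete**: inertia preserves `V_∞`. -/
theorem in87_inertia_mem_V (M : ℕ) [IsDiscreteValuationRing ↥(A.comap (algebraMap L Qb))]
    {π : ↥(A.comap (algebraMap L Qb))} (hπ : Irreducible π)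
    (σ : GQ) (hσ : σ ∈ A.inertiaSubgroupIn ℚ)
    (x : ↥(modularFunctionFieldFullC L M))
    (hx : x ∈ c1g55_V ↥(A.comap (algebraMap L Qb)) L M hπ) :
    in87_act L M σ x ∈ c1g55_V ↥(A.comap (algebraMap L Qb)) L M hπ :=
  in87_mem_V_of_inertia M hπ (in87_resL L σ) (in87_sigmaR L A σ (in87_inertia_le_decomp A hσ))
    (in87_sigmaR_coe L A σ _) (in87_sigmaR_dvd_sub L A hπ σ hσ) x hx

/-- **(I2), concrete**: inertia is trivial on `V_∞ / π V_∞`. -/
theorem in87_inertia_sub_mem_V (M : ℕ) [IsDiscreteValuationRing ↥(A.comap (algebraMap L Qb))]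
    {π : ↥(A.comap (algebraMap L Qb))} (hπ : Irreducible π)
    (σ : GQ) (hσ : σ ∈ A.inertiaSubgroupIn ℚ)
    (x : ↥(modularFunctionFieldFullC L M))
    (hx : x ∈ c1g55_V ↥(A.comap (algebraMap L Qb)) L M hπ) :
    (algebraMap L ↥(modularFunctionFieldFullC L M) (π : L))⁻¹ * (in87_act L M σ x - x) ∈
      c1g55_V ↥(A.comap (algebraMap L Qb)) L M hπ :=
  in87_sub_mem_V M hπ (in87_resL L σ) (in87_sigmaR L A σ (in87_inertia_le_decomp A hσ))
    (in87_sigmaR_coe L A σ _) (in87_sigmaR_dvd_sub L A hπ σ hσ) x hx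

/-- The image of the uniformiser `π` under an inertia element is `π` times a unit of `R`. -/
theorem in87_inertia_pi [IsDiscreteValuationRing ↥(A.comap (algebraMap L Qb))]
    {π : ↥(A.comap (algebraMap L Qb))} (hπ : Irreducible π)
    (σ : GQ) (hσ : σ ∈ A.inertiaSubgroupIn ℚ) :
    ∃ u : ↥(A.comap (algebraMap L Qb)), IsUnit u ∧ in87_resL L σ (π : L) = (π : L) * (u : L) := by
  have hirr : Irreducible (in87_sigmaR L A σ (in87_inertia_le_decomp A hσ) π) := by
    have hσ' : σ⁻¹ ∈ A.decompositionSubgroup ℚ :=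
      (A.decompositionSubgroup ℚ).inv_mem (in87_inertia_le_decomp A hσ)
    have hequiv : ∀ a, in87_sigmaR L A σ (in87_inertia_le_decomp A hσ)
        (in87_sigmaR L A σ⁻¹ hσ' a) = a := by
      intro a
      apply Subtype.ext
      show in87_resL L σ (in87_resL L σ⁻¹ (a : L)) = (a : L)
      rw [← RingAut.mul_apply, ← map_mul, mul_inv_cancel, map_one]; rfl
    have hequiv' : ∀ a, in87_sigmaR L A σ⁻¹ hσ'
        (in87_sigmaR L A σ (in87_inertia_le_decomp A hσ) a) = a := by
      intro a
      apply Subtype.ext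
      show in87_resL L σ⁻¹ (in87_resL L σ (a : L)) = (a : L)
      rw [← RingAut.mul_apply, ← map_mul, inv_mul_cancel, map_one]; rfl
    let e : ↥(A.comap (algebraMap L Qb)) ≃+* ↥(A.comap (algebraMap L Qb)) :=
      RingEquiv.ofRingHom (in87_sigmaR L A σ (in87_inertia_le_decomp A hσ))
        (in87_sigmaR L A σ⁻¹ hσ') (RingHom.ext hequiv) (RingHom.ext hequiv')
    exact (MulEquiv.irreducible_iff e).mpr hπ
  obtain ⟨u, hu⟩ := IsDiscreteValuationRing.associated_of_irreducible _ hπ hirr
  refine ⟨u, u.isUnit, ?_⟩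
  have := congrArg (fun a : ↥(A.comap (algebraMap L Qb)) => (a : L)) hu
  exact this.symm

end Concrete

/-! ### Inertia and the charts: saturation gives stability of the maximal ideals over `π` -/

section Chart

variable {R F : Type*} [CommRing R] [Field F] [Algebra R F]

/-- If `τ` maps the chart `B` into itself and is trivial on `W / p`, and `B` is saturated in `W`
(`B ∩ p W = p B`), then `τ` is trivial on `B / p`. -/
theorem in87_chart_sub_mem (B : Subalgebra R F) (W : Subring F) (p : F) (τ : F → F)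
    (hτB : ∀ x ∈ B, τ x ∈ B) (hBW : ∀ x ∈ B, x ∈ W) (hτW : ∀ x ∈ W, p⁻¹ * (τ x - x) ∈ W)
    (hsat : ∀ x ∈ B, p⁻¹ * x ∈ W → p⁻¹ * x ∈ B) (x : F) (hx : x ∈ B) :
    p⁻¹ * (τ x - x) ∈ B :=
  hsat _ (B.sub_mem (hτB x hx) hx) (hτW x (hBW x hx))

/-- Under the same hypotheses `τ` preserves every ideal of `B` containing `p`:
`x ∈ n ↔ τ x ∈ n`. -/
theorem in87_ideal_stable (B : Subalgebra R F) (W : Subring F) (p : F) (hp0 : p ≠ 0)
    (hpB : p ∈ B) (τ : F → F)
    (hτB : ∀ x ∈ B, τ x ∈ B) (hBW : ∀ x ∈ B, x ∈ W) (hτW : ∀ x ∈ W, p⁻¹ * (τ x - x) ∈ W)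
    (hsat : ∀ x ∈ B, p⁻¹ * x ∈ W → p⁻¹ * x ∈ B)
    (n : Ideal B) (hpn : (⟨p, hpB⟩ : B) ∈ n) (x : B) :
    (⟨τ x, hτB x x.2⟩ : B) ∈ n ↔ x ∈ n := by
  have hy := in87_chart_sub_mem B W p τ hτB hBW hτW hsat x x.2
  have hpy : (⟨p, hpB⟩ : B) * ⟨p⁻¹ * (τ x - x), hy⟩ ∈ n := n.mul_mem_right _ hpn
  have e : (⟨τ x, hτB x x.2⟩ : B) = x + (⟨p, hpB⟩ : B) * ⟨p⁻¹ * (τ x - x), hy⟩ := by
    apply Subtype.ext
    show τ x = (x : F) + p * (p⁻¹ * (τ x - x))
    field_simp
    ring
  constructor
  · intro h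
    have h1 := n.sub_mem h hpy
    rwa [e, add_sub_cancel_right] at h1
  · intro h
    rw [e]
    exact n.add_mem h hpy

end Chart

end Fermat.Agent.S34
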