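/-
S34 lab, package P1d (helper11, twin row 468): the subring `W := V₁ ⊓ V₂` cut out by two
valuation subrings of a field `F`, Mathlib only.

* `wi11_W V₁ V₂ : Subring F` and `wi11_mem_W`;
* the hypotheses of `ntc47_main` on `W`:
  `wi11_algebraMap_mem` (`hRW`), `wi11_inv_not_mem` (`hπW`), `wi11_root` (`hWroot`),
  `wi11_unit` (`hWunit`);
* `wi11_finOrder_div_mem`: a ring automorphism of finite order mapping a valuation subring into
  itself preserves the valuation (`σ x / x` is a unit of `V`); `wi11_finOrder_div_mem_W`,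
  `wi11_finOrder_inv_div_mem_W` for `W`;
* congruences modulo `π W` for an arbitrary subring `W` with `1 + π W ⊆ Wˣ`:
  `wi11_cong_mem`, `wi11_cong_inv_mem`, `wi11_cong_mul`, `wi11_cong_inv`, `wi11_cong_div`,
  `wi11_cong_pow`, `wi11_cong_zpow`, `wi11_cong_prod`;
* `wi11_cong_quot`: `s` trivial on `W / π` and `g` a unit of `W` give `s g / g ≡ 1 mod π W`;
* `wi11_double_difference`, `wi11_double_difference_W`: the Kummer function
  `u = s (t f) * f / (s f * t f)` of a double difference is `≡ 1 mod π W`.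
-/
import Mathlib

set_option autoImplicit false

namespace Fermat.Agent.S34

section Valuation

variable {F : Type*} [Field F]

/-- The intersection of two valuation subrings, as a subring of `F`. -/
def wi11_W (V₁ V₂ : ValuationSubring F) : Subring F := V₁.toSubring ⊓ V₂.toSubring

theorem wi11_mem_W {V₁ V₂ : ValuationSubring F} {x : F} :
    x ∈ wi11_W V₁ V₂ ↔ x ∈ V₁ ∧ x ∈ V₂ := by
  unfold wi11_W
  rw [Subring.mem_inf]
  exact Iff.rfl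

theorem wi11_W_le_left (V₁ V₂ : ValuationSubring F) {x : F} (hx : x ∈ wi11_W V₁ V₂) : x ∈ V₁ :=
  (wi11_mem_W.mp hx).1

theorem wi11_W_le_right (V₁ V₂ : ValuationSubring F) {x : F} (hx : x ∈ wi11_W V₁ V₂) : x ∈ V₂ :=
  (wi11_mem_W.mp hx).2

/-- A valuation subring is root closed. -/
theorem wi11_root_val (V : ValuationSubring F) (m : ℕ) (hm0 : 0 < m) (x : F)
    (hx : x ^ m ∈ V) : x ∈ V := by
  rcases V.mem_or_inv_mem x with h | h
  · exact h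
  · obtain ⟨d, rfl⟩ : ∃ d, m = d + 1 := ⟨m - 1, by omega⟩
    by_cases hx0 : x = 0
    · rw [hx0]; exact V.zero_mem
    have hxe : x = x ^ (d + 1) * (x⁻¹) ^ d := by
      rw [pow_succ, inv_pow]; field_simp
    rw [hxe]
    exact V.mul_mem _ _ hx (V.pow_mem h d)

/-- `hWroot` of `ntc47_main` for `W = V₁ ⊓ V₂`. -/
theorem wi11_root (V₁ V₂ : ValuationSubring F) (m : ℕ) (hm0 : 0 < m) (x : F)
    (hx : x ^ m ∈ wi11_W V₁ V₂) : x ∈ wi11_W V₁ V₂ :=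
  wi11_mem_W.mpr ⟨wi11_root_val V₁ m hm0 x (wi11_mem_W.mp hx).1,
    wi11_root_val V₂ m hm0 x (wi11_mem_W.mp hx).2⟩

/-- An element whose inverse is not in `V` lies in `V`. -/
theorem wi11_mem_of_inv_not_mem (V : ValuationSubring F) (p : F) (hp : p⁻¹ ∉ V) : p ∈ V := by
  rcases V.mem_or_inv_mem p with h | h
  · exact h
  · exact absurd h hp

theorem wi11_val_lt_one (V : ValuationSubring F) (p : F) (hp : p⁻¹ ∉ V) :
    V.valuation p < 1 := by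
  by_contra h
  replace h := not_lt.mp h
  apply hp
  rw [← V.valuation_le_one_iff, map_inv₀]
  exact inv_le_one_of_one_le₀ h

/-- `1 + p x` is a unit of `V` when `p` is a nonunit of `V` and `x ∈ V`. -/
theorem wi11_unit_val (V : ValuationSubring F) (p : F) (hp : p⁻¹ ∉ V) (x : F) (hx : x ∈ V) :
    (1 + p * x)⁻¹ ∈ V := by
  have h1 : V.valuation (1 + p * x) = 1 := by
    apply Valuation.map_one_add_of_lt
    rw [map_mul]
    have hx1 : V.valuation x ≤ 1 := (V.valuation_le_one_iff x).mpr hx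
    calc V.valuation p * V.valuation x ≤ V.valuation p * 1 := by gcongr
      _ = V.valuation p := mul_one _
      _ < 1 := wi11_val_lt_one V p hp
  rw [← V.valuation_le_one_iff, map_inv₀, h1, inv_one]

/-- `hWunit` of `ntc47_main` for `W = V₁ ⊓ V₂`: `1 + p W ⊆ Wˣ` when `p` is a nonunit of both
valuation subrings. -/
theorem wi11_unit (V₁ V₂ : ValuationSubring F) (p : F) (hp₁ : p⁻¹ ∉ V₁) (hp₂ : p⁻¹ ∉ V₂)
    (x : F) (hx : x ∈ wi11_W V₁ V₂) : (1 + p * x)⁻¹ ∈ wi11_W V₁ V₂ :=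
  wi11_mem_W.mpr ⟨wi11_unit_val V₁ p hp₁ x (wi11_mem_W.mp hx).1,
    wi11_unit_val V₂ p hp₂ x (wi11_mem_W.mp hx).2⟩

/-- `hπW` of `ntc47_main` for `W = V₁ ⊓ V₂`. -/
theorem wi11_inv_not_mem (V₁ V₂ : ValuationSubring F) (p : F) (hp₁ : p⁻¹ ∉ V₁) :
    p⁻¹ ∉ wi11_W V₁ V₂ := fun h => hp₁ (wi11_mem_W.mp h).1

/-- A nonunit of both valuation subrings lies in `W`. -/
theorem wi11_mem_of_inv_not_mem_W (V₁ V₂ : ValuationSubring F) (p : F) (hp₁ : p⁻¹ ∉ V₁)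
    (hp₂ : p⁻¹ ∉ V₂) : p ∈ wi11_W V₁ V₂ :=
  wi11_mem_W.mpr ⟨wi11_mem_of_inv_not_mem V₁ p hp₁, wi11_mem_of_inv_not_mem V₂ p hp₂⟩

/-- `hRW` of `ntc47_main` for `W = V₁ ⊓ V₂`. -/
theorem wi11_algebraMap_mem {R : Type*} [CommRing R] [Algebra R F] (V₁ V₂ : ValuationSubring F)
    (h₁ : ∀ r : R, algebraMap R F r ∈ V₁) (h₂ : ∀ r : R, algebraMap R F r ∈ V₂) (r : R) :
    algebraMap R F r ∈ wi11_W V₁ V₂ :=
  wi11_mem_W.mpr ⟨h₁ r, h₂ r⟩

/-- The units of `W` are the common units of `V₁` and `V₂`. -/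
theorem wi11_unit_iff (V₁ V₂ : ValuationSubring F) (x : F) :
    (x ∈ wi11_W V₁ V₂ ∧ x⁻¹ ∈ wi11_W V₁ V₂) ↔
      (x ∈ V₁ ∧ x⁻¹ ∈ V₁) ∧ (x ∈ V₂ ∧ x⁻¹ ∈ V₂) := by
  rw [wi11_mem_W, wi11_mem_W]
  tauto

end Valuation

section FiniteOrder

variable {F : Type*} [Field F]

/-- Iterates of a ring automorphism mapping `V` into itself map `V` into itself. -/
theorem wi11_iterate_mem (V : ValuationSubring F) (σ : F ≃+* F) (hσ : ∀ x ∈ V, σ x ∈ V)
    (j : ℕ) (x : F) (hx : x ∈ V) : (σ ^ j) x ∈ V := by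
  induction j generalizing x with
  | zero => simpa using hx
  | succ j ih =>
    rw [pow_succ, RingAut.mul_apply]
    exact ih _ (hσ x hx)

/-- **Finite order automorphisms preserve the valuation.**  If `σ ^ k = 1` with `0 < k` and
`σ V ⊆ V`, then `σ x / x ∈ V` for every `x ≠ 0`. -/
theorem wi11_finOrder_div_mem (V : ValuationSubring F) (σ : F ≃+* F) (hσ : ∀ x ∈ V, σ x ∈ V)
    (k : ℕ) (hk0 : 0 < k) (hk : σ ^ k = 1) (x : F) (hx : x ≠ 0) : σ x / x ∈ V := by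
  by_contra hnot
  -- `y := x / σ x` lies in `V` and is a nonunit
  have hσx : σ x ≠ 0 := (map_ne_zero σ).mpr hx
  have hy : x / σ x ∈ V := by
    rcases V.mem_or_inv_mem (σ x / x) with h | h
    · exact absurd h hnot
    · rwa [inv_div] at h
  have hynu : (x / σ x)⁻¹ ∉ V := by rwa [inv_div]
  -- `x / σ^j x` is a nonunit of `V` for all `j ≥ 1`
  have key : ∀ j : ℕ, x / (σ ^ (j + 1)) x ∈ V ∧ (x / (σ ^ (j + 1)) x)⁻¹ ∉ V := by
    intro j
    induction j with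
    | zero =>
      rw [zero_add, pow_one]
      exact ⟨hy, hynu⟩
    | succ j ih =>
      have hj0 : (σ ^ (j + 1)) x ≠ 0 := (map_ne_zero _).mpr hx
      have hj1 : (σ ^ (j + 1 + 1)) x ≠ 0 := (map_ne_zero _).mpr hx
      have hstep : (σ ^ (j + 1 + 1)) x = (σ ^ (j + 1)) (σ x) := by
        rw [pow_succ σ (j + 1), RingAut.mul_apply]
      have hj2 : (σ ^ (j + 1)) (σ x) ≠ 0 := by rw [← hstep]; exact hj1
      have hfac : x / (σ ^ (j + 1 + 1)) x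
          = (x / (σ ^ (j + 1)) x) * (σ ^ (j + 1)) (x / σ x) := by
        rw [map_div₀, hstep]
        field_simp
      have hmem : (σ ^ (j + 1)) (x / σ x) ∈ V := wi11_iterate_mem V σ hσ (j + 1) _ hy
      refine ⟨by rw [hfac]; exact V.mul_mem _ _ ih.1 hmem, ?_⟩
      intro hinv
      apply ih.2
      have hne : (σ ^ (j + 1)) (x / σ x) ≠ 0 := (map_ne_zero _).mpr (div_ne_zero hx hσx)
      have hx' : x / (σ ^ (j + 1)) x ≠ 0 := div_ne_zero hx hj0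
      have : (x / (σ ^ (j + 1)) x)⁻¹
          = (x / (σ ^ (j + 1 + 1)) x)⁻¹ * (σ ^ (j + 1)) (x / σ x) := by
        rw [hfac, mul_inv]
        field_simp
      rw [this]
      exact V.mul_mem _ _ hinv hmem
  obtain ⟨d, rfl⟩ : ∃ d, k = d + 1 := ⟨k - 1, by omega⟩
  have h1 := (key d).2
  rw [hk] at h1
  apply h1
  have h2 : (x / (1 : F ≃+* F) x)⁻¹ = 1 := by
    rw [RingAut.one_apply, div_self hx, inv_one]
  rw [h2]
  exact V.one_mem

/-- The inverse quotient: `x / σ x ∈ V` as well. -/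
theorem wi11_finOrder_inv_div_mem (V : ValuationSubring F) (σ : F ≃+* F)
    (hσ : ∀ x ∈ V, σ x ∈ V) (k : ℕ) (hk0 : 0 < k) (hk : σ ^ k = 1) (x : F) (hx : x ≠ 0) :
    x / σ x ∈ V := by
  -- apply the previous statement to `σ ^ (k - 1) = σ⁻¹` at the point `σ x`
  obtain ⟨d, rfl⟩ : ∃ d, k = d + 1 := ⟨k - 1, by omega⟩
  have hτ : ∀ y ∈ V, (σ ^ d) y ∈ V := fun y hy => wi11_iterate_mem V σ hσ d y hy
  have hτk : (σ ^ d) ^ (d + 1) = 1 := by
    rw [← pow_mul, mul_comm, pow_mul, hk, one_pow]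
  have hσx : σ x ≠ 0 := (map_ne_zero σ).mpr hx
  have h := wi11_finOrder_div_mem V (σ ^ d) hτ (d + 1) (Nat.succ_pos d) hτk (σ x) hσx
  have hx' : (σ ^ d) (σ x) = x := by
    have : (σ ^ d) (σ x) = (σ ^ (d + 1)) x := by rw [pow_succ, RingAut.mul_apply]
    rw [this, hk, RingAut.one_apply]
  rwa [hx'] at h

/-- For `W = V₁ ⊓ V₂`: a finite order automorphism preserving `V₁` and `V₂` has
`σ x / x ∈ W` for all `x ≠ 0`. -/
theorem wi11_finOrder_div_mem_W (V₁ V₂ : ValuationSubring F) (σ : F ≃+* F)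
    (hσ₁ : ∀ x ∈ V₁, σ x ∈ V₁) (hσ₂ : ∀ x ∈ V₂, σ x ∈ V₂)
    (k : ℕ) (hk0 : 0 < k) (hk : σ ^ k = 1) (x : F) (hx : x ≠ 0) :
    σ x / x ∈ wi11_W V₁ V₂ :=
  wi11_mem_W.mpr ⟨wi11_finOrder_div_mem V₁ σ hσ₁ k hk0 hk x hx,
    wi11_finOrder_div_mem V₂ σ hσ₂ k hk0 hk x hx⟩

theorem wi11_finOrder_inv_div_mem_W (V₁ V₂ : ValuationSubring F) (σ : F ≃+* F)
    (hσ₁ : ∀ x ∈ V₁, σ x ∈ V₁) (hσ₂ : ∀ x ∈ V₂, σ x ∈ V₂)
    (k : ℕ) (hk0 : 0 < k) (hk : σ ^ k = 1) (x : F) (hx : x ≠ 0) :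
    x / σ x ∈ wi11_W V₁ V₂ :=
  wi11_mem_W.mpr ⟨wi11_finOrder_inv_div_mem V₁ σ hσ₁ k hk0 hk x hx,
    wi11_finOrder_inv_div_mem V₂ σ hσ₂ k hk0 hk x hx⟩

end FiniteOrder

section Congruence

variable {F : Type*} [Field F]

/-- `x ≡ 1 mod p W` implies `x ∈ W`. -/
theorem wi11_cong_mem (W : Subring F) (p : F) (hp0 : p ≠ 0) (hpW : p ∈ W) (x : F)
    (hx : p⁻¹ * (x - 1) ∈ W) : x ∈ W := by
  have : x = 1 + p * (p⁻¹ * (x - 1)) := by field_simp; ring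
  rw [this]
  exact W.add_mem W.one_mem (W.mul_mem hpW hx)

/-- `x ≡ 1 mod p W` implies `x⁻¹ ∈ W`. -/
theorem wi11_cong_inv_mem (W : Subring F) (p : F) (hp0 : p ≠ 0)
    (hWunit : ∀ x ∈ W, (1 + p * x)⁻¹ ∈ W) (x : F) (hx : p⁻¹ * (x - 1) ∈ W) : x⁻¹ ∈ W := by
  have : x = 1 + p * (p⁻¹ * (x - 1)) := by field_simp; ring
  rw [this]
  exact hWunit _ hx

/-- `x ≡ 1 mod p W` implies `x ≠ 0` (if `p` is not a unit of `W`). -/
theorem wi11_cong_ne_zero (W : Subring F) (p : F) (hpinv : p⁻¹ ∉ W) (x : F)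
    (hx : p⁻¹ * (x - 1) ∈ W) : x ≠ 0 := by
  rintro rfl
  apply hpinv
  have : p⁻¹ = -(p⁻¹ * (0 - 1)) := by ring
  rw [this]
  exact W.neg_mem hx

theorem wi11_cong_one (W : Subring F) (p : F) : p⁻¹ * ((1 : F) - 1) ∈ W := by
  rw [sub_self, mul_zero]; exact W.zero_mem

theorem wi11_cong_mul (W : Subring F) (p : F) (hp0 : p ≠ 0) (hpW : p ∈ W) (a b : F)
    (ha : p⁻¹ * (a - 1) ∈ W) (hb : p⁻¹ * (b - 1) ∈ W) : p⁻¹ * (a * b - 1) ∈ W := by
  have hbW : b ∈ W := wi11_cong_mem W p hp0 hpW b hb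
  have : p⁻¹ * (a * b - 1) = p⁻¹ * (a - 1) * b + p⁻¹ * (b - 1) := by ring
  rw [this]
  exact W.add_mem (W.mul_mem ha hbW) hb

theorem wi11_cong_inv (W : Subring F) (p : F) (hp0 : p ≠ 0) (hpinv : p⁻¹ ∉ W)
    (hWunit : ∀ x ∈ W, (1 + p * x)⁻¹ ∈ W) (a : F) (ha : p⁻¹ * (a - 1) ∈ W) :
    p⁻¹ * (a⁻¹ - 1) ∈ W := by
  have ha0 : a ≠ 0 := wi11_cong_ne_zero W p hpinv a ha
  have hainv : a⁻¹ ∈ W := wi11_cong_inv_mem W p hp0 hWunit a ha
  have : p⁻¹ * (a⁻¹ - 1) = -(p⁻¹ * (a - 1) * a⁻¹) := by field_simp; ring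
  rw [this]
  exact W.neg_mem (W.mul_mem ha hainv)

theorem wi11_cong_div (W : Subring F) (p : F) (hp0 : p ≠ 0) (hpW : p ∈ W) (hpinv : p⁻¹ ∉ W)
    (hWunit : ∀ x ∈ W, (1 + p * x)⁻¹ ∈ W) (a b : F)
    (ha : p⁻¹ * (a - 1) ∈ W) (hb : p⁻¹ * (b - 1) ∈ W) : p⁻¹ * (a / b - 1) ∈ W := by
  rw [div_eq_mul_inv]
  exact wi11_cong_mul W p hp0 hpW a b⁻¹ ha (wi11_cong_inv W p hp0 hpinv hWunit b hb)

theorem wi11_cong_pow (W : Subring F) (p : F) (hp0 : p ≠ 0) (hpW : p ∈ W) (a : F)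
    (ha : p⁻¹ * (a - 1) ∈ W) (n : ℕ) : p⁻¹ * (a ^ n - 1) ∈ W := by
  induction n with
  | zero => rw [pow_zero]; exact wi11_cong_one W p
  | succ n ih => rw [pow_succ]; exact wi11_cong_mul W p hp0 hpW _ _ ih ha

theorem wi11_cong_zpow (W : Subring F) (p : F) (hp0 : p ≠ 0) (hpW : p ∈ W) (hpinv : p⁻¹ ∉ W)
    (hWunit : ∀ x ∈ W, (1 + p * x)⁻¹ ∈ W) (a : F) (ha : p⁻¹ * (a - 1) ∈ W) (n : ℤ) :
    p⁻¹ * (a ^ n - 1) ∈ W := by
  rcases n with n | n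
  · simpa using wi11_cong_pow W p hp0 hpW a ha n
  · rw [zpow_negSucc]
    exact wi11_cong_inv W p hp0 hpinv hWunit _ (wi11_cong_pow W p hp0 hpW a ha (n + 1))

theorem wi11_cong_prod (W : Subring F) (p : F) (hp0 : p ≠ 0) (hpW : p ∈ W) {ι : Type*}
    (s : Finset ι) (a : ι → F) (ha : ∀ i ∈ s, p⁻¹ * (a i - 1) ∈ W) :
    p⁻¹ * (∏ i ∈ s, a i - 1) ∈ W := by
  classical
  induction s using Finset.induction_on with
  | empty => rw [Finset.prod_empty]; exact wi11_cong_one W p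
  | insert i s hi ih =>
    rw [Finset.prod_insert hi]
    exact wi11_cong_mul W p hp0 hpW _ _ (ha i (Finset.mem_insert_self i s))
      (ih fun j hj => ha j (Finset.mem_insert_of_mem hj))

/-- If `s` is trivial on `W / p` and `g` is a unit of `W`, then `s g / g ≡ 1 mod p W`. -/
theorem wi11_cong_quot (W : Subring F) (p : F) (s : F ≃+* F)
    (hs : ∀ y ∈ W, p⁻¹ * (s y - y) ∈ W) (g : F) (hg0 : g ≠ 0) (hg : g ∈ W) (hginv : g⁻¹ ∈ W) :
    p⁻¹ * (s g / g - 1) ∈ W := by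
  have : p⁻¹ * (s g / g - 1) = p⁻¹ * (s g - g) * g⁻¹ := by field_simp
  rw [this]
  exact W.mul_mem (hs g hg) hginv

/-- **The double difference.**  `W` a subring, `t` with `t f / f` a unit of `W`, `s` trivial on
`W / p`: the function `u = s (t f) * f / (s f * t f)` is `≡ 1 mod p W`. -/
theorem wi11_double_difference (W : Subring F) (p : F) (s t : F ≃+* F)
    (hs : ∀ y ∈ W, p⁻¹ * (s y - y) ∈ W) (f : F) (hf : f ≠ 0)
    (ht : t f / f ∈ W) (ht' : f / t f ∈ W) :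
    p⁻¹ * (s (t f) * f / (s f * t f) - 1) ∈ W := by
  have htf : t f ≠ 0 := (map_ne_zero t).mpr hf
  have hsf : s f ≠ 0 := (map_ne_zero s).mpr hf
  have hg0 : t f / f ≠ 0 := div_ne_zero htf hf
  have hginv : (t f / f)⁻¹ ∈ W := by rwa [inv_div]
  have h := wi11_cong_quot W p s hs (t f / f) hg0 ht hginv
  have : s (t f / f) / (t f / f) = s (t f) * f / (s f * t f) := by
    rw [map_div₀]; field_simp
  rwa [this] at h

/-- The double difference for `W = V₁ ⊓ V₂` and `t` of finite order preserving `V₁`, `V₂`. -/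
theorem wi11_double_difference_W (V₁ V₂ : ValuationSubring F) (p : F) (s t : F ≃+* F)
    (hs : ∀ y ∈ wi11_W V₁ V₂, p⁻¹ * (s y - y) ∈ wi11_W V₁ V₂)
    (ht₁ : ∀ x ∈ V₁, t x ∈ V₁) (ht₂ : ∀ x ∈ V₂, t x ∈ V₂)
    (k : ℕ) (hk0 : 0 < k) (hk : t ^ k = 1) (f : F) (hf : f ≠ 0) :
    p⁻¹ * (s (t f) * f / (s f * t f) - 1) ∈ wi11_W V₁ V₂ :=
  wi11_double_difference (wi11_W V₁ V₂) p s t hs f hf
    (wi11_finOrder_div_mem_W V₁ V₂ t ht₁ ht₂ k hk0 hk f hf)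
    (wi11_finOrder_inv_div_mem_W V₁ V₂ t ht₁ ht₂ k hk0 hk f hf)

end Congruence

end Fermat.Agent.S34
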