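import Mathlib
import Fermat.Agent.S34.Iface47c
import Fermat.Agent.S34.Inertia87
import Fermat.Agent.S34.AtkinLehnerVal97
import Fermat.Agent.S34.WInter11
import Fermat.Agent.S34.FrameGlue15

/-!
# S34 lab, FRAME-GAL (twin, helper14): `s34i47c_Pkg_FrameGal`

The Galois hypotheses (G) of the interface for the coefficientwise action of every inertial
automorphism `σ` of a number field `K` on `W = V_∞ ⊓ V_0 ⊆ F_K(M' q)`.

* `fg14_exists_sigmaR` : an inertial `σ` restricts to a ring endomorphism `σR` of `R` with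
  `σR r ≡ r mod π`;
* `fg14_finOrder` : every ring automorphism of a number field has finite order;
* `fg14_coeffEquiv_pow` : so does its coefficientwise action on `F_K(M)`;
* `fg14_Vinf` : (G0), (G1), (G2) for `V_∞ = c1g55_V R K M hπ` alone (any level `M`);
* `fg14_galProps` : (G) for `W = s34i47c_W`;
* `fg14_pkg_frameGal : s34i47c_Pkg_FrameGal` (LITERAL, Iface47c);
* `fg14_frameGal15 : cm15_FrameGal M' q hq hqM` (LITERAL, FrameGlue15).
-/

set_option autoImplicit false
set_option linter.unusedSectionVars false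

open ModularCurve AlgebraicCurve

namespace Fermat.Agent.S34

open Fermat.Agent.S18

local notation "Q̄" => AlgebraicClosure ℚ

section Restrict

variable {R K : Type} [CommRing R] [IsDomain R] [IsDiscreteValuationRing R] [Field K]
  [Algebra R K] [IsFractionRing R K]

/-- An inertial automorphism restricts to a ring endomorphism of `R` which is the identity
modulo `π`. -/
theorem fg14_exists_sigmaR {π : R} (hπ : Irreducible π) (σ : K ≃+* K)
    (hσ : s34i47_Inertial R σ) :
    ∃ σR : R →+* R, (∀ r, algebraMap R K (σR r) = σ (algebraMap R K r)) ∧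
      ∀ r, π ∣ σR r - r := by
  classical
  choose f hf using hσ
  have hinj : Function.Injective (algebraMap R K) := IsFractionRing.injective R K
  refine ⟨{ toFun := f, map_one' := ?_, map_mul' := ?_, map_zero' := ?_, map_add' := ?_ },
    ?_, ?_⟩
  · apply hinj; rw [← (hf 1).1]; simp
  · intro a b
    apply hinj
    rw [← (hf (a * b)).1, map_mul, map_mul, map_mul, (hf a).1, (hf b).1]
  · apply hinj; rw [← (hf 0).1]; simp
  · intro a b
    apply hinj
    rw [← (hf (a + b)).1, map_add, map_add, map_add, (hf a).1, (hf b).1]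
  · intro r; exact ((hf r).1).symm
  · intro r
    have h := (hf r).2
    rwa [hπ.maximalIdeal_eq, Ideal.mem_span_singleton] at h

end Restrict

/-- Every ring automorphism of a number field has finite order. -/
theorem fg14_finOrder (K : Type) [Field K] [NumberField K] (σ : K ≃+* K) :
    ∃ k : ℕ, 0 < k ∧ σ ^ k = 1 := by
  let f : (K ≃+* K) → (K ≃ₐ[ℚ] K) := fun τ =>
    AlgEquiv.ofRingEquiv (f := τ) (fun r => by simp)
  have hf : Function.Injective f := by
    intro τ₁ τ₂ h
    ext x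
    exact congrArg (fun g : K ≃ₐ[ℚ] K => g x) h
  have : Finite (K ≃+* K) := Finite.of_injective f hf
  obtain ⟨k, hk0, hk⟩ := (isOfFinOrder_iff_pow_eq_one).1 (isOfFinOrder_of_finite σ)
  exact ⟨k, hk0, hk⟩

section Coeff

variable {K : Type} [Field K]

theorem fg14_coeffEquiv_eq (σ : K ≃+* K) (M : ℕ) :
    s34i47_coeffEquiv σ M = in87_aut M σ := by
  ext x : 1
  apply Subtype.ext
  rw [s34i47_coeffEquiv_coe, in87_aut_coe]

/-- The coefficientwise action of a finite order automorphism has finite order. -/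
theorem fg14_coeffEquiv_pow (σ : K ≃+* K) (M : ℕ) (k : ℕ) (hk : σ ^ k = 1) :
    (s34i47_coeffEquiv σ M) ^ k = 1 := by
  rw [fg14_coeffEquiv_eq]
  exact in87_aut_pow_eq_one M σ k hk

end Coeff

section Vinf

variable {R K : Type} [CommRing R] [IsDomain R] [IsDiscreteValuationRing R] [Field K]
  [NumberField K] [Algebra R K] [IsFractionRing R K]

/-- **(G0), (G1), (G2) for `V_∞`** (any level `M`) and every inertial automorphism. -/
theorem fg14_Vinf (M : ℕ) [Algebra R ↥(modularFunctionFieldFullC K M)]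
    [IsScalarTower R K ↥(modularFunctionFieldFullC K M)] {π : R} (hπ : Irreducible π)
    (σ : K ≃+* K) (hσ : s34i47_Inertial R σ) :
    (∀ r : R, ∃ r' : R, σ (algebraMap R K r) = algebraMap R K r') ∧
    (∀ x : ↥(modularFunctionFieldFullC K M), x ≠ 0 →
      s34i47_coeffEquiv σ M x / x ∈ c1g55_V R K M hπ) ∧
    (∀ x ∈ c1g55_V R K M hπ, (algebraMap R ↥(modularFunctionFieldFullC K M) π)⁻¹ *
      (s34i47_coeffEquiv σ M x - x) ∈ c1g55_V R K M hπ) := by
  obtain ⟨σR, hσR, hin⟩ := fg14_exists_sigmaR hπ σ hσ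
  obtain ⟨k, hk0, hk⟩ := fg14_finOrder K σ
  have hmem : ∀ x ∈ c1g55_V R K M hπ, s34i47_coeffEquiv σ M x ∈ c1g55_V R K M hπ := by
    intro x hx
    rw [fg14_coeffEquiv_eq]
    exact in87_mem_V_of_inertia M hπ σ σR hσR hin x hx
  refine ⟨fun r => ⟨σR r, (hσR r).symm⟩, fun x hx => ?_, fun x hx => ?_⟩
  · exact wi11_finOrder_div_mem (c1g55_V R K M hπ) (s34i47_coeffEquiv σ M) hmem k hk0
      (fg14_coeffEquiv_pow σ M k hk) x hx
  · rw [fg14_coeffEquiv_eq]
    exact in87_sub_mem_V' M hπ σ σR hσR hin x hx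

end Vinf

section Frame

variable {R K : Type} [CommRing R] [IsDomain R] [IsDiscreteValuationRing R] [Field K]
  [NumberField K] [Algebra K Q̄] [Algebra R K] [IsFractionRing R K]
  (M' q : ℕ) [NeZero M'] [NeZero q] (hq : q.Prime) (hM' : ¬ q ∣ M')
  [Algebra R ↥(modularFunctionFieldFullC K (M' * q))]
  [IsScalarTower R K ↥(modularFunctionFieldFullC K (M' * q))]

/-- (G) for `V_∞ ⊓ w^* V_∞` in the shape of `al97V_GalProps`. -/
theorem fg14_galProps_al {π : R} (hπ : Irreducible π) (σ : K ≃+* K)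
    (hσ : s34i47_Inertial R σ) :
    s34i47_GalProps π ((c1g55_V R K (M' * q) hπ).toSubring ⊓
      (al97V_comap (algebraMap K Q̄) M' q hq hM' (c1g55_V R K (M' * q) hπ)).toSubring)
      (s34i47_coeffEquiv σ (M' * q)) := by
  obtain ⟨h0, h1, h2⟩ := fg14_Vinf (M' * q) hπ σ hσ
  exact al97V_GalProps (algebraMap K Q̄) M' q hq hM' π (c1g55_V R K (M' * q) hπ) σ h0 h1 h2

/-- **(G) for the canonical `W = s34i47c_W`** of the interface. -/
theorem fg14_galProps {π : R} (hπ : Irreducible π) (σ : K ≃+* K)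
    (hσ : s34i47_Inertial R σ) :
    s34i47_GalProps π (s34i47c_W (K := K) M' q hq hM' hπ) (s34i47_coeffEquiv σ (M' * q)) := by
  have hW : s34i47c_W (K := K) M' q hq hM' hπ = (c1g55_V R K (M' * q) hπ).toSubring ⊓
      (al97V_comap (algebraMap K Q̄) M' q hq hM' (c1g55_V R K (M' * q) hπ)).toSubring := by
    ext x
    rw [s34i47c_mem_W, Subring.mem_inf]
    exact Iff.rfl
  rw [hW]
  exact fg14_galProps_al M' q hq hM' hπ σ hσ

/-- (G) for `W = wa5_W V_∞ (cm15_V0 ..)` (the shape of FrameGlue15). -/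
theorem fg14_galProps15 {π : R} (hπ : Irreducible π) (σ : K ≃+* K)
    (hσ : s34i47_Inertial R σ) :
    s34i47_GalProps π
      (wa5_W (cm85_Vinf (K := K) (M' * q) hπ) (cm15_V0 (algebraMap K Q̄) M' q hq hM' hπ))
      (s34i47_coeffEquiv σ (M' * q)) := by
  have hW : wa5_W (cm85_Vinf (K := K) (M' * q) hπ) (cm15_V0 (algebraMap K Q̄) M' q hq hM' hπ) =
      (c1g55_V R K (M' * q) hπ).toSubring ⊓
      (al97V_comap (algebraMap K Q̄) M' q hq hM' (c1g55_V R K (M' * q) hπ)).toSubring := by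
    ext x
    rw [wa5_mem_W, Subring.mem_inf]
    exact Iff.rfl
  rw [hW]
  exact fg14_galProps_al M' q hq hM' hπ σ hσ

end Frame

/-- **FRAME-GAL** (LITERAL `s34i47c_Pkg_FrameGal` of Iface47c). -/
theorem fg14_pkg_frameGal : s34i47c_Pkg_FrameGal := by
  intro M' q _ _ hq hM' R K _ _ _ _ _ _ _ _ _ _ π hπ _ _ σ hσ
  refine ⟨fg14_galProps M' q hq hM' hπ σ hσ, ?_⟩
  intro h hh
  rcases hh with ⟨-, h2, rfl⟩ | ⟨-, h3, rfl⟩
  · exact cm15_coeffEquiv_h2 _ σ h2
  · exact cm15_coeffEquiv_h3 _ σ h3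

/-- **FRAME-GAL** in the shape of FrameGlue15 (`cm15_FrameGal`). -/
theorem fg14_frameGal15 (M' q : ℕ) [NeZero M'] [NeZero q] (hq : q.Prime) (hqM : ¬ q ∣ M') :
    cm15_FrameGal M' q hq hqM := by
  intro R K _ _ _ _ _ _ _ _ _ _ π hπ _ _ σ hσ
  exact fg14_galProps15 M' q hq hqM hπ σ hσ

end Fermat.Agent.S34
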