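import Fermat.Agent.S34.ChartM15
import Fermat.Agent.S34.ChartM85
import Fermat.Agent.S18.PackFinal85

/-!
# S34 lab, package P2 (helper15): saturation in `W` of the charts at a BAD level `M = q M'`

`F' = F(M')_K ⊆ F = F(M)_K` (`M' ∣ M`, literally an inclusion of intermediate fields of `K((q))`),
`R` a discrete valuation ring with fraction field `K`, the GOOD level `M'` a unit of `R` and
divisible by `p₀ ∈ {2, 3}`, `h` the Hauptmodul of level `p₀`, `V' = cm85_Vinf M'` the Gauss
valuation ring of `F'`.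

* `cm15_base_sat_level2/3` : the three saturation statements of S18 at the good level `M'`, for
  the EXPLICIT Hauptmodul `pk85_h2/3 K M'` and `V'` (re-exported from `sat23_*`, `sm79_*`).
* `cm15_sat_level2/3` : **(2a)** for every subring `W` of `F(M)_K` all of whose elements are
  integral over `V'` (hypothesis `hWint`; for `W = V_∞ ⊓ V_0` this is "`V_∞`, `V_0` are the only
  extensions of `V'`"), the three charts `pk15_chart R {h}`, `{h⁻¹}`, `{h, h⁻¹}` of `F(M)_K`
  (`h = pk85_h2/3 K M`) are saturated with respect to `W`: the literal `hsat₁`, `hsat₂`, `hsat₁₂`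
  of `ntc47_main`.  NO hypothesis on `M` beyond `M' ∣ M`.

All names are prefixed `cm15_`.
-/

set_option autoImplicit false
set_option linter.unusedSectionVars false
set_option linter.style.haveILetI false

open ModularCurve IntermediateField Polynomial

namespace Fermat.Agent.S34

open Fermat.Agent.S18 Fermat.Agent.S24

local notation "Q̄" => AlgebraicClosure ℚ

section base

variable {R K : Type} [CommRing R] [IsDomain R] [IsDiscreteValuationRing R] [Field K] [CharZero K]
  [Algebra R K] [IsFractionRing R K] [Algebra K Q̄] [Algebra.IsAlgebraic K Q̄] (M : ℕ) [NeZero M]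
  [Algebra R ↥(modularFunctionFieldFullC K M)]
  [IsScalarTower R K ↥(modularFunctionFieldFullC K M)]

/-- The saturation statement for a chart `B` and a subring `W`. -/
def cm15_Sat (R : Type) {F : Type} [CommRing R] [Field F] [Algebra R F] (π : R) (s : Set F)
    (W : Subring F) : Prop :=
  ∀ x ∈ pk15_chart R s, (algebraMap R F π)⁻¹ * x ∈ W → (algebraMap R F π)⁻¹ * x ∈ pk15_chart R s

/-- a valuation subring is integrally closed in its field (ring-hom form). -/
theorem cm15_val_closed {F : Type*} [Field F] (V : ValuationSubring F) (z : F)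
    (hz : V.toSubring.subtype.IsIntegralElem z) : z ∈ V.toSubring := by
  have hint : IsIntegral V z := hz
  obtain ⟨y, hy⟩ := IsIntegrallyClosed.isIntegral_iff.mp hint
  rw [← hy]
  exact y.2

/-- **S18 at a good level, explicit form (level 2).** -/
theorem cm15_base_sat_level2 {π : R} (hπ : Irreducible π) (h2 : 2 ∣ M) (hMu : IsUnit (M : R)) :
    cm15_Sat R π ({pk85_h2 K M h2} : Set ↥(modularFunctionFieldFullC K M))
        (cm85_Vinf (K := K) M hπ).toSubring ∧
      cm15_Sat R π ({(pk85_h2 K M h2)⁻¹} : Set ↥(modularFunctionFieldFullC K M))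
        (cm85_Vinf (K := K) M hπ).toSubring ∧
      cm15_Sat R π ({pk85_h2 K M h2, (pk85_h2 K M h2)⁻¹} : Set ↥(modularFunctionFieldFullC K M))
        (cm85_Vinf (K := K) M hπ).toSubring := by
  obtain ⟨hh, hRV, hπV, -, hhV, hhV', -⟩ := cm85_facts_level2 (R := R) (K := K) M hπ h2
  have hM := pk85_natCast_residue_ne_zero (R := R) M hMu
  have h2u : IsUnit ((2 : ℕ) : R) := pk85_isUnit_of_dvd M h2 hMu
  have h256u : IsUnit ((256 : ℕ) : R) := by
    have : ((256 : ℕ) : R) = ((2 : ℕ) : R) ^ 8 := by push_cast; norm_num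
    rw [this]
    exact h2u.pow 8
  obtain ⟨u, hu⟩ := h256u.exists_left_inv
  have hu' : u * 256 = 1 := by rw [← hu]; push_cast; ring
  have hh0 := cap87_ne_zero _ hh
  have hsat₁₂ := sat23_level2 K M π hπ.prime (IsLocalRing.ResidueField R) (IsLocalRing.residue R)
      (pk85_res_iff hπ) hM (pk85_HF K M hπ) _ hh0 (pk85_h2_rel K M h2) u hu'
  obtain ⟨⟨hD₁, -⟩, ⟨hD₂, -⟩⟩ := sm79_level2 (R := R) K M hπ hMu h2
  haveI : IsDedekindDomain (pk15_chart R ({pk85_h2 K M h2} : Set ↥(modularFunctionFieldFullC K M)) ⧸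
      Ideal.span {algebraMap R
        (pk15_chart R ({pk85_h2 K M h2} : Set ↥(modularFunctionFieldFullC K M))) π}) := hD₁
  haveI : IsDedekindDomain
      (pk15_chart R ({(pk85_h2 K M h2)⁻¹} : Set ↥(modularFunctionFieldFullC K M)) ⧸
      Ideal.span {algebraMap R
        (pk15_chart R ({(pk85_h2 K M h2)⁻¹} : Set ↥(modularFunctionFieldFullC K M))) π}) := hD₂
  exact ⟨sat23_sat₁ π (cm85_Vinf (K := K) M hπ) hRV hπV _ hh0 hhV hhV' hsat₁₂,
    sat23_sat₂ π (cm85_Vinf (K := K) M hπ) hRV hπV _ hh0 hhV hhV' hsat₁₂, hsat₁₂⟩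

/-- **S18 at a good level, explicit form (level 3).** -/
theorem cm15_base_sat_level3 {π : R} (hπ : Irreducible π) (h3 : 3 ∣ M) (hMu : IsUnit (M : R)) :
    cm15_Sat R π ({pk85_h3 K M h3} : Set ↥(modularFunctionFieldFullC K M))
        (cm85_Vinf (K := K) M hπ).toSubring ∧
      cm15_Sat R π ({(pk85_h3 K M h3)⁻¹} : Set ↥(modularFunctionFieldFullC K M))
        (cm85_Vinf (K := K) M hπ).toSubring ∧
      cm15_Sat R π ({pk85_h3 K M h3, (pk85_h3 K M h3)⁻¹} : Set ↥(modularFunctionFieldFullC K M))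
        (cm85_Vinf (K := K) M hπ).toSubring := by
  obtain ⟨hh, hRV, hπV, -, hhV, hhV', -⟩ := cm85_facts_level3 (R := R) (K := K) M hπ h3
  have hM := pk85_natCast_residue_ne_zero (R := R) M hMu
  have h3u : IsUnit ((3 : ℕ) : R) := pk85_isUnit_of_dvd M h3 hMu
  obtain ⟨u, hu⟩ := h3u.exists_left_inv
  have hu' : u * 3 = 1 := by rw [← hu]; push_cast; ring
  have hh0 := cap87_ne_zero _ hh
  have hsat₁₂ := sat23_level3 K M π hπ.prime (IsLocalRing.ResidueField R) (IsLocalRing.residue R)
      (pk85_res_iff hπ) hM (pk85_HF K M hπ) _ hh0 (pk85_h3_rel K M h3) u hu'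
  obtain ⟨⟨hD₁, -⟩, ⟨hD₂, -⟩⟩ := sm79_level3 (R := R) K M hπ hMu h3
  haveI : IsDedekindDomain (pk15_chart R ({pk85_h3 K M h3} : Set ↥(modularFunctionFieldFullC K M)) ⧸
      Ideal.span {algebraMap R
        (pk15_chart R ({pk85_h3 K M h3} : Set ↥(modularFunctionFieldFullC K M))) π}) := hD₁
  haveI : IsDedekindDomain
      (pk15_chart R ({(pk85_h3 K M h3)⁻¹} : Set ↥(modularFunctionFieldFullC K M)) ⧸
      Ideal.span {algebraMap R
        (pk15_chart R ({(pk85_h3 K M h3)⁻¹} : Set ↥(modularFunctionFieldFullC K M))) π}) := hD₂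
  exact ⟨sat23_sat₁ π (cm85_Vinf (K := K) M hπ) hRV hπV _ hh0 hhV hhV' hsat₁₂,
    sat23_sat₂ π (cm85_Vinf (K := K) M hπ) hRV hπV _ hh0 hhV hhV' hsat₁₂, hsat₁₂⟩

end base

section lift

variable {R K : Type} [CommRing R] [IsDomain R] [IsDiscreteValuationRing R] [Field K] [CharZero K]
  [Algebra R K] [IsFractionRing R K] [Algebra K Q̄] [Algebra.IsAlgebraic K Q̄]
  (M' M : ℕ) [NeZero M'] [NeZero M]
  [Algebra R ↥(modularFunctionFieldFullC K M')]
  [IsScalarTower R K ↥(modularFunctionFieldFullC K M')]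
  [Algebra R ↥(modularFunctionFieldFullC K M)]
  [IsScalarTower R K ↥(modularFunctionFieldFullC K M)]

/-- The inclusion `F(M')_K → F(M)_K` for `M' ∣ M`, as a `K`-algebra homomorphism. -/
noncomputable def cm15_incl (K : Type) [Field K] (M' M : ℕ) [NeZero M'] [NeZero M]
    (hdvd : M' ∣ M) :
    ↥(modularFunctionFieldFullC K M') →ₐ[K] ↥(modularFunctionFieldFullC K M) :=
  IntermediateField.inclusion (full_degeneracyC_le K hdvd)

theorem cm15_incl_coe (hdvd : M' ∣ M) (x : ↥(modularFunctionFieldFullC K M')) :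
    ((cm15_incl K M' M hdvd x : ↥(modularFunctionFieldFullC K M)) : LaurentSeries K) = x :=
  IntermediateField.coe_inclusion _ x

/-- "every element of `W` is integral over the Gauss valuation ring of the good level `M'`". -/
def cm15_WInt (R K : Type) [CommRing R] [IsDomain R] [IsDiscreteValuationRing R] [Field K]
    [Algebra R K] [IsFractionRing R K] (M' M : ℕ) [NeZero M'] [NeZero M] (hdvd : M' ∣ M)
    {π : R} (hπ : Irreducible π) (W : Subring ↥(modularFunctionFieldFullC K M)) : Prop :=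
  ∀ y ∈ W, ((cm15_incl K M' M hdvd).toRingHom.comp
    (cm85_Vinf (K := K) M' hπ).toSubring.subtype).IsIntegralElem y

/-- generic step: saturation in `W` of the chart `ι '' s` at level `M` from saturation of the
chart `s` at level `M'` in the Gauss valuation ring. -/
theorem cm15_sat_of_base (hdvd : M' ∣ M) {π : R} (hπ : Irreducible π)
    (W : Subring ↥(modularFunctionFieldFullC K M)) (hWint : cm15_WInt R K M' M hdvd hπ W)
    (s : Set ↥(modularFunctionFieldFullC K M'))
    (hs : cm15_Sat R π s (cm85_Vinf (K := K) M' hπ).toSubring) :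
    cm15_Sat R π (cm15_incl K M' M hdvd '' s) W := by
  have hπ0 : algebraMap R ↥(modularFunctionFieldFullC K M') π ≠ 0 := by
    rw [IsScalarTower.algebraMap_apply R K ↥(modularFunctionFieldFullC K M')]
    intro h0
    have h1 : algebraMap R K π = 0 :=
      (map_eq_zero (algebraMap K ↥(modularFunctionFieldFullC K M'))).mp h0
    exact hπ.ne_zero ((map_eq_zero_iff _ (IsFractionRing.injective R K)).mp h1)
  exact cm15_chart_sat ((cm15_incl K M' M hdvd).restrictScalars R) π hπ0 s
    (cm85_Vinf (K := K) M' hπ).toSubring (cm15_val_closed _) (pk85_hRV M' hπ π) hs W hWint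

/-- **(2a), level 2**: the three charts of the level-2 Hauptmodul at ANY level `M` divisible by a
good level `M'` (`2 ∣ M'`, `M'` a unit of `R`) are saturated with respect to every subring `W`
whose elements are integral over the Gauss valuation ring of level `M'`. -/
theorem cm15_sat_level2 (hdvd : M' ∣ M) {π : R} (hπ : Irreducible π) (h2 : 2 ∣ M')
    (hMu : IsUnit (M' : R)) (W : Subring ↥(modularFunctionFieldFullC K M))
    (hWint : cm15_WInt R K M' M hdvd hπ W) :
    cm15_Sat R π ({pk85_h2 K M (h2.trans hdvd)} : Set ↥(modularFunctionFieldFullC K M)) W ∧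
      cm15_Sat R π ({(pk85_h2 K M (h2.trans hdvd))⁻¹} : Set ↥(modularFunctionFieldFullC K M)) W ∧
      cm15_Sat R π ({pk85_h2 K M (h2.trans hdvd), (pk85_h2 K M (h2.trans hdvd))⁻¹} :
        Set ↥(modularFunctionFieldFullC K M)) W := by
  obtain ⟨hs₁, hs₂, hs₁₂⟩ := cm15_base_sat_level2 (R := R) (K := K) M' hπ h2 hMu
  have hh : cm15_incl K M' M hdvd (pk85_h2 K M' h2) = pk85_h2 K M (h2.trans hdvd) :=
    Subtype.ext (cm15_incl_coe M' M hdvd _)
  have h1 := cm15_sat_of_base M' M hdvd hπ W hWint _ hs₁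
  have h2' := cm15_sat_of_base M' M hdvd hπ W hWint _ hs₂
  have h12 := cm15_sat_of_base M' M hdvd hπ W hWint _ hs₁₂
  rw [Set.image_singleton, hh] at h1
  rw [Set.image_singleton, map_inv₀, hh] at h2'
  rw [Set.image_pair, map_inv₀, hh] at h12
  exact ⟨h1, h2', h12⟩

/-- **(2a), level 3.** -/
theorem cm15_sat_level3 (hdvd : M' ∣ M) {π : R} (hπ : Irreducible π) (h3 : 3 ∣ M')
    (hMu : IsUnit (M' : R)) (W : Subring ↥(modularFunctionFieldFullC K M))
    (hWint : cm15_WInt R K M' M hdvd hπ W) :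
    cm15_Sat R π ({pk85_h3 K M (h3.trans hdvd)} : Set ↥(modularFunctionFieldFullC K M)) W ∧
      cm15_Sat R π ({(pk85_h3 K M (h3.trans hdvd))⁻¹} : Set ↥(modularFunctionFieldFullC K M)) W ∧
      cm15_Sat R π ({pk85_h3 K M (h3.trans hdvd), (pk85_h3 K M (h3.trans hdvd))⁻¹} :
        Set ↥(modularFunctionFieldFullC K M)) W := by
  obtain ⟨hs₁, hs₂, hs₁₂⟩ := cm15_base_sat_level3 (R := R) (K := K) M' hπ h3 hMu
  have hh : cm15_incl K M' M hdvd (pk85_h3 K M' h3) = pk85_h3 K M (h3.trans hdvd) :=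
    Subtype.ext (cm15_incl_coe M' M hdvd _)
  have h1 := cm15_sat_of_base M' M hdvd hπ W hWint _ hs₁
  have h2' := cm15_sat_of_base M' M hdvd hπ W hWint _ hs₂
  have h12 := cm15_sat_of_base M' M hdvd hπ W hWint _ hs₁₂
  rw [Set.image_singleton, hh] at h1
  rw [Set.image_singleton, map_inv₀, hh] at h2'
  rw [Set.image_pair, map_inv₀, hh] at h12
  exact ⟨h1, h2', h12⟩

end lift

end Fermat.Agent.S34
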