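import Mathlib
import Fermat.Agent.S34.Iface47

/-!
# S34 lab (helper63): assembling the local structure `(LS)` of a chart from its two branches

`s34i47_LocStr π B` (interface of helper47) asks, at every maximal ideal `n ∋ π` of the chart `B`,
for coordinates `z, z' ∈ n` with `n B_n = (z, z', π)` and either `z' = π` (smooth point of the
special fibre) or `z z' = π ^ κ · unit` (node).

This file provides the abstract assembly (Mathlib only, on top of the interface):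

* `ls63_unif_of_dedekind`: a Dedekind quotient `B ⧸ P` has a uniformiser at every prime `n ⊇ P`
  (elementwise form: `∃ z ∈ n, ∀ x ∈ n, ∃ s ∉ n, ∃ a, s x - a z ∈ P`);
* `ls63_unif_transfer`: transfer of that property along `α : B' → B` with `B = α(B') + P`
  (step (3a): the branch of the chart is the special fibre of the chart of the good level);
* `ls63_smooth`: at a one-branch point (a witness `y ∈ B ∖ n` vanishing on the other branch) the
  branch uniformiser and `π` generate `n B_n` (saturation of `B` in `V₁ ⊓ V₂`);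
* `ls63_node_of_loc`: the node clause of `(LS)` from coordinates in the localisation `B_n ⊆ F`;
* `ls63_node_of_nl71`: the node clause from initial coordinates `z, z' ∈ B` and the literal
  conclusion of the node lemma `nl71_main` for `A = B_n`;
* `ls63_locStr`: `(LS)` for the chart from the three cases;
* `ls63_locStr_of_dedekind`: the same with both branches given as Dedekind quotients.
-/

set_option autoImplicit false

namespace Fermat.Agent.S34

section dedekind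

/-- A Dedekind quotient `B ⧸ P` has a uniformiser at every prime `n ⊇ P`, elementwise form. -/
theorem ls63_unif_of_dedekind {B : Type*} [CommRing B] (P : Ideal B) [IsDedekindDomain (B ⧸ P)]
    (n : Ideal B) [hn : n.IsPrime] (hPn : P ≤ n) :
    ∃ z ∈ n, ∀ x ∈ n, ∃ s : B, s ∉ n ∧ ∃ a : B, s * x - a * z ∈ P := by
  classical
  have hsurj : Function.Surjective (Ideal.Quotient.mk P) := Ideal.Quotient.mk_surjective
  have hker : RingHom.ker (Ideal.Quotient.mk P) ≤ n := by rw [Ideal.mk_ker]; exact hPn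
  have hprime : (n.map (Ideal.Quotient.mk P)).IsPrime := Ideal.map_isPrime_of_surjective hsurj hker
  have hmem : ∀ x : B, Ideal.Quotient.mk P x ∈ n.map (Ideal.Quotient.mk P) → x ∈ n := by
    intro x hx
    have h1 : x ∈ (n.map (Ideal.Quotient.mk P)).comap (Ideal.Quotient.mk P) := hx
    rw [Ideal.comap_map_of_surjective _ hsurj, ← RingHom.ker_eq_comap_bot] at h1
    exact (sup_le le_rfl hker) h1
  by_cases hbot : n.map (Ideal.Quotient.mk P) = ⊥
  · refine ⟨0, n.zero_mem, fun x hx => ⟨1, (Ideal.ne_top_iff_one n).mp hn.ne_top, 0, ?_⟩⟩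
    have hx0 : Ideal.Quotient.mk P x = 0 := by
      have : Ideal.Quotient.mk P x ∈ n.map (Ideal.Quotient.mk P) := Ideal.mem_map_of_mem _ hx
      rw [hbot] at this
      exact this
    simpa using Ideal.Quotient.eq_zero_iff_mem.mp hx0
  · obtain ⟨zbar, hz1, hz2⟩ :=
      Ideal.exists_mem_pow_notMem_pow_succ (n.map (Ideal.Quotient.mk P)) hbot hprime.ne_top 1
    rw [pow_one] at hz1
    obtain ⟨z, rfl⟩ := hsurj zbar
    have hdvd : n.map (Ideal.Quotient.mk P) ∣ Ideal.span {Ideal.Quotient.mk P z} :=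
      Ideal.dvd_iff_le.mpr ((Ideal.span_singleton_le_iff_mem _).mpr hz1)
    obtain ⟨I, hI⟩ := hdvd
    have hInot : ¬ I ≤ n.map (Ideal.Quotient.mk P) := by
      intro hle
      apply hz2
      have : Ideal.Quotient.mk P z ∈ Ideal.span {Ideal.Quotient.mk P z} :=
        Ideal.mem_span_singleton_self _
      rw [hI] at this
      rw [show (1 : ℕ) + 1 = 2 from rfl, pow_two]
      exact Ideal.mul_mono_right hle this
    obtain ⟨sbar, hsI, hsn⟩ := SetLike.not_le_iff_exists.mp hInot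
    obtain ⟨s, rfl⟩ := hsurj sbar
    refine ⟨z, hmem z hz1, fun x hx => ⟨s, fun h => hsn (Ideal.mem_map_of_mem _ h), ?_⟩⟩
    have hsx : Ideal.Quotient.mk P s * Ideal.Quotient.mk P x ∈
        Ideal.span {Ideal.Quotient.mk P z} := by
      rw [hI, mul_comm (Ideal.Quotient.mk P s)]
      exact Ideal.mul_mem_mul (Ideal.mem_map_of_mem _ hx) hsI
    obtain ⟨abar, ha⟩ := Ideal.mem_span_singleton'.mp hsx
    obtain ⟨a, rfl⟩ := hsurj abar
    refine ⟨a, ?_⟩
    rw [← Ideal.Quotient.eq_zero_iff_mem, map_sub, map_mul, map_mul, ha, sub_self]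

/-- Transfer of the uniformiser property along `α : B' → B` with `B = α(B') + P`. -/
theorem ls63_unif_transfer {B' B : Type*} [CommRing B'] [CommRing B] (α : B' →+* B)
    (P : Ideal B) (hsurj : ∀ x : B, ∃ x' : B', x - α x' ∈ P)
    (n : Ideal B) (hPn : P ≤ n)
    (h' : ∃ z' ∈ n.comap α, ∀ x' ∈ n.comap α, ∃ s' : B', s' ∉ n.comap α ∧
      ∃ a' : B', s' * x' - a' * z' ∈ P.comap α) :
    ∃ z ∈ n, ∀ x ∈ n, ∃ s : B, s ∉ n ∧ ∃ a : B, s * x - a * z ∈ P := by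
  obtain ⟨z', hz', h'⟩ := h'
  refine ⟨α z', hz', fun x hx => ?_⟩
  obtain ⟨x', hx'⟩ := hsurj x
  have hx'n : x' ∈ n.comap α := by
    have h1 : α x' = x - (x - α x') := by ring
    show α x' ∈ n
    rw [h1]
    exact n.sub_mem hx (hPn hx')
  obtain ⟨s', hs', a', ha'⟩ := h' x' hx'n
  refine ⟨α s', hs', α a', ?_⟩
  have h2 : α s' * x - α a' * α z' = α (s' * x' - a' * z') + α s' * (x - α x') := by
    rw [map_sub, map_mul, map_mul]; ring
  rw [h2]
  exact P.add_mem ha' (P.mul_mem_left _ hx')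

/-- The branch of `B` through `n` is a quotient of a chart `B'` with Dedekind special fibre:
uniformiser property at `n`. -/
theorem ls63_unif_of_dedekind_transfer {B' B : Type*} [CommRing B'] [CommRing B] (α : B' →+* B)
    (P : Ideal B) (hsurj : ∀ x : B, ∃ x' : B', x - α x' ∈ P)
    (P' : Ideal B') (hP' : P.comap α = P') [IsDedekindDomain (B' ⧸ P')]
    (n : Ideal B) [hn : n.IsPrime] (hPn : P ≤ n) :
    ∃ z ∈ n, ∀ x ∈ n, ∃ s : B, s ∉ n ∧ ∃ a : B, s * x - a * z ∈ P := by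
  subst hP'
  have : (n.comap α).IsPrime := Ideal.comap_isPrime α n
  exact ls63_unif_transfer α P hsurj n hPn
    (ls63_unif_of_dedekind (P.comap α) (n.comap α) (Ideal.comap_mono hPn))

end dedekind

section assembly

variable {R : Type*} [CommRing R] {F : Type*} [Field F] [Algebra R F]

/-- **Smooth points**: at a prime `n` of the chart `B` which is not on the second branch
(witness `y ∈ B ∖ n` with `π⁻¹ y ∈ V₂`), a uniformiser `z` of the first branch at `n` and `π`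
generate `n B_n`. -/
theorem ls63_smooth (π : R) (hπ0 : algebraMap R F π ≠ 0) (B : Subalgebra R F) (V₁ V₂ : Subring F)
    (hB₁ : ∀ x ∈ B, x ∈ V₁) (hB₂ : ∀ x ∈ B, x ∈ V₂)
    (hsat : ∀ x ∈ B, (algebraMap R F π)⁻¹ * x ∈ V₁ → (algebraMap R F π)⁻¹ * x ∈ V₂ →
      (algebraMap R F π)⁻¹ * x ∈ B)
    (n : Ideal B) [hn : n.IsPrime]
    (y : B) (hyn : y ∉ n) (hy : (algebraMap R F π)⁻¹ * (y : F) ∈ V₂)
    (z : B)
    (hunif : ∀ x ∈ n, ∃ s : B, s ∉ n ∧ ∃ a : B,
      (algebraMap R F π)⁻¹ * ((s : F) * (x : F) - (a : F) * (z : F)) ∈ V₁) :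
    ∀ x ∈ n, ∃ s : B, s ∉ n ∧ ∃ a b c : B,
      s * x = a * z + b * algebraMap R B π + c * algebraMap R B π := by
  intro x hx
  obtain ⟨s, hs, a, ha⟩ := hunif x hx
  set w : B := s * x - a * z with hw
  have hwF : ((w : B) : F) = (s : F) * (x : F) - (a : F) * (z : F) := by
    rw [hw]; push_cast; ring
  have h1 : (algebraMap R F π)⁻¹ * ((y * w : B) : F) ∈ V₁ := by
    have : (algebraMap R F π)⁻¹ * ((y * w : B) : F) =
        (y : F) * ((algebraMap R F π)⁻¹ * ((s : F) * (x : F) - (a : F) * (z : F))) := by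
      push_cast; rw [hwF]; ring
    rw [this]
    exact V₁.mul_mem (hB₁ _ y.2) ha
  have h2 : (algebraMap R F π)⁻¹ * ((y * w : B) : F) ∈ V₂ := by
    have : (algebraMap R F π)⁻¹ * ((y * w : B) : F) =
        ((algebraMap R F π)⁻¹ * (y : F)) * ((w : B) : F) := by
      push_cast; ring
    rw [this]
    exact V₂.mul_mem hy (hB₂ _ w.2)
  have h3 := hsat _ (y * w).2 h1 h2
  refine ⟨y * s, fun h => (hn.mem_or_mem h).elim hyn hs, y * a, 0, ⟨_, h3⟩, ?_⟩
  apply Subtype.ext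
  push_cast
  rw [hwF]
  field_simp
  ring

/-- **Nodes**: the node clause of `(LS)` from coordinates `z₁, z₁'` in the localisation
`B_n ⊆ F` (the shape of the conclusion of the node lemma `nl71_main`): `z₁, z₁' ∈ n B_n`,
`n B_n = (z₁, z₁', π)`, `z₁ z₁' = π ^ κ c` with `c` a unit of `B_n`. -/
theorem ls63_node_of_loc (π : R) (B : Subalgebra R F) (n : Ideal B) [hn : n.IsPrime]
    (z₁ z₁' : F)
    (hz₁ : ∃ t : B, t ∉ n ∧ ∃ ζ ∈ n, (t : F) * z₁ = (ζ : F))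
    (hz₁' : ∃ t : B, t ∉ n ∧ ∃ ζ ∈ n, (t : F) * z₁' = (ζ : F))
    (hgen : ∀ x ∈ n, ∃ s : B, s ∉ n ∧ ∃ a b c : B,
      (s : F) * (x : F) = (a : F) * z₁ + (b : F) * z₁' + (c : F) * algebraMap R F π)
    (κ : ℕ) (c d : F)
    (hc : ∃ t : B, t ∉ n ∧ (t : F) * c ∈ B) (hd : ∃ t : B, t ∉ n ∧ (t : F) * d ∈ B)
    (hcd : c * d = 1) (hzz : z₁ * z₁' = algebraMap R F π ^ κ * c) :
    ∃ z z' : B, z ∈ n ∧ z' ∈ n ∧
      (∀ x ∈ n, ∃ s : B, s ∉ n ∧ ∃ a b c : B, s * x = a * z + b * z' + c * algebraMap R B π) ∧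
      ∃ (κ : ℕ) (s s' : B), s ∉ n ∧ s' ∉ n ∧ s * z * z' = algebraMap R B π ^ κ * s' := by
  obtain ⟨t₁, ht₁, ζ, hζ, hζeq⟩ := hz₁
  obtain ⟨t₂, ht₂, ζ', hζ', hζ'eq⟩ := hz₁'
  obtain ⟨t₃, ht₃, hc⟩ := hc
  obtain ⟨t₄, ht₄, hd⟩ := hd
  refine ⟨ζ, ζ', hζ, hζ', ?_, κ, t₃, t₁ * t₂ * ⟨_, hc⟩, ht₃, ?_, ?_⟩
  · intro x hx
    obtain ⟨s, hs, a, b, c₀, h⟩ := hgen x hx
    refine ⟨t₁ * t₂ * s, fun h => (hn.mem_or_mem h).elim
      (fun h => (hn.mem_or_mem h).elim ht₁ ht₂) hs, a * t₂, b * t₁, c₀ * t₁ * t₂, ?_⟩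
    apply Subtype.ext
    push_cast
    rw [← hζeq, ← hζ'eq]
    have : (t₁ : F) * (t₂ : F) * (s : F) * (x : F) =
        (t₁ : F) * (t₂ : F) * ((s : F) * (x : F)) := by ring
    rw [this, h]
    ring
  · intro h
    rcases hn.mem_or_mem h with h | h
    · exact (hn.mem_or_mem h).elim ht₁ ht₂
    · -- `t₃ c ∈ n` would make `t₃ t₄ = (t₃ c) (t₄ d) ∈ n`
      have h6 : t₃ * t₄ = (⟨_, hc⟩ : B) * ⟨_, hd⟩ := by
        apply Subtype.ext
        push_cast
        have : (t₃ : F) * c * ((t₄ : F) * d) = (t₃ : F) * (t₄ : F) * (c * d) := by ring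
        rw [this, hcd, mul_one]
      have h7 : t₃ * t₄ ∈ n := by rw [h6]; exact n.mul_mem_right _ h
      exact (hn.mem_or_mem h7).elim ht₃ ht₄
  · apply Subtype.ext
    push_cast
    rw [← hζeq, ← hζ'eq]
    have : (t₃ : F) * ((t₁ : F) * z₁) * ((t₂ : F) * z₁') =
        (t₃ : F) * (t₁ : F) * (t₂ : F) * (z₁ * z₁') := by ring
    rw [this, hzz]
    ring

/-- **Nodes, from the node lemma**: the node clause of `(LS)` from initial coordinates
`z, z' ∈ n` of the chart with `n B_n = (z, z', π)` and the conclusion of the node lemma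
`nl71_main` for `A = B_n = {x | ∃ t ∉ n, t x ∈ B}`: `z₁ ≡ z`, `z₁' ≡ z'` modulo `π B_n` and
`z₁ z₁' = π ^ κ c` with `c d = 1` in `B_n`. -/
theorem ls63_node_of_nl71 (π : R) (hπ0 : algebraMap R F π ≠ 0) (B : Subalgebra R F)
    (n : Ideal B) [hn : n.IsPrime] (hπn : algebraMap R B π ∈ n)
    (z z' : B) (hz : z ∈ n) (hz' : z' ∈ n)
    (hgen : ∀ x ∈ n, ∃ s : B, s ∉ n ∧ ∃ a b c : B,
      s * x = a * z + b * z' + c * algebraMap R B π)
    (κ : ℕ) (z₁ z₁' c d : F)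
    (hc : ∃ t : B, t ∉ n ∧ (t : F) * c ∈ B) (hd : ∃ t : B, t ∉ n ∧ (t : F) * d ∈ B)
    (hcd : c * d = 1) (hzz : z₁ * z₁' = algebraMap R F π ^ κ * c)
    (h₁ : ∃ t : B, t ∉ n ∧ (t : F) * ((algebraMap R F π)⁻¹ * (z₁ - (z : F))) ∈ B)
    (h₁' : ∃ t : B, t ∉ n ∧ (t : F) * ((algebraMap R F π)⁻¹ * (z₁' - (z' : F))) ∈ B) :
    ∃ z z' : B, z ∈ n ∧ z' ∈ n ∧
      (∀ x ∈ n, ∃ s : B, s ∉ n ∧ ∃ a b c : B, s * x = a * z + b * z' + c * algebraMap R B π) ∧
      ∃ (κ : ℕ) (s s' : B), s ∉ n ∧ s' ∉ n ∧ s * z * z' = algebraMap R B π ^ κ * s' := by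
  obtain ⟨t, ht, he⟩ := h₁
  obtain ⟨t', ht', he'⟩ := h₁'
  have e1 : (t : F) * z₁ = (t : F) * (z : F) +
      algebraMap R F π * ((t : F) * ((algebraMap R F π)⁻¹ * (z₁ - (z : F)))) := by
    field_simp
    ring
  have e1' : (t' : F) * z₁' = (t' : F) * (z' : F) +
      algebraMap R F π * ((t' : F) * ((algebraMap R F π)⁻¹ * (z₁' - (z' : F)))) := by
    field_simp
    ring
  refine ls63_node_of_loc π B n z₁ z₁'
    ⟨t, ht, t * z + algebraMap R B π * ⟨_, he⟩,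
      n.add_mem (n.mul_mem_left _ hz) (n.mul_mem_right _ hπn), ?_⟩
    ⟨t', ht', t' * z' + algebraMap R B π * ⟨_, he'⟩,
      n.add_mem (n.mul_mem_left _ hz') (n.mul_mem_right _ hπn), ?_⟩ ?_ κ c d hc hd hcd hzz
  · rw [e1]; push_cast; rfl
  · rw [e1']; push_cast; rfl
  · intro x hx
    obtain ⟨s, hs, a, b, c₀, h⟩ := hgen x hx
    refine ⟨t * t' * s, fun h => (hn.mem_or_mem h).elim
      (fun h => (hn.mem_or_mem h).elim ht ht') hs, a * t' * t, b * t * t',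
      c₀ * t * t' - a * t' * ⟨_, he⟩ - b * t * ⟨_, he'⟩, ?_⟩
    have hF : (s : F) * (x : F) = (a : F) * (z : F) + (b : F) * (z' : F) +
        (c₀ : F) * algebraMap R F π := by
      have := congrArg (Subtype.val) h
      push_cast at this
      exact this
    have e2 : ((t * t' * s : B) : F) * (x : F) =
        (t : F) * (t' : F) * ((s : F) * (x : F)) := by push_cast; ring
    rw [e2, hF]
    push_cast
    have e3 : (a : F) * (t' : F) * (t : F) * z₁ = (a : F) * (t' : F) * ((t : F) * z₁) := by ring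
    have e3' : (b : F) * (t : F) * (t' : F) * z₁' = (b : F) * (t : F) * ((t' : F) * z₁') := by
      ring
    rw [e3, e3', e1, e1']
    ring

/-- **Assembly of `(LS)`** for a chart `B` with two branches `V₁, V₂` (subrings of `F` containing
`B`, with `B` saturated in `V₁ ⊓ V₂`): from the uniformiser property of each branch at the
points off the other branch, and the node clause at the points lying on both branches. -/
theorem ls63_locStr (π : R) (hπ0 : algebraMap R F π ≠ 0) (B : Subalgebra R F) (V₁ V₂ : Subring F)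
    (hB₁ : ∀ x ∈ B, x ∈ V₁) (hB₂ : ∀ x ∈ B, x ∈ V₂)
    (hsat : ∀ x ∈ B, (algebraMap R F π)⁻¹ * x ∈ V₁ → (algebraMap R F π)⁻¹ * x ∈ V₂ →
      (algebraMap R F π)⁻¹ * x ∈ B)
    (h₁ : ∀ n : Ideal B, n.IsMaximal → algebraMap R B π ∈ n →
      (∃ y : B, y ∉ n ∧ (algebraMap R F π)⁻¹ * (y : F) ∈ V₂) →
      ∃ z ∈ n, ∀ x ∈ n, ∃ s : B, s ∉ n ∧ ∃ a : B,
        (algebraMap R F π)⁻¹ * ((s : F) * (x : F) - (a : F) * (z : F)) ∈ V₁)
    (h₂ : ∀ n : Ideal B, n.IsMaximal → algebraMap R B π ∈ n →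
      (∃ y : B, y ∉ n ∧ (algebraMap R F π)⁻¹ * (y : F) ∈ V₁) →
      ∃ z ∈ n, ∀ x ∈ n, ∃ s : B, s ∉ n ∧ ∃ a : B,
        (algebraMap R F π)⁻¹ * ((s : F) * (x : F) - (a : F) * (z : F)) ∈ V₂)
    (hnode : ∀ n : Ideal B, n.IsMaximal → algebraMap R B π ∈ n →
      (∀ y : B, (algebraMap R F π)⁻¹ * (y : F) ∈ V₁ → y ∈ n) →
      (∀ y : B, (algebraMap R F π)⁻¹ * (y : F) ∈ V₂ → y ∈ n) →
      ∃ z z' : B, z ∈ n ∧ z' ∈ n ∧
        (∀ x ∈ n, ∃ s : B, s ∉ n ∧ ∃ a b c : B,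
          s * x = a * z + b * z' + c * algebraMap R B π) ∧
        ∃ (κ : ℕ) (s s' : B), s ∉ n ∧ s' ∉ n ∧ s * z * z' = algebraMap R B π ^ κ * s') :
    s34i47_LocStr π B := by
  intro n hn hπn
  have := hn.isPrime
  by_cases hc₂ : ∃ y : B, y ∉ n ∧ (algebraMap R F π)⁻¹ * (y : F) ∈ V₂
  · obtain ⟨z, hz, hunif⟩ := h₁ n hn hπn hc₂
    obtain ⟨y, hyn, hy⟩ := hc₂
    exact ⟨z, algebraMap R B π, hz, hπn,
      ls63_smooth π hπ0 B V₁ V₂ hB₁ hB₂ hsat n y hyn hy z hunif, Or.inl rfl⟩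
  by_cases hc₁ : ∃ y : B, y ∉ n ∧ (algebraMap R F π)⁻¹ * (y : F) ∈ V₁
  · obtain ⟨z, hz, hunif⟩ := h₂ n hn hπn hc₁
    obtain ⟨y, hyn, hy⟩ := hc₁
    exact ⟨z, algebraMap R B π, hz, hπn,
      ls63_smooth π hπ0 B V₂ V₁ hB₂ hB₁ (fun x hx h2 h1 => hsat x hx h1 h2) n y hyn hy z hunif,
      Or.inl rfl⟩
  · push Not at hc₁ hc₂
    obtain ⟨z, z', hz, hz', hgen, hnd⟩ := hnode n hn hπn
      (fun y hy => by_contra fun hyn => hc₁ y hyn hy)
      (fun y hy => by_contra fun hyn => hc₂ y hyn hy)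
    exact ⟨z, z', hz, hz', hgen, Or.inr hnd⟩

/-- **Assembly of `(LS)`, Dedekind form**: both branches `P₁ = B ∩ π V₁`, `P₂ = B ∩ π V₂` have
Dedekind quotients (step (3a)); the node clause at the points on both branches. -/
theorem ls63_locStr_of_dedekind (π : R) (hπ0 : algebraMap R F π ≠ 0) (B : Subalgebra R F)
    (V₁ V₂ : Subring F) (hB₁ : ∀ x ∈ B, x ∈ V₁) (hB₂ : ∀ x ∈ B, x ∈ V₂)
    (hsat : ∀ x ∈ B, (algebraMap R F π)⁻¹ * x ∈ V₁ → (algebraMap R F π)⁻¹ * x ∈ V₂ →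
      (algebraMap R F π)⁻¹ * x ∈ B)
    (P₁ P₂ : Ideal B)
    (hP₁ : ∀ x : B, x ∈ P₁ ↔ (algebraMap R F π)⁻¹ * (x : F) ∈ V₁)
    (hP₂ : ∀ x : B, x ∈ P₂ ↔ (algebraMap R F π)⁻¹ * (x : F) ∈ V₂)
    [IsDedekindDomain (B ⧸ P₁)] [IsDedekindDomain (B ⧸ P₂)]
    (hnode : ∀ n : Ideal B, n.IsMaximal → algebraMap R B π ∈ n → P₁ ≤ n → P₂ ≤ n →
      ∃ z z' : B, z ∈ n ∧ z' ∈ n ∧
        (∀ x ∈ n, ∃ s : B, s ∉ n ∧ ∃ a b c : B,
          s * x = a * z + b * z' + c * algebraMap R B π) ∧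
        ∃ (κ : ℕ) (s s' : B), s ∉ n ∧ s' ∉ n ∧ s * z * z' = algebraMap R B π ^ κ * s') :
    s34i47_LocStr π B := by
  -- a point off one branch lies on the other one
  have key : ∀ (V V' : Subring F) (P P' : Ideal B), (∀ x ∈ B, x ∈ V) → (∀ x ∈ B, x ∈ V') →
      (∀ x ∈ B, (algebraMap R F π)⁻¹ * x ∈ V → (algebraMap R F π)⁻¹ * x ∈ V' →
        (algebraMap R F π)⁻¹ * x ∈ B) →
      (∀ x : B, x ∈ P ↔ (algebraMap R F π)⁻¹ * (x : F) ∈ V) →
      (∀ x : B, x ∈ P' ↔ (algebraMap R F π)⁻¹ * (x : F) ∈ V') →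
      ∀ n : Ideal B, n.IsPrime → algebraMap R B π ∈ n →
      (∃ y : B, y ∉ n ∧ (algebraMap R F π)⁻¹ * (y : F) ∈ V') → P ≤ n := by
    intro V V' P P' hBV hBV' hs hP hP' n hn hπn ⟨y, hyn, hy⟩ x hx
    have h1 : (algebraMap R F π)⁻¹ * ((y * x : B) : F) ∈ V := by
      have : (algebraMap R F π)⁻¹ * ((y * x : B) : F) =
          (y : F) * ((algebraMap R F π)⁻¹ * (x : F)) := by push_cast; ring
      rw [this]
      exact V.mul_mem (hBV _ y.2) ((hP x).mp hx)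
    have h2 : (algebraMap R F π)⁻¹ * ((y * x : B) : F) ∈ V' := by
      have : (algebraMap R F π)⁻¹ * ((y * x : B) : F) =
          ((algebraMap R F π)⁻¹ * (y : F)) * (x : F) := by push_cast; ring
      rw [this]
      exact V'.mul_mem hy (hBV' _ x.2)
    have h3 := hs _ (y * x).2 h1 h2
    have h4 : y * x = algebraMap R B π * ⟨_, h3⟩ := by
      apply Subtype.ext
      push_cast
      field_simp
    have h6 : y * x ∈ n := by rw [h4]; exact n.mul_mem_right _ hπn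
    exact (hn.mem_or_mem h6).resolve_left hyn
  refine ls63_locStr π hπ0 B V₁ V₂ hB₁ hB₂ hsat ?_ ?_ ?_
  · intro n hn hπn hy
    have := hn.isPrime
    obtain ⟨z, hz, h⟩ := ls63_unif_of_dedekind P₁ n
      (key V₁ V₂ P₁ P₂ hB₁ hB₂ hsat hP₁ hP₂ n hn.isPrime hπn hy)
    refine ⟨z, hz, fun x hx => ?_⟩
    obtain ⟨s, hs, a, ha⟩ := h x hx
    refine ⟨s, hs, a, ?_⟩
    have := (hP₁ _).mp ha
    simpa using this
  · intro n hn hπn hy
    have := hn.isPrime
    obtain ⟨z, hz, h⟩ := ls63_unif_of_dedekind P₂ n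
      (key V₂ V₁ P₂ P₁ hB₂ hB₁ (fun x hx h2 h1 => hsat x hx h1 h2) hP₂ hP₁ n hn.isPrime hπn hy)
    refine ⟨z, hz, fun x hx => ?_⟩
    obtain ⟨s, hs, a, ha⟩ := h x hx
    refine ⟨s, hs, a, ?_⟩
    have := (hP₂ _).mp ha
    simpa using this
  · intro n hn hπn h1 h2
    exact hnode n hn hπn (fun y hy => h1 y ((hP₁ y).mp hy)) (fun y hy => h2 y ((hP₂ y).mp hy))

end assembly

end Fermat.Agent.S34
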