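import Mathlib

/-!
# S34 lab (helper18): "the two extensions are the only ones" (abstract, Mathlib-only)

Abstract input for steps (1a), (2a), (3a) of the proof of (U).

Setting: a discrete valuation ring `A` with fraction field `F'`, a finite separable extension
`F / F'`, and valuation subrings `V` of `F` *lying over* `A` (i.e. containing the image of `A`
and not containing the inverse of a uniformizer).  Such `V` are exactly the localisations of the
integral closure `S` of `A` in `F` at the primes over the maximal ideal, and the fundamental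
identity `∑ e f = [F : F']` bounds their number.

All names are prefixed `oe18_`.
-/

set_option autoImplicit false
set_option linter.unusedSectionVars false

namespace Fermat.Agent.S34

open IsLocalRing

section dedekind

variable {S F : Type*} [CommRing S] [IsDedekindDomain S] [Field F] [Algebra S F]
  [IsFractionRing S F]

/-- The localisation of a Dedekind domain at a nonzero prime is a valuation ring of the fraction
field, in elementary form. -/
theorem oe18_frac_or (P : Ideal S) [hP : P.IsPrime] (hP0 : P ≠ ⊥) (x : F) :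
    (∃ a s : S, s ∉ P ∧ x * algebraMap S F s = algebraMap S F a) ∨
    (∃ a s : S, s ∉ P ∧ x⁻¹ * algebraMap S F s = algebraMap S F a) := by
  classical
  let T := Localization.subalgebra.ofField F P.primeCompl P.primeCompl_le_nonZeroDivisors
  have : IsLocalization.AtPrime T P :=
    Localization.subalgebra.isLocalization_ofField F P.primeCompl P.primeCompl_le_nonZeroDivisors
  have : IsDiscreteValuationRing T :=
    IsLocalization.AtPrime.isDiscreteValuationRing_of_dedekind_domain S hP0 T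
  have key : ∀ z : F, IsLocalization.IsInteger T z →
      ∃ a s : S, s ∉ P ∧ z * algebraMap S F s = algebraMap S F a := by
    rintro z ⟨t, rfl⟩
    obtain ⟨a, s, hs, hz⟩ := t.2
    refine ⟨a, s, hs, ?_⟩
    have hs0 : algebraMap S F s ≠ 0 := by
      intro h
      have : s = 0 := (IsFractionRing.injective S F) (by rw [h, map_zero])
      exact hs (by rw [this]; exact P.zero_mem)
    show (t : F) * algebraMap S F s = algebraMap S F a
    rw [hz, mul_assoc, inv_mul_cancel₀ hs0, mul_one]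
  rcases ValuationRing.isInteger_or_isInteger T x with h | h
  · exact Or.inl (key x h)
  · exact Or.inr (key _ h)

end dedekind

section center

variable {A F : Type*} [CommRing A] [Field F] [Algebra A F]

/-- A valuation subring containing the image of `A` contains every element integral over `A`. -/
theorem oe18_int_mem (V : ValuationSubring F) (hV : ∀ a : A, algebraMap A F a ∈ V) (x : F)
    (hx : IsIntegral A x) : x ∈ V := by
  rw [← V.valuation_le_one_iff]
  obtain ⟨f, hm, hf⟩ := hx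
  by_contra hlt
  push Not at hlt
  by_cases hn : f.natDegree = 0
  · have h1 : f = 1 := (Polynomial.Monic.natDegree_eq_zero hm).mp hn
    rw [h1] at hf
    simp at hf
  rw [Polynomial.eval₂_eq_sum_range, Finset.sum_range_succ, hm.coeff_natDegree, map_one, one_mul,
    add_eq_zero_iff_eq_neg] at hf
  apply_fun V.valuation at hf
  rw [Valuation.map_neg, map_pow] at hf
  refine absurd hf (ne_of_lt (V.valuation.map_sum_lt ?_ ?_))
  · exact pow_ne_zero _ (ne_of_gt (lt_trans zero_lt_one hlt))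
  · intro i hi
    rw [Finset.mem_range] at hi
    rw [map_mul, map_pow]
    exact mul_lt_of_le_one_of_lt ((V.valuation_le_one_iff _).mpr (hV _))
      (pow_lt_pow_right₀ hlt hi)

/-- The centre of `V` on the integral closure of `A` in `F`. -/
def oe18_center (V : ValuationSubring F) (hV : ∀ a : A, algebraMap A F a ∈ V) :
    Ideal (integralClosure A F) where
  carrier := {s | V.valuation (s : F) < 1}
  add_mem' := by
    intro a b ha hb
    exact lt_of_le_of_lt (V.valuation.map_add _ _) (max_lt ha hb)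
  zero_mem' := by
    show V.valuation ((0 : integralClosure A F) : F) < 1
    simp
  smul_mem' := by
    intro c x hx
    show V.valuation ((c * x : integralClosure A F) : F) < 1
    rw [MulMemClass.coe_mul, map_mul]
    exact mul_lt_of_le_one_of_lt ((V.valuation_le_one_iff _).mpr (oe18_int_mem V hV _ c.2)) hx

theorem oe18_mem_center (V : ValuationSubring F) (hV : ∀ a : A, algebraMap A F a ∈ V)
    (s : integralClosure A F) : s ∈ oe18_center V hV ↔ V.valuation (s : F) < 1 := Iff.rfl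

theorem oe18_not_mem_center (V : ValuationSubring F) (hV : ∀ a : A, algebraMap A F a ∈ V)
    (s : integralClosure A F) : s ∉ oe18_center V hV ↔ V.valuation (s : F) = 1 := by
  rw [oe18_mem_center, not_lt]
  have h1 : V.valuation (s : F) ≤ 1 := (V.valuation_le_one_iff _).mpr (oe18_int_mem V hV _ s.2)
  exact ⟨fun h => le_antisymm h1 h, fun h => h.ge⟩

instance oe18_center_isPrime (V : ValuationSubring F) (hV : ∀ a : A, algebraMap A F a ∈ V) :
    (oe18_center V hV).IsPrime := by
  refine ⟨?_, ?_⟩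
  · intro h
    have h1 : (1 : integralClosure A F) ∈ oe18_center V hV := by rw [h]; trivial
    rw [oe18_mem_center] at h1
    simp at h1
  · intro a b hab
    by_contra hcon
    push Not at hcon
    rw [oe18_not_mem_center, oe18_not_mem_center] at hcon
    rw [oe18_mem_center, MulMemClass.coe_mul, map_mul, hcon.1, hcon.2, one_mul] at hab
    exact lt_irrefl _ hab

end center

section liesover

variable {A F : Type*} [CommRing A] [IsDomain A] [IsDiscreteValuationRing A] [Field F]
  [Algebra A F]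

theorem oe18_val_unif_lt (V : ValuationSubring F) (ϖ : A)
    (hVϖ : (algebraMap A F ϖ)⁻¹ ∉ V) : V.valuation (algebraMap A F ϖ) < 1 := by
  rw [← ValuationSubring.mem_nonunits_iff, ValuationSubring.mem_nonunits_iff_or]
  exact Or.inr hVϖ

theorem oe18_unif_ne_zero (V : ValuationSubring F) (ϖ : A)
    (hVϖ : (algebraMap A F ϖ)⁻¹ ∉ V) : algebraMap A F ϖ ≠ 0 := by
  intro h
  apply hVϖ
  rw [h, inv_zero]
  exact V.zero_mem

/-- `a ∈ 𝔪_A` iff `v(a) < 1`. -/
theorem oe18_val_lt_iff (V : ValuationSubring F) (hV : ∀ a : A, algebraMap A F a ∈ V) (ϖ : A)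
    (hϖ : Irreducible ϖ) (hVϖ : (algebraMap A F ϖ)⁻¹ ∉ V) (a : A) :
    V.valuation (algebraMap A F a) < 1 ↔ a ∈ maximalIdeal A := by
  constructor
  · intro h
    by_contra hcon
    have hu : IsUnit a := by
      by_contra hu
      exact hcon ((IsLocalRing.mem_maximalIdeal a).mpr hu)
    obtain ⟨b, hb⟩ := hu.exists_right_inv
    have h1 : V.valuation (algebraMap A F a) * V.valuation (algebraMap A F b) = 1 := by
      rw [← map_mul, ← map_mul, hb, map_one, map_one]
    have h2 : V.valuation (algebraMap A F b) ≤ 1 := (V.valuation_le_one_iff _).mpr (hV b)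
    have h3 : V.valuation (algebraMap A F a) * V.valuation (algebraMap A F b) < 1 :=
      mul_lt_one_of_lt_of_le h h2
    rw [h1] at h3
    exact lt_irrefl _ h3
  · intro h
    rw [hϖ.maximalIdeal_eq, Ideal.mem_span_singleton] at h
    obtain ⟨c, rfl⟩ := h
    rw [map_mul, map_mul]
    exact mul_lt_one_of_lt_of_le (oe18_val_unif_lt V ϖ hVϖ) ((V.valuation_le_one_iff _).mpr (hV c))

theorem oe18_center_liesOver (V : ValuationSubring F) (hV : ∀ a : A, algebraMap A F a ∈ V)
    (ϖ : A) (hϖ : Irreducible ϖ) (hVϖ : (algebraMap A F ϖ)⁻¹ ∉ V) :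
    (oe18_center V hV).LiesOver (maximalIdeal A) := by
  refine ⟨?_⟩
  ext a
  rw [Ideal.under_def, Ideal.mem_comap, oe18_mem_center]
  exact (oe18_val_lt_iff V hV ϖ hϖ hVϖ a).symm

theorem oe18_center_ne_bot (V : ValuationSubring F) (hV : ∀ a : A, algebraMap A F a ∈ V)
    (ϖ : A) (hVϖ : (algebraMap A F ϖ)⁻¹ ∉ V) :
    oe18_center V hV ≠ ⊥ := by
  intro h
  have h1 : algebraMap A (integralClosure A F) ϖ ∈ oe18_center V hV := by
    rw [oe18_mem_center]
    exact oe18_val_unif_lt V ϖ hVϖ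
  rw [h, Ideal.mem_bot] at h1
  apply oe18_unif_ne_zero V ϖ hVϖ
  have h2 : ((algebraMap A (integralClosure A F) ϖ : integralClosure A F) : F) = 0 := by
    rw [h1]; rfl
  exact h2

variable [IsDedekindDomain (integralClosure A F)] [IsFractionRing (integralClosure A F) F]

/-- `V` is the localisation of the integral closure at its centre. -/
theorem oe18_mem_iff (V : ValuationSubring F) (hV : ∀ a : A, algebraMap A F a ∈ V)
    (ϖ : A) (hVϖ : (algebraMap A F ϖ)⁻¹ ∉ V) (x : F) :
    x ∈ V ↔ ∃ a s : integralClosure A F, s ∉ oe18_center V hV ∧ x * (s : F) = (a : F) := by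
  constructor
  · intro hx
    have hP0 := oe18_center_ne_bot V hV ϖ hVϖ
    rcases oe18_frac_or (oe18_center V hV) hP0 x with ⟨a, s, hs, h⟩ | ⟨a, s, hs, h⟩
    · exact ⟨a, s, hs, h⟩
    · by_cases hx0 : x = 0
      · refine ⟨0, 1, ?_, ?_⟩
        · rw [oe18_not_mem_center]; simp
        · rw [hx0]; simp
      by_cases ha : a ∈ oe18_center V hV
      · exfalso
        rw [oe18_mem_center] at ha
        rw [oe18_not_mem_center] at hs
        have h' : x⁻¹ * (s : F) = (a : F) := h
        have h1 : V.valuation x⁻¹ < 1 := by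
          have := congrArg V.valuation h'
          rw [map_mul, hs, mul_one] at this
          rw [this]; exact ha
        have h2 : V.valuation x ≤ 1 := (V.valuation_le_one_iff _).mpr hx
        have h3 : V.valuation x⁻¹ * V.valuation x < 1 := mul_lt_one_of_lt_of_le h1 h2
        rw [← map_mul, inv_mul_cancel₀ hx0, map_one] at h3
        exact lt_irrefl _ h3
      · refine ⟨s, a, ha, ?_⟩
        have h' : x⁻¹ * (s : F) = (a : F) := h
        rw [← h']
        field_simp
  · rintro ⟨a, s, hs, h⟩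
    rw [oe18_not_mem_center] at hs
    rw [← V.valuation_le_one_iff]
    have := congrArg V.valuation h
    rw [map_mul, hs, mul_one] at this
    rw [this]
    exact (V.valuation_le_one_iff _).mpr (oe18_int_mem V hV _ a.2)

/-- A valuation subring lying over `A` is determined by its centre. -/
theorem oe18_eq_of_center_eq (V₁ V₂ : ValuationSubring F)
    (h₁ : ∀ a : A, algebraMap A F a ∈ V₁) (h₂ : ∀ a : A, algebraMap A F a ∈ V₂)
    (ϖ : A) (h₁ϖ : (algebraMap A F ϖ)⁻¹ ∉ V₁) (h₂ϖ : (algebraMap A F ϖ)⁻¹ ∉ V₂)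
    (h : oe18_center V₁ h₁ = oe18_center V₂ h₂) : V₁ = V₂ := by
  ext x
  rw [oe18_mem_iff V₁ h₁ ϖ h₁ϖ, oe18_mem_iff V₂ h₂ ϖ h₂ϖ, h]

end liesover

section count

variable {A F : Type*} [CommRing A] [IsDomain A] [IsDiscreteValuationRing A] [Field F]
  [Algebra A F] [FaithfulSMul A F]
  [IsDedekindDomain (integralClosure A F)] [IsFractionRing (integralClosure A F) F]
  [Module.Finite A (integralClosure A F)]

/-- The counting argument: two distinct primes over `𝔪_A` with `f₂ ≥ q` in an extension of degree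
`≤ q + 1` are all the primes over `𝔪_A`, and `e₁ = f₁ = e₂ = 1`, `f₂ = q`. -/
theorem oe18_count (q : ℕ) (hq : 0 < q)
    (hdeg : Module.finrank A (integralClosure A F) ≤ q + 1)
    (P₁ P₂ : Ideal (integralClosure A F)) [hP₁ : P₁.IsPrime] [hP₂ : P₂.IsPrime]
    [hL₁ : P₁.LiesOver (maximalIdeal A)] [hL₂ : P₂.LiesOver (maximalIdeal A)] (hne : P₁ ≠ P₂)
    (hf : q ≤ P₂.inertiaDeg A) :
    (∀ Q : Ideal (integralClosure A F), Q.IsPrime → Q.LiesOver (maximalIdeal A) →
      Q = P₁ ∨ Q = P₂) ∧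
    P₁.ramificationIdx A = 1 ∧ P₁.inertiaDeg A = 1 ∧ P₂.ramificationIdx A = 1 ∧
    P₂.inertiaDeg A = q := by
  classical
  let : Fintype ((maximalIdeal A).primesOver (integralClosure A F)) :=
    (Algebra.QuasiFinite.finite_primesOver (maximalIdeal A)).fintype
  have hsum := Ideal.sum_ramification_inertia_eq_finrank (maximalIdeal A) (integralClosure A F)
  set g : (maximalIdeal A).primesOver (integralClosure A F) → ℕ :=
    fun Q => Q.1.ramificationIdx A * Q.1.inertiaDeg A with hg
  have hgpos : ∀ Q, 1 ≤ g Q := by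
    intro Q
    have : Q.1.IsPrime := Q.2.1
    exact Nat.mul_pos (Ideal.ramificationIdx_pos Q.1 A) (Ideal.inertiaDeg_pos Q.1 A)
  let Q₁ : (maximalIdeal A).primesOver (integralClosure A F) := ⟨P₁, hP₁, hL₁⟩
  let Q₂ : (maximalIdeal A).primesOver (integralClosure A F) := ⟨P₂, hP₂, hL₂⟩
  have hQne : Q₁ ≠ Q₂ := fun h => hne (congrArg Subtype.val h)
  have he₁ : 1 ≤ P₁.ramificationIdx A := Ideal.ramificationIdx_pos P₁ A
  have hf₁ : 1 ≤ P₁.inertiaDeg A := Ideal.inertiaDeg_pos P₁ A
  have he₂ : 1 ≤ P₂.ramificationIdx A := Ideal.ramificationIdx_pos P₂ A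
  have hg₂ : q ≤ g Q₂ := by
    show q ≤ P₂.ramificationIdx A * P₂.inertiaDeg A
    calc q ≤ P₂.inertiaDeg A := hf
      _ = 1 * P₂.inertiaDeg A := (one_mul _).symm
      _ ≤ P₂.ramificationIdx A * P₂.inertiaDeg A := Nat.mul_le_mul_right _ he₂
  have hpair : g Q₁ + g Q₂ ≤ q + 1 := by
    have h3 : ∑ x ∈ ({Q₁, Q₂} : Finset _), g x ≤ ∑ x, g x :=
      Finset.sum_le_univ_sum_of_nonneg (fun _ => Nat.zero_le _)
    rw [Finset.sum_pair hQne] at h3
    exact h3.trans (hsum.le.trans hdeg)
  refine ⟨?_, ?_⟩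
  · intro Q hQ hQL
    by_contra hcon
    push Not at hcon
    let Q₃ : (maximalIdeal A).primesOver (integralClosure A F) := ⟨Q, hQ, hQL⟩
    have h31 : Q₃ ≠ Q₁ := fun h => hcon.1 (congrArg Subtype.val h)
    have h32 : Q₃ ≠ Q₂ := fun h => hcon.2 (congrArg Subtype.val h)
    have h3 : ∑ x ∈ ({Q₃, Q₁, Q₂} : Finset _), g x ≤ ∑ x, g x :=
      Finset.sum_le_univ_sum_of_nonneg (fun _ => Nat.zero_le _)
    rw [Finset.sum_insert (by simp [h31, h32]), Finset.sum_pair hQne] at h3
    have h4 := h3.trans (hsum.le.trans hdeg)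
    have h5 := hgpos Q₃
    have h6 := hgpos Q₁
    omega
  · have h6 := hgpos Q₁
    have h7 : g Q₁ = 1 := by omega
    have h8 : g Q₂ = q := by omega
    have h7' : P₁.ramificationIdx A * P₁.inertiaDeg A = 1 := h7
    have h8' : P₂.ramificationIdx A * P₂.inertiaDeg A = q := h8
    have h9 : P₁.ramificationIdx A = 1 ∧ P₁.inertiaDeg A = 1 := by
      rcases Nat.eq_one_of_mul_eq_one_right h7' with h
      rw [h, one_mul] at h7'
      exact ⟨h, h7'⟩
    refine ⟨h9.1, h9.2, ?_⟩
    have h10 : P₂.ramificationIdx A = 1 := by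
      by_contra h
      have h11 : 2 ≤ P₂.ramificationIdx A := by omega
      have h12 : 2 * q ≤ P₂.ramificationIdx A * P₂.inertiaDeg A := Nat.mul_le_mul h11 hf
      omega
    refine ⟨h10, ?_⟩
    rw [h10, one_mul] at h8'
    exact h8'

end count

section consequences

variable {A F : Type*} [CommRing A] [IsDomain A] [IsDiscreteValuationRing A] [Field F]
  [Algebra A F] [FaithfulSMul A F]
  [IsDedekindDomain (integralClosure A F)] [IsFractionRing (integralClosure A F) F]
  [Module.Finite A (integralClosure A F)]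

open Polynomial in
/-- A Kummer witness `y ^ q ≡ a`, `a` not a `q`-th power modulo `𝔪_A`, forces `f ≥ q`. -/
theorem oe18_inertia_ge (V : ValuationSubring F) (hV : ∀ a : A, algebraMap A F a ∈ V)
    (ϖ : A) (hϖ : Irreducible ϖ) (hVϖ : (algebraMap A F ϖ)⁻¹ ∉ V)
    (q : ℕ) (hq : q.Prime) (y : F) (hy : y ∈ V) (a : A)
    (hya : V.valuation (y ^ q - algebraMap A F a) < 1)
    (hnot : ∀ b : A, b ^ q - a ∉ maximalIdeal A) :
    q ≤ (oe18_center V hV).inertiaDeg A := by
  have hL := oe18_center_liesOver V hV ϖ hϖ hVϖ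
  have hM : (oe18_center V hV).IsMaximal :=
    Ideal.IsMaximal.of_liesOver_isMaximal (oe18_center V hV) (maximalIdeal A)
  rw [Ideal.inertiaDeg_eq_of_isMaximal (maximalIdeal A) (oe18_center V hV)]
  obtain ⟨a₁, s₁, hs₁, hys⟩ := (oe18_mem_iff V hV ϖ hVϖ y).mp hy
  set P := oe18_center V hV with hP
  let : Field (A ⧸ maximalIdeal A) := Ideal.Quotient.field _
  let : Field (integralClosure A F ⧸ P) := Ideal.Quotient.field _
  have hs₁' : Ideal.Quotient.mk P s₁ ≠ 0 := by
    rw [Ne, Ideal.Quotient.eq_zero_iff_mem]; exact hs₁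
  set ybar : integralClosure A F ⧸ P := Ideal.Quotient.mk P a₁ * (Ideal.Quotient.mk P s₁)⁻¹
    with hybar
  have hmem : a₁ ^ q - algebraMap A (integralClosure A F) a * s₁ ^ q ∈ P := by
    rw [hP, oe18_mem_center]
    have h1 : ((a₁ ^ q - algebraMap A (integralClosure A F) a * s₁ ^ q : integralClosure A F) : F)
        = (y ^ q - algebraMap A F a) * (s₁ : F) ^ q := by
      have h2 : ((a₁ ^ q - algebraMap A (integralClosure A F) a * s₁ ^ q :
          integralClosure A F) : F) = (a₁ : F) ^ q - algebraMap A F a * (s₁ : F) ^ q := rfl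
      rw [h2, ← hys]; ring
    rw [h1, map_mul, map_pow]
    have h3 : V.valuation (s₁ : F) = 1 := (oe18_not_mem_center V hV s₁).mp hs₁
    rw [h3, one_pow, mul_one]
    exact hya
  have hpow : ybar ^ q = algebraMap (A ⧸ maximalIdeal A) (integralClosure A F ⧸ P)
      (Ideal.Quotient.mk (maximalIdeal A) a) := by
    rw [Ideal.Quotient.algebraMap_mk_of_liesOver, hybar, mul_pow, inv_pow]
    have h4 : Ideal.Quotient.mk P a₁ ^ q =
        Ideal.Quotient.mk P (algebraMap A (integralClosure A F) a) * Ideal.Quotient.mk P s₁ ^ q := by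
      rw [← map_pow, ← map_pow, ← map_mul]
      exact Ideal.Quotient.eq.mpr hmem
    rw [h4, mul_assoc, mul_inv_cancel₀ (pow_ne_zero _ hs₁'), mul_one]
  have hirr : Irreducible (X ^ q - C (Ideal.Quotient.mk (maximalIdeal A) a) :
      (A ⧸ maximalIdeal A)[X]) := by
    apply X_pow_sub_C_irreducible_of_prime hq
    intro b
    obtain ⟨b, rfl⟩ := Ideal.Quotient.mk_surjective b
    intro h
    apply hnot b
    rw [← map_pow] at h
    exact Ideal.Quotient.eq.mp h
  have hmin : (X ^ q - C (Ideal.Quotient.mk (maximalIdeal A) a) : (A ⧸ maximalIdeal A)[X])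
      = minpoly (A ⧸ maximalIdeal A) ybar := by
    refine minpoly.eq_of_irreducible_of_monic hirr ?_ (monic_X_pow_sub_C _ hq.ne_zero)
    rw [map_sub, map_pow, aeval_X, aeval_C, hpow, sub_self]
  calc q = (X ^ q - C (Ideal.Quotient.mk (maximalIdeal A) a) :
        (A ⧸ maximalIdeal A)[X]).natDegree := natDegree_X_pow_sub_C.symm
    _ = (minpoly (A ⧸ maximalIdeal A) ybar).natDegree := by rw [hmin]
    _ ≤ _ := minpoly.natDegree_le ybar

/-- `f = 1`: every element of `V` is congruent to an element of `A` modulo the maximal ideal. -/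
theorem oe18_res_of_inertia (V : ValuationSubring F) (hV : ∀ a : A, algebraMap A F a ∈ V)
    (ϖ : A) (hϖ : Irreducible ϖ) (hVϖ : (algebraMap A F ϖ)⁻¹ ∉ V)
    (hf : (oe18_center V hV).inertiaDeg A = 1) (x : F) (hx : x ∈ V) :
    ∃ b : A, V.valuation (x - algebraMap A F b) < 1 := by
  have hL := oe18_center_liesOver V hV ϖ hϖ hVϖ
  have hM : (oe18_center V hV).IsMaximal :=
    Ideal.IsMaximal.of_liesOver_isMaximal (oe18_center V hV) (maximalIdeal A)
  rw [Ideal.inertiaDeg_eq_of_isMaximal (maximalIdeal A) (oe18_center V hV)] at hf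
  obtain ⟨a₁, s₁, hs₁, hxs⟩ := (oe18_mem_iff V hV ϖ hVϖ x).mp hx
  set P := oe18_center V hV with hP
  let : Field (A ⧸ maximalIdeal A) := Ideal.Quotient.field _
  let : Field (integralClosure A F ⧸ P) := Ideal.Quotient.field _
  have hs₁' : Ideal.Quotient.mk P s₁ ≠ 0 := by
    rw [Ne, Ideal.Quotient.eq_zero_iff_mem]; exact hs₁
  have htop := Subalgebra.bot_eq_top_of_finrank_eq_one hf
  have hmem : Ideal.Quotient.mk P a₁ * (Ideal.Quotient.mk P s₁)⁻¹ ∈
      (⊥ : Subalgebra (A ⧸ maximalIdeal A) (integralClosure A F ⧸ P)) := by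
    rw [htop]; trivial
  obtain ⟨b, hb⟩ := Algebra.mem_bot.mp hmem
  obtain ⟨b, rfl⟩ := Ideal.Quotient.mk_surjective b
  refine ⟨b, ?_⟩
  rw [Ideal.Quotient.algebraMap_mk_of_liesOver] at hb
  have h1 : Ideal.Quotient.mk P a₁ =
      Ideal.Quotient.mk P (algebraMap A (integralClosure A F) b * s₁) := by
    rw [map_mul, hb, mul_assoc, inv_mul_cancel₀ hs₁', mul_one]
  have h2 : a₁ - algebraMap A (integralClosure A F) b * s₁ ∈ P := Ideal.Quotient.eq.mp h1
  rw [hP, oe18_mem_center] at h2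
  have h3 : ((a₁ - algebraMap A (integralClosure A F) b * s₁ : integralClosure A F) : F)
      = (x - algebraMap A F b) * (s₁ : F) := by
    have h4 : ((a₁ - algebraMap A (integralClosure A F) b * s₁ : integralClosure A F) : F)
        = (a₁ : F) - algebraMap A F b * (s₁ : F) := rfl
    rw [h4, ← hxs]; ring
  rw [h3, map_mul, (oe18_not_mem_center V hV s₁).mp hs₁, mul_one] at h2
  exact h2

/-- If every prime over `𝔪_A` is the centre of `V₁` or of `V₂`, then `V₁ ⊓ V₂` is integral
over `A`. -/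
theorem oe18_integral_of_mem (V₁ V₂ : ValuationSubring F)
    (h₁ : ∀ a : A, algebraMap A F a ∈ V₁) (h₂ : ∀ a : A, algebraMap A F a ∈ V₂)
    (ϖ : A) (h₁ϖ : (algebraMap A F ϖ)⁻¹ ∉ V₁) (h₂ϖ : (algebraMap A F ϖ)⁻¹ ∉ V₂)
    (hall : ∀ Q : Ideal (integralClosure A F), Q.IsPrime → Q.LiesOver (maximalIdeal A) →
      Q = oe18_center V₁ h₁ ∨ Q = oe18_center V₂ h₂)
    (x : F) (hx₁ : x ∈ V₁) (hx₂ : x ∈ V₂) : IsIntegral A x := by
  let I : Ideal (integralClosure A F) :=
    { carrier := {s | ∃ a : integralClosure A F, x * (s : F) = (a : F)}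
      add_mem' := by
        rintro s t ⟨a, ha⟩ ⟨b, hb⟩
        refine ⟨a + b, ?_⟩
        show x * ((s : F) + (t : F)) = (a : F) + (b : F)
        rw [mul_add, ha, hb]
      zero_mem' := ⟨0, by simp⟩
      smul_mem' := by
        rintro c s ⟨a, ha⟩
        refine ⟨c * a, ?_⟩
        show x * ((c : F) * (s : F)) = (c : F) * (a : F)
        rw [← ha]; ring }
  have hI : I = ⊤ := by
    by_contra hne
    obtain ⟨M, hM, hIM⟩ := Ideal.exists_le_maximal I hne
    have hMu : (M.comap (algebraMap A (integralClosure A F))).IsMaximal :=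
      Ideal.isMaximal_comap_of_isIntegral_of_isMaximal M
    have hML : M.LiesOver (maximalIdeal A) := ⟨(IsLocalRing.eq_maximalIdeal hMu).symm⟩
    rcases hall M hM.isPrime hML with h | h
    · obtain ⟨a, s, hs, hxs⟩ := (oe18_mem_iff V₁ h₁ ϖ h₁ϖ x).mp hx₁
      apply hs
      rw [← h]
      exact hIM ⟨a, hxs⟩
    · obtain ⟨a, s, hs, hxs⟩ := (oe18_mem_iff V₂ h₂ ϖ h₂ϖ x).mp hx₂
      apply hs
      rw [← h]
      exact hIM ⟨a, hxs⟩
  have h1 : (1 : integralClosure A F) ∈ I := by rw [hI]; trivial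
  obtain ⟨a, ha⟩ := h1
  have h2 : x = (a : F) := by
    rw [← ha]; simp
  rw [h2]
  exact a.2

/-- `e = 1`: the uniformizer of `A` generates the maximal ideal of `V`. -/
theorem oe18_hmax_of_ram (V : ValuationSubring F) (hV : ∀ a : A, algebraMap A F a ∈ V)
    (ϖ : A) (hϖ : Irreducible ϖ) (hVϖ : (algebraMap A F ϖ)⁻¹ ∉ V)
    (he : (oe18_center V hV).ramificationIdx A = 1) (x : F) (hx : V.valuation x < 1) :
    (algebraMap A F ϖ)⁻¹ * x ∈ V := by
  have hL := oe18_center_liesOver V hV ϖ hϖ hVϖ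
  have hxV : x ∈ V := (V.valuation_le_one_iff x).mp hx.le
  obtain ⟨a, s, hs, hxs⟩ := (oe18_mem_iff V hV ϖ hVϖ x).mp hxV
  have ha : a ∈ oe18_center V hV := by
    rw [oe18_mem_center, ← hxs, map_mul, (oe18_not_mem_center V hV s).mp hs, mul_one]
    exact hx
  set P := oe18_center V hV with hP
  rw [Ideal.ramificationIdx_eq (maximalIdeal A) P, ENat.toNat_eq_iff_eq_natCast, Nat.cast_one,
    Module.length_eq_one_iff, isSimpleModule_iff_isCoatom, ← Ideal.isMaximal_def,
    IsLocalRing.isMaximal_iff] at he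
  have h1 : algebraMap (integralClosure A F) (Localization.AtPrime P) a ∈
      maximalIdeal (Localization.AtPrime P) :=
    (IsLocalization.AtPrime.to_map_mem_maximal_iff (Localization.AtPrime P) P a).mpr ha
  rw [← he, hϖ.maximalIdeal_eq, Ideal.map_span, Set.image_singleton,
    Ideal.mem_span_singleton'] at h1
  obtain ⟨c, hc⟩ := h1
  obtain ⟨b, t, rfl⟩ := IsLocalization.exists_mk'_eq P.primeCompl c
  have h2 : algebraMap (integralClosure A F) (Localization.AtPrime P) (a * t) =
      algebraMap (integralClosure A F) (Localization.AtPrime P)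
        (b * algebraMap A (integralClosure A F) ϖ) := by
    rw [map_mul, map_mul, ← hc, ← IsScalarTower.algebraMap_apply A (integralClosure A F)
      (Localization.AtPrime P), mul_assoc, mul_comm _ (algebraMap (integralClosure A F) _ ↑t),
      ← mul_assoc, IsLocalization.mk'_spec]
  have h3 : a * t = b * algebraMap A (integralClosure A F) ϖ :=
    IsLocalization.injective (Localization.AtPrime P) P.primeCompl_le_nonZeroDivisors h2
  have h4 : (a : F) * ((t : integralClosure A F) : F) = (b : F) * algebraMap A F ϖ :=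
    congrArg (fun z : integralClosure A F => (z : F)) h3
  have hϖ0 := oe18_unif_ne_zero V ϖ hVϖ
  rw [oe18_mem_iff V hV ϖ hVϖ]
  refine ⟨b, s * t, ?_, ?_⟩
  · exact fun h => (Ideal.IsPrime.mem_or_mem inferInstance h).elim hs t.2
  · show (algebraMap A F ϖ)⁻¹ * x * ((s : F) * ((t : integralClosure A F) : F)) = (b : F)
    have h5 : (algebraMap A F ϖ)⁻¹ * x * ((s : F) * ((t : integralClosure A F) : F))
        = (algebraMap A F ϖ)⁻¹ * ((x * (s : F)) * ((t : integralClosure A F) : F)) := by ring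
    rw [h5, hxs, h4]
    field_simp

end consequences

section core

variable {A F : Type*} [CommRing A] [IsDomain A] [IsDiscreteValuationRing A] [Field F]
  [Algebra A F]

/-- **Core statement** for a discrete valuation ring `A` with fraction field `F'` and a finite
separable extension `F / F'` of degree `≤ q + 1`: two distinct valuation subrings `V₁`, `V₂` of
`F` lying over `A`, the second with a Kummer witness for `f ≥ q`, are all the valuation subrings
lying over `A`; `V₁ ⊓ V₂` is integral over `A`; both are unramified; `V₁` has residue degree one. -/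
theorem oe18_core (F' : Type*) [Field F'] [Algebra A F'] [IsFractionRing A F'] [Algebra F' F]
    [IsScalarTower A F' F] [FiniteDimensional F' F] [Algebra.IsSeparable F' F]
    (V₁ V₂ : ValuationSubring F)
    (h₁ : ∀ a : A, algebraMap A F a ∈ V₁) (h₂ : ∀ a : A, algebraMap A F a ∈ V₂)
    (ϖ : A) (hϖ : Irreducible ϖ)
    (h₁ϖ : (algebraMap A F ϖ)⁻¹ ∉ V₁) (h₂ϖ : (algebraMap A F ϖ)⁻¹ ∉ V₂)
    (hne : V₁ ≠ V₂) (q : ℕ) (hq : q.Prime) (hdeg : Module.finrank F' F ≤ q + 1)
    (y : F) (hy : y ∈ V₂) (a : A)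
    (hya : V₂.valuation (y ^ q - algebraMap A F a) < 1)
    (hnot : ∀ b : A, b ^ q - a ∉ maximalIdeal A) :
    (∀ V : ValuationSubring F, (∀ a : A, algebraMap A F a ∈ V) → (algebraMap A F ϖ)⁻¹ ∉ V →
      V = V₁ ∨ V = V₂) ∧
    (∀ x : F, x ∈ V₁ → x ∈ V₂ → IsIntegral A x) ∧
    (∀ x : F, V₁.valuation x < 1 → (algebraMap A F ϖ)⁻¹ * x ∈ V₁) ∧
    (∀ x : F, V₂.valuation x < 1 → (algebraMap A F ϖ)⁻¹ * x ∈ V₂) ∧
    (∀ x ∈ V₁, ∃ b : A, V₁.valuation (x - algebraMap A F b) < 1) := by
  have hinj : Function.Injective (algebraMap A F) := by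
    rw [IsScalarTower.algebraMap_eq A F' F]
    exact (algebraMap F' F).injective.comp (IsFractionRing.injective A F')
  have : FaithfulSMul A F := (faithfulSMul_iff_algebraMap_injective A F).mpr hinj
  have : IsDedekindDomain (integralClosure A F) := integralClosure.isDedekindDomain A F' F
  have : IsFractionRing (integralClosure A F) F :=
    integralClosure.isFractionRing_of_finite_extension F' F
  have : Module.Finite A (integralClosure A F) := IsIntegralClosure.finite A F' F _
  have hdeg' : Module.finrank A (integralClosure A F) ≤ q + 1 := by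
    rw [← IsFractionRing.finrank_eq A F' (integralClosure A F) F]; exact hdeg
  have hL₁ := oe18_center_liesOver V₁ h₁ ϖ hϖ h₁ϖ
  have hL₂ := oe18_center_liesOver V₂ h₂ ϖ hϖ h₂ϖ
  have hPne : oe18_center V₁ h₁ ≠ oe18_center V₂ h₂ := fun h =>
    hne (oe18_eq_of_center_eq V₁ V₂ h₁ h₂ ϖ h₁ϖ h₂ϖ h)
  have hf := oe18_inertia_ge V₂ h₂ ϖ hϖ h₂ϖ q hq y hy a hya hnot
  obtain ⟨hall, he₁, hf₁, he₂, -⟩ :=
    oe18_count q hq.pos hdeg' (oe18_center V₁ h₁) (oe18_center V₂ h₂) hPne hf
  refine ⟨?_, ?_, ?_, ?_, ?_⟩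
  · intro V hV hVϖ
    rcases hall (oe18_center V hV) inferInstance (oe18_center_liesOver V hV ϖ hϖ hVϖ) with h | h
    · exact Or.inl (oe18_eq_of_center_eq V V₁ hV h₁ ϖ hVϖ h₁ϖ h)
    · exact Or.inr (oe18_eq_of_center_eq V V₂ hV h₂ ϖ hVϖ h₂ϖ h)
  · exact fun x hx₁ hx₂ => oe18_integral_of_mem V₁ V₂ h₁ h₂ ϖ h₁ϖ h₂ϖ hall x hx₁ hx₂
  · exact fun x hx => oe18_hmax_of_ram V₁ h₁ ϖ hϖ h₁ϖ he₁ x hx
  · exact fun x hx => oe18_hmax_of_ram V₂ h₂ ϖ hϖ h₂ϖ he₂ x hx
  · exact fun x hx => oe18_res_of_inertia V₁ h₁ ϖ hϖ h₁ϖ hf₁ x hx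

end core

section wrapper

variable {F' : Type*} [Field F']

/-- A valuation subring in the elementary "S18 shape" (`π ∈ V'`, `π⁻¹ ∉ V'`, `𝔪 = π V'`, and
no nonzero element is divisible by all powers of `π`) is a discrete valuation ring with
uniformizer `π`. -/
theorem oe18_isDVR (V' : ValuationSubring F') (π : F') (hπV : π ∈ V') (hπinv : π⁻¹ ∉ V')
    (hmax : ∀ x ∈ V', x⁻¹ ∉ V' → π⁻¹ * x ∈ V')
    (harch : ∀ x : F', x ≠ 0 → ∃ n : ℕ, (π ^ n)⁻¹ * x ∉ V') :
    IsDiscreteValuationRing V' ∧ Irreducible (⟨π, hπV⟩ : V') := by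
  classical
  have hπ0 : π ≠ 0 := by
    intro h
    apply hπinv
    rw [h, inv_zero]; exact V'.zero_mem
  have hunit : ∀ z : V', (z : F') ≠ 0 → (z : F')⁻¹ ∈ V' → IsUnit z := by
    intro z hz0 hz
    refine IsUnit.of_mul_eq_one ⟨(z : F')⁻¹, hz⟩ ?_
    apply Subtype.ext
    show (z : F') * (z : F')⁻¹ = 1
    exact mul_inv_cancel₀ hz0
  have hirr : Irreducible (⟨π, hπV⟩ : V') := by
    refine ⟨?_, ?_⟩
    · intro hu
      obtain ⟨b, hb⟩ := hu.exists_right_inv
      apply hπinv
      have h1 : π * (b : F') = 1 := congrArg (fun z : V' => (z : F')) hb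
      rw [← eq_inv_of_mul_eq_one_right h1]
      exact b.2
    · intro a b hab
      have hab' : π = (a : F') * (b : F') := congrArg (fun z : V' => (z : F')) hab
      have ha0 : (a : F') ≠ 0 := fun h => hπ0 (by rw [hab', h, zero_mul])
      have hb0 : (b : F') ≠ 0 := fun h => hπ0 (by rw [hab', h, mul_zero])
      by_cases ha : (a : F')⁻¹ ∈ V'
      · exact Or.inl (hunit a ha0 ha)
      · right
        apply hunit b hb0
        have h2 := hmax a a.2 ha
        have h3 : π⁻¹ * (a : F') = (b : F')⁻¹ := by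
          rw [hab']; field_simp
        rw [← h3]; exact h2
  refine ⟨?_, hirr⟩
  apply IsDiscreteValuationRing.ofHasUnitMulPowIrreducibleFactorization
  refine ⟨⟨π, hπV⟩, hirr, ?_⟩
  intro x hx
  have hx0 : (x : F') ≠ 0 := fun h => hx (Subtype.ext h)
  have hex := harch x hx0
  have hn := Nat.find_spec hex
  have hn0 : Nat.find hex ≠ 0 := by
    intro h0
    rw [h0, pow_zero, inv_one, one_mul] at hn
    exact hn x.2
  obtain ⟨k, hk⟩ := Nat.exists_eq_succ_of_ne_zero hn0
  have hkmem : (π ^ k)⁻¹ * (x : F') ∈ V' := by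
    have := Nat.find_min hex (m := k) (by omega)
    exact not_not.mp this
  have hknot : π⁻¹ * ((π ^ k)⁻¹ * (x : F')) ∉ V' := by
    have h4 : π⁻¹ * ((π ^ k)⁻¹ * (x : F')) = (π ^ (Nat.find hex))⁻¹ * (x : F') := by
      rw [hk, pow_succ]; field_simp
    rw [h4]; exact hn
  have hinv : ((π ^ k)⁻¹ * (x : F'))⁻¹ ∈ V' := by
    by_contra h
    exact hknot (hmax _ hkmem h)
  have hz0 : (π ^ k)⁻¹ * (x : F') ≠ 0 := mul_ne_zero (inv_ne_zero (pow_ne_zero _ hπ0)) hx0
  have hu := hunit ⟨(π ^ k)⁻¹ * (x : F'), hkmem⟩ hz0 hinv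
  refine ⟨k, ?_⟩
  obtain ⟨u, hu'⟩ := hu
  refine ⟨u, ?_⟩
  rw [hu']
  apply Subtype.ext
  show π ^ k * ((π ^ k)⁻¹ * (x : F')) = (x : F')
  field_simp

variable {F : Type*} [Field F] [Algebra F' F] [FiniteDimensional F' F] [Algebra.IsSeparable F' F]

/-- **The two extensions are the only ones** (elementary shape).

`V'` is a discrete valuation subring of `F'` with uniformizer `π`, `F / F'` is finite separable
of degree `≤ q + 1`, `V₁ ≠ V₂` are valuation subrings of `F` containing the image of `V'` and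
not containing `π⁻¹`, and `y ∈ V₂`, `a ∈ V'` are such that `y ^ q ≡ a` modulo `π V₂` while `a` is
not a `q`-th power modulo `π V'`.  Then:

1. every valuation subring of `F` containing `V'` and not containing `π⁻¹` is `V₁` or `V₂`;
2. every element of `V₁ ⊓ V₂` is integral over `V'`;
3. `𝔪_{V₁} = π V₁` and `𝔪_{V₂} = π V₂`;
4. the residue field of `V₁` is the residue field of `V'`. -/
theorem oe18_main (V' : ValuationSubring F') (π : F') (hπV : π ∈ V') (hπinv : π⁻¹ ∉ V')
    (hmax : ∀ x ∈ V', x⁻¹ ∉ V' → π⁻¹ * x ∈ V')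
    (harch : ∀ x : F', x ≠ 0 → ∃ n : ℕ, (π ^ n)⁻¹ * x ∉ V')
    (V₁ V₂ : ValuationSubring F)
    (h₁ : ∀ a ∈ V', algebraMap F' F a ∈ V₁) (h₁π : (algebraMap F' F π)⁻¹ ∉ V₁)
    (h₂ : ∀ a ∈ V', algebraMap F' F a ∈ V₂) (h₂π : (algebraMap F' F π)⁻¹ ∉ V₂)
    (hne : V₁ ≠ V₂) (q : ℕ) (hq : q.Prime) (hdeg : Module.finrank F' F ≤ q + 1)
    (y : F) (hy : y ∈ V₂) (a : F') (ha : a ∈ V')
    (hya : (algebraMap F' F π)⁻¹ * (y ^ q - algebraMap F' F a) ∈ V₂)
    (hnot : ∀ b ∈ V', π⁻¹ * (b ^ q - a) ∉ V') :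
    (∀ V : ValuationSubring F, (∀ a ∈ V', algebraMap F' F a ∈ V) →
      (algebraMap F' F π)⁻¹ ∉ V → V = V₁ ∨ V = V₂) ∧
    (∀ x : F, x ∈ V₁ → x ∈ V₂ → IsIntegral V' x) ∧
    (∀ x ∈ V₁, x⁻¹ ∉ V₁ → (algebraMap F' F π)⁻¹ * x ∈ V₁) ∧
    (∀ x ∈ V₂, x⁻¹ ∉ V₂ → (algebraMap F' F π)⁻¹ * x ∈ V₂) ∧
    (∀ x ∈ V₁, ∃ b ∈ V', (algebraMap F' F π)⁻¹ * (x - algebraMap F' F b) ∈ V₁) := by
  obtain ⟨hDVR, hirr⟩ := oe18_isDVR V' π hπV hπinv hmax harch
  have hπ0 : π ≠ 0 := by
    intro h
    apply hπinv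
    rw [h, inv_zero]; exact V'.zero_mem
  have hπF0 : algebraMap F' F π ≠ 0 := fun h => hπ0 ((algebraMap F' F).injective (by rw [h, map_zero]))
  have hlt : ∀ (V : ValuationSubring F) (z : F), (algebraMap F' F π)⁻¹ ∉ V →
      (algebraMap F' F π)⁻¹ * z ∈ V → V.valuation z < 1 := by
    intro V z hV hz
    have h1 : V.valuation (algebraMap F' F π) < 1 := by
      rw [← ValuationSubring.mem_nonunits_iff, ValuationSubring.mem_nonunits_iff_or]
      exact Or.inr hV
    have h2 : z = algebraMap F' F π * ((algebraMap F' F π)⁻¹ * z) := by field_simp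
    rw [h2, map_mul]
    exact mul_lt_one_of_lt_of_le h1 ((V.valuation_le_one_iff _).mpr hz)
  have hlt' : ∀ (V : ValuationSubring F) (x : F), x ∈ V → x⁻¹ ∉ V → V.valuation x < 1 := by
    intro V x _ hx
    rw [← ValuationSubring.mem_nonunits_iff, ValuationSubring.mem_nonunits_iff_or]
    exact Or.inr hx
  have hnot' : ∀ b : V', b ^ q - ⟨a, ha⟩ ∉ maximalIdeal V' := by
    intro b hb
    rw [hirr.maximalIdeal_eq, Ideal.mem_span_singleton] at hb
    obtain ⟨c, hc⟩ := hb
    apply hnot b b.2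
    have h1 : (b : F') ^ q - a = π * (c : F') := congrArg (fun z : V' => (z : F')) hc
    rw [h1, ← mul_assoc, inv_mul_cancel₀ hπ0, one_mul]
    exact c.2
  obtain ⟨c1, c2, c3, c4, c5⟩ := oe18_core (A := V') F' V₁ V₂ (fun a => h₁ a a.2)
    (fun a => h₂ a a.2) ⟨π, hπV⟩ hirr h₁π h₂π hne q hq hdeg y hy ⟨a, ha⟩
    (hlt V₂ _ h₂π hya) hnot'
  refine ⟨?_, c2, ?_, ?_, ?_⟩
  · intro V hV hVπ
    exact c1 V (fun a => hV a a.2) hVπ
  · intro x hx hx'
    exact c3 x (hlt' V₁ x hx hx')
  · intro x hx hx'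
    exact c4 x (hlt' V₂ x hx hx')
  · intro x hx
    obtain ⟨b, hb⟩ := c5 x hx
    exact ⟨b, b.2, c3 _ hb⟩

end wrapper

end Fermat.Agent.S34
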