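import Mathlib
import Fermat.Agent.S34.OnlyExt18
import Fermat.Agent.S34.ChartM15b
import Fermat.Agent.S34.WAbs5

/-!
# S34 lab (helper18): `cm15_WInt` for `W = V_∞ ⊓ V_0` from `oe18_main` (instance adapter)

* `wi18_unit_mul_pow`, `wi18_arch`, `wi18_arch'` : the Gauss valuation ring `cm85_Vinf M` of
  `F(M)_K` is discrete: every nonzero element is a power of `π` times a unit (any level `M`).
* `wi18_main` : the conclusions of `oe18_main` for `F(M')_K ⊆ F(M)_K`, `V' = cm85_Vinf M'`,
  `V₁ = cm85_Vinf M` and any second valuation subring `V₀` of `F(M)_K` over `V'` with a Kummer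
  witness.
* `wi18_WInt` : in particular `cm15_WInt R K M' M hdvd hπ (wa5_W (cm85_Vinf M hπ) V₀)`, the input
  of `cm15_sat_level2/3` (saturation of the charts of level `M` in `W`).

All names are prefixed `wi18_`.
-/

set_option autoImplicit false
set_option linter.unusedSectionVars false

open ModularCurve IntermediateField Polynomial

namespace Fermat.Agent.S34

open Fermat.Agent.S18

section arch

variable {R K : Type} [CommRing R] [IsDomain R] [IsDiscreteValuationRing R] [Field K]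
  [Algebra R K] [IsFractionRing R K] (M : ℕ) [NeZero M]
  [Algebra R ↥(modularFunctionFieldFullC K M)]
  [IsScalarTower R K ↥(modularFunctionFieldFullC K M)]

/-- Every nonzero element of `F(M)_K` is a power of `π` times a unit of the Gauss valuation
ring. -/
theorem wi18_unit_mul_pow {π : R} (hπ : Irreducible π) (x : ↥(modularFunctionFieldFullC K M))
    (hx : x ≠ 0) :
    ∃ (i j : ℕ) (u : ↥(modularFunctionFieldFullC K M)),
      u ∈ cm85_Vinf (K := K) M hπ ∧ u⁻¹ ∈ cm85_Vinf (K := K) M hπ ∧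
      algebraMap R ↥(modularFunctionFieldFullC K M) π ^ j * x =
        algebraMap R ↥(modularFunctionFieldFullC K M) π ^ i * u := by
  obtain ⟨a, b, c, hc, ha, hb, hab⟩ := pk85_HF K M hπ x hx
  have hxL : (x : LaurentSeries K) ≠ 0 := fun h => hx (Subtype.ext h)
  have hC0 : (HahnSeries.C c : LaurentSeries K) ≠ 0 := HahnSeries.C_ne_zero hc
  -- `w = c⁻¹ x` is a unit of `V`
  set w : ↥(modularFunctionFieldFullC K M) :=
    (algebraMap K ↥(modularFunctionFieldFullC K M) c)⁻¹ * x with hw
  have hwcoe : (w : LaurentSeries K) = (HahnSeries.C c)⁻¹ * (x : LaurentSeries K) :=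
    gv85_coe_inv_mul _ c x
  have hwV : w ∈ cm85_Vinf (K := K) M hπ := by
    refine ⟨b, a, hb, ?_⟩
    rw [hwcoe, mul_left_comm, mul_comm (coeffMap (algebraMap R K) b), hab, ← mul_assoc,
      inv_mul_cancel₀ hC0, one_mul]
  have hwV' : w⁻¹ ∈ cm85_Vinf (K := K) M hπ := by
    refine ⟨a, b, ha, ?_⟩
    have h1 : ((w⁻¹ : ↥(modularFunctionFieldFullC K M)) : LaurentSeries K) =
        (w : LaurentSeries K)⁻¹ := rfl
    rw [h1, hwcoe]
    have h2 : coeffMap (algebraMap R K) a =
        (HahnSeries.C c)⁻¹ * ((x : LaurentSeries K) * coeffMap (algebraMap R K) b) := by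
      rw [hab, ← mul_assoc, inv_mul_cancel₀ hC0, one_mul]
    rw [h2]
    field_simp
  -- decompose the constant
  obtain ⟨r₁, r₂, hr₂, hr⟩ := IsFractionRing.div_surjective (A := R) c
  have hr₂0 : r₂ ≠ 0 := nonZeroDivisors.ne_zero hr₂
  have hr₁0 : r₁ ≠ 0 := by
    rintro rfl
    rw [map_zero, zero_div] at hr
    exact hc hr.symm
  obtain ⟨i, u₁, hu₁⟩ := IsDiscreteValuationRing.eq_unit_mul_pow_irreducible hr₁0 hπ
  obtain ⟨j, u₂, hu₂⟩ := IsDiscreteValuationRing.eq_unit_mul_pow_irreducible hr₂0 hπ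
  have hconv : ∀ r : R, algebraMap R ↥(modularFunctionFieldFullC K M) r =
      algebraMap K ↥(modularFunctionFieldFullC K M) (algebraMap R K r) :=
    fun r => IsScalarTower.algebraMap_apply R K ↥(modularFunctionFieldFullC K M) r
  have hRV : ∀ r : R, algebraMap R ↥(modularFunctionFieldFullC K M) r ∈ cm85_Vinf (K := K) M hπ :=
    pk85_hRV M hπ
  have hinjRK : Function.Injective (algebraMap R K) := IsFractionRing.injective R K
  have hinj : Function.Injective (algebraMap R ↥(modularFunctionFieldFullC K M)) := by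
    intro r s hrs
    rw [hconv, hconv] at hrs
    exact hinjRK ((algebraMap K ↥(modularFunctionFieldFullC K M)).injective hrs)
  have hπF : algebraMap R ↥(modularFunctionFieldFullC K M) π ≠ 0 := fun h =>
    hπ.ne_zero (hinj (by rw [h, map_zero]))
  have hu₂F : algebraMap R ↥(modularFunctionFieldFullC K M) (u₂ : R) ≠ 0 := fun h =>
    u₂.ne_zero (hinj (by rw [h, map_zero]))
  have hu₁F : algebraMap R ↥(modularFunctionFieldFullC K M) (u₁ : R) ≠ 0 := fun h =>
    u₁.ne_zero (hinj (by rw [h, map_zero]))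
  have hcF : algebraMap K ↥(modularFunctionFieldFullC K M) c ≠ 0 := fun h =>
    hc ((algebraMap K ↥(modularFunctionFieldFullC K M)).injective (by rw [h, map_zero]))
  -- `c * (u₂ π^j) = u₁ π^i` in `F`
  have hcF' : algebraMap K ↥(modularFunctionFieldFullC K M) c *
      (algebraMap R ↥(modularFunctionFieldFullC K M) (u₂ : R) *
        algebraMap R ↥(modularFunctionFieldFullC K M) π ^ j) =
      algebraMap R ↥(modularFunctionFieldFullC K M) (u₁ : R) *
        algebraMap R ↥(modularFunctionFieldFullC K M) π ^ i := by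
    have h1 : c * algebraMap R K r₂ = algebraMap R K r₁ := by
      rw [← hr]
      have : algebraMap R K r₂ ≠ 0 := fun h => hr₂0 (hinjRK (by rw [h, map_zero]))
      field_simp
    have h2 := congrArg (algebraMap K ↥(modularFunctionFieldFullC K M)) h1
    rw [map_mul, ← hconv, ← hconv, hu₁, hu₂, map_mul, map_mul, map_pow, map_pow] at h2
    exact h2
  refine ⟨i, j, algebraMap R ↥(modularFunctionFieldFullC K M) (u₁ : R) *
    algebraMap R ↥(modularFunctionFieldFullC K M) ((u₂⁻¹ : Rˣ) : R) * w, ?_, ?_, ?_⟩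
  · exact mul_mem (mul_mem (hRV _) (hRV _)) hwV
  · have h3 : (algebraMap R ↥(modularFunctionFieldFullC K M) (u₁ : R) *
        algebraMap R ↥(modularFunctionFieldFullC K M) ((u₂⁻¹ : Rˣ) : R) * w)⁻¹ =
        algebraMap R ↥(modularFunctionFieldFullC K M) ((u₁⁻¹ : Rˣ) : R) *
        algebraMap R ↥(modularFunctionFieldFullC K M) (u₂ : R) * w⁻¹ := by
      have e1 : algebraMap R ↥(modularFunctionFieldFullC K M) (u₁ : R) *
          algebraMap R ↥(modularFunctionFieldFullC K M) ((u₁⁻¹ : Rˣ) : R) = 1 := by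
        rw [← map_mul, Units.mul_inv, map_one]
      have e2 : algebraMap R ↥(modularFunctionFieldFullC K M) (u₂ : R) *
          algebraMap R ↥(modularFunctionFieldFullC K M) ((u₂⁻¹ : Rˣ) : R) = 1 := by
        rw [← map_mul, Units.mul_inv, map_one]
      rw [mul_inv, mul_inv, eq_inv_of_mul_eq_one_right e1, ← eq_inv_of_mul_eq_one_left e2]
    rw [h3]
    exact mul_mem
      (mul_mem (hRV _) (hRV _)) hwV'
  · have e2 : algebraMap R ↥(modularFunctionFieldFullC K M) (u₂ : R) *
        algebraMap R ↥(modularFunctionFieldFullC K M) ((u₂⁻¹ : Rˣ) : R) = 1 := by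
      rw [← map_mul, Units.mul_inv, map_one]
    have e3 : algebraMap R ↥(modularFunctionFieldFullC K M) ((u₂⁻¹ : Rˣ) : R) =
        (algebraMap R ↥(modularFunctionFieldFullC K M) (u₂ : R))⁻¹ :=
      eq_inv_of_mul_eq_one_right e2
    rw [e3, hw]
    have h4 : algebraMap R ↥(modularFunctionFieldFullC K M) π ^ i =
        algebraMap K ↥(modularFunctionFieldFullC K M) c *
          (algebraMap R ↥(modularFunctionFieldFullC K M) (u₂ : R) *
            algebraMap R ↥(modularFunctionFieldFullC K M) π ^ j) *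
          (algebraMap R ↥(modularFunctionFieldFullC K M) (u₁ : R))⁻¹ := by
      rw [hcF']; field_simp
    rw [h4]
    field_simp

/-- **Discreteness** of the Gauss valuation ring, in the shape of `oe18_main`. -/
theorem wi18_arch {π : R} (hπ : Irreducible π) (x : ↥(modularFunctionFieldFullC K M))
    (hx : x ≠ 0) :
    ∃ n : ℕ, (algebraMap R ↥(modularFunctionFieldFullC K M) π ^ n)⁻¹ * x ∉
      cm85_Vinf (K := K) M hπ := by
  obtain ⟨i, j, u, hu, hu', h⟩ := wi18_unit_mul_pow M hπ x hx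
  have hconv : algebraMap R ↥(modularFunctionFieldFullC K M) π =
      algebraMap K ↥(modularFunctionFieldFullC K M) (algebraMap R K π) :=
    IsScalarTower.algebraMap_apply R K ↥(modularFunctionFieldFullC K M) π
  have hπV : (algebraMap R ↥(modularFunctionFieldFullC K M) π)⁻¹ ∉ cm85_Vinf (K := K) M hπ := by
    rw [hconv]
    exact gv85_pi_inv_not_mem (IsLocalRing.residue R) π (pk85_res_iff hπ) hπ.ne_zero _ _
  have hπmem : algebraMap R ↥(modularFunctionFieldFullC K M) π ∈ cm85_Vinf (K := K) M hπ :=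
    pk85_hRV M hπ π
  have hπ0 : algebraMap R ↥(modularFunctionFieldFullC K M) π ≠ 0 := by
    intro h0
    apply hπV
    rw [h0, inv_zero]
    exact (cm85_Vinf (K := K) M hπ).zero_mem
  have hu0 : u ≠ 0 := by
    rintro rfl
    rw [mul_zero] at h
    exact hx ((mul_eq_zero.mp h).resolve_left (pow_ne_zero _ hπ0))
  refine ⟨i + 1, fun hmem => hπV ?_⟩
  have h1 : (algebraMap R ↥(modularFunctionFieldFullC K M) π)⁻¹ =
      algebraMap R ↥(modularFunctionFieldFullC K M) π ^ j *
        ((algebraMap R ↥(modularFunctionFieldFullC K M) π ^ (i + 1))⁻¹ * x) * u⁻¹ := by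
    have h2 : algebraMap R ↥(modularFunctionFieldFullC K M) π ^ j *
        ((algebraMap R ↥(modularFunctionFieldFullC K M) π ^ (i + 1))⁻¹ * x) * u⁻¹ =
        (algebraMap R ↥(modularFunctionFieldFullC K M) π ^ (i + 1))⁻¹ *
          (algebraMap R ↥(modularFunctionFieldFullC K M) π ^ j * x) * u⁻¹ := by ring
    rw [h2, h, pow_succ]
    field_simp
  rw [h1]
  exact mul_mem
    (mul_mem (pow_mem hπmem j) hmem) hu'

/-- Rank one over `π`: every element becomes integral after multiplication by a power of `π`. -/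
theorem wi18_arch' {π : R} (hπ : Irreducible π) (x : ↥(modularFunctionFieldFullC K M)) :
    ∃ k : ℕ, algebraMap R ↥(modularFunctionFieldFullC K M) π ^ k * x ∈
      cm85_Vinf (K := K) M hπ := by
  by_cases hx : x = 0
  · exact ⟨0, by rw [hx, mul_zero]; exact (cm85_Vinf (K := K) M hπ).zero_mem⟩
  obtain ⟨i, j, u, hu, -, h⟩ := wi18_unit_mul_pow M hπ x hx
  refine ⟨j, ?_⟩
  rw [h]
  exact mul_mem
    (pow_mem (pk85_hRV M hπ π) i) hu

end arch

section inst

variable {R K : Type} [CommRing R] [IsDomain R] [IsDiscreteValuationRing R] [Field K] [CharZero K]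
  [Algebra R K] [IsFractionRing R K]
  (M' M : ℕ) [NeZero M'] [NeZero M]
  [Algebra R ↥(modularFunctionFieldFullC K M')]
  [IsScalarTower R K ↥(modularFunctionFieldFullC K M')]
  [Algebra R ↥(modularFunctionFieldFullC K M)]
  [IsScalarTower R K ↥(modularFunctionFieldFullC K M)]

theorem wi18_incl_algebraMap (hdvd : M' ∣ M) (r : R) :
    cm15_incl K M' M hdvd (algebraMap R ↥(modularFunctionFieldFullC K M') r) =
      algebraMap R ↥(modularFunctionFieldFullC K M) r := by
  rw [IsScalarTower.algebraMap_apply R K ↥(modularFunctionFieldFullC K M'),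
    IsScalarTower.algebraMap_apply R K ↥(modularFunctionFieldFullC K M)]
  exact (cm15_incl K M' M hdvd).commutes _

theorem wi18_incl_mem (hdvd : M' ∣ M) {π : R} (hπ : Irreducible π)
    (a : ↥(modularFunctionFieldFullC K M')) (ha : a ∈ cm85_Vinf (K := K) M' hπ) :
    cm15_incl K M' M hdvd a ∈ cm85_Vinf (K := K) M hπ := by
  obtain ⟨s, t, hs, hst⟩ := ha
  refine ⟨s, t, hs, ?_⟩
  have h1 : ((cm15_incl K M' M hdvd a : ↥(modularFunctionFieldFullC K M)) : LaurentSeries K) =
      (a : LaurentSeries K) := IntermediateField.coe_inclusion (full_degeneracyC_le K hdvd) a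
  rw [h1]; exact hst

/-- **The two extensions of the Gauss valuation ring of level `M'` to level `M`**: the
conclusions of `oe18_main` for `F(M')_K ⊆ F(M)_K` (of relative degree `q + 1`),
`V' = cm85_Vinf M'`, `V₁ = cm85_Vinf M` and a second valuation subring `V₀` over `V'` with a
Kummer witness `y ^ q ≡ a mod π V₀`, `a` not a `q`-th power modulo `π V'`. -/
theorem wi18_main (hdvd : M' ∣ M) {π : R} (hπ : Irreducible π) (q : ℕ) (hq : q.Prime)
    (hdeg : (modularFunctionFieldFullC K M').relfinrank (modularFunctionFieldFullC K M) = q + 1)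
    (V₀ : ValuationSubring ↥(modularFunctionFieldFullC K M))
    (hV₀ : ∀ a ∈ cm85_Vinf (K := K) M' hπ, cm15_incl K M' M hdvd a ∈ V₀)
    (hπV₀ : (algebraMap R ↥(modularFunctionFieldFullC K M) π)⁻¹ ∉ V₀)
    (hne : cm85_Vinf (K := K) M hπ ≠ V₀)
    (y : ↥(modularFunctionFieldFullC K M)) (hy : y ∈ V₀)
    (a : ↥(modularFunctionFieldFullC K M')) (ha : a ∈ cm85_Vinf (K := K) M' hπ)
    (hya : (algebraMap R ↥(modularFunctionFieldFullC K M) π)⁻¹ *
      (y ^ q - cm15_incl K M' M hdvd a) ∈ V₀)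
    (hnot : ∀ b ∈ cm85_Vinf (K := K) M' hπ,
      (algebraMap R ↥(modularFunctionFieldFullC K M') π)⁻¹ * (b ^ q - a) ∉
        cm85_Vinf (K := K) M' hπ) :
    (∀ V : ValuationSubring ↥(modularFunctionFieldFullC K M),
      (∀ a ∈ cm85_Vinf (K := K) M' hπ, cm15_incl K M' M hdvd a ∈ V) →
      (algebraMap R ↥(modularFunctionFieldFullC K M) π)⁻¹ ∉ V →
      V = cm85_Vinf (K := K) M hπ ∨ V = V₀) ∧
    cm15_WInt R K M' M hdvd hπ (wa5_W (cm85_Vinf (K := K) M hπ) V₀) ∧
    (∀ x ∈ V₀, x⁻¹ ∉ V₀ → (algebraMap R ↥(modularFunctionFieldFullC K M) π)⁻¹ * x ∈ V₀) ∧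
    (∀ x ∈ cm85_Vinf (K := K) M hπ, ∃ b ∈ cm85_Vinf (K := K) M' hπ,
      (algebraMap R ↥(modularFunctionFieldFullC K M) π)⁻¹ * (x - cm15_incl K M' M hdvd b) ∈
        cm85_Vinf (K := K) M hπ) := by
  let : Algebra ↥(modularFunctionFieldFullC K M') ↥(modularFunctionFieldFullC K M) :=
    (cm15_incl K M' M hdvd).toRingHom.toAlgebra
  have hle : modularFunctionFieldFullC K M' ≤ modularFunctionFieldFullC K M :=
    full_degeneracyC_le K hdvd
  have hfr : Module.finrank ↥(modularFunctionFieldFullC K M') ↥(modularFunctionFieldFullC K M)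
      = q + 1 := by
    rw [← hdeg, IntermediateField.relfinrank_eq_finrank_of_le hle]
    let e : ↥(modularFunctionFieldFullC K M) ≃ₗ[↥(modularFunctionFieldFullC K M')]
        ↥(IntermediateField.extendScalars hle) :=
      { toFun := fun x => ⟨x.1, x.2⟩
        invFun := fun x => ⟨x.1, x.2⟩
        map_add' := fun _ _ => rfl
        map_smul' := fun _ _ => rfl
        left_inv := fun _ => rfl
        right_inv := fun _ => rfl }
    exact e.finrank_eq
  have : FiniteDimensional ↥(modularFunctionFieldFullC K M')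
      ↥(modularFunctionFieldFullC K M) :=
    Module.finite_of_finrank_pos (by rw [hfr]; omega)
  have hconv' : algebraMap R ↥(modularFunctionFieldFullC K M') π =
      algebraMap K ↥(modularFunctionFieldFullC K M') (algebraMap R K π) :=
    IsScalarTower.algebraMap_apply R K ↥(modularFunctionFieldFullC K M') π
  have hconv : algebraMap R ↥(modularFunctionFieldFullC K M) π =
      algebraMap K ↥(modularFunctionFieldFullC K M) (algebraMap R K π) :=
    IsScalarTower.algebraMap_apply R K ↥(modularFunctionFieldFullC K M) π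
  have hπmap : algebraMap ↥(modularFunctionFieldFullC K M') ↥(modularFunctionFieldFullC K M)
      (algebraMap R ↥(modularFunctionFieldFullC K M') π) =
      algebraMap R ↥(modularFunctionFieldFullC K M) π := wi18_incl_algebraMap M' M hdvd π
  have hπinv' : (algebraMap R ↥(modularFunctionFieldFullC K M') π)⁻¹ ∉
      cm85_Vinf (K := K) M' hπ := by
    rw [hconv']
    exact gv85_pi_inv_not_mem (IsLocalRing.residue R) π (pk85_res_iff hπ) hπ.ne_zero _ _
  have hmax' : ∀ x ∈ cm85_Vinf (K := K) M' hπ, x⁻¹ ∉ cm85_Vinf (K := K) M' hπ →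
      (algebraMap R ↥(modularFunctionFieldFullC K M') π)⁻¹ * x ∈ cm85_Vinf (K := K) M' hπ := by
    intro x hx hx'
    rw [hconv']
    exact gv85_hmax (IsLocalRing.residue R) π (pk85_res_iff hπ) hπ.ne_zero _ _ x hx hx'
  have hπinv : (algebraMap R ↥(modularFunctionFieldFullC K M) π)⁻¹ ∉
      cm85_Vinf (K := K) M hπ := by
    rw [hconv]
    exact gv85_pi_inv_not_mem (IsLocalRing.residue R) π (pk85_res_iff hπ) hπ.ne_zero _ _
  obtain ⟨c1, c2, -, c4, c5⟩ := oe18_main (cm85_Vinf (K := K) M' hπ)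
    (algebraMap R ↥(modularFunctionFieldFullC K M') π) (pk85_hRV M' hπ π) hπinv' hmax'
    (wi18_arch M' hπ) (cm85_Vinf (K := K) M hπ) V₀
    (fun a ha => wi18_incl_mem M' M hdvd hπ a ha) (by rw [hπmap]; exact hπinv)
    hV₀ (by rw [hπmap]; exact hπV₀) hne q hq hfr.le y hy a ha
    (by rw [hπmap]; exact hya) hnot
  rw [hπmap] at c1 c4 c5
  refine ⟨c1, ?_, c4, c5⟩
  intro z hz
  rw [wa5_mem_W] at hz
  obtain ⟨p, hp, hpz⟩ := c2 z hz.1 hz.2
  exact ⟨p, hp, hpz⟩

/-- `cm15_WInt` for `W = V_∞ ⊓ V₀`: the input of `cm15_sat_level2/3`. -/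
theorem wi18_WInt (hdvd : M' ∣ M) {π : R} (hπ : Irreducible π) (q : ℕ) (hq : q.Prime)
    (hdeg : (modularFunctionFieldFullC K M').relfinrank (modularFunctionFieldFullC K M) = q + 1)
    (V₀ : ValuationSubring ↥(modularFunctionFieldFullC K M))
    (hV₀ : ∀ a ∈ cm85_Vinf (K := K) M' hπ, cm15_incl K M' M hdvd a ∈ V₀)
    (hπV₀ : (algebraMap R ↥(modularFunctionFieldFullC K M) π)⁻¹ ∉ V₀)
    (hne : cm85_Vinf (K := K) M hπ ≠ V₀)
    (y : ↥(modularFunctionFieldFullC K M)) (hy : y ∈ V₀)
    (a : ↥(modularFunctionFieldFullC K M')) (ha : a ∈ cm85_Vinf (K := K) M' hπ)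
    (hya : (algebraMap R ↥(modularFunctionFieldFullC K M) π)⁻¹ *
      (y ^ q - cm15_incl K M' M hdvd a) ∈ V₀)
    (hnot : ∀ b ∈ cm85_Vinf (K := K) M' hπ,
      (algebraMap R ↥(modularFunctionFieldFullC K M') π)⁻¹ * (b ^ q - a) ∉
        cm85_Vinf (K := K) M' hπ) :
    cm15_WInt R K M' M hdvd hπ (wa5_W (cm85_Vinf (K := K) M hπ) V₀) :=
  (wi18_main M' M hdvd hπ q hq hdeg V₀ hV₀ hπV₀ hne y hy a ha hya hnot).2.1

end inst

end Fermat.Agent.S34
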