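import Fermat.Agent.S34.BranchInfAbs93
import Fermat.Agent.S34.ChartM15b
import Fermat.Agent.S34.WIntInst18
import Fermat.Agent.S34.LocStr63

/-!
# S34 lab, step (3a), inf-branch (helper93), instance: the inf-branch of a chart at level `M`
is the special fibre of the chart at the good level `M'`

`M' ∣ M`, `M'` a good level (a unit of `R`, divisible by `p₀ ∈ {2, 3}`), `V' = cm85_Vinf M'`,
`V_∞ = cm85_Vinf M` the Gauss valuation rings, `ι = cm15_incl K M' M` the inclusion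
`F(M')_K → F(M)_K`.  The ONLY hypothesis at level `M` is

* `bi93_F1 M' M hdvd hπ` : `∀ x ∈ V_∞, ∃ b ∈ V', π⁻¹ (x - ι b) ∈ V_∞` (residue degree one;
  the fourth clause of `wi18_main`, helper18).

Results, for a chart `B' = pk15_chart R s` of `F(M')_K` with `s ⊆ V'`, saturated in `V'`, with
fraction field `F(M')_K` and Dedekind special fibre, and `B = pk15_chart R (ι '' s)`:

* `bi93_surj` : `B = ι(B') + (B ∩ π V_∞)` — the `hsurj` of `ls63_unif_of_dedekind_transfer`;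
* `bi93_unif` : at every prime `n` of `B` containing the inf-branch `B ∩ π V_∞` there is
  `z' ∈ B'` such that `z = ι z' ∈ n` is a uniformiser of the inf-branch at `n`:
  `∀ x ∈ n, ∃ s ∉ n, ∃ a ∈ B, π⁻¹ (s x - a z) ∈ V_∞` (the `h₁`-shape of `ls63_locStr`,
  `nl71_smooth`; `sf79_SmoothFrom` of row 470);
* `bi93_surj_level2/3`, `bi93_unif_level2/3` : the same for the two affine charts `{h}`, `{h⁻¹}`
  of the explicit Hauptmoduln `h = pk85_h2 K M`, `pk85_h3 K M`.
-/

set_option autoImplicit false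
set_option linter.unusedSectionVars false
set_option linter.style.haveILetI false

open ModularCurve IntermediateField Polynomial

namespace Fermat.Agent.S34

open Fermat.Agent.S18 Fermat.Agent.S24

local notation "Q̄" => AlgebraicClosure ℚ

section gen

variable {R K : Type} [CommRing R] [IsDomain R] [IsDiscreteValuationRing R] [Field K] [CharZero K]
  [Algebra R K] [IsFractionRing R K]
  (M' M : ℕ) [NeZero M'] [NeZero M]
  [Algebra R ↥(modularFunctionFieldFullC K M')]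
  [IsScalarTower R K ↥(modularFunctionFieldFullC K M')]
  [Algebra R ↥(modularFunctionFieldFullC K M)]
  [IsScalarTower R K ↥(modularFunctionFieldFullC K M)]

/-- The Gauss valuation ring of level `M` restricts to the Gauss valuation ring of level `M'`. -/
theorem bi93_incl_mem_iff (hdvd : M' ∣ M) {π : R} (hπ : Irreducible π)
    (a : ↥(modularFunctionFieldFullC K M')) :
    cm15_incl K M' M hdvd a ∈ cm85_Vinf (K := K) M hπ ↔ a ∈ cm85_Vinf (K := K) M' hπ := by
  have h1 : ((cm15_incl K M' M hdvd a : ↥(modularFunctionFieldFullC K M)) : LaurentSeries K) =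
      (a : LaurentSeries K) := IntermediateField.coe_inclusion (full_degeneracyC_le K hdvd) a
  constructor
  · rintro ⟨s, t, hs, hst⟩
    exact ⟨s, t, hs, by rw [← h1]; exact hst⟩
  · exact wi18_incl_mem M' M hdvd hπ a

/-- **Residue degree one** of the Gauss valuation ring of level `M` over that of level `M'`
(the fourth clause of `wi18_main`). -/
def bi93_F1 (hdvd : M' ∣ M) {π : R} (hπ : Irreducible π) : Prop :=
  ∀ x ∈ cm85_Vinf (K := K) M hπ, ∃ b ∈ cm85_Vinf (K := K) M' hπ,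
    (algebraMap R ↥(modularFunctionFieldFullC K M) π)⁻¹ * (x - cm15_incl K M' M hdvd b) ∈
      cm85_Vinf (K := K) M hπ

/-- **`B = ι(B') + (B ∩ π V_∞)`.** -/
theorem bi93_surj (hdvd : M' ∣ M) {π : R} (hπ : Irreducible π)
    (s : Set ↥(modularFunctionFieldFullC K M'))
    (hsV : ∀ g ∈ s, g ∈ cm85_Vinf (K := K) M' hπ)
    (hsat : cm15_Sat R π s (cm85_Vinf (K := K) M' hπ).toSubring)
    (hfrac : ∀ x : ↥(modularFunctionFieldFullC K M'),
      ∃ a ∈ pk15_chart R s, ∃ b ∈ pk15_chart R s, b ≠ 0 ∧ x * b = a)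
    [IsDedekindDomain (pk15_chart R s ⧸ Ideal.span {algebraMap R (pk15_chart R s) π})]
    (hf1 : bi93_F1 (K := K) M' M hdvd hπ)
    (x : ↥(modularFunctionFieldFullC K M))
    (hx : x ∈ pk15_chart R ((cm15_incl K M' M hdvd) '' s)) :
    ∃ x' ∈ pk15_chart R s,
      (algebraMap R ↥(modularFunctionFieldFullC K M) π)⁻¹ * (x - cm15_incl K M' M hdvd x') ∈
        cm85_Vinf (K := K) M hπ := by
  let j : ↥(pk15_chart R s) →+* ↥(modularFunctionFieldFullC K M') :=
    (pk15_chart R s).val.toRingHom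
  let ϖ : ↥(pk15_chart R s) := algebraMap R ↥(pk15_chart R s) π
  let ι : ↥(modularFunctionFieldFullC K M') →+* ↥(modularFunctionFieldFullC K M) :=
    (cm15_incl K M' M hdvd).toRingHom
  have hjϖ : j ϖ = algebraMap R ↥(modularFunctionFieldFullC K M') π := rfl
  have hιϖ : ι (j ϖ) = algebraMap R ↥(modularFunctionFieldFullC K M) π :=
    wi18_incl_algebraMap M' M hdvd π
  have hconv' : algebraMap R ↥(modularFunctionFieldFullC K M') π =
      algebraMap K ↥(modularFunctionFieldFullC K M') (algebraMap R K π) :=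
    IsScalarTower.algebraMap_apply R K ↥(modularFunctionFieldFullC K M') π
  have hπ0' : algebraMap R ↥(modularFunctionFieldFullC K M') π ≠ 0 := by
    rw [hconv']
    intro h0
    have h1 : algebraMap R K π = 0 :=
      (map_eq_zero (algebraMap K ↥(modularFunctionFieldFullC K M'))).mp h0
    exact hπ.ne_zero ((map_eq_zero_iff _ (IsFractionRing.injective R K)).mp h1)
  have hBV : ∀ b : ↥(pk15_chart R s), j b ∈ cm85_Vinf (K := K) M' hπ := fun b =>
    pk15_chart_le_V (cm85_Vinf (K := K) M' hπ) (pk85_hRV M' hπ) s hsV b b.2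
  have hsat' : ∀ b : ↥(pk15_chart R s), (j ϖ)⁻¹ * j b ∈ cm85_Vinf (K := K) M' hπ →
      ∃ e : ↥(pk15_chart R s), b = ϖ * e := by
    intro b hb
    have h1 := hsat (b : ↥(modularFunctionFieldFullC K M')) b.2 hb
    refine ⟨⟨_, h1⟩, Subtype.ext ?_⟩
    show (b : ↥(modularFunctionFieldFullC K M')) =
      algebraMap R ↥(modularFunctionFieldFullC K M') π *
        ((algebraMap R ↥(modularFunctionFieldFullC K M') π)⁻¹ * b)
    rw [← mul_assoc, mul_inv_cancel₀ hπ0', one_mul]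
  have hfrac' : ∀ c : ↥(modularFunctionFieldFullC K M'),
      ∃ a d : ↥(pk15_chart R s), j d ≠ 0 ∧ c * j d = j a := by
    intro c
    obtain ⟨a, ha, d, hd, hd0, hcd⟩ := hfrac c
    exact ⟨⟨a, ha⟩, ⟨d, hd⟩, hd0, hcd⟩
  have hfracV := bi93_frac j ϖ (cm85_Vinf (K := K) M' hπ) hπ0' hBV hsat'
    (fun y hy => wi18_arch M' hπ y hy) hfrac'
  have hmax' : ∀ y ∈ cm85_Vinf (K := K) M' hπ, y⁻¹ ∉ cm85_Vinf (K := K) M' hπ →
      (j ϖ)⁻¹ * y ∈ cm85_Vinf (K := K) M' hπ := by
    intro y hy hy'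
    rw [hjϖ, hconv']
    exact gv85_hmax (IsLocalRing.residue R) π (pk85_res_iff hπ) hπ.ne_zero _ _ y hy hy'
  have hV'V : ∀ y ∈ cm85_Vinf (K := K) M' hπ, ι y ∈ cm85_Vinf (K := K) M hπ :=
    fun y hy => wi18_incl_mem M' M hdvd hπ y hy
  have hVV' : ∀ y ∈ cm85_Vinf (K := K) M' hπ, (ι (j ϖ))⁻¹ * ι y ∈ cm85_Vinf (K := K) M hπ →
      (j ϖ)⁻¹ * y ∈ cm85_Vinf (K := K) M' hπ := by
    intro y _ h
    have e : (ι (j ϖ))⁻¹ * ι y = ι ((j ϖ)⁻¹ * y) := by rw [map_mul, map_inv₀]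
    rw [e] at h
    exact (bi93_incl_mem_iff M' M hdvd hπ _).mp h
  have hxV : x ∈ cm85_Vinf (K := K) M hπ := by
    refine pk15_chart_le_V (cm85_Vinf (K := K) M hπ) (pk85_hRV M hπ) _ ?_ x hx
    rintro _ ⟨g, hg, rfl⟩
    exact wi18_incl_mem M' M hdvd hπ g (hsV g hg)
  have hx' := (cm15_mem_chart_image ((cm15_incl K M' M hdvd).restrictScalars R) s x).mp hx
  obtain ⟨p0, hp0, hp0x⟩ := hx'
  have hle : Algebra.adjoin R s ≤ pk15_chart R s :=
    Algebra.adjoin_le fun y hy => pk15_subset_chart s hy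
  let θ : ↥(Algebra.adjoin R s) →+* ↥(pk15_chart R s) := (Subalgebra.inclusion hle).toRingHom
  have hf1' : ∀ y ∈ cm85_Vinf (K := K) M hπ, ∃ c ∈ cm85_Vinf (K := K) M' hπ,
      (ι (j ϖ))⁻¹ * (y - ι c) ∈ cm85_Vinf (K := K) M hπ := by
    intro y hy
    rw [hιϖ]
    exact hf1 y hy
  obtain ⟨b', hb'⟩ := bi93_lift j ϖ ι (cm85_Vinf (K := K) M' hπ) (cm85_Vinf (K := K) M hπ)
    hBV hsat' hfracV hmax' hV'V hVV' hf1' x hxV (p0.map θ) (hp0.map θ)
    (by rw [Polynomial.eval₂_map]; exact hp0x)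
  refine ⟨b', b'.2, ?_⟩
  rw [← hιϖ]
  exact hb'

/-- **Uniformiser of the inf-branch at every prime on it, coming from level `M'`.** -/
theorem bi93_unif (hdvd : M' ∣ M) {π : R} (hπ : Irreducible π)
    (s : Set ↥(modularFunctionFieldFullC K M'))
    (hsV : ∀ g ∈ s, g ∈ cm85_Vinf (K := K) M' hπ)
    (hsat : cm15_Sat R π s (cm85_Vinf (K := K) M' hπ).toSubring)
    (hfrac : ∀ x : ↥(modularFunctionFieldFullC K M'),
      ∃ a ∈ pk15_chart R s, ∃ b ∈ pk15_chart R s, b ≠ 0 ∧ x * b = a)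
    [IsDedekindDomain (pk15_chart R s ⧸ Ideal.span {algebraMap R (pk15_chart R s) π})]
    (hf1 : bi93_F1 (K := K) M' M hdvd hπ)
    (n : Ideal ↥(pk15_chart R ((cm15_incl K M' M hdvd) '' s))) (hn : n.IsPrime)
    (hPn : ∀ x : ↥(pk15_chart R ((cm15_incl K M' M hdvd) '' s)),
      (algebraMap R ↥(modularFunctionFieldFullC K M) π)⁻¹ *
        (x : ↥(modularFunctionFieldFullC K M)) ∈ cm85_Vinf (K := K) M hπ → x ∈ n) :
    ∃ z' ∈ pk15_chart R s, ∃ z ∈ n,
      (z : ↥(modularFunctionFieldFullC K M)) = cm15_incl K M' M hdvd z' ∧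
      ∀ x ∈ n, ∃ s₀ : ↥(pk15_chart R ((cm15_incl K M' M hdvd) '' s)), s₀ ∉ n ∧
        ∃ a : ↥(pk15_chart R ((cm15_incl K M' M hdvd) '' s)),
          (algebraMap R ↥(modularFunctionFieldFullC K M) π)⁻¹ *
            ((s₀ : ↥(modularFunctionFieldFullC K M)) * (x : ↥(modularFunctionFieldFullC K M)) -
              (a : ↥(modularFunctionFieldFullC K M)) * (z : ↥(modularFunctionFieldFullC K M))) ∈
            cm85_Vinf (K := K) M hπ := by
  haveI := hn
  let j : ↥(pk15_chart R s) →+* ↥(modularFunctionFieldFullC K M') :=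
    (pk15_chart R s).val.toRingHom
  let ϖ : ↥(pk15_chart R s) := algebraMap R ↥(pk15_chart R s) π
  let ι : ↥(modularFunctionFieldFullC K M') →+* ↥(modularFunctionFieldFullC K M) :=
    (cm15_incl K M' M hdvd).toRingHom
  have hιϖ : ι (j ϖ) = algebraMap R ↥(modularFunctionFieldFullC K M) π :=
    wi18_incl_algebraMap M' M hdvd π
  have hconv : algebraMap R ↥(modularFunctionFieldFullC K M) π =
      algebraMap K ↥(modularFunctionFieldFullC K M) (algebraMap R K π) :=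
    IsScalarTower.algebraMap_apply R K ↥(modularFunctionFieldFullC K M) π
  have hπ0 : algebraMap R ↥(modularFunctionFieldFullC K M) π ≠ 0 := by
    rw [hconv]
    intro h0
    have h1 : algebraMap R K π = 0 :=
      (map_eq_zero (algebraMap K ↥(modularFunctionFieldFullC K M))).mp h0
    exact hπ.ne_zero ((map_eq_zero_iff _ (IsFractionRing.injective R K)).mp h1)
  -- the image of `B'` lies in `B`
  have himg : ∀ b' : ↥(pk15_chart R s), (ι.comp j) b' ∈
      pk15_chart R ((cm15_incl K M' M hdvd) '' s) := by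
    intro b'
    obtain ⟨p, hp, hpb⟩ := (pk15_mem_chart s (b' : ↥(modularFunctionFieldFullC K M'))).mp b'.2
    refine (cm15_mem_chart_image ((cm15_incl K M' M hdvd).restrictScalars R) s _).mpr
      ⟨p, hp, ?_⟩
    have h1 := Polynomial.hom_eval₂ p (algebraMap (Algebra.adjoin R s)
      ↥(modularFunctionFieldFullC K M')) ι (b' : ↥(modularFunctionFieldFullC K M'))
    have h2 : Polynomial.eval₂ (algebraMap (Algebra.adjoin R s)
        ↥(modularFunctionFieldFullC K M')) (b' : ↥(modularFunctionFieldFullC K M')) p = 0 := hpb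
    rw [h2, map_zero] at h1
    exact h1.symm
  let α : ↥(pk15_chart R s) →+* ↥(pk15_chart R ((cm15_incl K M' M hdvd) '' s)) :=
    (ι.comp j).codRestrict (pk15_chart R ((cm15_incl K M' M hdvd) '' s)) himg
  have hα : ∀ b' : ↥(pk15_chart R s),
      ((α b' : ↥(pk15_chart R ((cm15_incl K M' M hdvd) '' s))) :
        ↥(modularFunctionFieldFullC K M)) = ι (j b') := fun _ => rfl
  -- `π ∈ n`
  have hϖn : α ϖ ∈ n := by
    apply hPn
    rw [hα, hιϖ, inv_mul_cancel₀ hπ0]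
    exact (cm85_Vinf (K := K) M hπ).one_mem
  have hle : Ideal.span {ϖ} ≤ n.comap α := by
    rw [Ideal.span_le, Set.singleton_subset_iff]
    exact hϖn
  haveI : (n.comap α).IsPrime := Ideal.comap_isPrime α n
  obtain ⟨z', hz', hun⟩ := ls63_unif_of_dedekind (Ideal.span {ϖ}) (n.comap α) hle
  refine ⟨z', z'.2, α z', hz', rfl, fun x hx => ?_⟩
  obtain ⟨x', hx'mem, hx'⟩ := bi93_surj M' M hdvd hπ s hsV hsat hfrac hf1
    (x : ↥(modularFunctionFieldFullC K M)) x.2
  have hx''n : (⟨x', hx'mem⟩ : ↥(pk15_chart R s)) ∈ n.comap α := by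
    have h1 : x - α ⟨x', hx'mem⟩ ∈ n := hPn _ (by
      have : ((x - α ⟨x', hx'mem⟩ : ↥(pk15_chart R ((cm15_incl K M' M hdvd) '' s))) :
          ↥(modularFunctionFieldFullC K M)) =
          (x : ↥(modularFunctionFieldFullC K M)) - cm15_incl K M' M hdvd x' := rfl
      rw [this]
      exact hx')
    have h2 : α ⟨x', hx'mem⟩ = x - (x - α ⟨x', hx'mem⟩) := by ring
    show α ⟨x', hx'mem⟩ ∈ n
    rw [h2]
    exact n.sub_mem hx h1
  obtain ⟨s', hs', a', ha'⟩ := hun ⟨x', hx'mem⟩ hx''n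
  obtain ⟨e', he'⟩ := Ideal.mem_span_singleton.mp ha'
  refine ⟨α s', hs', α a', ?_⟩
  have he'' : ι (j s') * ι x' - ι (j a') * ι (j z') =
      algebraMap R ↥(modularFunctionFieldFullC K M) π * ι (j e') := by
    have h1 := congrArg (fun t => ι (j t)) he'
    simp only [map_sub, map_mul] at h1
    rw [hιϖ] at h1
    exact h1
  have e : (algebraMap R ↥(modularFunctionFieldFullC K M) π)⁻¹ *
      (((α s' : ↥(pk15_chart R ((cm15_incl K M' M hdvd) '' s))) :
          ↥(modularFunctionFieldFullC K M)) * (x : ↥(modularFunctionFieldFullC K M)) -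
        ((α a' : ↥(pk15_chart R ((cm15_incl K M' M hdvd) '' s))) :
          ↥(modularFunctionFieldFullC K M)) *
        ((α z' : ↥(pk15_chart R ((cm15_incl K M' M hdvd) '' s))) :
          ↥(modularFunctionFieldFullC K M))) =
      ι (j s') * ((algebraMap R ↥(modularFunctionFieldFullC K M) π)⁻¹ *
        ((x : ↥(modularFunctionFieldFullC K M)) - cm15_incl K M' M hdvd x')) + ι (j e') := by
    rw [hα, hα, hα]
    have h3 : ι (j s') * (x : ↥(modularFunctionFieldFullC K M)) - ι (j a') * ι (j z') =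
        ι (j s') * ((x : ↥(modularFunctionFieldFullC K M)) - ι x') +
          algebraMap R ↥(modularFunctionFieldFullC K M) π * ι (j e') := by
      rw [← he'']
      ring
    rw [h3]
    have h4 : ι x' = cm15_incl K M' M hdvd x' := rfl
    rw [h4, mul_add, ← mul_assoc _ (algebraMap R ↥(modularFunctionFieldFullC K M) π),
      inv_mul_cancel₀ hπ0, one_mul]
    ring
  rw [e]
  refine (cm85_Vinf (K := K) M hπ).add_mem _ _ ((cm85_Vinf (K := K) M hπ).mul_mem _ _ ?_ hx') ?_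
  · exact wi18_incl_mem M' M hdvd hπ _
      (pk15_chart_le_V (cm85_Vinf (K := K) M' hπ) (pk85_hRV M' hπ) s hsV s' s'.2)
  · exact wi18_incl_mem M' M hdvd hπ _
      (pk15_chart_le_V (cm85_Vinf (K := K) M' hπ) (pk85_hRV M' hπ) s hsV e' e'.2)

end gen

section levels

variable {R K : Type} [CommRing R] [IsDomain R] [IsDiscreteValuationRing R] [Field K] [CharZero K]
  [Algebra R K] [IsFractionRing R K]
  (M' M : ℕ) [NeZero M'] [NeZero M]
  [Algebra R ↥(modularFunctionFieldFullC K M')]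
  [IsScalarTower R K ↥(modularFunctionFieldFullC K M')]
  [Algebra R ↥(modularFunctionFieldFullC K M)]
  [IsScalarTower R K ↥(modularFunctionFieldFullC K M)]

/-- `B = ι(B') + (B ∩ π V_∞)` for the charts `B' = pk15_chart R s'` (level `M'`) and
`B = pk15_chart R s` (level `M`). -/
def bi93_Surj (hdvd : M' ∣ M) {π : R} (hπ : Irreducible π)
    (s' : Set ↥(modularFunctionFieldFullC K M')) (s : Set ↥(modularFunctionFieldFullC K M)) :
    Prop :=
  ∀ x ∈ pk15_chart R s, ∃ x' ∈ pk15_chart R s',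
    (algebraMap R ↥(modularFunctionFieldFullC K M) π)⁻¹ * (x - cm15_incl K M' M hdvd x') ∈
      cm85_Vinf (K := K) M hπ

/-- At every prime `n` of `B = pk15_chart R s` containing the inf-branch `B ∩ π V_∞` there is a
uniformiser `z = ι z'` of the inf-branch at `n` coming from `B' = pk15_chart R s'`. -/
def bi93_Unif (hdvd : M' ∣ M) {π : R} (hπ : Irreducible π)
    (s' : Set ↥(modularFunctionFieldFullC K M')) (s : Set ↥(modularFunctionFieldFullC K M)) :
    Prop :=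
  ∀ n : Ideal ↥(pk15_chart R s), n.IsPrime →
    (∀ x : ↥(pk15_chart R s), (algebraMap R ↥(modularFunctionFieldFullC K M) π)⁻¹ *
      (x : ↥(modularFunctionFieldFullC K M)) ∈ cm85_Vinf (K := K) M hπ → x ∈ n) →
    ∃ z' ∈ pk15_chart R s', ∃ z ∈ n,
      (z : ↥(modularFunctionFieldFullC K M)) = cm15_incl K M' M hdvd z' ∧
      ∀ x ∈ n, ∃ s₀ : ↥(pk15_chart R s), s₀ ∉ n ∧ ∃ a : ↥(pk15_chart R s),
        (algebraMap R ↥(modularFunctionFieldFullC K M) π)⁻¹ *
          ((s₀ : ↥(modularFunctionFieldFullC K M)) * (x : ↥(modularFunctionFieldFullC K M)) -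
            (a : ↥(modularFunctionFieldFullC K M)) * (z : ↥(modularFunctionFieldFullC K M))) ∈
          cm85_Vinf (K := K) M hπ

/-- Generic form: both statements for `s = ι '' s'`. -/
theorem bi93_both (hdvd : M' ∣ M) {π : R} (hπ : Irreducible π)
    (s : Set ↥(modularFunctionFieldFullC K M'))
    (hsV : ∀ g ∈ s, g ∈ cm85_Vinf (K := K) M' hπ)
    (hsat : cm15_Sat R π s (cm85_Vinf (K := K) M' hπ).toSubring)
    (hfrac : ∀ x : ↥(modularFunctionFieldFullC K M'),
      ∃ a ∈ pk15_chart R s, ∃ b ∈ pk15_chart R s, b ≠ 0 ∧ x * b = a)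
    (hD : IsDedekindDomain (pk15_chart R s ⧸ Ideal.span {algebraMap R (pk15_chart R s) π}))
    (hf1 : bi93_F1 (K := K) M' M hdvd hπ) :
    bi93_Surj M' M hdvd hπ s ((cm15_incl K M' M hdvd) '' s) ∧
      bi93_Unif M' M hdvd hπ s ((cm15_incl K M' M hdvd) '' s) :=
  ⟨fun x hx => bi93_surj M' M hdvd hπ s hsV hsat hfrac hf1 x hx,
    fun n hn hPn => bi93_unif M' M hdvd hπ s hsV hsat hfrac hf1 n hn hPn⟩

variable [Algebra K Q̄] [Algebra.IsAlgebraic K Q̄]

/-- **Level 2**: the two affine charts of `h = pk85_h2 K M` at level `M`, over the good level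
`M'` (`2 ∣ M'`, `M'` a unit of `R`). -/
theorem bi93_level2 (hdvd : M' ∣ M) {π : R} (hπ : Irreducible π) (h2 : 2 ∣ M')
    (hMu : IsUnit (M' : R)) (hf1 : bi93_F1 (K := K) M' M hdvd hπ) :
    (bi93_Surj M' M hdvd hπ {pk85_h2 K M' h2} {pk85_h2 K M (h2.trans hdvd)} ∧
      bi93_Unif M' M hdvd hπ {pk85_h2 K M' h2} {pk85_h2 K M (h2.trans hdvd)}) ∧
    (bi93_Surj M' M hdvd hπ {(pk85_h2 K M' h2)⁻¹} {(pk85_h2 K M (h2.trans hdvd))⁻¹} ∧
      bi93_Unif M' M hdvd hπ {(pk85_h2 K M' h2)⁻¹} {(pk85_h2 K M (h2.trans hdvd))⁻¹}) := by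
  obtain ⟨-, -, -, -, hhV, hhV', -, -, -, -, hfrac₁, hfrac₂, -⟩ :=
    cm85_facts_level2 (R := R) (K := K) M' hπ h2
  obtain ⟨hs₁, hs₂, -⟩ := cm15_base_sat_level2 (R := R) (K := K) M' hπ h2 hMu
  obtain ⟨⟨hD₁, -⟩, ⟨hD₂, -⟩⟩ := sm79_level2 (R := R) K M' hπ hMu h2
  have hh : cm15_incl K M' M hdvd (pk85_h2 K M' h2) = pk85_h2 K M (h2.trans hdvd) :=
    Subtype.ext (cm15_incl_coe M' M hdvd _)
  have k₁ := bi93_both M' M hdvd hπ ({pk85_h2 K M' h2} : Set ↥(modularFunctionFieldFullC K M'))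
    (fun g hg => by rw [Set.mem_singleton_iff.mp hg]; exact hhV) hs₁ hfrac₁ hD₁ hf1
  have k₂ := bi93_both M' M hdvd hπ ({(pk85_h2 K M' h2)⁻¹} : Set ↥(modularFunctionFieldFullC K M'))
    (fun g hg => by rw [Set.mem_singleton_iff.mp hg]; exact hhV') hs₂ hfrac₂ hD₂ hf1
  rw [Set.image_singleton, hh] at k₁
  rw [Set.image_singleton, map_inv₀, hh] at k₂
  exact ⟨k₁, k₂⟩

/-- **Level 3**: the two affine charts of `h = pk85_h3 K M` at level `M`, over the good level
`M'` (`3 ∣ M'`, `M'` a unit of `R`). -/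
theorem bi93_level3 (hdvd : M' ∣ M) {π : R} (hπ : Irreducible π) (h3 : 3 ∣ M')
    (hMu : IsUnit (M' : R)) (hf1 : bi93_F1 (K := K) M' M hdvd hπ) :
    (bi93_Surj M' M hdvd hπ {pk85_h3 K M' h3} {pk85_h3 K M (h3.trans hdvd)} ∧
      bi93_Unif M' M hdvd hπ {pk85_h3 K M' h3} {pk85_h3 K M (h3.trans hdvd)}) ∧
    (bi93_Surj M' M hdvd hπ {(pk85_h3 K M' h3)⁻¹} {(pk85_h3 K M (h3.trans hdvd))⁻¹} ∧
      bi93_Unif M' M hdvd hπ {(pk85_h3 K M' h3)⁻¹} {(pk85_h3 K M (h3.trans hdvd))⁻¹}) := by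
  obtain ⟨-, -, -, -, hhV, hhV', -, -, -, -, hfrac₁, hfrac₂, -⟩ :=
    cm85_facts_level3 (R := R) (K := K) M' hπ h3
  obtain ⟨hs₁, hs₂, -⟩ := cm15_base_sat_level3 (R := R) (K := K) M' hπ h3 hMu
  obtain ⟨⟨hD₁, -⟩, ⟨hD₂, -⟩⟩ := sm79_level3 (R := R) K M' hπ hMu h3
  have hh : cm15_incl K M' M hdvd (pk85_h3 K M' h3) = pk85_h3 K M (h3.trans hdvd) :=
    Subtype.ext (cm15_incl_coe M' M hdvd _)
  have k₁ := bi93_both M' M hdvd hπ ({pk85_h3 K M' h3} : Set ↥(modularFunctionFieldFullC K M'))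
    (fun g hg => by rw [Set.mem_singleton_iff.mp hg]; exact hhV) hs₁ hfrac₁ hD₁ hf1
  have k₂ := bi93_both M' M hdvd hπ ({(pk85_h3 K M' h3)⁻¹} : Set ↥(modularFunctionFieldFullC K M'))
    (fun g hg => by rw [Set.mem_singleton_iff.mp hg]; exact hhV') hs₂ hfrac₂ hD₂ hf1
  rw [Set.image_singleton, hh] at k₁
  rw [Set.image_singleton, map_inv₀, hh] at k₂
  exact ⟨k₁, k₂⟩

end levels

end Fermat.Agent.S34
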