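import Fermat.Agent.S34.AtkinLehnerVal97
import Fermat.Agent.S34.Iface47c

/-!
# S34 lab, package P1b part C (helper97): binding to the canonical frame data of `Iface47c`

The canonical data of `Iface47c` are `V_∞ = cm85_Vinf (M' * q) hπ`, `V_0 = s34i47c_V0`,
`W = s34i47c_W`.  This file binds the `al97V_*` lemmas (AtkinLehnerVal97) to them:

* `al97C_V0_eq` : `s34i47c_V0 = al97V_V0 (algebraMap K ℚ̄)`; `al97C_W_eq`.
* `al97C_algebraMap_mem_V0`, `al97C_pi_inv_not_mem_V0`, `al97C_hmax_V0`.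
* `al97C_alpha_mem_Vinf`, `al97C_beta_mem_Vinf`, `al97C_alpha_mem_V0`, `al97C_beta_mem_V0`,
  `al97C_alpha_mem_W` : restrictions to level `M'` (all are the Gauss ring `cm85_Vinf M' hπ`).
* `al97C_WProps` : **(W)** `s34i47_WProps π W` (first clause of `s34i47c_FrameSat`).
* `al97C_mem_W_of_integral`, `al97C_haupt_mem_W`, `al97C_haupt_inv_mem_W`, `al97C_chart_le_W` :
  the Hauptmoduln, their inverses and the charts `pk15_chart R s`, `s ⊆ {h, h⁻¹}`, lie in `W`
  (second clause of `s34i47_ChartProps`).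
* `al97C_GalProps` : **(G)** for the canonical `W` from (G0), (G1), (G2) for `V_∞` alone;
  `al97C_coeffEquiv_haupt` : the coefficientwise action fixes the Hauptmoduln.
  `al97C_frameGal_of` / `al97C_pkg_frameGal_of` : `s34i47c_FrameGal` / `s34i47c_Pkg_FrameGal`
  from the `V_∞`-half `al97C_VinfGal` ((G1), (G2) for `cm85_Vinf` alone).
-/

set_option autoImplicit false
set_option linter.unusedSectionVars false
set_option linter.style.haveILetI false

namespace Fermat.Agent.S34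

open ModularCurve AlgebraicCurve IntermediateField
open Fermat.Agent.S24 Fermat.Agent.S37 Fermat.Agent.S18

section al97C_canon

variable {R K : Type} [CommRing R] [IsDomain R] [IsDiscreteValuationRing R] [Field K]
  [Algebra R K] [IsFractionRing R K] [Algebra K Kbar]
  (M' q : ℕ) [NeZero M'] [NeZero q] (hq : q.Prime) (hM' : ¬ q ∣ M')
  {π : R} (hπ : Irreducible π)

/-- The canonical `V_0` of `Iface47c` is `al97V_V0`. -/
theorem al97C_V0_eq :
    s34i47c_V0 (K := K) M' q hq hM' hπ = al97V_V0 (algebraMap K Kbar) M' q hq hM' hπ := by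
  ext x
  exact Iff.rfl

/-- The canonical `W` of `Iface47c`. -/
theorem al97C_W_eq :
    s34i47c_W (K := K) M' q hq hM' hπ =
      (c1g55_V R K (M' * q) hπ).toSubring ⊓
        (al97V_V0 (algebraMap K Kbar) M' q hq hM' hπ).toSubring := by
  rw [s34i47c_W, al97C_V0_eq]
  rfl

theorem al97C_mem_V0 (x : ↥(modularFunctionFieldFullC K (M' * q))) :
    x ∈ s34i47c_V0 (K := K) M' q hq hM' hπ ↔
      al97L_w (algebraMap K Kbar) M' q hq hM' x ∈ cm85_Vinf (K := K) (M' * q) hπ :=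
  Iff.rfl

/-- `α x ∈ V_∞ ↔ x ∈ V'`. -/
theorem al97C_alpha_mem_Vinf (x : ↥(modularFunctionFieldFullC K M')) :
    al97L_alpha K M' q x ∈ cm85_Vinf (K := K) (M' * q) hπ ↔ x ∈ cm85_Vinf (K := K) M' hπ :=
  al97V_alpha_mem_Vinf M' q hπ x

/-- `β x ∈ V_∞ ↔ x ∈ V'`. -/
theorem al97C_beta_mem_Vinf (x : ↥(modularFunctionFieldFullC K M')) :
    al97L_beta K M' q x ∈ cm85_Vinf (K := K) (M' * q) hπ ↔ x ∈ cm85_Vinf (K := K) M' hπ :=
  al97V_beta_mem_Vinf M' q hπ x

/-- `α x ∈ V_0 ↔ x ∈ V'`. -/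
theorem al97C_alpha_mem_V0 (x : ↥(modularFunctionFieldFullC K M')) :
    al97L_alpha K M' q x ∈ s34i47c_V0 (K := K) M' q hq hM' hπ ↔
      x ∈ cm85_Vinf (K := K) M' hπ := by
  rw [al97C_V0_eq]
  exact al97V_alpha_mem_V0 (algebraMap K Kbar) M' q hq hM' hπ x

/-- `β x ∈ V_0 ↔ x ∈ V'`. -/
theorem al97C_beta_mem_V0 (x : ↥(modularFunctionFieldFullC K M')) :
    al97L_beta K M' q x ∈ s34i47c_V0 (K := K) M' q hq hM' hπ ↔
      x ∈ cm85_Vinf (K := K) M' hπ := by
  rw [al97C_V0_eq]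
  exact al97V_beta_mem_V0 (algebraMap K Kbar) M' q hq hM' hπ x

/-- `W ∩ α(F(M')) = α(V')`. -/
theorem al97C_alpha_mem_W (x : ↥(modularFunctionFieldFullC K M')) :
    al97L_alpha K M' q x ∈ s34i47c_W (K := K) M' q hq hM' hπ ↔
      x ∈ cm85_Vinf (K := K) M' hπ := by
  rw [s34i47c_W, wa5_mem_W, al97C_alpha_mem_Vinf, al97C_alpha_mem_V0, and_self]

/-- A series of level `M'` with `R`-integral expansion lies in `W` (at level `M' q`). -/
theorem al97C_mem_W_of_integral (x : ↥(modularFunctionFieldFullC K M'))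
    (y : ↥(modularFunctionFieldFullC K (M' * q)))
    (hxy : (y : LaurentSeries K) = (x : LaurentSeries K)) (s : LaurentSeries R)
    (hs : (x : LaurentSeries K) = coeffMap (algebraMap R K) s) :
    y ∈ s34i47c_W (K := K) M' q hq hM' hπ := by
  have hy : y = al97L_alpha K M' q x := Subtype.ext (by rw [al97L_alpha_coe, hxy])
  rw [hy, al97C_alpha_mem_W]
  exact gv85_mem_V_of_integral _ _ _ x s hs

section al97C_alg

variable [Algebra R ↥(modularFunctionFieldFullC K (M' * q))]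
  [IsScalarTower R K ↥(modularFunctionFieldFullC K (M' * q))]

theorem al97C_algebraMap_mem_Vinf (r : R) :
    algebraMap R ↥(modularFunctionFieldFullC K (M' * q)) r ∈
      cm85_Vinf (K := K) (M' * q) hπ :=
  c1g55_algebraMap_mem hπ r

theorem al97C_pi_inv_not_mem_Vinf :
    (algebraMap R ↥(modularFunctionFieldFullC K (M' * q)) π)⁻¹ ∉
      cm85_Vinf (K := K) (M' * q) hπ :=
  c1g55_pi_inv_not_mem hπ

theorem al97C_algebraMap_mem_V0 (r : R) :
    algebraMap R ↥(modularFunctionFieldFullC K (M' * q)) r ∈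
      s34i47c_V0 (K := K) M' q hq hM' hπ := by
  rw [al97C_V0_eq]
  exact al97V_algebraMap_mem_V0 (algebraMap K Kbar) M' q hq hM' hπ r

theorem al97C_pi_inv_not_mem_V0 :
    (algebraMap R ↥(modularFunctionFieldFullC K (M' * q)) π)⁻¹ ∉
      s34i47c_V0 (K := K) M' q hq hM' hπ := by
  rw [al97C_V0_eq]
  exact al97V_pi_inv_not_mem_V0 (algebraMap K Kbar) M' q hq hM' hπ

theorem al97C_hmax_V0 (x : ↥(modularFunctionFieldFullC K (M' * q)))
    (hx : x ∈ s34i47c_V0 (K := K) M' q hq hM' hπ)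
    (hx' : x⁻¹ ∉ s34i47c_V0 (K := K) M' q hq hM' hπ) :
    (algebraMap R ↥(modularFunctionFieldFullC K (M' * q)) π)⁻¹ * x ∈
      s34i47c_V0 (K := K) M' q hq hM' hπ := by
  rw [al97C_V0_eq] at hx hx' ⊢
  exact al97V_hmax_V0 (algebraMap K Kbar) M' q hq hM' hπ x hx hx'

/-- **(W)** for the canonical `W = V_∞ ⊓ V_0` (first clause of `s34i47c_FrameSat`). -/
theorem al97C_WProps : s34i47_WProps π (s34i47c_W (K := K) M' q hq hM' hπ) := by
  have hR1 := al97C_algebraMap_mem_Vinf (K := K) M' q hπ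
  have hR2 := al97C_algebraMap_mem_V0 (K := K) M' q hq hM' hπ
  have hπ1 := al97C_pi_inv_not_mem_Vinf (K := K) M' q hπ
  have hπ2 := al97C_pi_inv_not_mem_V0 (K := K) M' q hq hM' hπ
  have key := fun (m : ℕ) (hm : m ≠ 0) => wa5_ntc_hyps _ _ hR1 hR2 π hπ1 hπ2 m hm
  exact ⟨(key 1 one_ne_zero).1, (key 1 one_ne_zero).2.1,
    fun m hm x hx => (key m hm.ne').2.2.1 x hx, (key 1 one_ne_zero).2.2.2⟩

/-- **(G)** for the canonical `W` from (G0), (G1), (G2) for `V_∞` alone. -/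
theorem al97C_GalProps (σ : K ≃+* K)
    (h0 : ∀ r : R, ∃ r' : R, σ (algebraMap R K r) = algebraMap R K r')
    (h1 : ∀ x : ↥(modularFunctionFieldFullC K (M' * q)), x ≠ 0 →
      s34i47_coeffEquiv σ (M' * q) x / x ∈ cm85_Vinf (K := K) (M' * q) hπ)
    (h2 : ∀ x ∈ cm85_Vinf (K := K) (M' * q) hπ,
      (algebraMap R ↥(modularFunctionFieldFullC K (M' * q)) π)⁻¹ *
        (s34i47_coeffEquiv σ (M' * q) x - x) ∈ cm85_Vinf (K := K) (M' * q) hπ) :
    s34i47_GalProps π (s34i47c_W (K := K) M' q hq hM' hπ) (s34i47_coeffEquiv σ (M' * q)) := by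
  rw [al97C_W_eq]
  exact al97V_GalProps_W (algebraMap K Kbar) M' q hq hM' hπ σ h0 h1 h2

end al97C_alg

end al97C_canon

section al97C_haupt

variable {R K : Type} [CommRing R] [IsDomain R] [IsDiscreteValuationRing R] [Field K]
  [CharZero K] [Algebra R K] [IsFractionRing R K] [Algebra K Kbar]
  (M' q : ℕ) [NeZero M'] [NeZero q] (hq : q.Prime) (hM' : ¬ q ∣ M')
  {π : R} (hπ : Irreducible π)

/-- The coefficientwise action of an automorphism of `K` fixes the Hauptmoduln. -/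
theorem al97C_coeffEquiv_haupt (σ : K ≃+* K) (M : ℕ) [NeZero M] (p : ℕ)
    (h : ↥(modularFunctionFieldFullC K M)) (hh : s34i47c_IsHaupt K M p h) :
    s34i47_coeffEquiv σ M h = h := by
  rcases hh with ⟨-, h2, rfl⟩ | ⟨-, h3, rfl⟩
  · apply Subtype.ext
    rw [s34i47_coeffEquiv_coe, pk85_h2_coe]
    exact h70_coeffMap_h2 (σ : K →+* K)
  · apply Subtype.ext
    rw [s34i47_coeffEquiv_coe, pk85_h3_coe]
    exact h34_coeffMap_h3R (σ : K →+* K)

include hq in
/-- A Hauptmodul of level `M' q` (in residue characteristic `q`) comes from level `M'`, where it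
and its inverse have `R`-integral expansions. -/
theorem al97C_haupt_descend (h : ↥(modularFunctionFieldFullC K (M' * q)))
    (hh : s34i47c_IsHaupt K (M' * q) q h) :
    ∃ (h' : ↥(modularFunctionFieldFullC K M')) (s s' : LaurentSeries R),
      h = al97L_alpha K M' q h' ∧ (h' : LaurentSeries K) = coeffMap (algebraMap R K) s ∧
      s * s' = 1 := by
  rcases hh with ⟨hq2, h2, rfl⟩ | ⟨hq3, h3, rfl⟩
  · have h2' : 2 ∣ M' := by
      rcases (Nat.Prime.dvd_mul Nat.prime_two).mp h2 with h | h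
      · exact h
      · exact absurd ((Nat.prime_dvd_prime_iff_eq Nat.prime_two hq).mp h).symm hq2
    refine ⟨pk85_h2 K M' h2', h70_h2 R, h70_h2inv R, ?_, ?_, h70_h2_mul_h2inv R⟩
    · apply Subtype.ext
      rw [al97L_alpha_coe, pk85_h2_coe, pk85_h2_coe]
    · rw [pk85_h2_coe, h70_coeffMap_h2]
  · have h3' : 3 ∣ M' := by
      rcases (Nat.Prime.dvd_mul Nat.prime_three).mp h3 with h | h
      · exact h
      · exact absurd ((Nat.prime_dvd_prime_iff_eq Nat.prime_three hq).mp h).symm hq3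
    refine ⟨pk85_h3 K M' h3', h34_h3R R, h34_h3Rinv R, ?_, ?_, h34_h3R_mul_inv R⟩
    · apply Subtype.ext
      rw [al97L_alpha_coe, pk85_h3_coe, pk85_h3_coe]
    · rw [pk85_h3_coe, h34_coeffMap_h3R]

/-- The Hauptmoduln lie in `W`. -/
theorem al97C_haupt_mem_W (h : ↥(modularFunctionFieldFullC K (M' * q)))
    (hh : s34i47c_IsHaupt K (M' * q) q h) : h ∈ s34i47c_W (K := K) M' q hq hM' hπ := by
  obtain ⟨h', s, s', rfl, hs, -⟩ := al97C_haupt_descend (R := R) M' q hq h hh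
  rw [al97C_alpha_mem_W]
  exact gv85_mem_V_of_integral _ _ _ h' s hs

/-- The inverses of the Hauptmoduln lie in `W`. -/
theorem al97C_haupt_inv_mem_W (h : ↥(modularFunctionFieldFullC K (M' * q)))
    (hh : s34i47c_IsHaupt K (M' * q) q h) : h⁻¹ ∈ s34i47c_W (K := K) M' q hq hM' hπ := by
  obtain ⟨h', s, s', rfl, hs, hss'⟩ := al97C_haupt_descend (R := R) M' q hq h hh
  rw [← map_inv₀, al97C_alpha_mem_W]
  refine gv85_mem_V_of_integral _ _ _ h'⁻¹ s' ?_
  have h1 : coeffMap (algebraMap R K) s * coeffMap (algebraMap R K) s' = 1 := by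
    rw [← map_mul, hss', map_one]
  have h2 : ((h'⁻¹ : ↥(modularFunctionFieldFullC K M')) : LaurentSeries K) =
      ((h' : ↥(modularFunctionFieldFullC K M')) : LaurentSeries K)⁻¹ := rfl
  rw [h2, hs]
  exact inv_eq_of_mul_eq_one_right h1

variable [Algebra R ↥(modularFunctionFieldFullC K (M' * q))]
  [IsScalarTower R K ↥(modularFunctionFieldFullC K (M' * q))]

/-- **The charts lie in `W`**: for `s ⊆ {h, h⁻¹}`, `pk15_chart R s ⊆ W` (second clause of
`s34i47_ChartProps` for `s = {h, h⁻¹}`). -/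
theorem al97C_chart_le_W (h : ↥(modularFunctionFieldFullC K (M' * q)))
    (hh : s34i47c_IsHaupt K (M' * q) q h) (s : Set ↥(modularFunctionFieldFullC K (M' * q)))
    (hs : s ⊆ {h, h⁻¹}) :
    ∀ x ∈ pk15_chart R s, x ∈ s34i47c_W (K := K) M' q hq hM' hπ := by
  have hgen : ∀ g ∈ s, g ∈ s34i47c_W (K := K) M' q hq hM' hπ := by
    intro g hg
    rcases hs hg with rfl | rfl
    · exact al97C_haupt_mem_W M' q hq hM' hπ _ hh
    · exact al97C_haupt_inv_mem_W M' q hq hM' hπ _ hh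
  intro x hx
  rw [s34i47c_W, wa5_mem_W]
  exact ⟨pk15_chart_le_V _ (al97C_algebraMap_mem_Vinf (K := K) M' q hπ) s
      (fun g hg => ((wa5_mem_W _ _ g).mp (hgen g hg)).1) x hx,
    pk15_chart_le_V _ (al97C_algebraMap_mem_V0 (K := K) M' q hq hM' hπ) s
      (fun g hg => ((wa5_mem_W _ _ g).mp (hgen g hg)).2) x hx⟩

end al97C_haupt

section al97C_frameGal

/-- The `V_∞`-half of FRAME-GAL at level `M' * q`: for every inertial `σ`, the coefficientwise
action preserves the valuation of `V_∞` ((G1): `σ x / x ∈ V_∞` for all `x ≠ 0`) and is trivial on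
`V_∞ / π V_∞` ((G2)).  Same binder block as `s34i47c_FrameGal`. -/
def al97C_VinfGal (M' q : ℕ) [NeZero M'] [NeZero q] : Prop :=
  ∀ (R K : Type) [CommRing R] [IsDomain R] [IsDiscreteValuationRing R] [Field K] [NumberField K]
    [Algebra K Kbar] [Algebra R K] [IsFractionRing R K]
    [Algebra R ↥(modularFunctionFieldFullC K (M' * q))]
    [IsScalarTower R K ↥(modularFunctionFieldFullC K (M' * q))] (π : R) (hπ : Irreducible π),
    (∀ n : ℕ, Nat.Coprime n q → IsUnit (n : R)) → ¬ IsUnit (q : R) →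
    ∀ σ : K ≃+* K, s34i47_Inertial R σ →
      (∀ x : ↥(modularFunctionFieldFullC K (M' * q)), x ≠ 0 →
        s34i47_coeffEquiv σ (M' * q) x / x ∈ cm85_Vinf (K := K) (M' * q) hπ) ∧
      (∀ x ∈ cm85_Vinf (K := K) (M' * q) hπ,
        (algebraMap R ↥(modularFunctionFieldFullC K (M' * q)) π)⁻¹ *
          (s34i47_coeffEquiv σ (M' * q) x - x) ∈ cm85_Vinf (K := K) (M' * q) hπ)

/-- **FRAME-GAL from its `V_∞`-half**: the transport to `V_0 = w^* V_∞` and to `W`, (G0) and
`σ h = h` are automatic. -/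
theorem al97C_frameGal_of (M' q : ℕ) [NeZero M'] [NeZero q] (hq : q.Prime) (hM' : ¬ q ∣ M')
    (hV : al97C_VinfGal M' q) : s34i47c_FrameGal M' q hq hM' := by
  intro R K _ _ _ _ _ _ _ _ _ _ π hπ hunit hqR σ hσ
  obtain ⟨h1, h2⟩ := hV R K π hπ hunit hqR σ hσ
  refine ⟨al97C_GalProps M' q hq hM' hπ σ (fun r => ?_) h1 h2,
    fun h hh => al97C_coeffEquiv_haupt σ (M' * q) q h hh⟩
  obtain ⟨r', hr', -⟩ := hσ r
  exact ⟨r', hr'⟩

/-- Package form. -/
theorem al97C_pkg_frameGal_of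
    (hV : ∀ (M' q : ℕ) [NeZero M'] [NeZero q], q.Prime → ¬ q ∣ M' → al97C_VinfGal M' q) :
    s34i47c_Pkg_FrameGal :=
  fun M' q _ _ hq hM' => al97C_frameGal_of M' q hq hM' (hV M' q hq hM')

end al97C_frameGal

end Fermat.Agent.S34
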