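import Mathlib

/-!
# S34 lab, row 489 (P3a-0, twin; helper7): the `0`-branch is the `w_q`-image of the `∞`-branch

Mathlib only.  All names are prefixed `bz7_`.

## (i) Integrality of `β^* h = h(q τ)` over `R[h]` (valuative, abstract)

* `bz7_newton_le`, `bz7_newton_int`, `bz7_newton` : for a relation of modular-equation shape
  between `x` and `y` (unit coefficients at `x^(q+1)`, `y^(q+1)`, `x^q y^q`; every other monomial
  `x^a y^b` has `a, b ≤ q`, not both `= q`) and ANY valuation subring `O` of the ambient field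
  containing the coefficients: `v y ≤ 1 ↔ v x ≤ 1`, and if both are `> 1` then `v y = (v x)^q` or
  `v x = (v y)^q` (`bz7_Newton O q x y`).
* `bz7_profile` : the valuation profile `bz7_Profile O e h j j₁` of a Hauptmodul `h` of level `e`
  from the product relations `j h^e = ∏ (h + cᵢ)`, `j₁ h = ∏ (h + c₁ᵢ)` (`e + 1` unit constants
  each; level 2: `j h² = (h+256)³`, `j₂ h = (h+16)³`; level 3: `j h³ = (h+27)(h+243)³`,
  `j₃ h = (h+27)(h+3)³`).
* `bz7_val` : two Newton conditions (for `(j', j)` and `(j₁', j₁)`) and the two profiles force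
  `v h ≤ 1 → v h' ≤ 1` and `1 ≤ v h → 1 ≤ v h'` when `q ≠ e`.
* `bz7_isIntegral_of_valuation` : valuative criterion of integrality over `R[s]`.
* `bz7_main` : `h'` integral over `R[h]`, `h'⁻¹` over `R[h⁻¹]`, `h` over `R[h']`, `h⁻¹` over
  `R[h'⁻¹]`.

## (W) Stability of the charts under `w`

* `bz7_isIntegral_trans`, `bz7_isIntegral_mono`, `bz7_closure_iff`, `bz7_isIntegral_map`,
  `bz7_stable`, `bz7_charts_stable` : the integral closures of `R[h]`, `R[h⁻¹]`, `R[h, h⁻¹]` in `F`
  (`pk15_chart R {h}` etc. by `pk15_mem_chart`, which is `Iff.rfl`) are stable under an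
  automorphism `w` of `F` fixing `R` with `w h`, `w⁻¹ h` as in `bz7_main`.

## (T) Transport of the `∞`-branch to the `0`-branch

* `bz7_res` : the restriction of `w` to a stable subalgebra `B`; `bz7_quotEquiv`, `bz7_dedekind` :
  `B ⧸ w⁻¹(p) ≃ B ⧸ p`, so the Dedekind property of the `∞`-branch `B ⧸ p_∞` gives the one of the
  `0`-branch `B ⧸ p_0`, `p_0 = w⁻¹(p_∞)`; `bz7_valuation_comap_lt_one` : the centre of
  `V.comap w` is the `w`-preimage of the centre of `V`.
* `bz7_LocAt` (the body of `s34i47_LocStr` at one closed point), `bz7_LocAt_comap`,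
  `bz7_LocAt_zero_branch` : the local structure at the closed points off the `∞`-branch follows
  from the local structure at the closed points off the `0`-branch.
-/

set_option autoImplicit false

namespace Fermat.Agent.S34


section bz7_newton

variable {F : Type*} [Field F]

open Finset in
/-- **Newton dichotomy at infinity, ordered half.**  A relation of modular-equation shape between
`x` and `y` (leading monomials `x^(q+1)`, `y^(q+1)`, `x^q y^q` with unit coefficients, all other
monomials `x^a y^b` with `a, b ≤ q`, not both `= q`), `1 < v x ≤ v y`: then `v y = (v x)^q`. -/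
theorem bz7_newton_le (O : ValuationSubring F) (q : ℕ) (hq : 2 ≤ q) (x y u₁ u₂ u₃ : F)
    (hu₁ : O.valuation u₁ = 1) (hu₂ : O.valuation u₂ = 1) (hu₃ : O.valuation u₃ = 1)
    {ι : Type*} (S : Finset ι) (c : ι → F) (a b : ι → ℕ)
    (hc : ∀ i ∈ S, O.valuation (c i) ≤ 1) (ha : ∀ i ∈ S, a i ≤ q) (hb : ∀ i ∈ S, b i ≤ q)
    (hab : ∀ i ∈ S, a i < q ∨ b i < q)
    (hrel : u₁ * x ^ (q + 1) + u₂ * y ^ (q + 1) + u₃ * (x ^ q * y ^ q)
        + ∑ i ∈ S, c i * (x ^ a i * y ^ b i) = 0)
    (hx : 1 < O.valuation x) (hxy : O.valuation x ≤ O.valuation y) :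
    O.valuation y = O.valuation x ^ q := by
  set v := O.valuation with hv
  set A := v x with hA
  set B := v y with hB
  have hB1 : 1 < B := lt_of_lt_of_le hx hxy
  have hA0 : 0 < A := lt_trans zero_lt_one hx
  have hB0 : 0 < B := lt_trans zero_lt_one hB1
  have hAq0 : 0 < A ^ q := pow_pos hA0 q
  have hBq0 : 0 < B ^ q := pow_pos hB0 q
  -- the dominant value
  have hT1 : v (u₃ * (x ^ q * y ^ q)) = A ^ q * B ^ q := by
    rw [map_mul, map_mul, map_pow, map_pow, hu₃, one_mul]
  have hT2 : v (u₂ * y ^ (q + 1)) = B ^ (q + 1) := by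
    rw [map_mul, map_pow, hu₂, one_mul]
  have hBlt : B < B ^ q := by
    calc B = B ^ 1 := (pow_one B).symm
      _ < B ^ q := pow_lt_pow_right₀ hB1 (by omega)
  -- the rest is strictly smaller
  have hT3 : v (u₁ * x ^ (q + 1)) < A ^ q * B ^ q := by
    rw [map_mul, map_pow, hu₁, one_mul, pow_succ]
    calc A ^ q * A ≤ A ^ q * B := by gcongr
      _ < A ^ q * B ^ q := by gcongr
  have hsum : v (∑ i ∈ S, c i * (x ^ a i * y ^ b i)) < A ^ q * B ^ q := by
    refine Valuation.map_sum_lt v (ne_of_gt (mul_pos hAq0 hBq0)) ?_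
    intro i hi
    rw [map_mul, map_mul, map_pow, map_pow]
    have h1 : v (c i) * (A ^ a i * B ^ b i) ≤ A ^ a i * B ^ b i := by
      calc v (c i) * (A ^ a i * B ^ b i) ≤ 1 * (A ^ a i * B ^ b i) := by
            gcongr
            exact hc i hi
        _ = A ^ a i * B ^ b i := one_mul _
    refine lt_of_le_of_lt h1 ?_
    rcases hab i hi with h | h
    · calc A ^ a i * B ^ b i ≤ A ^ a i * B ^ q := by
            gcongr
            · exact hB1.le
            · exact hb i hi
        _ < A ^ q * B ^ q := by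
            gcongr
    · calc A ^ a i * B ^ b i ≤ A ^ q * B ^ b i := by
            gcongr
            · exact hx.le
            · exact ha i hi
        _ < A ^ q * B ^ q := by
            gcongr
  have hrest : v (u₁ * x ^ (q + 1) + ∑ i ∈ S, c i * (x ^ a i * y ^ b i)) < A ^ q * B ^ q :=
    Valuation.map_add_lt v hT3 hsum
  have hsplit : u₃ * (x ^ q * y ^ q) + u₂ * y ^ (q + 1) =
      -(u₁ * x ^ (q + 1) + ∑ i ∈ S, c i * (x ^ a i * y ^ b i)) := by
    rw [eq_neg_iff_add_eq_zero, ← hrel]; ring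
  have hv12 : v (u₃ * (x ^ q * y ^ q) + u₂ * y ^ (q + 1)) < A ^ q * B ^ q := by
    rw [hsplit, Valuation.map_neg]; exact hrest
  have heq : A ^ q * B ^ q = B ^ (q + 1) := by
    by_contra hne
    have hmax := Valuation.map_add_of_distinct_val v (x := u₃ * (x ^ q * y ^ q))
      (y := u₂ * y ^ (q + 1)) (by rw [hT1, hT2]; exact hne)
    rw [hmax, hT1, hT2] at hv12
    exact absurd (le_max_left _ _) (not_le.mpr hv12)
  rw [pow_succ, mul_comm] at heq
  exact (mul_left_cancel₀ (ne_of_gt hBq0) heq).symm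

open Finset in
/-- **Integrality half of the modular-equation shape**: `v y ≤ 1 → v x ≤ 1`. -/
theorem bz7_newton_int (O : ValuationSubring F) (q : ℕ) (x y u₁ u₂ u₃ : F)
    (hu₁ : O.valuation u₁ = 1) (hu₂ : O.valuation u₂ = 1) (hu₃ : O.valuation u₃ = 1)
    {ι : Type*} (S : Finset ι) (c : ι → F) (a b : ι → ℕ)
    (hc : ∀ i ∈ S, O.valuation (c i) ≤ 1) (ha : ∀ i ∈ S, a i ≤ q)
    (hrel : u₁ * x ^ (q + 1) + u₂ * y ^ (q + 1) + u₃ * (x ^ q * y ^ q)
        + ∑ i ∈ S, c i * (x ^ a i * y ^ b i) = 0)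
    (hy : O.valuation y ≤ 1) : O.valuation x ≤ 1 := by
  by_contra hx'
  have hx : 1 < O.valuation x := not_le.mp hx'
  set v := O.valuation with hv
  set A := v x with hA
  set B := v y with hB
  have hA0 : 0 < A := lt_trans zero_lt_one hx
  have hAq : A ^ q < A ^ (q + 1) := pow_lt_pow_right₀ hx (Nat.lt_succ_self q)
  have hAq1 : 1 ≤ A ^ q := one_le_pow₀ hx.le
  have hBpow : ∀ n : ℕ, B ^ n ≤ 1 := fun n => pow_le_one₀ zero_le hy
  have hT1 : v (u₁ * x ^ (q + 1)) = A ^ (q + 1) := by
    rw [map_mul, map_pow, hu₁, one_mul]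
  have hT2 : v (u₂ * y ^ (q + 1)) < A ^ (q + 1) := by
    rw [map_mul, map_pow, hu₂, one_mul]
    exact lt_of_le_of_lt (hBpow _) (lt_of_le_of_lt hAq1 hAq)
  have hT3 : v (u₃ * (x ^ q * y ^ q)) < A ^ (q + 1) := by
    rw [map_mul, map_mul, map_pow, map_pow, hu₃, one_mul]
    calc A ^ q * B ^ q ≤ A ^ q * 1 := by
          gcongr
          exact hBpow q
      _ = A ^ q := mul_one _
      _ < A ^ (q + 1) := hAq
  have hsum : v (∑ i ∈ S, c i * (x ^ a i * y ^ b i)) < A ^ (q + 1) := by
    refine Valuation.map_sum_lt v (ne_of_gt (pow_pos hA0 _)) ?_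
    intro i hi
    rw [map_mul, map_mul, map_pow, map_pow]
    calc v (c i) * (A ^ a i * B ^ b i) ≤ 1 * (A ^ a i * 1) := by
          gcongr
          · exact hc i hi
          · exact hBpow _
      _ = A ^ a i := by rw [one_mul, mul_one]
      _ ≤ A ^ q := pow_le_pow_right₀ hx.le (ha i hi)
      _ < A ^ (q + 1) := hAq
  have hsplit : u₁ * x ^ (q + 1) =
      -(u₂ * y ^ (q + 1) + u₃ * (x ^ q * y ^ q) + ∑ i ∈ S, c i * (x ^ a i * y ^ b i)) := by
    rw [eq_neg_iff_add_eq_zero, ← hrel]; ring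
  have hlt : v (u₁ * x ^ (q + 1)) < A ^ (q + 1) := by
    rw [hsplit, Valuation.map_neg]
    exact Valuation.map_add_lt v (Valuation.map_add_lt v hT2 hT3) hsum
  rw [hT1] at hlt
  exact lt_irrefl _ hlt

/-- The valuative content of a relation of modular-equation shape between `x` and `y`. -/
def bz7_Newton (O : ValuationSubring F) (q : ℕ) (x y : F) : Prop :=
  (O.valuation y ≤ 1 → O.valuation x ≤ 1) ∧ (O.valuation x ≤ 1 → O.valuation y ≤ 1) ∧
  (1 < O.valuation x → 1 < O.valuation y →
    O.valuation y = O.valuation x ^ q ∨ O.valuation x = O.valuation y ^ q)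

theorem bz7_Newton_symm {O : ValuationSubring F} {q : ℕ} {x y : F} (h : bz7_Newton O q x y) :
    bz7_Newton O q y x :=
  ⟨h.2.1, h.1, fun hy hx => (h.2.2 hx hy).symm⟩

open Finset in
/-- **Newton dichotomy at infinity** for a relation of modular-equation shape. -/
theorem bz7_newton (O : ValuationSubring F) (q : ℕ) (hq : 2 ≤ q) (x y u₁ u₂ u₃ : F)
    (hu₁ : O.valuation u₁ = 1) (hu₂ : O.valuation u₂ = 1) (hu₃ : O.valuation u₃ = 1)
    {ι : Type*} (S : Finset ι) (c : ι → F) (a b : ι → ℕ)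
    (hc : ∀ i ∈ S, O.valuation (c i) ≤ 1) (ha : ∀ i ∈ S, a i ≤ q) (hb : ∀ i ∈ S, b i ≤ q)
    (hab : ∀ i ∈ S, a i < q ∨ b i < q)
    (hrel : u₁ * x ^ (q + 1) + u₂ * y ^ (q + 1) + u₃ * (x ^ q * y ^ q)
        + ∑ i ∈ S, c i * (x ^ a i * y ^ b i) = 0) :
    bz7_Newton O q x y := by
  have hrel' : u₂ * y ^ (q + 1) + u₁ * x ^ (q + 1) + u₃ * (y ^ q * x ^ q)
        + ∑ i ∈ S, c i * (y ^ b i * x ^ a i) = 0 := by
    rw [← hrel, Finset.sum_congr rfl (fun i _ => by rw [mul_comm (y ^ b i) (x ^ a i)])]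
    ring
  refine ⟨fun hy => bz7_newton_int O q x y u₁ u₂ u₃ hu₁ hu₂ hu₃ S c a b hc ha hrel hy,
    fun hx => bz7_newton_int O q y x u₂ u₁ u₃ hu₂ hu₁ hu₃ S c b a hc hb hrel' hx, ?_⟩
  intro hx hy
  rcases le_total (O.valuation x) (O.valuation y) with hxy | hyx
  · exact Or.inl (bz7_newton_le O q hq x y u₁ u₂ u₃ hu₁ hu₂ hu₃ S c a b hc ha hb hab hrel hx hxy)
  · exact Or.inr (bz7_newton_le O q hq y x u₂ u₁ u₃ hu₂ hu₁ hu₃ S c b a hc hb ha
      (fun i hi => (hab i hi).symm) hrel' hy hyx)

end bz7_newton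

section bz7_profile

variable {F : Type*} [Field F]

open Finset in
theorem bz7_prod_val_small (O : ValuationSubring F) (h : F) {κ : Type*} (T : Finset κ)
    (c : κ → F) (hc : ∀ i ∈ T, O.valuation (c i) = 1) (hh : O.valuation h < 1) :
    O.valuation (∏ i ∈ T, (h + c i)) = 1 := by
  rw [map_prod]
  refine Finset.prod_eq_one fun i hi => ?_
  rw [Valuation.map_add_eq_of_lt_right _ (by rw [hc i hi]; exact hh), hc i hi]

open Finset in
theorem bz7_prod_val_big (O : ValuationSubring F) (h : F) {κ : Type*} (T : Finset κ)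
    (c : κ → F) (hc : ∀ i ∈ T, O.valuation (c i) = 1) (hh : 1 < O.valuation h) :
    O.valuation (∏ i ∈ T, (h + c i)) = O.valuation h ^ T.card := by
  rw [map_prod, ← Finset.prod_const]
  refine Finset.prod_congr rfl fun i hi => ?_
  exact Valuation.map_add_eq_of_lt_left _ (by rw [hc i hi]; exact hh)

open Finset in
theorem bz7_prod_val_unit (O : ValuationSubring F) (h : F) {κ : Type*} (T : Finset κ)
    (c : κ → F) (hc : ∀ i ∈ T, O.valuation (c i) = 1) (hh : O.valuation h = 1) :
    O.valuation (∏ i ∈ T, (h + c i)) ≤ 1 := by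
  rw [map_prod]
  refine Finset.prod_le_one' fun i hi => ?_
  exact Valuation.map_add_le _ hh.le (hc i hi).le

/-- The valuation profile of a Hauptmodul `h` of level `e` against `j` and `j₁ = j(e τ)`:
`j` has a pole of order `e` at `h = 0` and a simple pole at `h = ∞`, and `j₁` the other way round;
both are regular where `h` is a unit. -/
def bz7_Profile (O : ValuationSubring F) (e : ℕ) (h j j₁ : F) : Prop :=
  (O.valuation h < 1 →
    O.valuation j * O.valuation h ^ e = 1 ∧ O.valuation j₁ * O.valuation h = 1) ∧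
  (1 < O.valuation h → O.valuation j = O.valuation h ∧ O.valuation j₁ = O.valuation h ^ e) ∧
  (O.valuation h = 1 → O.valuation j ≤ 1 ∧ O.valuation j₁ ≤ 1)

open Finset in
/-- The profile from the two product relations `j h^e = ∏ (h + cᵢ)`, `j₁ h = ∏ (h + c₁ᵢ)`
(`e + 1` factors each, all constants units). -/
theorem bz7_profile (O : ValuationSubring F) (e : ℕ) (h j j₁ : F) {κ κ₁ : Type*}
    (T : Finset κ) (hT : T.card = e + 1) (c : κ → F) (hc : ∀ i ∈ T, O.valuation (c i) = 1)
    (T₁ : Finset κ₁) (hT₁ : T₁.card = e + 1) (c₁ : κ₁ → F)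
    (hc₁ : ∀ i ∈ T₁, O.valuation (c₁ i) = 1)
    (hj : j * h ^ e = ∏ i ∈ T, (h + c i)) (hj₁ : j₁ * h = ∏ i ∈ T₁, (h + c₁ i)) :
    bz7_Profile O e h j j₁ := by
  have hvj : O.valuation j * O.valuation h ^ e = O.valuation (∏ i ∈ T, (h + c i)) := by
    rw [← hj, map_mul, map_pow]
  have hvj₁ : O.valuation j₁ * O.valuation h = O.valuation (∏ i ∈ T₁, (h + c₁ i)) := by
    rw [← hj₁, map_mul]
  refine ⟨fun hh => ?_, fun hh => ?_, fun hh => ?_⟩
  · exact ⟨hvj.trans (bz7_prod_val_small O h T c hc hh),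
      hvj₁.trans (bz7_prod_val_small O h T₁ c₁ hc₁ hh)⟩
  · have h0 : O.valuation h ≠ 0 := ne_of_gt (lt_trans zero_lt_one hh)
    rw [bz7_prod_val_big O h T c hc hh, hT] at hvj
    rw [bz7_prod_val_big O h T₁ c₁ hc₁ hh, hT₁] at hvj₁
    refine ⟨?_, ?_⟩
    · rw [pow_succ, mul_comm (O.valuation h ^ e)] at hvj
      exact mul_right_cancel₀ (pow_ne_zero e h0) hvj
    · rw [pow_succ] at hvj₁
      exact mul_right_cancel₀ h0 hvj₁
  · have h1 := bz7_prod_val_unit O h T c hc hh
    have h2 := bz7_prod_val_unit O h T₁ c₁ hc₁ hh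
    rw [← hvj, hh, one_pow, mul_one] at h1
    rw [← hvj₁, hh, mul_one] at h2
    exact ⟨h1, h2⟩

end bz7_profile

section bz7_arith

/-- The arithmetic of the two Newton conditions: they are incompatible unless `q = e`. -/
theorem bz7_arith {Γ : Type*} [LinearOrderedCommGroupWithZero Γ] (A B : Γ) (hA : 1 < A)
    (hB : 1 < B) (e q : ℕ) (he : 2 ≤ e) (hq : 2 ≤ q) (hqe : q ≠ e)
    (h1 : A ^ e = B ^ q ∨ B = (A ^ e) ^ q) (h2 : A = (B ^ e) ^ q ∨ B ^ e = A ^ q) : False := by
  have hAinj : Function.Injective (fun n : ℕ => A ^ n) :=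
    pow_right_injective₀ (lt_trans zero_lt_one hA) (ne_of_gt hA)
  have hBinj : Function.Injective (fun n : ℕ => B ^ n) :=
    pow_right_injective₀ (lt_trans zero_lt_one hB) (ne_of_gt hB)
  have hbig : q < e * q * e := by
    have h4 : 2 * q * 2 ≤ e * q * e := Nat.mul_le_mul (Nat.mul_le_mul he le_rfl) he
    omega
  rcases h1 with h1 | h1 <;> rcases h2 with h2 | h2
  · -- `A^e = B^q`, `A = (B^e)^q`
    have h3 : B ^ (e * q * e) = B ^ q := by
      calc B ^ (e * q * e) = ((B ^ e) ^ q) ^ e := by rw [pow_mul, pow_mul]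
        _ = A ^ e := by rw [← h2]
        _ = B ^ q := h1
    exact absurd (hBinj h3) (ne_of_gt hbig)
  · -- `A^e = B^q`, `B^e = A^q`
    have h3 : A ^ (e * e) = A ^ (q * q) := by
      calc A ^ (e * e) = (A ^ e) ^ e := by rw [pow_mul]
        _ = (B ^ q) ^ e := by rw [h1]
        _ = (B ^ e) ^ q := by rw [← pow_mul, ← pow_mul, mul_comm]
        _ = (A ^ q) ^ q := by rw [h2]
        _ = A ^ (q * q) := by rw [pow_mul]
    have h4 : e * e = q * q := hAinj h3
    exact hqe (Nat.mul_self_inj.mp h4).symm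
  · -- `B = (A^e)^q`, `A = (B^e)^q`
    have h3 : A ^ (e * q * e * q) = A ^ 1 := by
      calc A ^ (e * q * e * q) = (((A ^ e) ^ q) ^ e) ^ q := by
            rw [pow_mul, pow_mul, pow_mul]
        _ = (B ^ e) ^ q := by rw [← h1]
        _ = A := h2.symm
        _ = A ^ 1 := (pow_one A).symm
    have h4 : e * q * e * q = 1 := hAinj h3
    have h5 : 2 * 2 * 2 * 2 ≤ e * q * e * q :=
      Nat.mul_le_mul (Nat.mul_le_mul (Nat.mul_le_mul he hq) he) hq
    omega
  · -- `B = (A^e)^q`, `B^e = A^q`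
    have h3 : A ^ (e * q * e) = A ^ q := by
      calc A ^ (e * q * e) = ((A ^ e) ^ q) ^ e := by rw [pow_mul, pow_mul]
        _ = B ^ e := by rw [← h1]
        _ = A ^ q := h2
    exact absurd (hAinj h3) (ne_of_gt hbig)

end bz7_arith

section bz7_val

variable {F : Type*} [Field F]

/-- **The valuative statement.**  `h`, `h'` two functions with the profile of a Hauptmodul of
level `e` against `(j, j₁)` resp. `(j', j₁')`, and `(j', j)`, `(j₁', j₁)` related by an equation of
modular shape of level `q ≠ e`: then `h'` is regular where `h` is, and `h'⁻¹` is regular where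
`h⁻¹` is. -/
theorem bz7_val (O : ValuationSubring F) (e q : ℕ) (he : 2 ≤ e) (hq : 2 ≤ q) (hqe : q ≠ e)
    (h h' j j' j₁ j₁' : F) (hh0 : h ≠ 0) (hh'0 : h' ≠ 0)
    (P : bz7_Profile O e h j j₁) (P' : bz7_Profile O e h' j' j₁')
    (N : bz7_Newton O q j' j) (N₁ : bz7_Newton O q j₁' j₁) :
    (O.valuation h ≤ 1 → O.valuation h' ≤ 1) ∧ (1 ≤ O.valuation h → 1 ≤ O.valuation h') := by
  have hv0 : O.valuation h ≠ 0 := (Valuation.ne_zero_iff _).mpr hh0
  have hv'0 : O.valuation h' ≠ 0 := (Valuation.ne_zero_iff _).mpr hh'0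
  have inv_gt : ∀ a : O.ValueGroup, a ≠ 0 → a < 1 → 1 < a⁻¹ := fun a ha0 ha =>
    (one_lt_inv₀ (lt_of_le_of_ne zero_le ha0.symm)).mpr ha
  constructor
  · intro hle
    by_contra hcon
    have hB : 1 < O.valuation h' := not_le.mp hcon
    obtain ⟨hj', hj₁'⟩ := P'.2.1 hB
    rcases lt_or_eq_of_le hle with hlt | heq
    · obtain ⟨hj, hj₁⟩ := P.1 hlt
      have hA := inv_gt _ hv0 hlt
      have hjA : O.valuation j = (O.valuation h)⁻¹ ^ e := by
        rw [inv_pow]; exact eq_inv_of_mul_eq_one_left hj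
      have hj₁A : O.valuation j₁ = (O.valuation h)⁻¹ := eq_inv_of_mul_eq_one_left hj₁
      have hj1 : 1 < O.valuation j := by rw [hjA]; exact one_lt_pow₀ hA (by omega)
      have hj₁1 : 1 < O.valuation j₁ := by rw [hj₁A]; exact hA
      have hj'1 : 1 < O.valuation j' := by rw [hj']; exact hB
      have hj₁'1 : 1 < O.valuation j₁' := by rw [hj₁']; exact one_lt_pow₀ hB (by omega)
      have n1 := N.2.2 hj'1 hj1
      have n2 := N₁.2.2 hj₁'1 hj₁1
      rw [hjA, hj'] at n1
      rw [hj₁A, hj₁'] at n2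
      exact bz7_arith _ _ hA hB e q he hq hqe n1 n2
    · have hj := (P.2.2 heq).1
      have := N.1 hj
      rw [hj'] at this
      exact absurd this (not_le.mpr hB)
  · intro hle
    by_contra hcon
    have hlt' : O.valuation h' < 1 := not_le.mp hcon
    obtain ⟨hj', hj₁'⟩ := P'.1 hlt'
    have hB := inv_gt _ hv'0 hlt'
    have hj'B : O.valuation j' = (O.valuation h')⁻¹ ^ e := by
      rw [inv_pow]; exact eq_inv_of_mul_eq_one_left hj'
    have hj₁'B : O.valuation j₁' = (O.valuation h')⁻¹ := eq_inv_of_mul_eq_one_left hj₁'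
    have hj'1 : 1 < O.valuation j' := by rw [hj'B]; exact one_lt_pow₀ hB (by omega)
    have hj₁'1 : 1 < O.valuation j₁' := by rw [hj₁'B]; exact hB
    rcases lt_or_eq_of_le hle with hlt | heq
    · obtain ⟨hj, hj₁⟩ := P.2.1 hlt
      have hj1 : 1 < O.valuation j := by rw [hj]; exact hlt
      have hj₁1 : 1 < O.valuation j₁ := by rw [hj₁]; exact one_lt_pow₀ hlt (by omega)
      have n1 := N.2.2 hj'1 hj1
      have n2 := N₁.2.2 hj₁'1 hj₁1
      rw [hj, hj'B] at n1
      rw [hj₁, hj₁'B] at n2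
      exact bz7_arith _ _ hlt hB e q he hq hqe n2 n1
    · have hj₁ := (P.2.2 heq.symm).2
      have := N₁.1 hj₁
      exact absurd this (not_le.mpr hj₁'1)

end bz7_val

section bz7_integral

variable {F : Type*} [Field F] {R : Type*} [CommRing R] [Algebra R F]

/-- **Valuative criterion of integrality** over `R[s]`: `x` is integral over `R[s]` as soon as
it lies in every valuation subring of `F` containing (the image of) `R` and `s`. -/
theorem bz7_isIntegral_of_valuation (s : Set F) (x : F)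
    (H : ∀ O : ValuationSubring F, (∀ r : R, algebraMap R F r ∈ O) → (∀ y ∈ s, y ∈ O) → x ∈ O) :
    IsIntegral (Algebra.adjoin R s) x := by
  have hcl : (Algebra.adjoin R s).toSubring = Subring.closure (Set.range (algebraMap R F) ∪ s) :=
    Algebra.adjoin_eq_ring_closure s
  have hx : x ∈ (integralClosure (Subring.closure (Set.range (algebraMap R F) ∪ s)) F).toSubring := by
    rw [← iInf_valuationSubring_superset, Subring.mem_iInf]
    rintro ⟨O, hO⟩
    exact H O (fun r => hO (Or.inl ⟨r, rfl⟩)) (fun y hy => hO (Or.inr hy))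
  obtain ⟨p, hp, hpx⟩ := hx
  have hle : Subring.closure (Set.range (algebraMap R F) ∪ s) ≤ (Algebra.adjoin R s).toSubring :=
    hcl.ge
  refine ⟨p.map (Subring.inclusion hle), hp.map _, ?_⟩
  rw [Polynomial.eval₂_map]
  exact hpx

/-- A unit of `R` has valuation `1` in every valuation subring containing the image of `R`. -/
theorem bz7_val_unit (O : ValuationSubring F) (hR : ∀ r : R, algebraMap R F r ∈ O) {u : R}
    (hu : IsUnit u) : O.valuation (algebraMap R F u) = 1 := by
  obtain ⟨u, rfl⟩ := hu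
  have h1 : O.valuation (algebraMap R F (u : R)) ≤ 1 := (O.valuation_le_one_iff _).mpr (hR _)
  have h2 : O.valuation (algebraMap R F ((u⁻¹ : Rˣ) : R)) ≤ 1 :=
    (O.valuation_le_one_iff _).mpr (hR _)
  have h3 : O.valuation (algebraMap R F (u : R)) * O.valuation (algebraMap R F ((u⁻¹ : Rˣ) : R))
      = 1 := by
    rw [← map_mul, ← map_mul, Units.mul_inv, map_one, map_one]
  refine le_antisymm h1 ?_
  by_contra hlt
  have h4 : O.valuation (algebraMap R F (u : R)) * O.valuation (algebraMap R F ((u⁻¹ : Rˣ) : R))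
      < 1 := by
    calc _ ≤ O.valuation (algebraMap R F (u : R)) * 1 := by gcongr
      _ = O.valuation (algebraMap R F (u : R)) := mul_one _
      _ < 1 := not_le.mp hlt
  rw [h3] at h4
  exact lt_irrefl _ h4

open Finset in
/-- **Integrality of `β^* h` over `R[h]` (and the three companions).**
`h`, `h'` (think `h' = h(q τ)`) satisfy the product relations of a Hauptmodul of level `e` against
`(j, j₁)` resp. `(j', j₁')` (think `j₁ = j(e τ)`, `j' = j(q τ)`, `j₁' = j(e q τ)`) with constants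
units of `R`; the pairs `(j', j)` and `(j₁', j₁)` satisfy one relation of modular-equation shape of
level `q ≠ e` with coefficients in `R` (unit coefficients at `X^(q+1)`, `Y^(q+1)`, `X^q Y^q`; all
other monomials `X^a Y^b` have `a, b ≤ q`, not both `= q`).  Then `h'` is integral over `R[h]`,
`h'⁻¹` over `R[h⁻¹]`, `h` over `R[h']` and `h⁻¹` over `R[h'⁻¹]`. -/
theorem bz7_main (e q : ℕ) (he : 2 ≤ e) (hq : 2 ≤ q) (hqe : q ≠ e)
    (h h' j j' j₁ j₁' : F) (hh0 : h ≠ 0) (hh'0 : h' ≠ 0)
    {κ κ₁ : Type*} (T : Finset κ) (hT : T.card = e + 1) (c : κ → R) (hc : ∀ i ∈ T, IsUnit (c i))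
    (T₁ : Finset κ₁) (hT₁ : T₁.card = e + 1) (c₁ : κ₁ → R) (hc₁ : ∀ i ∈ T₁, IsUnit (c₁ i))
    (hj : j * h ^ e = ∏ i ∈ T, (h + algebraMap R F (c i)))
    (hj₁ : j₁ * h = ∏ i ∈ T₁, (h + algebraMap R F (c₁ i)))
    (hj' : j' * h' ^ e = ∏ i ∈ T, (h' + algebraMap R F (c i)))
    (hj₁' : j₁' * h' = ∏ i ∈ T₁, (h' + algebraMap R F (c₁ i)))
    (u₁ u₂ u₃ : R) (hu₁ : IsUnit u₁) (hu₂ : IsUnit u₂) (hu₃ : IsUnit u₃)
    {ι : Type*} (S : Finset ι) (cc : ι → R) (a b : ι → ℕ)
    (ha : ∀ i ∈ S, a i ≤ q) (hb : ∀ i ∈ S, b i ≤ q) (hab : ∀ i ∈ S, a i < q ∨ b i < q)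
    (hΦ : algebraMap R F u₁ * j' ^ (q + 1) + algebraMap R F u₂ * j ^ (q + 1)
        + algebraMap R F u₃ * (j' ^ q * j ^ q)
        + ∑ i ∈ S, algebraMap R F (cc i) * (j' ^ a i * j ^ b i) = 0)
    (hΦ₁ : algebraMap R F u₁ * j₁' ^ (q + 1) + algebraMap R F u₂ * j₁ ^ (q + 1)
        + algebraMap R F u₃ * (j₁' ^ q * j₁ ^ q)
        + ∑ i ∈ S, algebraMap R F (cc i) * (j₁' ^ a i * j₁ ^ b i) = 0) :
    IsIntegral (Algebra.adjoin R ({h} : Set F)) h' ∧
    IsIntegral (Algebra.adjoin R ({h⁻¹} : Set F)) h'⁻¹ ∧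
    IsIntegral (Algebra.adjoin R ({h'} : Set F)) h ∧
    IsIntegral (Algebra.adjoin R ({h'⁻¹} : Set F)) h⁻¹ := by
  have key : ∀ O : ValuationSubring F, (∀ r : R, algebraMap R F r ∈ O) →
      ((O.valuation h ≤ 1 → O.valuation h' ≤ 1) ∧ (1 ≤ O.valuation h → 1 ≤ O.valuation h')) ∧
      ((O.valuation h' ≤ 1 → O.valuation h ≤ 1) ∧ (1 ≤ O.valuation h' → 1 ≤ O.valuation h)) := by
    intro O hR
    have hcO : ∀ i ∈ S, O.valuation (algebraMap R F (cc i)) ≤ 1 := fun i _ =>
      (O.valuation_le_one_iff _).mpr (hR _)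
    have P : bz7_Profile O e h j j₁ :=
      bz7_profile O e h j j₁ T hT (fun i => algebraMap R F (c i))
        (fun i hi => bz7_val_unit O hR (hc i hi)) T₁ hT₁ (fun i => algebraMap R F (c₁ i))
        (fun i hi => bz7_val_unit O hR (hc₁ i hi)) hj hj₁
    have P' : bz7_Profile O e h' j' j₁' :=
      bz7_profile O e h' j' j₁' T hT (fun i => algebraMap R F (c i))
        (fun i hi => bz7_val_unit O hR (hc i hi)) T₁ hT₁ (fun i => algebraMap R F (c₁ i))
        (fun i hi => bz7_val_unit O hR (hc₁ i hi)) hj' hj₁'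
    have N : bz7_Newton O q j' j :=
      bz7_newton O q hq j' j _ _ _ (bz7_val_unit O hR hu₁) (bz7_val_unit O hR hu₂)
        (bz7_val_unit O hR hu₃) S (fun i => algebraMap R F (cc i)) a b hcO ha hb hab hΦ
    have N₁ : bz7_Newton O q j₁' j₁ :=
      bz7_newton O q hq j₁' j₁ _ _ _ (bz7_val_unit O hR hu₁) (bz7_val_unit O hR hu₂)
        (bz7_val_unit O hR hu₃) S (fun i => algebraMap R F (cc i)) a b hcO ha hb hab hΦ₁
    exact ⟨bz7_val O e q he hq hqe h h' j j' j₁ j₁' hh0 hh'0 P P' N N₁,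
      bz7_val O e q he hq hqe h' h j' j j₁' j₁ hh'0 hh0 P' P (bz7_Newton_symm N)
        (bz7_Newton_symm N₁)⟩
  have inv_iff : ∀ (O : ValuationSubring F) (x : F), x ≠ 0 → (x⁻¹ ∈ O ↔ 1 ≤ O.valuation x) := by
    intro O x hx
    rw [← O.valuation_le_one_iff, map_inv₀]
    exact inv_le_one₀ (lt_of_le_of_ne zero_le ((Valuation.ne_zero_iff _).mpr hx).symm)
  refine ⟨?_, ?_, ?_, ?_⟩
  · refine bz7_isIntegral_of_valuation _ _ fun O hR hs => ?_
    exact (O.valuation_le_one_iff _).mp
      ((key O hR).1.1 ((O.valuation_le_one_iff _).mpr (hs h rfl)))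
  · refine bz7_isIntegral_of_valuation _ _ fun O hR hs => ?_
    exact (inv_iff O h' hh'0).mpr ((key O hR).1.2 ((inv_iff O h hh0).mp (hs _ rfl)))
  · refine bz7_isIntegral_of_valuation _ _ fun O hR hs => ?_
    exact (O.valuation_le_one_iff _).mp
      ((key O hR).2.1 ((O.valuation_le_one_iff _).mpr (hs h' rfl)))
  · refine bz7_isIntegral_of_valuation _ _ fun O hR hs => ?_
    exact (inv_iff O h hh0).mpr ((key O hR).2.2 ((inv_iff O h' hh'0).mp (hs _ rfl)))

end bz7_integral

section bz7_chart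

variable {F : Type*} [Field F] {R : Type*} [CommRing R] [Algebra R F]

/-- Transitivity of integrality over finitely generated subalgebras: if every element of `t` is
integral over `R[s]` and `z` is integral over `R[t]`, then `z` is integral over `R[s]`. -/
theorem bz7_isIntegral_trans (s t : Set F) (ht : ∀ y ∈ t, IsIntegral (Algebra.adjoin R s) y)
    (z : F) (hz : IsIntegral (Algebra.adjoin R t) z) : IsIntegral (Algebra.adjoin R s) z := by
  have hle : ∀ y ∈ Algebra.adjoin R t, y ∈ integralClosure (Algebra.adjoin R s) F := by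
    intro y hy
    induction hy using Algebra.adjoin_induction with
    | mem y hy => exact ht y hy
    | algebraMap r =>
      exact isIntegral_algebraMap (R := Algebra.adjoin R s)
        (x := ⟨algebraMap R F r, (Algebra.adjoin R s).algebraMap_mem r⟩)
    | add a b _ _ ha hb => exact (integralClosure (Algebra.adjoin R s) F).add_mem ha hb
    | mul a b _ _ ha hb => exact (integralClosure (Algebra.adjoin R s) F).mul_mem ha hb
  let ι : Algebra.adjoin R t →+* integralClosure (Algebra.adjoin R s) F :=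
    { toFun := fun y => ⟨y, hle y y.2⟩
      map_one' := rfl
      map_mul' := fun _ _ => rfl
      map_zero' := rfl
      map_add' := fun _ _ => rfl }
  have hzC : IsIntegral (integralClosure (Algebra.adjoin R s) F) z := by
    obtain ⟨p, hp, hpz⟩ := hz
    refine ⟨p.map ι, hp.map _, ?_⟩
    rw [Polynomial.eval₂_map]
    exact hpz
  exact isIntegral_trans z hzC

/-- Monotonicity of integrality in the generating set. -/
theorem bz7_isIntegral_mono {s t : Set F} (hst : s ⊆ t) (z : F)
    (hz : IsIntegral (Algebra.adjoin R s) z) : IsIntegral (Algebra.adjoin R t) z := by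
  refine bz7_isIntegral_trans t s (fun y hy => ?_) z hz
  exact isIntegral_algebraMap (R := Algebra.adjoin R t)
    (x := ⟨y, Algebra.subset_adjoin (hst hy)⟩)

/-- Two generating sets, each integral over the other, have the same integral closure. -/
theorem bz7_closure_iff (s t : Set F) (hst : ∀ y ∈ t, IsIntegral (Algebra.adjoin R s) y)
    (hts : ∀ x ∈ s, IsIntegral (Algebra.adjoin R t) x) (z : F) :
    IsIntegral (Algebra.adjoin R s) z ↔ IsIntegral (Algebra.adjoin R t) z :=
  ⟨bz7_isIntegral_trans t s hts z, bz7_isIntegral_trans s t hst z⟩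

/-- Integrality is transported by a ring endomorphism of `F` fixing `R`. -/
theorem bz7_isIntegral_map (w : F →+* F) (hw : ∀ r : R, w (algebraMap R F r) = algebraMap R F r)
    (s : Set F) (z : F) (hz : IsIntegral (Algebra.adjoin R s) z) :
    IsIntegral (Algebra.adjoin R (w '' s)) (w z) := by
  have hmem : ∀ y ∈ Algebra.adjoin R s, w y ∈ Algebra.adjoin R (w '' s) := by
    intro y hy
    induction hy using Algebra.adjoin_induction with
    | mem y hy => exact Algebra.subset_adjoin ⟨y, hy, rfl⟩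
    | algebraMap r => rw [hw]; exact (Algebra.adjoin R (w '' s)).algebraMap_mem r
    | add a b _ _ ha hb => rw [map_add]; exact (Algebra.adjoin R (w '' s)).add_mem ha hb
    | mul a b _ _ ha hb => rw [map_mul]; exact (Algebra.adjoin R (w '' s)).mul_mem ha hb
  let ρ : Algebra.adjoin R s →+* Algebra.adjoin R (w '' s) :=
    { toFun := fun y => ⟨w y, hmem y y.2⟩
      map_one' := Subtype.ext (map_one w)
      map_mul' := fun _ _ => Subtype.ext (map_mul w _ _)
      map_zero' := Subtype.ext (map_zero w)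
      map_add' := fun _ _ => Subtype.ext (map_add w _ _) }
  obtain ⟨p, hp, hpz⟩ := hz
  refine ⟨p.map ρ, hp.map _, ?_⟩
  rw [Polynomial.eval₂_map]
  have hcomp : (algebraMap (Algebra.adjoin R (w '' s)) F).comp ρ =
      w.comp (algebraMap (Algebra.adjoin R s) F) := RingHom.ext fun y => rfl
  rw [hcomp, ← Polynomial.hom_eval₂, hpz, map_zero]

/-- **Stability of the integral closure of `R[s]` under an automorphism** `w` fixing `R`, as soon
as `w` and `w⁻¹` map the generators into it. -/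
theorem bz7_stable (w : F ≃+* F) (hw : ∀ r : R, w (algebraMap R F r) = algebraMap R F r)
    (s : Set F) (h1 : ∀ y ∈ s, IsIntegral (Algebra.adjoin R s) (w y))
    (h2 : ∀ y ∈ s, IsIntegral (Algebra.adjoin R s) (w.symm y)) (z : F) :
    IsIntegral (Algebra.adjoin R s) (w z) ↔ IsIntegral (Algebra.adjoin R s) z := by
  have hw' : ∀ r : R, w.symm (algebraMap R F r) = algebraMap R F r := fun r => by
    rw [RingEquiv.symm_apply_eq, hw]
  have key : ∀ (v : F ≃+* F), (∀ r : R, v (algebraMap R F r) = algebraMap R F r) →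
      (∀ y ∈ s, IsIntegral (Algebra.adjoin R s) (v y)) → ∀ x : F,
      IsIntegral (Algebra.adjoin R s) x → IsIntegral (Algebra.adjoin R s) (v x) := by
    intro v hv hvs x hx
    have h3 := bz7_isIntegral_map (v : F →+* F) hv s x hx
    refine bz7_isIntegral_trans s ((v : F →+* F) '' s) ?_ _ h3
    rintro _ ⟨y, hy, rfl⟩
    exact hvs y hy
  constructor
  · intro hz
    have := key w.symm hw' h2 (w z) hz
    rwa [RingEquiv.symm_apply_apply] at this
  · exact key w hw h1 z

/-- **Stability of the three charts** (`R[h]`, `R[h⁻¹]`, `R[h, h⁻¹]`, integral closures in `F`)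
under an automorphism `w` fixing `R`, from the four integrality statements of `bz7_main` for
`h' = w h` and `h' = w⁻¹ h`. -/
theorem bz7_charts_stable (w : F ≃+* F) (hw : ∀ r : R, w (algebraMap R F r) = algebraMap R F r)
    (h : F) (i1 : IsIntegral (Algebra.adjoin R ({h} : Set F)) (w h))
    (i2 : IsIntegral (Algebra.adjoin R ({h⁻¹} : Set F)) (w h)⁻¹)
    (i3 : IsIntegral (Algebra.adjoin R ({h} : Set F)) (w.symm h))
    (i4 : IsIntegral (Algebra.adjoin R ({h⁻¹} : Set F)) (w.symm h)⁻¹) :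
    (∀ z : F, IsIntegral (Algebra.adjoin R ({h} : Set F)) (w z) ↔
      IsIntegral (Algebra.adjoin R ({h} : Set F)) z) ∧
    (∀ z : F, IsIntegral (Algebra.adjoin R ({h⁻¹} : Set F)) (w z) ↔
      IsIntegral (Algebra.adjoin R ({h⁻¹} : Set F)) z) ∧
    (∀ z : F, IsIntegral (Algebra.adjoin R ({h, h⁻¹} : Set F)) (w z) ↔
      IsIntegral (Algebra.adjoin R ({h, h⁻¹} : Set F)) z) := by
  have hs1 : ({h} : Set F) ⊆ {h, h⁻¹} := fun x hx => Or.inl hx
  have hs2 : ({h⁻¹} : Set F) ⊆ {h, h⁻¹} := fun x hx => Or.inr hx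
  refine ⟨fun z => bz7_stable w hw ({h} : Set F) ?_ ?_ z,
    fun z => bz7_stable w hw ({h⁻¹} : Set F) ?_ ?_ z,
    fun z => bz7_stable w hw ({h, h⁻¹} : Set F) ?_ ?_ z⟩
  · intro y hy
    rw [Set.mem_singleton_iff.mp hy]; exact i1
  · intro y hy
    rw [Set.mem_singleton_iff.mp hy]; exact i3
  · intro y hy
    rw [Set.mem_singleton_iff.mp hy, map_inv₀]; exact i2
  · intro y hy
    rw [Set.mem_singleton_iff.mp hy, map_inv₀]; exact i4
  · intro y hy
    rcases hy with hy | hy
    · rw [hy]; exact bz7_isIntegral_mono hs1 _ i1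
    · rw [Set.mem_singleton_iff.mp hy, map_inv₀]; exact bz7_isIntegral_mono hs2 _ i2
  · intro y hy
    rcases hy with hy | hy
    · rw [hy]; exact bz7_isIntegral_mono hs1 _ i3
    · rw [Set.mem_singleton_iff.mp hy, map_inv₀]; exact bz7_isIntegral_mono hs2 _ i4

end bz7_chart

section bz7_transport

variable {F : Type*} [Field F] {R : Type*} [CommRing R] [Algebra R F]

/-- The restriction of an automorphism `w` of `F` to a `w`-stable subalgebra `B`. -/
def bz7_res (B : Subalgebra R F) (w : F ≃+* F) (hwB : ∀ z : F, w z ∈ B ↔ z ∈ B) : ↥B ≃+* ↥B where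
  toFun x := ⟨w x, (hwB x).mpr x.2⟩
  invFun x := ⟨w.symm x, (hwB _).mp (by rw [w.apply_symm_apply]; exact x.2)⟩
  left_inv x := Subtype.ext (w.symm_apply_apply x)
  right_inv x := Subtype.ext (w.apply_symm_apply x)
  map_mul' x y := Subtype.ext (map_mul w _ _)
  map_add' x y := Subtype.ext (map_add w _ _)

@[simp]
theorem bz7_res_coe (B : Subalgebra R F) (w : F ≃+* F) (hwB : ∀ z : F, w z ∈ B ↔ z ∈ B)
    (x : B) : ((bz7_res B w hwB x : B) : F) = w x := rfl

@[simp]
theorem bz7_res_symm_coe (B : Subalgebra R F) (w : F ≃+* F) (hwB : ∀ z : F, w z ∈ B ↔ z ∈ B)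
    (x : B) : (((bz7_res B w hwB).symm x : B) : F) = w.symm x := rfl

theorem bz7_res_algebraMap (B : Subalgebra R F) (w : F ≃+* F) (hwB : ∀ z : F, w z ∈ B ↔ z ∈ B)
    (hw : ∀ r : R, w (algebraMap R F r) = algebraMap R F r) (r : R) :
    bz7_res B w hwB (algebraMap R B r) = algebraMap R B r :=
  Subtype.ext (hw r)

theorem bz7_res_symm_algebraMap (B : Subalgebra R F) (w : F ≃+* F)
    (hwB : ∀ z : F, w z ∈ B ↔ z ∈ B)
    (hw : ∀ r : R, w (algebraMap R F r) = algebraMap R F r) (r : R) :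
    (bz7_res B w hwB).symm (algebraMap R B r) = algebraMap R B r := by
  rw [RingEquiv.symm_apply_eq, bz7_res_algebraMap B w hwB hw]

/-- The quotient of `B` by the `w`-preimage of a prime is isomorphic to the quotient by that
prime: "the `0`-branch is the `w`-image of the `∞`-branch". -/
noncomputable def bz7_quotEquiv (B : Subalgebra R F) (w : F ≃+* F)
    (hwB : ∀ z : F, w z ∈ B ↔ z ∈ B) (p : Ideal B) :
    (B ⧸ p.comap ((bz7_res B w hwB : ↥B ≃+* ↥B) : ↥B →+* ↥B)) ≃+* (B ⧸ p) :=
  Ideal.quotientEquiv _ _ (bz7_res B w hwB)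
    (Ideal.map_comap_of_surjective _ (bz7_res B w hwB).surjective p).symm

/-- The Dedekind property is invariant under ring isomorphisms. -/
theorem bz7_isDedekindDomain_of_ringEquiv {A A' : Type*} [CommRing A] [CommRing A']
    [IsDedekindDomain A] (e : A ≃+* A') : IsDedekindDomain A' := by
  have : IsDomain A' := MulEquiv.isDomain A e.symm.toMulEquiv
  have : IsNoetherianRing A' := isNoetherianRing_of_ringEquiv A e
  have : Ring.DimensionLEOne A' := Ring.DimensionLEOne.of_ringEquiv e.symm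
  have : IsIntegrallyClosed A' := IsIntegrallyClosed.of_equiv e
  have : IsDedekindRing A' := { }
  infer_instance

/-- **Transport of the Dedekind property of a branch.** -/
theorem bz7_dedekind (B : Subalgebra R F) (w : F ≃+* F) (hwB : ∀ z : F, w z ∈ B ↔ z ∈ B)
    (p : Ideal B) [IsDedekindDomain (B ⧸ p)] :
    IsDedekindDomain (B ⧸ p.comap ((bz7_res B w hwB : ↥B ≃+* ↥B) : ↥B →+* ↥B)) :=
  bz7_isDedekindDomain_of_ringEquiv (bz7_quotEquiv B w hwB p).symm

/-- `x` is a non-unit of `V.comap w` iff `w x` is a non-unit of `V`: the centre of `V.comap w` is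
the `w`-preimage of the centre of `V`. -/
theorem bz7_valuation_comap_lt_one (V : ValuationSubring F) (w : F ≃+* F) (x : F) :
    (V.comap (w : F →+* F)).valuation x < 1 ↔ V.valuation (w x) < 1 := by
  have key : ∀ (O : ValuationSubring F) (y : F), O.valuation y < 1 ↔ (y = 0 ∨ y⁻¹ ∉ O) := by
    intro O y
    rcases eq_or_ne y 0 with rfl | hy
    · simp
    · rw [← O.valuation_le_one_iff, map_inv₀, not_le]
      have h0 : 0 < O.valuation y :=
        lt_of_le_of_ne zero_le ((Valuation.ne_zero_iff _).mpr hy).symm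
      constructor
      · intro h
        exact Or.inr ((one_lt_inv₀ h0).mpr h)
      · rintro (h | h)
        · exact absurd h hy
        · exact (one_lt_inv₀ h0).mp h
  rw [key, key, ValuationSubring.mem_comap]
  simp only [RingEquiv.coe_toRingHom, map_inv₀, EmbeddingLike.map_eq_zero_iff]

/-- The body of `s34i47_LocStr` at one maximal ideal `n`: local coordinates `z, z'` of the chart
`B` at `n` (smooth point: `z' = π`; node: `z z' = π ^ κ · unit`). -/
def bz7_LocAt (π : R) (B : Subalgebra R F) (n : Ideal B) : Prop :=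
  ∃ z z' : B, z ∈ n ∧ z' ∈ n ∧
    (∀ x ∈ n, ∃ s : B, s ∉ n ∧ ∃ a b c : B, s * x = a * z + b * z' + c * algebraMap R B π) ∧
    (z' = algebraMap R B π ∨
      ∃ (κ : ℕ) (s s' : B), s ∉ n ∧ s' ∉ n ∧ s * z * z' = algebraMap R B π ^ κ * s')

/-- **Transport of the local structure** along a ring automorphism `e` of the chart fixing `π`. -/
theorem bz7_LocAt_comap (π : R) (B : Subalgebra R F) (e : ↥B ≃+* ↥B)
    (he : e (algebraMap R B π) = algebraMap R B π) (n : Ideal B) (h : bz7_LocAt π B n) :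
    bz7_LocAt π B (n.comap (e : ↥B →+* ↥B)) := by
  obtain ⟨z, z', hz, hz', hgen, hor⟩ := h
  have he' : e.symm (algebraMap R B π) = algebraMap R B π := by
    rw [RingEquiv.symm_apply_eq, he]
  have hmem : ∀ x : B, e.symm x ∈ n.comap (e : ↥B →+* ↥B) ↔ x ∈ n := by
    intro x
    rw [Ideal.mem_comap, RingEquiv.coe_toRingHom, RingEquiv.apply_symm_apply]
  refine ⟨e.symm z, e.symm z', (hmem z).mpr hz, (hmem z').mpr hz', ?_, ?_⟩
  · intro x hx
    obtain ⟨s, hs, a, b, c, habc⟩ := hgen (e x) hx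
    refine ⟨e.symm s, fun h => hs ((hmem s).mp h), e.symm a, e.symm b, e.symm c, ?_⟩
    have := congrArg e.symm habc
    rw [map_mul, RingEquiv.symm_apply_apply, map_add, map_add, map_mul, map_mul, map_mul, he']
      at this
    exact this
  · rcases hor with h | ⟨κ, s, s', hs, hs', hrel⟩
    · left
      rw [h, he']
    · right
      refine ⟨κ, e.symm s, e.symm s', fun h => hs ((hmem s).mp h), fun h => hs' ((hmem s').mp h),
        ?_⟩
      have := congrArg e.symm hrel
      rw [map_mul, map_mul, map_mul, map_pow, he'] at this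
      exact this

/-- **The `0`-branch from the `∞`-branch.**  `e` an automorphism of the chart `B` fixing `π` and
exchanging two ideals `p_inf`, `p_0` (`x ∈ p_0 ↔ e x ∈ p_inf` and `x ∈ p_inf ↔ e x ∈ p_0`).  If the
chart has the local structure at every closed point of the special fibre which does not lie on
the `0`-branch, then it has it at every closed point which does not lie on the `∞`-branch. -/
theorem bz7_LocAt_zero_branch (π : R) (B : Subalgebra R F) (e : ↥B ≃+* ↥B)
    (he : e (algebraMap R B π) = algebraMap R B π) (p_inf p_0 : Ideal B)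
    (hswap : ∀ x : B, x ∈ p_inf ↔ e x ∈ p_0)
    (hinf : ∀ n : Ideal B, n.IsMaximal → algebraMap R B π ∈ n → ¬ p_0 ≤ n → bz7_LocAt π B n)
    (n : Ideal B) (hn : n.IsMaximal) (hπ : algebraMap R B π ∈ n) (hn0 : ¬ p_inf ≤ n) :
    bz7_LocAt π B n := by
  -- the transported point `n' = e(n)`, written as a comap
  set n' : Ideal B := n.comap ((e.symm : ↥B ≃+* ↥B) : ↥B →+* ↥B) with hn'
  have hn'max : n'.IsMaximal := Ideal.comap_isMaximal_of_surjective _ e.symm.surjective
  have he' : e.symm (algebraMap R B π) = algebraMap R B π := by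
    rw [RingEquiv.symm_apply_eq, he]
  have hπ' : algebraMap R B π ∈ n' := by
    rw [hn', Ideal.mem_comap, RingEquiv.coe_toRingHom, he']
    exact hπ
  have hn'0 : ¬ p_0 ≤ n' := by
    intro hle
    apply hn0
    intro x hx
    have h1 : e x ∈ n' := hle ((hswap x).mp hx)
    rw [hn', Ideal.mem_comap, RingEquiv.coe_toRingHom, RingEquiv.symm_apply_apply] at h1
    exact h1
  have h2 := bz7_LocAt_comap π B e he n' (hinf n' hn'max hπ' hn'0)
  have h3 : n'.comap (e : ↥B →+* ↥B) = n := by
    ext x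
    rw [Ideal.mem_comap, hn', Ideal.mem_comap, RingEquiv.coe_toRingHom, RingEquiv.coe_toRingHom,
      RingEquiv.symm_apply_apply]
  rwa [h3] at h2

end bz7_transport

end Fermat.Agent.S34
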