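import Fermat.Agent.S37.Kronecker87

/-!
# S34 lab (helper70, registry row 496): the exact support of the modular polynomial

For a prime `q` the modular equation `Φ_q(J(Q^q), J(Q)) = 0` in `ℤ((Q))`, in the shape consumed
by `nc70_newton` (NewtonCusp70):

`ps70_modEq` : there are integers `c a b` (`a, b ≤ q`) and `u = ± 1` with `c q q = -1` and
`x^(q+1) + u y^(q+1) + ∑_{a ≤ q} ∑_{b ≤ q} c a b x^a y^b = 0`, `x = J(Q^q)`, `y = J(Q)`.

So `Φ_q = X^(q+1) ± Y^(q+1) - X^q Y^q + (monomials X^a Y^b, a, b ≤ q, (a, b) ≠ (q, q))`.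

Route: `Φ_q(X, J(Q^q)) = (X - J(Q^(q^2))) ∏_b (X - J(ζ^b Q))` over `ℂ((Q))` (S28, `h93_family`,
`h82_Phi`); the roots have `Q`-orders `-q^2, -1, …, -1`, so the coefficient of `X^k` has order
`≥ k - q^2 - q` (Gauss weight with `X` of weight `-1`), while a polynomial of degree `d` in
`J(Q^q)` has order exactly `-q d`.

`ps70_modEq_map` : the same relation over any commutative ring.
All names are prefixed `ps70_`.
-/

set_option autoImplicit false
set_option linter.style.haveILetI false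

open ModularCurve Finset

namespace Fermat.Agent.S34

open Fermat.Agent.S24 Fermat.Agent.S28 Fermat.Agent.S37

noncomputable section

/-! ### Vanishing below an exponent -/

section VB

variable {R : Type*} [CommRing R]

/-- All coefficients of `x` below `t` vanish. -/
def ps70_VB (x : LaurentSeries R) (t : ℤ) : Prop := ∀ n : ℤ, n < t → x.coeff n = 0

theorem ps70_VB_mono {x : LaurentSeries R} {s t : ℤ} (h : ps70_VB x t) (hst : s ≤ t) :
    ps70_VB x s := fun n hn => h n (lt_of_lt_of_le hn hst)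

theorem ps70_VB_zero (t : ℤ) : ps70_VB (0 : LaurentSeries R) t := fun _ _ => rfl

theorem ps70_VB_one : ps70_VB (1 : LaurentSeries R) 0 := by
  intro n hn
  rw [HahnSeries.coeff_one, if_neg (ne_of_lt hn)]

theorem ps70_VB_neg {x : LaurentSeries R} {t : ℤ} (h : ps70_VB x t) : ps70_VB (-x) t := by
  intro n hn
  rw [HahnSeries.coeff_neg, h n hn, neg_zero]

theorem ps70_VB_sub {x y : LaurentSeries R} {t : ℤ} (hx : ps70_VB x t) (hy : ps70_VB y t) :
    ps70_VB (x - y) t := by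
  intro n hn
  rw [HahnSeries.coeff_sub, hx n hn, hy n hn, sub_zero]

theorem ps70_VB_mul {x y : LaurentSeries R} {s t : ℤ} (hx : ps70_VB x s) (hy : ps70_VB y t) :
    ps70_VB (x * y) (s + t) := by
  intro n hn
  rw [HahnSeries.coeff_mul]
  refine Finset.sum_eq_zero fun ij hij => ?_
  rw [Finset.mem_antidiagonal] at hij
  by_cases h1 : ij.1 < s
  · rw [hx _ h1, zero_mul]
  · have h2 : ij.2 < t := by
      have := hij.2.2
      omega
    rw [hy _ h2, mul_zero]

/-- The lowest coefficient of a product. -/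
theorem ps70_coeff_mul_low {x y : LaurentSeries R} {s t : ℤ} (hx : ps70_VB x s)
    (hy : ps70_VB y t) : (x * y).coeff (s + t) = x.coeff s * y.coeff t := by
  rw [HahnSeries.coeff_mul]
  refine Finset.sum_eq_single (s, t) (fun ij hij hne => ?_) (fun hnot => ?_)
  · rw [Finset.mem_antidiagonal] at hij
    by_cases h1 : ij.1 < s
    · rw [hx _ h1, zero_mul]
    · by_cases h2 : ij.2 < t
      · rw [hy _ h2, mul_zero]
      · exfalso
        apply hne
        have := hij.2.2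
        ext
        · show ij.1 = s
          omega
        · show ij.2 = t
          omega
  · by_contra hne
    apply hnot
    rw [Finset.mem_antidiagonal]
    refine ⟨?_, ?_, rfl⟩
    · rw [HahnSeries.mem_support]
      intro h0
      exact hne (by rw [h0, zero_mul])
    · rw [HahnSeries.mem_support]
      intro h0
      exact hne (by rw [h0, mul_zero])

/-- Lowest term data: `x` vanishes below `s` and has coefficient `a` at `s`. -/
def ps70_LT (x : LaurentSeries R) (s : ℤ) (a : R) : Prop := ps70_VB x s ∧ x.coeff s = a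

theorem ps70_LT_mul {x y : LaurentSeries R} {s t : ℤ} {a b : R} (hx : ps70_LT x s a)
    (hy : ps70_LT y t b) : ps70_LT (x * y) (s + t) (a * b) :=
  ⟨ps70_VB_mul hx.1 hy.1, by rw [ps70_coeff_mul_low hx.1 hy.1, hx.2, hy.2]⟩

theorem ps70_LT_prod {ι : Type*} (S : Finset ι) (f : ι → LaurentSeries R) (σ : ι → ℤ)
    (a : ι → R) (h : ∀ i ∈ S, ps70_LT (f i) (σ i) (a i)) :
    ps70_LT (∏ i ∈ S, f i) (∑ i ∈ S, σ i) (∏ i ∈ S, a i) := by
  classical
  induction S using Finset.induction_on with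
  | empty =>
    simp only [Finset.prod_empty, Finset.sum_empty]
    exact ⟨ps70_VB_one, by rw [HahnSeries.coeff_one, if_pos rfl]⟩
  | insert i S hi ih =>
    rw [Finset.prod_insert hi, Finset.sum_insert hi, Finset.prod_insert hi]
    exact ps70_LT_mul (h i (Finset.mem_insert_self i S))
      (ih fun k hk => h k (Finset.mem_insert_of_mem hk))

/-! ### Gauss weight on polynomials (`X` of weight `-1`) -/

/-- The coefficient of `X^k` vanishes below `t + k`. -/
def ps70_W (P : Polynomial (LaurentSeries R)) (t : ℤ) : Prop :=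
  ∀ k : ℕ, ps70_VB (P.coeff k) (t + k)

theorem ps70_W_one : ps70_W (1 : Polynomial (LaurentSeries R)) 0 := by
  intro k
  rw [Polynomial.coeff_one]
  split_ifs with h
  · subst h
    simpa using ps70_VB_one (R := R)
  · exact ps70_VB_zero _

theorem ps70_W_mul_X_sub_C {P : Polynomial (LaurentSeries R)} {t : ℤ} (hP : ps70_W P t)
    {r : LaurentSeries R} {ρ : ℤ} (hr : ps70_VB r ρ) (hρ : ρ ≤ -1) :
    ps70_W (P * (Polynomial.X - Polynomial.C r)) (t + ρ) := by
  intro k
  rcases k with _ | k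
  · rw [Polynomial.mul_coeff_zero, Polynomial.coeff_sub, Polynomial.coeff_X_zero,
      Polynomial.coeff_C_zero, zero_sub]
    have h1 := ps70_VB_mul (hP 0) (ps70_VB_neg hr)
    refine ps70_VB_mono h1 ?_
    push_cast
    omega
  · rw [Polynomial.coeff_mul_X_sub_C]
    refine ps70_VB_sub (ps70_VB_mono (hP k) ?_) (ps70_VB_mono (ps70_VB_mul (hP (k + 1)) hr) ?_)
    · push_cast
      omega
    · push_cast
      omega

theorem ps70_W_prod {ι : Type*} (S : Finset ι) (r : ι → LaurentSeries R)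
    (hr : ∀ i ∈ S, ps70_VB (r i) (-1)) :
    ps70_W (∏ i ∈ S, (Polynomial.X - Polynomial.C (r i))) (-(S.card : ℤ)) := by
  classical
  induction S using Finset.induction_on with
  | empty =>
    simp only [Finset.prod_empty, Finset.card_empty, Nat.cast_zero, neg_zero]
    exact ps70_W_one
  | insert i S hi ih =>
    rw [Finset.prod_insert hi, Finset.card_insert_of_notMem hi, mul_comm]
    have h1 := ps70_W_mul_X_sub_C (ih fun k hk => hr k (Finset.mem_insert_of_mem hk))
      (hr i (Finset.mem_insert_self i S)) le_rfl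
    have h2 : -((S.card : ℤ)) + -1 = -(((S.card + 1 : ℕ)) : ℤ) := by
      push_cast
      ring
    rw [h2] at h1
    exact h1

end VB

/-! ### Expansions of the roots -/

section Roots

variable (R : Type*) [CommRing R]

theorem ps70_VB_twist (ζ : Rˣ) : ps70_VB (twist ζ (jqModC R)) (-1) := by
  intro n hn
  rw [twist_coeff, coeff_jqModC_of_lt R hn, mul_zero]

theorem ps70_LT_twist (ζ : Rˣ) :
    ps70_LT (twist ζ (jqModC R)) (-1) (((ζ ^ (-1 : ℤ) : Rˣ) : R)) :=
  ⟨ps70_VB_twist R ζ, by rw [twist_coeff, coeff_jqModC_neg_one, mul_one]⟩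

theorem ps70_LT_A (q : ℕ) [NeZero q] :
    ps70_LT (qExpand R q (qExpand R q (jqModC R))) (-((q : ℤ) * q)) 1 := by
  have hq : (0 : ℤ) < q := by exact_mod_cast NeZero.pos q
  refine ⟨fun n hn => ?_, ?_⟩
  · by_cases h1 : (q : ℤ) ∣ n
    · obtain ⟨n1, rfl⟩ := h1
      rw [qExpand_coeff_mul]
      by_cases h2 : (q : ℤ) ∣ n1
      · obtain ⟨n2, rfl⟩ := h2
        rw [qExpand_coeff_mul]
        refine coeff_jqModC_of_lt R ?_
        by_contra hcon
        have h3 : -1 ≤ n2 := not_lt.mp hcon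
        have h4 : (q : ℤ) * (q * -1) ≤ q * (q * n2) :=
          mul_le_mul_of_nonneg_left (mul_le_mul_of_nonneg_left h3 hq.le) hq.le
        linarith
      · exact qExpand_coeff_of_not_dvd q _ h2
    · exact qExpand_coeff_of_not_dvd q _ h1
  · rw [show -((q : ℤ) * q) = (q : ℤ) * ((q : ℤ) * (-1)) by ring, qExpand_coeff_mul,
      qExpand_coeff_mul, coeff_jqModC_neg_one]

/-- `Y ↦ J`: the coefficient at `-n` of the value of a polynomial of degree `≤ n`. -/
theorem ps70_evJ_coeff (c : Polynomial ℤ) (n : ℕ) (hn : c.natDegree ≤ n) :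
    (evJ R c).coeff (-(n : ℤ)) = ((c.coeff n : ℤ) : R) := by
  have h1 : evJ R c = ∑ i ∈ Finset.range (n + 1),
      Int.castRingHom (LaurentSeries R) (c.coeff i) * jqModC R ^ i := by
    unfold evJ
    rw [Polynomial.coe_eval₂RingHom]
    exact Polynomial.eval₂_eq_sum_range' _ (Nat.lt_succ_of_le hn) _
  rw [h1, HahnSeries.coeff_sum]
  have hterm : ∀ i : ℕ, (Int.castRingHom (LaurentSeries R) (c.coeff i) * jqModC R ^ i).coeff
      (-(n : ℤ)) = ((c.coeff i : ℤ) : R) * (jqModC R ^ i).coeff (-(n : ℤ)) := by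
    intro i
    rw [eq_intCast, ← zsmul_eq_mul, HahnSeries.coeff_smul, zsmul_eq_mul]
  rw [Finset.sum_eq_single n]
  · rw [hterm, coeff_jqModC_pow_self, mul_one]
  · intro i hi hne
    have hi' : i < n := lt_of_le_of_ne (Nat.lt_succ_iff.mp (Finset.mem_range.mp hi)) hne
    rw [hterm, coeff_jqModC_pow_of_lt R (by omega), mul_zero]
  · intro h
    exact absurd (Finset.mem_range.mpr (Nat.lt_succ_self n)) h

/-- `Y ↦ J(Q^q)`: the coefficient at `-(q n)` of the value of a polynomial of degree `≤ n`. -/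
theorem ps70_Theta_coeff (q : ℕ) [NeZero q] (c : Polynomial ℤ) (n : ℕ) (hn : c.natDegree ≤ n) :
    (kc87_Theta R q c).coeff (-((q : ℤ) * n)) = ((c.coeff n : ℤ) : R) := by
  show (qExpand R q (evJ R c)).coeff (-((q : ℤ) * n)) = _
  rw [show -((q : ℤ) * n) = (q : ℤ) * (-(n : ℤ)) by ring, qExpand_coeff_mul,
    ps70_evJ_coeff R c n hn]

end Roots

/-! ### The modular polynomial -/

section Phi

variable (q : ℕ) [NeZero q]

/-- Gauss weight of `(X - J(Q^(q^2))) ∏_b (X - J(ζ^b Q))`. -/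
theorem ps70_W_Phi (ζ : ℂˣ) : ps70_W (h82_Phi ℂ q ζ) (-((q : ℤ) * q) - q) := by
  unfold h82_Phi
  rw [mul_comm]
  have h1 := ps70_W_prod (Finset.univ : Finset (Fin q))
    (fun b => twist (ζ ^ (b : ℕ)) (jqModC ℂ)) (fun b _ => ps70_VB_twist ℂ _)
  have hq1 : (1 : ℤ) ≤ q := by exact_mod_cast NeZero.pos q
  have h2 := ps70_W_mul_X_sub_C h1 (ps70_LT_A ℂ q).1 (by nlinarith)
  rw [Finset.card_univ, Fintype.card_fin] at h2
  have h3 : -(q : ℤ) + -((q : ℤ) * q) = -((q : ℤ) * q) - q := by ring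
  rw [h3] at h2
  exact h2

/-- The coefficient of `X^q`. -/
theorem ps70_Phi_coeff_q (hq2 : 2 ≤ q) (ζ : ℂˣ) :
    ((h82_Phi ℂ q ζ).coeff q).coeff (-((q : ℤ) * q)) = -1 := by
  have hdeg := h82_Phi_natDegree ℂ q ζ
  have hnc : (h82_Phi ℂ q ζ).nextCoeff = (h82_Phi ℂ q ζ).coeff q := by
    rw [Polynomial.nextCoeff_of_natDegree_pos (by rw [hdeg]; omega), hdeg, Nat.add_sub_cancel]
  rw [← hnc]
  unfold h82_Phi
  rw [Polynomial.Monic.nextCoeff_mul (Polynomial.monic_X_sub_C _)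
    (Polynomial.monic_prod_of_monic _ _ fun _ _ => Polynomial.monic_X_sub_C _),
    Polynomial.nextCoeff_X_sub_C, Polynomial.prod_X_sub_C_nextCoeff, HahnSeries.coeff_add,
    HahnSeries.coeff_neg, HahnSeries.coeff_neg, HahnSeries.coeff_sum, (ps70_LT_A ℂ q).2]
  have hz : ∀ b ∈ (Finset.univ : Finset (Fin q)),
      (twist (ζ ^ (b : ℕ)) (jqModC ℂ)).coeff (-((q : ℤ) * q)) = 0 := by
    intro b _
    refine ps70_VB_twist ℂ _ _ ?_
    have : (2 : ℤ) ≤ q := by exact_mod_cast hq2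
    nlinarith
  rw [Finset.sum_eq_zero hz, neg_zero, add_zero]

/-- The constant coefficient has lowest term of norm one. -/
theorem ps70_Phi_coeff_zero (ζ : ℂˣ) (hζ : ζ ^ q = 1) :
    ‖((h82_Phi ℂ q ζ).coeff 0).coeff (-((q : ℤ) * q) - q)‖ = 1 := by
  have hnorm : ∀ n : ℤ, ‖((ζ ^ n : ℂˣ) : ℂ)‖ = 1 := by
    intro n
    refine Complex.norm_eq_one_of_pow_eq_one (n := q) ?_ (NeZero.ne q)
    rw [← Units.val_pow_eq_pow_val, ← zpow_natCast, ← zpow_mul, mul_comm, zpow_mul, zpow_natCast,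
      hζ, one_zpow, Units.val_one]
  have h0 : (h82_Phi ℂ q ζ).coeff 0 =
      -(qExpand ℂ q (qExpand ℂ q (jqModC ℂ))) *
        ∏ b : Fin q, -(twist (ζ ^ (b : ℕ)) (jqModC ℂ)) := by
    unfold h82_Phi
    rw [Polynomial.mul_coeff_zero, Polynomial.coeff_sub, Polynomial.coeff_X_zero,
      Polynomial.coeff_C_zero, zero_sub, Polynomial.coeff_zero_eq_eval_zero,
      Polynomial.eval_prod]
    congr 1
    refine Finset.prod_congr rfl fun b _ => ?_
    rw [Polynomial.eval_sub, Polynomial.eval_X, Polynomial.eval_C, zero_sub]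
  have hA : ps70_LT (-(qExpand ℂ q (qExpand ℂ q (jqModC ℂ)))) (-((q : ℤ) * q)) (-1) :=
    ⟨ps70_VB_neg (ps70_LT_A ℂ q).1, by rw [HahnSeries.coeff_neg, (ps70_LT_A ℂ q).2]⟩
  have hL := ps70_LT_prod (Finset.univ : Finset (Fin q))
    (fun b => -(twist (ζ ^ (b : ℕ)) (jqModC ℂ))) (fun _ => (-1 : ℤ))
    (fun b => -(((ζ ^ (b : ℕ)) ^ (-1 : ℤ) : ℂˣ) : ℂ))
    (fun b _ => ⟨ps70_VB_neg (ps70_LT_twist ℂ _).1, by
      rw [HahnSeries.coeff_neg, (ps70_LT_twist ℂ _).2]⟩)
  have hprod := ps70_LT_mul hA hL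
  rw [Finset.sum_const, Finset.card_univ, Fintype.card_fin, nsmul_eq_mul, mul_neg_one] at hprod
  rw [h0, show -((q : ℤ) * q) - q = -((q : ℤ) * q) + -(q : ℤ) by ring, hprod.2, norm_mul,
    norm_neg, norm_one, one_mul, norm_prod]
  refine Finset.prod_eq_one fun b _ => ?_
  rw [norm_neg, ← zpow_natCast, ← zpow_mul]
  exact hnorm _

/-- **The modular polynomial with its exact support.** -/
theorem ps70_exists_Phi (hq : q.Prime) :
    ∃ Φ : Polynomial (Polynomial ℤ), Φ.Monic ∧ Φ.natDegree = q + 1 ∧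
      Φ.eval₂ (evJ ℤ) (JdC ℤ q) = 0 ∧
      (∀ k : ℕ, 1 ≤ k → (Φ.coeff k).natDegree ≤ q) ∧
      (Φ.coeff 0).natDegree ≤ q + 1 ∧
      IsUnit ((Φ.coeff 0).coeff (q + 1)) ∧
      (Φ.coeff q).coeff q = -1 := by
  haveI : Fact q.Prime := ⟨hq⟩
  have hq2 : 2 ≤ q := hq.two_le
  have hqZ : (0 : ℤ) < q := by exact_mod_cast NeZero.pos q
  have hζ : IsPrimitiveRoot (h93_zeta q) q := by
    rw [← IsPrimitiveRoot.coe_units_iff]
    exact h93_zeta_isPrimitiveRoot q
  have hprod : (∏ i, (Polynomial.X - Polynomial.C (h93_L q i)) : Polynomial (LaurentSeries ℂ)) =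
      h82_Phi ℂ q (h93_zeta q) := by
    rw [Fintype.prod_option]
    rfl
  obtain ⟨Φ, hmon, hdeg, hmap⟩ := h93_family (N := q) (Int.castRingHom ℂ) Int.cast_injective
    (h93_F q) (h93_L q) (h93_hasWExp q) (h93_perm q hq)
    (fun k => by rw [hprod]; exact modEq_descent q hq (h93_zeta q) hζ k)
  have hΘ : (coeffMap (Int.castRingHom ℂ)).comp
      ((qExpand ℤ q).comp (Polynomial.aeval (jqModC ℤ)).toRingHom) = kc87_Theta ℂ q := by
    apply Polynomial.ringHom_ext
    · intro a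
      simp [kc87_Theta, evJ]
    · simp [kc87_Theta, evJ, coeffMap_qExpand, coeffMap_jqModC]
  rw [hΘ, hprod] at hmap
  have hcard : Fintype.card (Option (Fin q)) = q + 1 := by
    rw [Fintype.card_option, Fintype.card_fin]
  have hinjC : Function.Injective (coeffMap (Int.castRingHom ℂ)) :=
    h82_coeffMap_injective _ Int.cast_injective
  -- coefficientwise
  have hcoeff : ∀ k : ℕ, kc87_Theta ℂ q (Φ.coeff k) = (h82_Phi ℂ q (h93_zeta q)).coeff k := by
    intro k
    rw [← hmap, Polynomial.coeff_map]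
  have hW := ps70_W_Phi q (h93_zeta q)
  -- the degree bound
  have hbound : ∀ k d : ℕ, (Φ.coeff k).natDegree = d → Φ.coeff k ≠ 0 →
      (q : ℤ) * d ≤ (q : ℤ) * q + q - k := by
    intro k d hd hne
    by_contra hcon
    have h1 := ps70_Theta_coeff ℂ q (Φ.coeff k) d hd.le
    rw [hcoeff k, hW k (-((q : ℤ) * d)) (by rw [not_le] at hcon; linarith)] at h1
    have h2 : (Φ.coeff k).coeff d = 0 := by exact_mod_cast h1.symm
    rw [← hd] at h2
    exact hne (Polynomial.leadingCoeff_eq_zero.mp h2)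
  have hS1 : ∀ k : ℕ, 1 ≤ k → (Φ.coeff k).natDegree ≤ q := by
    intro k hk
    by_cases hne : Φ.coeff k = 0
    · rw [hne, Polynomial.natDegree_zero]
      exact Nat.zero_le q
    · have h1 := hbound k _ rfl hne
      have hk' : (1 : ℤ) ≤ k := by exact_mod_cast hk
      have h2 : (q : ℤ) * ((Φ.coeff k).natDegree : ℤ) < (q : ℤ) * (q + 1) := by linarith
      have h3 : ((Φ.coeff k).natDegree : ℤ) < q + 1 := lt_of_mul_lt_mul_left h2 hqZ.le
      omega
  have hS0 : (Φ.coeff 0).natDegree ≤ q + 1 := by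
    by_cases hne : Φ.coeff 0 = 0
    · rw [hne, Polynomial.natDegree_zero]
      exact Nat.zero_le _
    · have h1 := hbound 0 _ rfl hne
      have h2 : (q : ℤ) * ((Φ.coeff 0).natDegree : ℤ) ≤ (q : ℤ) * (q + 1) := by
        push_cast at h1
        linarith
      have h3 : ((Φ.coeff 0).natDegree : ℤ) ≤ q + 1 := le_of_mul_le_mul_left h2 hqZ
      omega
  refine ⟨Φ, hmon, by rw [hdeg, hcard], ?_, hS1, hS0, ?_, ?_⟩
  · -- the root `J(Q^(q^2))`
    have hinj : Function.Injective ((coeffMap (Int.castRingHom ℂ)).comp (qExpand ℤ q)) :=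
      hinjC.comp (qExpand_injective q)
    apply hinj
    have hψ : ((coeffMap (Int.castRingHom ℂ)).comp (qExpand ℤ q)).comp (evJ ℤ) =
        kc87_Theta ℂ q := by
      rw [RingHom.comp_assoc]
      exact kc87_coeffMap_Theta (Int.castRingHom ℂ) q
    have hroot : ((coeffMap (Int.castRingHom ℂ)).comp (qExpand ℤ q)) (JdC ℤ q) =
        qExpand ℂ q (qExpand ℂ q (jqModC ℂ)) := by
      show coeffMap _ (qExpand ℤ q (JdC ℤ q)) = qExpand ℂ q (qExpand ℂ q (jqModC ℂ))
      rw [JdC_of_neZero, coeffMap_qExpand, coeffMap_qExpand, coeffMap_jqModC]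
    rw [map_zero, Polynomial.hom_eval₂, hψ, ← Polynomial.eval_map, hmap, hroot]
    unfold h82_Phi
    rw [Polynomial.eval_mul]
    simp
  · -- the unit
    have h1 := ps70_Theta_coeff ℂ q (Φ.coeff 0) (q + 1) hS0
    rw [hcoeff 0] at h1
    have h2 := ps70_Phi_coeff_zero q (h93_zeta q) hζ.pow_eq_one
    have h3 : -((q : ℤ) * ((q + 1 : ℕ) : ℤ)) = -((q : ℤ) * q) - q := by
      push_cast
      ring
    rw [h3] at h1
    rw [h1, Complex.norm_intCast] at h2
    have h4 : |(Φ.coeff 0).coeff (q + 1)| = 1 := by exact_mod_cast h2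
    rw [Int.isUnit_iff]
    rcases abs_eq (zero_le_one' ℤ) |>.mp h4 with h5 | h5
    · exact Or.inl h5
    · exact Or.inr h5
  · -- the coefficient of `X^q Y^q`
    have h1 := ps70_Theta_coeff ℂ q (Φ.coeff q) q (hS1 q (NeZero.pos q))
    rw [hcoeff q, ps70_Phi_coeff_q q hq2] at h1
    exact_mod_cast h1.symm

/-- **The modular equation in Newton shape.** `x = J(Q^q)`, `y = J(Q)`:
`x^(q+1) + u y^(q+1) + ∑_{a,b ≤ q} c a b x^a y^b = 0` with `u = ± 1`, `c q q = -1`. -/
theorem ps70_modEq (hq : q.Prime) :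
    ∃ (c : ℕ → ℕ → ℤ) (u : ℤ), (u = 1 ∨ u = -1) ∧ c q q = -1 ∧
      JdC ℤ q ^ (q + 1) + (u : LaurentSeries ℤ) * jqModC ℤ ^ (q + 1) +
        ∑ a ∈ Finset.range (q + 1), ∑ b ∈ Finset.range (q + 1),
          (c a b : LaurentSeries ℤ) * JdC ℤ q ^ a * jqModC ℤ ^ b = 0 := by
  obtain ⟨Φ, hmon, hdeg, hroot, hS1, hS0, hu, hqq⟩ := ps70_exists_Phi q hq
  refine ⟨fun a b => (Φ.coeff a).coeff b, (Φ.coeff 0).coeff (q + 1), Int.isUnit_iff.mp hu, hqq, ?_⟩
  -- expand the root relation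
  have hev : ∀ k : ℕ, evJ ℤ (Φ.coeff k) = ∑ b ∈ Finset.range (q + 1),
      (((Φ.coeff k).coeff b : ℤ) : LaurentSeries ℤ) * jqModC ℤ ^ b +
      (((Φ.coeff k).coeff (q + 1) : ℤ) : LaurentSeries ℤ) * jqModC ℤ ^ (q + 1) := by
    intro k
    have hk : (Φ.coeff k).natDegree < q + 1 + 1 := by
      rcases Nat.eq_zero_or_pos k with rfl | hk
      · exact Nat.lt_succ_of_le hS0
      · exact Nat.lt_succ_of_le ((hS1 k hk).trans (Nat.le_succ q))
    unfold evJ
    rw [Polynomial.coe_eval₂RingHom, Polynomial.eval₂_eq_sum_range' _ hk, Finset.sum_range_succ]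
    simp only [eq_intCast]
  have htop : ∀ k : ℕ, 1 ≤ k → (Φ.coeff k).coeff (q + 1) = 0 := fun k hk =>
    Polynomial.coeff_eq_zero_of_natDegree_lt (Nat.lt_succ_of_le (hS1 k hk))
  have hlead : Φ.coeff (q + 1) = 1 := by
    rw [← hdeg]
    exact hmon.coeff_natDegree
  rw [Polynomial.eval₂_eq_sum_range, hdeg, Finset.sum_range_succ, hlead, map_one, one_mul] at hroot
  rw [← hroot]
  have hsum : ∑ k ∈ Finset.range (q + 1), evJ ℤ (Φ.coeff k) * JdC ℤ q ^ k =
      ((Φ.coeff 0).coeff (q + 1) : LaurentSeries ℤ) * jqModC ℤ ^ (q + 1) +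
        ∑ a ∈ Finset.range (q + 1), ∑ b ∈ Finset.range (q + 1),
          (((Φ.coeff a).coeff b : ℤ) : LaurentSeries ℤ) * JdC ℤ q ^ a * jqModC ℤ ^ b := by
    have h1 : ∀ k ∈ Finset.range (q + 1), evJ ℤ (Φ.coeff k) * JdC ℤ q ^ k =
        ∑ b ∈ Finset.range (q + 1),
          (((Φ.coeff k).coeff b : ℤ) : LaurentSeries ℤ) * JdC ℤ q ^ k * jqModC ℤ ^ b +
        (((Φ.coeff k).coeff (q + 1) : ℤ) : LaurentSeries ℤ) * jqModC ℤ ^ (q + 1) *
          JdC ℤ q ^ k := by
      intro k _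
      rw [hev k, add_mul, Finset.sum_mul]
      congr 1
      refine Finset.sum_congr rfl fun b _ => ?_
      ring
    rw [Finset.sum_congr rfl h1, Finset.sum_add_distrib, add_comm]
    congr 1
    rw [Finset.sum_range_succ', pow_zero, mul_one]
    have h2 : ∑ k ∈ Finset.range q,
        (((Φ.coeff (k + 1)).coeff (q + 1) : ℤ) : LaurentSeries ℤ) * jqModC ℤ ^ (q + 1) *
          JdC ℤ q ^ (k + 1) = 0 := by
      refine Finset.sum_eq_zero fun k _ => ?_
      rw [htop (k + 1) (Nat.succ_le_succ (Nat.zero_le k)), Int.cast_zero, zero_mul, zero_mul]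
    rw [h2, zero_add]
  rw [hsum]
  ring

/-- The modular equation in Newton shape over any commutative ring. -/
theorem ps70_modEq_map (hq : q.Prime) :
    ∃ (c : ℕ → ℕ → ℤ) (u : ℤ), (u = 1 ∨ u = -1) ∧ c q q = -1 ∧
      ∀ (R : Type*) [CommRing R],
        JdC R q ^ (q + 1) + (u : LaurentSeries R) * jqModC R ^ (q + 1) +
          ∑ a ∈ Finset.range (q + 1), ∑ b ∈ Finset.range (q + 1),
            (c a b : LaurentSeries R) * JdC R q ^ a * jqModC R ^ b = 0 := by
  obtain ⟨c, u, hu, hc, hrel⟩ := ps70_modEq q hq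
  refine ⟨c, u, hu, hc, fun R _ => ?_⟩
  have h1 := congrArg (coeffMap (Int.castRingHom R)) hrel
  have hJ : coeffMap (Int.castRingHom R) (JdC ℤ q) = JdC R q := by
    rw [JdC_of_neZero, JdC_of_neZero, coeffMap_qExpand, coeffMap_jqModC]
  simp only [map_add, map_mul, map_pow, map_sum, map_intCast, map_zero, hJ, coeffMap_jqModC] at h1
  exact h1

end Phi

end

end Fermat.Agent.S34
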