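import Fermat.Agent.S34.NewtonCusp70
import Fermat.Agent.S34.PhiSupport70
import Fermat.Agent.S18.Haupt2R70
import Fermat.Agent.S18.Haupt3R_34

/-!
# S34 lab (helper70, registry row 496): integrality of `h(Q^q)` over `R[h]` at the cusps

Instance of `NewtonCusp70` + `PhiSupport70` inside any intermediate field `F` of `K((Q))`
(in particular `F = modularFunctionFieldFullC K M`).  `q` a prime, `J = jqModC K`.

* `hi70_qExpand_mem` : `Q ↦ Q^q` maps `F(N)_K` into `F(q N)_K`.
* `hi70_NP` : the Newton property of `(J(Q^(dq)), J(Q^d))` at EVERY valuation subring of `F`.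
* `hi70_T_integral` : `T = J(Q^q) / J^q` is integral over `R[1/J]` (input of (3c): the cusps are
  not nodes).
* `hi70_level2_full`, `hi70_level3_full`, `hi70_T_integral_full`, `hi70_NP_full` : the same inside
  `F = modularFunctionFieldFullC K M` with all auxiliary `j`-functions constructed.
* `hi70_level2`, `hi70_level3` : for the Hauptmodul `h` of level `p₀ ∈ {2, 3}` (`h70_h2`,
  `h34_h3R`), `p₀` a unit of `R`, `q ≠ p₀`, and `g = h(Q^q)`:
  `g` is integral over `R[h]`, `g⁻¹` over `R[h⁻¹]`, `h` over `R[g]`, `h⁻¹` over `R[g⁻¹]`.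
  So `β^*` maps the level-`M'` charts into the level-`q M'` charts (and conversely), also at
  the cusps: (3a) for the `0`-branch.

All names are prefixed `hi70_`.
-/

set_option autoImplicit false
set_option linter.style.haveILetI false

open ModularCurve Finset

namespace Fermat.Agent.S34

open Fermat.Agent.S18 Fermat.Agent.S28

section Mem

variable (K : Type*) [Field K]

/-- `Q ↦ Q^q` maps the function field of level `N` into the function field of level `q N`. -/
theorem hi70_qExpand_mem (N q : ℕ) [NeZero N] [NeZero q] {x : LaurentSeries K}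
    (hx : x ∈ modularFunctionFieldFullC K N) :
    qExpand K q x ∈ modularFunctionFieldFullC K (q * N) := by
  have h1 : (modularFunctionFieldFullC K N).map (qExpandAlgHomC K q) ≤
      modularFunctionFieldFullC K (q * N) := by
    rw [modularFunctionFieldFullC, IntermediateField.adjoin_map, IntermediateField.adjoin_le_iff]
    rintro _ ⟨y, ⟨d, hd, hdN, rfl⟩, rfl⟩
    haveI := hd
    rw [qExpandAlgHomC_apply, qExpand_qExpand]
    exact jqModCd_mem_full K (q * N) (Nat.mul_dvd_mul_left q hdN)
  exact h1 ((IntermediateField.mem_map (S := modularFunctionFieldFullC K N)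
    (f := qExpandAlgHomC K q)).mpr ⟨x, hx, rfl⟩)

end Mem

section NP

variable {K : Type*} [Field K] (F : IntermediateField K (LaurentSeries K))

/-- A valuation is one on `±1`-valued integers. -/
theorem hi70_val_unit (O : ValuationSubring ↥F) (u : ℤ) (hu : u = 1 ∨ u = -1) :
    O.valuation ((u : ℤ) : ↥F) = 1 := by
  rcases hu with rfl | rfl
  · rw [Int.cast_one, map_one]
  · rw [Int.cast_neg, Int.cast_one, Valuation.map_neg, map_one]

/-- **Newton property of `(J(Q^(dq)), J(Q^d))`** at every valuation subring of `F`. -/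
theorem hi70_NP (q : ℕ) [NeZero q] (hq : q.Prime) (d : ℕ) [NeZero d] (x y : ↥F)
    (hx : (x : LaurentSeries K) = qExpand K d (qExpand K q (jqModC K)))
    (hy : (y : LaurentSeries K) = qExpand K d (jqModC K)) (O : ValuationSubring ↥F) :
    nc70_NP O q x y := by
  obtain ⟨c, u, hu, hc, hrel⟩ := ps70_modEq_map q hq
  have hrelK := congrArg (qExpand K d) (hrel K)
  rw [JdC_of_neZero] at hrelK
  simp only [map_add, map_mul, map_pow, map_sum, map_intCast, map_zero] at hrelK
  have hF : (1 : ↥F) * x ^ (q + 1) + ((u : ℤ) : ↥F) * y ^ (q + 1) +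
      ∑ a ∈ range (q + 1), ∑ b ∈ range (q + 1), ((c a b : ℤ) : ↥F) * x ^ a * y ^ b = 0 := by
    apply Subtype.val_injective
    have hval : ∀ z : ↥F, (z : LaurentSeries K) = (algebraMap ↥F (LaurentSeries K)) z :=
      fun _ => rfl
    rw [hval, hval 0]
    simp only [map_add, map_mul, map_pow, map_sum, map_intCast, map_zero, one_mul]
    rw [← hval x, ← hval y, hx, hy]
    exact hrelK
  refine nc70_newton O q hq.one_lt.le 1 ((u : ℤ) : ↥F) (map_one _) (hi70_val_unit F O u hu)
    (fun a b => ((c a b : ℤ) : ↥F)) (fun a b => intCast_mem O (c a b)) ?_ x y hF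
  show O.valuation ((c q q : ℤ) : ↥F) = 1
  exact hi70_val_unit F O (c q q) (Or.inr hc)

/-- `T = J(Q^q) / J^q` is integral over `R[1/J]`. -/
theorem hi70_T_integral {R : Type*} [CommRing R] [Algebra R ↥F] (q : ℕ) [NeZero q]
    (hq : q.Prime) (x y : ↥F) (hx : (x : LaurentSeries K) = qExpand K q (jqModC K))
    (hy : (y : LaurentSeries K) = jqModC K) :
    IsIntegral (Algebra.adjoin R ({y⁻¹} : Set ↥F)) (x / y ^ q) := by
  have hy0 : y ≠ 0 := by
    intro h0
    have h1 : (y : LaurentSeries K) = 0 := by rw [h0]; rfl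
    rw [hy] at h1
    exact jqModC_ne_zero_of_nontrivial K h1
  refine nc70_T_integral q hq.one_lt.le x y hy0 fun O _ => ?_
  refine hi70_NP F q hq 1 x y ?_ ?_ O
  · rw [hx, qExpand_one_apply]
  · rw [hy, qExpand_one_apply]

end NP

section Haupt

variable {K : Type*} [Field K] (F : IntermediateField K (LaurentSeries K))

/-- `v y = 1` from `x y = 1` with `x, y ∈ O`. -/
theorem hi70_val_eq_one (O : ValuationSubring ↥F) (x y : ↥F) (hx : x ∈ O) (hy : y ∈ O)
    (hxy : x * y = 1) : O.valuation y = 1 := by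
  refine le_antisymm ((O.valuation_le_one_iff y).mpr hy) ?_
  have h1 : O.valuation x * O.valuation y = 1 := by rw [← map_mul, hxy, map_one]
  rw [← h1]
  exact mul_le_of_le_one_left' ((O.valuation_le_one_iff x).mpr hx)

/-- The image of a unit natural number of `R` has valuation one. -/
theorem hi70_val_natCast {R : Type*} [CommRing R] [Algebra R ↥F] (O : ValuationSubring ↥F)
    (hR : ∀ r : R, algebraMap R ↥F r ∈ O) (n : ℕ) (hn : IsUnit (n : R)) :
    O.valuation ((n : ℕ) : ↥F) = 1 := by
  obtain ⟨w, hw⟩ := hn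
  have h1 : algebraMap R ↥F (↑w⁻¹ : R) * ((n : ℕ) : ↥F) = 1 := by
    rw [← map_natCast (algebraMap R ↥F) n, ← map_mul, ← hw, Units.inv_mul, map_one]
  have h2 : ((n : ℕ) : ↥F) ∈ O := by
    rw [← map_natCast (algebraMap R ↥F) n]
    exact hR _
  exact hi70_val_eq_one F O _ _ (hR _) h2 h1

/-- **Level 2.** `h = h70_h2 K`, `g = h(Q^q)`, `q ≠ 2` prime, `2` a unit of `R`. -/
theorem hi70_level2 {R : Type*} [CommRing R] [Algebra R ↥F] (q : ℕ) [NeZero q]
    (hq : q.Prime) (hq2 : q ≠ 2) (h2 : IsUnit (2 : R))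
    (h g j j' jq jq' : ↥F)
    (hh : (h : LaurentSeries K) = h70_h2 K)
    (hg : (g : LaurentSeries K) = qExpand K q (h70_h2 K))
    (hj : (j : LaurentSeries K) = jqModC K)
    (hj' : (j' : LaurentSeries K) = qExpand K 2 (jqModC K))
    (hjq : (jq : LaurentSeries K) = qExpand K q (jqModC K))
    (hjq' : (jq' : LaurentSeries K) = qExpand K 2 (qExpand K q (jqModC K))) :
    IsIntegral (Algebra.adjoin R ({h} : Set ↥F)) g ∧
      IsIntegral (Algebra.adjoin R ({h⁻¹} : Set ↥F)) g⁻¹ ∧
      IsIntegral (Algebra.adjoin R ({g} : Set ↥F)) h ∧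
      IsIntegral (Algebra.adjoin R ({g⁻¹} : Set ↥F)) h⁻¹ := by
  have hval : ∀ z : ↥F, (z : LaurentSeries K) = (algebraMap ↥F (LaurentSeries K)) z :=
    fun _ => rfl
  have hh0 : h ≠ 0 := by
    intro h0
    have h1 : (h : LaurentSeries K) = 0 := by rw [h0]; rfl
    rw [hh] at h1
    exact h70_h2_ne_zero K h1
  have hg0 : g ≠ 0 := by
    intro h0
    have h1 : (g : LaurentSeries K) = 0 := by rw [h0]; rfl
    rw [hg] at h1
    exact h70_h2_ne_zero K (qExpand_injective q (by rw [h1, map_zero]))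
  -- the four relations
  have r1 : j * h ^ 2 = (h + 256) ^ 3 := by
    apply Subtype.val_injective
    rw [hval, hval ((h + 256) ^ 3)]
    simp only [map_add, map_mul, map_pow, map_ofNat]
    rw [← hval, ← hval, hj, hh]
    exact h70_j_mul_h2_sq K
  have r2 : j' * h = (h + 16) ^ 3 := by
    apply Subtype.val_injective
    rw [hval, hval ((h + 16) ^ 3)]
    simp only [map_add, map_mul, map_pow, map_ofNat]
    rw [← hval, ← hval, hj', hh]
    exact h70_j2_mul_h2' K
  have r1q : jq * g ^ 2 = (g + 256) ^ 3 := by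
    apply Subtype.val_injective
    rw [hval, hval ((g + 256) ^ 3)]
    simp only [map_add, map_mul, map_pow, map_ofNat]
    rw [← hval, ← hval, hjq, hg]
    have := congrArg (qExpand K q) (h70_j_mul_h2_sq K)
    simpa only [map_add, map_mul, map_pow, map_ofNat] using this
  have r2q : jq' * g = (g + 16) ^ 3 := by
    apply Subtype.val_injective
    rw [hval, hval ((g + 16) ^ 3)]
    simp only [map_add, map_mul, map_pow, map_ofNat]
    rw [← hval, ← hval, hjq', hg]
    have := congrArg (qExpand K q) (h70_j2_mul_h2' K)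
    simp only [map_add, map_mul, map_pow, map_ofNat] at this
    rw [qExpand_qExpand, qExpand_congr (mul_comm q 2), ← qExpand_qExpand] at this
    exact this
  refine nc70_haupt_integral 2 q le_rfl hq.one_lt.le (fun h => hq2 h.symm) h j j' g jq jq' hh0 hg0
    fun O hR => ?_
  have hv2 : O.valuation (2 : ↥F) = 1 := by
    have := hi70_val_natCast F O hR 2 (by exact_mod_cast h2)
    exact_mod_cast this
  refine ⟨nc70_profile_two O hv2 h j j' hh0 r1 r2, nc70_profile_two O hv2 g jq jq' hg0 r1q r2q,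
    hi70_NP F q hq 1 jq j ?_ ?_ O, hi70_NP F q hq 2 jq' j' hjq' hj' O⟩
  · rw [hjq, qExpand_one_apply]
  · rw [hj, qExpand_one_apply]

/-- **Level 3.** `h = h34_h3R K`, `g = h(Q^q)`, `q ≠ 3` prime, `3` a unit of `R`. -/
theorem hi70_level3 {R : Type*} [CommRing R] [Algebra R ↥F] (q : ℕ) [NeZero q]
    (hq : q.Prime) (hq3 : q ≠ 3) (h3 : IsUnit (3 : R))
    (h g j j' jq jq' : ↥F)
    (hh : (h : LaurentSeries K) = h34_h3R K)
    (hg : (g : LaurentSeries K) = qExpand K q (h34_h3R K))
    (hj : (j : LaurentSeries K) = jqModC K)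
    (hj' : (j' : LaurentSeries K) = qExpand K 3 (jqModC K))
    (hjq : (jq : LaurentSeries K) = qExpand K q (jqModC K))
    (hjq' : (jq' : LaurentSeries K) = qExpand K 3 (qExpand K q (jqModC K))) :
    IsIntegral (Algebra.adjoin R ({h} : Set ↥F)) g ∧
      IsIntegral (Algebra.adjoin R ({h⁻¹} : Set ↥F)) g⁻¹ ∧
      IsIntegral (Algebra.adjoin R ({g} : Set ↥F)) h ∧
      IsIntegral (Algebra.adjoin R ({g⁻¹} : Set ↥F)) h⁻¹ := by
  have hval : ∀ z : ↥F, (z : LaurentSeries K) = (algebraMap ↥F (LaurentSeries K)) z :=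
    fun _ => rfl
  have hne : h34_h3R K ≠ 0 := (h34_h3R_isUnit K).ne_zero
  have hh0 : h ≠ 0 := by
    intro h0
    have h1 : (h : LaurentSeries K) = 0 := by rw [h0]; rfl
    rw [hh] at h1
    exact hne h1
  have hg0 : g ≠ 0 := by
    intro h0
    have h1 : (g : LaurentSeries K) = 0 := by rw [h0]; rfl
    rw [hg] at h1
    exact hne (qExpand_injective q (by rw [h1, map_zero]))
  have r1 : j * h ^ 3 = (h + 27) * (h + 243) ^ 3 := by
    apply Subtype.val_injective
    rw [hval, hval ((h + 27) * (h + 243) ^ 3)]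
    simp only [map_add, map_mul, map_pow, map_ofNat]
    rw [← hval, ← hval, hj, hh]
    exact h34_h3R_j K
  have r2 : j' * h = (h + 27) * (h + 3) ^ 3 := by
    apply Subtype.val_injective
    rw [hval, hval ((h + 27) * (h + 3) ^ 3)]
    simp only [map_add, map_mul, map_pow, map_ofNat]
    rw [← hval, ← hval, hj', hh]
    exact h34_h3R_j3 K
  have r1q : jq * g ^ 3 = (g + 27) * (g + 243) ^ 3 := by
    apply Subtype.val_injective
    rw [hval, hval ((g + 27) * (g + 243) ^ 3)]
    simp only [map_add, map_mul, map_pow, map_ofNat]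
    rw [← hval, ← hval, hjq, hg]
    have := congrArg (qExpand K q) (h34_h3R_j K)
    simpa only [map_add, map_mul, map_pow, map_ofNat] using this
  have r2q : jq' * g = (g + 27) * (g + 3) ^ 3 := by
    apply Subtype.val_injective
    rw [hval, hval ((g + 27) * (g + 3) ^ 3)]
    simp only [map_add, map_mul, map_pow, map_ofNat]
    rw [← hval, ← hval, hjq', hg]
    have := congrArg (qExpand K q) (h34_h3R_j3 K)
    simp only [map_add, map_mul, map_pow, map_ofNat] at this
    rw [qExpand_qExpand, qExpand_congr (mul_comm q 3), ← qExpand_qExpand] at this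
    exact this
  refine nc70_haupt_integral 3 q (by norm_num) hq.one_lt.le (fun h => hq3 h.symm) h j j' g jq jq'
    hh0 hg0 fun O hR => ?_
  have hv3 : O.valuation (3 : ↥F) = 1 := by
    have := hi70_val_natCast F O hR 3 (by exact_mod_cast h3)
    exact_mod_cast this
  refine ⟨nc70_profile_three O hv3 h j j' hh0 r1 r2,
    nc70_profile_three O hv3 g jq jq' hg0 r1q r2q,
    hi70_NP F q hq 1 jq j ?_ ?_ O, hi70_NP F q hq 3 jq' j' hjq' hj' O⟩
  · rw [hjq, qExpand_one_apply]
  · rw [hj, qExpand_one_apply]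

end Haupt

section Full

variable {K : Type*} [Field K] (M : ℕ)

/-- **Level 2 inside `F(M)_K`**, `2 q ∣ M`: only `h` and `g = h(Q^q)` are needed. -/
theorem hi70_level2_full {R : Type*} [CommRing R] [Algebra R ↥(modularFunctionFieldFullC K M)]
    (q : ℕ) [NeZero q] (hq : q.Prime) (hq2 : q ≠ 2) (h2 : IsUnit (2 : R)) (hM : 2 * q ∣ M)
    (h g : ↥(modularFunctionFieldFullC K M))
    (hh : (h : LaurentSeries K) = h70_h2 K)
    (hg : (g : LaurentSeries K) = qExpand K q (h70_h2 K)) :
    IsIntegral (Algebra.adjoin R ({h} : Set ↥(modularFunctionFieldFullC K M))) g ∧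
      IsIntegral (Algebra.adjoin R ({h⁻¹} : Set ↥(modularFunctionFieldFullC K M))) g⁻¹ ∧
      IsIntegral (Algebra.adjoin R ({g} : Set ↥(modularFunctionFieldFullC K M))) h ∧
      IsIntegral (Algebra.adjoin R ({g⁻¹} : Set ↥(modularFunctionFieldFullC K M))) h⁻¹ :=
  hi70_level2 (modularFunctionFieldFullC K M) q hq hq2 h2 h g
    ⟨jqModC K, jqModC_mem_full K M⟩
    ⟨qExpand K 2 (jqModC K), jqModCd_mem_full K M (dvd_trans (dvd_mul_right 2 q) hM)⟩
    ⟨qExpand K q (jqModC K), jqModCd_mem_full K M (dvd_trans (dvd_mul_left q 2) hM)⟩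
    ⟨qExpand K 2 (qExpand K q (jqModC K)), by
      rw [qExpand_qExpand]
      exact jqModCd_mem_full K M hM⟩
    hh hg rfl rfl rfl rfl

/-- **Level 3 inside `F(M)_K`**, `3 q ∣ M`: only `h` and `g = h(Q^q)` are needed. -/
theorem hi70_level3_full {R : Type*} [CommRing R] [Algebra R ↥(modularFunctionFieldFullC K M)]
    (q : ℕ) [NeZero q] (hq : q.Prime) (hq3 : q ≠ 3) (h3 : IsUnit (3 : R)) (hM : 3 * q ∣ M)
    (h g : ↥(modularFunctionFieldFullC K M))
    (hh : (h : LaurentSeries K) = h34_h3R K)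
    (hg : (g : LaurentSeries K) = qExpand K q (h34_h3R K)) :
    IsIntegral (Algebra.adjoin R ({h} : Set ↥(modularFunctionFieldFullC K M))) g ∧
      IsIntegral (Algebra.adjoin R ({h⁻¹} : Set ↥(modularFunctionFieldFullC K M))) g⁻¹ ∧
      IsIntegral (Algebra.adjoin R ({g} : Set ↥(modularFunctionFieldFullC K M))) h ∧
      IsIntegral (Algebra.adjoin R ({g⁻¹} : Set ↥(modularFunctionFieldFullC K M))) h⁻¹ :=
  hi70_level3 (modularFunctionFieldFullC K M) q hq hq3 h3 h g
    ⟨jqModC K, jqModC_mem_full K M⟩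
    ⟨qExpand K 3 (jqModC K), jqModCd_mem_full K M (dvd_trans (dvd_mul_right 3 q) hM)⟩
    ⟨qExpand K q (jqModC K), jqModCd_mem_full K M (dvd_trans (dvd_mul_left q 3) hM)⟩
    ⟨qExpand K 3 (qExpand K q (jqModC K)), by
      rw [qExpand_qExpand]
      exact jqModCd_mem_full K M hM⟩
    hh hg rfl rfl rfl rfl

/-- **`T = J(Q^q) / J^q` inside `F(M)_K`**, `q ∣ M`, is integral over `R[1/J]`. -/
theorem hi70_T_integral_full {R : Type*} [CommRing R]
    [Algebra R ↥(modularFunctionFieldFullC K M)] (q : ℕ) [NeZero q] (hq : q.Prime)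
    (hM : q ∣ M) :
    IsIntegral (Algebra.adjoin R
        ({(⟨jqModC K, jqModC_mem_full K M⟩ : ↥(modularFunctionFieldFullC K M))⁻¹} :
          Set ↥(modularFunctionFieldFullC K M)))
      ((⟨qExpand K q (jqModC K), jqModCd_mem_full K M hM⟩ : ↥(modularFunctionFieldFullC K M)) /
        (⟨jqModC K, jqModC_mem_full K M⟩ : ↥(modularFunctionFieldFullC K M)) ^ q) :=
  hi70_T_integral (modularFunctionFieldFullC K M) q hq _ _ rfl rfl

/-- The Newton property of `(J(Q^q), J)` inside `F(M)_K`, `q ∣ M`, at every valuation subring. -/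
theorem hi70_NP_full (q : ℕ) [NeZero q] (hq : q.Prime) (hM : q ∣ M)
    (O : ValuationSubring ↥(modularFunctionFieldFullC K M)) :
    nc70_NP O q
      (⟨qExpand K q (jqModC K), jqModCd_mem_full K M hM⟩ : ↥(modularFunctionFieldFullC K M))
      (⟨jqModC K, jqModC_mem_full K M⟩ : ↥(modularFunctionFieldFullC K M)) :=
  hi70_NP (modularFunctionFieldFullC K M) q hq 1 _ _
    (by show qExpand K q (jqModC K) = _; rw [qExpand_one_apply])
    (by show jqModC K = _; rw [qExpand_one_apply]) O

end Full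

end Fermat.Agent.S34
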