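import Mathlib

/-!
# S34 lab, package P4 (twin, helper71): good coordinates at a node

Abstract, Mathlib-only form of step 4 of the proof of (U).

`F` a field, `A` a subring (the local ring of a chart at a node, over the inertia field),
`V₁ V₂` two subrings containing `A` (the two Gauss valuation rings `V_∞`, `V_0`), `q ∈ A`
(uniformizer of both).  Write `p_i := {x ∈ A | q⁻¹ x ∈ V_i}` (the two branches).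

Hypotheses:
* `hV_i`  : `x ∈ V_i`, `q⁻¹ x ∉ V_i` implies `x⁻¹ ∈ V_i`  (valuation ring with uniformizer `q`);
* `hqV_i` : `q⁻¹ ∉ V_i`;
* `hsat`  : `x ∈ A`, `q⁻¹ x ∈ V₁ ⊓ V₂` implies `q⁻¹ x ∈ A`  (saturation: reduced special fibre);
* `z ∈ p₂`, `z' ∈ p₁`, `z' ∉ p₂`, and `A` is local with maximal ideal `(q, z, z')`
  (`hloc`, `hprop`);
* `U V = q ^ e`, `U ∉ p₁`, `V ∉ p₂`, and on the branch `A / p₁` the element `U` is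
  `unit * z ^ μ` (`hU`).

Conclusion (`nl71_main`): there are `z₁ ≡ z`, `z₁' ≡ z'` modulo `q A` with
`z₁ * z₁' = q ^ κ * unit`, `1 ≤ κ ≤ e`.

All names are prefixed `nl71_`.
-/

set_option autoImplicit false

namespace Fermat.Agent.S34

section

variable {F : Type*} [Field F]

/-- Iterated saturation. -/
theorem nl71_sat_pow (A V₁ V₂ : Subring F) (q : F) (hqA : q ∈ A)
    (hA₁ : A ≤ V₁) (hA₂ : A ≤ V₂)
    (hsat : ∀ x ∈ A, q⁻¹ * x ∈ V₁ → q⁻¹ * x ∈ V₂ → q⁻¹ * x ∈ A) :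
    ∀ (k : ℕ) (x : F), x ∈ A → (q ^ k)⁻¹ * x ∈ V₁ → (q ^ k)⁻¹ * x ∈ V₂ →
      (q ^ k)⁻¹ * x ∈ A := by
  intro k
  induction k with
  | zero => intro x hx _ _; simpa using hx
  | succ k ih =>
    intro x hx h1 h2
    by_cases hq0 : q = 0
    · subst hq0
      simp [A.zero_mem]
    have e1 : q⁻¹ * x = q ^ k * ((q ^ (k + 1))⁻¹ * x) := by
      field_simp
      ring
    have hx1 : q⁻¹ * x ∈ A := by
      apply hsat x hx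
      · rw [e1]; exact V₁.mul_mem (V₁.pow_mem (hA₁ hqA) k) h1
      · rw [e1]; exact V₂.mul_mem (V₂.pow_mem (hA₂ hqA) k) h2
    have e2 : (q ^ (k + 1))⁻¹ * x = (q ^ k)⁻¹ * (q⁻¹ * x) := by
      field_simp
      ring
    rw [e2]
    apply ih _ hx1
    · rw [← e2]; exact h1
    · rw [← e2]; exact h2

/-- Congruence of powers modulo `q A`. -/
theorem nl71_pow_sub_pow (A : Subring F) (q x y : F) (hx : x ∈ A) (hy : y ∈ A)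
    (h : q⁻¹ * (x - y) ∈ A) (m : ℕ) : q⁻¹ * (x ^ m - y ^ m) ∈ A := by
  have h1 : x ^ m - y ^ m = (∑ i ∈ Finset.range m, x ^ i * y ^ (m - 1 - i)) * (x - y) :=
    (geom_sum₂_mul x y m).symm
  have h2 : q⁻¹ * (x ^ m - y ^ m)
      = (∑ i ∈ Finset.range m, x ^ i * y ^ (m - 1 - i)) * (q⁻¹ * (x - y)) := by
    rw [h1]; ring
  rw [h2]
  refine A.mul_mem ?_ h
  exact A.sum_mem fun i _ => A.mul_mem (A.pow_mem hx _) (A.pow_mem hy _)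

/-- The invariant of the replacement loop at stage `j`: elements `z₁ ≡ z`, `z₁' ≡ z'` modulo
`q A` whose product is divisible by `q ^ j` in `A`. -/
def nl71_Stage (A : Subring F) (q z z' : F) (j : ℕ) (z₁ z₁' c : F) : Prop :=
  z₁ ∈ A ∧ z₁' ∈ A ∧ c ∈ A ∧ z₁ * z₁' = q ^ j * c ∧
    q⁻¹ * (z₁ - z) ∈ A ∧ q⁻¹ * (z₁' - z') ∈ A

/-- Stage one. -/
theorem nl71_stage_one (A V₁ V₂ : Subring F) (q : F) (hq0 : q ≠ 0)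
    (hA₁ : A ≤ V₁) (hA₂ : A ≤ V₂)
    (hsat : ∀ x ∈ A, q⁻¹ * x ∈ V₁ → q⁻¹ * x ∈ V₂ → q⁻¹ * x ∈ A)
    (z z' : F) (hz : z ∈ A) (hz' : z' ∈ A) (hz₂ : q⁻¹ * z ∈ V₂) (hz'₁ : q⁻¹ * z' ∈ V₁) :
    nl71_Stage A q z z' 1 z z' (q⁻¹ * (z * z')) := by
  refine ⟨hz, hz', ?_, ?_, ?_, ?_⟩
  · apply hsat _ (A.mul_mem hz hz')
    · have : q⁻¹ * (z * z') = z * (q⁻¹ * z') := by ring
      rw [this]; exact V₁.mul_mem (hA₁ hz) hz'₁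
    · have : q⁻¹ * (z * z') = (q⁻¹ * z) * z' := by ring
      rw [this]; exact V₂.mul_mem hz₂ (hA₂ hz')
  · field_simp
  · simp [A.zero_mem]
  · simp [A.zero_mem]

/-- The replacement step: if the cofactor lies in `(q, z, z')`, pass to the next stage. -/
theorem nl71_stage_succ (A : Subring F) (q : F) (hq0 : q ≠ 0) (hqA : q ∈ A)
    (z z' : F) (k : ℕ) (z₁ z₁' c : F)
    (hst : nl71_Stage A q z z' (k + 1) z₁ z₁' c)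
    (c' a b : F) (hc' : c' ∈ A) (ha : a ∈ A) (hb : b ∈ A)
    (hc : c = q * c' + a * z + b * z') :
    ∃ z₂ z₂' c₂ : F, nl71_Stage A q z z' (k + 2) z₂ z₂' c₂ := by
  obtain ⟨hz₁, hz₁', hcA, hprod, ht, ht'⟩ := hst
  -- rewrite `c` in terms of `z₁`, `z₁'`
  set t := q⁻¹ * (z₁ - z) with ht_def
  set t' := q⁻¹ * (z₁' - z') with ht'_def
  have hz_eq : z = z₁ - q * t := by
    rw [ht_def]; field_simp; ring
  have hz'_eq : z' = z₁' - q * t' := by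
    rw [ht'_def]; field_simp; ring
  have hc2 : c = q * (c' - a * t - b * t') + a * z₁ + b * z₁' := by
    rw [hc]
    nth_rewrite 1 [hz_eq]
    nth_rewrite 1 [hz'_eq]
    ring
  refine ⟨z₁ - q ^ (k + 1) * b, z₁' - q ^ (k + 1) * a,
    (c' - a * t - b * t') + q ^ k * (a * b), ?_, ?_, ?_, ?_, ?_, ?_⟩
  · exact A.sub_mem hz₁ (A.mul_mem (A.pow_mem hqA _) hb)
  · exact A.sub_mem hz₁' (A.mul_mem (A.pow_mem hqA _) ha)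
  · exact A.add_mem (A.sub_mem (A.sub_mem hc' (A.mul_mem ha ht)) (A.mul_mem hb ht'))
      (A.mul_mem (A.pow_mem hqA _) (A.mul_mem ha hb))
  · have : (z₁ - q ^ (k + 1) * b) * (z₁' - q ^ (k + 1) * a)
        = z₁ * z₁' - q ^ (k + 1) * (a * z₁ + b * z₁') + q ^ (k + 1) * q ^ (k + 1) * (a * b) := by
      ring
    rw [this, hprod, hc2]
    ring
  · have : q⁻¹ * (z₁ - q ^ (k + 1) * b - z) = q⁻¹ * (z₁ - z) - q ^ k * b := by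
      field_simp
      ring
    rw [this]
    exact A.sub_mem ht (A.mul_mem (A.pow_mem hqA _) hb)
  · have : q⁻¹ * (z₁' - q ^ (k + 1) * a - z') = q⁻¹ * (z₁' - z') - q ^ k * a := by
      field_simp
      ring
    rw [this]
    exact A.sub_mem ht' (A.mul_mem (A.pow_mem hqA _) ha)

/-- **The bound.**  A stage `j` of the loop forces `j * μ ≤ e`, where `U V = q ^ e` and `U` is
`unit * z ^ μ` on the first branch. -/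
theorem nl71_stage_bound (A V₁ V₂ : Subring F) (q : F) (hq0 : q ≠ 0) (hqA : q ∈ A)
    (hA₁ : A ≤ V₁) (hA₂ : A ≤ V₂)
    (hqV₂ : q⁻¹ ∉ V₂)
    (hV₁ : ∀ x ∈ V₁, q⁻¹ * x ∉ V₁ → x⁻¹ ∈ V₁)
    (hV₂ : ∀ x ∈ V₂, q⁻¹ * x ∉ V₂ → x⁻¹ ∈ V₂)
    (hsat : ∀ x ∈ A, q⁻¹ * x ∈ V₁ → q⁻¹ * x ∈ V₂ → q⁻¹ * x ∈ A)
    (hrad : ∀ y ∈ A, q⁻¹ * y ∈ V₁ → ∃ d ∈ A, (1 - y) * d = 1)
    (z z' : F) (hz : z ∈ A) (hz'₂ : q⁻¹ * z' ∉ V₂)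
    (U V : F) (hU : U ∈ A) (hV : V ∈ A) (e : ℕ) (hUV : U * V = q ^ e)
    (hU₁ : q⁻¹ * U ∉ V₁) (hV₂' : q⁻¹ * V ∉ V₂)
    (μ : ℕ) (ε : F) (hε : ε ∈ A)
    (hUμ : q⁻¹ * (U - ε * z ^ μ) ∈ V₁)
    (j : ℕ) (z₁ z₁' c : F) (hst : nl71_Stage A q z z' j z₁ z₁' c) :
    j * μ ≤ e := by
  obtain ⟨hz₁, hz₁', hcA, hprod, ht, ht'⟩ := hst
  by_contra hlt
  have hlt : e < j * μ := Nat.lt_of_not_le hlt
  obtain ⟨r, hr⟩ : ∃ r, j * μ = e + 1 + r := ⟨j * μ - e - 1, by omega⟩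
  -- `z₁'` is a unit of `V₂`
  have hz₁'V : q⁻¹ * z₁' ∉ V₂ := by
    intro h
    apply hz'₂
    have : q⁻¹ * z' = q⁻¹ * z₁' - q⁻¹ * (z₁' - z') := by ring
    rw [this]; exact V₂.sub_mem h (hA₂ ht')
  have hz₁'inv : z₁'⁻¹ ∈ V₂ := hV₂ _ (hA₂ hz₁') hz₁'V
  have hz₁'0 : z₁' ≠ 0 := by
    rintro rfl; apply hz₁'V; simp [V₂.zero_mem]
  -- `z₁ = q ^ j * w` with `w ∈ V₂`
  have hwV : c * z₁'⁻¹ ∈ V₂ := V₂.mul_mem (hA₂ hcA) hz₁'inv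
  have hz₁w : z₁ = q ^ j * (c * z₁'⁻¹) := by
    have : q ^ j * (c * z₁'⁻¹) = (q ^ j * c) * z₁'⁻¹ := by ring
    rw [this, ← hprod, mul_assoc, mul_inv_cancel₀ hz₁'0, mul_one]
  -- `V` is a unit of `V₂`, `U` is a unit of `V₁`
  have hVinv : V⁻¹ ∈ V₂ := hV₂ _ (hA₂ hV) hV₂'
  have hV0 : V ≠ 0 := by
    rintro rfl; apply hV₂'; simp [V₂.zero_mem]
  have hUinv : U⁻¹ ∈ V₁ := hV₁ _ (hA₁ hU) hU₁
  have hU0 : U ≠ 0 := by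
    rintro rfl; apply hU₁; simp [V₁.zero_mem]
  have hqe0 : q ^ e ≠ 0 := pow_ne_zero _ hq0
  have hUeq : U = q ^ e * V⁻¹ := by
    rw [← hUV, mul_assoc, mul_inv_cancel₀ hV0, mul_one]
  have hVeq : V = q ^ e * U⁻¹ := by
    rw [← hUV, mul_comm U V, mul_assoc, mul_inv_cancel₀ hU0, mul_one]
  -- `y := U - ε z₁ ^ μ`
  have hyA : U - ε * z₁ ^ μ ∈ A := A.sub_mem hU (A.mul_mem hε (A.pow_mem hz₁ μ))
  have hy₁ : q⁻¹ * (U - ε * z₁ ^ μ) ∈ V₁ := by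
    have : q⁻¹ * (U - ε * z₁ ^ μ)
        = q⁻¹ * (U - ε * z ^ μ) - ε * (q⁻¹ * (z₁ ^ μ - z ^ μ)) := by ring
    rw [this]
    exact V₁.sub_mem hUμ (V₁.mul_mem (hA₁ hε)
      (hA₁ (nl71_pow_sub_pow A q z₁ z hz₁ hz ht μ)))
  have hzpow : z₁ ^ μ = q ^ e * (q ^ (1 + r) * (c * z₁'⁻¹) ^ μ) := by
    rw [hz₁w, mul_pow, ← pow_mul, hr]
    ring
  have hy₂ : (q ^ e)⁻¹ * (U - ε * z₁ ^ μ) ∈ V₂ := by
    have : (q ^ e)⁻¹ * (U - ε * z₁ ^ μ)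
        = V⁻¹ - ε * (q ^ (1 + r) * (c * z₁'⁻¹) ^ μ) := by
      rw [hzpow]
      nth_rewrite 1 [hUeq]
      field_simp
    rw [this]
    exact V₂.sub_mem hVinv (V₂.mul_mem (hA₂ hε)
      (V₂.mul_mem (V₂.pow_mem (hA₂ hqA) _) (V₂.pow_mem hwV μ)))
  -- `y' := (q ^ e)⁻¹ (y V) = y U⁻¹`
  have hy'eq : (q ^ e)⁻¹ * ((U - ε * z₁ ^ μ) * V) = (U - ε * z₁ ^ μ) * U⁻¹ := by
    nth_rewrite 1 [hVeq]
    field_simp
  have hy'V₁ : (q ^ e)⁻¹ * ((U - ε * z₁ ^ μ) * V) ∈ V₁ := by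
    rw [hy'eq]; exact V₁.mul_mem (hA₁ hyA) hUinv
  have hy'V₂ : (q ^ e)⁻¹ * ((U - ε * z₁ ^ μ) * V) ∈ V₂ := by
    have : (q ^ e)⁻¹ * ((U - ε * z₁ ^ μ) * V) = ((q ^ e)⁻¹ * (U - ε * z₁ ^ μ)) * V := by ring
    rw [this]; exact V₂.mul_mem hy₂ (hA₂ hV)
  have hy'A : (q ^ e)⁻¹ * ((U - ε * z₁ ^ μ) * V) ∈ A :=
    nl71_sat_pow A V₁ V₂ q hqA hA₁ hA₂ hsat e _ (A.mul_mem hyA hV) hy'V₁ hy'V₂
  have hy'₁ : q⁻¹ * ((q ^ e)⁻¹ * ((U - ε * z₁ ^ μ) * V)) ∈ V₁ := by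
    rw [hy'eq]
    have : q⁻¹ * ((U - ε * z₁ ^ μ) * U⁻¹) = (q⁻¹ * (U - ε * z₁ ^ μ)) * U⁻¹ := by ring
    rw [this]; exact V₁.mul_mem hy₁ hUinv
  obtain ⟨d, hd, hd1⟩ := hrad _ hy'A hy'₁
  -- `ε z₁ ^ μ V = q ^ e (1 - y')`
  have hkey : ε * z₁ ^ μ * V = q ^ e * (1 - (q ^ e)⁻¹ * ((U - ε * z₁ ^ μ) * V)) := by
    have : q ^ e * (1 - (q ^ e)⁻¹ * ((U - ε * z₁ ^ μ) * V))
        = q ^ e - (U - ε * z₁ ^ μ) * V := by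
      field_simp
    rw [this, ← hUV]
    ring
  -- hence `q ^ (1 + r) * X = 1` with `X ∈ V₂`
  have hone : q ^ e * (q ^ (1 + r) * (ε * (c * z₁'⁻¹) ^ μ * V * d)) = q ^ e * 1 := by
    have h1 : q ^ e * (q ^ (1 + r) * (ε * (c * z₁'⁻¹) ^ μ * V * d))
        = (ε * (q ^ e * (q ^ (1 + r) * (c * z₁'⁻¹) ^ μ)) * V) * d := by ring
    rw [h1, ← hzpow, hkey, mul_assoc, hd1]
  have hone' : q ^ (1 + r) * (ε * (c * z₁'⁻¹) ^ μ * V * d) = 1 := mul_left_cancel₀ hqe0 hone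
  apply hqV₂
  have hqinv : q⁻¹ = q ^ r * (ε * (c * z₁'⁻¹) ^ μ * V * d) := by
    have h2 : q * (q ^ r * (ε * (c * z₁'⁻¹) ^ μ * V * d)) = 1 := by
      rw [← hone']; ring
    exact (eq_inv_of_mul_eq_one_right h2).symm
  rw [hqinv]
  exact V₂.mul_mem (V₂.pow_mem (hA₂ hqA) r)
    (V₂.mul_mem (V₂.mul_mem (V₂.mul_mem (hA₂ hε) (V₂.pow_mem hwV μ)) (hA₂ hV)) (hA₂ hd))

/-- Elements of the first branch ideal lie in the maximal ideal `(q, z, z')`. -/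
theorem nl71_mem_max (A V₁ : Subring F) (q : F) (hA₁ : A ≤ V₁) (hqV₁ : q⁻¹ ∉ V₁)
    (z z' : F)
    (hloc : ∀ c ∈ A, (∃ d ∈ A, c * d = 1) ∨
      ∃ c' ∈ A, ∃ a ∈ A, ∃ b ∈ A, c = q * c' + a * z + b * z')
    (y : F) (hy : y ∈ A) (hy₁ : q⁻¹ * y ∈ V₁) :
    ∃ c' ∈ A, ∃ a ∈ A, ∃ b ∈ A, y = q * c' + a * z + b * z' := by
  rcases hloc y hy with ⟨d, hd, hyd⟩ | h
  · exfalso
    apply hqV₁
    have : q⁻¹ = (q⁻¹ * y) * d := by rw [mul_assoc, hyd, mul_one]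
    rw [this]; exact V₁.mul_mem hy₁ (hA₁ hd)
  · exact h

/-- `1 - y` is a unit of `A` for `y` in the first branch ideal. -/
theorem nl71_rad (A V₁ : Subring F) (q : F) (hA₁ : A ≤ V₁) (hqV₁ : q⁻¹ ∉ V₁)
    (z z' : F)
    (hloc : ∀ c ∈ A, (∃ d ∈ A, c * d = 1) ∨
      ∃ c' ∈ A, ∃ a ∈ A, ∃ b ∈ A, c = q * c' + a * z + b * z')
    (hprop : ∀ c' ∈ A, ∀ a ∈ A, ∀ b ∈ A, q * c' + a * z + b * z' ≠ 1)
    (y : F) (hy : y ∈ A) (hy₁ : q⁻¹ * y ∈ V₁) :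
    ∃ d ∈ A, (1 - y) * d = 1 := by
  rcases hloc (1 - y) (A.sub_mem A.one_mem hy) with h | ⟨c', hc', a, ha, b, hb, h⟩
  · exact h
  · exfalso
    obtain ⟨c'', hc'', a', ha', b', hb', h'⟩ := nl71_mem_max A V₁ q hA₁ hqV₁ z z' hloc y hy hy₁
    apply hprop (c' + c'') (A.add_mem hc' hc'') (a + a') (A.add_mem ha ha') (b + b')
      (A.add_mem hb hb')
    linear_combination (-1 : F) * h - h'

/-- **P4, the node lemma (abstract form).**  Good coordinates at a node: from `U V = q ^ e`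
with `U` a unit on the first branch and `V` a unit on the second, the replacement loop
`(z, z') ↦ (z - q ^ j b, z' - q ^ j a)` stops after at most `e` steps with
`z₁ z₁' = q ^ κ * unit`, `z₁ ≡ z`, `z₁' ≡ z'` modulo `q A`. -/
theorem nl71_main (A V₁ V₂ : Subring F) (q : F) (hq0 : q ≠ 0) (hqA : q ∈ A)
    (hA₁ : A ≤ V₁) (hA₂ : A ≤ V₂)
    (hqV₁ : q⁻¹ ∉ V₁) (hqV₂ : q⁻¹ ∉ V₂)
    (hV₁ : ∀ x ∈ V₁, q⁻¹ * x ∉ V₁ → x⁻¹ ∈ V₁)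
    (hV₂ : ∀ x ∈ V₂, q⁻¹ * x ∉ V₂ → x⁻¹ ∈ V₂)
    (hsat : ∀ x ∈ A, q⁻¹ * x ∈ V₁ → q⁻¹ * x ∈ V₂ → q⁻¹ * x ∈ A)
    (z z' : F) (hz : z ∈ A) (hz' : z' ∈ A)
    (hz₂ : q⁻¹ * z ∈ V₂) (hz'₁ : q⁻¹ * z' ∈ V₁) (hz'₂ : q⁻¹ * z' ∉ V₂)
    (hloc : ∀ c ∈ A, (∃ d ∈ A, c * d = 1) ∨
      ∃ c' ∈ A, ∃ a ∈ A, ∃ b ∈ A, c = q * c' + a * z + b * z')
    (hprop : ∀ c' ∈ A, ∀ a ∈ A, ∀ b ∈ A, q * c' + a * z + b * z' ≠ 1)
    (U V : F) (hU : U ∈ A) (hV : V ∈ A) (e : ℕ) (he : 1 ≤ e) (hUV : U * V = q ^ e)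
    (hU₁ : q⁻¹ * U ∉ V₁) (hV₂' : q⁻¹ * V ∉ V₂)
    (hUμ : ∃ (μ : ℕ) (ε δ : F), ε ∈ A ∧ δ ∈ A ∧ ε * δ = 1 ∧ q⁻¹ * (U - ε * z ^ μ) ∈ V₁) :
    ∃ (κ : ℕ) (z₁ z₁' c d : F), 1 ≤ κ ∧ κ ≤ e ∧ z₁ ∈ A ∧ z₁' ∈ A ∧ c ∈ A ∧ d ∈ A ∧
      c * d = 1 ∧ z₁ * z₁' = q ^ κ * c ∧ q⁻¹ * (z₁ - z) ∈ A ∧ q⁻¹ * (z₁' - z') ∈ A := by
  obtain ⟨μ, ε, δ, hε, hδ, hεδ, hUμ⟩ := hUμ
  have hrad := nl71_rad A V₁ q hA₁ hqV₁ z z' hloc hprop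
  -- `μ ≥ 1`
  have hμ : 1 ≤ μ := by
    by_contra h0
    have hμ0 : μ = 0 := by omega
    subst hμ0
    rw [pow_zero, mul_one] at hUμ
    -- `U` lies in the maximal ideal
    have hVinv : V⁻¹ ∈ V₂ := hV₂ _ (hA₂ hV) hV₂'
    have hV0 : V ≠ 0 := by
      rintro rfl; apply hV₂'; simp [V₂.zero_mem]
    have hU₂ : q⁻¹ * U ∈ V₂ := by
      obtain ⟨e', rfl⟩ : ∃ e', e = e' + 1 := ⟨e - 1, by omega⟩
      have : q⁻¹ * U = q ^ e' * V⁻¹ := by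
        have hUeq : U = q ^ (e' + 1) * V⁻¹ := by
          rw [← hUV, mul_assoc, mul_inv_cancel₀ hV0, mul_one]
        rw [hUeq]; field_simp; ring
      rw [this]; exact V₂.mul_mem (V₂.pow_mem (hA₂ hqA) _) hVinv
    obtain ⟨c₁, hc₁, a₁, ha₁, b₁, hb₁, hU'⟩ :=
      nl71_mem_max A V₂ q hA₂ hqV₂ z z' hloc U hU hU₂
    obtain ⟨c₂, hc₂, a₂, ha₂, b₂, hb₂, hy'⟩ :=
      nl71_mem_max A V₁ q hA₁ hqV₁ z z' hloc (U - ε) (A.sub_mem hU hε) hUμ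
    apply hprop ((c₁ - c₂) * δ) (A.mul_mem (A.sub_mem hc₁ hc₂) hδ)
      ((a₁ - a₂) * δ) (A.mul_mem (A.sub_mem ha₁ ha₂) hδ)
      ((b₁ - b₂) * δ) (A.mul_mem (A.sub_mem hb₁ hb₂) hδ)
    have hεeq : ε = q * (c₁ - c₂) + (a₁ - a₂) * z + (b₁ - b₂) * z' := by
      linear_combination hU' - hy'
    linear_combination hεδ - δ * hεeq
  -- the bound for every stage
  have hbound : ∀ (j : ℕ) (z₁ z₁' c : F), nl71_Stage A q z z' j z₁ z₁' c → j ≤ e := by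
    intro j z₁ z₁' c hst
    have := nl71_stage_bound A V₁ V₂ q hq0 hqA hA₁ hA₂ hqV₂ hV₁ hV₂ hsat hrad z z' hz hz'₂
      U V hU hV e hUV hU₁ hV₂' μ ε hε hUμ j z₁ z₁' c hst
    calc j = j * 1 := (mul_one j).symm
      _ ≤ j * μ := Nat.mul_le_mul_left j hμ
      _ ≤ e := this
  -- the loop
  have hloop : ∀ (d k : ℕ), e = k + d → ∀ z₁ z₁' c : F,
      nl71_Stage A q z z' (k + 1) z₁ z₁' c →
      ∃ (κ : ℕ) (z₁ z₁' c d : F), 1 ≤ κ ∧ κ ≤ e ∧ z₁ ∈ A ∧ z₁' ∈ A ∧ c ∈ A ∧ d ∈ A ∧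
        c * d = 1 ∧ z₁ * z₁' = q ^ κ * c ∧ q⁻¹ * (z₁ - z) ∈ A ∧ q⁻¹ * (z₁' - z') ∈ A := by
    intro d
    induction d with
    | zero =>
      intro k hk z₁ z₁' c hst
      have := hbound _ _ _ _ hst
      omega
    | succ d ih =>
      intro k hk z₁ z₁' c hst
      have hle := hbound _ _ _ _ hst
      rcases hloc c hst.2.2.1 with ⟨d', hd', hcd⟩ | ⟨c', hc', a, ha, b, hb, hc⟩
      · exact ⟨k + 1, z₁, z₁', c, d', by omega, hle, hst.1, hst.2.1, hst.2.2.1, hd', hcd,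
          hst.2.2.2.1, hst.2.2.2.2.1, hst.2.2.2.2.2⟩
      · obtain ⟨z₂, z₂', c₂, hst₂⟩ :=
          nl71_stage_succ A q hq0 hqA z z' k z₁ z₁' c hst c' a b hc' ha hb hc
        exact ih (k + 1) (by omega) z₂ z₂' c₂ hst₂
  have h1 := nl71_stage_one A V₁ V₂ q hq0 hA₁ hA₂ hsat z z' hz hz' hz₂ hz'₁
  obtain ⟨e', rfl⟩ : ∃ e', e = e' + 1 := ⟨e - 1, by omega⟩
  exact hloop (e' + 1) 0 (by omega) z z' _ h1

end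

end Fermat.Agent.S34
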