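import Mathlib
import Fermat.Agent.S34.Iface47
import Fermat.Agent.S34.NodeLemma71

/-!
# S34 lab, P3 (special fibre): literal shapes and the abstract assembly of `s34i47_LocStr`
(helper79)

`B` is a chart (a subalgebra of the function field `F`), `V₁`, `V₂` are the two valuation rings
above the Gauss valuation (as subrings of `F`), `π` is the uniformiser of the base.

* `sf79_OnBr π B V n` : the branch `p_V = B ∩ π V` lies in the closed point `n`.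
* `sf79_Unif π B V n z` : `z` is a local coordinate of the branch at `n`:
  `n B_n = z B_n + p_V B_n`.
* `sf79_Smooth π B V` : every closed point of the branch has a local coordinate  (3a).
* `sf79_Transv π B V₁ V₂` : at the points lying on both branches `n B_n = p₁ B_n + p₂ B_n`  (3b).
* `sf79_UVAt π B V₁ V₂` : at the points lying on both branches there are `u, v ∈ B` with
  `u v = π ^ e · s`, `s ∉ n`, `u` a unit along `V₁`, `v` a unit along `V₂`  (3c + 3d + P4').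
* `sf79_locStr` : these four imply `s34i47_LocStr π B` (regular points: `z' = π`; nodes: the
  abstract node lemma `nl71_main`).
-/

set_option autoImplicit false

namespace Fermat.Agent.S34

section SF79

variable {R F : Type*} [CommRing R] [Field F] [Algebra R F]

/-- The branch `p_V = {x ∈ B | π⁻¹ x ∈ V}` is contained in `n`. -/
def sf79_OnBr (π : R) (B : Subalgebra R F) (V : Subring F) (n : Ideal B) : Prop :=
  ∀ x : B, (algebraMap R F π)⁻¹ * (x : F) ∈ V → x ∈ n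

/-- `z` is a local coordinate of the branch `V` at `n`: `n B_n = z B_n + p_V B_n`. -/
def sf79_Unif (π : R) (B : Subalgebra R F) (V : Subring F) (n : Ideal B) (z : B) : Prop :=
  z ∈ n ∧ ∀ x ∈ n, ∃ s : B, s ∉ n ∧ ∃ a : B,
    (algebraMap R F π)⁻¹ * ((s : F) * (x : F) - (a : F) * (z : F)) ∈ V

/-- **(3a)** Every closed point of the branch `V` has a local coordinate. -/
def sf79_Smooth (π : R) (B : Subalgebra R F) (V : Subring F) : Prop :=
  ∀ n : Ideal B, n.IsMaximal → algebraMap R B π ∈ n → sf79_OnBr π B V n →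
    ∃ z : B, sf79_Unif π B V n z

/-- **(3b)** Transversality: at a point of both branches, `n B_n = p₁ B_n + p₂ B_n`. -/
def sf79_Transv (π : R) (B : Subalgebra R F) (V₁ V₂ : Subring F) : Prop :=
  ∀ n : Ideal B, n.IsMaximal → algebraMap R B π ∈ n → sf79_OnBr π B V₁ n → sf79_OnBr π B V₂ n →
    ∀ x ∈ n, ∃ s : B, s ∉ n ∧ ∃ y y' : B, s * x = y + y' ∧
      (algebraMap R F π)⁻¹ * (y : F) ∈ V₁ ∧ (algebraMap R F π)⁻¹ * (y' : F) ∈ V₂

/-- **(3c) + (3d) + (P4')** At a point of both branches there are `u, v ∈ B` with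
`u v = π ^ e · s`, `s ∉ n`, `1 ≤ e`, `u` a unit along `V₁` and `v` a unit along `V₂`. -/
def sf79_UVAt (π : R) (B : Subalgebra R F) (V₁ V₂ : Subring F) : Prop :=
  ∀ n : Ideal B, n.IsMaximal → algebraMap R B π ∈ n → sf79_OnBr π B V₁ n → sf79_OnBr π B V₂ n →
    ∃ (u v s : B) (e : ℕ), s ∉ n ∧ 1 ≤ e ∧ u * v = algebraMap R B π ^ e * s ∧
      (algebraMap R F π)⁻¹ * (u : F) ∉ V₁ ∧ (algebraMap R F π)⁻¹ * (v : F) ∉ V₂

/-- The localisation `B_n` as a subring of `F`. -/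
def sf79_loc (B : Subalgebra R F) (n : Ideal B) [hn : n.IsPrime] : Subring F where
  carrier := {x | ∃ s : B, s ∉ n ∧ (s : F) * x ∈ B}
  mul_mem' := by
    rintro x y ⟨s, hs, hsx⟩ ⟨t, ht, hty⟩
    refine ⟨s * t, fun h => (hn.mem_or_mem h).elim hs ht, ?_⟩
    have : ((s * t : B) : F) * (x * y) = ((s : F) * x) * ((t : F) * y) := by push_cast; ring
    rw [this]; exact B.mul_mem hsx hty
  one_mem' := ⟨1, (Ideal.ne_top_iff_one n).mp hn.ne_top, by simp⟩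
  add_mem' := by
    rintro x y ⟨s, hs, hsx⟩ ⟨t, ht, hty⟩
    refine ⟨s * t, fun h => (hn.mem_or_mem h).elim hs ht, ?_⟩
    have : ((s * t : B) : F) * (x + y) = (t : F) * ((s : F) * x) + (s : F) * ((t : F) * y) := by
      push_cast; ring
    rw [this]; exact B.add_mem (B.mul_mem t.2 hsx) (B.mul_mem s.2 hty)
  zero_mem' := ⟨1, (Ideal.ne_top_iff_one n).mp hn.ne_top, by simp⟩
  neg_mem' := by
    rintro x ⟨s, hs, hsx⟩
    refine ⟨s, hs, ?_⟩
    rw [mul_neg]; exact B.neg_mem hsx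

theorem sf79_mem_loc (B : Subalgebra R F) (n : Ideal B) [n.IsPrime] (x : F) :
    x ∈ sf79_loc B n ↔ ∃ s : B, s ∉ n ∧ (s : F) * x ∈ B := Iff.rfl

theorem sf79_le_loc (B : Subalgebra R F) (n : Ideal B) [hn : n.IsPrime] (x : F) (hx : x ∈ B) :
    x ∈ sf79_loc B n :=
  ⟨1, (Ideal.ne_top_iff_one n).mp hn.ne_top, by simpa using hx⟩

theorem sf79_ne_zero (B : Subalgebra R F) (n : Ideal B) (s : B) (hs : s ∉ n) : (s : F) ≠ 0 := by
  intro h
  apply hs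
  have : s = 0 := Subtype.ext h
  rw [this]; exact n.zero_mem

theorem sf79_inv_mem_loc (B : Subalgebra R F) (n : Ideal B) [n.IsPrime] (s : B) (hs : s ∉ n) :
    (s : F)⁻¹ ∈ sf79_loc B n :=
  ⟨s, hs, by rw [mul_inv_cancel₀ (sf79_ne_zero B n s hs)]; exact B.one_mem⟩

/-- Elements outside `n` are units of a valuation ring whose branch lies in `n`. -/
theorem sf79_inv_mem (π : R) (B : Subalgebra R F) (V : Subring F) (hBV : ∀ x ∈ B, x ∈ V)
    (hV : ∀ x ∈ V, (algebraMap R F π)⁻¹ * x ∉ V → x⁻¹ ∈ V) (n : Ideal B)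
    (h : sf79_OnBr π B V n) (s : B) (hs : s ∉ n) : (s : F)⁻¹ ∈ V :=
  hV _ (hBV _ s.2) fun h' => hs (h s h')

theorem sf79_loc_le (π : R) (B : Subalgebra R F) (V : Subring F) (hBV : ∀ x ∈ B, x ∈ V)
    (hV : ∀ x ∈ V, (algebraMap R F π)⁻¹ * x ∉ V → x⁻¹ ∈ V) (n : Ideal B) [n.IsPrime]
    (h : sf79_OnBr π B V n) : sf79_loc B n ≤ V := by
  rintro x ⟨s, hs, hsx⟩
  have h1 := sf79_inv_mem π B V hBV hV n h s hs
  have h2 : x = (s : F)⁻¹ * ((s : F) * x) := by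
    rw [← mul_assoc, inv_mul_cancel₀ (sf79_ne_zero B n s hs), one_mul]
  rw [h2]
  exact V.mul_mem h1 (hBV _ hsx)

theorem sf79_loc_sat (π : R) (B : Subalgebra R F) (V₁ V₂ : Subring F)
    (hB₁ : ∀ x ∈ B, x ∈ V₁) (hB₂ : ∀ x ∈ B, x ∈ V₂)
    (hsat : ∀ x ∈ B, (algebraMap R F π)⁻¹ * x ∈ V₁ → (algebraMap R F π)⁻¹ * x ∈ V₂ →
      (algebraMap R F π)⁻¹ * x ∈ B)
    (n : Ideal B) [n.IsPrime] (x : F) (hx : x ∈ sf79_loc B n)
    (h1 : (algebraMap R F π)⁻¹ * x ∈ V₁) (h2 : (algebraMap R F π)⁻¹ * x ∈ V₂) :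
    (algebraMap R F π)⁻¹ * x ∈ sf79_loc B n := by
  obtain ⟨s, hs, hsx⟩ := hx
  refine ⟨s, hs, ?_⟩
  have e : (s : F) * ((algebraMap R F π)⁻¹ * x) = (algebraMap R F π)⁻¹ * ((s : F) * x) := by ring
  rw [e]
  apply hsat _ hsx
  · rw [← e]; exact V₁.mul_mem (hB₁ _ s.2) h1
  · rw [← e]; exact V₂.mul_mem (hB₂ _ s.2) h2

/-- Membership in `n B_n`. -/
def sf79_nmem (B : Subalgebra R F) (n : Ideal B) (x : F) : Prop :=
  ∃ s : B, s ∉ n ∧ ∃ b : B, b ∈ n ∧ (s : F) * x = (b : F)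

theorem sf79_nmem_of_mem (B : Subalgebra R F) (n : Ideal B) [hn : n.IsPrime] (b : B)
    (hb : b ∈ n) : sf79_nmem B n (b : F) :=
  ⟨1, (Ideal.ne_top_iff_one n).mp hn.ne_top, b, hb, by simp⟩

theorem sf79_nmem_add (B : Subalgebra R F) (n : Ideal B) [hn : n.IsPrime] (x y : F)
    (hx : sf79_nmem B n x) (hy : sf79_nmem B n y) : sf79_nmem B n (x + y) := by
  obtain ⟨s, hs, b, hb, e⟩ := hx
  obtain ⟨t, ht, c, hc, e'⟩ := hy
  refine ⟨s * t, fun h => (hn.mem_or_mem h).elim hs ht, t * b + s * c,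
    n.add_mem (n.mul_mem_left _ hb) (n.mul_mem_left _ hc), ?_⟩
  push_cast
  rw [← e, ← e']; ring

theorem sf79_nmem_mul (B : Subalgebra R F) (n : Ideal B) [hn : n.IsPrime] (a x : F)
    (ha : a ∈ sf79_loc B n) (hx : sf79_nmem B n x) : sf79_nmem B n (a * x) := by
  obtain ⟨s, hs, b, hb, e⟩ := hx
  obtain ⟨t, ht, hta⟩ := ha
  refine ⟨t * s, fun h => (hn.mem_or_mem h).elim ht hs, ⟨_, hta⟩ * b, n.mul_mem_left _ hb, ?_⟩
  push_cast
  rw [← e]; ring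

theorem sf79_not_nmem_one (B : Subalgebra R F) (n : Ideal B) : ¬ sf79_nmem B n (1 : F) := by
  rintro ⟨s, hs, b, hb, e⟩
  apply hs
  have : s = b := Subtype.ext (by simpa using e)
  rw [this]; exact hb

theorem sf79_mem_of_nmem (B : Subalgebra R F) (n : Ideal B) [hn : n.IsPrime] (b : B)
    (hb : sf79_nmem B n (b : F)) : b ∈ n := by
  obtain ⟨s, hs, c, hc, e⟩ := hb
  have : s * b = c := Subtype.ext (by push_cast; exact e)
  have h2 : s * b ∈ n := by rw [this]; exact hc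
  exact (hn.mem_or_mem h2).resolve_left hs

/-- A regular point of the special fibre (on the branch `V₁` only): `n B_n = (z, π)`. -/
theorem sf79_regular (π : R) (B : Subalgebra R F) (V₁ V₂ : Subring F)
    (hB₁ : ∀ x ∈ B, x ∈ V₁)
    (hsat : ∀ x ∈ B, (algebraMap R F π)⁻¹ * x ∈ V₁ → (algebraMap R F π)⁻¹ * x ∈ V₂ →
      (algebraMap R F π)⁻¹ * x ∈ B)
    (hp0 : algebraMap R F π ≠ 0)
    (hB₂ : ∀ x ∈ B, x ∈ V₂)
    (n : Ideal B) [hn : n.IsPrime] (z : B) (hz : sf79_Unif π B V₁ n z)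
    (h2 : ¬ sf79_OnBr π B V₂ n) :
    ∀ x ∈ n, ∃ s : B, s ∉ n ∧ ∃ a c : B, s * x = a * z + c * algebraMap R B π := by
  obtain ⟨δ, hδ⟩ := not_forall.mp h2
  obtain ⟨hδ2, hδn⟩ := Classical.not_imp.mp hδ
  intro x hx
  obtain ⟨s, hs, a, ha⟩ := hz.2 x hx
  have hyB : (s : F) * (x : F) - (a : F) * (z : F) ∈ B :=
    B.sub_mem (B.mul_mem s.2 x.2) (B.mul_mem a.2 z.2)
  have hcB : (algebraMap R F π)⁻¹ * ((δ : F) * ((s : F) * (x : F) - (a : F) * (z : F))) ∈ B := by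
    apply hsat _ (B.mul_mem δ.2 hyB)
    · have e : (algebraMap R F π)⁻¹ * ((δ : F) * ((s : F) * (x : F) - (a : F) * (z : F))) =
          (δ : F) * ((algebraMap R F π)⁻¹ * ((s : F) * (x : F) - (a : F) * (z : F))) := by ring
      rw [e]; exact V₁.mul_mem (hB₁ _ δ.2) ha
    · have e : (algebraMap R F π)⁻¹ * ((δ : F) * ((s : F) * (x : F) - (a : F) * (z : F))) =
          ((algebraMap R F π)⁻¹ * (δ : F)) * ((s : F) * (x : F) - (a : F) * (z : F)) := by ring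
      rw [e]; exact V₂.mul_mem hδ2 (hB₂ _ hyB)
  refine ⟨δ * s, fun h => (hn.mem_or_mem h).elim hδn hs, δ * a, ⟨_, hcB⟩, ?_⟩
  apply Subtype.ext
  have h3 : ∀ X : F, (algebraMap R F π)⁻¹ * X * algebraMap R F π = X := fun X => by
    rw [mul_comm (algebraMap R F π)⁻¹, mul_assoc, inv_mul_cancel₀ hp0, mul_one]
  show (δ : F) * (s : F) * (x : F) = (δ : F) * (a : F) * (z : F) +
    (algebraMap R F π)⁻¹ * ((δ : F) * ((s : F) * (x : F) - (a : F) * (z : F))) *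
      algebraMap R F π
  rw [h3]
  ring

/-- Elements of `n ^ μ` are, locally at `n` and modulo the branch, multiples of `z ^ μ`. -/
theorem sf79_pow_unif (π : R) (B : Subalgebra R F) (V : Subring F) (hBV : ∀ x ∈ B, x ∈ V)
    (n : Ideal B) [hn : n.IsPrime] (z : B) (hz : sf79_Unif π B V n z) (μ : ℕ) :
    ∀ x ∈ n ^ μ, ∃ s : B, s ∉ n ∧ ∃ a : B,
      (algebraMap R F π)⁻¹ * ((s : F) * (x : F) - (a : F) * (z : F) ^ μ) ∈ V := by
  induction μ with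
  | zero =>
    intro x _
    exact ⟨1, (Ideal.ne_top_iff_one n).mp hn.ne_top, x, by simp [V.zero_mem]⟩
  | succ μ ih =>
    intro x hx
    rw [pow_succ] at hx
    refine Submodule.mul_induction_on hx ?_ ?_
    · intro m hm m' hm'
      obtain ⟨s, hs, a, ha⟩ := ih m hm
      obtain ⟨s', hs', a', ha'⟩ := hz.2 m' hm'
      refine ⟨s * s', fun h => (hn.mem_or_mem h).elim hs hs', a * a', ?_⟩
      have e : (algebraMap R F π)⁻¹ * (((s * s' : B) : F) * ((m * m' : B) : F) -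
            ((a * a' : B) : F) * (z : F) ^ (μ + 1)) =
          ((algebraMap R F π)⁻¹ * ((s : F) * (m : F) - (a : F) * (z : F) ^ μ)) *
              ((s' : F) * (m' : F)) +
            ((a : F) * (z : F) ^ μ) *
              ((algebraMap R F π)⁻¹ * ((s' : F) * (m' : F) - (a' : F) * (z : F))) := by
        push_cast; ring
      rw [e]
      exact V.add_mem (V.mul_mem ha (hBV _ (B.mul_mem s'.2 m'.2)))
        (V.mul_mem (hBV _ (B.mul_mem a.2 (B.pow_mem z.2 μ))) ha')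
    · rintro x y ⟨s, hs, a, ha⟩ ⟨s', hs', a', ha'⟩
      refine ⟨s * s', fun h => (hn.mem_or_mem h).elim hs hs', s' * a + s * a', ?_⟩
      have e : (algebraMap R F π)⁻¹ * (((s * s' : B) : F) * ((x + y : B) : F) -
            ((s' * a + s * a' : B) : F) * (z : F) ^ (μ + 1)) =
          (s' : F) * ((algebraMap R F π)⁻¹ * ((s : F) * (x : F) - (a : F) * (z : F) ^ (μ + 1))) +
            (s : F) *
              ((algebraMap R F π)⁻¹ * ((s' : F) * (y : F) - (a' : F) * (z : F) ^ (μ + 1))) := by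
        push_cast; ring
      rw [e]
      exact V.add_mem (V.mul_mem (hBV _ s'.2) ha) (V.mul_mem (hBV _ s.2) ha')

/-- The branch of `V` as an ideal of `B`. -/
def sf79_br (π : R) (B : Subalgebra R F) (V : Subring F) (hBV : ∀ x ∈ B, x ∈ V) : Ideal B where
  carrier := {x | (algebraMap R F π)⁻¹ * (x : F) ∈ V}
  add_mem' := by
    intro a b ha hb
    show (algebraMap R F π)⁻¹ * ((a + b : B) : F) ∈ V
    have e : (algebraMap R F π)⁻¹ * ((a + b : B) : F) =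
        (algebraMap R F π)⁻¹ * (a : F) + (algebraMap R F π)⁻¹ * (b : F) := by push_cast; ring
    rw [e]; exact V.add_mem ha hb
  zero_mem' := by
    show (algebraMap R F π)⁻¹ * ((0 : B) : F) ∈ V
    simp [V.zero_mem]
  smul_mem' := by
    intro c x hx
    show (algebraMap R F π)⁻¹ * ((c • x : B) : F) ∈ V
    have e : (algebraMap R F π)⁻¹ * ((c • x : B) : F) =
        (c : F) * ((algebraMap R F π)⁻¹ * (x : F)) := by
      rw [smul_eq_mul]; push_cast; ring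
    rw [e]; exact V.mul_mem (hBV _ c.2) hx

theorem sf79_mem_br (π : R) (B : Subalgebra R F) (V : Subring F) (hBV : ∀ x ∈ B, x ∈ V) (x : B) :
    x ∈ sf79_br π B V hBV ↔ (algebraMap R F π)⁻¹ * (x : F) ∈ V := Iff.rfl

theorem sf79_br_isPrime (π : R) (B : Subalgebra R F) (V : Subring F) (hBV : ∀ x ∈ B, x ∈ V)
    (hπV : (algebraMap R F π)⁻¹ ∉ V)
    (hV : ∀ x ∈ V, (algebraMap R F π)⁻¹ * x ∉ V → x⁻¹ ∈ V) : (sf79_br π B V hBV).IsPrime := by
  refine ⟨?_, ?_⟩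
  · rw [Ideal.ne_top_iff_one, sf79_mem_br]
    simpa using hπV
  · intro x y hxy
    rw [sf79_mem_br] at hxy
    by_cases hx : (algebraMap R F π)⁻¹ * (x : F) ∈ V
    · exact Or.inl hx
    · right
      have hxinv := hV _ (hBV _ x.2) hx
      have hx0 : (x : F) ≠ 0 := by
        intro h0
        apply hx
        rw [h0, mul_zero]; exact V.zero_mem
      rw [sf79_mem_br]
      have e : (algebraMap R F π)⁻¹ * (y : F) =
          (x : F)⁻¹ * ((algebraMap R F π)⁻¹ * ((x * y : B) : F)) := by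
        push_cast; field_simp
      rw [e]; exact V.mul_mem hxinv hxy

/-- **The discrete valuation property of a smooth branch at `n`**: an element `u` of `B`
which is a unit along `V` is, modulo the branch, a unit of `B_n` times a power of the local
coordinate `z`. -/
theorem sf79_unif_pow (π : R) (B : Subalgebra R F) [IsNoetherianRing B] (V : Subring F)
    (hBV : ∀ x ∈ B, x ∈ V) (hπV : (algebraMap R F π)⁻¹ ∉ V)
    (hV : ∀ x ∈ V, (algebraMap R F π)⁻¹ * x ∉ V → x⁻¹ ∈ V)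
    (n : Ideal B) [hn : n.IsMaximal] (hOn : sf79_OnBr π B V n)
    (z : B) (hz : sf79_Unif π B V n z) (u : B) (hu : (algebraMap R F π)⁻¹ * (u : F) ∉ V) :
    ∃ (μ : ℕ) (s a : B), s ∉ n ∧ a ∉ n ∧
      (algebraMap R F π)⁻¹ * ((s : F) * (u : F) - (a : F) * (z : F) ^ μ) ∈ V := by
  classical
  have hnp : n.IsPrime := hn.isPrime
  set P : Ideal B := sf79_br π B V hBV with hP
  have hPp : P.IsPrime := sf79_br_isPrime π B V hBV hπV hV
  have hPn : P ≤ n := fun x hx => hOn x hx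
  set mk := Ideal.Quotient.mk P with hmk
  have hsurj : Function.Surjective mk := Ideal.Quotient.mk_surjective
  set I : Ideal (B ⧸ P) := n.map mk with hI
  have hItop : I ≠ ⊤ := by
    intro htop
    have h1 : (1 : B ⧸ P) ∈ I := by rw [htop]; trivial
    obtain ⟨x, hx, hx1⟩ := (Ideal.mem_map_iff_of_surjective mk hsurj).mp h1
    have h2 : x - 1 ∈ P := by
      rw [← Ideal.Quotient.eq_zero_iff_mem, map_sub, ← hmk, hx1, map_one, sub_self]
    have h3 : (1 : B) ∈ n := by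
      have := n.sub_mem hx (hPn h2)
      simpa using this
    exact hnp.ne_top ((Ideal.eq_top_iff_one n).mpr h3)
  have hkrull := Ideal.iInf_pow_eq_bot_of_isDomain I hItop
  have hu0 : mk u ≠ 0 := by
    intro h0
    rw [hmk, Ideal.Quotient.eq_zero_iff_mem] at h0
    exact hu h0
  have hex : ∃ k : ℕ, mk u ∉ I ^ k := by
    by_contra hall
    apply hu0
    have : mk u ∈ ⨅ i : ℕ, I ^ i := by
      rw [Ideal.mem_iInf]
      intro i
      by_contra hi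
      exact hall ⟨i, hi⟩
    rw [hkrull] at this
    exact this
  have hk0 : Nat.find hex ≠ 0 := by
    intro h0
    have h1 := Nat.find_spec hex
    apply h1
    rw [h0]
    simp
  obtain ⟨μ, hμ⟩ := Nat.exists_eq_succ_of_ne_zero hk0
  have hμ1 : mk u ∉ I ^ (μ + 1) := by
    have := Nat.find_spec hex
    rwa [hμ] at this
  have hμ0 : mk u ∈ I ^ μ := by
    by_contra h
    have := Nat.find_min' hex h
    omega
  rw [hI, ← Ideal.map_pow] at hμ0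
  obtain ⟨x, hx, hxu⟩ := (Ideal.mem_map_iff_of_surjective mk hsurj).mp hμ0
  have hxuP : x - u ∈ P := by
    rw [← Ideal.Quotient.eq_zero_iff_mem, map_sub, ← hmk, hxu, sub_self]
  obtain ⟨s, hs, a, ha⟩ := sf79_pow_unif π B V hBV n z hz μ x hx
  have hsu : (algebraMap R F π)⁻¹ * ((s : F) * (u : F) - (a : F) * (z : F) ^ μ) ∈ V := by
    have e : (algebraMap R F π)⁻¹ * ((s : F) * (u : F) - (a : F) * (z : F) ^ μ) =
        (algebraMap R F π)⁻¹ * ((s : F) * (x : F) - (a : F) * (z : F) ^ μ) -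
          (s : F) * ((algebraMap R F π)⁻¹ * ((x - u : B) : F)) := by
      push_cast; ring
    rw [e]
    exact V.sub_mem ha (V.mul_mem (hBV _ s.2) hxuP)
  refine ⟨μ, s, a, hs, ?_, hsu⟩
  intro han
  apply hμ1
  have h1 : a * z ^ μ ∈ n ^ (μ + 1) := by
    rw [pow_succ']
    exact Ideal.mul_mem_mul han (Ideal.pow_mem_pow hz.1 μ)
  have h2 : s * u - a * z ^ μ ∈ P := by
    rw [hP, sf79_mem_br]
    push_cast
    exact hsu
  have h3 : mk (s * u) = mk (a * z ^ μ) := by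
    have := (Ideal.Quotient.eq_zero_iff_mem (I := P)).mpr h2
    rw [map_sub, sub_eq_zero] at this
    exact this
  obtain ⟨y, i, hi, hyi⟩ := Ideal.IsMaximal.exists_inv_pow n hs (μ + 1)
  have h4 : mk u = mk y * mk (a * z ^ μ) + mk (i * u) := by
    rw [← h3, ← map_mul, ← map_add]
    congr 1
    calc u = (y * s + i) * u := by rw [hyi, one_mul]
      _ = y * (s * u) + i * u := by ring
  rw [h4, hI, ← Ideal.map_pow]
  refine Ideal.add_mem _ (Ideal.mul_mem_left _ _ (Ideal.mem_map_of_mem mk h1))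
    (Ideal.mem_map_of_mem mk (Ideal.mul_mem_right _ _ hi))

set_option maxHeartbeats 1600000 in
/-- **A node of the special fibre**: good coordinates `z z' = π ^ κ · unit`. -/
theorem sf79_node (π : R) (B : Subalgebra R F) [IsNoetherianRing B] (V₁ V₂ : Subring F)
    (hB₁ : ∀ x ∈ B, x ∈ V₁) (hB₂ : ∀ x ∈ B, x ∈ V₂)
    (hπ₁ : (algebraMap R F π)⁻¹ ∉ V₁) (hπ₂ : (algebraMap R F π)⁻¹ ∉ V₂)
    (hV₁ : ∀ x ∈ V₁, (algebraMap R F π)⁻¹ * x ∉ V₁ → x⁻¹ ∈ V₁)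
    (hV₂ : ∀ x ∈ V₂, (algebraMap R F π)⁻¹ * x ∉ V₂ → x⁻¹ ∈ V₂)
    (hsat : ∀ x ∈ B, (algebraMap R F π)⁻¹ * x ∈ V₁ → (algebraMap R F π)⁻¹ * x ∈ V₂ →
      (algebraMap R F π)⁻¹ * x ∈ B)
    (n : Ideal B) [hn : n.IsMaximal] (hπn : algebraMap R B π ∈ n)
    (h1 : sf79_OnBr π B V₁ n) (h2 : sf79_OnBr π B V₂ n)
    (z₁ : B) (hz₁ : sf79_Unif π B V₁ n z₁) (z₂ : B) (hz₂ : sf79_Unif π B V₂ n z₂)
    (hT : ∀ x ∈ n, ∃ s : B, s ∉ n ∧ ∃ y y' : B, s * x = y + y' ∧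
      (algebraMap R F π)⁻¹ * (y : F) ∈ V₁ ∧ (algebraMap R F π)⁻¹ * (y' : F) ∈ V₂)
    (u v s₀ : B) (e : ℕ) (hs₀ : s₀ ∉ n) (he : 1 ≤ e)
    (huv : u * v = algebraMap R B π ^ e * s₀)
    (hu : (algebraMap R F π)⁻¹ * (u : F) ∉ V₁) (hv : (algebraMap R F π)⁻¹ * (v : F) ∉ V₂) :
    ∃ z z' : B, z ∈ n ∧ z' ∈ n ∧
      (∀ x ∈ n, ∃ s : B, s ∉ n ∧ ∃ a b c : B, s * x = a * z + b * z' + c * algebraMap R B π) ∧
      ∃ (κ : ℕ) (s s' : B), s ∉ n ∧ s' ∉ n ∧ s * z * z' = algebraMap R B π ^ κ * s' := by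
  classical
  have hnp : n.IsPrime := hn.isPrime
  have hpB : ((algebraMap R B π : B) : F) = algebraMap R F π := rfl
  set p : F := algebraMap R F π with hp
  have hp0 : p ≠ 0 := fun h0 => hπ₁ (by rw [h0, inv_zero]; exact V₁.zero_mem)
  set A : Subring F := sf79_loc B n with hA
  have hA₁ : A ≤ V₁ := sf79_loc_le π B V₁ hB₁ hV₁ n h1
  have hA₂ : A ≤ V₂ := sf79_loc_le π B V₂ hB₂ hV₂ n h2
  have hBA : ∀ x ∈ B, x ∈ A := fun x hx => sf79_le_loc B n x hx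
  have hinvA : ∀ s : B, s ∉ n → (s : F)⁻¹ ∈ A := fun s hs => sf79_inv_mem_loc B n s hs
  have hne : ∀ s : B, s ∉ n → (s : F) ≠ 0 := fun s hs => sf79_ne_zero B n s hs
  have hpA : p ∈ A := hBA _ (algebraMap R B π).2
  have hsatA : ∀ x ∈ A, p⁻¹ * x ∈ V₁ → p⁻¹ * x ∈ V₂ → p⁻¹ * x ∈ A :=
    fun x hx a b => sf79_loc_sat π B V₁ V₂ hB₁ hB₂ hsat n x hx a b
  -- the coordinates
  obtain ⟨sa, hsa, ya, ya', hya, hya1, hya2⟩ := hT z₁ hz₁.1
  obtain ⟨sb, hsb, yb, yb', hyb, hyb1, hyb2⟩ := hT z₂ hz₂.1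
  have hyaF : (sa : F) * (z₁ : F) = (ya : F) + (ya' : F) := by
    have := congrArg (fun t : B => (t : F)) hya
    simpa using this
  have hybF : (sb : F) * (z₂ : F) = (yb : F) + (yb' : F) := by
    have := congrArg (fun t : B => (t : F)) hyb
    simpa using this
  set z : F := (sa : F)⁻¹ * (ya' : F) with hz
  set z' : F := (sb : F)⁻¹ * (yb : F) with hz'
  have hzA : z ∈ A := A.mul_mem (hinvA sa hsa) (hBA _ ya'.2)
  have hz'A : z' ∈ A := A.mul_mem (hinvA sb hsb) (hBA _ yb.2)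
  have hz2 : p⁻¹ * z ∈ V₂ := by
    have e1 : p⁻¹ * z = (sa : F)⁻¹ * (p⁻¹ * (ya' : F)) := by rw [hz]; ring
    rw [e1]; exact V₂.mul_mem (hA₂ (hinvA sa hsa)) hya2
  have hz'1 : p⁻¹ * z' ∈ V₁ := by
    have e1 : p⁻¹ * z' = (sb : F)⁻¹ * (p⁻¹ * (yb : F)) := by rw [hz']; ring
    rw [e1]; exact V₁.mul_mem (hA₁ (hinvA sb hsb)) hyb1
  have hzz1 : p⁻¹ * ((z₁ : F) - z) ∈ V₁ := by
    have e1 : p⁻¹ * ((z₁ : F) - z) = (sa : F)⁻¹ * (p⁻¹ * (ya : F)) := by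
      have : (z₁ : F) = (sa : F)⁻¹ * ((ya : F) + (ya' : F)) := by
        rw [← hyaF, ← mul_assoc, inv_mul_cancel₀ (hne sa hsa), one_mul]
      rw [hz, this]; ring
    rw [e1]; exact V₁.mul_mem (hA₁ (hinvA sa hsa)) hya1
  have hzz2 : p⁻¹ * ((z₂ : F) - z') ∈ V₂ := by
    have e1 : p⁻¹ * ((z₂ : F) - z') = (sb : F)⁻¹ * (p⁻¹ * (yb' : F)) := by
      have : (z₂ : F) = (sb : F)⁻¹ * ((yb : F) + (yb' : F)) := by
        rw [← hybF, ← mul_assoc, inv_mul_cancel₀ (hne sb hsb), one_mul]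
      rw [hz', this]; ring
    rw [e1]; exact V₂.mul_mem (hA₂ (hinvA sb hsb)) hyb2
  have hyan : ya ∈ n := h1 ya hya1
  have hybn : yb ∈ n := h1 yb hyb1
  have hya'n : ya' ∈ n := by
    have : ya' = sa * z₁ - ya := by rw [hya]; ring
    rw [this]; exact n.sub_mem (n.mul_mem_left _ hz₁.1) hyan
  have hznm : sf79_nmem B n z :=
    ⟨sa, hsa, ya', hya'n, by rw [hz, ← mul_assoc, mul_inv_cancel₀ (hne sa hsa), one_mul]⟩
  have hz'nm : sf79_nmem B n z' :=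
    ⟨sb, hsb, yb, hybn, by rw [hz', ← mul_assoc, mul_inv_cancel₀ (hne sb hsb), one_mul]⟩
  have hpnm : sf79_nmem B n p := sf79_nmem_of_mem B n _ hπn
  -- `u`, `v`
  have hu0 : (u : F) ≠ 0 := fun h0 => hu (by rw [h0, mul_zero]; exact V₁.zero_mem)
  have huinv : (u : F)⁻¹ ∈ V₁ := hV₁ _ (hB₁ _ u.2) hu
  have huvF : (u : F) * (v : F) = p ^ e * (s₀ : F) := by
    have := congrArg (fun t : B => (t : F)) huv
    simpa using this
  have hv1 : p⁻¹ * (v : F) ∈ V₁ := by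
    obtain ⟨k, rfl⟩ : ∃ k, e = k + 1 := ⟨e - 1, by omega⟩
    have e1 : p⁻¹ * (v : F) = (u : F)⁻¹ * (p ^ k * (s₀ : F)) := by
      have : (v : F) = (u : F)⁻¹ * (p ^ (k + 1) * (s₀ : F)) := by
        rw [← huvF, ← mul_assoc, inv_mul_cancel₀ hu0, one_mul]
      rw [this, pow_succ]
      field_simp
    rw [e1]
    exact V₁.mul_mem huinv (V₁.mul_mem (V₁.pow_mem (hA₁ hpA) _) (hB₁ _ s₀.2))
  have hvn : v ∈ n := h1 v hv1
  have hz'2 : p⁻¹ * z' ∉ V₂ := by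
    intro hcon
    have hz2p : p⁻¹ * (z₂ : F) ∈ V₂ := by
      have e1 : p⁻¹ * (z₂ : F) = p⁻¹ * z' + p⁻¹ * ((z₂ : F) - z') := by ring
      rw [e1]; exact V₂.add_mem hcon hzz2
    obtain ⟨s, hs, a, ha⟩ := hz₂.2 v hvn
    apply hv
    have e1 : p⁻¹ * (v : F) = (s : F)⁻¹ *
        (p⁻¹ * ((s : F) * (v : F) - (a : F) * (z₂ : F)) + (a : F) * (p⁻¹ * (z₂ : F))) := by
      have := hne s hs
      field_simp
      ring
    rw [e1]
    exact V₂.mul_mem (hA₂ (hinvA s hs)) (V₂.add_mem ha (V₂.mul_mem (hB₂ _ a.2) hz2p))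
  -- generation
  have hgen : ∀ b₀ : B, b₀ ∈ n →
      ∃ c' ∈ A, ∃ a ∈ A, ∃ b ∈ A, (b₀ : F) = p * c' + a * z + b * z' := by
    intro b₀ hb₀
    obtain ⟨s1, hs1, a1, ha1⟩ := hz₁.2 b₀ hb₀
    set α : F := (s1 : F)⁻¹ * (a1 : F) with hα
    have hαA : α ∈ A := A.mul_mem (hinvA s1 hs1) (hBA _ a1.2)
    set t : F := (b₀ : F) - α * z with ht
    have htA : t ∈ A := A.sub_mem (hBA _ b₀.2) (A.mul_mem hαA hzA)
    have ht1 : p⁻¹ * t ∈ V₁ := by
      have e1 : p⁻¹ * t = (s1 : F)⁻¹ * (p⁻¹ * ((s1 : F) * (b₀ : F) - (a1 : F) * (z₁ : F))) +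
          α * (p⁻¹ * ((z₁ : F) - z)) := by
        rw [ht, hα]
        have := hne s1 hs1
        field_simp
        ring
      rw [e1]
      exact V₁.add_mem (V₁.mul_mem (hA₁ (hinvA s1 hs1)) ha1) (V₁.mul_mem (hA₁ hαA) hzz1)
    obtain ⟨s3, hs3, hs3t⟩ := htA
    have hb3n : (⟨(s3 : F) * t, hs3t⟩ : B) ∈ n := by
      apply h1
      have e1 : p⁻¹ * (((⟨(s3 : F) * t, hs3t⟩ : B) : B) : F) = (s3 : F) * (p⁻¹ * t) := by
        show p⁻¹ * ((s3 : F) * t) = (s3 : F) * (p⁻¹ * t)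
        ring
      rw [e1]; exact V₁.mul_mem (hB₁ _ s3.2) ht1
    obtain ⟨s4, hs4, a4, ha4⟩ := hz₂.2 _ hb3n
    set β : F := (s3 : F)⁻¹ * ((s4 : F)⁻¹ * (a4 : F)) with hβ
    have hβA : β ∈ A := A.mul_mem (hinvA s3 hs3) (A.mul_mem (hinvA s4 hs4) (hBA _ a4.2))
    set w : F := t - β * z' with hw
    have hwA : w ∈ A := A.sub_mem ⟨s3, hs3, hs3t⟩ (A.mul_mem hβA hz'A)
    have hw2 : p⁻¹ * w ∈ V₂ := by
      have e1 : p⁻¹ * w = (s3 : F)⁻¹ * ((s4 : F)⁻¹ *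
          (p⁻¹ * ((s4 : F) * ((s3 : F) * t) - (a4 : F) * (z₂ : F)))) +
          β * (p⁻¹ * ((z₂ : F) - z')) := by
        rw [hw, hβ]
        have := hne s3 hs3
        have := hne s4 hs4
        field_simp
        ring
      rw [e1]
      exact V₂.add_mem (V₂.mul_mem (hA₂ (hinvA s3 hs3)) (V₂.mul_mem (hA₂ (hinvA s4 hs4)) ha4))
        (V₂.mul_mem (hA₂ hβA) hzz2)
    have hw1 : p⁻¹ * w ∈ V₁ := by
      have e1 : p⁻¹ * w = p⁻¹ * t - β * (p⁻¹ * z') := by rw [hw]; ring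
      rw [e1]; exact V₁.sub_mem ht1 (V₁.mul_mem (hA₁ hβA) hz'1)
    refine ⟨p⁻¹ * w, hsatA w hwA hw1 hw2, α, hαA, β, hβA, ?_⟩
    rw [hw, ht]
    field_simp
    ring
  have hloc : ∀ c ∈ A, (∃ d ∈ A, c * d = 1) ∨
      ∃ c' ∈ A, ∃ a ∈ A, ∃ b ∈ A, c = p * c' + a * z + b * z' := by
    rintro c ⟨s, hs, hsc⟩
    by_cases hb : (⟨(s : F) * c, hsc⟩ : B) ∈ n
    · right
      obtain ⟨c', hc', a, ha, b, hb', e1⟩ := hgen _ hb
      have e3 : (s : F) * c = p * c' + a * z + b * z' := e1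
      refine ⟨(s : F)⁻¹ * c', A.mul_mem (hinvA s hs) hc', (s : F)⁻¹ * a,
        A.mul_mem (hinvA s hs) ha, (s : F)⁻¹ * b, A.mul_mem (hinvA s hs) hb', ?_⟩
      calc c = (s : F)⁻¹ * ((s : F) * c) := by
            rw [← mul_assoc, inv_mul_cancel₀ (hne s hs), one_mul]
        _ = (s : F)⁻¹ * (p * c' + a * z + b * z') := by rw [e3]
        _ = _ := by ring
    · left
      have h0 : (s : F) * c ≠ 0 := hne _ hb
      refine ⟨(s : F) * ((s : F) * c)⁻¹, A.mul_mem (hBA _ s.2) (hinvA _ hb), ?_⟩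
      rw [← mul_assoc, mul_comm c, mul_inv_cancel₀ h0]
  have hprop : ∀ c' ∈ A, ∀ a ∈ A, ∀ b ∈ A, p * c' + a * z + b * z' ≠ 1 := by
    intro c' hc' a ha b hb h1'
    apply sf79_not_nmem_one B n
    rw [← h1']
    refine sf79_nmem_add B n _ _ (sf79_nmem_add B n _ _ ?_ (sf79_nmem_mul B n a z ha hznm))
      (sf79_nmem_mul B n b z' hb hz'nm)
    rw [mul_comm]; exact sf79_nmem_mul B n c' p hc' hpnm
  set Vv : F := (s₀ : F)⁻¹ * (v : F) with hVv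
  have hUA : (u : F) ∈ A := hBA _ u.2
  have hVA : Vv ∈ A := A.mul_mem (hinvA s₀ hs₀) (hBA _ v.2)
  have hUV : (u : F) * Vv = p ^ e := by
    rw [hVv, mul_left_comm, huvF, mul_comm (p ^ e), ← mul_assoc,
      inv_mul_cancel₀ (hne s₀ hs₀), one_mul]
  have hV2' : p⁻¹ * Vv ∉ V₂ := by
    intro hcon
    apply hv
    have e1 : p⁻¹ * (v : F) = (s₀ : F) * (p⁻¹ * Vv) := by
      rw [hVv]; have := hne s₀ hs₀; field_simp
    rw [e1]; exact V₂.mul_mem (hB₂ _ s₀.2) hcon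
  have hUμ : ∃ (μ : ℕ) (ε δ : F), ε ∈ A ∧ δ ∈ A ∧ ε * δ = 1 ∧
      p⁻¹ * ((u : F) - ε * z ^ μ) ∈ V₁ := by
    obtain ⟨μ, s, a, hs, ha, hsu⟩ := sf79_unif_pow π B V₁ hB₁ hπ₁ hV₁ n h1 z₁ hz₁ u hu
    refine ⟨μ, (s : F)⁻¹ * (a : F), (a : F)⁻¹ * (s : F), A.mul_mem (hinvA s hs) (hBA _ a.2),
      A.mul_mem (hinvA a ha) (hBA _ s.2), ?_, ?_⟩
    · have := hne s hs
      have := hne a ha
      field_simp
    · have hz₁V : (z₁ : F) ∈ V₁ := hB₁ _ z₁.2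
      have hzV : z ∈ V₁ := hA₁ hzA
      obtain ⟨w, hw⟩ := sub_dvd_pow_sub_pow (⟨(z₁ : F), hz₁V⟩ : V₁) ⟨z, hzV⟩ μ
      have hwF : (z₁ : F) ^ μ - z ^ μ = ((z₁ : F) - z) * (w : F) := by
        have := congrArg (fun t : V₁ => (t : F)) hw
        simpa using this
      have e1 : p⁻¹ * ((u : F) - (s : F)⁻¹ * (a : F) * z ^ μ) =
          (s : F)⁻¹ * (p⁻¹ * ((s : F) * (u : F) - (a : F) * (z₁ : F) ^ μ)) +
          (s : F)⁻¹ * (a : F) * ((p⁻¹ * ((z₁ : F) - z)) * (w : F)) := by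
        have h5 : (s : F)⁻¹ * (a : F) * ((p⁻¹ * ((z₁ : F) - z)) * (w : F)) =
            (s : F)⁻¹ * (a : F) * (p⁻¹ * ((z₁ : F) ^ μ - z ^ μ)) := by rw [hwF]; ring
        rw [h5]
        have := hne s hs
        field_simp
        ring
      rw [e1]
      exact V₁.add_mem (V₁.mul_mem (hA₁ (hinvA s hs)) hsu)
        (V₁.mul_mem (V₁.mul_mem (hA₁ (hinvA s hs)) (hB₁ _ a.2)) (V₁.mul_mem hzz1 w.2))
  obtain ⟨κ, Z, Z', c, d, -, -, hZA, hZ'A, hcA, hdA, hcd, hZZ, hZz, hZ'z⟩ :=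
    nl71_main A V₁ V₂ p hp0 hpA hA₁ hA₂ hπ₁ hπ₂ hV₁ hV₂ hsatA z z' hzA hz'A hz2 hz'1 hz'2
      hloc hprop (u : F) Vv hUA hVA e he hUV hu hV2' hUμ
  have hZnm : sf79_nmem B n Z := by
    have e1 : Z = z + (p⁻¹ * (Z - z)) * p := by field_simp; ring
    rw [e1]; exact sf79_nmem_add B n _ _ hznm (sf79_nmem_mul B n _ p hZz hpnm)
  have hZ'nm : sf79_nmem B n Z' := by
    have e1 : Z' = z' + (p⁻¹ * (Z' - z')) * p := by field_simp; ring
    rw [e1]; exact sf79_nmem_add B n _ _ hz'nm (sf79_nmem_mul B n _ p hZ'z hpnm)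
  obtain ⟨sZ, hsZ, hbZ⟩ := id hZA
  obtain ⟨sZ', hsZ', hbZ'⟩ := id hZ'A
  obtain ⟨sc, hsc, hbc⟩ := id hcA
  obtain ⟨sd, hsd, hbd⟩ := id hdA
  have hbZn : (⟨(sZ : F) * Z, hbZ⟩ : B) ∈ n :=
    sf79_mem_of_nmem B n _ (sf79_nmem_mul B n (sZ : F) Z (hBA _ sZ.2) hZnm)
  have hbZ'n : (⟨(sZ' : F) * Z', hbZ'⟩ : B) ∈ n :=
    sf79_mem_of_nmem B n _ (sf79_nmem_mul B n (sZ' : F) Z' (hBA _ sZ'.2) hZ'nm)
  have hbcn : (⟨(sc : F) * c, hbc⟩ : B) ∉ n := by
    intro hcon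
    have h5 : (⟨(sc : F) * c, hbc⟩ : B) * ⟨(sd : F) * d, hbd⟩ = sc * sd := by
      apply Subtype.ext
      show (sc : F) * c * ((sd : F) * d) = (sc : F) * (sd : F)
      calc (sc : F) * c * ((sd : F) * d) = (sc : F) * (sd : F) * (c * d) := by ring
        _ = _ := by rw [hcd, mul_one]
    have h6 : sc * sd ∈ n := by rw [← h5]; exact n.mul_mem_right _ hcon
    exact (hnp.mem_or_mem h6).elim hsc hsd
  refine ⟨⟨(sZ : F) * Z, hbZ⟩, ⟨(sZ' : F) * Z', hbZ'⟩, hbZn, hbZ'n, ?_, κ, sc,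
    ⟨(sc : F) * c, hbc⟩ * sZ * sZ', hsc, ?_, ?_⟩
  · intro x hx
    obtain ⟨c', hc', a, ha, b, hb, e1⟩ := hgen x hx
    set γ : F := c' - a * (p⁻¹ * (Z - z)) - b * (p⁻¹ * (Z' - z')) with hγ
    have hγA : γ ∈ A := A.sub_mem (A.sub_mem hc' (A.mul_mem ha hZz)) (A.mul_mem hb hZ'z)
    have e2 : (x : F) = p * γ + a * Z + b * Z' := by
      rw [e1, hγ]; field_simp; ring
    obtain ⟨sα, hsα, hbα⟩ := A.mul_mem ha (hinvA sZ hsZ)
    obtain ⟨sβ, hsβ, hbβ⟩ := A.mul_mem hb (hinvA sZ' hsZ')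
    obtain ⟨sγ, hsγ, hbγ⟩ := hγA
    refine ⟨sα * sβ * sγ, ?_, sβ * sγ * ⟨_, hbα⟩, sα * sγ * ⟨_, hbβ⟩, sα * sβ * ⟨_, hbγ⟩, ?_⟩
    · intro h
      rcases hnp.mem_or_mem h with h | h
      · rcases hnp.mem_or_mem h with h | h
        · exact hsα h
        · exact hsβ h
      · exact hsγ h
    · apply Subtype.ext
      show (sα : F) * (sβ : F) * (sγ : F) * (x : F) =
        (sβ : F) * (sγ : F) * ((sα : F) * (a * (sZ : F)⁻¹)) * ((sZ : F) * Z) +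
          (sα : F) * (sγ : F) * ((sβ : F) * (b * (sZ' : F)⁻¹)) * ((sZ' : F) * Z') +
            (sα : F) * (sβ : F) * ((sγ : F) * γ) * p
      rw [e2]
      have := hne sZ hsZ
      have := hne sZ' hsZ'
      field_simp
      ring
  · intro h
    rcases hnp.mem_or_mem h with h | h
    · rcases hnp.mem_or_mem h with h | h
      · exact hbcn h
      · exact hsZ h
    · exact hsZ' h
  · apply Subtype.ext
    show (sc : F) * ((sZ : F) * Z) * ((sZ' : F) * Z') =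
      p ^ κ * ((sc : F) * c * (sZ : F) * (sZ' : F))
    calc (sc : F) * ((sZ : F) * Z) * ((sZ' : F) * Z')
        = (sc : F) * (sZ : F) * (sZ' : F) * (Z * Z') := by ring
      _ = _ := by rw [hZZ]; ring

/-- **P3, abstract assembly**: smoothness of the two branches, transversality at the points of
both branches and the pair `u v = π ^ e · unit` there give the local structure (LS) of the
interface. -/
theorem sf79_locStr (π : R) (B : Subalgebra R F) [IsNoetherianRing B] (V₁ V₂ : Subring F)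
    (hB₁ : ∀ x ∈ B, x ∈ V₁) (hB₂ : ∀ x ∈ B, x ∈ V₂)
    (hπ₁ : (algebraMap R F π)⁻¹ ∉ V₁) (hπ₂ : (algebraMap R F π)⁻¹ ∉ V₂)
    (hV₁ : ∀ x ∈ V₁, (algebraMap R F π)⁻¹ * x ∉ V₁ → x⁻¹ ∈ V₁)
    (hV₂ : ∀ x ∈ V₂, (algebraMap R F π)⁻¹ * x ∉ V₂ → x⁻¹ ∈ V₂)
    (hsat : ∀ x ∈ B, (algebraMap R F π)⁻¹ * x ∈ V₁ → (algebraMap R F π)⁻¹ * x ∈ V₂ →
      (algebraMap R F π)⁻¹ * x ∈ B)
    (hS₁ : sf79_Smooth π B V₁) (hS₂ : sf79_Smooth π B V₂) (hT : sf79_Transv π B V₁ V₂)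
    (hUV : sf79_UVAt π B V₁ V₂) : s34i47_LocStr π B := by
  intro n hn hπn
  have hnp : n.IsPrime := hn.isPrime
  have hp0 : algebraMap R F π ≠ 0 := fun h0 => hπ₁ (by rw [h0, inv_zero]; exact V₁.zero_mem)
  by_cases h1 : sf79_OnBr π B V₁ n
  · by_cases h2 : sf79_OnBr π B V₂ n
    · obtain ⟨z₁, hz₁⟩ := hS₁ n hn hπn h1
      obtain ⟨z₂, hz₂⟩ := hS₂ n hn hπn h2
      obtain ⟨u, v, s₀, e, hs₀, he, huv, hu, hv⟩ := hUV n hn hπn h1 h2
      obtain ⟨z, z', hz, hz', hgen, κ, s, s', hs, hs', heq⟩ :=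
        sf79_node π B V₁ V₂ hB₁ hB₂ hπ₁ hπ₂ hV₁ hV₂ hsat n hπn h1 h2 z₁ hz₁ z₂ hz₂
          (hT n hn hπn h1 h2) u v s₀ e hs₀ he huv hu hv
      exact ⟨z, z', hz, hz', hgen, Or.inr ⟨κ, s, s', hs, hs', heq⟩⟩
    · obtain ⟨z, hz⟩ := hS₁ n hn hπn h1
      refine ⟨z, algebraMap R B π, hz.1, hπn, ?_, Or.inl rfl⟩
      intro x hx
      obtain ⟨s, hs, a, c, e⟩ := sf79_regular π B V₁ V₂ hB₁ hsat hp0 hB₂ n z hz h2 x hx
      exact ⟨s, hs, a, 0, c, by rw [e]; ring⟩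
  · by_cases h2 : sf79_OnBr π B V₂ n
    · obtain ⟨z, hz⟩ := hS₂ n hn hπn h2
      refine ⟨z, algebraMap R B π, hz.1, hπn, ?_, Or.inl rfl⟩
      intro x hx
      obtain ⟨s, hs, a, c, e⟩ := sf79_regular π B V₂ V₁ hB₂ (fun x hx a b => hsat x hx b a)
        hp0 hB₁ n z hz h1 x hx
      exact ⟨s, hs, a, 0, c, by rw [e]; ring⟩
    · exfalso
      obtain ⟨δ₁, hδ₁⟩ := not_forall.mp h1
      obtain ⟨hδ₁V, hδ₁n⟩ := Classical.not_imp.mp hδ₁
      obtain ⟨δ₂, hδ₂⟩ := not_forall.mp h2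
      obtain ⟨hδ₂V, hδ₂n⟩ := Classical.not_imp.mp hδ₂
      have hc : (algebraMap R F π)⁻¹ * ((δ₁ : F) * (δ₂ : F)) ∈ B := by
        apply hsat _ (B.mul_mem δ₁.2 δ₂.2)
        · rw [← mul_assoc]; exact V₁.mul_mem hδ₁V (hB₁ _ δ₂.2)
        · rw [mul_left_comm]; exact V₂.mul_mem (hB₂ _ δ₁.2) hδ₂V
      have h3 : δ₁ * δ₂ = ⟨_, hc⟩ * algebraMap R B π := by
        apply Subtype.ext
        show (δ₁ : F) * (δ₂ : F) =
          (algebraMap R F π)⁻¹ * ((δ₁ : F) * (δ₂ : F)) * algebraMap R F π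
        rw [mul_comm (algebraMap R F π)⁻¹, mul_assoc, inv_mul_cancel₀ hp0, mul_one]
      have h4 : δ₁ * δ₂ ∈ n := by rw [h3]; exact n.mul_mem_left _ hπn
      exact (hnp.mem_or_mem h4).elim hδ₁n hδ₂n

end SF79

end Fermat.Agent.S34
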