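import Fermat.Agent.S34.Iface47c
import Fermat.Agent.S34.SpecFibre79
import Fermat.Agent.S34.BranchZero7
import Fermat.Agent.S34.HauptInt70
import Fermat.Agent.S34.AtkinLehnerCanon97

/-!
# S34 lab, row 489 / P3a-0 (helper13): the `0`-branch at the canonical data, by `w_q`-transport

Canonical data of `Iface47c` at level `M' * q` (`q ∤ M'`): `V_∞ = cm85_Vinf (M' * q) hπ`,
`w = al97L_w (algebraMap K ℚ̄) M' q hq hM'`, `V_0 = s34i47c_V0 M' q hq hM' hπ = V_∞.comap w`,
`h` an admissible Hauptmodul (`s34i47c_IsHaupt`).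

* `bz13_smooth_comap` (abstract): `sf79_Smooth π B V → sf79_Smooth π B V₀` for a ring automorphism
  `w` of `F` fixing `R` with `w(B) = B` and `V₀ = w⁻¹(V)`.
* `bz13_w`, `bz13_w_algebraMap`, `bz13_w_haupt` (`w h = h(Q^q)`).
* `bz13_charts_stable` : **`w(B) = B`** for the three charts `pk15_chart R {h}`, `{h⁻¹}`,
  `{h, h⁻¹}` (from `hi70_level2_full` / `hi70_level3_full` and `bz7_charts_stable`).
* `bz13_smooth_V0` : **(3a) for the `0`-branch from (3a) for the `∞`-branch**, for both affine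
  charts, in the literal shape `sf79_Smooth` of `SpecFibre79`.
* `bz13_smooth_Vinf_of_V0` : the converse transport.

All names are prefixed `bz13_`.
-/

set_option autoImplicit false
set_option linter.unusedSectionVars false

open ModularCurve

namespace Fermat.Agent.S34

open Fermat.Agent.S18

section bz13_abs

variable {R F : Type*} [CommRing R] [Field F] [Algebra R F]

/-- **Transport of (3a) along an automorphism**: if `w` fixes `R`, `w(B) = B` and
`V₀ = w⁻¹(V)`, then smoothness of the branch `V` gives smoothness of the branch `V₀`. -/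
theorem bz13_smooth_comap (π : R) (B : Subalgebra R F) (w : F ≃+* F)
    (hwR : ∀ r : R, w (algebraMap R F r) = algebraMap R F r)
    (hwB : ∀ z : F, w z ∈ B ↔ z ∈ B) (V V₀ : Subring F) (hV₀ : ∀ x : F, x ∈ V₀ ↔ w x ∈ V)
    (hsm : sf79_Smooth π B V) : sf79_Smooth π B V₀ := by
  intro n hn hπn hbr
  let e : ↥B ≃+* ↥B := bz7_res B w hwB
  let n' : Ideal B := n.comap (e.symm : ↥B →+* ↥B)
  have hmem : ∀ x : B, x ∈ n' ↔ e.symm x ∈ n := fun x => Iff.rfl
  have hn' : n'.IsMaximal := by
    haveI := hn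
    exact Ideal.comap_isMaximal_of_surjective (e.symm : ↥B →+* ↥B) e.symm.surjective
  have hπn' : algebraMap R B π ∈ n' := by
    rw [hmem, bz7_res_symm_algebraMap B w hwB hwR]; exact hπn
  have hbr' : sf79_OnBr π B V n' := by
    intro x hx
    rw [hmem]
    apply hbr
    rw [hV₀, map_mul, map_inv₀, hwR, bz7_res_symm_coe, RingEquiv.apply_symm_apply]
    exact hx
  obtain ⟨z', hz'n, hz'⟩ := hsm n' hn' hπn' hbr'
  refine ⟨e.symm z', hz'n, ?_⟩
  intro x hx
  have hex : e x ∈ n' := by rw [hmem, RingEquiv.symm_apply_apply]; exact hx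
  obtain ⟨s, hs, a, ha⟩ := hz' (e x) hex
  refine ⟨e.symm s, hs, e.symm a, ?_⟩
  rw [hV₀]
  have h1 : w ((algebraMap R F π)⁻¹ * (((e.symm s : B) : F) * (x : F) -
      ((e.symm a : B) : F) * ((e.symm z' : B) : F))) =
      (algebraMap R F π)⁻¹ * ((s : F) * ((e x : B) : F) - (a : F) * (z' : F)) := by
    simp only [map_mul, map_sub, map_inv₀, hwR, e, bz7_res_symm_coe, bz7_res_coe,
      RingEquiv.apply_symm_apply]
  rw [h1]; exact ha

end bz13_abs

section bz13_inst

variable {R K : Type} [CommRing R] [IsDomain R] [IsDiscreteValuationRing R] [Field K]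
  [CharZero K] [Algebra R K] [IsFractionRing R K] [Algebra K (AlgebraicClosure ℚ)]
  (M' q : ℕ) [NeZero M'] [NeZero q] (hq : q.Prime) (hM' : ¬ q ∣ M')
  {π : R} (hπ : Irreducible π)

/-- The canonical Atkin–Lehner involution of `F_K(M' q)` as a ring automorphism. -/
noncomputable def bz13_w : ↥(modularFunctionFieldFullC K (M' * q)) ≃+*
    ↥(modularFunctionFieldFullC K (M' * q)) :=
  (al97L_w (algebraMap K (AlgebraicClosure ℚ)) M' q hq hM').toRingEquiv

theorem bz13_w_apply (x : ↥(modularFunctionFieldFullC K (M' * q))) :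
    bz13_w M' q hq hM' x = al97L_w (algebraMap K (AlgebraicClosure ℚ)) M' q hq hM' x := rfl

theorem bz13_w_symm_apply (x : ↥(modularFunctionFieldFullC K (M' * q))) :
    (bz13_w M' q hq hM').symm x = bz13_w M' q hq hM' x := rfl

/-- `w h = h(Q^q)` for an admissible Hauptmodul. -/
theorem bz13_w_haupt (h : ↥(modularFunctionFieldFullC K (M' * q)))
    (hh : s34i47c_IsHaupt K (M' * q) q h) :
    ((bz13_w M' q hq hM' h : ↥(modularFunctionFieldFullC K (M' * q))) : LaurentSeries K) =
      qExpand K q (h : LaurentSeries K) := by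
  rcases hh with ⟨hq2, h2, rfl⟩ | ⟨hq3, h3, rfl⟩
  · have h2' : 2 ∣ M' := by
      rcases (Nat.Prime.dvd_mul Nat.prime_two).mp h2 with h | h
      · exact h
      · exact absurd ((Nat.prime_dvd_prime_iff_eq Nat.prime_two hq).mp h).symm hq2
    have e : pk85_h2 K (M' * q) h2 = al97L_alpha K M' q (pk85_h2 K M' h2') := by
      apply Subtype.ext
      rw [al97L_alpha_coe, pk85_h2_coe, pk85_h2_coe]
    rw [e, bz13_w_apply, al97L_w_alpha_apply, al97L_beta_coe, al97L_alpha_coe]
  · have h3' : 3 ∣ M' := by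
      rcases (Nat.Prime.dvd_mul Nat.prime_three).mp h3 with h | h
      · exact h
      · exact absurd ((Nat.prime_dvd_prime_iff_eq Nat.prime_three hq).mp h).symm hq3
    have e : pk85_h3 K (M' * q) h3 = al97L_alpha K M' q (pk85_h3 K M' h3') := by
      apply Subtype.ext
      rw [al97L_alpha_coe, pk85_h3_coe, pk85_h3_coe]
    rw [e, bz13_w_apply, al97L_w_alpha_apply, al97L_beta_coe, al97L_alpha_coe]

variable [Algebra R ↥(modularFunctionFieldFullC K (M' * q))]
  [IsScalarTower R K ↥(modularFunctionFieldFullC K (M' * q))]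

theorem bz13_w_algebraMap (r : R) :
    bz13_w M' q hq hM' (algebraMap R ↥(modularFunctionFieldFullC K (M' * q)) r) =
      algebraMap R ↥(modularFunctionFieldFullC K (M' * q)) r := by
  rw [IsScalarTower.algebraMap_apply R K ↥(modularFunctionFieldFullC K (M' * q)), bz13_w_apply]
  exact AlgEquiv.commutes _ _

/-- **`w(B) = B` for the three charts** of an admissible Hauptmodul. -/
theorem bz13_charts_stable (hunit : ∀ n : ℕ, Nat.Coprime n q → IsUnit (n : R))
    (h : ↥(modularFunctionFieldFullC K (M' * q))) (hh : s34i47c_IsHaupt K (M' * q) q h) :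
    (∀ z : ↥(modularFunctionFieldFullC K (M' * q)),
      bz13_w M' q hq hM' z ∈ pk15_chart R ({h} : Set ↥(modularFunctionFieldFullC K (M' * q))) ↔
        z ∈ pk15_chart R ({h} : Set ↥(modularFunctionFieldFullC K (M' * q)))) ∧
    (∀ z : ↥(modularFunctionFieldFullC K (M' * q)),
      bz13_w M' q hq hM' z ∈ pk15_chart R ({h⁻¹} : Set ↥(modularFunctionFieldFullC K (M' * q))) ↔
        z ∈ pk15_chart R ({h⁻¹} : Set ↥(modularFunctionFieldFullC K (M' * q)))) ∧
    (∀ z : ↥(modularFunctionFieldFullC K (M' * q)),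
      bz13_w M' q hq hM' z ∈
          pk15_chart R ({h, h⁻¹} : Set ↥(modularFunctionFieldFullC K (M' * q))) ↔
        z ∈ pk15_chart R ({h, h⁻¹} : Set ↥(modularFunctionFieldFullC K (M' * q)))) := by
  have hcoe := bz13_w_haupt M' q hq hM' h hh
  have key : IsIntegral (Algebra.adjoin R ({h} : Set ↥(modularFunctionFieldFullC K (M' * q))))
        (bz13_w M' q hq hM' h) ∧
      IsIntegral (Algebra.adjoin R ({h⁻¹} : Set ↥(modularFunctionFieldFullC K (M' * q))))
        (bz13_w M' q hq hM' h)⁻¹ := by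
    rcases hh with ⟨hq2, h2, rfl⟩ | ⟨hq3, h3, rfl⟩
    · have h2' : 2 ∣ M' := by
        rcases (Nat.Prime.dvd_mul Nat.prime_two).mp h2 with h | h
        · exact h
        · exact absurd ((Nat.prime_dvd_prime_iff_eq Nat.prime_two hq).mp h).symm hq2
      have hM : 2 * q ∣ M' * q := Nat.mul_dvd_mul_right h2' q
      have hu : IsUnit (2 : R) := by
        have := hunit 2 ((Nat.coprime_primes Nat.prime_two hq).mpr (Ne.symm hq2))
        simpa using this
      obtain ⟨i1, i2, -, -⟩ := hi70_level2_full (K := K) (M' * q) (R := R) q hq hq2 hu hM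
        (pk85_h2 K (M' * q) h2) (bz13_w M' q hq hM' (pk85_h2 K (M' * q) h2))
        (pk85_h2_coe K (M' * q) h2) (by rw [hcoe, pk85_h2_coe])
      exact ⟨i1, i2⟩
    · have h3' : 3 ∣ M' := by
        rcases (Nat.Prime.dvd_mul Nat.prime_three).mp h3 with h | h
        · exact h
        · exact absurd ((Nat.prime_dvd_prime_iff_eq Nat.prime_three hq).mp h).symm hq3
      have hM : 3 * q ∣ M' * q := Nat.mul_dvd_mul_right h3' q
      have hu : IsUnit (3 : R) := by
        have := hunit 3 ((Nat.coprime_primes Nat.prime_three hq).mpr (Ne.symm hq3))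
        simpa using this
      obtain ⟨i1, i2, -, -⟩ := hi70_level3_full (K := K) (M' * q) (R := R) q hq hq3 hu hM
        (pk85_h3 K (M' * q) h3) (bz13_w M' q hq hM' (pk85_h3 K (M' * q) h3))
        (pk85_h3_coe K (M' * q) h3) (by rw [hcoe, pk85_h3_coe])
      exact ⟨i1, i2⟩
  exact bz7_charts_stable (bz13_w M' q hq hM') (bz13_w_algebraMap (R := R) M' q hq hM') h
    key.1 key.2 key.1 key.2

/-- **(3a) for the `0`-branch from (3a) for the `∞`-branch**, both affine charts, in the literal
shape `sf79_Smooth` (`SpecFibre79`), at the canonical data of `Iface47c`. -/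
theorem bz13_smooth_V0 (hunit : ∀ n : ℕ, Nat.Coprime n q → IsUnit (n : R))
    (h : ↥(modularFunctionFieldFullC K (M' * q))) (hh : s34i47c_IsHaupt K (M' * q) q h) :
    (sf79_Smooth π (pk15_chart R ({h} : Set ↥(modularFunctionFieldFullC K (M' * q))))
        (cm85_Vinf (K := K) (M' * q) hπ).toSubring →
      sf79_Smooth π (pk15_chart R ({h} : Set ↥(modularFunctionFieldFullC K (M' * q))))
        (s34i47c_V0 (K := K) M' q hq hM' hπ).toSubring) ∧
    (sf79_Smooth π (pk15_chart R ({h⁻¹} : Set ↥(modularFunctionFieldFullC K (M' * q))))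
        (cm85_Vinf (K := K) (M' * q) hπ).toSubring →
      sf79_Smooth π (pk15_chart R ({h⁻¹} : Set ↥(modularFunctionFieldFullC K (M' * q))))
        (s34i47c_V0 (K := K) M' q hq hM' hπ).toSubring) := by
  obtain ⟨hB1, hB2, -⟩ := bz13_charts_stable (R := R) M' q hq hM' hunit h hh
  exact ⟨bz13_smooth_comap π _ (bz13_w M' q hq hM') (bz13_w_algebraMap (R := R) M' q hq hM') hB1
      _ _ (fun x => Iff.rfl),
    bz13_smooth_comap π _ (bz13_w M' q hq hM') (bz13_w_algebraMap (R := R) M' q hq hM') hB2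
      _ _ (fun x => Iff.rfl)⟩

/-- The converse transport: (3a) for the `∞`-branch from (3a) for the `0`-branch. -/
theorem bz13_smooth_Vinf_of_V0 (hunit : ∀ n : ℕ, Nat.Coprime n q → IsUnit (n : R))
    (h : ↥(modularFunctionFieldFullC K (M' * q))) (hh : s34i47c_IsHaupt K (M' * q) q h) :
    (sf79_Smooth π (pk15_chart R ({h} : Set ↥(modularFunctionFieldFullC K (M' * q))))
        (s34i47c_V0 (K := K) M' q hq hM' hπ).toSubring →
      sf79_Smooth π (pk15_chart R ({h} : Set ↥(modularFunctionFieldFullC K (M' * q))))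
        (cm85_Vinf (K := K) (M' * q) hπ).toSubring) ∧
    (sf79_Smooth π (pk15_chart R ({h⁻¹} : Set ↥(modularFunctionFieldFullC K (M' * q))))
        (s34i47c_V0 (K := K) M' q hq hM' hπ).toSubring →
      sf79_Smooth π (pk15_chart R ({h⁻¹} : Set ↥(modularFunctionFieldFullC K (M' * q))))
        (cm85_Vinf (K := K) (M' * q) hπ).toSubring) := by
  obtain ⟨hB1, hB2, -⟩ := bz13_charts_stable (R := R) M' q hq hM' hunit h hh
  have hV : ∀ x : ↥(modularFunctionFieldFullC K (M' * q)),
      x ∈ (cm85_Vinf (K := K) (M' * q) hπ).toSubring ↔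
        bz13_w M' q hq hM' x ∈ (s34i47c_V0 (K := K) M' q hq hM' hπ).toSubring := by
    intro x
    show x ∈ cm85_Vinf (K := K) (M' * q) hπ ↔
      al97L_w (algebraMap K (AlgebraicClosure ℚ)) M' q hq hM'
        (al97L_w (algebraMap K (AlgebraicClosure ℚ)) M' q hq hM' x) ∈
          cm85_Vinf (K := K) (M' * q) hπ
    rw [al97L_w_w]
  exact ⟨bz13_smooth_comap π _ (bz13_w M' q hq hM') (bz13_w_algebraMap (R := R) M' q hq hM') hB1
      _ _ hV,
    bz13_smooth_comap π _ (bz13_w M' q hq hM') (bz13_w_algebraMap (R := R) M' q hq hM') hB2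
      _ _ hV⟩

end bz13_inst

end Fermat.Agent.S34
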