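import Mathlib

/-!
# S34 lab, row P1a-DK: two valuations over a discrete valuation ring, direct Dedekind–Kummer form

`E ⊆ F` fields, `V'` a valuation subring of `E` with uniformizer `π` (elementary shape
`hmax`/`harch`), `V₁ V₂` valuation subrings of `F` over `V'` in which `π` is not a unit.
If `y ∈ V₁ ∩ V₂` and `g₁ g₂ ∈ V'[X]` have `g₁(y) ∈ m_{V₁}`, `g₂(y) ∈ m_{V₂}` with irreducible,
non-associated reductions, then every `x ∈ V₁ ∩ V₂` of the form `∑_{i<n} cᵢ yⁱ`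
(`n ≤ deg ḡ₁ + deg ḡ₂`, `cᵢ ∈ E`) has all `cᵢ ∈ V'`.  No fundamental (in)equality is used.
-/

namespace Fermat.Agent.S34

open Polynomial

section DK

variable {E F : Type*} [Field E] [Field F] [Algebra E F]

/-- the structure map `V' → F`. -/
noncomputable abbrev tv2_incl (V' : ValuationSubring E) : ↥V' →+* F :=
  (algebraMap E F).comp V'.subtype

theorem tv2_val_lt_one_of_inv_notMem (V : ValuationSubring F) {p : F} (hp : p⁻¹ ∉ V) :
    V.valuation p < 1 := by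
  by_contra h
  rw [not_lt] at h
  apply hp
  rw [← ValuationSubring.valuation_le_one_iff, map_inv₀]
  exact inv_le_one_of_one_le₀ h

/-- `π⁻¹ z ∈ V` and `π` not a unit of `V` ⟹ `z ∈ m_V`. -/
theorem tv2_val_lt_one (V : ValuationSubring F) {p z : F} (hp : p⁻¹ ∉ V) (hz : p⁻¹ * z ∈ V) :
    V.valuation z < 1 := by
  have hp0 : p ≠ 0 := by
    rintro rfl
    exact hp (by simp)
  have h1 : z = p * (p⁻¹ * z) := by field_simp
  rw [h1, map_mul]
  calc V.valuation p * V.valuation (p⁻¹ * z) ≤ V.valuation p * 1 := by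
        gcongr
        exact (ValuationSubring.valuation_le_one_iff V _).mpr hz
    _ = V.valuation p := mul_one _
    _ < 1 := tv2_val_lt_one_of_inv_notMem V hp

/-- polynomials over `V'` take values in `V` at points of `V`. -/
theorem tv2_eval_mem (V' : ValuationSubring E) (V : ValuationSubring F)
    (hV : ∀ c ∈ V', algebraMap E F c ∈ V) {y : F} (hy : y ∈ V) (P : (↥V')[X]) :
    P.eval₂ (tv2_incl V') y ∈ V := by
  rw [eval₂_eq_sum_range]
  refine sum_mem fun i _ => ?_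
  exact V.mul_mem _ _ (hV _ (P.coeff i).2) (pow_mem hy i)

/-- nonunits of `V'` are nonunits of `V`. -/
theorem tv2_dom (V' : ValuationSubring E) (π : E)
    (hmax : ∀ x ∈ V', x⁻¹ ∉ V' → π⁻¹ * x ∈ V')
    (V : ValuationSubring F) (hV : ∀ c ∈ V', algebraMap E F c ∈ V)
    (hπV : (algebraMap E F π)⁻¹ ∉ V) (c : ↥V') (hc : ¬ IsUnit c) :
    V.valuation (algebraMap E F (c : E)) < 1 := by
  by_cases hc0 : (c : E) = 0
  · rw [hc0, map_zero, map_zero]; exact zero_lt_one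
  have hcinv : (c : E)⁻¹ ∉ V' := by
    intro h
    apply hc
    refine ⟨⟨c, ⟨(c : E)⁻¹, h⟩, ?_, ?_⟩, rfl⟩
    · ext; simp [hc0]
    · ext; simp [hc0]
  have h1 := hV _ (hmax c c.2 hcinv)
  rw [map_mul, map_inv₀] at h1
  exact tv2_val_lt_one V hπV h1

/-- a polynomial over `V'` with all coefficients in `m_{V'}` takes values in `m_V`. -/
theorem tv2_eval_lt_one (V' : ValuationSubring E) (π : E)
    (hmax : ∀ x ∈ V', x⁻¹ ∉ V' → π⁻¹ * x ∈ V')
    (V : ValuationSubring F) (hV : ∀ c ∈ V', algebraMap E F c ∈ V)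
    (hπV : (algebraMap E F π)⁻¹ ∉ V) {y : F} (hy : y ∈ V) (P : (↥V')[X])
    (hP : P.map (IsLocalRing.residue ↥V') = 0) :
    V.valuation (P.eval₂ (tv2_incl V') y) < 1 := by
  rw [eval₂_eq_sum_range]
  refine Valuation.map_sum_lt _ one_ne_zero fun i _ => ?_
  have hci : ¬ IsUnit (P.coeff i) := by
    have h1 : (P.map (IsLocalRing.residue ↥V')).coeff i = 0 := by rw [hP]; simp
    rw [coeff_map, IsLocalRing.residue_eq_zero_iff, IsLocalRing.mem_maximalIdeal] at h1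
    exact h1
  have h2 := tv2_dom V' π hmax V hV hπV (P.coeff i) hci
  rw [map_mul]
  calc V.valuation ((tv2_incl V') (P.coeff i)) * V.valuation (y ^ i)
      ≤ V.valuation ((tv2_incl V') (P.coeff i)) * 1 := by
        gcongr
        exact (ValuationSubring.valuation_le_one_iff V _).mpr (pow_mem hy i)
    _ = V.valuation ((tv2_incl V') (P.coeff i)) := mul_one _
    _ < 1 := h2

/-- **core**: if `g(y) ∈ m_V`, `P(y) ∈ m_V` and `ḡ` is irreducible, then `ḡ ∣ P̄`. -/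
theorem tv2_dvd_of_eval (V' : ValuationSubring E) (π : E)
    (hmax : ∀ x ∈ V', x⁻¹ ∉ V' → π⁻¹ * x ∈ V')
    (V : ValuationSubring F) (hV : ∀ c ∈ V', algebraMap E F c ∈ V)
    (hπV : (algebraMap E F π)⁻¹ ∉ V) {y : F} (hy : y ∈ V) (g P : (↥V')[X])
    (hg : V.valuation (g.eval₂ (tv2_incl V') y) < 1)
    (hP : V.valuation (P.eval₂ (tv2_incl V') y) < 1)
    (hirr : Irreducible (g.map (IsLocalRing.residue ↥V'))) :
    g.map (IsLocalRing.residue ↥V') ∣ P.map (IsLocalRing.residue ↥V') := by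
  by_contra hnd
  obtain ⟨a, b, hab⟩ := (hirr.coprime_iff_not_dvd).mpr hnd
  obtain ⟨A, rfl⟩ := Polynomial.map_surjective _ IsLocalRing.residue_surjective a
  obtain ⟨B, rfl⟩ := Polynomial.map_surjective _ IsLocalRing.residue_surjective b
  have h0 : (A * g + B * P - 1).map (IsLocalRing.residue ↥V') = 0 := by
    rw [Polynomial.map_sub, Polynomial.map_add, Polynomial.map_mul, Polynomial.map_mul,
      Polynomial.map_one, hab, sub_self]
  have h1 := tv2_eval_lt_one V' π hmax V hV hπV hy _ h0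
  rw [eval₂_sub, eval₂_add, eval₂_mul, eval₂_mul, eval₂_one] at h1
  have hA := (ValuationSubring.valuation_le_one_iff V _).mpr (tv2_eval_mem V' V hV hy A)
  have hB := (ValuationSubring.valuation_le_one_iff V _).mpr (tv2_eval_mem V' V hV hy B)
  have h2 : V.valuation (A.eval₂ (tv2_incl V') y * g.eval₂ (tv2_incl V') y) < 1 := by
    rw [map_mul]
    calc _ ≤ 1 * V.valuation (g.eval₂ (tv2_incl V') y) := by gcongr
      _ = _ := one_mul _
      _ < 1 := hg
  have h3 : V.valuation (B.eval₂ (tv2_incl V') y * P.eval₂ (tv2_incl V') y) < 1 := by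
    rw [map_mul]
    calc _ ≤ 1 * V.valuation (P.eval₂ (tv2_incl V') y) := by gcongr
      _ = _ := one_mul _
      _ < 1 := hP
  have h4 := Valuation.map_sub_lt _ (Valuation.map_add_lt _ h2 h3) h1
  rw [sub_sub_cancel, map_one] at h4
  exact lt_irrefl _ h4

end DK

section DKmain

variable {E F : Type*} [Field E] [Field F] [Algebra E F]

/-- `harch` in the scaling form. -/
theorem tv2_scale (V' : ValuationSubring E) (π : E) (hπ : π ∈ V')
    (harch : ∀ x : E, x ≠ 0 → ∃ n : ℕ, (π ^ n)⁻¹ * x ∉ V') (x : E) :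
    ∃ N : ℕ, ∀ M : ℕ, N ≤ M → π ^ M * x ∈ V' := by
  by_cases hx : x ∈ V'
  · exact ⟨0, fun M _ => V'.mul_mem _ _ (pow_mem hπ M) hx⟩
  have hx0 : x ≠ 0 := by rintro rfl; exact hx V'.zero_mem
  obtain ⟨n, hn⟩ := harch x⁻¹ (inv_ne_zero hx0)
  have h1 : π ^ n * x ∈ V' := by
    rcases V'.mem_or_inv_mem ((π ^ n)⁻¹ * x⁻¹) with h | h
    · exact absurd h hn
    · rwa [mul_inv, inv_inv, inv_inv] at h
  refine ⟨n, fun M hM => ?_⟩
  obtain ⟨k, rfl⟩ := Nat.exists_eq_add_of_le hM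
  rw [pow_add, mul_comm (π ^ n), mul_assoc]
  exact V'.mul_mem _ _ (pow_mem hπ k) h1

/-- **(DK)** coordinates with respect to `1, y, …, y^(n-1)` of elements of `V₁ ∩ V₂` lie in `V'`. -/
theorem tv2_dk (V' : ValuationSubring E) (π : E) (hπ : π ∈ V')
    (hmax : ∀ x ∈ V', x⁻¹ ∉ V' → π⁻¹ * x ∈ V')
    (harch : ∀ x : E, x ≠ 0 → ∃ n : ℕ, (π ^ n)⁻¹ * x ∉ V')
    (V₁ V₂ : ValuationSubring F)
    (hV₁ : ∀ c ∈ V', algebraMap E F c ∈ V₁) (hV₂ : ∀ c ∈ V', algebraMap E F c ∈ V₂)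
    (hπ₁ : (algebraMap E F π)⁻¹ ∉ V₁) (hπ₂ : (algebraMap E F π)⁻¹ ∉ V₂)
    {y : F} (hy₁ : y ∈ V₁) (hy₂ : y ∈ V₂) (g₁ g₂ : (↥V')[X])
    (hg₁ : V₁.valuation (g₁.eval₂ (tv2_incl V') y) < 1)
    (hg₂ : V₂.valuation (g₂.eval₂ (tv2_incl V') y) < 1)
    (hirr₁ : Irreducible (g₁.map (IsLocalRing.residue ↥V')))
    (hirr₂ : Irreducible (g₂.map (IsLocalRing.residue ↥V')))
    (hna : ¬ Associated (g₁.map (IsLocalRing.residue ↥V')) (g₂.map (IsLocalRing.residue ↥V')))
    (n : ℕ)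
    (hn : n ≤ (g₁.map (IsLocalRing.residue ↥V')).natDegree
      + (g₂.map (IsLocalRing.residue ↥V')).natDegree)
    (c : ℕ → E) (hx₁ : ∑ i ∈ Finset.range n, algebraMap E F (c i) * y ^ i ∈ V₁)
    (hx₂ : ∑ i ∈ Finset.range n, algebraMap E F (c i) * y ^ i ∈ V₂) :
    ∀ i < n, c i ∈ V' := by
  classical
  have hπ0 : π ≠ 0 := by
    rintro rfl
    exact hπ₁ (by simp)
  -- a common exponent
  have hex : ∃ N : ℕ, ∀ i < n, π ^ N * c i ∈ V' := by
    choose Nf hNf using fun i => tv2_scale V' π hπ harch (c i)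
    refine ⟨(Finset.range n).sup Nf, fun i hi => hNf i _ ?_⟩
    exact Finset.le_sup (Finset.mem_range.mpr hi)
  obtain ⟨N, hN, hmin⟩ : ∃ N : ℕ, (∀ i < n, π ^ N * c i ∈ V') ∧
      ∀ m < N, ¬ (∀ i < n, π ^ m * c i ∈ V') :=
    ⟨Nat.find hex, Nat.find_spec hex, fun m hm => Nat.find_min hex hm⟩
  rcases Nat.eq_zero_or_pos N with hN0 | hNpos
  · intro i hi
    have := hN i hi
    rwa [hN0, pow_zero, one_mul] at this
  exfalso
  -- the scaled polynomial
  let d : ℕ → ↥V' := fun i => if h : π ^ N * c i ∈ V' then ⟨π ^ N * c i, h⟩ else 0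
  have hd : ∀ i < n, (d i : E) = π ^ N * c i := by
    intro i hi
    simp only [d, dif_pos (hN i hi)]
  let P : (↥V')[X] := ∑ i ∈ Finset.range n, C (d i) * X ^ i
  have hPcoeff : ∀ k, P.coeff k = if k < n then d k else 0 := by
    intro k
    simp only [P, finsetSum_coeff, coeff_C_mul, coeff_X_pow]
    by_cases hk : k < n
    · rw [if_pos hk, Finset.sum_eq_single k]
      · simp
      · intro b _ hb; simp [hb.symm]
      · intro h; exact absurd (Finset.mem_range.mpr hk) h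
    · rw [if_neg hk]
      refine Finset.sum_eq_zero fun b hb => ?_
      have : k ≠ b := by
        have := Finset.mem_range.mp hb
        omega
      simp [this]
  have hPeval : P.eval₂ (tv2_incl V') y
      = algebraMap E F π ^ N * ∑ i ∈ Finset.range n, algebraMap E F (c i) * y ^ i := by
    simp only [P, eval₂_finsetSum, eval₂_mul, eval₂_C, eval₂_X_pow]
    rw [Finset.mul_sum]
    refine Finset.sum_congr rfl fun i hi => ?_
    have := hd i (Finset.mem_range.mp hi)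
    simp only [tv2_incl, RingHom.comp_apply, ValuationSubring.subtype_apply] at *
    rw [this, map_mul, map_pow]; ring
  have hval : ∀ V : ValuationSubring F, (algebraMap E F π)⁻¹ ∉ V →
      ∑ i ∈ Finset.range n, algebraMap E F (c i) * y ^ i ∈ V →
      V.valuation (P.eval₂ (tv2_incl V') y) < 1 := by
    intro V hπV hxV
    rw [hPeval, map_mul, map_pow]
    have h1 := tv2_val_lt_one_of_inv_notMem V hπV
    have h2 := (ValuationSubring.valuation_le_one_iff V _).mpr hxV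
    calc _ ≤ V.valuation (algebraMap E F π) ^ N * 1 := by gcongr
      _ = V.valuation (algebraMap E F π) ^ N := mul_one _
      _ < 1 := pow_lt_one₀ zero_le h1 (by omega)
  have hd₁ := tv2_dvd_of_eval V' π hmax V₁ hV₁ hπ₁ hy₁ g₁ P hg₁ (hval V₁ hπ₁ hx₁) hirr₁
  have hd₂ := tv2_dvd_of_eval V' π hmax V₂ hV₂ hπ₂ hy₂ g₂ P hg₂ (hval V₂ hπ₂ hx₂) hirr₂
  have hcop : IsCoprime (g₁.map (IsLocalRing.residue ↥V')) (g₂.map (IsLocalRing.residue ↥V')) :=
    (hirr₁.coprime_iff_not_dvd).mpr fun h => hna (hirr₁.associated_of_dvd hirr₂ h)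
  have hdvd := hcop.mul_dvd hd₁ hd₂
  -- a unit coefficient
  have hunit : ∃ i < n, IsUnit (d i) := by
    by_contra hnu
    push Not at hnu
    have hNm : N - 1 < N := by omega
    apply hmin _ hNm
    intro i hi
    have h1 := hnu i hi
    by_cases hc0 : c i = 0
    · rw [hc0, mul_zero]; exact V'.zero_mem
    have hdi0 : (d i : E) ≠ 0 := by
      rw [hd i hi]; exact mul_ne_zero (pow_ne_zero _ hπ0) hc0
    have hinv : (d i : E)⁻¹ ∉ V' := by
      intro h
      apply h1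
      refine ⟨⟨d i, ⟨(d i : E)⁻¹, h⟩, ?_, ?_⟩, rfl⟩
      · ext; simp [hdi0]
      · ext; simp [hdi0]
    have h2 := hmax _ (d i).2 hinv
    rw [hd i hi] at h2
    have h3 : π⁻¹ * (π ^ N * c i) = π ^ (N - 1) * c i := by
      obtain ⟨k, hk⟩ : ∃ k, N = k + 1 := ⟨N - 1, by omega⟩
      rw [hk, pow_succ]
      simp only [Nat.add_sub_cancel]
      field_simp
    rwa [h3] at h2
  obtain ⟨i₀, hi₀, hu⟩ := hunit
  have hPbar0 : P.map (IsLocalRing.residue ↥V') ≠ 0 := by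
    intro h
    have h1 : (P.map (IsLocalRing.residue ↥V')).coeff i₀ = 0 := by rw [h]; simp
    rw [coeff_map, hPcoeff, if_pos hi₀, IsLocalRing.residue_eq_zero_iff,
      IsLocalRing.mem_maximalIdeal] at h1
    exact h1 hu
  have hdeg : (P.map (IsLocalRing.residue ↥V')).natDegree < n := by
    have h1 : (P.map (IsLocalRing.residue ↥V')).natDegree ≤ n - 1 := by
      rw [natDegree_le_iff_coeff_eq_zero]
      intro k hk
      rw [coeff_map, hPcoeff, if_neg (by omega), map_zero]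
    omega
  have h5 := natDegree_le_of_dvd hdvd hPbar0
  rw [natDegree_mul hirr₁.ne_zero hirr₂.ne_zero] at h5
  omega

end DKmain

section DKcor

variable {E F : Type*} [Field E] [Field F] [Algebra E F]

/-- The (DK) hypotheses: `V'` with uniformizer `π` (elementary shape), `V₁ V₂` over `V'` with `π`
a nonunit, `y ∈ V₁ ∩ V₂`, `g₁(y) ∈ m_{V₁}`, `g₂(y) ∈ m_{V₂}`, reductions irreducible and
non-associated. -/
structure tv2_DK (V' : ValuationSubring E) (π : E) (V₁ V₂ : ValuationSubring F) (y : F)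
    (g₁ g₂ : (↥V')[X]) : Prop where
  hπ : π ∈ V'
  hmax : ∀ x ∈ V', x⁻¹ ∉ V' → π⁻¹ * x ∈ V'
  harch : ∀ x : E, x ≠ 0 → ∃ n : ℕ, (π ^ n)⁻¹ * x ∉ V'
  hV₁ : ∀ c ∈ V', algebraMap E F c ∈ V₁
  hV₂ : ∀ c ∈ V', algebraMap E F c ∈ V₂
  hπ₁ : (algebraMap E F π)⁻¹ ∉ V₁
  hπ₂ : (algebraMap E F π)⁻¹ ∉ V₂
  hy₁ : y ∈ V₁
  hy₂ : y ∈ V₂
  hg₁ : V₁.valuation (g₁.eval₂ (tv2_incl V') y) < 1
  hg₂ : V₂.valuation (g₂.eval₂ (tv2_incl V') y) < 1
  hirr₁ : Irreducible (g₁.map (IsLocalRing.residue ↥V'))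
  hirr₂ : Irreducible (g₂.map (IsLocalRing.residue ↥V'))
  hna : ¬ Associated (g₁.map (IsLocalRing.residue ↥V')) (g₂.map (IsLocalRing.residue ↥V'))

/-- the total residue degree `deg ḡ₁ + deg ḡ₂`. -/
noncomputable def tv2_deg (V' : ValuationSubring E) (g₁ g₂ : (↥V')[X]) : ℕ :=
  (g₁.map (IsLocalRing.residue ↥V')).natDegree + (g₂.map (IsLocalRing.residue ↥V')).natDegree

variable {V' : ValuationSubring E} {π : E} {V₁ V₂ : ValuationSubring F} {y : F}
  {g₁ g₂ : (↥V')[X]}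

theorem tv2_DK_coeff_mem (H : tv2_DK V' π V₁ V₂ y g₁ g₂) (n : ℕ) (hn : n ≤ tv2_deg V' g₁ g₂)
    (c : ℕ → E) (hx₁ : ∑ i ∈ Finset.range n, algebraMap E F (c i) * y ^ i ∈ V₁)
    (hx₂ : ∑ i ∈ Finset.range n, algebraMap E F (c i) * y ^ i ∈ V₂) :
    ∀ i < n, c i ∈ V' :=
  tv2_dk V' π H.hπ H.hmax H.harch V₁ V₂ H.hV₁ H.hV₂ H.hπ₁ H.hπ₂ H.hy₁ H.hy₂ g₁ g₂ H.hg₁ H.hg₂
    H.hirr₁ H.hirr₂ H.hna n hn c hx₁ hx₂

theorem tv2_DK_inv_notMem (H : tv2_DK V' π V₁ V₂ y g₁ g₂) : π⁻¹ ∉ V' := by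
  intro h
  apply H.hπ₁
  rw [← map_inv₀]
  exact H.hV₁ _ h

/-- `1, y, …, y^(n-1)` are linearly independent over `E` for `n ≤ deg ḡ₁ + deg ḡ₂`. -/
theorem tv2_DK_linInd (H : tv2_DK V' π V₁ V₂ y g₁ g₂) (n : ℕ) (hn : n ≤ tv2_deg V' g₁ g₂) :
    LinearIndependent E (fun i : Fin n => y ^ (i : ℕ)) := by
  classical
  rw [Fintype.linearIndependent_iff]
  intro g hg i
  by_contra hgi
  have hπ0 : π ≠ 0 := by
    rintro rfl
    exact H.hπ₁ (by simp)
  let c : ℕ → E := fun k => if h : k < n then (π * g i)⁻¹ * g ⟨k, h⟩ else 0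
  have hsum : ∑ k ∈ Finset.range n, algebraMap E F (c k) * y ^ k = 0 := by
    rw [← Fin.sum_univ_eq_sum_range (fun k => algebraMap E F (c k) * y ^ k) n]
    have h1 : ∀ k : Fin n, algebraMap E F (c k) * y ^ (k : ℕ)
        = algebraMap E F ((π * g i)⁻¹) * (g k • y ^ (k : ℕ)) := by
      intro k
      simp only [c, dif_pos k.2, Fin.eta, map_mul, Algebra.smul_def, mul_assoc]
    simp_rw [h1]
    rw [← Finset.mul_sum, hg, mul_zero]
  have h := tv2_DK_coeff_mem H n hn c (by rw [hsum]; exact V₁.zero_mem)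
    (by rw [hsum]; exact V₂.zero_mem) i i.2
  apply tv2_DK_inv_notMem H
  have h2 : c i = π⁻¹ := by
    simp only [c, dif_pos i.2, Fin.eta]
    field_simp
  rwa [h2] at h

/-- if moreover `[F : E] ≤ n`, then `1, y, …, y^(n-1)` span `F` over `E`. -/
theorem tv2_DK_span [FiniteDimensional E F] (H : tv2_DK V' π V₁ V₂ y g₁ g₂) (n : ℕ)
    (hn : n ≤ tv2_deg V' g₁ g₂) (hfin : Module.finrank E F ≤ n) (x : F) :
    ∃ c : ℕ → E, x = ∑ i ∈ Finset.range n, algebraMap E F (c i) * y ^ i := by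
  classical
  have hli := tv2_DK_linInd H n hn
  have hcard : Fintype.card (Fin n) = Module.finrank E F := by
    have := hli.fintype_card_le_finrank
    rw [Fintype.card_fin] at this ⊢
    omega
  have hspan := hli.span_eq_top_of_card_eq_finrank' hcard
  have hx : x ∈ Submodule.span E (Set.range fun i : Fin n => y ^ (i : ℕ)) := by
    rw [hspan]; trivial
  obtain ⟨c, hc⟩ := (Submodule.mem_span_range_iff_exists_fun E).mp hx
  refine ⟨fun k => if h : k < n then c ⟨k, h⟩ else 0, ?_⟩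
  rw [← hc, ← Fin.sum_univ_eq_sum_range
    (fun k => algebraMap E F (if h : k < n then c ⟨k, h⟩ else 0) * y ^ k) n]
  refine Finset.sum_congr rfl fun k _ => ?_
  simp only [dif_pos k.2, Fin.eta, Algebra.smul_def]

/-- **(DK), polynomial form**: every `x ∈ V₁ ∩ V₂` in the `E`-span of `1, …, y^(n-1)` is `P(y)`
with `P ∈ V'[X]` of degree `< n`. -/
theorem tv2_DK_exists_poly (H : tv2_DK V' π V₁ V₂ y g₁ g₂) (n : ℕ) (hn : n ≤ tv2_deg V' g₁ g₂)
    (x : F) (hspan : ∃ c : ℕ → E, x = ∑ i ∈ Finset.range n, algebraMap E F (c i) * y ^ i)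
    (hx₁ : x ∈ V₁) (hx₂ : x ∈ V₂) :
    ∃ P : (↥V')[X], P.degree < n ∧ P.eval₂ (tv2_incl V') y = x := by
  classical
  obtain ⟨c, hc⟩ := hspan
  have hmem := tv2_DK_coeff_mem H n hn c (hc ▸ hx₁) (hc ▸ hx₂)
  let d : ℕ → ↥V' := fun i => if h : c i ∈ V' then ⟨c i, h⟩ else 0
  have hd : ∀ i < n, (d i : E) = c i := by
    intro i hi
    simp only [d, dif_pos (hmem i hi)]
  refine ⟨∑ i ∈ Finset.range n, C (d i) * X ^ i, ?_, ?_⟩
  · rw [degree_lt_iff_coeff_zero]
    intro m hm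
    rw [finsetSum_coeff]
    refine Finset.sum_eq_zero fun b hb => ?_
    have : m ≠ b := by
      have := Finset.mem_range.mp hb
      omega
    simp [coeff_C_mul, coeff_X_pow, this]
  · simp only [eval₂_finsetSum, eval₂_mul, eval₂_C, eval₂_X_pow]
    rw [hc]
    refine Finset.sum_congr rfl fun i hi => ?_
    have := hd i (Finset.mem_range.mp hi)
    simp only [tv2_incl, RingHom.comp_apply, ValuationSubring.subtype_apply]
    rw [this]

theorem tv2_isIntegralElem_pow {R S : Type*} [CommRing R] [CommRing S] (f : R →+* S) {y : S}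
    (hy : f.IsIntegralElem y) (n : ℕ) : f.IsIntegralElem (y ^ n) := by
  induction n with
  | zero => rw [pow_zero]; exact f.isIntegralElem_one
  | succ k ih => rw [pow_succ]; exact ih.mul f hy

theorem tv2_isIntegralElem_eval₂ {R S : Type*} [CommRing R] [CommRing S] (f : R →+* S) {y : S}
    (hy : f.IsIntegralElem y) (P : R[X]) : f.IsIntegralElem (P.eval₂ f y) := by
  induction P using Polynomial.induction_on' with
  | add p q hp hq => rw [eval₂_add]; exact hp.add f hq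
  | monomial n a =>
    rw [eval₂_monomial]
    exact (f.isIntegralElem_map).mul f (tv2_isIntegralElem_pow f hy n)

/-- `y` is integral over `V'` (given that `y^n` is in the span of the lower powers). -/
theorem tv2_DK_integral_gen (H : tv2_DK V' π V₁ V₂ y g₁ g₂) (n : ℕ) (hn : n ≤ tv2_deg V' g₁ g₂)
    (hspan : ∃ c : ℕ → E, y ^ n = ∑ i ∈ Finset.range n, algebraMap E F (c i) * y ^ i) :
    (tv2_incl V' : ↥V' →+* F).IsIntegralElem y := by
  obtain ⟨P, hPdeg, hP⟩ := tv2_DK_exists_poly H n hn (y ^ n) hspan (pow_mem H.hy₁ n)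
    (pow_mem H.hy₂ n)
  refine ⟨X ^ n - P, monic_X_pow_sub hPdeg, ?_⟩
  rw [eval₂_sub, eval₂_X_pow, hP, sub_self]

/-- **(DK), integrality form**: `V₁ ∩ V₂` is integral over `V'`. -/
theorem tv2_DK_integral (H : tv2_DK V' π V₁ V₂ y g₁ g₂) (n : ℕ) (hn : n ≤ tv2_deg V' g₁ g₂)
    (hspan : ∀ x : F, ∃ c : ℕ → E, x = ∑ i ∈ Finset.range n, algebraMap E F (c i) * y ^ i)
    (x : F) (hx₁ : x ∈ V₁) (hx₂ : x ∈ V₂) :
    (tv2_incl V' : ↥V' →+* F).IsIntegralElem x := by
  obtain ⟨P, -, hP⟩ := tv2_DK_exists_poly H n hn x (hspan x) hx₁ hx₂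
  rw [← hP]
  exact tv2_isIntegralElem_eval₂ _ (tv2_DK_integral_gen H n hn (hspan _)) P

/-- the same with the standard `Algebra ↥V' F` instance. -/
theorem tv2_DK_isIntegral (H : tv2_DK V' π V₁ V₂ y g₁ g₂) (n : ℕ) (hn : n ≤ tv2_deg V' g₁ g₂)
    (hspan : ∀ x : F, ∃ c : ℕ → E, x = ∑ i ∈ Finset.range n, algebraMap E F (c i) * y ^ i)
    (x : F) (hx₁ : x ∈ V₁) (hx₂ : x ∈ V₂) : IsIntegral ↥V' x :=
  tv2_DK_integral H n hn hspan x hx₁ hx₂

end DKcor

section Kummer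

variable {E F : Type*} [Field E] [Field F] [Algebra E F]

/-- **Kummer shape ⟹ (DK) data** with `g₁ = X - a₁`, `g₂ = X^q - a₂`: `y ≡ a₁` on `V₁`,
`y^q ≡ a₂` on `V₂`, and `a₂` is not a `q`-th power modulo `π` in `V'`. -/
theorem tv2_kummer (V' : ValuationSubring E) (π : E) (hπ : π ∈ V')
    (hmax : ∀ x ∈ V', x⁻¹ ∉ V' → π⁻¹ * x ∈ V')
    (harch : ∀ x : E, x ≠ 0 → ∃ n : ℕ, (π ^ n)⁻¹ * x ∉ V')
    (V₁ V₂ : ValuationSubring F)
    (hV₁ : ∀ c ∈ V', algebraMap E F c ∈ V₁) (hV₂ : ∀ c ∈ V', algebraMap E F c ∈ V₂)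
    (hπ₁ : (algebraMap E F π)⁻¹ ∉ V₁) (hπ₂ : (algebraMap E F π)⁻¹ ∉ V₂)
    (q : ℕ) (hq : q.Prime) (y : F) (a₁ a₂ : ↥V')
    (hy₁ : (algebraMap E F π)⁻¹ * (y - algebraMap E F (a₁ : E)) ∈ V₁)
    (hy₂ : (algebraMap E F π)⁻¹ * (y ^ q - algebraMap E F (a₂ : E)) ∈ V₂)
    (hpow : ∀ b ∈ V', π⁻¹ * (b ^ q - (a₂ : E)) ∉ V') :
    tv2_DK V' π V₁ V₂ y (X - C a₁) (X ^ q - C a₂) ∧
      tv2_deg V' (X - C a₁) (X ^ q - C a₂) = q + 1 := by
  have hπF0 : algebraMap E F π ≠ 0 := by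
    intro h
    exact hπ₁ (by rw [h]; simp)
  have hπV₁ : algebraMap E F π ∈ V₁ := hV₁ _ hπ
  have hπV₂ : algebraMap E F π ∈ V₂ := hV₂ _ hπ
  have hyV₁ : y ∈ V₁ := by
    have h1 : y = algebraMap E F π * ((algebraMap E F π)⁻¹ * (y - algebraMap E F (a₁ : E)))
        + algebraMap E F (a₁ : E) := by field_simp; ring
    rw [h1]
    exact V₁.add_mem _ _ (V₁.mul_mem _ _ hπV₁ hy₁) (hV₁ _ a₁.2)
  have hyqV₂ : y ^ q ∈ V₂ := by
    have h1 : y ^ q = algebraMap E F π * ((algebraMap E F π)⁻¹ * (y ^ q - algebraMap E F (a₂ : E)))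
        + algebraMap E F (a₂ : E) := by field_simp; ring
    rw [h1]
    exact V₂.add_mem _ _ (V₂.mul_mem _ _ hπV₂ hy₂) (hV₂ _ a₂.2)
  have hyV₂ : y ∈ V₂ := by
    rcases V₂.mem_or_inv_mem y with h | h
    · exact h
    · by_cases hy0 : y = 0
      · rw [hy0]; exact V₂.zero_mem
      have h1 : y = y ^ q * y⁻¹ ^ (q - 1) := by
        obtain ⟨k, hk⟩ : ∃ k, q = k + 1 := ⟨q - 1, by have := hq.pos; omega⟩
        rw [hk, Nat.add_sub_cancel, pow_succ, inv_pow]
        field_simp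
      rw [h1]
      exact V₂.mul_mem _ _ hyqV₂ (pow_mem h _)
  have hmap₁ : (X - C a₁ : (↥V')[X]).map (IsLocalRing.residue ↥V')
      = X - C (IsLocalRing.residue ↥V' a₁) := by
    rw [Polynomial.map_sub, map_X, map_C]
  have hmap₂ : (X ^ q - C a₂ : (↥V')[X]).map (IsLocalRing.residue ↥V')
      = X ^ q - C (IsLocalRing.residue ↥V' a₂) := by
    rw [Polynomial.map_sub, Polynomial.map_pow, map_X, map_C]
  have hnotpow : ∀ β : IsLocalRing.ResidueField ↥V', β ^ q ≠ IsLocalRing.residue ↥V' a₂ := by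
    intro β hβ
    obtain ⟨b, rfl⟩ := IsLocalRing.residue_surjective β
    have h1 : IsLocalRing.residue ↥V' (b ^ q - a₂) = 0 := by
      rw [map_sub, map_pow, hβ, sub_self]
    rw [IsLocalRing.residue_eq_zero_iff, IsLocalRing.mem_maximalIdeal] at h1
    apply hpow b b.2
    by_cases h0 : ((b : E) ^ q - (a₂ : E)) = 0
    · rw [h0, mul_zero]; exact V'.zero_mem
    apply hmax _ (sub_mem (pow_mem b.2 q) a₂.2)
    intro hinv
    apply h1
    refine ⟨⟨b ^ q - a₂, ⟨((b : E) ^ q - (a₂ : E))⁻¹, hinv⟩, ?_, ?_⟩, rfl⟩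
    · ext; simp [h0]
    · ext; simp [h0]
  have hdeg₁ : ((X - C a₁ : (↥V')[X]).map (IsLocalRing.residue ↥V')).natDegree = 1 := by
    rw [hmap₁, natDegree_X_sub_C]
  have hdeg₂ : ((X ^ q - C a₂ : (↥V')[X]).map (IsLocalRing.residue ↥V')).natDegree = q := by
    rw [hmap₂, natDegree_X_pow_sub_C]
  refine ⟨⟨hπ, hmax, harch, hV₁, hV₂, hπ₁, hπ₂, hyV₁, hyV₂, ?_, ?_, ?_, ?_, ?_⟩, ?_⟩
  · rw [eval₂_sub, eval₂_X, eval₂_C]
    exact tv2_val_lt_one V₁ hπ₁ hy₁
  · rw [eval₂_sub, eval₂_X_pow, eval₂_C]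
    exact tv2_val_lt_one V₂ hπ₂ hy₂
  · rw [hmap₁]; exact irreducible_X_sub_C _
  · rw [hmap₂]; exact X_pow_sub_C_irreducible_of_prime hq hnotpow
  · intro hass
    have h1 := natDegree_eq_of_degree_eq (degree_eq_degree_of_associated hass)
    rw [hdeg₁, hdeg₂] at h1
    exact hq.one_lt.ne h1
  · rw [tv2_deg, hdeg₁, hdeg₂, add_comm]

/-- residue degree one along `y ≡ a₁`: a polynomial in `y` is congruent modulo `π V₁` to its
value at `a₁` (an element of `V'`). -/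
theorem tv2_res_one (V' : ValuationSubring E) (π : E) (V₁ : ValuationSubring F)
    (hV₁ : ∀ c ∈ V', algebraMap E F c ∈ V₁) (y : F) (hyV₁ : y ∈ V₁) (a₁ : ↥V')
    (hy₁ : (algebraMap E F π)⁻¹ * (y - algebraMap E F (a₁ : E)) ∈ V₁) (P : (↥V')[X]) :
    (algebraMap E F π)⁻¹ * (P.eval₂ (tv2_incl V') y - algebraMap E F ((P.eval a₁ : ↥V') : E))
      ∈ V₁ := by
  let φ : ↥V' →+* ↥V₁ := RingHom.codRestrict (tv2_incl V') V₁ (fun c => hV₁ c c.2)
  have hφ : (V₁.subtype).comp φ = tv2_incl V' := by ext c; rfl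
  obtain ⟨k, hk⟩ := sub_dvd_eval_sub (⟨y, hyV₁⟩ : ↥V₁) (φ a₁) (P.map φ)
  have h1 : (((P.map φ).eval (⟨y, hyV₁⟩ : ↥V₁) : ↥V₁) : F) = P.eval₂ (tv2_incl V') y := by
    rw [eval_map]
    have := hom_eval₂ P φ V₁.subtype (⟨y, hyV₁⟩ : ↥V₁)
    rw [hφ] at this
    exact this
  have h2 : (((P.map φ).eval (φ a₁) : ↥V₁) : F) = algebraMap E F ((P.eval a₁ : ↥V') : E) := by
    rw [eval_map, eval₂_at_apply]
    rfl
  have h3 : P.eval₂ (tv2_incl V') y - algebraMap E F ((P.eval a₁ : ↥V') : E)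
      = (y - algebraMap E F (a₁ : E)) * (k : F) := by
    rw [← h1, ← h2]
    have := congrArg (fun t : ↥V₁ => (t : F)) hk
    have h4 : ((φ a₁ : ↥V₁) : F) = algebraMap E F (a₁ : E) := rfl
    rw [← h4]
    simpa using this
  rw [h3, ← mul_assoc]
  exact V₁.mul_mem _ _ hy₁ k.2

/-- **Main theorem of the row (Kummer shape, `[F : E] ≤ q + 1`)**:
`V₁ ∩ V₂ = V'[y]`, it is integral over `V'`, and `V₁` has residue degree one on it. -/
theorem tv2_main [FiniteDimensional E F] (V' : ValuationSubring E) (π : E) (hπ : π ∈ V')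
    (hmax : ∀ x ∈ V', x⁻¹ ∉ V' → π⁻¹ * x ∈ V')
    (harch : ∀ x : E, x ≠ 0 → ∃ n : ℕ, (π ^ n)⁻¹ * x ∉ V')
    (V₁ V₂ : ValuationSubring F)
    (hV₁ : ∀ c ∈ V', algebraMap E F c ∈ V₁) (hV₂ : ∀ c ∈ V', algebraMap E F c ∈ V₂)
    (hπ₁ : (algebraMap E F π)⁻¹ ∉ V₁) (hπ₂ : (algebraMap E F π)⁻¹ ∉ V₂)
    (q : ℕ) (hq : q.Prime) (y : F) (a₁ a₂ : ↥V')
    (hy₁ : (algebraMap E F π)⁻¹ * (y - algebraMap E F (a₁ : E)) ∈ V₁)
    (hy₂ : (algebraMap E F π)⁻¹ * (y ^ q - algebraMap E F (a₂ : E)) ∈ V₂)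
    (hpow : ∀ b ∈ V', π⁻¹ * (b ^ q - (a₂ : E)) ∉ V')
    (hfin : Module.finrank E F ≤ q + 1) :
    (∀ x ∈ V₁, x ∈ V₂ → ∃ P : (↥V')[X], P.degree < (q + 1 : ℕ) ∧ P.eval₂ (tv2_incl V') y = x) ∧
    (∀ x ∈ V₁, x ∈ V₂ → IsIntegral ↥V' x) ∧
    (∀ x ∈ V₁, x ∈ V₂ → ∃ b ∈ V', (algebraMap E F π)⁻¹ * (x - algebraMap E F b) ∈ V₁) ∧
    LinearIndependent E (fun i : Fin (q + 1) => y ^ (i : ℕ)) := by
  obtain ⟨H, hdeg⟩ := tv2_kummer V' π hπ hmax harch V₁ V₂ hV₁ hV₂ hπ₁ hπ₂ q hq y a₁ a₂ hy₁ hy₂ hpow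
  have hspan := fun x : F => tv2_DK_span H (q + 1) hdeg.ge hfin x
  refine ⟨fun x hx₁ hx₂ => tv2_DK_exists_poly H (q + 1) hdeg.ge x (hspan x) hx₁ hx₂,
    fun x hx₁ hx₂ => tv2_DK_isIntegral H (q + 1) hdeg.ge hspan x hx₁ hx₂, ?_,
    tv2_DK_linInd H (q + 1) hdeg.ge⟩
  intro x hx₁ hx₂
  obtain ⟨P, -, hP⟩ := tv2_DK_exists_poly H (q + 1) hdeg.ge x (hspan x) hx₁ hx₂
  refine ⟨((P.eval a₁ : ↥V') : E), (P.eval a₁).2, ?_⟩
  rw [← hP]
  exact tv2_res_one V' π V₁ hV₁ y H.hy₁ a₁ hy₁ P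

end Kummer

section SAT

/-- coefficients of the minimal polynomial over a field `E` of an element integral over `A`
are integral over `A` (no fraction-field hypothesis). -/
theorem tv2_minpoly_coeff_isIntegral {A E F : Type*} [CommRing A] [Field E] [Field F]
    [Algebra E F] [Algebra A E] [Algebra A F] [IsScalarTower A E F] {z : F} (hz : IsIntegral A z)
    (i : ℕ) : IsIntegral A ((minpoly E z).coeff i) := by
  have hzE : IsIntegral E z := hz.tower_top
  obtain ⟨f, hf, hfz⟩ := hz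
  have hdvd : minpoly E z ∣ f.map (algebraMap A E) := by
    apply minpoly.dvd
    rw [aeval_def, eval₂_map, ← IsScalarTower.algebraMap_eq]
    exact hfz
  have h := integralClosure.mem_lifts_of_monic_of_dvd_map E hf (minpoly.monic hzE) hdvd
  rw [lifts_iff_coeff_lifts] at h
  obtain ⟨w, hw⟩ := h i
  rw [← hw]
  exact w.2

/-- a root of a monic polynomial over `E` with coefficients integral over `A` is integral over `A`. -/
theorem tv2_isIntegral_of_coeff {A E F : Type*} [CommRing A] [Field E] [Field F]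
    [Algebra E F] [Algebra A E] [Algebra A F] [IsScalarTower A E F] {z : F} (p : E[X])
    (hp : p.Monic) (hpz : aeval z p = 0) (hcoeff : ∀ i, IsIntegral A (p.coeff i)) :
    IsIntegral A z := by
  have hlift : p ∈ lifts (algebraMap ↥(integralClosure A E) E) := by
    rw [lifts_iff_coeff_lifts]
    intro i
    exact ⟨⟨_, hcoeff i⟩, rfl⟩
  obtain ⟨Q, hQ, -, hQm⟩ := lifts_and_natDegree_eq_and_monic hlift hp
  have hzC : IsIntegral ↥(integralClosure A E) z := by
    refine ⟨Q, hQm, ?_⟩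
    rw [← hQ, aeval_def, eval₂_map, ← IsScalarTower.algebraMap_eq] at hpz
    exact hpz
  exact isIntegral_trans z hzC

/-- **(SAT), core**: `z` integral over `V'`, `π z` integral over `A ⊆ E`, and `A`-integrality in
`E` saturated with respect to `V'` ⟹ `z` integral over `A`. -/
theorem tv2_sat_core {A E F : Type*} [CommRing A] [Field E] [Field F]
    [Algebra E F] [Algebra A E] [Algebra A F] [IsScalarTower A E F]
    (π : E) (hπ0 : π ≠ 0) (V' : ValuationSubring E) (hπV : π ∈ V')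
    (hsat' : ∀ x : E, IsIntegral A x → π⁻¹ * x ∈ V' → IsIntegral A (π⁻¹ * x))
    (z : F) (hzV : IsIntegral ↥V' z) (hx : IsIntegral A (algebraMap E F π * z)) :
    IsIntegral A z := by
  have : IsScalarTower ↥V' E F := IsScalarTower.of_algebraMap_eq fun _ => rfl
  have hzE : IsIntegral E z := hzV.tower_top
  have hμV : ∀ i, (minpoly E z).coeff i ∈ V' := by
    intro i
    have h1 := tv2_minpoly_coeff_isIntegral (A := ↥V') (E := E) hzV i
    obtain ⟨w, hw⟩ := IsIntegrallyClosed.isIntegral_iff.mp h1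
    rw [← hw]
    exact w.2
  have hν : minpoly E (π • z) = (minpoly E z).scaleRoots π :=
    IsIntegrallyClosed.minpoly_smul hπ0 hzE
  have hx' : IsIntegral A (π • z) := by rwa [Algebra.smul_def]
  have key : ∀ k : ℕ, ∀ c : E, c ∈ V' → IsIntegral A (c * π ^ k) → IsIntegral A c := by
    intro k
    induction k with
    | zero => intro c _ h; simpa using h
    | succ k ih =>
      intro c hc h
      apply ih c hc
      have h1 : π⁻¹ * (c * π ^ (k + 1)) = c * π ^ k := by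
        rw [pow_succ]; field_simp
      rw [← h1]
      apply hsat' _ h
      rw [h1]
      exact V'.mul_mem _ _ hc (pow_mem hπV k)
  have hμA : ∀ i, IsIntegral A ((minpoly E z).coeff i) := by
    intro i
    apply key ((minpoly E z).natDegree - i) _ (hμV i)
    have := tv2_minpoly_coeff_isIntegral (A := A) (E := E) hx' i
    rwa [hν, coeff_scaleRoots] at this
  exact tv2_isIntegral_of_coeff (minpoly E z) (minpoly.monic hzE) (minpoly.aeval E z) hμA

variable {R E F : Type*} [CommRing R] [Field E] [Field F] [Algebra R E] [Algebra R F]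
  [Algebra E F] [IsScalarTower R E F]

/-- integrality over `R[f(s')] ⊆ F` is integrality over `R[s'] ⊆ E`. -/
theorem tv2_isIntegral_adjoin_image_iff (s' : Set E) (x : F) :
    IsIntegral (Algebra.adjoin R (algebraMap E F '' s')) x ↔ IsIntegral (Algebra.adjoin R s') x := by
  have hmem : ∀ a : ↥(Algebra.adjoin R s'),
      algebraMap E F (a : E) ∈ Algebra.adjoin R (algebraMap E F '' s') := by
    rintro ⟨a, ha⟩
    induction ha using Algebra.adjoin_induction with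
    | mem a ha => exact Algebra.subset_adjoin ⟨a, ha, rfl⟩
    | algebraMap r =>
      rw [← IsScalarTower.algebraMap_apply]
      exact Subalgebra.algebraMap_mem _ r
    | add a b _ _ ha hb => rw [map_add]; exact Subalgebra.add_mem _ ha hb
    | mul a b _ _ ha hb => rw [map_mul]; exact Subalgebra.mul_mem _ ha hb
  let g : ↥(Algebra.adjoin R s') →+* ↥(Algebra.adjoin R (algebraMap E F '' s')) :=
    RingHom.codRestrict (algebraMap ↥(Algebra.adjoin R s') F) _ hmem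
  have hg : (algebraMap ↥(Algebra.adjoin R (algebraMap E F '' s')) F).comp g
      = algebraMap ↥(Algebra.adjoin R s') F := by
    ext a; rfl
  have hsurj : Function.Surjective g := by
    rintro ⟨c, hc⟩
    induction hc using Algebra.adjoin_induction with
    | mem c hc =>
      obtain ⟨a, ha, rfl⟩ := hc
      exact ⟨⟨a, Algebra.subset_adjoin ha⟩, rfl⟩
    | algebraMap r =>
      refine ⟨algebraMap R _ r, ?_⟩
      apply Subtype.ext
      exact (IsScalarTower.algebraMap_apply R E F r).symm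
    | add a b ha hb iha ihb =>
      obtain ⟨a', ha'⟩ := iha
      obtain ⟨b', hb'⟩ := ihb
      refine ⟨a' + b', ?_⟩
      rw [map_add, ha', hb']
      rfl
    | mul a b ha hb iha ihb =>
      obtain ⟨a', ha'⟩ := iha
      obtain ⟨b', hb'⟩ := ihb
      refine ⟨a' * b', ?_⟩
      rw [map_mul, ha', hb']
      rfl
  constructor
  · rintro ⟨p, hp, hpx⟩
    have hlift : p ∈ lifts g := by
      obtain ⟨p', rfl⟩ := Polynomial.map_surjective g hsurj p
      exact ⟨p', rfl⟩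
    obtain ⟨Q, hQ, -, hQm⟩ := lifts_and_natDegree_eq_and_monic hlift hp
    refine ⟨Q, hQm, ?_⟩
    rw [← hQ, eval₂_map, hg] at hpx
    exact hpx
  · rintro ⟨p, hp, hpx⟩
    refine ⟨p.map g, hp.map g, ?_⟩
    rw [eval₂_map, hg]
    exact hpx

/-- **(SAT)**, integrality form. `s' ⊆ E` generators of the level-`M'` chart, saturated with
respect to `V'`; `W ⊆ F` integral over `V'`.  Then the integral closure of `R[f(s')]` in `F` is
saturated with respect to `W`. -/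
theorem tv2_sat (π : R) (hπ0 : algebraMap R E π ≠ 0) (V' : ValuationSubring E)
    (hπV : algebraMap R E π ∈ V') (s' : Set E)
    (hsat' : ∀ x : E, IsIntegral (Algebra.adjoin R s') x → (algebraMap R E π)⁻¹ * x ∈ V' →
      IsIntegral (Algebra.adjoin R s') ((algebraMap R E π)⁻¹ * x))
    (W : Subring F) (hW : ∀ x ∈ W, IsIntegral ↥V' x) (x : F)
    (hx : IsIntegral (Algebra.adjoin R (algebraMap E F '' s')) x)
    (hxW : (algebraMap R F π)⁻¹ * x ∈ W) :
    IsIntegral (Algebra.adjoin R (algebraMap E F '' s')) ((algebraMap R F π)⁻¹ * x) := by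
  rw [tv2_isIntegral_adjoin_image_iff] at hx ⊢
  have hπF : algebraMap R F π = algebraMap E F (algebraMap R E π) :=
    IsScalarTower.algebraMap_apply R E F π
  have hπF0 : algebraMap E F (algebraMap R E π) ≠ 0 := by
    intro h
    exact hπ0 ((map_eq_zero (algebraMap E F)).mp h)
  refine tv2_sat_core (A := ↥(Algebra.adjoin R s')) (algebraMap R E π) hπ0 V' hπV hsat' _
    (hW _ hxW) ?_
  rw [hπF, ← mul_assoc, mul_inv_cancel₀ hπF0, one_mul]
  exact hx

/-- **(SAT)**, literal `hsat` shape of `ntc47_main` for the charts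
`pk15_chart R s = (integralClosure (Algebra.adjoin R s) F).restrictScalars R`. -/
theorem tv2_sat_chart (π : R) (hπ0 : algebraMap R E π ≠ 0) (V' : ValuationSubring E)
    (hπV : algebraMap R E π ∈ V') (s' : Set E)
    (hsat' : ∀ x ∈ (integralClosure (Algebra.adjoin R s') E).restrictScalars R,
      (algebraMap R E π)⁻¹ * x ∈ V' →
      (algebraMap R E π)⁻¹ * x ∈ (integralClosure (Algebra.adjoin R s') E).restrictScalars R)
    (W : Subring F) (hW : ∀ x ∈ W, IsIntegral ↥V' x) (s : Set F) (hs : s = algebraMap E F '' s') :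
    ∀ x ∈ (integralClosure (Algebra.adjoin R s) F).restrictScalars R,
      (algebraMap R F π)⁻¹ * x ∈ W →
      (algebraMap R F π)⁻¹ * x ∈ (integralClosure (Algebra.adjoin R s) F).restrictScalars R := by
  subst hs
  intro x hx hxW
  exact tv2_sat π hπ0 V' hπV s' (fun x hx h => hsat' x hx h) W hW x hx hxW

end SAT

end Fermat.Agent.S34
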