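import Fermat.Agent.S34.ChartM15c
import Fermat.Agent.S34.Iface47c
import Fermat.Agent.S34.AtkinLehnerVal97
import Fermat.Agent.S34.TwoVal2
import Fermat.Agent.S37.KroneckerFrob50
import Fermat.Agent.S42.GaloisK1_41
import Fermat.Agent.S18.ResConst

/-!
# S34 lab, package FRAME-SAT (helper85): `s34i47c_Pkg_FrameSat`

The package (A) of `Iface47c`: at every level `M' * q` (`q` prime, `q ∤ M'`), over every discrete
valuation ring `R` of a number field `K` with residue characteristic `q` in which the integers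
prime to `q` are units, the ring `W = V_∞ ⊓ V_0` (`s34i47c_W`) satisfies (W) = `s34i47_WProps` and
every admissible Hauptmodul satisfies (C) = `s34i47_ChartProps`.

Route: `cm15_frame_chart_level2/3` (helper15) reduce (C) to the statement `cm15_WInt` "every
element of `W` is integral over the Gauss valuation ring `V'` of the good level `M'`", which is
proved here (`fs85_WInt`) by the Dedekind–Kummer criterion `tv2_kummer` (helper2) for
`E = F(M')_K ⊆ F = F(M' q)_K` (inclusion `al97L_alpha`), `y = j(Q^q)`, `a₁ = j^q`, `a₂ = j`: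

* `fs85_frob`   : `π⁻¹ (j(Q^q) - j^q) ∈ V_∞` (Frobenius congruence; at `V_0` by `w_q`);
* `fs85_hpow`   : `j` is not a `q`-th power modulo `π` in `V'` (its reduction has a simple pole);
* `fs85_harch`  : `⋂ πⁿ V' = 0`;
* `fs85_finrank`: `[F : E] = q + 1` (`gi41_relfinrank_prime`).

All names are prefixed `fs85_`.
-/

set_option autoImplicit false
set_option linter.unusedSectionVars false
set_option linter.style.haveILetI false

open ModularCurve IntermediateField Polynomial

namespace Fermat.Agent.S34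

open Fermat.Agent.S18 Fermat.Agent.S24 Fermat.Agent.S37

local notation "Q̄" => AlgebraicClosure ℚ

section fs85_gauss

variable {R K : Type} [CommRing R] [IsDomain R] [IsDiscreteValuationRing R] [Field K]
  [Algebra R K] [IsFractionRing R K] (M : ℕ) [NeZero M]

/-- a nonzero element of a discrete valuation ring is not divisible by all powers of the
uniformiser. -/
theorem fs85_not_pow_dvd {π : R} (hπ : Irreducible π) (r : R) (hr : r ≠ 0) :
    ∃ n : ℕ, ¬ π ^ n ∣ r := by
  obtain ⟨n, u, rfl⟩ := IsDiscreteValuationRing.eq_unit_mul_pow_irreducible hr hπ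
  refine ⟨n + 1, fun h => ?_⟩
  rw [pow_succ, mul_comm (u : R)] at h
  have h2 : π ∣ (u : R) := (mul_dvd_mul_iff_left (pow_ne_zero n hπ.ne_zero)).mp h
  exact hπ.not_isUnit (isUnit_of_dvd_unit h2 u.isUnit)

/-- **(harch)** for the Gauss valuation ring (any level): no nonzero element is divisible by all
powers of `π`. -/
theorem fs85_harch {π : R} (hπ : Irreducible π) (x : ↥(modularFunctionFieldFullC K M))
    (hx : x ≠ 0) :
    ∃ n : ℕ, ((algebraMap K ↥(modularFunctionFieldFullC K M) (algebraMap R K π)) ^ n)⁻¹ * x ∉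
      cm85_Vinf (K := K) M hπ := by
  obtain ⟨a, b, c, hc, ha, hb, hab⟩ := pk85_HF K M hπ x hx
  obtain ⟨r₁, r₂, hr₂, rfl⟩ := IsFractionRing.div_surjective (A := R) c
  have hr₂0 : r₂ ≠ 0 := nonZeroDivisors.ne_zero hr₂
  have hr₂K : algebraMap R K r₂ ≠ 0 := fun h =>
    hr₂0 (IsFractionRing.injective R K (by rw [h, map_zero]))
  have hr₁0 : r₁ ≠ 0 := by
    rintro rfl
    simp at hc
  obtain ⟨n, hn⟩ := fs85_not_pow_dvd hπ r₁ hr₁0
  refine ⟨n, ?_⟩
  rintro ⟨s, t, hs, hst⟩
  rw [← map_pow, ← map_pow, gv85_coe_inv_mul] at hst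
  have hπK : algebraMap R K (π ^ n) ≠ 0 := fun h =>
    pow_ne_zero n hπ.ne_zero (IsFractionRing.injective R K (by rw [h, map_zero]))
  have hCπ : (HahnSeries.C (algebraMap R K (π ^ n)) : LaurentSeries K) ≠ 0 :=
    HahnSeries.C_ne_zero hπK
  have h2 : HahnSeries.C (algebraMap R K r₁) * coeffMap (algebraMap R K) a =
      HahnSeries.C (algebraMap R K r₂) *
        ((x : LaurentSeries K) * coeffMap (algebraMap R K) b) := by
    rw [hab, ← mul_assoc, ← map_mul, mul_div_cancel₀ _ hr₂K]
  have h1 : coeffMap (algebraMap R K) (HahnSeries.C r₁ * (s * a)) =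
      coeffMap (algebraMap R K) (HahnSeries.C (π ^ n) * (HahnSeries.C r₂ * (t * b))) := by
    simp only [map_mul, gv85_coeffMap_C]
    rw [← hst]
    have h3 : HahnSeries.C (algebraMap R K (π ^ n)) *
        (HahnSeries.C (algebraMap R K (π ^ n)))⁻¹ = (1 : LaurentSeries K) :=
      mul_inv_cancel₀ hCπ
    linear_combination (coeffMap (algebraMap R K) s) * h2 -
      (HahnSeries.C (algebraMap R K r₂) * coeffMap (algebraMap R K) s *
        (x : LaurentSeries K) * coeffMap (algebraMap R K) b) * h3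
  have h3 := gv85_emb_injective h1
  have hsa : coeffMap (IsLocalRing.residue R) (s * a) ≠ 0 := by
    rw [map_mul]; exact mul_ne_zero hs ha
  obtain ⟨m, hm⟩ : ∃ m, (coeffMap (IsLocalRing.residue R) (s * a)).coeff m ≠ 0 := by
    by_contra hcon
    push Not at hcon
    exact hsa (HahnSeries.ext (funext hcon))
  rw [coeffMap_coeff] at hm
  have h4 := congrArg (fun z => z.coeff m) h3
  simp only [gv85_coeff_C_mul] at h4
  have h5 : π ^ n ∣ r₁ * (s * a).coeff m := ⟨_, h4⟩
  have h6 : ¬ π ∣ (s * a).coeff m := fun h => hm ((pk85_res_iff hπ _).mpr h)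
  exact hn (hπ.prime.pow_dvd_of_dvd_mul_right n h6 h5)

/-- **(hpow)** `j` is not a `q`-th power modulo `π` in the Gauss valuation ring (any level,
`q ≥ 2`): the reduction of `j` has a simple pole. -/
theorem fs85_hpow {π : R} (hπ : Irreducible π) (q : ℕ) (hq : 2 ≤ q)
    (b : ↥(modularFunctionFieldFullC K M)) (hb : b ∈ cm85_Vinf (K := K) M hπ) :
    (algebraMap K ↥(modularFunctionFieldFullC K M) (algebraMap R K π))⁻¹ *
      (b ^ q - relimc_J K M) ∉ cm85_Vinf (K := K) M hπ := by
  obtain ⟨s, t, hs, hst⟩ := hb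
  rintro ⟨s', t', hs', hst'⟩
  rw [gv85_coe_inv_mul] at hst'
  have hπK : algebraMap R K π ≠ 0 := fun h =>
    hπ.ne_zero (IsFractionRing.injective R K (by rw [h, map_zero]))
  have hCπ : (HahnSeries.C (algebraMap R K π) : LaurentSeries K) ≠ 0 :=
    HahnSeries.C_ne_zero hπK
  have hJ : ((relimc_J K M : ↥(modularFunctionFieldFullC K M)) : LaurentSeries K) =
      coeffMap (algebraMap R K) (jqModC R) := by
    rw [relimc_J_coe, coeffMap_jqModC]
  have hcoe : ((b ^ q - relimc_J K M : ↥(modularFunctionFieldFullC K M)) : LaurentSeries K) =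
      (b : LaurentSeries K) ^ q - coeffMap (algebraMap R K) (jqModC R) := by
    rw [← hJ]; rfl
  rw [hcoe] at hst'
  have h1 : coeffMap (algebraMap R K) (s' * (t ^ q - s ^ q * jqModC R)) =
      coeffMap (algebraMap R K) (HahnSeries.C π * (t' * s ^ q)) := by
    simp only [map_mul, map_sub, map_pow, gv85_coeffMap_C]
    rw [← hst', ← hst]
    have h3 : HahnSeries.C (algebraMap R K π) *
        (HahnSeries.C (algebraMap R K π))⁻¹ = (1 : LaurentSeries K) :=
      mul_inv_cancel₀ hCπ
    linear_combination (-(coeffMap (algebraMap R K) s' *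
      ((b : LaurentSeries K) ^ q - coeffMap (algebraMap R K) (jqModC R)) *
        coeffMap (algebraMap R K) s ^ q)) * h3
  have h2 := gv85_emb_injective h1
  have h3 : coeffMap (IsLocalRing.residue R) s' *
      (coeffMap (IsLocalRing.residue R) t ^ q -
        coeffMap (IsLocalRing.residue R) s ^ q * jqModC (IsLocalRing.ResidueField R)) = 0 := by
    have h := congrArg (coeffMap (IsLocalRing.residue R)) h2
    rw [gv85_red_C_mul _ _ (pk85_res_iff hπ)] at h
    simpa only [map_mul, map_sub, map_pow, coeffMap_jqModC] using h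
  have h4 : coeffMap (IsLocalRing.residue R) t ^ q =
      coeffMap (IsLocalRing.residue R) s ^ q * jqModC (IsLocalRing.ResidueField R) :=
    sub_eq_zero.mp ((mul_eq_zero.mp h3).resolve_left hs')
  have hj0 : jqModC (IsLocalRing.ResidueField R) ≠ 0 := by
    intro h0
    have := rc5_order_jqModC (k := IsLocalRing.ResidueField R)
    rw [h0, HahnSeries.order_zero] at this
    omega
  have hord := congrArg HahnSeries.order h4
  rw [HahnSeries.order_pow, HahnSeries.order_mul (pow_ne_zero _ hs) hj0, HahnSeries.order_pow,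
    rc5_order_jqModC] at hord
  simp only [nsmul_eq_mul] at hord
  have h5 : (q : ℤ) ∣ 1 := by
    refine ⟨(coeffMap (IsLocalRing.residue R) s).order -
      (coeffMap (IsLocalRing.residue R) t).order, ?_⟩
    linarith
  have h6 := Int.le_of_dvd one_pos h5
  omega

end fs85_gauss

section fs85_frob

variable {R K : Type} [CommRing R] [IsDomain R] [IsDiscreteValuationRing R] [Field K]
  [Algebra R K] [IsFractionRing R K] (M' q : ℕ) [NeZero M'] [NeZero q]

/-- the Frobenius congruence `j(Q^q) ≡ j(Q)^q` in residue characteristic `q`. -/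
theorem fs85_frob_red (hq : q.Prime) (hqR : ¬ IsUnit (q : R)) :
    coeffMap (IsLocalRing.residue R) (qExpand R q (jqModC R) - jqModC R ^ q) = 0 := by
  have hchar : (q : IsLocalRing.ResidueField R) = 0 := by
    have h1 : IsLocalRing.residue R (q : R) = 0 :=
      (IsLocalRing.residue_eq_zero_iff _).mpr ((IsLocalRing.mem_maximalIdeal _).mpr hqR)
    simpa using h1
  haveI : CharP (IsLocalRing.ResidueField R) q := (CharP.charP_iff_prime_eq_zero hq).mpr hchar
  haveI : ExpChar (IsLocalRing.ResidueField R) q := ExpChar.prime hq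
  rw [map_sub, map_pow, kr50_coeffMap_qExpand, coeffMap_jqModC,
    kr50_pow_char q (jqModC (IsLocalRing.ResidueField R)), coeffMap_jqModC, sub_self]

/-- **(H1)** the Frobenius congruence at `V_∞`: `π⁻¹ (β j - α j^q) ∈ V_∞`. -/
theorem fs85_frob (hq : q.Prime) {π : R} (hπ : Irreducible π) (hqR : ¬ IsUnit (q : R)) :
    (algebraMap K ↥(modularFunctionFieldFullC K (M' * q)) (algebraMap R K π))⁻¹ *
      (al97L_beta K M' q (relimc_J K M') - al97L_alpha K M' q (relimc_J K M' ^ q)) ∈
        cm85_Vinf (K := K) (M' * q) hπ := by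
  refine (gv85_gauss (IsLocalRing.residue R) π (pk85_res_iff hπ) hπ.ne_zero _ _ _
    (qExpand R q (jqModC R) - jqModC R ^ q) ?_).mpr (fs85_frob_red q hq hqR)
  show ((al97L_beta K M' q (relimc_J K M') : ↥(modularFunctionFieldFullC K (M' * q))) :
      LaurentSeries K) - ((al97L_alpha K M' q (relimc_J K M' ^ q) :
        ↥(modularFunctionFieldFullC K (M' * q))) : LaurentSeries K) = _
  rw [al97L_beta_coe, al97L_alpha_coe, map_sub, map_pow, kr50_coeffMap_qExpand, coeffMap_jqModC]
  rfl

end fs85_frob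

section fs85_wint

variable {R K : Type} [CommRing R] [IsDomain R] [IsDiscreteValuationRing R] [Field K] [CharZero K]
  [Algebra R K] [IsFractionRing R K] [Algebra K Q̄] (M' q : ℕ) [NeZero M'] [NeZero q]

/-- `[F(M' q) : F(M')] = q + 1` along the inclusion `α`. -/
theorem fs85_finrank (K : Type) [Field K] [CharZero K] (M' q : ℕ) [NeZero M'] [NeZero q]
    (hq : q.Prime) (hM' : ¬ q ∣ M') :
    letI : Algebra ↥(modularFunctionFieldFullC K M') ↥(modularFunctionFieldFullC K (M' * q)) :=
      (al97L_alpha K M' q).toRingHom.toAlgebra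
    Module.finrank ↥(modularFunctionFieldFullC K M') ↥(modularFunctionFieldFullC K (M' * q)) =
      q + 1 := by
  letI : Algebra ↥(modularFunctionFieldFullC K M') ↥(modularFunctionFieldFullC K (M' * q)) :=
    (al97L_alpha K M' q).toRingHom.toAlgebra
  have hle := full_degeneracyC_le K (dvd_mul_right M' q)
  have hK : ((M' * q : ℕ) : K) ≠ 0 := Nat.cast_ne_zero.mpr (NeZero.ne _)
  have h1 := Fermat.Agent.S42.gi41_relfinrank_prime K M' q hq hM' hK
  rw [IntermediateField.relfinrank_eq_finrank_of_le hle] at h1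
  rw [← h1]
  let e : ↥(modularFunctionFieldFullC K (M' * q)) ≃ₗ[↥(modularFunctionFieldFullC K M')]
      ↥(IntermediateField.extendScalars hle) :=
    { toFun := fun x => ⟨x.1, x.2⟩
      invFun := fun x => ⟨x.1, x.2⟩
      map_add' := fun _ _ => rfl
      map_smul' := fun _ _ => rfl
      left_inv := fun _ => rfl
      right_inv := fun _ => rfl }
  exact e.finrank_eq

end fs85_wint

section fs85_main

variable {R K : Type} [CommRing R] [IsDomain R] [IsDiscreteValuationRing R] [Field K] [CharZero K]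
  [Algebra R K] [IsFractionRing R K] [Algebra K Q̄] (M' q : ℕ) [NeZero M'] [NeZero q]

/-- **(WInt)** every element of `W = V_∞ ⊓ V_0` is integral over the Gauss valuation ring of the
good level `M'` (Dedekind–Kummer `tv2_kummer`, with `y = j(Q^q)`, `a₁ = j^q`, `a₂ = j`). -/
theorem fs85_WInt (hq : q.Prime) (hM' : ¬ q ∣ M') {π : R} (hπ : Irreducible π)
    (hqR : ¬ IsUnit (q : R)) :
    cm15_WInt R K M' (M' * q) (dvd_mul_right M' q) hπ (s34i47c_W (K := K) M' q hq hM' hπ) := by
  letI alg : Algebra ↥(modularFunctionFieldFullC K M') ↥(modularFunctionFieldFullC K (M' * q)) :=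
    (al97L_alpha K M' q).toRingHom.toAlgebra
  have hfr := fs85_finrank K M' q hq hM'
  haveI : FiniteDimensional ↥(modularFunctionFieldFullC K M')
      ↥(modularFunctionFieldFullC K (M' * q)) :=
    Module.finite_of_finrank_pos (by rw [hfr]; omega)
  have hπEF : algebraMap ↥(modularFunctionFieldFullC K M') ↥(modularFunctionFieldFullC K (M' * q))
      (algebraMap K ↥(modularFunctionFieldFullC K M') (algebraMap R K π)) =
      algebraMap K ↥(modularFunctionFieldFullC K (M' * q)) (algebraMap R K π) :=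
    (al97L_alpha K M' q).commutes _
  have hπV' : algebraMap K ↥(modularFunctionFieldFullC K M') (algebraMap R K π) ∈
      cm85_Vinf (K := K) M' hπ :=
    gv85_mem_V_of_integral _ _ _ _ (HahnSeries.C π) (by rw [gv85_coe_algebraMap, gv85_coeffMap_C])
  have hmax : ∀ x ∈ cm85_Vinf (K := K) M' hπ, x⁻¹ ∉ cm85_Vinf (K := K) M' hπ →
      (algebraMap K ↥(modularFunctionFieldFullC K M') (algebraMap R K π))⁻¹ * x ∈
        cm85_Vinf (K := K) M' hπ := fun x hx hx' =>
    gv85_hmax (IsLocalRing.residue R) π (pk85_res_iff hπ) hπ.ne_zero _ _ x hx hx'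
  have harch := fs85_harch (K := K) M' hπ
  have hV₁ : ∀ c ∈ cm85_Vinf (K := K) M' hπ,
      algebraMap ↥(modularFunctionFieldFullC K M') ↥(modularFunctionFieldFullC K (M' * q)) c ∈
        cm85_Vinf (K := K) (M' * q) hπ := fun c hc =>
    (al97V_alpha_mem_Vinf M' q hπ c).mpr hc
  have hV₂ : ∀ c ∈ cm85_Vinf (K := K) M' hπ,
      algebraMap ↥(modularFunctionFieldFullC K M') ↥(modularFunctionFieldFullC K (M' * q)) c ∈
        s34i47c_V0 (K := K) M' q hq hM' hπ := fun c hc =>
    (al97V_alpha_mem_V0 (algebraMap K Q̄) M' q hq hM' hπ c).mpr hc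
  have hπ₁ : (algebraMap ↥(modularFunctionFieldFullC K M') ↥(modularFunctionFieldFullC K (M' * q))
      (algebraMap K ↥(modularFunctionFieldFullC K M') (algebraMap R K π)))⁻¹ ∉
        cm85_Vinf (K := K) (M' * q) hπ := by
    rw [hπEF]
    exact gv85_pi_inv_not_mem (IsLocalRing.residue R) π (pk85_res_iff hπ) hπ.ne_zero _ _
  have hπ₂ : (algebraMap ↥(modularFunctionFieldFullC K M') ↥(modularFunctionFieldFullC K (M' * q))
      (algebraMap K ↥(modularFunctionFieldFullC K M') (algebraMap R K π)))⁻¹ ∉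
        s34i47c_V0 (K := K) M' q hq hM' hπ := by
    rw [hπEF, s34i47c_mem_V0, map_inv₀, AlgEquiv.commutes]
    exact gv85_pi_inv_not_mem (IsLocalRing.residue R) π (pk85_res_iff hπ) hπ.ne_zero _ _
  have hJV' : relimc_J K M' ∈ cm85_Vinf (K := K) M' hπ :=
    gv85_mem_V_of_integral _ _ _ _ (jqModC R) (by rw [relimc_J_coe, coeffMap_jqModC])
  have hy₁ : (algebraMap ↥(modularFunctionFieldFullC K M') ↥(modularFunctionFieldFullC K (M' * q))
      (algebraMap K ↥(modularFunctionFieldFullC K M') (algebraMap R K π)))⁻¹ *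
      (al97L_beta K M' q (relimc_J K M') -
        algebraMap ↥(modularFunctionFieldFullC K M') ↥(modularFunctionFieldFullC K (M' * q))
          ((⟨relimc_J K M' ^ q, pow_mem hJV' q⟩ : ↥(cm85_Vinf (K := K) M' hπ)) :
            ↥(modularFunctionFieldFullC K M'))) ∈ cm85_Vinf (K := K) (M' * q) hπ := by
    rw [hπEF]
    exact fs85_frob M' q hq hπ hqR
  have hy₂ : (algebraMap ↥(modularFunctionFieldFullC K M') ↥(modularFunctionFieldFullC K (M' * q))
      (algebraMap K ↥(modularFunctionFieldFullC K M') (algebraMap R K π)))⁻¹ *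
      (al97L_beta K M' q (relimc_J K M') ^ q -
        algebraMap ↥(modularFunctionFieldFullC K M') ↥(modularFunctionFieldFullC K (M' * q))
          ((⟨relimc_J K M', hJV'⟩ : ↥(cm85_Vinf (K := K) M' hπ)) :
            ↥(modularFunctionFieldFullC K M'))) ∈ s34i47c_V0 (K := K) M' q hq hM' hπ := by
    rw [hπEF, s34i47c_mem_V0, map_mul, map_inv₀, AlgEquiv.commutes, map_sub, map_pow,
      al97L_w_beta_apply]
    have h1 : al97L_w (algebraMap K Q̄) M' q hq hM'
        (algebraMap ↥(modularFunctionFieldFullC K M') ↥(modularFunctionFieldFullC K (M' * q))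
          (relimc_J K M')) = al97L_beta K M' q (relimc_J K M') :=
      al97L_w_alpha_apply (algebraMap K Q̄) M' q hq hM' (relimc_J K M')
    rw [h1]
    have h2 := (cm85_Vinf (K := K) (M' * q) hπ).neg_mem _ (fs85_frob (K := K) M' q hq hπ hqR)
    have h3 : (algebraMap K ↥(modularFunctionFieldFullC K (M' * q)) (algebraMap R K π))⁻¹ *
        (al97L_alpha K M' q (relimc_J K M') ^ q - al97L_beta K M' q (relimc_J K M')) =
        -((algebraMap K ↥(modularFunctionFieldFullC K (M' * q)) (algebraMap R K π))⁻¹ *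
          (al97L_beta K M' q (relimc_J K M') - al97L_alpha K M' q (relimc_J K M' ^ q))) := by
      rw [map_pow]; ring
    rw [h3]
    exact h2
  have hpow : ∀ b ∈ cm85_Vinf (K := K) M' hπ,
      (algebraMap K ↥(modularFunctionFieldFullC K M') (algebraMap R K π))⁻¹ *
        (b ^ q - ((⟨relimc_J K M', hJV'⟩ : ↥(cm85_Vinf (K := K) M' hπ)) :
          ↥(modularFunctionFieldFullC K M'))) ∉ cm85_Vinf (K := K) M' hπ := fun b hb =>
    fs85_hpow M' hπ q hq.two_le b hb
  obtain ⟨H, hdeg⟩ := tv2_kummer (cm85_Vinf (K := K) M' hπ)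
    (algebraMap K ↥(modularFunctionFieldFullC K M') (algebraMap R K π)) hπV' hmax harch
    (cm85_Vinf (K := K) (M' * q) hπ) (s34i47c_V0 (K := K) M' q hq hM' hπ) hV₁ hV₂ hπ₁ hπ₂ q hq
    (al97L_beta K M' q (relimc_J K M')) ⟨relimc_J K M' ^ q, pow_mem hJV' q⟩
    ⟨relimc_J K M', hJV'⟩ hy₁ hy₂ hpow
  have hspan := fun x : ↥(modularFunctionFieldFullC K (M' * q)) =>
    tv2_DK_span H (q + 1) hdeg.ge hfr.le x
  intro x hx
  obtain ⟨hx₁, hx₂⟩ := (wa5_mem_W _ _ x).mp hx
  exact tv2_DK_integral H (q + 1) hdeg.ge hspan x hx₁ hx₂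

end fs85_main

section fs85_frameSat

/-- `ℚ̄` is algebraic over every number field mapping to it. -/
theorem fs85_isAlgebraic (K : Type) [Field K] [NumberField K] [Algebra K Q̄] :
    Algebra.IsAlgebraic K Q̄ := by
  haveI : Algebra.IsAlgebraic ℚ Q̄ := AlgebraicClosure.isAlgebraic ℚ
  exact Algebra.IsAlgebraic.tower_top (K := ℚ) K

/-- **FRAME-SAT** (`Iface47c`) at every level `M' * q`, `q ∤ M'`. -/
theorem fs85_frameSat (M' q : ℕ) [NeZero M'] [NeZero q] (hq : q.Prime) (hM' : ¬ q ∣ M') :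
    s34i47c_FrameSat M' q hq hM' := by
  intro R K _ _ _ _ _ _ _ _ _ _ π hπ hunit hqR
  haveI : Algebra.IsAlgebraic K Q̄ := fs85_isAlgebraic K
  letI : Algebra R ↥(modularFunctionFieldFullC K M') :=
    ((algebraMap K ↥(modularFunctionFieldFullC K M')).comp (algebraMap R K)).toAlgebra
  haveI : IsScalarTower R K ↥(modularFunctionFieldFullC K M') :=
    IsScalarTower.of_algebraMap_eq (fun _ => rfl)
  have hdvd : M' ∣ M' * q := dvd_mul_right M' q
  have hMu : IsUnit (M' : R) := hunit M' ((Nat.Prime.coprime_iff_not_dvd hq).mpr hM').symm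
  have hWint := fs85_WInt (R := R) (K := K) M' q hq hM' hπ hqR
  have hRV : ∀ r : R, algebraMap R ↥(modularFunctionFieldFullC K (M' * q)) r ∈
      cm85_Vinf (K := K) (M' * q) hπ := pk85_hRV (M' * q) hπ
  have hπV : (algebraMap R ↥(modularFunctionFieldFullC K (M' * q)) π)⁻¹ ∉
      cm85_Vinf (K := K) (M' * q) hπ := by
    rw [IsScalarTower.algebraMap_apply R K ↥(modularFunctionFieldFullC K (M' * q))]
    exact gv85_pi_inv_not_mem (IsLocalRing.residue R) π (pk85_res_iff hπ) hπ.ne_zero _ _
  have hRV₀ : ∀ r : R, algebraMap R ↥(modularFunctionFieldFullC K (M' * q)) r ∈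
      s34i47c_V0 (K := K) M' q hq hM' hπ := by
    intro r
    rw [s34i47c_mem_V0, IsScalarTower.algebraMap_apply R K ↥(modularFunctionFieldFullC K (M' * q)),
      AlgEquiv.commutes, ← IsScalarTower.algebraMap_apply R K ↥(modularFunctionFieldFullC K (M' * q))]
    exact hRV r
  have hπV₀ : (algebraMap R ↥(modularFunctionFieldFullC K (M' * q)) π)⁻¹ ∉
      s34i47c_V0 (K := K) M' q hq hM' hπ := by
    rw [s34i47c_mem_V0, map_inv₀,
      IsScalarTower.algebraMap_apply R K ↥(modularFunctionFieldFullC K (M' * q)), AlgEquiv.commutes,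
      ← IsScalarTower.algebraMap_apply R K ↥(modularFunctionFieldFullC K (M' * q))]
    exact hπV
  have hα : ∀ x : ↥(modularFunctionFieldFullC K M'), x ∈ cm85_Vinf (K := K) M' hπ →
      al97L_alpha K M' q x ∈ s34i47c_V0 (K := K) M' q hq hM' hπ := fun x hx =>
    (al97V_alpha_mem_V0 (algebraMap K Q̄) M' q hq hM' hπ x).mpr hx
  refine ⟨⟨fun r => (wa5_mem_W _ _ _).mpr ⟨hRV r, hRV₀ r⟩, wa5_inv_not_mem _ _ _ hπV,
    fun m hm x hx => wa5_root _ _ m hm.ne' x hx,
    fun x hx => wa5_unit _ _ _ hπV hπV₀ x hx⟩, ?_⟩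
  rintro h (⟨hq2, h2, rfl⟩ | ⟨hq3, h3, rfl⟩)
  · have h2' : 2 ∣ M' := by
      rcases (Nat.Prime.dvd_mul Nat.prime_two).mp h2 with h | h
      · exact h
      · exact absurd ((Nat.prime_dvd_prime_iff_eq Nat.prime_two hq).mp h).symm hq2
    obtain ⟨-, -, -, -, hhV, hhV', -⟩ := cm85_facts_level2 (R := R) (K := K) M' hπ h2'
    have hh : al97L_alpha K M' q (pk85_h2 K M' h2') = pk85_h2 K (M' * q) (h2'.trans hdvd) :=
      Subtype.ext (by rw [al97L_alpha_coe, pk85_h2_coe, pk85_h2_coe])
    have hh₀ : pk85_h2 K (M' * q) (h2'.trans hdvd) ∈ s34i47c_V0 (K := K) M' q hq hM' hπ := by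
      rw [← hh]
      exact hα _ hhV
    have hh₀' : (pk85_h2 K (M' * q) (h2'.trans hdvd))⁻¹ ∈
        s34i47c_V0 (K := K) M' q hq hM' hπ := by
      rw [← hh, ← map_inv₀]
      exact hα _ hhV'
    exact (cm15_frame_chart_level2 M' (M' * q) hdvd hπ h2' hMu _ hRV₀ hπV₀ hh₀ hh₀' hWint).2.1
  · have h3' : 3 ∣ M' := by
      rcases (Nat.Prime.dvd_mul Nat.prime_three).mp h3 with h | h
      · exact h
      · exact absurd ((Nat.prime_dvd_prime_iff_eq Nat.prime_three hq).mp h).symm hq3
    obtain ⟨-, -, -, -, hhV, hhV', -⟩ := cm85_facts_level3 (R := R) (K := K) M' hπ h3'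
    have hh : al97L_alpha K M' q (pk85_h3 K M' h3') = pk85_h3 K (M' * q) (h3'.trans hdvd) :=
      Subtype.ext (by rw [al97L_alpha_coe, pk85_h3_coe, pk85_h3_coe])
    have hh₀ : pk85_h3 K (M' * q) (h3'.trans hdvd) ∈ s34i47c_V0 (K := K) M' q hq hM' hπ := by
      rw [← hh]
      exact hα _ hhV
    have hh₀' : (pk85_h3 K (M' * q) (h3'.trans hdvd))⁻¹ ∈
        s34i47c_V0 (K := K) M' q hq hM' hπ := by
      rw [← hh, ← map_inv₀]
      exact hα _ hhV'
    exact (cm15_frame_chart_level3 M' (M' * q) hdvd hπ h3' hMu _ hRV₀ hπV₀ hh₀ hh₀' hWint).2.1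

/-- **The package FRAME-SAT** of `Iface47c`. -/
theorem fs85_pkg_frameSat : s34i47c_Pkg_FrameSat :=
  fun M' q _ _ hq hM' => fs85_frameSat M' q hq hM'

end fs85_frameSat

end Fermat.Agent.S34
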