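import Fermat.Agent.S34.FrobInsep50
import Fermat.Agent.S34.ChartM85
import Fermat.Agent.S34.AtkinLehnerL97

/-!
# S34 lab, row P3b-insep (helper50), part 2: the Frobenius congruence over a discrete valuation
ring of the Frame, in the literal shape of the Gauss rings `cm85_Vinf`

* `ins50_A R K`, `ins50_e R K` : the valuation subring of `K = Frac R` with carrier the image of
  `R`, and the isomorphism `R ≃+* ins50_A R K`.
* `ins50_frob_cong_dvr` : `ins50_frob_cong` for a valuation ring `R` with fraction field `K`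
  (`coeffMap (algebraMap R K)`, `IsLocalRing.residue R`).
* `ins50_perfect` : the residue field of a local subring of a field algebraic over `ℚ` in which
  the prime `q` is not a unit has surjective Frobenius.
* `ins50_frob_Vinf` : for `x ∈ V' = cm85_Vinf M'` there is `x₁ ∈ V'` with
  `π⁻¹ (β x - (α x₁)^q) ∈ V_∞ = cm85_Vinf (M' q)`.
* `ins50_frob_Vzero` : the same transported by the Atkin–Lehner involution `w = al97L_w`:
  `w (π⁻¹ (α x - (β x₁)^q)) ∈ V_∞`, i.e. `π⁻¹ (α x - (β x₁)^q) ∈ V_0 := V_∞.comap w`.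
* `ins50_insep_core` : the abstract core of (3b): if `(B/p_0)_n` is a valuation ring of the residue
  field of `V_0`, `z ∈ n` and `z ≡ x^q` modulo `m_{V_0}`, then `d^q z - c^q ∈ p_0` with `d ∉ n`,
  `c ∈ n` (so `z ∈ n^q B_n + p_0 B_n`).
-/

set_option autoImplicit false
set_option linter.unusedSectionVars false
set_option linter.style.haveILetI false

open ModularCurve IntermediateField

namespace Fermat.Agent.S34

open Fermat.Agent.S18 Fermat.Agent.S28 Fermat.Agent.S37

section Transfer

variable (R K : Type) [CommRing R] [IsDomain R] [ValuationRing R] [Field K] [Algebra R K]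
  [IsFractionRing R K]

/-- The valuation subring of `K = Frac R` whose carrier is the image of the valuation ring `R`. -/
noncomputable def ins50_A : ValuationSubring K :=
  { (algebraMap R K).range with
    mem_or_inv_mem' := fun x => by
      rcases ValuationRing.isInteger_or_isInteger R x with ⟨r, hr⟩ | ⟨r, hr⟩
      · exact Or.inl ⟨r, hr⟩
      · exact Or.inr ⟨r, hr⟩ }

/-- `R ≃+* ins50_A R K`. -/
noncomputable def ins50_e : R ≃+* ↥(ins50_A R K) :=
  RingEquiv.ofBijective
    ({ toFun := fun r => ⟨algebraMap R K r, ⟨r, rfl⟩⟩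
       map_one' := Subtype.ext (map_one _)
       map_mul' := fun a b => Subtype.ext (map_mul _ a b)
       map_zero' := Subtype.ext (map_zero _)
       map_add' := fun a b => Subtype.ext (map_add _ a b) } : R →+* ↥(ins50_A R K))
    ⟨fun a b h => IsFractionRing.injective R K (congrArg Subtype.val h),
      fun x => by
        obtain ⟨r, hr⟩ := x.2
        exact ⟨r, Subtype.ext hr⟩⟩

theorem ins50_e_coe (r : R) : ((ins50_e R K r : ↥(ins50_A R K)) : K) = algebraMap R K r := rfl

theorem ins50_subtype_comp_e :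
    ((ins50_A R K).subtype : ↥(ins50_A R K) →+* K).comp (ins50_e R K : R →+* ↥(ins50_A R K)) =
      algebraMap R K :=
  RingHom.ext fun _ => rfl

/-- The induced map on residue fields. -/
noncomputable def ins50_ebar :
    IsLocalRing.ResidueField R →+* IsLocalRing.ResidueField ↥(ins50_A R K) :=
  IsLocalRing.ResidueField.map (ins50_e R K : R →+* ↥(ins50_A R K))

theorem ins50_ebar_comp :
    (ins50_ebar R K).comp (IsLocalRing.residue R) =
      (IsLocalRing.residue ↥(ins50_A R K)).comp (ins50_e R K : R →+* ↥(ins50_A R K)) :=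
  RingHom.ext fun r => IsLocalRing.ResidueField.map_residue _ r

theorem ins50_ebar_surjective : Function.Surjective (ins50_ebar R K) := by
  intro c
  obtain ⟨a, rfl⟩ := IsLocalRing.residue_surjective c
  obtain ⟨r, rfl⟩ := (ins50_e R K).surjective a
  exact ⟨IsLocalRing.residue R r, IsLocalRing.ResidueField.map_residue _ r⟩

/-- Reduction commutes with the transfer `R ≃ ins50_A R K`. -/
theorem ins50_red_e (x : LaurentSeries R) :
    coeffMap (IsLocalRing.residue ↥(ins50_A R K))
        (coeffMap (ins50_e R K : R →+* ↥(ins50_A R K)) x) =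
      coeffMap (ins50_ebar R K) (coeffMap (IsLocalRing.residue R) x) := by
  rw [coeffMap_coeffMap, coeffMap_coeffMap, ins50_ebar_comp]

theorem ins50_sub_e (x : LaurentSeries R) :
    coeffMap (ins50_A R K).subtype (coeffMap (ins50_e R K : R →+* ↥(ins50_A R K)) x) =
      coeffMap (algebraMap R K) x := by
  rw [coeffMap_coeffMap, ins50_subtype_comp_e]

theorem ins50_e_symm_e (x : LaurentSeries ↥(ins50_A R K)) :
    coeffMap (ins50_e R K : R →+* ↥(ins50_A R K))
      (coeffMap ((ins50_e R K).symm : ↥(ins50_A R K) →+* R) x) = x := by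
  rw [coeffMap_coeffMap,
    coeffMap_congr (g := RingHom.id _) (RingHom.ext fun a => (ins50_e R K).apply_symm_apply a) x,
    coeffMap_id]

variable {R K}

/-- **Frobenius congruence for the Gauss ring over a valuation ring `R` with fraction field `K`**
(the shape of the Frame: `coeffMap (algebraMap R K)`, `IsLocalRing.residue R`).  For `f` in the
Gauss ring of `F(N)_K` there is `f₁` in the Gauss ring of `F(N)_K` such that `f(Q^q) - f₁^q` lies
in the maximal ideal of the Gauss ring. -/
theorem ins50_frob_cong_dvr (N q : ℕ) [NeZero N] [NeZero q] (hq : q.Prime)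
    (hchar : (q : IsLocalRing.ResidueField R) = 0)
    (hperf : ∀ c : IsLocalRing.ResidueField R, ∃ d : IsLocalRing.ResidueField R, d ^ q = c)
    (hN : (N : IsLocalRing.ResidueField R) ≠ 0)
    (f : LaurentSeries K) (hf : f ∈ modularFunctionFieldFullC K N)
    (s t : LaurentSeries R) (hs : coeffMap (IsLocalRing.residue R) s ≠ 0)
    (hst : coeffMap (algebraMap R K) s * f = coeffMap (algebraMap R K) t) :
    ∃ (f₁ : LaurentSeries K) (s₁ t₁ : LaurentSeries R),
      f₁ ∈ modularFunctionFieldFullC K N ∧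
      coeffMap (IsLocalRing.residue R) s₁ ≠ 0 ∧
      coeffMap (algebraMap R K) s₁ * f₁ = coeffMap (algebraMap R K) t₁ ∧
      ∃ S T : LaurentSeries R, coeffMap (IsLocalRing.residue R) S ≠ 0 ∧
        coeffMap (IsLocalRing.residue R) T = 0 ∧
        coeffMap (algebraMap R K) S * (qExpand K q f - f₁ ^ q) = coeffMap (algebraMap R K) T := by
  have hinj : Function.Injective (coeffMap (ins50_ebar R K)) :=
    kr50_coeffMap_injective _ (ins50_ebar R K).injective
  have hchar' : (q : IsLocalRing.ResidueField ↥(ins50_A R K)) = 0 := by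
    have h := congrArg (ins50_ebar R K) hchar
    rwa [map_natCast, map_zero] at h
  have hperf' : ∀ c : IsLocalRing.ResidueField ↥(ins50_A R K),
      ∃ d : IsLocalRing.ResidueField ↥(ins50_A R K), d ^ q = c := by
    intro c
    obtain ⟨c', rfl⟩ := ins50_ebar_surjective R K c
    obtain ⟨d', hd'⟩ := hperf c'
    exact ⟨ins50_ebar R K d', by rw [← map_pow, hd']⟩
  have hN' : (N : IsLocalRing.ResidueField ↥(ins50_A R K)) ≠ 0 := by
    intro h0
    apply hN
    apply (ins50_ebar R K).injective
    rw [map_natCast, map_zero, h0]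
  have hs' : coeffMap (IsLocalRing.residue ↥(ins50_A R K))
      (coeffMap (ins50_e R K : R →+* ↥(ins50_A R K)) s) ≠ 0 := by
    rw [ins50_red_e]
    intro h0
    exact hs (hinj (by rw [h0, map_zero]))
  have hst' : coeffMap (ins50_A R K).subtype (coeffMap (ins50_e R K : R →+* ↥(ins50_A R K)) s) * f
      = coeffMap (ins50_A R K).subtype (coeffMap (ins50_e R K : R →+* ↥(ins50_A R K)) t) := by
    rw [ins50_sub_e, ins50_sub_e, hst]
  obtain ⟨f₁, s₁, t₁, hf₁, hs₁, hst₁, S, T, hS, hT, hST⟩ :=
    ins50_frob_cong (ins50_A R K) N q hq hchar' hperf' hN' f hf _ _ hs' hst'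
  -- pull the witnesses back to `R`
  have hback : ∀ X : LaurentSeries ↥(ins50_A R K),
      coeffMap (algebraMap R K) (coeffMap ((ins50_e R K).symm : ↥(ins50_A R K) →+* R) X) =
        coeffMap (ins50_A R K).subtype X := by
    intro X
    rw [← ins50_sub_e, ins50_e_symm_e]
  have hred : ∀ X : LaurentSeries ↥(ins50_A R K),
      coeffMap (ins50_ebar R K) (coeffMap (IsLocalRing.residue R)
        (coeffMap ((ins50_e R K).symm : ↥(ins50_A R K) →+* R) X)) =
      coeffMap (IsLocalRing.residue ↥(ins50_A R K)) X := by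
    intro X
    rw [← ins50_red_e, ins50_e_symm_e]
  refine ⟨f₁, coeffMap ((ins50_e R K).symm : ↥(ins50_A R K) →+* R) s₁,
    coeffMap ((ins50_e R K).symm : ↥(ins50_A R K) →+* R) t₁, hf₁, ?_, ?_,
    coeffMap ((ins50_e R K).symm : ↥(ins50_A R K) →+* R) S,
    coeffMap ((ins50_e R K).symm : ↥(ins50_A R K) →+* R) T, ?_, ?_, ?_⟩
  · intro h0
    apply hs₁
    rw [← hred, h0, map_zero]
  · rw [hback, hback, hst₁]
  · intro h0
    apply hS
    rw [← hred, h0, map_zero]
  · apply hinj
    rw [hred, hT, map_zero]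
  · rw [hback, hback, hST]

end Transfer

section Perfect

/-- The residue field of a local ring `R` inside a field `K` algebraic over `ℚ`, in which the
prime `q` is not a unit, has surjective Frobenius (it is algebraic over `𝔽_q`). -/
theorem ins50_perfect {R K : Type} [CommRing R] [IsLocalRing R] [Field K] [CharZero K]
    [Algebra.IsAlgebraic ℚ K] [Algebra R K] (hinj : Function.Injective (algebraMap R K))
    {q : ℕ} (hq : q.Prime) (hqR : ¬ IsUnit (q : R)) :
    (q : IsLocalRing.ResidueField R) = 0 ∧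
      ∀ c : IsLocalRing.ResidueField R, ∃ d : IsLocalRing.ResidueField R, d ^ q = c := by
  have hchar : (q : IsLocalRing.ResidueField R) = 0 := by
    have h1 : IsLocalRing.residue R (q : R) = 0 :=
      (IsLocalRing.residue_eq_zero_iff _).mpr ((IsLocalRing.mem_maximalIdeal _).mpr hqR)
    rwa [map_natCast] at h1
  refine ⟨hchar, ?_⟩
  haveI hcharP : CharP (IsLocalRing.ResidueField R) q :=
    (CharP.charP_iff_prime_eq_zero hq).mpr hchar
  haveI hfact : Fact q.Prime := ⟨hq⟩
  letI halg : Algebra (ZMod q) (IsLocalRing.ResidueField R) :=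
    ZMod.algebra (IsLocalRing.ResidueField R) q
  haveI hexp : ExpChar (IsLocalRing.ResidueField R) q := ExpChar.prime hq
  haveI hA : Algebra.IsAlgebraic (ZMod q) (IsLocalRing.ResidueField R) := by
    refine ⟨fun c => ?_⟩
    obtain ⟨r, rfl⟩ := IsLocalRing.residue_surjective c
    have hx : IsAlgebraic ℤ (algebraMap R K r) :=
      (IsFractionRing.isAlgebraic_iff ℤ ℚ K).mpr (Algebra.IsAlgebraic.isAlgebraic _)
    obtain ⟨P, hP0, hP⟩ := hx
    have hcont : (P.content : K) ≠ 0 := by
      have : P.content ≠ 0 := fun h => hP0 (Polynomial.content_eq_zero_iff.mp h)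
      exact_mod_cast this
    have hP' : Polynomial.aeval (algebraMap R K r) P.primPart = 0 := by
      have h1 := hP
      rw [P.eq_C_content_mul_primPart, map_mul, Polynomial.aeval_C] at h1
      rcases mul_eq_zero.mp h1 with h2 | h2
      · exact absurd (by simpa using h2) hcont
      · exact h2
    have hr : Polynomial.aeval r P.primPart = 0 := by
      apply hinj
      rw [← Polynomial.aeval_algebraMap_apply, hP', map_zero]
    have hc : Polynomial.aeval (IsLocalRing.residue R r) P.primPart = 0 := by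
      have h1 := congrArg (IsLocalRing.residue R) hr
      rw [map_zero, Polynomial.aeval_def, Polynomial.hom_eval₂] at h1
      rw [Polynomial.aeval_def]
      convert h1 using 2
      exact RingHom.ext_int _ _
    refine ⟨P.primPart.map (Int.castRingHom (ZMod q)), ?_, ?_⟩
    · intro h0
      have hdvd : Polynomial.C (q : ℤ) ∣ P.primPart := by
        rw [Polynomial.C_dvd_iff_dvd_coeff]
        intro n
        have h1 := congrArg (fun p => Polynomial.coeff p n) h0
        simp only [Polynomial.coeff_map, Polynomial.coeff_zero, eq_intCast] at h1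
        exact (ZMod.intCast_zmod_eq_zero_iff_dvd _ q).mp h1
      have hu := P.isPrimitive_primPart _ hdvd
      rw [Int.isUnit_iff] at hu
      have h2 := hq.two_le
      omega
    · have h1 : (algebraMap (ZMod q) (IsLocalRing.ResidueField R)).comp
          (Int.castRingHom (ZMod q)) = algebraMap ℤ (IsLocalRing.ResidueField R) :=
        RingHom.ext_int _ _
      rw [Polynomial.aeval_def, Polynomial.eval₂_map, h1, ← Polynomial.aeval_def, hc]
  haveI hpf : PerfectField (IsLocalRing.ResidueField R) :=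
    Algebra.IsAlgebraic.perfectField (ZMod q)
  haveI hpr : PerfectRing (IsLocalRing.ResidueField R) q := PerfectField.toPerfectRing q
  intro c
  obtain ⟨d, hd⟩ := (bijective_frobenius (IsLocalRing.ResidueField R) q).2 c
  exact ⟨d, by rw [← hd, frobenius_def]⟩

end Perfect

section Gauss

variable {R K : Type} [CommRing R] [IsDomain R] [IsDiscreteValuationRing R] [Field K]
  [Algebra R K] [IsFractionRing R K] (M' q : ℕ) [NeZero M'] [NeZero q]

/-- **Frobenius congruence on `V_∞`** (Kronecker for the whole Gauss ring).  For `x` in the Gauss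
ring `V' = cm85_Vinf M'` of level `M'` (`q ∤ M'`, residue characteristic `q`, perfect residue
field) there is `x₁ ∈ V'` with `β x ≡ (α x₁)^q` modulo `π V_∞`, `V_∞ = cm85_Vinf (M' q)`;
here `α` is the inclusion of levels and `β` is `Q ↦ Q^q`. -/
theorem ins50_frob_Vinf {π : R} (hπ : Irreducible π) (hq : q.Prime) (hqM : ¬ q ∣ M')
    (hchar : (q : IsLocalRing.ResidueField R) = 0)
    (hperf : ∀ c : IsLocalRing.ResidueField R, ∃ d : IsLocalRing.ResidueField R, d ^ q = c)
    (x : ↥(modularFunctionFieldFullC K M')) (hx : x ∈ cm85_Vinf (K := K) M' hπ) :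
    ∃ x₁ : ↥(modularFunctionFieldFullC K M'), x₁ ∈ cm85_Vinf (K := K) M' hπ ∧
      (algebraMap K ↥(modularFunctionFieldFullC K (M' * q)) (algebraMap R K π))⁻¹ *
          (al97L_beta K M' q x - (al97L_alpha K M' q x₁) ^ q) ∈
        cm85_Vinf (K := K) (M' * q) hπ := by
  haveI hcharP : CharP (IsLocalRing.ResidueField R) q :=
    (CharP.charP_iff_prime_eq_zero hq).mpr hchar
  have hM' : (M' : IsLocalRing.ResidueField R) ≠ 0 := fun h0 =>
    hqM ((CharP.cast_eq_zero_iff (IsLocalRing.ResidueField R) q M').mp h0)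
  obtain ⟨s, t, hs, hst⟩ := hx
  obtain ⟨f₁, s₁, t₁, hf₁, hs₁, hst₁, S, T, hS, hT, hST⟩ :=
    ins50_frob_cong_dvr M' q hq hchar hperf hM' (x : LaurentSeries K) x.2 s t hs hst
  refine ⟨⟨f₁, hf₁⟩, ⟨s₁, t₁, hs₁, hst₁⟩, ?_⟩
  obtain ⟨T', hT'⟩ := gv85_red_eq_zero (IsLocalRing.residue R) π (pk85_res_iff hπ) hπ.ne_zero T hT
  have hπK : algebraMap R K π ≠ 0 := fun h =>
    hπ.ne_zero (IsFractionRing.injective R K (by rw [h, map_zero]))
  have hC0 : (HahnSeries.C (algebraMap R K π) : LaurentSeries K) ≠ 0 := HahnSeries.C_ne_zero hπK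
  refine ⟨S, T', hS, ?_⟩
  rw [gv85_coe_inv_mul]
  have hcoe : ((al97L_beta K M' q x - (al97L_alpha K M' q (⟨f₁, hf₁⟩ :
      ↥(modularFunctionFieldFullC K M'))) ^ q :
      ↥(modularFunctionFieldFullC K (M' * q))) : LaurentSeries K) =
      qExpand K q (x : LaurentSeries K) - f₁ ^ q := rfl
  rw [hcoe, mul_left_comm, hST, hT', map_mul, gv85_coeffMap_C, ← mul_assoc, inv_mul_cancel₀ hC0,
    one_mul]

/-- **Pure inseparability at `V_0`**: the same congruence transported by the Atkin–Lehner
involution `w = al97L_w` (`w ∘ α = β`, `w ∘ β = α`).  For `x ∈ V'` there is `x₁ ∈ V'` with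
`w (π⁻¹ (α x - (β x₁)^q)) ∈ V_∞`, i.e. `α x ≡ (β x₁)^q` modulo `π V_0` for `V_0 := V_∞.comap w`. -/
theorem ins50_frob_Vzero (φ : K →+* AlgebraicClosure ℚ) {π : R} (hπ : Irreducible π)
    (hq : q.Prime) (hqM : ¬ q ∣ M')
    (hchar : (q : IsLocalRing.ResidueField R) = 0)
    (hperf : ∀ c : IsLocalRing.ResidueField R, ∃ d : IsLocalRing.ResidueField R, d ^ q = c)
    (x : ↥(modularFunctionFieldFullC K M')) (hx : x ∈ cm85_Vinf (K := K) M' hπ) :
    ∃ x₁ : ↥(modularFunctionFieldFullC K M'), x₁ ∈ cm85_Vinf (K := K) M' hπ ∧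
      al97L_w φ M' q hq hqM
          ((algebraMap K ↥(modularFunctionFieldFullC K (M' * q)) (algebraMap R K π))⁻¹ *
            (al97L_alpha K M' q x - (al97L_beta K M' q x₁) ^ q)) ∈
        cm85_Vinf (K := K) (M' * q) hπ := by
  obtain ⟨x₁, hx₁, h⟩ := ins50_frob_Vinf M' q hπ hq hqM hchar hperf x hx
  refine ⟨x₁, hx₁, ?_⟩
  rw [map_mul, map_inv₀, AlgEquiv.commutes, map_sub, map_pow, al97L_w_alpha_apply,
    al97L_w_beta_apply]
  exact h

end Gauss

section Core

variable {F : Type*} [Field F]

theorem ins50_nonunits_mem (V : ValuationSubring F) {a : F} (ha : a ∈ V.nonunits) : a ∈ V :=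
  (V.valuation_le_one_iff a).mp (le_of_lt (V.mem_nonunits_iff.mp ha))

theorem ins50_nonunits_add (V : ValuationSubring F) {a b : F} (ha : a ∈ V.nonunits)
    (hb : b ∈ V.nonunits) : a + b ∈ V.nonunits := by
  rw [V.mem_nonunits_iff] at ha hb ⊢
  exact lt_of_le_of_lt (V.valuation.map_add a b) (max_lt ha hb)

theorem ins50_nonunits_sub (V : ValuationSubring F) {a b : F} (ha : a ∈ V.nonunits)
    (hb : b ∈ V.nonunits) : a - b ∈ V.nonunits := by
  rw [V.mem_nonunits_iff] at ha hb ⊢
  exact lt_of_le_of_lt (V.valuation.map_sub a b) (max_lt ha hb)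

theorem ins50_nonunits_mul (V : ValuationSubring F) {a b : F} (ha : a ∈ V)
    (hb : b ∈ V.nonunits) : a * b ∈ V.nonunits := by
  rw [V.mem_nonunits_iff] at hb ⊢
  rw [map_mul]
  exact mul_lt_one_of_nonneg_of_lt_one_right ((V.valuation_le_one_iff a).mpr ha) zero_le hb

/-- Congruent elements of a valuation ring have congruent powers. -/
theorem ins50_pow_sub_pow (V : ValuationSubring F) {a c : F} (ha : a ∈ V) (hc : c ∈ V)
    (hac : a - c ∈ V.nonunits) (k : ℕ) : a ^ k - c ^ k ∈ V.nonunits := by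
  induction k with
  | zero =>
    rw [pow_zero, pow_zero, sub_self, V.mem_nonunits_iff, map_zero]
    exact zero_lt_one
  | succ k ih =>
    have h : a ^ (k + 1) - c ^ (k + 1) = a * (a ^ k - c ^ k) + c ^ k * (a - c) := by ring
    rw [h]
    exact ins50_nonunits_add V (ins50_nonunits_mul V ha ih)
      (ins50_nonunits_mul V (V.pow_mem hc k) hac)

/-- **The abstract core of (3b).**  `B ⊆ V₀`, `n` a prime of `B` containing the centre
`p₀ = B ∩ m_{V₀}`; `z ∈ n` is a `q`-th power modulo `m_{V₀}`: `z ≡ x^q`, and the residue class of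
`x` or of `x⁻¹` lies in `(B/p₀)_n` (e.g. because `(B/p₀)_n` is a valuation ring of the residue
field of `V₀`).  Then `d^q z - c^q ∈ p₀` with `d ∉ n`, `c ∈ n`: `z ∈ n^q B_n + p₀ B_n`. -/
theorem ins50_insep_core (B : Subring F) (V₀ : ValuationSubring F) (hBV : ∀ b ∈ B, b ∈ V₀)
    (n : Ideal B) [n.IsPrime] (hp₀n : ∀ b : B, (b : F) ∈ V₀.nonunits → b ∈ n)
    (q : ℕ) (z : B) (hz : z ∈ n) (x : F) (hzx : (z : F) - x ^ q ∈ V₀.nonunits)
    (hval : (∃ c d : B, d ∉ n ∧ (d : F) * x - c ∈ V₀.nonunits) ∨
      (∃ c d : B, d ∉ n ∧ x ≠ 0 ∧ (d : F) * x⁻¹ - c ∈ V₀.nonunits)) :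
    ∃ c d : B, d ∉ n ∧ c ∈ n ∧ (((d ^ q * z - c ^ q : B) : B) : F) ∈ V₀.nonunits := by
  rcases hval with ⟨c, d, hd, hdx⟩ | ⟨c, d, hd, hx0, hdx⟩
  · have hcV : (c : F) ∈ V₀ := hBV _ c.2
    have hdV : (d : F) ∈ V₀ := hBV _ d.2
    have haV : (d : F) * x ∈ V₀ := by
      have h1 : (d : F) * x = ((d : F) * x - c) + c := by ring
      rw [h1]
      exact V₀.add_mem _ _ (ins50_nonunits_mem V₀ hdx) hcV
    have hpow := ins50_pow_sub_pow V₀ haV hcV hdx q
    have hmem : (((d ^ q * z - c ^ q : B) : B) : F) ∈ V₀.nonunits := by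
      have h1 : (((d ^ q * z - c ^ q : B) : B) : F) =
          (d : F) ^ q * ((z : F) - x ^ q) + (((d : F) * x) ^ q - (c : F) ^ q) := by
        push_cast
        ring
      rw [h1]
      exact ins50_nonunits_add V₀ (ins50_nonunits_mul V₀ (V₀.pow_mem hdV q) hzx) hpow
    refine ⟨c, d, hd, ?_, hmem⟩
    have h2 : d ^ q * z - c ^ q ∈ n := hp₀n _ hmem
    have h3 : c ^ q ∈ n := by
      have h4 : c ^ q = d ^ q * z - (d ^ q * z - c ^ q) := by ring
      rw [h4]
      exact n.sub_mem (n.mul_mem_left _ hz) h2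
    exact Ideal.IsPrime.mem_of_pow_mem inferInstance q h3
  · exfalso
    have hcV : (c : F) ∈ V₀ := hBV _ c.2
    have hzV : (z : F) ∈ V₀ := hBV _ z.2
    have haV : (d : F) * x⁻¹ ∈ V₀ := by
      have h1 : (d : F) * x⁻¹ = ((d : F) * x⁻¹ - c) + c := by ring
      rw [h1]
      exact V₀.add_mem _ _ (ins50_nonunits_mem V₀ hdx) hcV
    have hpow := ins50_pow_sub_pow V₀ haV hcV hdx q
    have hmem : (((c ^ q * z - d ^ q : B) : B) : F) ∈ V₀.nonunits := by
      have h1 : (((c ^ q * z - d ^ q : B) : B) : F) =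
          ((d : F) * x⁻¹) ^ q * ((z : F) - x ^ q) -
            z * (((d : F) * x⁻¹) ^ q - (c : F) ^ q) := by
        have e : ((d : F) * x⁻¹) ^ q * x ^ q = (d : F) ^ q := by
          rw [mul_pow, mul_assoc, ← mul_pow, inv_mul_cancel₀ hx0, one_pow, mul_one]
        push_cast
        linear_combination e
      rw [h1]
      exact ins50_nonunits_sub V₀ (ins50_nonunits_mul V₀ (V₀.pow_mem haV q) hzx)
        (ins50_nonunits_mul V₀ hzV hpow)
    have h2 : c ^ q * z - d ^ q ∈ n := hp₀n _ hmem
    have h3 : d ^ q ∈ n := by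
      have h4 : d ^ q = c ^ q * z - (c ^ q * z - d ^ q) := by ring
      rw [h4]
      exact n.sub_mem (n.mul_mem_left _ hz) h2
    exact hd (Ideal.IsPrime.mem_of_pow_mem inferInstance q h3)

end Core

end Fermat.Agent.S34
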