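import Mathlib
import Fermat.Agent.S18.Pack15b

/-!
# S34 lab, package P2 (helper15): saturation of charts in `W`, abstract part

`W` is (contained in) the integral closure in the big field `F` of a subring `V'` of a subfield
`F'` (in the application: `F' = F(M')`, `F = F(M)`, `M = q M'`, `V'` the Gauss valuation ring at
the good level `M'`, `W = V_∞ ⊓ V_0`).  If the integral closure `B'` of `A` in `F'` is saturated
with respect to `V'` (S18 at level `M'`), then the integral closure of `A` in `F` is saturated with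
respect to the integral closure of `V'` in `F`:

* `cm15_sat_lift` : `x ∈ F` integral over `A`, `ϖ⁻¹ x` integral over `V'` ⟹ `ϖ⁻¹ x` integral over
  `A`.  (The minimal polynomial of `ϖ⁻¹ x` over `F'` has coefficients in `V'` and in `B'[1/ϖ]`.)
* `cm15_sat_lift_hom` : the same with explicit ring homomorphisms instead of instances.
* `cm15_chart_sat` : the chart form: saturation of `pk15_chart R s` (in `F'`) w.r.t. `V'` gives
  saturation of `pk15_chart R (ι '' s)` (in `F`) w.r.t. any subring `W` of `F` all of whose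
  elements are integral over `ι(V')`.
* `cm15_sigma_mod` : an automorphism preserving a `W`-saturated ring `B ⊆ W` and trivial on
  `W / ϖ W` is trivial on `B / ϖ B`; `cm15_sigma_ideal` : it maps every ideal containing `ϖ`
  into itself.

All names are prefixed `cm15_`.
-/

set_option autoImplicit false
set_option linter.style.haveILetI false

namespace Fermat.Agent.S34

open Polynomial Fermat.Agent.S18

section abs

variable {A V F' F : Type*} [CommRing A] [CommRing V] [Field F'] [Field F]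
  [Algebra A F'] [Algebra V F'] [Algebra F' F] [Algebra A F] [Algebra V F]
  [IsScalarTower A F' F] [IsScalarTower V F' F]

/-- descending induction with the saturation hypothesis. -/
theorem cm15_desc (ϖ : F') (hϖ : ϖ ≠ 0) (V' : Subring F') (hϖV : ϖ ∈ V')
    (hsat : ∀ z : F', IsIntegral A z → ϖ⁻¹ * z ∈ V' → IsIntegral A (ϖ⁻¹ * z))
    (c : F') (hc : c ∈ V') : ∀ k : ℕ, IsIntegral A (c * ϖ ^ k) → IsIntegral A c := by
  intro k
  induction k with
  | zero => intro h; simpa using h
  | succ k ih =>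
    intro h
    apply ih
    have h1 : ϖ⁻¹ * (c * ϖ ^ (k + 1)) = c * ϖ ^ k := by
      rw [pow_succ]; field_simp
    have h2 := hsat _ h (by rw [h1]; exact V'.mul_mem hc (V'.pow_mem hϖV k))
    rwa [h1] at h2

/-- **Saturation lifts to integral closures.**  `V` is integrally closed in `F'`, the integral
closure of `A` in `F'` is saturated w.r.t. `V`; then the integral closure of `A` in `F` is
saturated w.r.t. the integral closure of `V` in `F`. -/
theorem cm15_sat_lift (ϖ : A) (hϖ : algebraMap A F' ϖ ≠ 0)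
    (hV' : ∀ z : F', IsIntegral V z → z ∈ (algebraMap V F').range)
    (hϖV : algebraMap A F' ϖ ∈ (algebraMap V F').range)
    (hsat : ∀ z : F', IsIntegral A z → (algebraMap A F' ϖ)⁻¹ * z ∈ (algebraMap V F').range →
      IsIntegral A ((algebraMap A F' ϖ)⁻¹ * z))
    (x : F) (hx : IsIntegral A x)
    (hy : IsIntegral V ((algebraMap A F ϖ)⁻¹ * x)) :
    IsIntegral A ((algebraMap A F ϖ)⁻¹ * x) := by
  set y := (algebraMap A F ϖ)⁻¹ * x with hydef
  have hyF' : IsIntegral F' y := hy.tower_top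
  set μ := minpoly F' y with hμ
  have hμm : μ.Monic := minpoly.monic hyF'
  -- Step 1: the coefficients lie in `V`
  have h1 : ∀ i, μ.coeff i ∈ (algebraMap V F').range := by
    intro i
    obtain ⟨p, hp, hpy⟩ := hy
    have hdvd : μ ∣ p.map (algebraMap V F') := by
      apply minpoly.dvd
      rw [aeval_def, eval₂_map, ← IsScalarTower.algebraMap_eq]
      exact hpy
    exact hV' _ (isIntegral_coeff_of_dvd p μ hp hμm hdvd i)
  -- Step 2: scaled coefficients are integral over `A`
  have h2 : ∀ i, IsIntegral A (μ.coeff i * (algebraMap A F' ϖ) ^ (μ.natDegree - i)) := by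
    intro i
    obtain ⟨p, hp, hpx⟩ := hx
    have hroot : aeval y (scaleRoots (p.map (algebraMap A F')) (algebraMap A F' ϖ)⁻¹) = 0 := by
      rw [aeval_def]
      have h := scaleRoots_eval₂_mul (p := p.map (algebraMap A F')) (algebraMap F' F) x
        ((algebraMap A F' ϖ)⁻¹)
      rw [map_inv₀, ← IsScalarTower.algebraMap_apply] at h
      rw [hydef, h, eval₂_map, ← IsScalarTower.algebraMap_eq, hpx, mul_zero]
    have hdvd : μ ∣ scaleRoots (p.map (algebraMap A F')) (algebraMap A F' ϖ)⁻¹ :=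
      minpoly.dvd _ _ hroot
    have hdvd2 : scaleRoots μ (algebraMap A F' ϖ) ∣ p.map (algebraMap A F') := by
      have h := scaleRoots_dvd _ _ (r := algebraMap A F' ϖ) hdvd
      rwa [← scaleRoots_mul, inv_mul_cancel₀ hϖ, scaleRoots_one] at h
    have h := isIntegral_coeff_of_dvd p _ hp ((monic_scaleRoots_iff _).mpr hμm) hdvd2 i
    rwa [coeff_scaleRoots] at h
  -- Step 3: the coefficients are integral over `A`
  have h3 : ∀ i, IsIntegral A (μ.coeff i) := fun i =>
    cm15_desc _ hϖ (algebraMap V F').range hϖV hsat _ (h1 i) _ (h2 i)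
  -- Step 4
  refine IsIntegral.of_aeval_monic_of_isIntegral_coeff (p := μ.map (algebraMap F' F))
    (hμm.map _) ?_ ?_ ?_
  · rw [natDegree_map]; exact (minpoly.natDegree_pos hyF').ne'
  · rw [eval_map, ← aeval_def, minpoly.aeval]; exact isIntegral_zero
  · intro i; rw [coeff_map]; exact (h3 i).algebraMap

end abs

section hom

variable {A V F' F : Type*} [CommRing A] [CommRing V] [Field F'] [Field F]

/-- `cm15_sat_lift` with explicit ring homomorphisms `A → F'`, `V → F'`, `F' → F`. -/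
theorem cm15_sat_lift_hom (φ : A →+* F') (ψ : V →+* F') (ι : F' →+* F) (ϖ : A) (hϖ : φ ϖ ≠ 0)
    (hV' : ∀ z : F', ψ.IsIntegralElem z → z ∈ ψ.range)
    (hϖV : φ ϖ ∈ ψ.range)
    (hsat : ∀ z : F', φ.IsIntegralElem z → (φ ϖ)⁻¹ * z ∈ ψ.range →
      φ.IsIntegralElem ((φ ϖ)⁻¹ * z))
    (x : F) (hx : (ι.comp φ).IsIntegralElem x)
    (hy : (ι.comp ψ).IsIntegralElem ((ι (φ ϖ))⁻¹ * x)) :
    (ι.comp φ).IsIntegralElem ((ι (φ ϖ))⁻¹ * x) := by
  letI i1 : Algebra A F' := φ.toAlgebra
  letI i2 : Algebra V F' := ψ.toAlgebra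
  letI i3 : Algebra F' F := ι.toAlgebra
  letI i4 : Algebra A F := (ι.comp φ).toAlgebra
  letI i5 : Algebra V F := (ι.comp ψ).toAlgebra
  haveI : IsScalarTower A F' F := IsScalarTower.of_algebraMap_eq (fun _ => rfl)
  haveI : IsScalarTower V F' F := IsScalarTower.of_algebraMap_eq (fun _ => rfl)
  exact cm15_sat_lift (A := A) (V := V) (F' := F') (F := F) ϖ hϖ hV' hϖV hsat x hx hy

end hom

section transfer

variable {R F' F : Type*} [CommRing R] [Field F'] [Field F] [Algebra R F'] [Algebra R F]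

/-- membership in the chart generated by `ι '' s`, in terms of `R[s] ⊆ F'`. -/
theorem cm15_mem_chart_image (ι : F' →ₐ[R] F) (s : Set F') (x : F) :
    x ∈ pk15_chart R (ι '' s) ↔
      (ι.toRingHom.comp (algebraMap (Algebra.adjoin R s) F')).IsIntegralElem x := by
  letI iA : Algebra (Algebra.adjoin R s) F :=
    (ι.toRingHom.comp (algebraMap (Algebra.adjoin R s) F')).toAlgebra
  have hrange : ∀ y : F, y ∈ Algebra.adjoin R (ι '' s) ↔
      y ∈ (algebraMap (Algebra.adjoin R s) F).range := by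
    intro y
    rw [Algebra.adjoin_image]
    constructor
    · rintro ⟨a, ha, rfl⟩
      exact ⟨⟨a, ha⟩, rfl⟩
    · rintro ⟨a, rfl⟩
      exact ⟨a, a.2, rfl⟩
  rw [pk15_mem_chart]
  exact (pk15_isIntegral_iff (R := R) (O := Algebra.adjoin R s) (ι '' s) hrange x).symm

/-- **Saturation of a chart in `W`, lifted from a subfield.**  `V'` is a subring of `F'`,
integrally closed in `F'`, and the chart `pk15_chart R s` of `F'` is saturated w.r.t. `V'`.  If
every element of the subring `W` of `F` is integral over `ι(V')`, then the chart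
`pk15_chart R (ι '' s)` of `F` is saturated w.r.t. `W`. -/
theorem cm15_chart_sat (ι : F' →ₐ[R] F) (π : R) (hπ0 : algebraMap R F' π ≠ 0) (s : Set F')
    (V' : Subring F') (hV' : ∀ z : F', V'.subtype.IsIntegralElem z → z ∈ V')
    (hπV : algebraMap R F' π ∈ V')
    (hsat : ∀ x ∈ pk15_chart R s, (algebraMap R F' π)⁻¹ * x ∈ V' →
      (algebraMap R F' π)⁻¹ * x ∈ pk15_chart R s)
    (W : Subring F) (hWint : ∀ y ∈ W, (ι.toRingHom.comp V'.subtype).IsIntegralElem y) :
    ∀ x ∈ pk15_chart R (ι '' s), (algebraMap R F π)⁻¹ * x ∈ W →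
      (algebraMap R F π)⁻¹ * x ∈ pk15_chart R (ι '' s) := by
  intro x hx hxW
  rw [cm15_mem_chart_image] at hx ⊢
  have hrV : V'.subtype.range = V' := Subring.range_subtype V'
  have hπeq : ι.toRingHom (algebraMap (Algebra.adjoin R s) F'
      (algebraMap R (Algebra.adjoin R s) π)) = algebraMap R F π := ι.commutes π
  have hπeq' : algebraMap (Algebra.adjoin R s) F' (algebraMap R (Algebra.adjoin R s) π) =
      algebraMap R F' π := rfl
  rw [← hπeq]
  refine cm15_sat_lift_hom (algebraMap (Algebra.adjoin R s) F') V'.subtype ι.toRingHom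
    (algebraMap R (Algebra.adjoin R s) π) (by rw [hπeq']; exact hπ0)
    (fun z hz => by rw [hrV]; exact hV' z hz) (by rw [hπeq', hrV]; exact hπV) ?_ x hx
    (by rw [hπeq]; exact hWint _ hxW)
  intro z hz hzV
  rw [hπeq', hrV] at hzV
  rw [hπeq']
  exact hsat z hz hzV

end transfer

section sigma

variable {F : Type*} [Field F]

/-- An automorphism `σ` of `F` that preserves a `W`-saturated ring `B ⊆ W` and is trivial on
`W / ϖ W` is trivial on `B / ϖ B`. -/
theorem cm15_sigma_mod (B W : Subring F) (hBW : B ≤ W) (ϖ : F)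
    (hsat : ∀ x ∈ B, ϖ⁻¹ * x ∈ W → ϖ⁻¹ * x ∈ B)
    (σ : F ≃+* F) (hσB : ∀ x ∈ B, σ x ∈ B) (hσW : ∀ y ∈ W, ϖ⁻¹ * (σ y - y) ∈ W) :
    ∀ b ∈ B, ϖ⁻¹ * (σ b - b) ∈ B := fun b hb =>
  hsat _ (B.sub_mem (hσB b hb) hb) (hσW b (hBW hb))

/-- Such an automorphism maps every ideal of `B` containing `ϖ` into itself (so it fixes every
maximal ideal of `B` over `ϖ`). -/
theorem cm15_sigma_ideal (B W : Subring F) (hBW : B ≤ W) (ϖ : F) (hϖ0 : ϖ ≠ 0) (hϖB : ϖ ∈ B)
    (hsat : ∀ x ∈ B, ϖ⁻¹ * x ∈ W → ϖ⁻¹ * x ∈ B)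
    (σ : F ≃+* F) (hσB : ∀ x ∈ B, σ x ∈ B) (hσW : ∀ y ∈ W, ϖ⁻¹ * (σ y - y) ∈ W)
    (n : Ideal B) (hn : (⟨ϖ, hϖB⟩ : B) ∈ n) (b : B) (hb : b ∈ n) :
    (⟨σ b, hσB b b.2⟩ : B) ∈ n := by
  have h1 := cm15_sigma_mod B W hBW ϖ hsat σ hσB hσW b b.2
  have h2 : (⟨σ b, hσB b b.2⟩ : B) = b + ⟨ϖ, hϖB⟩ * ⟨ϖ⁻¹ * (σ b - b), h1⟩ := by
    apply Subtype.ext
    push_cast
    field_simp
    ring
  rw [h2]
  exact n.add_mem hb (n.mul_mem_right _ hn)

end sigma

end Fermat.Agent.S34
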