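import Mathlib

/-!
# S34 lab, package P3 (helper99, twin): abstract algebra of the special fibre

Mathlib only.  All names are prefixed `na99_`.

* `na99_surj_of_integral` (step 3a): if `B` is integral over `A` (along `f : A →+* B`), `𝔭` is a
  prime of `B` lying over `I`, `A ⧸ I` is an integrally closed domain and every element of `B ⧸ 𝔭`
  is a quotient of elements of `A ⧸ I`, then `A → B ⧸ 𝔭` is surjective (so `B ⧸ 𝔭 ≃ A ⧸ I`).
* `na99_cap_eq_span` (step 3, `π B = 𝔭_∞ ∩ 𝔭_0`): for a subring `B` of a field saturated in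
  `W = V₁ ⊓ V₂`, with `𝔪_{Vᵢ} = π Vᵢ`.
* `na99_node_sum` (step 3b): in a local ring with two ideals `P`, `Q` ("branches"), if `z₁` generates
  the maximal ideal modulo `P`, and `y₁ ≡ ε z₁ ^ a (mod P)`, `z₁ ≡ ε' y₁ ^ b (mod Q)` with `a b ≥ 2`,
  then the maximal ideal is `P ⊔ Q`.
* `na99_coords` : coordinates `z ∈ Q`, `z' ∈ P` with `𝔫 = (z) ⊔ P = (z') ⊔ Q`; if moreover
  `P ⊓ Q = (π)` then `P = (z', π)`, `Q = (z, π)`, `𝔫 = (z, z', π)` and `z z' ∈ (π)`.
-/

set_option autoImplicit false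

namespace Fermat.Agent.S34

open Polynomial

section Branch

variable {A B : Type*} [CommRing A] [CommRing B]

/-- **Step 3a, abstract.**  `B` integral over `A`, `𝔭` prime of `B` over `I`, `A ⧸ I` an integrally
closed domain, and every class of `B ⧸ 𝔭` a quotient of classes from `A`: then `A → B ⧸ 𝔭` is onto. -/
theorem na99_surj_of_integral (f : A →+* B) (hf : f.IsIntegral) (I : Ideal A) [I.IsPrime]
    [IsIntegrallyClosed (A ⧸ I)] (𝔭 : Ideal B) [𝔭.IsPrime] (hI : 𝔭.comap f = I)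
    (hfrac : ∀ b : B, ∃ a a' : A, a' ∉ I ∧ f a' * b - f a ∈ 𝔭) (b : B) :
    ∃ a : A, b - f a ∈ 𝔭 := by
  classical
  -- the induced injective map `A ⧸ I → B ⧸ 𝔭`
  let g : A ⧸ I →+* B ⧸ 𝔭 := Ideal.quotientMap 𝔭 f (by rw [← hI])
  have hg : Function.Injective g := Ideal.quotientMap_injective' (by rw [hI])
  obtain ⟨a, a', ha', hab⟩ := hfrac b
  have ha'0 : (Ideal.Quotient.mk I a') ≠ 0 := by
    rwa [Ne, Ideal.Quotient.eq_zero_iff_mem]
  -- the relation `g a' * b̄ = g a`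
  have hrel : g (Ideal.Quotient.mk I a') * Ideal.Quotient.mk 𝔭 b = g (Ideal.Quotient.mk I a) := by
    have h1 : Ideal.Quotient.mk 𝔭 (f a' * b - f a) = 0 := Ideal.Quotient.eq_zero_iff_mem.mpr hab
    simp only [map_sub, map_mul, sub_eq_zero] at h1
    simpa [g, Ideal.quotientMap_mk] using h1
  -- `b̄` is integral over `A ⧸ I`
  have hbint : g.IsIntegralElem (Ideal.Quotient.mk 𝔭 b) := by
    obtain ⟨P, hPm, hP⟩ := hf b
    refine ⟨P.map (Ideal.Quotient.mk I), hPm.map _, ?_⟩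
    have h2 : Ideal.Quotient.mk 𝔭 (eval₂ f b P) = 0 := by rw [hP, map_zero]
    rw [hom_eval₂] at h2
    rw [eval₂_map]
    have h3 : g.comp (Ideal.Quotient.mk I) = (Ideal.Quotient.mk 𝔭).comp f := by
      ext x; simp [g, Ideal.quotientMap_mk]
    rw [h3]; exact h2
  -- pass to the fraction field of `A ⧸ I`
  let K := FractionRing (A ⧸ I)
  set α : A ⧸ I := Ideal.Quotient.mk I a with hα
  set α' : A ⧸ I := Ideal.Quotient.mk I a' with hα'
  set β : B ⧸ 𝔭 := Ideal.Quotient.mk 𝔭 b with hβ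
  obtain ⟨P, hPm, hP⟩ := hbint
  -- `x := α / α'` is a root of `P` in `K`
  have hx : IsIntegral (A ⧸ I) (algebraMap (A ⧸ I) K α / algebraMap (A ⧸ I) K α') := by
    refine ⟨P, hPm, ?_⟩
    have hα'K : algebraMap (A ⧸ I) K α' ≠ 0 := by
      simpa using (IsFractionRing.injective (A ⧸ I) K).ne ha'0
    -- the identity `∑ cᵢ α'^(n-i) α^i = 0` in `A ⧸ I`
    have key : ∑ i ∈ Finset.range (P.natDegree + 1),
        P.coeff i * α ^ i * α' ^ (P.natDegree - i) = 0 := by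
      apply hg
      rw [map_sum, map_zero]
      have h4 : ∀ i ∈ Finset.range (P.natDegree + 1),
          g (P.coeff i * α ^ i * α' ^ (P.natDegree - i)) =
            g α' ^ P.natDegree * (g (P.coeff i) * β ^ i) := by
        intro i hi
        have hi' : i ≤ P.natDegree := Nat.lt_succ_iff.mp (Finset.mem_range.mp hi)
        rw [map_mul, map_mul, map_pow, map_pow, ← hrel, mul_pow]
        have : g α' ^ P.natDegree = g α' ^ i * g α' ^ (P.natDegree - i) := by
          rw [← pow_add, Nat.add_sub_cancel' hi']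
        rw [this]; ring
      rw [Finset.sum_congr rfl h4, ← Finset.mul_sum]
      have h5 : ∑ i ∈ Finset.range (P.natDegree + 1), g (P.coeff i) * β ^ i = eval₂ g β P := by
        rw [eval₂_eq_sum_range]
      rw [h5, hP, mul_zero]
    have key' := congrArg (algebraMap (A ⧸ I) K) key
    rw [map_sum, map_zero] at key'
    rw [← aeval_def, aeval_eq_sum_range]
    have h6 : (algebraMap (A ⧸ I) K α') ^ P.natDegree *
        ∑ i ∈ Finset.range (P.natDegree + 1),
          P.coeff i • (algebraMap (A ⧸ I) K α / algebraMap (A ⧸ I) K α') ^ i = 0 := by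
      rw [Finset.mul_sum, ← key']
      refine Finset.sum_congr rfl fun i hi => ?_
      have hi' : i ≤ P.natDegree := Nat.lt_succ_iff.mp (Finset.mem_range.mp hi)
      rw [Algebra.smul_def, map_mul, map_mul, map_pow, map_pow, div_pow]
      have : (algebraMap (A ⧸ I) K α') ^ P.natDegree =
          (algebraMap (A ⧸ I) K α') ^ i * (algebraMap (A ⧸ I) K α') ^ (P.natDegree - i) := by
        rw [← pow_add, Nat.add_sub_cancel' hi']
      rw [this]
      have hne : (algebraMap (A ⧸ I) K α') ^ i ≠ 0 := pow_ne_zero _ hα'K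
      calc (algebraMap (A ⧸ I) K α') ^ i * (algebraMap (A ⧸ I) K α') ^ (P.natDegree - i) *
            (algebraMap (A ⧸ I) K (P.coeff i) *
              ((algebraMap (A ⧸ I) K α) ^ i / (algebraMap (A ⧸ I) K α') ^ i))
          = algebraMap (A ⧸ I) K (P.coeff i) * (algebraMap (A ⧸ I) K α) ^ i *
              (algebraMap (A ⧸ I) K α') ^ (P.natDegree - i) *
              ((algebraMap (A ⧸ I) K α') ^ i / (algebraMap (A ⧸ I) K α') ^ i) := by ring
        _ = algebraMap (A ⧸ I) K (P.coeff i) * (algebraMap (A ⧸ I) K α) ^ i *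
              (algebraMap (A ⧸ I) K α') ^ (P.natDegree - i) := by rw [div_self hne, mul_one]
    exact (mul_eq_zero.mp h6).resolve_left (pow_ne_zero _ hα'K)
  obtain ⟨c, hc⟩ := IsIntegrallyClosed.isIntegral_iff.mp hx
  -- `α = α' c` in `A ⧸ I`
  have hαc : α = α' * c := by
    apply IsFractionRing.injective (A ⧸ I) K
    have hα'K : algebraMap (A ⧸ I) K α' ≠ 0 := by
      simpa using (IsFractionRing.injective (A ⧸ I) K).ne ha'0
    rw [map_mul, hc, mul_comm, div_mul_cancel₀ _ hα'K]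
  obtain ⟨c₀, rfl⟩ := Ideal.Quotient.mk_surjective c
  refine ⟨c₀, ?_⟩
  -- `g α' * (β - g c) = 0` and `g α' ≠ 0`
  have h7 : g α' * (β - g (Ideal.Quotient.mk I c₀)) = 0 := by
    rw [mul_sub, hrel, hαc, map_mul, sub_self]
  have hgα' : g α' ≠ 0 := by
    intro h0; exact ha'0 (hg (by rw [h0, map_zero]))
  have h8 : β - g (Ideal.Quotient.mk I c₀) = 0 := (mul_eq_zero.mp h7).resolve_left hgα'
  have h9 : Ideal.Quotient.mk 𝔭 (b - f c₀) = 0 := by
    rw [map_sub]
    simpa [g, Ideal.quotientMap_mk, hβ] using h8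
  exact Ideal.Quotient.eq_zero_iff_mem.mp h9

end Branch

section Cap

variable {F : Type*} [Field F]

/-- **Step 3, `π B = 𝔭_∞ ∩ 𝔭_0`.**  `B` a subring of `F` inside two valuation rings `V₁`, `V₂` with
`𝔪_{Vᵢ} = π Vᵢ`, saturated in `W = V₁ ⊓ V₂`: an element of `B` is a non-unit of both `V₁` and `V₂`
iff it is divisible by `π` in `B`. -/
theorem na99_cap_eq_span (V₁ V₂ : ValuationSubring F) (B : Subring F) (π : F)
    (hπ0 : π ≠ 0)
    (hB₁ : ∀ x ∈ B, x ∈ V₁) (hB₂ : ∀ x ∈ B, x ∈ V₂)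
    (hπ₁ : π ∈ V₁.nonunits) (hπ₂ : π ∈ V₂.nonunits)
    (hm₁ : ∀ x ∈ V₁.nonunits, π⁻¹ * x ∈ V₁) (hm₂ : ∀ x ∈ V₂.nonunits, π⁻¹ * x ∈ V₂)
    (hsat : ∀ x ∈ B, π⁻¹ * x ∈ V₁ → π⁻¹ * x ∈ V₂ → π⁻¹ * x ∈ B)
    (x : F) (hx : x ∈ B) :
    (x ∈ V₁.nonunits ∧ x ∈ V₂.nonunits) ↔ π⁻¹ * x ∈ B := by
  constructor
  · rintro ⟨h1, h2⟩
    exact hsat x hx (hm₁ x h1) (hm₂ x h2)
  · intro h
    have hx' : x = π * (π⁻¹ * x) := by rw [← mul_assoc, mul_inv_cancel₀ hπ0, one_mul]
    have aux : ∀ V : ValuationSubring F, π ∈ V.nonunits → π⁻¹ * x ∈ V → x ∈ V.nonunits := by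
      intro V hπV hV
      rw [hx', V.mem_nonunits_iff, map_mul]
      have h1 : V.valuation π < 1 := V.mem_nonunits_iff.mp hπV
      have h2 : V.valuation (π⁻¹ * x) ≤ 1 := (V.valuation_le_one_iff _).mpr hV
      calc V.valuation π * V.valuation (π⁻¹ * x) ≤ V.valuation π * 1 :=
            mul_le_mul' le_rfl h2
        _ = V.valuation π := mul_one _
        _ < 1 := h1
    exact ⟨aux V₁ hπ₁ (hB₁ _ h), aux V₂ hπ₂ (hB₂ _ h)⟩

end Cap

section Node

variable {A : Type*} [CommRing A] [IsLocalRing A]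

open IsLocalRing

/-- **Step 3b, abstract.**  In a local ring with two ideals `P`, `Q` (the two branches), suppose `z₁`
generates the maximal ideal modulo `P`, `y₁ ≡ ε z₁ ^ a (mod P)` and `z₁ ≡ ε' y₁ ^ b (mod Q)` with
`a b ≥ 2`.  Then `z₁ ∈ P ⊔ Q` and the maximal ideal is `P ⊔ Q`. -/
theorem na99_node_sum (P Q : Ideal A) (hP : P ≤ maximalIdeal A) (hQ : Q ≤ maximalIdeal A)
    (z₁ y₁ ε ε' : A) (a b : ℕ) (hz₁ : z₁ ∈ maximalIdeal A)
    (hz : maximalIdeal A ≤ Ideal.span {z₁} ⊔ P)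
    (hy : y₁ - ε * z₁ ^ a ∈ P) (hzy : z₁ - ε' * y₁ ^ b ∈ Q) (hab : 2 ≤ a * b) :
    z₁ ∈ P ⊔ Q ∧ maximalIdeal A = P ⊔ Q := by
  have h1 : y₁ ^ b - (ε * z₁ ^ a) ^ b ∈ P := by
    obtain ⟨c, hc⟩ := sub_dvd_pow_sub_pow y₁ (ε * z₁ ^ a) b
    rw [hc]; exact P.mul_mem_right _ hy
  have h2 : z₁ - ε' * ε ^ b * z₁ ^ (a * b) ∈ P ⊔ Q := by
    have : z₁ - ε' * ε ^ b * z₁ ^ (a * b) =
        ε' * (y₁ ^ b - (ε * z₁ ^ a) ^ b) + (z₁ - ε' * y₁ ^ b) := by
      rw [mul_pow, ← pow_mul]; ring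
    rw [this]
    exact (P ⊔ Q).add_mem (Ideal.mem_sup_left (P.mul_mem_left _ h1)) (Ideal.mem_sup_right hzy)
  obtain ⟨k, hk⟩ : ∃ k, a * b = (k + 1) + 1 := ⟨a * b - 2, by omega⟩
  have h3 : z₁ - ε' * ε ^ b * z₁ ^ (a * b) = z₁ * (1 - ε' * ε ^ b * z₁ ^ (k + 1)) := by
    rw [hk, pow_succ z₁ (k + 1)]; ring
  have h4 : IsUnit (1 - ε' * ε ^ b * z₁ ^ (k + 1)) := by
    have hm : ε' * ε ^ b * z₁ ^ (k + 1) ∈ maximalIdeal A :=
      Ideal.mul_mem_left _ _ (Ideal.pow_mem_of_mem _ hz₁ _ (Nat.succ_pos k))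
    have hnot : 1 - ε' * ε ^ b * z₁ ^ (k + 1) ∉ maximalIdeal A := by
      intro h5
      have : (1 : A) ∈ maximalIdeal A := by
        have := (maximalIdeal A).add_mem h5 hm
        simp at this
      exact (Ideal.ne_top_iff_one _).mp (maximalIdeal.isMaximal A).ne_top this
    by_contra hnu
    exact hnot ((mem_maximalIdeal _).mpr hnu)
  have hz₁PQ : z₁ ∈ P ⊔ Q := by
    rw [h3] at h2
    exact ((P ⊔ Q).mul_unit_mem_iff_mem h4).mp h2
  refine ⟨hz₁PQ, le_antisymm ?_ (sup_le hP hQ)⟩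
  refine hz.trans (sup_le ?_ le_sup_left)
  rw [Ideal.span_le, Set.singleton_subset_iff]
  exact hz₁PQ

/-- **Coordinates at a node.**  If the maximal ideal is `P ⊔ Q` and `z₁` generates it modulo `P`,
there is `z ∈ Q` congruent to `z₁` modulo `P`, which still generates it modulo `P`. -/
theorem na99_coord (P Q : Ideal A) (hPQ : maximalIdeal A = P ⊔ Q) (z₁ : A)
    (hz₁ : z₁ ∈ maximalIdeal A) (hz : maximalIdeal A ≤ Ideal.span {z₁} ⊔ P) :
    ∃ z ∈ Q, z₁ - z ∈ P ∧ maximalIdeal A = Ideal.span {z} ⊔ P := by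
  rw [hPQ] at hz₁
  obtain ⟨p, hp, z, hzQ, hpz⟩ := Submodule.mem_sup.mp hz₁
  have hzP : z₁ - z ∈ P := by
    have : z₁ - z = p := by rw [← hpz]; ring
    rw [this]; exact hp
  refine ⟨z, hzQ, hzP, le_antisymm ?_ ?_⟩
  · refine hz.trans (sup_le ?_ le_sup_right)
    rw [Ideal.span_le, Set.singleton_subset_iff]
    have : z₁ = z + (z₁ - z) := by ring
    rw [this]
    exact Ideal.add_mem _ (Ideal.mem_sup_left (Ideal.subset_span rfl)) (Ideal.mem_sup_right hzP)
  · rw [hPQ]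
    refine sup_le ?_ le_sup_left
    rw [Ideal.span_le, Set.singleton_subset_iff]
    exact Ideal.mem_sup_right hzQ

/-- **The two branches in coordinates.**  If `𝔫 = P ⊔ Q`, `P ⊓ Q = (π)`, `z' ∈ P` generates `𝔫`
modulo `Q` and `z ∈ Q` generates `𝔫` modulo `P`, then `P = (z', π)`, `Q = (z, π)`,
`𝔫 = (z, z', π)` and `z z' = π c`. -/
theorem na99_coords (P Q : Ideal A) (π : A) (hπ : P ⊓ Q = Ideal.span {π})
    (z z' : A) (hzQ : z ∈ Q) (hz'P : z' ∈ P)
    (hz : maximalIdeal A = Ideal.span {z} ⊔ P) (hz' : maximalIdeal A = Ideal.span {z'} ⊔ Q) :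
    P = Ideal.span {z', π} ∧ Q = Ideal.span {z, π} ∧
      maximalIdeal A = Ideal.span {z, z', π} ∧ ∃ c : A, z * z' = π * c := by
  have hπPQ : π ∈ P ⊓ Q := by rw [hπ]; exact Ideal.subset_span rfl
  have hπP : π ∈ P := hπPQ.1
  have hπQ : π ∈ Q := hπPQ.2
  have hPm : P ≤ maximalIdeal A := by rw [hz]; exact le_sup_right
  have hQm : Q ≤ maximalIdeal A := by rw [hz']; exact le_sup_right
  -- a general principle: `X ≤ span{w} ⊔ Y`, `w ∈ X`, `X ⊓ Y = (π)` gives `X = (w, π)`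
  have key : ∀ (X Y : Ideal A) (w : A), w ∈ X → X ⊓ Y = Ideal.span {π} →
      X ≤ Ideal.span {w} ⊔ Y → X = Ideal.span {w, π} := by
    intro X Y w hw hXY hX
    have hπX : π ∈ X := by
      have : π ∈ X ⊓ Y := by rw [hXY]; exact Ideal.subset_span rfl
      exact this.1
    apply le_antisymm
    · intro x hx
      obtain ⟨s, hs, y, hy, hsy⟩ := Submodule.mem_sup.mp (hX hx)
      obtain ⟨c, rfl⟩ := Ideal.mem_span_singleton'.mp hs
      have hyX : y ∈ X := by
        have : y = x - c * w := by rw [← hsy]; ring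
        rw [this]; exact X.sub_mem hx (X.mul_mem_left _ hw)
      have hyπ : y ∈ Ideal.span {π} := by rw [← hXY]; exact ⟨hyX, hy⟩
      obtain ⟨d, rfl⟩ := Ideal.mem_span_singleton'.mp hyπ
      rw [← hsy]
      exact Ideal.add_mem _ (Ideal.mul_mem_left _ _ (Ideal.subset_span (by simp)))
        (Ideal.mul_mem_left _ _ (Ideal.subset_span (by simp)))
    · rw [Ideal.span_le]
      intro x hx
      rcases hx with rfl | rfl
      · exact hw
      · exact hπX
  have hP : P = Ideal.span {z', π} := key P Q z' hz'P hπ (hPm.trans (le_of_eq hz'))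
  have hQ : Q = Ideal.span {z, π} :=
    key Q P z hzQ (by rw [inf_comm]; exact hπ) (hQm.trans (le_of_eq hz))
  refine ⟨hP, hQ, ?_, ?_⟩
  · rw [hz]
    apply le_antisymm
    · refine sup_le ?_ ?_
      · rw [Ideal.span_le, Set.singleton_subset_iff]
        exact Ideal.subset_span (by simp)
      · rw [hP, Ideal.span_le]
        intro x hx
        rcases hx with rfl | rfl
        · exact Ideal.subset_span (by simp)
        · exact Ideal.subset_span (by simp)
    · rw [Ideal.span_le]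
      intro x hx
      rcases hx with rfl | rfl | rfl
      · exact Ideal.mem_sup_left (Ideal.subset_span rfl)
      · exact Ideal.mem_sup_right hz'P
      · exact Ideal.mem_sup_right hπP
  · have h : z * z' ∈ P ⊓ Q := ⟨P.mul_mem_left _ hz'P, Q.mul_mem_right _ hzQ⟩
    rw [hπ] at h
    obtain ⟨c, hc⟩ := Ideal.mem_span_singleton'.mp h
    exact ⟨c, by rw [← hc, mul_comm]⟩

end Node

end Fermat.Agent.S34
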