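import Mathlib
import Fermat.Agent.S34.SpecFibre79
import Fermat.Agent.S34.NodeAbs99
import Fermat.Agent.S34.LocStr63
import Fermat.Agent.S34.ChartM15

/-!
# S34 lab, P3 (3a), the `∞`-branch (helper79): abstract form

`F' ⊆ F` function fields (levels `M'` and `M = M' q`), `ι : F' →ₐ[R] F`, `V'` the Gauss valuation
ring of `F'`, `V` the one of `F` (`V' = ι⁻¹ V`), `B' = pk15_chart R s` the chart of the good
level (Dedekind special fibre, saturated in `V'`), `B = pk15_chart R (ι '' s)` the chart of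
level `M`.  If every element of `B` is congruent modulo `π V` to an element of `V'`
(residue degree one), then

* `sf79i_surj` : `B = ι(B') + p_V`, i.e. the branch `B / p_V` is the special fibre `B' / π B'`;
* `sf79i_smooth` : `sf79_Smooth π B V` (every closed point of the branch has a local
  coordinate).
-/

set_option autoImplicit false

open Polynomial

namespace Fermat.Agent.S34

open Fermat.Agent.S18

section SF79I

variable {R F' F : Type*} [CommRing R] [Field F'] [Field F] [Algebra R F'] [Algebra R F]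

/-- The image of the chart of `s` lies in the chart of `ι '' s`. -/
theorem sf79i_map_mem (ι : F' →ₐ[R] F) (s : Set F') (x : F') (hx : x ∈ pk15_chart R s) :
    ι x ∈ pk15_chart R (ι '' s) := by
  rw [cm15_mem_chart_image]
  obtain ⟨p, hp, hpx⟩ := (pk15_mem_chart s x).mp hx
  refine ⟨p, hp, ?_⟩
  have h := Polynomial.hom_eval₂ p (algebraMap (Algebra.adjoin R s) F') ι.toRingHom x
  rw [hpx, map_zero] at h
  exact h.symm

/-- The restriction of `ι` to the charts. -/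
noncomputable def sf79i_alpha (ι : F' →ₐ[R] F) (s : Set F') :
    ↥(pk15_chart R s) →+* ↥(pk15_chart R (ι '' s)) :=
  (ι.toRingHom.comp (pk15_chart R s).val.toRingHom).codRestrict
    (pk15_chart R (ι '' s)).toSubring fun x => sf79i_map_mem ι s x x.2

theorem sf79i_alpha_coe (ι : F' →ₐ[R] F) (s : Set F') (x : ↥(pk15_chart R s)) :
    ((sf79i_alpha ι s x : ↥(pk15_chart R (ι '' s))) : F) = ι (x : F') := rfl

/-- The chart of `ι '' s` is integral over the chart of `s`. -/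
theorem sf79i_alpha_isIntegral (ι : F' →ₐ[R] F) (s : Set F') : (sf79i_alpha ι s).IsIntegral := by
  intro b
  obtain ⟨p, hp, hpx⟩ := (cm15_mem_chart_image ι s (b : F)).mp b.2
  have hle : ∀ a : ↥(Algebra.adjoin R s), (a : F') ∈ pk15_chart R s := fun a =>
    (pk15_mem_chart s _).mpr isIntegral_algebraMap
  let inc : ↥(Algebra.adjoin R s) →+* ↥(pk15_chart R s) :=
    (algebraMap (Algebra.adjoin R s) F').codRestrict (pk15_chart R s).toSubring hle
  refine ⟨p.map inc, hp.map inc, ?_⟩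
  rw [Polynomial.eval₂_map]
  apply Subtype.ext
  have h := Polynomial.hom_eval₂ p ((sf79i_alpha ι s).comp inc)
    (pk15_chart R (ι '' s)).val.toRingHom b
  have h2 : (pk15_chart R (ι '' s)).val.toRingHom.comp ((sf79i_alpha ι s).comp inc) =
      ι.toRingHom.comp (algebraMap (Algebra.adjoin R s) F') := by
    ext a; rfl
  rw [h2] at h
  show (pk15_chart R (ι '' s)).val.toRingHom _ = _
  rw [h]
  exact hpx

/-- Iterated saturation. -/
theorem sf79i_sat_pow (π : R) (V' : ValuationSubring F') (s : Set F')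
    (hB'V' : ∀ x ∈ pk15_chart R s, x ∈ V')
    (hsat' : ∀ x ∈ pk15_chart R s, (algebraMap R F' π)⁻¹ * x ∈ V' →
      (algebraMap R F' π)⁻¹ * x ∈ pk15_chart R s) (k : ℕ) :
    ∀ x ∈ pk15_chart R s, (algebraMap R F' π ^ k)⁻¹ * x ∈ V' →
      (algebraMap R F' π ^ k)⁻¹ * x ∈ pk15_chart R s := by
  induction k with
  | zero => intro x hx _; simpa using hx
  | succ k ih =>
    intro x hx hxV
    by_cases hp0 : algebraMap R F' π = 0
    · rw [hp0, pow_succ, mul_zero, inv_zero, zero_mul]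
      exact (pk15_chart R s).zero_mem
    have hpV : algebraMap R F' π ∈ V' := hB'V' _ ((pk15_chart R s).algebraMap_mem π)
    have e1 : (algebraMap R F' π ^ k)⁻¹ * x =
        algebraMap R F' π * ((algebraMap R F' π ^ (k + 1))⁻¹ * x) := by
      rw [pow_succ]; field_simp
    have h1 : (algebraMap R F' π ^ k)⁻¹ * x ∈ pk15_chart R s :=
      ih x hx (by rw [e1]; exact V'.mul_mem _ _ hpV hxV)
    have e2 : (algebraMap R F' π ^ (k + 1))⁻¹ * x =
        (algebraMap R F' π)⁻¹ * ((algebraMap R F' π ^ k)⁻¹ * x) := by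
      rw [pow_succ]; field_simp
    rw [e2]
    apply hsat' _ h1
    rw [← e2]; exact hxV

/-- The branch of `V` on the chart of level `M` restricts to `π B'` on the chart of the good
level. -/
theorem sf79i_comap (ι : F' →ₐ[R] F) (π : R) (V' : ValuationSubring F') (V : ValuationSubring F)
    (hV'V : ∀ x : F', ι x ∈ V → x ∈ V') (hVV' : ∀ x ∈ V', ι x ∈ V)
    (hπV : (algebraMap R F π)⁻¹ ∉ V)
    (s : Set F')
    (hB'V' : ∀ x ∈ pk15_chart R s, x ∈ V')
    (hsat' : ∀ x ∈ pk15_chart R s, (algebraMap R F' π)⁻¹ * x ∈ V' →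
      (algebraMap R F' π)⁻¹ * x ∈ pk15_chart R s)
    (hBV : ∀ x ∈ pk15_chart R (ι '' s), x ∈ V.toSubring) :
    (sf79_br π (pk15_chart R (ι '' s)) V.toSubring hBV).comap (sf79i_alpha ι s) =
      Ideal.span {algebraMap R ↥(pk15_chart R s) π} := by
  set p : F := algebraMap R F π with hp
  set p' : F' := algebraMap R F' π with hp'
  have hιp : ι p' = p := ι.commutes π
  have hp0 : p ≠ 0 := fun h0 => hπV (by rw [h0, inv_zero]; exact V.zero_mem)
  have hp'0 : p' ≠ 0 := by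
    intro h0
    apply hp0
    rw [← hιp, h0, map_zero]
  ext a
  rw [Ideal.mem_comap, sf79_mem_br, sf79i_alpha_coe, Ideal.mem_span_singleton']
  constructor
  · intro h
    have e1 : p⁻¹ * ι (a : F') = ι (p'⁻¹ * (a : F')) := by
      rw [map_mul, map_inv₀, hιp]
    rw [e1] at h
    have h2 : p'⁻¹ * (a : F') ∈ pk15_chart R s := hsat' _ a.2 (hV'V _ h)
    refine ⟨⟨_, h2⟩, ?_⟩
    apply Subtype.ext
    show p'⁻¹ * (a : F') * p' = (a : F')
    field_simp
  · rintro ⟨c, rfl⟩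
    have e1 : p⁻¹ * ι ((c * algebraMap R ↥(pk15_chart R s) π : ↥(pk15_chart R s)) : F') =
        ι (c : F') := by
      have : ((c * algebraMap R ↥(pk15_chart R s) π : ↥(pk15_chart R s)) : F') =
          (c : F') * p' := rfl
      rw [this, map_mul, hιp]
      field_simp
    rw [e1]
    exact hVV' _ (hB'V' _ c.2)

/-- **(3a), `∞`-branch, surjectivity**: `B = ι(B') + p_V`. -/
theorem sf79i_surj (ι : F' →ₐ[R] F) (π : R) (V' : ValuationSubring F') (V : ValuationSubring F)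
    (hV'V : ∀ x : F', ι x ∈ V → x ∈ V') (hVV' : ∀ x ∈ V', ι x ∈ V)
    (hπV : (algebraMap R F π)⁻¹ ∉ V)
    (hmax : ∀ x ∈ V, x⁻¹ ∉ V → (algebraMap R F π)⁻¹ * x ∈ V)
    (harch : ∀ x : F', x ≠ 0 → ∃ k : ℕ, (algebraMap R F' π ^ k)⁻¹ * x ∉ V')
    (s : Set F')
    [hDed : IsDedekindDomain (pk15_chart R s ⧸ Ideal.span {algebraMap R (pk15_chart R s) π})]
    (hB'V' : ∀ x ∈ pk15_chart R s, x ∈ V')
    (hsat' : ∀ x ∈ pk15_chart R s, (algebraMap R F' π)⁻¹ * x ∈ V' →
      (algebraMap R F' π)⁻¹ * x ∈ pk15_chart R s)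
    (hfrac' : ∀ x : F', ∃ a ∈ pk15_chart R s, ∃ b ∈ pk15_chart R s, b ≠ 0 ∧ x * b = a)
    (hBV : ∀ x ∈ pk15_chart R (ι '' s), x ∈ V.toSubring)
    (hres : ∀ x ∈ pk15_chart R (ι '' s), ∃ b ∈ V', (algebraMap R F π)⁻¹ * (x - ι b) ∈ V)
    (x : ↥(pk15_chart R (ι '' s))) :
    ∃ a : ↥(pk15_chart R s), x - sf79i_alpha ι s a ∈ sf79_br π (pk15_chart R (ι '' s))
      V.toSubring hBV := by
  classical
  set p : F := algebraMap R F π with hp
  set p' : F' := algebraMap R F' π with hp'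
  have hιp : ι p' = p := ι.commutes π
  have hp0 : p ≠ 0 := fun h0 => hπV (by rw [h0, inv_zero]; exact V.zero_mem)
  have hp'0 : p' ≠ 0 := by
    intro h0
    apply hp0
    rw [← hιp, h0, map_zero]
  have hV : ∀ x ∈ V.toSubring, p⁻¹ * x ∉ V.toSubring → x⁻¹ ∈ V.toSubring := by
    intro x hx hx'
    by_contra hcon
    exact hx' (hmax x hx hcon)
  have hπV' : p⁻¹ ∉ V.toSubring := hπV
  have h𝔭 : (sf79_br π (pk15_chart R (ι '' s)) V.toSubring hBV).IsPrime := sf79_br_isPrime π (pk15_chart R (ι '' s)) V.toSubring hBV hπV' hV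
  set I : Ideal ↥(pk15_chart R s) := Ideal.span {algebraMap R ↥(pk15_chart R s) π} with hI
  have hIprime : I.IsPrime := (Ideal.Quotient.isDomain_iff_prime I).mp inferInstance
  have hpB' : ((algebraMap R ↥(pk15_chart R s) π : ↥(pk15_chart R s)) : F') = p' := rfl
  have hcomap : (sf79_br π (pk15_chart R (ι '' s)) V.toSubring hBV).comap (sf79i_alpha ι s) = I :=
    sf79i_comap ι π V' V hV'V hVV' hπV s hB'V' hsat' hBV
  -- fractions
  have hfr : ∀ b : ↥(pk15_chart R (ι '' s)), ∃ a a' : ↥(pk15_chart R s), a' ∉ I ∧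
      sf79i_alpha ι s a' * b - sf79i_alpha ι s a ∈ sf79_br π (pk15_chart R (ι '' s)) V.toSubring hBV := by
    intro b
    obtain ⟨v, hv, hbv⟩ := hres (b : F) b.2
    obtain ⟨a₀, ha₀, b₀, hb₀, hb₀0, hvb⟩ := hfrac' v
    have hex := harch b₀ hb₀0
    have hk0 : Nat.find hex ≠ 0 := by
      intro h0
      have h1 := Nat.find_spec hex
      apply h1
      rw [h0, pow_zero, inv_one, one_mul]
      exact hB'V' _ hb₀
    obtain ⟨m, hm⟩ := Nat.exists_eq_succ_of_ne_zero hk0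
    have hm1 : (p' ^ (m + 1))⁻¹ * b₀ ∉ V' := by
      have := Nat.find_spec hex
      rwa [hm] at this
    have hm0 : (p' ^ m)⁻¹ * b₀ ∈ V' := by
      by_contra h
      have := Nat.find_min' hex h
      omega
    have ha1B : (p' ^ m)⁻¹ * b₀ ∈ pk15_chart R s := sf79i_sat_pow π V' s hB'V' hsat' m b₀ hb₀ hm0
    have e0 : (p' ^ m)⁻¹ * a₀ = v * ((p' ^ m)⁻¹ * b₀) := by rw [← hvb]; ring
    have haB : (p' ^ m)⁻¹ * a₀ ∈ pk15_chart R s :=
      sf79i_sat_pow π V' s hB'V' hsat' m a₀ ha₀ (by rw [e0]; exact V'.mul_mem _ _ hv hm0)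
    refine ⟨⟨_, haB⟩, ⟨_, ha1B⟩, ?_, ?_⟩
    · intro hmem
      rw [hI, Ideal.mem_span_singleton'] at hmem
      obtain ⟨c, hc⟩ := hmem
      have hc' : (c : F') * p' = (p' ^ m)⁻¹ * b₀ := congrArg Subtype.val hc
      apply hm1
      have e1 : (p' ^ (m + 1))⁻¹ * b₀ = (c : F') := by
        have : (p' ^ (m + 1))⁻¹ * b₀ = p'⁻¹ * ((p' ^ m)⁻¹ * b₀) := by
          rw [pow_succ]; field_simp
        rw [this, ← hc']
        field_simp
      rw [e1]
      exact hB'V' _ c.2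
    · rw [sf79_mem_br]
      have e1 : p⁻¹ * (((sf79i_alpha ι s ⟨_, ha1B⟩ * b - sf79i_alpha ι s ⟨_, haB⟩ : ↥(pk15_chart R (ι '' s))) : ↥(pk15_chart R (ι '' s))) : F) =
          ι ((p' ^ m)⁻¹ * b₀) * (p⁻¹ * ((b : F) - ι v)) := by
        have : (((sf79i_alpha ι s ⟨_, ha1B⟩ * b - sf79i_alpha ι s ⟨_, haB⟩ : ↥(pk15_chart R (ι '' s))) : ↥(pk15_chart R (ι '' s))) : F) =
            ι ((p' ^ m)⁻¹ * b₀) * (b : F) - ι ((p' ^ m)⁻¹ * a₀) := rfl
        have e3 : ι ((p' ^ m)⁻¹ * a₀) = ι v * ι ((p' ^ m)⁻¹ * b₀) := by rw [e0, map_mul]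
        rw [this, e3]
        ring
      rw [e1]
      exact V.mul_mem _ _ (hVV' _ hm0) hbv
  exact na99_surj_of_integral (sf79i_alpha ι s) (sf79i_alpha_isIntegral ι s) I
    (sf79_br π (pk15_chart R (ι '' s)) V.toSubring hBV) hcomap hfr x

/-- **(3a), `∞`-branch**: every closed point of the branch `V` on the chart of level `M` has a
local coordinate coming from the chart of the good level. -/
theorem sf79i_unif_from (ι : F' →ₐ[R] F) (π : R) (V' : ValuationSubring F')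
    (V : ValuationSubring F)
    (hV'V : ∀ x : F', ι x ∈ V → x ∈ V') (hVV' : ∀ x ∈ V', ι x ∈ V)
    (hπV : (algebraMap R F π)⁻¹ ∉ V)
    (hmax : ∀ x ∈ V, x⁻¹ ∉ V → (algebraMap R F π)⁻¹ * x ∈ V)
    (harch : ∀ x : F', x ≠ 0 → ∃ k : ℕ, (algebraMap R F' π ^ k)⁻¹ * x ∉ V')
    (s : Set F')
    [hDed : IsDedekindDomain (pk15_chart R s ⧸ Ideal.span {algebraMap R (pk15_chart R s) π})]
    (hB'V' : ∀ x ∈ pk15_chart R s, x ∈ V')
    (hsat' : ∀ x ∈ pk15_chart R s, (algebraMap R F' π)⁻¹ * x ∈ V' →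
      (algebraMap R F' π)⁻¹ * x ∈ pk15_chart R s)
    (hfrac' : ∀ x : F', ∃ a ∈ pk15_chart R s, ∃ b ∈ pk15_chart R s, b ≠ 0 ∧ x * b = a)
    (hBV : ∀ x ∈ pk15_chart R (ι '' s), x ∈ V.toSubring)
    (hres : ∀ x ∈ pk15_chart R (ι '' s), ∃ b ∈ V', (algebraMap R F π)⁻¹ * (x - ι b) ∈ V)
    (n : Ideal ↥(pk15_chart R (ι '' s))) [hn : n.IsPrime]
    (hOn : sf79_OnBr π (pk15_chart R (ι '' s)) V.toSubring n) :
    ∃ z' : ↥(pk15_chart R s),
      sf79_Unif π (pk15_chart R (ι '' s)) V.toSubring n (sf79i_alpha ι s z') := by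
  have hsurj := sf79i_surj ι π V' V hV'V hVV' hπV hmax harch s hB'V' hsat' hfrac' hBV hres
  have hcomap := sf79i_comap ι π V' V hV'V hVV' hπV s hB'V' hsat' hBV
  have hPn : sf79_br π (pk15_chart R (ι '' s)) V.toSubring hBV ≤ n := fun x hx => hOn x hx
  obtain ⟨z, hz, hgen⟩ := ls63_unif_of_dedekind_transfer (sf79i_alpha ι s)
    (sf79_br π (pk15_chart R (ι '' s)) V.toSubring hBV) hsurj _ hcomap n hPn
  obtain ⟨z', hz'⟩ := hsurj z
  refine ⟨z', ?_, ?_⟩
  · have h1 : sf79i_alpha ι s z' = z - (z - sf79i_alpha ι s z') := by ring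
    rw [h1]
    exact n.sub_mem hz (hPn hz')
  · intro x hx
    obtain ⟨t, ht, a, ha⟩ := hgen x hx
    refine ⟨t, ht, a, ?_⟩
    have h2 : t * x - a * sf79i_alpha ι s z' ∈
        sf79_br π (pk15_chart R (ι '' s)) V.toSubring hBV := by
      have e : t * x - a * sf79i_alpha ι s z' = (t * x - a * z) + a * (z - sf79i_alpha ι s z') := by
        ring
      rw [e]
      exact Ideal.add_mem _ ha (Ideal.mul_mem_left _ _ hz')
    exact h2

/-- **(3a), `∞`-branch, in the shape of `sf79_Smooth`.** -/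
theorem sf79i_smooth (ι : F' →ₐ[R] F) (π : R) (V' : ValuationSubring F') (V : ValuationSubring F)
    (hV'V : ∀ x : F', ι x ∈ V → x ∈ V') (hVV' : ∀ x ∈ V', ι x ∈ V)
    (hπV : (algebraMap R F π)⁻¹ ∉ V)
    (hmax : ∀ x ∈ V, x⁻¹ ∉ V → (algebraMap R F π)⁻¹ * x ∈ V)
    (harch : ∀ x : F', x ≠ 0 → ∃ k : ℕ, (algebraMap R F' π ^ k)⁻¹ * x ∉ V')
    (s : Set F')
    [hDed : IsDedekindDomain (pk15_chart R s ⧸ Ideal.span {algebraMap R (pk15_chart R s) π})]
    (hB'V' : ∀ x ∈ pk15_chart R s, x ∈ V')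
    (hsat' : ∀ x ∈ pk15_chart R s, (algebraMap R F' π)⁻¹ * x ∈ V' →
      (algebraMap R F' π)⁻¹ * x ∈ pk15_chart R s)
    (hfrac' : ∀ x : F', ∃ a ∈ pk15_chart R s, ∃ b ∈ pk15_chart R s, b ≠ 0 ∧ x * b = a)
    (hBV : ∀ x ∈ pk15_chart R (ι '' s), x ∈ V.toSubring)
    (hres : ∀ x ∈ pk15_chart R (ι '' s), ∃ b ∈ V', (algebraMap R F π)⁻¹ * (x - ι b) ∈ V) :
    sf79_Smooth π (pk15_chart R (ι '' s)) V.toSubring := by
  intro n hn _ hOn
  have hnp : n.IsPrime := hn.isPrime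
  obtain ⟨z', hz'⟩ := sf79i_unif_from ι π V' V hV'V hVV' hπV hmax harch s hB'V' hsat' hfrac' hBV
    hres n hOn
  exact ⟨_, hz'⟩

end SF79I

end Fermat.Agent.S34
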