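import Mathlib

/-!
# S34 lab, row P3b-insep (helper50), part 3: transversality of the two branches at a node
(`n B_n = p_∞ B_n + p_0 B_n`), abstract, Mathlib only

* `tr50_sq_of_frob` : in a noetherian local domain with principal maximal ideal, `a^q = b^q z`,
  `b ≠ 0`, `z` a nonunit, `q ≥ 2` imply `z ∈ 𝔪²`.
* `tr50_nak` : `𝔪 ≤ (z) + P`, `z ∈ 𝔪² + Q` give `𝔪 = P + Q` (Nakayama).
* `tr50_local` : a noetherian local ring `A`, ideals `P`, `Q ≤ 𝔪`, `Q` prime; `z` generates `𝔪`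
  modulo `P`, `z₀` generates `𝔪` modulo `Q`, and `b^q z ≡ a^q` modulo `Q` with `b ∉ Q`
  (pure inseparability on the `Q`-branch).  Then `𝔪 = P + Q`.
* `tr50_core` : the same on a commutative noetherian ring `B` at a prime `n`, denominator-free
  (through `Localization.AtPrime n`).

The chart form (literal shapes of `SpecFibre79.lean`) is in `TransvChart50.lean`.
-/

set_option autoImplicit false
set_option linter.style.haveILetI false

namespace Fermat.Agent.S34

open IsLocalRing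

section Local

/-- In a noetherian local domain with principal maximal ideal: `a^q = b^q z`, `b ≠ 0`, `z` a
nonunit, `q ≥ 2` imply `z ∈ 𝔪²`. -/
theorem tr50_sq_of_frob {D : Type*} [CommRing D] [IsDomain D] [IsLocalRing D] [IsNoetherianRing D]
    (z₀ : D) (hz₀ : maximalIdeal D = Ideal.span {z₀}) (a b z : D) (hb : b ≠ 0)
    (hz : z ∈ maximalIdeal D) (q : ℕ) (hq : 2 ≤ q) (h : a ^ q = b ^ q * z) :
    z ∈ maximalIdeal D ^ 2 := by
  by_cases hF : IsField D
  · have h0 : maximalIdeal D = ⊥ := IsLocalRing.isField_iff_maximalIdeal_eq.mp hF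
    rw [h0] at hz
    rw [Ideal.mem_bot.mp hz]
    exact Ideal.zero_mem _
  · have hprin : (maximalIdeal D).IsPrincipal := ⟨⟨z₀, hz₀⟩⟩
    have hval : ValuationRing D := ((IsDiscreteValuationRing.TFAE D hF).out 4 1).mp hprin
    obtain ⟨c, hc | hc⟩ := ValuationRing.cond a b
    · -- `b = a c`: then `z` is a unit
      exfalso
      have ha : a ≠ 0 := by
        rintro rfl
        rw [zero_mul] at hc
        exact hb hc.symm
      have h1 : a ^ q * 1 = a ^ q * (c ^ q * z) := by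
        rw [mul_one, ← mul_assoc, ← mul_pow, hc]
        exact h
      have h2 : 1 = c ^ q * z := mul_left_cancel₀ (pow_ne_zero q ha) h1
      have hu : IsUnit z := IsUnit.of_mul_eq_one _ (by rw [mul_comm]; exact h2.symm)
      exact (IsLocalRing.mem_maximalIdeal z).mp hz hu
    · -- `a = b c`: then `z = c ^ q`
      have h1 : b ^ q * c ^ q = b ^ q * z := by rw [← mul_pow, hc]; exact h
      have h2 : c ^ q = z := mul_left_cancel₀ (pow_ne_zero q hb) h1
      have hcm : c ∈ maximalIdeal D := by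
        rw [IsLocalRing.mem_maximalIdeal]
        intro hu
        exact (IsLocalRing.mem_maximalIdeal z).mp hz (h2 ▸ hu.pow q)
      rw [← h2]
      exact Ideal.pow_le_pow_right hq (Ideal.pow_mem_pow hcm q)

/-- Nakayama step: `𝔪 ≤ (z) + P` and `z ∈ 𝔪² + Q` give `𝔪 = P + Q`. -/
theorem tr50_nak {A : Type*} [CommRing A] [IsLocalRing A] [IsNoetherianRing A]
    (P Q : Ideal A) (hP : P ≤ maximalIdeal A) (hQ : Q ≤ maximalIdeal A) (z : A)
    (hz : maximalIdeal A ≤ Ideal.span {z} ⊔ P)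
    (hzQ : z ∈ maximalIdeal A ^ 2 ⊔ Q) :
    maximalIdeal A = P ⊔ Q := by
  apply le_antisymm _ (sup_le hP hQ)
  have hfg : (maximalIdeal A).FG := IsNoetherian.noetherian _
  have hjac : maximalIdeal A ≤ Ideal.jacobson ⊥ := by
    rw [IsLocalRing.jacobson_eq_maximalIdeal ⊥ bot_ne_top]
  refine Submodule.le_of_le_smul_of_le_jacobson_bot hfg hjac ?_
  refine hz.trans (sup_le ?_ (le_sup_left.trans le_sup_left))
  rw [Ideal.span_singleton_le_iff_mem]
  have h2 : maximalIdeal A ^ 2 ⊔ Q ≤ P ⊔ Q ⊔ maximalIdeal A • maximalIdeal A := by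
    refine sup_le ?_ (le_sup_right.trans le_sup_left)
    rw [pow_two, smul_eq_mul]
    exact le_sup_right
  exact h2 hzQ

/-- **Transversality, local form.**  `A` noetherian local, `P, Q ≤ 𝔪`, `Q` prime, `z` generates
`𝔪` modulo `P`, `z₀ ∈ 𝔪` generates `𝔪` modulo `Q`, `b ^ q * z - a ^ q ∈ Q` with `b ∉ Q`, `q ≥ 2`.
Then `𝔪 = P + Q`. -/
theorem tr50_local {A : Type*} [CommRing A] [IsLocalRing A] [IsNoetherianRing A]
    (P Q : Ideal A) [hQp : Q.IsPrime] (hP : P ≤ maximalIdeal A) (hQ : Q ≤ maximalIdeal A)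
    (z z₀ a b : A) (hzm : z ∈ maximalIdeal A) (hz₀m : z₀ ∈ maximalIdeal A)
    (hz : maximalIdeal A ≤ Ideal.span {z} ⊔ P)
    (hz₀ : maximalIdeal A ≤ Ideal.span {z₀} ⊔ Q)
    (q : ℕ) (hq : 2 ≤ q) (hb : b ∉ Q) (hfrob : b ^ q * z - a ^ q ∈ Q) :
    maximalIdeal A = P ⊔ Q := by
  refine tr50_nak P Q hP hQ z hz ?_
  -- the domain `D = A / Q`
  let mk : A →+* A ⧸ Q := Ideal.Quotient.mk Q
  have hsurj : Function.Surjective mk := Ideal.Quotient.mk_surjective
  haveI : IsLocalRing (A ⧸ Q) := IsLocalRing.of_surjective' mk hsurj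
  -- nonunits of `D` come from `𝔪`
  have hnonunit : ∀ x : A, x ∈ maximalIdeal A → mk x ∈ maximalIdeal (A ⧸ Q) := by
    intro x hx
    rw [IsLocalRing.mem_maximalIdeal]
    intro hu
    obtain ⟨y, hy⟩ := hu.exists_right_inv
    obtain ⟨y', rfl⟩ := hsurj y
    have h1 : x * y' - 1 ∈ Q := by
      rw [← Ideal.Quotient.eq_zero_iff_mem, map_sub, map_mul, map_one]
      exact sub_eq_zero.mpr hy
    have h2 : (1 : A) ∈ maximalIdeal A := by
      have h3 : (1 : A) = x * y' - (x * y' - 1) := by ring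
      rw [h3]
      exact (maximalIdeal A).sub_mem ((maximalIdeal A).mul_mem_right _ hx) (hQ h1)
    exact (Ideal.ne_top_iff_one _).mp (IsLocalRing.maximalIdeal.isMaximal A).ne_top h2
  have hmD : maximalIdeal (A ⧸ Q) = Ideal.span {mk z₀} := by
    apply le_antisymm
    · intro d hd
      obtain ⟨x, rfl⟩ := hsurj d
      have hx : x ∈ maximalIdeal A := by
        rw [IsLocalRing.mem_maximalIdeal]
        intro hu
        exact (IsLocalRing.mem_maximalIdeal _).mp hd (hu.map mk)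
      have h1 := hz₀ hx
      rw [Submodule.mem_sup] at h1
      obtain ⟨y, hy, r, hr, hyr⟩ := h1
      obtain ⟨c, rfl⟩ := Ideal.mem_span_singleton'.mp hy
      rw [Ideal.mem_span_singleton']
      refine ⟨mk c, ?_⟩
      rw [← hyr, map_add, map_mul, Ideal.Quotient.eq_zero_iff_mem.mpr hr, add_zero]
    · rw [Ideal.span_singleton_le_iff_mem]
      exact hnonunit z₀ hz₀m
  have hb' : mk b ≠ 0 := fun h0 => hb (Ideal.Quotient.eq_zero_iff_mem.mp h0)
  have hrel : mk a ^ q = mk b ^ q * mk z := by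
    have h1 : mk (b ^ q * z - a ^ q) = 0 := Ideal.Quotient.eq_zero_iff_mem.mpr hfrob
    rw [map_sub, map_mul, map_pow, map_pow, sub_eq_zero] at h1
    exact h1.symm
  have hsq := tr50_sq_of_frob (mk z₀) hmD (mk a) (mk b) (mk z) hb' (hnonunit z hzm) q hq hrel
  rw [hmD, Ideal.span_singleton_pow, Ideal.mem_span_singleton'] at hsq
  obtain ⟨c, hc⟩ := hsq
  obtain ⟨c', rfl⟩ := hsurj c
  have h1 : z - c' * z₀ ^ 2 ∈ Q := by
    rw [← Ideal.Quotient.eq_zero_iff_mem, map_sub, map_mul, map_pow]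
    exact sub_eq_zero.mpr hc.symm
  have h2 : z = c' * z₀ ^ 2 + (z - c' * z₀ ^ 2) := by ring
  rw [h2]
  exact Submodule.add_mem_sup (Ideal.mul_mem_left _ _ (Ideal.pow_mem_pow hz₀m 2)) h1

end Local

section Core

/-- **Transversality at a prime, denominator-free.**  `B` noetherian, `n` prime, `p₁ p₂ ≤ n`,
`p₂` prime; `z` generates `n B_n` modulo `p₁`, `z₀` generates `n B_n` modulo `p₂`, and
`b ^ q * z - a ^ q ∈ p₂` with `b ∉ p₂`, `q ≥ 2`.  Then `n B_n = p₁ B_n + p₂ B_n`. -/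
theorem tr50_core {B : Type*} [CommRing B] [IsNoetherianRing B] (n p₁ p₂ : Ideal B)
    [hn : n.IsPrime] (hp₂ : p₂.IsPrime) (h₁ : p₁ ≤ n) (h₂ : p₂ ≤ n) (z z₀ a b : B)
    (hz : z ∈ n) (hz₀ : z₀ ∈ n)
    (hu₁ : ∀ x ∈ n, ∃ s : B, s ∉ n ∧ ∃ c : B, s * x - c * z ∈ p₁)
    (hu₂ : ∀ x ∈ n, ∃ s : B, s ∉ n ∧ ∃ c : B, s * x - c * z₀ ∈ p₂)
    (q : ℕ) (hq : 2 ≤ q) (hb : b ∉ p₂) (hfrob : b ^ q * z - a ^ q ∈ p₂) :
    ∀ x ∈ n, ∃ s : B, s ∉ n ∧ ∃ y ∈ p₁, ∃ y' ∈ p₂, s * x = y + y' := by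
  let A := Localization.AtPrime n
  let f : B →+* A := algebraMap B A
  have hmax : Ideal.map f n = maximalIdeal A := Localization.AtPrime.map_eq_maximalIdeal
  have hdisj : Disjoint (n.primeCompl : Set B) (p₂ : Set B) := by
    rw [Set.disjoint_left]
    intro x hx hx2
    exact hx (h₂ hx2)
  haveI hQp : (Ideal.map f p₂).IsPrime :=
    IsLocalization.isPrime_of_isPrime_disjoint n.primeCompl A p₂ hp₂ hdisj
  have hP : Ideal.map f p₁ ≤ maximalIdeal A := by rw [← hmax]; exact Ideal.map_mono h₁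
  have hQ : Ideal.map f p₂ ≤ maximalIdeal A := by rw [← hmax]; exact Ideal.map_mono h₂
  have hmem : ∀ x ∈ n, f x ∈ maximalIdeal A := fun x hx => by
    rw [← hmax]; exact Ideal.mem_map_of_mem f hx
  -- generation statements pass to the localisation
  have hgen : ∀ (p : Ideal B) (ζ : B),
      (∀ x ∈ n, ∃ s : B, s ∉ n ∧ ∃ c : B, s * x - c * ζ ∈ p) →
      maximalIdeal A ≤ Ideal.span {f ζ} ⊔ Ideal.map f p := by
    intro p ζ hu y hy
    rw [← hmax, IsLocalization.mem_map_algebraMap_iff n.primeCompl A] at hy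
    obtain ⟨⟨x, t⟩, hxt⟩ := hy
    obtain ⟨s, hs, c, hc⟩ := hu x x.2
    have hunit : IsUnit (f (t : B) * f s) :=
      (IsLocalization.map_units A t).mul (IsLocalization.map_units A (⟨s, hs⟩ : n.primeCompl))
    rw [← Ideal.mul_unit_mem_iff_mem _ hunit]
    have e : y * (f (t : B) * f s) = f c * f ζ + f (s * x - c * ζ) := by
      have e1 : y * f (t : B) = f (x : B) := hxt
      rw [← mul_assoc, e1, map_sub, map_mul, map_mul]
      ring
    rw [e]
    exact Submodule.add_mem_sup (Ideal.mem_span_singleton'.mpr ⟨f c, rfl⟩)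
      (Ideal.mem_map_of_mem f hc)
  have hbQ : f b ∉ Ideal.map f p₂ := by
    intro hmem'
    have h1 : b ∈ Ideal.under B (Ideal.map f p₂) := hmem'
    rw [IsLocalization.under_map_of_isPrime_disjoint n.primeCompl A hp₂ hdisj] at h1
    exact hb h1
  have hfrobA : f b ^ q * f z - f a ^ q ∈ Ideal.map f p₂ := by
    have h1 := Ideal.mem_map_of_mem f hfrob
    rwa [map_sub, map_mul, map_pow, map_pow] at h1
  have hmain := tr50_local (Ideal.map f p₁) (Ideal.map f p₂) hP hQ (f z) (f z₀) (f a) (f b)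
    (hmem z hz) (hmem z₀ hz₀) (hgen p₁ z hu₁) (hgen p₂ z₀ hu₂) q hq hbQ hfrobA
  rw [← Ideal.map_sup] at hmain
  intro x hx
  have h1 : f x ∈ Ideal.map f (p₁ ⊔ p₂) := by rw [← hmain]; exact hmem x hx
  rw [IsLocalization.mem_map_algebraMap_iff n.primeCompl A] at h1
  obtain ⟨⟨y, t⟩, hyt⟩ := h1
  have h2 : f (x * (t : B)) = f (y : B) := by rw [map_mul]; exact hyt
  obtain ⟨c, hc⟩ := (IsLocalization.eq_iff_exists n.primeCompl A).mp h2
  have h3 : (c : B) * (y : B) ∈ p₁ ⊔ p₂ := Ideal.mul_mem_left _ _ y.2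
  obtain ⟨y₁, hy₁, y₂, hy₂, hsum⟩ := Submodule.mem_sup.mp h3
  refine ⟨(c : B) * (t : B), ?_, y₁, hy₁, y₂, hy₂, ?_⟩
  · exact fun hmem' => (hn.mem_or_mem hmem').elim c.2 t.2
  · rw [hsum, ← hc]; ring

end Core

end Fermat.Agent.S34
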