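import Mathlib
import Fermat.Agent.S34.SpecFibre79
import Fermat.Agent.S34.Transv50

/-!
# S34 lab, row P3b-insep (helper50), part 4: `sf79_Transv` (3b) in the literal chart shapes

`B` a noetherian chart (a subalgebra of the field `F`), `V₁ V₂` the two valuation rings (as
subrings of `F`), `π` the uniformiser of the base, `π' := (algebraMap R F π)⁻¹`.

* `tr50_transv` : `sf79_Smooth π B V₁` + `sf79_Smooth π B V₂` + the Frobenius hypothesis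
  `hins : ∀ x : B, ∃ y : B, π' (x - y) ∈ V₁ ∧ ∃ a b : B, π' b ∉ V₂ ∧ π' (b ^ q y - a ^ q) ∈ V₂`
  (`q ≥ 2`) give the LITERAL `sf79_Transv π B V₁ V₂`.
* `tr50_hins` : `hins` from the level-lowering data: ring homs `α β : F' → F`, a lower chart
  `B' ⊆ V'` with `α B' ⊆ B`, a set `C` of `F'` with `β C ⊆ B`, `β V' ⊆ V₂`,
  (3a)-surjectivity `∀ x : B, ∃ x' ∈ B', π' (x - α x') ∈ V₁`, pure inseparability
  `∀ x ∈ V', ∃ x₁ ∈ V', π' (α x - (β x₁) ^ q) ∈ V₂` (`ins50_frob_Vzero`), and fractions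
  `∀ x ∈ V', ∃ a c ∈ C, c⁻¹ ∈ V' ∧ c ≠ 0 ∧ c x = a`.
* `tr50_frac_of_sat` : the fraction hypothesis from saturation of a chart `C` in `V'`:
  `V' = C_(ϖ)`.
-/

set_option autoImplicit false

namespace Fermat.Agent.S34

section TC50

variable {R F : Type*} [CommRing R] [Field F] [Algebra R F]

/-- **(3b), chart form.**  Smoothness of the two branches and pure inseparability on the second
branch (for one representative modulo the first branch of every element of `B`) give the literal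
transversality statement `sf79_Transv π B V₁ V₂`. -/
theorem tr50_transv (π : R) (B : Subalgebra R F) [IsNoetherianRing B] (V₁ V₂ : Subring F)
    (hB₁ : ∀ x ∈ B, x ∈ V₁) (hB₂ : ∀ x ∈ B, x ∈ V₂)
    (hπ₂ : (algebraMap R F π)⁻¹ ∉ V₂)
    (hV₂ : ∀ x ∈ V₂, (algebraMap R F π)⁻¹ * x ∉ V₂ → x⁻¹ ∈ V₂)
    (hS₁ : sf79_Smooth π B V₁) (hS₂ : sf79_Smooth π B V₂)
    (q : ℕ) (hq : 2 ≤ q)
    (hins : ∀ x : B, ∃ y : B, (algebraMap R F π)⁻¹ * ((x : F) - (y : F)) ∈ V₁ ∧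
      ∃ a b : B, (algebraMap R F π)⁻¹ * (b : F) ∉ V₂ ∧
        (algebraMap R F π)⁻¹ * ((b : F) ^ q * (y : F) - (a : F) ^ q) ∈ V₂) :
    sf79_Transv π B V₁ V₂ := by
  intro n hn hπn h1 h2
  have hnp : n.IsPrime := hn.isPrime
  have hp₂p : (sf79_br π B V₂ hB₂).IsPrime := sf79_br_isPrime π B V₂ hB₂ hπ₂ hV₂
  have h₁ : sf79_br π B V₁ hB₁ ≤ n := fun x hx => h1 x hx
  have h₂ : sf79_br π B V₂ hB₂ ≤ n := fun x hx => h2 x hx
  obtain ⟨z₁, hz₁n, hz₁⟩ := hS₁ n hn hπn h1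
  obtain ⟨z₂, hz₂n, hz₂⟩ := hS₂ n hn hπn h2
  obtain ⟨y, hy, a, b, hb, hfrob⟩ := hins z₁
  have hzy : z₁ - y ∈ sf79_br π B V₁ hB₁ := by
    rw [sf79_mem_br]
    push_cast
    exact hy
  have hyn : y ∈ n := by
    have h4 : y = z₁ - (z₁ - y) := by ring
    rw [h4]
    exact n.sub_mem hz₁n (h₁ hzy)
  have hu₁ : ∀ x ∈ n, ∃ s : B, s ∉ n ∧ ∃ c : B, s * x - c * y ∈ sf79_br π B V₁ hB₁ := by
    intro x hx
    obtain ⟨s, hs, c, hc⟩ := hz₁ x hx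
    refine ⟨s, hs, c, ?_⟩
    have h3 : s * x - c * y = (s * x - c * z₁) + c * (z₁ - y) := by ring
    rw [h3]
    refine (sf79_br π B V₁ hB₁).add_mem ?_ ((sf79_br π B V₁ hB₁).mul_mem_left c hzy)
    rw [sf79_mem_br]
    push_cast
    exact hc
  have hu₂ : ∀ x ∈ n, ∃ s : B, s ∉ n ∧ ∃ c : B, s * x - c * z₂ ∈ sf79_br π B V₂ hB₂ := by
    intro x hx
    obtain ⟨s, hs, c, hc⟩ := hz₂ x hx
    refine ⟨s, hs, c, ?_⟩
    rw [sf79_mem_br]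
    push_cast
    exact hc
  have hbp : b ∉ sf79_br π B V₂ hB₂ := hb
  have hfr : b ^ q * y - a ^ q ∈ sf79_br π B V₂ hB₂ := by
    rw [sf79_mem_br]
    push_cast
    exact hfrob
  intro x hx
  obtain ⟨s, hs, y₁, hy₁, y₂, hy₂, e⟩ :=
    tr50_core n (sf79_br π B V₁ hB₁) (sf79_br π B V₂ hB₂) hp₂p h₁ h₂ y z₂ a b hyn hz₂n hu₁ hu₂
      q hq hbp hfr x hx
  exact ⟨s, hs, y₁, y₂, e, hy₁, hy₂⟩

/-- **The Frobenius hypothesis of `tr50_transv` from the level-lowering data.** -/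
theorem tr50_hins {F' : Type*} [Field F'] (π : R) (B : Subalgebra R F) (V₁ V₂ : Subring F)
    (hB₂ : ∀ x ∈ B, x ∈ V₂) (hπ₂ : (algebraMap R F π)⁻¹ ∉ V₂)
    (α β : F' →+* F) (B' V' : Subring F') (C : Set F')
    (hαB : ∀ x ∈ B', α x ∈ B) (hB'V' : ∀ x ∈ B', x ∈ V')
    (hβC : ∀ x ∈ C, β x ∈ B) (hβV : ∀ x ∈ V', β x ∈ V₂) (q : ℕ)
    (hsurj : ∀ x : B, ∃ x' ∈ B', (algebraMap R F π)⁻¹ * ((x : F) - α x') ∈ V₁)
    (hfrob : ∀ x ∈ V', ∃ x₁ ∈ V', (algebraMap R F π)⁻¹ * (α x - β x₁ ^ q) ∈ V₂)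
    (hfrac : ∀ x ∈ V', ∃ a ∈ C, ∃ c ∈ C, c⁻¹ ∈ V' ∧ c ≠ 0 ∧ c * x = a) :
    ∀ x : B, ∃ y : B, (algebraMap R F π)⁻¹ * ((x : F) - (y : F)) ∈ V₁ ∧
      ∃ a b : B, (algebraMap R F π)⁻¹ * (b : F) ∉ V₂ ∧
        (algebraMap R F π)⁻¹ * ((b : F) ^ q * (y : F) - (a : F) ^ q) ∈ V₂ := by
  intro x
  obtain ⟨x', hx'B, hx'⟩ := hsurj x
  obtain ⟨x₁, hx₁V, hx₁⟩ := hfrob x' (hB'V' x' hx'B)
  obtain ⟨a, haC, c, hcC, hcinv, hc0, hca⟩ := hfrac x₁ hx₁V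
  refine ⟨⟨α x', hαB x' hx'B⟩, hx', ⟨β a, hβC a haC⟩, ⟨β c, hβC c hcC⟩, ?_, ?_⟩
  · intro hmem
    apply hπ₂
    have h1 : (algebraMap R F π)⁻¹ = (algebraMap R F π)⁻¹ * β c * β c⁻¹ := by
      rw [mul_assoc, ← map_mul, mul_inv_cancel₀ hc0, map_one, mul_one]
    rw [h1]
    exact V₂.mul_mem hmem (hβV _ hcinv)
  · have h1 : (algebraMap R F π)⁻¹ * (β c ^ q * α x' - β a ^ q) =
        β c ^ q * ((algebraMap R F π)⁻¹ * (α x' - β x₁ ^ q)) := by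
      rw [← hca, map_mul]
      ring
    show (algebraMap R F π)⁻¹ * (β c ^ q * α x' - β a ^ q) ∈ V₂
    rw [h1]
    exact V₂.mul_mem (V₂.pow_mem (hB₂ _ (hβC c hcC)) q) hx₁

end TC50

section Frac50

/-- **`V' = C_(ϖ)`**: a subring `C ⊆ V'` with fraction field `F'`, saturated in `V'` with respect
to `ϖ`, where `V'` is "discrete with uniformiser `ϖ`" (`hmax`, `harch`).  Every `x ∈ V'` is
`a / c` with `a, c ∈ C` and `c` a unit of `V'`. -/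
theorem tr50_frac_of_sat {F' : Type*} [Field F'] (ϖ : F') (C V' : Subring F')
    (hCV : ∀ x ∈ C, x ∈ V')
    (hmax : ∀ x ∈ V', x⁻¹ ∉ V' → ϖ⁻¹ * x ∈ V')
    (hsat : ∀ x ∈ C, ϖ⁻¹ * x ∈ V' → ϖ⁻¹ * x ∈ C)
    (harch : ∀ x : F', x ≠ 0 → ∃ k : ℕ, (ϖ ^ k)⁻¹ * x ∉ V')
    (hfrac : ∀ x : F', ∃ a ∈ C, ∃ b ∈ C, b ≠ 0 ∧ x * b = a) :
    ∀ x ∈ V', ∃ a ∈ C, ∃ c ∈ C, c⁻¹ ∈ V' ∧ c ≠ 0 ∧ c * x = a := by
  classical
  intro x hx
  obtain ⟨a, ha, b, hb, hb0, hxb⟩ := hfrac x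
  have hex := harch b hb0
  -- `k` minimal with `ϖ^{-k} b ∉ V'`
  obtain ⟨k, hkspec, hkmin⟩ : ∃ k : ℕ, (ϖ ^ k)⁻¹ * b ∉ V' ∧ ∀ m : ℕ, m < k → (ϖ ^ m)⁻¹ * b ∈ V' :=
    ⟨Nat.find hex, Nat.find_spec hex, fun m hm => by
      by_contra hcon
      exact Nat.find_min hex hm hcon⟩
  -- both `ϖ^{-i} b` and `ϖ^{-i} a` stay in `C` for `i < k`
  have hind : ∀ i : ℕ, i < k → (ϖ ^ i)⁻¹ * b ∈ C ∧ (ϖ ^ i)⁻¹ * a ∈ C := by
    intro i
    induction i with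
    | zero =>
      intro _
      simpa using And.intro hb ha
    | succ i ih =>
      intro hi
      obtain ⟨hbi, hai⟩ := ih (Nat.lt_of_succ_lt hi)
      have e1 : ∀ y : F', (ϖ ^ (i + 1))⁻¹ * y = ϖ⁻¹ * ((ϖ ^ i)⁻¹ * y) := by
        intro y
        rw [pow_succ, mul_inv]
        ring
      have hbV : (ϖ ^ (i + 1))⁻¹ * b ∈ V' := hkmin (i + 1) hi
      refine ⟨?_, ?_⟩
      · rw [e1]
        apply hsat _ hbi
        rw [← e1]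
        exact hbV
      · rw [e1]
        apply hsat _ hai
        rw [← e1, ← hxb]
        have e2 : (ϖ ^ (i + 1))⁻¹ * (x * b) = x * ((ϖ ^ (i + 1))⁻¹ * b) := by ring
        rw [e2]
        exact V'.mul_mem hx hbV
  have hk0 : k ≠ 0 := by
    intro h0
    apply hkspec
    rw [h0, pow_zero, inv_one, one_mul]
    exact hCV b hb
  obtain ⟨j, hj⟩ := Nat.exists_eq_succ_of_ne_zero hk0
  have hjk : j < k := by omega
  obtain ⟨hcC, haC⟩ := hind j hjk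
  have hϖ0 : ϖ ≠ 0 := by
    intro h0
    apply hkspec
    rw [h0, zero_pow hk0, inv_zero, zero_mul]
    exact V'.zero_mem
  have hc0 : (ϖ ^ j)⁻¹ * b ≠ 0 := mul_ne_zero (inv_ne_zero (pow_ne_zero j hϖ0)) hb0
  refine ⟨(ϖ ^ j)⁻¹ * a, haC, (ϖ ^ j)⁻¹ * b, hcC, ?_, hc0, ?_⟩
  · by_contra hcon
    have h1 := hmax _ (hCV _ hcC) hcon
    apply hkspec
    have e : (ϖ ^ k)⁻¹ * b = ϖ⁻¹ * ((ϖ ^ j)⁻¹ * b) := by
      rw [hj, Nat.succ_eq_add_one, pow_succ, mul_inv]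
      ring
    rw [e]
    exact h1
  · rw [← hxb]
    ring

end Frac50

end Fermat.Agent.S34
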