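import Mathlib
import Fermat.Agent.S34.TwoVal2
import Fermat.Agent.S34.Iface47c
import Fermat.Agent.S34.ChartM15b
import Fermat.Agent.S34.AtkinLehnerVal97
import Fermat.Agent.S37.KroneckerFrob50
import Fermat.Agent.S42.GaloisK1_41

/-!
# S34 lab, row P1a-DK, the LITERAL binding (helper2)

`tv2b_WInt` : every element of the canonical ring `W = V_∞ ⊓ V_0` of `F_K(M' q)` (`s34i47c_W`) is
integral over the Gauss valuation ring of the good level `M'` — the hypothesis `cm15_WInt` of the
saturation theorems `cm15_sat_level2/3` (helper15).  Proof: `tv2_main` (TwoVal2, direct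
Dedekind–Kummer) with `E = F_K(M')`, `y = j(q^q)`, `a₁ = j^q`, `a₂ = j`.
-/

set_option autoImplicit false
set_option linter.style.haveILetI false

open ModularCurve Polynomial

namespace Fermat.Agent.S34

open Fermat.Agent.S18

local notation "Q̄" => AlgebraicClosure ℚ

section harch

variable {R K κ : Type*} [CommRing R] [IsDomain R] [ValuationRing R] [Field K] [Algebra R K]
  [IsFractionRing R K] [Field κ] (res : R →+* κ) (π : R)

/-- **(harch)** for the Gauss valuation ring: no nonzero element is infinitely divisible by `π`. -/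
theorem tv2b_harch (hres : ∀ r : R, ¬ IsUnit r → res r = 0) (hπ0 : π ≠ 0)
    (hfin : ∀ r : R, r ≠ 0 → ∃ n : ℕ, ¬ π ^ (n + 1) ∣ r)
    (F : IntermediateField K (LaurentSeries K)) (hF : gv85_HF res F) (x : F) (hx : x ≠ 0) :
    ∃ n : ℕ, (algebraMap K F (algebraMap R K π) ^ n)⁻¹ * x ∉ gv85_V res F hF := by
  obtain ⟨a, b, c, hc, ha, hb, hab⟩ := hF x hx
  obtain ⟨u, d, hd, rfl⟩ := IsFractionRing.div_surjective (A := R) c
  have hd0 : d ≠ 0 := nonZeroDivisors.ne_zero hd
  have hdK : algebraMap R K d ≠ 0 := IsFractionRing.to_map_ne_zero_of_mem_nonZeroDivisors hd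
  have hπK : algebraMap R K π ≠ 0 := fun h =>
    hπ0 (IsFractionRing.injective R K (by rw [h, map_zero]))
  have hu0 : u ≠ 0 := by
    rintro rfl
    rw [map_zero, zero_div] at hc
    exact hc rfl
  obtain ⟨k, hk⟩ := hfin u hu0
  refine ⟨k + 1, fun hmem => ?_⟩
  rw [gv85_mem_V] at hmem
  have hcoe : (((algebraMap K F (algebraMap R K π) ^ (k + 1))⁻¹ * x : F) : LaurentSeries K)
      = (HahnSeries.C (algebraMap R K π ^ (k + 1)))⁻¹ * (x : LaurentSeries K) := by
    rw [← map_pow, ← gv85_coe_algebraMap F]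
    rfl
  rw [hcoe] at hmem
  have hC0 : (HahnSeries.C (algebraMap R K π ^ (k + 1)) : LaurentSeries K) ≠ 0 :=
    HahnSeries.C_ne_zero (pow_ne_zero _ hπK)
  have hab' : (HahnSeries.C (algebraMap R K π ^ (k + 1)))⁻¹ * (x : LaurentSeries K)
      * coeffMap (algebraMap R K) b
      = HahnSeries.C (algebraMap R K u / algebraMap R K d / algebraMap R K π ^ (k + 1))
        * coeffMap (algebraMap R K) a := by
    rw [mul_assoc, hab, map_div₀ (HahnSeries.C : K →+* LaurentSeries K)
      (algebraMap R K u / algebraMap R K d)]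
    field_simp
  obtain ⟨r, hr⟩ := (al97V_mem_iff_of_normal res hres _ a b _ ha hb hab').mp hmem
  apply hk
  refine ⟨r * d, ?_⟩
  apply IsFractionRing.injective R K
  rw [map_mul, map_mul, map_pow, hr]
  field_simp

end harch

section frob

/-- In characteristic `q` the `q`-th power of the `j`-series is its `q ↦ q^q` substitution. -/
theorem tv2b_j_pow (κ : Type*) [Field κ] (q : ℕ) [NeZero q] (hq : q.Prime) (hchar : (q : κ) = 0) :
    (jqModC κ) ^ q = qExpand κ q (jqModC κ) := by
  have : Fact q.Prime := ⟨hq⟩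
  have : CharP κ q := (CharP.charP_iff_prime_eq_zero hq).mpr hchar
  rw [Fermat.Agent.S37.kr50_pow_char q (jqModC κ), coeffMap_jqModC]

/-- The `j`-series is not a `q`-th power in `κ((Q))`, `κ` a field of characteristic `q`. -/
theorem tv2b_j_not_pow (κ : Type*) [Field κ] (q : ℕ) [NeZero q] (hq : q.Prime)
    (hchar : (q : κ) = 0) (z : LaurentSeries κ) : z ^ q ≠ jqModC κ := by
  have : Fact q.Prime := ⟨hq⟩
  have : CharP κ q := (CharP.charP_iff_prime_eq_zero hq).mpr hchar
  intro h
  have h1 := ModularCurve.coeff_jqModC_neg_one κ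
  rw [← h, Fermat.Agent.S37.kr50_pow_char q z, qExpand_coeff_of_not_dvd] at h1
  · exact zero_ne_one h1
  · intro hd
    have h2 : (q : ℤ) ∣ 1 := (dvd_neg).mp hd
    have h3 : q ∣ 1 := by exact_mod_cast h2
    exact hq.one_lt.ne' (Nat.dvd_one.mp h3)

end frob

section inst

variable {R K : Type} [CommRing R] [IsDomain R] [IsDiscreteValuationRing R] [Field K]
  [Algebra R K] [IsFractionRing R K]

/-- the element `j` of `F_K(M)`. -/
noncomputable def tv2b_j (K : Type) [Field K] (M : ℕ) [NeZero M] :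
    ↥(modularFunctionFieldFullC K M) := ⟨jqModC K, jqModC_mem_full K M⟩

theorem tv2b_residue_of_not_isUnit (r : R) (hr : ¬ IsUnit r) : IsLocalRing.residue R r = 0 :=
  (IsLocalRing.residue_eq_zero_iff r).mpr ((IsLocalRing.mem_maximalIdeal r).mpr hr)

/-- `j ∈ V'`. -/
theorem tv2b_j_mem (M : ℕ) [NeZero M] {π : R} (hπ : Irreducible π) :
    tv2b_j K M ∈ cm85_Vinf (K := K) M hπ :=
  gv85_mem_V_of_integral _ _ _ _ (jqModC R) (coeffMap_jqModC (algebraMap R K)).symm

/-- constants of `R` lie in `V'`. -/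
theorem tv2b_const_mem (M : ℕ) [NeZero M] {π : R} (hπ : Irreducible π) (r : R) :
    algebraMap K ↥(modularFunctionFieldFullC K M) (algebraMap R K r) ∈ cm85_Vinf (K := K) M hπ := by
  refine gv85_mem_V_of_integral _ _ _ _ (HahnSeries.C r) ?_
  rw [gv85_coe_algebraMap, gv85_coeffMap_C]

/-- **Frobenius congruence**: `π⁻¹ (j(Q^q) - j^q) ∈ V_∞` at level `M' q`, residue
characteristic `q`. -/
theorem tv2b_frob_mem (M' q : ℕ) [NeZero M'] [NeZero q] (hq : q.Prime) {π : R}
    (hπ : Irreducible π) (hqR : ¬ IsUnit (q : R)) :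
    (algebraMap K ↥(modularFunctionFieldFullC K (M' * q)) (algebraMap R K π))⁻¹ *
      (al97L_beta K M' q (tv2b_j K M') - al97L_alpha K M' q (tv2b_j K M') ^ q) ∈
      cm85_Vinf (K := K) (M' * q) hπ := by
  have hchar : (q : IsLocalRing.ResidueField R) = 0 := by
    have := tv2b_residue_of_not_isUnit (q : R) hqR
    simpa using this
  refine (gv85_gauss (IsLocalRing.residue R) π (pk85_res_iff hπ) hπ.ne_zero _ _ _
    (qExpand R q (jqModC R) - jqModC R ^ q) ?_).mpr ?_
  · rw [map_sub, map_pow, coeffMap_qExpand, coeffMap_jqModC]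
    rfl
  · rw [map_sub, map_pow, coeffMap_qExpand, coeffMap_jqModC,
      tv2b_j_pow _ q hq hchar, sub_self]

end inst

section bind

variable {R K : Type} [CommRing R] [IsDomain R] [IsDiscreteValuationRing R] [Field K]
  [Algebra R K] [IsFractionRing R K]

/-- **`j̄` is not a `q`-th power in the residue field of the Gauss ring** (any level `M`,
residue characteristic `q`). -/
theorem tv2b_hpow (M q : ℕ) [NeZero M] [NeZero q] (hq : q.Prime) {π : R} (hπ : Irreducible π)
    (hqR : ¬ IsUnit (q : R)) (b : ↥(modularFunctionFieldFullC K M))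
    (hb : b ∈ cm85_Vinf (K := K) M hπ) :
    (algebraMap K ↥(modularFunctionFieldFullC K M) (algebraMap R K π))⁻¹ * (b ^ q - tv2b_j K M) ∉
      cm85_Vinf (K := K) M hπ := by
  intro hmem
  have hchar : (q : IsLocalRing.ResidueField R) = 0 := by
    have := tv2b_residue_of_not_isUnit (q : R) hqR
    simpa using this
  have hπK : algebraMap R K π ≠ 0 := fun h =>
    hπ.ne_zero (IsFractionRing.injective R K (by rw [h, map_zero]))
  have hC0 : (HahnSeries.C (algebraMap R K π) : LaurentSeries K) ≠ 0 := HahnSeries.C_ne_zero hπK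
  obtain ⟨s, t, hs, hst⟩ := hb
  obtain ⟨s', t', hs', hst'⟩ := hmem
  rw [gv85_coe_inv_mul] at hst'
  have hcoe : ((b ^ q - tv2b_j K M : ↥(modularFunctionFieldFullC K M)) : LaurentSeries K)
      = (b : LaurentSeries K) ^ q - jqModC K := rfl
  rw [hcoe] at hst'
  have key : coeffMap (algebraMap R K) (s' * (t ^ q - s ^ q * jqModC R))
      = coeffMap (algebraMap R K) (HahnSeries.C π * (s ^ q * t')) := by
    simp only [map_mul, map_sub, map_pow, coeffMap_jqModC, gv85_coeffMap_C]
    rw [← hst, ← hst']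
    field_simp
    ring
  have key' := gv85_emb_injective key
  have hred := congrArg (coeffMap (IsLocalRing.residue R)) key'
  rw [gv85_red_C_mul _ π (pk85_res_iff hπ), map_mul, map_sub, map_pow, map_mul, map_pow,
    coeffMap_jqModC] at hred
  have h1 := (mul_eq_zero.mp hred).resolve_left hs'
  apply tv2b_j_not_pow (IsLocalRing.ResidueField R) q hq hchar
    (coeffMap (IsLocalRing.residue R) t / coeffMap (IsLocalRing.residue R) s)
  rw [div_pow, div_eq_iff (pow_ne_zero _ hs), mul_comm]
  exact sub_eq_zero.mp h1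

set_option maxHeartbeats 1000000 in
/-- **The LITERAL binding**: every element of the canonical `W = V_∞ ⊓ V_0` of `F_K(M' q)` is
integral over the Gauss valuation ring of level `M'`. -/
theorem tv2b_WInt [CharZero K] [Algebra K Q̄] (M' q : ℕ) [NeZero M'] [NeZero q] (hq : q.Prime)
    (hM' : ¬ q ∣ M') {π : R} (hπ : Irreducible π) (hqR : ¬ IsUnit (q : R)) :
    cm15_WInt R K M' (M' * q) (dvd_mul_right M' q) hπ (s34i47c_W (K := K) M' q hq hM' hπ) := by
  letI algEF : Algebra ↥(modularFunctionFieldFullC K M') ↥(modularFunctionFieldFullC K (M' * q)) :=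
    (al97L_alpha K M' q).toRingHom.toAlgebra
  have hle := full_degeneracyC_le K (dvd_mul_right M' q)
  have hres' : ∀ r : R, ¬ IsUnit r → IsLocalRing.residue R r = 0 := tv2b_residue_of_not_isUnit
  have hrel := Fermat.Agent.S42.gi41_relfinrank_prime K M' q hq hM'
    (Nat.cast_ne_zero.mpr (mul_ne_zero (NeZero.ne M') (NeZero.ne q)))
  have hfr : Module.finrank ↥(modularFunctionFieldFullC K M')
      ↥(modularFunctionFieldFullC K (M' * q)) = q + 1 := by
    rw [← hrel, IntermediateField.relfinrank_eq_finrank_of_le hle]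
    let e : ↥(modularFunctionFieldFullC K (M' * q)) ≃ₗ[↥(modularFunctionFieldFullC K M')]
        ↥(IntermediateField.extendScalars hle) :=
      { toFun := fun x => ⟨(x : LaurentSeries K), (IntermediateField.mem_extendScalars hle).mpr x.2⟩
        invFun := fun x => ⟨(x : LaurentSeries K), (IntermediateField.mem_extendScalars hle).mp x.2⟩
        left_inv := fun _ => rfl
        right_inv := fun _ => rfl
        map_add' := fun _ _ => rfl
        map_smul' := fun _ _ => rfl }
    exact e.finrank_eq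
  have hfd : FiniteDimensional ↥(modularFunctionFieldFullC K M')
      ↥(modularFunctionFieldFullC K (M' * q)) :=
    Module.finite_of_finrank_pos (by rw [hfr]; omega)
  have halg : ∀ c : ↥(modularFunctionFieldFullC K M'),
      algebraMap ↥(modularFunctionFieldFullC K M') ↥(modularFunctionFieldFullC K (M' * q)) c
        = al97L_alpha K M' q c := fun _ => rfl
  have hconst : ∀ c : K, al97L_alpha K M' q (algebraMap K ↥(modularFunctionFieldFullC K M') c)
      = algebraMap K ↥(modularFunctionFieldFullC K (M' * q)) c :=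
    fun c => (al97L_alpha K M' q).commutes c
  have hwconst : ∀ c : K, al97L_w (algebraMap K Q̄) M' q hq hM'
      (algebraMap K ↥(modularFunctionFieldFullC K (M' * q)) c)
      = algebraMap K ↥(modularFunctionFieldFullC K (M' * q)) c :=
    fun c => (al97L_w (algebraMap K Q̄) M' q hq hM').commutes c
  have h1 : algebraMap K ↥(modularFunctionFieldFullC K M') (algebraMap R K π) ∈
      cm85_Vinf (K := K) M' hπ := tv2b_const_mem M' hπ π
  have h2 : ∀ x ∈ cm85_Vinf (K := K) M' hπ, x⁻¹ ∉ cm85_Vinf (K := K) M' hπ →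
      (algebraMap K ↥(modularFunctionFieldFullC K M') (algebraMap R K π))⁻¹ * x ∈
        cm85_Vinf (K := K) M' hπ :=
    fun x hx hx' => gv85_hmax (IsLocalRing.residue R) π (pk85_res_iff hπ) hπ.ne_zero _ _ x hx hx'
  have h3 : ∀ x : ↥(modularFunctionFieldFullC K M'), x ≠ 0 → ∃ n : ℕ,
      (algebraMap K ↥(modularFunctionFieldFullC K M') (algebraMap R K π) ^ n)⁻¹ * x ∉
        cm85_Vinf (K := K) M' hπ :=
    fun x hx => tv2b_harch (IsLocalRing.residue R) π hres' hπ.ne_zero (sat23_hfin π hπ.prime)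
      _ _ x hx
  have h4 : ∀ c ∈ cm85_Vinf (K := K) M' hπ,
      algebraMap ↥(modularFunctionFieldFullC K M') ↥(modularFunctionFieldFullC K (M' * q)) c ∈
        cm85_Vinf (K := K) (M' * q) hπ := by
    intro c hc
    rw [halg]
    exact (al97V_alpha_mem (IsLocalRing.residue R) M' q (pk85_HF K M' hπ)
      (pk85_HF K (M' * q) hπ) c).mpr hc
  have h5 : ∀ c ∈ cm85_Vinf (K := K) M' hπ,
      algebraMap ↥(modularFunctionFieldFullC K M') ↥(modularFunctionFieldFullC K (M' * q)) c ∈
        s34i47c_V0 (K := K) M' q hq hM' hπ := by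
    intro c hc
    rw [halg, s34i47c_mem_V0, al97L_w_alpha_apply]
    exact (al97V_beta_mem (IsLocalRing.residue R) M' q (pk85_HF K M' hπ)
      (pk85_HF K (M' * q) hπ) hres' c).mpr hc
  have h6 : (algebraMap ↥(modularFunctionFieldFullC K M') ↥(modularFunctionFieldFullC K (M' * q))
      (algebraMap K ↥(modularFunctionFieldFullC K M') (algebraMap R K π)))⁻¹ ∉
      cm85_Vinf (K := K) (M' * q) hπ := by
    rw [halg, hconst]
    exact gv85_pi_inv_not_mem (IsLocalRing.residue R) π (pk85_res_iff hπ) hπ.ne_zero _ _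
  have h7 : (algebraMap ↥(modularFunctionFieldFullC K M') ↥(modularFunctionFieldFullC K (M' * q))
      (algebraMap K ↥(modularFunctionFieldFullC K M') (algebraMap R K π)))⁻¹ ∉
      s34i47c_V0 (K := K) M' q hq hM' hπ := by
    rw [halg, hconst, s34i47c_mem_V0, map_inv₀, hwconst]
    exact gv85_pi_inv_not_mem (IsLocalRing.residue R) π (pk85_res_iff hπ) hπ.ne_zero _ _
  have hfrob := tv2b_frob_mem (K := K) M' q hq hπ hqR
  have hj : tv2b_j K M' ∈ cm85_Vinf (K := K) M' hπ := tv2b_j_mem M' hπ
  have h8 : (algebraMap ↥(modularFunctionFieldFullC K M') ↥(modularFunctionFieldFullC K (M' * q))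
      (algebraMap K ↥(modularFunctionFieldFullC K M') (algebraMap R K π)))⁻¹ *
      (al97L_beta K M' q (tv2b_j K M') - algebraMap ↥(modularFunctionFieldFullC K M')
        ↥(modularFunctionFieldFullC K (M' * q)) (tv2b_j K M' ^ q)) ∈
      cm85_Vinf (K := K) (M' * q) hπ := by
    rw [halg, halg, hconst, map_pow (al97L_alpha K M' q)]
    exact hfrob
  have h9 : (algebraMap ↥(modularFunctionFieldFullC K M') ↥(modularFunctionFieldFullC K (M' * q))
      (algebraMap K ↥(modularFunctionFieldFullC K M') (algebraMap R K π)))⁻¹ *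
      (al97L_beta K M' q (tv2b_j K M') ^ q - algebraMap ↥(modularFunctionFieldFullC K M')
        ↥(modularFunctionFieldFullC K (M' * q)) (tv2b_j K M')) ∈
      s34i47c_V0 (K := K) M' q hq hM' hπ := by
    rw [halg, halg, hconst, s34i47c_mem_V0,
      map_mul (al97L_w (algebraMap K Q̄) M' q hq hM'),
      map_inv₀ (al97L_w (algebraMap K Q̄) M' q hq hM'), hwconst,
      map_sub (al97L_w (algebraMap K Q̄) M' q hq hM'),
      map_pow (al97L_w (algebraMap K Q̄) M' q hq hM'),
      al97L_w_beta_apply, al97L_w_alpha_apply]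
    have h := (cm85_Vinf (K := K) (M' * q) hπ).neg_mem _ hfrob
    rw [← mul_neg, neg_sub] at h
    exact h
  have h10 : ∀ b ∈ cm85_Vinf (K := K) M' hπ,
      (algebraMap K ↥(modularFunctionFieldFullC K M') (algebraMap R K π))⁻¹ *
        (b ^ q - tv2b_j K M') ∉ cm85_Vinf (K := K) M' hπ :=
    fun b hb => tv2b_hpow M' q hq hπ hqR b hb
  have H := tv2_main (E := ↥(modularFunctionFieldFullC K M'))
    (F := ↥(modularFunctionFieldFullC K (M' * q))) (cm85_Vinf (K := K) M' hπ)
    (algebraMap K ↥(modularFunctionFieldFullC K M') (algebraMap R K π)) h1 h2 h3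
    (cm85_Vinf (K := K) (M' * q) hπ) (s34i47c_V0 (K := K) M' q hq hM' hπ) h4 h5 h6 h7
    q hq (al97L_beta K M' q (tv2b_j K M'))
    (⟨tv2b_j K M' ^ q, pow_mem hj q⟩ : ↥(cm85_Vinf (K := K) M' hπ))
    (⟨tv2b_j K M', hj⟩ : ↥(cm85_Vinf (K := K) M' hπ)) h8 h9 h10 hfr.le
  intro x hx
  obtain ⟨hx1, hx2⟩ := (s34i47c_mem_W M' q hq hM' hπ x).mp hx
  obtain ⟨p, hp, hpx⟩ := H.2.1 x hx1 ((s34i47c_mem_V0 M' q hq hM' hπ x).mpr hx2)
  let e : ↥(cm85_Vinf (K := K) M' hπ) →+* ↥(cm85_Vinf (K := K) M' hπ).toSubring :=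
    { toFun := fun c => ⟨c.1, c.2⟩
      map_one' := rfl
      map_mul' := fun _ _ => rfl
      map_zero' := rfl
      map_add' := fun _ _ => rfl }
  refine ⟨p.map e, hp.map e, ?_⟩
  rw [eval₂_map]
  exact hpx

end bind

end Fermat.Agent.S34
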