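import Mathlib
import Fermat.Agent.S34.TwoValBind2
import Fermat.Agent.S34.WIntInst18

/-!
# S34 lab, row P1a (helper2): the two valuations of the CANONICAL frame, all facts

Canonical data of `Iface47c` at level `M' q` (`q` prime, `q ∤ M'`, residue characteristic `q`):
`V_∞ = cm85_Vinf (M' * q) hπ`, `V_0 = s34i47c_V0 M' q hq hM' hπ`, `V' = cm85_Vinf M' hπ`,
`α = al97L_alpha K M' q`, `β = al97L_beta K M' q`.  All hypotheses of `wi18_main` (helper18;
`oe18_main`) are discharged with the instance lemmas of `TwoValBind2`: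

* `tv2c_ne`            : `V_∞ ≠ V_0`;
* `tv2c_only`          : `V_∞`, `V_0` are the ONLY valuation subrings over `V'` with `π` a nonunit;
* `tv2c_res_one_inf`   : `∀ x ∈ V_∞, ∃ b ∈ V', π⁻¹ (x - α b) ∈ V_∞`  (residue degree one);
* `tv2c_res_one_zero`  : `∀ x ∈ V_0, ∃ b ∈ V', π⁻¹ (x - β b) ∈ V_0`   (the same at `V_0`, by `w`);
* `tv2c_hmax_zero`     : `m_{V_0} = π V_0`.
-/

set_option autoImplicit false
set_option linter.style.haveILetI false
set_option linter.unusedSectionVars false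

open ModularCurve Polynomial

namespace Fermat.Agent.S34

open Fermat.Agent.S18

local notation "Q̄" => AlgebraicClosure ℚ

section canon

variable {R K : Type} [CommRing R] [IsDomain R] [IsDiscreteValuationRing R] [Field K] [CharZero K]
  [Algebra R K] [IsFractionRing R K] [Algebra K Q̄]
  (M' q : ℕ) [NeZero M'] [NeZero q] (hq : q.Prime) (hM' : ¬ q ∣ M')
  [Algebra R ↥(modularFunctionFieldFullC K M')]
  [IsScalarTower R K ↥(modularFunctionFieldFullC K M')]
  [Algebra R ↥(modularFunctionFieldFullC K (M' * q))]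
  [IsScalarTower R K ↥(modularFunctionFieldFullC K (M' * q))]

/-- `π⁻¹ (j(Q^q)^q - j) ∈ V_0`. -/
theorem tv2c_kummer_zero {π : R} (hπ : Irreducible π) (hqR : ¬ IsUnit (q : R)) :
    (algebraMap R ↥(modularFunctionFieldFullC K (M' * q)) π)⁻¹ *
      (al97L_beta K M' q (tv2b_j K M') ^ q - al97L_alpha K M' q (tv2b_j K M')) ∈
      s34i47c_V0 (K := K) M' q hq hM' hπ := by
  rw [IsScalarTower.algebraMap_apply R K ↥(modularFunctionFieldFullC K (M' * q)), s34i47c_mem_V0,
    map_mul (al97L_w (algebraMap K Q̄) M' q hq hM'),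
    map_inv₀ (al97L_w (algebraMap K Q̄) M' q hq hM'), AlgEquiv.commutes,
    map_sub (al97L_w (algebraMap K Q̄) M' q hq hM'),
    map_pow (al97L_w (algebraMap K Q̄) M' q hq hM'),
    al97L_w_beta_apply, al97L_w_alpha_apply]
  have h := (cm85_Vinf (K := K) (M' * q) hπ).neg_mem _ (tv2b_frob_mem (K := K) M' q hq hπ hqR)
  rw [← mul_neg, neg_sub] at h
  exact h

include hq in
/-- `π⁻¹ (j(Q^q)^q - j) ∉ V_∞`. -/
theorem tv2c_kummer_not_inf {π : R} (hπ : Irreducible π) (hqR : ¬ IsUnit (q : R)) :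
    (algebraMap R ↥(modularFunctionFieldFullC K (M' * q)) π)⁻¹ *
      (al97L_beta K M' q (tv2b_j K M') ^ q - al97L_alpha K M' q (tv2b_j K M')) ∉
      cm85_Vinf (K := K) (M' * q) hπ := by
  have hchar : (q : IsLocalRing.ResidueField R) = 0 := by
    have := tv2b_residue_of_not_isUnit (q : R) hqR
    simpa using this
  rw [IsScalarTower.algebraMap_apply R K ↥(modularFunctionFieldFullC K (M' * q))]
  intro hmem
  have h1 := (gv85_gauss (IsLocalRing.residue R) π (pk85_res_iff hπ) hπ.ne_zero _ _ _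
    (qExpand R q (jqModC R) ^ q - jqModC R) (by
      rw [map_sub, map_pow, coeffMap_qExpand, coeffMap_jqModC]
      rfl)).mp hmem
  rw [map_sub, map_pow, coeffMap_qExpand, coeffMap_jqModC, sub_eq_zero] at h1
  exact tv2b_j_not_pow (IsLocalRing.ResidueField R) q hq hchar _ h1

/-- `V_∞ ≠ V_0`. -/
theorem tv2c_ne {π : R} (hπ : Irreducible π) (hqR : ¬ IsUnit (q : R)) :
    cm85_Vinf (K := K) (M' * q) hπ ≠ s34i47c_V0 (K := K) M' q hq hM' hπ := by
  intro h
  apply tv2c_kummer_not_inf (K := K) M' q hq hπ hqR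
  rw [h]
  exact tv2c_kummer_zero M' q hq hM' hπ hqR

/-- all conclusions of `wi18_main` for the canonical data. -/
theorem tv2c_main {π : R} (hπ : Irreducible π) (hqR : ¬ IsUnit (q : R)) :
    (∀ V : ValuationSubring ↥(modularFunctionFieldFullC K (M' * q)),
      (∀ a ∈ cm85_Vinf (K := K) M' hπ, al97L_alpha K M' q a ∈ V) →
      (algebraMap R ↥(modularFunctionFieldFullC K (M' * q)) π)⁻¹ ∉ V →
      V = cm85_Vinf (K := K) (M' * q) hπ ∨ V = s34i47c_V0 (K := K) M' q hq hM' hπ) ∧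
    (∀ x ∈ s34i47c_V0 (K := K) M' q hq hM' hπ, x⁻¹ ∉ s34i47c_V0 (K := K) M' q hq hM' hπ →
      (algebraMap R ↥(modularFunctionFieldFullC K (M' * q)) π)⁻¹ * x ∈
        s34i47c_V0 (K := K) M' q hq hM' hπ) ∧
    (∀ x ∈ cm85_Vinf (K := K) (M' * q) hπ, ∃ b ∈ cm85_Vinf (K := K) M' hπ,
      (algebraMap R ↥(modularFunctionFieldFullC K (M' * q)) π)⁻¹ * (x - al97L_alpha K M' q b) ∈
        cm85_Vinf (K := K) (M' * q) hπ) := by
  have hres' : ∀ r : R, ¬ IsUnit r → IsLocalRing.residue R r = 0 := tv2b_residue_of_not_isUnit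
  have hdeg := Fermat.Agent.S42.gi41_relfinrank_prime K M' q hq hM'
    (Nat.cast_ne_zero.mpr (mul_ne_zero (NeZero.ne M') (NeZero.ne q)))
  have hV₀ : ∀ a ∈ cm85_Vinf (K := K) M' hπ,
      cm15_incl K M' (M' * q) (dvd_mul_right M' q) a ∈ s34i47c_V0 (K := K) M' q hq hM' hπ := by
    intro c hc
    show al97L_alpha K M' q c ∈ _
    rw [s34i47c_mem_V0, al97L_w_alpha_apply]
    exact (al97V_beta_mem (IsLocalRing.residue R) M' q (pk85_HF K M' hπ)
      (pk85_HF K (M' * q) hπ) hres' c).mpr hc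
  have hπV₀ : (algebraMap R ↥(modularFunctionFieldFullC K (M' * q)) π)⁻¹ ∉
      s34i47c_V0 (K := K) M' q hq hM' hπ := by
    rw [IsScalarTower.algebraMap_apply R K ↥(modularFunctionFieldFullC K (M' * q)),
      s34i47c_mem_V0, map_inv₀ (al97L_w (algebraMap K Q̄) M' q hq hM'), AlgEquiv.commutes]
    exact gv85_pi_inv_not_mem (IsLocalRing.residue R) π (pk85_res_iff hπ) hπ.ne_zero _ _
  have hy : al97L_beta K M' q (tv2b_j K M') ∈ s34i47c_V0 (K := K) M' q hq hM' hπ := by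
    rw [s34i47c_mem_V0, al97L_w_beta_apply]
    exact (al97V_alpha_mem (IsLocalRing.residue R) M' q (pk85_HF K M' hπ)
      (pk85_HF K (M' * q) hπ) _).mpr (tv2b_j_mem M' hπ)
  have hnot : ∀ b ∈ cm85_Vinf (K := K) M' hπ,
      (algebraMap R ↥(modularFunctionFieldFullC K M') π)⁻¹ * (b ^ q - tv2b_j K M') ∉
        cm85_Vinf (K := K) M' hπ := by
    intro b hb
    rw [IsScalarTower.algebraMap_apply R K ↥(modularFunctionFieldFullC K M')]
    exact tv2b_hpow M' q hq hπ hqR b hb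
  obtain ⟨c1, -, c3, c4⟩ := wi18_main (R := R) (K := K) M' (M' * q) (dvd_mul_right M' q) hπ q hq
    hdeg (s34i47c_V0 (K := K) M' q hq hM' hπ) hV₀ hπV₀ (tv2c_ne M' q hq hM' hπ hqR)
    (al97L_beta K M' q (tv2b_j K M')) hy (tv2b_j K M') (tv2b_j_mem M' hπ)
    (tv2c_kummer_zero M' q hq hM' hπ hqR) hnot
  exact ⟨c1, c3, c4⟩

/-- **only extensions.** -/
theorem tv2c_only {π : R} (hπ : Irreducible π) (hqR : ¬ IsUnit (q : R))
    (V : ValuationSubring ↥(modularFunctionFieldFullC K (M' * q)))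
    (hV : ∀ a ∈ cm85_Vinf (K := K) M' hπ, al97L_alpha K M' q a ∈ V)
    (hπV : (algebraMap R ↥(modularFunctionFieldFullC K (M' * q)) π)⁻¹ ∉ V) :
    V = cm85_Vinf (K := K) (M' * q) hπ ∨ V = s34i47c_V0 (K := K) M' q hq hM' hπ :=
  (tv2c_main M' q hq hM' hπ hqR).1 V hV hπV

/-- `m_{V_0} = π V_0`. -/
theorem tv2c_hmax_zero {π : R} (hπ : Irreducible π) (hqR : ¬ IsUnit (q : R))
    (x : ↥(modularFunctionFieldFullC K (M' * q)))
    (hx : x ∈ s34i47c_V0 (K := K) M' q hq hM' hπ)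
    (hx' : x⁻¹ ∉ s34i47c_V0 (K := K) M' q hq hM' hπ) :
    (algebraMap R ↥(modularFunctionFieldFullC K (M' * q)) π)⁻¹ * x ∈
      s34i47c_V0 (K := K) M' q hq hM' hπ :=
  (tv2c_main M' q hq hM' hπ hqR).2.1 x hx hx'

include hq hM' in
/-- **residue degree one at `V_∞`**: every element of `V_∞` is congruent modulo `π V_∞` to an
element of `α(V')`. -/
theorem tv2c_res_one_inf {π : R} (hπ : Irreducible π) (hqR : ¬ IsUnit (q : R))
    (x : ↥(modularFunctionFieldFullC K (M' * q))) (hx : x ∈ cm85_Vinf (K := K) (M' * q) hπ) :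
    ∃ b ∈ cm85_Vinf (K := K) M' hπ,
      (algebraMap R ↥(modularFunctionFieldFullC K (M' * q)) π)⁻¹ * (x - al97L_alpha K M' q b) ∈
        cm85_Vinf (K := K) (M' * q) hπ :=
  (tv2c_main M' q hq hM' hπ hqR).2.2 x hx

/-- **residue degree one at `V_0`**: every element of `V_0` is congruent modulo `π V_0` to an
element of `β(V')`. -/
theorem tv2c_res_one_zero {π : R} (hπ : Irreducible π) (hqR : ¬ IsUnit (q : R))
    (x : ↥(modularFunctionFieldFullC K (M' * q)))
    (hx : x ∈ s34i47c_V0 (K := K) M' q hq hM' hπ) :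
    ∃ b ∈ cm85_Vinf (K := K) M' hπ,
      (algebraMap R ↥(modularFunctionFieldFullC K (M' * q)) π)⁻¹ * (x - al97L_beta K M' q b) ∈
        s34i47c_V0 (K := K) M' q hq hM' hπ := by
  obtain ⟨b, hb, hb'⟩ := tv2c_res_one_inf M' q hq hM' hπ hqR
    (al97L_w (algebraMap K Q̄) M' q hq hM' x) ((s34i47c_mem_V0 M' q hq hM' hπ x).mp hx)
  refine ⟨b, hb, ?_⟩
  rw [IsScalarTower.algebraMap_apply R K ↥(modularFunctionFieldFullC K (M' * q)), s34i47c_mem_V0,
    map_mul (al97L_w (algebraMap K Q̄) M' q hq hM'),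
    map_inv₀ (al97L_w (algebraMap K Q̄) M' q hq hM'), AlgEquiv.commutes,
    map_sub (al97L_w (algebraMap K Q̄) M' q hq hM'), al97L_w_beta_apply,
    ← IsScalarTower.algebraMap_apply R K ↥(modularFunctionFieldFullC K (M' * q))]
  exact hb'

end canon

end Fermat.Agent.S34
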