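import Fermat.Agent.S28.UnitEq
import Fermat.Agent.S18.Pack85
import Fermat.Agent.S18.GaussPack55
import Fermat.Agent.S18.RedMap90

/-!
# S34 lab, package P4' part (c): integrality of the Delta quotients (helper75)

`U = Δ(Q)/Δ(Q^q)` and `V = q^12 Δ(Q^q)/Δ(Q)` (so `U * V = q^12`).

* `uvi75_U`, `uvi75_V`, `uvi75_Uinv` : the formal series in `ℤ((Q))`;
  `uvi75_U_mul_V : U * V = q^12`, `uvi75_U_mul_Uinv : U * U⁻¹ = 1`.
* `uvi75_formal` : `U` and `V` are roots of monic polynomials with coefficients in `ℤ[J]`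
  (formal identities in `ℤ((Q))`; the statement for `V` is `exists_unit_equations` of S28, the
  statement for `U` *without* the factor `q^12` is the same argument with the translates
  `Δ(τ)/Δ(qτ)`, `q^12 Δ(τ)/Δ((τ+b)/q)`).
* `uvi75_isIntegral_j` : an element of `F(M)_K` whose Laurent series is the image of `U` or `V`
  is integral over `R[j]` for every base ring `R`.
* `uvi75_mem_chart2`, `uvi75_mem_chart3` : it lies in the chart `pk15_chart R {h, h⁻¹}` for the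
  Hauptmoduln `h = pk85_h2`, `pk85_h3`.
* `uvi75_gauss_unit` : an element of `F(M)_K` whose Laurent series is the image of `U` is a unit
  of the Gauss valuation ring `c1g55_V` (any discrete valuation ring `R`).
-/

set_option autoImplicit false
set_option linter.unusedSectionVars false

open ModularCurve AlgebraicCurve MatrixGroups UpperHalfPlane ModularForm

open Fermat.Agent.S24 Fermat.Agent.S28 Fermat.Agent.S18

namespace Fermat.Agent.S34

local notation "Δf" => ModularForm.discriminant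

/-! ### The formal series -/

/-- The formal series `U = Δ(Q)/Δ(Q^q)` over `ℤ`. -/
noncomputable def uvi75_U (q : ℕ) : LaurentSeries ℤ := DeltaSer ℤ * qE ℤ q (DeltaInv ℤ)

/-- The formal series `U⁻¹ = Δ(Q^q)/Δ(Q)` over `ℤ`. -/
noncomputable def uvi75_Uinv (q : ℕ) : LaurentSeries ℤ := qE ℤ q (DeltaSer ℤ) * DeltaInv ℤ

/-- The formal series `V = q^12 Δ(Q^q)/Δ(Q)` over `ℤ`. -/
noncomputable def uvi75_V (q : ℕ) : LaurentSeries ℤ :=
  (q : LaurentSeries ℤ) ^ 12 * (qE ℤ q (DeltaSer ℤ) * DeltaInv ℤ)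

theorem uvi75_U_mul_Uinv (q : ℕ) : uvi75_U q * uvi75_Uinv q = 1 := by
  have h1 : DeltaSer ℤ * DeltaInv ℤ = 1 := DeltaSer_mul_DeltaInv ℤ
  have h2 : qE ℤ q (DeltaInv ℤ) * qE ℤ q (DeltaSer ℤ) = 1 := by
    rw [← map_mul, mul_comm, h1, map_one]
  calc uvi75_U q * uvi75_Uinv q
      = (DeltaSer ℤ * DeltaInv ℤ) * (qE ℤ q (DeltaInv ℤ) * qE ℤ q (DeltaSer ℤ)) := by
        unfold uvi75_U uvi75_Uinv; ring
    _ = 1 := by rw [h1, h2, mul_one]

theorem uvi75_V_eq (q : ℕ) : uvi75_V q = (q : LaurentSeries ℤ) ^ 12 * uvi75_Uinv q := rfl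

theorem uvi75_U_mul_V (q : ℕ) : uvi75_U q * uvi75_V q = (q : LaurentSeries ℤ) ^ 12 := by
  rw [uvi75_V_eq, mul_left_comm, uvi75_U_mul_Uinv, mul_one]

/-! ### The analytic translates -/

/-- `Δ(τ)/Δ(qτ)`. -/
noncomputable def uvi75_uInf (p : ℕ) (τ : ℍ) : ℂ := Δf τ * (Δf (scaleH p τ))⁻¹

/-- `p^12 Δ(τ)/Δ((τ+b)/p)`. -/
noncomputable def uvi75_uFin (p b : ℕ) [NeZero p] (τ : ℍ) : ℂ :=
  (p : ℂ) ^ 12 * Δf τ * (Δf (zb p b τ))⁻¹

theorem uvi75_vInf_eq (p : ℕ) (τ : ℍ) : vInf p τ = (p : ℂ) ^ 12 * uvi75_uInf p τ := by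
  unfold vInf uvi75_uInf
  ring

theorem uvi75_vFin_eq (p b : ℕ) [NeZero p] (τ : ℍ) :
    vFin p b τ = (p : ℂ) ^ 12 * uvi75_uFin p b τ := by
  unfold vFin uvi75_uFin
  ring

theorem uvi75_pow_ne_zero (p : ℕ) [NeZero p] : ((p : ℂ) ^ 12) ≠ 0 :=
  pow_ne_zero _ (by exact_mod_cast NeZero.ne p)

theorem uvi75_uInf_actFn_of_mem (p : ℕ) [NeZero p] (γ : SL(2, ℤ))
    (hγ : γ ∈ CongruenceSubgroup.Gamma0 p) : actFn γ (uvi75_uInf p) = uvi75_uInf p := by
  funext τ
  have h := congrFun (vInf_actFn_of_mem p γ hγ) τ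
  rw [actFn_apply, uvi75_vInf_eq, uvi75_vInf_eq] at h
  rw [actFn_apply]
  exact mul_left_cancel₀ (uvi75_pow_ne_zero p) h

theorem uvi75_uInf_translate (p : ℕ) (hp : p.Prime) [NeZero p] (g : SL(2, ℤ)) :
    actFn g (uvi75_uInf p) = uvi75_uInf p ∨ ∃ b : ℕ, actFn g (uvi75_uInf p) = uvi75_uFin p b := by
  rcases vInf_translate p hp g with h | ⟨b, h⟩
  · left
    funext τ
    have h' := congrFun h τ
    rw [actFn_apply, uvi75_vInf_eq, uvi75_vInf_eq] at h'
    rw [actFn_apply]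
    exact mul_left_cancel₀ (uvi75_pow_ne_zero p) h'
  · right
    refine ⟨b, ?_⟩
    funext τ
    have h' := congrFun h τ
    rw [actFn_apply, uvi75_vInf_eq, uvi75_vFin_eq] at h'
    rw [actFn_apply]
    exact mul_left_cancel₀ (uvi75_pow_ne_zero p) h'

theorem uvi75_uInf_mem (p : ℕ) [NeZero p] : uvi75_uInf p ∈ expSubring p Zbar := by
  have hp : 0 < p := Nat.pos_of_ne_zero (NeZero.ne p)
  have h2 := disc_comp_mem p Zbar id p hp 1 norm_one Zbar.one_mem (qParam_id p)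
  have h3 := disc_inv_comp_mem p Zbar (scaleH p) (p * p) (Nat.mul_pos hp hp) 1 norm_one
    Zbar.one_mem (by rw [inv_one]; exact Zbar.one_mem) (qParam_scaleH p)
  exact Subring.mul_mem _ h2 h3

theorem uvi75_uFin_mem (p b : ℕ) [NeZero p] : uvi75_uFin p b ∈ expSubring p Zbar := by
  have hp : 0 < p := Nat.pos_of_ne_zero (NeZero.ne p)
  have h1 := const_mem_expSubring p Zbar (natCast_pow_mem_Zbar p 12)
  have h2 := disc_comp_mem p Zbar id p hp 1 norm_one Zbar.one_mem (qParam_id p)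
  have h3 := disc_inv_comp_mem p Zbar (zb p b) 1 one_pos (zetaB p b) (zetaB_norm p b)
    (zetaB_mem p b) (zetaB_inv_mem p b) (qParam_zb p b)
  exact Subring.mul_mem _ (Subring.mul_mem _ h1 h2) h3

theorem uvi75_U_eq (p : ℕ) [NeZero p] [NeZero (p * p)] :
    qExpand ℂ p (coeffMap (Int.castRingHom ℂ) (uvi75_U p)) =
        (HahnSeries.C 1 * HahnSeries.single (p : ℤ) 1 * serZ cE p 1) *
        (HahnSeries.C (1 : ℂ)⁻¹ * HahnSeries.single (-((p * p : ℕ) : ℤ)) 1 *
          serZ cEinv (p * p) 1) := by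
  rw [uvi75_U, qE_of_neZero]
  simp only [map_mul, coeffMap_qExpand, coeffMap_DeltaSer,
    coeffMap_DeltaInv, DeltaSer_complex, DeltaInv_complex, qExpand_qExpand, qExpand_single,
    serZ_one, inv_one, map_one, mul_one, one_mul, mul_neg, Nat.cast_mul]

theorem uvi75_uInf_hasWExp (p : ℕ) [NeZero p] :
    HasWExp p (uvi75_uInf p) (qExpand ℂ p (coeffMap (Int.castRingHom ℂ) (uvi75_U p))) := by
  have hp : 0 < p := Nat.pos_of_ne_zero (NeZero.ne p)
  have : NeZero (p * p) := ⟨(Nat.mul_pos hp hp).ne'⟩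
  rw [uvi75_U_eq]
  exact (hasWExp_disc_comp p id p hp 1 norm_one (qParam_id p)).mul
    (hasWExp_disc_inv_comp p (scaleH p) (p * p) (Nat.mul_pos hp hp) 1 norm_one (qParam_scaleH p))

/-! ### The formal unit equations -/

/-- **(c1)** `U = Δ(Q)/Δ(Q^q)` (no factor `q^12`) is integral over `ℤ[J]` inside `ℤ((Q))`. -/
theorem uvi75_formal_U (q : ℕ) (hq : q.Prime) :
    ∃ P : Polynomial (Polynomial ℤ), P.Monic ∧ P.eval₂ (evJ ℤ) (uvi75_U q) = 0 := by
  have : NeZero q := ⟨hq.ne_zero⟩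
  have hexp : ∀ g : SL(2, ℤ), ∃ L : LaurentSeries ℂ, HasWExp q (actFn g (uvi75_uInf q)) L ∧
      ∀ n, L.coeff n ∈ Zbar := by
    intro g
    rcases uvi75_uInf_translate q hq g with h | ⟨b, h⟩
    · rw [h]
      exact uvi75_uInf_mem q
    · rw [h]
      exact uvi75_uFin_mem q b
  obtain ⟨Q₁, hQ₁m, hQ₁⟩ :=
    exists_monic_of_invariant q Zbar (uvi75_uInf q) (uvi75_uInf_actFn_of_mem q) hexp
  have hf₁ := formal_root_q q Zbar Q₁ (uvi75_uInf q) _ (uvi75_uInf_hasWExp q) hQ₁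
  obtain ⟨P, hPm, hP⟩ := exists_int_monic _ Q₁ hQ₁m hf₁
  exact ⟨P, hPm, eval₂_int_of_complex P (uvi75_U q) hP⟩

/-- **(c1)** `V = q^12 Δ(Q^q)/Δ(Q)` is integral over `ℤ[J]` inside `ℤ((Q))`. -/
theorem uvi75_formal_V (q : ℕ) (hq : q.Prime) :
    ∃ P : Polynomial (Polynomial ℤ), P.Monic ∧ P.eval₂ (evJ ℤ) (uvi75_V q) = 0 :=
  exists_unit_equation q hq

/-- **(c1)** both unit equations. -/
theorem uvi75_formal (q : ℕ) (hq : q.Prime) :
    ∃ P Q : Polynomial (Polynomial ℤ), P.Monic ∧ Q.Monic ∧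
      P.eval₂ (evJ ℤ) (uvi75_U q) = 0 ∧ Q.eval₂ (evJ ℤ) (uvi75_V q) = 0 := by
  obtain ⟨P, hP, hPU⟩ := uvi75_formal_U q hq
  obtain ⟨Q, hQ, hQV⟩ := uvi75_formal_V q hq
  exact ⟨P, Q, hP, hQ, hPU, hQV⟩

/-! ### Transfer to the modular function field -/

section Transfer

theorem uvi75_coeffMap_comp_evJ (K : Type*) [CommRing K] :
    (coeffMap (Int.castRingHom K)).comp (evJ ℤ) = evJ K := by
  refine Polynomial.ringHom_ext (fun a => ?_) ?_
  · simp [evJ]
  · simp [evJ, coeffMap_jqModC]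

variable (K : Type) [Field K] (M : ℕ) [NeZero M]
variable {R : Type*} [CommRing R] [Algebra R ↥(modularFunctionFieldFullC K M)]

/-- Transfer of a formal monic equation over `ℤ[J]` in `ℤ((Q))` to integrality over `R[j]` in
`F(M)_K`. -/
theorem uvi75_isIntegral_of_formal (S : LaurentSeries ℤ) (P : Polynomial (Polynomial ℤ))
    (hP : P.Monic) (hPS : P.eval₂ (evJ ℤ) S = 0) (x : ↥(modularFunctionFieldFullC K M))
    (hx : (x : LaurentSeries K) = coeffMap (Int.castRingHom K) S) :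
    IsIntegral (Algebra.adjoin R ({rm90_j K M} : Set ↥(modularFunctionFieldFullC K M))) x := by
  let jA : Algebra.adjoin R ({rm90_j K M} : Set ↥(modularFunctionFieldFullC K M)) :=
    ⟨rm90_j K M, Algebra.subset_adjoin (Set.mem_singleton _)⟩
  let φ : Polynomial ℤ →+*
      Algebra.adjoin R ({rm90_j K M} : Set ↥(modularFunctionFieldFullC K M)) :=
    Polynomial.eval₂RingHom (Int.castRingHom _) jA
  refine ⟨P.map φ, hP.map φ, ?_⟩
  rw [Polynomial.eval₂_map]
  have hcomp : ((algebraMap ↥(modularFunctionFieldFullC K M) (LaurentSeries K)).comp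
      ((algebraMap (Algebra.adjoin R ({rm90_j K M} : Set ↥(modularFunctionFieldFullC K M)))
        ↥(modularFunctionFieldFullC K M)).comp φ)) = evJ K := by
    refine Polynomial.ringHom_ext (fun a => ?_) ?_
    · simp [evJ, φ]
    · simp only [RingHom.comp_apply, φ, Polynomial.coe_eval₂RingHom, Polynomial.eval₂_X, evJ]
      rfl
  apply (algebraMap ↥(modularFunctionFieldFullC K M) (LaurentSeries K)).injective
  rw [Polynomial.hom_eval₂, hcomp, map_zero]
  have hx' : algebraMap ↥(modularFunctionFieldFullC K M) (LaurentSeries K) x =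
      coeffMap (Int.castRingHom K) S := hx
  rw [hx', ← uvi75_coeffMap_comp_evJ K, ← Polynomial.hom_eval₂, hPS, map_zero]

/-- **(c2)** an element of `F(M)_K` with Laurent series `U = Δ(Q)/Δ(Q^q)` is integral over
`R[j]`. -/
theorem uvi75_isIntegral_j_U (q : ℕ) (hq : q.Prime) (x : ↥(modularFunctionFieldFullC K M))
    (hx : (x : LaurentSeries K) = coeffMap (Int.castRingHom K) (uvi75_U q)) :
    IsIntegral (Algebra.adjoin R ({rm90_j K M} : Set ↥(modularFunctionFieldFullC K M))) x := by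
  obtain ⟨P, hP, hPU⟩ := uvi75_formal_U q hq
  exact uvi75_isIntegral_of_formal K M _ P hP hPU x hx

/-- **(c2)** an element of `F(M)_K` with Laurent series `V = q^12 Δ(Q^q)/Δ(Q)` is integral over
`R[j]`. -/
theorem uvi75_isIntegral_j_V (q : ℕ) (hq : q.Prime) (x : ↥(modularFunctionFieldFullC K M))
    (hx : (x : LaurentSeries K) = coeffMap (Int.castRingHom K) (uvi75_V q)) :
    IsIntegral (Algebra.adjoin R ({rm90_j K M} : Set ↥(modularFunctionFieldFullC K M))) x := by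
  obtain ⟨P, hP, hPV⟩ := uvi75_formal_V q hq
  exact uvi75_isIntegral_of_formal K M _ P hP hPV x hx

theorem uvi75_ofNat_mem {R' F : Type*} [CommRing R'] [Field F] [Algebra R' F]
    (A : Subalgebra R' F) (n : ℕ) [n.AtLeastTwo] : (OfNat.ofNat n : F) ∈ A := by
  have h := natCast_mem A (OfNat.ofNat n : ℕ)
  rwa [Nat.cast_ofNat] at h

variable [CharZero K]

/-- `j` lies in `R[h, h⁻¹]` for the level 2 Hauptmodul. -/
theorem uvi75_j_mem_adjoin2 (h2 : 2 ∣ M) :
    rm90_j K M ∈ Algebra.adjoin R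
      ({pk85_h2 K M h2, (pk85_h2 K M h2)⁻¹} : Set ↥(modularFunctionFieldFullC K M)) := by
  have hrel := pk85_h2_rel K M h2
  have hh0 : pk85_h2 K M h2 ≠ 0 := by
    intro h0
    rw [h0] at hrel
    norm_num at hrel
  have hj : rm90_j K M = (pk85_h2 K M h2 + 256) ^ 3 * (pk85_h2 K M h2)⁻¹ ^ 2 := by
    rw [← hrel, mul_assoc, ← mul_pow, mul_inv_cancel₀ hh0, one_pow, mul_one]
  rw [hj]
  have h1 : pk85_h2 K M h2 ∈ Algebra.adjoin R
      ({pk85_h2 K M h2, (pk85_h2 K M h2)⁻¹} : Set ↥(modularFunctionFieldFullC K M)) :=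
    Algebra.subset_adjoin (Set.mem_insert _ _)
  have h1' : (pk85_h2 K M h2)⁻¹ ∈ Algebra.adjoin R
      ({pk85_h2 K M h2, (pk85_h2 K M h2)⁻¹} : Set ↥(modularFunctionFieldFullC K M)) :=
    Algebra.subset_adjoin (Set.mem_insert_of_mem _ (Set.mem_singleton _))
  exact Subalgebra.mul_mem _
    (Subalgebra.pow_mem _ (Subalgebra.add_mem _ h1 (uvi75_ofNat_mem _ 256)) 3)
    (Subalgebra.pow_mem _ h1' 2)

/-- `j` lies in `R[h, h⁻¹]` for the level 3 Hauptmodul. -/
theorem uvi75_j_mem_adjoin3 (h3 : 3 ∣ M) :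
    rm90_j K M ∈ Algebra.adjoin R
      ({pk85_h3 K M h3, (pk85_h3 K M h3)⁻¹} : Set ↥(modularFunctionFieldFullC K M)) := by
  have hrel := pk85_h3_rel K M h3
  have hh0 : pk85_h3 K M h3 ≠ 0 := by
    intro h0
    rw [h0] at hrel
    norm_num at hrel
  have hj : rm90_j K M =
      (pk85_h3 K M h3 + 27) * (pk85_h3 K M h3 + 243) ^ 3 * (pk85_h3 K M h3)⁻¹ ^ 3 := by
    rw [← hrel, mul_assoc, ← mul_pow, mul_inv_cancel₀ hh0, one_pow, mul_one]
  rw [hj]
  have h1 : pk85_h3 K M h3 ∈ Algebra.adjoin R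
      ({pk85_h3 K M h3, (pk85_h3 K M h3)⁻¹} : Set ↥(modularFunctionFieldFullC K M)) :=
    Algebra.subset_adjoin (Set.mem_insert _ _)
  have h1' : (pk85_h3 K M h3)⁻¹ ∈ Algebra.adjoin R
      ({pk85_h3 K M h3, (pk85_h3 K M h3)⁻¹} : Set ↥(modularFunctionFieldFullC K M)) :=
    Algebra.subset_adjoin (Set.mem_insert_of_mem _ (Set.mem_singleton _))
  exact Subalgebra.mul_mem _
    (Subalgebra.mul_mem _ (Subalgebra.add_mem _ h1 (uvi75_ofNat_mem _ 27))
      (Subalgebra.pow_mem _ (Subalgebra.add_mem _ h1 (uvi75_ofNat_mem _ 243)) 3))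
    (Subalgebra.pow_mem _ h1' 3)

/-- Integral over `R[j]` implies membership in the non-cuspidal chart, level 2. -/
theorem uvi75_mem_chart2_of_isIntegral (h2 : 2 ∣ M) (x : ↥(modularFunctionFieldFullC K M))
    (hx : IsIntegral
      (Algebra.adjoin R ({rm90_j K M} : Set ↥(modularFunctionFieldFullC K M))) x) :
    x ∈ pk15_chart R
      ({pk85_h2 K M h2, (pk85_h2 K M h2)⁻¹} : Set ↥(modularFunctionFieldFullC K M)) := by
  rw [pk15_mem_chart]
  refine pk15_isIntegral_mono (Algebra.adjoin_le ?_) hx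
  intro y hy
  rw [Set.mem_singleton_iff] at hy
  rw [hy]
  exact uvi75_j_mem_adjoin2 K M h2

/-- Integral over `R[j]` implies membership in the non-cuspidal chart, level 3. -/
theorem uvi75_mem_chart3_of_isIntegral (h3 : 3 ∣ M) (x : ↥(modularFunctionFieldFullC K M))
    (hx : IsIntegral
      (Algebra.adjoin R ({rm90_j K M} : Set ↥(modularFunctionFieldFullC K M))) x) :
    x ∈ pk15_chart R
      ({pk85_h3 K M h3, (pk85_h3 K M h3)⁻¹} : Set ↥(modularFunctionFieldFullC K M)) := by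
  rw [pk15_mem_chart]
  refine pk15_isIntegral_mono (Algebra.adjoin_le ?_) hx
  intro y hy
  rw [Set.mem_singleton_iff] at hy
  rw [hy]
  exact uvi75_j_mem_adjoin3 K M h3

/-- **(c2)** `U` and `V` lie in the chart `pk15_chart R {h, h⁻¹}`, level 2 Hauptmodul. -/
theorem uvi75_mem_chart2 (h2 : 2 ∣ M) (q : ℕ) (hq : q.Prime)
    (x y : ↥(modularFunctionFieldFullC K M))
    (hx : (x : LaurentSeries K) = coeffMap (Int.castRingHom K) (uvi75_U q))
    (hy : (y : LaurentSeries K) = coeffMap (Int.castRingHom K) (uvi75_V q)) :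
    x ∈ pk15_chart R
        ({pk85_h2 K M h2, (pk85_h2 K M h2)⁻¹} : Set ↥(modularFunctionFieldFullC K M)) ∧
      y ∈ pk15_chart R
        ({pk85_h2 K M h2, (pk85_h2 K M h2)⁻¹} : Set ↥(modularFunctionFieldFullC K M)) :=
  ⟨uvi75_mem_chart2_of_isIntegral K M h2 x (uvi75_isIntegral_j_U K M q hq x hx),
    uvi75_mem_chart2_of_isIntegral K M h2 y (uvi75_isIntegral_j_V K M q hq y hy)⟩

/-- **(c2)** `U` and `V` lie in the chart `pk15_chart R {h, h⁻¹}`, level 3 Hauptmodul. -/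
theorem uvi75_mem_chart3 (h3 : 3 ∣ M) (q : ℕ) (hq : q.Prime)
    (x y : ↥(modularFunctionFieldFullC K M))
    (hx : (x : LaurentSeries K) = coeffMap (Int.castRingHom K) (uvi75_U q))
    (hy : (y : LaurentSeries K) = coeffMap (Int.castRingHom K) (uvi75_V q)) :
    x ∈ pk15_chart R
        ({pk85_h3 K M h3, (pk85_h3 K M h3)⁻¹} : Set ↥(modularFunctionFieldFullC K M)) ∧
      y ∈ pk15_chart R
        ({pk85_h3 K M h3, (pk85_h3 K M h3)⁻¹} : Set ↥(modularFunctionFieldFullC K M)) :=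
  ⟨uvi75_mem_chart3_of_isIntegral K M h3 x (uvi75_isIntegral_j_U K M q hq x hx),
    uvi75_mem_chart3_of_isIntegral K M h3 y (uvi75_isIntegral_j_V K M q hq y hy)⟩

end Transfer

/-! ### Gauss valuation -/

section Gauss

variable {R K : Type} [CommRing R] [IsDomain R] [IsDiscreteValuationRing R] [Field K]
  [Algebra R K] [IsFractionRing R K] {M : ℕ} [Algebra R ↥(modularFunctionFieldFullC K M)]
  [IsScalarTower R K ↥(modularFunctionFieldFullC K M)]

theorem uvi75_coeffMap_int (S : LaurentSeries ℤ) :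
    coeffMap (Int.castRingHom K) S = coeffMap (algebraMap R K) (coeffMap (Int.castRingHom R) S) := by
  rw [coeffMap_coeffMap]
  exact coeffMap_congr (RingHom.ext_int _ _) S

/-- **(c3)** an element of `F(M)_K` with Laurent series `U = Δ(Q)/Δ(Q^q)` is a unit of the Gauss
valuation ring: `w_∞(U) = 0`. -/
theorem uvi75_gauss_unit {π : R} (hπ : Irreducible π) (q : ℕ)
    (x : ↥(modularFunctionFieldFullC K M))
    (hx : (x : LaurentSeries K) = coeffMap (Int.castRingHom K) (uvi75_U q)) :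
    x ∈ c1g55_V R K M hπ ∧ x⁻¹ ∈ c1g55_V R K M hπ := by
  refine ⟨(c1g55_gauss hπ x (coeffMap (Int.castRingHom R) (uvi75_U q))
    (by rw [hx, uvi75_coeffMap_int (R := R)])).1,
    (c1g55_gauss hπ x⁻¹ (coeffMap (Int.castRingHom R) (uvi75_Uinv q)) ?_).1⟩
  rw [← uvi75_coeffMap_int (R := R)]
  have h1 : ((x⁻¹ : ↥(modularFunctionFieldFullC K M)) : LaurentSeries K) =
      (x : LaurentSeries K)⁻¹ := by
    push_cast
    rfl
  rw [h1, hx]
  refine inv_eq_of_mul_eq_one_right ?_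
  rw [← map_mul, uvi75_U_mul_Uinv, map_one]

/-- **(c3)** an element of `F(M)_K` with Laurent series `V = q^12 Δ(Q^q)/Δ(Q)` lies in the Gauss
valuation ring. -/
theorem uvi75_gauss_V {π : R} (hπ : Irreducible π) (q : ℕ)
    (y : ↥(modularFunctionFieldFullC K M))
    (hy : (y : LaurentSeries K) = coeffMap (Int.castRingHom K) (uvi75_V q)) :
    y ∈ c1g55_V R K M hπ :=
  (c1g55_gauss hπ y (coeffMap (Int.castRingHom R) (uvi75_V q))
    (by rw [hy, uvi75_coeffMap_int (R := R)])).1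

end Gauss

end Fermat.Agent.S34
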