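import Fermat.Agent.S34.DeltaQuot56
import Fermat.Agent.S34.Iface47c
import Fermat.Agent.S34.UVIntegral75

/-!
# S34 lab, package P4' (helper56): the INSTANCE of the modular unit on the canonical frame data

Canonical data of `Iface47c` at level `M' * q` (`q` prime, `q ∤ M'`) over a discrete valuation
ring `R` with fraction field `K` of characteristic zero (`[Algebra K ℚ̄]`), `π` a uniformizer:
`V_∞ = cm85_Vinf (M' * q) hπ`, `w = al97L_w (algebraMap K ℚ̄) M' q hq hM'`,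
`V_0 = s34i47c_V0 M' q hq hM' hπ = V_∞.comap w`, `W = s34i47c_W`.

* `dq56b_U M' q hq`      : `U = Δ(Q)/Δ(Q^q)` as an element of `F_K(M' q)`;
* `dq56b_V M' q hq hM'`  : `V = w U`;
* `dq56b_mul`            : `U * V = q ^ 12`;
* `dq56b_U_mem_Vinf`, `dq56b_Uinv_mem_Vinf`, `dq56b_pi_U_notMem_Vinf` : `U` is a unit of `V_∞`;
* `dq56b_V_mem_V0`, `dq56b_Vinv_mem_V0`, `dq56b_pi_V_notMem_V0` : `V` is a unit of `V_0`;
* `dq56b_U_mem_W`, `dq56b_V_mem_W` : both lie in `W`;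
* `dq56b_U_integral`, `dq56b_V_integral` : both are integral over `R[j]` (helper75's `uvi75`);
* `dq56b_exists_pi`      : `q ^ 12 = π ^ e * ε`, `ε` a unit of `R`, `1 ≤ e`;
* `dq56b_main`           : the package in one statement (the hypotheses of the `UVAt` glue).

All names are prefixed `dq56b_`.
-/

set_option autoImplicit false
set_option linter.unusedSectionVars false

open ModularCurve AlgebraicCurve

namespace Fermat.Agent.S34

open Fermat.Agent.S18 Fermat.Agent.S28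

local notation "Q̄" => AlgebraicClosure ℚ

noncomputable section

section dq56b

variable {R K : Type} [CommRing R] [IsDomain R] [IsDiscreteValuationRing R] [Field K] [CharZero K]
  [Algebra R K] [IsFractionRing R K] [Algebra K Q̄]
  (M' q : ℕ) [NeZero M'] [NeZero q] (hq : q.Prime) (hM' : ¬ q ∣ M')

/-- The modular unit `U = Δ(Q)/Δ(Q^q)` as an element of `F_K(M' q)`. -/
def dq56b_U : ↥(modularFunctionFieldFullC K (M' * q)) :=
  ⟨dq56_U K q, dq56_U_mem_full K q hq (M' * q) (dvd_mul_left q M')⟩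

/-- `V = w_q U`. -/
def dq56b_V : ↥(modularFunctionFieldFullC K (M' * q)) :=
  al97L_w (algebraMap K Q̄) M' q hq hM' (dq56b_U (K := K) M' q hq)

/-- `J(Q^q)` as an element of `F_K(M' q)`. -/
def dq56b_jq : ↥(modularFunctionFieldFullC K (M' * q)) :=
  ⟨qExpand K q (jqModC K), jqModCd_mem_full K (M' * q) (dvd_mul_left q M')⟩

theorem dq56b_w_j :
    al97L_w (algebraMap K Q̄) M' q hq hM' (rm90_j K (M' * q)) = dq56b_jq (K := K) M' q :=
  Subtype.ext (al97L_w_alpha (algebraMap K Q̄) M' q hq hM'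
    ⟨jqModC K, jqModC_mem_full K M'⟩ (rm90_j K (M' * q)) rfl)

theorem dq56b_w_jq :
    al97L_w (algebraMap K Q̄) M' q hq hM' (dq56b_jq (K := K) M' q) = rm90_j K (M' * q) :=
  Subtype.ext (al97L_w_beta (algebraMap K Q̄) M' q hq hM'
    ⟨jqModC K, jqModC_mem_full K M'⟩ (dq56b_jq (K := K) M' q) rfl)

/-- **`U * V = q ^ 12`.** -/
theorem dq56b_mul :
    dq56b_U (K := K) M' q hq * dq56b_V (K := K) M' q hq hM' =
      (q : ↥(modularFunctionFieldFullC K (M' * q))) ^ 12 :=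
  dq56_w_mul K q hq
    (algebraMap ↥(modularFunctionFieldFullC K (M' * q)) (LaurentSeries K))
    ((al97L_w (algebraMap K Q̄) M' q hq hM' :
      ↥(modularFunctionFieldFullC K (M' * q)) ≃ₐ[K] ↥(modularFunctionFieldFullC K (M' * q))) :
      ↥(modularFunctionFieldFullC K (M' * q)) →+* ↥(modularFunctionFieldFullC K (M' * q)))
    (rm90_j K (M' * q)) (dq56b_jq (K := K) M' q) (dq56b_U (K := K) M' q hq) rfl
    (JdC_of_neZero K q).symm rfl (dq56b_w_j M' q hq hM') (dq56b_w_jq M' q hq hM')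

theorem dq56b_U_ne_zero : dq56b_U (K := K) M' q hq ≠ 0 := by
  intro h
  have h1 := congrArg (fun x : ↥(modularFunctionFieldFullC K (M' * q)) => (x : LaurentSeries K)) h
  exact dq56_U_ne_zero K q h1

theorem dq56b_w_V :
    al97L_w (algebraMap K Q̄) M' q hq hM' (dq56b_V (K := K) M' q hq hM') =
      dq56b_U (K := K) M' q hq :=
  al97L_w_w (algebraMap K Q̄) M' q hq hM' _

/-- `V = q ^ 12 * U⁻¹`. -/
theorem dq56b_V_eq :
    dq56b_V (K := K) M' q hq hM' =
      (q : ↥(modularFunctionFieldFullC K (M' * q))) ^ 12 * (dq56b_U (K := K) M' q hq)⁻¹ := by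
  rw [eq_mul_inv_iff_mul_eq₀ (dq56b_U_ne_zero M' q hq)]
  exact (mul_comm _ _).trans (dq56b_mul M' q hq hM')

/-! ### Coefficients -/

theorem dq56b_U_coe {S : Type*} [CommRing S] (φ : S →+* K) :
    ((dq56b_U (K := K) M' q hq : ↥(modularFunctionFieldFullC K (M' * q))) : LaurentSeries K) =
      coeffMap φ (dq56_U S q) :=
  (dq56_coeffMap_U q φ).symm

theorem dq56b_Uinv_coe {S : Type*} [CommRing S] (φ : S →+* K) :
    (((dq56b_U (K := K) M' q hq)⁻¹ : ↥(modularFunctionFieldFullC K (M' * q))) :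
      LaurentSeries K) = coeffMap φ (dq56_Uinv S q) := by
  rw [dq56_coeffMap_Uinv]
  have h : (((dq56b_U (K := K) M' q hq)⁻¹ : ↥(modularFunctionFieldFullC K (M' * q))) :
      LaurentSeries K) = (dq56_U K q)⁻¹ := rfl
  rw [h]
  exact inv_eq_of_mul_eq_one_right (dq56_U_mul_Uinv K q)

theorem dq56b_V_coe :
    ((dq56b_V (K := K) M' q hq hM' : ↥(modularFunctionFieldFullC K (M' * q))) :
      LaurentSeries K) = coeffMap (Int.castRingHom K) (uvi75_V q) := by
  rw [dq56b_V_eq]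
  have h : (((q : ↥(modularFunctionFieldFullC K (M' * q))) ^ 12 *
      (dq56b_U (K := K) M' q hq)⁻¹ : ↥(modularFunctionFieldFullC K (M' * q))) :
      LaurentSeries K) = (q : LaurentSeries K) ^ 12 *
        (((dq56b_U (K := K) M' q hq)⁻¹ : ↥(modularFunctionFieldFullC K (M' * q))) :
          LaurentSeries K) := by
    push_cast
    rfl
  rw [h, dq56b_Uinv_coe M' q hq (Int.castRingHom K)]
  unfold uvi75_V dq56_Uinv
  simp only [map_mul, map_pow, map_natCast]
  ring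

/-! ### The Gauss valuation -/

variable [Algebra R ↥(modularFunctionFieldFullC K (M' * q))]
  [IsScalarTower R K ↥(modularFunctionFieldFullC K (M' * q))] {π : R} (hπ : Irreducible π)

theorem dq56b_U_mem_Vinf :
    dq56b_U (K := K) M' q hq ∈ cm85_Vinf (K := K) (M' * q) hπ :=
  (pk85_gauss (M' * q) hπ _ _ (dq56b_U_coe M' q hq (algebraMap R K))).1

theorem dq56b_Uinv_mem_Vinf :
    (dq56b_U (K := K) M' q hq)⁻¹ ∈ cm85_Vinf (K := K) (M' * q) hπ :=
  (pk85_gauss (M' * q) hπ _ _ (dq56b_Uinv_coe M' q hq (algebraMap R K))).1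

theorem dq56b_pi_U_notMem_Vinf :
    (algebraMap R ↥(modularFunctionFieldFullC K (M' * q)) π)⁻¹ * dq56b_U (K := K) M' q hq ∉
      cm85_Vinf (K := K) (M' * q) hπ := by
  intro h
  have h1 := (pk85_gauss (M' * q) hπ _ _ (dq56b_U_coe M' q hq (algebraMap R K))).2.mp h
  rw [dq56_coeffMap_U] at h1
  exact dq56_U_ne_zero _ q h1

theorem dq56b_natCast_mem_Vinf (n : ℕ) :
    (n : ↥(modularFunctionFieldFullC K (M' * q))) ∈ cm85_Vinf (K := K) (M' * q) hπ := by
  have h := pk85_hRV (K := K) (M' * q) hπ (n : R)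
  rwa [map_natCast] at h

theorem dq56b_V_mem_Vinf :
    dq56b_V (K := K) M' q hq hM' ∈ cm85_Vinf (K := K) (M' * q) hπ := by
  rw [dq56b_V_eq]
  exact mul_mem (pow_mem (dq56b_natCast_mem_Vinf M' q hπ q) 12) (dq56b_Uinv_mem_Vinf M' q hq hπ)

theorem dq56b_V_mem_V0 :
    dq56b_V (K := K) M' q hq hM' ∈ s34i47c_V0 (K := K) M' q hq hM' hπ := by
  rw [s34i47c_mem_V0, dq56b_w_V]
  exact dq56b_U_mem_Vinf M' q hq hπ

theorem dq56b_U_mem_V0 :
    dq56b_U (K := K) M' q hq ∈ s34i47c_V0 (K := K) M' q hq hM' hπ := by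
  rw [s34i47c_mem_V0]
  exact dq56b_V_mem_Vinf M' q hq hM' hπ

theorem dq56b_pi_V_notMem_V0 :
    (algebraMap R ↥(modularFunctionFieldFullC K (M' * q)) π)⁻¹ * dq56b_V (K := K) M' q hq hM' ∉
      s34i47c_V0 (K := K) M' q hq hM' hπ := by
  rw [s34i47c_mem_V0, map_mul, map_inv₀, dq56b_w_V,
    IsScalarTower.algebraMap_apply R K ↥(modularFunctionFieldFullC K (M' * q)), AlgEquiv.commutes,
    ← IsScalarTower.algebraMap_apply R K ↥(modularFunctionFieldFullC K (M' * q))]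
  exact dq56b_pi_U_notMem_Vinf M' q hq hπ

theorem dq56b_Vinv_mem_V0 :
    (dq56b_V (K := K) M' q hq hM')⁻¹ ∈ s34i47c_V0 (K := K) M' q hq hM' hπ := by
  rw [s34i47c_mem_V0, map_inv₀, dq56b_w_V]
  exact dq56b_Uinv_mem_Vinf M' q hq hπ

theorem dq56b_U_mem_W :
    dq56b_U (K := K) M' q hq ∈ s34i47c_W (K := K) M' q hq hM' hπ :=
  (s34i47c_mem_W M' q hq hM' hπ _).mpr
    ⟨dq56b_U_mem_Vinf M' q hq hπ, dq56b_V_mem_Vinf M' q hq hM' hπ⟩

theorem dq56b_V_mem_W :
    dq56b_V (K := K) M' q hq hM' ∈ s34i47c_W (K := K) M' q hq hM' hπ :=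
  (s34i47c_mem_W M' q hq hM' hπ _).mpr
    ⟨dq56b_V_mem_Vinf M' q hq hM' hπ, by rw [dq56b_w_V]; exact dq56b_U_mem_Vinf M' q hq hπ⟩

/-! ### Integrality over `R[j]` -/

theorem dq56b_U_integral :
    IsIntegral (Algebra.adjoin R
      ({rm90_j K (M' * q)} : Set ↥(modularFunctionFieldFullC K (M' * q))))
      (dq56b_U (K := K) M' q hq) :=
  uvi75_isIntegral_j_U K (M' * q) q hq _ (dq56b_U_coe M' q hq (Int.castRingHom K))

theorem dq56b_V_integral :
    IsIntegral (Algebra.adjoin R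
      ({rm90_j K (M' * q)} : Set ↥(modularFunctionFieldFullC K (M' * q))))
      (dq56b_V (K := K) M' q hq hM') :=
  uvi75_isIntegral_j_V K (M' * q) q hq _ (dq56b_V_coe M' q hq hM')

/-! ### `q ^ 12 = π ^ e * unit` -/

include hπ in
theorem dq56b_exists_pi (hq0 : (q : R) ≠ 0) (hqR : ¬ IsUnit (q : R)) :
    ∃ (e : ℕ) (ε : R), IsUnit ε ∧ 1 ≤ e ∧ (q : R) ^ 12 = π ^ e * ε := by
  obtain ⟨n, u, hu⟩ := IsDiscreteValuationRing.associated_pow_irreducible hq0 hπ
  have hqn : (q : R) = π ^ n * ((u⁻¹ : Rˣ) : R) := by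
    rw [← hu, mul_assoc, Units.mul_inv, mul_one]
  have hn : 1 ≤ n := by
    rcases Nat.eq_zero_or_pos n with h0 | h0
    · exfalso
      apply hqR
      rw [hqn, h0, pow_zero, one_mul]
      exact Units.isUnit _
    · exact h0
  refine ⟨n * 12, (((u⁻¹ : Rˣ) ^ 12 : Rˣ) : R), Units.isUnit _, by omega, ?_⟩
  rw [hqn, mul_pow, ← pow_mul, Units.val_pow_eq_pow_val]

/-- **The package** (the `U`, `V` hypotheses of the `UVAt` glue, on the canonical frame data). -/
theorem dq56b_main (hqR : ¬ IsUnit (q : R)) :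
    ∃ (U V : ↥(modularFunctionFieldFullC K (M' * q))) (e : ℕ) (ε : R),
      IsUnit ε ∧ 1 ≤ e ∧
      U * V = algebraMap R ↥(modularFunctionFieldFullC K (M' * q)) (π ^ e * ε) ∧
      IsIntegral (Algebra.adjoin R
        ({rm90_j K (M' * q)} : Set ↥(modularFunctionFieldFullC K (M' * q)))) U ∧
      IsIntegral (Algebra.adjoin R
        ({rm90_j K (M' * q)} : Set ↥(modularFunctionFieldFullC K (M' * q)))) V ∧
      U ∈ cm85_Vinf (K := K) (M' * q) hπ ∧
      (algebraMap R ↥(modularFunctionFieldFullC K (M' * q)) π)⁻¹ * U ∉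
        cm85_Vinf (K := K) (M' * q) hπ ∧
      V ∈ s34i47c_V0 (K := K) M' q hq hM' hπ ∧
      (algebraMap R ↥(modularFunctionFieldFullC K (M' * q)) π)⁻¹ * V ∉
        s34i47c_V0 (K := K) M' q hq hM' hπ ∧
      U ∈ s34i47c_W (K := K) M' q hq hM' hπ ∧ V ∈ s34i47c_W (K := K) M' q hq hM' hπ ∧
      U⁻¹ ∈ cm85_Vinf (K := K) (M' * q) hπ ∧ V⁻¹ ∈ s34i47c_V0 (K := K) M' q hq hM' hπ := by
  have hq0 : (q : R) ≠ 0 := by
    intro h
    have h1 := congrArg (algebraMap R K) h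
    rw [map_natCast, map_zero] at h1
    exact (Nat.cast_ne_zero.mpr (NeZero.ne q)) h1
  obtain ⟨e, ε, hε, he, hqe⟩ := dq56b_exists_pi q hπ hq0 hqR
  refine ⟨dq56b_U (K := K) M' q hq, dq56b_V (K := K) M' q hq hM', e, ε, hε, he, ?_,
    dq56b_U_integral M' q hq, dq56b_V_integral M' q hq hM', dq56b_U_mem_Vinf M' q hq hπ,
    dq56b_pi_U_notMem_Vinf M' q hq hπ, dq56b_V_mem_V0 M' q hq hM' hπ,
    dq56b_pi_V_notMem_V0 M' q hq hM' hπ, dq56b_U_mem_W M' q hq hM' hπ,
    dq56b_V_mem_W M' q hq hM' hπ, dq56b_Uinv_mem_Vinf M' q hq hπ,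
    dq56b_Vinv_mem_V0 M' q hq hM' hπ⟩
  rw [dq56b_mul, ← hqe, map_pow, map_natCast]

end dq56b

end

end Fermat.Agent.S34
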