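import Mathlib
import Fermat.Agent.S18.Pack15

/-!
# S34 lab (helper17), registry row 511: the glue `sf79_UVAt`, abstract part

Setting of the application: `F = F(q M')_K`, `B` a chart `pk15_chart R {h}` or `{h⁻¹}`,
`V1 = V_∞`, `V2 = V_0`, `j` the `j`-function, `U = Δ(τ)/Δ(qτ)`, `V = q^12 / U`.

* `uv17_chart_intClosed` : the charts `pk15_chart R s` are integrally closed in `F`.
* `uv17_clear` : if `x` is integral over `R[j]` and `s * j ∈ B` with `s ∈ B` (`B` integrally
  closed in `F`), then `s ^ k * x ∈ B` for some `k`.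
* `uv17_UVAt` : the UNFOLDED statement `sf79_UVAt π B V1 V2` of registry row 470:
  at every maximal `n ∋ π` of `B` lying on both branches there are `u v s : B` and `e ≥ 1` with
  `s ∉ n`, `u * v = π ^ e * s`, `π⁻¹ u ∉ V1`, `π⁻¹ v ∉ V2`.
  Inputs: `U`, `V` integral over `R[j]`; `U * V = π ^ e * ε` (`ε` a unit of `R`); `U` a unit of
  `V1`, `V` a unit of `V2`; and `j` regular at every such `n` (`∃ s ∉ n, s * j ∈ B`).

All names are prefixed `uv17_`.  Mathlib + S18/Pack15 only.
-/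

set_option autoImplicit false
set_option linter.style.haveILetI false

namespace Fermat.Agent.S34

open Fermat.Agent.S18

section

variable {R : Type*} [CommRing R] {F : Type*} [Field F] [Algebra R F]

/-- The charts are integrally closed in `F`. -/
theorem uv17_chart_intClosed (s : Set F) (z : F) (hz : IsIntegral (pk15_chart R s) z) :
    z ∈ pk15_chart R s := by
  rw [pk15_mem_chart]
  have h1 : IsIntegral (integralClosure (Algebra.adjoin R s) F) z := hz
  exact isIntegral_trans z h1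

/-- Clearing the denominator of `j`: integral over `R[j]`, `s * j ∈ B` ⟹ `s ^ k * x ∈ B`. -/
theorem uv17_clear (B : Subalgebra R F) (hBint : ∀ z : F, IsIntegral B z → z ∈ B)
    (j x : F) (hx : IsIntegral (Algebra.adjoin R ({j} : Set F)) x)
    (s : F) (hs : s ∈ B) (hsj : s * j ∈ B) : ∃ k : ℕ, s ^ k * x ∈ B := by
  have hle : B ≤ B ⊔ Algebra.adjoin R ({j} : Set F) := le_sup_left
  have hloc : ∀ a ∈ B ⊔ Algebra.adjoin R ({j} : Set F), ∃ k : ℕ, s ^ k * a ∈ B := by
    intro a ha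
    have ha' : a ∈ Algebra.adjoin R ((B : Set F) ∪ ({j} : Set F)) := by
      rw [Algebra.adjoin_union, Algebra.adjoin_eq]
      exact ha
    induction ha' using Algebra.adjoin_induction with
    | mem y hy =>
      rcases hy with hy | hy
      · exact ⟨0, by rw [pow_zero, one_mul]; exact hy⟩
      · rw [Set.mem_singleton_iff] at hy
        subst hy
        exact ⟨1, by rw [pow_one]; exact hsj⟩
    | algebraMap r => exact ⟨0, by rw [pow_zero, one_mul]; exact B.algebraMap_mem r⟩
    | add a b _ _ iha ihb =>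
      obtain ⟨k, hk⟩ := iha (by
        rw [← Algebra.adjoin_eq B, ← Algebra.adjoin_union]; assumption)
      obtain ⟨l, hl⟩ := ihb (by
        rw [← Algebra.adjoin_eq B, ← Algebra.adjoin_union]; assumption)
      refine ⟨k + l, ?_⟩
      have : s ^ (k + l) * (a + b) = s ^ l * (s ^ k * a) + s ^ k * (s ^ l * b) := by
        rw [pow_add]; ring
      rw [this]
      exact B.add_mem (B.mul_mem (B.pow_mem hs l) hk) (B.mul_mem (B.pow_mem hs k) hl)
    | mul a b _ _ iha ihb =>
      obtain ⟨k, hk⟩ := iha (by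
        rw [← Algebra.adjoin_eq B, ← Algebra.adjoin_union]; assumption)
      obtain ⟨l, hl⟩ := ihb (by
        rw [← Algebra.adjoin_eq B, ← Algebra.adjoin_union]; assumption)
      refine ⟨k + l, ?_⟩
      have : s ^ (k + l) * (a * b) = (s ^ k * a) * (s ^ l * b) := by rw [pow_add]; ring
      rw [this]
      exact B.mul_mem hk hl
  have hx' : IsIntegral (↥(B ⊔ Algebra.adjoin R ({j} : Set F))) x :=
    pk15_isIntegral_mono le_sup_right hx
  obtain ⟨k, hk⟩ := pk15_scale hle s hs hloc hx'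
  exact ⟨k, hBint _ hk⟩

/-- **The glue `sf79_UVAt`** (unfolded form of registry row 470). -/
theorem uv17_UVAt (π : R) (hπ0 : algebraMap R F π ≠ 0) (B : Subalgebra R F)
    (hBint : ∀ z : F, IsIntegral B z → z ∈ B) (V1 V2 : ValuationSubring F)
    (j U V : F)
    (hU : IsIntegral (Algebra.adjoin R ({j} : Set F)) U)
    (hV : IsIntegral (Algebra.adjoin R ({j} : Set F)) V)
    (e : ℕ) (he : 1 ≤ e) (ε : R) (hε : IsUnit ε)
    (hUV : U * V = algebraMap R F (π ^ e * ε))
    (hU1 : U⁻¹ ∈ V1) (hV2 : V⁻¹ ∈ V2)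
    (hj : ∀ n : Ideal B, n.IsMaximal → algebraMap R B π ∈ n →
      (∀ x : B, (algebraMap R F π)⁻¹ * (x : F) ∈ V1 → x ∈ n) →
      (∀ x : B, (algebraMap R F π)⁻¹ * (x : F) ∈ V2 → x ∈ n) →
      ∃ s : B, s ∉ n ∧ (s : F) * j ∈ B) :
    ∀ n : Ideal B, n.IsMaximal → algebraMap R B π ∈ n →
      (∀ x : B, (algebraMap R F π)⁻¹ * (x : F) ∈ V1 → x ∈ n) →
      (∀ x : B, (algebraMap R F π)⁻¹ * (x : F) ∈ V2 → x ∈ n) →
      ∃ (u v s : B) (e : ℕ), s ∉ n ∧ 1 ≤ e ∧ u * v = (algebraMap R B π) ^ e * s ∧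
        (algebraMap R F π)⁻¹ * (u : F) ∉ V1 ∧ (algebraMap R F π)⁻¹ * (v : F) ∉ V2 := by
  intro n hn hπn h1 h2
  haveI : n.IsPrime := hn.isPrime
  obtain ⟨s, hs, hsj⟩ := hj n hn hπn h1 h2
  obtain ⟨k, hk⟩ := uv17_clear B hBint j U hU (s : F) s.2 hsj
  obtain ⟨l, hl⟩ := uv17_clear B hBint j V hV (s : F) s.2 hsj
  have hεF : algebraMap R F ε ≠ 0 := by
    obtain ⟨ε', hε'⟩ := hε.exists_right_inv
    intro h0
    have : algebraMap R F (ε * ε') = 0 := by rw [map_mul, h0, zero_mul]
    rw [hε', map_one] at this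
    exact one_ne_zero this
  have hUV0 : U * V ≠ 0 := by
    rw [hUV, map_mul, map_pow]
    exact mul_ne_zero (pow_ne_zero _ hπ0) hεF
  have hU0 : U ≠ 0 := left_ne_zero_of_mul hUV0
  have hV0 : V ≠ 0 := right_ne_zero_of_mul hUV0
  have hsk : ∀ m : ℕ, s ^ m ∉ n := fun m hm => hs (Ideal.IsPrime.mem_of_pow_mem inferInstance m hm)
  refine ⟨⟨(s : F) ^ k * U, hk⟩, ⟨(s : F) ^ l * V, hl⟩, algebraMap R B ε * s ^ (k + l), e, ?_, he,
    ?_, ?_, ?_⟩
  · intro hmem
    obtain ⟨ε', hε'⟩ := hε.exists_left_inv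
    have h3 : algebraMap R B ε' * (algebraMap R B ε * s ^ (k + l)) ∈ n := n.mul_mem_left _ hmem
    rw [← mul_assoc, ← map_mul, hε', map_one, one_mul] at h3
    exact hsk _ h3
  · apply Subtype.ext
    show (s : F) ^ k * U * ((s : F) ^ l * V) =
      ((algebraMap R B π ^ e * (algebraMap R B ε * s ^ (k + l)) : B) : F)
    have h4 : ((algebraMap R B π ^ e * (algebraMap R B ε * s ^ (k + l)) : B) : F) =
        algebraMap R F π ^ e * (algebraMap R F ε * (s : F) ^ (k + l)) := by
      push_cast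
      rfl
    rw [h4]
    calc (s : F) ^ k * U * ((s : F) ^ l * V) = (s : F) ^ (k + l) * (U * V) := by
          rw [pow_add]; ring
      _ = algebraMap R F π ^ e * (algebraMap R F ε * (s : F) ^ (k + l)) := by
          rw [hUV, map_mul, map_pow]; ring
  · intro hmem
    have h5 : (algebraMap R F π)⁻¹ * (((s ^ k : B) : B) : F) ∈ V1 := by
      have h6 : (algebraMap R F π)⁻¹ * (((s ^ k : B) : B) : F) =
          (algebraMap R F π)⁻¹ * ((s : F) ^ k * U) * U⁻¹ := by
        push_cast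
        field_simp
      rw [h6]
      exact V1.mul_mem _ _ hmem hU1
    exact hsk k (h1 _ h5)
  · intro hmem
    have h5 : (algebraMap R F π)⁻¹ * (((s ^ l : B) : B) : F) ∈ V2 := by
      have h6 : (algebraMap R F π)⁻¹ * (((s ^ l : B) : B) : F) =
          (algebraMap R F π)⁻¹ * ((s : F) ^ l * V) * V⁻¹ := by
        push_cast
        field_simp
      rw [h6]
      exact V2.mul_mem _ _ hmem hV2
    exact hsk l (h2 _ h5)

end

end Fermat.Agent.S34
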