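import Fermat.Agent.S34.CuspFrame22
import Fermat.Agent.S34.UVAt17
import Fermat.Agent.S34.DeltaQuot56b
import Fermat.Agent.S34.SpecFibre79

/-!
# S34 lab (helper22): the literal `sf79_UVAt` for the canonical frame data

Canonical data of `Iface47c` at level `M' * q`: `V_∞ = cm85_Vinf (M' * q) hπ`,
`V_0 = s34i47c_V0 M' q hq hM' hπ`.  For EVERY admissible Hauptmodul `h`
(`s34i47c_IsHaupt K (M' * q) q h`) and both affine charts `B = pk15_chart R {h}`,
`pk15_chart R {h⁻¹}`:

  `sf79_UVAt π B V_∞.toSubring V_0.toSubring`   (`uvf22_UVAt`)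

i.e. at every maximal `n ∋ π` on both branches there are `u v s : B`, `e ≥ 1`, `s ∉ n`,
`u v = π ^ e s`, `π⁻¹ u ∉ V_∞`, `π⁻¹ v ∉ V_0`.

Inputs: `dq56b_main` (helper56: the modular units `U`, `V = w U`, `U V = q ^ 12`, integral over
`R[j]`), `uv17_UVAt` (helper17: abstract glue), `cf22_level2/3(_inv)` (helper22: `j` is regular at
every node; cusps are not nodes).
-/

set_option autoImplicit false
set_option linter.unusedSectionVars false
set_option linter.style.haveILetI false

open ModularCurve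

namespace Fermat.Agent.S34

open Fermat.Agent.S18 Fermat.Agent.S24

local notation "Q̄" => AlgebraicClosure ℚ

section

variable {R K : Type} [CommRing R] [IsDomain R] [IsDiscreteValuationRing R] [Field K] [CharZero K]
  [Algebra R K] [IsFractionRing R K] [Algebra K Q̄]
  (M' q : ℕ) [NeZero M'] [NeZero q] (hq : q.Prime) (hM' : ¬ q ∣ M')
  [Algebra R ↥(modularFunctionFieldFullC K (M' * q))]
  [IsScalarTower R K ↥(modularFunctionFieldFullC K (M' * q))] {π : R} (hπ : Irreducible π)

/-- `cm15_V0` (FrameGlue15) and `s34i47c_V0` (Iface47c) are the same valuation ring. -/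
theorem uvf22_V0_iff (x : ↥(modularFunctionFieldFullC K (M' * q))) :
    x ∈ cm15_V0 (algebraMap K Q̄) M' q hq hM' hπ ↔ x ∈ s34i47c_V0 (K := K) M' q hq hM' hπ :=
  Iff.rfl

/-- `sf79_UVAt` for a chart `pk15_chart R s` of the canonical frame, given that `j` is regular at
every node of the chart. -/
theorem uvf22_UVAt_of (hqR : ¬ IsUnit (q : R)) (s : Set ↥(modularFunctionFieldFullC K (M' * q)))
    (hj : ∀ n : Ideal ↥(pk15_chart R s), n.IsPrime →
      (∀ y : ↥(pk15_chart R s),
        (algebraMap R ↥(modularFunctionFieldFullC K (M' * q)) π)⁻¹ *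
          (y : ↥(modularFunctionFieldFullC K (M' * q))) ∈ cm85_Vinf (K := K) (M' * q) hπ → y ∈ n) →
      (∀ y : ↥(pk15_chart R s),
        (algebraMap R ↥(modularFunctionFieldFullC K (M' * q)) π)⁻¹ *
          (y : ↥(modularFunctionFieldFullC K (M' * q))) ∈
            cm15_V0 (algebraMap K Q̄) M' q hq hM' hπ → y ∈ n) →
      ∃ a b : ↥(pk15_chart R s), a ∉ n ∧
        (a : ↥(modularFunctionFieldFullC K (M' * q))) * rm90_j K (M' * q) =
          (b : ↥(modularFunctionFieldFullC K (M' * q)))) :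
    sf79_UVAt π (pk15_chart R s) (cm85_Vinf (K := K) (M' * q) hπ).toSubring
      (s34i47c_V0 (K := K) M' q hq hM' hπ).toSubring := by
  obtain ⟨U, V, e, ε, hε, he, hUV, hU, hV, -, -, -, -, -, -, hU1, hV2⟩ :=
    dq56b_main (K := K) M' q hq hM' hπ hqR
  have hπ0 : algebraMap R ↥(modularFunctionFieldFullC K (M' * q)) π ≠ 0 := by
    intro h0
    apply (ci22_Vinf_pi (K := K) (M' * q) hπ).2
    rw [h0, inv_zero]
    exact (cm85_Vinf (K := K) (M' * q) hπ).zero_mem
  intro n hn hπn h1 h2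
  exact uv17_UVAt π hπ0 (pk15_chart R s) (uv17_chart_intClosed s)
    (cm85_Vinf (K := K) (M' * q) hπ) (s34i47c_V0 (K := K) M' q hq hM' hπ)
    (rm90_j K (M' * q)) U V hU hV e he ε hε hUV hU1 hV2
    (fun n hn _ h1 h2 => by
      obtain ⟨a, b, ha, hab⟩ := hj n hn.isPrime h1 h2
      exact ⟨a, ha, by rw [hab]; exact b.2⟩) n hn hπn h1 h2

/-- **`sf79_UVAt` for the canonical frame**: every admissible Hauptmodul, both affine charts. -/
theorem uvf22_UVAt (hunit : ∀ n : ℕ, Nat.Coprime n q → IsUnit (n : R)) (hqR : ¬ IsUnit (q : R))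
    (h : ↥(modularFunctionFieldFullC K (M' * q))) (hh : s34i47c_IsHaupt K (M' * q) q h) :
    sf79_UVAt π (pk15_chart R ({h} : Set ↥(modularFunctionFieldFullC K (M' * q))))
        (cm85_Vinf (K := K) (M' * q) hπ).toSubring
        (s34i47c_V0 (K := K) M' q hq hM' hπ).toSubring ∧
      sf79_UVAt π (pk15_chart R ({h⁻¹} : Set ↥(modularFunctionFieldFullC K (M' * q))))
        (cm85_Vinf (K := K) (M' * q) hπ).toSubring
        (s34i47c_V0 (K := K) M' q hq hM' hπ).toSubring := by
  rcases hh with ⟨hq2, h2, rfl⟩ | ⟨hq3, h3, rfl⟩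
  · have hcop : Nat.Coprime 2 q := (Nat.coprime_primes Nat.prime_two hq).mpr (Ne.symm hq2)
    have h2' : 2 ∣ M' := hcop.dvd_of_dvd_mul_right h2
    have h2u : IsUnit (2 : R) := by
      have := hunit 2 hcop
      rwa [Nat.cast_ofNat] at this
    exact ⟨uvf22_UVAt_of M' q hq hM' hπ hqR _ (fun n hn h1 h2 =>
        haveI := hn
        cf22_level2 (algebraMap K Q̄) M' q hq hM' hπ hqR h2' h2u n h1 h2),
      uvf22_UVAt_of M' q hq hM' hπ hqR _ (fun n hn h1 h2 =>
        haveI := hn
        cf22_level2_inv (algebraMap K Q̄) M' q hq hM' hπ hqR h2' n h1 h2)⟩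
  · have hcop : Nat.Coprime 3 q := (Nat.coprime_primes Nat.prime_three hq).mpr (Ne.symm hq3)
    have h3' : 3 ∣ M' := hcop.dvd_of_dvd_mul_right h3
    have h3u : IsUnit (3 : R) := by
      have := hunit 3 hcop
      rwa [Nat.cast_ofNat] at this
    exact ⟨uvf22_UVAt_of M' q hq hM' hπ hqR _ (fun n hn h1 h2 =>
        haveI := hn
        cf22_level3 (algebraMap K Q̄) M' q hq hM' hπ hqR h3' h3u n h1 h2),
      uvf22_UVAt_of M' q hq hM' hπ hqR _ (fun n hn h1 h2 =>
        haveI := hn
        cf22_level3_inv (algebraMap K Q̄) M' q hq hM' hπ hqR h3' n h1 h2)⟩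

end

end Fermat.Agent.S34
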