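import Fermat.Agent.S34.SpecFibre79
import Fermat.Agent.S34.Iface47c
import Fermat.Agent.S34.FrameSat85
import Fermat.Agent.S34.BranchInf93
import Fermat.Agent.S34.TwoValFull2
import Fermat.Agent.S34.BranchZeroInst13
import Fermat.Agent.S34.UVAtFrame22
import Fermat.Agent.S34.TransvChart50
import Fermat.Agent.S34.FrobInsepDVR50
import Fermat.Agent.S34.SpecFibreInf79

/-!
# S34 lab (helper71): FRAME-LS of `Iface47c`, the route-1 binder

Canonical data of `Iface47c` at level `M' * q` (`q` prime, `q ∤ M'`, residue characteristic `q`):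
`V_∞ = cm85_Vinf (M' * q) hπ`, `V_0 = s34i47c_V0 M' q hq hM' hπ`, charts
`B = pk15_chart R {h}`, `pk15_chart R {h⁻¹}` of an admissible Hauptmodul `h`.

* `fl71_F1`          : residue degree one in the shape `bi93_F1` (from `tv2c_res_one_inf`);
* `fl71_smooth_of_unif` : `bi93_Unif` gives the literal `sf79_Smooth` for `V_∞`;
* `fl71_smooth_inf`  : `sf79_Smooth π B V_∞` for both charts of every admissible Hauptmodul;
* `fl71_transv_chart`, `fl71_transv` : `sf79_Transv π B V_∞ V_0` (via `tr50_transv`, `tr50_hins`,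
  `tr50_frac_of_sat`, `ins50_frob_Vzero`);
* `fl71_frameLS`, `fl71_pkg_frameLS` : the package `s34i47c_Pkg_FrameLS` (via `sf79_locStr`).
-/

set_option autoImplicit false
set_option linter.unusedSectionVars false
set_option linter.style.haveILetI false

open ModularCurve

namespace Fermat.Agent.S34

open Fermat.Agent.S18 Fermat.Agent.S24

local notation "Q̄" => AlgebraicClosure ℚ

section fl71_gen

variable {R K : Type} [CommRing R] [IsDomain R] [IsDiscreteValuationRing R] [Field K] [CharZero K]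
  [Algebra R K] [IsFractionRing R K]
  (M' M : ℕ) [NeZero M'] [NeZero M]
  [Algebra R ↥(modularFunctionFieldFullC K M')]
  [IsScalarTower R K ↥(modularFunctionFieldFullC K M')]
  [Algebra R ↥(modularFunctionFieldFullC K M)]
  [IsScalarTower R K ↥(modularFunctionFieldFullC K M)]

/-- `bi93_Unif` gives the literal `sf79_Smooth` for the Gauss valuation ring. -/
theorem fl71_smooth_of_unif (hdvd : M' ∣ M) {π : R} (hπ : Irreducible π)
    (s' : Set ↥(modularFunctionFieldFullC K M')) (s : Set ↥(modularFunctionFieldFullC K M))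
    (hU : bi93_Unif (K := K) M' M hdvd hπ s' s) :
    sf79_Smooth π (pk15_chart R s) (cm85_Vinf (K := K) M hπ).toSubring := by
  intro n hn _ hbr
  obtain ⟨-, -, z, hz, -, hzu⟩ := hU n hn.isPrime hbr
  exact ⟨z, hz, hzu⟩

end fl71_gen

section fl71_canon

variable {R K : Type} [CommRing R] [IsDomain R] [IsDiscreteValuationRing R] [Field K] [CharZero K]
  [Algebra R K] [IsFractionRing R K] [Algebra K Q̄]
  (M' q : ℕ) [NeZero M'] [NeZero q] (hq : q.Prime) (hM' : ¬ q ∣ M')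
  [Algebra R ↥(modularFunctionFieldFullC K M')]
  [IsScalarTower R K ↥(modularFunctionFieldFullC K M')]
  [Algebra R ↥(modularFunctionFieldFullC K (M' * q))]
  [IsScalarTower R K ↥(modularFunctionFieldFullC K (M' * q))]

include hq hM' in
/-- **Residue degree one** of `V_∞` over the Gauss ring of level `M'`, in the shape `bi93_F1`. -/
theorem fl71_F1 {π : R} (hπ : Irreducible π) (hqR : ¬ IsUnit (q : R)) :
    bi93_F1 (R := R) (K := K) M' (M' * q) (dvd_mul_right M' q) hπ := by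
  intro x hx
  obtain ⟨b, hb, hb'⟩ := tv2c_res_one_inf (R := R) (K := K) M' q hq hM' hπ hqR x hx
  exact ⟨b, hb, hb'⟩

include hq in
/-- `π⁻¹ ∉ V_0`. -/
theorem fl71_pi_V0 {π : R} (hπ : Irreducible π) :
    (algebraMap R ↥(modularFunctionFieldFullC K (M' * q)) π)⁻¹ ∉
      (s34i47c_V0 (K := K) M' q hq hM' hπ).toSubring := by
  intro hmem
  have h1 : (algebraMap R ↥(modularFunctionFieldFullC K (M' * q)) π)⁻¹ ∈
      s34i47c_V0 (K := K) M' q hq hM' hπ := hmem
  rw [s34i47c_mem_V0, map_inv₀,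
    IsScalarTower.algebraMap_apply R K ↥(modularFunctionFieldFullC K (M' * q)), AlgEquiv.commutes,
    ← IsScalarTower.algebraMap_apply R K ↥(modularFunctionFieldFullC K (M' * q))] at h1
  exact (ci22_Vinf_pi (K := K) (M' * q) hπ).2 h1

include hq in
/-- **(3b) on a chart** `B = pk15_chart R s` of level `M' * q` lying over the chart
`B' = pk15_chart R s'` of the good level `M'`: `α B' ⊆ B`, `w B = B`, `B = α B' + (B ∩ π V_∞)`,
`B'` saturated in `V'` with fractions. -/
theorem fl71_transv_chart {π : R} (hπ : Irreducible π) (hqR : ¬ IsUnit (q : R))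
    (hchar : (q : IsLocalRing.ResidueField R) = 0)
    (hperf : ∀ c : IsLocalRing.ResidueField R, ∃ d : IsLocalRing.ResidueField R, d ^ q = c)
    (s' : Set ↥(modularFunctionFieldFullC K M'))
    (s : Set ↥(modularFunctionFieldFullC K (M' * q)))
    [IsNoetherianRing (pk15_chart R s)]
    (hs'V : ∀ g ∈ s', g ∈ cm85_Vinf (K := K) M' hπ)
    (hsat' : cm15_Sat R π s' (cm85_Vinf (K := K) M' hπ).toSubring)
    (hfrac' : ∀ x : ↥(modularFunctionFieldFullC K M'),
      ∃ a ∈ pk15_chart R s', ∃ b ∈ pk15_chart R s', b ≠ 0 ∧ x * b = a)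
    (hαB : ∀ x ∈ pk15_chart R s', al97L_alpha K M' q x ∈ pk15_chart R s)
    (hwB : ∀ z : ↥(modularFunctionFieldFullC K (M' * q)),
      bz13_w M' q hq hM' z ∈ pk15_chart R s ↔ z ∈ pk15_chart R s)
    (hsurj : bi93_Surj (K := K) M' (M' * q) (dvd_mul_right M' q) hπ s' s)
    (hB₁ : ∀ x ∈ pk15_chart R s, x ∈ (cm85_Vinf (K := K) (M' * q) hπ).toSubring)
    (hB₂ : ∀ x ∈ pk15_chart R s, x ∈ (s34i47c_V0 (K := K) M' q hq hM' hπ).toSubring)
    (hS₁ : sf79_Smooth π (pk15_chart R s) (cm85_Vinf (K := K) (M' * q) hπ).toSubring)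
    (hS₂ : sf79_Smooth π (pk15_chart R s) (s34i47c_V0 (K := K) M' q hq hM' hπ).toSubring) :
    sf79_Transv π (pk15_chart R s) (cm85_Vinf (K := K) (M' * q) hπ).toSubring
      (s34i47c_V0 (K := K) M' q hq hM' hπ).toSubring := by
  have hπV₀ := fl71_pi_V0 (R := R) (K := K) M' q hq hM' hπ
  have hV₂ : ∀ x ∈ (s34i47c_V0 (K := K) M' q hq hM' hπ).toSubring,
      (algebraMap R ↥(modularFunctionFieldFullC K (M' * q)) π)⁻¹ * x ∉
        (s34i47c_V0 (K := K) M' q hq hM' hπ).toSubring →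
      x⁻¹ ∈ (s34i47c_V0 (K := K) M' q hq hM' hπ).toSubring := by
    intro x hx hx'
    by_contra hcon
    exact hx' (tv2c_hmax_zero (R := R) (K := K) M' q hq hM' hπ hqR x hx hcon)
  -- the chart of level `M'` lies in `V'`
  have hB'V' : ∀ x ∈ (pk15_chart R s').toSubring, x ∈ (cm85_Vinf (K := K) M' hπ).toSubring :=
    fun x hx => pk15_chart_le_V (cm85_Vinf (K := K) M' hπ) (pk85_hRV M' hπ) s' hs'V x hx
  -- `β B' ⊆ B`
  have hβC : ∀ x ∈ ((pk15_chart R s').toSubring : Set ↥(modularFunctionFieldFullC K M')),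
      (al97L_beta K M' q : ↥(modularFunctionFieldFullC K M') →+*
        ↥(modularFunctionFieldFullC K (M' * q))) x ∈ pk15_chart R s := by
    intro x hx
    have h1 := (hwB (al97L_alpha K M' q x)).mpr (hαB x hx)
    rw [bz13_w_apply, al97L_w_alpha_apply] at h1
    exact h1
  -- `β V' ⊆ V_0`
  have hβV : ∀ x ∈ (cm85_Vinf (K := K) M' hπ).toSubring,
      (al97L_beta K M' q : ↥(modularFunctionFieldFullC K M') →+*
        ↥(modularFunctionFieldFullC K (M' * q))) x ∈
        (s34i47c_V0 (K := K) M' q hq hM' hπ).toSubring := by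
    intro x hx
    show al97L_beta K M' q x ∈ s34i47c_V0 (K := K) M' q hq hM' hπ
    rw [s34i47c_mem_V0, al97L_w_beta_apply]
    exact wi18_incl_mem M' (M' * q) (dvd_mul_right M' q) hπ x hx
  -- Frobenius
  have hfrob : ∀ x ∈ (cm85_Vinf (K := K) M' hπ).toSubring,
      ∃ x₁ ∈ (cm85_Vinf (K := K) M' hπ).toSubring,
        (algebraMap R ↥(modularFunctionFieldFullC K (M' * q)) π)⁻¹ *
          ((al97L_alpha K M' q : ↥(modularFunctionFieldFullC K M') →+*
              ↥(modularFunctionFieldFullC K (M' * q))) x -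
            (al97L_beta K M' q : ↥(modularFunctionFieldFullC K M') →+*
              ↥(modularFunctionFieldFullC K (M' * q))) x₁ ^ q) ∈
          (s34i47c_V0 (K := K) M' q hq hM' hπ).toSubring := by
    intro x hx
    obtain ⟨x₁, hx₁, h1⟩ := ins50_frob_Vzero (R := R) (K := K) M' q (algebraMap K Q̄) hπ hq hM'
      hchar hperf x hx
    refine ⟨x₁, hx₁, ?_⟩
    rw [IsScalarTower.algebraMap_apply R K ↥(modularFunctionFieldFullC K (M' * q))]
    exact h1
  -- fractions of `V'` in the chart `B'`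
  have hmax' : ∀ x ∈ (cm85_Vinf (K := K) M' hπ).toSubring,
      x⁻¹ ∉ (cm85_Vinf (K := K) M' hπ).toSubring →
      (algebraMap R ↥(modularFunctionFieldFullC K M') π)⁻¹ * x ∈
        (cm85_Vinf (K := K) M' hπ).toSubring := by
    intro x hx hx'
    rw [IsScalarTower.algebraMap_apply R K ↥(modularFunctionFieldFullC K M')]
    exact gv85_hmax (IsLocalRing.residue R) π (pk85_res_iff hπ) hπ.ne_zero _ _ x hx hx'
  have hfrac := tr50_frac_of_sat (algebraMap R ↥(modularFunctionFieldFullC K M') π)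
    (pk15_chart R s').toSubring (cm85_Vinf (K := K) M' hπ).toSubring hB'V' hmax'
    (fun x hx hx' => hsat' x hx hx') (fun x hx => wi18_arch M' hπ x hx)
    (fun x => hfrac' x)
  refine tr50_transv π (pk15_chart R s) _ _ hB₁ hB₂ hπV₀ hV₂ hS₁ hS₂ q hq.two_le ?_
  exact tr50_hins π (pk15_chart R s) _ _ hB₂ hπV₀
    (al97L_alpha K M' q : ↥(modularFunctionFieldFullC K M') →+*
      ↥(modularFunctionFieldFullC K (M' * q)))
    (al97L_beta K M' q : ↥(modularFunctionFieldFullC K M') →+*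
      ↥(modularFunctionFieldFullC K (M' * q)))
    (pk15_chart R s').toSubring (cm85_Vinf (K := K) M' hπ).toSubring
    ((pk15_chart R s').toSubring : Set ↥(modularFunctionFieldFullC K M'))
    (fun x hx => hαB x hx) hB'V' hβC hβV q
    (fun x => by
      obtain ⟨x', hx', h1⟩ := hsurj (x : ↥(modularFunctionFieldFullC K (M' * q))) x.2
      exact ⟨x', hx', h1⟩)
    hfrob
    (fun x hx => by
      obtain ⟨a, ha, c, hc, h1, h2, h3⟩ := hfrac x hx
      exact ⟨a, ha, c, hc, h1, h2, h3⟩)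

/-- `α` maps the chart of `s'` into the chart of `α '' s'`. -/
theorem fl71_alpha_chart (s' : Set ↥(modularFunctionFieldFullC K M'))
    (x : ↥(modularFunctionFieldFullC K M')) (hx : x ∈ pk15_chart R s') :
    al97L_alpha K M' q x ∈ pk15_chart R ((al97L_alpha K M' q) '' s') :=
  sf79i_map_mem ((al97L_alpha K M' q).restrictScalars R) s' x hx

include hq in
/-- **(LS) on one chart** `B = pk15_chart R s` of level `M' * q` lying over the chart
`B' = pk15_chart R s'` of the good level `M'`, from (3a) on the `∞`-branch and `sf79_UVAt`. -/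
theorem fl71_locStr_chart {π : R} (hπ : Irreducible π) (hqR : ¬ IsUnit (q : R))
    (hchar : (q : IsLocalRing.ResidueField R) = 0)
    (hperf : ∀ c : IsLocalRing.ResidueField R, ∃ d : IsLocalRing.ResidueField R, d ^ q = c)
    (s' : Set ↥(modularFunctionFieldFullC K M'))
    (s : Set ↥(modularFunctionFieldFullC K (M' * q)))
    [IsNoetherianRing (pk15_chart R s)]
    (hs'V : ∀ g ∈ s', g ∈ cm85_Vinf (K := K) M' hπ)
    (hsat' : cm15_Sat R π s' (cm85_Vinf (K := K) M' hπ).toSubring)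
    (hfrac' : ∀ x : ↥(modularFunctionFieldFullC K M'),
      ∃ a ∈ pk15_chart R s', ∃ b ∈ pk15_chart R s', b ≠ 0 ∧ x * b = a)
    (hαB : ∀ x ∈ pk15_chart R s', al97L_alpha K M' q x ∈ pk15_chart R s)
    (hwB : ∀ z : ↥(modularFunctionFieldFullC K (M' * q)),
      bz13_w M' q hq hM' z ∈ pk15_chart R s ↔ z ∈ pk15_chart R s)
    (hsurj : bi93_Surj (K := K) M' (M' * q) (dvd_mul_right M' q) hπ s' s)
    (hBW : ∀ x ∈ pk15_chart R s, x ∈ s34i47c_W (K := K) M' q hq hM' hπ)
    (hsat : ∀ x ∈ pk15_chart R s,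
      (algebraMap R ↥(modularFunctionFieldFullC K (M' * q)) π)⁻¹ * x ∈
        s34i47c_W (K := K) M' q hq hM' hπ →
      (algebraMap R ↥(modularFunctionFieldFullC K (M' * q)) π)⁻¹ * x ∈ pk15_chart R s)
    (hS₁ : sf79_Smooth π (pk15_chart R s) (cm85_Vinf (K := K) (M' * q) hπ).toSubring)
    (hUV : sf79_UVAt π (pk15_chart R s) (cm85_Vinf (K := K) (M' * q) hπ).toSubring
      (s34i47c_V0 (K := K) M' q hq hM' hπ).toSubring) :
    s34i47_LocStr π (pk15_chart R s) := by
  have hB₁ : ∀ x ∈ pk15_chart R s, x ∈ (cm85_Vinf (K := K) (M' * q) hπ).toSubring :=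
    fun x hx => ((s34i47c_mem_W M' q hq hM' hπ x).mp (hBW x hx)).1
  have hB₂ : ∀ x ∈ pk15_chart R s, x ∈ (s34i47c_V0 (K := K) M' q hq hM' hπ).toSubring :=
    fun x hx => ((s34i47c_mem_W M' q hq hM' hπ x).mp (hBW x hx)).2
  have hS₂ : sf79_Smooth π (pk15_chart R s) (s34i47c_V0 (K := K) M' q hq hM' hπ).toSubring :=
    bz13_smooth_comap π (pk15_chart R s) (bz13_w M' q hq hM')
      (bz13_w_algebraMap (R := R) M' q hq hM') hwB _ _ (fun x => Iff.rfl) hS₁
  have hT := fl71_transv_chart (R := R) (K := K) M' q hq hM' hπ hqR hchar hperf s' s hs'V hsat'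
    hfrac' hαB hwB hsurj hB₁ hB₂ hS₁ hS₂
  have hπ₁ : (algebraMap R ↥(modularFunctionFieldFullC K (M' * q)) π)⁻¹ ∉
      (cm85_Vinf (K := K) (M' * q) hπ).toSubring := (ci22_Vinf_pi (K := K) (M' * q) hπ).2
  have hπ₂ := fl71_pi_V0 (R := R) (K := K) M' q hq hM' hπ
  have hV₁ : ∀ x ∈ (cm85_Vinf (K := K) (M' * q) hπ).toSubring,
      (algebraMap R ↥(modularFunctionFieldFullC K (M' * q)) π)⁻¹ * x ∉
        (cm85_Vinf (K := K) (M' * q) hπ).toSubring →
      x⁻¹ ∈ (cm85_Vinf (K := K) (M' * q) hπ).toSubring := by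
    intro x hx hx'
    by_contra hcon
    exact hx' (cf22_Vinf_hmax M' q hπ x hx hcon)
  have hV₂ : ∀ x ∈ (s34i47c_V0 (K := K) M' q hq hM' hπ).toSubring,
      (algebraMap R ↥(modularFunctionFieldFullC K (M' * q)) π)⁻¹ * x ∉
        (s34i47c_V0 (K := K) M' q hq hM' hπ).toSubring →
      x⁻¹ ∈ (s34i47c_V0 (K := K) M' q hq hM' hπ).toSubring := by
    intro x hx hx'
    by_contra hcon
    exact hx' (tv2c_hmax_zero (R := R) (K := K) M' q hq hM' hπ hqR x hx hcon)
  exact sf79_locStr π (pk15_chart R s) _ _ hB₁ hB₂ hπ₁ hπ₂ hV₁ hV₂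
    (fun x hx h1 h2 => hsat x hx ((s34i47c_mem_W M' q hq hM' hπ _).mpr ⟨h1, h2⟩)) hS₁ hS₂ hT hUV

variable [Algebra.IsAlgebraic K Q̄]

include hq hM' in
/-- **(3a), `∞`-branch**: `sf79_Smooth π B V_∞` for both affine charts of every admissible
Hauptmodul. -/
theorem fl71_smooth_inf {π : R} (hπ : Irreducible π)
    (hunit : ∀ n : ℕ, Nat.Coprime n q → IsUnit (n : R)) (hqR : ¬ IsUnit (q : R))
    (h : ↥(modularFunctionFieldFullC K (M' * q))) (hh : s34i47c_IsHaupt K (M' * q) q h) :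
    sf79_Smooth π (pk15_chart R ({h} : Set ↥(modularFunctionFieldFullC K (M' * q))))
        (cm85_Vinf (K := K) (M' * q) hπ).toSubring ∧
      sf79_Smooth π (pk15_chart R ({h⁻¹} : Set ↥(modularFunctionFieldFullC K (M' * q))))
        (cm85_Vinf (K := K) (M' * q) hπ).toSubring := by
  have hdvd : M' ∣ M' * q := dvd_mul_right M' q
  have hMu : IsUnit (M' : R) := hunit M' ((Nat.Prime.coprime_iff_not_dvd hq).mpr hM').symm
  have hf1 := fl71_F1 (R := R) (K := K) M' q hq hM' hπ hqR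
  rcases hh with ⟨hq2, h2, rfl⟩ | ⟨hq3, h3, rfl⟩
  · have h2' : 2 ∣ M' :=
      ((Nat.coprime_primes Nat.prime_two hq).mpr (Ne.symm hq2)).dvd_of_dvd_mul_right h2
    obtain ⟨⟨-, hU₁⟩, ⟨-, hU₂⟩⟩ := bi93_level2 (R := R) (K := K) M' (M' * q) hdvd hπ h2' hMu hf1
    exact ⟨fl71_smooth_of_unif M' (M' * q) hdvd hπ _ _ hU₁,
      fl71_smooth_of_unif M' (M' * q) hdvd hπ _ _ hU₂⟩
  · have h3' : 3 ∣ M' :=
      ((Nat.coprime_primes Nat.prime_three hq).mpr (Ne.symm hq3)).dvd_of_dvd_mul_right h3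
    obtain ⟨⟨-, hU₁⟩, ⟨-, hU₂⟩⟩ := bi93_level3 (R := R) (K := K) M' (M' * q) hdvd hπ h3' hMu hf1
    exact ⟨fl71_smooth_of_unif M' (M' * q) hdvd hπ _ _ hU₁,
      fl71_smooth_of_unif M' (M' * q) hdvd hπ _ _ hU₂⟩

include hq hM' in
/-- **(LS) for both affine charts of an admissible Hauptmodul**, from the chart facts (C) of
`Iface47` for the canonical `W`. -/
theorem fl71_locStr {π : R} (hπ : Irreducible π)
    (hunit : ∀ n : ℕ, Nat.Coprime n q → IsUnit (n : R)) (hqR : ¬ IsUnit (q : R))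
    (hchar : (q : IsLocalRing.ResidueField R) = 0)
    (hperf : ∀ c : IsLocalRing.ResidueField R, ∃ d : IsLocalRing.ResidueField R, d ^ q = c)
    (h : ↥(modularFunctionFieldFullC K (M' * q))) (hh : s34i47c_IsHaupt K (M' * q) q h)
    (hC : s34i47_ChartProps K π (s34i47c_W (K := K) M' q hq hM' hπ) h) :
    s34i47_LocStr π (pk15_chart R ({h} : Set ↥(modularFunctionFieldFullC K (M' * q)))) ∧
      s34i47_LocStr π (pk15_chart R ({h⁻¹} : Set ↥(modularFunctionFieldFullC K (M' * q)))) := by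
  obtain ⟨-, hBW, hsat₁, hsat₂, -, hN₁, hN₂, -, -⟩ := hC
  haveI := hN₁
  haveI := hN₂
  have hdvd : M' ∣ M' * q := dvd_mul_right M' q
  have hMu : IsUnit (M' : R) := hunit M' ((Nat.Prime.coprime_iff_not_dvd hq).mpr hM').symm
  have hf1 := fl71_F1 (R := R) (K := K) M' q hq hM' hπ hqR
  obtain ⟨hw₁, hw₂, -⟩ := bz13_charts_stable (R := R) M' q hq hM' hunit h hh
  obtain ⟨hUV₁, hUV₂⟩ := uvf22_UVAt (R := R) (K := K) M' q hq hM' hπ hunit hqR h hh
  obtain ⟨hS₁, hS₂⟩ := fl71_smooth_inf (R := R) (K := K) M' q hq hM' hπ hunit hqR h hh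
  have hBW₁ : ∀ x ∈ pk15_chart R ({h} : Set ↥(modularFunctionFieldFullC K (M' * q))),
      x ∈ s34i47c_W (K := K) M' q hq hM' hπ := fun x hx =>
    hBW x (pk15_chart_mono (by simp) hx)
  have hBW₂ : ∀ x ∈ pk15_chart R ({h⁻¹} : Set ↥(modularFunctionFieldFullC K (M' * q))),
      x ∈ s34i47c_W (K := K) M' q hq hM' hπ := fun x hx =>
    hBW x (pk15_chart_mono (by simp) hx)
  rcases hh with ⟨hq2, h2, rfl⟩ | ⟨hq3, h3, rfl⟩
  · have h2' : 2 ∣ M' :=
      ((Nat.coprime_primes Nat.prime_two hq).mpr (Ne.symm hq2)).dvd_of_dvd_mul_right h2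
    obtain ⟨-, -, -, -, hhV, hhV', -, -, -, -, hfrac₁, hfrac₂, -⟩ :=
      cm85_facts_level2 (R := R) (K := K) M' hπ h2'
    obtain ⟨hs₁, hs₂, -⟩ := cm15_base_sat_level2 (R := R) (K := K) M' hπ h2' hMu
    obtain ⟨⟨hSj₁, -⟩, ⟨hSj₂, -⟩⟩ :=
      bi93_level2 (R := R) (K := K) M' (M' * q) hdvd hπ h2' hMu hf1
    have hhe : al97L_alpha K M' q (pk85_h2 K M' h2') = pk85_h2 K (M' * q) h2 :=
      Subtype.ext (by rw [al97L_alpha_coe, pk85_h2_coe, pk85_h2_coe])
    have hα₁ : ∀ x ∈ pk15_chart R ({pk85_h2 K M' h2'} : Set ↥(modularFunctionFieldFullC K M')),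
        al97L_alpha K M' q x ∈
          pk15_chart R ({pk85_h2 K (M' * q) h2} : Set ↥(modularFunctionFieldFullC K (M' * q))) := by
      intro x hx
      have h1 := fl71_alpha_chart (R := R) (K := K) M' q _ x hx
      rwa [Set.image_singleton, hhe] at h1
    have hα₂ : ∀ x ∈ pk15_chart R ({(pk85_h2 K M' h2')⁻¹} : Set ↥(modularFunctionFieldFullC K M')),
        al97L_alpha K M' q x ∈
          pk15_chart R ({(pk85_h2 K (M' * q) h2)⁻¹} :
            Set ↥(modularFunctionFieldFullC K (M' * q))) := by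
      intro x hx
      have h1 := fl71_alpha_chart (R := R) (K := K) M' q _ x hx
      rwa [Set.image_singleton, map_inv₀, hhe] at h1
    exact ⟨fl71_locStr_chart (R := R) (K := K) M' q hq hM' hπ hqR hchar hperf _ _
        (fun g hg => by rw [Set.mem_singleton_iff.mp hg]; exact hhV) hs₁ hfrac₁ hα₁ hw₁ hSj₁
        hBW₁ hsat₁ hS₁ hUV₁,
      fl71_locStr_chart (R := R) (K := K) M' q hq hM' hπ hqR hchar hperf _ _
        (fun g hg => by rw [Set.mem_singleton_iff.mp hg]; exact hhV') hs₂ hfrac₂ hα₂ hw₂ hSj₂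
        hBW₂ hsat₂ hS₂ hUV₂⟩
  · have h3' : 3 ∣ M' :=
      ((Nat.coprime_primes Nat.prime_three hq).mpr (Ne.symm hq3)).dvd_of_dvd_mul_right h3
    obtain ⟨-, -, -, -, hhV, hhV', -, -, -, -, hfrac₁, hfrac₂, -⟩ :=
      cm85_facts_level3 (R := R) (K := K) M' hπ h3'
    obtain ⟨hs₁, hs₂, -⟩ := cm15_base_sat_level3 (R := R) (K := K) M' hπ h3' hMu
    obtain ⟨⟨hSj₁, -⟩, ⟨hSj₂, -⟩⟩ :=
      bi93_level3 (R := R) (K := K) M' (M' * q) hdvd hπ h3' hMu hf1
    have hhe : al97L_alpha K M' q (pk85_h3 K M' h3') = pk85_h3 K (M' * q) h3 :=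
      Subtype.ext (by rw [al97L_alpha_coe, pk85_h3_coe, pk85_h3_coe])
    have hα₁ : ∀ x ∈ pk15_chart R ({pk85_h3 K M' h3'} : Set ↥(modularFunctionFieldFullC K M')),
        al97L_alpha K M' q x ∈
          pk15_chart R ({pk85_h3 K (M' * q) h3} : Set ↥(modularFunctionFieldFullC K (M' * q))) := by
      intro x hx
      have h1 := fl71_alpha_chart (R := R) (K := K) M' q _ x hx
      rwa [Set.image_singleton, hhe] at h1
    have hα₂ : ∀ x ∈ pk15_chart R ({(pk85_h3 K M' h3')⁻¹} : Set ↥(modularFunctionFieldFullC K M')),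
        al97L_alpha K M' q x ∈
          pk15_chart R ({(pk85_h3 K (M' * q) h3)⁻¹} :
            Set ↥(modularFunctionFieldFullC K (M' * q))) := by
      intro x hx
      have h1 := fl71_alpha_chart (R := R) (K := K) M' q _ x hx
      rwa [Set.image_singleton, map_inv₀, hhe] at h1
    exact ⟨fl71_locStr_chart (R := R) (K := K) M' q hq hM' hπ hqR hchar hperf _ _
        (fun g hg => by rw [Set.mem_singleton_iff.mp hg]; exact hhV) hs₁ hfrac₁ hα₁ hw₁ hSj₁
        hBW₁ hsat₁ hS₁ hUV₁,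
      fl71_locStr_chart (R := R) (K := K) M' q hq hM' hπ hqR hchar hperf _ _
        (fun g hg => by rw [Set.mem_singleton_iff.mp hg]; exact hhV') hs₂ hfrac₂ hα₂ hw₂ hSj₂
        hBW₂ hsat₂ hS₂ hUV₂⟩

end fl71_canon

section fl71_pkg

/-- **FRAME-LS** (`Iface47c`) at every level `M' * q`, `q ∤ M'`. -/
theorem fl71_frameLS (M' q : ℕ) [NeZero M'] [NeZero q] (hq : q.Prime) (hM' : ¬ q ∣ M') :
    s34i47c_FrameLS M' q := by
  intro R K _ _ _ _ _ _ _ _ _ _ π hπ hunit hqR h hh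
  haveI : Algebra.IsAlgebraic K Q̄ := fs85_isAlgebraic K
  letI : Algebra R ↥(modularFunctionFieldFullC K M') :=
    ((algebraMap K ↥(modularFunctionFieldFullC K M')).comp (algebraMap R K)).toAlgebra
  haveI : IsScalarTower R K ↥(modularFunctionFieldFullC K M') :=
    IsScalarTower.of_algebraMap_eq (fun _ => rfl)
  obtain ⟨hchar, hperf⟩ :=
    ins50_perfect (R := R) (K := K) (IsFractionRing.injective R K) hq hqR
  obtain ⟨-, hC⟩ := fs85_frameSat M' q hq hM' R K π hπ hunit hqR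
  exact fl71_locStr (R := R) (K := K) M' q hq hM' hπ hunit hqR hchar hperf h hh (hC h hh)

/-- **The package FRAME-LS** of `Iface47c`. -/
theorem fl71_pkg_frameLS : s34i47c_Pkg_FrameLS :=
  fun M' q _ _ hq hM' => fl71_frameLS M' q hq hM'

end fl71_pkg

end Fermat.Agent.S34
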