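import Mathlib

/-!
# S34 lab: the normality input (abstract, Mathlib only)

`A` is a Noetherian integrally closed domain with fraction field `F`.

* `hg19_principal_of_colon`: a prime of the form `(b : c)`, `b ≠ 0`, is locally principal,
  in the denominator-free form `∃ ϖ ∈ P, ∃ s ∉ P, ∀ y ∈ P, ∃ r, s * y = r * ϖ`.
* `hg19_mem_localization`: an element of `F` that is regular at every locally principal nonzero
  prime contained in a prime `n` is regular at `n`.
* `hg19_mem_range`: the global form.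
* `hg19_dichotomy`, `hg19_mem_of_valuation`: at a locally principal prime `P` the localisation is
  a valuation ring; an element of a valuation subring centred at `P` is regular at `P`.
* `hg19_eq_of_le`: a nonzero prime inside a locally principal prime is equal to it.
* `hg19_exists_valuationSubring`: the localisation at a locally principal prime as a
  `ValuationSubring`.
* `hg19_regular_of_valuations`: valuative criterion of regularity at a prime `n`.
* `hg19_regular_two_branches`: the same when the fibre `π = 0` has two branches `p₁`, `p₂` with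
  given valuation subrings; only the horizontal valuation subrings through `n` remain to be
  checked.

"Regular at `n`" always means `∃ s ∉ n, ∃ a, algebraMap A F s * x = algebraMap A F a`, and
"locally principal" means `∃ ϖ ∈ P, ∃ s ∉ P, ∀ y ∈ P, ∃ r, s * y = r * ϖ`.
-/

namespace Fermat.Agent.S34

section Colon

variable {A : Type*} [CommRing A] [IsDomain A] [IsNoetherianRing A] [IsIntegrallyClosed A]

/-- A prime ideal of the form `(b : c)` with `b ≠ 0` in a Noetherian integrally closed domain is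
locally principal. -/
theorem hg19_principal_of_colon (b c : A) (hb : b ≠ 0) (P : Ideal A) [hP : P.IsPrime]
    (hPdef : ∀ y, y ∈ P ↔ b ∣ y * c) :
    ∃ ϖ ∈ P, ∃ s, s ∉ P ∧ ∀ y ∈ P, ∃ r, s * y = r * ϖ := by
  classical
  have hbc : ¬ b ∣ c := by
    intro h
    apply hP.ne_top
    rw [Ideal.eq_top_iff_one, hPdef, one_mul]
    exact h
  -- an element `y₁ ∈ P` with `y₁ * c = b * s₁`, `s₁ ∉ P`
  have key : ∃ y₁ ∈ P, ∃ s₁, s₁ ∉ P ∧ y₁ * c = b * s₁ := by
    by_contra hcon
    -- then `c / b` stabilises the image of `P` in the fraction field, so it is integral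
    let F := FractionRing A
    let θ : F := algebraMap A F c / algebraMap A F b
    have hbF : algebraMap A F b ≠ 0 := by
      intro h
      exact hb ((IsFractionRing.injective A F) (by rw [h, map_zero]))
    let N : Submodule A F := Submodule.map (Algebra.linearMap A F) P
    have hN0 : N ≠ ⊥ := by
      intro h
      have hbP : b ∈ P := by rw [hPdef]; exact Dvd.intro _ rfl
      have : algebraMap A F b ∈ N := ⟨b, hbP, rfl⟩
      rw [h, Submodule.mem_bot] at this
      exact hbF this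
    have hNfg : N.FG := Submodule.FG.map _ (IsNoetherian.noetherian P)
    have hst : ∀ n ∈ N, θ • n ∈ N := by
      rintro _ ⟨y, hy, rfl⟩
      obtain ⟨r, hr⟩ := (hPdef y).mp hy
      have hrP : r ∈ P := by
        by_contra hrP
        exact hcon ⟨y, hy, r, hrP, hr⟩
      refine ⟨r, hrP, ?_⟩
      show algebraMap A F r = θ • algebraMap A F y
      rw [smul_eq_mul]
      show algebraMap A F r = algebraMap A F c / algebraMap A F b * algebraMap A F y
      rw [div_mul_eq_mul_div, eq_div_iff hbF, ← map_mul, ← map_mul, mul_comm r b, ← hr, mul_comm]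
    have hint : IsIntegral A θ := isIntegral_of_smul_mem_submodule N hN0 hNfg θ hst
    obtain ⟨a, ha⟩ := IsIntegrallyClosed.isIntegral_iff.mp hint
    apply hbc
    refine ⟨a, ?_⟩
    apply IsFractionRing.injective A F
    rw [map_mul, ha]
    show algebraMap A F c = algebraMap A F b * (algebraMap A F c / algebraMap A F b)
    rw [mul_div_cancel₀ _ hbF]
  obtain ⟨y₁, hy₁, s₁, hs₁, h1⟩ := key
  refine ⟨y₁, hy₁, s₁, hs₁, fun y hy => ?_⟩
  obtain ⟨r, hr⟩ := (hPdef y).mp hy
  refine ⟨r, ?_⟩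
  apply mul_left_cancel₀ hb
  calc b * (s₁ * y) = (y₁ * c) * y := by rw [h1]; ring
    _ = y₁ * (y * c) := by ring
    _ = b * (r * y₁) := by rw [hr]; ring

end Colon

section Local

variable {A : Type*} [CommRing A] [IsDomain A] [IsNoetherianRing A] [IsIntegrallyClosed A]
  {F : Type*} [Field F] [Algebra A F] [IsFractionRing A F]

/-- **Local Hartogs.** If `x : F` is regular at every nonzero locally principal prime contained
in the prime `n`, then `x` is regular at `n`. -/
theorem hg19_mem_localization (n : Ideal A) [hn : n.IsPrime] (x : F)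
    (h : ∀ P : Ideal A, P.IsPrime → P ≤ n → P ≠ ⊥ →
      (∃ ϖ ∈ P, ∃ s, s ∉ P ∧ ∀ y ∈ P, ∃ r, s * y = r * ϖ) →
      ∃ s, s ∉ P ∧ ∃ a : A, algebraMap A F s * x = algebraMap A F a) :
    ∃ s, s ∉ n ∧ ∃ a : A, algebraMap A F s * x = algebraMap A F a := by
  classical
  obtain ⟨a, b, hb, rfl⟩ := IsFractionRing.div_surjective (A := A) x
  have hb0 : b ≠ 0 := nonZeroDivisors.ne_zero hb
  have hbF : algebraMap A F b ≠ 0 := fun h0 =>
    hb0 ((IsFractionRing.injective A F) (by rw [h0, map_zero]))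
  -- regularity in terms of divisibility
  have hreg : ∀ s : A, b ∣ s * a →
      ∃ a' : A, algebraMap A F s * (algebraMap A F a / algebraMap A F b) = algebraMap A F a' := by
    rintro s ⟨a', ha'⟩
    refine ⟨a', ?_⟩
    rw [← mul_div_assoc, div_eq_iff hbF, ← map_mul, ← map_mul, ha', mul_comm]
  have hdvd : ∀ s a' : A,
      algebraMap A F s * (algebraMap A F a / algebraMap A F b) = algebraMap A F a' →
      b ∣ s * a := by
    intro s a' h'
    refine ⟨a', ?_⟩
    apply IsFractionRing.injective A F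
    rw [← mul_div_assoc, div_eq_iff hbF, ← map_mul, ← map_mul] at h'
    rw [h', mul_comm]
  by_contra hcon
  have hcon' : ∀ s : A, b ∣ s * a → s ∈ n := by
    intro s hs
    by_contra hsn
    exact hcon ⟨s, hsn, hreg s hs⟩
  -- the colon ideals `(b : a * y)`
  let I : A → Ideal A := fun y => Submodule.comap (LinearMap.mulRight A (a * y)) (Ideal.span {b})
  have hI : ∀ y t, t ∈ I y ↔ b ∣ t * (a * y) := by
    intro y t
    show t * (a * y) ∈ Ideal.span {b} ↔ _
    rw [Ideal.mem_span_singleton]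
  let 𝒮 : Set (Ideal A) := {J | ∃ y, J = I y ∧ J ≤ n}
  have hne : 𝒮.Nonempty := by
    refine ⟨I 1, 1, rfl, fun t ht => ?_⟩
    rw [hI, mul_one] at ht
    exact hcon' t ht
  obtain ⟨P, ⟨y₀, rfl, hPn⟩, hmax⟩ := set_has_maximal_iff_noetherian.mpr
    (inferInstance : IsNoetherian A A) 𝒮 hne
  have hmax' : ∀ y, I y ≤ n → I y₀ ≤ I y → I y ≤ I y₀ := by
    intro y hyn hle
    by_contra hnot
    exact hmax (I y) ⟨y, rfl, hyn⟩ (lt_of_le_not_ge hle hnot)
  have hPprime : (I y₀).IsPrime := by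
    refine ⟨fun htop => hn.ne_top (top_le_iff.mp (htop ▸ hPn)), ?_⟩
    intro u v huv
    by_contra hboth
    rw [not_or] at hboth
    obtain ⟨hu, hv⟩ := hboth
    rw [hI] at huv
    have hle : ∀ w, I y₀ ≤ I (y₀ * w) := by
      intro w t ht
      rw [hI] at ht ⊢
      obtain ⟨d, hd⟩ := ht
      exact ⟨d * w, by rw [← mul_assoc a, ← mul_assoc t, hd]; ring⟩
    by_cases hcase : I (y₀ * v) ≤ n
    · apply hu
      apply hmax' (y₀ * v) hcase (hle v)
      rw [hI]
      obtain ⟨d, hd⟩ := huv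
      exact ⟨d, by rw [← hd]; ring⟩
    · obtain ⟨w, hw, hwn⟩ := SetLike.not_le_iff_exists.mp hcase
      rw [hI] at hw
      have hwle : I (y₀ * w) ≤ n := by
        intro t ht
        rw [hI] at ht
        have htw : t * w ∈ I y₀ := by
          rw [hI]
          obtain ⟨d, hd⟩ := ht
          exact ⟨d, by rw [← hd]; ring⟩
        rcases hn.mem_or_mem (hPn htw) with h1 | h1
        · exact h1
        · exact absurd h1 hwn
      apply hv
      apply hmax' (y₀ * w) hwle (hle w)
      rw [hI]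
      obtain ⟨d, hd⟩ := hw
      exact ⟨d, by rw [← hd]; ring⟩
  have hbP : b ∈ I y₀ := by rw [hI]; exact Dvd.intro _ rfl
  have hP0 : I y₀ ≠ ⊥ := fun h0 => hb0 (by rw [h0] at hbP; exact hbP)
  have hprin := @hg19_principal_of_colon A _ _ _ _ b (a * y₀) hb0 (I y₀) hPprime (hI y₀)
  obtain ⟨s, hs, a', ha'⟩ := h (I y₀) hPprime hPn hP0 hprin
  apply hs
  rw [hI]
  obtain ⟨d, hd⟩ := hdvd s a' ha'
  exact ⟨d * y₀, by rw [← mul_assoc, hd]; ring⟩

/-- **Hartogs.** An element of the fraction field that is regular at every nonzero locally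
principal prime lies in `A`. -/
theorem hg19_mem_range (x : F)
    (h : ∀ P : Ideal A, P.IsPrime → P ≠ ⊥ →
      (∃ ϖ ∈ P, ∃ s, s ∉ P ∧ ∀ y ∈ P, ∃ r, s * y = r * ϖ) →
      ∃ s, s ∉ P ∧ ∃ a : A, algebraMap A F s * x = algebraMap A F a) :
    ∃ a : A, algebraMap A F a = x := by
  classical
  -- the ideal of denominators
  let D : Ideal A :=
    { carrier := {s | ∃ a : A, algebraMap A F s * x = algebraMap A F a}
      add_mem' := by
        rintro s t ⟨a, ha⟩ ⟨a', ha'⟩
        exact ⟨a + a', by rw [map_add, add_mul, ha, ha', map_add]⟩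
      zero_mem' := ⟨0, by rw [map_zero, zero_mul]⟩
      smul_mem' := by
        rintro c s ⟨a, ha⟩
        exact ⟨c * a, by rw [smul_eq_mul, map_mul, mul_assoc, ha, map_mul]⟩ }
  have hD : D = ⊤ := by
    by_contra hne
    obtain ⟨n, hnmax, hDn⟩ := Ideal.exists_le_maximal D hne
    have := hnmax.isPrime
    obtain ⟨s, hs, a, ha⟩ := hg19_mem_localization n x (fun P hP _ hP0 hpr => h P hP hP0 hpr)
    exact hs (hDn ⟨a, ha⟩)
  have h1 : (1 : A) ∈ D := by rw [hD]; exact Submodule.mem_top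
  obtain ⟨a, ha⟩ := h1
  exact ⟨a, by rw [← ha, map_one, one_mul]⟩

end Local

section Val

variable {A : Type*} [CommRing A] [IsDomain A] [IsNoetherianRing A]

/-- The saturation of the principal ideal `(a)` with respect to the powers of `s₀`. -/
def hg19_sat (s₀ a : A) : Ideal A where
  carrier := {t | ∃ j : ℕ, a ∣ s₀ ^ j * t}
  add_mem' := by
    rintro t t' ⟨j, hj⟩ ⟨j', hj'⟩
    refine ⟨j + j', ?_⟩
    rw [mul_add, pow_add]
    refine dvd_add ?_ ?_
    · rw [mul_right_comm]; exact hj.mul_right _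
    · rw [mul_assoc]; exact hj'.mul_left _
  zero_mem' := ⟨0, by rw [mul_zero]; exact dvd_zero a⟩
  smul_mem' := by
    rintro c t ⟨j, hj⟩
    refine ⟨j, ?_⟩
    rw [smul_eq_mul, mul_left_comm]
    exact hj.mul_left _

omit [IsDomain A] [IsNoetherianRing A] in
theorem hg19_mem_sat (s₀ a t : A) : t ∈ hg19_sat s₀ a ↔ ∃ j : ℕ, a ∣ s₀ ^ j * t := Iff.rfl

/-- At a locally principal prime every nonzero element is a unit times a power of the local
generator (denominator-free form). -/
theorem hg19_decomp (P : Ideal A) [hP : P.IsPrime] (ϖ s₀ : A) (hs₀ : s₀ ∉ P)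
    (hprin : ∀ y ∈ P, ∃ r, s₀ * y = r * ϖ) (hϖ : ϖ ∈ P) (a : A) (ha : a ≠ 0) :
    ∃ (k : ℕ) (s r : A), s ∉ P ∧ r ∉ P ∧ s * a = r * ϖ ^ k := by
  have hs₀0 : s₀ ≠ 0 := fun h => hs₀ (h ▸ P.zero_mem)
  have key : ∀ I : Ideal A, ∀ a : A, a ≠ 0 → hg19_sat s₀ a = I →
      ∃ (k : ℕ) (s r : A), s ∉ P ∧ r ∉ P ∧ s * a = r * ϖ ^ k := by
    intro I
    induction I using IsNoetherian.induction with
    | hgt I IH =>
      intro a ha hI
      by_cases haP : a ∈ P
      · obtain ⟨r₁, hr₁⟩ := hprin a haP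
        have hr₁0 : r₁ ≠ 0 := by
          rintro rfl
          rw [zero_mul] at hr₁
          exact (mul_ne_zero hs₀0 ha) hr₁
        have hlt : I < hg19_sat s₀ r₁ := by
          rw [← hI]
          refine lt_of_le_of_ne ?_ ?_
          · rintro t ⟨j, c, hc⟩
            refine ⟨j + 1, c * ϖ, ?_⟩
            calc s₀ ^ (j + 1) * t = s₀ * (s₀ ^ j * t) := by ring
              _ = (s₀ * a) * c := by rw [hc]; ring
              _ = r₁ * (c * ϖ) := by rw [hr₁]; ring
          · intro heq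
            have hmem : r₁ ∈ hg19_sat s₀ a := by
              rw [heq]
              exact ⟨0, by rw [pow_zero, one_mul]⟩
            obtain ⟨j, c, hc⟩ := hmem
            have h2 : a * s₀ ^ (j + 1) = a * (c * ϖ) := by
              calc a * s₀ ^ (j + 1) = s₀ ^ j * (s₀ * a) := by ring
                _ = s₀ ^ j * r₁ * ϖ := by rw [hr₁]; ring
                _ = a * (c * ϖ) := by rw [hc]; ring
            have h3 : s₀ ^ (j + 1) = c * ϖ := mul_left_cancel₀ ha h2
            have h4 : s₀ ^ (j + 1) ∈ P := by rw [h3]; exact P.mul_mem_left _ hϖ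
            exact hs₀ (hP.mem_of_pow_mem _ h4)
        obtain ⟨k, s, r, hs, hr, h⟩ := IH (hg19_sat s₀ r₁) hlt r₁ hr₁0 rfl
        refine ⟨k + 1, s * s₀, r, ?_, hr, ?_⟩
        · intro hmem
          rcases hP.mem_or_mem hmem with h1 | h1
          · exact hs h1
          · exact hs₀ h1
        · calc s * s₀ * a = s * (s₀ * a) := by ring
            _ = (s * r₁) * ϖ := by rw [hr₁]; ring
            _ = r * ϖ ^ (k + 1) := by rw [h]; ring
      · exact ⟨0, 1, a, (Ideal.ne_top_iff_one P).mp hP.ne_top, haP, by rw [one_mul, pow_zero, mul_one]⟩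
  exact key _ a ha rfl

/-- At a locally principal prime the localisation is a valuation ring. -/
theorem hg19_dichotomy (P : Ideal A) [hP : P.IsPrime] (ϖ s₀ : A) (hs₀ : s₀ ∉ P)
    (hprin : ∀ y ∈ P, ∃ r, s₀ * y = r * ϖ) (hϖ : ϖ ∈ P) (a b : A) (ha : a ≠ 0) (hb : b ≠ 0) :
    (∃ s, s ∉ P ∧ b ∣ s * a) ∨ (∃ s, s ∉ P ∧ ∃ y ∈ P, s * b = y * a) := by
  obtain ⟨i, s, r, hs, hr, h⟩ := hg19_decomp P ϖ s₀ hs₀ hprin hϖ a ha
  obtain ⟨j, s', r', hs', hr', h'⟩ := hg19_decomp P ϖ s₀ hs₀ hprin hϖ b hb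
  have hmul : ∀ u v : A, u ∉ P → v ∉ P → u * v ∉ P := by
    intro u v hu hv hmem
    rcases hP.mem_or_mem hmem with h1 | h1
    · exact hu h1
    · exact hv h1
  rcases le_or_gt j i with hji | hij
  · left
    refine ⟨r' * s, hmul _ _ hr' hs, r * ϖ ^ (i - j) * s', ?_⟩
    calc r' * s * a = r' * (s * a) := by ring
      _ = r' * (r * ϖ ^ i) := by rw [h]
      _ = r' * (r * ϖ ^ (i - j + j)) := by rw [Nat.sub_add_cancel hji]
      _ = r * ϖ ^ (i - j) * (r' * ϖ ^ j) := by rw [pow_add]; ring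
      _ = r * ϖ ^ (i - j) * (s' * b) := by rw [h']
      _ = b * (r * ϖ ^ (i - j) * s') := by ring
  · right
    refine ⟨r * s', hmul _ _ hr hs', r' * ϖ ^ (j - i) * s, ?_, ?_⟩
    · refine P.mul_mem_right _ (P.mul_mem_left _ ?_)
      have hpos : j - i ≠ 0 := Nat.sub_ne_zero_of_lt hij
      exact Ideal.pow_mem_of_mem P hϖ _ (Nat.pos_of_ne_zero hpos)
    · calc r * s' * b = r * (s' * b) := by ring
        _ = r * (r' * ϖ ^ j) := by rw [h']
        _ = r * (r' * ϖ ^ (j - i + i)) := by rw [Nat.sub_add_cancel hij.le]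
        _ = r' * ϖ ^ (j - i) * (r * ϖ ^ i) := by rw [pow_add]; ring
        _ = r' * ϖ ^ (j - i) * (s * a) := by rw [h]
        _ = r' * ϖ ^ (j - i) * s * a := by ring

variable {F : Type*} [Field F] [Algebra A F] [IsFractionRing A F]

/-- An element of a valuation subring centred at a locally principal prime `P` is regular
at `P`. -/
theorem hg19_mem_of_valuation (P : Ideal A) [hP : P.IsPrime]
    (hprin : ∃ ϖ ∈ P, ∃ s, s ∉ P ∧ ∀ y ∈ P, ∃ r, s * y = r * ϖ)
    (V : ValuationSubring F) (hunit : ∀ a : A, a ∉ P → (algebraMap A F a)⁻¹ ∈ V)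
    (hcentre : ∀ a ∈ P, a ≠ 0 → (algebraMap A F a)⁻¹ ∉ V) (x : F) (hx : x ∈ V) :
    ∃ s, s ∉ P ∧ ∃ a : A, algebraMap A F s * x = algebraMap A F a := by
  obtain ⟨ϖ, hϖ, s₀, hs₀, hprin⟩ := hprin
  have h1 : (1 : A) ∉ P := (Ideal.ne_top_iff_one P).mp hP.ne_top
  obtain ⟨a, b, hb, rfl⟩ := IsFractionRing.div_surjective (A := A) x
  have hb0 : b ≠ 0 := nonZeroDivisors.ne_zero hb
  have hinj := IsFractionRing.injective A F
  have hbF : algebraMap A F b ≠ 0 := fun h0 => hb0 (hinj (by rw [h0, map_zero]))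
  by_cases ha : a = 0
  · exact ⟨1, h1, 0, by rw [ha, map_zero, zero_div, mul_zero]⟩
  have haF : algebraMap A F a ≠ 0 := fun h0 => ha (hinj (by rw [h0, map_zero]))
  rcases hg19_dichotomy P ϖ s₀ hs₀ hprin hϖ a b ha hb0 with ⟨s, hs, a', ha'⟩ | ⟨s, hs, y, hy, hsy⟩
  · refine ⟨s, hs, a', ?_⟩
    rw [← mul_div_assoc, div_eq_iff hbF, ← map_mul, ← map_mul, ha', mul_comm]
  · exfalso
    have hs0 : s ≠ 0 := fun h0 => hs (h0 ▸ P.zero_mem)
    have hsF : algebraMap A F s ≠ 0 := fun h0 => hs0 (hinj (by rw [h0, map_zero]))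
    have hy0 : y ≠ 0 := by
      rintro rfl
      rw [zero_mul] at hsy
      exact (mul_ne_zero hs0 hb0) hsy
    have hyF : algebraMap A F y ≠ 0 := fun h0 => hy0 (hinj (by rw [h0, map_zero]))
    apply hcentre y hy hy0
    have hsy' : algebraMap A F s * algebraMap A F b = algebraMap A F y * algebraMap A F a := by
      rw [← map_mul, ← map_mul, hsy]
    have e : (algebraMap A F y)⁻¹ =
        algebraMap A F a / algebraMap A F b * (algebraMap A F s)⁻¹ := by
      field_simp
      linear_combination hsy'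
    rw [e]
    exact V.mul_mem _ _ hx (hunit s hs)


/-- A nonzero prime contained in a locally principal prime is equal to it. -/
theorem hg19_eq_of_le (P : Ideal A) [hP : P.IsPrime]
    (hprin : ∃ ϖ ∈ P, ∃ s, s ∉ P ∧ ∀ y ∈ P, ∃ r, s * y = r * ϖ)
    (Q : Ideal A) [hQ : Q.IsPrime] (hQ0 : Q ≠ ⊥) (hQP : Q ≤ P) : Q = P := by
  obtain ⟨ϖ, hϖ, s₀, hs₀, hprin⟩ := hprin
  refine le_antisymm hQP ?_
  obtain ⟨b, hbQ, hb0⟩ := Submodule.exists_mem_ne_zero_of_ne_bot hQ0
  obtain ⟨k, s, r, hs, hr, h⟩ := hg19_decomp P ϖ s₀ hs₀ hprin hϖ b hb0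
  have h1 : r * ϖ ^ k ∈ Q := by rw [← h]; exact Q.mul_mem_left _ hbQ
  have hϖQ : ϖ ∈ Q := by
    rcases hQ.mem_or_mem h1 with h2 | h2
    · exact absurd (hQP h2) hr
    · exact hQ.mem_of_pow_mem _ h2
  intro y hy
  obtain ⟨r', hr'⟩ := hprin y hy
  have h3 : s₀ * y ∈ Q := by rw [hr']; exact Q.mul_mem_left _ hϖQ
  rcases hQ.mem_or_mem h3 with h4 | h4
  · exact absurd (hQP h4) hs₀
  · exact h4

/-- The localisation at a locally principal prime, as a valuation subring of the fraction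
field. -/
theorem hg19_exists_valuationSubring (P : Ideal A) [hP : P.IsPrime]
    (hprin : ∃ ϖ ∈ P, ∃ s, s ∉ P ∧ ∀ y ∈ P, ∃ r, s * y = r * ϖ) :
    ∃ V : ValuationSubring F, ∀ x : F,
      x ∈ V ↔ ∃ s, s ∉ P ∧ ∃ a : A, algebraMap A F s * x = algebraMap A F a := by
  obtain ⟨ϖ, hϖ, s₀, hs₀, hprin⟩ := hprin
  have h1 : (1 : A) ∉ P := (Ideal.ne_top_iff_one P).mp hP.ne_top
  have hinj := IsFractionRing.injective A F
  have hmul : ∀ u v : A, u ∉ P → v ∉ P → u * v ∉ P := by
    intro u v hu hv hmem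
    rcases hP.mem_or_mem hmem with h2 | h2
    · exact hu h2
    · exact hv h2
  refine ⟨{ carrier := {x | ∃ s, s ∉ P ∧ ∃ a : A, algebraMap A F s * x = algebraMap A F a}
            mul_mem' := ?_
            one_mem' := ⟨1, h1, 1, by rw [map_one, mul_one]⟩
            add_mem' := ?_
            zero_mem' := ⟨1, h1, 0, by rw [map_zero, mul_zero]⟩
            neg_mem' := ?_
            mem_or_inv_mem' := ?_ }, fun x => Iff.rfl⟩
  · rintro x x' ⟨s, hs, a, ha⟩ ⟨s', hs', a', ha'⟩
    refine ⟨s * s', hmul _ _ hs hs', a * a', ?_⟩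
    rw [map_mul, map_mul, ← ha, ← ha']
    ring
  · rintro x x' ⟨s, hs, a, ha⟩ ⟨s', hs', a', ha'⟩
    refine ⟨s * s', hmul _ _ hs hs', s' * a + s * a', ?_⟩
    rw [map_add, map_mul, map_mul, map_mul, ← ha, ← ha']
    ring
  · rintro x ⟨s, hs, a, ha⟩
    exact ⟨s, hs, -a, by rw [map_neg, ← ha, mul_neg]⟩
  · intro x
    obtain ⟨a, b, hb, rfl⟩ := IsFractionRing.div_surjective (A := A) x
    have hb0 : b ≠ 0 := nonZeroDivisors.ne_zero hb
    have hbF : algebraMap A F b ≠ 0 := fun h0 => hb0 (hinj (by rw [h0, map_zero]))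
    by_cases ha : a = 0
    · left
      exact ⟨1, h1, 0, by rw [ha, map_zero, zero_div, mul_zero]⟩
    have haF : algebraMap A F a ≠ 0 := fun h0 => ha (hinj (by rw [h0, map_zero]))
    rcases hg19_dichotomy P ϖ s₀ hs₀ hprin hϖ a b ha hb0 with
      ⟨s, hs, a', ha'⟩ | ⟨s, hs, y, hy, hsy⟩
    · left
      refine ⟨s, hs, a', ?_⟩
      rw [← mul_div_assoc, div_eq_iff hbF, ← map_mul, ← map_mul, ha', mul_comm]
    · right
      refine ⟨s, hs, y, ?_⟩
      rw [inv_div, ← mul_div_assoc, div_eq_iff haF, ← map_mul, ← map_mul, hsy]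

end Val

section Turnkey

variable {A : Type*} [CommRing A] [IsDomain A] [IsNoetherianRing A] [IsIntegrallyClosed A]
  {F : Type*} [Field F] [Algebra A F] [IsFractionRing A F]

/-- **Valuative criterion of regularity.** `x : F` is regular at the prime `n` as soon as it
lies in every nontrivial valuation subring of `F` which contains `A` and in which the elements
outside `n` are units. -/
theorem hg19_regular_of_valuations (n : Ideal A) [hn : n.IsPrime] (x : F)
    (h : ∀ V : ValuationSubring F, (∀ a : A, algebraMap A F a ∈ V) →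
      (∀ a : A, a ∉ n → (algebraMap A F a)⁻¹ ∈ V) → V ≠ ⊤ → x ∈ V) :
    ∃ s, s ∉ n ∧ ∃ a : A, algebraMap A F s * x = algebraMap A F a := by
  have hinj := IsFractionRing.injective A F
  refine hg19_mem_localization n x fun P hP hPn hP0 hprin => ?_
  obtain ⟨V, hV⟩ := @hg19_exists_valuationSubring A _ _ _ F _ _ _ P hP hprin
  have h1 : (1 : A) ∉ P := (Ideal.ne_top_iff_one P).mp hP.ne_top
  rw [← hV]
  apply h V
  · intro a
    rw [hV]
    exact ⟨1, h1, a, by rw [map_one, one_mul]⟩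
  · intro a ha
    have haP : a ∉ P := fun h' => ha (hPn h')
    have ha0 : algebraMap A F a ≠ 0 := fun h0 =>
      haP ((hinj (by rw [h0, map_zero]) : a = 0) ▸ P.zero_mem)
    rw [hV]
    exact ⟨a, haP, 1, by rw [mul_inv_cancel₀ ha0, map_one]⟩
  · intro htop
    obtain ⟨y, hyP, hy0⟩ := Submodule.exists_mem_ne_zero_of_ne_bot hP0
    have hyF : algebraMap A F y ≠ 0 := fun h0 => hy0 (hinj (by rw [h0, map_zero]))
    have hmem : (algebraMap A F y)⁻¹ ∈ V := by rw [htop]; trivial
    rw [hV] at hmem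
    obtain ⟨s, hs, a, ha⟩ := hmem
    apply hs
    have : s = a * y := by
      apply hinj
      rw [map_mul, ← ha, inv_mul_cancel_right₀ hyF]
    rw [this]
    exact P.mul_mem_left _ hyP

/-- **Regularity at a point of a two-branch fibre.** `π : A`; `p₁`, `p₂` nonzero primes such that
every prime containing `π` contains one of them (the two branches of the fibre `π = 0`); `V₁`,
`V₂` valuation subrings centred at `p₁`, `p₂`.  If `x` lies in `V₁`, in `V₂`, and in every
nontrivial valuation subring containing `A` and `π⁻¹` in which the elements outside `n` are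
units (the horizontal places through `n`), then `x` is regular at `n`. -/
theorem hg19_regular_two_branches (n : Ideal A) [hn : n.IsPrime] (π : A) (x : F)
    (p₁ p₂ : Ideal A) [hp₁ : p₁.IsPrime] [hp₂ : p₂.IsPrime] (hp₁0 : p₁ ≠ ⊥) (hp₂0 : p₂ ≠ ⊥)
    (hcover : ∀ P : Ideal A, P.IsPrime → π ∈ P → p₁ ≤ P ∨ p₂ ≤ P)
    (V₁ V₂ : ValuationSubring F)
    (hunit₁ : ∀ a : A, a ∉ p₁ → (algebraMap A F a)⁻¹ ∈ V₁)
    (hcentre₁ : ∀ a ∈ p₁, a ≠ 0 → (algebraMap A F a)⁻¹ ∉ V₁)
    (hunit₂ : ∀ a : A, a ∉ p₂ → (algebraMap A F a)⁻¹ ∈ V₂)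
    (hcentre₂ : ∀ a ∈ p₂, a ≠ 0 → (algebraMap A F a)⁻¹ ∉ V₂)
    (hx₁ : x ∈ V₁) (hx₂ : x ∈ V₂)
    (hhor : ∀ V : ValuationSubring F, (∀ a : A, algebraMap A F a ∈ V) →
      (∀ a : A, a ∉ n → (algebraMap A F a)⁻¹ ∈ V) → (algebraMap A F π)⁻¹ ∈ V → V ≠ ⊤ → x ∈ V) :
    ∃ s, s ∉ n ∧ ∃ a : A, algebraMap A F s * x = algebraMap A F a := by
  have hinj := IsFractionRing.injective A F
  refine hg19_mem_localization n x fun P hP hPn hP0 hprin => ?_
  by_cases hπP : π ∈ P
  · rcases hcover P hP hπP with hle | hle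
    · have heq : p₁ = P := @hg19_eq_of_le A _ _ _ P hP hprin p₁ hp₁ hp₁0 hle
      subst heq
      exact hg19_mem_of_valuation p₁ hprin V₁ hunit₁ hcentre₁ x hx₁
    · have heq : p₂ = P := @hg19_eq_of_le A _ _ _ P hP hprin p₂ hp₂ hp₂0 hle
      subst heq
      exact hg19_mem_of_valuation p₂ hprin V₂ hunit₂ hcentre₂ x hx₂
  · obtain ⟨V, hV⟩ := @hg19_exists_valuationSubring A _ _ _ F _ _ _ P hP hprin
    have h1 : (1 : A) ∉ P := (Ideal.ne_top_iff_one P).mp hP.ne_top
    rw [← hV]
    apply hhor V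
    · intro a
      rw [hV]
      exact ⟨1, h1, a, by rw [map_one, one_mul]⟩
    · intro a ha
      have haP : a ∉ P := fun h' => ha (hPn h')
      have ha0 : algebraMap A F a ≠ 0 := fun h0 =>
        haP ((hinj (by rw [h0, map_zero]) : a = 0) ▸ P.zero_mem)
      rw [hV]
      exact ⟨a, haP, 1, by rw [mul_inv_cancel₀ ha0, map_one]⟩
    · have hπ0 : algebraMap A F π ≠ 0 := fun h0 =>
        hπP ((hinj (by rw [h0, map_zero]) : π = 0) ▸ P.zero_mem)
      rw [hV]
      exact ⟨π, hπP, 1, by rw [mul_inv_cancel₀ hπ0, map_one]⟩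
    · intro htop
      obtain ⟨y, hyP, hy0⟩ := Submodule.exists_mem_ne_zero_of_ne_bot hP0
      have hyF : algebraMap A F y ≠ 0 := fun h0 => hy0 (hinj (by rw [h0, map_zero]))
      have hmem : (algebraMap A F y)⁻¹ ∈ V := by rw [htop]; trivial
      rw [hV] at hmem
      obtain ⟨s, hs, a, ha⟩ := hmem
      apply hs
      have : s = a * y := by
        apply hinj
        rw [map_mul, ← ha, inv_mul_cancel_right₀ hyF]
      rw [this]
      exact P.mul_mem_left _ hyP

end Turnkey

end Fermat.Agent.S34
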