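import Mathlib
import Fermat.Agent.S34.Iface47
import Fermat.Agent.S34.Hartogs19

/-!
# S34 lab (helper65): the Krull property of the charts — `s34i47_Pkg_Krull`

* `kr65_exists_dvr` : the localisation of a Noetherian integrally closed domain at a nonzero
  locally principal prime, as a valuation subring of the fraction field, is a nontrivial
  principal ideal ring (on top of `hg19_exists_valuationSubring`, helper19).
* `kr65_mem_range` : Hartogs with discrete valuation rings only.
* `kr65_krull` : an `R`-subalgebra `B` of a field `F` which is Noetherian, integrally closed in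
  `F` and has fraction field `F` satisfies `s34i47_Krull π B`.
* `kr65_Pkg_Krull` : `s34i47_Pkg_Krull`, literally.

All names are prefixed `kr65_`.
-/

set_option autoImplicit false
set_option linter.style.haveILetI false

namespace Fermat.Agent.S34

open Fermat.Agent.S18

section General

variable {A : Type*} [CommRing A] [IsDomain A] [IsNoetherianRing A] [IsIntegrallyClosed A]
  {F : Type*} [Field F] [Algebra A F] [IsFractionRing A F]

/-- The localisation at a nonzero locally principal prime is a nontrivial valuation subring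
which is a principal ideal ring. -/
theorem kr65_exists_dvr (P : Ideal A) [hP : P.IsPrime] (hP0 : P ≠ ⊥)
    (hprin : ∃ ϖ ∈ P, ∃ s, s ∉ P ∧ ∀ y ∈ P, ∃ r, s * y = r * ϖ) :
    ∃ V : ValuationSubring F, V ≠ ⊤ ∧ IsPrincipalIdealRing V ∧
      ∀ x : F, x ∈ V ↔ ∃ s, s ∉ P ∧ ∃ a : A, algebraMap A F s * x = algebraMap A F a := by
  classical
  obtain ⟨V, hV⟩ := hg19_exists_valuationSubring (F := F) P hprin
  have hinj := IsFractionRing.injective A F
  have h1 : (1 : A) ∉ P := (Ideal.ne_top_iff_one P).mp hP.ne_top
  have hAV : ∀ a : A, algebraMap A F a ∈ V := fun a =>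
    (hV _).mpr ⟨1, h1, a, by rw [map_one, one_mul]⟩
  refine ⟨V, ?_, ?_, hV⟩
  · intro htop
    obtain ⟨y, hyP, hy0⟩ := Submodule.exists_mem_ne_zero_of_ne_bot hP0
    have hyF : algebraMap A F y ≠ 0 := fun h0 => hy0 (hinj (by rw [h0, map_zero]))
    have hmem : (algebraMap A F y)⁻¹ ∈ V := by rw [htop]; trivial
    rw [hV] at hmem
    obtain ⟨s, hs, a, ha⟩ := hmem
    apply hs
    have : s = a * y := by
      apply hinj
      rw [map_mul, ← ha, inv_mul_cancel_right₀ hyF]
    rw [this]
    exact P.mul_mem_left _ hyP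
  · let φ : A →+* V := (algebraMap A F).codRestrict V.toSubring hAV
    have hφ : ∀ a : A, ((φ a : V) : F) = algebraMap A F a := fun _ => rfl
    haveI : IsNoetherianRing V := by
      rw [isNoetherianRing_iff_ideal_fg]
      intro I
      have hJ : (I.comap φ).FG := IsNoetherian.noetherian _
      have hI : I = (I.comap φ).map φ := by
        apply le_antisymm
        · intro y hy
          obtain ⟨s, hs, a, ha⟩ := (hV (y : F)).mp y.2
          have hs0 : algebraMap A F s ≠ 0 := fun h0 =>
            hs ((hinj (by rw [h0, map_zero]) : s = 0) ▸ P.zero_mem)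
          have h2 : φ a = φ s * y := Subtype.ext (by
            rw [hφ]; push_cast; rw [hφ]; exact ha.symm)
          have haJ : a ∈ I.comap φ := by
            rw [Ideal.mem_comap, h2]
            exact I.mul_mem_left _ hy
          have hsinv : (algebraMap A F s)⁻¹ ∈ V :=
            (hV _).mpr ⟨s, hs, 1, by rw [mul_inv_cancel₀ hs0, map_one]⟩
          have h3 : y = (⟨(algebraMap A F s)⁻¹, hsinv⟩ : V) * φ a := Subtype.ext (by
            push_cast; rw [hφ, ← ha, inv_mul_cancel_left₀ hs0])
          rw [h3]
          exact Ideal.mul_mem_left _ _ (Ideal.mem_map_of_mem φ haJ)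
        · exact Ideal.map_comap_le
      rw [hI]
      exact Ideal.FG.map hJ φ
    infer_instance

/-- **Hartogs with discrete valuation rings.** An element of the fraction field which lies in
every nontrivial principal valuation subring containing `A` lies in `A`. -/
theorem kr65_mem_range (x : F)
    (h : ∀ V : ValuationSubring F, V ≠ ⊤ → IsPrincipalIdealRing V →
      (∀ a : A, algebraMap A F a ∈ V) → x ∈ V) :
    ∃ a : A, algebraMap A F a = x := by
  refine hg19_mem_range x fun P hP hP0 hprin => ?_
  haveI := hP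
  obtain ⟨V, hVtop, hVpir, hV⟩ := kr65_exists_dvr (F := F) P hP0 hprin
  have h1 : (1 : A) ∉ P := (Ideal.ne_top_iff_one P).mp hP.ne_top
  rw [← hV]
  exact h V hVtop hVpir fun a => (hV _).mpr ⟨1, h1, a, by rw [map_one, one_mul]⟩

end General

section Chart

variable {R F : Type*} [CommRing R] [Field F] [Algebra R F]

/-- A subalgebra of a field `F` with `hfrac` has fraction field `F`. -/
theorem kr65_isFractionRing (B : Subalgebra R F)
    (hfrac : ∀ x : F, ∃ a ∈ B, ∃ b ∈ B, b ≠ 0 ∧ x * b = a) : IsFractionRing B F := by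
  refine IsFractionRing.of_field B F fun z => ?_
  obtain ⟨a, ha, b, hb, hb0, hab⟩ := hfrac z
  refine ⟨⟨a, ha⟩, ⟨b, hb⟩, ?_⟩
  show z = a / b
  rw [eq_div_iff hb0]
  exact hab

/-- **Krull property.** A Noetherian `R`-subalgebra `B` of `F`, integrally closed in `F`, with
fraction field `F`: a function regular along every horizontal discrete valuation ring through
the closed point `n` of the special fibre lies in `B_n[1/π]`. -/
theorem kr65_krull (π : R) (hπ0 : algebraMap R F π ≠ 0) (B : Subalgebra R F)
    [IsNoetherianRing B] (hclosed : ∀ x : F, IsIntegral B x → x ∈ B)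
    (hfrac : ∀ x : F, ∃ a ∈ B, ∃ b ∈ B, b ≠ 0 ∧ x * b = a) : s34i47_Krull π B := by
  classical
  intro n hn hπn x hx
  haveI : n.IsPrime := hn.isPrime
  haveI hFR : IsFractionRing B F := kr65_isFractionRing B hfrac
  haveI hIC : IsIntegrallyClosed B :=
    (isIntegrallyClosed_iff F).mpr fun {y} hy => ⟨⟨y, hclosed y hy⟩, rfl⟩
  have hinjB : Function.Injective (algebraMap B F) := IsFractionRing.injective B F
  have hπB0 : algebraMap R B π ≠ 0 := by
    intro h0
    apply hπ0
    have := congrArg (algebraMap B F) h0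
    rwa [map_zero, ← IsScalarTower.algebraMap_apply] at this
  let M : Submonoid B := Submonoid.powers (algebraMap R B π) ⊔ n.primeCompl
  have hMne : ∀ y ∈ M, y ≠ 0 := by
    intro y hy
    obtain ⟨_, ⟨k, rfl⟩, s, hs, rfl⟩ := Submonoid.mem_sup.mp hy
    exact mul_ne_zero (pow_ne_zero _ hπB0) (fun h0 => hs (h0 ▸ n.zero_mem))
  have hM : M ≤ nonZeroDivisors B := fun y hy => mem_nonZeroDivisors_of_ne_zero (hMne y hy)
  haveI : IsDomain (Localization M) := IsLocalization.isDomain_localization hM
  haveI : IsNoetherianRing (Localization M) :=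
    IsLocalization.isNoetherianRing M (Localization M) inferInstance
  haveI : IsIntegrallyClosed (Localization M) :=
    isIntegrallyClosed_of_isLocalization (Localization M) M hM
  have hunit : ∀ y : M, IsUnit (algebraMap B F y) := fun y =>
    IsUnit.mk0 _ (fun h0 => hMne y y.2 (hinjB (by rw [h0, map_zero])))
  letI : Algebra (Localization M) F :=
    (IsLocalization.lift (M := M) (g := algebraMap B F) hunit).toAlgebra
  haveI : @IsScalarTower B (Localization M) F Algebra.toSMul Algebra.toSMul Algebra.toSMul :=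
    IsScalarTower.of_algebraMap_eq fun y => (IsLocalization.lift_eq hunit y).symm
  haveI : IsFractionRing (Localization M) F :=
    IsFractionRing.isFractionRing_of_isDomain_of_isLocalization M (Localization M) F
  have hmk : ∀ m : M, algebraMap (Localization M) F (IsLocalization.mk' (Localization M) 1 m)
      = (algebraMap B F m)⁻¹ := by
    intro m
    have h1 := IsLocalization.mk'_spec (Localization M) (1 : B) m
    have h2 := congrArg (algebraMap (Localization M) F) h1
    rw [map_mul, ← IsScalarTower.algebraMap_apply, ← IsScalarTower.algebraMap_apply,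
      map_one] at h2
    exact eq_inv_of_mul_eq_one_left h2
  obtain ⟨a, ha⟩ := kr65_mem_range (A := Localization M) (F := F) x (by
    intro V hVtop hVpir hSV
    have hBV : ∀ y : B, algebraMap B F y ∈ V := fun y => by
      rw [IsScalarTower.algebraMap_apply B (Localization M) F]
      exact hSV _
    have hinvV : ∀ m : M, (algebraMap B F m)⁻¹ ∈ V := fun m => by
      rw [← hmk m]
      exact hSV _
    apply hx V
    · refine ⟨hVtop, hVpir, fun r => ?_, ?_⟩
      · have := hBV (algebraMap R B r)
        rwa [← IsScalarTower.algebraMap_apply] at this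
      · have := hinvV ⟨algebraMap R B π, Submonoid.mem_sup_left (Submonoid.mem_powers _)⟩
        rwa [← IsScalarTower.algebraMap_apply] at this
    · refine ⟨fun y hy => hBV ⟨y, hy⟩, fun y hy => ?_⟩
      exact hinvV ⟨y, Submonoid.mem_sup_right hy⟩)
  obtain ⟨⟨b, m⟩, hbm⟩ := IsLocalization.surj M a
  obtain ⟨_, ⟨k, rfl⟩, s, hs, hks⟩ := Submonoid.mem_sup.mp m.2
  refine ⟨s, hs, k, ?_⟩
  have h2 := congrArg (algebraMap (Localization M) F) hbm
  rw [map_mul, ← IsScalarTower.algebraMap_apply, ← IsScalarTower.algebraMap_apply, ha] at h2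
  have h3 : algebraMap R F π ^ k * ((s : F) * x) = (b : F) := by
    have h4 : algebraMap B F (m : B) = algebraMap R F π ^ k * (s : F) := by
      rw [← hks, map_mul, map_pow, ← IsScalarTower.algebraMap_apply]
      rfl
    have h5 : algebraMap B F b = (b : F) := rfl
    rw [h4, h5] at h2
    rw [← h2]
    ring
  rw [h3]
  exact b.2

end Chart

section Pkg

/-- the chart `pk15_chart R s` is integrally closed in `F`. -/
theorem kr65_chart_closed {R F : Type*} [CommRing R] [Field F] [Algebra R F] (s : Set F)
    (x : F) (hx : IsIntegral (pk15_chart R s) x) : x ∈ pk15_chart R s := by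
  rw [pk15_mem_chart]
  have h1 : IsIntegral (integralClosure (Algebra.adjoin R s) F) x := hx
  exact isIntegral_trans x h1

/-- **P5c** = `s34i47_Pkg_Krull`. -/
theorem kr65_Pkg_Krull : s34i47_Pkg_Krull := by
  intro R K F _ _ _ _ _ _ _ _ _ _ _ π hπ h hh hN₁ hN₂ hfin hfrac
  have hh0 : h ≠ 0 := by
    rintro rfl
    exact hh (isAlgebraic_zero)
  have hπ0 : algebraMap R F π ≠ 0 := by
    rw [IsScalarTower.algebraMap_apply R K F]
    intro h0
    have h1 : algebraMap R K π = 0 := (map_eq_zero (algebraMap K F)).mp h0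
    exact hπ.ne_zero ((IsFractionRing.injective R K) (by rw [h1, map_zero]))
  refine ⟨kr65_krull π hπ0 _ (kr65_chart_closed _) hfrac, ?_⟩
  refine kr65_krull π hπ0 _ (kr65_chart_closed _) ?_
  intro x
  obtain ⟨a, ha, b, hb, hb0, hab⟩ := hfrac x
  have h12 : pk15_chart R ({h} : Set F) ≤ pk15_chart R ({h, h⁻¹} : Set F) :=
    pk15_chart_mono (by simp)
  obtain ⟨k, hk⟩ := pk15_chart_loc' h hh0 a (h12 ha)
  obtain ⟨l, hl⟩ := pk15_chart_loc' h hh0 b (h12 hb)
  have hhinv : h⁻¹ ∈ pk15_chart R ({h⁻¹} : Set F) := pk15_subset_chart _ (by simp)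
  refine ⟨h⁻¹ ^ l * (h⁻¹ ^ k * a), Subalgebra.mul_mem _ (Subalgebra.pow_mem _ hhinv _) hk,
    h⁻¹ ^ k * (h⁻¹ ^ l * b), Subalgebra.mul_mem _ (Subalgebra.pow_mem _ hhinv _) hl, ?_, ?_⟩
  · exact mul_ne_zero (pow_ne_zero _ (inv_ne_zero hh0))
      (mul_ne_zero (pow_ne_zero _ (inv_ne_zero hh0)) hb0)
  · rw [← hab]; ring

end Pkg

end Fermat.Agent.S34
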