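import Mathlib
import Fermat.Agent.S34.Iface47

/-!
# S34 lab, package P5b (helper9): `(UZ) + Ord + Rat + Fin ⟹ (LP)`

The literal interface statement `s34i47_Pkg_LP` of `Iface47` (abstract, Mathlib only).

Fix a closed point `n` of the special fibre of the chart `B`.  Let `T` be the finite set of
horizontal valuation rings `O` through `n` at which `f` is not a unit.  Every `O ∈ T` is
`K`-rational, so `(UZ)` provides a uniformiser `p_O` of `O` which is a unit at every other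
horizontal valuation ring through `n`.  As `f = ε w ^ m` at `O` and `O` is a discrete valuation
ring, `w = unit * p_O ^ k_O` with `k_O : ℤ`.  Then `c := ∏_{O ∈ T} p_O ^ k_O` satisfies:
`f / c ^ m` is a unit of every horizontal `O` through `n`.
-/

set_option autoImplicit false

namespace Fermat.Agent.S34

/-- `x` is a unit of the valuation subring `O`. -/
def lp9_IsU {F : Type*} [Field F] (O : ValuationSubring F) (x : F) : Prop :=
  x ∈ O ∧ x⁻¹ ∈ O

section Units

variable {F : Type*} [Field F] {O : ValuationSubring F}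

theorem lp9_IsU_one : lp9_IsU O (1 : F) := ⟨O.one_mem, by rw [inv_one]; exact O.one_mem⟩

theorem lp9_IsU_mul {x y : F} (hx : lp9_IsU O x) (hy : lp9_IsU O y) : lp9_IsU O (x * y) :=
  ⟨O.mul_mem _ _ hx.1 hy.1, by rw [mul_inv]; exact O.mul_mem _ _ hx.2 hy.2⟩

theorem lp9_IsU_inv {x : F} (hx : lp9_IsU O x) : lp9_IsU O x⁻¹ :=
  ⟨hx.2, by rw [inv_inv]; exact hx.1⟩

theorem lp9_IsU_pow {x : F} (hx : lp9_IsU O x) (k : ℕ) : lp9_IsU O (x ^ k) :=
  ⟨pow_mem hx.1 k, by rw [← inv_pow]; exact pow_mem hx.2 k⟩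

theorem lp9_IsU_zpow {x : F} (hx : lp9_IsU O x) (k : ℤ) : lp9_IsU O (x ^ k) := by
  rcases k with k | k
  · simpa using lp9_IsU_pow hx k
  · rw [zpow_negSucc]
    exact lp9_IsU_inv (lp9_IsU_pow hx (k + 1))

theorem lp9_IsU_prod {ι : Type*} (T : Finset ι) (g : ι → F) (h : ∀ i ∈ T, lp9_IsU O (g i)) :
    lp9_IsU O (∏ i ∈ T, g i) := by
  classical
  induction T using Finset.induction_on with
  | empty => simpa using (lp9_IsU_one (O := O))
  | insert a s ha ih =>
    rw [Finset.prod_insert ha]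
    exact lp9_IsU_mul (h a (Finset.mem_insert_self a s))
      (ih fun i hi => h i (Finset.mem_insert_of_mem hi))

end Units

/-- In a principal valuation subring whose maximal ideal is generated by `p`, every nonzero
element of the ring is a unit times a power of `p`. -/
theorem lp9_exists_pow {F : Type*} [Field F] (O : ValuationSubring F)
    (hPIR : IsPrincipalIdealRing O) (p : F) (hp0 : p ≠ 0) (hpO : p ∈ O) (hpinv : p⁻¹ ∉ O)
    (hgen : ∀ x ∈ O, x⁻¹ ∉ O → x * p⁻¹ ∈ O) (x : F) (hx0 : x ≠ 0) (hxO : x ∈ O) :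
    ∃ k : ℕ, lp9_IsU O (x / p ^ k) := by
  by_contra hcon0
  have hcon : ∀ k : ℕ, ¬ lp9_IsU O (x / p ^ k) := fun k hk => hcon0 ⟨k, hk⟩
  have hall : ∀ k : ℕ, x / p ^ k ∈ O := by
    intro k
    induction k with
    | zero => simpa using hxO
    | succ k ih =>
      have hnu : (x / p ^ k)⁻¹ ∉ O := fun h => hcon k ⟨ih, h⟩
      have := hgen _ ih hnu
      have he : x / p ^ (k + 1) = x / p ^ k * p⁻¹ := by
        rw [pow_succ]; field_simp
      rw [he]; exact this
  let P : O := ⟨p, hpO⟩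
  let I : Ideal O := Ideal.span {P}
  have hI : I ≠ ⊤ := by
    intro hI
    have h1 : (1 : O) ∈ I := by rw [hI]; exact Submodule.mem_top
    obtain ⟨a, ha⟩ := Ideal.mem_span_singleton'.mp h1
    have ha' : (a : F) * p = 1 := by
      have := congrArg (fun y : O => (y : F)) ha
      simpa [P] using this
    apply hpinv
    have : p⁻¹ = (a : F) := by
      field_simp
      rw [mul_comm] at ha'
      linear_combination -ha'
    rw [this]; exact a.2
  have hbot : ⨅ i : ℕ, I ^ i = ⊥ := Ideal.iInf_pow_eq_bot_of_isDomain I hI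
  have hxmem : (⟨x, hxO⟩ : O) ∈ ⨅ i : ℕ, I ^ i := by
    rw [Ideal.mem_iInf]
    intro k
    show (⟨x, hxO⟩ : O) ∈ (Ideal.span {P}) ^ k
    rw [Ideal.span_singleton_pow, Ideal.mem_span_singleton']
    refine ⟨⟨x / p ^ k, hall k⟩, ?_⟩
    apply Subtype.ext
    show x / p ^ k * p ^ k = x
    field_simp
  rw [hbot, Ideal.mem_bot] at hxmem
  exact hx0 (congrArg (fun y : O => (y : F)) hxmem)

/-- The same with integer exponents, for every nonzero element of the field. -/
theorem lp9_exists_zpow {F : Type*} [Field F] (O : ValuationSubring F)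
    (hPIR : IsPrincipalIdealRing O) (p : F) (hp0 : p ≠ 0) (hpO : p ∈ O) (hpinv : p⁻¹ ∉ O)
    (hgen : ∀ x ∈ O, x⁻¹ ∉ O → x * p⁻¹ ∈ O) (w : F) (hw : w ≠ 0) :
    ∃ k : ℤ, lp9_IsU O (w / p ^ k) := by
  rcases O.mem_or_inv_mem w with h | h
  · obtain ⟨k, hk⟩ := lp9_exists_pow O hPIR p hp0 hpO hpinv hgen w hw h
    exact ⟨(k : ℤ), by simpa using hk⟩
  · obtain ⟨k, hk⟩ := lp9_exists_pow O hPIR p hp0 hpO hpinv hgen w⁻¹ (inv_ne_zero hw) h
    refine ⟨-(k : ℤ), ?_⟩
    have he : w / p ^ (-(k : ℤ)) = (w⁻¹ / p ^ k)⁻¹ := by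
      rw [zpow_neg, zpow_natCast]; field_simp
    rw [he]; exact lp9_IsU_inv hk

/-- The local factor at one rational horizontal valuation ring `O` through `n`. -/
theorem lp9_local {R K F : Type*} [CommRing R] [Field K] [Field F] [Algebra R F] [Algebra K F]
    (π : R) (B : Subalgebra R F) (m : ℕ) (hm : 0 < m) (f : F) (hf : f ≠ 0)
    (hUZ : s34i47_UniqueZero K π B) (hOrd : s34i47_Ord π m f)
    (n : Ideal B) (hn : n.IsMaximal) (hπn : algebraMap R B π ∈ n)
    (O : ValuationSubring F) (hO : s34i47_IsHoriz π O) (hOn : s34i47_Through B n O)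
    (hrat : s34i47_IsRat K O) :
    ∃ g : F, g ≠ 0 ∧ lp9_IsU O (f / g ^ m) ∧
      ∀ O' : ValuationSubring F, s34i47_IsHoriz π O' → s34i47_Through B n O' → O' ≠ O →
        lp9_IsU O' g := by
  obtain ⟨p, hp0, hpO, hpinv, hgen, hother⟩ := hUZ n hn hπn O hO hOn hrat
  obtain ⟨ε, w, hε, hεinv, hfw⟩ := hOrd O hO
  have hw : w ≠ 0 := by
    rintro rfl
    apply hf
    rw [hfw, zero_pow (by omega), mul_zero]
  obtain ⟨k, hk⟩ := lp9_exists_zpow O hO.2.1 p hp0 hpO hpinv hgen w hw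
  refine ⟨p ^ k, zpow_ne_zero k hp0, ?_, ?_⟩
  · have he : f / (p ^ k) ^ m = ε * (w / p ^ k) ^ m := by
      rw [hfw, div_pow, mul_div_assoc]
    rw [he]
    exact lp9_IsU_mul ⟨hε, hεinv⟩ (lp9_IsU_pow hk m)
  · intro O' hO' hOn' hne
    exact lp9_IsU_zpow (hother O' hO' hOn' hne) k

/-- **P5b**: `(UZ)` + orders divisible by `m` + rational zeros and poles + finiteness ⟹ `(LP)`. -/
theorem lp9_Pkg_LP : s34i47_Pkg_LP := by
  intro R K F _ _ _ _ _ _ _ _ _ _ π _ B m hm f hf hUZ hOrd hRat hFin n hn hπn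
  classical
  have hfin : {O : ValuationSubring F | s34i47_IsHoriz π O ∧ s34i47_Through B n O ∧
      ¬ (f ∈ O ∧ f⁻¹ ∈ O)}.Finite :=
    hFin.subset fun O hO => ⟨hO.1, hO.2.2⟩
  set T : Finset (ValuationSubring F) := hfin.toFinset with hT
  have hmemT : ∀ O : ValuationSubring F, O ∈ T ↔
      s34i47_IsHoriz π O ∧ s34i47_Through B n O ∧ ¬ (f ∈ O ∧ f⁻¹ ∈ O) := by
    intro O
    rw [hT, Set.Finite.mem_toFinset]
    rfl
  have hex : ∀ O ∈ T, ∃ g : F, g ≠ 0 ∧ lp9_IsU O (f / g ^ m) ∧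
      ∀ O' : ValuationSubring F, s34i47_IsHoriz π O' → s34i47_Through B n O' → O' ≠ O →
        lp9_IsU O' g := by
    intro O hO
    rw [hmemT] at hO
    have hrat : s34i47_IsRat K O := (hRat O hO.1).resolve_left hO.2.2
    exact lp9_local π B m hm f hf hUZ hOrd n hn hπn O hO.1 hO.2.1 hrat
  choose! g hg0 hgU hgother using hex
  refine ⟨∏ O ∈ T, g O, Finset.prod_ne_zero_iff.mpr hg0, ?_⟩
  intro O hO hOn
  have key : lp9_IsU O (f / (∏ O' ∈ T, g O') ^ m) := by
    by_cases hOT : O ∈ T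
    · have hsplit : ∏ O' ∈ T, g O' = g O * ∏ O' ∈ T.erase O, g O' :=
        (Finset.mul_prod_erase T g hOT).symm
      have hrest : lp9_IsU O (∏ O' ∈ T.erase O, g O') := by
        apply lp9_IsU_prod
        intro O' hO'
        have h := Finset.mem_erase.mp hO'
        exact hgother O' h.2 O hO hOn (Ne.symm h.1)
      have he : f / (∏ O' ∈ T, g O') ^ m =
          (f / g O ^ m) * ((∏ O' ∈ T.erase O, g O') ^ m)⁻¹ := by
        rw [hsplit, mul_pow, div_mul_eq_div_div, div_eq_mul_inv (f / g O ^ m)]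
      rw [he]
      exact lp9_IsU_mul (hgU O hOT) (lp9_IsU_inv (lp9_IsU_pow hrest m))
    · have hfU : lp9_IsU O f := by
        by_contra h
        exact hOT ((hmemT O).mpr ⟨hO, hOn, h⟩)
      have hcU : lp9_IsU O (∏ O' ∈ T, g O') := by
        apply lp9_IsU_prod
        intro O' hO'
        exact hgother O' hO' O hO hOn (by rintro rfl; exact hOT hO')
      rw [div_eq_mul_inv]
      exact lp9_IsU_mul hfU (lp9_IsU_inv (lp9_IsU_pow hcU m))
  refine ⟨key.1, ?_⟩
  have h2 := key.2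
  rwa [inv_div] at h2

end Fermat.Agent.S34
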