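import Mathlib

/-!
# S34 lab (helper32): the abstract local datum of the nodal two-chart argument

Branch-only lab file (not part of any graded closure).  Mathlib only.  It packages steps 5b, 5c
and 6b of helper47's proof of `(s - 1)(t - 1) = 0` on `J₀(N)[m]` for inertia elements `s, t`
at a prime `q ∥ N`:

* `ld32_dd` : the local datum `hLD` of `ntc47_main` for the double difference
  `u = σ(τ f) f / (σ f · τ f)`, from a local factorisation `f = θ · ∏ c_j ^ (m e_j)` with `θ` a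
  horizontal unit at the closed point `n` and local equations `c_j` whose double differences are
  `≡ 1 mod π W`.
* `ld32_ker_eq`, `ld32_node_local_eq` : at a node with coordinates `z z' = Q ε`, the function
  `z - a` (`a` the value of `z` at an integral point) is a local equation of that point on the
  generic fibre.
* `ld32_cong_unit`, `ld32_cong_small`, `ld32_const_cong` : the congruences `Φ ≡ 1 mod π V` for
  `Φ = (z - σ a)(z - τ a) / ((z - σ τ a)(z - a))` on the two branches.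

All names are prefixed `ld32_`.
-/

set_option autoImplicit false

namespace Fermat.Agent.S34

section cong

variable {F : Type*} [Field F]

theorem ld32_cong_one (W : Subring F) (p : F) : p⁻¹ * ((1 : F) - 1) ∈ W := by
  rw [sub_self, mul_zero]; exact W.zero_mem

theorem ld32_mem_of_cong (W : Subring F) (p : F) (hp0 : p ≠ 0) (hpW : p ∈ W) {x : F}
    (hx : p⁻¹ * (x - 1) ∈ W) : x ∈ W := by
  have : x = 1 + p * (p⁻¹ * (x - 1)) := by field_simp; ring
  rw [this]; exact W.add_mem W.one_mem (W.mul_mem hpW hx)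

theorem ld32_cong_mul (W : Subring F) (p : F) (hp0 : p ≠ 0) (hpW : p ∈ W) {x y : F}
    (hx : p⁻¹ * (x - 1) ∈ W) (hy : p⁻¹ * (y - 1) ∈ W) : p⁻¹ * (x * y - 1) ∈ W := by
  have : p⁻¹ * (x * y - 1)
      = p * (p⁻¹ * (x - 1)) * (p⁻¹ * (y - 1)) + p⁻¹ * (x - 1) + p⁻¹ * (y - 1) := by
    field_simp; ring
  rw [this]
  exact W.add_mem (W.add_mem (W.mul_mem (W.mul_mem hpW hx) hy) hx) hy

theorem ld32_cong_inv (W : Subring F) (p : F) (hp0 : p ≠ 0)
    (hWunit : ∀ x ∈ W, (1 + p * x)⁻¹ ∈ W) {x : F} (hx : p⁻¹ * (x - 1) ∈ W) :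
    p⁻¹ * (x⁻¹ - 1) ∈ W := by
  by_cases hx0 : x = 0
  · rw [hx0, inv_zero]; rw [hx0] at hx; exact hx
  have hx' : x = 1 + p * (p⁻¹ * (x - 1)) := by field_simp; ring
  have hxinv : x⁻¹ ∈ W := by rw [hx']; exact hWunit _ hx
  have : p⁻¹ * (x⁻¹ - 1) = -(p⁻¹ * (x - 1)) * x⁻¹ := by field_simp; ring
  rw [this]; exact W.mul_mem (W.neg_mem hx) hxinv

theorem ld32_cong_div (W : Subring F) (p : F) (hp0 : p ≠ 0) (hpW : p ∈ W)
    (hWunit : ∀ x ∈ W, (1 + p * x)⁻¹ ∈ W) {x y : F}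
    (hx : p⁻¹ * (x - 1) ∈ W) (hy : p⁻¹ * (y - 1) ∈ W) : p⁻¹ * (x / y - 1) ∈ W := by
  rw [div_eq_mul_inv]
  exact ld32_cong_mul W p hp0 hpW hx (ld32_cong_inv W p hp0 hWunit hy)

theorem ld32_cong_pow (W : Subring F) (p : F) (hp0 : p ≠ 0) (hpW : p ∈ W) {x : F}
    (hx : p⁻¹ * (x - 1) ∈ W) (k : ℕ) : p⁻¹ * (x ^ k - 1) ∈ W := by
  induction k with
  | zero => rw [pow_zero]; exact ld32_cong_one W p
  | succ k ih => rw [pow_succ]; exact ld32_cong_mul W p hp0 hpW ih hx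

theorem ld32_cong_zpow (W : Subring F) (p : F) (hp0 : p ≠ 0) (hpW : p ∈ W)
    (hWunit : ∀ x ∈ W, (1 + p * x)⁻¹ ∈ W) {x : F}
    (hx : p⁻¹ * (x - 1) ∈ W) (k : ℤ) : p⁻¹ * (x ^ k - 1) ∈ W := by
  obtain ⟨j, rfl | rfl⟩ := Int.eq_nat_or_neg k
  · rw [zpow_natCast]; exact ld32_cong_pow W p hp0 hpW hx j
  · rw [zpow_neg, zpow_natCast]
    exact ld32_cong_inv W p hp0 hWunit (ld32_cong_pow W p hp0 hpW hx j)

theorem ld32_cong_prod (W : Subring F) (p : F) (hp0 : p ≠ 0) (hpW : p ∈ W)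
    {ι : Type*} (s : Finset ι) (x : ι → F) (hx : ∀ j ∈ s, p⁻¹ * (x j - 1) ∈ W) :
    p⁻¹ * (∏ j ∈ s, x j - 1) ∈ W := by
  classical
  induction s using Finset.induction_on with
  | empty => rw [Finset.prod_empty]; exact ld32_cong_one W p
  | insert j s hj ih =>
    rw [Finset.prod_insert hj]
    exact ld32_cong_mul W p hp0 hpW (hx j (Finset.mem_insert_self j s))
      (ih fun i hi => hx i (Finset.mem_insert_of_mem hi))

/-- saturation, iterated. -/
theorem ld32_sat_pow {R : Type*} [CommRing R] [Algebra R F] (W : Subring F) (p : F)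
    (hp0 : p ≠ 0) (hpW : p ∈ W) (B : Subalgebra R F)
    (hsat : ∀ x ∈ B, p⁻¹ * x ∈ W → p⁻¹ * x ∈ B) (k : ℕ) (y : F) (hyW : y ∈ W)
    (hy : p ^ k * y ∈ B) : y ∈ B := by
  induction k with
  | zero => simpa using hy
  | succ k ih =>
    apply ih
    have h1 : p⁻¹ * (p ^ (k + 1) * y) = p ^ k * y := by
      rw [pow_succ]; field_simp
    have h2 : p⁻¹ * (p ^ (k + 1) * y) ∈ W := by
      rw [h1]; exact W.mul_mem (W.pow_mem hpW k) hyW
    have := hsat _ hy h2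
    rwa [h1] at this

end cong

section reg

variable {F : Type*} [Field F] {R : Type*} [CommRing R] [Algebra R F]

/-- `x` is regular at the prime `n` of the chart `B` after inverting `p`
(i.e. `x ∈ B_n[1/p]`). -/
def ld32_Reg (B : Subalgebra R F) (n : Ideal B) (p x : F) : Prop :=
  ∃ s : B, s ∉ n ∧ ∃ k : ℕ, p ^ k * (s : F) * x ∈ B

theorem ld32_Reg_of_mem (B : Subalgebra R F) (n : Ideal B) [n.IsPrime] (p : F) {x : F}
    (hx : x ∈ B) : ld32_Reg B n p x :=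
  ⟨1, fun h => (Ideal.IsPrime.ne_top ‹_›) ((Ideal.eq_top_iff_one n).mpr h), 0, by
    simpa using hx⟩

theorem ld32_Reg_mul (B : Subalgebra R F) (n : Ideal B) [hn : n.IsPrime] (p : F) {x y : F}
    (hx : ld32_Reg B n p x) (hy : ld32_Reg B n p y) : ld32_Reg B n p (x * y) := by
  obtain ⟨s, hs, k, hk⟩ := hx
  obtain ⟨t, ht, l, hl⟩ := hy
  refine ⟨s * t, fun h => (hn.mem_or_mem h).elim hs ht, k + l, ?_⟩
  have : p ^ (k + l) * ((s * t : B) : F) * (x * y)
      = (p ^ k * (s : F) * x) * (p ^ l * (t : F) * y) := by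
    push_cast; ring
  rw [this]; exact B.mul_mem hk hl

/-- a ring automorphism preserving the chart, the point and `p` up to a factor in `B`
preserves regularity. -/
theorem ld32_Reg_map (B : Subalgebra R F) (n : Ideal B) (p : F) (σ : F ≃+* F)
    (hσB : ∀ x ∈ B, σ x ∈ B)
    (hσn : ∀ s : B, s ∉ n → (⟨σ s, hσB s s.2⟩ : B) ∉ n)
    (hσp : ∃ ε ∈ B, p = ε * σ p) {x : F} (hx : ld32_Reg B n p x) :
    ld32_Reg B n p (σ x) := by
  obtain ⟨s, hs, k, hk⟩ := hx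
  obtain ⟨ε, hε, hp⟩ := hσp
  refine ⟨⟨σ s, hσB s s.2⟩, hσn s hs, k, ?_⟩
  have h1 : σ (p ^ k * (s : F) * x) ∈ B := hσB _ hk
  have h2 : p ^ k * σ (s : F) * σ x = ε ^ k * σ (p ^ k * (s : F) * x) := by
    rw [map_mul, map_mul, map_pow]
    conv_lhs => rw [hp]
    ring
  show p ^ k * σ (s : F) * σ x ∈ B
  rw [h2]; exact B.mul_mem (B.pow_mem hε k) h1

end reg

section dd

variable {F : Type*} [Field F] {R : Type*} [CommRing R] [Algebra R F]

/-- The double-difference operator `x ↦ σ(τ x) x / (σ x · τ x)`. -/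
noncomputable def ld32_D (σ τ : F ≃+* F) : F →*₀ F where
  toFun x := σ (τ x) * x / (σ x * τ x)
  map_zero' := by simp
  map_one' := by simp
  map_mul' x y := by
    simp only [map_mul]
    rw [mul_mul_mul_comm (σ x) (σ y), mul_mul_mul_comm (σ (τ x)) (σ (τ y)), mul_div_mul_comm]

theorem ld32_D_apply (σ τ : F ≃+* F) (x : F) :
    ld32_D σ τ x = σ (τ x) * x / (σ x * τ x) := rfl

/-- the inverse double difference `Φ(c) = σ c · τ c / (σ(τ c) · c)`. -/
theorem ld32_D_inv (σ τ : F ≃+* F) (x : F) :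
    (ld32_D σ τ x)⁻¹ = σ x * τ x / (σ (τ x) * x) := by
  rw [ld32_D_apply, inv_div]

/-- The double difference of a local factorisation. -/
theorem ld32_D_factor (σ τ : F ≃+* F) (m : ℕ) {ι : Type*} (s : Finset ι) (c : ι → F)
    (hc : ∀ j ∈ s, c j ≠ 0) (e : ι → ℤ) (θ : F) :
    (∏ j ∈ s, (σ (c j) * τ (c j) / (σ (τ (c j)) * c j)) ^ (e j)) ^ m
      * ld32_D σ τ (θ * ∏ j ∈ s, c j ^ ((m : ℤ) * e j)) = ld32_D σ τ θ := by
  classical
  rw [map_mul, map_prod, ← Finset.prod_pow, mul_left_comm, ← Finset.prod_mul_distrib]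
  have : ∀ j ∈ s, ((σ (c j) * τ (c j) / (σ (τ (c j)) * c j)) ^ (e j)) ^ m
      * ld32_D σ τ (c j ^ ((m : ℤ) * e j)) = 1 := by
    intro j hj
    have hD0 : ld32_D σ τ (c j) ≠ 0 := by
      rw [ld32_D_apply]
      have h1 : σ (τ (c j)) ≠ 0 := by simpa using hc j hj
      have h2 : σ (c j) ≠ 0 := by simpa using hc j hj
      have h3 : τ (c j) ≠ 0 := by simpa using hc j hj
      exact div_ne_zero (mul_ne_zero h1 (hc j hj)) (mul_ne_zero h2 h3)
    rw [map_zpow₀, ← ld32_D_inv, ← zpow_natCast, ← zpow_mul, inv_zpow', ← zpow_add₀ hD0]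
    have : -(e j * (m : ℤ)) + (m : ℤ) * e j = 0 := by ring
    rw [this, zpow_zero]
  rw [Finset.prod_congr rfl this, Finset.prod_const_one, mul_one]

/-- **The local datum of the double difference** (`hLD` of `ntc47_main`).

`B` is a chart, `n` a prime of `B`, `W ⊇ B` the intersection of the Gauss valuation rings,
`σ, τ` two inertia elements acting on `F`.  If `f = θ · ∏ c_j ^ (m e_j)` with `θ` a horizontal
unit at `n` and the double differences `Φ_j` of the local equations `c_j` are `≡ 1 mod p W`,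
then `φ = ∏ Φ_j ^ e_j` is `≡ 1 mod p W` and `φ ^ m · u` is regular at `n`, where
`u = σ(τ f) f / (σ f · τ f)`. -/
theorem ld32_dd (W : Subring F) (p : F) (hp0 : p ≠ 0) (B : Subalgebra R F) (hpB : p ∈ B)
    (hBW : ∀ x ∈ B, x ∈ W)
    (hsat : ∀ x ∈ B, p⁻¹ * x ∈ W → p⁻¹ * x ∈ B)
    (hWunit : ∀ x ∈ W, (1 + p * x)⁻¹ ∈ W)
    (n : Ideal B) [n.IsPrime] (σ τ : F ≃+* F)
    (hσB : ∀ x ∈ B, σ x ∈ B) (hτB : ∀ x ∈ B, τ x ∈ B)
    (hσn : ∀ s : B, s ∉ n → (⟨σ s, hσB s s.2⟩ : B) ∉ n)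
    (hτn : ∀ s : B, s ∉ n → (⟨τ s, hτB s s.2⟩ : B) ∉ n)
    (hσp : ∃ ε ∈ B, p = ε * σ p) (hτp : ∃ ε ∈ B, p = ε * τ p)
    (hτW : ∀ x : F, x ≠ 0 → τ x / x ∈ W)
    (hσ1 : ∀ y ∈ W, p⁻¹ * (σ y - y) ∈ W)
    (m : ℕ) {ι : Type*} (s : Finset ι) (c : ι → F) (hc : ∀ j ∈ s, c j ≠ 0) (e : ι → ℤ)
    (f θ : F) (hθ0 : θ ≠ 0) (hf : f = θ * ∏ j ∈ s, c j ^ ((m : ℤ) * e j))
    (hθ : ld32_Reg B n p θ) (hθ' : ld32_Reg B n p θ⁻¹)
    (hΦ : ∀ j ∈ s, p⁻¹ * (σ (c j) * τ (c j) / (σ (τ (c j)) * c j) - 1) ∈ W) :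
    p⁻¹ * (∏ j ∈ s, (σ (c j) * τ (c j) / (σ (τ (c j)) * c j)) ^ (e j) - 1) ∈ W ∧
      ∃ s' : B, s' ∉ n ∧
        (s' : F) * ((∏ j ∈ s, (σ (c j) * τ (c j) / (σ (τ (c j)) * c j)) ^ (e j)) ^ m
          * (σ (τ f) * f / (σ f * τ f))) ∈ B := by
  have hpW : p ∈ W := hBW p hpB
  refine ⟨ld32_cong_prod W p hp0 hpW s _ fun j hj =>
    ld32_cong_zpow W p hp0 hpW hWunit (hΦ j hj) (e j), ?_⟩
  have hkey : (∏ j ∈ s, (σ (c j) * τ (c j) / (σ (τ (c j)) * c j)) ^ (e j)) ^ m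
      * (σ (τ f) * f / (σ f * τ f)) = ld32_D σ τ θ := by
    rw [← ld32_D_apply, hf]
    exact ld32_D_factor σ τ m s c hc e θ
  rw [hkey]
  -- `Θ = D θ` lies in `W`
  have hη : τ θ / θ ∈ W := hτW θ hθ0
  have hη' : θ / τ θ ∈ W := by
    have := hτW θ⁻¹ (inv_ne_zero hθ0)
    rwa [map_inv₀, inv_div_inv] at this
  have hση : σ (τ θ / θ) ∈ W := by
    have h1 := hσ1 _ hη
    have h2 : σ (τ θ / θ) = τ θ / θ + p * (p⁻¹ * (σ (τ θ / θ) - τ θ / θ)) := by
      field_simp; ring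
    rw [h2]; exact W.add_mem hη (W.mul_mem hpW h1)
  have hτθ0 : τ θ ≠ 0 := by simpa using hθ0
  have hσθ0 : σ θ ≠ 0 := by simpa using hθ0
  have hΘW : ld32_D σ τ θ ∈ W := by
    have : ld32_D σ τ θ = σ (τ θ / θ) * (θ / τ θ) := by
      rw [ld32_D_apply, map_div₀]; field_simp
    rw [this]; exact W.mul_mem hση hη'
  -- `Θ` is regular at `n` on the generic fibre
  have hΘreg : ld32_Reg B n p (ld32_D σ τ θ) := by
    have : ld32_D σ τ θ = σ (τ θ) * θ * (σ θ⁻¹ * τ θ⁻¹) := by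
      rw [ld32_D_apply, map_inv₀, map_inv₀, ← mul_inv, div_eq_mul_inv]
    rw [this]
    exact ld32_Reg_mul B n p
      (ld32_Reg_mul B n p (ld32_Reg_map B n p σ hσB hσn hσp (ld32_Reg_map B n p τ hτB hτn hτp hθ))
        hθ)
      (ld32_Reg_mul B n p (ld32_Reg_map B n p σ hσB hσn hσp hθ')
        (ld32_Reg_map B n p τ hτB hτn hτp hθ'))
  obtain ⟨s', hs', k, hk⟩ := hΘreg
  refine ⟨s', hs', ?_⟩
  apply ld32_sat_pow W p hp0 hpW B hsat k _ (W.mul_mem (hBW _ s'.2) hΘW)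
  rw [← mul_assoc]; exact hk

end dd

section congruences

variable {F : Type*} [Field F]

/-- **Unit branch.**  If `z` is a unit of `W` (only `z⁻¹ ∈ W` is used) and the four constants
lie in `p W`, then `(z - a₁)(z - a₂) / ((z - a₃)(z - a₄)) ≡ 1 mod p W`. -/
theorem ld32_cong_unit (W : Subring F) (p : F) (hp0 : p ≠ 0) (hpW : p ∈ W)
    (hWunit : ∀ x ∈ W, (1 + p * x)⁻¹ ∈ W) (z : F) (hz0 : z ≠ 0) (hzinv : z⁻¹ ∈ W)
    (a₁ a₂ a₃ a₄ : F) (h₁ : p⁻¹ * a₁ ∈ W) (h₂ : p⁻¹ * a₂ ∈ W) (h₃ : p⁻¹ * a₃ ∈ W)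
    (h₄ : p⁻¹ * a₄ ∈ W) :
    p⁻¹ * ((z - a₁) * (z - a₂) / ((z - a₃) * (z - a₄)) - 1) ∈ W := by
  have key : ∀ a : F, p⁻¹ * a ∈ W → p⁻¹ * ((z - a) / z - 1) ∈ W := by
    intro a ha
    have : p⁻¹ * ((z - a) / z - 1) = -(p⁻¹ * a) * z⁻¹ := by field_simp; ring
    rw [this]; exact W.mul_mem (W.neg_mem ha) hzinv
  have hΦ : (z - a₁) * (z - a₂) / ((z - a₃) * (z - a₄))
      = ((z - a₁) / z * ((z - a₂) / z)) / ((z - a₃) / z * ((z - a₄) / z)) := by
    rw [div_mul_div_comm, div_mul_div_comm,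
      div_div_div_cancel_right₀ (mul_ne_zero hz0 hz0)]
  rw [hΦ]
  exact ld32_cong_div W p hp0 hpW hWunit
    (ld32_cong_mul W p hp0 hpW (key a₁ h₁) (key a₂ h₂))
    (ld32_cong_mul W p hp0 hpW (key a₃ h₃) (key a₄ h₄))

/-- **Small branch.**  If `z / aᵢ ∈ p W` for the four (nonzero) constants and
`a₁ a₂ / (a₃ a₄) ≡ 1 mod p W`, then `(z - a₁)(z - a₂) / ((z - a₃)(z - a₄)) ≡ 1 mod p W`. -/
theorem ld32_cong_small (W : Subring F) (p : F) (hp0 : p ≠ 0) (hpW : p ∈ W)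
    (hWunit : ∀ x ∈ W, (1 + p * x)⁻¹ ∈ W) (z : F)
    (a₁ a₂ a₃ a₄ : F) (ha₁ : a₁ ≠ 0) (ha₂ : a₂ ≠ 0) (ha₃ : a₃ ≠ 0) (ha₄ : a₄ ≠ 0)
    (h₁ : p⁻¹ * (z / a₁) ∈ W) (h₂ : p⁻¹ * (z / a₂) ∈ W) (h₃ : p⁻¹ * (z / a₃) ∈ W)
    (h₄ : p⁻¹ * (z / a₄) ∈ W)
    (hconst : p⁻¹ * (a₁ * a₂ / (a₃ * a₄) - 1) ∈ W) :
    p⁻¹ * ((z - a₁) * (z - a₂) / ((z - a₃) * (z - a₄)) - 1) ∈ W := by
  have key : ∀ a : F, p⁻¹ * (z / a) ∈ W → p⁻¹ * ((1 - z / a) - 1) ∈ W := by
    intro a ha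
    have : p⁻¹ * ((1 - z / a) - 1) = -(p⁻¹ * (z / a)) := by ring
    rw [this]; exact W.neg_mem ha
  have hfac : ∀ a : F, a ≠ 0 → z - a = -a * (1 - z / a) := by
    intro a ha; field_simp; ring
  have hΦ : (z - a₁) * (z - a₂) / ((z - a₃) * (z - a₄))
      = (a₁ * a₂ / (a₃ * a₄))
        * (((1 - z / a₁) * (1 - z / a₂)) / ((1 - z / a₃) * (1 - z / a₄))) := by
    rw [hfac a₁ ha₁, hfac a₂ ha₂, hfac a₃ ha₃, hfac a₄ ha₄, div_mul_div_comm]
    congr 1 <;> ring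
  rw [hΦ]
  exact ld32_cong_mul W p hp0 hpW hconst
    (ld32_cong_div W p hp0 hpW hWunit
      (ld32_cong_mul W p hp0 hpW (key a₁ h₁) (key a₂ h₂))
      (ld32_cong_mul W p hp0 hpW (key a₃ h₃) (key a₄ h₄)))

/-- **The tame characters cancel in the double difference**: for a constant `a ≠ 0`,
`σ a · τ a / (σ(τ a) · a) ≡ 1 mod p W`, as soon as `τ` preserves the valuations
(`τ x / x ∈ W`) and `σ` is trivial on `W / p W`. -/
theorem ld32_const_cong (W : Subring F) (p : F) (hp0 : p ≠ 0) (σ τ : F ≃+* F)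
    (hτW : ∀ x : F, x ≠ 0 → τ x / x ∈ W)
    (hσ1 : ∀ y ∈ W, p⁻¹ * (σ y - y) ∈ W) (a : F) (ha : a ≠ 0) :
    p⁻¹ * (σ a * τ a / (σ (τ a) * a) - 1) ∈ W := by
  have hτa : τ a ≠ 0 := by simpa using ha
  have hσa : σ a ≠ 0 := by simpa using ha
  have hστa : σ (τ a) ≠ 0 := by simpa using hτa
  have hy : τ a / a ∈ W := hτW a ha
  have hy' : a / τ a ∈ W := by
    have := hτW a⁻¹ (inv_ne_zero ha)
    rwa [map_inv₀, inv_div_inv] at this
  have h1 := hσ1 _ hy'
  have : p⁻¹ * (σ a * τ a / (σ (τ a) * a) - 1)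
      = (τ a / a) * (p⁻¹ * (σ (a / τ a) - a / τ a)) := by
    rw [map_div₀]; field_simp
  rw [this]; exact W.mul_mem hy h1

/-- `σ` trivial on `W / p W` preserves `p W`. -/
theorem ld32_small_map (W : Subring F) (p : F) (hp0 : p ≠ 0) (hpW : p ∈ W) (σ : F ≃+* F)
    (hσ1 : ∀ y ∈ W, p⁻¹ * (σ y - y) ∈ W) {a : F} (ha : p⁻¹ * a ∈ W) : p⁻¹ * σ a ∈ W := by
  have haW : a ∈ W := by
    have : a = p * (p⁻¹ * a) := by field_simp
    rw [this]; exact W.mul_mem hpW ha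
  have : p⁻¹ * σ a = p⁻¹ * (σ a - a) + p⁻¹ * a := by ring
  rw [this]; exact W.add_mem (hσ1 a haW) ha

/-- **Double difference of a local equation `z - a`, unit branch**: `z` is fixed by `σ, τ`,
a unit of `W`, and `a ∈ p W`. -/
theorem ld32_Phi_unit (W : Subring F) (p : F) (hp0 : p ≠ 0) (hpW : p ∈ W)
    (hWunit : ∀ x ∈ W, (1 + p * x)⁻¹ ∈ W) (σ τ : F ≃+* F)
    (hσ1 : ∀ y ∈ W, p⁻¹ * (σ y - y) ∈ W) (hτ1 : ∀ y ∈ W, p⁻¹ * (τ y - y) ∈ W)
    (z : F) (hz0 : z ≠ 0) (hzinv : z⁻¹ ∈ W) (hσz : σ z = z) (hτz : τ z = z)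
    (a : F) (ha : p⁻¹ * a ∈ W) :
    p⁻¹ * (σ (z - a) * τ (z - a) / (σ (τ (z - a)) * (z - a)) - 1) ∈ W := by
  simp only [map_sub, hσz, hτz]
  exact ld32_cong_unit W p hp0 hpW hWunit z hz0 hzinv _ _ _ _
    (ld32_small_map W p hp0 hpW σ hσ1 ha) (ld32_small_map W p hp0 hpW τ hτ1 ha)
    (ld32_small_map W p hp0 hpW σ hσ1 (ld32_small_map W p hp0 hpW τ hτ1 ha)) ha

/-- **Double difference of a local equation `z - a`, small branch**: `z` is fixed by `σ, τ`,
`z / a ∈ p W`, and `σ, τ` preserve the valuations and are trivial on `W / p W`. -/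
theorem ld32_Phi_small (W : Subring F) (p : F) (hp0 : p ≠ 0) (hpW : p ∈ W)
    (hWunit : ∀ x ∈ W, (1 + p * x)⁻¹ ∈ W) (σ τ : F ≃+* F)
    (hσW : ∀ x : F, x ≠ 0 → σ x / x ∈ W) (hτW : ∀ x : F, x ≠ 0 → τ x / x ∈ W)
    (hσ1 : ∀ y ∈ W, p⁻¹ * (σ y - y) ∈ W)
    (z : F) (hσz : σ z = z) (hτz : τ z = z)
    (a : F) (ha0 : a ≠ 0) (ha : p⁻¹ * (z / a) ∈ W) :
    p⁻¹ * (σ (z - a) * τ (z - a) / (σ (τ (z - a)) * (z - a)) - 1) ∈ W := by
  have hτa : τ a ≠ 0 := by simpa using ha0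
  have hσa : σ a ≠ 0 := by simpa using ha0
  have hστa : σ (τ a) ≠ 0 := by simpa using hτa
  have hinvσ : ∀ x : F, x ≠ 0 → x / σ x ∈ W := by
    intro x hx
    have := hσW x⁻¹ (inv_ne_zero hx)
    rwa [map_inv₀, inv_div_inv] at this
  have hinvτ : ∀ x : F, x ≠ 0 → x / τ x ∈ W := by
    intro x hx
    have := hτW x⁻¹ (inv_ne_zero hx)
    rwa [map_inv₀, inv_div_inv] at this
  have h1 : p⁻¹ * (z / σ a) ∈ W := by
    have : p⁻¹ * (z / σ a) = p⁻¹ * (z / a) * (a / σ a) := by field_simp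
    rw [this]; exact W.mul_mem ha (hinvσ a ha0)
  have h2 : p⁻¹ * (z / τ a) ∈ W := by
    have : p⁻¹ * (z / τ a) = p⁻¹ * (z / a) * (a / τ a) := by field_simp
    rw [this]; exact W.mul_mem ha (hinvτ a ha0)
  have h3 : p⁻¹ * (z / σ (τ a)) ∈ W := by
    have : p⁻¹ * (z / σ (τ a)) = p⁻¹ * (z / τ a) * (τ a / σ (τ a)) := by field_simp
    rw [this]; exact W.mul_mem h2 (hinvσ (τ a) hτa)
  simp only [map_sub, hσz, hτz]
  exact ld32_cong_small W p hp0 hpW hWunit z _ _ _ _ hσa hτa hστa ha0 h1 h2 h3 ha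
    (ld32_const_cong W p hp0 σ τ hτW hσ1 a ha0)

end congruences

section node

variable {R A : Type*} [CommRing R] [CommRing A] [Algebra R A] [IsLocalRing A]
  [IsNoetherianRing A]

/-- **Kernel of an integral point.**  `A` is the local ring of the chart at a closed point of
the special fibre, `ρ : A → R` the evaluation at an integral point through it.  If the maximal
ideal of `A` is generated by `π` and a set `T` of coordinates whose values at the point lie in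
`π R`, then the kernel of `ρ` is generated by the `t - ρ t`, `t ∈ T`. -/
theorem ld32_ker_eq (ρ : A →ₐ[R] R) (π : R) (T : Set A)
    (hmax : IsLocalRing.maximalIdeal A = Ideal.span (insert (algebraMap R A π) T))
    (hT : ∀ t ∈ T, ρ t ∈ Ideal.span {π}) :
    RingHom.ker (ρ : A →+* R)
      = Ideal.span ((fun t => t - algebraMap R A (ρ t)) '' T) := by
  set I : Ideal A := Ideal.span ((fun t => t - algebraMap R A (ρ t)) '' T) with hI
  have hIker : I ≤ RingHom.ker (ρ : A →+* R) := by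
    rw [hI, Ideal.span_le]
    rintro _ ⟨t, -, rfl⟩
    show (ρ : A →+* R) (t - algebraMap R A (ρ t)) = 0
    simp
  have hker_ne : RingHom.ker (ρ : A →+* R) ≠ ⊤ := by
    intro h
    have h1 : (1 : A) ∈ RingHom.ker (ρ : A →+* R) := by rw [h]; trivial
    have h2 : (1 : R) = 0 := by simpa using h1
    have h3 : (1 : A) = 0 := by
      rw [← map_one (algebraMap R A), h2, map_zero]
    exact one_ne_zero h3
  have hker_le : RingHom.ker (ρ : A →+* R) ≤ IsLocalRing.maximalIdeal A :=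
    IsLocalRing.le_maximalIdeal hker_ne
  have hπm : algebraMap R A π ∈ IsLocalRing.maximalIdeal A := by
    rw [hmax]; exact Ideal.subset_span (Set.mem_insert _ _)
  refine le_antisymm ?_ hIker
  apply Submodule.le_of_le_smul_of_le_jacobson_bot (I := IsLocalRing.maximalIdeal A)
    (IsNoetherian.noetherian _)
    (IsLocalRing.jacobson_eq_maximalIdeal ⊥ bot_ne_top).ge
  intro x hx
  -- every element of the maximal ideal is `i + π y` with `i ∈ I`
  have hdec : ∀ w ∈ IsLocalRing.maximalIdeal A, ∃ i ∈ I, ∃ y : A, w = i + algebraMap R A π * y := by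
    intro w hw
    rw [hmax] at hw
    induction hw using Submodule.span_induction with
    | mem w hw =>
      rcases hw with rfl | hw
      · exact ⟨0, I.zero_mem, 1, by ring⟩
      · obtain ⟨r, hr⟩ := Ideal.mem_span_singleton'.mp (hT w hw)
        refine ⟨w - algebraMap R A (ρ w), Ideal.subset_span ⟨w, hw, rfl⟩, algebraMap R A r, ?_⟩
        rw [← hr, map_mul]; ring
    | zero => exact ⟨0, I.zero_mem, 0, by ring⟩
    | add w₁ w₂ _ _ h₁ h₂ =>
      obtain ⟨i₁, hi₁, y₁, rfl⟩ := h₁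
      obtain ⟨i₂, hi₂, y₂, rfl⟩ := h₂
      exact ⟨i₁ + i₂, I.add_mem hi₁ hi₂, y₁ + y₂, by ring⟩
    | smul a w _ h =>
      obtain ⟨i, hi, y, rfl⟩ := h
      exact ⟨a * i, I.mul_mem_left a hi, a * y, by simp only [smul_eq_mul]; ring⟩
  obtain ⟨i, hi, y, rfl⟩ := hdec x (hker_le hx)
  have hρi : ρ i = 0 := hIker hi
  have hρx : ρ (i + algebraMap R A π * y) = 0 := hx
  have hπy : π * ρ y = 0 := by
    have : ρ (i + algebraMap R A π * y) = ρ i + π * ρ y := by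
      rw [map_add, map_mul, AlgHom.commutes]
      rfl
    rw [this, hρi, zero_add] at hρx
    exact hρx
  have hy' : y - algebraMap R A (ρ y) ∈ RingHom.ker (ρ : A →+* R) := by
    show (ρ : A →+* R) (y - algebraMap R A (ρ y)) = 0
    simp
  have hx' : i + algebraMap R A π * y
      = i + algebraMap R A π • (y - algebraMap R A (ρ y)) := by
    have : algebraMap R A π * algebraMap R A (ρ y) = 0 := by
      rw [← map_mul, hπy, map_zero]
    rw [smul_eq_mul, mul_sub, this, sub_zero]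
  rw [hx']
  exact Submodule.add_mem_sup hi (Submodule.smul_mem_smul hπm hy')

/-- **Local equation of a point at a node.**  With coordinates `z z' = Q ε` (`ε` a unit,
`Q ∈ R`) generating the maximal ideal together with `π`, and an integral point `ρ` with
`a = ρ z`, `b = ρ z' ∈ π R`: `a · ker ρ ⊆ (z - a) A`.  Hence, after inverting `π` (so that
`a ≠ 0` becomes a unit), `z - a` generates the ideal of the point. -/
theorem ld32_node_local_eq (ρ : A →ₐ[R] R) (π : R) (z z' : A)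
    (hmax : IsLocalRing.maximalIdeal A = Ideal.span {algebraMap R A π, z, z'})
    (ha : ρ z ∈ Ideal.span {π}) (hb : ρ z' ∈ Ideal.span {π})
    (ε : Aˣ) (Q : R) (hzz : z * z' = algebraMap R A Q * ε) :
    ∀ x ∈ RingHom.ker (ρ : A →+* R),
      ∃ y : A, algebraMap R A (ρ z) * x = y * (z - algebraMap R A (ρ z)) := by
  have hker := ld32_ker_eq ρ π ({z, z'} : Set A) hmax (by
    intro t ht
    rcases ht with rfl | rfl
    · exact ha
    · exact hb)
  have himg : (fun t => t - algebraMap R A (ρ t)) '' ({z, z'} : Set A)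
      = {z - algebraMap R A (ρ z), z' - algebraMap R A (ρ z')} := by
    rw [Set.image_pair]
  rw [himg] at hker
  -- the value of `ε` is a unit of `A`
  have hεe : ρ (ε : A) * ρ ((ε⁻¹ : Aˣ) : A) = 1 := by
    rw [← map_mul, Units.mul_inv, map_one]
  have hab : ρ z * ρ z' = Q * ρ (ε : A) := by
    have := congrArg ρ hzz
    rwa [map_mul, map_mul, AlgHom.commutes] at this
  -- `ε - ρ ε ∈ ker ρ`
  have hεker : (ε : A) - algebraMap R A (ρ (ε : A)) ∈ RingHom.ker (ρ : A →+* R) := by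
    show (ρ : A →+* R) ((ε : A) - algebraMap R A (ρ (ε : A))) = 0
    simp
  rw [hker] at hεker
  obtain ⟨α, β, hαβ⟩ := Ideal.mem_span_pair.mp hεker
  -- the unit `υ = ρ ε - b β`
  have hbm : algebraMap R A (ρ z') ∈ IsLocalRing.maximalIdeal A := by
    obtain ⟨r, hr⟩ := Ideal.mem_span_singleton'.mp hb
    rw [← hr, map_mul, hmax]
    exact Ideal.mul_mem_left _ _ (Ideal.subset_span (Set.mem_insert _ _))
  have he0unit : IsUnit (algebraMap R A (ρ (ε : A))) :=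
    IsUnit.of_mul_eq_one (algebraMap R A (ρ ((ε⁻¹ : Aˣ) : A))) (by rw [← map_mul, hεe, map_one])
  have hυ : IsUnit (algebraMap R A (ρ (ε : A)) - algebraMap R A (ρ z') * β) := by
    by_contra hnu
    have h1 : algebraMap R A (ρ (ε : A)) - algebraMap R A (ρ z') * β
        ∈ IsLocalRing.maximalIdeal A := (IsLocalRing.mem_maximalIdeal _).mpr hnu
    have h2 : algebraMap R A (ρ (ε : A)) ∈ IsLocalRing.maximalIdeal A := by
      have := Ideal.add_mem _ h1 (Ideal.mul_mem_right β _ hbm)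
      simpa using this
    exact (IsLocalRing.mem_maximalIdeal _).mp h2 he0unit
  obtain ⟨υ, hυeq⟩ := hυ
  -- the key identity
  have hkey : algebraMap R A (ρ z) * (υ : A) * (z' - algebraMap R A (ρ z'))
      = algebraMap R A (ρ (ε : A)) * (algebraMap R A Q * α - z')
        * (z - algebraMap R A (ρ z)) := by
    have habA : algebraMap R A (ρ z) * algebraMap R A (ρ z')
        = algebraMap R A Q * algebraMap R A (ρ (ε : A)) := by
      rw [← map_mul (algebraMap R A), ← map_mul (algebraMap R A), hab]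
    rw [hυeq]
    linear_combination (algebraMap R A (ρ (ε : A))) * hzz
      - (algebraMap R A Q * algebraMap R A (ρ (ε : A))) * hαβ
      - (algebraMap R A (ρ (ε : A)) + β * (z' - algebraMap R A (ρ z'))) * habA
  have hz' : algebraMap R A (ρ z) * (z' - algebraMap R A (ρ z'))
      = ((υ⁻¹ : Aˣ) : A) * (algebraMap R A (ρ (ε : A)) * (algebraMap R A Q * α - z'))
        * (z - algebraMap R A (ρ z)) := by
    have : algebraMap R A (ρ z) * (z' - algebraMap R A (ρ z'))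
        = ((υ⁻¹ : Aˣ) : A) * (algebraMap R A (ρ z) * (υ : A) * (z' - algebraMap R A (ρ z'))) := by
      have h1 : ((υ⁻¹ : Aˣ) : A) * (υ : A) = 1 := Units.inv_mul υ
      linear_combination (-(algebraMap R A (ρ z) * (z' - algebraMap R A (ρ z')))) * h1
    rw [this, hkey]; ring
  intro x hx
  rw [hker] at hx
  obtain ⟨γ, δ, rfl⟩ := Ideal.mem_span_pair.mp hx
  refine ⟨algebraMap R A (ρ z) * γ
    + δ * (((υ⁻¹ : Aˣ) : A) * (algebraMap R A (ρ (ε : A)) * (algebraMap R A Q * α - z'))), ?_⟩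
  linear_combination δ * hz'

/-- **Local equation of a point at a regular closed point**: if the maximal ideal is `(π, ξ)`
and `ρ ξ ∈ π R`, then `ker ρ = (ξ - ρ ξ)`. -/
theorem ld32_regular_local_eq (ρ : A →ₐ[R] R) (π : R) (ξ : A)
    (hmax : IsLocalRing.maximalIdeal A = Ideal.span {algebraMap R A π, ξ})
    (ha : ρ ξ ∈ Ideal.span {π}) :
    RingHom.ker (ρ : A →+* R) = Ideal.span {ξ - algebraMap R A (ρ ξ)} := by
  have hker := ld32_ker_eq ρ π ({ξ} : Set A) hmax (by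
    intro t ht
    rw [Set.mem_singleton_iff] at ht
    rw [ht]; exact ha)
  rw [Set.image_singleton] at hker
  exact hker

end node

end Fermat.Agent.S34
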