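import Mathlib
import Fermat.Agent.S34.Iface47
import Fermat.Agent.S34.LocalDatum32

/-!
# S34 lab (helper32): the interface package `s34i47_Pkg_LD` (P6, abstract)

`pld32_Pkg_LD : s34i47_Pkg_LD` — (LP) + (KR) + (G) for `σ` and `τ` + saturation ⟹ the local
datum (LD) of the nodal two-chart lemma for the double difference
`u = σ(τ f) f / (σ f · τ f)`.

Proof.  At a closed point `n ∋ π` take `c` from (LP) and `φ := (Φ c)⁻¹`, `Φ = s34i47_dd σ τ`.
* `Φ x ≡ 1 mod π W` for EVERY `x ≠ 0` by (G1) for `τ` and (G2) for `σ` (`ld32_const_cong`).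
* `φ ^ m · Φ f = Φ θ`, `θ := f / c ^ m`; `Φ θ ∈ W`, and `Φ θ` lies in every horizontal `O` through
  `n`, because `O.comap σ`, `O.comap τ`, `(O.comap σ).comap τ` are again horizontal valuation
  rings through `n` ((G0), and (G2) + saturation: `σ x - x ∈ π B ⊆ n` for `x ∈ B`).  So by (KR)
  `π ^ k · s · Φ θ ∈ B` with `s ∉ n`, and saturation gives `s · Φ θ ∈ B`.

All names are prefixed `pld32_`.
-/

set_option autoImplicit false

namespace Fermat.Agent.S34

section comap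

variable {R F : Type*} [CommRing R] [Field F] [Algebra R F]

/-- The preimage of a horizontal valuation ring under an automorphism mapping `R` into `R` is
horizontal. -/
theorem pld32_comap_isHoriz [IsDomain R] [IsDiscreteValuationRing R] (π : R)
    (hπ : Irreducible π) (σ : F ≃+* F)
    (hσR : ∀ r : R, ∃ r' : R, σ (algebraMap R F r) = algebraMap R F r')
    (O : ValuationSubring F) (hO : s34i47_IsHoriz π O) :
    s34i47_IsHoriz π (O.comap (σ : F →+* F)) := by
  obtain ⟨hOtop, hOpir, hOR, hOπ⟩ := hO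
  refine ⟨?_, ?_, ?_, ?_⟩
  · intro htop
    apply hOtop
    rw [eq_top_iff]
    intro y _
    have h1 : σ.symm y ∈ O.comap (σ : F →+* F) := by rw [htop]; trivial
    have h2 : (σ : F →+* F) (σ.symm y) ∈ O := h1
    have h3 : (σ : F →+* F) (σ.symm y) = y := by simp
    rwa [h3] at h2
  · -- principal: `O ≃ O.comap σ`
    let g : ↥O →+* ↥(O.comap (σ : F →+* F)) :=
      { toFun := fun x => ⟨σ.symm (x : F), by
          show (σ : F →+* F) (σ.symm (x : F)) ∈ O
          simp⟩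
        map_one' := by apply Subtype.ext; simp
        map_mul' := fun x y => by apply Subtype.ext; simp
        map_zero' := by apply Subtype.ext; simp
        map_add' := fun x y => by apply Subtype.ext; simp }
    have hg : Function.Surjective g := by
      intro y
      have hy : (σ : F →+* F) (y : F) ∈ O := y.2
      refine ⟨⟨σ (y : F), hy⟩, ?_⟩
      apply Subtype.ext
      show σ.symm (σ (y : F)) = (y : F)
      simp
    have := hOpir
    exact IsPrincipalIdealRing.of_surjective g hg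
  · intro r
    obtain ⟨r', hr'⟩ := hσR r
    show (σ : F →+* F) (algebraMap R F r) ∈ O
    have : (σ : F →+* F) (algebraMap R F r) = algebraMap R F r' := hr'
    rw [this]; exact hOR r'
  · obtain ⟨π', hπ'⟩ := hσR π
    show (σ : F →+* F) ((algebraMap R F π)⁻¹) ∈ O
    have h1 : (σ : F →+* F) ((algebraMap R F π)⁻¹) = (algebraMap R F π')⁻¹ := by
      rw [map_inv₀]; congr 1
    rw [h1]
    by_cases h0 : π' = 0
    · rw [h0, map_zero, inv_zero]; exact O.zero_mem
    · obtain ⟨k, u, hu⟩ := IsDiscreteValuationRing.eq_unit_mul_pow_irreducible h0 hπ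
      have h2 : (algebraMap R F π')⁻¹
          = algebraMap R F ((u⁻¹ : Rˣ) : R) * ((algebraMap R F π)⁻¹) ^ k := by
        have hu1 : algebraMap R F (u : R) * algebraMap R F ((u⁻¹ : Rˣ) : R) = 1 := by
          rw [← map_mul, Units.mul_inv, map_one]
        rw [hu, map_mul, map_pow, mul_inv, inv_pow, eq_inv_of_mul_eq_one_right hu1]
      rw [h2]
      exact O.mul_mem _ _ (hOR _) (pow_mem hOπ k)

/-- An automorphism which is trivial modulo `π W` on a `π`-saturated chart `B ⊆ W` preserves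
the complement of every prime `n ∋ π`. -/
theorem pld32_not_mem_map (π : R) (hp0 : algebraMap R F π ≠ 0) (W : Subring F)
    (B : Subalgebra R F) (hBW : ∀ x ∈ B, x ∈ W)
    (hsat : ∀ x ∈ B, (algebraMap R F π)⁻¹ * x ∈ W → (algebraMap R F π)⁻¹ * x ∈ B)
    (σ : F ≃+* F) (hσB : ∀ x ∈ B, σ x ∈ B)
    (hσ1 : ∀ x ∈ W, (algebraMap R F π)⁻¹ * (σ x - x) ∈ W)
    (n : Ideal B) (hπn : algebraMap R B π ∈ n) (x : B) (hx : x ∉ n) :
    (⟨σ x, hσB x x.2⟩ : B) ∉ n := by
  intro hσx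
  apply hx
  have hd : σ (x : F) - x ∈ B := B.sub_mem (hσB x x.2) x.2
  have hd' : (algebraMap R F π)⁻¹ * (σ (x : F) - x) ∈ B := hsat _ hd (hσ1 x (hBW x x.2))
  have heq : x = (⟨σ x, hσB x x.2⟩ : B)
      - algebraMap R B π * ⟨(algebraMap R F π)⁻¹ * (σ (x : F) - x), hd'⟩ := by
    apply Subtype.ext
    show (x : F) = σ (x : F) - algebraMap R F π * ((algebraMap R F π)⁻¹ * (σ (x : F) - x))
    rw [← mul_assoc, mul_inv_cancel₀ hp0, one_mul]; ring
  rw [heq]
  exact n.sub_mem hσx (n.mul_mem_right _ hπn)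

/-- The preimage of a valuation ring through `n` under such an automorphism passes
through `n`. -/
theorem pld32_comap_through (π : R) (hp0 : algebraMap R F π ≠ 0) (W : Subring F)
    (B : Subalgebra R F) (hBW : ∀ x ∈ B, x ∈ W)
    (hsat : ∀ x ∈ B, (algebraMap R F π)⁻¹ * x ∈ W → (algebraMap R F π)⁻¹ * x ∈ B)
    (σ : F ≃+* F) (hσB : ∀ x ∈ B, σ x ∈ B)
    (hσ1 : ∀ x ∈ W, (algebraMap R F π)⁻¹ * (σ x - x) ∈ W)
    (n : Ideal B) (hπn : algebraMap R B π ∈ n) (O : ValuationSubring F)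
    (hO : s34i47_Through B n O) : s34i47_Through B n (O.comap (σ : F →+* F)) := by
  obtain ⟨hBO, hnO⟩ := hO
  refine ⟨fun x hx => hBO _ (hσB x hx), fun x hx => ?_⟩
  show (σ : F →+* F) ((x : F)⁻¹) ∈ O
  have h1 : (σ : F →+* F) ((x : F)⁻¹) = (σ (x : F))⁻¹ := by rw [map_inv₀]; rfl
  rw [h1]
  exact hnO ⟨σ x, hσB x x.2⟩ (pld32_not_mem_map π hp0 W B hBW hsat σ hσB hσ1 n hπn x hx)

end comap

section dd

variable {F : Type*} [Field F]

theorem pld32_D_eq1 (σ τ : F ≃+* F) (θ : F) (hθ0 : θ ≠ 0) :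
    ld32_D σ τ θ = σ (τ θ / θ) * (θ / τ θ) := by
  have hτθ0 : τ θ ≠ 0 := by simpa using hθ0
  have hσθ0 : σ θ ≠ 0 := by simpa using hθ0
  rw [ld32_D_apply, map_div₀]; field_simp

theorem pld32_D_eq2 (σ τ : F ≃+* F) (θ : F) :
    ld32_D σ τ θ = σ (τ θ) * θ * ((σ θ)⁻¹ * (τ θ)⁻¹) := by
  rw [ld32_D_apply, ← mul_inv, div_eq_mul_inv]

end dd

/-- **Package P6** of the S34 interface: (LP) + (KR) + (G) + saturation ⟹ (LD). -/
theorem pld32_Pkg_LD : s34i47_Pkg_LD := by
  intro R K F _ _ _ _ _ _ _ _ _ _ π hπ m _hm W B σ τ f hf hRW hBW hsat hGσ hGτ hσB hτB hKr hLP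
    n hn hπn
  obtain ⟨hσR, _hσW, hσ1⟩ := hGσ
  obtain ⟨hτR, hτW, hτ1⟩ := hGτ
  -- `π ≠ 0` in `F`
  have hp0 : algebraMap R F π ≠ 0 := by
    rw [IsScalarTower.algebraMap_apply R K F]
    intro h0
    have h1 : algebraMap R K π = 0 := by
      have := (algebraMap K F).injective (a₁ := algebraMap R K π) (a₂ := 0) (by rw [h0, map_zero])
      exact this
    exact hπ.ne_zero ((IsFractionRing.injective R K) (by rw [h1, map_zero]))
  have hpW : algebraMap R F π ∈ W := hRW π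
  obtain ⟨c, hc0, hc⟩ := hLP n hn hπn
  have hDc0 : ld32_D σ τ c ≠ 0 := by
    rw [ld32_D_apply]
    have h1 : σ (τ c) ≠ 0 := by simpa using hc0
    have h2 : σ c ≠ 0 := by simpa using hc0
    have h3 : τ c ≠ 0 := by simpa using hc0
    exact div_ne_zero (mul_ne_zero h1 hc0) (mul_ne_zero h2 h3)
  refine ⟨(ld32_D σ τ c)⁻¹, ?_, ?_⟩
  · rw [ld32_D_inv]
    exact ld32_const_cong W _ hp0 σ τ hτW hσ1 c hc0
  -- `θ = f / c ^ m`
  obtain ⟨θ, hθ⟩ : ∃ θ : F, θ = f / c ^ m := ⟨_, rfl⟩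
  have hθ0 : θ ≠ 0 := by rw [hθ]; exact div_ne_zero hf (pow_ne_zero m hc0)
  have hkey : ((ld32_D σ τ c)⁻¹) ^ m * s34i47_dd σ τ f = ld32_D σ τ θ := by
    have hf' : f = θ * c ^ m := by rw [hθ]; field_simp
    have h1 : s34i47_dd σ τ f = ld32_D σ τ f := rfl
    rw [h1]
    conv_lhs => rw [hf']
    rw [map_mul, map_pow, inv_pow, mul_left_comm, inv_mul_cancel₀ (pow_ne_zero m hDc0), mul_one]
  rw [hkey]
  -- `Φ θ ∈ W`
  have hη : τ θ / θ ∈ W := hτW θ hθ0
  have hη' : θ / τ θ ∈ W := by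
    have := hτW θ⁻¹ (inv_ne_zero hθ0)
    rwa [map_inv₀, inv_div_inv] at this
  have hση : σ (τ θ / θ) ∈ W := by
    have h1 := hσ1 _ hη
    have h2 : σ (τ θ / θ) = τ θ / θ
        + algebraMap R F π * ((algebraMap R F π)⁻¹ * (σ (τ θ / θ) - τ θ / θ)) := by
      field_simp; ring
    rw [h2]; exact W.add_mem hη (W.mul_mem hpW h1)
  have hΘW : ld32_D σ τ θ ∈ W := by
    rw [pld32_D_eq1 σ τ θ hθ0]; exact W.mul_mem hση hη'
  -- `Φ θ` lies in every horizontal valuation ring through `n`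
  have hΘO : ∀ O : ValuationSubring F, s34i47_IsHoriz π O → s34i47_Through B n O →
      ld32_D σ τ θ ∈ O := by
    intro O hO hOn
    have hθO : ∀ O' : ValuationSubring F, s34i47_IsHoriz π O' → s34i47_Through B n O' →
        θ ∈ O' ∧ θ⁻¹ ∈ O' := by
      intro O' hO' hO'n
      obtain ⟨h1, h2⟩ := hc O' hO' hO'n
      refine ⟨by rw [hθ]; exact h1, ?_⟩
      have : θ⁻¹ = c ^ m / f := by rw [hθ, inv_div]
      rw [this]; exact h2
    -- the three preimages
    have hOσ := pld32_comap_isHoriz π hπ σ hσR O hO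
    have hOσn := pld32_comap_through π hp0 W B hBW hsat σ hσB hσ1 n hπn O hOn
    have hOτ := pld32_comap_isHoriz π hπ τ hτR O hO
    have hOτn := pld32_comap_through π hp0 W B hBW hsat τ hτB hτ1 n hπn O hOn
    have hOστ := pld32_comap_isHoriz π hπ τ hτR _ hOσ
    have hOστn := pld32_comap_through π hp0 W B hBW hsat τ hτB hτ1 n hπn _ hOσn
    have h1 : σ (τ θ) ∈ O := (hθO _ hOστ hOστn).1
    have h2 : θ ∈ O := (hθO O hO hOn).1
    have h3 : (σ θ)⁻¹ ∈ O := by
      have := (hθO _ hOσ hOσn).2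
      have h' : (σ : F →+* F) θ⁻¹ ∈ O := this
      rwa [map_inv₀] at h'
    have h4 : (τ θ)⁻¹ ∈ O := by
      have := (hθO _ hOτ hOτn).2
      have h' : (τ : F →+* F) θ⁻¹ ∈ O := this
      rwa [map_inv₀] at h'
    rw [pld32_D_eq2 σ τ θ]
    exact O.mul_mem _ _ (O.mul_mem _ _ h1 h2) (O.mul_mem _ _ h3 h4)
  obtain ⟨s, hs, k, hk⟩ := hKr n hn hπn (ld32_D σ τ θ) hΘO
  exact ⟨s, hs, ld32_sat_pow W _ hp0 hpW B hsat k _ (W.mul_mem (hBW _ s.2) hΘW) hk⟩

end Fermat.Agent.S34
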