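import Mathlib
import Fermat.Agent.S18.LPGlue7
import Fermat.Agent.S34.Iface47

/-!
# S34 lab, package P5a (helper37): `(LS) ⟹ (UZ)`, literally `s34i47_Pkg_UZ`

* `ld37_ker_eq`, `ld37_regular_pt`, `ld37_node_pt` (Mathlib only): in a noetherian local domain
  `D` with an idempotent endomorphism `ρ` (evaluation at a rational point, image a discrete
  valuation ring with uniformiser `π = ρ π`): if `m_D = (π, ξ)` resp. `m_D = (π, z, z')` with
  `z z' = π ^ K * unit`, then `ψ := ξ - ρ ξ` resp. `z - ρ z` lies in no prime `𝔭 ∌ π` other than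
  `ker ρ`, and generates `ker ρ` after inverting `π`.
* `uz37_core`: the unique-zero property at one closed point `n` of a chart `B` (a `Subring F`)
  and one rational horizontal valuation ring `O` through `n`.
* `uz37_Pkg_UZ : s34i47_Pkg_UZ`.
-/

set_option autoImplicit false

namespace Fermat.Agent.S34

open Fermat.Agent.S18

section point

open IsLocalRing

variable {D : Type*} [CommRing D] [IsDomain D] [IsNoetherianRing D] [IsLocalRing D]

omit [IsDomain D] [IsNoetherianRing D] in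
/-- An idempotent ring endomorphism of a local ring maps the maximal ideal into itself. -/
theorem ld37_rho_mem (ρ : D →+* D) (hρρ : ∀ x, ρ (ρ x) = ρ x) (x : D) (hx : x ∈ maximalIdeal D) :
    ρ x ∈ maximalIdeal D := by
  by_contra hu
  obtain ⟨u, hu⟩ := IsLocalRing.notMem_maximalIdeal.mp hu
  have hρu : ρ (u : D) = u := by rw [hu, hρρ]
  have hρinv : ρ ((u⁻¹ : Dˣ) : D) = ((u⁻¹ : Dˣ) : D) := by
    have h1 : ρ ((u⁻¹ : Dˣ) : D) * ρ (u : D) = 1 := by rw [← map_mul, Units.inv_mul, map_one]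
    rw [hρu] at h1
    calc ρ ((u⁻¹ : Dˣ) : D) = ρ ((u⁻¹ : Dˣ) : D) * ((u : D) * ((u⁻¹ : Dˣ) : D)) := by
          rw [Units.mul_inv, mul_one]
      _ = ((u⁻¹ : Dˣ) : D) := by rw [← mul_assoc, h1, one_mul]
  have h1 : ρ (x * ((u⁻¹ : Dˣ) : D)) = 1 := by
    rw [map_mul, hρinv, ← hu, Units.mul_inv]
  have hmem : x * ((u⁻¹ : Dˣ) : D) ∈ maximalIdeal D := Ideal.mul_mem_right _ _ hx
  have h2 : IsUnit (1 - x * ((u⁻¹ : Dˣ) : D)) := by
    by_contra hnu
    have h3 : 1 - x * ((u⁻¹ : Dˣ) : D) ∈ maximalIdeal D := (IsLocalRing.mem_maximalIdeal _).mpr hnu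
    have h4 : (1 : D) ∈ maximalIdeal D := by
      have := Ideal.add_mem _ h3 hmem
      rwa [sub_add_cancel] at this
    exact (IsLocalRing.mem_maximalIdeal _).mp h4 isUnit_one
  have h3 : ρ (1 - x * ((u⁻¹ : Dˣ) : D)) = 0 := by rw [map_sub, map_one, h1, sub_self]
  exact (h2.map ρ).ne_zero h3

/-- **The kernel of the evaluation at a rational point.**  `D` a noetherian local domain
(a local ring `B_n` of the chart), `ρ` an idempotent endomorphism (the evaluation at a rational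
point, with image the base ring `A`), `π = ρ π` such that every nonzero element of the image of
`ρ` is `π ^ k * unit`.  If `m_D = (π, S)`, then `ker ρ` is generated by the `x - ρ x`, `x ∈ S`. -/
theorem ld37_ker_eq (π : D) (hπ0 : π ≠ 0) (ρ : D →+* D) (hρρ : ∀ x, ρ (ρ x) = ρ x)
    (hρπ : ρ π = π)
    (hA : ∀ x : D, ρ x ≠ 0 → ∃ (k : ℕ) (u : D), IsUnit u ∧ ρ x = π ^ k * u)
    (S : Set D) (hS : maximalIdeal D = Ideal.span (insert π S)) :
    RingHom.ker ρ = Ideal.span ((fun x => x - ρ x) '' S) := by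
  set I : Ideal D := Ideal.span ((fun x => x - ρ x) '' S) with hI
  have hπm : π ∈ maximalIdeal D := by
    rw [hS]; exact Ideal.subset_span (Set.mem_insert _ _)
  have hIker : I ≤ RingHom.ker ρ := by
    rw [hI, Ideal.span_le]
    rintro _ ⟨x, -, rfl⟩
    show x - ρ x ∈ RingHom.ker ρ
    rw [RingHom.mem_ker, map_sub, hρρ, sub_self]
  have hρπdvd : ∀ x ∈ maximalIdeal D, ∃ y, ρ x = π * y := by
    intro x hx
    by_cases h0 : ρ x = 0
    · exact ⟨0, by rw [h0, mul_zero]⟩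
    · obtain ⟨k, u, hu, hk⟩ := hA x h0
      rcases k with _ | k
      · exfalso
        rw [pow_zero, one_mul] at hk
        exact (IsLocalRing.mem_maximalIdeal _).mp (ld37_rho_mem ρ hρρ x hx) (hk ▸ hu)
      · exact ⟨π ^ k * u, by rw [hk]; ring⟩
  have hm_le : maximalIdeal D ≤ I ⊔ Ideal.span {π} := by
    rw [hS, Ideal.span_le]
    rintro x (rfl | hx)
    · exact Ideal.mem_sup_right (Ideal.subset_span rfl)
    · have hxm : x ∈ maximalIdeal D := by
        rw [hS]; exact Ideal.subset_span (Set.mem_insert_of_mem _ hx)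
      obtain ⟨y, hy⟩ := hρπdvd x hxm
      have h1 : x - ρ x ∈ I ⊔ Ideal.span {π} :=
        Ideal.mem_sup_left (Ideal.subset_span ⟨x, hx, rfl⟩)
      have h2 : ρ x ∈ I ⊔ Ideal.span {π} := by
        rw [hy]
        exact Ideal.mem_sup_right (Ideal.mul_mem_right _ _ (Ideal.subset_span rfl))
      have := Ideal.add_mem _ h1 h2
      rwa [sub_add_cancel] at this
  have hC : ∀ k : ℕ, ∀ y ∈ RingHom.ker ρ, y ∈ I ⊔ Ideal.span {π ^ k} := by
    intro k
    induction k with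
    | zero =>
      intro y _
      rw [pow_zero, Ideal.span_singleton_one, sup_top_eq]; trivial
    | succ k ih =>
      intro y hy
      have hym : y ∈ maximalIdeal D := by
        by_contra h
        exact ((IsLocalRing.notMem_maximalIdeal.mp h).map ρ).ne_zero (RingHom.mem_ker.mp hy)
      obtain ⟨i, hi, w, hw, rfl⟩ := Submodule.mem_sup.mp (hm_le hym)
      obtain ⟨y₁, rfl⟩ := Ideal.mem_span_singleton'.mp hw
      have hy₁ : y₁ ∈ RingHom.ker ρ := by
        have h1 : ρ (i + y₁ * π) = 0 := RingHom.mem_ker.mp hy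
        rw [map_add, RingHom.mem_ker.mp (hIker hi), zero_add, map_mul, hρπ] at h1
        exact RingHom.mem_ker.mpr ((mul_eq_zero.mp h1).resolve_right hπ0)
      obtain ⟨i', hi', w', hw', h'⟩ := Submodule.mem_sup.mp (ih y₁ hy₁)
      obtain ⟨c, rfl⟩ := Ideal.mem_span_singleton'.mp hw'
      rw [← h']
      exact Submodule.mem_sup.mpr ⟨i + i' * π, I.add_mem hi (I.mul_mem_right _ hi'),
        c * π ^ (k + 1), Ideal.mem_span_singleton'.mpr ⟨c, rfl⟩, by ring⟩
  refine le_antisymm ?_ hIker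
  intro y hy
  have hkrull := Ideal.iInf_pow_smul_eq_bot_of_isLocalRing (R := D) (M := D ⧸ I)
    (Ideal.span {π}) (by
      intro h
      rw [Ideal.span_singleton_eq_top] at h
      exact (IsLocalRing.mem_maximalIdeal _).mp hπm h)
  have hmem : (Ideal.Quotient.mk I y : D ⧸ I) ∈
      (⨅ i : ℕ, (Ideal.span {π}) ^ i • (⊤ : Submodule D (D ⧸ I))) := by
    rw [Submodule.mem_iInf]
    intro k
    obtain ⟨i, hi, w, hw, rfl⟩ := Submodule.mem_sup.mp (hC k y hy)
    obtain ⟨c, rfl⟩ := Ideal.mem_span_singleton'.mp hw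
    rw [map_add, Ideal.Quotient.eq_zero_iff_mem.mpr hi, zero_add]
    have h1 : (Ideal.Quotient.mk I (c * π ^ k) : D ⧸ I)
        = (π ^ k) • (Ideal.Quotient.mk I c : D ⧸ I) := by
      rw [Algebra.smul_def, Ideal.Quotient.algebraMap_eq, ← map_mul, mul_comm]
    rw [h1]
    have hπk : π ^ k ∈ (Ideal.span {π} : Ideal D) ^ k :=
      Ideal.pow_mem_pow (Ideal.mem_span_singleton_self π) k
    exact Submodule.smul_mem_smul hπk Submodule.mem_top
  rw [hkrull] at hmem
  exact Ideal.Quotient.eq_zero_iff_mem.mp ((Submodule.mem_bot _).mp hmem)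

omit [IsDomain D] [IsNoetherianRing D] [IsLocalRing D] in
/-- Final step common to the node and the regular point: a prime `𝔭 ∌ π` containing `ker ρ`
is `ker ρ`. -/
theorem ld37_eq_ker (π : D) (ρ : D →+* D) (hρρ : ∀ x, ρ (ρ x) = ρ x)
    (hA : ∀ x : D, ρ x ≠ 0 → ∃ (k : ℕ) (u : D), IsUnit u ∧ ρ x = π ^ k * u)
    (𝔭 : Ideal D) (h𝔭 : 𝔭.IsPrime) (hπ𝔭 : π ∉ 𝔭) (hle : RingHom.ker ρ ≤ 𝔭) :
    𝔭 = RingHom.ker ρ := by
  refine le_antisymm ?_ hle
  intro x hx
  rw [RingHom.mem_ker]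
  by_contra h0
  obtain ⟨k, u, hu, hk⟩ := hA x h0
  have h1 : x - ρ x ∈ 𝔭 := hle (by rw [RingHom.mem_ker, map_sub, hρρ, sub_self])
  have h2 : ρ x ∈ 𝔭 := by
    have := 𝔭.sub_mem hx h1
    rwa [sub_sub_cancel] at this
  rw [hk] at h2
  rcases h𝔭.mem_or_mem h2 with h | h
  · exact hπ𝔭 (h𝔭.mem_of_pow_mem k h)
  · exact h𝔭.ne_top (Ideal.eq_top_of_isUnit_mem _ h hu)

/-- **Rational points at a regular closed point.**  `m_D = (π, ξ)`: the function `ξ - ρ ξ`
generates the prime `ker ρ` of the point, and lies in no other prime avoiding `π`. -/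
theorem ld37_regular_pt (π ξ : D) (hπ0 : π ≠ 0) (hm : maximalIdeal D = Ideal.span {π, ξ})
    (ρ : D →+* D) (hρρ : ∀ x, ρ (ρ x) = ρ x) (hρπ : ρ π = π)
    (hA : ∀ x : D, ρ x ≠ 0 → ∃ (k : ℕ) (u : D), IsUnit u ∧ ρ x = π ^ k * u) :
    (∀ 𝔭 : Ideal D, 𝔭.IsPrime → π ∉ 𝔭 → ξ - ρ ξ ∈ 𝔭 → 𝔭 = RingHom.ker ρ) ∧
      (∀ x ∈ RingHom.ker ρ, ∃ c : D, x = (ξ - ρ ξ) * c) := by
  have hker := ld37_ker_eq π hπ0 ρ hρρ hρπ hA {ξ} hm
  rw [Set.image_singleton] at hker
  refine ⟨fun 𝔭 h𝔭 hπ𝔭 hψ => ld37_eq_ker π ρ hρρ hA 𝔭 h𝔭 hπ𝔭 ?_, fun x hx => ?_⟩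
  · rw [hker, Ideal.span_le, Set.singleton_subset_iff]; exact hψ
  · rw [hker] at hx
    obtain ⟨c, rfl⟩ := Ideal.mem_span_singleton'.mp hx
    exact ⟨c, mul_comm _ _⟩

/-- **Rational points at a node.**  `m_D = (π, z, z')` with `z z' = π ^ K * unit`: the function
`z - ρ z` generates the prime `ker ρ` of the point after inverting `π`, and lies in no other prime
avoiding `π`. -/
theorem ld37_node_pt (π z z' ε : D) (hπ0 : π ≠ 0) (K : ℕ) (hε : IsUnit ε)
    (hzz : z * z' = π ^ K * ε) (hm : maximalIdeal D = Ideal.span {π, z, z'})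
    (ρ : D →+* D) (hρρ : ∀ x, ρ (ρ x) = ρ x) (hρπ : ρ π = π)
    (hA : ∀ x : D, ρ x ≠ 0 → ∃ (k : ℕ) (u : D), IsUnit u ∧ ρ x = π ^ k * u) :
    (∀ 𝔭 : Ideal D, 𝔭.IsPrime → π ∉ 𝔭 → z - ρ z ∈ 𝔭 → 𝔭 = RingHom.ker ρ) ∧
      (∀ x ∈ RingHom.ker ρ, ∃ c : D, π ^ K * x = (z - ρ z) * c) := by
  have hker := ld37_ker_eq π hπ0 ρ hρρ hρπ hA {z, z'} hm
  rw [Set.image_pair] at hker
  have hab : ρ z * ρ z' = π ^ K * ρ ε := by rw [← map_mul, hzz, map_mul, map_pow, hρπ]
  obtain ⟨e, he⟩ := hε.map ρ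
  have hz'm : z' ∈ maximalIdeal D := by
    rw [hm]; exact Ideal.subset_span (by simp)
  have hbm : ρ z' ∈ maximalIdeal D := ld37_rho_mem ρ hρρ z' hz'm
  have hεker : ε - ρ ε ∈ RingHom.ker ρ := by rw [RingHom.mem_ker, map_sub, hρρ, sub_self]
  rw [hker] at hεker
  obtain ⟨α, β, hαβ⟩ := Ideal.mem_span_pair.mp hεker
  -- the unit `v = 1 - b β e⁻¹`
  have hv : IsUnit (1 - ρ z' * β * ((e⁻¹ : Dˣ) : D)) := by
    by_contra hnu
    have h3 : 1 - ρ z' * β * ((e⁻¹ : Dˣ) : D) ∈ maximalIdeal D :=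
      (IsLocalRing.mem_maximalIdeal _).mpr hnu
    have h4 : (1 : D) ∈ maximalIdeal D := by
      have := Ideal.add_mem _ h3
        (Ideal.mul_mem_right ((e⁻¹ : Dˣ) : D) _ (Ideal.mul_mem_right β _ hbm))
      rwa [sub_add_cancel] at this
    exact (IsLocalRing.mem_maximalIdeal _).mp h4 isUnit_one
  obtain ⟨v, hv⟩ := hv
  have hee : (e : D) * ((e⁻¹ : Dˣ) : D) = 1 := Units.mul_inv e
  have hvv : (v : D) * ((v⁻¹ : Dˣ) : D) = 1 := Units.mul_inv v
  have hab' : ρ z * ρ z' = π ^ K * (e : D) := by rw [he]; exact hab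
  have hident : ρ z * (v : D) * (z' - ρ z') = (z - ρ z) * (π ^ K * α - z') := by
    rw [hv]
    linear_combination (-1 - β * ((e⁻¹ : Dˣ) : D) * (z' - ρ z')) * hab' + hzz
      - (π ^ K * β * (z' - ρ z')) * hee - π ^ K * hαβ - π ^ K * he
  refine ⟨fun 𝔭 h𝔭 hπ𝔭 hψ => ld37_eq_ker π ρ hρρ hA 𝔭 h𝔭 hπ𝔭 ?_, fun x hx => ?_⟩
  · rw [hker, Ideal.span_le, Set.insert_subset_iff, Set.singleton_subset_iff]
    refine ⟨hψ, ?_⟩
    have h1 : ρ z * (v : D) * (z' - ρ z') ∈ 𝔭 := by
      rw [hident]; exact 𝔭.mul_mem_right _ hψ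
    rcases h𝔭.mem_or_mem h1 with h | h
    · rcases h𝔭.mem_or_mem h with h | h
      · exfalso
        have h2 : π ^ K * ρ ε ∈ 𝔭 := by rw [← hab]; exact 𝔭.mul_mem_right _ h
        rcases h𝔭.mem_or_mem h2 with h3 | h3
        · exact hπ𝔭 (h𝔭.mem_of_pow_mem K h3)
        · exact h𝔭.ne_top (Ideal.eq_top_of_isUnit_mem _ h3 (hε.map ρ))
      · exact absurd (Ideal.eq_top_of_isUnit_mem _ h v.isUnit) h𝔭.ne_top
    · exact h
  · rw [hker] at hx
    obtain ⟨α', β', rfl⟩ := Ideal.mem_span_pair.mp hx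
    refine ⟨π ^ K * α' + β' * ρ z' * ((e⁻¹ : Dˣ) : D) * ((v⁻¹ : Dˣ) : D) * (π ^ K * α - z'), ?_⟩
    linear_combination (β' * ρ z' * ((e⁻¹ : Dˣ) : D) * ((v⁻¹ : Dˣ) : D)) * hident
      - (β' * (z' - ρ z') * ρ z * ρ z' * ((e⁻¹ : Dˣ) : D)) * hvv
      - (β' * (z' - ρ z') * ((e⁻¹ : Dˣ) : D)) * hab'
      - (β' * (z' - ρ z') * π ^ K) * hee

end point

section loc

variable {F : Type*} [Field F] (B : Subring F) (n : Ideal B) [hn : n.IsPrime]

/-- An element of `B_n` is a unit or lies over `n`. -/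
theorem uz37_isUnit_or (x : lp7_loc B n) :
    IsUnit x ∨ ∃ s : B, s ∉ n ∧ ∃ t : B, t ∈ n ∧ (s : F) * (x : F) = t := by
  obtain ⟨s, hs, hsx⟩ := x.2
  by_cases ht : (⟨_, hsx⟩ : B) ∈ n
  · exact Or.inr ⟨s, hs, ⟨_, hsx⟩, ht, rfl⟩
  · left
    have hx0 : (x : F) ≠ 0 := by
      intro h0
      apply ht
      have : (⟨(s : F) * (x : F), hsx⟩ : B) = 0 := Subtype.ext (by simp [h0])
      rw [this]; exact n.zero_mem
    have hinv : (x : F)⁻¹ ∈ lp7_loc B n := by
      refine ⟨⟨_, hsx⟩, ht, ?_⟩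
      have : (s : F) * (x : F) * (x : F)⁻¹ = s := by field_simp
      show (s : F) * (x : F) * (x : F)⁻¹ ∈ B
      rw [this]; exact s.2
    exact IsUnit.of_mul_eq_one (⟨_, hinv⟩ : lp7_loc B n) (Subtype.ext (mul_inv_cancel₀ hx0))

/-- An element of `B_n` lying over `n` is not a unit. -/
theorem uz37_not_isUnit (x : lp7_loc B n)
    (h : ∃ s : B, s ∉ n ∧ ∃ t : B, t ∈ n ∧ (s : F) * (x : F) = t) : ¬ IsUnit x := by
  intro hu
  obtain ⟨y, hxy⟩ := isUnit_iff_exists_inv.mp hu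
  obtain ⟨s, hs, t, ht, hst⟩ := h
  obtain ⟨s', hs', hs'y⟩ := y.2
  have hxy' : (x : F) * (y : F) = 1 := congrArg Subtype.val hxy
  have hprod : s * s' = t * ⟨_, hs'y⟩ := by
    apply Subtype.ext
    show (s : F) * (s' : F) = (t : F) * ((s' : F) * (y : F))
    rw [← hst]
    linear_combination (-(s : F) * (s' : F)) * hxy'
  have : s * s' ∈ n := by rw [hprod]; exact n.mul_mem_right _ ht
  exact (hn.mem_or_mem this).elim hs hs'

instance uz37_isLocalRing : IsLocalRing (lp7_loc B n) := by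
  refine IsLocalRing.of_nonunits_add ?_
  intro a b ha hb
  have ha' := (uz37_isUnit_or B n a).resolve_left ha
  have hb' := (uz37_isUnit_or B n b).resolve_left hb
  obtain ⟨s, hs, t, ht, hst⟩ := ha'
  obtain ⟨s', hs', t', ht', hst'⟩ := hb'
  refine uz37_not_isUnit B n (a + b) ⟨s * s', fun h => (hn.mem_or_mem h).elim hs hs',
    s' * t + s * t', n.add_mem (n.mul_mem_left _ ht) (n.mul_mem_left _ ht'), ?_⟩
  show ((s * s' : B) : F) * ((a : F) + (b : F)) = ((s' * t + s * t' : B) : F)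
  push_cast
  rw [← hst, ← hst']
  ring

theorem uz37_mem_max_iff (x : lp7_loc B n) :
    x ∈ IsLocalRing.maximalIdeal (lp7_loc B n) ↔
      ∃ s : B, s ∉ n ∧ ∃ t : B, t ∈ n ∧ (s : F) * (x : F) = t := by
  rw [IsLocalRing.mem_maximalIdeal, mem_nonunits_iff]
  exact ⟨fun h => (uz37_isUnit_or B n x).resolve_left h, fun h => uz37_not_isUnit B n x h⟩

end loc

section val

variable {F : Type*} [Field F]

theorem uz37_inv_not_mem_iff (O : ValuationSubring F) (x : F) :
    x⁻¹ ∉ O ↔ x ≠ 0 ∧ O.valuation x < 1 := by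
  by_cases hx : x = 0
  · subst hx
    simp [O.zero_mem]
  · have h0 : 0 < O.valuation x := zero_lt_iff.mpr ((map_ne_zero _).mpr hx)
    rw [← O.valuation_le_one_iff, map_inv₀, not_le, one_lt_inv₀ h0]
    exact ⟨fun h => ⟨hx, h⟩, fun h => h.2⟩

theorem uz37_val_eq_one (O : ValuationSubring F) (x : F) (hx : x ∈ O) (hx' : x⁻¹ ∈ O) (h0 : x ≠ 0) :
    O.valuation x = 1 := by
  apply le_antisymm ((O.valuation_le_one_iff x).mpr hx)
  by_contra hlt
  rw [not_le] at hlt
  exact (uz37_inv_not_mem_iff O x).mpr ⟨h0, hlt⟩ hx'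

end val

section dvr

/-- An element of the fraction field of a discrete valuation ring lies in the ring, or its inverse
lies in the maximal ideal. -/
theorem uz37_dvr_dichotomy {R K : Type*} [CommRing R] [IsDomain R] [IsDiscreteValuationRing R]
    [Field K] [Algebra R K] [IsFractionRing R K] (π : R) (hπ : Irreducible π) (c : K) :
    (∃ r : R, algebraMap R K r = c) ∨ ∃ r₀ : R, c * algebraMap R K (π * r₀) = 1 := by
  obtain ⟨a, b, hb, rfl⟩ := IsFractionRing.div_surjective (A := R) c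
  have hb0 : b ≠ 0 := nonZeroDivisors.ne_zero hb
  by_cases ha : a = 0
  · exact Or.inl ⟨0, by simp [ha]⟩
  obtain ⟨i, u, rfl⟩ := IsDiscreteValuationRing.eq_unit_mul_pow_irreducible ha hπ
  obtain ⟨j, u', rfl⟩ := IsDiscreteValuationRing.eq_unit_mul_pow_irreducible hb0 hπ
  have hden : algebraMap R K (↑u' * π ^ j) ≠ 0 := by
    rw [Ne, map_eq_zero_iff _ (IsFractionRing.injective R K)]; exact hb0
  rcases le_or_gt j i with hji | hij
  · left
    refine ⟨u * ((u'⁻¹ : Rˣ) : R) * π ^ (i - j), ?_⟩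
    rw [eq_div_iff hden, ← map_mul]
    congr 1
    have h1 : π ^ (i - j) * π ^ j = π ^ i := pow_sub_mul_pow π hji
    have h2 : ((u'⁻¹ : Rˣ) : R) * (u' : R) = 1 := Units.inv_mul u'
    linear_combination (↑u * ((u'⁻¹ : Rˣ) : R) * ↑u') * h1 + (↑u * π ^ i) * h2
  · right
    refine ⟨u' * ((u⁻¹ : Rˣ) : R) * π ^ (j - i - 1), ?_⟩
    rw [div_mul_eq_mul_div, div_eq_one_iff_eq hden, ← map_mul]
    congr 1
    have h1 : π ^ i * π * π ^ (j - i - 1) = π ^ j := by
      rw [← pow_succ, ← pow_add]; congr 1; omega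
    have h2 : (u : R) * ((u⁻¹ : Rˣ) : R) = 1 := Units.mul_inv u
    linear_combination (↑u * ((u⁻¹ : Rˣ) : R) * ↑u') * h1 + (↑u' * π ^ j) * h2

end dvr

section core

open IsLocalRing

theorem uz37_algebraMap_injective (R K F : Type*) [CommRing R] [IsDomain R] [Field K] [Field F]
    [Algebra R K] [IsFractionRing R K] [Algebra R F] [Algebra K F] [IsScalarTower R K F] :
    Function.Injective (algebraMap R F) := by
  rw [IsScalarTower.algebraMap_eq R K F]
  exact (algebraMap K F).injective.comp (IsFractionRing.injective R K)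

variable {R K F : Type*} [CommRing R] [IsDomain R] [IsDiscreteValuationRing R] [Field K] [Field F]
  [Algebra R K] [IsFractionRing R K] [Algebra R F] [Algebra K F] [IsScalarTower R K F]


/-- A valuation subring containing `R` and `π⁻¹` contains `K`. -/
theorem uz37_K_le (π : R) (hπ : Irreducible π) (O : ValuationSubring F)
    (hRO : ∀ r : R, algebraMap R F r ∈ O) (hπO : (algebraMap R F π)⁻¹ ∈ O) (a : K) :
    algebraMap K F a ∈ O := by
  obtain ⟨r, s, hs, rfl⟩ := IsFractionRing.div_surjective (A := R) a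
  have hs0 : s ≠ 0 := nonZeroDivisors.ne_zero hs
  obtain ⟨k, e, rfl⟩ := IsDiscreteValuationRing.eq_unit_mul_pow_irreducible hs0 hπ
  have h1 : algebraMap K F (algebraMap R K r / algebraMap R K (↑e * π ^ k)) =
      algebraMap R F r * (algebraMap R F ((e⁻¹ : Rˣ) : R) * ((algebraMap R F π)⁻¹) ^ k) := by
    rw [map_div₀, ← IsScalarTower.algebraMap_apply, ← IsScalarTower.algebraMap_apply, map_mul,
      map_pow]
    have he : algebraMap R F (e : R) * algebraMap R F ((e⁻¹ : Rˣ) : R) = 1 := by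
      rw [← map_mul, Units.mul_inv, map_one]
    rw [eq_inv_of_mul_eq_one_right he, div_eq_mul_inv, mul_inv, inv_pow]
  rw [h1]
  exact O.mul_mem _ _ (hRO r) (O.mul_mem _ _ (hRO _) (pow_mem hπO k))

/-- **Unique zero at one closed point.**  See the module docstring. -/
theorem uz37_core (π : R) (hπ : Irreducible π) (B : Subring F) [IsNoetherianRing B]
    (hRB : ∀ r : R, algebraMap R F r ∈ B)
    (hfrac : ∀ x : F, ∃ a ∈ B, ∃ b ∈ B, b ≠ 0 ∧ x * b = a)
    (n : Ideal B) [hn : n.IsPrime] (hπn : (⟨algebraMap R F π, hRB π⟩ : B) ∈ n)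
    (z z' : B) (hz : z ∈ n) (hz' : z' ∈ n)
    (hgen : ∀ x ∈ n, ∃ s : B, s ∉ n ∧ ∃ a b c : B,
      (s : F) * (x : F) = (a : F) * z + (b : F) * z' + (c : F) * algebraMap R F π)
    (hcase : (z' : F) = algebraMap R F π ∨ ∃ (κ : ℕ) (s s' : B), s ∉ n ∧ s' ∉ n ∧
      (s : F) * z * z' = algebraMap R F π ^ κ * s')
    (O : ValuationSubring F) (hO : O ≠ ⊤) (hPIR : IsPrincipalIdealRing O)
    (hRO : ∀ r : R, algebraMap R F r ∈ O) (hπO : (algebraMap R F π)⁻¹ ∈ O)
    (hBO : ∀ x ∈ B, x ∈ O) (hthr : ∀ x : B, x ∉ n → (x : F)⁻¹ ∈ O)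
    (hrat : ∀ x ∈ O, ∃ c : K, x = algebraMap K F c ∨ (x - algebraMap K F c)⁻¹ ∉ O) :
    ∃ p : F, p ≠ 0 ∧ p ∈ O ∧ p⁻¹ ∉ O ∧ (∀ x ∈ O, x⁻¹ ∉ O → x * p⁻¹ ∈ O) ∧
      ∀ O' : ValuationSubring F, (∀ x ∈ B, x ∈ O') → (∀ x : B, x ∉ n → (x : F)⁻¹ ∈ O') →
        (algebraMap R F π)⁻¹ ∈ O' → O' ≠ O → p ∈ O' ∧ p⁻¹ ∈ O' := by
  classical
  have : IsPrincipalIdealRing O := hPIR
  have : IsNoetherianRing (lp7_loc B n) := lp7_loc_isNoetherianRing B n
  have hinj : Function.Injective (algebraMap R F) := uz37_algebraMap_injective R K F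
  have hπF0 : algebraMap R F π ≠ 0 := by
    rw [Ne, map_eq_zero_iff _ hinj]; exact hπ.ne_zero
  have h1n : (1 : B) ∉ n := (Ideal.ne_top_iff_one n).mp hn.ne_top
  -- `B_n ⊆ O'` for every valuation subring through `n`
  have hDle : ∀ O' : ValuationSubring F, (∀ x ∈ B, x ∈ O') → (∀ x : B, x ∉ n → (x : F)⁻¹ ∈ O') →
      ∀ x : lp7_loc B n, (x : F) ∈ O' := by
    intro O' h1 h2 x
    obtain ⟨s, hs, hsx⟩ := x.2
    have hs0 := lp7_ne_zero_of_not_mem B n s hs
    have : (x : F) = (s : F)⁻¹ * ((s : F) * x) := by field_simp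
    rw [this]; exact O'.mul_mem _ _ (h2 s hs) (h1 _ hsx)
  have hDO := hDle O hBO hthr
  -- the valuation of `O`
  have hv_le : ∀ x : lp7_loc B n, O.valuation (x : F) ≤ 1 := fun x =>
    (O.valuation_le_one_iff _).mpr (hDO x)
  have hKO : ∀ a : K, algebraMap K F a ∈ O := uz37_K_le π hπ O hRO hπO
  have hvR : ∀ r : R, r ≠ 0 → O.valuation (algebraMap R F r) = 1 := by
    intro r hr
    have hr0 : algebraMap R F r ≠ 0 := by rw [Ne, map_eq_zero_iff _ hinj]; exact hr
    refine uz37_val_eq_one O _ (hRO r) ?_ hr0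
    have : (algebraMap R F r)⁻¹ = algebraMap K F (algebraMap R K r)⁻¹ := by
      rw [map_inv₀, ← IsScalarTower.algebraMap_apply]
    rw [this]; exact hKO _
  -- nonunits of `O` in `B_n` are nonunits of `B_n`
  have hmemmax : ∀ x : lp7_loc B n, O.valuation (x : F) < 1 → x ∈ maximalIdeal (lp7_loc B n) := by
    intro x hx
    rw [IsLocalRing.mem_maximalIdeal, mem_nonunits_iff]
    intro hu
    obtain ⟨y, hxy⟩ := isUnit_iff_exists_inv.mp hu
    have hxy' : (x : F) * (y : F) = 1 := congrArg Subtype.val hxy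
    have h1 : O.valuation (x : F) * O.valuation (y : F) = 1 := by
      rw [← map_mul, hxy', map_one]
    have h2 : O.valuation (x : F) * O.valuation (y : F) < 1 :=
      lt_of_le_of_lt (mul_le_of_le_one_right' (hv_le y)) hx
    exact absurd h1 (ne_of_lt h2)
  -- inclusions
  let ι : B →+* lp7_loc B n := Subring.inclusion (fun x hx => lp7_le_loc B n x hx)
  have hι : ∀ b : B, ((ι b : lp7_loc B n) : F) = b := fun _ => rfl
  let ιR : R →+* lp7_loc B n :=
    (algebraMap R F).codRestrict (lp7_loc B n) (fun r => lp7_le_loc B n _ (hRB r))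
  have hιR : ∀ r : R, ((ιR r : lp7_loc B n) : F) = algebraMap R F r := fun _ => rfl
  have hιmax : ∀ b : B, b ∈ n → ι b ∈ maximalIdeal (lp7_loc B n) := by
    intro b hb
    rw [uz37_mem_max_iff]
    exact ⟨1, h1n, b, hb, by simp [hι]⟩
  have hιunit : ∀ b : B, b ∉ n → IsUnit (ι b) := by
    intro b hb
    refine IsUnit.of_mul_eq_one (⟨(b : F)⁻¹, lp7_inv_mem_loc B n b hb⟩ : lp7_loc B n) ?_
    exact Subtype.ext (mul_inv_cancel₀ (lp7_ne_zero_of_not_mem B n b hb))
  have hπmax : ιR π ∈ maximalIdeal (lp7_loc B n) := by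
    have : ιR π = ι ⟨algebraMap R F π, hRB π⟩ := Subtype.ext rfl
    rw [this]; exact hιmax _ hπn
  -- the evaluation
  have hex : ∀ x : lp7_loc B n, ∃ r : R, O.valuation ((x : F) - algebraMap R F r) < 1 := by
    intro x
    obtain ⟨c, hc⟩ := hrat x (hDO x)
    have hvc : O.valuation ((x : F) - algebraMap K F c) < 1 := by
      rcases hc with h | h
      · rw [h, sub_self, map_zero]; exact zero_lt_one
      · exact ((uz37_inv_not_mem_iff O _).mp h).2
    rcases uz37_dvr_dichotomy π hπ c with ⟨r, rfl⟩ | ⟨r₀, hr₀⟩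
    · exact ⟨r, by rwa [IsScalarTower.algebraMap_apply R K F]⟩
    · exfalso
      have hmem : x * ιR (π * r₀) - 1 ∈ maximalIdeal (lp7_loc B n) := by
        apply hmemmax
        have h1 : algebraMap K F c * algebraMap R F (π * r₀) = 1 := by
          rw [IsScalarTower.algebraMap_apply R K F, ← map_mul, hr₀, map_one]
        have h2 : ((x * ιR (π * r₀) - 1 : lp7_loc B n) : F)
            = ((x : F) - algebraMap K F c) * algebraMap R F (π * r₀) := by
          show (x : F) * algebraMap R F (π * r₀) - 1 = _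
          rw [sub_mul, h1]
        rw [h2, map_mul]
        exact lt_of_le_of_lt (mul_le_of_le_one_right'
          ((O.valuation_le_one_iff _).mpr (hRO _))) hvc
      have hmem2 : x * ιR (π * r₀) ∈ maximalIdeal (lp7_loc B n) := by
        rw [map_mul, ← mul_assoc]
        exact Ideal.mul_mem_right _ _ (Ideal.mul_mem_left _ _ hπmax)
      have h1 : (1 : lp7_loc B n) ∈ maximalIdeal (lp7_loc B n) := by
        have := Ideal.sub_mem _ hmem2 hmem
        rwa [sub_sub_cancel] at this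
      exact (IsLocalRing.mem_maximalIdeal _).mp h1 isUnit_one
  choose ρ₀f hρ₀f using hex
  have huniq : ∀ (x : lp7_loc B n) (r : R), O.valuation ((x : F) - algebraMap R F r) < 1 →
      r = ρ₀f x := by
    intro x r hr
    by_contra hne
    have h1 : O.valuation (algebraMap R F (r - ρ₀f x)) = 1 := hvR _ (sub_ne_zero.mpr hne)
    have h2 : algebraMap R F (r - ρ₀f x)
        = ((x : F) - algebraMap R F (ρ₀f x)) - ((x : F) - algebraMap R F r) := by
      rw [map_sub]; ring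
    have h3 : O.valuation (algebraMap R F (r - ρ₀f x)) < 1 := by
      rw [h2]
      exact lt_of_le_of_lt (Valuation.map_sub _ _ _) (max_lt (hρ₀f x) hr)
    exact absurd h1 (ne_of_lt h3)
  let ρ₀ : lp7_loc B n →+* R :=
    { toFun := ρ₀f
      map_one' := (huniq 1 1 (by
        show O.valuation ((1 : F) - algebraMap R F 1) < 1
        rw [map_one, sub_self, map_zero]; exact zero_lt_one)).symm
      map_mul' := fun x y => (huniq (x * y) (ρ₀f x * ρ₀f y) (by
        have h1 : ((x * y : lp7_loc B n) : F) - algebraMap R F (ρ₀f x * ρ₀f y)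
            = (x : F) * ((y : F) - algebraMap R F (ρ₀f y))
              + algebraMap R F (ρ₀f y) * ((x : F) - algebraMap R F (ρ₀f x)) := by
          rw [map_mul]; push_cast; ring
        rw [h1]
        refine lt_of_le_of_lt (Valuation.map_add _ _ _) (max_lt ?_ ?_)
        · rw [map_mul]
          exact lt_of_le_of_lt (mul_le_of_le_one_left' (hv_le x)) (hρ₀f y)
        · rw [map_mul]
          exact lt_of_le_of_lt (mul_le_of_le_one_left'
            ((O.valuation_le_one_iff _).mpr (hRO _))) (hρ₀f x))).symm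
      map_zero' := (huniq 0 0 (by
        show O.valuation ((0 : F) - algebraMap R F 0) < 1
        rw [map_zero, sub_self, map_zero]; exact zero_lt_one)).symm
      map_add' := fun x y => (huniq (x + y) (ρ₀f x + ρ₀f y) (by
        have h1 : ((x + y : lp7_loc B n) : F) - algebraMap R F (ρ₀f x + ρ₀f y)
            = ((x : F) - algebraMap R F (ρ₀f x)) + ((y : F) - algebraMap R F (ρ₀f y)) := by
          rw [map_add]; push_cast; ring
        rw [h1]
        exact lt_of_le_of_lt (Valuation.map_add _ _ _) (max_lt (hρ₀f x) (hρ₀f y)))).symm }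
  have hρ₀ : ∀ x, ρ₀ x = ρ₀f x := fun _ => rfl
  have hρ₀ι : ∀ r : R, ρ₀ (ιR r) = r := by
    intro r
    refine (huniq (ιR r) r ?_).symm
    rw [hιR, sub_self, map_zero]; exact zero_lt_one
  let ρ : lp7_loc B n →+* lp7_loc B n := ιR.comp ρ₀
  have hρ : ∀ x, ρ x = ιR (ρ₀ x) := fun _ => rfl
  have hρρ : ∀ x, ρ (ρ x) = ρ x := by
    intro x; rw [hρ, hρ, hρ₀ι]
  have hρπ : ρ (ιR π) = ιR π := by rw [hρ, hρ₀ι]
  have hιRinj : Function.Injective ιR := by
    intro a b hab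
    exact hinj (congrArg Subtype.val hab)
  have hπD0 : ιR π ≠ 0 := by
    intro h
    exact hπ.ne_zero (hιRinj (by rw [h, map_zero]))
  have hA : ∀ x : lp7_loc B n, ρ x ≠ 0 →
      ∃ (k : ℕ) (u : lp7_loc B n), IsUnit u ∧ ρ x = ιR π ^ k * u := by
    intro x hx
    have hr : ρ₀ x ≠ 0 := by
      intro h; apply hx; rw [hρ, h, map_zero]
    obtain ⟨k, u, hu⟩ := IsDiscreteValuationRing.eq_unit_mul_pow_irreducible hr hπ
    refine ⟨k, ιR u, u.isUnit.map ιR, ?_⟩
    rw [hρ, hu, map_mul, map_pow, mul_comm]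
  have hker : ∀ x : lp7_loc B n, ρ x = 0 ↔ O.valuation (x : F) < 1 := by
    intro x
    constructor
    · intro h
      have h0 : ρ₀ x = 0 := hιRinj (by rw [← hρ, h, map_zero])
      have := hρ₀f x
      rw [← hρ₀, h0, map_zero, sub_zero] at this
      exact this
    · intro h
      have h0 : (0 : R) = ρ₀f x := huniq x 0 (by rw [map_zero, sub_zero]; exact h)
      rw [hρ, hρ₀, ← h0, map_zero]
  -- the maximal ideal of `B_n`
  have hmax : maximalIdeal (lp7_loc B n) = Ideal.span {ιR π, ι z, ι z'} := by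
    apply le_antisymm
    · intro x hx
      obtain ⟨s, hs, t, ht, hst⟩ := (uz37_mem_max_iff B n x).mp hx
      obtain ⟨s₁, hs₁, a, b, c, habc⟩ := hgen t ht
      have hss : s₁ * s ∉ n := fun h => (hn.mem_or_mem h).elim hs₁ hs
      have hs0 := lp7_ne_zero_of_not_mem B n s hs
      have hs₁0 := lp7_ne_zero_of_not_mem B n s₁ hs₁
      have hx' : x = (⟨((s₁ * s : B) : F)⁻¹, lp7_inv_mem_loc B n _ hss⟩ : lp7_loc B n) *
          (ι a * ι z + ι b * ι z' + ι c * ιR π) := by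
        apply Subtype.ext
        show (x : F) = ((s₁ * s : B) : F)⁻¹ *
          ((a : F) * z + (b : F) * z' + (c : F) * algebraMap R F π)
        rw [← habc, ← hst]
        push_cast
        field_simp
      rw [hx']
      refine Ideal.mul_mem_left _ _ (Ideal.add_mem _ (Ideal.add_mem _ ?_ ?_) ?_)
      · exact Ideal.mul_mem_left _ _ (Ideal.subset_span (by simp))
      · exact Ideal.mul_mem_left _ _ (Ideal.subset_span (by simp))
      · exact Ideal.mul_mem_left _ _ (Ideal.subset_span (by simp))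
    · rw [Ideal.span_le]
      rintro x (rfl | rfl | rfl)
      · exact hπmax
      · exact hιmax z hz
      · exact hιmax z' hz'
  -- the local equation `ψ` of the point
  obtain ⟨ψ, k, hψker, hi, hii⟩ : ∃ (ψ : lp7_loc B n) (k : ℕ), ρ ψ = 0 ∧
      (∀ 𝔭 : Ideal (lp7_loc B n), 𝔭.IsPrime → ιR π ∉ 𝔭 → ψ ∈ 𝔭 → 𝔭 = RingHom.ker ρ) ∧
      (∀ x ∈ RingHom.ker ρ, ∃ c : lp7_loc B n, ιR π ^ k * x = ψ * c) := by
    rcases hcase with hreg | ⟨κ, s, s', hs, hs', hnode⟩
    · have hz'π : ι z' = ιR π := Subtype.ext hreg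
      have hmax' : maximalIdeal (lp7_loc B n) = Ideal.span {ιR π, ι z} := by
        rw [hmax, hz'π]
        congr 1
        ext y
        simp only [Set.mem_insert_iff, Set.mem_singleton_iff]
        tauto
      obtain ⟨h1, h2⟩ := ld37_regular_pt (ιR π) (ι z) hπD0 hmax' ρ hρρ hρπ hA
      refine ⟨ι z - ρ (ι z), 0, by rw [map_sub, hρρ, sub_self], h1, fun x hx => ?_⟩
      obtain ⟨c, hc⟩ := h2 x hx
      exact ⟨c, by rw [pow_zero, one_mul, hc]⟩
    · have hs0 := lp7_ne_zero_of_not_mem B n s hs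
      have hεu : IsUnit (ι s' * (⟨(s : F)⁻¹, lp7_inv_mem_loc B n s hs⟩ : lp7_loc B n)) := by
        refine (hιunit s' hs').mul ?_
        refine IsUnit.of_mul_eq_one (ι s) ?_
        exact Subtype.ext (inv_mul_cancel₀ hs0)
      have hzz : ι z * ι z' = ιR π ^ κ *
          (ι s' * (⟨(s : F)⁻¹, lp7_inv_mem_loc B n s hs⟩ : lp7_loc B n)) := by
        apply Subtype.ext
        show (z : F) * (z' : F) = algebraMap R F π ^ κ * ((s' : F) * (s : F)⁻¹)
        rw [← mul_assoc, ← hnode]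
        field_simp
      obtain ⟨h1, h2⟩ := ld37_node_pt (ιR π) (ι z) (ι z') _ hπD0 κ hεu hzz hmax ρ hρρ hρπ hA
      exact ⟨ι z - ρ (ι z), κ, by rw [map_sub, hρρ, sub_self], h1, h2⟩
  have hψv : O.valuation (ψ : F) < 1 := (hker ψ).mp hψker
  -- `ψ ≠ 0`
  have hψ0 : (ψ : F) ≠ 0 := by
    intro h0
    have hψ0' : ψ = 0 := Subtype.ext h0
    obtain ⟨y, hy⟩ : ∃ y : F, y ∉ O := by
      by_contra hall
      apply hO
      rw [eq_top_iff]
      intro x _
      by_contra hx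
      exact hall ⟨x, hx⟩
    have hyinv : y⁻¹ ∈ O := (O.mem_or_inv_mem y).resolve_left hy
    have hy2 := (uz37_inv_not_mem_iff O y⁻¹).mp (by rw [inv_inv]; exact hy)
    obtain ⟨a, ha, b, hb, hb0, hab⟩ := hfrac y⁻¹
    have hva : O.valuation a < 1 := by
      rw [← hab, map_mul]
      exact lt_of_le_of_lt (mul_le_of_le_one_right'
        ((O.valuation_le_one_iff _).mpr (hBO b hb))) hy2.2
    have hakar : ι ⟨a, ha⟩ ∈ RingHom.ker ρ := RingHom.mem_ker.mpr ((hker _).mpr hva)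
    obtain ⟨c, hc⟩ := hii _ hakar
    rw [hψ0', zero_mul] at hc
    have ha0 : ι ⟨a, ha⟩ = 0 := (mul_eq_zero.mp hc).resolve_left (pow_ne_zero _ hπD0)
    have ha0' : a = 0 := congrArg Subtype.val ha0
    rw [ha0'] at hab
    exact (mul_eq_zero.mp hab).elim hy2.1 hb0
  have hpinv : (ψ : F)⁻¹ ∉ O := (uz37_inv_not_mem_iff O _).mpr ⟨hψ0, hψv⟩
  -- Claim E: every element of `O` is a fraction with denominator a unit of `O`
  have hE : ∀ (j : ℕ) (x : F), x ∈ O → ∀ (a b : lp7_loc B n), b ≠ 0 → x * (b : F) = a →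
      (¬ ∃ o ∈ O, (b : F) = (ψ : F) ^ j * o) →
      ∃ a' b' : lp7_loc B n, O.valuation (b' : F) = 1 ∧ x * (b' : F) = a' := by
    intro j
    induction j with
    | zero =>
      intro x _ a b _ _ hnot
      exact absurd ⟨(b : F), hDO b, by rw [pow_zero, one_mul]⟩ hnot
    | succ j ih =>
      intro x hx a b hb0 hxb hnot
      by_cases hvb : O.valuation (b : F) = 1
      · exact ⟨a, b, hvb, hxb⟩
      have hvb' : O.valuation (b : F) < 1 := lt_of_le_of_ne (hv_le b) hvb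
      obtain ⟨b₁, hb₁⟩ := hii b (RingHom.mem_ker.mpr ((hker b).mpr hvb'))
      have hb₁F : algebraMap R F π ^ k * (b : F) = (ψ : F) * (b₁ : F) :=
        congrArg Subtype.val hb₁
      have hb0F : (b : F) ≠ 0 := fun h => hb0 (Subtype.ext h)
      have hb₁0 : b₁ ≠ 0 := by
        rintro rfl
        rw [ZeroMemClass.coe_zero, mul_zero] at hb₁F
        exact (mul_eq_zero.mp hb₁F).elim (pow_ne_zero _ hπF0) hb0F
      have hva' : O.valuation (a : F) < 1 := by
        rw [← hxb, map_mul]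
        exact lt_of_le_of_lt (mul_le_of_le_one_left'
          ((O.valuation_le_one_iff _).mpr hx)) hvb'
      obtain ⟨a₁, ha₁⟩ := hii a (RingHom.mem_ker.mpr ((hker a).mpr hva'))
      have ha₁F : algebraMap R F π ^ k * (a : F) = (ψ : F) * (a₁ : F) :=
        congrArg Subtype.val ha₁
      refine ih x hx a₁ b₁ hb₁0 ?_ ?_
      · have h1 : (ψ : F) * (x * (b₁ : F)) = (ψ : F) * (a₁ : F) := by
          rw [← ha₁F, ← hxb]
          linear_combination x * hb₁F.symm
        exact mul_left_cancel₀ hψ0 h1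
      · rintro ⟨o, ho, hbo⟩
        apply hnot
        refine ⟨((algebraMap R F π)⁻¹) ^ k * o, O.mul_mem _ _ (pow_mem hπO k) ho, ?_⟩
        have h2 : (b : F) = ((algebraMap R F π)⁻¹) ^ k * ((ψ : F) * (b₁ : F)) := by
          rw [← hb₁F, ← mul_assoc, ← mul_pow, inv_mul_cancel₀ hπF0, one_pow, one_mul]
        rw [h2, hbo]; ring
  have hE' : ∀ x ∈ O, ∃ a b : lp7_loc B n, O.valuation (b : F) = 1 ∧ x * (b : F) = a := by
    intro x hx
    obtain ⟨a, ha, b, hb, hb0, hab⟩ := hfrac x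
    -- Krull intersection in `O`
    have hkr : ∃ j : ℕ, ¬ ∃ o ∈ O, b = (ψ : F) ^ j * o := by
      by_contra hall
      rw [not_exists] at hall
      have hall' : ∀ j : ℕ, ∃ o ∈ O, b = (ψ : F) ^ j * o := fun j => not_not.mp (hall j)
      let pO : O := ⟨(ψ : F), hDO ψ⟩
      have hne : (Ideal.span {pO} : Ideal O) ≠ ⊤ := by
        rw [Ne, Ideal.span_singleton_eq_top]
        intro hu
        obtain ⟨y, hy⟩ := isUnit_iff_exists_inv.mp hu
        have hy' : (ψ : F) * (y : F) = 1 := congrArg Subtype.val hy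
        apply hpinv
        rw [← eq_inv_of_mul_eq_one_right hy']
        exact y.2
      have hbot := Ideal.iInf_pow_eq_bot_of_isLocalRing (Ideal.span {pO} : Ideal O) hne
      have hbmem : (⟨b, hBO b hb⟩ : O) ∈ (⨅ i : ℕ, (Ideal.span {pO} : Ideal O) ^ i) := by
        rw [Ideal.mem_iInf]
        intro i
        obtain ⟨o, ho, hbo⟩ := hall' i
        rw [Ideal.span_singleton_pow, Ideal.mem_span_singleton']
        refine ⟨⟨o, ho⟩, Subtype.ext ?_⟩
        show o * (ψ : F) ^ i = b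
        rw [hbo, mul_comm]
      rw [hbot, Ideal.mem_bot] at hbmem
      exact hb0 (congrArg Subtype.val hbmem)
    obtain ⟨j, hj⟩ := hkr
    exact hE j x hx (ι ⟨a, ha⟩) (ι ⟨b, hb⟩) (fun h => hb0 (congrArg Subtype.val h)) hab hj
  -- (D3) `ψ` is a uniformiser of `O`
  have hunif : ∀ x ∈ O, x⁻¹ ∉ O → x * (ψ : F)⁻¹ ∈ O := by
    intro x hx hxinv
    obtain ⟨hx0, hxv⟩ := (uz37_inv_not_mem_iff O x).mp hxinv
    obtain ⟨a, b, hvb, hab⟩ := hE' x hx
    have hb0 : (b : F) ≠ 0 := by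
      intro h0; rw [h0, map_zero] at hvb; exact zero_ne_one hvb
    have hva : O.valuation (a : F) < 1 := by
      rw [← hab, map_mul, hvb, mul_one]; exact hxv
    obtain ⟨c, hc⟩ := hii a (RingHom.mem_ker.mpr ((hker a).mpr hva))
    have hcF : algebraMap R F π ^ k * (a : F) = (ψ : F) * (c : F) := congrArg Subtype.val hc
    have hbinv : (b : F)⁻¹ ∈ O := by
      rw [← O.valuation_le_one_iff, map_inv₀, hvb, inv_one]
    have hfin : x * (ψ : F)⁻¹ = (c : F) * ((algebraMap R F π)⁻¹) ^ k * (b : F)⁻¹ := by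
      have hx' : x = (a : F) * (b : F)⁻¹ := by rw [← hab]; field_simp
      have ha' : (a : F) = (ψ : F) * (c : F) * ((algebraMap R F π)⁻¹) ^ k := by
        rw [← hcF, mul_comm (algebraMap R F π ^ k) (a : F), mul_assoc, ← mul_pow,
          mul_inv_cancel₀ hπF0, one_pow, mul_one]
      rw [hx', ha']
      field_simp
    rw [hfin]
    exact O.mul_mem _ _ (O.mul_mem _ _ (hDO c) (pow_mem hπO k)) hbinv
  refine ⟨(ψ : F), hψ0, hDO ψ, hpinv, hunif, ?_⟩
  -- (D4) `ψ` is a unit of every other valuation ring through `n`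
  intro O' hBO' hthr' hπO' hne
  have hDO' := hDle O' hBO' hthr'
  refine ⟨hDO' ψ, ?_⟩
  by_contra hp'
  apply hne
  let ιO' : lp7_loc B n →+* O' := Subring.inclusion (fun x hx => hDO' ⟨x, hx⟩)
  have hιO' : ∀ x : lp7_loc B n, ((ιO' x : O') : F) = x := fun _ => rfl
  have hunit' : ∀ x : lp7_loc B n, IsUnit (ιO' x) → (x : F)⁻¹ ∈ O' := by
    intro x hu
    obtain ⟨y, hy⟩ := isUnit_iff_exists_inv.mp hu
    have hy' : (x : F) * (y : F) = 1 := congrArg Subtype.val hy
    rw [← eq_inv_of_mul_eq_one_right hy']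
    exact y.2
  have h𝔮prime : ((maximalIdeal O').comap ιO').IsPrime := Ideal.comap_isPrime ιO' _
  have hπ𝔮 : ιR π ∉ (maximalIdeal O').comap ιO' := by
    rw [Ideal.mem_comap, IsLocalRing.mem_maximalIdeal, mem_nonunits_iff, not_not]
    refine IsUnit.of_mul_eq_one (⟨(algebraMap R F π)⁻¹, hπO'⟩ : O') ?_
    exact Subtype.ext (mul_inv_cancel₀ hπF0)
  have hψ𝔮 : ψ ∈ (maximalIdeal O').comap ιO' := by
    rw [Ideal.mem_comap, IsLocalRing.mem_maximalIdeal, mem_nonunits_iff]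
    intro hu
    exact hp' (hunit' ψ hu)
  have h𝔮 := hi _ h𝔮prime hπ𝔮 hψ𝔮
  have hunitb : ∀ b : lp7_loc B n, O.valuation (b : F) = 1 → (b : F)⁻¹ ∈ O' := by
    intro b hvb
    apply hunit'
    by_contra hnu
    have hb𝔮 : b ∈ (maximalIdeal O').comap ιO' := by
      rw [Ideal.mem_comap, IsLocalRing.mem_maximalIdeal, mem_nonunits_iff]; exact hnu
    rw [h𝔮, RingHom.mem_ker, hker] at hb𝔮
    rw [hvb] at hb𝔮
    exact lt_irrefl _ hb𝔮
  have hle : O ≤ O' := by
    intro x hx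
    obtain ⟨a, b, hvb, hab⟩ := hE' x hx
    have hb0 : (b : F) ≠ 0 := by
      intro h0; rw [h0, map_zero] at hvb; exact zero_ne_one hvb
    have hx' : x = (a : F) * (b : F)⁻¹ := by rw [← hab]; field_simp
    rw [hx']
    exact O'.mul_mem _ _ (hDO' a) (hunitb b hvb)
  apply le_antisymm _ hle
  intro y hy
  by_contra hyO
  have hyinv : y⁻¹ ∈ O := (O.mem_or_inv_mem y).resolve_left hyO
  have h1 : y⁻¹ * (ψ : F)⁻¹ ∈ O := hunif y⁻¹ hyinv (by rw [inv_inv]; exact hyO)
  have hy0 : y ≠ 0 := by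
    rintro rfl; exact hyO O.zero_mem
  apply hp'
  have h2 : (ψ : F)⁻¹ = y * (y⁻¹ * (ψ : F)⁻¹) := by
    rw [← mul_assoc, mul_inv_cancel₀ hy0, one_mul]
  rw [h2]
  exact O'.mul_mem _ _ hy (hle h1)


/-- **Package P5a**: `(LS) ⟹ (UZ)`, literally the `Prop` of the interface. -/
theorem uz37_Pkg_UZ : s34i47_Pkg_UZ := by
  intro R K F _ _ _ _ _ _ _ _ _ _ π hπ B hN hfrac hLS n hn hπn O hO hthr hrat
  obtain ⟨z, z', hz, hz', hgen, hcase⟩ := hLS n hn hπn
  obtain ⟨hOtop, hPIR, hRO, hπO⟩ := hO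
  obtain ⟨hBO, hthr'⟩ := hthr
  have hnp : (show Ideal B.toSubring from n).IsPrime := hn.isPrime
  have hgen' : ∀ x ∈ n, ∃ s : B, s ∉ n ∧ ∃ a b c : B,
      (s : F) * (x : F) = (a : F) * z + (b : F) * z' + (c : F) * algebraMap R F π := by
    intro x hx
    obtain ⟨s, hs, a, b, c, h⟩ := hgen x hx
    exact ⟨s, hs, a, b, c, congrArg Subtype.val h⟩
  have hcase' : (z' : F) = algebraMap R F π ∨ ∃ (κ : ℕ) (s s' : B), s ∉ n ∧ s' ∉ n ∧
      (s : F) * z * z' = algebraMap R F π ^ κ * s' := by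
    rcases hcase with h | ⟨κ, s, s', hs, hs', h⟩
    · left; rw [h]; rfl
    · exact Or.inr ⟨κ, s, s', hs, hs', congrArg Subtype.val h⟩
  obtain ⟨p, hp0, hpO, hpinv, hunif, hother⟩ :=
    @uz37_core R K F _ _ _ _ _ _ _ _ _ _ π hπ B.toSubring hN (fun r => B.algebraMap_mem r) hfrac
      n hnp hπn z z' hz hz' hgen' hcase' O hOtop hPIR hRO hπO hBO hthr' hrat
  refine ⟨p, hp0, hpO, hpinv, hunif, ?_⟩
  intro O' hO' hthrO' hne
  exact hother O' hthrO'.1 hthrO'.2 hO'.2.2.2 hne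

end core

end Fermat.Agent.S34
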