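import Fermat.Agent.S37.LevelUpConc1
import Fermat.Agent.Lib.Gamma0Cosets
import Fermat.Prelude.Def_FLTPrelim_Ramification

/-!
# S34 lab, package P0 (twin, helper52): change of level for the input `(U)`

`(U)` at level `M` (for the primes `p ≠ q`) is the statement: for every inertia element `t` at
`q` and every class `x ∈ J₀(M)(ℚ̄)` killed by a power of `p`,
`t • t • x - t • x - t • x + x = 0` (`lc52_U p q M`; this is literally the hypothesis `hU` of
`s34e60_main`), or its two-variable form `(s - 1)(t - 1) = 0` (`lc52_U2 p q M`).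

* `lc52_descend` : for `N ∣ N'` with `ψ(N') / ψ(N)` prime to `m`, and **any** two Galois
  elements `s`, `t`: if `(s - 1)(t - 1)` kills the `m`-torsion of `J₀(N')`, it kills the
  `m`-torsion of `J₀(N)`.  (Proof: `π^*` is Galois-equivariant and `π_* π^* = ψ(N') / ψ(N)`.)
* `lc52_U_of_dvd`, `lc52_U2_of_dvd` : `(U)` at level `N` from `(U)` at level `N'`, if `N ∣ N'`
  and `p ∤ ψ(N') / ψ(N)`.
* `lc52_exists_level` : for `q ‖ N` and `p ≠ q` there are `p₀ ∈ {2, 3}`, `p₀ ≠ q`, and a level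
  `M ∈ {N, N p₀}` with `N ∣ M`, `p₀ ∣ M`, `q ‖ M` and `ψ(M) / ψ(N)` prime to `p`.
* `lc52_main`, `lc52_main2` : `(U)` at level `N` (with `q ‖ N`, `p ≠ q`) from `(U)` at all
  levels `M` with `q ‖ M` that are divisible by a prime `p₀ ∈ {2, 3}`, `p₀ ≠ q`.
-/

set_option autoImplicit false
set_option linter.style.haveILetI false

namespace Fermat.Agent.S34

open ModularCurve AlgebraicCurve Fermat.Agent.S37

local notation "Qb" => AlgebraicClosure ℚ
local notation "GQ" => AlgebraicClosure ℚ ≃ₐ[ℚ] AlgebraicClosure ℚ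

/-! ### Abstract torsion lemma -/

/-- An element killed by two coprime integers vanishes. -/
theorem lc52_eq_zero_of_coprime {J : Type*} [AddCommGroup J] {m d : ℕ} (h : Nat.Coprime m d)
    {z : J} (hm : m • z = 0) (hd : d • z = 0) : z = 0 := by
  have h1 : addOrderOf z ∣ m := addOrderOf_dvd_of_nsmul_eq_zero hm
  have h2 : addOrderOf z ∣ d := addOrderOf_dvd_of_nsmul_eq_zero hd
  have h3 : addOrderOf z ∣ 1 := by
    have := Nat.dvd_gcd h1 h2
    rwa [Nat.Coprime.gcd_eq_one h] at this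
  exact AddMonoid.addOrderOf_eq_one_iff.mp (Nat.dvd_one.mp h3)

/-- Abstract descent: if `pull : J → J'` is `G`-equivariant, `push ∘ pull = d`, and `m` is prime
to `d`, then `(s - 1)(t - 1) = 0` on `J'[m]` implies `(s - 1)(t - 1) = 0` on `J[m]`. -/
theorem lc52_descend_abs {G J J' : Type*} [Group G] [AddCommGroup J] [AddCommGroup J']
    [DistribMulAction G J] [DistribMulAction G J'] (pull : J →+ J') (push : J' →+ J)
    (d m : ℕ) (hpp : ∀ x, push (pull x) = d • x) (heq : ∀ (σ : G) (x : J), pull (σ • x) = σ • pull x)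
    (hcop : Nat.Coprime m d) (s t : G)
    (hU : ∀ y : J', m • y = 0 → s • t • y - s • y - t • y + y = 0)
    (x : J) (hx : m • x = 0) : s • t • x - s • x - t • x + x = 0 := by
  have hy : m • pull x = 0 := by rw [← map_nsmul, hx, map_zero]
  have e1 := hU _ hy
  have e2 : pull (s • t • x - s • x - t • x + x) = 0 := by
    simp only [map_add, map_sub, heq]
    exact e1
  have e3 : d • (s • t • x - s • x - t • x + x) = 0 := by
    rw [← hpp, e2, map_zero]
  have hs : ∀ (σ : G) (z : J), m • z = 0 → m • (σ • z) = 0 := by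
    intro σ z hz
    rw [smul_comm m σ z, hz, smul_zero]
  have e4 : m • (s • t • x - s • x - t • x + x) = 0 := by
    rw [nsmul_add, nsmul_sub, nsmul_sub, hs s _ (hs t x hx), hs s x hx, hs t x hx, hx,
      sub_zero, sub_zero, add_zero]
  exact lc52_eq_zero_of_coprime hcop e4 e3

/-! ### The descent `N' → N` -/

section Descend

variable {N N' : ℕ} [NeZero N] [NeZero N']

/-- All inertia degrees of `F(N') / F(N)` over `ℚ̄` are `1`, so `∑ e = [F(N') : F(N)]`. -/
theorem lc52_sumRamificationInertia (h : N ∣ N') :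
    letI := algebraAlong (tv1_iota h)
    haveI := isScalarTower_along (tv1_iota h)
    haveI := isIntegral_along (tv1_iota h) (tv1_iota_integral h)
    haveI := hi63_hasPrincipalDivisors_bar N'
    SumRamificationInertia Qb ↥(modularFunctionFieldBar N) ↥(modularFunctionFieldBar N') := by
  haveI := hi63_hasPrincipalDivisors_bar N'
  haveI := hi63_finite_x N
  haveI := hi63_finite_x N'
  letI := algebraAlong (tv1_iota h)
  haveI := isScalarTower_along (tv1_iota h)
  haveI := isIntegral_along (tv1_iota h) (tv1_iota_integral h)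
  have hFI : FundamentalIdentity Qb ↥(modularFunctionFieldBar N) ↥(modularFunctionFieldBar N') :=
    tv1_iota_fundamental h
  have hdeg' : ∀ w : Place Qb ↥(modularFunctionFieldBar N'), w.deg = 1 :=
    Fermat.Agent.S24.wp1_deg_eq_one (hi63_x N') (hi63_x_transcendental N')
  have hdeg : ∀ v : Place Qb ↥(modularFunctionFieldBar N), v.deg = 1 :=
    Fermat.Agent.S24.wp1_deg_eq_one (hi63_x N) (hi63_x_transcendental N)
  have hin : ∀ w : Place Qb ↥(modularFunctionFieldBar N'),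
      w.inertiaDeg ↥(modularFunctionFieldBar N) = 1 := by
    intro w
    have h1 := w.deg_restrict_mul_inertiaDeg (F := ↥(modularFunctionFieldBar N))
    rw [hdeg', hdeg, one_mul] at h1
    exact h1
  refine ⟨fun v => ?_⟩
  have h1 := hFI.sum_ramificationIndex_mul_deg v
  rw [hdeg v] at h1
  rw [← mul_one ((Module.finrank ↥(modularFunctionFieldBar N)
    ↥(modularFunctionFieldBar N') : ℕ) : ℤ)]
  rw [show ((1 : ℕ) : ℤ) = 1 from rfl] at h1
  rw [← h1]
  refine Finset.sum_congr rfl fun w _ => ?_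
  rw [hin w, hdeg' w]

/-- **Descent of `(s - 1)(t - 1) = 0` from level `N'` to level `N ∣ N'`** on the `m`-torsion,
for `m` prime to the degree `ψ(N') / ψ(N)` of `X₀(N') → X₀(N)`; `s`, `t` are arbitrary elements
of the absolute Galois group. -/
theorem lc52_descend (h : N ∣ N') (m : ℕ)
    (hcop : Nat.Coprime m (dedekindPsi N' / dedekindPsi N))
    (s t : GQ)
    (hU : ∀ y : JZero N', m • y = 0 → s • t • y - s • y - t • y + y = 0)
    (x : JZero N) (hx : m • x = 0) : s • t • x - s • x - t • x + x = 0 := by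
  haveI := hi63_hasPrincipalDivisors_bar N'
  haveI := hi63_finite_x N
  haveI := hi63_finite_x N'
  letI := algebraAlong (tv1_iota h)
  haveI := isScalarTower_along (tv1_iota h)
  haveI := isIntegral_along (tv1_iota h) (tv1_iota_integral h)
  haveI : SumRamificationInertia Qb ↥(modularFunctionFieldBar N)
      ↥(modularFunctionFieldBar N') := lc52_sumRamificationInertia h
  haveI : Module.Finite ↥(modularFunctionFieldBar N) ↥(modularFunctionFieldBar N') :=
    tv1_iota_finite h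
  have H : Divisor.PushforwardNormFormula Qb ↥(modularFunctionFieldBar N)
      ↥(modularFunctionFieldBar N') := tv1_iota_normFormula h
  have hfr : Module.finrank ↥(modularFunctionFieldBar N) ↥(modularFunctionFieldBar N')
      = dedekindPsi N' / dedekindPsi N := tv1_finrank h
  refine lc52_descend_abs (G := GQ) (J := JZero N) (J' := JZero N')
    (Pic0.pullbackHom ↥(modularFunctionFieldBar N'))
    (Pic0.pushforwardHom Qb ↥(modularFunctionFieldBar N) ↥(modularFunctionFieldBar N') H)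
    (dedekindPsi N' / dedekindPsi N) m (fun z => ?_) (fun σ z => ?_) hcop s t hU x hx
  · rw [← hfr]
    exact lu1_pushforwardHom_pullbackHom H z
  · exact lu1_pullbackHom_smul (K := Qb) (F := ↥(modularFunctionFieldBar N))
      (F' := ↥(modularFunctionFieldBar N')) (tv1_intertwines h σ) z

end Descend

/-! ### The statements `(U)` and the level change -/

/-- `(U)` at level `M`: `(t - 1)² = 0` on the `p`-power torsion of `J₀(M)` for every inertia
element `t` at `q`.  (`lc52_U p q N` is the hypothesis `hU` of `s34e60_main`.) -/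
def lc52_U (p q M : ℕ) : Prop :=
  ∀ (n : ℕ) (P : ValuationSubring Qb), P.LiesOverPrime q →
    ∀ t ∈ P.inertiaSubgroupIn ℚ, ∀ x : JZero M, (p ^ n) • x = 0 →
      t • t • x - t • x - t • x + x = 0

/-- `(U)` at level `M`, two-variable form: `(s - 1)(t - 1) = 0` on the `p`-power torsion of
`J₀(M)` for all inertia elements `s`, `t` at `q`. -/
def lc52_U2 (p q M : ℕ) : Prop :=
  ∀ (n : ℕ) (P : ValuationSubring Qb), P.LiesOverPrime q →
    ∀ s ∈ P.inertiaSubgroupIn ℚ, ∀ t ∈ P.inertiaSubgroupIn ℚ, ∀ x : JZero M, (p ^ n) • x = 0 →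
      s • t • x - s • x - t • x + x = 0

/-- The two-variable form implies the one-variable form. -/
theorem lc52_U_of_U2 {p q M : ℕ} (h : lc52_U2 p q M) : lc52_U p q M :=
  fun n P hP t ht x hx => h n P hP t ht t ht x hx

/-- `(U)` at level `N` from `(U)` at level `N'`, `N ∣ N'`, if `p ∤ ψ(N') / ψ(N)`. -/
theorem lc52_U_of_dvd {p q N N' : ℕ} [NeZero N] [NeZero N'] (h : N ∣ N') (hp : p.Prime)
    (hpd : ¬ p ∣ dedekindPsi N' / dedekindPsi N) (hU : lc52_U p q N') : lc52_U p q N :=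
  fun n P hP t ht x hx =>
    lc52_descend h (p ^ n) (Nat.Coprime.pow_left n ((Nat.Prime.coprime_iff_not_dvd hp).mpr hpd))
      t t (fun y hy => hU n P hP t ht y hy) x hx

/-- `(U)`, two-variable form, at level `N` from level `N'`, `N ∣ N'`, if
`p ∤ ψ(N') / ψ(N)`. -/
theorem lc52_U2_of_dvd {p q N N' : ℕ} [NeZero N] [NeZero N'] (h : N ∣ N') (hp : p.Prime)
    (hpd : ¬ p ∣ dedekindPsi N' / dedekindPsi N) (hU : lc52_U2 p q N') : lc52_U2 p q N :=
  fun n P hP s hs t ht x hx =>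
    lc52_descend h (p ^ n) (Nat.Coprime.pow_left n ((Nat.Prime.coprime_iff_not_dvd hp).mpr hpd))
      s t (fun y hy => hU n P hP s hs t ht y hy) x hx

/-! ### The choice of the auxiliary prime `p₀` and of the level `M` -/

/-- `ψ(N p₀) / ψ(N) = p₀ + 1` for a prime `p₀ ∤ N`. -/
theorem lc52_psi_mul_prime {N p0 : ℕ} [NeZero N] (hp0 : p0.Prime) (hN : ¬ p0 ∣ N) :
    dedekindPsi (N * p0) / dedekindPsi N = p0 + 1 := by
  have hc : Nat.Coprime N p0 := (Nat.Coprime.symm ((Nat.Prime.coprime_iff_not_dvd hp0).mpr hN))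
  have h1 : dedekindPsi p0 = p0 + 1 := by
    have := Fermat.Agent.Lib.G0C.dedekindPsi_prime_pow hp0 (e := 1) one_pos
    simpa using this
  rw [Fermat.Agent.Lib.G0C.dedekindPsi_mul hc, h1,
    Nat.mul_div_cancel_left _ (Fermat.Agent.S18.nd38_psi_pos N)]

/-- For `q ‖ N` and a prime `p ≠ q` there are an auxiliary prime `p₀ ∈ {2, 3}`, `p₀ ≠ q`, and
a level `M` (`= N` or `N p₀`) with `N ∣ M`, `p₀ ∣ M`, `q ‖ M` and `p ∤ ψ(M) / ψ(N)`. -/
theorem lc52_exists_level {p q N : ℕ} [NeZero N] (hp : p.Prime) (hq : q.Prime) (hqp : q ≠ p)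
    (hqN : q ∣ N) (hq2 : ¬ q ^ 2 ∣ N) :
    ∃ M p0 : ℕ, M ≠ 0 ∧ (p0 = 2 ∨ p0 = 3) ∧ p0 ≠ q ∧ p0 ∣ M ∧ N ∣ M ∧ q ∣ M ∧ ¬ q ^ 2 ∣ M ∧
      (M = N ∨ M = N * p0) ∧ ¬ p ∣ dedekindPsi M / dedekindPsi N := by
  have hN0 : N ≠ 0 := NeZero.ne N
  have hpsi : 0 < dedekindPsi N := Fermat.Agent.S18.nd38_psi_pos N
  have hself : ¬ p ∣ dedekindPsi N / dedekindPsi N := by
    rw [Nat.div_self hpsi]
    exact hp.one_lt.ne' ∘ Nat.dvd_one.mp
  -- the generic step: a prime `p0 ≠ q` with `p ∤ p0 + 1` works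
  have key : ∀ p0 : ℕ, p0.Prime → (p0 = 2 ∨ p0 = 3) → p0 ≠ q → (¬ p0 ∣ N → ¬ p ∣ p0 + 1) →
      ∃ M p0 : ℕ, M ≠ 0 ∧ (p0 = 2 ∨ p0 = 3) ∧ p0 ≠ q ∧ p0 ∣ M ∧ N ∣ M ∧ q ∣ M ∧ ¬ q ^ 2 ∣ M ∧
        (M = N ∨ M = N * p0) ∧ ¬ p ∣ dedekindPsi M / dedekindPsi N := by
    intro p0 hp0 h23 hp0q hdeg
    by_cases hd : p0 ∣ N
    · exact ⟨N, p0, hN0, h23, hp0q, hd, dvd_rfl, hqN, hq2, Or.inl rfl, hself⟩
    · refine ⟨N * p0, p0, mul_ne_zero hN0 hp0.ne_zero, h23, hp0q, dvd_mul_left _ _,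
        dvd_mul_right _ _, hqN.mul_right _, ?_, Or.inr rfl, ?_⟩
      · intro hdv
        have hc : Nat.Coprime (q ^ 2) p0 :=
          Nat.Coprime.pow_left 2 ((Nat.coprime_primes hq hp0).mpr (Ne.symm hp0q))
        exact hq2 (hc.dvd_of_dvd_mul_right hdv)
      · rw [lc52_psi_mul_prime hp0 hd]
        exact hdeg hd
  by_cases hq2' : q = 2
  · -- `q = 2`: take `p0 = 3`; `p` is odd so `p ∤ 4`
    refine key 3 Nat.prime_three (Or.inr rfl) (by omega) (fun _ hdv => ?_)
    have h4 : p ∣ 2 ^ 2 := by simpa using hdv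
    have h2 : p ∣ 2 := hp.dvd_of_dvd_pow h4
    have : p = 2 := (Nat.prime_dvd_prime_iff_eq hp Nat.prime_two).mp h2
    exact hqp (hq2'.trans this.symm)
  · by_cases hcase : 2 ∣ N ∨ p ≠ 3
    · -- `p0 = 2`
      refine key 2 Nat.prime_two (Or.inl rfl) (Ne.symm hq2') (fun h2N hdv => ?_)
      have hp3 : p = 3 := (Nat.prime_dvd_prime_iff_eq hp Nat.prime_three).mp (by simpa using hdv)
      rcases hcase with h | h
      · exact h2N h
      · exact h hp3
    · -- `p = 3`, `2 ∤ N`: take `p0 = 3 ≠ q`; `3 ∤ 4`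
      have hp3 : p = 3 := by
        by_contra hne
        exact hcase (Or.inr hne)
      refine key 3 Nat.prime_three (Or.inr rfl) (fun h3 => hqp (h3.symm.trans hp3.symm))
        (fun _ hdv => ?_)
      rw [hp3] at hdv
      omega

/-! ### Main statements -/

/-- **P0, level change.**  `(U)` at the level `N` (with `q ‖ N`, `p ≠ q`) follows from `(U)` at
the levels `M` with `N ∣ M`, `q ‖ M`, that are divisible by a prime `p₀ ∈ {2, 3}` different
from `q` (only `M = N` or `M = N p₀` is used). -/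
theorem lc52_main {p q N : ℕ} [NeZero N] (hp : p.Prime) (hq : q.Prime) (hqp : q ≠ p)
    (hqN : q ∣ N) (hq2 : ¬ q ^ 2 ∣ N)
    (hM : ∀ M p0 : ℕ, M ≠ 0 → (p0 = 2 ∨ p0 = 3) → p0 ≠ q → p0 ∣ M → N ∣ M → q ∣ M →
      ¬ q ^ 2 ∣ M → (M = N ∨ M = N * p0) → lc52_U p q M) :
    lc52_U p q N := by
  obtain ⟨M, p0, hM0, h23, hp0q, hp0M, hNM, hqM, hq2M, hMN, hpd⟩ :=
    lc52_exists_level hp hq hqp hqN hq2
  haveI : NeZero M := ⟨hM0⟩
  exact lc52_U_of_dvd hNM hp hpd (hM M p0 hM0 h23 hp0q hp0M hNM hqM hq2M hMN)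

/-- **P0, level change, two-variable form.** -/
theorem lc52_main2 {p q N : ℕ} [NeZero N] (hp : p.Prime) (hq : q.Prime) (hqp : q ≠ p)
    (hqN : q ∣ N) (hq2 : ¬ q ^ 2 ∣ N)
    (hM : ∀ M p0 : ℕ, M ≠ 0 → (p0 = 2 ∨ p0 = 3) → p0 ≠ q → p0 ∣ M → N ∣ M → q ∣ M →
      ¬ q ^ 2 ∣ M → (M = N ∨ M = N * p0) → lc52_U2 p q M) :
    lc52_U2 p q N := by
  obtain ⟨M, p0, hM0, h23, hp0q, hp0M, hNM, hqM, hq2M, hMN, hpd⟩ :=
    lc52_exists_level hp hq hqp hqN hq2
  haveI : NeZero M := ⟨hM0⟩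
  exact lc52_U2_of_dvd hNM hp hpd (hM M p0 hM0 h23 hp0q hp0M hNM hqM hq2M hMN)

end Fermat.Agent.S34
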