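import Mathlib
import Fermat.Agent.S34.Iface47
import Fermat.Agent.S34.LevelChange52
import Fermat.Agent.S34.Unip60

/-!
# S34 lab: assembly WITHOUT the package `s34i47_Pkg_Level` (helper51, registrar)

`s34i47_assembly` (Iface47) consumes eleven package `Prop`s.  The level change is already on main
at the level of the Jacobians (`lc52_main`, helper52), so the function-field level change
`s34i47_Pkg_Level` is not needed: apply `s34i47_Pkg_Pic` at the auxiliary level `M` and descend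
`(U)` itself.  `s34a51_U` needs ten packages, `s34a51_unip` is the conclusion of `s34e60_main`
from the same ten packages.
-/

set_option autoImplicit false

namespace Fermat.Agent.S34

/-- `lc52_U` and `s34i47_U` are the same `Prop` (arguments in a different order). -/
theorem s34a51_U_iff (N q p : ℕ) : lc52_U p q N ↔ s34i47_U N q p := Iff.rfl

/-- **Assembly without `s34i47_Pkg_Level`**: ten packages ⟹ `(U)` for `q ∥ N`, `q ≠ p`. -/
theorem s34a51_U (hUZ : s34i47_Pkg_UZ) (hLP : s34i47_Pkg_LP) (hKr : s34i47_Pkg_Krull)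
    (hLD : s34i47_Pkg_LD) (hMain : s34i47_Pkg_Main) (hFrame : s34i47_Pkg_Frame)
    (hFin : s34i47_Pkg_Fin) (hCore : s34i47_Pkg_Core) (hFD : s34i47_Pkg_FieldDef)
    (hPic : s34i47_Pkg_Pic)
    (N q p : ℕ) [NeZero N] (hq : q.Prime) (hp : p.Prime) (hpq : p ≠ q) (hqN : q ∣ N)
    (hq2 : ¬ q ^ 2 ∣ N) : s34i47_U N q p := by
  refine (s34a51_U_iff N q p).mp (lc52_main hp hq (Ne.symm hpq) hqN hq2 ?_)
  intro M p₀ hM0 hp₀ hp₀q hp₀M _ hqM hq2M _
  have hne : NeZero M := ⟨hM0⟩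
  refine (s34a51_U_iff M q p).mpr (hPic M q p hne ?_)
  intro n
  have hcop : Nat.Coprime (p ^ n) q :=
    Nat.Coprime.pow_left n ((Nat.coprime_primes hp hq).mpr hpq)
  exact hFD M q _ hne hq (pow_pos hp.pos n)
    (hCore hUZ hLP hKr hLD hMain M q _ hne hq (pow_pos hp.pos n) hcop
      (hFrame M q p₀ hq hqM hq2M hp₀ hp₀q hp₀M) (hFin M hne))

/-- **S34 from the ten packages** (the frozen statement S34 is this with the ten package proofs
plugged in): `s34e60_main` (helper60) applied to `s34a51_U`. -/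
theorem s34a51_result_of_pkgs (hUZ : s34i47_Pkg_UZ) (hLP : s34i47_Pkg_LP)
    (hKr : s34i47_Pkg_Krull) (hLD : s34i47_Pkg_LD) (hMain : s34i47_Pkg_Main)
    (hFrame : s34i47_Pkg_Frame) (hFin : s34i47_Pkg_Fin) (hCore : s34i47_Pkg_Core)
    (hFD : s34i47_Pkg_FieldDef) (hPic : s34i47_Pkg_Pic)
    {𝒪 : Type} [CommRing 𝒪] [IsDomain 𝒪] [IsDiscreteValuationRing 𝒪]
    [IsAdicComplete (IsLocalRing.maximalIdeal 𝒪) 𝒪]
    {p : ℕ} (hp : p.Prime) (hp𝒪 : (p : 𝒪) ∈ IsLocalRing.maximalIdeal 𝒪)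
    {N : ℕ} [NeZero N] {S : Finset ℕ} (hpS : p ∈ S) (hNS : ∀ q : ℕ, q.Prime → q ∣ N → q ∈ S)
    {θ : CuspForm.heckeAlgebra N 2 (↑S : Set ℕ) →+* IsLocalRing.ResidueField 𝒪}
    {T : Type} [CommRing T] [IsLocalRing T] [IsNoetherianRing T]
    [IsAdicComplete (IsLocalRing.maximalIdeal T) T] [Algebra 𝒪 T] [IsLocalHom (algebraMap 𝒪 T)]
    [Module.Finite 𝒪 T] [Module.Free 𝒪 T]
    (H : CuspForm.HeckeGaloisRepDatum N (↑S : Set ℕ) 𝒪 θ T)
    (q : ℕ) (hq : q.Prime) (hqp : q ≠ p) (hqN : q ∣ N) (hq2 : ¬ q ^ 2 ∣ N) :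
    H.ρ.IsUnipotentOnInertiaAt q :=
  s34e60_main hp hp𝒪 hpS hNS H q hq hqp
    (s34a51_U hUZ hLP hKr hLD hMain hFrame hFin hCore hFD hPic N q p hq hp (Ne.symm hqp) hqN hq2)

end Fermat.Agent.S34
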