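import Mathlib
import Fermat.Agent.S18.TwoChart

/-!
# S34 lab (helper47): the two-chart lemma for a reduced special fibre with several components

`ntc47_main` is `tc_main` (S18/TwoChart.lean) with the Gauss valuation ring `V` replaced by an
arbitrary subring `W` of `F` (in the application `W = V_∞ ⊓ V_0`, the intersection of the two
Gauss valuation rings of `F(q M')`), subject to

* `hWroot` : `x ^ m ∈ W → x ∈ W`,
* `hWunit` : `x ∈ W → (1 + π x)⁻¹ ∈ W`,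
* `hπW`    : `π⁻¹ ∉ W`,

and with the hypotheses `hbar`, `hLP` of `tc_main` replaced by the local datum

* `hLD` : for every maximal ideal `n ∋ π` of the chart there are `φ ≡ 1 mod π W` and `s ∈ B ∖ n`
  with `s * (φ ^ m * u) ∈ B`  (i.e. `φ ^ m * u` is regular at `n`).

All names are prefixed `ntc47_`.  Mathlib + S18/TwoChart only.
-/

set_option autoImplicit false

namespace Fermat.Agent.S34

open Fermat.Agent.S18

section basic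

variable {F : Type*} [Field F]

/-- congruence of powers modulo `p W`. -/
theorem ntc47_pow_sub_pow_mem (W : Subring F) (p : F) (x y : F) (hx : x ∈ W) (hy : y ∈ W)
    (h : p⁻¹ * (x - y) ∈ W) (m : ℕ) : p⁻¹ * (x ^ m - y ^ m) ∈ W := by
  have h1 : x ^ m - y ^ m = (∑ i ∈ Finset.range m, x ^ i * y ^ (m - 1 - i)) * (x - y) :=
    (geom_sum₂_mul x y m).symm
  have h2 : p⁻¹ * (x ^ m - y ^ m)
      = (∑ i ∈ Finset.range m, x ^ i * y ^ (m - 1 - i)) * (p⁻¹ * (x - y)) := by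
    rw [h1]; ring
  rw [h2]
  refine W.mul_mem ?_ h
  exact W.sum_mem fun i _ => W.mul_mem (W.pow_mem hx _) (W.pow_mem hy _)

/-- `u ≡ 1 mod p W` implies `u ∈ W`. -/
theorem ntc47_mem_of_cong_one (W : Subring F) (p : F) (hp0 : p ≠ 0) (hpW : p ∈ W)
    (u : F) (hu : p⁻¹ * (u - 1) ∈ W) : u ∈ W := by
  have : u = 1 + p * (p⁻¹ * (u - 1)) := by field_simp; ring
  rw [this]
  exact W.add_mem W.one_mem (W.mul_mem hpW hu)

/-- `1 + p x ≠ 0` for `x ∈ W` when `p⁻¹ ∉ W`. -/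
theorem ntc47_one_add_ne_zero (W : Subring F) (p : F) (hp0 : p ≠ 0) (hpinv : p⁻¹ ∉ W)
    (x : F) (hx : x ∈ W) : 1 + p * x ≠ 0 := by
  intro h
  apply hpinv
  have h1 : p * (-x) = 1 := by linear_combination -h
  have h2 : p⁻¹ = -x := (eq_inv_of_mul_eq_one_right h1).symm
  rw [h2]; exact W.neg_mem hx

theorem ntc47_ne_zero_of_cong_one (W : Subring F) (p : F) (hp0 : p ≠ 0) (hpinv : p⁻¹ ∉ W)
    (u : F) (hu : p⁻¹ * (u - 1) ∈ W) : u ≠ 0 := by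
  have : u = 1 + p * (p⁻¹ * (u - 1)) := by field_simp; ring
  rw [this]
  exact ntc47_one_add_ne_zero W p hp0 hpinv _ hu

theorem ntc47_inv_mem_of_cong_one (W : Subring F) (p : F) (hp0 : p ≠ 0)
    (hWunit : ∀ x ∈ W, (1 + p * x)⁻¹ ∈ W)
    (u : F) (hu : p⁻¹ * (u - 1) ∈ W) : u⁻¹ ∈ W := by
  have : u = 1 + p * (p⁻¹ * (u - 1)) := by field_simp; ring
  rw [this]
  exact hWunit _ hu

end basic

section twisted

variable {R : Type*} [CommRing R] {F : Type*} [Field F] [Algebra R F]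

/-- Step (a): the reduction of `I(B)` contains `1`, from the local datum. -/
theorem ntc47_exists_one (m : ℕ) (hm0 : 0 < m) (W : Subring F) (p : F)
    (B : Subalgebra R F) (hpB : p ∈ B) (hBW : ∀ x ∈ B, x ∈ W)
    (hroot : ∀ x : F, x ^ m ∈ B → x ∈ B)
    (u : F)
    (hLD : ∀ n : Ideal B, n.IsMaximal → (⟨p, hpB⟩ : B) ∈ n →
      ∃ φ : F, p⁻¹ * (φ - 1) ∈ W ∧ ∃ s : B, s ∉ n ∧ (s : F) * (φ ^ m * u) ∈ B) :
    ∃ f : F, f ^ m * u ∈ B ∧ p⁻¹ * (f - 1) ∈ W := by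
  classical
  by_cases hp0 : p = 0
  · -- degenerate case: `p = 0`, every congruence is trivial
    subst hp0
    have htop : (⊥ : Ideal B) ≠ ⊤ ∨ (⊥ : Ideal B) = ⊤ := (em _).symm
    by_cases hB : Nontrivial B
    · obtain ⟨n, hn⟩ := Ideal.exists_maximal B
      obtain ⟨φ, -, s, hs, hsφ⟩ := hLD n hn (by
        have : (⟨0, hpB⟩ : B) = 0 := rfl
        rw [this]; exact n.zero_mem)
      refine ⟨s * φ, ?_, by simp [W.zero_mem]⟩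
      obtain ⟨d, rfl⟩ : ∃ d, m = d + 1 := ⟨m - 1, by omega⟩
      have : ((s : F) * φ) ^ (d + 1) * u = (s : F) ^ d * ((s : F) * (φ ^ (d + 1) * u)) := by ring
      rw [this]
      exact B.mul_mem (B.pow_mem s.2 d) hsφ
    · exact ⟨0, by rw [zero_pow hm0.ne', zero_mul]; exact B.zero_mem, by simp [W.zero_mem]⟩
  let J : Ideal B :=
    { carrier := {b | ∃ f : F, f ^ m * u ∈ B ∧ p⁻¹ * (f - (b : F)) ∈ W}
      add_mem' := by
        rintro a b ⟨f, hf, hfa⟩ ⟨g, hg, hgb⟩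
        refine ⟨f + g, tcI_add m u B hroot f g hf hg, ?_⟩
        have : p⁻¹ * (f + g - ((a + b : B) : F)) = p⁻¹ * (f - a) + p⁻¹ * (g - b) := by
          push_cast; ring
        rw [this]; exact W.add_mem hfa hgb
      zero_mem' := ⟨0, tcI_zero m hm0 u B, by simp [W.zero_mem]⟩
      smul_mem' := by
        rintro c b ⟨f, hf, hfb⟩
        refine ⟨c * f, tcI_mul m u B c f c.2 hf, ?_⟩
        have : p⁻¹ * ((c : F) * f - ((c • b : B) : F)) = c * (p⁻¹ * (f - b)) := by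
          simp only [smul_eq_mul, MulMemClass.coe_mul]; ring
        rw [this]; exact W.mul_mem (hBW c c.2) hfb }
  have hJ : J = ⊤ := by
    by_contra hne
    obtain ⟨n, hn, hJn⟩ := Ideal.exists_le_maximal J hne
    have hpn : (⟨p, hpB⟩ : B) ∈ n := by
      apply hJn
      refine ⟨0, tcI_zero m hm0 u B, ?_⟩
      have : p⁻¹ * (0 - p) = -1 := by field_simp; ring
      show p⁻¹ * (0 - p) ∈ W
      rw [this]; exact W.neg_mem W.one_mem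
    obtain ⟨φ, hφ, s, hs, hsφ⟩ := hLD n hn hpn
    apply hs
    apply hJn
    refine ⟨s * φ, ?_, ?_⟩
    · obtain ⟨d, rfl⟩ : ∃ d, m = d + 1 := ⟨m - 1, by omega⟩
      have : ((s : F) * φ) ^ (d + 1) * u = (s : F) ^ d * ((s : F) * (φ ^ (d + 1) * u)) := by ring
      rw [this]
      exact B.mul_mem (B.pow_mem s.2 d) hsφ
    · have : p⁻¹ * ((s : F) * φ - (s : F)) = (s : F) * (p⁻¹ * (φ - 1)) := by ring
      rw [this]; exact W.mul_mem (hBW s s.2) hφ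
  have h1 : (1 : B) ∈ J := by rw [hJ]; trivial
  obtain ⟨f, hf, hf1⟩ := h1
  exact ⟨f, hf, by simpa using hf1⟩

/-- Step (b): Hensel improvement of the congruence `e^m u ≡ 1`. -/
theorem ntc47_hensel (m : ℕ) (W : Subring F) (p : F) (hp0 : p ≠ 0)
    (B : Subalgebra R F) (hpB : p ∈ B) (hBW : ∀ x ∈ B, x ∈ W)
    (hsat : ∀ x ∈ B, p⁻¹ * x ∈ W → p⁻¹ * x ∈ B)
    (u : F) (hu : p⁻¹ * (u - 1) ∈ W)
    (μ : F) (hμB : μ ∈ B) (hμ : (m : F) * μ = 1)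
    (f : F) (hf : f ^ m * u ∈ B) (hf1 : p⁻¹ * (f - 1) ∈ W) (k : ℕ) :
    ∃ e : F, p⁻¹ * (e - 1) ∈ W ∧ ∃ b ∈ B, e ^ m * u = 1 + p ^ (k + 1) * b := by
  have hpW : p ∈ W := hBW p hpB
  induction k with
  | zero =>
    refine ⟨f, hf1, p⁻¹ * (f ^ m * u - 1), ?_, ?_⟩
    · apply hsat _ (B.sub_mem hf B.one_mem)
      have hfW := ntc47_mem_of_cong_one W p hp0 hpW f hf1
      have h1 := ntc47_pow_sub_pow_mem W p f 1 hfW W.one_mem hf1 m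
      rw [one_pow] at h1
      have : p⁻¹ * (f ^ m * u - 1) = p⁻¹ * (f ^ m - 1) * u + p⁻¹ * (u - 1) := by ring
      rw [this]
      exact W.add_mem (W.mul_mem h1 (ntc47_mem_of_cong_one W p hp0 hpW u hu)) hu
    · field_simp; ring
  | succ k ih =>
    obtain ⟨e, he1, b, hb, heq⟩ := ih
    have heW := ntc47_mem_of_cong_one W p hp0 hpW e he1
    have hyB : p ^ (k + 1) * b ∈ B := B.mul_mem (B.pow_mem hpB _) hb
    have hxB : -(μ * (p ^ (k + 1) * b)) ∈ B := B.neg_mem (B.mul_mem hμB hyB)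
    obtain ⟨q, hq, hpow⟩ := tc_one_add_pow B.toSubring (-(μ * (p ^ (k + 1) * b))) hxB m
    have hqB : q ∈ B := hq
    refine ⟨e * (1 + -(μ * (p ^ (k + 1) * b))), ?_,
      p ^ k * b ^ 2 * (-1 + μ ^ 2 * q * (1 + p ^ (k + 1) * b)), ?_, ?_⟩
    · have : p⁻¹ * (e * (1 + -(μ * (p ^ (k + 1) * b))) - 1)
          = p⁻¹ * (e - 1) - e * μ * p ^ k * b := by
        field_simp; ring
      rw [this]
      exact W.sub_mem he1 (W.mul_mem (W.mul_mem (W.mul_mem heW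
        (hBW _ hμB)) (W.pow_mem hpW k)) (hBW _ hb))
    · exact B.mul_mem (B.mul_mem (B.pow_mem hpB _) (B.pow_mem hb 2))
        (B.add_mem (B.neg_mem B.one_mem)
          (B.mul_mem (B.mul_mem (B.pow_mem hμB 2) hqB) (B.add_mem B.one_mem hyB)))
    · have : (e * (1 + -(μ * (p ^ (k + 1) * b)))) ^ m * u
          = (1 + -(μ * (p ^ (k + 1) * b))) ^ m * (e ^ m * u) := by rw [mul_pow]; ring
      rw [this, heq, hpow]
      have hmμ : (m : F) * (-(μ * (p ^ (k + 1) * b))) = -(p ^ (k + 1) * b) := by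
        rw [mul_neg, ← mul_assoc, hμ, one_mul]
      rw [hmμ]
      ring

/-- Step (c): two solutions of `e^m u ≡ 1 mod p^n` that are `≡ 1 mod p` agree mod `p^n`. -/
theorem ntc47_diff_mem (m : ℕ) (W : Subring F) (p : F) (hp0 : p ≠ 0) (hpW : p ∈ W)
    (hpinv : p⁻¹ ∉ W) (hWunit : ∀ x ∈ W, (1 + p * x)⁻¹ ∈ W)
    (μ : F) (hμW : μ ∈ W) (hμ : (m : F) * μ = 1)
    (u : F) (hu : p⁻¹ * (u - 1) ∈ W)
    (e₁ e₂ b₁ b₂ : F) (h₁ : p⁻¹ * (e₁ - 1) ∈ W) (h₂ : p⁻¹ * (e₂ - 1) ∈ W)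
    (hb₁ : b₁ ∈ W) (hb₂ : b₂ ∈ W) (n : ℕ)
    (he₁ : e₁ ^ m * u = 1 + p ^ n * b₁) (he₂ : e₂ ^ m * u = 1 + p ^ n * b₂) :
    (p⁻¹) ^ n * (e₂ - e₁) ∈ W := by
  have he₁W := ntc47_mem_of_cong_one W p hp0 hpW e₁ h₁
  have he₂W := ntc47_mem_of_cong_one W p hp0 hpW e₂ h₂
  set S := ∑ i ∈ Finset.range m, e₂ ^ i * e₁ ^ (m - 1 - i) with hS
  have hSm : S * (e₂ - e₁) = e₂ ^ m - e₁ ^ m := geom_sum₂_mul e₂ e₁ m
  have hSc : p⁻¹ * (S - m) ∈ W := by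
    have : p⁻¹ * (S - m) = ∑ i ∈ Finset.range m, p⁻¹ * (e₂ ^ i * e₁ ^ (m - 1 - i) - 1) := by
      rw [hS, ← Finset.mul_sum, Finset.sum_sub_distrib]; simp
    rw [this]
    refine W.sum_mem fun i _ => ?_
    have a1 := ntc47_pow_sub_pow_mem W p e₂ 1 he₂W W.one_mem h₂ i
    have a2 := ntc47_pow_sub_pow_mem W p e₁ 1 he₁W W.one_mem h₁ (m - 1 - i)
    rw [one_pow] at a1 a2
    have : p⁻¹ * (e₂ ^ i * e₁ ^ (m - 1 - i) - 1)
        = e₂ ^ i * (p⁻¹ * (e₁ ^ (m - 1 - i) - 1)) + p⁻¹ * (e₂ ^ i - 1) := by ring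
    rw [this]
    exact W.add_mem (W.mul_mem (W.pow_mem he₂W i) a2) a1
  have hm0F : (m : F) ≠ 0 := by
    intro h0; rw [h0, zero_mul] at hμ; exact zero_ne_one hμ
  -- `S = m (1 + p x)` with `x = μ p⁻¹ (S - m) ∈ W`
  set x := μ * (p⁻¹ * (S - m)) with hx
  have hxW : x ∈ W := W.mul_mem hμW hSc
  have hSx : S = (m : F) * (1 + p * x) := by
    have h1 : (m : F) * (p * x) = S - m := by
      rw [hx]
      calc (m : F) * (p * (μ * (p⁻¹ * (S - m)))) = ((m : F) * μ) * (p * p⁻¹) * (S - m) := by ring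
        _ = S - m := by rw [hμ, mul_inv_cancel₀ hp0]; ring
    rw [mul_add, mul_one, h1]; ring
  have h1x : 1 + p * x ≠ 0 := ntc47_one_add_ne_zero W p hp0 hpinv x hxW
  have hS0 : S ≠ 0 := by rw [hSx]; exact mul_ne_zero hm0F h1x
  have hSinv : S⁻¹ ∈ W := by
    have : S⁻¹ = μ * (1 + p * x)⁻¹ := by
      rw [hSx, mul_inv]
      congr 1
      exact inv_eq_of_mul_eq_one_right hμ
    rw [this]; exact W.mul_mem hμW (hWunit x hxW)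
  have hu0 := ntc47_ne_zero_of_cong_one W p hp0 hpinv u hu
  have huinv := ntc47_inv_mem_of_cong_one W p hp0 hWunit u hu
  have hd : (e₂ ^ m - e₁ ^ m) * u = p ^ n * (b₂ - b₁) := by
    have : (e₂ ^ m - e₁ ^ m) * u = e₂ ^ m * u - e₁ ^ m * u := by ring
    rw [this, he₁, he₂]; ring
  have hkey : (p⁻¹) ^ n * (e₂ - e₁) = S⁻¹ * u⁻¹ * (b₂ - b₁) := by
    have h3 : S * (e₂ - e₁) * u = p ^ n * (b₂ - b₁) := by rw [hSm, hd]
    have hpn : p ^ n ≠ 0 := pow_ne_zero n hp0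
    have h4 : e₂ - e₁ = S⁻¹ * u⁻¹ * (p ^ n * (b₂ - b₁)) := by
      rw [← h3]; field_simp
    rw [h4, inv_pow]
    field_simp
  rw [hkey]
  exact W.mul_mem (W.mul_mem hSinv huinv) (W.sub_mem hb₂ hb₁)

/-- iterated saturation. -/
theorem ntc47_sat_pow (W : Subring F) (p : F) (hpW : p ∈ W) (hp0 : p ≠ 0)
    (B : Subalgebra R F)
    (hsat : ∀ x ∈ B, p⁻¹ * x ∈ W → p⁻¹ * x ∈ B) (n : ℕ) :
    ∀ x ∈ B, (p⁻¹) ^ n * x ∈ W → (p⁻¹) ^ n * x ∈ B := by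
  induction n with
  | zero => intro x hx _; simpa using hx
  | succ k ih =>
    intro x hx hxW
    have h1 : (p⁻¹) ^ k * x ∈ W := by
      have : (p⁻¹) ^ k * x = p * ((p⁻¹) ^ (k + 1) * x) := by
        rw [pow_succ]; field_simp
      rw [this]; exact W.mul_mem hpW hxW
    have h2 := ih x hx h1
    have h3 : (p⁻¹) ^ (k + 1) * x = p⁻¹ * ((p⁻¹) ^ k * x) := by rw [pow_succ]; ring
    rw [h3]
    apply hsat _ h2
    rw [← h3]; exact hxW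

/-- saturation of the twisted module. -/
theorem ntc47_I_sat (m : ℕ) (W : Subring F) (p : F) (hpW : p ∈ W) (hp0 : p ≠ 0)
    (B : Subalgebra R F) (hsat : ∀ x ∈ B, p⁻¹ * x ∈ W → p⁻¹ * x ∈ B)
    (u : F) (huW : u ∈ W) (n : ℕ) (x : F) (hx : x ∈ tcI m u B) (hxW : (p⁻¹) ^ n * x ∈ W) :
    (p⁻¹) ^ n * x ∈ tcI m u B := by
  rw [tcI_def] at hx ⊢
  have h1 : ((p⁻¹) ^ n * x) ^ m * u = (p⁻¹) ^ (n * m) * (x ^ m * u) := by
    rw [pow_mul]; ring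
  rw [h1]
  apply ntc47_sat_pow W p hpW hp0 B hsat (n * m) _ hx
  rw [← h1]
  exact W.mul_mem (W.pow_mem hxW m) huW

theorem ntc47_I_subset_W (m : ℕ) (W : Subring F) (hWroot : ∀ x : F, x ^ m ∈ W → x ∈ W)
    (u : F) (huinv : u⁻¹ ∈ W)
    (hu0 : u ≠ 0) (B : Subalgebra R F) (hBW : ∀ x ∈ B, x ∈ W) (f : F) (hf : f ∈ tcI m u B) :
    f ∈ W := by
  apply hWroot
  have : f ^ m = (f ^ m * u) * u⁻¹ := by field_simp
  rw [this]; exact W.mul_mem (hBW _ hf) huinv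

/-- **The two-chart lemma for a subring `W`** (nodal version of `tc_main`). -/
theorem ntc47_main [IsNoetherianRing R]
    (π : R) (m : ℕ) (hm0 : 0 < m) (hm : IsUnit (m : R))
    (W : Subring F) (hRW : ∀ r : R, algebraMap R F r ∈ W)
    (hπ0 : algebraMap R F π ≠ 0) (hπW : (algebraMap R F π)⁻¹ ∉ W)
    (hWroot : ∀ x : F, x ^ m ∈ W → x ∈ W)
    (hWunit : ∀ x ∈ W, (1 + algebraMap R F π * x)⁻¹ ∈ W)
    (B₁ B₂ B₁₂ : Subalgebra R F) (h112 : B₁ ≤ B₁₂) (h212 : B₂ ≤ B₁₂)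
    (h12W : ∀ x ∈ B₁₂, x ∈ W)
    (hsat₁ : ∀ x ∈ B₁, (algebraMap R F π)⁻¹ * x ∈ W → (algebraMap R F π)⁻¹ * x ∈ B₁)
    (hsat₂ : ∀ x ∈ B₂, (algebraMap R F π)⁻¹ * x ∈ W → (algebraMap R F π)⁻¹ * x ∈ B₂)
    (hsat₁₂ : ∀ x ∈ B₁₂, (algebraMap R F π)⁻¹ * x ∈ W → (algebraMap R F π)⁻¹ * x ∈ B₁₂)
    (hroot₁ : ∀ x : F, x ^ m ∈ B₁ → x ∈ B₁) (hroot₂ : ∀ x : F, x ^ m ∈ B₂ → x ∈ B₂)
    (u : F) (hu : (algebraMap R F π)⁻¹ * (u - 1) ∈ W)
    (hLD₁ : ∀ n : Ideal B₁, n.IsMaximal → algebraMap R B₁ π ∈ n →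
      ∃ φ : F, (algebraMap R F π)⁻¹ * (φ - 1) ∈ W ∧
        ∃ s : B₁, s ∉ n ∧ (s : F) * (φ ^ m * u) ∈ B₁)
    (hLD₂ : ∀ n : Ideal B₂, n.IsMaximal → algebraMap R B₂ π ∈ n →
      ∃ φ : F, (algebraMap R F π)⁻¹ * (φ - 1) ∈ W ∧
        ∃ s : B₂, s ∉ n ∧ (s : F) * (φ ^ m * u) ∈ B₂)
    (h : F) (hh0 : h ≠ 0) (hh₁ : h ∈ B₁) (hh₂ : h⁻¹ ∈ B₂)
    (hloc₁ : ∀ x ∈ B₁₂, ∃ k : ℕ, h ^ k * x ∈ B₁)
    (hloc₂ : ∀ x ∈ B₁₂, ∃ k : ℕ, h⁻¹ ^ k * x ∈ B₂)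
    (hfin : ∃ G : Finset F, ∀ x ∈ B₁,
      x ∈ Submodule.span (Algebra.adjoin R ({h} : Set F)) (G : Set F))
    (hfrac : ∃ a ∈ B₁, ∃ b ∈ B₁, a ≠ 0 ∧ u * b = a) :
    ∃ f₀ : F, f₀ ^ m * u ∈ B₁ ∧ f₀ ^ m * u ∈ B₂ ∧ (algebraMap R F π)⁻¹ * (f₀ - 1) ∈ W := by
  classical
  obtain ⟨μr, hμr⟩ := hm.exists_right_inv
  have hμ : (m : F) * algebraMap R F μr = 1 := by
    have := congrArg (algebraMap R F) hμr
    simpa [map_mul, map_natCast] using this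
  have hpB₁ : algebraMap R F π ∈ B₁ := B₁.algebraMap_mem π
  have hpB₂ : algebraMap R F π ∈ B₂ := B₂.algebraMap_mem π
  have hpW : algebraMap R F π ∈ W := hRW π
  have h1W : ∀ x ∈ B₁, x ∈ W := fun x hx => h12W x (h112 hx)
  have h2W : ∀ x ∈ B₂, x ∈ W := fun x hx => h12W x (h212 hx)
  have huW : u ∈ W := ntc47_mem_of_cong_one W _ hπ0 hpW u hu
  have huinv : u⁻¹ ∈ W := ntc47_inv_mem_of_cong_one W _ hπ0 hWunit u hu
  have hu0 : u ≠ 0 := ntc47_ne_zero_of_cong_one W _ hπ0 hπW u hu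
  have hroot₁₂ : ∀ x : F, x ^ m ∈ B₁₂ → x ∈ B₁₂ := by
    intro x hx
    obtain ⟨k, hk⟩ := hloc₁ _ hx
    have h1 : h ^ k * x ∈ B₁ := by
      apply hroot₁
      obtain ⟨d, rfl⟩ : ∃ d, m = d + 1 := ⟨m - 1, by omega⟩
      have : (h ^ k * x) ^ (d + 1) = h ^ (k * d) * (h ^ k * x ^ (d + 1)) := by
        rw [mul_pow, ← pow_mul, Nat.mul_succ, pow_add]; ring
      rw [this]; exact B₁.mul_mem (B₁.pow_mem hh₁ _) hk
    have : x = h⁻¹ ^ k * (h ^ k * x) := by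
      rw [← mul_assoc, ← mul_pow, inv_mul_cancel₀ hh0, one_pow, one_mul]
    rw [this]
    exact B₁₂.mul_mem (B₁₂.pow_mem (h212 hh₂) k) (h112 h1)
  obtain ⟨Wm, hWfg, hWm⟩ := tcI_decomp m hm0 u B₁ B₂ B₁₂ hroot₁ hroot₂ h112 h hh0 hh₁ hh₂
    hloc₁ hloc₂ hfin hfrac
  obtain ⟨c, hc⟩ := tc_torsion_bound π
    (tcIsub m hm0 u B₁ hroot₁ ⊔ tcIsub m hm0 u B₂ hroot₂) Wm hWfg
  obtain ⟨f₁, hf₁, hf₁1⟩ := ntc47_exists_one m hm0 W _ B₁ hpB₁ h1W hroot₁ u hLD₁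
  obtain ⟨f₂, hf₂, hf₂1⟩ := ntc47_exists_one m hm0 W _ B₂ hpB₂ h2W hroot₂ u hLD₂
  obtain ⟨e₁, he₁1, b₁, hb₁, he₁⟩ := ntc47_hensel m W _ hπ0 B₁ hpB₁ h1W hsat₁ u hu _
    (B₁.algebraMap_mem μr) hμ f₁ hf₁ hf₁1 c
  obtain ⟨e₂, he₂1, b₂, hb₂, he₂⟩ := ntc47_hensel m W _ hπ0 B₂ hpB₂ h2W hsat₂ u hu _
    (B₂.algebraMap_mem μr) hμ f₂ hf₂ hf₂1 c
  have he₁I : e₁ ∈ tcI m u B₁ := by
    rw [tcI_def, he₁]
    exact B₁.add_mem B₁.one_mem (B₁.mul_mem (B₁.pow_mem hpB₁ _) hb₁)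
  have he₂I : e₂ ∈ tcI m u B₂ := by
    rw [tcI_def, he₂]
    exact B₂.add_mem B₂.one_mem (B₂.mul_mem (B₂.pow_mem hpB₂ _) hb₂)
  have hdW : ((algebraMap R F π)⁻¹) ^ (c + 1) * (e₂ - e₁) ∈ W :=
    ntc47_diff_mem m W _ hπ0 hpW hπW hWunit _ (hRW μr) hμ u hu e₁ e₂ b₁ b₂ he₁1 he₂1
      (h1W _ hb₁) (h2W _ hb₂) (c + 1) he₁ he₂
  have hd12 : e₂ - e₁ ∈ tcI m u B₁₂ := by
    rw [sub_eq_add_neg]
    exact tcI_add m u B₁₂ hroot₁₂ _ _ (tcI_mono m u h212 he₂I)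
      (tcI_neg m u B₁₂ _ (tcI_mono m u h112 he₁I))
  have hxI : ((algebraMap R F π)⁻¹) ^ (c + 1) * (e₂ - e₁) ∈ tcI m u B₁₂ :=
    ntc47_I_sat m W _ hpW hπ0 B₁₂ hsat₁₂ u huW (c + 1) _ hd12 hdW
  have hxsup := hWm _ hxI
  have hpow : π ^ (c + 1) • (((algebraMap R F π)⁻¹) ^ (c + 1) * (e₂ - e₁)) = e₂ - e₁ := by
    rw [Algebra.smul_def, map_pow, ← mul_assoc, ← mul_pow, mul_inv_cancel₀ hπ0, one_pow,
      one_mul]
  have hmem : π ^ (c + 1) • (((algebraMap R F π)⁻¹) ^ (c + 1) * (e₂ - e₁))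
      ∈ tcIsub m hm0 u B₁ hroot₁ ⊔ tcIsub m hm0 u B₂ hroot₂ := by
    rw [hpow, sub_eq_add_neg, add_comm]
    exact Submodule.add_mem_sup (tcI_neg m u B₁ _ he₁I) he₂I
  have hcx := hc _ hxsup (c + 1) hmem
  obtain ⟨a₁, ha₁, a₂, ha₂, hsum⟩ := Submodule.mem_sup.mp hcx
  have ha₁I : a₁ ∈ tcI m u B₁ := ha₁
  have ha₂I : a₂ ∈ tcI m u B₂ := ha₂
  have hkey : e₂ - e₁ = algebraMap R F π * a₁ + algebraMap R F π * a₂ := by
    have hpp : (algebraMap R F π) ^ c * ((algebraMap R F π)⁻¹) ^ c = 1 := by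
      rw [← mul_pow, mul_inv_cancel₀ hπ0, one_pow]
    have h1 : π ^ c • (((algebraMap R F π)⁻¹) ^ (c + 1) * (e₂ - e₁))
        = (algebraMap R F π)⁻¹ * (e₂ - e₁) := by
      rw [Algebra.smul_def, map_pow, pow_succ]
      calc (algebraMap R F π) ^ c * (((algebraMap R F π)⁻¹) ^ c * (algebraMap R F π)⁻¹
            * (e₂ - e₁))
          = ((algebraMap R F π) ^ c * ((algebraMap R F π)⁻¹) ^ c)
            * ((algebraMap R F π)⁻¹ * (e₂ - e₁)) := by ring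
        _ = (algebraMap R F π)⁻¹ * (e₂ - e₁) := by rw [hpp, one_mul]
    rw [h1] at hsum
    calc e₂ - e₁ = algebraMap R F π * ((algebraMap R F π)⁻¹ * (e₂ - e₁)) := by
          rw [← mul_assoc, mul_inv_cancel₀ hπ0, one_mul]
      _ = algebraMap R F π * (a₁ + a₂) := by rw [hsum]
      _ = algebraMap R F π * a₁ + algebraMap R F π * a₂ := mul_add _ _ _
  refine ⟨e₁ + algebraMap R F π * a₁, ?_, ?_, ?_⟩
  · exact tcI_add m u B₁ hroot₁ _ _ he₁I (tcI_mul m u B₁ _ a₁ hpB₁ ha₁I)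
  · have h1 : e₁ + algebraMap R F π * a₁ = e₂ + (-algebraMap R F π) * a₂ := by
      linear_combination -hkey
    rw [h1]
    exact tcI_add m u B₂ hroot₂ _ _ he₂I (tcI_mul m u B₂ _ a₂ (B₂.neg_mem hpB₂) ha₂I)
  · have ha₁W : a₁ ∈ W := ntc47_I_subset_W m W hWroot u huinv hu0 B₁ h1W a₁ ha₁I
    have h1 : (algebraMap R F π)⁻¹ * (e₁ + algebraMap R F π * a₁ - 1)
        = (algebraMap R F π)⁻¹ * (e₁ - 1) + a₁ := by
      calc (algebraMap R F π)⁻¹ * (e₁ + algebraMap R F π * a₁ - 1)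
          = (algebraMap R F π)⁻¹ * (e₁ - 1)
            + ((algebraMap R F π)⁻¹ * algebraMap R F π) * a₁ := by ring
        _ = (algebraMap R F π)⁻¹ * (e₁ - 1) + a₁ := by rw [inv_mul_cancel₀ hπ0, one_mul]
    rw [h1]; exact W.add_mem he₁1 ha₁W

end twisted

end Fermat.Agent.S34
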