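import Mathlib
import Fermat.Agent.S34.Iface47
import Fermat.Agent.S34.NodalTwoChart47
import Fermat.Agent.S34.GalGlue25
import Fermat.Agent.S34.LevelChange52

/-!
# S34 lab: interface, part b (helper47, architect)

* `s34i47b_main` : the package `s34i47_Pkg_Main` is PROVED here (`ntc47_main` + `pk15_chart_cap`).
* `s34i47b_LocPrinDD` : the relaxed form of (LP) (helper3's request): only the DOUBLE DIFFERENCE
  of `f / c ^ m` has to be regular along the horizontal `O` through `n`.  The package (LD)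
  splits into `s34i47b_Pkg_LDa` ((LP) ⟹ relaxed (LP)) and `s34i47b_Pkg_LDb`
  (relaxed (LP) + (KR) ⟹ (LD)); `s34i47b_LD_of` recombines them.
* `s34i47b_U_of_FFU` : FFU at level `M` for all `p ^ n` ⟹ `lc52_U p q M` (via `gg25_U_of_fun_sq`,
  helper25).
* `s34i47b_assembly` : all remaining packages ⟹ `lc52_U p q N` for `q ∥ N`, `q ≠ p`, which is
  literally the hypothesis `hU` of `s34e60_main` (level change by `lc52_main`, helper52).
  The packages `s34i47_Pkg_Level`, `s34i47_Pkg_Pic`, `s34i47_Pkg_Main` of Iface47 are thereby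
  discharged.
-/

set_option autoImplicit false

open ModularCurve AlgebraicCurve

namespace Fermat.Agent.S34

open Fermat.Agent.S18

local notation "Q̄" => AlgebraicClosure ℚ

/-- **P7b**: `s34i47_Pkg_Main` holds. -/
theorem s34i47b_main : s34i47_Pkg_Main := by
  intro R K F _ _ _ _ _ _ _ _ _ _ π hπ m hm0 hm hK W h hW hC u hu hLD₁ hLD₂
  obtain ⟨hRW, hπW, hWroot, hWunit⟩ := hW
  obtain ⟨hh, h12W, hsat₁, hsat₂, hsat₁₂, -, -, hfin, hfrac⟩ := hC
  have hπ0 : algebraMap R F π ≠ 0 := by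
    rw [IsScalarTower.algebraMap_apply R K F]
    intro h0
    have h1 : algebraMap R K π = 0 := (map_eq_zero (algebraMap K F)).mp h0
    exact hπ.ne_zero ((map_eq_zero_iff _ (IsFractionRing.injective R K)).mp h1)
  have hh0 : h ≠ 0 := cap87_ne_zero (K := K) h hh
  have hu0 : u ≠ 0 := ntc47_ne_zero_of_cong_one W _ hπ0 hπW u hu
  obtain ⟨f₀, hf₁, hf₂, hf₀⟩ := ntc47_main π m hm0 hm W hRW hπ0 hπW (hWroot m hm0) hWunit
    (pk15_chart R ({h} : Set F)) (pk15_chart R ({h⁻¹} : Set F))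
    (pk15_chart R ({h, h⁻¹} : Set F))
    (pk15_chart_mono (by simp)) (pk15_chart_mono (by simp)) h12W hsat₁ hsat₂ hsat₁₂
    (fun x hx => pk15_chart_root _ m hm0 x hx) (fun x hx => pk15_chart_root _ m hm0 x hx)
    u hu hLD₁ hLD₂ h hh0 (pk15_subset_chart _ (Set.mem_singleton h))
    (pk15_subset_chart _ (Set.mem_singleton h⁻¹))
    (pk15_chart_loc h hh0) (pk15_chart_loc' h hh0) hfin
    (by
      obtain ⟨a, ha, b, hb, hb0, hab⟩ := hfrac u
      exact ⟨a, ha, b, hb, by rw [← hab]; exact mul_ne_zero hu0 hb0, hab⟩)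
  obtain ⟨c, hc⟩ := pk15_chart_cap (K := K) hK h hh _ hf₁ hf₂
  exact ⟨f₀, c, ntc47_ne_zero_of_cong_one W _ hπ0 hπW f₀ hf₀, hc⟩

/-- **(LP′)** relaxed form of (LP): at every closed point `n` of the special fibre there is
`c ≠ 0` such that the double difference of `f / c ^ m` is regular along every horizontal `O`
through `n`. -/
def s34i47b_LocPrinDD {R F : Type*} [CommRing R] [Field F] [Algebra R F] (π : R) (m : ℕ)
    (B : Subalgebra R F) (σ τ : F ≃+* F) (f : F) : Prop :=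
  ∀ n : Ideal B, n.IsMaximal → algebraMap R B π ∈ n →
    ∃ c : F, c ≠ 0 ∧ ∀ O : ValuationSubring F, s34i47_IsHoriz π O → s34i47_Through B n O →
      s34i47_dd σ τ (f / c ^ m) ∈ O

/-- **P6a** (abstract, Mathlib only): (LP) ⟹ (LP′): `σ`, `τ` permute the horizontal `O`
through `n`. -/
def s34i47b_Pkg_LDa : Prop :=
  ∀ (R K F : Type) [CommRing R] [IsDomain R] [IsDiscreteValuationRing R] [Field K] [Field F]
    [Algebra R K] [IsFractionRing R K] [Algebra R F] [Algebra K F] [IsScalarTower R K F]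
    (π : R), Irreducible π → ∀ (m : ℕ) (W : Subring F) (B : Subalgebra R F)
    (σ τ : F ≃+* F) (f : F), f ≠ 0 →
    (∀ x ∈ B, x ∈ W) →
    (∀ x ∈ B, (algebraMap R F π)⁻¹ * x ∈ W → (algebraMap R F π)⁻¹ * x ∈ B) →
    s34i47_GalProps π W σ → s34i47_GalProps π W τ →
    (∀ x ∈ B, σ x ∈ B) → (∀ x ∈ B, τ x ∈ B) →
    s34i47_LocPrin π m B f → s34i47b_LocPrinDD π m B σ τ f

/-- **P6b** (abstract, Mathlib only): (LP′) + (KR) + (G) + saturation ⟹ (LD) for the double
difference of `f`. -/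
def s34i47b_Pkg_LDb : Prop :=
  ∀ (R K F : Type) [CommRing R] [IsDomain R] [IsDiscreteValuationRing R] [Field K] [Field F]
    [Algebra R K] [IsFractionRing R K] [Algebra R F] [Algebra K F] [IsScalarTower R K F]
    (π : R), Irreducible π → ∀ (m : ℕ), 0 < m → ∀ (W : Subring F) (B : Subalgebra R F)
    (σ τ : F ≃+* F) (f : F), f ≠ 0 →
    (∀ r : R, algebraMap R F r ∈ W) → (∀ x ∈ B, x ∈ W) →
    (∀ x ∈ B, (algebraMap R F π)⁻¹ * x ∈ W → (algebraMap R F π)⁻¹ * x ∈ B) →
    s34i47_GalProps π W σ → s34i47_GalProps π W τ →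
    s34i47_Krull π B → s34i47b_LocPrinDD π m B σ τ f →
    s34i47_LocalDatum π m W B (s34i47_dd σ τ f)

/-- (LD) from its two halves. -/
theorem s34i47b_LD_of (ha : s34i47b_Pkg_LDa) (hb : s34i47b_Pkg_LDb) : s34i47_Pkg_LD := by
  intro R K F _ _ _ _ _ _ _ _ _ _ π hπ m hm0 W B σ τ f hf hRW hBW hsat hσ hτ hσB hτB hKr hLP
  exact hb R K F π hπ m hm0 W B σ τ f hf hRW hBW hsat hσ hτ hKr
    (ha R K F π hπ m W B σ τ f hf hBW hsat hσ hτ hσB hτB hLP)

/-- **P9a**: FFU at level `M` for all `p ^ n` gives `(U)` at level `M` in the shape `lc52_U`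
(= `hU` of `s34e60_main`). -/
theorem s34i47b_U_of_FFU (M q p : ℕ) (hp : p.Prime) (h : ∀ n : ℕ, s34i47_FFU M q (p ^ n)) :
    lc52_U p q M := by
  intro n P hP t ht x hx
  refine gg25_U_of_fun_sq M (p ^ n) (pow_pos hp.pos n) t ?_ x hx
  intro f hf hord
  obtain ⟨g, hg⟩ := h n P hP t ht f hf hord
  refine ⟨g, ?_⟩
  have hB : arithmeticRingAut (modularFunctionFieldFull M) t f ≠ 0 :=
    (map_ne_zero_iff _ (arithmeticRingAut (modularFunctionFieldFull M) t).injective).mpr hf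
  have h1 : arithmeticGalois (modularFunctionFieldFull M) (t * t) • f =
      arithmeticRingAut (modularFunctionFieldFull M) t
        (arithmeticRingAut (modularFunctionFieldFull M) t f) := by
    rw [map_mul, mul_smul]; rfl
  have h2 : arithmeticGalois (modularFunctionFieldFull M) t • f =
      arithmeticRingAut (modularFunctionFieldFull M) t f := rfl
  rw [h1, h2, hg, s34i47_dd]
  field_simp

/-- **ASSEMBLY (v2)**: the packages (UZ), (LP), (KR), (LD), FRAME, FIN, CORE-assembly and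
field of definition give `(U)` at every level `N` with `q ∥ N`, for `p ≠ q`, in the literal
shape of the hypothesis `hU` of `s34e60_main`. -/
theorem s34i47b_assembly (hUZ : s34i47_Pkg_UZ) (hLP : s34i47_Pkg_LP) (hKr : s34i47_Pkg_Krull)
    (hLD : s34i47_Pkg_LD) (hFrame : s34i47_Pkg_Frame)
    (hFin : s34i47_Pkg_Fin) (hCore : s34i47_Pkg_Core) (hFD : s34i47_Pkg_FieldDef)
    {p q N : ℕ} [NeZero N] (hp : p.Prime) (hq : q.Prime) (hqp : q ≠ p) (hqN : q ∣ N)
    (hq2 : ¬ q ^ 2 ∣ N) : lc52_U p q N := by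
  refine lc52_main hp hq hqp hqN hq2 ?_
  intro M p₀ hM0 hp₀ hp₀q hp₀M _ hqM hq2M _
  refine s34i47b_U_of_FFU M q p hp ?_
  intro n
  have hne : NeZero M := ⟨hM0⟩
  have hcop : Nat.Coprime (p ^ n) q :=
    Nat.Coprime.pow_left n ((Nat.coprime_primes hp hq).mpr (Ne.symm hqp))
  exact hFD M q _ hne hq (pow_pos hp.pos n)
    (hCore hUZ hLP hKr hLD s34i47b_main M q _ hne hq (pow_pos hp.pos n) hcop
      (hFrame M q p₀ hq hqM hq2M hp₀ hp₀q hp₀M) (hFin M hne))

end Fermat.Agent.S34
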