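import Mathlib
import Fermat.Agent.S34.Iface47b
import Fermat.Agent.S34.Iface47c

/-!
# S34 lab: interface, part d (helper47, architect) — the route WITHOUT exact node equations

This is helper3's fallback (`DeepNode3.lean`) promoted to a full second route.  It needs
NEITHER `U V = q^12` (P4′, the only analytic input) NOR the termination of the node loop (P4)
NOR "cusps are not nodes" (3c), (3d).  From P3 it needs only (3a) + (3b), in the shape (LS′).

* (LS′) `s34i47d_LocStrW π B P₁ P₂`: at every maximal `n ∋ π`: `z z' ∈ n` with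
  `n B_n = (z, z', π)` and EITHER `z' = π` OR [two-branch point: `P₁, P₂ ≤ n`, `z ∈ P₁ ∖ P₂`,
  `z' ∈ P₂ ∖ P₁`, `z z' ∈ π B`]  (`P₁`, `P₂` the two vertical primes of the chart).
* (DOM) `s34i47d_Dom π B`: every horizontal `O ⊇ B` is the localisation of `B` at its centre.
* (ST) `s34i47d_Stab π B σ`: `σ R = R`, `σ B = B`, `σ ≡ id mod π B` on `B`.
* (UZ′) `s34i47d_UniqueZeroD`: at every `n` there is a set `Dp` of `σ`- and `τ`-invariant
  horizontal `O` (the deep points; at most one) such that every rational horizontal `O ∉ Dp`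
  through `n` has the unique-zero property.
* packages: `s34i47d_Pkg_Dom`, `s34i47d_Pkg_UZD` ((LS′) + (DOM) + (ST) ⟹ (UZ′); `dn3_main`,
  `dn3_deep_unique`, `dn3_deep_invariant`, `dn3_eq_ker_of_mem`), `s34i47d_Pkg_LPD`
  ((UZ′) + Ord + Rat + Fin + (ST) ⟹ (LP′) = `s34i47b_LocPrinDD`), `s34i47d_Pkg_FrameLSW`,
  `s34i47d_Pkg_CoreW` (assembly of the abstract chain over FrameSat + FrameGal + FrameLSW).
* `s34i47d_assembly`: these packages ⟹ `lc52_U p q N` (= `hU` of `s34e60_main`).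
-/

set_option autoImplicit false

open ModularCurve AlgebraicCurve

namespace Fermat.Agent.S34

open Fermat.Agent.S18

local notation "Q̄" => AlgebraicClosure ℚ

section Abstract

variable {R F : Type*} [CommRing R] [Field F] [Algebra R F]

/-- **(LS′)** weak local structure of the chart `B` with respect to two vertical primes
`P₁`, `P₂`: no exact node equation, only `z z' ∈ π B`. -/
def s34i47d_LocStrW (π : R) (B : Subalgebra R F) (P₁ P₂ : Ideal B) : Prop :=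
  ∀ n : Ideal B, n.IsMaximal → algebraMap R B π ∈ n →
    ∃ z z' : B, z ∈ n ∧ z' ∈ n ∧
      (∀ x ∈ n, ∃ s : B, s ∉ n ∧ ∃ a b c : B, s * x = a * z + b * z' + c * algebraMap R B π) ∧
      (z' = algebraMap R B π ∨
        (P₁ ≤ n ∧ P₂ ≤ n ∧ z ∈ P₁ ∧ z ∉ P₂ ∧ z' ∈ P₂ ∧ z' ∉ P₁ ∧
          ∃ c : B, z * z' = algebraMap R B π * c))

/-- **(DOM)** every horizontal `O` containing `B` is the localisation of `B` at its centre. -/
def s34i47d_Dom (π : R) (B : Subalgebra R F) : Prop :=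
  ∀ O : ValuationSubring F, s34i47_IsHoriz π O → (∀ x ∈ B, x ∈ O) →
    ∀ x ∈ O, ∃ b : B, (b : F) ≠ 0 ∧ (b : F)⁻¹ ∈ O ∧ (b : F) * x ∈ B

/-- **(ST)** `σ` stabilises `R` and `B` and is trivial on `B / π B`. -/
def s34i47d_Stab (π : R) (B : Subalgebra R F) (σ : F ≃+* F) : Prop :=
  (∀ r : R, ∃ r' : R, σ (algebraMap R F r) = algebraMap R F r') ∧
  (∀ r : R, ∃ r' : R, σ.symm (algebraMap R F r) = algebraMap R F r') ∧
  (∀ x ∈ B, σ x ∈ B) ∧ (∀ x ∈ B, σ.symm x ∈ B) ∧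
  (∀ x ∈ B, (algebraMap R F π)⁻¹ * (σ x - x) ∈ B)

/-- **(UZ′)** unique-zero property away from a set `Dp` of `σ`- and `τ`-invariant horizontal
valuation rings (the deep points). -/
def s34i47d_UniqueZeroD (K : Type*) [Field K] [Algebra K F] (π : R) (B : Subalgebra R F)
    (σ τ : F ≃+* F) : Prop :=
  ∀ n : Ideal B, n.IsMaximal → algebraMap R B π ∈ n →
    ∃ Dp : Set (ValuationSubring F),
      (∀ O ∈ Dp, (∀ x : F, x ∈ O ↔ σ x ∈ O) ∧ (∀ x : F, x ∈ O ↔ τ x ∈ O)) ∧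
      ∀ O : ValuationSubring F, s34i47_IsHoriz π O → s34i47_Through B n O → s34i47_IsRat K O →
        O ∉ Dp →
        ∃ p : F, p ≠ 0 ∧ p ∈ O ∧ p⁻¹ ∉ O ∧ (∀ x ∈ O, x⁻¹ ∉ O → x * p⁻¹ ∈ O) ∧
          ∀ O' : ValuationSubring F, s34i47_IsHoriz π O' → s34i47_Through B n O' → O' ≠ O →
            p ∈ O' ∧ p⁻¹ ∈ O'

end Abstract

/-- **DOM** (abstract; `B[1/π]` is the integral closure of `K[h]`, a Dedekind domain; same
argument as `s34i47_Pkg_Krull`). -/
def s34i47d_Pkg_Dom : Prop :=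
  ∀ (R K F : Type) [CommRing R] [IsDomain R] [IsDiscreteValuationRing R] [Field K] [CharZero K]
    [Field F] [Algebra R K] [IsFractionRing R K] [Algebra R F] [Algebra K F] [IsScalarTower R K F]
    (π : R), Irreducible π → ∀ h : F, Transcendental K h →
    IsNoetherianRing (pk15_chart R ({h} : Set F)) →
    IsNoetherianRing (pk15_chart R ({h⁻¹} : Set F)) →
    (∃ G : Finset F, ∀ x ∈ pk15_chart R ({h} : Set F),
      x ∈ Submodule.span (Algebra.adjoin R ({h} : Set F)) (G : Set F)) →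
    (∀ x : F, ∃ a ∈ pk15_chart R ({h} : Set F), ∃ b ∈ pk15_chart R ({h} : Set F),
      b ≠ 0 ∧ x * b = a) →
    s34i47d_Dom π (pk15_chart R ({h} : Set F)) ∧ s34i47d_Dom π (pk15_chart R ({h⁻¹} : Set F))

/-- **UZ′** (abstract, Mathlib + `DeepNode3`): (LS′) + (DOM) + (ST) ⟹ (UZ′). -/
def s34i47d_Pkg_UZD : Prop :=
  ∀ (R K F : Type) [CommRing R] [IsDomain R] [IsDiscreteValuationRing R] [Field K] [Field F]
    [Algebra R K] [IsFractionRing R K] [Algebra R F] [Algebra K F] [IsScalarTower R K F]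
    (π : R), Irreducible π → ∀ (B : Subalgebra R F), IsNoetherianRing B →
    (∀ x : F, ∃ a ∈ B, ∃ b ∈ B, b ≠ 0 ∧ x * b = a) →
    ∀ (P₁ P₂ : Ideal B), P₁.IsPrime → P₂.IsPrime →
    algebraMap R B π ∈ P₁ → algebraMap R B π ∈ P₂ →
    s34i47d_LocStrW π B P₁ P₂ → s34i47d_Dom π B →
    ∀ σ τ : F ≃+* F, s34i47d_Stab π B σ → s34i47d_Stab π B τ →
    s34i47d_UniqueZeroD K π B σ τ

/-- **LP′ from UZ′** (abstract, Mathlib only): (UZ′) + Ord + Rat + Fin + (ST) ⟹ (LP′). -/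
def s34i47d_Pkg_LPD : Prop :=
  ∀ (R K F : Type) [CommRing R] [IsDomain R] [IsDiscreteValuationRing R] [Field K] [Field F]
    [Algebra R K] [IsFractionRing R K] [Algebra R F] [Algebra K F] [IsScalarTower R K F]
    (π : R), Irreducible π → ∀ (B : Subalgebra R F) (m : ℕ), 0 < m →
    ∀ (σ τ : F ≃+* F) (f : F), f ≠ 0 →
    s34i47d_Stab π B σ → s34i47d_Stab π B τ →
    s34i47d_UniqueZeroD K π B σ τ → s34i47_Ord π m f → s34i47_Rat K π f → s34i47_Fin π f →
    s34i47b_LocPrinDD π m B σ τ f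

/-- **FRAME-LS′** (P3 (3a) + (3b) only) at level `M' * q`: for every admissible Hauptmodul and
both affine charts there are two prime ideals containing `π` with (LS′). -/
def s34i47d_FrameLSW (M' q : ℕ) [NeZero M'] [NeZero q] : Prop :=
  ∀ (R K : Type) [CommRing R] [IsDomain R] [IsDiscreteValuationRing R] [Field K] [NumberField K]
    [Algebra K Q̄] [Algebra R K] [IsFractionRing R K]
    [Algebra R ↥(modularFunctionFieldFullC K (M' * q))]
    [IsScalarTower R K ↥(modularFunctionFieldFullC K (M' * q))] (π : R), Irreducible π →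
    (∀ n : ℕ, Nat.Coprime n q → IsUnit (n : R)) → ¬ IsUnit (q : R) →
    ∀ h : ↥(modularFunctionFieldFullC K (M' * q)), s34i47c_IsHaupt K (M' * q) q h →
      (∃ P₁ P₂ : Ideal (pk15_chart R ({h} : Set ↥(modularFunctionFieldFullC K (M' * q)))),
        P₁.IsPrime ∧ P₂.IsPrime ∧ algebraMap R _ π ∈ P₁ ∧ algebraMap R _ π ∈ P₂ ∧
        s34i47d_LocStrW π (pk15_chart R ({h} : Set ↥(modularFunctionFieldFullC K (M' * q))))
          P₁ P₂) ∧
      (∃ P₁ P₂ : Ideal (pk15_chart R ({h⁻¹} : Set ↥(modularFunctionFieldFullC K (M' * q)))),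
        P₁.IsPrime ∧ P₂.IsPrime ∧ algebraMap R _ π ∈ P₁ ∧ algebraMap R _ π ∈ P₂ ∧
        s34i47d_LocStrW π (pk15_chart R ({h⁻¹} : Set ↥(modularFunctionFieldFullC K (M' * q))))
          P₁ P₂)

/-- Package statement for FRAME-LS′. -/
def s34i47d_Pkg_FrameLSW : Prop :=
  ∀ (M' q : ℕ) [NeZero M'] [NeZero q], q.Prime → ¬ q ∣ M' → s34i47d_FrameLSW M' q

/-- **CORE-assembly, second route**: the abstract chain (DOM, UZ′, LP′-from-UZ′, KR, LDb, Main)
over FrameSat + FrameGal + FrameLS′ gives CORE. -/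
def s34i47d_Pkg_CoreW : Prop :=
  s34i47d_Pkg_Dom → s34i47d_Pkg_UZD → s34i47d_Pkg_LPD → s34i47_Pkg_Krull → s34i47b_Pkg_LDb →
    s34i47_Pkg_Main →
    ∀ (M' q m : ℕ) [NeZero M'] [NeZero q] (hq : q.Prime) (hM' : ¬ q ∣ M'), 0 < m →
      Nat.Coprime m q →
      s34i47c_FrameSat M' q hq hM' → s34i47c_FrameGal M' q hq hM' → s34i47d_FrameLSW M' q →
      s34i47_FinSupp (M' * q) → s34i47_Core (M' * q) q m

/-- **ASSEMBLY, second route** (no exact node equation): `(U)` at every level `N` with `q ∥ N`,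
`p ≠ q`, in the literal shape of the hypothesis `hU` of `s34e60_main`. -/
theorem s34i47d_assembly (hDom : s34i47d_Pkg_Dom) (hUZD : s34i47d_Pkg_UZD)
    (hLPD : s34i47d_Pkg_LPD) (hKr : s34i47_Pkg_Krull) (hLDb : s34i47b_Pkg_LDb)
    (hSat : s34i47c_Pkg_FrameSat) (hGal : s34i47c_Pkg_FrameGal)
    (hLSW : s34i47d_Pkg_FrameLSW) (hFin : s34i47_Pkg_Fin) (hCoreW : s34i47d_Pkg_CoreW)
    (hFD : s34i47_Pkg_FieldDef)
    {p q N : ℕ} [NeZero N] (hp : p.Prime) (hq : q.Prime) (hqp : q ≠ p) (hqN : q ∣ N)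
    (hq2 : ¬ q ^ 2 ∣ N) : lc52_U p q N := by
  refine lc52_main hp hq hqp hqN hq2 ?_
  intro M p₀ hM0 hp₀ hp₀q hp₀M _ hqM hq2M _
  refine s34i47b_U_of_FFU M q p hp ?_
  intro n
  have hne : NeZero M := ⟨hM0⟩
  have hcop : Nat.Coprime (p ^ n) q :=
    Nat.Coprime.pow_left n ((Nat.coprime_primes hp hq).mpr (Ne.symm hqp))
  refine hFD M q _ hne hq (pow_pos hp.pos n) ?_
  obtain ⟨M', rfl⟩ := hqM
  have hM'0 : M' ≠ 0 := by
    rintro rfl
    exact hq2M (by simp)
  have hqM' : ¬ q ∣ M' := by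
    rintro ⟨c, rfl⟩
    exact hq2M ⟨c, by ring⟩
  have : NeZero M' := ⟨hM'0⟩
  have : NeZero q := ⟨hq.ne_zero⟩
  have hne' : NeZero (M' * q) := ⟨by rw [Nat.mul_comm]; exact hM0⟩
  rw [Nat.mul_comm q M']
  exact hCoreW hDom hUZD hLPD hKr hLDb s34i47b_main M' q _ hq hqM' (pow_pos hp.pos n) hcop
    (hSat M' q hq hqM') (hGal M' q hq hqM') (hLSW M' q hq hqM') (hFin _ hne')

end Fermat.Agent.S34
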