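import Mathlib
import Fermat.Agent.S34.Iface47d

/-!
# S34 lab (helper47): CORE-assembly of the second route (no exact node equations)

`s34cw47_coreW` : the abstract chain (DOM, UZ′, LP′-from-UZ′, KR, LDb, Main) over the three frame
packages `s34i47c_FrameSat`, `s34i47c_FrameGal`, `s34i47d_FrameLSW` gives `s34i47_Core`, at a
level `M' * q` divisible by `p₀ ∈ {2, 3}`, `p₀ ≠ q`.

NOTE: this is the CORRECTED form of `s34i47d_Pkg_CoreW` (Iface47d), which lacks the hypothesis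
`p₀ ∣ M' * q` (without an admissible Hauptmodul the frame packages are vacuous).
`s34cw47_assembly` is the corresponding corrected final assembly of the second route.
-/

set_option autoImplicit false

open ModularCurve AlgebraicCurve

namespace Fermat.Agent.S34

open Fermat.Agent.S18

local notation "Q̄" => AlgebraicClosure ℚ

section Helpers

/-- The inverse of an inertial automorphism is inertial (`σ R = R`). -/
theorem s34cw47_inertial_symm {R K : Type*} [CommRing R] [IsDomain R]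
    [IsDiscreteValuationRing R] [Field K] [Algebra R K] [IsFractionRing R K] (σ : K ≃+* K)
    (hσ : s34i47_Inertial R σ) : s34i47_Inertial R σ.symm := by
  intro r
  have hinj := IsFractionRing.injective R K
  have hx : ∃ r₁ : R, algebraMap R K r₁ = σ.symm (algebraMap R K r) := by
    rcases ValuationRing.isInteger_or_isInteger R (σ.symm (algebraMap R K r)) with h | ⟨s, hs⟩
    · exact h
    · by_cases hx0 : σ.symm (algebraMap R K r) = 0
      · exact ⟨0, by rw [hx0, map_zero]⟩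
      · obtain ⟨s', h1, h2⟩ := hσ s
        have h3 : algebraMap R K s' * algebraMap R K r = 1 := by
          rw [← h1, hs, map_inv₀, RingEquiv.apply_symm_apply]
          refine inv_mul_cancel₀ ?_
          intro h0
          exact hx0 (by rw [h0, map_zero])
        have h5 : s' * r = 1 := hinj (by rw [map_mul, h3, map_one])
        have hs'u : IsUnit s' := IsUnit.of_mul_eq_one _ h5
        have hsu : IsUnit s := by
          by_contra hns
          have hsm : s ∈ IsLocalRing.maximalIdeal R := (IsLocalRing.mem_maximalIdeal s).mpr hns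
          have h6 : s' ∈ IsLocalRing.maximalIdeal R := by
            have : s' = (s' - s) + s := by ring
            rw [this]; exact add_mem h2 hsm
          exact (IsLocalRing.mem_maximalIdeal s').mp h6 hs'u
        obtain ⟨t, ht⟩ := hsu.exists_right_inv
        refine ⟨t, ?_⟩
        have h7 : algebraMap R K s * algebraMap R K t = 1 := by rw [← map_mul, ht, map_one]
        rw [hs] at h7
        have h8 := eq_inv_of_mul_eq_one_right h7
        rw [inv_inv] at h8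
        exact h8
  obtain ⟨r₁, hr₁⟩ := hx
  obtain ⟨r₁', h1, h2⟩ := hσ r₁
  have h3 : algebraMap R K r₁' = algebraMap R K r := by
    rw [← h1, hr₁, RingEquiv.apply_symm_apply]
  have h4 : r₁' = r := hinj h3
  refine ⟨r₁, hr₁.symm, ?_⟩
  rw [← h4]
  have : r₁ - r₁' = -(r₁' - r₁) := by ring
  rw [this]; exact neg_mem h2

/-- A ring automorphism of `F` which maps `R` into `R` and fixes the generators maps the chart
into itself. -/
theorem s34cw47_chart_map {R F : Type*} [CommRing R] [Field F] [Algebra R F] (σ : F ≃+* F)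
    (hσR : ∀ r : R, ∃ r' : R, σ (algebraMap R F r) = algebraMap R F r') (s : Set F)
    (hs : ∀ g ∈ s, σ g = g) : ∀ x ∈ pk15_chart R s, σ x ∈ pk15_chart R s := by
  intro x hx
  rw [pk15_mem_chart] at hx ⊢
  have hS : ∀ y ∈ Algebra.adjoin R s, σ y ∈ Algebra.adjoin R s := by
    intro y hy
    induction hy using Algebra.adjoin_induction with
    | mem y hy => rw [hs y hy]; exact Algebra.subset_adjoin hy
    | algebraMap r =>
      obtain ⟨r', hr'⟩ := hσR r
      rw [hr']; exact Subalgebra.algebraMap_mem _ r'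
    | add a b _ _ ha hb => rw [map_add]; exact add_mem ha hb
    | mul a b _ _ ha hb => rw [map_mul]; exact mul_mem ha hb
  let φ : Algebra.adjoin R s →+* Algebra.adjoin R s :=
    { toFun := fun y => ⟨σ (y : F), hS y y.2⟩
      map_one' := Subtype.ext (map_one σ)
      map_mul' := fun a b => Subtype.ext (map_mul σ (a : F) (b : F))
      map_zero' := Subtype.ext (map_zero σ)
      map_add' := fun a b => Subtype.ext (map_add σ (a : F) (b : F)) }
  obtain ⟨p, hp, hpx⟩ := hx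
  refine ⟨p.map φ, hp.map _, ?_⟩
  rw [Polynomial.eval₂_map]
  have hcomp : (algebraMap (Algebra.adjoin R s) F).comp φ =
      (σ : F →+* F).comp (algebraMap (Algebra.adjoin R s) F) := by
    ext y; rfl
  rw [hcomp]
  have h := Polynomial.hom_eval₂ p (algebraMap (Algebra.adjoin R s) F) (σ : F →+* F) x
  rw [hpx, map_zero] at h
  exact h.symm

end Helpers

section OneChart

/-- The abstract chain of the second route on ONE chart:
(LS′) + (DOM) + (KR) + (G) ⟹ the local datum (LD) for the double difference. -/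
theorem s34cw47_chart_LD (hUZD : s34i47d_Pkg_UZD) (hLPD : s34i47d_Pkg_LPD)
    (hLDb : s34i47b_Pkg_LDb)
    {R K F : Type} [CommRing R] [IsDomain R] [IsDiscreteValuationRing R] [Field K] [Field F]
    [Algebra R K] [IsFractionRing R K] [Algebra R F] [Algebra K F] [IsScalarTower R K F]
    (π : R) (hπ : Irreducible π) (m : ℕ) (hm0 : 0 < m) (W : Subring F) (B : Subalgebra R F)
    (hN : IsNoetherianRing B) (hfrac : ∀ x : F, ∃ a ∈ B, ∃ b ∈ B, b ≠ 0 ∧ x * b = a)
    (hRW : ∀ r : R, algebraMap R F r ∈ W) (hBW : ∀ x ∈ B, x ∈ W)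
    (hsat : ∀ x ∈ B, (algebraMap R F π)⁻¹ * x ∈ W → (algebraMap R F π)⁻¹ * x ∈ B)
    (hLS : ∃ P₁ P₂ : Ideal B, P₁.IsPrime ∧ P₂.IsPrime ∧ algebraMap R B π ∈ P₁ ∧
      algebraMap R B π ∈ P₂ ∧ s34i47d_LocStrW π B P₁ P₂)
    (hDom : s34i47d_Dom π B) (hKr : s34i47_Krull π B)
    (σ τ : F ≃+* F) (hGσ : s34i47_GalProps π W σ) (hGτ : s34i47_GalProps π W τ)
    (hσR' : ∀ r : R, ∃ r' : R, σ.symm (algebraMap R F r) = algebraMap R F r')
    (hτR' : ∀ r : R, ∃ r' : R, τ.symm (algebraMap R F r) = algebraMap R F r')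
    (hσB : ∀ x ∈ B, σ x ∈ B) (hσB' : ∀ x ∈ B, σ.symm x ∈ B)
    (hτB : ∀ x ∈ B, τ x ∈ B) (hτB' : ∀ x ∈ B, τ.symm x ∈ B)
    (f : F) (hf : f ≠ 0) (hOrd : s34i47_Ord π m f) (hRat : s34i47_Rat K π f)
    (hFin : s34i47_Fin π f) :
    s34i47_LocalDatum π m W B (s34i47_dd σ τ f) := by
  obtain ⟨P₁, P₂, hP₁, hP₂, hπ₁, hπ₂, hLSW⟩ := hLS
  have hStσ : s34i47d_Stab π B σ :=
    ⟨hGσ.1, hσR', hσB, hσB', fun x hx =>
      hsat (σ x - x) (B.sub_mem (hσB x hx) hx) (hGσ.2.2 x (hBW x hx))⟩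
  have hStτ : s34i47d_Stab π B τ :=
    ⟨hGτ.1, hτR', hτB, hτB', fun x hx =>
      hsat (τ x - x) (B.sub_mem (hτB x hx) hx) (hGτ.2.2 x (hBW x hx))⟩
  have hUZ := hUZD R K F π hπ B hN hfrac P₁ P₂ hP₁ hP₂ hπ₁ hπ₂ hLSW hDom σ τ hStσ hStτ
  have hLP := hLPD R K F π hπ B m hm0 σ τ f hf hStσ hStτ hUZ hOrd hRat hFin
  exact hLDb R K F π hπ m hm0 W B σ τ f hf hRW hBW hsat hGσ hGτ hKr hLP

end OneChart

/-- **CORE-assembly of the second route** (corrected `s34i47d_Pkg_CoreW`). -/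
theorem s34cw47_coreW (hDom : s34i47d_Pkg_Dom) (hUZD : s34i47d_Pkg_UZD)
    (hLPD : s34i47d_Pkg_LPD) (hKr : s34i47_Pkg_Krull) (hLDb : s34i47b_Pkg_LDb)
    (M' q m : ℕ) [NeZero M'] [NeZero q] (hq : q.Prime) (hM' : ¬ q ∣ M') (hm0 : 0 < m)
    (hcop : Nat.Coprime m q) (p₀ : ℕ) (hp₀ : p₀ = 2 ∨ p₀ = 3) (hp₀q : p₀ ≠ q)
    (hp₀M : p₀ ∣ M' * q)
    (hSat : s34i47c_FrameSat M' q hq hM') (hGal : s34i47c_FrameGal M' q hq hM')
    (hLSW : s34i47d_FrameLSW M' q) (hFin : s34i47_FinSupp (M' * q)) :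
    s34i47_Core (M' * q) q m := by
  intro R K _ _ _ _ _ _ _ _ _ _ π hπ hunit hqR σ τ hσ hτ f hf hord hrat
  -- the Hauptmodul
  obtain ⟨h, hh⟩ : ∃ h : ↥(modularFunctionFieldFullC K (M' * q)),
      s34i47c_IsHaupt K (M' * q) q h := by
    rcases hp₀ with rfl | rfl
    · exact ⟨pk85_h2 K (M' * q) hp₀M, Or.inl ⟨Ne.symm hp₀q, hp₀M, rfl⟩⟩
    · exact ⟨pk85_h3 K (M' * q) hp₀M, Or.inr ⟨Ne.symm hp₀q, hp₀M, rfl⟩⟩
  -- the frame
  obtain ⟨hW, hC⟩ := hSat R K π hπ hunit hqR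
  have hCh := hC h hh
  obtain ⟨hLS₁, hLS₂⟩ := hLSW R K π hπ hunit hqR h hh
  have hσ' := s34cw47_inertial_symm σ hσ
  have hτ' := s34cw47_inertial_symm τ hτ
  obtain ⟨hGσ, hσh⟩ := hGal R K π hπ hunit hqR σ hσ
  obtain ⟨hGτ, hτh⟩ := hGal R K π hπ hunit hqR τ hτ
  obtain ⟨hGσ', hσh'⟩ := hGal R K π hπ hunit hqR σ.symm hσ'
  obtain ⟨hGτ', hτh'⟩ := hGal R K π hπ hunit hqR τ.symm hτ'
  set W := s34i47c_W (K := K) M' q hq hM' hπ with hWdef
  set S₁ := s34i47_coeffEquiv σ (M' * q) with hS1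
  set T := s34i47_coeffEquiv τ (M' * q) with hT
  have hS1symm : ∀ x, S₁.symm x = s34i47_coeffEquiv σ.symm (M' * q) x := fun _ => rfl
  have hTsymm : ∀ x, T.symm x = s34i47_coeffEquiv τ.symm (M' * q) x := fun _ => rfl
  obtain ⟨hRW, hπW, hWroot, hWunit⟩ := hW
  obtain ⟨hhtr, h12W, hsat₁, hsat₂, hsat₁₂, hN₁, hN₂, hfin, hfrac⟩ := hCh
  have hh0 : h ≠ 0 := cap87_ne_zero (K := K) h hhtr
  -- `hfrac` for the second chart
  have hfrac₂ : ∀ x : ↥(modularFunctionFieldFullC K (M' * q)),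
      ∃ a ∈ pk15_chart R ({h⁻¹} : Set ↥(modularFunctionFieldFullC K (M' * q))),
      ∃ b ∈ pk15_chart R ({h⁻¹} : Set ↥(modularFunctionFieldFullC K (M' * q))),
        b ≠ 0 ∧ x * b = a := by
    intro x
    obtain ⟨a, ha, b, hb, hb0, hab⟩ := hfrac x
    obtain ⟨k, hk⟩ := pk15_chart_loc' (R := R) h hh0 a (pk15_chart_mono (by simp) ha)
    obtain ⟨l, hl⟩ := pk15_chart_loc' (R := R) h hh0 b (pk15_chart_mono (by simp) hb)
    have hh₂ : h⁻¹ ∈ pk15_chart R ({h⁻¹} : Set ↥(modularFunctionFieldFullC K (M' * q))) :=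
      pk15_subset_chart _ (Set.mem_singleton h⁻¹)
    refine ⟨h⁻¹ ^ (k + l) * a, ?_, h⁻¹ ^ (k + l) * b, ?_, ?_, ?_⟩
    · have : h⁻¹ ^ (k + l) * a = h⁻¹ ^ l * (h⁻¹ ^ k * a) := by rw [pow_add]; ring
      rw [this]; exact Subalgebra.mul_mem _ (Subalgebra.pow_mem _ hh₂ _) hk
    · have : h⁻¹ ^ (k + l) * b = h⁻¹ ^ k * (h⁻¹ ^ l * b) := by rw [pow_add]; ring
      rw [this]; exact Subalgebra.mul_mem _ (Subalgebra.pow_mem _ hh₂ _) hl
    · exact mul_ne_zero (pow_ne_zero _ (inv_ne_zero hh0)) hb0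
    · rw [← hab]; ring
  -- charts inside `W`
  have h1W : ∀ x ∈ pk15_chart R ({h} : Set ↥(modularFunctionFieldFullC K (M' * q))), x ∈ W :=
    fun x hx => h12W x (pk15_chart_mono (by simp) hx)
  have h2W : ∀ x ∈ pk15_chart R ({h⁻¹} : Set ↥(modularFunctionFieldFullC K (M' * q))), x ∈ W :=
    fun x hx => h12W x (pk15_chart_mono (by simp) hx)
  -- stability of the charts
  have hS1h : S₁ h = h := hσh h hh
  have hTh : T h = h := hτh h hh
  have hS1h' : S₁.symm h = h := by rw [hS1symm]; exact hσh' h hh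
  have hTh' : T.symm h = h := by rw [hTsymm]; exact hτh' h hh
  have hS1R' : ∀ r : R, ∃ r' : R,
      S₁.symm (algebraMap R ↥(modularFunctionFieldFullC K (M' * q)) r) = algebraMap R _ r' :=
    fun r => hGσ'.1 r
  have hTR' : ∀ r : R, ∃ r' : R,
      T.symm (algebraMap R ↥(modularFunctionFieldFullC K (M' * q)) r) = algebraMap R _ r' :=
    fun r => hGτ'.1 r
  have fix1 : ∀ (ρ : ↥(modularFunctionFieldFullC K (M' * q)) ≃+*
      ↥(modularFunctionFieldFullC K (M' * q))), ρ h = h →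
      ∀ g ∈ ({h} : Set ↥(modularFunctionFieldFullC K (M' * q))), ρ g = g := by
    intro ρ hρ g hg
    rw [Set.mem_singleton_iff] at hg
    rw [hg, hρ]
  have fix2 : ∀ (ρ : ↥(modularFunctionFieldFullC K (M' * q)) ≃+*
      ↥(modularFunctionFieldFullC K (M' * q))), ρ h = h →
      ∀ g ∈ ({h⁻¹} : Set ↥(modularFunctionFieldFullC K (M' * q))), ρ g = g := by
    intro ρ hρ g hg
    rw [Set.mem_singleton_iff] at hg
    rw [hg, map_inv₀, hρ]
  -- valuation-subring forms of the hypotheses on `f`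
  have hplace : ∀ O : ValuationSubring ↥(modularFunctionFieldFullC K (M' * q)),
      s34i47_IsHoriz π O → ∃ P : Place K ↥(modularFunctionFieldFullC K (M' * q)),
        P.toValuationSubring = O := by
    rintro O ⟨hO, hPIR, hRO, hπO⟩
    refine ⟨⟨O, ?_, hO, hPIR⟩, rfl⟩
    intro a
    obtain ⟨r, s, hs, rfl⟩ := IsFractionRing.div_surjective (A := R) a
    have hs0 : s ≠ 0 := nonZeroDivisors.ne_zero hs
    obtain ⟨n, e, rfl⟩ := IsDiscreteValuationRing.eq_unit_mul_pow_irreducible hs0 hπ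
    have h1 : algebraMap K ↥(modularFunctionFieldFullC K (M' * q))
        (algebraMap R K r / algebraMap R K (↑e * π ^ n)) =
        algebraMap R _ r * (algebraMap R _ ((e⁻¹ : Rˣ) : R) * ((algebraMap R _ π)⁻¹) ^ n) := by
      rw [map_div₀, ← IsScalarTower.algebraMap_apply, ← IsScalarTower.algebraMap_apply, map_mul,
        map_pow]
      have he : algebraMap R ↥(modularFunctionFieldFullC K (M' * q)) (e : R) *
          algebraMap R _ ((e⁻¹ : Rˣ) : R) = 1 := by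
        rw [← map_mul, Units.mul_inv, map_one]
      rw [eq_inv_of_mul_eq_one_right he, div_eq_mul_inv, mul_inv, inv_pow]
    rw [h1]
    exact O.mul_mem _ _ (hRO r) (O.mul_mem _ _ (hRO _) (O.pow_mem hπO n))
  have hOrd : s34i47_Ord π m f := by
    rintro O ⟨hO, hPIR, hRO, hπO⟩
    exact lp7_hord_of_place_dvr (K := K) π hπ f hf m hord O hO hPIR hRO hπO
  have hRat : s34i47_Rat K π f := by
    intro O hO
    obtain ⟨P, rfl⟩ := hplace O hO
    exact hrat P
  have hFinf : s34i47_Fin π f := by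
    refine Set.Finite.subset ((hFin K f hf).image (fun P => P.toValuationSubring)) ?_
    rintro O ⟨hO, hnot⟩
    obtain ⟨P, rfl⟩ := hplace O hO
    exact ⟨P, hnot, rfl⟩
  -- the abstract packages on the two charts
  obtain ⟨hDom₁, hDom₂⟩ := hDom R K ↥(modularFunctionFieldFullC K (M' * q)) π hπ h hhtr hN₁ hN₂
    hfin hfrac
  obtain ⟨hKr₁, hKr₂⟩ := hKr R K ↥(modularFunctionFieldFullC K (M' * q)) π hπ h hhtr hN₁ hN₂
    hfin hfrac
  have hLD₁ := s34cw47_chart_LD hUZD hLPD hLDb π hπ m hm0 W _ hN₁ hfrac hRW h1W hsat₁ hLS₁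
    hDom₁ hKr₁ S₁ T hGσ hGτ hS1R' hTR'
    (s34cw47_chart_map S₁ hGσ.1 _ (fix1 S₁ hS1h))
    (s34cw47_chart_map S₁.symm hS1R' _ (fix1 S₁.symm hS1h'))
    (s34cw47_chart_map T hGτ.1 _ (fix1 T hTh))
    (s34cw47_chart_map T.symm hTR' _ (fix1 T.symm hTh'))
    f hf hOrd hRat hFinf
  have hLD₂ := s34cw47_chart_LD hUZD hLPD hLDb π hπ m hm0 W _ hN₂ hfrac₂ hRW h2W hsat₂ hLS₂
    hDom₂ hKr₂ S₁ T hGσ hGτ hS1R' hTR'
    (s34cw47_chart_map S₁ hGσ.1 _ (fix2 S₁ hS1h))
    (s34cw47_chart_map S₁.symm hS1R' _ (fix2 S₁.symm hS1h'))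
    (s34cw47_chart_map T hGτ.1 _ (fix2 T hTh))
    (s34cw47_chart_map T.symm hTR' _ (fix2 T.symm hTh'))
    f hf hOrd hRat hFinf
  -- `u ≡ 1 mod π W`
  have hTf0 : T f ≠ 0 := (map_ne_zero T).mpr hf
  have hu : (algebraMap R ↥(modularFunctionFieldFullC K (M' * q)) π)⁻¹ *
      (s34i47_dd S₁ T f - 1) ∈ W := by
    have h1 : T f / f ∈ W := hGτ.2.1 f hf
    have h2 : f / T f ∈ W := by
      have h3 := hGτ.2.1 f⁻¹ (inv_ne_zero hf)
      have h4 : T f⁻¹ / f⁻¹ = f / T f := by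
        rw [map_inv₀, div_eq_mul_inv, inv_inv, div_eq_mul_inv, mul_comm ((T f)⁻¹) f]
      rw [h4] at h3
      exact h3
    exact wa5_dd W _ S₁ T hGσ.2.2 f hf h1 h2
  -- the nodal two-chart lemma
  obtain ⟨f₀, c, hf₀, hfc⟩ := s34i47b_main R K ↥(modularFunctionFieldFullC K (M' * q)) π hπ m hm0
    (hunit m hcop) (cap87_algClosed_in (modularFunctionFieldFullC K (M' * q))) W h
    ⟨hRW, hπW, hWroot, hWunit⟩ ⟨hhtr, h12W, hsat₁, hsat₂, hsat₁₂, hN₁, hN₂, hfin, hfrac⟩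
    (s34i47_dd S₁ T f) hu hLD₁ hLD₂
  have hu0 : s34i47_dd S₁ T f ≠ 0 := by
    unfold s34i47_dd
    exact div_ne_zero (mul_ne_zero ((map_ne_zero S₁).mpr hTf0) hf)
      (mul_ne_zero ((map_ne_zero S₁).mpr hf) hTf0)
  refine ⟨f₀, algebraMap R K c, hf₀, ?_, ?_⟩
  · intro hc0
    have h1 : algebraMap R ↥(modularFunctionFieldFullC K (M' * q)) c = 0 := by
      rw [IsScalarTower.algebraMap_apply R K, hc0, map_zero]
    rw [h1] at hfc
    exact mul_ne_zero (pow_ne_zero m hf₀) hu0 hfc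
  · rw [hfc, IsScalarTower.algebraMap_apply R K]

/-- **ASSEMBLY of the second route** (corrected form of `s34i47d_assembly`: no `Pkg_CoreW`
hypothesis any more): the packages (DOM), (UZ′), (LP′ from UZ′), (KR), (LDb), FRAME-SAT,
FRAME-GAL, FRAME-LS′, FIN and field of definition give `(U)` at every level `N` with `q ∥ N`,
`p ≠ q`, in the literal shape of the hypothesis `hU` of `s34e60_main`. -/
theorem s34cw47_assembly (hDom : s34i47d_Pkg_Dom) (hUZD : s34i47d_Pkg_UZD)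
    (hLPD : s34i47d_Pkg_LPD) (hKr : s34i47_Pkg_Krull) (hLDb : s34i47b_Pkg_LDb)
    (hSat : s34i47c_Pkg_FrameSat) (hGal : s34i47c_Pkg_FrameGal)
    (hLSW : s34i47d_Pkg_FrameLSW) (hFin : s34i47_Pkg_Fin) (hFD : s34i47_Pkg_FieldDef)
    {p q N : ℕ} [NeZero N] (hp : p.Prime) (hq : q.Prime) (hqp : q ≠ p) (hqN : q ∣ N)
    (hq2 : ¬ q ^ 2 ∣ N) : lc52_U p q N := by
  refine lc52_main hp hq hqp hqN hq2 ?_
  intro M p₀ hM0 hp₀ hp₀q hp₀M _ hqM hq2M _
  refine s34i47b_U_of_FFU M q p hp ?_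
  intro n
  have hne : NeZero M := ⟨hM0⟩
  have hcop : Nat.Coprime (p ^ n) q :=
    Nat.Coprime.pow_left n ((Nat.coprime_primes hp hq).mpr (Ne.symm hqp))
  refine hFD M q _ hne hq (pow_pos hp.pos n) ?_
  obtain ⟨M', rfl⟩ := hqM
  have hM'0 : M' ≠ 0 := by
    rintro rfl
    exact hq2M (by simp)
  have hqM' : ¬ q ∣ M' := by
    rintro ⟨c, rfl⟩
    exact hq2M ⟨c, by ring⟩
  have : NeZero M' := ⟨hM'0⟩
  have : NeZero q := ⟨hq.ne_zero⟩
  have hne' : NeZero (M' * q) := ⟨by rw [Nat.mul_comm]; exact hM0⟩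
  rw [Nat.mul_comm q M'] at hp₀M ⊢
  exact s34cw47_coreW hDom hUZD hLPD hKr hLDb M' q _ hq hqM' (pow_pos hp.pos n) hcop p₀ hp₀
    hp₀q hp₀M (hSat M' q hq hqM') (hGal M' q hq hqM') (hLSW M' q hq hqM') (hFin _ hne')

end Fermat.Agent.S34
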