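import Mathlib
import Fermat.Agent.S34.CoreW47

/-!
# S34 lab (helper96): ASSEMBLY of the THIRD route — weak local structure ⟹ literal (UZ)

helper3 (`DeepNode3b`) and helper89 (`NoDeep89`) proved that a NORMAL node has no deep points.
Hence the literal unique-zero property `s34i47_UniqueZero` of Iface47 already follows from the
WEAK local structure `s34i47d_LocStrW` of Iface47d (no exact node equation) on a noetherian,
integrally closed chart.  This file is the corresponding assembly: it uses the weak frame package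
`s34i47d_Pkg_FrameLSW` (P3 (3a) + (3b) only) together with the ALREADY PROVED packages (LP), (KR),
(LD), Main of the first route.  It needs NEITHER (DOM), (UZ′), (LP′), (LDb) of the second route
NOR the exact node equation, P4, P4′, (3c), (3d) of the first route.

* `s34r96_Pkg_UZW` : the ONE new package `Prop`:
  (LS′) `s34i47d_LocStrW π B P₁ P₂` (`P₁`, `P₂` prime, containing `π`) on a noetherian chart `B`
  with fraction field `F`, integrally closed in `F`  ⟹  `s34i47_UniqueZero K π B`.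
* `s34r96_chart_LD` : the chain on one chart: (LS′) ⟹ (UZ) ⟹ (LP) ⟹ (LD).
* `s34r96_core` : `s34i47_Core (M' * q) q m` from FRAME-SAT, FRAME-GAL, FRAME-LS′, FIN.
* `s34r96_assembly` : `lc52_U p q N` (literally the hypothesis `hU` of `s34e60_main`) from
  `s34r96_Pkg_UZW`, `s34i47_Pkg_LP`, `s34i47_Pkg_Krull`, `s34i47_Pkg_LD`, the frame packages
  `s34i47c_Pkg_FrameSat`, `s34i47c_Pkg_FrameGal`, `s34i47d_Pkg_FrameLSW`, `s34i47_Pkg_Fin` and
  `s34i47_Pkg_FieldDef`.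

All names are prefixed `s34r96_`.
-/

set_option autoImplicit false

open ModularCurve AlgebraicCurve

namespace Fermat.Agent.S34

open Fermat.Agent.S18

local notation "Q̄" => AlgebraicClosure ℚ

/-- **UZ from the weak local structure** (abstract; Mathlib + `DeepNode3b` / `NoDeep89`):
on a noetherian chart `B` with fraction field `F`, integrally closed in `F`, the weak local
structure (LS′) with respect to two prime ideals containing `π` gives the literal (UZ). -/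
def s34r96_Pkg_UZW : Prop :=
  ∀ (R K F : Type) [CommRing R] [IsDomain R] [IsDiscreteValuationRing R] [Field K] [Field F]
    [Algebra R K] [IsFractionRing R K] [Algebra R F] [Algebra K F] [IsScalarTower R K F]
    (π : R), Irreducible π → ∀ (B : Subalgebra R F), IsNoetherianRing B →
    (∀ x : F, ∃ a ∈ B, ∃ b ∈ B, b ≠ 0 ∧ x * b = a) →
    (∀ x : F, IsIntegral B x → x ∈ B) →
    ∀ (P₁ P₂ : Ideal B), P₁.IsPrime → P₂.IsPrime →
    algebraMap R B π ∈ P₁ → algebraMap R B π ∈ P₂ →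
    s34i47d_LocStrW π B P₁ P₂ → s34i47_UniqueZero K π B

/-- The chart `pk15_chart R s` is integrally closed in `F`. -/
theorem s34r96_chart_closed {R F : Type*} [CommRing R] [Field F] [Algebra R F] (s : Set F)
    (x : F) (hx : IsIntegral (pk15_chart R s) x) : x ∈ pk15_chart R s := by
  rw [pk15_mem_chart]
  have h1 : IsIntegral (integralClosure (Algebra.adjoin R s) F) x := hx
  exact isIntegral_trans x h1

/-- The chain of the third route on ONE chart:
(LS′) ⟹ (UZ) ⟹ (LP) ⟹ (with (KR), (G), saturation) the local datum (LD) for the double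
difference. -/
theorem s34r96_chart_LD (hUZW : s34r96_Pkg_UZW) (hLP : s34i47_Pkg_LP) (hLD : s34i47_Pkg_LD)
    {R K F : Type} [CommRing R] [IsDomain R] [IsDiscreteValuationRing R] [Field K] [Field F]
    [Algebra R K] [IsFractionRing R K] [Algebra R F] [Algebra K F] [IsScalarTower R K F]
    (π : R) (hπ : Irreducible π) (m : ℕ) (hm0 : 0 < m) (W : Subring F) (B : Subalgebra R F)
    (hN : IsNoetherianRing B) (hfrac : ∀ x : F, ∃ a ∈ B, ∃ b ∈ B, b ≠ 0 ∧ x * b = a)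
    (hcl : ∀ x : F, IsIntegral B x → x ∈ B)
    (hRW : ∀ r : R, algebraMap R F r ∈ W) (hBW : ∀ x ∈ B, x ∈ W)
    (hsat : ∀ x ∈ B, (algebraMap R F π)⁻¹ * x ∈ W → (algebraMap R F π)⁻¹ * x ∈ B)
    (hLS : ∃ P₁ P₂ : Ideal B, P₁.IsPrime ∧ P₂.IsPrime ∧ algebraMap R B π ∈ P₁ ∧
      algebraMap R B π ∈ P₂ ∧ s34i47d_LocStrW π B P₁ P₂)
    (hKr : s34i47_Krull π B)
    (σ τ : F ≃+* F) (hGσ : s34i47_GalProps π W σ) (hGτ : s34i47_GalProps π W τ)
    (hσB : ∀ x ∈ B, σ x ∈ B) (hτB : ∀ x ∈ B, τ x ∈ B)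
    (f : F) (hf : f ≠ 0) (hOrd : s34i47_Ord π m f) (hRat : s34i47_Rat K π f)
    (hFin : s34i47_Fin π f) :
    s34i47_LocalDatum π m W B (s34i47_dd σ τ f) := by
  obtain ⟨P₁, P₂, hP₁, hP₂, hπ₁, hπ₂, hLSW⟩ := hLS
  have hUZ : s34i47_UniqueZero K π B :=
    hUZW R K F π hπ B hN hfrac hcl P₁ P₂ hP₁ hP₂ hπ₁ hπ₂ hLSW
  have hLPf : s34i47_LocPrin π m B f := hLP R K F π hπ B m hm0 f hf hUZ hOrd hRat hFin
  exact hLD R K F π hπ m hm0 W B σ τ f hf hRW hBW hsat hGσ hGτ hσB hτB hKr hLPf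

/-- **CORE-assembly of the third route**: (UZ from LS′), (LP), (KR), (LD), Main over the frame
packages FRAME-SAT, FRAME-GAL, FRAME-LS′ and FIN give `s34i47_Core`, at a level `M' * q`
divisible by `p₀ ∈ {2, 3}`, `p₀ ≠ q`. -/
theorem s34r96_core (hUZW : s34r96_Pkg_UZW) (hLP : s34i47_Pkg_LP) (hKr : s34i47_Pkg_Krull)
    (hLD : s34i47_Pkg_LD)
    (M' q m : ℕ) [NeZero M'] [NeZero q] (hq : q.Prime) (hM' : ¬ q ∣ M') (hm0 : 0 < m)
    (hcop : Nat.Coprime m q) (p₀ : ℕ) (hp₀ : p₀ = 2 ∨ p₀ = 3) (hp₀q : p₀ ≠ q)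
    (hp₀M : p₀ ∣ M' * q)
    (hSat : s34i47c_FrameSat M' q hq hM') (hGal : s34i47c_FrameGal M' q hq hM')
    (hLSW : s34i47d_FrameLSW M' q) (hFin : s34i47_FinSupp (M' * q)) :
    s34i47_Core (M' * q) q m := by
  intro R K _ _ _ _ _ _ _ _ _ _ π hπ hunit hqR σ τ hσ hτ f hf hord hrat
  -- the Hauptmodul
  obtain ⟨h, hh⟩ : ∃ h : ↥(modularFunctionFieldFullC K (M' * q)),
      s34i47c_IsHaupt K (M' * q) q h := by
    rcases hp₀ with rfl | rfl
    · exact ⟨pk85_h2 K (M' * q) hp₀M, Or.inl ⟨Ne.symm hp₀q, hp₀M, rfl⟩⟩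
    · exact ⟨pk85_h3 K (M' * q) hp₀M, Or.inr ⟨Ne.symm hp₀q, hp₀M, rfl⟩⟩
  -- the frame
  obtain ⟨hW, hC⟩ := hSat R K π hπ hunit hqR
  have hCh := hC h hh
  obtain ⟨hLS₁, hLS₂⟩ := hLSW R K π hπ hunit hqR h hh
  obtain ⟨hGσ, hσh⟩ := hGal R K π hπ hunit hqR σ hσ
  obtain ⟨hGτ, hτh⟩ := hGal R K π hπ hunit hqR τ hτ
  set W := s34i47c_W (K := K) M' q hq hM' hπ with hWdef
  set S₁ := s34i47_coeffEquiv σ (M' * q) with hS1
  set T := s34i47_coeffEquiv τ (M' * q) with hT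
  obtain ⟨hRW, hπW, hWroot, hWunit⟩ := hW
  obtain ⟨hhtr, h12W, hsat₁, hsat₂, hsat₁₂, hN₁, hN₂, hfin, hfrac⟩ := hCh
  have hh0 : h ≠ 0 := cap87_ne_zero (K := K) h hhtr
  -- `hfrac` for the second chart
  have hfrac₂ : ∀ x : ↥(modularFunctionFieldFullC K (M' * q)),
      ∃ a ∈ pk15_chart R ({h⁻¹} : Set ↥(modularFunctionFieldFullC K (M' * q))),
      ∃ b ∈ pk15_chart R ({h⁻¹} : Set ↥(modularFunctionFieldFullC K (M' * q))),
        b ≠ 0 ∧ x * b = a := by
    intro x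
    obtain ⟨a, ha, b, hb, hb0, hab⟩ := hfrac x
    obtain ⟨k, hk⟩ := pk15_chart_loc' (R := R) h hh0 a (pk15_chart_mono (by simp) ha)
    obtain ⟨l, hl⟩ := pk15_chart_loc' (R := R) h hh0 b (pk15_chart_mono (by simp) hb)
    have hh₂ : h⁻¹ ∈ pk15_chart R ({h⁻¹} : Set ↥(modularFunctionFieldFullC K (M' * q))) :=
      pk15_subset_chart _ (Set.mem_singleton h⁻¹)
    refine ⟨h⁻¹ ^ (k + l) * a, ?_, h⁻¹ ^ (k + l) * b, ?_, ?_, ?_⟩
    · have : h⁻¹ ^ (k + l) * a = h⁻¹ ^ l * (h⁻¹ ^ k * a) := by rw [pow_add]; ring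
      rw [this]; exact Subalgebra.mul_mem _ (Subalgebra.pow_mem _ hh₂ _) hk
    · have : h⁻¹ ^ (k + l) * b = h⁻¹ ^ k * (h⁻¹ ^ l * b) := by rw [pow_add]; ring
      rw [this]; exact Subalgebra.mul_mem _ (Subalgebra.pow_mem _ hh₂ _) hl
    · exact mul_ne_zero (pow_ne_zero _ (inv_ne_zero hh0)) hb0
    · rw [← hab]; ring
  -- charts inside `W`
  have h1W : ∀ x ∈ pk15_chart R ({h} : Set ↥(modularFunctionFieldFullC K (M' * q))), x ∈ W :=
    fun x hx => h12W x (pk15_chart_mono (by simp) hx)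
  have h2W : ∀ x ∈ pk15_chart R ({h⁻¹} : Set ↥(modularFunctionFieldFullC K (M' * q))), x ∈ W :=
    fun x hx => h12W x (pk15_chart_mono (by simp) hx)
  -- stability of the charts
  have hS1h : S₁ h = h := hσh h hh
  have hTh : T h = h := hτh h hh
  have fix1 : ∀ (ρ : ↥(modularFunctionFieldFullC K (M' * q)) ≃+*
      ↥(modularFunctionFieldFullC K (M' * q))), ρ h = h →
      ∀ g ∈ ({h} : Set ↥(modularFunctionFieldFullC K (M' * q))), ρ g = g := by
    intro ρ hρ g hg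
    rw [Set.mem_singleton_iff] at hg
    rw [hg, hρ]
  have fix2 : ∀ (ρ : ↥(modularFunctionFieldFullC K (M' * q)) ≃+*
      ↥(modularFunctionFieldFullC K (M' * q))), ρ h = h →
      ∀ g ∈ ({h⁻¹} : Set ↥(modularFunctionFieldFullC K (M' * q))), ρ g = g := by
    intro ρ hρ g hg
    rw [Set.mem_singleton_iff] at hg
    rw [hg, map_inv₀, hρ]
  -- valuation-subring forms of the hypotheses on `f`
  have hplace : ∀ O : ValuationSubring ↥(modularFunctionFieldFullC K (M' * q)),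
      s34i47_IsHoriz π O → ∃ P : Place K ↥(modularFunctionFieldFullC K (M' * q)),
        P.toValuationSubring = O := by
    rintro O ⟨hO, hPIR, hRO, hπO⟩
    refine ⟨⟨O, ?_, hO, hPIR⟩, rfl⟩
    intro a
    obtain ⟨r, s, hs, rfl⟩ := IsFractionRing.div_surjective (A := R) a
    have hs0 : s ≠ 0 := nonZeroDivisors.ne_zero hs
    obtain ⟨n, e, rfl⟩ := IsDiscreteValuationRing.eq_unit_mul_pow_irreducible hs0 hπ
    have h1 : algebraMap K ↥(modularFunctionFieldFullC K (M' * q))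
        (algebraMap R K r / algebraMap R K (↑e * π ^ n)) =
        algebraMap R _ r * (algebraMap R _ ((e⁻¹ : Rˣ) : R) * ((algebraMap R _ π)⁻¹) ^ n) := by
      rw [map_div₀, ← IsScalarTower.algebraMap_apply, ← IsScalarTower.algebraMap_apply, map_mul,
        map_pow]
      have he : algebraMap R ↥(modularFunctionFieldFullC K (M' * q)) (e : R) *
          algebraMap R _ ((e⁻¹ : Rˣ) : R) = 1 := by
        rw [← map_mul, Units.mul_inv, map_one]
      rw [eq_inv_of_mul_eq_one_right he, div_eq_mul_inv, mul_inv, inv_pow]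
    rw [h1]
    exact O.mul_mem _ _ (hRO r) (O.mul_mem _ _ (hRO _) (O.pow_mem hπO n))
  have hOrd : s34i47_Ord π m f := by
    rintro O ⟨hO, hPIR, hRO, hπO⟩
    exact lp7_hord_of_place_dvr (K := K) π hπ f hf m hord O hO hPIR hRO hπO
  have hRat : s34i47_Rat K π f := by
    intro O hO
    obtain ⟨P, rfl⟩ := hplace O hO
    exact hrat P
  have hFinf : s34i47_Fin π f := by
    refine Set.Finite.subset ((hFin K f hf).image (fun P => P.toValuationSubring)) ?_
    rintro O ⟨hO, hnot⟩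
    obtain ⟨P, rfl⟩ := hplace O hO
    exact ⟨P, hnot, rfl⟩
  -- the abstract packages on the two charts
  obtain ⟨hKr₁, hKr₂⟩ := hKr R K ↥(modularFunctionFieldFullC K (M' * q)) π hπ h hhtr hN₁ hN₂
    hfin hfrac
  have hLD₁ := s34r96_chart_LD hUZW hLP hLD π hπ m hm0 W _ hN₁ hfrac
    (s34r96_chart_closed _) hRW h1W hsat₁ hLS₁ hKr₁ S₁ T hGσ hGτ
    (s34cw47_chart_map S₁ hGσ.1 _ (fix1 S₁ hS1h))
    (s34cw47_chart_map T hGτ.1 _ (fix1 T hTh))
    f hf hOrd hRat hFinf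
  have hLD₂ := s34r96_chart_LD hUZW hLP hLD π hπ m hm0 W _ hN₂ hfrac₂
    (s34r96_chart_closed _) hRW h2W hsat₂ hLS₂ hKr₂ S₁ T hGσ hGτ
    (s34cw47_chart_map S₁ hGσ.1 _ (fix2 S₁ hS1h))
    (s34cw47_chart_map T hGτ.1 _ (fix2 T hTh))
    f hf hOrd hRat hFinf
  -- `u ≡ 1 mod π W`
  have hTf0 : T f ≠ 0 := (map_ne_zero T).mpr hf
  have hu : (algebraMap R ↥(modularFunctionFieldFullC K (M' * q)) π)⁻¹ *
      (s34i47_dd S₁ T f - 1) ∈ W := by
    have h1 : T f / f ∈ W := hGτ.2.1 f hf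
    have h2 : f / T f ∈ W := by
      have h3 := hGτ.2.1 f⁻¹ (inv_ne_zero hf)
      have h4 : T f⁻¹ / f⁻¹ = f / T f := by
        rw [map_inv₀, div_eq_mul_inv, inv_inv, div_eq_mul_inv, mul_comm ((T f)⁻¹) f]
      rw [h4] at h3
      exact h3
    exact wa5_dd W _ S₁ T hGσ.2.2 f hf h1 h2
  -- the nodal two-chart lemma
  obtain ⟨f₀, c, hf₀, hfc⟩ := s34i47b_main R K ↥(modularFunctionFieldFullC K (M' * q)) π hπ m hm0
    (hunit m hcop) (cap87_algClosed_in (modularFunctionFieldFullC K (M' * q))) W h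
    ⟨hRW, hπW, hWroot, hWunit⟩ ⟨hhtr, h12W, hsat₁, hsat₂, hsat₁₂, hN₁, hN₂, hfin, hfrac⟩
    (s34i47_dd S₁ T f) hu hLD₁ hLD₂
  have hu0 : s34i47_dd S₁ T f ≠ 0 := by
    unfold s34i47_dd
    exact div_ne_zero (mul_ne_zero ((map_ne_zero S₁).mpr hTf0) hf)
      (mul_ne_zero ((map_ne_zero S₁).mpr hf) hTf0)
  refine ⟨f₀, algebraMap R K c, hf₀, ?_, ?_⟩
  · intro hc0
    have h1 : algebraMap R ↥(modularFunctionFieldFullC K (M' * q)) c = 0 := by
      rw [IsScalarTower.algebraMap_apply R K, hc0, map_zero]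
    rw [h1] at hfc
    exact mul_ne_zero (pow_ne_zero m hf₀) hu0 hfc
  · rw [hfc, IsScalarTower.algebraMap_apply R K]

/-- **ASSEMBLY of the third route**: (UZ from the weak local structure), (LP), (KR), (LD),
FRAME-SAT, FRAME-GAL, FRAME-LS′ (P3 (3a) + (3b) only), FIN and field of definition give `(U)` at
every level `N` with `q ∥ N`, `p ≠ q`, in the literal shape of the hypothesis `hU` of
`s34e60_main`. -/
theorem s34r96_assembly (hUZW : s34r96_Pkg_UZW) (hLP : s34i47_Pkg_LP) (hKr : s34i47_Pkg_Krull)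
    (hLD : s34i47_Pkg_LD) (hSat : s34i47c_Pkg_FrameSat) (hGal : s34i47c_Pkg_FrameGal)
    (hLSW : s34i47d_Pkg_FrameLSW) (hFin : s34i47_Pkg_Fin) (hFD : s34i47_Pkg_FieldDef)
    {p q N : ℕ} [NeZero N] (hp : p.Prime) (hq : q.Prime) (hqp : q ≠ p) (hqN : q ∣ N)
    (hq2 : ¬ q ^ 2 ∣ N) : lc52_U p q N := by
  refine lc52_main hp hq hqp hqN hq2 ?_
  intro M p₀ hM0 hp₀ hp₀q hp₀M _ hqM hq2M _
  refine s34i47b_U_of_FFU M q p hp ?_
  intro n
  have hne : NeZero M := ⟨hM0⟩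
  have hcop : Nat.Coprime (p ^ n) q :=
    Nat.Coprime.pow_left n ((Nat.coprime_primes hp hq).mpr (Ne.symm hqp))
  refine hFD M q _ hne hq (pow_pos hp.pos n) ?_
  obtain ⟨M', rfl⟩ := hqM
  have hM'0 : M' ≠ 0 := by
    rintro rfl
    exact hq2M (by simp)
  have hqM' : ¬ q ∣ M' := by
    rintro ⟨c, rfl⟩
    exact hq2M ⟨c, by ring⟩
  have : NeZero M' := ⟨hM'0⟩
  have : NeZero q := ⟨hq.ne_zero⟩
  have hne' : NeZero (M' * q) := ⟨by rw [Nat.mul_comm]; exact hM0⟩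
  rw [Nat.mul_comm q M'] at hp₀M ⊢
  exact s34r96_core hUZW hLP hKr hLD M' q _ hq hqM' (pow_pos hp.pos n) hcop p₀ hp₀
    hp₀q hp₀M (hSat M' q hq hqM') (hGal M' q hq hqM') (hLSW M' q hq hqM') (hFin _ hne')

end Fermat.Agent.S34
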