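import Fermat.Agent.S34.ChartM15b
import Fermat.Agent.S34.Iface47
import Fermat.Agent.S34.WAbs5

/-!
# S34 lab, package P2 (helper15): the chart half of the FRAME (`Iface47`)

For `M' ∣ M`, `M'` a good level (`p₀ ∣ M'`, `M'` a unit of `R`), `h = pk85_h2/3 K M` the Hauptmodul
of level `p₀`, `V_∞ = cm85_Vinf M` and ANY second valuation subring `V₀` of `F(M)_K` containing
`R`, `h`, `h⁻¹` with `π⁻¹ ∉ V₀`, put `W = wa5_W V_∞ V₀ = V_∞ ⊓ V₀`.  If every element of `W` is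
integral over the Gauss ring of level `M'` (`cm15_WInt`: "`V_∞`, `V₀` are the only extensions"),
then the interface `Prop`s

* `s34i47_WProps π W` (`cm15_WProps`) and
* `s34i47_ChartProps K π W h` (`cm15_chartProps_level2`, `cm15_chartProps_level3`)

hold, and `h` is fixed by every coefficientwise automorphism (`cm15_coeffEquiv_h2/3`).
`cm15_frame_chart_level2/3` bundles the three statements in the order of `s34i47_Frame`.

All names are prefixed `cm15_`.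
-/

set_option autoImplicit false
set_option linter.unusedSectionVars false
set_option linter.style.haveILetI false

open ModularCurve IntermediateField Polynomial

namespace Fermat.Agent.S34

open Fermat.Agent.S18 Fermat.Agent.S24

local notation "Q̄" => AlgebraicClosure ℚ

section props

variable {R K : Type} [CommRing R] [IsDomain R] [IsDiscreteValuationRing R] [Field K] [CharZero K]
  [Algebra R K] [IsFractionRing R K] (M : ℕ) [NeZero M]
  [Algebra R ↥(modularFunctionFieldFullC K M)]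
  [IsScalarTower R K ↥(modularFunctionFieldFullC K M)]

/-- **(W)** for `W = V ⊓ V₀`, from the level-free chart facts for `V` and `R ⊆ V₀`, `π⁻¹ ∉ V₀`. -/
theorem cm15_WProps {π : R} (h : ↥(modularFunctionFieldFullC K M))
    (V V₀ : ValuationSubring ↥(modularFunctionFieldFullC K M))
    (hfacts : cm85_Facts R K M π h V)
    (hRV₀ : ∀ r : R, algebraMap R ↥(modularFunctionFieldFullC K M) r ∈ V₀)
    (hπV₀ : (algebraMap R ↥(modularFunctionFieldFullC K M) π)⁻¹ ∉ V₀) :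
    s34i47_WProps π (wa5_W V V₀) := by
  obtain ⟨-, hRV, hπV, -⟩ := hfacts
  exact ⟨fun r => (wa5_mem_W V V₀ _).mpr ⟨hRV r, hRV₀ r⟩, wa5_inv_not_mem V V₀ _ hπV,
    fun m hm x hx => wa5_root V V₀ m hm.ne' x hx,
    fun x hx => wa5_unit V V₀ _ hπV hπV₀ x hx⟩

/-- **(C)** from the level-free chart facts and the three saturations, for any `W` containing the
big chart. -/
theorem cm15_chartProps_of {π : R} (h : ↥(modularFunctionFieldFullC K M))
    (V : ValuationSubring ↥(modularFunctionFieldFullC K M))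
    (hfacts : cm85_Facts R K M π h V) (W : Subring ↥(modularFunctionFieldFullC K M))
    (hW12 : ∀ x ∈ pk15_chart R ({h, h⁻¹} : Set ↥(modularFunctionFieldFullC K M)), x ∈ W)
    (hs₁ : cm15_Sat R π ({h} : Set ↥(modularFunctionFieldFullC K M)) W)
    (hs₂ : cm15_Sat R π ({h⁻¹} : Set ↥(modularFunctionFieldFullC K M)) W)
    (hs₁₂ : cm15_Sat R π ({h, h⁻¹} : Set ↥(modularFunctionFieldFullC K M)) W) :
    s34i47_ChartProps K π W h := by
  obtain ⟨hh, -, -, -, -, -, hN₁, hN₂, hfin₁, -, hfrac₁, -, -⟩ := hfacts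
  exact ⟨hh, hW12, hs₁, hs₂, hs₁₂, hN₁, hN₂, hfin₁, hfrac₁⟩

/-- the big chart lies in `V ⊓ V₀`. -/
theorem cm15_chart12_le_W {π : R} (h : ↥(modularFunctionFieldFullC K M))
    (V V₀ : ValuationSubring ↥(modularFunctionFieldFullC K M))
    (hfacts : cm85_Facts R K M π h V)
    (hRV₀ : ∀ r : R, algebraMap R ↥(modularFunctionFieldFullC K M) r ∈ V₀)
    (hh₀ : h ∈ V₀) (hh₀' : h⁻¹ ∈ V₀) :
    ∀ x ∈ pk15_chart R ({h, h⁻¹} : Set ↥(modularFunctionFieldFullC K M)), x ∈ wa5_W V V₀ := by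
  obtain ⟨-, hRV, -, -, hhV, hhV', -⟩ := hfacts
  intro x hx
  refine (wa5_mem_W V V₀ x).mpr ⟨pk15_chart_le_V V hRV _ ?_ x hx, pk15_chart_le_V V₀ hRV₀ _ ?_ x hx⟩
  · intro g hg
    rcases hg with rfl | hg
    · exact hhV
    · rw [Set.mem_singleton_iff] at hg; rw [hg]; exact hhV'
  · intro g hg
    rcases hg with rfl | hg
    · exact hh₀
    · rw [Set.mem_singleton_iff] at hg; rw [hg]; exact hh₀'

/-- the level-2 Hauptmodul has rational coefficients: it is fixed by every coefficientwise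
automorphism. -/
theorem cm15_coeffEquiv_h2 (σ : K ≃+* K) (h2 : 2 ∣ M) :
    s34i47_coeffEquiv σ M (pk85_h2 K M h2) = pk85_h2 K M h2 := by
  apply Subtype.ext
  rw [s34i47_coeffEquiv_coe, pk85_h2_coe]
  exact h70_coeffMap_h2 (σ : K →+* K)

/-- the level-3 Hauptmodul is fixed by every coefficientwise automorphism. -/
theorem cm15_coeffEquiv_h3 (σ : K ≃+* K) (h3 : 3 ∣ M) :
    s34i47_coeffEquiv σ M (pk85_h3 K M h3) = pk85_h3 K M h3 := by
  apply Subtype.ext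
  rw [s34i47_coeffEquiv_coe, pk85_h3_coe]
  exact h34_coeffMap_h3R (σ : K →+* K)

end props

section frame

variable {R K : Type} [CommRing R] [IsDomain R] [IsDiscreteValuationRing R] [Field K] [CharZero K]
  [Algebra R K] [IsFractionRing R K] [Algebra K Q̄] [Algebra.IsAlgebraic K Q̄]
  (M' M : ℕ) [NeZero M'] [NeZero M]
  [Algebra R ↥(modularFunctionFieldFullC K M')]
  [IsScalarTower R K ↥(modularFunctionFieldFullC K M')]
  [Algebra R ↥(modularFunctionFieldFullC K M)]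
  [IsScalarTower R K ↥(modularFunctionFieldFullC K M)]

/-- **(C), level 2**: `s34i47_ChartProps` for `W = V_∞ ⊓ V₀` at the bad level `M`. -/
theorem cm15_chartProps_level2 (hdvd : M' ∣ M) {π : R} (hπ : Irreducible π) (h2 : 2 ∣ M')
    (hMu : IsUnit (M' : R)) (V₀ : ValuationSubring ↥(modularFunctionFieldFullC K M))
    (hRV₀ : ∀ r : R, algebraMap R ↥(modularFunctionFieldFullC K M) r ∈ V₀)
    (hh₀ : pk85_h2 K M (h2.trans hdvd) ∈ V₀) (hh₀' : (pk85_h2 K M (h2.trans hdvd))⁻¹ ∈ V₀)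
    (hWint : cm15_WInt R K M' M hdvd hπ (wa5_W (cm85_Vinf (K := K) M hπ) V₀)) :
    s34i47_ChartProps K π (wa5_W (cm85_Vinf (K := K) M hπ) V₀) (pk85_h2 K M (h2.trans hdvd)) := by
  have hfacts := cm85_facts_level2 (R := R) (K := K) M hπ (h2.trans hdvd)
  obtain ⟨hs₁, hs₂, hs₁₂⟩ := cm15_sat_level2 (R := R) (K := K) M' M hdvd hπ h2 hMu _ hWint
  exact cm15_chartProps_of M _ _ hfacts _
    (cm15_chart12_le_W M _ _ V₀ hfacts hRV₀ hh₀ hh₀') hs₁ hs₂ hs₁₂

/-- **(C), level 3**: `s34i47_ChartProps` for `W = V_∞ ⊓ V₀` at the bad level `M`. -/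
theorem cm15_chartProps_level3 (hdvd : M' ∣ M) {π : R} (hπ : Irreducible π) (h3 : 3 ∣ M')
    (hMu : IsUnit (M' : R)) (V₀ : ValuationSubring ↥(modularFunctionFieldFullC K M))
    (hRV₀ : ∀ r : R, algebraMap R ↥(modularFunctionFieldFullC K M) r ∈ V₀)
    (hh₀ : pk85_h3 K M (h3.trans hdvd) ∈ V₀) (hh₀' : (pk85_h3 K M (h3.trans hdvd))⁻¹ ∈ V₀)
    (hWint : cm15_WInt R K M' M hdvd hπ (wa5_W (cm85_Vinf (K := K) M hπ) V₀)) :
    s34i47_ChartProps K π (wa5_W (cm85_Vinf (K := K) M hπ) V₀) (pk85_h3 K M (h3.trans hdvd)) := by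
  have hfacts := cm85_facts_level3 (R := R) (K := K) M hπ (h3.trans hdvd)
  obtain ⟨hs₁, hs₂, hs₁₂⟩ := cm15_sat_level3 (R := R) (K := K) M' M hdvd hπ h3 hMu _ hWint
  exact cm15_chartProps_of M _ _ hfacts _
    (cm15_chart12_le_W M _ _ V₀ hfacts hRV₀ hh₀ hh₀') hs₁ hs₂ hs₁₂

/-- **The chart half of the FRAME, level 2**: (W), (C) and `σ h = h`, in the order of
`s34i47_Frame`. -/
theorem cm15_frame_chart_level2 (hdvd : M' ∣ M) {π : R} (hπ : Irreducible π) (h2 : 2 ∣ M')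
    (hMu : IsUnit (M' : R)) (V₀ : ValuationSubring ↥(modularFunctionFieldFullC K M))
    (hRV₀ : ∀ r : R, algebraMap R ↥(modularFunctionFieldFullC K M) r ∈ V₀)
    (hπV₀ : (algebraMap R ↥(modularFunctionFieldFullC K M) π)⁻¹ ∉ V₀)
    (hh₀ : pk85_h2 K M (h2.trans hdvd) ∈ V₀) (hh₀' : (pk85_h2 K M (h2.trans hdvd))⁻¹ ∈ V₀)
    (hWint : cm15_WInt R K M' M hdvd hπ (wa5_W (cm85_Vinf (K := K) M hπ) V₀)) :
    s34i47_WProps π (wa5_W (cm85_Vinf (K := K) M hπ) V₀) ∧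
      s34i47_ChartProps K π (wa5_W (cm85_Vinf (K := K) M hπ) V₀) (pk85_h2 K M (h2.trans hdvd)) ∧
      ∀ σ : K ≃+* K, s34i47_coeffEquiv σ M (pk85_h2 K M (h2.trans hdvd)) =
        pk85_h2 K M (h2.trans hdvd) :=
  ⟨cm15_WProps M _ _ V₀ (cm85_facts_level2 (R := R) (K := K) M hπ (h2.trans hdvd)) hRV₀ hπV₀,
    cm15_chartProps_level2 M' M hdvd hπ h2 hMu V₀ hRV₀ hh₀ hh₀' hWint,
    fun σ => cm15_coeffEquiv_h2 M σ _⟩

/-- **The chart half of the FRAME, level 3.** -/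
theorem cm15_frame_chart_level3 (hdvd : M' ∣ M) {π : R} (hπ : Irreducible π) (h3 : 3 ∣ M')
    (hMu : IsUnit (M' : R)) (V₀ : ValuationSubring ↥(modularFunctionFieldFullC K M))
    (hRV₀ : ∀ r : R, algebraMap R ↥(modularFunctionFieldFullC K M) r ∈ V₀)
    (hπV₀ : (algebraMap R ↥(modularFunctionFieldFullC K M) π)⁻¹ ∉ V₀)
    (hh₀ : pk85_h3 K M (h3.trans hdvd) ∈ V₀) (hh₀' : (pk85_h3 K M (h3.trans hdvd))⁻¹ ∈ V₀)
    (hWint : cm15_WInt R K M' M hdvd hπ (wa5_W (cm85_Vinf (K := K) M hπ) V₀)) :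
    s34i47_WProps π (wa5_W (cm85_Vinf (K := K) M hπ) V₀) ∧
      s34i47_ChartProps K π (wa5_W (cm85_Vinf (K := K) M hπ) V₀) (pk85_h3 K M (h3.trans hdvd)) ∧
      ∀ σ : K ≃+* K, s34i47_coeffEquiv σ M (pk85_h3 K M (h3.trans hdvd)) =
        pk85_h3 K M (h3.trans hdvd) :=
  ⟨cm15_WProps M _ _ V₀ (cm85_facts_level3 (R := R) (K := K) M hπ (h3.trans hdvd)) hRV₀ hπV₀,
    cm15_chartProps_level3 M' M hdvd hπ h3 hMu V₀ hRV₀ hh₀ hh₀' hWint,
    fun σ => cm15_coeffEquiv_h3 M σ _⟩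

end frame

end Fermat.Agent.S34
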