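import Fermat.Agent.S34.AtkinLehnerL97
import Fermat.Agent.S34.ChartM15c
import Fermat.Agent.S34.OnlyExt18
import Fermat.Agent.S37.KroneckerFrob50
import Fermat.Agent.S42.GaloisK1_41

/-!
# S34 lab, rows 465 / 466 (helper73, twin): the second valuation `V₀ = w^* V_∞` at level `N ℓ`,
# "only extensions", and the chart half of the FRAME, unconditionally

`R` a discrete valuation ring with fraction field `K` (characteristic zero), `φ : K →+* ℚ̄`,
`ℓ` a prime not dividing `N`, `V_∞ = cm85_Vinf (N * ℓ)` the Gauss valuation ring of the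
`q`-expansion on `F = F(N ℓ)_K`, `w = al97L_w φ N ℓ` the Atkin–Lehner involution (helper97),
`V' = cm85_Vinf N` the Gauss ring of level `N`, `α, β = al97L_alpha, al97L_beta`.

* `alv73_V0` : `V₀ := V_∞.comap w`  (`alv73_mem_V0`, `alv73_w_mem_V0`);
* `alv73_algebraMap_mem`, `alv73_pi_inv_not_mem`, `alv73_hmax` : `R ⊆ V₀`, `π⁻¹ ∉ V₀`,
  `m_{V₀} = π V₀`  (no hypothesis on the residue characteristic);
* `alv73_alpha_mem_Vinf_iff`, `alv73_beta_mem_Vinf_iff`, `alv73_alpha_mem_V0_iff`,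
  `alv73_beta_mem_V0_iff` : `α^* V_∞ = β^* V_∞ = α^* V₀ = β^* V₀ = V'`;
* `alv73_h2_mem`, `alv73_h3_mem` : the Hauptmoduln and their inverses lie in `V₀`;
* residue characteristic `ℓ` (`¬ IsUnit (ℓ : R)`):
  `alv73_kummer_V0` (`(β j)^ℓ ≡ α j mod π V₀`), `alv73_kummer_not_Vinf`, `alv73_ne` (`V_∞ ≠ V₀`),
  `alv73_not_pow_V` (`j` is not an `ℓ`-th power in the residue field of `V'`),
  `alv73_harch` (the Gauss valuation has rank one), `alv73_finrank` (`[F(Nℓ) : F(N)] = ℓ + 1`);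
* `alv73_main` (instance of `oe18_main`, helper18): `V_∞`, `V₀` are the ONLY valuation rings of
  `F(N ℓ)_K` over `V'` not containing `π⁻¹`; `V_∞ ⊓ V₀` is integral over `V'`; the residue field of
  `V_∞` is that of `V'` along `α`;  `alv73_res_V0` : the residue field of `V₀` is that of `V'`
  along `β`;
* `alv73_WInt` : the literal hypothesis `cm15_WInt` of helper15's `cm15_frame_chart_level2/3`;
* `alv73_frame_chart_level2`, `alv73_frame_chart_level3` : `s34i47_WProps`, `s34i47_ChartProps`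
  and `σ h = h` for `W = wa5_W V_∞ V₀` at level `N ℓ`, with NO remaining hypothesis besides
  `p₀ ∣ N`, `IsUnit (N : R)`, `¬ IsUnit (ℓ : R)`.

All names are prefixed `alv73_`.
-/

set_option autoImplicit false
set_option linter.unusedSectionVars false
set_option linter.style.haveILetI false

namespace Fermat.Agent.S34

open ModularCurve AlgebraicCurve IntermediateField
open Fermat.Agent.S24 Fermat.Agent.S37 Fermat.Agent.S18

local notation "Q̄" => AlgebraicClosure ℚ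

section alv73_abs

/-- Two valuation subrings `V ≤ V'` with `p⁻¹ ∉ V'` and `m_V = p V` are equal. -/
theorem alv73_le_of_le {F : Type*} [Field F] (V V' : ValuationSubring F) (p : F)
    (hle : V ≤ V') (hp : p⁻¹ ∉ V') (hmax : ∀ x ∈ V, x⁻¹ ∉ V → p⁻¹ * x ∈ V) : V' ≤ V := by
  intro x hx
  by_contra hxV
  have hxinv : x⁻¹ ∈ V := (V.mem_or_inv_mem x).resolve_left hxV
  have h1 : p⁻¹ * x⁻¹ ∈ V := hmax x⁻¹ hxinv (by rwa [inv_inv])
  have hx0 : x ≠ 0 := by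
    rintro rfl
    exact hxV V.zero_mem
  apply hp
  have h2 : p⁻¹ = p⁻¹ * x⁻¹ * x := by
    rw [mul_assoc, inv_mul_cancel₀ hx0, mul_one]
  rw [h2]
  exact V'.mul_mem _ _ (hle h1) hx

end alv73_abs

section alv73_gauss

variable {R K : Type} [CommRing R] [IsDomain R] [IsDiscreteValuationRing R] [Field K]
  [Algebra R K] [IsFractionRing R K]

/-- Membership in the Gauss ring, unfolded. -/
theorem alv73_mem_Vinf (M : ℕ) {π : R} (hπ : Irreducible π)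
    (x : ↥(modularFunctionFieldFullC K M)) :
    x ∈ cm85_Vinf (K := K) M hπ ↔ ∃ s t : LaurentSeries R,
      coeffMap (IsLocalRing.residue R) s ≠ 0 ∧
      coeffMap (algebraMap R K) s * (x : LaurentSeries K) = coeffMap (algebraMap R K) t :=
  Iff.rfl

/-- Membership in the Gauss ring depends only on the `q`-expansion, not on the level. -/
theorem alv73_mem_Vinf_congr (M₁ M₂ : ℕ) {π : R} (hπ : Irreducible π)
    (x : ↥(modularFunctionFieldFullC K M₁)) (y : ↥(modularFunctionFieldFullC K M₂))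
    (hxy : (x : LaurentSeries K) = (y : LaurentSeries K)) :
    x ∈ cm85_Vinf (K := K) M₁ hπ ↔ y ∈ cm85_Vinf (K := K) M₂ hπ := by
  rw [alv73_mem_Vinf, alv73_mem_Vinf, hxy]

/-- The substitution `q ↦ q^ℓ` maps the Gauss ring into the Gauss ring. -/
theorem alv73_qExpand_mem (M₁ M₂ ℓ : ℕ) [NeZero ℓ] {π : R} (hπ : Irreducible π)
    (x : ↥(modularFunctionFieldFullC K M₁)) (y : ↥(modularFunctionFieldFullC K M₂))
    (hxy : (y : LaurentSeries K) = qExpand K ℓ (x : LaurentSeries K))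
    (hx : x ∈ cm85_Vinf (K := K) M₁ hπ) : y ∈ cm85_Vinf (K := K) M₂ hπ := by
  obtain ⟨s, t, hs, hst⟩ := hx
  refine ⟨qExpand R ℓ s, qExpand R ℓ t, ?_, ?_⟩
  · rw [coeffMap_qExpand]
    intro h0
    exact hs (qExpand_injective ℓ (by rw [h0, map_zero]))
  · rw [coeffMap_qExpand, coeffMap_qExpand, hxy, ← map_mul, hst]

/-- The constant `π` as an element of `F(M)_K`. -/
noncomputable def alv73_pi (K : Type) [Field K] [Algebra R K] (M : ℕ) (π : R) :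
    ↥(modularFunctionFieldFullC K M) :=
  algebraMap K ↥(modularFunctionFieldFullC K M) (algebraMap R K π)

theorem alv73_pi_mem (M : ℕ) {π : R} (hπ : Irreducible π) :
    alv73_pi K M π ∈ cm85_Vinf (K := K) M hπ := by
  refine gv85_mem_V_of_integral _ _ _ _ (HahnSeries.C π) ?_
  rw [alv73_pi, gv85_coe_algebraMap, gv85_coeffMap_C]

theorem alv73_pi_inv_not_mem_Vinf (M : ℕ) {π : R} (hπ : Irreducible π) :
    (alv73_pi K M π)⁻¹ ∉ cm85_Vinf (K := K) M hπ :=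
  gv85_pi_inv_not_mem (IsLocalRing.residue R) π (pk85_res_iff hπ) hπ.ne_zero _ _

theorem alv73_hmax_Vinf (M : ℕ) {π : R} (hπ : Irreducible π)
    (x : ↥(modularFunctionFieldFullC K M)) (hx : x ∈ cm85_Vinf (K := K) M hπ)
    (hx' : x⁻¹ ∉ cm85_Vinf (K := K) M hπ) :
    (alv73_pi K M π)⁻¹ * x ∈ cm85_Vinf (K := K) M hπ :=
  gv85_hmax (IsLocalRing.residue R) π (pk85_res_iff hπ) hπ.ne_zero _ _ x hx hx'

theorem alv73_pi_eq (M : ℕ) [Algebra R ↥(modularFunctionFieldFullC K M)]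
    [IsScalarTower R K ↥(modularFunctionFieldFullC K M)] (π : R) :
    algebraMap R ↥(modularFunctionFieldFullC K M) π = alv73_pi K M π :=
  IsScalarTower.algebraMap_apply R K ↥(modularFunctionFieldFullC K M) π

end alv73_gauss

section alv73_V0

variable {R K : Type} [CommRing R] [IsDomain R] [IsDiscreteValuationRing R] [Field K]
  [Algebra R K] [IsFractionRing R K]
variable (φ : K →+* Q̄) (N ℓ : ℕ) [NeZero N] [NeZero ℓ] (hℓ : ℓ.Prime) (hN : ¬ ℓ ∣ N)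

/-- **The second valuation ring** `V₀ = w^* V_∞` of `F(N ℓ)_K`. -/
noncomputable def alv73_V0 {π : R} (hπ : Irreducible π) :
    ValuationSubring ↥(modularFunctionFieldFullC K (N * ℓ)) :=
  (cm85_Vinf (K := K) (N * ℓ) hπ).comap (al97L_w φ N ℓ hℓ hN).toRingEquiv.toRingHom

theorem alv73_mem_V0 {π : R} (hπ : Irreducible π) (x : ↥(modularFunctionFieldFullC K (N * ℓ))) :
    x ∈ alv73_V0 φ N ℓ hℓ hN hπ ↔ al97L_w φ N ℓ hℓ hN x ∈ cm85_Vinf (K := K) (N * ℓ) hπ :=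
  Iff.rfl

theorem alv73_w_pi (π : R) :
    al97L_w φ N ℓ hℓ hN (alv73_pi K (N * ℓ) π) = alv73_pi K (N * ℓ) π :=
  (al97L_w φ N ℓ hℓ hN).commutes _

/-- `w` exchanges `V_∞` and `V₀`. -/
theorem alv73_w_mem_V0 {π : R} (hπ : Irreducible π) (x : ↥(modularFunctionFieldFullC K (N * ℓ))) :
    al97L_w φ N ℓ hℓ hN x ∈ alv73_V0 φ N ℓ hℓ hN hπ ↔ x ∈ cm85_Vinf (K := K) (N * ℓ) hπ := by
  rw [alv73_mem_V0, al97L_w_w]

theorem alv73_pi_mem_V0 {π : R} (hπ : Irreducible π) :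
    alv73_pi K (N * ℓ) π ∈ alv73_V0 φ N ℓ hℓ hN hπ := by
  rw [alv73_mem_V0, alv73_w_pi]
  exact alv73_pi_mem (N * ℓ) hπ

theorem alv73_pi_inv_not_mem_V0 {π : R} (hπ : Irreducible π) :
    (alv73_pi K (N * ℓ) π)⁻¹ ∉ alv73_V0 φ N ℓ hℓ hN hπ := by
  rw [alv73_mem_V0, map_inv₀, alv73_w_pi]
  exact alv73_pi_inv_not_mem_Vinf (N * ℓ) hπ

theorem alv73_hmax_V0 {π : R} (hπ : Irreducible π)
    (x : ↥(modularFunctionFieldFullC K (N * ℓ))) (hx : x ∈ alv73_V0 φ N ℓ hℓ hN hπ)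
    (hx' : x⁻¹ ∉ alv73_V0 φ N ℓ hℓ hN hπ) :
    (alv73_pi K (N * ℓ) π)⁻¹ * x ∈ alv73_V0 φ N ℓ hℓ hN hπ := by
  rw [alv73_mem_V0] at hx hx' ⊢
  rw [map_inv₀] at hx'
  rw [map_mul, map_inv₀, alv73_w_pi]
  exact alv73_hmax_Vinf (N * ℓ) hπ _ hx hx'

/-- `α^* V_∞` is the Gauss ring of level `N`. -/
theorem alv73_alpha_mem_Vinf_iff {π : R} (hπ : Irreducible π)
    (x : ↥(modularFunctionFieldFullC K N)) :
    al97L_alpha K N ℓ x ∈ cm85_Vinf (K := K) (N * ℓ) hπ ↔ x ∈ cm85_Vinf (K := K) N hπ :=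
  alv73_mem_Vinf_congr _ _ hπ _ _ (al97L_alpha_coe K N ℓ x)

/-- `β^* V_∞` is the Gauss ring of level `N`. -/
theorem alv73_beta_mem_Vinf_iff {π : R} (hπ : Irreducible π)
    (x : ↥(modularFunctionFieldFullC K N)) :
    al97L_beta K N ℓ x ∈ cm85_Vinf (K := K) (N * ℓ) hπ ↔ x ∈ cm85_Vinf (K := K) N hπ := by
  refine ⟨fun hx => ?_, fun hx => alv73_qExpand_mem N (N * ℓ) ℓ hπ x _ (al97L_beta_coe K N ℓ x) hx⟩
  have hle : cm85_Vinf (K := K) N hπ ≤
      (cm85_Vinf (K := K) (N * ℓ) hπ).comap (al97L_beta K N ℓ).toRingHom := fun y hy =>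
    alv73_qExpand_mem N (N * ℓ) ℓ hπ y _ (al97L_beta_coe K N ℓ y) hy
  have hp : (alv73_pi K N π)⁻¹ ∉
      (cm85_Vinf (K := K) (N * ℓ) hπ).comap (al97L_beta K N ℓ).toRingHom := by
    intro h
    have h1 : al97L_beta K N ℓ (alv73_pi K N π)⁻¹ ∈ cm85_Vinf (K := K) (N * ℓ) hπ := h
    rw [map_inv₀] at h1
    have h2 : al97L_beta K N ℓ (alv73_pi K N π) = alv73_pi K (N * ℓ) π :=
      (al97L_beta K N ℓ).commutes _
    rw [h2] at h1
    exact alv73_pi_inv_not_mem_Vinf (N * ℓ) hπ h1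
  exact alv73_le_of_le _ _ _ hle hp (alv73_hmax_Vinf N hπ) hx

/-- `α^* V₀` is the Gauss ring of level `N`. -/
theorem alv73_alpha_mem_V0_iff {π : R} (hπ : Irreducible π)
    (x : ↥(modularFunctionFieldFullC K N)) :
    al97L_alpha K N ℓ x ∈ alv73_V0 φ N ℓ hℓ hN hπ ↔ x ∈ cm85_Vinf (K := K) N hπ := by
  rw [alv73_mem_V0, al97L_w_alpha_apply]
  exact alv73_beta_mem_Vinf_iff N ℓ hπ x

/-- `β^* V₀` is the Gauss ring of level `N`. -/
theorem alv73_beta_mem_V0_iff {π : R} (hπ : Irreducible π)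
    (x : ↥(modularFunctionFieldFullC K N)) :
    al97L_beta K N ℓ x ∈ alv73_V0 φ N ℓ hℓ hN hπ ↔ x ∈ cm85_Vinf (K := K) N hπ := by
  rw [alv73_mem_V0, al97L_w_beta_apply]
  exact alv73_alpha_mem_Vinf_iff N ℓ hπ x

/-- An element of level `N` lies in `V₀` iff it lies in `V_∞`. -/
theorem alv73_old_mem_V0_iff {π : R} (hπ : Irreducible π)
    (y : ↥(modularFunctionFieldFullC K (N * ℓ)))
    (hy : (y : LaurentSeries K) ∈ modularFunctionFieldFullC K N) :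
    y ∈ alv73_V0 φ N ℓ hℓ hN hπ ↔ y ∈ cm85_Vinf (K := K) (N * ℓ) hπ := by
  have h1 : y = al97L_alpha K N ℓ ⟨(y : LaurentSeries K), hy⟩ :=
    Subtype.ext (al97L_alpha_coe K N ℓ ⟨(y : LaurentSeries K), hy⟩).symm
  rw [h1, alv73_alpha_mem_V0_iff, alv73_alpha_mem_Vinf_iff]

end alv73_V0

section alv73_R

variable {R K : Type} [CommRing R] [IsDomain R] [IsDiscreteValuationRing R] [Field K]
  [Algebra R K] [IsFractionRing R K]
variable (φ : K →+* Q̄) (N ℓ : ℕ) [NeZero N] [NeZero ℓ] (hℓ : ℓ.Prime) (hN : ¬ ℓ ∣ N)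
variable [Algebra R ↥(modularFunctionFieldFullC K (N * ℓ))]
  [IsScalarTower R K ↥(modularFunctionFieldFullC K (N * ℓ))]

theorem alv73_w_algebraMap (r : R) :
    al97L_w φ N ℓ hℓ hN (algebraMap R ↥(modularFunctionFieldFullC K (N * ℓ)) r) =
      algebraMap R ↥(modularFunctionFieldFullC K (N * ℓ)) r := by
  rw [IsScalarTower.algebraMap_apply R K ↥(modularFunctionFieldFullC K (N * ℓ))]
  exact (al97L_w φ N ℓ hℓ hN).commutes _

/-- `R ⊆ V₀`. -/
theorem alv73_algebraMap_mem {π : R} (hπ : Irreducible π) (r : R) :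
    algebraMap R ↥(modularFunctionFieldFullC K (N * ℓ)) r ∈ alv73_V0 φ N ℓ hℓ hN hπ := by
  rw [alv73_mem_V0, alv73_w_algebraMap]
  exact pk85_hRV (N * ℓ) hπ r

/-- `π⁻¹ ∉ V₀`. -/
theorem alv73_pi_inv_not_mem {π : R} (hπ : Irreducible π) :
    (algebraMap R ↥(modularFunctionFieldFullC K (N * ℓ)) π)⁻¹ ∉ alv73_V0 φ N ℓ hℓ hN hπ := by
  rw [alv73_pi_eq]
  exact alv73_pi_inv_not_mem_V0 φ N ℓ hℓ hN hπ

/-- `m_{V₀} = π V₀`. -/
theorem alv73_hmax {π : R} (hπ : Irreducible π)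
    (x : ↥(modularFunctionFieldFullC K (N * ℓ))) (hx : x ∈ alv73_V0 φ N ℓ hℓ hN hπ)
    (hx' : x⁻¹ ∉ alv73_V0 φ N ℓ hℓ hN hπ) :
    (algebraMap R ↥(modularFunctionFieldFullC K (N * ℓ)) π)⁻¹ * x ∈ alv73_V0 φ N ℓ hℓ hN hπ := by
  rw [alv73_pi_eq]
  exact alv73_hmax_V0 φ N ℓ hℓ hN hπ x hx hx'

variable [CharZero K]

/-- The Hauptmodul of level `2` and its inverse lie in `V₀`. -/
theorem alv73_h2_mem {π : R} (hπ : Irreducible π) (h2 : 2 ∣ N) :
    pk85_h2 K (N * ℓ) (h2.trans (dvd_mul_right N ℓ)) ∈ alv73_V0 φ N ℓ hℓ hN hπ ∧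
      (pk85_h2 K (N * ℓ) (h2.trans (dvd_mul_right N ℓ)))⁻¹ ∈ alv73_V0 φ N ℓ hℓ hN hπ := by
  obtain ⟨-, -, -, -, hh, hh', -⟩ :=
    cm85_facts_level2 (R := R) (K := K) (N * ℓ) hπ (h2.trans (dvd_mul_right N ℓ))
  constructor
  · rw [alv73_old_mem_V0_iff φ N ℓ hℓ hN hπ _ (pk85_h2 K N h2).2]
    exact hh
  · rw [alv73_old_mem_V0_iff φ N ℓ hℓ hN hπ _ ((pk85_h2 K N h2)⁻¹).2]
    exact hh'

/-- The Hauptmodul of level `3` and its inverse lie in `V₀`. -/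
theorem alv73_h3_mem {π : R} (hπ : Irreducible π) (h3 : 3 ∣ N) :
    pk85_h3 K (N * ℓ) (h3.trans (dvd_mul_right N ℓ)) ∈ alv73_V0 φ N ℓ hℓ hN hπ ∧
      (pk85_h3 K (N * ℓ) (h3.trans (dvd_mul_right N ℓ)))⁻¹ ∈ alv73_V0 φ N ℓ hℓ hN hπ := by
  obtain ⟨-, -, -, -, hh, hh', -⟩ :=
    cm85_facts_level3 (R := R) (K := K) (N * ℓ) hπ (h3.trans (dvd_mul_right N ℓ))
  constructor
  · rw [alv73_old_mem_V0_iff φ N ℓ hℓ hN hπ _ (pk85_h3 K N h3).2]
    exact hh
  · rw [alv73_old_mem_V0_iff φ N ℓ hℓ hN hπ _ ((pk85_h3 K N h3)⁻¹).2]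
    exact hh'

end alv73_R

section alv73_frob

variable {R K : Type} [CommRing R] [IsDomain R] [IsDiscreteValuationRing R] [Field K]
  [Algebra R K] [IsFractionRing R K]

theorem alv73_charP {ℓ : ℕ} (hℓ : ℓ.Prime) (hℓR : ¬ IsUnit (ℓ : R)) :
    CharP (IsLocalRing.ResidueField R) ℓ := by
  have h0 : ((ℓ : ℕ) : IsLocalRing.ResidueField R) = 0 := by
    have h1 : IsLocalRing.residue R (ℓ : R) = 0 :=
      (IsLocalRing.residue_eq_zero_iff _).mpr ((IsLocalRing.mem_maximalIdeal _).mpr hℓR)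
    simpa using h1
  exact (CharP.charP_iff_prime_eq_zero hℓ).mpr h0

/-- `j^ℓ = j(q^ℓ)` in characteristic `ℓ`. -/
theorem alv73_jbar_pow (κ : Type*) [Field κ] (ℓ : ℕ) [NeZero ℓ] [CharP κ ℓ] (hℓ : ℓ.Prime) :
    jqModC κ ^ ℓ = qExpand κ ℓ (jqModC κ) := by
  haveI : Fact ℓ.Prime := ⟨hℓ⟩
  haveI : ExpChar κ ℓ := ExpChar.prime hℓ
  rw [kr50_pow_char ℓ (jqModC κ)]
  congr 1
  rw [← coeffMap_jqModC (Int.castRingHom κ), coeffMap_coeffMap]
  exact coeffMap_congr (RingHom.ext_int _ _) _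

theorem alv73_order_jbar (κ : Type*) [Field κ] : (jqModC κ).order = -1 := by
  have hne : jqModC κ ≠ 0 := jqModC_ne_zero_of_nontrivial κ
  apply le_antisymm
  · exact HahnSeries.order_le_of_coeff_ne_zero (by rw [coeff_jqModC_neg_one]; exact one_ne_zero)
  · rw [HahnSeries.le_order_iff_forall hne]
    intro j hj
    exact coeff_jqModC_of_lt κ hj

/-- `j` is not an `ℓ`-th power times an `ℓ`-th power quotient in `κ((q))`. -/
theorem alv73_not_pow (κ : Type*) [Field κ] {ℓ : ℕ} (hℓ : ℓ.Prime) (S T : LaurentSeries κ)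
    (hS : S ≠ 0) (h : T ^ ℓ = S ^ ℓ * jqModC κ) : False := by
  have hj : jqModC κ ≠ 0 := jqModC_ne_zero_of_nontrivial κ
  have hT : T ≠ 0 := by
    rintro rfl
    rw [zero_pow hℓ.ne_zero] at h
    exact mul_ne_zero (pow_ne_zero _ hS) hj h.symm
  have h1 := congrArg HahnSeries.order h
  rw [HahnSeries.order_mul (pow_ne_zero _ hS) hj, HahnSeries.order_pow, HahnSeries.order_pow,
    alv73_order_jbar, nsmul_eq_mul, nsmul_eq_mul] at h1
  have h2 : (ℓ : ℤ) ∣ 1 := ⟨S.order - T.order, by linarith⟩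
  have h3 : ℓ ∣ 1 := by exact_mod_cast h2
  exact hℓ.one_lt.ne' (Nat.dvd_one.mp h3)

end alv73_frob

section alv73_witness

variable {R K : Type} [CommRing R] [IsDomain R] [IsDiscreteValuationRing R] [Field K]
  [Algebra R K] [IsFractionRing R K]
variable (φ : K →+* Q̄) (N ℓ : ℕ) [NeZero N] [NeZero ℓ] (hℓ : ℓ.Prime) (hN : ¬ ℓ ∣ N)

/-- `j ∈ V'`. -/
theorem alv73_j_mem (M : ℕ) {π : R} (hπ : Irreducible π) :
    rm90_j K M ∈ cm85_Vinf (K := K) M hπ :=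
  gv85_mem_V_of_integral _ _ _ _ (jqModC R) (coeffMap_jqModC (algebraMap R K)).symm

/-- `β j ∈ V₀`. -/
theorem alv73_beta_j_mem {π : R} (hπ : Irreducible π) :
    al97L_beta K N ℓ (rm90_j K N) ∈ alv73_V0 φ N ℓ hℓ hN hπ :=
  (alv73_beta_mem_V0_iff φ N ℓ hℓ hN hπ _).mpr (alv73_j_mem N hπ)

/-- **Kummer witness**: `(β j)^ℓ ≡ α j` modulo `π V₀` (Kronecker congruence transported by `w`). -/
theorem alv73_kummer_V0 {π : R} (hπ : Irreducible π) (hℓR : ¬ IsUnit (ℓ : R)) :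
    (alv73_pi K (N * ℓ) π)⁻¹ * (al97L_beta K N ℓ (rm90_j K N) ^ ℓ -
      al97L_alpha K N ℓ (rm90_j K N)) ∈ alv73_V0 φ N ℓ hℓ hN hπ := by
  rw [alv73_mem_V0, map_mul, map_inv₀, alv73_w_pi, map_sub, map_pow, al97L_w_beta_apply,
    al97L_w_alpha_apply]
  haveI : CharP (IsLocalRing.ResidueField R) ℓ := alv73_charP hℓ hℓR
  refine (gv85_gauss (IsLocalRing.residue R) π (pk85_res_iff hπ) hπ.ne_zero _ _
    (al97L_alpha K N ℓ (rm90_j K N) ^ ℓ - al97L_beta K N ℓ (rm90_j K N))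
    (jqModC R ^ ℓ - qExpand R ℓ (jqModC R)) ?_).mpr ?_
  · rw [map_sub, map_pow, coeffMap_qExpand, coeffMap_jqModC]
    rfl
  · rw [map_sub, map_pow, coeffMap_qExpand, coeffMap_jqModC,
      alv73_jbar_pow (IsLocalRing.ResidueField R) ℓ hℓ, sub_self]

include hℓ in
/-- The same element is NOT in `π V_∞`. -/
theorem alv73_kummer_not_Vinf {π : R} (hπ : Irreducible π) :
    (alv73_pi K (N * ℓ) π)⁻¹ * (al97L_beta K N ℓ (rm90_j K N) ^ ℓ -
      al97L_alpha K N ℓ (rm90_j K N)) ∉ cm85_Vinf (K := K) (N * ℓ) hπ := by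
  intro hmem
  have h1 := (gv85_gauss (IsLocalRing.residue R) π (pk85_res_iff hπ) hπ.ne_zero _ _
    (al97L_beta K N ℓ (rm90_j K N) ^ ℓ - al97L_alpha K N ℓ (rm90_j K N))
    (qExpand R ℓ (jqModC R) ^ ℓ - jqModC R) (by
      rw [map_sub, map_pow, coeffMap_qExpand, coeffMap_jqModC]
      rfl)).mp hmem
  rw [map_sub, map_pow, coeffMap_qExpand, coeffMap_jqModC, ← map_pow] at h1
  have h2 := congrArg (fun z => z.coeff (-1 : ℤ)) h1
  have hnd : ¬ ((ℓ : ℤ) ∣ (-1 : ℤ)) := by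
    intro hd
    have h3 : (ℓ : ℤ) ∣ 1 := (dvd_neg).mp hd
    have h4 : ℓ ∣ 1 := by exact_mod_cast h3
    exact hℓ.one_lt.ne' (Nat.dvd_one.mp h4)
  simp only [HahnSeries.coeff_sub, HahnSeries.coeff_zero] at h2
  rw [qExpand_coeff_of_not_dvd ℓ _ hnd, coeff_jqModC_neg_one, zero_sub, neg_eq_zero] at h2
  exact one_ne_zero h2

/-- `V_∞ ≠ V₀`. -/
theorem alv73_ne {π : R} (hπ : Irreducible π) (hℓR : ¬ IsUnit (ℓ : R)) :
    cm85_Vinf (K := K) (N * ℓ) hπ ≠ alv73_V0 φ N ℓ hℓ hN hπ := by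
  intro h
  apply alv73_kummer_not_Vinf (K := K) N ℓ hℓ hπ
  rw [h]
  exact alv73_kummer_V0 φ N ℓ hℓ hN hπ hℓR

include hℓ in
/-- `j` is not an `ℓ`-th power in the residue field of the Gauss ring. -/
theorem alv73_not_pow_V (M : ℕ) {π : R} (hπ : Irreducible π)
    (b : ↥(modularFunctionFieldFullC K M)) (hb : b ∈ cm85_Vinf (K := K) M hπ) :
    (alv73_pi K M π)⁻¹ * (b ^ ℓ - rm90_j K M) ∉ cm85_Vinf (K := K) M hπ := by
  rintro ⟨s', t', hs', hst'⟩
  obtain ⟨s, t, hs, hst⟩ := hb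
  have hπK : algebraMap R K π ≠ 0 := fun h =>
    hπ.ne_zero (IsFractionRing.injective R K (by rw [h, map_zero]))
  have hC0 : (HahnSeries.C (algebraMap R K π) : LaurentSeries K) ≠ 0 := HahnSeries.C_ne_zero hπK
  have h1 : (((alv73_pi K M π)⁻¹ * (b ^ ℓ - rm90_j K M) :
      ↥(modularFunctionFieldFullC K M)) : LaurentSeries K) =
      (HahnSeries.C (algebraMap R K π))⁻¹ * ((b : LaurentSeries K) ^ ℓ - jqModC K) :=
    gv85_coe_inv_mul _ _ _
  rw [h1] at hst'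
  have h2 : coeffMap (algebraMap R K) (s' * (t ^ ℓ - s ^ ℓ * jqModC R)) =
      coeffMap (algebraMap R K) (HahnSeries.C π * (t' * s ^ ℓ)) := by
    rw [map_mul, map_sub, map_pow, map_mul, map_pow, coeffMap_jqModC, map_mul, map_mul, map_pow,
      gv85_coeffMap_C, ← hst, ← hst']
    field_simp
    ring
  have h3 := gv85_emb_injective h2
  have h4 : coeffMap (IsLocalRing.residue R) s' *
      (coeffMap (IsLocalRing.residue R) t ^ ℓ - coeffMap (IsLocalRing.residue R) s ^ ℓ *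
        jqModC (IsLocalRing.ResidueField R)) = 0 := by
    have h5 := congrArg (coeffMap (IsLocalRing.residue R)) h3
    rw [gv85_red_C_mul (IsLocalRing.residue R) π (pk85_res_iff hπ), map_mul, map_sub, map_pow,
      map_mul, map_pow, coeffMap_jqModC] at h5
    exact h5
  have h6 := sub_eq_zero.mp ((mul_eq_zero.mp h4).resolve_left hs')
  exact alv73_not_pow (IsLocalRing.ResidueField R) hℓ _ _ hs h6

/-- The Gauss valuation is of rank one: no nonzero element is divisible by all powers of `π`. -/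
theorem alv73_harch (M : ℕ) {π : R} (hπ : Irreducible π)
    (x : ↥(modularFunctionFieldFullC K M)) (hx : x ≠ 0) :
    ∃ n : ℕ, (alv73_pi K M π ^ n)⁻¹ * x ∉ cm85_Vinf (K := K) M hπ := by
  obtain ⟨a, b, c, hc, ha, hb, hab⟩ := pk85_HF K M hπ x hx
  obtain ⟨r₁, r₂, hr₂, hr⟩ := IsFractionRing.div_surjective (A := R) c
  have hr₂0 : algebraMap R K r₂ ≠ 0 := by
    intro h
    exact nonZeroDivisors.ne_zero hr₂ (IsFractionRing.injective R K (by rw [h, map_zero]))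
  have hr₁ : r₁ ≠ 0 := by
    rintro rfl
    rw [map_zero, zero_div] at hr
    exact hc hr.symm
  obtain ⟨n, hn⟩ : ∃ n : ℕ, ¬ π ^ (n + 1) ∣ r₁ :=
    FiniteMultiplicity.of_not_isUnit hπ.not_isUnit hr₁
  refine ⟨n + 1, ?_⟩
  rintro ⟨s, t, hs, hst⟩
  have hπK : algebraMap R K π ≠ 0 := fun h =>
    hπ.ne_zero (IsFractionRing.injective R K (by rw [h, map_zero]))
  have h1 : (((alv73_pi K M π ^ (n + 1))⁻¹ * x : ↥(modularFunctionFieldFullC K M)) :
      LaurentSeries K) =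
      (HahnSeries.C (algebraMap R K π ^ (n + 1)))⁻¹ * (x : LaurentSeries K) := by
    rw [alv73_pi, ← map_pow]
    exact gv85_coe_inv_mul _ _ _
  rw [h1] at hst
  have hC0 : (HahnSeries.C (algebraMap R K π ^ (n + 1)) : LaurentSeries K) ≠ 0 :=
    HahnSeries.C_ne_zero (pow_ne_zero _ hπK)
  have hcr : c * algebraMap R K r₂ = algebraMap R K r₁ := by
    rw [← hr]
    field_simp
  have h2 : coeffMap (algebraMap R K) (HahnSeries.C r₁ * (s * a)) =
      coeffMap (algebraMap R K) (HahnSeries.C (π ^ (n + 1)) * (HahnSeries.C r₂ * (t * b))) := by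
    rw [map_mul, map_mul, map_mul, map_mul, map_mul, gv85_coeffMap_C, gv85_coeffMap_C,
      gv85_coeffMap_C, ← hst, map_pow, ← hcr, map_mul]
    have h3 : (HahnSeries.C c : LaurentSeries K) * coeffMap (algebraMap R K) a =
        (x : LaurentSeries K) * coeffMap (algebraMap R K) b := hab.symm
    calc HahnSeries.C c * HahnSeries.C (algebraMap R K r₂) *
          (coeffMap (algebraMap R K) s * coeffMap (algebraMap R K) a)
        = HahnSeries.C (algebraMap R K r₂) * coeffMap (algebraMap R K) s *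
          (HahnSeries.C c * coeffMap (algebraMap R K) a) := by ring
      _ = HahnSeries.C (algebraMap R K r₂) * coeffMap (algebraMap R K) s *
          ((x : LaurentSeries K) * coeffMap (algebraMap R K) b) := by rw [h3]
      _ = _ := by
        field_simp
  have h4 := gv85_emb_injective h2
  have hsa : coeffMap (IsLocalRing.residue R) (s * a) ≠ 0 := by
    rw [map_mul]
    exact mul_ne_zero hs ha
  obtain ⟨m, hm⟩ : ∃ m : ℤ, (coeffMap (IsLocalRing.residue R) (s * a)).coeff m ≠ 0 := by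
    by_contra hcon
    push Not at hcon
    exact hsa (HahnSeries.ext (funext hcon))
  rw [coeffMap_coeff] at hm
  have hnd : ¬ π ∣ (s * a).coeff m := fun hd => hm ((pk85_res_iff hπ _).mpr hd)
  have h5 := congrArg (fun z => z.coeff m) h4
  simp only [gv85_coeff_C_mul] at h5
  exact hn (hπ.prime.pow_dvd_of_dvd_mul_right (n + 1) hnd ⟨_, h5⟩)

end alv73_witness

section alv73_only

/-- The `F(N)_K`-algebra structure of `F(N ℓ)_K` along `α`. -/
noncomputable abbrev alv73_alg (K : Type) [Field K] (N ℓ : ℕ) [NeZero N] [NeZero ℓ] :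
    Algebra ↥(modularFunctionFieldFullC K N) ↥(modularFunctionFieldFullC K (N * ℓ)) :=
  (al97L_alpha K N ℓ).toRingHom.toAlgebra

/-- `[F(N ℓ)_K : F(N)_K] = ℓ + 1` along `α`. -/
theorem alv73_finrank (K : Type) [Field K] [CharZero K] (N ℓ : ℕ) [NeZero N] [NeZero ℓ]
    (hℓ : ℓ.Prime) (hN : ¬ ℓ ∣ N) :
    @Module.finrank ↥(modularFunctionFieldFullC K N) ↥(modularFunctionFieldFullC K (N * ℓ)) _ _
      (alv73_alg K N ℓ).toModule = ℓ + 1 := by
  have hle : modularFunctionFieldFullC K N ≤ modularFunctionFieldFullC K (N * ℓ) :=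
    full_degeneracyC_le K (dvd_mul_right N ℓ)
  have hK : ((N * ℓ : ℕ) : K) ≠ 0 := Nat.cast_ne_zero.mpr (NeZero.ne (N * ℓ))
  have hrel := Fermat.Agent.S42.gi41_relfinrank_prime K N ℓ hℓ hN hK
  rw [← hrel, IntermediateField.relfinrank_eq_finrank_of_le hle]
  let _ := alv73_alg K N ℓ
  let j : ↥(modularFunctionFieldFullC K (N * ℓ)) ≃+* ↥(IntermediateField.extendScalars hle) :=
    { toFun := fun x => ⟨x.1, (IntermediateField.mem_extendScalars hle).mpr x.2⟩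
      invFun := fun x => ⟨x.1, (IntermediateField.mem_extendScalars hle).mp x.2⟩
      left_inv := fun _ => rfl
      right_inv := fun _ => rfl
      map_mul' := fun _ _ => rfl
      map_add' := fun _ _ => rfl }
  exact Algebra.finrank_eq_of_equiv_equiv (RingEquiv.refl _) j (RingHom.ext fun x => rfl)

variable {R K : Type} [CommRing R] [IsDomain R] [IsDiscreteValuationRing R] [Field K] [CharZero K]
  [Algebra R K] [IsFractionRing R K]
variable (φ : K →+* Q̄) (N ℓ : ℕ) [NeZero N] [NeZero ℓ] (hℓ : ℓ.Prime) (hN : ¬ ℓ ∣ N)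

/-- **`V_∞` and `V₀` are the only extensions** of the Gauss ring of level `N` to `F(N ℓ)_K` along
`α`, `V_∞ ⊓ V₀` is integral over it, and the residue field of `V_∞` is that of level `N`. -/
theorem alv73_main {π : R} (hπ : Irreducible π) (hℓR : ¬ IsUnit (ℓ : R)) :
    (∀ V : ValuationSubring ↥(modularFunctionFieldFullC K (N * ℓ)),
      (∀ a ∈ cm85_Vinf (K := K) N hπ, al97L_alpha K N ℓ a ∈ V) →
      (alv73_pi K (N * ℓ) π)⁻¹ ∉ V →
      V = cm85_Vinf (K := K) (N * ℓ) hπ ∨ V = alv73_V0 φ N ℓ hℓ hN hπ) ∧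
    (∀ x ∈ cm85_Vinf (K := K) (N * ℓ) hπ, x ∈ alv73_V0 φ N ℓ hℓ hN hπ →
      ((al97L_alpha K N ℓ).toRingHom.comp
        (cm85_Vinf (K := K) N hπ).toSubring.subtype).IsIntegralElem x) ∧
    (∀ x ∈ cm85_Vinf (K := K) (N * ℓ) hπ, ∃ b ∈ cm85_Vinf (K := K) N hπ,
      (alv73_pi K (N * ℓ) π)⁻¹ * (x - al97L_alpha K N ℓ b) ∈ cm85_Vinf (K := K) (N * ℓ) hπ) := by
  letI := alv73_alg K N ℓ
  haveI hfd : FiniteDimensional ↥(modularFunctionFieldFullC K N)
      ↥(modularFunctionFieldFullC K (N * ℓ)) :=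
    FiniteDimensional.of_finrank_pos (by rw [alv73_finrank K N ℓ hℓ hN]; omega)
  have hαπ : al97L_alpha K N ℓ (alv73_pi K N π) = alv73_pi K (N * ℓ) π :=
    (al97L_alpha K N ℓ).commutes _
  obtain ⟨h1, h2, -, -, h5⟩ := oe18_main (cm85_Vinf (K := K) N hπ) (alv73_pi K N π)
    (alv73_pi_mem N hπ) (alv73_pi_inv_not_mem_Vinf N hπ) (alv73_hmax_Vinf N hπ)
    (fun x hx => alv73_harch N hπ x hx)
    (cm85_Vinf (K := K) (N * ℓ) hπ) (alv73_V0 φ N ℓ hℓ hN hπ)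
    (fun a ha => (alv73_alpha_mem_Vinf_iff N ℓ hπ a).mpr ha)
    (by
      show (al97L_alpha K N ℓ (alv73_pi K N π))⁻¹ ∉ _
      rw [hαπ]
      exact alv73_pi_inv_not_mem_Vinf (N * ℓ) hπ)
    (fun a ha => (alv73_alpha_mem_V0_iff φ N ℓ hℓ hN hπ a).mpr ha)
    (by
      show (al97L_alpha K N ℓ (alv73_pi K N π))⁻¹ ∉ _
      rw [hαπ]
      exact alv73_pi_inv_not_mem_V0 φ N ℓ hℓ hN hπ)
    (alv73_ne φ N ℓ hℓ hN hπ hℓR) ℓ hℓ (alv73_finrank K N ℓ hℓ hN).le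
    (al97L_beta K N ℓ (rm90_j K N)) (alv73_beta_j_mem φ N ℓ hℓ hN hπ) (rm90_j K N)
    (alv73_j_mem N hπ)
    (by
      show (al97L_alpha K N ℓ (alv73_pi K N π))⁻¹ *
        (_ - al97L_alpha K N ℓ (rm90_j K N)) ∈ _
      rw [hαπ]
      exact alv73_kummer_V0 φ N ℓ hℓ hN hπ hℓR)
    (fun b hb => alv73_not_pow_V ℓ hℓ N hπ b hb)
  refine ⟨fun V hV hπV => h1 V hV ?_, fun x hx hx' => h2 x hx hx', fun x hx => ?_⟩
  · show (al97L_alpha K N ℓ (alv73_pi K N π))⁻¹ ∉ _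
    rw [hαπ]
    exact hπV
  · obtain ⟨b, hb, hxb⟩ := h5 x hx
    refine ⟨b, hb, ?_⟩
    have h6 : (al97L_alpha K N ℓ (alv73_pi K N π))⁻¹ * (x - al97L_alpha K N ℓ b) ∈
        cm85_Vinf (K := K) (N * ℓ) hπ := hxb
    rwa [hαπ] at h6

/-- **(1a)/(2a) input**: every element of `W = V_∞ ⊓ V₀` is integral over the Gauss ring of level
`N` (the literal hypothesis `cm15_WInt` of `cm15_frame_chart_level2/3`). -/
theorem alv73_WInt {π : R} (hπ : Irreducible π) (hℓR : ¬ IsUnit (ℓ : R)) :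
    cm15_WInt R K N (N * ℓ) (dvd_mul_right N ℓ) hπ
      (wa5_W (cm85_Vinf (K := K) (N * ℓ) hπ) (alv73_V0 φ N ℓ hℓ hN hπ)) := by
  intro y hy
  rw [wa5_mem_W] at hy
  exact (alv73_main φ N ℓ hℓ hN hπ hℓR).2.1 y hy.1 hy.2

/-- The residue field of `V₀` is that of level `N` along `β`. -/
theorem alv73_res_V0 {π : R} (hπ : Irreducible π) (hℓR : ¬ IsUnit (ℓ : R))
    (x : ↥(modularFunctionFieldFullC K (N * ℓ))) (hx : x ∈ alv73_V0 φ N ℓ hℓ hN hπ) :
    ∃ b ∈ cm85_Vinf (K := K) N hπ,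
      (alv73_pi K (N * ℓ) π)⁻¹ * (x - al97L_beta K N ℓ b) ∈ alv73_V0 φ N ℓ hℓ hN hπ := by
  obtain ⟨b, hb, hxb⟩ := (alv73_main φ N ℓ hℓ hN hπ hℓR).2.2 _ ((alv73_mem_V0 φ N ℓ hℓ hN hπ x).mp hx)
  refine ⟨b, hb, ?_⟩
  rw [alv73_mem_V0, map_mul, map_inv₀, alv73_w_pi, map_sub, al97L_w_beta_apply]
  exact hxb

end alv73_only

section alv73_frame

variable {R K : Type} [CommRing R] [IsDomain R] [IsDiscreteValuationRing R] [Field K] [CharZero K]
  [Algebra R K] [IsFractionRing R K] [Algebra K Q̄] [Algebra.IsAlgebraic K Q̄]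
variable (φ : K →+* Q̄) (N ℓ : ℕ) [NeZero N] [NeZero ℓ] (hℓ : ℓ.Prime) (hN : ¬ ℓ ∣ N)
variable [Algebra R ↥(modularFunctionFieldFullC K N)]
  [IsScalarTower R K ↥(modularFunctionFieldFullC K N)]
  [Algebra R ↥(modularFunctionFieldFullC K (N * ℓ))]
  [IsScalarTower R K ↥(modularFunctionFieldFullC K (N * ℓ))]

/-- **The chart half of the FRAME at level `N ℓ`, `2 ∣ N`, unconditionally**: (W), (C) and
`σ h = h` for `W = V_∞ ⊓ V₀`, `V₀ = w^* V_∞`, `h` the Hauptmodul of level `2`. -/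
theorem alv73_frame_chart_level2 {π : R} (hπ : Irreducible π) (hℓR : ¬ IsUnit (ℓ : R))
    (h2 : 2 ∣ N) (hNu : IsUnit (N : R)) :
    s34i47_WProps π (wa5_W (cm85_Vinf (K := K) (N * ℓ) hπ) (alv73_V0 φ N ℓ hℓ hN hπ)) ∧
      s34i47_ChartProps K π (wa5_W (cm85_Vinf (K := K) (N * ℓ) hπ) (alv73_V0 φ N ℓ hℓ hN hπ))
        (pk85_h2 K (N * ℓ) (h2.trans (dvd_mul_right N ℓ))) ∧
      ∀ σ : K ≃+* K, s34i47_coeffEquiv σ (N * ℓ) (pk85_h2 K (N * ℓ) (h2.trans (dvd_mul_right N ℓ))) =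
        pk85_h2 K (N * ℓ) (h2.trans (dvd_mul_right N ℓ)) :=
  cm15_frame_chart_level2 N (N * ℓ) (dvd_mul_right N ℓ) hπ h2 hNu (alv73_V0 φ N ℓ hℓ hN hπ)
    (alv73_algebraMap_mem φ N ℓ hℓ hN hπ) (alv73_pi_inv_not_mem φ N ℓ hℓ hN hπ)
    (alv73_h2_mem φ N ℓ hℓ hN hπ h2).1 (alv73_h2_mem φ N ℓ hℓ hN hπ h2).2
    (alv73_WInt φ N ℓ hℓ hN hπ hℓR)

/-- **The chart half of the FRAME at level `N ℓ`, `3 ∣ N`, unconditionally.** -/
theorem alv73_frame_chart_level3 {π : R} (hπ : Irreducible π) (hℓR : ¬ IsUnit (ℓ : R))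
    (h3 : 3 ∣ N) (hNu : IsUnit (N : R)) :
    s34i47_WProps π (wa5_W (cm85_Vinf (K := K) (N * ℓ) hπ) (alv73_V0 φ N ℓ hℓ hN hπ)) ∧
      s34i47_ChartProps K π (wa5_W (cm85_Vinf (K := K) (N * ℓ) hπ) (alv73_V0 φ N ℓ hℓ hN hπ))
        (pk85_h3 K (N * ℓ) (h3.trans (dvd_mul_right N ℓ))) ∧
      ∀ σ : K ≃+* K, s34i47_coeffEquiv σ (N * ℓ) (pk85_h3 K (N * ℓ) (h3.trans (dvd_mul_right N ℓ))) =
        pk85_h3 K (N * ℓ) (h3.trans (dvd_mul_right N ℓ)) :=
  cm15_frame_chart_level3 N (N * ℓ) (dvd_mul_right N ℓ) hπ h3 hNu (alv73_V0 φ N ℓ hℓ hN hπ)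
    (alv73_algebraMap_mem φ N ℓ hℓ hN hπ) (alv73_pi_inv_not_mem φ N ℓ hℓ hN hπ)
    (alv73_h3_mem φ N ℓ hℓ hN hπ h3).1 (alv73_h3_mem φ N ℓ hℓ hN hπ h3).2
    (alv73_WInt φ N ℓ hℓ hN hπ hℓR)

end alv73_frame

end Fermat.Agent.S34
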