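import Mathlib
import Fermat.Agent.S18.Pack15
import Fermat.Agent.S34.HauptInt70
import Fermat.Agent.S34.AtkinLehnerL97

/-!
# S34 lab, P3 (3a): the two degeneracy maps on the charts (helper95)

Input `f₁, hint₁, f₂, hint₂` of the master adapter `bsf99_locStr_of_base` (helper99).

* abstract (`Mathlib` + `Pack15`): for an `R`-algebra map `ι : E → F` of fields, `g' ∈ E`,
  `h ∈ F` with `ι g'` integral over `R[h]`: `ι` maps the chart `R[g']~` into the chart `R[h]~`
  (`bc95_map_mem`), and if moreover `h` is integral over `R[ι g']`, the induced ring map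
  of charts is integral (`bc95_integral`).
* instance: `β = al97L_beta : F(M')_K → F(M' q)_K` on the charts of the level-2 and level-3
  Hauptmoduln and of their inverses (`bc95_beta_level2`, `bc95_beta_level3`), from
  `hi70_level2_full` / `hi70_level3_full`; `α = al97L_alpha` on every chart (`bc95_alpha`).
-/

set_option autoImplicit false

namespace Fermat.Agent.S34

open Fermat.Agent.S18 ModularCurve Polynomial

section bc95_abs

variable {R E F : Type*} [CommRing R] [Field E] [Field F] [Algebra R E] [Algebra R F]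

/-- `ι` maps `R[g']` into the chart of `h` as soon as `ι g'` lies in it. -/
theorem bc95_adjoin_mem (ι : E →ₐ[R] F) (g' : E) (h : F)
    (hg : ι g' ∈ pk15_chart R ({h} : Set F)) (a : E)
    (ha : a ∈ Algebra.adjoin R ({g'} : Set E)) : ι a ∈ pk15_chart R ({h} : Set F) := by
  have h1 : ι a ∈ (Algebra.adjoin R ({g'} : Set E)).map ι := ⟨a, ha, rfl⟩
  rw [AlgHom.map_adjoin, Set.image_singleton] at h1
  exact Algebra.adjoin_le (Set.singleton_subset_iff.mpr hg) h1

/-- an element integral over the chart lies in the chart. -/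
theorem bc95_chart_closed (s : Set F) (y : F)
    (hy : IsIntegral (integralClosure (Algebra.adjoin R s) F) y) : y ∈ pk15_chart R s := by
  rw [pk15_mem_chart]
  exact isIntegral_trans (R := Algebra.adjoin R s) (A := integralClosure (Algebra.adjoin R s) F) y hy

/-- **`ι(R[g']~) ⊆ R[h]~`** as soon as `ι g' ∈ R[h]~`. -/
theorem bc95_map_mem (ι : E →ₐ[R] F) (g' : E) (h : F)
    (hg : ι g' ∈ pk15_chart R ({h} : Set F)) (x : E)
    (hx : x ∈ pk15_chart R ({g'} : Set E)) : ι x ∈ pk15_chart R ({h} : Set F) := by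
  have hx' : IsIntegral (Algebra.adjoin R ({g'} : Set E)) x := hx
  let φ : ↥(Algebra.adjoin R ({g'} : Set E)) →+*
      ↥(integralClosure (Algebra.adjoin R ({h} : Set F)) F) :=
    { toFun := fun a => ⟨ι a, bc95_adjoin_mem ι g' h hg a a.2⟩
      map_one' := Subtype.ext (map_one ι)
      map_mul' := fun a b => Subtype.ext (map_mul ι (a : E) (b : E))
      map_zero' := Subtype.ext (map_zero ι)
      map_add' := fun a b => Subtype.ext (map_add ι (a : E) (b : E)) }
  have h2 : IsIntegral (integralClosure (Algebra.adjoin R ({h} : Set F)) F) (ι x) :=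
    IsIntegral.map_of_comp_eq φ (ι : E →+* F) (RingHom.ext fun a => rfl) hx'
  exact bc95_chart_closed _ _ h2

/-- The ring map of charts induced by `ι`. -/
noncomputable def bc95_hom (ι : E →ₐ[R] F) (B' : Subalgebra R E) (B : Subalgebra R F)
    (hB : ∀ x ∈ B', ι x ∈ B) : ↥B' →+* ↥B :=
  ((ι.comp B'.val).codRestrict B (fun x => hB x x.2)).toRingHom

theorem bc95_hom_coe (ι : E →ₐ[R] F) (B' : Subalgebra R E) (B : Subalgebra R F)
    (hB : ∀ x ∈ B', ι x ∈ B) (x : ↥B') : ((bc95_hom ι B' B hB x : ↥B) : F) = ι (x : E) := rfl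

/-- **`R[h]~` is integral over `ι(R[g']~)`** as soon as `h` is integral over `R[ι g']`. -/
theorem bc95_integral (ι : E →ₐ[R] F) (g' : E) (h : F)
    (hh : IsIntegral (Algebra.adjoin R ({ι g'} : Set F)) h)
    (f : ↥(pk15_chart R ({g'} : Set E)) →+* ↥(pk15_chart R ({h} : Set F)))
    (hf : ∀ x : ↥(pk15_chart R ({g'} : Set E)),
      ((f x : ↥(pk15_chart R ({h} : Set F))) : F) = ι (x : E)) : f.IsIntegral := by
  intro y
  have hy : IsIntegral (Algebra.adjoin R ({h} : Set F)) (y : F) := y.2
  have hle : Algebra.adjoin R ({h} : Set F) ≤ pk15_chart R ({ι g'} : Set F) :=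
    Algebra.adjoin_le (Set.singleton_subset_iff.mpr hh)
  have hy2 : IsIntegral (Algebra.adjoin R ({ι g'} : Set F)) (y : F) := by
    have h1 : IsIntegral (integralClosure (Algebra.adjoin R ({ι g'} : Set F)) F) (y : F) :=
      pk15_isIntegral_mono (S := Algebra.adjoin R ({h} : Set F))
        (T := pk15_chart R ({ι g'} : Set F)) hle hy
    exact bc95_chart_closed _ _ h1
  obtain ⟨p, hp, hpy⟩ := hy2
  -- the surjection `R[g'] → R[ι g']`
  have hmem : ∀ a : ↥(Algebra.adjoin R ({g'} : Set E)),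
      ι (a : E) ∈ Algebra.adjoin R ({ι g'} : Set F) := by
    intro a
    have h1 : ι (a : E) ∈ (Algebra.adjoin R ({g'} : Set E)).map ι := ⟨a, a.2, rfl⟩
    rwa [AlgHom.map_adjoin, Set.image_singleton] at h1
  let ψ : ↥(Algebra.adjoin R ({g'} : Set E)) →+* ↥(Algebra.adjoin R ({ι g'} : Set F)) :=
    { toFun := fun a => ⟨ι a, hmem a⟩
      map_one' := Subtype.ext (map_one ι)
      map_mul' := fun a b => Subtype.ext (map_mul ι (a : E) (b : E))
      map_zero' := Subtype.ext (map_zero ι)
      map_add' := fun a b => Subtype.ext (map_add ι (a : E) (b : E)) }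
  have hψ : Function.Surjective ψ := by
    rintro ⟨z, hz⟩
    have h1 : z ∈ (Algebra.adjoin R ({g'} : Set E)).map ι := by
      rw [AlgHom.map_adjoin, Set.image_singleton]; exact hz
    obtain ⟨a, ha, rfl⟩ := h1
    exact ⟨⟨a, ha⟩, rfl⟩
  obtain ⟨p₀, hp₀⟩ := Polynomial.map_surjective ψ hψ p
  obtain ⟨r, hr, -, hrm⟩ := Polynomial.lifts_and_natDegree_eq_and_monic
    ((Polynomial.mem_lifts p).mpr ⟨p₀, hp₀⟩) hp
  have hle' : Algebra.adjoin R ({g'} : Set E) ≤ pk15_chart R ({g'} : Set E) := fun a ha =>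
    show IsIntegral (Algebra.adjoin R ({g'} : Set E)) a from
      isIntegral_algebraMap (x := (⟨a, ha⟩ : ↥(Algebra.adjoin R ({g'} : Set E))))
  let k : ↥(Algebra.adjoin R ({g'} : Set E)) →+* ↥(pk15_chart R ({g'} : Set E)) :=
    (Subalgebra.inclusion hle').toRingHom
  refine ⟨r.map k, hrm.map k, ?_⟩
  apply Subtype.ext
  have e1 : ((pk15_chart R ({h} : Set F)).val : ↥(pk15_chart R ({h} : Set F)) →+* F).comp
      (f.comp k) = (algebraMap ↥(Algebra.adjoin R ({ι g'} : Set F)) F).comp ψ :=
    RingHom.ext fun a => hf (k a)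
  have e2 : ((Polynomial.eval₂ f y (r.map k) : ↥(pk15_chart R ({h} : Set F))) : F) =
      Polynomial.eval₂ (algebraMap ↥(Algebra.adjoin R ({ι g'} : Set F)) F) (y : F) p := by
    rw [← hr, Polynomial.eval₂_map, Polynomial.eval₂_map, ← e1]
    exact Polynomial.hom_eval₂ r (f.comp k)
      ((pk15_chart R ({h} : Set F)).val : ↥(pk15_chart R ({h} : Set F)) →+* F) y
  rw [e2, hpy]
  rfl

/-- Packaged form: the ring map of charts with its two properties. -/
theorem bc95_exists (ι : E →ₐ[R] F) (g' : E) (h : F)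
    (hg : ι g' ∈ pk15_chart R ({h} : Set F))
    (hh : IsIntegral (Algebra.adjoin R ({ι g'} : Set F)) h) :
    ∃ f : ↥(pk15_chart R ({g'} : Set E)) →+* ↥(pk15_chart R ({h} : Set F)),
      (∀ x : ↥(pk15_chart R ({g'} : Set E)),
        ((f x : ↥(pk15_chart R ({h} : Set F))) : F) = ι (x : E)) ∧ f.IsIntegral :=
  ⟨bc95_hom ι _ _ (bc95_map_mem ι g' h hg), fun _ => rfl,
    bc95_integral ι g' h hh _ fun _ => rfl⟩

/-- every element is integral over the algebra it generates. -/
theorem bc95_self (x : F) : IsIntegral (Algebra.adjoin R ({x} : Set F)) x :=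
  isIntegral_algebraMap
    (x := (⟨x, Algebra.subset_adjoin (Set.mem_singleton x)⟩ : ↥(Algebra.adjoin R ({x} : Set F))))

end bc95_abs

section bc95_inst

variable {R K : Type} [CommRing R] [Field K] [Algebra R K]
  (M' q : ℕ) [NeZero M'] [NeZero q]
  [Algebra R ↥(modularFunctionFieldFullC K M')]
  [IsScalarTower R K ↥(modularFunctionFieldFullC K M')]
  [Algebra R ↥(modularFunctionFieldFullC K (M' * q))]
  [IsScalarTower R K ↥(modularFunctionFieldFullC K (M' * q))]

/-- `α : F(M')_K → F(M' q)_K` as an `R`-algebra map. -/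
noncomputable def bc95_alphaR :
    ↥(modularFunctionFieldFullC K M') →ₐ[R] ↥(modularFunctionFieldFullC K (M' * q)) :=
  (al97L_alpha K M' q).restrictScalars R

/-- `β : F(M')_K → F(M' q)_K` as an `R`-algebra map. -/
noncomputable def bc95_betaR :
    ↥(modularFunctionFieldFullC K M') →ₐ[R] ↥(modularFunctionFieldFullC K (M' * q)) :=
  (al97L_beta K M' q).restrictScalars R

theorem bc95_alphaR_apply (x : ↥(modularFunctionFieldFullC K M')) :
    bc95_alphaR (R := R) M' q x = al97L_alpha K M' q x := rfl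

omit [NeZero M'] in
theorem bc95_betaR_apply (x : ↥(modularFunctionFieldFullC K M')) :
    bc95_betaR (R := R) M' q x = al97L_beta K M' q x := rfl

/-- **The `α`-side**: for `h = α h'` the chart of `h'` maps into the chart of `h` and the chart
of `h` is integral over it; the same for the inverses. -/
theorem bc95_alpha (h' : ↥(modularFunctionFieldFullC K M'))
    (h : ↥(modularFunctionFieldFullC K (M' * q))) (hα : al97L_alpha K M' q h' = h) :
    (∃ f : ↥(pk15_chart R ({h'} : Set ↥(modularFunctionFieldFullC K M'))) →+*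
        ↥(pk15_chart R ({h} : Set ↥(modularFunctionFieldFullC K (M' * q)))),
      (∀ x : ↥(pk15_chart R ({h'} : Set ↥(modularFunctionFieldFullC K M'))),
        ((f x : ↥(pk15_chart R ({h} : Set ↥(modularFunctionFieldFullC K (M' * q))))) :
          ↥(modularFunctionFieldFullC K (M' * q))) =
          al97L_alpha K M' q (x : ↥(modularFunctionFieldFullC K M'))) ∧ f.IsIntegral) ∧
    (∃ f : ↥(pk15_chart R ({h'⁻¹} : Set ↥(modularFunctionFieldFullC K M'))) →+*
        ↥(pk15_chart R ({h⁻¹} : Set ↥(modularFunctionFieldFullC K (M' * q)))),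
      (∀ x : ↥(pk15_chart R ({h'⁻¹} : Set ↥(modularFunctionFieldFullC K M'))),
        ((f x : ↥(pk15_chart R ({h⁻¹} : Set ↥(modularFunctionFieldFullC K (M' * q))))) :
          ↥(modularFunctionFieldFullC K (M' * q))) =
          al97L_alpha K M' q (x : ↥(modularFunctionFieldFullC K M'))) ∧ f.IsIntegral) := by
  have e1 : bc95_alphaR (R := R) M' q h' = h := hα
  have e2 : bc95_alphaR (R := R) M' q h'⁻¹ = h⁻¹ := by
    rw [← hα]; exact map_inv₀ (al97L_alpha K M' q) h'
  constructor
  · refine bc95_exists (bc95_alphaR (R := R) M' q) h' h ?_ ?_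
    · rw [e1]; exact bc95_self h
    · rw [e1]; exact bc95_self h
  · refine bc95_exists (bc95_alphaR (R := R) M' q) h'⁻¹ h⁻¹ ?_ ?_
    · rw [e2]; exact bc95_self h⁻¹
    · rw [e2]; exact bc95_self h⁻¹

/-- **The `β`-side, level 2** (`q ≠ 2` prime, `2 ∣ M'`, `2` a unit of `R`): `β` maps the chart
of the level-`M'` Hauptmodul into the chart of the level-`M' q` Hauptmodul, and the latter is
integral over the image; the same for the inverse charts. -/
theorem bc95_beta_level2 (hq : q.Prime) (hq2 : q ≠ 2) (h2R : IsUnit (2 : R)) (h2 : 2 ∣ M')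
    (h' : ↥(modularFunctionFieldFullC K M')) (h : ↥(modularFunctionFieldFullC K (M' * q)))
    (hh' : (h' : LaurentSeries K) = h70_h2 K) (hh : (h : LaurentSeries K) = h70_h2 K) :
    (∃ f : ↥(pk15_chart R ({h'} : Set ↥(modularFunctionFieldFullC K M'))) →+*
        ↥(pk15_chart R ({h} : Set ↥(modularFunctionFieldFullC K (M' * q)))),
      (∀ x : ↥(pk15_chart R ({h'} : Set ↥(modularFunctionFieldFullC K M'))),
        ((f x : ↥(pk15_chart R ({h} : Set ↥(modularFunctionFieldFullC K (M' * q))))) :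
          ↥(modularFunctionFieldFullC K (M' * q))) =
          al97L_beta K M' q (x : ↥(modularFunctionFieldFullC K M'))) ∧ f.IsIntegral) ∧
    (∃ f : ↥(pk15_chart R ({h'⁻¹} : Set ↥(modularFunctionFieldFullC K M'))) →+*
        ↥(pk15_chart R ({h⁻¹} : Set ↥(modularFunctionFieldFullC K (M' * q)))),
      (∀ x : ↥(pk15_chart R ({h'⁻¹} : Set ↥(modularFunctionFieldFullC K M'))),
        ((f x : ↥(pk15_chart R ({h⁻¹} : Set ↥(modularFunctionFieldFullC K (M' * q))))) :
          ↥(modularFunctionFieldFullC K (M' * q))) =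
          al97L_beta K M' q (x : ↥(modularFunctionFieldFullC K M'))) ∧ f.IsIntegral) := by
  have hM : 2 * q ∣ M' * q := Nat.mul_dvd_mul h2 (dvd_refl q)
  have hg : ((al97L_beta K M' q h' : ↥(modularFunctionFieldFullC K (M' * q))) :
      LaurentSeries K) = qExpand K q (h70_h2 K) := by
    rw [al97L_beta_coe, hh']
  obtain ⟨i1, i2, i3, i4⟩ := hi70_level2_full (R := R) (M' * q) q hq hq2 h2R hM h
    (al97L_beta K M' q h') hh hg
  have e1 : bc95_betaR (R := R) M' q h' = al97L_beta K M' q h' := rfl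
  have e2 : bc95_betaR (R := R) M' q h'⁻¹ = (al97L_beta K M' q h')⁻¹ :=
    map_inv₀ (al97L_beta K M' q) h'
  constructor
  · refine bc95_exists (bc95_betaR (R := R) M' q) h' h ?_ ?_
    · rw [e1]; exact i1
    · rw [e1]; exact i3
  · refine bc95_exists (bc95_betaR (R := R) M' q) h'⁻¹ h⁻¹ ?_ ?_
    · rw [e2]; exact i2
    · rw [e2]; exact i4

/-- **The `β`-side, level 3** (`q ≠ 3` prime, `3 ∣ M'`, `3` a unit of `R`). -/
theorem bc95_beta_level3 (hq : q.Prime) (hq3 : q ≠ 3) (h3R : IsUnit (3 : R)) (h3 : 3 ∣ M')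
    (h' : ↥(modularFunctionFieldFullC K M')) (h : ↥(modularFunctionFieldFullC K (M' * q)))
    (hh' : (h' : LaurentSeries K) = h34_h3R K) (hh : (h : LaurentSeries K) = h34_h3R K) :
    (∃ f : ↥(pk15_chart R ({h'} : Set ↥(modularFunctionFieldFullC K M'))) →+*
        ↥(pk15_chart R ({h} : Set ↥(modularFunctionFieldFullC K (M' * q)))),
      (∀ x : ↥(pk15_chart R ({h'} : Set ↥(modularFunctionFieldFullC K M'))),
        ((f x : ↥(pk15_chart R ({h} : Set ↥(modularFunctionFieldFullC K (M' * q))))) :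
          ↥(modularFunctionFieldFullC K (M' * q))) =
          al97L_beta K M' q (x : ↥(modularFunctionFieldFullC K M'))) ∧ f.IsIntegral) ∧
    (∃ f : ↥(pk15_chart R ({h'⁻¹} : Set ↥(modularFunctionFieldFullC K M'))) →+*
        ↥(pk15_chart R ({h⁻¹} : Set ↥(modularFunctionFieldFullC K (M' * q)))),
      (∀ x : ↥(pk15_chart R ({h'⁻¹} : Set ↥(modularFunctionFieldFullC K M'))),
        ((f x : ↥(pk15_chart R ({h⁻¹} : Set ↥(modularFunctionFieldFullC K (M' * q))))) :
          ↥(modularFunctionFieldFullC K (M' * q))) =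
          al97L_beta K M' q (x : ↥(modularFunctionFieldFullC K M'))) ∧ f.IsIntegral) := by
  have hM : 3 * q ∣ M' * q := Nat.mul_dvd_mul h3 (dvd_refl q)
  have hg : ((al97L_beta K M' q h' : ↥(modularFunctionFieldFullC K (M' * q))) :
      LaurentSeries K) = qExpand K q (h34_h3R K) := by
    rw [al97L_beta_coe, hh']
  obtain ⟨i1, i2, i3, i4⟩ := hi70_level3_full (R := R) (M' * q) q hq hq3 h3R hM h
    (al97L_beta K M' q h') hh hg
  have e1 : bc95_betaR (R := R) M' q h' = al97L_beta K M' q h' := rfl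
  have e2 : bc95_betaR (R := R) M' q h'⁻¹ = (al97L_beta K M' q h')⁻¹ :=
    map_inv₀ (al97L_beta K M' q) h'
  constructor
  · refine bc95_exists (bc95_betaR (R := R) M' q) h' h ?_ ?_
    · rw [e1]; exact i1
    · rw [e1]; exact i3
  · refine bc95_exists (bc95_betaR (R := R) M' q) h'⁻¹ h⁻¹ ?_ ?_
    · rw [e2]; exact i2
    · rw [e2]; exact i4

end bc95_inst

end Fermat.Agent.S34
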