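import Mathlib

/-!
# S34 lab (helper96), row P3a-beta: the Hauptmodul of the second degeneracy map is regular or
# has a regular inverse at every closed point - local route

Abstract (Mathlib-only) core.  `F` is a field (the function field of level `q M'`), `A ⊆ F` a
subring which is *local* and *integrally closed in `F`* (a local ring `B_n` of the normal chart),
`q` a non-unit of `A`.  Data:

* `j, j' ∈ F` with `Φ(j'; j) = 0`, where `Φ ∈ ℤ[Y][X]` is monic of degree `q + 1` in `X`, the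
  `Y`-degree of the coefficient of `X ^ k` is `≤ q` for `1 ≤ k ≤ q`, the `Y`-degree of the
  coefficient of `X ^ 0` is `≤ q + 1`, and its coefficient at `Y ^ (q+1)` is `≡ 1` modulo `q`
  (the modular equation of level `q`: `j' = j(q τ)`);
* `h' ∈ F` with `j' * h' ^ a = D(h')`, `D ∈ ℤ[X]` monic of degree `a + 1` (the Hauptmodul relation
  `j h² = (h + 256)³` resp. `j h³ = (h + 27)(h + 243)³`, transported by `β`).

Then (`kb96_main`): if `j ∈ A` or `j⁻¹ ∈ A`, then `h' ∈ A` or `h'⁻¹ ∈ A`.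

* non-cuspidal case `j ∈ A`: `j'` is integral over `A` (`Φ` is monic in `X`), and `h'` is integral
  over `ℤ[j']`;
* cuspidal case `j ∉ A`, `s := j⁻¹ ∈ A`: dividing `Φ(j'; j) = 0` by `(j j') ^ (q+1)` gives a
  relation `u s' ^ (q+1) + ∑ s c_i s' ^ i = 0` for `s' := j'⁻¹` with `u ≡ 1` modulo `(q, s)`, a
  unit of `A`; hence `s' ∈ A`, and `s'` is a non-unit.  Then `e := s' h'` is integral over `A`
  (multiply `s' D(h') = h' ^ a` by `s' ^ a`); if `e` is a unit, `h'⁻¹ = s' e⁻¹ ∈ A`; if not,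
  `h' ^ a (1 - e - s' d_a) = s' R(h')` with `deg R < a` and `1 - e - s' d_a` a unit, so `h'` is
  integral over `A`.

No Newton polygon, no second modular equation, no statement on the "type" of the cusp.

The second part (`kb96_loc`, `kb96_main_loc`) is the same statement for `A = B_n`, the
localisation of an integrally closed subring `B ⊆ F` at a prime `n ∋ q`, in the elementwise
shape `∃ t ∉ n, t * x ∈ B`.

All names are prefixed `kb96_`.  Mathlib only.
-/

set_option autoImplicit false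

namespace Fermat.Agent.S34

open Polynomial

section core

variable {F : Type*} [Field F]

/-- A monic relation with coefficients in `A` gives integrality over `A`. -/
theorem kb96_isIntegral_of_pow_eq (A : Subring F) (x : F) (N : ℕ) (c : ℕ → F)
    (hc : ∀ i, i < N → c i ∈ A) (h : x ^ N = ∑ i ∈ Finset.range N, c i * x ^ i) :
    IsIntegral A x := by
  classical
  let c' : ℕ → A := fun i => if hi : i < N then ⟨c i, hc i hi⟩ else 0
  refine ⟨X ^ N - ∑ i ∈ Finset.range N, C (c' i) * X ^ i, ?_, ?_⟩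
  · apply monic_X_pow_sub
    refine lt_of_le_of_lt (degree_sum_le _ _) ?_
    refine (Finset.sup_lt_iff (WithBot.bot_lt_coe N)).mpr ?_
    intro i hi
    exact lt_of_le_of_lt (degree_C_mul_X_pow_le i _)
      (WithBot.coe_lt_coe.mpr (Finset.mem_range.mp hi))
  · rw [eval₂_sub, eval₂_pow, eval₂_X, eval₂_finsetSum, h, sub_eq_zero]
    refine Finset.sum_congr rfl fun i hi => ?_
    have hi' := Finset.mem_range.mp hi
    rw [eval₂_mul, eval₂_C, eval₂_pow, eval₂_X]
    simp only [c', dif_pos hi']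
    rfl

/-- Every integer polynomial in an element of `A` lies in `A`. -/
theorem kb96_ringHom_mem (A : Subring F) (ψ : Polynomial ℤ →+* F) (hψ : ψ X ∈ A)
    (P : Polynomial ℤ) : ψ P ∈ A := by
  induction P using Polynomial.induction_on' with
  | add p r hp hr => rw [map_add]; exact A.add_mem hp hr
  | monomial n a =>
    rw [← C_mul_X_pow_eq_monomial, map_mul, map_pow]
    refine A.mul_mem ?_ (A.pow_mem hψ n)
    have : ψ (C a) = (a : F) := by
      rw [show (C a : Polynomial ℤ) = ((a : ℤ) : Polynomial ℤ) from rfl, map_intCast]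
    rw [this]
    exact intCast_mem A a

variable (A : Subring F)

/-- Units of `A` are closed under multiplication. -/
theorem kb96_unit_mul {x y : F} (hx : ∃ z ∈ A, x * z = 1) (hy : ∃ z ∈ A, y * z = 1) :
    ∃ z ∈ A, (x * y) * z = 1 := by
  obtain ⟨z, hz, hxz⟩ := hx
  obtain ⟨w, hw, hyw⟩ := hy
  exact ⟨z * w, A.mul_mem hz hw, by
    calc x * y * (z * w) = (x * z) * (y * w) := by ring
      _ = 1 := by rw [hxz, hyw, mul_one]⟩

/-- A factor (in `A`) of a unit of `A` is a unit. -/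
theorem kb96_unit_of_mul {x y : F} (hy : y ∈ A) (h : ∃ z ∈ A, (x * y) * z = 1) :
    ∃ z ∈ A, x * z = 1 := by
  obtain ⟨z, hz, hxz⟩ := h
  exact ⟨y * z, A.mul_mem hy hz, by rw [← mul_assoc]; exact hxz⟩

variable (hloc : ∀ x ∈ A, ∀ y ∈ A, (∃ z ∈ A, (x + y) * z = 1) →
    (∃ z ∈ A, x * z = 1) ∨ ∃ z ∈ A, y * z = 1)

include hloc in
/-- In a local ring the sum of two non-units is a non-unit. -/
theorem kb96_nonunit_add {x y : F} (hx : x ∈ A) (hy : y ∈ A) (hxn : ¬ ∃ z ∈ A, x * z = 1)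
    (hyn : ¬ ∃ z ∈ A, y * z = 1) : ¬ ∃ z ∈ A, (x + y) * z = 1 := fun h =>
  (hloc x hx y hy h).elim hxn hyn

include hloc in
/-- In a local ring `1 - x` is a unit for every non-unit `x`. -/
theorem kb96_unit_one_sub {x : F} (hx : x ∈ A) (hxn : ¬ ∃ z ∈ A, x * z = 1) :
    ∃ z ∈ A, (1 - x) * z = 1 := by
  have h1 : ∃ z ∈ A, (x + (1 - x)) * z = 1 := ⟨1, A.one_mem, by ring⟩
  exact (hloc x hx (1 - x) (A.sub_mem A.one_mem hx) h1).resolve_left hxn

variable (hcl : ∀ x : F, IsIntegral A x → x ∈ A)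

include hcl in
/-- **Non-cuspidal step.** `j ∈ A` and `Φ(j'; j) = 0` with `Φ` monic in `X`: `j' ∈ A`. -/
theorem kb96_regular (Φ : Polynomial (Polynomial ℤ)) (hΦ : Φ.Monic)
    (φ : Polynomial ℤ →+* F) (j' : F) (hφ : φ X ∈ A) (hrel : Φ.eval₂ φ j' = 0) : j' ∈ A := by
  apply hcl
  have hsum := hΦ.as_sum
  have h1 : Φ.eval₂ φ j' = j' ^ Φ.natDegree +
      ∑ i ∈ Finset.range Φ.natDegree, φ (Φ.coeff i) * j' ^ i := by
    conv_lhs => rw [hsum]
    rw [eval₂_add, eval₂_pow, eval₂_X, eval₂_finsetSum]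
    congr 1
    refine Finset.sum_congr rfl fun i _ => ?_
    rw [eval₂_mul, eval₂_C, eval₂_pow, eval₂_X]
  rw [h1] at hrel
  refine kb96_isIntegral_of_pow_eq A j' Φ.natDegree (fun i => -φ (Φ.coeff i))
    (fun i _ => A.neg_mem (kb96_ringHom_mem A φ hφ _)) ?_
  rw [eq_neg_of_add_eq_zero_left hrel, ← Finset.sum_neg_distrib]
  exact Finset.sum_congr rfl fun i _ => by ring

include hcl in
/-- **Hauptmodul over `j'`.** `j' ∈ A` and `j' * h' ^ a = D(h')` with `D` monic of degree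
`a + 1`: `h' ∈ A`. -/
theorem kb96_haupt_of_mem (j' h' : F) (hj' : j' ∈ A) (a : ℕ) (D : Polynomial ℤ) (hD : D.Monic)
    (hDdeg : D.natDegree = a + 1) (hH : j' * h' ^ a = aeval h' D) : h' ∈ A := by
  classical
  apply hcl
  have hsum := hD.as_sum
  rw [hDdeg] at hsum
  have h1 : aeval h' D = h' ^ (a + 1) +
      ∑ i ∈ Finset.range (a + 1), ((D.coeff i : ℤ) : F) * h' ^ i := by
    conv_lhs => rw [hsum]
    rw [map_add, map_pow, aeval_X, map_sum]
    congr 1
    refine Finset.sum_congr rfl fun i _ => ?_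
    rw [map_mul, map_pow, aeval_X, aeval_C]
    rfl
  rw [h1] at hH
  refine kb96_isIntegral_of_pow_eq A h' (a + 1)
    (fun i => (if i = a then j' else 0) - ((D.coeff i : ℤ) : F))
    (fun i _ => A.sub_mem (by split_ifs; exacts [hj', A.zero_mem]) (intCast_mem A _)) ?_
  have h2 : ∑ i ∈ Finset.range (a + 1),
      ((if i = a then j' else 0) - ((D.coeff i : ℤ) : F)) * h' ^ i =
      j' * h' ^ a - ∑ i ∈ Finset.range (a + 1), ((D.coeff i : ℤ) : F) * h' ^ i := by
    simp_rw [sub_mul]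
    rw [Finset.sum_sub_distrib]
    congr 1
    rw [Finset.sum_eq_single a]
    · rw [if_pos rfl]
    · intro b _ hb; rw [if_neg hb, zero_mul]
    · intro ha; exact absurd (Finset.mem_range.mpr (Nat.lt_succ_self a)) ha
  rw [h2, hH]
  ring

include hcl hloc in
/-- **Cuspidal step.** `s := j⁻¹ ∈ A` a non-unit (`j ∉ A`), `q` a non-unit, and the modular
equation with its degree facts: `s' := j'⁻¹ ∈ A`, and `s'` is a non-unit (`j' ∉ A`). -/
theorem kb96_inv_mem (q : ℕ) (hqA : ¬ ∃ z ∈ A, (q : F) * z = 1)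
    (Φ : Polynomial (Polynomial ℤ)) (hΦ : Φ.Monic) (hΦdeg : Φ.natDegree = q + 1)
    (hD1 : ∀ k, 1 ≤ k → k ≤ q → (Φ.coeff k).natDegree ≤ q)
    (hD0 : (Φ.coeff 0).natDegree ≤ q + 1)
    (hlead : ∃ c : ℤ, (Φ.coeff 0).coeff (q + 1) = 1 + q * c)
    (φ : Polynomial ℤ →+* F) (j j' : F) (hφ : φ X = j) (hj : j ≠ 0) (hj' : j' ≠ 0)
    (hrel : Φ.eval₂ φ j' = 0) (hs : j⁻¹ ∈ A) (hjA : j ∉ A) :
    j'⁻¹ ∈ A ∧ j' ∉ A := by
  classical
  set N := q + 1 with hN
  set s := j⁻¹ with hsdef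
  set s' := j'⁻¹ with hs'def
  have hjs : j * s = 1 := mul_inv_cancel₀ hj
  have hj's' : j' * s' = 1 := mul_inv_cancel₀ hj'
  -- `s` is a non-unit
  have hsn : ¬ ∃ z ∈ A, s * z = 1 := by
    rintro ⟨z, hz, hsz⟩
    apply hjA
    have : z = j := by
      calc z = (j * s) * z := by rw [hjs, one_mul]
        _ = j * (s * z) := by ring
        _ = j := by rw [hsz, mul_one]
    rwa [← this]
  -- evaluation at `s`
  let ψ : Polynomial ℤ →+* F := eval₂RingHom (Int.castRingHom F) s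
  have hψX : ψ X = s := by simp [ψ]
  have hψA : ∀ P : Polynomial ℤ, ψ P ∈ A := fun P =>
    kb96_ringHom_mem A ψ (by rw [hψX]; exact hs) P
  have hφeq : φ = eval₂RingHom (Int.castRingHom F) j := by
    apply Polynomial.ringHom_ext
    · intro a; simp
    · simp [hφ]
  -- degrees of all coefficients are `≤ N`
  have hdegN : ∀ k, k ≤ N → (Φ.coeff k).natDegree ≤ N := by
    intro k hk
    rcases Nat.eq_zero_or_pos k with h0 | h0
    · rw [h0]; exact hD0
    · rcases Nat.lt_or_ge k N with h1 | h1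
      · exact (hD1 k h0 (by omega)).trans (by omega)
      · have : k = Φ.natDegree := by omega
        rw [this, coeff_natDegree, hΦ.leadingCoeff, natDegree_one]
        exact Nat.zero_le _
  -- the reflected coefficients
  let r : ℕ → Polynomial ℤ := fun k => reflect N (Φ.coeff k)
  have hrefl : ∀ k, k ≤ N → φ (Φ.coeff k) = ψ (r k) * j ^ N := by
    intro k hk
    let _inst : Invertible j := invertibleOfNonzero hj
    have h := eval₂_reflect_mul_pow (Int.castRingHom F) j N (Φ.coeff k) (hdegN k hk)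
    rw [hφeq]
    have hinv : (⅟j : F) = s := by rw [invOf_eq_inv]
    rw [hinv] at h
    simpa [ψ, r] using h.symm
  -- coefficient `0` of the reflected coefficients
  have hr0 : ∀ k, 1 ≤ k → k ≤ N → (r k).coeff 0 = 0 := by
    intro k hk1 hkN
    simp only [r, coeff_reflect, revAt_le (Nat.zero_le N), Nat.sub_zero]
    rcases Nat.lt_or_ge k N with h1 | h1
    · exact coeff_eq_zero_of_natDegree_lt (lt_of_le_of_lt (hD1 k hk1 (by omega)) (by omega))
    · have : k = Φ.natDegree := by omega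
      rw [this, coeff_natDegree, hΦ.leadingCoeff, coeff_one, if_neg (by omega)]
  have hrs : ∀ k, 1 ≤ k → k ≤ N → ψ (r k) = s * ψ (divX (r k)) := by
    intro k hk1 hkN
    have h := divX_mul_X_add (r k)
    rw [hr0 k hk1 hkN, C_0, add_zero] at h
    conv_lhs => rw [← h]
    rw [map_mul, hψX, mul_comm]
  -- the unit `u = ψ (r 0)`
  obtain ⟨c, hc⟩ := hlead
  have hr00 : (r 0).coeff 0 = 1 + q * c := by
    simp only [r, coeff_reflect, revAt_le (Nat.zero_le N), Nat.sub_zero]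
    exact hc
  have hu : ψ (r 0) = 1 - (-((q : F) * (c : F)) + -(s * ψ (divX (r 0)))) := by
    have h := divX_mul_X_add (r 0)
    conv_lhs => rw [← h]
    rw [map_add, map_mul, hψX, hr00]
    have : ψ (C (1 + (q : ℤ) * c)) = 1 + (q : F) * (c : F) := by
      rw [show (C (1 + (q : ℤ) * c) : Polynomial ℤ) = ((1 + (q : ℤ) * c : ℤ) : Polynomial ℤ) from rfl,
        map_intCast]
      push_cast; ring
    rw [this]; ring
  have hqc : ¬ ∃ z ∈ A, (-((q : F) * (c : F))) * z = 1 := by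
    rintro ⟨z, hz, hqz⟩
    exact hqA ⟨-(c : F) * z, A.mul_mem (A.neg_mem (intCast_mem A c)) hz, by
      rw [← hqz]; ring⟩
  have hsd : ¬ ∃ z ∈ A, (-(s * ψ (divX (r 0)))) * z = 1 := by
    rintro ⟨z, hz, hsz⟩
    exact hsn ⟨-ψ (divX (r 0)) * z, A.mul_mem (A.neg_mem (hψA _)) hz, by rw [← hsz]; ring⟩
  have hx0A : -((q : F) * (c : F)) + -(s * ψ (divX (r 0))) ∈ A :=
    A.add_mem (A.neg_mem (A.mul_mem (natCast_mem A q) (intCast_mem A c)))
      (A.neg_mem (A.mul_mem hs (hψA _)))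
  obtain ⟨v, hv, huv⟩ : ∃ v ∈ A, ψ (r 0) * v = 1 := by
    rw [hu]
    exact kb96_unit_one_sub A hloc hx0A
      (kb96_nonunit_add A hloc (A.neg_mem (A.mul_mem (natCast_mem A q) (intCast_mem A c)))
        (A.neg_mem (A.mul_mem hs (hψA _))) hqc hsd)
  -- the relation for `s'`
  have hrel1 : ∑ k ∈ Finset.range (N + 1), ψ (r k) * s' ^ (N - k) = 0 := by
    have h1 : Φ.eval₂ φ j' = ∑ k ∈ Finset.range (N + 1), φ (Φ.coeff k) * j' ^ k := by
      rw [eval₂_eq_sum_range, hΦdeg]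
    rw [h1] at hrel
    have h2 : ∑ k ∈ Finset.range (N + 1), ψ (r k) * s' ^ (N - k) =
        (s ^ N * s' ^ N) * ∑ k ∈ Finset.range (N + 1), φ (Φ.coeff k) * j' ^ k := by
      rw [Finset.mul_sum]
      refine Finset.sum_congr rfl fun k hk => ?_
      have hk' : k ≤ N := Nat.lt_succ_iff.mp (Finset.mem_range.mp hk)
      rw [hrefl k hk']
      have e1 : s' ^ N = s' ^ (N - k) * s' ^ k := by rw [← pow_add, Nat.sub_add_cancel hk']
      have e2 : j ^ N * s ^ N = 1 := by rw [← mul_pow, hjs, one_pow]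
      have e3 : j' ^ k * s' ^ k = 1 := by rw [← mul_pow, hj's', one_pow]
      calc ψ (r k) * s' ^ (N - k) = ψ (r k) * s' ^ (N - k) * (j ^ N * s ^ N) * (j' ^ k * s' ^ k) := by
            rw [e2, e3, mul_one, mul_one]
        _ = s ^ N * s' ^ N * (ψ (r k) * j ^ N * j' ^ k) := by rw [e1]; ring
    rw [h2, hrel, mul_zero]
  have hrel2 : ∑ i ∈ Finset.range (N + 1), ψ (r (N - i)) * s' ^ i = 0 := by
    rw [← hrel1, ← Finset.sum_range_reflect]
    refine Finset.sum_congr rfl fun i hi => ?_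
    have hi' : i ≤ N := Nat.lt_succ_iff.mp (Finset.mem_range.mp hi)
    have e1 : N + 1 - 1 - i = N - i := by omega
    have e2 : N - (N - i) = i := by omega
    rw [e1, e2]
  rw [Finset.sum_range_succ, Nat.sub_self] at hrel2
  have hpow : s' ^ N = ∑ i ∈ Finset.range N, (-(v * ψ (r (N - i)))) * s' ^ i := by
    have h3 : ψ (r 0) * s' ^ N = -∑ i ∈ Finset.range N, ψ (r (N - i)) * s' ^ i :=
      eq_neg_of_add_eq_zero_right hrel2
    calc s' ^ N = v * (ψ (r 0) * s' ^ N) := by rw [← mul_assoc, mul_comm v, huv, one_mul]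
      _ = ∑ i ∈ Finset.range N, (-(v * ψ (r (N - i)))) * s' ^ i := by
          rw [h3, mul_neg, Finset.mul_sum, ← Finset.sum_neg_distrib]
          exact Finset.sum_congr rfl fun i _ => by ring
  have hs'A : s' ∈ A := hcl s' (kb96_isIntegral_of_pow_eq A s' N _
    (fun i _ => A.neg_mem (A.mul_mem hv (hψA _))) hpow)
  refine ⟨hs'A, fun hj'A => hsn ?_⟩
  -- if `j' ∈ A` then `s` would be a unit
  refine ⟨∑ i ∈ Finset.range N, (-(v * ψ (divX (r (N - i))))) * j' ^ (N - i),
    A.sum_mem fun i _ => A.mul_mem (A.neg_mem (A.mul_mem hv (hψA _))) (A.pow_mem hj'A _), ?_⟩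
  have h4 : (1 : F) = j' ^ N * s' ^ N := by rw [← mul_pow, hj's', one_pow]
  rw [h4, hpow, Finset.mul_sum, Finset.mul_sum]
  refine Finset.sum_congr rfl fun i hi => ?_
  have hi' : i < N := Finset.mem_range.mp hi
  rw [hrs (N - i) (by omega) (by omega)]
  have e1 : j' ^ N = j' ^ (N - i) * j' ^ i := by rw [← pow_add, Nat.sub_add_cancel hi'.le]
  have e3 : j' ^ i * s' ^ i = 1 := by rw [← mul_pow, hj's', one_pow]
  calc s * (-(v * ψ (divX (r (N - i)))) * j' ^ (N - i))
      = s * (-(v * ψ (divX (r (N - i)))) * j' ^ (N - i)) * (j' ^ i * s' ^ i) := by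
        rw [e3, mul_one]
    _ = j' ^ N * (-(v * (s * ψ (divX (r (N - i))))) * s' ^ i) := by rw [e1]; ring

include hcl hloc in
/-- **Dichotomy.** `s' ∈ A` a non-unit and `h' ^ a = s' * D(h')` with `D` monic of degree
`a + 1`: `h' ∈ A` or `h'⁻¹ ∈ A`. -/
theorem kb96_dichotomy (s' h' : F) (hs' : s' ∈ A) (hs'n : ¬ ∃ z ∈ A, s' * z = 1)
    (a : ℕ) (D : Polynomial ℤ) (hD : D.Monic) (hDdeg : D.natDegree = a + 1)
    (hH : h' ^ a = s' * aeval h' D) : h' ∈ A ∨ h'⁻¹ ∈ A := by
  classical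
  have hsum := hD.as_sum
  rw [hDdeg] at hsum
  have h1 : aeval h' D = h' ^ (a + 1) +
      ∑ i ∈ Finset.range (a + 1), ((D.coeff i : ℤ) : F) * h' ^ i := by
    conv_lhs => rw [hsum]
    rw [map_add, map_pow, aeval_X, map_sum]
    congr 1
    refine Finset.sum_congr rfl fun i _ => ?_
    rw [map_mul, map_pow, aeval_X, aeval_C]
    rfl
  rw [h1] at hH
  set e := s' * h' with he
  -- `e` is integral over `A`
  have heA : e ∈ A := by
    apply hcl
    refine kb96_isIntegral_of_pow_eq A e (a + 1)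
      (fun i => (if i = a then 1 else 0) - ((D.coeff i : ℤ) : F) * s' ^ (a + 1 - i))
      (fun i _ => A.sub_mem (by split_ifs; exacts [A.one_mem, A.zero_mem])
        (A.mul_mem (intCast_mem A _) (A.pow_mem hs' _))) ?_
    have h2 : ∑ i ∈ Finset.range (a + 1),
        ((if i = a then 1 else 0) - ((D.coeff i : ℤ) : F) * s' ^ (a + 1 - i)) * e ^ i =
        e ^ a - ∑ i ∈ Finset.range (a + 1), ((D.coeff i : ℤ) : F) * s' ^ (a + 1 - i) * e ^ i := by
      simp_rw [sub_mul]
      rw [Finset.sum_sub_distrib]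
      congr 1
      rw [Finset.sum_eq_single a]
      · rw [if_pos rfl, one_mul]
      · intro b _ hb; rw [if_neg hb, zero_mul]
      · intro ha; exact absurd (Finset.mem_range.mpr (Nat.lt_succ_self a)) ha
    rw [h2]
    have h3 : ∑ i ∈ Finset.range (a + 1), ((D.coeff i : ℤ) : F) * s' ^ (a + 1 - i) * e ^ i =
        s' ^ (a + 1) * ∑ i ∈ Finset.range (a + 1), ((D.coeff i : ℤ) : F) * h' ^ i := by
      rw [Finset.mul_sum]
      refine Finset.sum_congr rfl fun i hi => ?_
      have hi' : i ≤ a + 1 := (Finset.mem_range.mp hi).le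
      have e1 : s' ^ (a + 1) = s' ^ (a + 1 - i) * s' ^ i := by
        rw [← pow_add, Nat.sub_add_cancel hi']
      rw [he, mul_pow, e1]; ring
    rw [h3]
    have h4 : e ^ a = s' ^ a * h' ^ a := by rw [he, mul_pow]
    have h5 : e ^ (a + 1) = s' ^ (a + 1) * h' ^ (a + 1) := by rw [he, mul_pow]
    rw [h4, h5, hH]
    ring
  by_cases hu : ∃ z ∈ A, e * z = 1
  · -- `e` a unit: `h'⁻¹ = s' * z`
    right
    obtain ⟨z, hz, hez⟩ := hu
    have : h'⁻¹ = s' * z := by
      have h6 : h' * (s' * z) = 1 := by rw [← hez, he]; ring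
      exact inv_eq_of_mul_eq_one_right h6
    rw [this]
    exact A.mul_mem hs' hz
  · -- `e` a non-unit: `h'` is integral
    left
    have hsd : ¬ ∃ z ∈ A, (s' * ((D.coeff a : ℤ) : F)) * z = 1 := by
      rintro ⟨z, hz, hsz⟩
      exact hs'n ⟨((D.coeff a : ℤ) : F) * z, A.mul_mem (intCast_mem A _) hz, by
        rw [← hsz]; ring⟩
    obtain ⟨v, hv, hvv⟩ := kb96_unit_one_sub A hloc
      (A.add_mem heA (A.mul_mem hs' (intCast_mem A (D.coeff a))))
      (kb96_nonunit_add A hloc heA (A.mul_mem hs' (intCast_mem A (D.coeff a))) hu hsd)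
    apply hcl
    refine kb96_isIntegral_of_pow_eq A h' a
      (fun i => v * s' * ((D.coeff i : ℤ) : F))
      (fun i _ => A.mul_mem (A.mul_mem hv hs') (intCast_mem A _)) ?_
    rw [Finset.sum_range_succ] at hH
    have h7 : (1 - (e + s' * ((D.coeff a : ℤ) : F))) * h' ^ a =
        s' * ∑ i ∈ Finset.range a, ((D.coeff i : ℤ) : F) * h' ^ i := by
      have : h' ^ (a + 1) = h' ^ a * h' := pow_succ h' a
      rw [this] at hH
      rw [he]
      linear_combination hH
    calc h' ^ a = v * ((1 - (e + s' * ((D.coeff a : ℤ) : F))) * h' ^ a) := by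
          rw [← mul_assoc, mul_comm v, hvv, one_mul]
      _ = ∑ i ∈ Finset.range a, v * s' * ((D.coeff i : ℤ) : F) * h' ^ i := by
          rw [h7, Finset.mul_sum, Finset.mul_sum]
          exact Finset.sum_congr rfl fun i _ => by ring

include hcl hloc in
/-- **Main abstract statement.** At a local integrally closed `A ⊆ F` in which `q` is not a
unit: if `j ∈ A` or `j⁻¹ ∈ A`, then `h' ∈ A` or `h'⁻¹ ∈ A`. -/
theorem kb96_main (q : ℕ) (hqA : ¬ ∃ z ∈ A, (q : F) * z = 1)
    (Φ : Polynomial (Polynomial ℤ)) (hΦ : Φ.Monic) (hΦdeg : Φ.natDegree = q + 1)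
    (hD1 : ∀ k, 1 ≤ k → k ≤ q → (Φ.coeff k).natDegree ≤ q)
    (hD0 : (Φ.coeff 0).natDegree ≤ q + 1)
    (hlead : ∃ c : ℤ, (Φ.coeff 0).coeff (q + 1) = 1 + q * c)
    (φ : Polynomial ℤ →+* F) (j j' : F) (hφ : φ X = j) (hj : j ≠ 0) (hj' : j' ≠ 0)
    (hrel : Φ.eval₂ φ j' = 0) (hjA : j ∈ A ∨ j⁻¹ ∈ A)
    (h' : F) (a : ℕ) (D : Polynomial ℤ) (hD : D.Monic) (hDdeg : D.natDegree = a + 1)
    (hH : j' * h' ^ a = aeval h' D) : h' ∈ A ∨ h'⁻¹ ∈ A := by
  by_cases hjm : j ∈ A
  · left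
    have hj'A : j' ∈ A := kb96_regular A hcl Φ hΦ φ j' (by rw [hφ]; exact hjm) hrel
    exact kb96_haupt_of_mem A hcl j' h' hj'A a D hD hDdeg hH
  · have hs : j⁻¹ ∈ A := hjA.resolve_left hjm
    obtain ⟨hs'A, hj'A⟩ := kb96_inv_mem A hloc hcl q hqA Φ hΦ hΦdeg hD1 hD0 hlead φ j j' hφ hj
      hj' hrel hs hjm
    have hs'n : ¬ ∃ z ∈ A, j'⁻¹ * z = 1 := by
      rintro ⟨z, hz, hsz⟩
      apply hj'A
      have : z = j' := by
        calc z = (j' * j'⁻¹) * z := by rw [mul_inv_cancel₀ hj', one_mul]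
          _ = j' * (j'⁻¹ * z) := by ring
          _ = j' := by rw [hsz, mul_one]
      rwa [← this]
    refine kb96_dichotomy A hloc hcl j'⁻¹ h' hs'A hs'n a D hD hDdeg ?_
    rw [← hH, ← mul_assoc, inv_mul_cancel₀ hj', one_mul]

end core

end Fermat.Agent.S34
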