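import Fermat.Agent.S34.DiffAbs46
import Fermat.Agent.S37.Kronecker87
import Fermat.Agent.S37.NormInst22
import Fermat.Agent.S28.CIgusa
import Fermat.Agent.S28.CharLBridge
import Fermat.Agent.S37.ChartFacts93
import Fermat.Agent.S18.Pack85

/-!
# S34 lab, row P3a-inf (helper46): the `∞`-branch of the special fibre at level `M q`

`R` a discrete valuation ring with fraction field `K` of characteristic zero and residue field
of characteristic `q`; `M` a level prime to `q`, invertible in `R`.

**Main point (`bi46_red_mem`)**: if `x ∈ F_K(M q)` is integral over `R[j]`, then its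
(`R`-integral) `q`-expansion reduces into `F_κ(M)` — the function field of level `M`, NOT `M q`.
No second valuation, no Atkin–Lehner involution, no count of extensions is used: the proof is the
different.  `F_K(M q) = F_K(M)(y)`, `y = j(Q^q)`, with minimal polynomial the modular polynomial
`Φ_q(X, j)` (S28 Part C), so `Φ_q'(y, j) · x ∈ A'[y]` for the `j`-chart `A'` of level `M`
(`da46_exists_aeval`); by Kronecker's congruence `Φ_q ≡ (X - Y^q)(X^q - Y) mod q` the reduction
of `Φ_q'(y, j)` is `j̄^(q²) - j̄ ≠ 0`, the reduction of `y` is `j̄^q`, and `A'` reduces into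
`F_κ(M)` (`rm90_exists_red`).
-/

set_option autoImplicit false
set_option linter.unusedSectionVars false
set_option linter.unusedVariables false
set_option linter.style.haveILetI false

open Polynomial ModularCurve

namespace Fermat.Agent.S34

open Fermat.Agent.S18 Fermat.Agent.S28 Fermat.Agent.S37

/-! ## 1. The degree of `j(Q^q)` over `F_K(M)` -/

section Degree

/-- Over an algebraically closed field of characteristic zero, `J(Q^q) ∉ F(M)` for a prime
`q ∤ M`. -/
theorem bi46_notMem_closed (M q : ℕ) [NeZero M] [NeZero q] (Ω : Type) [Field Ω] [CharZero Ω]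
    [IsAlgClosed Ω] (hq : q.Prime) (hqM : ¬ q ∣ M) :
    qExpand Ω q (jqModC Ω) ∉ modularFunctionFieldFullC Ω M := by
  have hP1 : qExpand Ω q (jqModC Ω) ∉ IntermediateField.adjoin Ω {jqModC Ω} := by
    intro hmem
    have h1 := ni22_relfinrank_j Ω q (Nat.cast_ne_zero.mpr hq.ne_zero)
    have hle : modularFunctionFieldFullC Ω q ≤ IntermediateField.adjoin Ω {jqModC Ω} := by
      unfold modularFunctionFieldFullC
      rw [IntermediateField.adjoin_le_iff]
      rintro x ⟨d, hd, hdq, rfl⟩
      rcases (Nat.dvd_prime hq).mp hdq with rfl | rfl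
      · rw [qExpand_one_apply]
        exact IntermediateField.mem_adjoin_simple_self Ω _
      · exact hmem
    rw [IntermediateField.relfinrank_eq_one_of_le hle] at h1
    have h2 := Fermat.Agent.Lib.G0C.dedekindPsi_prime_pow hq (e := 1) Nat.one_pos
    simp only [pow_one, Nat.sub_self, pow_zero] at h2
    have := hq.pos
    omega
  have hmod : ∀ (r : ℕ) [NeZero r], r.Prime → r ∣ q * M →
      ∃ Φ : Polynomial (Polynomial Ω), Φ.Monic ∧ Φ.natDegree = r + 1 ∧
        Φ.eval₂ (aeval (jqModC Ω) : Polynomial Ω →ₐ[Ω] LaurentSeries Ω).toRingHom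
          (qExpand Ω r (jqModC Ω)) = 0 ∧
        Φ.eval₂ (aeval (qExpand Ω r (jqModC Ω)) : Polynomial Ω →ₐ[Ω] LaurentSeries Ω).toRingHom
          (jqModC Ω) = 0 := by
    intro r _ hr _
    obtain ⟨Φ, hm, hd, h1, h2, -⟩ := kc87_exists r hr
    exact h58_level_modEq r ⟨Φ, hm, hd, h1, h2⟩
  exact partC_stepA (jqModC Ω) (coeff_jqModC_neg_one Ω) (fun n hn => coeff_jqModC_of_lt Ω hn) q M
    hq hqM (Nat.cast_ne_zero.mpr (Nat.mul_ne_zero hq.ne_zero (NeZero.ne M))) hmod hP1

/-- Over any field of characteristic zero: a nonzero polynomial with coefficients in `F_K(M)`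
vanishing at `j(Q^q)` (`q` prime, `q ∤ M`) has degree at least `q + 1`. -/
theorem bi46_natDegree_le (K : Type) [Field K] [CharZero K] (M q : ℕ) [NeZero M] [NeZero q]
    (hq : q.Prime) (hqM : ¬ q ∣ M) (g : Polynomial (LaurentSeries K)) (hg : g ≠ 0)
    (hc : ∀ n, g.coeff n ∈ modularFunctionFieldFullC K M)
    (hroot : g.eval (qExpand K q (jqModC K)) = 0) : q + 1 ≤ g.natDegree := by
  let Ω := AlgebraicClosure K
  let ι : LaurentSeries K →+* LaurentSeries Ω := coeffMap (algebraMap K Ω)
  have hι : Function.Injective ι := fd27_coeffMap_injective _ (algebraMap K Ω).injective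
  have hg' : g.map ι ≠ 0 := (Polynomial.map_ne_zero_iff hι).mpr hg
  have hc' : ∀ n, (g.map ι).coeff n ∈ modularFunctionFieldFullC Ω M := fun n => by
    rw [Polynomial.coeff_map]
    exact fd27_coeffMap_mem _ M (hc n)
  have hy : ι (qExpand K q (jqModC K)) = qExpand Ω q (jqModC Ω) := by
    show coeffMap (algebraMap K Ω) (qExpand K q (jqModC K)) = _
    rw [coeffMap_qExpand, coeffMap_jqModC]
  have hroot' : (g.map ι).eval (qExpand Ω q (jqModC Ω)) = 0 := by
    rw [← hy, Polynomial.eval_map, Polynomial.eval₂_at_apply, hroot, map_zero]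
  obtain ⟨ζ, hζ⟩ : ∃ ζ : Ωˣ, IsPrimitiveRoot ζ q := by
    have : NeZero (q : Ω) := ⟨Nat.cast_ne_zero.mpr hq.ne_zero⟩
    obtain ⟨ζ, hζ⟩ := HasEnoughRootsOfUnity.exists_primitiveRoot Ω q
    have hu : IsUnit ζ := hζ.isUnit hq.ne_zero
    exact ⟨hu.unit, IsPrimitiveRoot.coe_units_iff.mp (by simpa using hζ)⟩
  obtain ⟨Φ0, hm0, hd0, h10, h20, -⟩ := kc87_exists q hq
  obtain ⟨Φ, hm, hd, h1, h2⟩ := h58_level_modEq (k := Ω) q ⟨Φ0, hm0, hd0, h10, h20⟩
  have h3 := partC_stepA_natDegree_le (jqModC Ω) (coeff_jqModC_neg_one Ω) q hq.two_le ζ hζ Φ hm hd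
    h1 h2 (modularFunctionFieldFullC Ω M) (jqModC_mem_full Ω M)
    (bi46_notMem_closed M q Ω hq hqM) (g.map ι) hg' hc' hroot'
  rwa [Polynomial.natDegree_map_eq_of_injective hι] at h3

end Degree

/-! ## 2. `F_K(M q) = F_K(M)(y)` and the minimal polynomial of `y = j(Q^q)` -/

section Minpoly

variable (K : Type) [Field K] [CharZero K] (M q : ℕ) [NeZero M] [NeZero q]

/-- `j` at level `M`. -/
noncomputable def bi46_j : ↥(modularFunctionFieldFullC K M) :=
  ⟨jqModC K, jqModC_mem_full K M⟩

/-- `y = j(Q^q)` at level `M q`. -/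
noncomputable def bi46_y : ↥(modularFunctionFieldFullC K (M * q)) :=
  ⟨qExpand K q (jqModC K), jqModCd_mem_full K (M * q) (dvd_mul_left q M)⟩

theorem bi46_le : modularFunctionFieldFullC K M ≤ modularFunctionFieldFullC K (M * q) :=
  full_degeneracyC_le K (dvd_mul_right M q)

/-- The modular polynomial with coefficients in `F_K(M)`: `Φ(X, j)`. -/
noncomputable def bi46_PhiF (Φ : Polynomial (Polynomial ℤ)) :
    Polynomial ↥(modularFunctionFieldFullC K M) :=
  Φ.map (Polynomial.eval₂RingHom (Int.castRingHom ↥(modularFunctionFieldFullC K M)) (bi46_j K M))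

theorem bi46_val_comp_ev :
    (algebraMap ↥(modularFunctionFieldFullC K M) (LaurentSeries K)).comp
      (Polynomial.eval₂RingHom (Int.castRingHom ↥(modularFunctionFieldFullC K M)) (bi46_j K M)) =
      evJ K :=
  h58_eq_evJ _ (by
    rw [RingHom.comp_apply, Polynomial.coe_eval₂RingHom, Polynomial.eval₂_X]
    rfl)

theorem bi46_PhiF_map (Φ : Polynomial (Polynomial ℤ)) :
    (bi46_PhiF K M Φ).map (algebraMap ↥(modularFunctionFieldFullC K M) (LaurentSeries K)) =
      Φ.map (evJ K) := by
  rw [bi46_PhiF, Polynomial.map_map, bi46_val_comp_ev]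

/-- `q`-expansion of a polynomial expression in an element of `F_K(M q)` with coefficients in
`F_K(M)`. -/
theorem bi46_coe_aeval (P : Polynomial ↥(modularFunctionFieldFullC K M))
    (z : ↥(modularFunctionFieldFullC K (M * q))) :
    letI := ni22_algebra (bi46_le K M q)
    ((aeval z P : ↥(modularFunctionFieldFullC K (M * q))) : LaurentSeries K) =
      (P.map (algebraMap ↥(modularFunctionFieldFullC K M) (LaurentSeries K))).eval
        (z : LaurentSeries K) := by
  letI := ni22_algebra (bi46_le K M q)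
  rw [Polynomial.eval_map, Polynomial.aeval_def]
  exact Polynomial.hom_eval₂ P (algebraMap ↥(modularFunctionFieldFullC K M)
    ↥(modularFunctionFieldFullC K (M * q)))
    (algebraMap ↥(modularFunctionFieldFullC K (M * q)) (LaurentSeries K)) z

/-- The modular equation over `K`, in `K((Q))`. -/
theorem bi46_modEq_K (Φ : Polynomial (Polynomial ℤ)) (h1 : Φ.eval₂ (evJ ℤ) (JdC ℤ q) = 0) :
    (Φ.map (evJ K)).eval (qExpand K q (jqModC K)) = 0 := by
  have h := h58_eval₂_transfer (evJ ℤ) (evJ K) (h58_coeffMap_comp_evJ K) Φ _ h1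
  rwa [coeffMap_JdC, JdC_of_neZero, ← Polynomial.eval_map] at h

theorem bi46_aeval_PhiF (Φ : Polynomial (Polynomial ℤ)) (h1 : Φ.eval₂ (evJ ℤ) (JdC ℤ q) = 0) :
    letI := ni22_algebra (bi46_le K M q)
    aeval (bi46_y K M q) (bi46_PhiF K M Φ) = 0 := by
  letI := ni22_algebra (bi46_le K M q)
  apply Subtype.ext
  rw [bi46_coe_aeval, bi46_PhiF_map]
  exact bi46_modEq_K K q Φ h1

theorem bi46_PhiF_monic (Φ : Polynomial (Polynomial ℤ)) (hm : Φ.Monic) :
    (bi46_PhiF K M Φ).Monic := hm.map _

theorem bi46_PhiF_natDegree (Φ : Polynomial (Polynomial ℤ)) (hm : Φ.Monic) :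
    (bi46_PhiF K M Φ).natDegree = Φ.natDegree := hm.natDegree_map _

/-- **The minimal polynomial of `y = j(Q^q)` over `F_K(M)` is `Φ_q(X, j)`** (`q ∤ M`). -/
theorem bi46_minpoly (hq : q.Prime) (hqM : ¬ q ∣ M) (Φ : Polynomial (Polynomial ℤ))
    (hm : Φ.Monic) (hd : Φ.natDegree = q + 1) (h1 : Φ.eval₂ (evJ ℤ) (JdC ℤ q) = 0) :
    letI := ni22_algebra (bi46_le K M q)
    minpoly ↥(modularFunctionFieldFullC K M) (bi46_y K M q) = bi46_PhiF K M Φ := by
  letI := ni22_algebra (bi46_le K M q)
  have haev := bi46_aeval_PhiF K M q Φ h1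
  have hint : IsIntegral ↥(modularFunctionFieldFullC K M) (bi46_y K M q) :=
    ⟨bi46_PhiF K M Φ, bi46_PhiF_monic K M Φ hm, haev⟩
  have hdvd : minpoly ↥(modularFunctionFieldFullC K M) (bi46_y K M q) ∣ bi46_PhiF K M Φ :=
    minpoly.dvd _ _ haev
  have hdeg : q + 1 ≤ (minpoly ↥(modularFunctionFieldFullC K M) (bi46_y K M q)).natDegree := by
    have hinj : Function.Injective
        (algebraMap ↥(modularFunctionFieldFullC K M) (LaurentSeries K)) :=
      (algebraMap ↥(modularFunctionFieldFullC K M) (LaurentSeries K)).injective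
    have h3 := bi46_natDegree_le K M q hq hqM
      ((minpoly ↥(modularFunctionFieldFullC K M) (bi46_y K M q)).map
        (algebraMap ↥(modularFunctionFieldFullC K M) (LaurentSeries K)))
      ((Polynomial.map_ne_zero_iff hinj).mpr (minpoly.ne_zero hint))
      (fun n => by
        rw [Polynomial.coeff_map]
        exact SetLike.coe_mem _)
      (by
        have h4 := bi46_coe_aeval K M q
          (minpoly ↥(modularFunctionFieldFullC K M) (bi46_y K M q)) (bi46_y K M q)
        rw [minpoly.aeval] at h4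
        exact h4.symm)
    rwa [Polynomial.natDegree_map_eq_of_injective hinj] at h3
  refine (Polynomial.eq_of_monic_of_dvd_of_natDegree_le (minpoly.monic hint)
    (bi46_PhiF_monic K M Φ hm) hdvd ?_).symm
  rw [bi46_PhiF_natDegree K M Φ hm, hd]
  exact hdeg

/-- `[F_K(M q) : F_K(M)] = q + 1` for a prime `q ∤ M`. -/
theorem bi46_finrank (hq : q.Prime) (hqM : ¬ q ∣ M) :
    letI := ni22_algebra (bi46_le K M q)
    Module.finrank ↥(modularFunctionFieldFullC K M) ↥(modularFunctionFieldFullC K (M * q)) =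
      q + 1 := by
  letI := ni22_algebra (bi46_le K M q)
  rw [ni22_finrank_eq_relfinrank]
  haveI : NeZero (M * q) := ⟨Nat.mul_ne_zero (NeZero.ne M) hq.ne_zero⟩
  have h1 := ni22_relfinrank K (dvd_mul_right M q)
    (Nat.cast_ne_zero.mpr (Nat.mul_ne_zero (NeZero.ne M) hq.ne_zero))
  have hcop : Nat.Coprime M q := ((Nat.Prime.coprime_iff_not_dvd hq).mpr hqM).symm
  rw [Fermat.Agent.Lib.G0C.dedekindPsi_mul hcop] at h1
  have h2 := Fermat.Agent.Lib.G0C.dedekindPsi_prime_pow hq (e := 1) one_pos
  have h3 : dedekindPsi q = q + 1 := by simpa using h2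
  rw [h3] at h1
  exact Nat.eq_of_mul_eq_mul_left (ni22_psi_pos M) h1

theorem bi46_finiteDimensional (hq : q.Prime) :
    letI := ni22_algebra (bi46_le K M q)
    FiniteDimensional ↥(modularFunctionFieldFullC K M)
      ↥(modularFunctionFieldFullC K (M * q)) := by
  haveI : NeZero (M * q) := ⟨Nat.mul_ne_zero (NeZero.ne M) hq.ne_zero⟩
  exact ni22_finiteDimensional_fullC K (dvd_mul_right M q)
    (Nat.cast_ne_zero.mpr (Nat.mul_ne_zero (NeZero.ne M) hq.ne_zero))

/-- **`F_K(M q) = F_K(M)[y]`**, `y = j(Q^q)` (`q` prime, `q ∤ M`). -/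
theorem bi46_adjoin_top (hq : q.Prime) (hqM : ¬ q ∣ M) :
    letI := ni22_algebra (bi46_le K M q)
    Algebra.adjoin ↥(modularFunctionFieldFullC K M) {bi46_y K M q} = ⊤ := by
  letI := ni22_algebra (bi46_le K M q)
  haveI := bi46_finiteDimensional K M q hq
  obtain ⟨Φ, hm, hd, h1, -, -⟩ := kc87_exists q hq
  have hmin := bi46_minpoly K M q hq hqM Φ hm hd h1
  have htop : IntermediateField.adjoin ↥(modularFunctionFieldFullC K M) {bi46_y K M q} = ⊤ := by
    rw [Field.primitive_element_iff_minpoly_natDegree_eq, hmin, bi46_PhiF_natDegree K M Φ hm, hd,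
      bi46_finrank K M q hq hqM]
  have h2 := IntermediateField.adjoin_simple_toSubalgebra_of_isAlgebraic
    (Algebra.IsAlgebraic.isAlgebraic (R := ↥(modularFunctionFieldFullC K M)) (bi46_y K M q))
  rw [← h2, htop]
  rfl

end Minpoly

/-! ## 3. The different: `Φ'(y, j) · x ∈ A'[y]` -/

section Different

variable (R : Type) [CommRing R] [IsDomain R] [IsDiscreteValuationRing R]
  (K : Type) [Field K] [CharZero K] [Algebra R K] [IsFractionRing R K]
  (M q : ℕ) [NeZero M] [NeZero q]

/-- The `j`-chart of level `M`: the elements of `F_K(M)` integral over `R[j]`. -/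
def bi46_A : Subring ↥(modularFunctionFieldFullC K M) where
  carrier := {x | (rm90_ev K R M).IsIntegralElem x}
  mul_mem' := fun ha hb => RingHom.IsIntegralElem.mul _ ha hb
  one_mem' := by
    have h := (rm90_ev K R M).isIntegralElem_map (x := 1)
    rwa [map_one] at h
  add_mem' := fun ha hb => RingHom.IsIntegralElem.add _ ha hb
  zero_mem' := (rm90_ev K R M).isIntegralElem_zero
  neg_mem' := fun ha => RingHom.IsIntegralElem.neg _ ha

theorem bi46_mem_A (x : ↥(modularFunctionFieldFullC K M)) :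
    x ∈ bi46_A R K M ↔ (rm90_ev K R M).IsIntegralElem x := Iff.rfl

/-- `R[X] → A'`. -/
noncomputable def bi46_evA : Polynomial R →+* ↥(bi46_A R K M) :=
  (rm90_ev K R M).codRestrict (bi46_A R K M) fun a => (rm90_ev K R M).isIntegralElem_map

theorem bi46_evA_coe (a : Polynomial R) :
    ((bi46_evA R K M a : ↥(bi46_A R K M)) : ↥(modularFunctionFieldFullC K M)) =
      rm90_ev K R M a := rfl

/-- The `q`-expansion of `rm90_ev`: evaluation at `j` in the language of `ka46_ev`. -/
theorem bi46_val_comp_rm90 :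
    (algebraMap ↥(modularFunctionFieldFullC K M) (LaurentSeries K)).comp (rm90_ev K R M) =
      ka46_ev (algebraMap R K) (jqModC ℤ) := by
  refine Polynomial.ringHom_ext (fun r => ?_) ?_
  · rw [RingHom.comp_apply, ka46_ev_apply, Polynomial.eval₂_C]
    simp [rm90_ev, rm90_c]
    rw [algebraMap_laurentSeries_eq_single]
  · rw [RingHom.comp_apply, ka46_ev_apply, Polynomial.eval₂_X, ka46_g, coeffMap_jqModC]
    simp [rm90_ev, rm90_j]

/-- Integrality over `R[j]` in the two languages. -/
theorem bi46_isIntegralElem_iff (x : ↥(modularFunctionFieldFullC K M)) :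
    (rm90_ev K R M).IsIntegralElem x ↔
      (ka46_ev (algebraMap R K) (jqModC ℤ)).IsIntegralElem (x : LaurentSeries K) := by
  rw [← bi46_val_comp_rm90 R K M]
  constructor
  · rintro ⟨p, hp, hpx⟩
    refine ⟨p, hp, ?_⟩
    have h := congrArg (algebraMap ↥(modularFunctionFieldFullC K M) (LaurentSeries K)) hpx
    rwa [Polynomial.hom_eval₂, map_zero] at h
  · rintro ⟨p, hp, hpx⟩
    refine ⟨p, hp, ?_⟩
    apply (algebraMap ↥(modularFunctionFieldFullC K M) (LaurentSeries K)).injective
    rw [Polynomial.hom_eval₂, map_zero]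
    exact hpx

/-- The algebra structure of `F_K(M)` over the `j`-chart `A'` (inclusion). -/
@[reducible] noncomputable def bi46_algA :
    Algebra ↥(bi46_A R K M) ↥(modularFunctionFieldFullC K M) :=
  (bi46_A R K M).subtype.toAlgebra

/-- The algebra structure of `F_K(M q)` over the `j`-chart `A'` of level `M` (inclusion). -/
@[reducible] noncomputable def bi46_algAF :
    Algebra ↥(bi46_A R K M) ↥(modularFunctionFieldFullC K (M * q)) :=
  ((IntermediateField.inclusion (bi46_le K M q)).toRingHom.comp (bi46_A R K M).subtype).toAlgebra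

attribute [local instance] bi46_algA bi46_algAF

/-- Membership in `A'` is membership in the S18 chart of `j`. -/
theorem bi46_mem_A_iff_chart [Algebra R ↥(modularFunctionFieldFullC K M)]
    [IsScalarTower R K ↥(modularFunctionFieldFullC K M)] (x : ↥(modularFunctionFieldFullC K M)) :
    x ∈ bi46_A R K M ↔ x ∈ pk85_chart R (rm90_j K M) := by
  rw [bi46_mem_A, pk85_mem_chart, ← qx46_isIntegralElem_iff_adjoin (S := R), ← cf93_rm90_ev_eq]

theorem bi46_j_transcendental : Transcendental K (rm90_j K M) := fun ha =>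
  rm90_transcendental K (ha.algebraMap (A := LaurentSeries K))

/-- Every element of `F_K(M)` is a quotient of two elements of the `j`-chart. -/
theorem bi46_A_frac (x : ↥(modularFunctionFieldFullC K M)) :
    ∃ a b : ↥(bi46_A R K M), (b : ↥(modularFunctionFieldFullC K M)) ≠ 0 ∧
      x * (b : ↥(modularFunctionFieldFullC K M)) = (a : ↥(modularFunctionFieldFullC K M)) := by
  letI : Algebra R ↥(modularFunctionFieldFullC K M) := (rm90_c K R M).toAlgebra
  haveI : IsScalarTower R K ↥(modularFunctionFieldFullC K M) :=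
    IsScalarTower.of_algebraMap_eq (fun _ => rfl)
  have hj : Transcendental K (rm90_j K M) := bi46_j_transcendental K M
  haveI : FiniteDimensional (IntermediateField.adjoin K {rm90_j K M})
      ↥(modularFunctionFieldFullC K M) := relimc_finite K M
  obtain ⟨-, -, hfrac⟩ := pk85_chart_finite (R := R) (K := K) (rm90_j K M) hj
  obtain ⟨a, ha, b, hb, hb0, hab⟩ := hfrac x
  exact ⟨⟨a, (bi46_mem_A_iff_chart R K M a).mpr ha⟩, ⟨b, (bi46_mem_A_iff_chart R K M b).mpr hb⟩,
    hb0, hab⟩

theorem bi46_A_isFractionRing :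
    IsFractionRing ↥(bi46_A R K M) ↥(modularFunctionFieldFullC K M) := by
  haveI : FaithfulSMul ↥(bi46_A R K M) ↥(modularFunctionFieldFullC K M) :=
    (faithfulSMul_iff_algebraMap_injective _ _).mpr Subtype.val_injective
  refine IsFractionRing.of_field _ _ ?_
  intro z
  obtain ⟨a, b, hb0, hab⟩ := bi46_A_frac R K M z
  refine ⟨a, b, ?_⟩
  have hb0' : algebraMap ↥(bi46_A R K M) ↥(modularFunctionFieldFullC K M) b ≠ 0 := hb0
  rw [eq_div_iff hb0']
  exact hab

theorem bi46_A_isIntegral (a : ↥(bi46_A R K M)) :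
    (bi46_evA R K M).IsIntegralElem a := by
  obtain ⟨p, hp, hpa⟩ := a.2
  refine ⟨p, hp, Subtype.ext ?_⟩
  have h := Polynomial.hom_eval₂ p (bi46_evA R K M) (bi46_A R K M).subtype a
  exact h.trans hpa

theorem bi46_A_isIntegrallyClosed : IsIntegrallyClosed ↥(bi46_A R K M) := by
  haveI := bi46_A_isFractionRing R K M
  refine (isIntegrallyClosed_iff ↥(modularFunctionFieldFullC K M)).mpr fun {x} hx => ?_
  letI : Algebra (Polynomial R) ↥(bi46_A R K M) := (bi46_evA R K M).toAlgebra
  letI : Algebra (Polynomial R) ↥(modularFunctionFieldFullC K M) := (rm90_ev K R M).toAlgebra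
  haveI : IsScalarTower (Polynomial R) ↥(bi46_A R K M) ↥(modularFunctionFieldFullC K M) :=
    IsScalarTower.of_algebraMap_eq (fun _ => rfl)
  haveI : Algebra.IsIntegral (Polynomial R) ↥(bi46_A R K M) := ⟨fun a => bi46_A_isIntegral R K M a⟩
  have h : IsIntegral (Polynomial R) x := isIntegral_trans (R := Polynomial R) x hx
  exact ⟨⟨x, h⟩, rfl⟩

theorem bi46_isScalarTower :
    letI := ni22_algebra (bi46_le K M q)
    IsScalarTower ↥(bi46_A R K M) ↥(modularFunctionFieldFullC K M)
      ↥(modularFunctionFieldFullC K (M * q)) := by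
  letI := ni22_algebra (bi46_le K M q)
  exact IsScalarTower.of_algebraMap_eq (fun _ => rfl)

theorem bi46_algebraMap_comp_evA :
    haveI : NeZero (M * q) := ⟨Nat.mul_ne_zero (NeZero.ne M) (NeZero.ne q)⟩
    (algebraMap ↥(bi46_A R K M) ↥(modularFunctionFieldFullC K (M * q))).comp (bi46_evA R K M) =
      rm90_ev K R (M * q) := by
  haveI : NeZero (M * q) := ⟨Nat.mul_ne_zero (NeZero.ne M) (NeZero.ne q)⟩
  refine Polynomial.ringHom_ext (fun r => ?_) ?_
  · apply Subtype.ext
    have h1 : rm90_ev K R M (Polynomial.C r) = rm90_c K R M r := by simp [rm90_ev]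
    have h2 : rm90_ev K R (M * q) (Polynomial.C r) = rm90_c K R (M * q) r := by simp [rm90_ev]
    rw [h2]
    show ((rm90_ev K R M (Polynomial.C r) : ↥(modularFunctionFieldFullC K M)) :
      LaurentSeries K) = _
    rw [h1]
    rfl
  · apply Subtype.ext
    have h1 : rm90_ev K R M Polynomial.X = rm90_j K M := by simp [rm90_ev]
    have h2 : rm90_ev K R (M * q) Polynomial.X = rm90_j K (M * q) := by simp [rm90_ev]
    rw [h2]
    show ((rm90_ev K R M Polynomial.X : ↥(modularFunctionFieldFullC K M)) :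
      LaurentSeries K) = _
    rw [h1]
    rfl

/-- **The different at level `M q`**, in `K((Q))`: for `x ∈ F_K(M q)` integral over `R[j]` there
is a polynomial `P` with coefficients in the `j`-chart `A'` of level `M` such that
`P(y) = Φ'(y, j) · x`, `y = j(Q^q)`. -/
theorem bi46_different (hq : q.Prime) (hqM : ¬ q ∣ M) (Φ : Polynomial (Polynomial ℤ))
    (hm : Φ.Monic) (hd : Φ.natDegree = q + 1) (h1 : Φ.eval₂ (evJ ℤ) (JdC ℤ q) = 0)
    (x : LaurentSeries K) (hx : x ∈ modularFunctionFieldFullC K (M * q))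
    (hint : (ka46_ev (algebraMap R K) (jqModC ℤ)).IsIntegralElem x) :
    ∃ P : Polynomial (LaurentSeries K),
      (∀ n, ∃ a : ↥(bi46_A R K M),
        P.coeff n = ((a : ↥(modularFunctionFieldFullC K M)) : LaurentSeries K)) ∧
      P.eval (qExpand K q (jqModC K)) =
        (derivative (Φ.map (evJ K))).eval (qExpand K q (jqModC K)) * x := by
  letI := ni22_algebra (bi46_le K M q)
  haveI : NeZero (M * q) := ⟨Nat.mul_ne_zero (NeZero.ne M) (NeZero.ne q)⟩
  haveI := bi46_finiteDimensional K M q hq
  haveI : CharZero ↥(modularFunctionFieldFullC K M) :=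
    charZero_of_injective_algebraMap (algebraMap K ↥(modularFunctionFieldFullC K M)).injective
  haveI : Algebra.IsSeparable ↥(modularFunctionFieldFullC K M)
      ↥(modularFunctionFieldFullC K (M * q)) := Algebra.IsAlgebraic.isSeparable_of_perfectField
  haveI := bi46_A_isFractionRing R K M
  haveI := bi46_A_isIntegrallyClosed R K M
  haveI := bi46_isScalarTower R K M q
  have hy := bi46_adjoin_top K M q hq hqM
  -- `y` is integral over `A'`
  have hAy : IsIntegral ↥(bi46_A R K M) (bi46_y K M q) := by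
    have hjA : rm90_j K M ∈ bi46_A R K M := by
      have h := (rm90_ev K R M).isIntegralElem_map (x := Polynomial.X)
      rwa [sat23_ev_X] at h
    refine ⟨Φ.map (Polynomial.eval₂RingHom (Int.castRingHom ↥(bi46_A R K M))
      ⟨rm90_j K M, hjA⟩), hm.map _, ?_⟩
    have hcomp : (algebraMap ↥(bi46_A R K M) ↥(modularFunctionFieldFullC K (M * q))).comp
        (Polynomial.eval₂RingHom (Int.castRingHom ↥(bi46_A R K M)) ⟨rm90_j K M, hjA⟩) =
        (algebraMap ↥(modularFunctionFieldFullC K M) ↥(modularFunctionFieldFullC K (M * q))).comp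
          (Polynomial.eval₂RingHom (Int.castRingHom ↥(modularFunctionFieldFullC K M))
            (bi46_j K M)) := by
      refine Polynomial.ringHom_ext' (RingHom.ext_int _ _) ?_
      simp
      rfl
    rw [Polynomial.eval₂_map, hcomp, ← Polynomial.eval₂_map]
    exact bi46_aeval_PhiF K M q Φ h1
  -- `x` is integral over `A'`
  have hAx : IsIntegral ↥(bi46_A R K M) (⟨x, hx⟩ : ↥(modularFunctionFieldFullC K (M * q))) := by
    obtain ⟨p, hp, hpx⟩ := (bi46_isIntegralElem_iff R K (M * q) ⟨x, hx⟩).mpr hint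
    refine ⟨p.map (bi46_evA R K M), hp.map _, ?_⟩
    rw [Polynomial.eval₂_map, bi46_algebraMap_comp_evA R K M q]
    exact hpx
  obtain ⟨p, hp⟩ := da46_exists_aeval ↥(bi46_A R K M) ↥(modularFunctionFieldFullC K M) hy hAy
    ⟨x, hx⟩ hAx
  rw [bi46_minpoly K M q hq hqM Φ hm hd h1] at hp
  refine ⟨p.map ((algebraMap ↥(modularFunctionFieldFullC K M) (LaurentSeries K)).comp
    (bi46_A R K M).subtype), fun n => ⟨p.coeff n, by rw [Polynomial.coeff_map]; rfl⟩, ?_⟩
  have h2 := congrArg (fun z : ↥(modularFunctionFieldFullC K (M * q)) => (z : LaurentSeries K)) hp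
  have h3 : ((aeval (bi46_y K M q) p : ↥(modularFunctionFieldFullC K (M * q))) :
      LaurentSeries K) = (p.map ((algebraMap ↥(modularFunctionFieldFullC K M)
        (LaurentSeries K)).comp (bi46_A R K M).subtype)).eval (qExpand K q (jqModC K)) := by
    rw [Polynomial.eval_map, Polynomial.aeval_def]
    exact Polynomial.hom_eval₂ p (algebraMap ↥(bi46_A R K M)
      ↥(modularFunctionFieldFullC K (M * q)))
      (algebraMap ↥(modularFunctionFieldFullC K (M * q)) (LaurentSeries K)) (bi46_y K M q)
  have h4 : ((aeval (bi46_y K M q) (derivative (bi46_PhiF K M Φ)) * (⟨x, hx⟩ :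
      ↥(modularFunctionFieldFullC K (M * q))) : ↥(modularFunctionFieldFullC K (M * q))) :
      LaurentSeries K) =
      (derivative (Φ.map (evJ K))).eval (qExpand K q (jqModC K)) * x := by
    have h5 := bi46_coe_aeval K M q (derivative (bi46_PhiF K M Φ)) (bi46_y K M q)
    rw [← Polynomial.derivative_map, bi46_PhiF_map] at h5
    show ((aeval (bi46_y K M q) (derivative (bi46_PhiF K M Φ)) :
      ↥(modularFunctionFieldFullC K (M * q))) : LaurentSeries K) * x = _
    rw [h5]
    rfl
  rw [← h3, ← h4]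
  exact h2

end Different

/-! ## 4. Reduction: the residue of the `j`-chart of level `M q` along `∞` lies in `F_κ(M)` -/

section Reduction

/-- Base change of `Φ'(y, j)`. -/
theorem bi46_coeffMap_deriv {A B : Type*} [CommRing A] [CommRing B] (f : A →+* B) (q : ℕ)
    [NeZero q] (Φ : Polynomial (Polynomial ℤ)) :
    coeffMap f ((derivative (Φ.map (evJ A))).eval (qExpand A q (jqModC A))) =
      (derivative (Φ.map (evJ B))).eval (qExpand B q (jqModC B)) := by
  have h1 : (coeffMap f).comp (evJ A) = evJ B :=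
    h58_eq_evJ _ (by
      rw [RingHom.comp_apply]
      simp [evJ, coeffMap_jqModC])
  rw [← Polynomial.eval₂_at_apply, coeffMap_qExpand, coeffMap_jqModC, ← Polynomial.eval_map,
    ← Polynomial.derivative_map, Polynomial.map_map, h1]

/-- In characteristic `q`, `Φ_q'(y, j) = y^q - j` (Kronecker's congruence). -/
theorem bi46_deriv_char (κ : Type*) [Field κ] (q : ℕ) [NeZero q] [CharP κ q]
    (Φ Ψ : Polynomial (Polynomial ℤ))
    (hΨ : Φ = (X - C (X ^ q)) * (X ^ q - C X) + C (C (q : ℤ)) * Ψ) :
    (derivative (Φ.map (evJ κ))).eval (qExpand κ q (jqModC κ)) =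
      qExpand κ q (jqModC κ) ^ q - jqModC κ := by
  have hq0 : (q : LaurentSeries κ) = 0 := by
    rw [← map_natCast (HahnSeries.C : κ →+* LaurentSeries κ), CharP.cast_eq_zero, map_zero]
  have hX : evJ κ X = jqModC κ := by simp [evJ]
  have hC : evJ κ (C (q : ℤ)) = 0 := by
    rw [← hq0]
    simp [evJ]
  rw [hΨ]
  simp only [Polynomial.map_add, Polynomial.map_mul, Polynomial.map_sub, Polynomial.map_pow,
    Polynomial.map_X, Polynomial.map_C, map_pow, hX, hC, map_zero, zero_mul, add_zero]
  simp only [derivative_mul, derivative_sub, derivative_X, derivative_C,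
    derivative_pow, hq0, map_zero, zero_mul, mul_zero, sub_zero, add_zero, one_mul,
    Polynomial.eval_sub, Polynomial.eval_pow, Polynomial.eval_X, Polynomial.eval_C]

/-- `y^q - j ≠ 0`. -/
theorem bi46_deriv_char_ne_zero (κ : Type*) [Field κ] (q : ℕ) [NeZero q] (hq : q.Prime) :
    qExpand κ q (jqModC κ) ^ q - jqModC κ ≠ 0 := by
  intro h
  have h1 := congrArg (fun z : LaurentSeries κ => z.coeff (-1)) h
  have h2 : (qExpand κ q (jqModC κ) ^ q).coeff (-1) = 0 := by
    rw [← map_pow]
    refine qExpand_coeff_of_not_dvd (N := q) _ ?_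
    intro hdvd
    have h3 := Int.eq_one_of_dvd_one (Int.natCast_nonneg q) (dvd_neg.mp hdvd)
    have := hq.one_lt
    omega
  simp only [HahnSeries.coeff_sub, HahnSeries.coeff_zero] at h1
  rw [h2, coeff_jqModC_neg_one] at h1
  simp at h1

variable (R : Type) [CommRing R] [IsDomain R] [IsDiscreteValuationRing R]
  (K : Type) [Field K] [CharZero K] [Algebra R K] [IsFractionRing R K]
  (M q : ℕ) [NeZero M] [NeZero q]

/-- **The `∞`-branch residue theorem, `j`-chart form.**  `q` prime, `q ∤ M`, `M` invertible and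
`q` not invertible in the discrete valuation ring `R`: every `x ∈ F_K(M q)` integral over `R[j]`
has an `R`-integral `q`-expansion, whose reduction lies in the function field `F_κ(M)` of the
LOWER level `M`. -/
theorem bi46_red_mem {π : R} (hπ : Irreducible π) (hq : q.Prime) (hqM : ¬ q ∣ M)
    (hqR : ¬ IsUnit (q : R)) (hM : IsUnit (M : R))
    (x : LaurentSeries K) (hx : x ∈ modularFunctionFieldFullC K (M * q))
    (hint : (ka46_ev (algebraMap R K) (jqModC ℤ)).IsIntegralElem x) :
    ∃ X : LaurentSeries R, coeffMap (algebraMap R K) X = x ∧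
      coeffMap (IsLocalRing.residue R) X ∈
        modularFunctionFieldFullC (IsLocalRing.ResidueField R) M := by
  haveI : NeZero (M * q) := ⟨Nat.mul_ne_zero (NeZero.ne M) (NeZero.ne q)⟩
  obtain ⟨X, hX⟩ := qx46_integral_expansion' (R := R) (M * q) (jqModC ℤ) x hx hint
  refine ⟨X, hX, ?_⟩
  obtain ⟨Φ, hm, hd, h1, -, Ψ, hΨ⟩ := kc87_exists q hq
  obtain ⟨P, hPc, hP⟩ := bi46_different R K M q hq hqM Φ hm hd h1 x hx hint
  obtain ⟨φ, -, hφ2, hφ3⟩ := rm90_exists_red K M π hπ.prime (IsLocalRing.ResidueField R)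
    (IsLocalRing.residue R) (sm79_residue_eq_zero_iff hπ) (sm79_residue_natCast_ne_zero hM)
    (bi46_A R K M) (fun _ => Iff.rfl)
  have hinj : Function.Injective (coeffMap (algebraMap R K)) :=
    fd27_coeffMap_injective _ (IsFractionRing.injective R K)
  -- lift `P` to `R((Q))`
  have hlift : P ∈ Polynomial.lifts (coeffMap (algebraMap R K)) := by
    rw [Polynomial.lifts_iff_coeff_lifts]
    intro n
    obtain ⟨a, ha⟩ := hPc n
    obtain ⟨y, hy⟩ := qx46_integral_expansion' (R := R) M (jqModC ℤ) _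
      (SetLike.coe_mem (a : ↥(modularFunctionFieldFullC K M)))
      ((bi46_isIntegralElem_iff R K M a).mp a.2)
    exact ⟨y, by rw [ha]; exact hy⟩
  obtain ⟨PR, hPR⟩ := (Polynomial.mem_lifts _).mp hlift
  have hcoeff : ∀ n, coeffMap (IsLocalRing.residue R) (PR.coeff n) ∈
      modularFunctionFieldFullC (IsLocalRing.ResidueField R) M := by
    intro n
    obtain ⟨a, ha⟩ := hPc n
    have h2 : coeffMap (algebraMap R K) (PR.coeff n) =
        ((a : ↥(modularFunctionFieldFullC K M)) : LaurentSeries K) := by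
      rw [← ha, ← hPR, Polynomial.coeff_map]
    rw [← hφ2 a (PR.coeff n) h2]
    exact hφ3 a
  -- the identity over `R`
  have hidR : PR.eval (qExpand R q (jqModC R)) =
      (derivative (Φ.map (evJ R))).eval (qExpand R q (jqModC R)) * X := by
    apply hinj
    rw [map_mul, bi46_coeffMap_deriv, hX, ← hP, ← hPR, Polynomial.eval_map,
      ← Polynomial.eval₂_at_apply, coeffMap_qExpand, coeffMap_jqModC]
  -- reduce
  have hidκ := congrArg (coeffMap (IsLocalRing.residue R)) hidR
  haveI : CharP (IsLocalRing.ResidueField R) q := by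
    refine (CharP.charP_iff_prime_eq_zero hq).mpr ?_
    rw [← map_natCast (IsLocalRing.residue R), IsLocalRing.residue_eq_zero_iff]
    exact hqR
  haveI : Fact q.Prime := ⟨hq⟩
  rw [map_mul, bi46_coeffMap_deriv, ← Polynomial.eval₂_at_apply, coeffMap_qExpand,
    coeffMap_jqModC, bi46_deriv_char _ q Φ Ψ hΨ] at hidκ
  have hD := bi46_deriv_char_ne_zero (IsLocalRing.ResidueField R) q hq
  have hY : qExpand (IsLocalRing.ResidueField R) q (jqModC (IsLocalRing.ResidueField R)) ∈
      modularFunctionFieldFullC (IsLocalRing.ResidueField R) M := by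
    rw [← kc87_jqModC_pow_char]
    exact pow_mem (jqModC_mem_full _ M) q
  have hXeq : coeffMap (IsLocalRing.residue R) X =
      (qExpand (IsLocalRing.ResidueField R) q (jqModC (IsLocalRing.ResidueField R)) ^ q -
        jqModC (IsLocalRing.ResidueField R))⁻¹ *
      PR.eval₂ (coeffMap (IsLocalRing.residue R))
        (qExpand (IsLocalRing.ResidueField R) q (jqModC (IsLocalRing.ResidueField R))) := by
    rw [hidκ, ← mul_assoc, inv_mul_cancel₀ hD, one_mul]
  rw [hXeq]
  refine mul_mem (inv_mem (sub_mem (pow_mem hY q) (jqModC_mem_full _ M))) ?_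
  rw [Polynomial.eval₂_eq_sum_range]
  exact sum_mem fun n _ => mul_mem (hcoeff n) (pow_mem hY n)

end Reduction

end Fermat.Agent.S34
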