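import Mathlib
import Fermat.Agent.S34.NodeAbs99

/-!
# S34 lab (helper8): a branch of the special fibre of a chart is the special fibre of the chart
of the good level — abstract form (Mathlib + `na99_surj_of_integral`)

Setting: `ι : F' → F` an inclusion of fields over `R`, charts `B' ⊆ F'`, `B ⊆ F` with
`ι B' ⊆ B`, valuation subrings `V'` of `F'` and `V` of `F` with `V ∩ F' = V'` and `m_V = π V`.

* `bq8_frac_of_sat` : if `B'` is saturated in the discrete valuation ring `V'` (with respect to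
  `π`) and `Frac B' = F'`, then `V'` is the localisation of `B'` at `π B'`:
  every `w ∈ V'` is `a / a'` with `a, a' ∈ B'`, `a' ∉ π V'`.
* `bq8_main` : if moreover `V` and `V'` have the same residue field (`hres`), `B` is integral over
  `R[ι s]`, `s ⊆ B'`, and `B' ⧸ π B'` is a Dedekind domain, then the branch
  `P = {x ∈ B | π⁻¹ x ∈ V}` of `B` is a prime ideal with `B = ι B' + P`, `B' ⧸ π B' ≃ B ⧸ P`, and
  `B ⧸ P` is a Dedekind domain.
-/

set_option autoImplicit false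
set_option linter.unusedSectionVars false
set_option linter.style.haveILetI false

namespace Fermat.Agent.S34

section frac

variable {F : Type*} [Field F]

theorem bq8_pow_mem_of_sat (B : Subring F) (V : ValuationSubring F) (ϖ : F) (hϖV : ϖ ∈ V)
    (hϖ0 : ϖ ≠ 0) (hsat : ∀ x ∈ B, ϖ⁻¹ * x ∈ V → ϖ⁻¹ * x ∈ B) :
    ∀ (k : ℕ) (a : F), a ∈ V → ϖ ^ k * a ∈ B → a ∈ B
  | 0, a, _, h => by simpa using h
  | k + 1, a, ha, h => by
      apply bq8_pow_mem_of_sat B V ϖ hϖV hϖ0 hsat k a ha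
      have h1 : ϖ ^ k * a = ϖ⁻¹ * (ϖ ^ (k + 1) * a) := by
        field_simp
        ring
      rw [h1]
      apply hsat _ h
      rw [← h1]
      exact V.mul_mem _ _ (pow_mem hϖV k) ha

theorem bq8_strip (B : Subring F) (V : ValuationSubring F) (ϖ : F) (hϖ0 : ϖ ≠ 0)
    (hBV : ∀ x ∈ B, x ∈ V) (hsat : ∀ x ∈ B, ϖ⁻¹ * x ∈ V → ϖ⁻¹ * x ∈ B) :
    ∀ (n : ℕ) (c : F), c ∈ B → (ϖ ^ n)⁻¹ * c ∉ V →
      ∃ (k : ℕ) (c' : F), c' ∈ B ∧ c = ϖ ^ k * c' ∧ ϖ⁻¹ * c' ∉ V
  | 0, c, hc, h => absurd (by simpa using hBV c hc) h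
  | n + 1, c, hc, h => by
      by_cases h1 : ϖ⁻¹ * c ∈ V
      · have h2 : (ϖ ^ n)⁻¹ * (ϖ⁻¹ * c) ∉ V := by
          have : (ϖ ^ n)⁻¹ * (ϖ⁻¹ * c) = (ϖ ^ (n + 1))⁻¹ * c := by
            rw [pow_succ, mul_inv]
            ring
          rw [this]
          exact h
        obtain ⟨k, c', hc', hcc', hc'V⟩ :=
          bq8_strip B V ϖ hϖ0 hBV hsat n (ϖ⁻¹ * c) (hsat c hc h1) h2
        refine ⟨k + 1, c', hc', ?_, hc'V⟩
        have : c = ϖ * (ϖ⁻¹ * c) := by field_simp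
        rw [this, hcc']
        ring
      · exact ⟨0, c, hc, by simp, h1⟩

/-- A chart `B` saturated in a discrete valuation ring `V` of its fraction field: `V` is the
localisation of `B` at the prime `B ∩ ϖ V`. -/
theorem bq8_frac_of_sat (B : Subring F) (V : ValuationSubring F) (ϖ : F) (hϖB : ϖ ∈ B)
    (hϖ0 : ϖ ≠ 0) (hBV : ∀ x ∈ B, x ∈ V)
    (harch : ∀ x : F, x ≠ 0 → ∃ n : ℕ, (ϖ ^ n)⁻¹ * x ∉ V)
    (hsat : ∀ x ∈ B, ϖ⁻¹ * x ∈ V → ϖ⁻¹ * x ∈ B)
    (hfrac : ∀ x : F, ∃ a ∈ B, ∃ b ∈ B, b ≠ 0 ∧ x * b = a) :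
    ∀ w ∈ V, ∃ a ∈ B, ∃ a' ∈ B, ϖ⁻¹ * a' ∉ V ∧ a' * w = a := by
  intro w hw
  obtain ⟨a₀, ha₀, c₀, hc₀, hc₀0, hwc⟩ := hfrac w
  obtain ⟨n, hn⟩ := harch c₀ hc₀0
  obtain ⟨k, c', hc', hcc', hc'V⟩ := bq8_strip B V ϖ hϖ0 hBV hsat n c₀ hc₀ hn
  refine ⟨c' * w, ?_, c', hc', hc'V, rfl⟩
  apply bq8_pow_mem_of_sat B V ϖ (hBV _ hϖB) hϖ0 hsat k (c' * w)
    (V.mul_mem _ _ (hBV _ hc') hw)
  have : ϖ ^ k * (c' * w) = a₀ := by
    rw [← hwc, hcc']
    ring
  rw [this]
  exact ha₀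

end frac

section ded

theorem bq8_isDedekindDomain_of_ringEquiv {A A' : Type*} [CommRing A] [CommRing A']
    [IsDedekindDomain A] (e : A ≃+* A') : IsDedekindDomain A' := by
  have : IsDomain A' := MulEquiv.isDomain A e.symm.toMulEquiv
  have : IsNoetherianRing A' := isNoetherianRing_of_ringEquiv A e
  have : Ring.DimensionLEOne A' := Ring.DimensionLEOne.of_ringEquiv e.symm
  have : IsIntegrallyClosed A' := IsIntegrallyClosed.of_equiv e
  have : IsDedekindRing A' := { }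
  infer_instance

end ded

section main

variable {R F' F : Type*} [CommRing R] [Field F'] [Field F] [Algebra R F'] [Algebra R F]

open Polynomial in
/-- integrality over `R[ι s]`, `s ⊆ B'`, gives integrality with respect to `B' → F`. -/
theorem bq8_isIntegralElem (ι : F' →ₐ[R] F) (B' : Subalgebra R F') (s : Set F')
    (hs : s ⊆ B') (b : F) (hb : IsIntegral (Algebra.adjoin R (ι '' s)) b) :
    ((ι : F' →+* F).comp (B'.val : ↥B' →+* F')).IsIntegralElem b := by
  obtain ⟨p, hp, hpb⟩ := hb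
  have hle : Algebra.adjoin R (ι '' s) ≤ B'.map ι := by
    refine Algebra.adjoin_le ?_
    rintro _ ⟨x, hx, rfl⟩
    exact ⟨x, hs hx, rfl⟩
  have hlift : p.map (algebraMap (Algebra.adjoin R (ι '' s)) F) ∈
      Polynomial.lifts ((ι : F' →+* F).comp (B'.val : ↥B' →+* F')) := by
    rw [Polynomial.lifts_iff_coeff_lifts]
    intro n
    rw [Polynomial.coeff_map]
    obtain ⟨x, hx, hxe⟩ := hle (p.coeff n).2
    exact ⟨⟨x, hx⟩, hxe⟩
  obtain ⟨q, hq, -, hqm⟩ := Polynomial.lifts_and_natDegree_eq_and_monic hlift (hp.map _)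
  refine ⟨q, hqm, ?_⟩
  rw [← Polynomial.eval_map, hq, Polynomial.eval_map]
  exact hpb

open Polynomial in
/-- an `R`-algebra homomorphism maps elements integral over `R[s]` to elements integral over
`R[ι s]`. -/
theorem bq8_isIntegral_map (ι : F' →ₐ[R] F) (s : Set F') (x : F')
    (hx : IsIntegral (Algebra.adjoin R s) x) : IsIntegral (Algebra.adjoin R (ι '' s)) (ι x) := by
  obtain ⟨p, hp, hpx⟩ := hx
  have hmem : ∀ y : Algebra.adjoin R s, ι (y : F') ∈ Algebra.adjoin R (ι '' s) := by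
    intro y
    rw [← AlgHom.map_adjoin]
    exact ⟨y, y.2, rfl⟩
  let φ : Algebra.adjoin R s →+* Algebra.adjoin R (ι '' s) :=
    ((ι.comp (Algebra.adjoin R s).val).codRestrict (Algebra.adjoin R (ι '' s)) hmem :
      Algebra.adjoin R s →ₐ[R] Algebra.adjoin R (ι '' s))
  refine ⟨p.map φ, hp.map φ, ?_⟩
  rw [Polynomial.eval₂_map]
  have hcomp : (algebraMap (Algebra.adjoin R (ι '' s)) F).comp φ =
      (ι : F' →+* F).comp (algebraMap (Algebra.adjoin R s) F') := by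
    ext y
    rfl
  rw [hcomp]
  have h2 := Polynomial.hom_eval₂ p (algebraMap (Algebra.adjoin R s) F') (ι : F' →+* F) x
  rw [hpx, map_zero] at h2
  exact h2.symm

/-- **The branch of a chart is the special fibre of the chart of the good level.** -/
theorem bq8_main (ι : F' →ₐ[R] F) (B' : Subalgebra R F') (B : Subalgebra R F)
    (V' : ValuationSubring F') (V : ValuationSubring F) (π : R)
    (hπ0 : algebraMap R F' π ≠ 0)
    (hB'V' : ∀ x ∈ B', x ∈ V') (hBV : ∀ x ∈ B, x ∈ V)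
    (hιB : ∀ x ∈ B', ι x ∈ B)
    (hV : ∀ x : F', ι x ∈ V ↔ x ∈ V')
    (harch' : ∀ x : F', x ≠ 0 → ∃ n : ℕ, (algebraMap R F' π ^ n)⁻¹ * x ∉ V')
    (hsat' : ∀ x ∈ B', (algebraMap R F' π)⁻¹ * x ∈ V' → (algebraMap R F' π)⁻¹ * x ∈ B')
    (hfrac' : ∀ x : F', ∃ a ∈ B', ∃ b ∈ B', b ≠ 0 ∧ x * b = a)
    (hπV : (algebraMap R F π)⁻¹ ∉ V)
    (hmax : ∀ x ∈ V, x⁻¹ ∉ V → (algebraMap R F π)⁻¹ * x ∈ V)
    (hres : ∀ x ∈ V, ∃ x' ∈ V', (algebraMap R F π)⁻¹ * (x - ι x') ∈ V)
    (s : Set F') (hs : s ⊆ B')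
    (hint : ∀ b ∈ B, IsIntegral (Algebra.adjoin R (ι '' s)) b)
    [hD : IsDedekindDomain (B' ⧸ Ideal.span {algebraMap R B' π})] :
    ∃ P : Ideal B, (∀ x : B, x ∈ P ↔ (algebraMap R F π)⁻¹ * (x : F) ∈ V) ∧ P.IsPrime ∧
      (∀ b : B, ∃ a : B', b - ⟨ι a, hιB a a.2⟩ ∈ P) ∧
      (∀ a : B', (⟨ι a, hιB a a.2⟩ : B) ∈ P ↔ a ∈ Ideal.span {algebraMap R B' π}) ∧
      IsDedekindDomain (B ⧸ P) ∧
      Nonempty ((B' ⧸ Ideal.span {algebraMap R B' π}) ≃+* (B ⧸ P)) := by
  classical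
  have hιπ : ι (algebraMap R F' π) = algebraMap R F π := ι.commutes π
  -- the prime `P`
  let j : B →+* V := ((B.val : ↥B →+* F)).codRestrict V.toSubring (fun x => hBV x x.2)
  let P : Ideal B := (IsLocalRing.maximalIdeal V).comap j
  have hP : ∀ x : B, x ∈ P ↔ (algebraMap R F π)⁻¹ * (x : F) ∈ V := by
    intro x
    have h1 : x ∈ P ↔ ((j x : V) : F) ∈ V.nonunits := by
      rw [ValuationSubring.coe_mem_nonunits_iff]
      rfl
    rw [h1, ValuationSubring.mem_nonunits_iff_or]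
    have hjx : ((j x : V) : F) = (x : F) := rfl
    rw [hjx]
    constructor
    · rintro (h | h)
      · rw [h, mul_zero]
        exact V.zero_mem
      · exact hmax _ (hBV x x.2) h
    · intro h
      by_cases hx0 : (x : F) = 0
      · exact Or.inl hx0
      · refine Or.inr fun hinv => hπV ?_
        have : (algebraMap R F π)⁻¹ = (algebraMap R F π)⁻¹ * (x : F) * (x : F)⁻¹ := by
          field_simp
        rw [this]
        exact V.mul_mem _ _ h hinv
  have hPprime : P.IsPrime := Ideal.comap_isPrime j _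
  -- the map `B' → B`
  let f : B' →+* B := ((ι.comp B'.val).codRestrict B (fun x => hιB x x.2) : B' →ₐ[R] B)
  have hf_coe : ∀ a : B', ((f a : B) : F) = ι (a : F') := fun _ => rfl
  have hfint : f.IsIntegral := by
    intro b
    apply RingHom.IsIntegralElem.of_map (g := (B.val : ↥B →+* F)) Subtype.val_injective
    exact bq8_isIntegralElem ι B' s hs (b : F) (hint b b.2)
  -- the ideal `I = π B'`
  set I : Ideal B' := Ideal.span {algebraMap R B' π} with hI_def
  haveI hIprime : I.IsPrime := (Ideal.Quotient.isDomain_iff_prime I).mp inferInstance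
  have hImem : ∀ a : B', a ∈ I ↔ (algebraMap R F' π)⁻¹ * (a : F') ∈ V' := by
    intro a
    rw [hI_def, Ideal.mem_span_singleton]
    constructor
    · rintro ⟨y, rfl⟩
      have : (algebraMap R F' π)⁻¹ * ((algebraMap R B' π * y : B') : F') = (y : F') := by
        push_cast
        field_simp
      rw [this]
      exact hB'V' _ y.2
    · intro h
      refine ⟨⟨_, hsat' _ a.2 h⟩, ?_⟩
      apply Subtype.ext
      push_cast
      field_simp
  have hcomap : ∀ a : B', f a ∈ P ↔ a ∈ I := by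
    intro a
    rw [hP, hImem, hf_coe, ← hιπ, ← map_inv₀, ← map_mul, hV]
  have hcomap' : P.comap f = I := Ideal.ext fun a => hcomap a
  -- `V'` is the localisation of `B'` at `I`
  have hfracV' := bq8_frac_of_sat B'.toSubring V' (algebraMap R F' π)
    (B'.algebraMap_mem π) hπ0 hB'V' harch' hsat' hfrac'
  have hfrac : ∀ b : B, ∃ a a' : B', a' ∉ I ∧ f a' * b - f a ∈ P := by
    intro b
    obtain ⟨x', hx', hbx'⟩ := hres (b : F) (hBV b b.2)
    obtain ⟨a, ha, a', ha', ha'V, haa'⟩ := hfracV' x' hx'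
    refine ⟨⟨a, ha⟩, ⟨a', ha'⟩, ?_, ?_⟩
    · rw [hImem]
      exact ha'V
    · rw [hP]
      have : (algebraMap R F π)⁻¹ * ((f ⟨a', ha'⟩ * b - f ⟨a, ha⟩ : B) : F) =
          ι a' * ((algebraMap R F π)⁻¹ * ((b : F) - ι x')) := by
        push_cast
        rw [hf_coe, hf_coe]
        show (algebraMap R F π)⁻¹ * (ι a' * (b : F) - ι a) = _
        rw [← haa', map_mul]
        ring
      rw [this]
      exact V.mul_mem _ _ ((hV a').mpr (hB'V' a' ha')) hbx'
  have hsurj : ∀ b : B, ∃ a : B', b - f a ∈ P :=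
    fun b => na99_surj_of_integral f hfint I P hcomap' hfrac b
  -- the isomorphism of the quotients
  let g : B' →+* B ⧸ P := (Ideal.Quotient.mk P).comp f
  have hg : Function.Surjective g := by
    intro y
    obtain ⟨b, rfl⟩ := Ideal.Quotient.mk_surjective y
    obtain ⟨a, ha⟩ := hsurj b
    refine ⟨a, ?_⟩
    show Ideal.Quotient.mk P (f a) = Ideal.Quotient.mk P b
    rw [eq_comm, Ideal.Quotient.eq]
    exact ha
  have hker : RingHom.ker g = I := by
    rw [← hcomap', ← RingHom.comap_ker, Ideal.mk_ker]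
  let e : (B' ⧸ I) ≃+* (B ⧸ P) :=
    (Ideal.quotEquivOfEq hker.symm).trans (RingHom.quotientKerEquivOfSurjective hg)
  exact ⟨P, hP, hPprime, hsurj, hcomap, bq8_isDedekindDomain_of_ringEquiv e, ⟨e⟩⟩

end main

end Fermat.Agent.S34
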