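import Mathlib
import Fermat.Agent.S34.BranchQuot8
import Fermat.Agent.S34.WIntInst18
import Fermat.Agent.S34.ChartM85

/-!
# S34 lab (helper8): the `∞`-branch of the level-`M` charts is the special fibre of the good
level `M'` — instance of `bq8_main` (row 488, (3a-inf))

Level `M' ∣ M`, `M'` a unit of the discrete valuation ring `R` (so that the charts of level `M'`
have Dedekind special fibre and are saturated in the Gauss valuation ring), `V_∞ = cm85_Vinf`.
The only open hypothesis is `hres` = conclusion (4) of `wi18_main`: `V_∞(M)` and `V_∞(M')` have the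
same residue field.

* `bi8_inf_of` : generic chart generator `g'` of level `M'`;
* `bi8_inf_level2`, `bi8_inf_level3` : the four charts `{h}`, `{h⁻¹}` of the Hauptmoduln
  `pk85_h2`, `pk85_h3`.

Conclusion (`bi8_Branch`): `incl B' ⊆ B`, `B = incl B' + P`, and there is a prime ideal `P` of `B`
with `x ∈ P ↔ π⁻¹ x ∈ V_∞`, `B ⧸ P` a Dedekind domain isomorphic to `B' ⧸ π B'`.
-/

set_option autoImplicit false
set_option linter.unusedSectionVars false
set_option linter.style.haveILetI false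

open ModularCurve IntermediateField Polynomial

namespace Fermat.Agent.S34

open Fermat.Agent.S18 Fermat.Agent.S24

local notation "Q̄" => AlgebraicClosure ℚ

section abs

variable {R F' F : Type*} [CommRing R] [Field F'] [Field F] [Algebra R F'] [Algebra R F]

/-- The conclusion of `bq8_main` in elementwise form: the branch of `B` along `V` is the special
fibre of `B'`. -/
def bi8_Branch (ι : F' →ₐ[R] F) (B' : Subalgebra R F') (B : Subalgebra R F)
    (V : ValuationSubring F) (π : R) : Prop :=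
  (∀ a ∈ B', ι a ∈ B) ∧
  (∀ b ∈ B, ∃ a ∈ B', (algebraMap R F π)⁻¹ * (b - ι a) ∈ V) ∧
  ∃ P : Ideal B, (∀ x : B, x ∈ P ↔ (algebraMap R F π)⁻¹ * (x : F) ∈ V) ∧ P.IsPrime ∧
    IsDedekindDomain (B ⧸ P) ∧
    Nonempty ((B' ⧸ Ideal.span {algebraMap R B' π}) ≃+* (B ⧸ P))

end abs

section inst

variable {R K : Type} [CommRing R] [IsDomain R] [IsDiscreteValuationRing R] [Field K] [CharZero K]
  [Algebra R K] [IsFractionRing R K]
  (M' M : ℕ) [NeZero M'] [NeZero M]
  [Algebra R ↥(modularFunctionFieldFullC K M')]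
  [IsScalarTower R K ↥(modularFunctionFieldFullC K M')]
  [Algebra R ↥(modularFunctionFieldFullC K M)]
  [IsScalarTower R K ↥(modularFunctionFieldFullC K M)]

/-- `incl x ∈ V_∞(M) ↔ x ∈ V_∞(M')`. -/
theorem bi8_incl_mem_iff (hdvd : M' ∣ M) {π : R} (hπ : Irreducible π)
    (a : ↥(modularFunctionFieldFullC K M')) :
    cm15_incl K M' M hdvd a ∈ cm85_Vinf (K := K) M hπ ↔ a ∈ cm85_Vinf (K := K) M' hπ := by
  have h1 : ((cm15_incl K M' M hdvd a : ↥(modularFunctionFieldFullC K M)) : LaurentSeries K) =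
      (a : LaurentSeries K) := IntermediateField.coe_inclusion (full_degeneracyC_le K hdvd) a
  constructor
  · rintro ⟨s, t, hs, hst⟩
    refine ⟨s, t, hs, ?_⟩
    rw [← h1]
    exact hst
  · exact wi18_incl_mem M' M hdvd hπ a

/-- **(3a-inf), generic generator.** -/
theorem bi8_inf_of (hdvd : M' ∣ M) {π : R} (hπ : Irreducible π)
    (g' : ↥(modularFunctionFieldFullC K M')) (hg' : g' ∈ cm85_Vinf (K := K) M' hπ)
    (hsat' : cm15_Sat R π ({g'} : Set ↥(modularFunctionFieldFullC K M'))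
      (cm85_Vinf (K := K) M' hπ).toSubring)
    (hfrac' : ∀ x : ↥(modularFunctionFieldFullC K M'),
      ∃ a ∈ pk15_chart R ({g'} : Set ↥(modularFunctionFieldFullC K M')),
      ∃ b ∈ pk15_chart R ({g'} : Set ↥(modularFunctionFieldFullC K M')), b ≠ 0 ∧ x * b = a)
    (hD : IsDedekindDomain (pk15_chart R ({g'} : Set ↥(modularFunctionFieldFullC K M')) ⧸
      Ideal.span {algebraMap R (pk15_chart R ({g'} : Set ↥(modularFunctionFieldFullC K M'))) π}))
    (hres : ∀ x ∈ cm85_Vinf (K := K) M hπ, ∃ b ∈ cm85_Vinf (K := K) M' hπ,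
      (algebraMap R ↥(modularFunctionFieldFullC K M) π)⁻¹ * (x - cm15_incl K M' M hdvd b) ∈
        cm85_Vinf (K := K) M hπ) :
    bi8_Branch ((cm15_incl K M' M hdvd).restrictScalars R)
      (pk15_chart R ({g'} : Set ↥(modularFunctionFieldFullC K M')))
      (pk15_chart R ({cm15_incl K M' M hdvd g'} : Set ↥(modularFunctionFieldFullC K M)))
      (cm85_Vinf (K := K) M hπ) π := by
  -- the inclusion as an `R`-algebra homomorphism
  let ι : ↥(modularFunctionFieldFullC K M') →ₐ[R] ↥(modularFunctionFieldFullC K M) :=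
    (cm15_incl K M' M hdvd).restrictScalars R
  have hι : ∀ x, ι x = cm15_incl K M' M hdvd x := fun _ => rfl
  have hconv' : algebraMap R ↥(modularFunctionFieldFullC K M') π =
      algebraMap K ↥(modularFunctionFieldFullC K M') (algebraMap R K π) :=
    IsScalarTower.algebraMap_apply R K ↥(modularFunctionFieldFullC K M') π
  have hconv : algebraMap R ↥(modularFunctionFieldFullC K M) π =
      algebraMap K ↥(modularFunctionFieldFullC K M) (algebraMap R K π) :=
    IsScalarTower.algebraMap_apply R K ↥(modularFunctionFieldFullC K M) π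
  have hπK : algebraMap R K π ≠ 0 := by
    rw [Ne, map_eq_zero_iff _ (IsFractionRing.injective R K)]
    exact hπ.ne_zero
  have hπ0 : algebraMap R ↥(modularFunctionFieldFullC K M') π ≠ 0 := by
    rw [hconv', Ne, map_eq_zero]
    exact hπK
  have hπinv : (algebraMap R ↥(modularFunctionFieldFullC K M) π)⁻¹ ∉
      cm85_Vinf (K := K) M hπ := by
    rw [hconv]
    exact gv85_pi_inv_not_mem (IsLocalRing.residue R) π (pk85_res_iff hπ) hπ.ne_zero _ _
  have hmax : ∀ x ∈ cm85_Vinf (K := K) M hπ, x⁻¹ ∉ cm85_Vinf (K := K) M hπ →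
      (algebraMap R ↥(modularFunctionFieldFullC K M) π)⁻¹ * x ∈ cm85_Vinf (K := K) M hπ := by
    intro x hx hx'
    rw [hconv]
    exact gv85_hmax (IsLocalRing.residue R) π (pk85_res_iff hπ) hπ.ne_zero _ _ x hx hx'
  have hB'V' : ∀ x ∈ pk15_chart R ({g'} : Set ↥(modularFunctionFieldFullC K M')),
      x ∈ cm85_Vinf (K := K) M' hπ :=
    pk15_chart_le_V _ (pk85_hRV M' hπ) _ (fun y hy => by
      rw [Set.mem_singleton_iff] at hy
      rw [hy]
      exact hg')
  have hBV : ∀ x ∈ pk15_chart R ({cm15_incl K M' M hdvd g'} :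
      Set ↥(modularFunctionFieldFullC K M)), x ∈ cm85_Vinf (K := K) M hπ :=
    pk15_chart_le_V _ (pk85_hRV M hπ) _ (fun y hy => by
      rw [Set.mem_singleton_iff] at hy
      rw [hy]
      exact wi18_incl_mem M' M hdvd hπ g' hg')
  have himg : (ι '' ({g'} : Set ↥(modularFunctionFieldFullC K M'))) =
      {cm15_incl K M' M hdvd g'} := by
    rw [Set.image_singleton]
    rfl
  have hιB : ∀ x ∈ pk15_chart R ({g'} : Set ↥(modularFunctionFieldFullC K M')),
      ι x ∈ pk15_chart R ({cm15_incl K M' M hdvd g'} : Set ↥(modularFunctionFieldFullC K M)) := by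
    intro x hx
    rw [pk15_mem_chart] at hx ⊢
    have := bq8_isIntegral_map ι _ x hx
    rw [himg] at this
    exact this
  have hV : ∀ x : ↥(modularFunctionFieldFullC K M'),
      ι x ∈ cm85_Vinf (K := K) M hπ ↔ x ∈ cm85_Vinf (K := K) M' hπ :=
    fun x => bi8_incl_mem_iff M' M hdvd hπ x
  have hres' : ∀ x ∈ cm85_Vinf (K := K) M hπ, ∃ x' ∈ cm85_Vinf (K := K) M' hπ,
      (algebraMap R ↥(modularFunctionFieldFullC K M) π)⁻¹ * (x - ι x') ∈
        cm85_Vinf (K := K) M hπ := hres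
  have hs : ({g'} : Set ↥(modularFunctionFieldFullC K M')) ⊆
      pk15_chart R ({g'} : Set ↥(modularFunctionFieldFullC K M')) :=
    fun y hy => pk15_subset_chart _ hy
  have hint : ∀ b ∈ pk15_chart R ({cm15_incl K M' M hdvd g'} :
      Set ↥(modularFunctionFieldFullC K M)),
      IsIntegral (Algebra.adjoin R (ι '' ({g'} : Set ↥(modularFunctionFieldFullC K M')))) b := by
    intro b hb
    rw [himg]
    exact (pk15_mem_chart _ _).mp hb
  have hsat'' : ∀ x ∈ pk15_chart R ({g'} : Set ↥(modularFunctionFieldFullC K M')),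
      (algebraMap R ↥(modularFunctionFieldFullC K M') π)⁻¹ * x ∈ cm85_Vinf (K := K) M' hπ →
      (algebraMap R ↥(modularFunctionFieldFullC K M') π)⁻¹ * x ∈
        pk15_chart R ({g'} : Set ↥(modularFunctionFieldFullC K M')) := hsat'
  obtain ⟨P, hP, hPprime, hsurj, -, hDed, he⟩ :=
    @bq8_main R ↥(modularFunctionFieldFullC K M') ↥(modularFunctionFieldFullC K M)
    _ _ _ _ _ ι
    (pk15_chart R ({g'} : Set ↥(modularFunctionFieldFullC K M')))
    (pk15_chart R ({cm15_incl K M' M hdvd g'} : Set ↥(modularFunctionFieldFullC K M)))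
    (cm85_Vinf (K := K) M' hπ) (cm85_Vinf (K := K) M hπ) π hπ0 hB'V' hBV hιB
    hV (wi18_arch M' hπ) hsat'' hfrac' hπinv hmax hres'
    ({g'} : Set ↥(modularFunctionFieldFullC K M')) hs hint hD
  refine ⟨hιB, ?_, P, hP, hPprime, hDed, he⟩
  intro b hb
  obtain ⟨a, ha⟩ := hsurj ⟨b, hb⟩
  have h := (hP _).mp ha
  rw [Subalgebra.coe_sub] at h
  exact ⟨a, a.2, h⟩

end inst

section levels

variable {R K : Type} [CommRing R] [IsDomain R] [IsDiscreteValuationRing R] [Field K] [CharZero K]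
  [Algebra R K] [IsFractionRing R K] [Algebra K Q̄] [Algebra.IsAlgebraic K Q̄]
  (M' M : ℕ) [NeZero M'] [NeZero M]
  [Algebra R ↥(modularFunctionFieldFullC K M')]
  [IsScalarTower R K ↥(modularFunctionFieldFullC K M')]
  [Algebra R ↥(modularFunctionFieldFullC K M)]
  [IsScalarTower R K ↥(modularFunctionFieldFullC K M)]

/-- **(3a-inf), level 2**: both charts of the level-2 Hauptmodul. -/
theorem bi8_inf_level2 (hdvd : M' ∣ M) {π : R} (hπ : Irreducible π) (h2 : 2 ∣ M')
    (hMu : IsUnit (M' : R))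
    (hres : ∀ x ∈ cm85_Vinf (K := K) M hπ, ∃ b ∈ cm85_Vinf (K := K) M' hπ,
      (algebraMap R ↥(modularFunctionFieldFullC K M) π)⁻¹ * (x - cm15_incl K M' M hdvd b) ∈
        cm85_Vinf (K := K) M hπ) :
    bi8_Branch ((cm15_incl K M' M hdvd).restrictScalars R)
      (pk15_chart R ({pk85_h2 K M' h2} : Set ↥(modularFunctionFieldFullC K M')))
      (pk15_chart R ({pk85_h2 K M (h2.trans hdvd)} : Set ↥(modularFunctionFieldFullC K M)))
      (cm85_Vinf (K := K) M hπ) π ∧
    bi8_Branch ((cm15_incl K M' M hdvd).restrictScalars R)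
      (pk15_chart R ({(pk85_h2 K M' h2)⁻¹} : Set ↥(modularFunctionFieldFullC K M')))
      (pk15_chart R ({(pk85_h2 K M (h2.trans hdvd))⁻¹} : Set ↥(modularFunctionFieldFullC K M)))
      (cm85_Vinf (K := K) M hπ) π := by
  obtain ⟨-, -, -, -, hhV, hhV', -, -, -, -, hfrac₁, hfrac₂, -⟩ :=
    cm85_facts_level2 (R := R) (K := K) M' hπ h2
  obtain ⟨hs₁, hs₂, -⟩ := cm15_base_sat_level2 (R := R) (K := K) M' hπ h2 hMu
  obtain ⟨⟨hD₁, -⟩, ⟨hD₂, -⟩⟩ := sm79_level2 (R := R) K M' hπ hMu h2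
  have hh : cm15_incl K M' M hdvd (pk85_h2 K M' h2) = pk85_h2 K M (h2.trans hdvd) :=
    Subtype.ext (cm15_incl_coe M' M hdvd _)
  have h1 := bi8_inf_of M' M hdvd hπ (pk85_h2 K M' h2) hhV hs₁ hfrac₁ hD₁ hres
  have h2' := bi8_inf_of M' M hdvd hπ (pk85_h2 K M' h2)⁻¹ hhV' hs₂ hfrac₂ hD₂ hres
  rw [hh] at h1
  rw [map_inv₀, hh] at h2'
  exact ⟨h1, h2'⟩

/-- **(3a-inf), level 3**: both charts of the level-3 Hauptmodul. -/
theorem bi8_inf_level3 (hdvd : M' ∣ M) {π : R} (hπ : Irreducible π) (h3 : 3 ∣ M')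
    (hMu : IsUnit (M' : R))
    (hres : ∀ x ∈ cm85_Vinf (K := K) M hπ, ∃ b ∈ cm85_Vinf (K := K) M' hπ,
      (algebraMap R ↥(modularFunctionFieldFullC K M) π)⁻¹ * (x - cm15_incl K M' M hdvd b) ∈
        cm85_Vinf (K := K) M hπ) :
    bi8_Branch ((cm15_incl K M' M hdvd).restrictScalars R)
      (pk15_chart R ({pk85_h3 K M' h3} : Set ↥(modularFunctionFieldFullC K M')))
      (pk15_chart R ({pk85_h3 K M (h3.trans hdvd)} : Set ↥(modularFunctionFieldFullC K M)))
      (cm85_Vinf (K := K) M hπ) π ∧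
    bi8_Branch ((cm15_incl K M' M hdvd).restrictScalars R)
      (pk15_chart R ({(pk85_h3 K M' h3)⁻¹} : Set ↥(modularFunctionFieldFullC K M')))
      (pk15_chart R ({(pk85_h3 K M (h3.trans hdvd))⁻¹} : Set ↥(modularFunctionFieldFullC K M)))
      (cm85_Vinf (K := K) M hπ) π := by
  obtain ⟨-, -, -, -, hhV, hhV', -, -, -, -, hfrac₁, hfrac₂, -⟩ :=
    cm85_facts_level3 (R := R) (K := K) M' hπ h3
  obtain ⟨hs₁, hs₂, -⟩ := cm15_base_sat_level3 (R := R) (K := K) M' hπ h3 hMu
  obtain ⟨⟨hD₁, -⟩, ⟨hD₂, -⟩⟩ := sm79_level3 (R := R) K M' hπ hMu h3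
  have hh : cm15_incl K M' M hdvd (pk85_h3 K M' h3) = pk85_h3 K M (h3.trans hdvd) :=
    Subtype.ext (cm15_incl_coe M' M hdvd _)
  have h1 := bi8_inf_of M' M hdvd hπ (pk85_h3 K M' h3) hhV hs₁ hfrac₁ hD₁ hres
  have h2' := bi8_inf_of M' M hdvd hπ (pk85_h3 K M' h3)⁻¹ hhV' hs₂ hfrac₂ hD₂ hres
  rw [hh] at h1
  rw [map_inv₀, hh] at h2'
  exact ⟨h1, h2'⟩

end levels

end Fermat.Agent.S34
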