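import Mathlib

/-!
# S34 lab, step (3a), inf-branch (helper93), abstract part: `B = ι(B') + (B ∩ ϖ V)`

`F' → F` fields (`ι`), `V'` a valuation subring of `F'`, `V` a valuation subring of `F` over
`V'`; `B'` a ring with a homomorphism `j : B' → F'` into `V'` (the chart of the good level),
`ϖ ∈ B'`.

* `bi93_sat_pow` : saturation of `B'` in `V'` w.r.t. `ϖ`, iterated.
* `bi93_frac` : if `F' = Frac (j B')`, `B'` is saturated in `V'` and `V'` is archimedean w.r.t.
  `ϖ`, then every element of `V'` is `a / d` with `a, d ∈ B'`, `d ∉ ϖ V'`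
  (the residue field of `V'` is the fraction field of `B' / ϖ`).
* `bi93_lift` : if moreover `B' / ϖ` is an integrally closed domain and `V` has residue degree
  one over `V'` (`hf1`), then every `b ∈ V` which is integral over `ι (j B')` is congruent
  modulo `ϖ V` to an element of `ι (j B')`.

Mathlib only.
-/

set_option autoImplicit false

namespace Fermat.Agent.S34

open Polynomial

section

variable {F' F : Type*} [Field F'] [Field F]

/-- Saturation of `B'` in `V'`, iterated. -/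
theorem bi93_sat_pow {B' : Type*} [CommRing B'] (j : B' →+* F') (ϖ : B')
    (V' : ValuationSubring F') (hϖ0 : j ϖ ≠ 0) (hϖV : j ϖ ∈ V')
    (hsat : ∀ b : B', (j ϖ)⁻¹ * j b ∈ V' → ∃ e : B', b = ϖ * e) :
    ∀ (k : ℕ) (b : B'), (j ϖ ^ k)⁻¹ * j b ∈ V' → ∃ e : B', b = ϖ ^ k * e := by
  intro k
  induction k with
  | zero =>
    intro b _
    exact ⟨b, by simp⟩
  | succ k ih =>
    intro b hb
    have h1 : (j ϖ ^ k)⁻¹ * j b ∈ V' := by
      have e : (j ϖ ^ k)⁻¹ * j b = j ϖ * ((j ϖ ^ (k + 1))⁻¹ * j b) := by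
        rw [pow_succ]
        field_simp
      rw [e]
      exact V'.mul_mem _ _ hϖV hb
    obtain ⟨e, rfl⟩ := ih b h1
    have h2 : (j ϖ)⁻¹ * j e ∈ V' := by
      have e' : (j ϖ)⁻¹ * j e = (j ϖ ^ (k + 1))⁻¹ * j (ϖ ^ k * e) := by
        rw [map_mul, map_pow, pow_succ]
        field_simp
      rw [e']
      exact hb
    obtain ⟨e', rfl⟩ := hsat e h2
    exact ⟨e', by ring⟩

/-- **The residue field of `V'` is the fraction field of `B' / ϖ`**, elementwise: every element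
of `V'` is `a / d` with `a, d ∈ B'` and `d` a unit of `V'`. -/
theorem bi93_frac {B' : Type*} [CommRing B'] (j : B' →+* F') (ϖ : B')
    (V' : ValuationSubring F') (hϖ0 : j ϖ ≠ 0) (hjV : ∀ b, j b ∈ V')
    (hsat : ∀ b : B', (j ϖ)⁻¹ * j b ∈ V' → ∃ e : B', b = ϖ * e)
    (harch : ∀ x : F', x ≠ 0 → ∃ n : ℕ, (j ϖ ^ n)⁻¹ * x ∉ V')
    (hfrac : ∀ x : F', ∃ a d : B', j d ≠ 0 ∧ x * j d = j a)
    (c : F') (hc : c ∈ V') :
    ∃ a d : B', (j ϖ)⁻¹ * j d ∉ V' ∧ c * j d = j a := by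
  classical
  obtain ⟨a, d, hd0, hcd⟩ := hfrac c
  have hex : ∃ n : ℕ, (j ϖ ^ n)⁻¹ * j d ∉ V' := harch (j d) hd0
  have hn0 : (j ϖ ^ Nat.find hex)⁻¹ * j d ∉ V' := Nat.find_spec hex
  have hn0pos : Nat.find hex ≠ 0 := by
    intro h0
    rw [h0] at hn0
    apply hn0
    simpa using hjV d
  obtain ⟨k, hk⟩ := Nat.exists_eq_succ_of_ne_zero hn0pos
  have hk' : (j ϖ ^ k)⁻¹ * j d ∈ V' := by
    by_contra h
    exact Nat.find_min hex (by omega : k < Nat.find hex) h
  obtain ⟨d1, hd1⟩ := bi93_sat_pow j ϖ V' hϖ0 (hjV ϖ) hsat k d hk'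
  have ha' : (j ϖ ^ k)⁻¹ * j a ∈ V' := by
    rw [← hcd]
    have e : (j ϖ ^ k)⁻¹ * (c * j d) = c * ((j ϖ ^ k)⁻¹ * j d) := by ring
    rw [e]
    exact V'.mul_mem _ _ hc hk'
  obtain ⟨a1, ha1⟩ := bi93_sat_pow j ϖ V' hϖ0 (hjV ϖ) hsat k a ha'
  have hpow0 : j ϖ ^ k ≠ 0 := pow_ne_zero k hϖ0
  refine ⟨a1, d1, ?_, ?_⟩
  · have e : (j ϖ)⁻¹ * j d1 = (j ϖ ^ Nat.find hex)⁻¹ * j d := by
      rw [hk, hd1, map_mul, map_pow, pow_succ]
      field_simp
    rw [e]
    exact hn0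
  · have e : j ϖ ^ k * (c * j d1) = j ϖ ^ k * j a1 := by
      have h1 : c * j d = j a := hcd
      rw [hd1, ha1, map_mul, map_mul, map_pow] at h1
      rw [← h1]
      ring
    exact mul_left_cancel₀ hpow0 e

/-- **`B = ι(B') + (B ∩ ϖ V)`**: an element `b ∈ V` integral over `ι (j B')` is congruent
modulo `ϖ V` to an element of `ι (j B')`, when `V` has residue degree one over `V'`, the residue
field of `V'` is the fraction field of `B' / ϖ` and `B' / ϖ` is an integrally closed domain. -/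
theorem bi93_lift {B' : Type*} [CommRing B'] (j : B' →+* F') (ϖ : B') (ι : F' →+* F)
    (V' : ValuationSubring F') (V : ValuationSubring F)
    (hjV : ∀ b, j b ∈ V')
    (hsat : ∀ b : B', (j ϖ)⁻¹ * j b ∈ V' → ∃ e : B', b = ϖ * e)
    (hfracV : ∀ c ∈ V', ∃ a d : B', (j ϖ)⁻¹ * j d ∉ V' ∧ c * j d = j a)
    (hmax' : ∀ x ∈ V', x⁻¹ ∉ V' → (j ϖ)⁻¹ * x ∈ V')
    (hV'V : ∀ x ∈ V', ι x ∈ V)
    (hVV' : ∀ x ∈ V', (ι (j ϖ))⁻¹ * ι x ∈ V → (j ϖ)⁻¹ * x ∈ V')
    [IsDomain (B' ⧸ Ideal.span {ϖ})] [IsIntegrallyClosed (B' ⧸ Ideal.span {ϖ})]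
    (hf1 : ∀ x ∈ V, ∃ c ∈ V', (ι (j ϖ))⁻¹ * (x - ι c) ∈ V)
    (b : F) (hbV : b ∈ V) (p : Polynomial B') (hp : p.Monic)
    (hpb : p.eval₂ (ι.comp j) b = 0) :
    ∃ b' : B', (ι (j ϖ))⁻¹ * (b - ι (j b')) ∈ V := by
  classical
  obtain ⟨c, hc, hbc⟩ := hf1 b hbV
  -- `p(c) ∈ ϖ V'`
  have hPc : (j ϖ)⁻¹ * p.eval₂ j c ∈ V' := by
    have hPcV' : p.eval₂ j c ∈ V' := by
      rw [Polynomial.eval₂_eq_sum_range]
      exact V'.toSubring.sum_mem fun i _ => V'.mul_mem _ _ (hjV _) (pow_mem hc i)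
    apply hVV' _ hPcV'
    -- in the ring `V`: `(ι c - b) ∣ p(ι c) - p(b)`
    let φV : B' →+* V :=
      (ι.comp j).codRestrict V.toSubring fun x => hV'V _ (hjV x)
    let cV : V := ⟨ι c, hV'V c hc⟩
    let bV : V := ⟨b, hbV⟩
    have hdvd : cV - bV ∣ (p.map φV).eval cV - (p.map φV).eval bV :=
      Polynomial.sub_dvd_eval_sub cV bV (p.map φV)
    obtain ⟨g, hg⟩ := hdvd
    have hcoe : ∀ t : V, (((p.map φV).eval t : V) : F) = p.eval₂ (ι.comp j) (t : F) := by
      intro t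
      rw [Polynomial.eval_map]
      have h1 : (V.subtype : V →+* F).comp φV = ι.comp j := by
        ext x
        rfl
      have h2 := Polynomial.hom_eval₂ p φV (V.subtype : V →+* F) t
      rw [h1] at h2
      exact h2
    have h3 : ((((p.map φV).eval cV - (p.map φV).eval bV : V)) : F) =
        (((cV - bV) * g : V) : F) := congrArg (fun t : V => (t : F)) hg
    have h4 : p.eval₂ (ι.comp j) (ι c) = (ι c - b) * (g : F) := by
      have h5 : ((((p.map φV).eval cV - (p.map φV).eval bV : V)) : F) =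
          p.eval₂ (ι.comp j) (ι c) - p.eval₂ (ι.comp j) b := by
        push_cast
        rw [hcoe cV, hcoe bV]
      rw [hpb, sub_zero] at h5
      rw [← h5, h3]
      push_cast
      rfl
    have h6 : ι (p.eval₂ j c) = p.eval₂ (ι.comp j) (ι c) := Polynomial.hom_eval₂ p j ι c
    rw [h6, h4]
    have e : (ι (j ϖ))⁻¹ * ((ι c - b) * (g : F)) =
        -((ι (j ϖ))⁻¹ * (b - ι c)) * (g : F) := by ring
    rw [e]
    exact V.mul_mem _ _ (V.neg_mem _ hbc) g.2
  -- `c = a / d`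
  obtain ⟨a, d, hd, hcd⟩ := hfracV c hc
  -- `d` is a unit of `V'`
  have hdinv : (j d)⁻¹ ∈ V' := by
    by_contra h
    exact hd (hmax' _ (hjV d) h)
  have hd0 : j d ≠ 0 := by
    intro h0
    apply hd
    rw [h0, mul_zero]
    exact V'.zero_mem
  -- the homogenised relation lies in `ϖ B'`
  have hH : ∃ e : B', (p.scaleRoots d).eval a = ϖ * e := by
    apply hsat
    have h1 : j ((p.scaleRoots d).eval a) = j d ^ p.natDegree * p.eval₂ j c := by
      rw [← Polynomial.scaleRoots_eval₂_mul j c d, mul_comm (j d) c, hcd]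
      exact (Polynomial.eval₂_at_apply j a).symm
    rw [h1]
    have e : (j ϖ)⁻¹ * (j d ^ p.natDegree * p.eval₂ j c) =
        j d ^ p.natDegree * ((j ϖ)⁻¹ * p.eval₂ j c) := by ring
    rw [e]
    exact V'.mul_mem _ _ (pow_mem (hjV d) _) hPc
  -- in `D = B' / ϖ`: `d̄ ∣ ā`
  let D := B' ⧸ Ideal.span {ϖ}
  let mk : B' →+* D := Ideal.Quotient.mk _
  have hdbar : mk d ≠ 0 := by
    intro h0
    rw [Ideal.Quotient.eq_zero_iff_mem, Ideal.mem_span_singleton] at h0
    obtain ⟨e, rfl⟩ := h0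
    apply hd
    rw [map_mul]
    have e' : (j ϖ)⁻¹ * (j ϖ * j e) = j e := by
      by_cases hϖ0 : j ϖ = 0
      · exfalso
        apply hd0
        rw [map_mul, hϖ0, zero_mul]
      · field_simp
    rw [e']
    exact hjV e
  have hmon : (p.map mk).Monic := hp.map mk
  have hroot : ((p.map mk).scaleRoots (mk d)).eval (mk a) = 0 := by
    obtain ⟨e, he⟩ := hH
    have h1 : (p.scaleRoots d).map mk = (p.map mk).scaleRoots (mk d) :=
      Polynomial.map_scaleRoots p d mk (by rw [hp.leadingCoeff, map_one]; exact one_ne_zero)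
    rw [← h1, Polynomial.eval_map, Polynomial.eval₂_at_apply, he, map_mul]
    have : mk ϖ = 0 := by
      rw [Ideal.Quotient.eq_zero_iff_mem]
      exact Ideal.mem_span_singleton_self ϖ
    rw [this, zero_mul]
  let KD := FractionRing D
  have hdK : algebraMap D KD (mk d) ≠ 0 := by
    intro h0
    exact hdbar ((IsFractionRing.injective D KD) (by rw [h0, map_zero]))
  have hint : IsIntegral D (algebraMap D KD (mk a) / algebraMap D KD (mk d)) := by
    refine ⟨p.map mk, hmon, ?_⟩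
    have h1 := Polynomial.scaleRoots_eval₂_mul (p := p.map mk) (algebraMap D KD)
      (algebraMap D KD (mk a) / algebraMap D KD (mk d)) (mk d)
    have h2 : algebraMap D KD (mk d) * (algebraMap D KD (mk a) / algebraMap D KD (mk d)) =
        algebraMap D KD (mk a) := by
      rw [mul_comm, div_mul_cancel₀ _ hdK]
    rw [h2, Polynomial.eval₂_at_apply, hroot, map_zero] at h1
    have h3 : algebraMap D KD (mk d) ^ (p.map mk).natDegree ≠ 0 := pow_ne_zero _ hdK
    exact (mul_eq_zero.mp h1.symm).resolve_left h3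
  obtain ⟨y, hy⟩ := IsIntegrallyClosed.isIntegral_iff.mp hint
  obtain ⟨b', rfl⟩ := Ideal.Quotient.mk_surjective y
  have hab : mk a = mk d * mk b' := by
    apply IsFractionRing.injective D KD
    rw [map_mul]
    have : algebraMap D KD (Ideal.Quotient.mk (Ideal.span {ϖ}) b') =
        algebraMap D KD (mk a) / algebraMap D KD (mk d) := hy
    rw [show mk b' = Ideal.Quotient.mk (Ideal.span {ϖ}) b' from rfl, this, mul_comm,
      div_mul_cancel₀ _ hdK]
  have hmem : a - d * b' ∈ Ideal.span {ϖ} := by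
    rw [← Ideal.Quotient.eq_zero_iff_mem, map_sub, map_mul]
    exact sub_eq_zero.mpr hab
  obtain ⟨e, he⟩ := Ideal.mem_span_singleton.mp hmem
  -- `c - b' ∈ ϖ V'`
  have hcb : (j ϖ)⁻¹ * (c - j b') ∈ V' := by
    by_cases hϖ0 : j ϖ = 0
    · rw [hϖ0, inv_zero, zero_mul]
      exact V'.zero_mem
    have h1 : j d * (c - j b') = j ϖ * j e := by
      rw [← map_mul, ← he, map_sub, map_mul, ← hcd]
      ring
    have h2' : c - j b' = (j d)⁻¹ * (j ϖ * j e) := (eq_inv_mul_iff_mul_eq₀ hd0).mpr h1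
    have h2 : (j ϖ)⁻¹ * (c - j b') = j e * (j d)⁻¹ := by
      rw [h2', ← mul_assoc, mul_comm (j ϖ)⁻¹, mul_assoc, inv_mul_cancel_left₀ hϖ0, mul_comm]
    rw [h2]
    exact V'.mul_mem _ _ (hjV e) hdinv
  refine ⟨b', ?_⟩
  have e1 : (ι (j ϖ))⁻¹ * (b - ι (j b')) =
      (ι (j ϖ))⁻¹ * (b - ι c) + ι ((j ϖ)⁻¹ * (c - j b')) := by
    rw [map_mul, map_inv₀, map_sub]
    ring
  rw [e1]
  exact V.add_mem _ _ hbc (hV'V _ hcb)

end

end Fermat.Agent.S34
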