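import Mathlib

/-!
# S34 lab, package P3 (3b), chart form (helper99): the coordinates of a node of a chart

`NodeAbs99.lean` is the local-ring form of (3b).  This file is the form the charts produce and
the node lemma (`nl71_main`, NodeLemma71.lean) consumes.  Mathlib only.

## Part I: a commutative ring `B` with two Dedekind branches

`p₁ p₂ ≤ n` are primes of `B` (the two branches through the closed point `n`).

* `nc99_IsUnif p n z` : `z ∈ n` and every `x ∉ p` is `unit * z ^ μ` in `(B ⧸ p)_n`, in the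
  denominator-free form `s * x - t * z ^ μ ∈ p` with `s t ∉ n`  ("`z` is a uniformizer of the
  branch `p` at `n`").
* `nc99_exists_unif` : uniformizers exist when `B ⧸ p` is a Dedekind domain (output of (3a)).
* `nc99_unif_gen`    : `n B_n = z B_n + p B_n`  (`∀ x ∈ n, ∃ s ∉ n, ∃ b, s * x - b * z ∈ p`).
* `nc99_unif_congr`  : `z' ≡ σ z mod p`, `σ ∉ n`, is again a uniformizer.
* `nc99_unif_notMem` : `z ∉ p` when `p ≠ n`.
* `nc99_node_core`   : ONE Frobenius relation `z₀ - c ^ a ∈ p₂` (`a ≥ 2`) for a uniformizer `z₀` of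
  the first branch gives uniformizers `z ∈ p₂` of the first branch and `z' ∈ p₁` of the second
  one, i.e. `n B_n = p₁ B_n + p₂ B_n`, with coordinates IN `B`.  No Nakayama, no noetherian
  hypothesis.
* `nc99_node`        : the same from `[IsDedekindDomain (B ⧸ pᵢ)]` and
  `hFrob : ∀ x ∈ n, ∃ y c, x - y ∈ p₁ ∧ y - c ^ a ∈ p₂`.
* `nc99_gen`         : with `p₁ ⊓ p₂ = (π)`:  `n B_n = (π, z, z') B_n`.

## Part II: a subring `B` of a field `F` and two valuation-like overrings `V₁ V₂`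

* `nc99_branch_prime`, `nc99_inf_eq_span` : the branch ideals `{x ∈ B | q⁻¹ x ∈ Vᵢ}` are prime
  and meet in `(q)` (saturation).
* `nc99_adapter` : all the hypotheses of `nl71_main` for `A := B_n ⊆ F` (any subring `A` with
  `x ∈ A ↔ ∃ s ∈ B ∖ n, s x ∈ B`), with coordinates `z z' ∈ B`, including `hUμ` for EVERY
  `U ∈ A` which is a unit of `V₁` (and the mirror statement on the second branch).

## Part III: the Frobenius hypothesis from pure inseparability on the second branch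

* `nc99_frob_lift` : `B ⧸ p` integrally closed with fraction field the residue field of `V`
  (`hfrac`), `y ∈ B`, `w ∈ V`, `y ≡ w ^ a mod q V`  ==>  `w ≡ c mod q V` with `c ∈ B`, and
  `y - c ^ a ∈ p`.
* `nc99_frob`      : `hFrob` from `hins : ∀ x : B, ∃ y : B, x - y ∈ p₁ ∧ ∃ w ∈ V₂, y ≡ w ^ a`.

All names are prefixed `nc99_`.
-/

set_option autoImplicit false

namespace Fermat.Agent.S34

section nc99_abs

variable {B : Type*} [CommRing B]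

/-- `z` is a uniformizer of the branch `B ⧸ p` at the prime `n ⊇ p`: `z ∈ n`, and every `x ∉ p`
is `(t / s) * z ^ μ` modulo `p`, with `s t ∉ n`. -/
def nc99_IsUnif (p n : Ideal B) (z : B) : Prop :=
  z ∈ n ∧ ∀ x : B, x ∉ p → ∃ (μ : ℕ) (s t : B), s ∉ n ∧ t ∉ n ∧ s * x - t * z ^ μ ∈ p

theorem nc99_one_notMem (n : Ideal B) [hn : n.IsPrime] : (1 : B) ∉ n :=
  fun h => hn.ne_top ((Ideal.eq_top_iff_one _).mpr h)

/-- a uniformizer generates `n` modulo `p`, locally at `n`. -/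
theorem nc99_unif_gen (p n : Ideal B) [hn : n.IsPrime] (hpn : p ≤ n) (z : B)
    (hz : nc99_IsUnif p n z) (x : B) (hx : x ∈ n) :
    ∃ s b : B, s ∉ n ∧ s * x - b * z ∈ p := by
  by_cases hxp : x ∈ p
  · exact ⟨1, 0, nc99_one_notMem n, by simpa using hxp⟩
  · obtain ⟨μ, s, t, hs, ht, h⟩ := hz.2 x hxp
    rcases μ with _ | μ
    · exfalso
      apply ht
      have h1 : s * x - t * z ^ 0 ∈ n := hpn h
      have h2 : s * x ∈ n := n.mul_mem_left s hx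
      have h3 : t = s * x - (s * x - t * z ^ 0) := by ring
      rw [h3]; exact n.sub_mem h2 h1
    · refine ⟨s, t * z ^ μ, hs, ?_⟩
      have h3 : s * x - t * z ^ μ * z = s * x - t * z ^ (μ + 1) := by ring
      rw [h3]; exact h

/-- stability of uniformizers: `z' ≡ σ z mod p` with `σ ∉ n`. -/
theorem nc99_unif_congr (p n : Ideal B) [hn : n.IsPrime] (hpn : p ≤ n) (z z' σ : B)
    (hz : nc99_IsUnif p n z) (hσ : σ ∉ n) (h : σ * z - z' ∈ p) : nc99_IsUnif p n z' := by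
  refine ⟨?_, ?_⟩
  · have h3 : z' = σ * z - (σ * z - z') := by ring
    rw [h3]; exact n.sub_mem (n.mul_mem_left σ hz.1) (hpn h)
  · intro x hx
    obtain ⟨μ, s, t, hs, ht, hst⟩ := hz.2 x hx
    refine ⟨μ, σ ^ μ * s, t, ?_, ht, ?_⟩
    · exact fun h' => (hn.mem_or_mem h').elim (fun h'' => hσ (hn.mem_of_pow_mem μ h'')) hs
    · have h1 : (σ * z) ^ μ - z' ^ μ ∈ p := Ideal.mem_of_dvd p (sub_dvd_pow_sub_pow _ _ μ) h
      have h3 : σ ^ μ * s * x - t * z' ^ μ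
          = σ ^ μ * (s * x - t * z ^ μ) + t * ((σ * z) ^ μ - z' ^ μ) := by ring
      rw [h3]; exact p.add_mem (p.mul_mem_left _ hst) (p.mul_mem_left _ h1)

/-- a uniformizer of a branch `p ≠ n` does not lie in `p`. -/
theorem nc99_unif_notMem (p n : Ideal B) [hp : p.IsPrime] [hn : n.IsPrime] (hpn : p ≤ n)
    (hne : p ≠ n) (z : B) (hz : nc99_IsUnif p n z) : z ∉ p := by
  intro hzp
  apply hne
  refine le_antisymm hpn fun x hx => ?_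
  obtain ⟨s, b, hs, hsb⟩ := nc99_unif_gen p n hpn z hz x hx
  have h1 : s * x ∈ p := by
    have h3 : s * x = (s * x - b * z) + b * z := by ring
    rw [h3]; exact p.add_mem hsb (p.mul_mem_left b hzp)
  exact (hp.mem_or_mem h1).resolve_left fun h => hs (hpn h)

/-- **Uniformizers exist** on a Dedekind branch. -/
theorem nc99_exists_unif (p n : Ideal B) [hp : p.IsPrime] [hn : n.IsPrime] (hpn : p ≤ n)
    [IsDedekindDomain (B ⧸ p)] : ∃ z : B, nc99_IsUnif p n z := by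
  classical
  by_cases hpn' : p = n
  · subst hpn'
    exact ⟨0, p.zero_mem, fun x hx => ⟨0, 1, x, nc99_one_notMem p, hx, by simp⟩⟩
  · have hmem : ∀ x : B, Ideal.Quotient.mk p x ∈ n.map (Ideal.Quotient.mk p) ↔ x ∈ n :=
      fun x => Ideal.mem_quotient_iff_mem hpn
    have hnb : (n.map (Ideal.Quotient.mk p)).IsPrime :=
      Ideal.map_isPrime_of_surjective Ideal.Quotient.mk_surjective
        (by rw [Ideal.mk_ker]; exact hpn)
    have hnb0 : n.map (Ideal.Quotient.mk p) ≠ ⊥ := by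
      intro h0
      apply hpn'
      refine le_antisymm hpn fun x hx => ?_
      have h1 : Ideal.Quotient.mk p x ∈ n.map (Ideal.Quotient.mk p) := (hmem x).mpr hx
      rw [h0, Ideal.mem_bot] at h1
      exact Ideal.Quotient.eq_zero_iff_mem.mp h1
    set L := Localization.AtPrime (n.map (Ideal.Quotient.mk p)) with hL
    have hdvr : IsDiscreteValuationRing L :=
      IsLocalization.AtPrime.isDiscreteValuationRing_of_dedekind_domain (B ⧸ p) hnb0 L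
    have hinj : Function.Injective (algebraMap (B ⧸ p) L) :=
      IsLocalization.injective L (n.map (Ideal.Quotient.mk p)).primeCompl_le_nonZeroDivisors
    have hunit : ∀ x : B ⧸ p, IsUnit (algebraMap (B ⧸ p) L x) ↔
        x ∉ n.map (Ideal.Quotient.mk p) := fun x =>
      IsLocalization.AtPrime.isUnit_to_map_iff L (n.map (Ideal.Quotient.mk p)) x
    obtain ⟨ϖ, hϖ⟩ := IsDiscreteValuationRing.exists_irreducible L
    obtain ⟨c, s, hcs⟩ := IsLocalization.exists_mk'_eq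
      (n.map (Ideal.Quotient.mk p)).primeCompl ϖ
    have hsu : IsUnit (algebraMap (B ⧸ p) L (s : B ⧸ p)) :=
      IsLocalization.map_units L s
    have hc : Irreducible (algebraMap (B ⧸ p) L c) := by
      have h1 : algebraMap (B ⧸ p) L c = ϖ * algebraMap (B ⧸ p) L (s : B ⧸ p) := by
        rw [← hcs, IsLocalization.mk'_spec]
      rw [h1]; exact (irreducible_mul_isUnit hsu).mpr hϖ
    obtain ⟨z, rfl⟩ := Ideal.Quotient.mk_surjective c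
    refine ⟨z, ?_, ?_⟩
    · rw [← hmem z]
      by_contra hz
      exact hc.not_isUnit ((hunit _).mpr hz)
    · intro x hx
      have hx0 : algebraMap (B ⧸ p) L (Ideal.Quotient.mk p x) ≠ 0 := by
        intro h0
        apply hx
        have h1 := hinj (h0.trans (map_zero _).symm)
        exact Ideal.Quotient.eq_zero_iff_mem.mp h1
      obtain ⟨μ, u, hu⟩ := IsDiscreteValuationRing.eq_unit_mul_pow_irreducible hx0 hc
      obtain ⟨t, s', hts⟩ := IsLocalization.exists_mk'_eq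
        (n.map (Ideal.Quotient.mk p)).primeCompl (u : L)
      have hs'u : IsUnit (algebraMap (B ⧸ p) L (s' : B ⧸ p)) := IsLocalization.map_units L s'
      have ht1 : algebraMap (B ⧸ p) L t = (u : L) * algebraMap (B ⧸ p) L (s' : B ⧸ p) := by
        rw [← hts, IsLocalization.mk'_spec]
      have htu : IsUnit (algebraMap (B ⧸ p) L t) := by
        rw [ht1]; exact u.isUnit.mul hs'u
      obtain ⟨t₀, rfl⟩ := Ideal.Quotient.mk_surjective t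
      obtain ⟨s₀, hs₀⟩ := Ideal.Quotient.mk_surjective (s' : B ⧸ p)
      refine ⟨μ, s₀, t₀, ?_, ?_, ?_⟩
      · rw [← hmem s₀, hs₀]; exact s'.2
      · rw [← hmem t₀]; exact (hunit _).mp htu
      · apply Ideal.Quotient.eq_zero_iff_mem.mp
        apply hinj
        rw [map_zero, map_sub, map_mul, map_mul, map_pow, map_sub, map_mul, map_mul, map_pow,
          hs₀, ht1, hu]
        ring

/-- **The node from ONE Frobenius relation.** `z₀` a uniformizer of the first branch which is an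
`a`-th power modulo the second branch (`a ≥ 2`), `y₀` a uniformizer of the second branch. Then
there are uniformizers `z ∈ p₂` of the first branch and `z' ∈ p₁` of the second branch. -/
theorem nc99_node_core (p₁ p₂ n : Ideal B) [hn : n.IsPrime]
    (h₁ : p₁ ≤ n) (h₂ : p₂ ≤ n) (z₀ y₀ : B) (hz₀ : nc99_IsUnif p₁ n z₀)
    (hy₀ : nc99_IsUnif p₂ n y₀) (a : ℕ) (ha : 2 ≤ a) (c : B) (hc : z₀ - c ^ a ∈ p₂) :
    ∃ z z' : B, z ∈ p₂ ∧ z' ∈ p₁ ∧ nc99_IsUnif p₁ n z ∧ nc99_IsUnif p₂ n z' := by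
  have hcn : c ∈ n := by
    have h1 : c ^ a ∈ n := by
      have h3 : c ^ a = z₀ - (z₀ - c ^ a) := by ring
      rw [h3]; exact n.sub_mem hz₀.1 (h₂ hc)
    exact hn.mem_of_pow_mem a h1
  obtain ⟨s, b, hs, hsb⟩ := nc99_unif_gen p₁ n h₁ z₀ hz₀ c hcn
  obtain ⟨a', rfl⟩ : ∃ a', a = a' + 2 := ⟨a - 2, by omega⟩
  have hσn : s ^ (a' + 2) - b ^ (a' + 2) * z₀ ^ (a' + 1) ∉ n := by
    intro h
    have h1 : b ^ (a' + 2) * z₀ ^ (a' + 1) ∈ n :=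
      n.mul_mem_left _ (by rw [pow_succ]; exact n.mul_mem_left _ hz₀.1)
    have h2 : s ^ (a' + 2) ∈ n := by
      have h3 : s ^ (a' + 2)
          = (s ^ (a' + 2) - b ^ (a' + 2) * z₀ ^ (a' + 1)) + b ^ (a' + 2) * z₀ ^ (a' + 1) := by
        ring
      rw [h3]; exact n.add_mem h h1
    exact hs (hn.mem_of_pow_mem _ h2)
  have he₁ : (s * c) ^ (a' + 2) - (b * z₀) ^ (a' + 2) ∈ p₁ :=
    Ideal.mem_of_dvd _ (sub_dvd_pow_sub_pow _ _ _) hsb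
  have he₂p : s ^ (a' + 2) * (z₀ - c ^ (a' + 2)) ∈ p₂ := p₂.mul_mem_left _ hc
  have hsum : (s ^ (a' + 2) - b ^ (a' + 2) * z₀ ^ (a' + 1)) * z₀
      - s ^ (a' + 2) * (z₀ - c ^ (a' + 2)) = (s * c) ^ (a' + 2) - (b * z₀) ^ (a' + 2) := by
    ring
  have hz : nc99_IsUnif p₁ n (s ^ (a' + 2) * (z₀ - c ^ (a' + 2))) :=
    nc99_unif_congr p₁ n h₁ z₀ _ _ hz₀ hσn (by rw [hsum]; exact he₁)
  obtain ⟨s', b', hs', hsb'⟩ := nc99_unif_gen p₁ n h₁ _ hz y₀ hy₀.1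
  refine ⟨s ^ (a' + 2) * (z₀ - c ^ (a' + 2)),
    s' * y₀ - b' * (s ^ (a' + 2) * (z₀ - c ^ (a' + 2))), he₂p, hsb', hz, ?_⟩
  refine nc99_unif_congr p₂ n h₂ y₀ _ s' hy₀ hs' ?_
  have h3 : s' * y₀ - (s' * y₀ - b' * (s ^ (a' + 2) * (z₀ - c ^ (a' + 2))))
      = b' * (s ^ (a' + 2) * (z₀ - c ^ (a' + 2))) := by ring
  rw [h3]; exact p₂.mul_mem_left _ he₂p

/-- **The node of two Dedekind branches** from the Frobenius congruence: every element of `n`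
is, modulo `p₁`, congruent to an element which is an `a`-th power modulo `p₂`. -/
theorem nc99_node (p₁ p₂ n : Ideal B) [hp₁ : p₁.IsPrime] [hp₂ : p₂.IsPrime] [hn : n.IsPrime]
    (h₁ : p₁ ≤ n) (h₂ : p₂ ≤ n) [IsDedekindDomain (B ⧸ p₁)] [IsDedekindDomain (B ⧸ p₂)]
    (a : ℕ) (ha : 2 ≤ a) (hFrob : ∀ x ∈ n, ∃ y c : B, x - y ∈ p₁ ∧ y - c ^ a ∈ p₂) :
    ∃ z z' : B, z ∈ p₂ ∧ z' ∈ p₁ ∧ nc99_IsUnif p₁ n z ∧ nc99_IsUnif p₂ n z' := by
  obtain ⟨z₀, hz₀⟩ := nc99_exists_unif p₁ n h₁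
  obtain ⟨y₀, hy₀⟩ := nc99_exists_unif p₂ n h₂
  obtain ⟨y, c, hy, hc⟩ := hFrob z₀ hz₀.1
  have hyu : nc99_IsUnif p₁ n y :=
    nc99_unif_congr p₁ n h₁ z₀ y 1 hz₀ (nc99_one_notMem n) (by rw [one_mul]; exact hy)
  exact nc99_node_core p₁ p₂ n h₁ h₂ y y₀ hyu hy₀ a ha c hc

/-- `n B_n = (π, z, z') B_n` when `p₁ ⊓ p₂ = (π)`. -/
theorem nc99_gen (p₁ p₂ n : Ideal B) [hn : n.IsPrime] (h₁ : p₁ ≤ n) (h₂ : p₂ ≤ n) (π : B)
    (hπ : p₁ ⊓ p₂ = Ideal.span {π}) (z z' : B) (hz : nc99_IsUnif p₁ n z) (hz'p : z' ∈ p₁)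
    (hz' : nc99_IsUnif p₂ n z') (x : B) (hx : x ∈ n) :
    ∃ s c a b : B, s ∉ n ∧ s * x = c * π + a * z + b * z' := by
  obtain ⟨s, b, hs, hsb⟩ := nc99_unif_gen p₁ n h₁ z hz x hx
  obtain ⟨t, b', ht, htb⟩ := nc99_unif_gen p₂ n h₂ z' hz' _ (h₁ hsb)
  have h1 : t * (s * x - b * z) - b' * z' ∈ p₁ ⊓ p₂ :=
    ⟨p₁.sub_mem (p₁.mul_mem_left _ hsb) (p₁.mul_mem_left _ hz'p), htb⟩
  rw [hπ, Ideal.mem_span_singleton'] at h1
  obtain ⟨c, hc⟩ := h1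
  refine ⟨t * s, c, t * b, b', fun h => (hn.mem_or_mem h).elim ht hs, ?_⟩
  linear_combination -hc

end nc99_abs

section nc99_field

variable {F : Type*} [Field F] {S : Type*} [SetLike S F] [SubringClass S F]

/-- the branch ideal `{x ∈ B | q⁻¹ x ∈ V}` of a valuation-like overring `V` with uniformizer `q`
is prime. -/
theorem nc99_branch_prime (B : S) (V : Subring F) (q : F) (hBV : ∀ x ∈ B, x ∈ V)
    (hqV : q⁻¹ ∉ V) (hV : ∀ x ∈ V, q⁻¹ * x ∉ V → x⁻¹ ∈ V) (p : Ideal B)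
    (hp : ∀ x : B, x ∈ p ↔ q⁻¹ * (x : F) ∈ V) : p.IsPrime := by
  refine Ideal.isPrime_iff.mpr ⟨?_, ?_⟩
  · intro h
    have h1 : (1 : B) ∈ p := by rw [h]; trivial
    rw [hp] at h1
    apply hqV; simpa using h1
  · intro x y hxy
    by_contra hcon
    rw [not_or] at hcon
    obtain ⟨hx, hy⟩ := hcon
    rw [hp] at hx hy hxy
    have hxinv := hV x (hBV x x.2) hx
    apply hy
    have hx0 : (x : F) ≠ 0 := by
      intro h0; apply hx; rw [h0, mul_zero]; exact V.zero_mem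
    have h3 : q⁻¹ * (y : F) = (x : F)⁻¹ * (q⁻¹ * ((x * y : B) : F)) := by
      push_cast; field_simp
    rw [h3]; exact V.mul_mem hxinv hxy

/-- saturation of `B` in `V₁ ⊓ V₂`: the two branch ideals meet in `(q)`. -/
theorem nc99_inf_eq_span (B : S) (V₁ V₂ : Subring F) (q : F) (hq0 : q ≠ 0) (hqB : q ∈ B)
    (hB₁ : ∀ x ∈ B, x ∈ V₁) (hB₂ : ∀ x ∈ B, x ∈ V₂)
    (hsatB : ∀ x ∈ B, q⁻¹ * x ∈ V₁ → q⁻¹ * x ∈ V₂ → q⁻¹ * x ∈ B)
    (p₁ p₂ : Ideal B) (hp₁ : ∀ x : B, x ∈ p₁ ↔ q⁻¹ * (x : F) ∈ V₁)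
    (hp₂ : ∀ x : B, x ∈ p₂ ↔ q⁻¹ * (x : F) ∈ V₂) :
    p₁ ⊓ p₂ = Ideal.span {(⟨q, hqB⟩ : B)} := by
  ext x
  rw [Ideal.mem_inf, hp₁, hp₂, Ideal.mem_span_singleton']
  constructor
  · rintro ⟨h1, h2⟩
    refine ⟨⟨q⁻¹ * x, hsatB x x.2 h1 h2⟩, ?_⟩
    apply Subtype.ext
    show q⁻¹ * (x : F) * q = x
    field_simp
  · rintro ⟨a, rfl⟩
    have h3 : q⁻¹ * ((a * ⟨q, hqB⟩ : B) : F) = a := by
      show q⁻¹ * ((a : F) * q) = a
      field_simp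
    rw [h3]; exact ⟨hB₁ a a.2, hB₂ a a.2⟩

/-- elements of `B ∖ n` are units of `V` when the branch ideal of `V` lies in `n`. -/
theorem nc99_inv_mem (B : S) (V : Subring F) (q : F) (hBV : ∀ x ∈ B, x ∈ V)
    (hV : ∀ x ∈ V, q⁻¹ * x ∉ V → x⁻¹ ∈ V) (p n : Ideal B)
    (hp : ∀ x : B, x ∈ p ↔ q⁻¹ * (x : F) ∈ V) (hpn : p ≤ n) (s : B) (hs : s ∉ n) :
    (s : F)⁻¹ ∈ V :=
  hV s (hBV s s.2) fun h => hs (hpn ((hp s).mpr h))

theorem nc99_coe_ne_zero (B : S) (n : Ideal B) (s : B) (hs : s ∉ n) : (s : F) ≠ 0 := by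
  intro h0
  apply hs
  have h1 : s = 0 := Subtype.ext h0
  rw [h1]; exact n.zero_mem

/-- `B_n ⊆ V`. -/
theorem nc99_loc_le (B : S) (V : Subring F) (q : F) (hBV : ∀ x ∈ B, x ∈ V)
    (hV : ∀ x ∈ V, q⁻¹ * x ∉ V → x⁻¹ ∈ V) (p n : Ideal B)
    (hp : ∀ x : B, x ∈ p ↔ q⁻¹ * (x : F) ∈ V) (hpn : p ≤ n)
    (A : Subring F) (hA : ∀ x : F, x ∈ A ↔ ∃ s : B, s ∉ n ∧ (s : F) * x ∈ B) : A ≤ V := by
  intro x hx
  obtain ⟨s, hs, hsx⟩ := (hA x).mp hx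
  have hs0 := nc99_coe_ne_zero B n s hs
  have h3 : x = (s : F)⁻¹ * ((s : F) * x) := by field_simp
  rw [h3]
  exact V.mul_mem (nc99_inv_mem B V q hBV hV p n hp hpn s hs) (hBV _ hsx)

/-- `b / s ∈ B_n`. -/
theorem nc99_div_mem (B : S) (n : Ideal B) (A : Subring F)
    (hA : ∀ x : F, x ∈ A ↔ ∃ s : B, s ∉ n ∧ (s : F) * x ∈ B) (b s : B) (hs : s ∉ n) :
    (b : F) / (s : F) ∈ A := by
  refine (hA _).mpr ⟨s, hs, ?_⟩
  have hs0 := nc99_coe_ne_zero B n s hs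
  have h3 : (s : F) * ((b : F) / (s : F)) = b := by field_simp
  rw [h3]; exact b.2

theorem nc99_coe_mem (B : S) (n : Ideal B) [hn : n.IsPrime] (A : Subring F)
    (hA : ∀ x : F, x ∈ A ↔ ∃ s : B, s ∉ n ∧ (s : F) * x ∈ B) (b : B) : (b : F) ∈ A := by
  refine (hA _).mpr ⟨1, nc99_one_notMem n, ?_⟩
  have h3 : ((1 : B) : F) * (b : F) = b := by
    show (1 : F) * (b : F) = b
    rw [one_mul]
  rw [h3]; exact b.2

/-- **The hypotheses of the node lemma** (`nl71_main`, literally) for the local ring `A = B_n` of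
a chart at a node, with coordinates `z z'`, as one proposition. -/
def nc99_NodeData (A V₁ V₂ : Subring F) (q z z' : F) : Prop :=
  q ∈ A ∧ A ≤ V₁ ∧ A ≤ V₂ ∧
  (∀ x ∈ A, q⁻¹ * x ∈ V₁ → q⁻¹ * x ∈ V₂ → q⁻¹ * x ∈ A) ∧
  z ∈ A ∧ z' ∈ A ∧ q⁻¹ * z ∈ V₂ ∧ q⁻¹ * z' ∈ V₁ ∧ q⁻¹ * z' ∉ V₂ ∧ q⁻¹ * z ∉ V₁ ∧
  (∀ c ∈ A, (∃ d ∈ A, c * d = 1) ∨
    ∃ c' ∈ A, ∃ a ∈ A, ∃ b ∈ A, c = q * c' + a * z + b * z') ∧
  (∀ c' ∈ A, ∀ a ∈ A, ∀ b ∈ A, q * c' + a * z + b * z' ≠ 1) ∧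
  (∀ U ∈ A, q⁻¹ * U ∉ V₁ →
    ∃ (μ : ℕ) (ε δ : F), ε ∈ A ∧ δ ∈ A ∧ ε * δ = 1 ∧ q⁻¹ * (U - ε * z ^ μ) ∈ V₁) ∧
  (∀ U ∈ A, q⁻¹ * U ∉ V₂ →
    ∃ (μ : ℕ) (ε δ : F), ε ∈ A ∧ δ ∈ A ∧ ε * δ = 1 ∧ q⁻¹ * (U - ε * z' ^ μ) ∈ V₂)

/-- the `hUμ` hypothesis of `nl71_main` from a uniformizer of the branch. -/
theorem nc99_hUmu (B : S) (V : Subring F) (q : F) (hBV : ∀ x ∈ B, x ∈ V)
    (hV : ∀ x ∈ V, q⁻¹ * x ∉ V → x⁻¹ ∈ V) (p n : Ideal B) [hn : n.IsPrime]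
    (hp : ∀ x : B, x ∈ p ↔ q⁻¹ * (x : F) ∈ V) (hpn : p ≤ n)
    (A : Subring F) (hA : ∀ x : F, x ∈ A ↔ ∃ s : B, s ∉ n ∧ (s : F) * x ∈ B)
    (z : B) (hz : nc99_IsUnif p n z) (U : F) (hU : U ∈ A) (hUV : q⁻¹ * U ∉ V) :
    ∃ (μ : ℕ) (ε δ : F), ε ∈ A ∧ δ ∈ A ∧ ε * δ = 1 ∧ q⁻¹ * (U - ε * (z : F) ^ μ) ∈ V := by
  obtain ⟨s₀, hs₀, hs₀U⟩ := (hA U).mp hU
  have hs₀0 := nc99_coe_ne_zero B n s₀ hs₀
  have hs₀inv := nc99_inv_mem B V q hBV hV p n hp hpn s₀ hs₀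
  have hu : (⟨(s₀ : F) * U, hs₀U⟩ : B) ∉ p := by
    intro h
    rw [hp] at h
    apply hUV
    have h3 : q⁻¹ * U = (s₀ : F)⁻¹ * (q⁻¹ * ((s₀ : F) * U)) := by field_simp
    rw [h3]; exact V.mul_mem hs₀inv h
  obtain ⟨μ, s, t, hs, ht, hst⟩ := hz.2 _ hu
  have hs0 := nc99_coe_ne_zero B n s hs
  have ht0 := nc99_coe_ne_zero B n t ht
  have hsinv := nc99_inv_mem B V q hBV hV p n hp hpn s hs
  rw [hp] at hst
  have hst' : q⁻¹ * ((s : F) * ((s₀ : F) * U) - (t : F) * (z : F) ^ μ) ∈ V := hst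
  have hss₀ : s * s₀ ∉ n := fun h => (hn.mem_or_mem h).elim hs hs₀
  refine ⟨μ, (t : F) / ((s * s₀ : B) : F), ((s * s₀ : B) : F) / (t : F),
    nc99_div_mem B n A hA t (s * s₀) hss₀, nc99_div_mem B n A hA (s * s₀) t ht, ?_, ?_⟩
  · show (t : F) / ((s : F) * (s₀ : F)) * (((s : F) * (s₀ : F)) / (t : F)) = 1
    field_simp
  · have h3 : q⁻¹ * (U - (t : F) / ((s * s₀ : B) : F) * (z : F) ^ μ)
        = (s : F)⁻¹ * (s₀ : F)⁻¹ * (q⁻¹ * ((s : F) * ((s₀ : F) * U) - (t : F) * (z : F) ^ μ)) := by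
      show q⁻¹ * (U - (t : F) / ((s : F) * (s₀ : F)) * (z : F) ^ μ)
        = (s : F)⁻¹ * (s₀ : F)⁻¹ * (q⁻¹ * ((s : F) * ((s₀ : F) * U) - (t : F) * (z : F) ^ μ))
      field_simp
    rw [h3]; exact V.mul_mem (V.mul_mem hsinv hs₀inv) hst'

/-- **The adapter**: a node of a chart `B ⊆ F` with coordinates `z ∈ p₂`, `z' ∈ p₁` (uniformizers
of the two branches) gives all the hypotheses of `nl71_main` for `A = B_n`. -/
theorem nc99_adapter (B : S) (V₁ V₂ : Subring F) (q : F) (hq0 : q ≠ 0) (hqB : q ∈ B)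
    (hB₁ : ∀ x ∈ B, x ∈ V₁) (hB₂ : ∀ x ∈ B, x ∈ V₂)
    (hV₁ : ∀ x ∈ V₁, q⁻¹ * x ∉ V₁ → x⁻¹ ∈ V₁) (hV₂ : ∀ x ∈ V₂, q⁻¹ * x ∉ V₂ → x⁻¹ ∈ V₂)
    (hsatB : ∀ x ∈ B, q⁻¹ * x ∈ V₁ → q⁻¹ * x ∈ V₂ → q⁻¹ * x ∈ B)
    (p₁ p₂ n : Ideal B) [hp₁' : p₁.IsPrime] [hp₂' : p₂.IsPrime] [hn : n.IsPrime]
    (hp₁ : ∀ x : B, x ∈ p₁ ↔ q⁻¹ * (x : F) ∈ V₁) (hp₂ : ∀ x : B, x ∈ p₂ ↔ q⁻¹ * (x : F) ∈ V₂)
    (h₁ : p₁ ≤ n) (h₂ : p₂ ≤ n) (hne₁ : p₁ ≠ n) (hne₂ : p₂ ≠ n)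
    (z z' : B) (hz₂ : z ∈ p₂) (hz'₁ : z' ∈ p₁) (hz : nc99_IsUnif p₁ n z)
    (hz' : nc99_IsUnif p₂ n z')
    (A : Subring F) (hA : ∀ x : F, x ∈ A ↔ ∃ s : B, s ∉ n ∧ (s : F) * x ∈ B) :
    nc99_NodeData A V₁ V₂ q (z : F) (z' : F) := by
  have hπ := nc99_inf_eq_span B V₁ V₂ q hq0 hqB hB₁ hB₂ hsatB p₁ p₂ hp₁ hp₂
  have hgen := nc99_gen p₁ p₂ n h₁ h₂ ⟨q, hqB⟩ hπ z z' hz hz'₁ hz'
  have hAV₁ := nc99_loc_le B V₁ q hB₁ hV₁ p₁ n hp₁ h₁ A hA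
  have hAV₂ := nc99_loc_le B V₂ q hB₂ hV₂ p₂ n hp₂ h₂ A hA
  have hqn : (⟨q, hqB⟩ : B) ∈ n := by
    apply h₁
    rw [hp₁]
    show q⁻¹ * q ∈ V₁
    rw [inv_mul_cancel₀ hq0]; exact V₁.one_mem
  refine ⟨nc99_coe_mem B n A hA ⟨q, hqB⟩, hAV₁, hAV₂, ?_, nc99_coe_mem B n A hA z,
    nc99_coe_mem B n A hA z', (hp₂ z).mp hz₂, (hp₁ z').mp hz'₁, ?_, ?_, ?_, ?_, ?_, ?_⟩
  · -- saturation
    intro x hx h1 h2
    obtain ⟨s, hs, hsx⟩ := (hA x).mp hx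
    refine (hA _).mpr ⟨s, hs, ?_⟩
    have h3 : (s : F) * (q⁻¹ * x) = q⁻¹ * ((s : F) * x) := by ring
    rw [h3]
    refine hsatB _ hsx ?_ ?_
    · rw [← h3]; exact V₁.mul_mem (hB₁ s s.2) h1
    · rw [← h3]; exact V₂.mul_mem (hB₂ s s.2) h2
  · exact fun h => nc99_unif_notMem p₂ n h₂ hne₂ z' hz' ((hp₂ z').mpr h)
  · exact fun h => nc99_unif_notMem p₁ n h₁ hne₁ z hz ((hp₁ z).mpr h)
  · -- hloc
    intro c hc
    obtain ⟨s, hs, hsc⟩ := (hA c).mp hc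
    have hs0 := nc99_coe_ne_zero B n s hs
    by_cases hu : (⟨(s : F) * c, hsc⟩ : B) ∈ n
    · right
      obtain ⟨t, c₀, a₀, b₀, ht, h⟩ := hgen _ hu
      have ht0 := nc99_coe_ne_zero B n t ht
      have hts : t * s ∉ n := fun h => (hn.mem_or_mem h).elim ht hs
      have h' : (t : F) * ((s : F) * c) = (c₀ : F) * q + (a₀ : F) * (z : F) + (b₀ : F) * (z' : F) :=
        congrArg (Subtype.val) h
      refine ⟨_, nc99_div_mem B n A hA c₀ (t * s) hts, _, nc99_div_mem B n A hA a₀ (t * s) hts,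
        _, nc99_div_mem B n A hA b₀ (t * s) hts, ?_⟩
      show c = q * ((c₀ : F) / ((t : F) * (s : F))) + (a₀ : F) / ((t : F) * (s : F)) * (z : F)
        + (b₀ : F) / ((t : F) * (s : F)) * (z' : F)
      field_simp
      linear_combination h'
    · left
      have hu0 := nc99_coe_ne_zero B n _ hu
      have hu0' : (s : F) * c ≠ 0 := hu0
      refine ⟨_, nc99_div_mem B n A hA s _ hu, ?_⟩
      show c * ((s : F) / ((s : F) * c)) = 1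
      have hc0 : c ≠ 0 := right_ne_zero_of_mul hu0'
      field_simp
  · -- hprop
    intro c' hc' a ha b hb h1
    obtain ⟨s₁, hs₁, h₁'⟩ := (hA c').mp hc'
    obtain ⟨s₂, hs₂, h₂'⟩ := (hA a).mp ha
    obtain ⟨s₃, hs₃, h₃'⟩ := (hA b).mp hb
    have hmem : (⟨q, hqB⟩ : B) * (⟨(s₁ : F) * c', h₁'⟩ * s₂ * s₃)
        + ⟨(s₂ : F) * a, h₂'⟩ * s₁ * s₃ * z + ⟨(s₃ : F) * b, h₃'⟩ * s₁ * s₂ * z' ∈ n :=
      n.add_mem (n.add_mem (n.mul_mem_right _ hqn) (n.mul_mem_left _ hz.1))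
        (n.mul_mem_left _ hz'.1)
    have heq : (⟨q, hqB⟩ : B) * (⟨(s₁ : F) * c', h₁'⟩ * s₂ * s₃)
        + ⟨(s₂ : F) * a, h₂'⟩ * s₁ * s₃ * z + ⟨(s₃ : F) * b, h₃'⟩ * s₁ * s₂ * z'
        = s₁ * s₂ * s₃ := by
      apply Subtype.ext
      show q * ((s₁ : F) * c' * (s₂ : F) * (s₃ : F)) + (s₂ : F) * a * (s₁ : F) * (s₃ : F) * (z : F)
        + (s₃ : F) * b * (s₁ : F) * (s₂ : F) * (z' : F) = (s₁ : F) * (s₂ : F) * (s₃ : F)
      linear_combination (s₁ : F) * (s₂ : F) * (s₃ : F) * h1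
    rw [heq] at hmem
    exact (hn.mem_or_mem hmem).elim (fun h => (hn.mem_or_mem h).elim hs₁ hs₂) hs₃
  · exact fun U hU hUV => nc99_hUmu B V₁ q hB₁ hV₁ p₁ n hp₁ h₁ A hA z hz U hU hUV
  · exact fun U hU hUV => nc99_hUmu B V₂ q hB₂ hV₂ p₂ n hp₂ h₂ A hA z' hz' U hU hUV

/-- **The node of a chart**: `B ⊆ F` saturated in `V₁ ⊓ V₂`, the two branch ideals with Dedekind
quotients (output of (3a)), a closed point `n` on both branches, and the Frobenius congruence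
(`hFrob`). Then there are coordinates `z z' ∈ B` for which `A = B_n` satisfies all the
hypotheses of the node lemma. -/
theorem nc99_chart_node (B : S) (V₁ V₂ : Subring F) (q : F) (hq0 : q ≠ 0) (hqB : q ∈ B)
    (hB₁ : ∀ x ∈ B, x ∈ V₁) (hB₂ : ∀ x ∈ B, x ∈ V₂)
    (hV₁ : ∀ x ∈ V₁, q⁻¹ * x ∉ V₁ → x⁻¹ ∈ V₁) (hV₂ : ∀ x ∈ V₂, q⁻¹ * x ∉ V₂ → x⁻¹ ∈ V₂)
    (hsatB : ∀ x ∈ B, q⁻¹ * x ∈ V₁ → q⁻¹ * x ∈ V₂ → q⁻¹ * x ∈ B)
    (p₁ p₂ n : Ideal B) [hn : n.IsPrime]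
    (hp₁ : ∀ x : B, x ∈ p₁ ↔ q⁻¹ * (x : F) ∈ V₁) (hp₂ : ∀ x : B, x ∈ p₂ ↔ q⁻¹ * (x : F) ∈ V₂)
    (h₁ : p₁ ≤ n) (h₂ : p₂ ≤ n) (hne₁ : p₁ ≠ n) (hne₂ : p₂ ≠ n)
    [IsDedekindDomain (B ⧸ p₁)] [IsDedekindDomain (B ⧸ p₂)]
    (a : ℕ) (ha : 2 ≤ a) (hFrob : ∀ x ∈ n, ∃ y c : B, x - y ∈ p₁ ∧ y - c ^ a ∈ p₂)
    (A : Subring F) (hA : ∀ x : F, x ∈ A ↔ ∃ s : B, s ∉ n ∧ (s : F) * x ∈ B) :
    ∃ z z' : B, z ∈ p₂ ∧ z' ∈ p₁ ∧ nc99_IsUnif p₁ n z ∧ nc99_IsUnif p₂ n z' ∧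
      nc99_NodeData A V₁ V₂ q (z : F) (z' : F) := by
  have hp₁' : p₁.IsPrime := (Ideal.Quotient.isDomain_iff_prime p₁).mp inferInstance
  have hp₂' : p₂.IsPrime := (Ideal.Quotient.isDomain_iff_prime p₂).mp inferInstance
  obtain ⟨z, z', hz₂, hz'₁, hz, hz'⟩ := nc99_node p₁ p₂ n h₁ h₂ a ha hFrob
  exact ⟨z, z', hz₂, hz'₁, hz, hz', nc99_adapter B V₁ V₂ q hq0 hqB hB₁ hB₂ hV₁ hV₂ hsatB
    p₁ p₂ n hp₁ hp₂ h₁ h₂ hne₁ hne₂ z z' hz₂ hz'₁ hz hz' A hA⟩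

end nc99_field

section nc99_frob

variable {F : Type*} [Field F] {S : Type*} [SetLike S F] [SubringClass S F]

/-- in an integrally closed domain: `x ^ a = r * y ^ a`, `y ≠ 0`, `a ≥ 1` imply `y ∣ x`. -/
theorem nc99_dvd_of_pow {D : Type*} [CommRing D] [IsDomain D] [IsIntegrallyClosed D]
    (x y r : D) (a : ℕ) (ha : 0 < a) (hy : y ≠ 0) (h : x ^ a = r * y ^ a) :
    ∃ c : D, x = c * y := by
  have hy' : algebraMap D (FractionRing D) y ≠ 0 :=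
    (map_ne_zero_iff _ (IsFractionRing.injective D (FractionRing D))).mpr hy
  have hint : IsIntegral D
      ((algebraMap D (FractionRing D) x / algebraMap D (FractionRing D) y) ^ a) := by
    have h3 : (algebraMap D (FractionRing D) x / algebraMap D (FractionRing D) y) ^ a
        = algebraMap D (FractionRing D) r := by
      rw [div_pow, ← map_pow, ← map_pow, h, map_mul]
      have hya : algebraMap D (FractionRing D) (y ^ a) ≠ 0 := by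
        rw [map_pow]; exact pow_ne_zero _ hy'
      field_simp
    rw [h3]; exact isIntegral_algebraMap
  obtain ⟨c, hc⟩ := IsIntegrallyClosed.exists_algebraMap_eq_of_isIntegral_pow ha hint
  refine ⟨c, ?_⟩
  apply IsFractionRing.injective D (FractionRing D)
  rw [map_mul, hc]
  field_simp

/-- congruence of powers modulo `q V`. -/
theorem nc99_pow_cong (V : Subring F) (q : F) (x x' : F) (hx : x ∈ V) (hx' : x' ∈ V)
    (h : q⁻¹ * (x - x') ∈ V) (a : ℕ) : q⁻¹ * (x ^ a - x' ^ a) ∈ V := by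
  induction a with
  | zero => simp [V.zero_mem]
  | succ a ih =>
    have h3 : q⁻¹ * (x ^ (a + 1) - x' ^ (a + 1))
        = x * (q⁻¹ * (x ^ a - x' ^ a)) + q⁻¹ * (x - x') * x' ^ a := by ring
    rw [h3]
    exact V.add_mem (V.mul_mem hx ih) (V.mul_mem h (V.pow_mem hx' a))

/-- **Lifting a root modulo the branch**: the residue field of `V` is the fraction field of
`B ⧸ p` (`hfrac`) and `B ⧸ p` is integrally closed. If `y ∈ B` is congruent to `w ^ a` modulo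
`q V` with `w ∈ V`, then `w` is congruent to an element `c` of `B`, and `y - c ^ a ∈ p`. -/
theorem nc99_frob_lift (B : S) (V : Subring F) (q : F) (hBV : ∀ x ∈ B, x ∈ V)
    (hV : ∀ x ∈ V, q⁻¹ * x ∉ V → x⁻¹ ∈ V) (p : Ideal B) [hp' : p.IsPrime]
    (hp : ∀ x : B, x ∈ p ↔ q⁻¹ * (x : F) ∈ V) [IsIntegrallyClosed (B ⧸ p)]
    (hfrac : ∀ w ∈ V, ∃ b b' : B, b' ∉ p ∧ q⁻¹ * ((b' : F) * w - (b : F)) ∈ V)
    (a : ℕ) (ha : 0 < a) (y : B) (w : F) (hw : w ∈ V)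
    (hyw : q⁻¹ * ((y : F) - w ^ a) ∈ V) :
    ∃ c : B, q⁻¹ * ((c : F) - w) ∈ V ∧ y - c ^ a ∈ p := by
  obtain ⟨b, b', hb', hbw⟩ := hfrac w hw
  have hb'V : (b' : F) ∈ V := hBV b' b'.2
  have hbV : (b : F) ∈ V := hBV b b.2
  have hb'inv : (b' : F)⁻¹ ∈ V := hV b' hb'V fun h => hb' ((hp b').mpr h)
  have hb'0 : (b' : F) ≠ 0 := by
    intro h0
    apply hb'
    have h1 : b' = 0 := Subtype.ext h0
    rw [h1]; exact p.zero_mem
  have h1 : q⁻¹ * (((b' : F) * w) ^ a - (b : F) ^ a) ∈ V :=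
    nc99_pow_cong V q _ _ (V.mul_mem hb'V hw) hbV hbw a
  have h2 : b ^ a - y * b' ^ a ∈ p := by
    rw [hp]
    have h3 : q⁻¹ * ((b ^ a - y * b' ^ a : B) : F)
        = -((b' : F) ^ a * (q⁻¹ * ((y : F) - w ^ a)))
          - q⁻¹ * (((b' : F) * w) ^ a - (b : F) ^ a) := by
      show q⁻¹ * ((b : F) ^ a - (y : F) * (b' : F) ^ a) = _
      ring
    rw [h3]
    exact V.sub_mem (V.neg_mem (V.mul_mem (V.pow_mem hb'V a) hyw)) h1
  have h4 : (Ideal.Quotient.mk p b) ^ a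
      = Ideal.Quotient.mk p y * (Ideal.Quotient.mk p b') ^ a := by
    rw [← map_pow, ← map_pow, ← map_mul, ← sub_eq_zero, ← map_sub]
    exact Ideal.Quotient.eq_zero_iff_mem.mpr h2
  have hb'q : Ideal.Quotient.mk p b' ≠ 0 := fun h => hb' (Ideal.Quotient.eq_zero_iff_mem.mp h)
  obtain ⟨c, hc⟩ := nc99_dvd_of_pow _ _ _ a ha hb'q h4
  obtain ⟨c, rfl⟩ := Ideal.Quotient.mk_surjective c
  have h5 : b - c * b' ∈ p := by
    apply Ideal.Quotient.eq_zero_iff_mem.mp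
    rw [map_sub, map_mul, hc, sub_self]
  rw [hp] at h5
  have h5' : q⁻¹ * ((b : F) - (c : F) * (b' : F)) ∈ V := h5
  have hcw : q⁻¹ * ((c : F) - w) ∈ V := by
    have h3 : q⁻¹ * ((c : F) - w)
        = (b' : F)⁻¹ * (-(q⁻¹ * ((b : F) - (c : F) * (b' : F)))
          - q⁻¹ * ((b' : F) * w - (b : F))) := by
      field_simp
      ring
    rw [h3]
    exact V.mul_mem hb'inv (V.sub_mem (V.neg_mem h5') hbw)
  refine ⟨c, hcw, ?_⟩
  rw [hp]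
  have h6 : q⁻¹ * ((c : F) ^ a - w ^ a) ∈ V :=
    nc99_pow_cong V q _ _ (hBV c c.2) hw hcw a
  have h3 : q⁻¹ * ((y - c ^ a : B) : F)
      = q⁻¹ * ((y : F) - w ^ a) - q⁻¹ * ((c : F) ^ a - w ^ a) := by
    show q⁻¹ * ((y : F) - (c : F) ^ a) = _
    ring
  rw [h3]
  exact V.sub_mem hyw h6

/-- **The Frobenius hypothesis `hFrob` of `nc99_node` / `nc99_chart_node`** from pure
inseparability on the second branch: every `x ∈ B` is congruent modulo `p₁` to some `y ∈ B`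
(in the application `y ∈ α^* B'`, by (3a)) which is an `a`-th power modulo `q V₂` of an element
of `V₂` (in the application `β^*` of an element of the Gauss ring of level `M'`). -/
theorem nc99_frob (B : S) (V₂ : Subring F) (q : F) (hB₂ : ∀ x ∈ B, x ∈ V₂)
    (hV₂ : ∀ x ∈ V₂, q⁻¹ * x ∉ V₂ → x⁻¹ ∈ V₂) (p₁ p₂ : Ideal B) [hp₂' : p₂.IsPrime]
    (hp₂ : ∀ x : B, x ∈ p₂ ↔ q⁻¹ * (x : F) ∈ V₂) [IsIntegrallyClosed (B ⧸ p₂)]
    (hfrac : ∀ w ∈ V₂, ∃ b b' : B, b' ∉ p₂ ∧ q⁻¹ * ((b' : F) * w - (b : F)) ∈ V₂)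
    (a : ℕ) (ha : 0 < a)
    (hins : ∀ x : B, ∃ y : B, x - y ∈ p₁ ∧ ∃ w ∈ V₂, q⁻¹ * ((y : F) - w ^ a) ∈ V₂) (x : B) :
    ∃ y c : B, x - y ∈ p₁ ∧ y - c ^ a ∈ p₂ := by
  obtain ⟨y, hy, w, hw, hyw⟩ := hins x
  obtain ⟨c, -, hc⟩ := nc99_frob_lift B V₂ q hB₂ hV₂ p₂ hp₂ hfrac a ha y w hw hyw
  exact ⟨y, c, hy, hc⟩

end nc99_frob

end Fermat.Agent.S34
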