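import Mathlib
import Fermat.Agent.S34.NodeAbs99
import Fermat.Agent.S34.NodeChart99

/-!
# S34 lab, package P3 (3a), abstract (helper99): a branch of the chart at level `M = q M'` is the
special fibre of the chart at level `M'`

Setting: fields `E` (`= F(M')`) and `F` (`= F(M)`), a ring homomorphism `ι : E →+* F`
(`α^*` = the inclusion, or `β^*` = `Q ↦ Q^q`), subrings `B' ⊆ E`, `B ⊆ F` (the charts, any
`SubringClass`, e.g. `pk15_chart R s`), valuation-like overrings `V' ⊇ B'` with uniformizer `q'`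
and `V ⊇ B` with uniformizer `q = ι q'`, the branch ideals
`I = {x ∈ B' | q'⁻¹ x ∈ V'}` (`= π B'` by saturation at level `M'`) and
`p = {x ∈ B | q⁻¹ x ∈ V}`, and a ring homomorphism `f : B' →+* B` induced by `ι`.

* `bi99_isDedekindDomain_of_equiv` : `IsDedekindDomain` transfers along a ring isomorphism.
* `bi99_loc`   : `V'` is the localization of `B'` at `I` (from `hfrac'`, saturation and the
  archimedean property of `q'` on `B'`).
* `bi99_harch` : the archimedean property of `q'` on `B'` from `B'` noetherian + saturation.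
* `bi99_frac`  : residue degree one (`hres`) + `bi99_loc` ⟹ every `w ∈ V` is `f a / f a'` modulo
  `q V` (`= hfrac` of `nc99_frob_lift` / `nc99_frob`).
* `bi99_main`  : **(3a)** `B` integral over `f B'`, `V ∩ E = V'`, residue degree one on `B`
  (`hres : ∀ x ∈ B, ∃ b ∈ V', q⁻¹ (x - ι b) ∈ V`), `B' ⧸ I` Dedekind
  ⟹ `B ⧸ p` is a Dedekind domain, `p.comap f = I`, and `B' → B ⧸ p` is onto.
* `bi99_smoothFrom` : hence at every prime `n ⊇ p` of `B` there is a uniformizer of the branch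
  `p` of the form `f z'`, `z' ∈ B'` (`nc99_IsUnif p n (f z')`).
* `bi99_unif_literal` : the uniformizer in the elementwise shape of the (LS) assemblers
  (`z ∈ n ∧ ∀ x ∈ n, ∃ s ∉ n, ∃ a, q⁻¹ (s x - a z) ∈ V`).
* `bi99_ins`   : the hypothesis `hins` of `nc99_frob` from the surjectivity of `B' → B ⧸ p₁` and
  the Frobenius congruence on the image of `B'`.
* `bi99_dedekind_of_surj` : the same transport from `p.comap f = I` and surjectivity alone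
  (for owners who prove `B = f B' + p` directly).
* `bi99_frob_lift` (pointwise form of `nc99_frob_lift`) and `bi99_hFrob` : **the hypothesis
  `hFrob` of `nc99_node` / `nc99_chart_node`** from the two branch structures `ι₁ = α^*`,
  `ι₂ = β^*` and (F0) `∀ x ∈ V', ∃ x₁ ∈ V', q⁻¹ (ι₁ x - (ι₂ x₁) ^ a) ∈ V₂`.
* `bi99_branch` : the branch ideal `{x ∈ B | q⁻¹ x ∈ V}` as an `Ideal B`.
* `bi99_Br`, `bi99_Nd` : the one-branch datum (Br) and the transversality datum (Nd) in the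
  elementwise shapes of the (LS) assemblers.

All names are prefixed `bi99_`.  Mathlib + NodeAbs99 + NodeChart99.
-/

set_option autoImplicit false

namespace Fermat.Agent.S34

/-- `IsDedekindDomain` transfers along a ring isomorphism. -/
theorem bi99_isDedekindDomain_of_equiv {A B : Type*} [CommRing A] [CommRing B] [IsDomain B]
    (e : A ≃+* B) [IsDedekindDomain A] : IsDedekindDomain B := by
  have : IsNoetherianRing B := isNoetherianRing_of_ringEquiv A e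
  have : IsIntegrallyClosed B := IsIntegrallyClosed.of_equiv e
  have : Ring.DimensionLEOne B := by
    refine ⟨fun {p} hp0 hp => ?_⟩
    have h1 : (p.comap (e : A →+* B)) ≠ ⊥ := by
      intro h0
      apply hp0
      rw [eq_bot_iff]
      intro x hx
      have h2 : e.symm x ∈ p.comap (e : A →+* B) := by
        rw [Ideal.mem_comap]; simpa using hx
      rw [h0, Ideal.mem_bot] at h2
      have h3 : x = e (e.symm x) := (e.apply_symm_apply x).symm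
      rw [h3, h2, map_zero]; exact Ideal.zero_mem _
    have : (p.comap (e : A →+* B)).IsPrime := Ideal.comap_isPrime _ _
    have hmax : (p.comap (e : A →+* B)).IsMaximal :=
      Ring.DimensionLEOne.maximalOfPrime h1 inferInstance
    have h4 : p = (p.comap (e : A →+* B)).comap (e.symm : B →+* A) := by
      ext x
      show x ∈ p ↔ e (e.symm x) ∈ p
      rw [e.apply_symm_apply]
    rw [h4]
    exact Ideal.comap_isMaximal_of_surjective (e.symm : B →+* A) e.symm.surjective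
  exact { }

/-- a surjection `A ⧸ I → B ⧸ p` induced by `f : A →+* B` with `p.comap f = I` transports the
Dedekind property. -/
theorem bi99_dedekind_of_surj {A B : Type*} [CommRing A] [CommRing B] (f : A →+* B)
    (I : Ideal A) [IsDedekindDomain (A ⧸ I)] (p : Ideal B) [hp : p.IsPrime]
    (hcomap : p.comap f = I) (hsurj : ∀ b : B, ∃ a : A, b - f a ∈ p) :
    IsDedekindDomain (B ⧸ p) := by
  have hle : I ≤ p.comap f := le_of_eq hcomap.symm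
  have hinj : Function.Injective (Ideal.quotientMap p f hle) :=
    Ideal.quotientMap_injective' (le_of_eq hcomap)
  have hsur : Function.Surjective (Ideal.quotientMap p f hle) := by
    intro y
    obtain ⟨b, rfl⟩ := Ideal.Quotient.mk_surjective y
    obtain ⟨a, ha⟩ := hsurj b
    refine ⟨Ideal.Quotient.mk I a, ?_⟩
    rw [Ideal.quotientMap_mk]
    exact (Ideal.Quotient.eq.mpr ha).symm
  have : IsDomain (B ⧸ p) := Ideal.Quotient.isDomain p
  exact bi99_isDedekindDomain_of_equiv (RingEquiv.ofBijective _ ⟨hinj, hsur⟩)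

section bi99_abs

variable {E F : Type*} [Field E] [Field F]
  {S' : Type*} [SetLike S' E] [SubringClass S' E] {S : Type*} [SetLike S F] [SubringClass S F]

omit [SubringClass S' E] in
/-- `V'` is the localization of `B'` at the branch ideal: every `v ∈ V'` is `a / a'` with
`a, a' ∈ B'`, `a'` a unit of `V'`. -/
theorem bi99_loc (B' : S') (V' : Subring E) (q' : E) (hq'0 : q' ≠ 0)
    (hB'V' : ∀ x ∈ B', x ∈ V')
    (hsat' : ∀ x ∈ B', q'⁻¹ * x ∈ V' → q'⁻¹ * x ∈ B')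
    (hfrac' : ∀ x : E, ∃ a ∈ B', ∃ b ∈ B', b ≠ 0 ∧ x * b = a)
    (harch' : ∀ x ∈ B', x ≠ 0 → ∃ n : ℕ, (q' ^ n)⁻¹ * x ∉ V')
    (v : E) (hv : v ∈ V') : ∃ a ∈ B', ∃ a' ∈ B', q'⁻¹ * a' ∉ V' ∧ a' * v = a := by
  obtain ⟨a, ha, a₀, ha₀, ha₀0, hva⟩ := hfrac' v
  obtain ⟨n, hn⟩ := harch' a₀ ha₀ ha₀0
  induction n generalizing a a₀ with
  | zero =>
    exfalso
    apply hn
    rw [pow_zero, inv_one, one_mul]
    exact hB'V' a₀ ha₀
  | succ n ih =>
    by_cases h : q'⁻¹ * a₀ ∈ V'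
    · have h1 : q'⁻¹ * a₀ ∈ B' := hsat' a₀ ha₀ h
      have h2 : q'⁻¹ * a ∈ B' := by
        apply hsat' a ha
        have h3 : q'⁻¹ * a = v * (q'⁻¹ * a₀) := by rw [← hva]; ring
        rw [h3]; exact V'.mul_mem hv h
      refine ih (q'⁻¹ * a) h2 (q'⁻¹ * a₀) h1 (mul_ne_zero (inv_ne_zero hq'0) ha₀0)
        (by rw [← hva]; ring) ?_
      have h3 : (q' ^ n)⁻¹ * (q'⁻¹ * a₀) = (q' ^ (n + 1))⁻¹ * a₀ := by
        rw [pow_succ, mul_inv]; ring
      rw [h3]; exact hn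
    · exact ⟨a, ha, a₀, ha₀, h, by rw [mul_comm]; exact hva⟩

/-- the archimedean property of `q'` on a noetherian saturated chart. -/
theorem bi99_harch (B' : S') [IsNoetherianRing B'] (V' : Subring E) (q' : E) (hq'0 : q' ≠ 0)
    (hq'B' : q' ∈ B') (hB'V' : ∀ x ∈ B', x ∈ V') (hq'V' : q'⁻¹ ∉ V')
    (hsat' : ∀ x ∈ B', q'⁻¹ * x ∈ V' → q'⁻¹ * x ∈ B')
    (x : E) (hx : x ∈ B') (hx0 : x ≠ 0) : ∃ n : ℕ, (q' ^ n)⁻¹ * x ∉ V' := by
  by_contra hcon
  rw [not_exists] at hcon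
  have hall : ∀ n : ℕ, (q' ^ n)⁻¹ * x ∈ V' := fun n => not_not.mp (hcon n)
  -- `(q'^n)⁻¹ x ∈ B'` for all `n`
  have hB : ∀ n : ℕ, (q' ^ n)⁻¹ * x ∈ B' := by
    intro n
    induction n with
    | zero => rw [pow_zero, inv_one, one_mul]; exact hx
    | succ n ih =>
      have h3 : (q' ^ (n + 1))⁻¹ * x = q'⁻¹ * ((q' ^ n)⁻¹ * x) := by
        rw [pow_succ, mul_inv]; ring
      rw [h3]
      apply hsat' _ ih
      rw [← h3]; exact hall (n + 1)
  -- hence `x ∈ (q')^n` for all `n`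
  have hne : Ideal.span {(⟨q', hq'B'⟩ : B')} ≠ ⊤ := by
    intro htop
    rw [Ideal.span_singleton_eq_top] at htop
    obtain ⟨u, hu⟩ := htop.exists_right_inv
    apply hq'V'
    have h1 : q' * (u : E) = 1 := congrArg Subtype.val hu
    have h2 : q'⁻¹ = (u : E) := by
      rw [← mul_one q'⁻¹, ← h1, ← mul_assoc, inv_mul_cancel₀ hq'0, one_mul]
    rw [h2]; exact hB'V' u u.2
  have hbot := Ideal.iInf_pow_eq_bot_of_isDomain (Ideal.span {(⟨q', hq'B'⟩ : B')}) hne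
  have hmem : (⟨x, hx⟩ : B') ∈ ⨅ i : ℕ, Ideal.span {(⟨q', hq'B'⟩ : B')} ^ i := by
    rw [Ideal.mem_iInf]
    intro n
    rw [Ideal.span_singleton_pow, Ideal.mem_span_singleton']
    refine ⟨⟨(q' ^ n)⁻¹ * x, hB n⟩, ?_⟩
    apply Subtype.ext
    show (q' ^ n)⁻¹ * x * q' ^ n = x
    have hqn : q' ^ n ≠ 0 := pow_ne_zero n hq'0
    field_simp
  rw [hbot, Ideal.mem_bot] at hmem
  exact hx0 (congrArg Subtype.val hmem)

variable (B' : S') (V' : Subring E) (q' : E) (ι : E →+* F) (B : S) (V : Subring F)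

/-- residue degree one + `V'` is a localization of `B'`: every `w ∈ V` which is congruent to an
element of `ι V'` is a quotient of two elements of `f B'` modulo `(ι q') V`. -/
theorem bi99_frac (hB'V' : ∀ x ∈ B', x ∈ V')
    (hloc' : ∀ v ∈ V', ∃ a ∈ B', ∃ a' ∈ B', q'⁻¹ * a' ∉ V' ∧ a' * v = a)
    (hVV' : ∀ x : E, ι x ∈ V ↔ x ∈ V')
    (f : B' →+* B) (hf : ∀ x : B', ((f x : B) : F) = ι (x : E))
    (q : F) (hq : ι q' = q) (p : Ideal B) (hp : ∀ x : B, x ∈ p ↔ q⁻¹ * (x : F) ∈ V)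
    (w : F) (hres : ∃ b ∈ V', q⁻¹ * (w - ι b) ∈ V) :
    ∃ a a' : B', f a' ∉ p ∧ q⁻¹ * (((f a' : B) : F) * w - ((f a : B) : F)) ∈ V := by
  subst hq
  obtain ⟨v, hv, hwv⟩ := hres
  obtain ⟨a, ha, a', ha', hna', hav⟩ := hloc' v hv
  refine ⟨⟨a, ha⟩, ⟨a', ha'⟩, ?_, ?_⟩
  · rw [hp, hf]
    intro h
    apply hna'
    have h3 : (ι q')⁻¹ * ι a' = ι (q'⁻¹ * a') := by rw [map_mul, map_inv₀]
    rw [h3, hVV'] at h
    exact h
  · rw [hf, hf]
    have h3 : (ι q')⁻¹ * (ι a' * w - ι a) = ι a' * ((ι q')⁻¹ * (w - ι v)) := by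
      rw [← hav, map_mul]; ring
    rw [h3]
    exact V.mul_mem ((hVV' a').mpr (hB'V' a' ha')) hwv

/-- **(3a), abstract.** The branch `B ⧸ p` of the chart `B` is the special fibre `B' ⧸ I` of
the chart `B'`: it is a Dedekind domain, and `B' → B ⧸ p` is onto. -/
theorem bi99_main (hB'V' : ∀ x ∈ B', x ∈ V')
    (I : Ideal B') (hI : ∀ x : B', x ∈ I ↔ q'⁻¹ * (x : E) ∈ V') [IsDedekindDomain (B' ⧸ I)]
    (hloc' : ∀ v ∈ V', ∃ a ∈ B', ∃ a' ∈ B', q'⁻¹ * a' ∉ V' ∧ a' * v = a)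
    (q : F) (hq : ι q' = q) (hBV : ∀ x ∈ B, x ∈ V) (hqV : q⁻¹ ∉ V)
    (hV : ∀ x ∈ V, q⁻¹ * x ∉ V → x⁻¹ ∈ V)
    (hVV' : ∀ x : E, ι x ∈ V ↔ x ∈ V')
    (f : B' →+* B) (hf : ∀ x : B', ((f x : B) : F) = ι (x : E)) (hint : f.IsIntegral)
    (hres : ∀ x ∈ B, ∃ b ∈ V', q⁻¹ * (x - ι b) ∈ V)
    (p : Ideal B) (hp : ∀ x : B, x ∈ p ↔ q⁻¹ * (x : F) ∈ V) :
    IsDedekindDomain (B ⧸ p) ∧ p.comap f = I ∧ ∀ b : B, ∃ a : B', b - f a ∈ p := by
  subst hq
  have hpprime : p.IsPrime := nc99_branch_prime B V (ι q') hBV hqV hV p hp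
  have hIprime : I.IsPrime := (Ideal.Quotient.isDomain_iff_prime I).mp inferInstance
  have hcomap : p.comap f = I := by
    ext x
    rw [Ideal.mem_comap, hp, hf, hI]
    have h3 : (ι q')⁻¹ * ι x = ι (q'⁻¹ * x) := by rw [map_mul, map_inv₀]
    rw [h3, hVV']
  have hfrac : ∀ b : B, ∃ a a' : B', a' ∉ I ∧ f a' * b - f a ∈ p := by
    intro b
    obtain ⟨a, a', ha', h⟩ := bi99_frac B' V' q' ι B V hB'V' hloc' hVV' f hf _ rfl p hp b
      (hres b b.2)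
    refine ⟨a, a', fun h' => ha' ?_, (hp _).mpr h⟩
    rw [← hcomap] at h'
    exact h'
  have hsurj : ∀ b : B, ∃ a : B', b - f a ∈ p :=
    na99_surj_of_integral f hint I p hcomap hfrac
  exact ⟨bi99_dedekind_of_surj f I p hcomap hsurj, hcomap, hsurj⟩

/-- **(3a), export.** At every prime `n ⊇ p` of `B` the branch `p` has a uniformizer coming from
the chart `B'`. -/
theorem bi99_smoothFrom (f : B' →+* B) (p : Ideal B) [hp' : p.IsPrime]
    [IsDedekindDomain (B ⧸ p)] (hsurj : ∀ b : B, ∃ a : B', b - f a ∈ p)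
    (n : Ideal B) [hn : n.IsPrime] (hpn : p ≤ n) : ∃ z' : B', nc99_IsUnif p n (f z') := by
  obtain ⟨z, hz⟩ := nc99_exists_unif p n hpn
  obtain ⟨a, ha⟩ := hsurj z
  exact ⟨a, nc99_unif_congr p n hpn z (f a) 1 hz (nc99_one_notMem n)
    (by rw [one_mul]; exact ha)⟩

omit [Field E] [SetLike S' E] [SubringClass S' E] in
/-- the uniformizer property in the elementwise shape of the (LS) assemblers. -/
theorem bi99_unif_literal (q : F) (p n : Ideal B) [hn : n.IsPrime] (hpn : p ≤ n)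
    (hp : ∀ x : B, x ∈ p ↔ q⁻¹ * (x : F) ∈ V) (z : B) (hz : nc99_IsUnif p n z) :
    z ∈ n ∧ ∀ x ∈ n, ∃ s : B, s ∉ n ∧ ∃ a : B, q⁻¹ * ((s * x - a * z : B) : F) ∈ V := by
  refine ⟨hz.1, fun x hx => ?_⟩
  obtain ⟨s, b, hs, hsb⟩ := nc99_unif_gen p n hpn z hz x hx
  exact ⟨s, hs, b, (hp _).mp hsb⟩

/-- the hypothesis `hins` of `nc99_frob`: surjectivity of `B' → B ⧸ p₁` + the Frobenius
congruence on the image of `B'`. -/
theorem bi99_ins (f : B' →+* B) (p₁ : Ideal B) (hsurj : ∀ b : B, ∃ a : B', b - f a ∈ p₁)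
    (V₂ : Subring F) (q : F) (a : ℕ)
    (hF0 : ∀ x : B', ∃ w ∈ V₂, q⁻¹ * (((f x : B) : F) - w ^ a) ∈ V₂) (x : B) :
    ∃ y : B, x - y ∈ p₁ ∧ ∃ w ∈ V₂, q⁻¹ * ((y : F) - w ^ a) ∈ V₂ := by
  obtain ⟨b, hb⟩ := hsurj x
  exact ⟨f b, hb, hF0 b⟩

omit [Field E] [SetLike S' E] [SubringClass S' E] in
/-- **Lifting a root modulo the branch**, pointwise form of `nc99_frob_lift`: only the given `w`
has to be a quotient of two elements of `B` modulo `q V`. -/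
theorem bi99_frob_lift (q : F) (hBV : ∀ x ∈ B, x ∈ V)
    (hV : ∀ x ∈ V, q⁻¹ * x ∉ V → x⁻¹ ∈ V) (p : Ideal B) [hp' : p.IsPrime]
    (hp : ∀ x : B, x ∈ p ↔ q⁻¹ * (x : F) ∈ V) [IsIntegrallyClosed (B ⧸ p)]
    (a : ℕ) (ha : 0 < a) (y : B) (w : F) (hw : w ∈ V)
    (hfrac : ∃ b b' : B, b' ∉ p ∧ q⁻¹ * ((b' : F) * w - (b : F)) ∈ V)
    (hyw : q⁻¹ * ((y : F) - w ^ a) ∈ V) :
    ∃ c : B, q⁻¹ * ((c : F) - w) ∈ V ∧ y - c ^ a ∈ p := by
  obtain ⟨b, b', hb', hbw⟩ := hfrac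
  have hb'V : (b' : F) ∈ V := hBV b' b'.2
  have hbV : (b : F) ∈ V := hBV b b.2
  have hb'inv : (b' : F)⁻¹ ∈ V := hV b' hb'V fun h => hb' ((hp b').mpr h)
  have hb'0 : (b' : F) ≠ 0 := by
    intro h0
    apply hb'
    have h1 : b' = 0 := Subtype.ext h0
    rw [h1]; exact p.zero_mem
  have h1 : q⁻¹ * (((b' : F) * w) ^ a - (b : F) ^ a) ∈ V :=
    nc99_pow_cong V q _ _ (V.mul_mem hb'V hw) hbV hbw a
  have h2 : b ^ a - y * b' ^ a ∈ p := by
    rw [hp]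
    have h3 : q⁻¹ * ((b ^ a - y * b' ^ a : B) : F)
        = -((b' : F) ^ a * (q⁻¹ * ((y : F) - w ^ a)))
          - q⁻¹ * (((b' : F) * w) ^ a - (b : F) ^ a) := by
      show q⁻¹ * ((b : F) ^ a - (y : F) * (b' : F) ^ a) = _
      ring
    rw [h3]
    exact V.sub_mem (V.neg_mem (V.mul_mem (V.pow_mem hb'V a) hyw)) h1
  have h4 : (Ideal.Quotient.mk p b) ^ a
      = Ideal.Quotient.mk p y * (Ideal.Quotient.mk p b') ^ a := by
    rw [← map_pow, ← map_pow, ← map_mul, ← sub_eq_zero, ← map_sub]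
    exact Ideal.Quotient.eq_zero_iff_mem.mpr h2
  have hb'q : Ideal.Quotient.mk p b' ≠ 0 := fun h => hb' (Ideal.Quotient.eq_zero_iff_mem.mp h)
  obtain ⟨c, hc⟩ := nc99_dvd_of_pow _ _ _ a ha hb'q h4
  obtain ⟨c, rfl⟩ := Ideal.Quotient.mk_surjective c
  have h5 : b - c * b' ∈ p := by
    apply Ideal.Quotient.eq_zero_iff_mem.mp
    rw [map_sub, map_mul, hc, sub_self]
  rw [hp] at h5
  have h5' : q⁻¹ * ((b : F) - (c : F) * (b' : F)) ∈ V := h5
  have hcw : q⁻¹ * ((c : F) - w) ∈ V := by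
    have h3 : q⁻¹ * ((c : F) - w)
        = (b' : F)⁻¹ * (-(q⁻¹ * ((b : F) - (c : F) * (b' : F)))
          - q⁻¹ * ((b' : F) * w - (b : F))) := by
      field_simp
      ring
    rw [h3]
    exact V.mul_mem hb'inv (V.sub_mem (V.neg_mem h5') hbw)
  refine ⟨c, hcw, ?_⟩
  rw [hp]
  have h6 : q⁻¹ * ((c : F) ^ a - w ^ a) ∈ V :=
    nc99_pow_cong V q _ _ (hBV c c.2) hw hcw a
  have h3 : q⁻¹ * ((y - c ^ a : B) : F)
      = q⁻¹ * ((y : F) - w ^ a) - q⁻¹ * ((c : F) ^ a - w ^ a) := by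
    show q⁻¹ * ((y : F) - (c : F) ^ a) = _
    ring
  rw [h3]
  exact V.sub_mem hyw h6

/-- **The Frobenius hypothesis `hFrob` of `nc99_node` / `nc99_chart_node`** from the two branch
structures `ι₁` (`= α^*`, first branch) and `ι₂` (`= β^*`, second branch) and the Frobenius
congruence (F0): every `ι₁ x`, `x ∈ V'`, is an `a`-th power of an element of `ι₂ V'` modulo
`q V₂`. -/
theorem bi99_hFrob (hB'V' : ∀ x ∈ B', x ∈ V')
    (hloc' : ∀ v ∈ V', ∃ a ∈ B', ∃ a' ∈ B', q'⁻¹ * a' ∉ V' ∧ a' * v = a)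
    (V₂ : Subring F) (q : F) (hB₂ : ∀ x ∈ B, x ∈ V₂)
    (hV₂ : ∀ x ∈ V₂, q⁻¹ * x ∉ V₂ → x⁻¹ ∈ V₂)
    (ι₁ ι₂ : E →+* F) (hq₂ : ι₂ q' = q) (hVV'₂ : ∀ x : E, ι₂ x ∈ V₂ ↔ x ∈ V')
    (f₁ f₂ : B' →+* B) (hf₁ : ∀ x : B', ((f₁ x : B) : F) = ι₁ (x : E))
    (hf₂ : ∀ x : B', ((f₂ x : B) : F) = ι₂ (x : E))
    (p₁ p₂ : Ideal B) [hp₂' : p₂.IsPrime] (hp₂ : ∀ x : B, x ∈ p₂ ↔ q⁻¹ * (x : F) ∈ V₂)
    [IsIntegrallyClosed (B ⧸ p₂)] (hsurj₁ : ∀ b : B, ∃ a : B', b - f₁ a ∈ p₁)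
    (a : ℕ) (ha : 0 < a)
    (hF0 : ∀ x ∈ V', ∃ x₁ ∈ V', q⁻¹ * (ι₁ x - (ι₂ x₁) ^ a) ∈ V₂) (x : B) :
    ∃ y c : B, x - y ∈ p₁ ∧ y - c ^ a ∈ p₂ := by
  obtain ⟨b, hb⟩ := hsurj₁ x
  obtain ⟨x₁, hx₁, h⟩ := hF0 b (hB'V' b b.2)
  have hw : ι₂ x₁ ∈ V₂ := (hVV'₂ x₁).mpr hx₁
  obtain ⟨a₀, a₀', hna, hfr⟩ := bi99_frac B' V' q' ι₂ B V₂ hB'V' hloc' hVV'₂ f₂ hf₂ q hq₂ p₂ hp₂
    (ι₂ x₁) ⟨x₁, hx₁, by rw [sub_self, mul_zero]; exact V₂.zero_mem⟩
  obtain ⟨c, -, hc⟩ := bi99_frob_lift B V₂ q hB₂ hV₂ p₂ hp₂ a ha (f₁ b) (ι₂ x₁) hw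
    ⟨f₂ a₀, f₂ a₀', hna, hfr⟩ (by rw [hf₁]; exact h)
  exact ⟨f₁ b, c, hb, hc⟩

omit [Field E] [SetLike S' E] [SubringClass S' E] in
/-- the branch ideal `{x ∈ B | q⁻¹ x ∈ V}` of a chart `B ⊆ V`. -/
def bi99_branch (q : F) (hBV : ∀ x ∈ B, x ∈ V) : Ideal B where
  carrier := {x | q⁻¹ * (x : F) ∈ V}
  add_mem' := fun {a b} ha hb => by
    show q⁻¹ * ((a : F) + (b : F)) ∈ V
    rw [mul_add]; exact V.add_mem ha hb
  zero_mem' := by
    show q⁻¹ * (0 : F) ∈ V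
    rw [mul_zero]; exact V.zero_mem
  smul_mem' := fun c x hx => by
    show q⁻¹ * ((c : F) * (x : F)) ∈ V
    rw [mul_left_comm]; exact V.mul_mem (hBV c c.2) hx

omit [Field E] [SetLike S' E] [SubringClass S' E] in
theorem bi99_mem_branch (q : F) (hBV : ∀ x ∈ B, x ∈ V) (x : B) :
    x ∈ bi99_branch B V q hBV ↔ q⁻¹ * (x : F) ∈ V := Iff.rfl

omit [Field E] [SetLike S' E] [SubringClass S' E] in
/-- **(Br)**: the one-branch datum of the (LS) assemblers at a prime `n` on the branch of `V`,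
from the Dedekind property of the branch. -/
theorem bi99_Br (q : F) (hBV : ∀ x ∈ B, x ∈ V) (hqV : q⁻¹ ∉ V)
    (hV : ∀ x ∈ V, q⁻¹ * x ∉ V → x⁻¹ ∈ V)
    [IsDedekindDomain (B ⧸ bi99_branch B V q hBV)] (n : Ideal B) [hn : n.IsPrime]
    (hOn : ∀ x : B, q⁻¹ * (x : F) ∈ V → x ∈ n) :
    ∃ t : B, t ∈ n ∧ ∀ x ∈ n, ∃ s : B, s ∉ n ∧ ∃ a : B,
      q⁻¹ * ((s : F) * (x : F) - (a : F) * (t : F)) ∈ V := by
  have hp' : (bi99_branch B V q hBV).IsPrime :=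
    nc99_branch_prime B V q hBV hqV hV _ (bi99_mem_branch B V q hBV)
  have hpn : bi99_branch B V q hBV ≤ n := fun x hx => hOn x hx
  obtain ⟨t, ht⟩ := nc99_exists_unif (bi99_branch B V q hBV) n hpn
  refine ⟨t, ht.1, fun x hx => ?_⟩
  obtain ⟨s, b, hs, hsb⟩ := nc99_unif_gen _ n hpn t ht x hx
  exact ⟨s, hs, b, hsb⟩

omit [Field E] [SetLike S' E] [SubringClass S' E] in
/-- **(Nd)**: the transversality datum of the (LS) assemblers at a node:
`n B_n = p₁ B_n + p₂ B_n`, elementwise, from a uniformizer `z ∈ p₂` of the first branch. -/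
theorem bi99_Nd (p₁ p₂ n : Ideal B) [hn : n.IsPrime] (h₁ : p₁ ≤ n) (z : B) (hz₂ : z ∈ p₂)
    (hz : nc99_IsUnif p₁ n z) (x : B) (hx : x ∈ n) :
    ∃ s : B, s ∉ n ∧ ∃ x1 x2 : B, x1 ∈ p₁ ∧ x2 ∈ p₂ ∧ s * x = x1 + x2 := by
  obtain ⟨s, b, hs, hsb⟩ := nc99_unif_gen p₁ n h₁ z hz x hx
  exact ⟨s, hs, s * x - b * z, b * z, hsb, p₂.mul_mem_left b hz₂, by ring⟩

end bi99_abs

end Fermat.Agent.S34
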