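import Mathlib
import Fermat.Agent.S34.BranchIso99
import Fermat.Agent.S34.Iface47d

/-!
# S34 lab, package P3 (helper99): `(LS′)` of the second route from the two branch structures

`(LS′) = s34i47d_LocStrW π B P₁ P₂` (Iface47d) needs from P3 only (3a) + (3b): no `U V = q ^ 12`,
no node loop, no cusp analysis.

* `blw99_locStrW` : `B ⊆ V₁ ⊓ V₂` saturated, the two branches `B ⧸ bi99_branch B Vᵢ π` Dedekind,
  and the Frobenius hypothesis `hFrob` at the nodes  ⟹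
  `s34i47d_LocStrW π B (bi99_branch B V₁ π) (bi99_branch B V₂ π)`.
  NO hypothesis `¬ P₁ ≤ P₂`, `¬ P₂ ≤ P₁`: if a branch ideal equals `n`, the point is a one-branch
  point of the other branch.
* `blw99_exists` : the per-chart conjunct of `s34i47d_FrameLSW`, literally
  (`∃ P₁ P₂, P₁.IsPrime ∧ P₂.IsPrime ∧ π ∈ P₁ ∧ π ∈ P₂ ∧ s34i47d_LocStrW π B P₁ P₂`).
* `blw99_of_base` : **master adapter for the second route**: the chart `B'` of the good level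
  (Dedekind special fibre, saturated in its Gauss ring, noetherian, fraction field `E`), the two
  branch structures `ι₁ = α^*`, `ι₂ = β^*` (`Vᵢ ∩ ιᵢ E = ιᵢ V'`, `B` integral over `ιᵢ B'`, residue
  degree one on `B`), the Frobenius congruence (F0) and saturation of `B` in `V₁ ⊓ V₂`
  ⟹ the per-chart conjunct of `s34i47d_FrameLSW`.

All names are prefixed `blw99_`.
-/

set_option autoImplicit false

namespace Fermat.Agent.S34

section blw99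

variable {R F : Type*} [CommRing R] [Field F] [Algebra R F]

/-- **(LS′) from Dedekind branches and the Frobenius hypothesis.** -/
theorem blw99_locStrW (π : R) (hπ0 : algebraMap R F π ≠ 0) (B : Subalgebra R F)
    (V₁ V₂ : Subring F) (hB₁ : ∀ x ∈ B, x ∈ V₁) (hB₂ : ∀ x ∈ B, x ∈ V₂)
    (hπ₁ : (algebraMap R F π)⁻¹ ∉ V₁) (hπ₂ : (algebraMap R F π)⁻¹ ∉ V₂)
    (hV₁ : ∀ x ∈ V₁, (algebraMap R F π)⁻¹ * x ∉ V₁ → x⁻¹ ∈ V₁)
    (hV₂ : ∀ x ∈ V₂, (algebraMap R F π)⁻¹ * x ∉ V₂ → x⁻¹ ∈ V₂)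
    (hsat : ∀ x ∈ B, (algebraMap R F π)⁻¹ * x ∈ V₁ → (algebraMap R F π)⁻¹ * x ∈ V₂ →
      (algebraMap R F π)⁻¹ * x ∈ B)
    [IsDedekindDomain (B ⧸ bi99_branch B V₁ (algebraMap R F π) hB₁)]
    [IsDedekindDomain (B ⧸ bi99_branch B V₂ (algebraMap R F π) hB₂)]
    (a : ℕ) (ha : 2 ≤ a)
    (hFrob : ∀ n : Ideal B, n.IsMaximal → algebraMap R B π ∈ n →
      bi99_branch B V₁ (algebraMap R F π) hB₁ ≤ n →
      bi99_branch B V₂ (algebraMap R F π) hB₂ ≤ n →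
      ∀ x ∈ n, ∃ y c : B, x - y ∈ bi99_branch B V₁ (algebraMap R F π) hB₁ ∧
        y - c ^ a ∈ bi99_branch B V₂ (algebraMap R F π) hB₂) :
    s34i47d_LocStrW π B (bi99_branch B V₁ (algebraMap R F π) hB₁)
      (bi99_branch B V₂ (algebraMap R F π) hB₂) := by
  classical
  have hp₁ : (bi99_branch B V₁ (algebraMap R F π) hB₁).IsPrime :=
    nc99_branch_prime B V₁ _ hB₁ hπ₁ hV₁ _ (bi99_mem_branch B V₁ _ hB₁)
  have hp₂ : (bi99_branch B V₂ (algebraMap R F π) hB₂).IsPrime :=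
    nc99_branch_prime B V₂ _ hB₂ hπ₂ hV₂ _ (bi99_mem_branch B V₂ _ hB₂)
  have hinf : bi99_branch B V₁ (algebraMap R F π) hB₁ ⊓ bi99_branch B V₂ (algebraMap R F π) hB₂
      = Ideal.span {algebraMap R B π} :=
    nc99_inf_eq_span B V₁ V₂ (algebraMap R F π) hπ0 (B.algebraMap_mem π) hB₁ hB₂ hsat _ _
      (bi99_mem_branch B V₁ _ hB₁) (bi99_mem_branch B V₂ _ hB₂)
  -- membership in the intersection gives a multiple of `π`
  have hcap : ∀ x : B, x ∈ bi99_branch B V₁ (algebraMap R F π) hB₁ →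
      x ∈ bi99_branch B V₂ (algebraMap R F π) hB₂ → ∃ c : B, x = c * algebraMap R B π := by
    intro x h1 h2
    have h3 : x ∈ bi99_branch B V₁ (algebraMap R F π) hB₁ ⊓
        bi99_branch B V₂ (algebraMap R F π) hB₂ := ⟨h1, h2⟩
    rw [hinf, Ideal.mem_span_singleton'] at h3
    obtain ⟨c, hc⟩ := h3
    exact ⟨c, hc.symm⟩
  intro n hn hπn
  have hnp : n.IsPrime := hn.isPrime
  -- a one-branch point of the first branch: a uniformizer `t` of `p₁` and `y ∈ p₂`, `y ∉ n`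
  have one₁ : bi99_branch B V₁ (algebraMap R F π) hB₁ ≤ n →
      (∃ y : B, y ∈ bi99_branch B V₂ (algebraMap R F π) hB₂ ∧ y ∉ n) →
      ∃ z z' : B, z ∈ n ∧ z' ∈ n ∧
        (∀ x ∈ n, ∃ s : B, s ∉ n ∧ ∃ a b c : B,
          s * x = a * z + b * z' + c * algebraMap R B π) ∧ z' = algebraMap R B π := by
    rintro hle ⟨y, hy₂, hyn⟩
    obtain ⟨t, ht⟩ := nc99_exists_unif (bi99_branch B V₁ (algebraMap R F π) hB₁) n hle
    refine ⟨t, algebraMap R B π, ht.1, hπn, fun x hx => ?_, rfl⟩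
    obtain ⟨s, b, hs, hsb⟩ := nc99_unif_gen _ n hle t ht x hx
    obtain ⟨c, hc⟩ := hcap (y * (s * x - b * t)) (Ideal.mul_mem_left _ y hsb)
      (Ideal.mul_mem_right _ _ hy₂)
    refine ⟨y * s, fun h => (hnp.mem_or_mem h).elim hyn hs, y * b, 0, c, ?_⟩
    linear_combination hc
  have one₂ : bi99_branch B V₂ (algebraMap R F π) hB₂ ≤ n →
      (∃ y : B, y ∈ bi99_branch B V₁ (algebraMap R F π) hB₁ ∧ y ∉ n) →
      ∃ z z' : B, z ∈ n ∧ z' ∈ n ∧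
        (∀ x ∈ n, ∃ s : B, s ∉ n ∧ ∃ a b c : B,
          s * x = a * z + b * z' + c * algebraMap R B π) ∧ z' = algebraMap R B π := by
    rintro hle ⟨y, hy₁, hyn⟩
    obtain ⟨t, ht⟩ := nc99_exists_unif (bi99_branch B V₂ (algebraMap R F π) hB₂) n hle
    refine ⟨t, algebraMap R B π, ht.1, hπn, fun x hx => ?_, rfl⟩
    obtain ⟨s, b, hs, hsb⟩ := nc99_unif_gen _ n hle t ht x hx
    obtain ⟨c, hc⟩ := hcap (y * (s * x - b * t)) (Ideal.mul_mem_right _ _ hy₁)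
      (Ideal.mul_mem_left _ y hsb)
    refine ⟨y * s, fun h => (hnp.mem_or_mem h).elim hyn hs, y * b, 0, c, ?_⟩
    linear_combination hc
  -- a point where one branch ideal contains the other one
  have deg₁ : bi99_branch B V₁ (algebraMap R F π) hB₁ ≤ n →
      bi99_branch B V₁ (algebraMap R F π) hB₁ ≤ bi99_branch B V₂ (algebraMap R F π) hB₂ →
      ∃ z z' : B, z ∈ n ∧ z' ∈ n ∧
        (∀ x ∈ n, ∃ s : B, s ∉ n ∧ ∃ a b c : B,
          s * x = a * z + b * z' + c * algebraMap R B π) ∧ z' = algebraMap R B π := by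
    intro hle h12
    obtain ⟨t, ht⟩ := nc99_exists_unif (bi99_branch B V₁ (algebraMap R F π) hB₁) n hle
    refine ⟨t, algebraMap R B π, ht.1, hπn, fun x hx => ?_, rfl⟩
    obtain ⟨s, b, hs, hsb⟩ := nc99_unif_gen _ n hle t ht x hx
    obtain ⟨c, hc⟩ := hcap (s * x - b * t) hsb (h12 hsb)
    refine ⟨s, hs, b, 0, c, ?_⟩
    linear_combination hc
  have deg₂ : bi99_branch B V₂ (algebraMap R F π) hB₂ ≤ n →
      bi99_branch B V₂ (algebraMap R F π) hB₂ ≤ bi99_branch B V₁ (algebraMap R F π) hB₁ →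
      ∃ z z' : B, z ∈ n ∧ z' ∈ n ∧
        (∀ x ∈ n, ∃ s : B, s ∉ n ∧ ∃ a b c : B,
          s * x = a * z + b * z' + c * algebraMap R B π) ∧ z' = algebraMap R B π := by
    intro hle h21
    obtain ⟨t, ht⟩ := nc99_exists_unif (bi99_branch B V₂ (algebraMap R F π) hB₂) n hle
    refine ⟨t, algebraMap R B π, ht.1, hπn, fun x hx => ?_, rfl⟩
    obtain ⟨s, b, hs, hsb⟩ := nc99_unif_gen _ n hle t ht x hx
    obtain ⟨c, hc⟩ := hcap (s * x - b * t) (h21 hsb) hsb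
    refine ⟨s, hs, b, 0, c, ?_⟩
    linear_combination hc
  -- every `n ∋ π` contains one of the two branch ideals
  have hπmem₁ : algebraMap R B π ∈ bi99_branch B V₁ (algebraMap R F π) hB₁ := by
    rw [bi99_mem_branch]
    show (algebraMap R F π)⁻¹ * algebraMap R F π ∈ V₁
    rw [inv_mul_cancel₀ hπ0]; exact V₁.one_mem
  have hπmem₂ : algebraMap R B π ∈ bi99_branch B V₂ (algebraMap R F π) hB₂ := by
    rw [bi99_mem_branch]
    show (algebraMap R F π)⁻¹ * algebraMap R F π ∈ V₂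
    rw [inv_mul_cancel₀ hπ0]; exact V₂.one_mem
  by_cases h1 : bi99_branch B V₁ (algebraMap R F π) hB₁ ≤ n
  · by_cases h2 : bi99_branch B V₂ (algebraMap R F π) hB₂ ≤ n
    · -- both branches pass through `n`
      by_cases e1 : bi99_branch B V₁ (algebraMap R F π) hB₁ = n
      · obtain ⟨z, z', hz, hz', hgen, hz'π⟩ := deg₂ h2 (by rw [e1]; exact h2)
        exact ⟨z, z', hz, hz', hgen, Or.inl hz'π⟩
      by_cases e2 : bi99_branch B V₂ (algebraMap R F π) hB₂ = n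
      · obtain ⟨z, z', hz, hz', hgen, hz'π⟩ := deg₁ h1 (by rw [e2]; exact h1)
        exact ⟨z, z', hz, hz', hgen, Or.inl hz'π⟩
      -- a node
      obtain ⟨z, z', hz₂, hz'₁, hz, hz'⟩ := nc99_node (bi99_branch B V₁ (algebraMap R F π) hB₁)
        (bi99_branch B V₂ (algebraMap R F π) hB₂) n h1 h2 a ha
        (fun x hx => hFrob n hn hπn h1 h2 x hx)
      have hgen := nc99_gen _ _ n h1 h2 (algebraMap R B π) hinf z z' hz hz'₁ hz'
      have hzn₁ : z ∉ bi99_branch B V₁ (algebraMap R F π) hB₁ :=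
        nc99_unif_notMem _ n h1 e1 z hz
      have hz'n₂ : z' ∉ bi99_branch B V₂ (algebraMap R F π) hB₂ :=
        nc99_unif_notMem _ n h2 e2 z' hz'
      obtain ⟨c, hc⟩ := hcap (z' * z) (Ideal.mul_mem_right _ _ hz'₁) (Ideal.mul_mem_left _ _ hz₂)
      refine ⟨z', z, hz'.1, hz.1, fun x hx => ?_, Or.inr ⟨h1, h2, hz'₁, hz'n₂, hz₂, hzn₁,
        c, by rw [hc]; ring⟩⟩
      obtain ⟨s, c', a', b', hs, h⟩ := hgen x hx
      exact ⟨s, hs, b', a', c', by rw [h]; ring⟩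
    · -- only the first branch
      have hy : ∃ y : B, y ∈ bi99_branch B V₂ (algebraMap R F π) hB₂ ∧ y ∉ n := by
        by_contra hcon
        exact h2 fun y hy => by
          by_contra hyn
          exact hcon ⟨y, hy, hyn⟩
      obtain ⟨z, z', hz, hz', hgen, hz'π⟩ := one₁ h1 hy
      exact ⟨z, z', hz, hz', hgen, Or.inl hz'π⟩
  · -- only the second branch
    have hy : ∃ y : B, y ∈ bi99_branch B V₁ (algebraMap R F π) hB₁ ∧ y ∉ n := by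
      by_contra hcon
      exact h1 fun y hy => by
        by_contra hyn
        exact hcon ⟨y, hy, hyn⟩
    obtain ⟨y, hy₁, hyn⟩ := hy
    have h2 : bi99_branch B V₂ (algebraMap R F π) hB₂ ≤ n := by
      intro x hx
      obtain ⟨c, hc⟩ := hcap (y * x) (Ideal.mul_mem_right _ _ hy₁) (Ideal.mul_mem_left _ _ hx)
      have h3 : y * x ∈ n := by rw [hc]; exact n.mul_mem_left c hπn
      exact (hnp.mem_or_mem h3).resolve_left hyn
    obtain ⟨z, z', hz, hz', hgen, hz'π⟩ := one₂ h2 ⟨y, hy₁, hyn⟩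
    exact ⟨z, z', hz, hz', hgen, Or.inl hz'π⟩

/-- the per-chart conjunct of `s34i47d_FrameLSW`, literally. -/
theorem blw99_exists (π : R) (hπ0 : algebraMap R F π ≠ 0) (B : Subalgebra R F)
    (V₁ V₂ : Subring F) (hB₁ : ∀ x ∈ B, x ∈ V₁) (hB₂ : ∀ x ∈ B, x ∈ V₂)
    (hπ₁ : (algebraMap R F π)⁻¹ ∉ V₁) (hπ₂ : (algebraMap R F π)⁻¹ ∉ V₂)
    (hV₁ : ∀ x ∈ V₁, (algebraMap R F π)⁻¹ * x ∉ V₁ → x⁻¹ ∈ V₁)
    (hV₂ : ∀ x ∈ V₂, (algebraMap R F π)⁻¹ * x ∉ V₂ → x⁻¹ ∈ V₂)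
    (hsat : ∀ x ∈ B, (algebraMap R F π)⁻¹ * x ∈ V₁ → (algebraMap R F π)⁻¹ * x ∈ V₂ →
      (algebraMap R F π)⁻¹ * x ∈ B)
    [IsDedekindDomain (B ⧸ bi99_branch B V₁ (algebraMap R F π) hB₁)]
    [IsDedekindDomain (B ⧸ bi99_branch B V₂ (algebraMap R F π) hB₂)]
    (a : ℕ) (ha : 2 ≤ a)
    (hFrob : ∀ n : Ideal B, n.IsMaximal → algebraMap R B π ∈ n →
      bi99_branch B V₁ (algebraMap R F π) hB₁ ≤ n →
      bi99_branch B V₂ (algebraMap R F π) hB₂ ≤ n →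
      ∀ x ∈ n, ∃ y c : B, x - y ∈ bi99_branch B V₁ (algebraMap R F π) hB₁ ∧
        y - c ^ a ∈ bi99_branch B V₂ (algebraMap R F π) hB₂) :
    ∃ P₁ P₂ : Ideal B, P₁.IsPrime ∧ P₂.IsPrime ∧ algebraMap R B π ∈ P₁ ∧
      algebraMap R B π ∈ P₂ ∧ s34i47d_LocStrW π B P₁ P₂ := by
  refine ⟨bi99_branch B V₁ (algebraMap R F π) hB₁, bi99_branch B V₂ (algebraMap R F π) hB₂,
    nc99_branch_prime B V₁ _ hB₁ hπ₁ hV₁ _ (bi99_mem_branch B V₁ _ hB₁),
    nc99_branch_prime B V₂ _ hB₂ hπ₂ hV₂ _ (bi99_mem_branch B V₂ _ hB₂), ?_, ?_,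
    blw99_locStrW π hπ0 B V₁ V₂ hB₁ hB₂ hπ₁ hπ₂ hV₁ hV₂ hsat a ha hFrob⟩
  · rw [bi99_mem_branch]
    show (algebraMap R F π)⁻¹ * algebraMap R F π ∈ V₁
    rw [inv_mul_cancel₀ hπ0]; exact V₁.one_mem
  · rw [bi99_mem_branch]
    show (algebraMap R F π)⁻¹ * algebraMap R F π ∈ V₂
    rw [inv_mul_cancel₀ hπ0]; exact V₂.one_mem

end blw99

section blw99_base

variable {R E F : Type*} [CommRing R] [Field E] [Field F] [Algebra R E] [Algebra R F]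

/-- the special fibre ideal `π B'` is the branch ideal of the Gauss ring (saturation). -/
theorem blw99_span_iff (π : R) (B' : Subalgebra R E) (V' : Subring E)
    (hπ0 : algebraMap R E π ≠ 0) (hB'V' : ∀ x ∈ B', x ∈ V')
    (hsat' : ∀ x ∈ B', (algebraMap R E π)⁻¹ * x ∈ V' → (algebraMap R E π)⁻¹ * x ∈ B')
    (x : B') : x ∈ Ideal.span {algebraMap R B' π} ↔ (algebraMap R E π)⁻¹ * (x : E) ∈ V' := by
  rw [Ideal.mem_span_singleton']
  constructor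
  · rintro ⟨c, rfl⟩
    have h3 : (algebraMap R E π)⁻¹ * ((c * algebraMap R B' π : B') : E) = c := by
      show (algebraMap R E π)⁻¹ * ((c : E) * algebraMap R E π) = c
      field_simp
    rw [h3]; exact hB'V' c c.2
  · intro h
    refine ⟨⟨_, hsat' x x.2 h⟩, ?_⟩
    apply Subtype.ext
    show (algebraMap R E π)⁻¹ * (x : E) * algebraMap R E π = x
    field_simp

/-- **Master adapter, second route: (LS′) from the chart of the good level and the two branch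
structures.** -/
theorem blw99_of_base (π : R)
    -- the chart of the good level
    (B' : Subalgebra R E) [IsNoetherianRing B'] (V' : Subring E)
    (hπ0 : algebraMap R E π ≠ 0) (hB'V' : ∀ x ∈ B', x ∈ V')
    (hπV' : (algebraMap R E π)⁻¹ ∉ V')
    (hsat' : ∀ x ∈ B', (algebraMap R E π)⁻¹ * x ∈ V' → (algebraMap R E π)⁻¹ * x ∈ B')
    (hfrac' : ∀ x : E, ∃ a ∈ B', ∃ b ∈ B', b ≠ 0 ∧ x * b = a)
    [IsDedekindDomain (B' ⧸ Ideal.span {algebraMap R B' π})]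
    -- the chart of the bad level and its two valuation rings
    (B : Subalgebra R F) (V₁ V₂ : Subring F)
    (hB₁ : ∀ x ∈ B, x ∈ V₁) (hB₂ : ∀ x ∈ B, x ∈ V₂)
    (hπ₁ : (algebraMap R F π)⁻¹ ∉ V₁) (hπ₂ : (algebraMap R F π)⁻¹ ∉ V₂)
    (hV₁ : ∀ x ∈ V₁, (algebraMap R F π)⁻¹ * x ∉ V₁ → x⁻¹ ∈ V₁)
    (hV₂ : ∀ x ∈ V₂, (algebraMap R F π)⁻¹ * x ∉ V₂ → x⁻¹ ∈ V₂)
    (hsat : ∀ x ∈ B, (algebraMap R F π)⁻¹ * x ∈ V₁ → (algebraMap R F π)⁻¹ * x ∈ V₂ →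
      (algebraMap R F π)⁻¹ * x ∈ B)
    -- the first branch structure (`α^*`)
    (ι₁ : E →ₐ[R] F) (hVV'₁ : ∀ x : E, ι₁ x ∈ V₁ ↔ x ∈ V')
    (f₁ : B' →+* B) (hf₁ : ∀ x : B', ((f₁ x : B) : F) = ι₁ (x : E)) (hint₁ : f₁.IsIntegral)
    (hres₁ : ∀ x ∈ B, ∃ b ∈ V', (algebraMap R F π)⁻¹ * (x - ι₁ b) ∈ V₁)
    -- the second branch structure (`β^*`)
    (ι₂ : E →ₐ[R] F) (hVV'₂ : ∀ x : E, ι₂ x ∈ V₂ ↔ x ∈ V')
    (f₂ : B' →+* B) (hf₂ : ∀ x : B', ((f₂ x : B) : F) = ι₂ (x : E)) (hint₂ : f₂.IsIntegral)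
    (hres₂ : ∀ x ∈ B, ∃ b ∈ V', (algebraMap R F π)⁻¹ * (x - ι₂ b) ∈ V₂)
    -- the Frobenius congruence (F0)
    (a : ℕ) (ha : 2 ≤ a)
    (hF0 : ∀ x ∈ V', ∃ x₁ ∈ V', (algebraMap R F π)⁻¹ * (ι₁ x - (ι₂ x₁) ^ a) ∈ V₂) :
    ∃ P₁ P₂ : Ideal B, P₁.IsPrime ∧ P₂.IsPrime ∧ algebraMap R B π ∈ P₁ ∧
      algebraMap R B π ∈ P₂ ∧ s34i47d_LocStrW π B P₁ P₂ := by
  have hπF0 : algebraMap R F π ≠ 0 := by
    rw [← ι₁.commutes π]
    exact (map_ne_zero_iff _ ι₁.toRingHom.injective).mpr hπ0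
  have hI := blw99_span_iff π B' V' hπ0 hB'V' hsat'
  have hloc' := bi99_loc B' V' (algebraMap R E π) hπ0 hB'V' hsat' hfrac'
    (bi99_harch B' V' (algebraMap R E π) hπ0 (B'.algebraMap_mem π) hB'V' hπV' hsat')
  obtain ⟨hD₁, -, hsurj₁⟩ := bi99_main B' V' (algebraMap R E π) (ι₁ : E →+* F) B V₁ hB'V'
    (Ideal.span {algebraMap R B' π}) hI hloc' (algebraMap R F π) (ι₁.commutes π) hB₁ hπ₁ hV₁
    hVV'₁ f₁ hf₁ hint₁ hres₁ (bi99_branch B V₁ (algebraMap R F π) hB₁)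
    (bi99_mem_branch B V₁ _ hB₁)
  obtain ⟨hD₂, -, -⟩ := bi99_main B' V' (algebraMap R E π) (ι₂ : E →+* F) B V₂ hB'V'
    (Ideal.span {algebraMap R B' π}) hI hloc' (algebraMap R F π) (ι₂.commutes π) hB₂ hπ₂ hV₂
    hVV'₂ f₂ hf₂ hint₂ hres₂ (bi99_branch B V₂ (algebraMap R F π) hB₂)
    (bi99_mem_branch B V₂ _ hB₂)
  have hp₂ : (bi99_branch B V₂ (algebraMap R F π) hB₂).IsPrime :=
    nc99_branch_prime B V₂ _ hB₂ hπ₂ hV₂ _ (bi99_mem_branch B V₂ _ hB₂)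
  refine blw99_exists π hπF0 B V₁ V₂ hB₁ hB₂ hπ₁ hπ₂ hV₁ hV₂ hsat a ha ?_
  intro n _ _ _ _ x _
  exact bi99_hFrob B' V' (algebraMap R E π) B hB'V' hloc' V₂ (algebraMap R F π) hB₂ hV₂
    (ι₁ : E →+* F) (ι₂ : E →+* F) (ι₂.commutes π) hVV'₂ f₁ f₂ hf₁ hf₂
    (bi99_branch B V₁ (algebraMap R F π) hB₁) (bi99_branch B V₂ (algebraMap R F π) hB₂)
    (bi99_mem_branch B V₂ _ hB₂) hsurj₁ a (by omega) hF0 x

end blw99_base

end Fermat.Agent.S34
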