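import Mathlib
import Fermat.Agent.S34.NodeLemma71

/-!
# S34 lab, package P4 (helper71): the node lemma for a Noetherian local ring

`NodeLemma71.lean` proves the node lemma `nl71_main` for a subring `A` of a field, in an
elementwise vocabulary.  Here it is restated for a Noetherian local ring `A` (a type) with an
injective map to a field `F` — the vocabulary of `NodeAbs99`, `PointsAbs91`, `NodePoint58`:

* `nl71_unit_pow`  : Krull intersection on a branch: if `𝔪 = (z) + P`, then every `U ∉ P` is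
  `unit * z ^ μ` modulo `P`  (this discharges the hypothesis `hUμ` of `nl71_main`);
* `nl71_local`     : the node lemma, `V₁ V₂ : Subring F` with the elementary hypotheses;
* `nl71_local_val` : the same for `V₁ V₂ : ValuationSubring F` with uniformizer `π`
  (`hm_i : ∀ x ∈ V_i.nonunits, π⁻¹ * x ∈ V_i`, memberships in terms of `nonunits`).

Conclusion: `z₁ * z₁' = π ^ κ * ε`, `ε` a unit, `1 ≤ κ ≤ e`, `π ∣ z₁ - z`, `π ∣ z₁' - z'`,
and still `𝔪 = (π, z₁, z₁')`.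

All names are prefixed `nl71_`.
-/

set_option autoImplicit false

namespace Fermat.Agent.S34

open IsLocalRing

section krull

variable {A : Type*} [CommRing A] [IsLocalRing A] [IsNoetherianRing A]

/-- **Krull intersection on a branch.**  If the maximal ideal of the Noetherian local ring `A`
is `(z) + P`, then every `U ∉ P` is `ε * z ^ μ` modulo `P` with `ε` a unit. -/
theorem nl71_unit_pow (P : Ideal A) (z : A) (hz : z ∈ maximalIdeal A)
    (hm : maximalIdeal A ≤ Ideal.span {z} ⊔ P) (U : A) (hU : U ∉ P) :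
    ∃ (μ : ℕ) (ε : A), IsUnit ε ∧ U - ε * z ^ μ ∈ P := by
  classical
  -- some power of `z` does not divide `U` modulo `P`
  have hex : ∃ i : ℕ, U ∉ Ideal.span {z ^ i} ⊔ P := by
    by_contra hall
    simp only [not_exists, not_not] at hall
    apply hU
    have hkrull := Ideal.iInf_pow_smul_eq_bot_of_isLocalRing (M := A ⧸ P) (maximalIdeal A)
      (Ideal.IsPrime.ne_top inferInstance)
    have hmem : (Ideal.Quotient.mk P U : A ⧸ P) ∈
        (⨅ i : ℕ, maximalIdeal A ^ i • ⊤ : Submodule A (A ⧸ P)) := by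
      rw [Submodule.mem_iInf]
      intro i
      obtain ⟨x, hx, p, hp, hxp⟩ := Submodule.mem_sup.mp (hall i)
      obtain ⟨a, rfl⟩ := Ideal.mem_span_singleton'.mp hx
      have h1 : (Ideal.Quotient.mk P U : A ⧸ P) = (a * z ^ i) • (Ideal.Quotient.mk P 1) := by
        rw [← hxp, map_add, (Ideal.Quotient.eq_zero_iff_mem).mpr hp, add_zero]
        rw [Algebra.smul_def, Ideal.Quotient.algebraMap_eq, map_one, mul_one]
      rw [h1]
      exact Submodule.smul_mem_smul (Ideal.mul_mem_left _ _ (Ideal.pow_mem_pow hz i))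
        Submodule.mem_top
    rw [hkrull, Submodule.mem_bot] at hmem
    exact Ideal.Quotient.eq_zero_iff_mem.mp hmem
  have hfind := Nat.find_spec hex
  have hmin := fun k (hk : k < Nat.find hex) => Nat.find_min hex hk
  obtain ⟨μ, hμ⟩ : ∃ μ, Nat.find hex = μ + 1 := by
    rcases Nat.exists_eq_succ_of_ne_zero (n := Nat.find hex) (by
      intro h0
      rw [h0, pow_zero] at hfind
      apply hfind
      rw [Ideal.span_singleton_one]
      exact Submodule.mem_sup_left Submodule.mem_top) with ⟨μ, hμ⟩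
    exact ⟨μ, hμ⟩
  have hμmem : U ∈ Ideal.span {z ^ μ} ⊔ P := by
    by_contra h
    exact hmin μ (by omega) h
  obtain ⟨x, hx, p, hp, hxp⟩ := Submodule.mem_sup.mp hμmem
  obtain ⟨a, rfl⟩ := Ideal.mem_span_singleton'.mp hx
  refine ⟨μ, a, ?_, ?_⟩
  · -- `a` is a unit: otherwise `U ∈ (z ^ (μ + 1)) + P`
    by_contra ha
    have ha' : a ∈ maximalIdeal A := (mem_maximalIdeal a).mpr ha
    obtain ⟨y, hy, p', hp', hyp⟩ := Submodule.mem_sup.mp (hm ha')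
    obtain ⟨b, rfl⟩ := Ideal.mem_span_singleton'.mp hy
    apply hfind
    rw [hμ]
    refine Submodule.mem_sup.mpr ⟨b * z ^ (μ + 1), Ideal.mem_span_singleton'.mpr ⟨b, rfl⟩,
      p' * z ^ μ + p, P.add_mem (P.mul_mem_right _ hp') hp, ?_⟩
    rw [← hxp, ← hyp]
    ring
  · have : U - a * z ^ μ = p := by rw [← hxp]; ring
    rw [this]; exact hp

end krull

section local_form

variable {A F : Type*} [CommRing A] [IsLocalRing A] [IsNoetherianRing A] [Field F] [Algebra A F]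

omit [IsNoetherianRing A] in
/-- At a node the coordinate `z'` of the first branch is a unit on the second branch: this
follows from `U V = π ^ e * w`, `U ∉ π V₁`, `V ∉ π V₂` (the function `V` lies in the maximal
ideal but not in `π V₂`). -/
theorem nl71_local_notMem (V₁ V₂ : Subring F)
    (hA₁ : ∀ a : A, algebraMap A F a ∈ V₁) (hA₂ : ∀ a : A, algebraMap A F a ∈ V₂)
    (π : A) (hπ₁ : (algebraMap A F π)⁻¹ ∉ V₁)
    (hV₁ : ∀ x ∈ V₁, (algebraMap A F π)⁻¹ * x ∉ V₁ → x⁻¹ ∈ V₁)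
    (z z' : A) (hm : maximalIdeal A = Ideal.span {π, z, z'})
    (hz₂ : (algebraMap A F π)⁻¹ * algebraMap A F z ∈ V₂)
    (U V w : A) (e : ℕ) (he : 1 ≤ e) (hUV : U * V = π ^ e * w)
    (hU₁ : (algebraMap A F π)⁻¹ * algebraMap A F U ∉ V₁)
    (hV₂' : (algebraMap A F π)⁻¹ * algebraMap A F V ∉ V₂) :
    (algebraMap A F π)⁻¹ * algebraMap A F z' ∉ V₂ := by
  intro hz'₂
  set φ : A →+* F := algebraMap A F with hφ
  set q : F := φ π with hq
  have hq0 : q ≠ 0 := by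
    intro h0
    apply hπ₁
    rw [h0, inv_zero]
    exact V₁.zero_mem
  have hU0 : φ U ≠ 0 := by
    intro h0
    apply hU₁
    rw [h0, mul_zero]
    exact V₁.zero_mem
  have hUinv : (φ U)⁻¹ ∈ V₁ := hV₁ _ (hA₁ U) hU₁
  -- `V ∈ π V₁`
  have hV₁' : q⁻¹ * φ V ∈ V₁ := by
    obtain ⟨e', rfl⟩ : ∃ e', e = e' + 1 := ⟨e - 1, by omega⟩
    have h1 : φ U * φ V = q ^ (e' + 1) * φ w := by
      rw [← map_mul, hUV, map_mul, map_pow]
    have h2 : q⁻¹ * φ V = q ^ e' * φ w * (φ U)⁻¹ := by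
      have h3 : φ V = q ^ (e' + 1) * φ w * (φ U)⁻¹ := by
        rw [← h1]; field_simp
      rw [h3]; field_simp; ring
    rw [h2]
    exact V₁.mul_mem (V₁.mul_mem (V₁.pow_mem (hA₁ π) _) (hA₁ w)) hUinv
  -- hence `V` is not a unit of `A`
  have hVm : V ∈ maximalIdeal A := by
    rw [mem_maximalIdeal, mem_nonunits_iff]
    intro hu
    obtain ⟨d, hd⟩ := hu.exists_right_inv
    apply hπ₁
    have : q⁻¹ = q⁻¹ * φ V * φ d := by
      rw [mul_assoc, ← map_mul, hd, map_one, mul_one]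
    show q⁻¹ ∈ V₁
    rw [this]; exact V₁.mul_mem hV₁' (hA₁ d)
  rw [hm] at hVm
  obtain ⟨c, y, hy, hVe⟩ := Ideal.mem_span_insert.mp hVm
  obtain ⟨a, b, rfl⟩ := Ideal.mem_span_pair.mp hy
  apply hV₂'
  have : q⁻¹ * φ V = φ c + φ a * (q⁻¹ * φ z) + φ b * (q⁻¹ * φ z') := by
    rw [hVe]
    simp only [map_add, map_mul]
    field_simp
    rw [hq]; ring
  show q⁻¹ * φ V ∈ V₂
  rw [this]
  exact V₂.add_mem (V₂.add_mem (hA₂ c) (V₂.mul_mem (hA₂ a) hz₂)) (V₂.mul_mem (hA₂ b) hz'₂)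

/-- **P4, the node lemma for a Noetherian local ring** (`V₁ V₂` subrings of `F` with the
elementary hypotheses of `nl71_main`).

`A` Noetherian local with `𝔪 = (π, z, z')`, embedded in the field `F`; `V₁ V₂ ⊇ A` with
`π⁻¹ ∉ V_i` and `x ∈ V_i`, `π⁻¹ x ∉ V_i ⇒ x⁻¹ ∈ V_i`; `A` saturated in `V₁ ⊓ V₂`;
`z ∈ π V₂`, `z' ∈ π V₁`; `U V = π ^ e * w` (`w` a unit of `A`, `1 ≤ e`),
`U ∉ π V₁`, `V ∉ π V₂`.  Then there are `z₁ ≡ z`, `z₁' ≡ z'` modulo `π A` with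
`z₁ * z₁' = π ^ κ * ε`, `ε` a unit, `1 ≤ κ ≤ e`; and `𝔪 = (π, z₁, z₁')`. -/
theorem nl71_local (hinj : Function.Injective (algebraMap A F))
    (V₁ V₂ : Subring F)
    (hA₁ : ∀ a : A, algebraMap A F a ∈ V₁) (hA₂ : ∀ a : A, algebraMap A F a ∈ V₂)
    (π : A)
    (hπ₁ : (algebraMap A F π)⁻¹ ∉ V₁) (hπ₂ : (algebraMap A F π)⁻¹ ∉ V₂)
    (hV₁ : ∀ x ∈ V₁, (algebraMap A F π)⁻¹ * x ∉ V₁ → x⁻¹ ∈ V₁)
    (hV₂ : ∀ x ∈ V₂, (algebraMap A F π)⁻¹ * x ∉ V₂ → x⁻¹ ∈ V₂)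
    (hsat : ∀ a : A, (algebraMap A F π)⁻¹ * algebraMap A F a ∈ V₁ →
      (algebraMap A F π)⁻¹ * algebraMap A F a ∈ V₂ → π ∣ a)
    (z z' : A) (hm : maximalIdeal A = Ideal.span {π, z, z'})
    (hz₂ : (algebraMap A F π)⁻¹ * algebraMap A F z ∈ V₂)
    (hz'₁ : (algebraMap A F π)⁻¹ * algebraMap A F z' ∈ V₁)
    (U V w : A) (hw : IsUnit w) (e : ℕ) (he : 1 ≤ e) (hUV : U * V = π ^ e * w)
    (hU₁ : (algebraMap A F π)⁻¹ * algebraMap A F U ∉ V₁)
    (hV₂' : (algebraMap A F π)⁻¹ * algebraMap A F V ∉ V₂) :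
    ∃ (κ : ℕ) (z₁ z₁' ε : A), 1 ≤ κ ∧ κ ≤ e ∧ IsUnit ε ∧ z₁ * z₁' = π ^ κ * ε ∧
      π ∣ z₁ - z ∧ π ∣ z₁' - z' ∧ maximalIdeal A = Ideal.span {π, z₁, z₁'} := by
  classical
  have hz'₂ : (algebraMap A F π)⁻¹ * algebraMap A F z' ∉ V₂ :=
    nl71_local_notMem V₁ V₂ hA₁ hA₂ π hπ₁ hV₁ z z' hm hz₂ U V w e he hUV hU₁ hV₂'
  set φ : A →+* F := algebraMap A F with hφ
  set q : F := φ π with hq
  have hq0 : q ≠ 0 := by
    intro h0
    apply hπ₁
    rw [h0, inv_zero]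
    exact V₁.zero_mem
  have hπm : π ∈ maximalIdeal A := by rw [hm]; exact Ideal.subset_span (by simp)
  have hzm : z ∈ maximalIdeal A := by rw [hm]; exact Ideal.subset_span (by simp)
  have hz'm : z' ∈ maximalIdeal A := by rw [hm]; exact Ideal.subset_span (by simp)
  -- the first branch ideal
  let P : Ideal A :=
    { carrier := {a | q⁻¹ * φ a ∈ V₁}
      add_mem' := by
        intro a b ha hb
        show q⁻¹ * φ (a + b) ∈ V₁
        rw [map_add, mul_add]; exact V₁.add_mem ha hb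
      zero_mem' := by
        show q⁻¹ * φ 0 ∈ V₁
        rw [map_zero, mul_zero]; exact V₁.zero_mem
      smul_mem' := by
        intro c a ha
        show q⁻¹ * φ (c • a) ∈ V₁
        rw [smul_eq_mul, map_mul]
        have : q⁻¹ * (φ c * φ a) = φ c * (q⁻¹ * φ a) := by ring
        rw [this]; exact V₁.mul_mem (hA₁ c) ha }
  have hPmem : ∀ a : A, a ∈ P ↔ q⁻¹ * φ a ∈ V₁ := fun a => Iff.rfl
  have hπP : π ∈ P := by
    rw [hPmem]
    have : q⁻¹ * φ π = 1 := inv_mul_cancel₀ hq0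
    rw [this]; exact V₁.one_mem
  have hz'P : z' ∈ P := hz'₁
  have hmP : maximalIdeal A ≤ Ideal.span {z} ⊔ P := by
    rw [hm, Ideal.span_le]
    intro x hx
    simp only [Set.mem_insert_iff, Set.mem_singleton_iff] at hx
    rcases hx with rfl | rfl | rfl
    · exact Submodule.mem_sup_right hπP
    · exact Submodule.mem_sup_left (Ideal.subset_span rfl)
    · exact Submodule.mem_sup_right hz'P
  obtain ⟨μ, ε, hε, hUε⟩ := nl71_unit_pow P z hzm hmP U hU₁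
  obtain ⟨δ, hεδ⟩ := hε.exists_right_inv
  obtain ⟨w', hww'⟩ := hw.exists_right_inv
  -- the image of `A` in `F`
  set A' : Subring F := φ.range with hA'
  have hmemA' : ∀ a : A, φ a ∈ A' := fun a => ⟨a, rfl⟩
  have hloc : ∀ c ∈ A', (∃ d ∈ A', c * d = 1) ∨
      ∃ c' ∈ A', ∃ a ∈ A', ∃ b ∈ A', c = q * c' + a * φ z + b * φ z' := by
    rintro _ ⟨c, rfl⟩
    by_cases hc : IsUnit c
    · obtain ⟨d, hd⟩ := hc.exists_right_inv
      exact Or.inl ⟨φ d, hmemA' d, by rw [← map_mul, hd, map_one]⟩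
    · right
      have hc' : c ∈ maximalIdeal A := (mem_maximalIdeal c).mpr hc
      rw [hm] at hc'
      obtain ⟨c', y, hy, rfl⟩ := Ideal.mem_span_insert.mp hc'
      obtain ⟨a, b, rfl⟩ := Ideal.mem_span_pair.mp hy
      refine ⟨φ c', hmemA' c', φ a, hmemA' a, φ b, hmemA' b, ?_⟩
      simp only [map_add, map_mul, hq]
      ring
  have hprop : ∀ c' ∈ A', ∀ a ∈ A', ∀ b ∈ A', q * c' + a * φ z + b * φ z' ≠ 1 := by
    rintro _ ⟨c', rfl⟩ _ ⟨a, rfl⟩ _ ⟨b, rfl⟩ h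
    have h1 : φ (π * c' + a * z + b * z') = φ 1 := by
      simp only [map_add, map_mul, map_one]
      exact h
    have h2 : π * c' + a * z + b * z' = 1 := hinj h1
    have h3 : π * c' + a * z + b * z' ∈ maximalIdeal A :=
      Ideal.add_mem _ (Ideal.add_mem _ (Ideal.mul_mem_right _ _ hπm)
        (Ideal.mul_mem_left _ _ hzm)) (Ideal.mul_mem_left _ _ hz'm)
    rw [h2] at h3
    exact (Ideal.ne_top_iff_one _).mp (Ideal.IsPrime.ne_top inferInstance) h3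
  have hsat' : ∀ x ∈ A', q⁻¹ * x ∈ V₁ → q⁻¹ * x ∈ V₂ → q⁻¹ * x ∈ A' := by
    rintro _ ⟨a, rfl⟩ h1 h2
    obtain ⟨b, rfl⟩ := hsat a h1 h2
    refine ⟨b, ?_⟩
    rw [map_mul]
    show φ b = (φ π)⁻¹ * (φ π * φ b)
    rw [← mul_assoc, inv_mul_cancel₀ hq0, one_mul]
  have hUV' : φ U * φ (V * w') = q ^ e := by
    rw [← map_mul, ← mul_assoc, hUV, mul_assoc, hww', mul_one, map_pow]
  have hV₂'' : q⁻¹ * φ (V * w') ∉ V₂ := by
    intro h
    apply hV₂'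
    have hV : V = V * w' * w := by rw [mul_assoc, mul_comm w' w, hww', mul_one]
    have : q⁻¹ * φ V = q⁻¹ * φ (V * w') * φ w := by
      rw [mul_assoc, ← map_mul, ← hV]
    show q⁻¹ * φ V ∈ V₂
    rw [this]; exact V₂.mul_mem h (hA₂ w)
  have hUμ : ∃ (μ : ℕ) (ε δ : F), ε ∈ A' ∧ δ ∈ A' ∧ ε * δ = 1 ∧
      q⁻¹ * (φ U - ε * φ z ^ μ) ∈ V₁ := by
    refine ⟨μ, φ ε, φ δ, hmemA' ε, hmemA' δ, by rw [← map_mul, hεδ, map_one], ?_⟩
    have : φ U - φ ε * φ z ^ μ = φ (U - ε * z ^ μ) := by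
      simp only [map_sub, map_mul, map_pow]
    rw [this]
    exact hUε
  obtain ⟨κ, _, _, _, _, hκ1, hκe, ⟨z₁, rfl⟩, ⟨z₁', rfl⟩, ⟨c, rfl⟩, ⟨d, rfl⟩, hcd, hprod,
      ⟨t, ht⟩, ⟨t', ht'⟩⟩ :=
    nl71_main A' V₁ V₂ q hq0 (hmemA' π)
      (by rintro _ ⟨a, rfl⟩; exact hA₁ a) (by rintro _ ⟨a, rfl⟩; exact hA₂ a)
      hπ₁ hπ₂ hV₁ hV₂ hsat' (φ z) (φ z') (hmemA' z) (hmemA' z') hz₂ hz'₁ hz'₂ hloc hprop
      (φ U) (φ (V * w')) (hmemA' U) (hmemA' _) e he hUV' hU₁ hV₂'' hUμ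
  have hcd' : c * d = 1 := hinj (by rw [map_mul, hcd, map_one])
  have hprod' : z₁ * z₁' = π ^ κ * c := hinj (by rw [map_mul, hprod, map_mul, map_pow])
  have hz₁ : z₁ - z = π * t := by
    apply hinj
    rw [map_mul, ht, map_sub]
    show φ z₁ - φ z = q * (q⁻¹ * (φ z₁ - φ z))
    rw [← mul_assoc, mul_inv_cancel₀ hq0, one_mul]
  have hz₁' : z₁' - z' = π * t' := by
    apply hinj
    rw [map_mul, ht', map_sub]
    show φ z₁' - φ z' = q * (q⁻¹ * (φ z₁' - φ z'))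
    rw [← mul_assoc, mul_inv_cancel₀ hq0, one_mul]
  refine ⟨κ, z₁, z₁', c, hκ1, hκe, IsUnit.of_mul_eq_one _ hcd', hprod', ⟨t, hz₁⟩, ⟨t', hz₁'⟩, ?_⟩
  rw [hm]
  have e1 : z₁ = z + π * t := by rw [← hz₁]; ring
  have e1' : z₁' = z' + π * t' := by rw [← hz₁']; ring
  apply le_antisymm
  · rw [Ideal.span_le]
    intro x hx
    simp only [Set.mem_insert_iff, Set.mem_singleton_iff] at hx
    rcases hx with rfl | rfl | rfl
    · exact Ideal.subset_span (by simp)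
    · have : x = z₁ - t * π := by rw [e1]; ring
      rw [this]
      exact Ideal.sub_mem _ (Ideal.subset_span (by simp))
        (Ideal.mul_mem_left _ _ (Ideal.subset_span (by simp)))
    · have : x = z₁' - t' * π := by rw [e1']; ring
      rw [this]
      exact Ideal.sub_mem _ (Ideal.subset_span (by simp))
        (Ideal.mul_mem_left _ _ (Ideal.subset_span (by simp)))
  · rw [Ideal.span_le]
    intro x hx
    simp only [Set.mem_insert_iff, Set.mem_singleton_iff] at hx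
    rcases hx with rfl | rfl | rfl
    · exact Ideal.subset_span (by simp)
    · rw [e1]
      exact Ideal.add_mem _ (Ideal.subset_span (by simp))
        (Ideal.mul_mem_right _ _ (Ideal.subset_span (by simp)))
    · rw [e1']
      exact Ideal.add_mem _ (Ideal.subset_span (by simp))
        (Ideal.mul_mem_right _ _ (Ideal.subset_span (by simp)))

end local_form

section val_form

variable {F : Type*} [Field F]

/-- A valuation subring with uniformizer `p` (`p ∈ 𝔪_V`, `𝔪_V ⊆ p V`): `p⁻¹ ∉ V`. -/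
theorem nl71_val_inv_notMem (V : ValuationSubring F) (p : F) (hp0 : p ≠ 0)
    (hp : p ∈ V.nonunits) : p⁻¹ ∉ V := by
  intro h
  rw [ValuationSubring.mem_nonunits_iff] at hp
  rw [← ValuationSubring.valuation_le_one_iff, map_inv₀] at h
  have hpos : 0 < V.valuation p := by
    rw [zero_lt_iff]; exact (map_ne_zero _).mpr hp0
  exact absurd ((inv_le_one₀ hpos).mp h) (not_le.mpr hp)

/-- `p⁻¹ x ∈ V` iff `x ∈ 𝔪_V`, for a uniformizer `p`. -/
theorem nl71_val_mem_iff (V : ValuationSubring F) (p : F) (hp0 : p ≠ 0)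
    (hp : p ∈ V.nonunits) (hm : ∀ x ∈ V.nonunits, p⁻¹ * x ∈ V) (x : F) :
    p⁻¹ * x ∈ V ↔ x ∈ V.nonunits := by
  refine ⟨fun h => ?_, hm x⟩
  rw [ValuationSubring.mem_nonunits_iff] at hp ⊢
  rw [← ValuationSubring.valuation_le_one_iff] at h
  have hx : x = p * (p⁻¹ * x) := by rw [← mul_assoc, mul_inv_cancel₀ hp0, one_mul]
  rw [hx, map_mul]
  exact mul_lt_one_of_lt_of_le hp h

/-- The elementary valuation-ring property of `nl71_main` for a valuation subring with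
uniformizer `p`. -/
theorem nl71_val_unit (V : ValuationSubring F) (p : F)
    (hm : ∀ x ∈ V.nonunits, p⁻¹ * x ∈ V) (x : F) (_hx : x ∈ V) (h : p⁻¹ * x ∉ V) :
    x⁻¹ ∈ V := by
  have h1 : x ∉ V.nonunits := fun h' => h (hm x h')
  rw [ValuationSubring.mem_nonunits_iff, not_lt] at h1
  rw [← ValuationSubring.valuation_le_one_iff, map_inv₀]
  exact inv_le_one_of_one_le₀ h1

variable {A : Type*} [CommRing A] [IsLocalRing A] [IsNoetherianRing A] [Algebra A F]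

/-- **P4, the node lemma for a Noetherian local ring and two valuation subrings** with common
uniformizer `π` (vocabulary of `NodeAbs99`: `hm_i : ∀ x ∈ V_i.nonunits, π⁻¹ * x ∈ V_i`).

`A` Noetherian local with `𝔪 = (π, z, z')`, `A ⊆ V₁ ⊓ V₂` saturated
(`a ∈ 𝔪_{V₁} ∩ 𝔪_{V₂} ⇒ π ∣ a`), `z ∈ 𝔪_{V₂}`, `z' ∈ 𝔪_{V₁}`,
`U V = π ^ e * w` (`w` a unit of `A`, `1 ≤ e`), `U ∉ 𝔪_{V₁}`, `V ∉ 𝔪_{V₂}`.
Then there are `z₁ ≡ z`, `z₁' ≡ z'` modulo `π A` with `z₁ * z₁' = π ^ κ * ε`, `ε` a unit,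
`1 ≤ κ ≤ e`, `𝔪 = (π, z₁, z₁')`, `z₁ ∈ 𝔪_{V₂}`, `z₁' ∈ 𝔪_{V₁}`, `z₁' ∉ 𝔪_{V₂}`. -/
theorem nl71_local_val (hinj : Function.Injective (algebraMap A F))
    (V₁ V₂ : ValuationSubring F)
    (hA₁ : ∀ a : A, algebraMap A F a ∈ V₁) (hA₂ : ∀ a : A, algebraMap A F a ∈ V₂)
    (π : A) (hπ0 : π ≠ 0)
    (hπ₁ : algebraMap A F π ∈ V₁.nonunits) (hπ₂ : algebraMap A F π ∈ V₂.nonunits)
    (hm₁ : ∀ x ∈ V₁.nonunits, (algebraMap A F π)⁻¹ * x ∈ V₁)
    (hm₂ : ∀ x ∈ V₂.nonunits, (algebraMap A F π)⁻¹ * x ∈ V₂)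
    (hsat : ∀ a : A, algebraMap A F a ∈ V₁.nonunits → algebraMap A F a ∈ V₂.nonunits → π ∣ a)
    (z z' : A) (hm : maximalIdeal A = Ideal.span {π, z, z'})
    (hz₂ : algebraMap A F z ∈ V₂.nonunits) (hz'₁ : algebraMap A F z' ∈ V₁.nonunits)
    (U V w : A) (hw : IsUnit w) (e : ℕ) (he : 1 ≤ e) (hUV : U * V = π ^ e * w)
    (hU₁ : algebraMap A F U ∉ V₁.nonunits) (hV₂' : algebraMap A F V ∉ V₂.nonunits) :
    ∃ (κ : ℕ) (z₁ z₁' ε : A), 1 ≤ κ ∧ κ ≤ e ∧ IsUnit ε ∧ z₁ * z₁' = π ^ κ * ε ∧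
      π ∣ z₁ - z ∧ π ∣ z₁' - z' ∧ maximalIdeal A = Ideal.span {π, z₁, z₁'} ∧
      algebraMap A F z₁ ∈ V₂.nonunits ∧ algebraMap A F z₁' ∈ V₁.nonunits ∧
      algebraMap A F z₁' ∉ V₂.nonunits := by
  have hq0 : algebraMap A F π ≠ 0 := fun h => hπ0 (hinj (by rw [h, map_zero]))
  have iff₁ := nl71_val_mem_iff V₁ _ hq0 hπ₁ hm₁
  have iff₂ := nl71_val_mem_iff V₂ _ hq0 hπ₂ hm₂
  obtain ⟨κ, z₁, z₁', ε, hκ1, hκe, hε, hprod, ⟨t, ht⟩, ⟨t', ht'⟩, hmax⟩ :=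
    nl71_local hinj V₁.toSubring V₂.toSubring hA₁ hA₂ π
      (nl71_val_inv_notMem V₁ _ hq0 hπ₁) (nl71_val_inv_notMem V₂ _ hq0 hπ₂)
      (nl71_val_unit V₁ _ hm₁) (nl71_val_unit V₂ _ hm₂)
      (fun a h1 h2 => hsat a ((iff₁ _).mp h1) ((iff₂ _).mp h2))
      z z' hm ((iff₂ _).mpr hz₂) ((iff₁ _).mpr hz'₁)
      U V w hw e he hUV (fun h => hU₁ ((iff₁ _).mp h)) (fun h => hV₂' ((iff₂ _).mp h))
  have hz'₂ : algebraMap A F z' ∉ V₂.nonunits := fun h =>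
    nl71_local_notMem V₁.toSubring V₂.toSubring hA₁ hA₂ π (nl71_val_inv_notMem V₁ _ hq0 hπ₁)
      (nl71_val_unit V₁ _ hm₁) z z' hm ((iff₂ _).mpr hz₂) U V w e he hUV
      (fun h => hU₁ ((iff₁ _).mp h)) (fun h => hV₂' ((iff₂ _).mp h)) ((iff₂ _).mpr h)
  refine ⟨κ, z₁, z₁', ε, hκ1, hκe, hε, hprod, ⟨t, ht⟩, ⟨t', ht'⟩, hmax, ?_, ?_, ?_⟩
  · have e1 : z₁ = z + π * t := by rw [← ht]; ring
    rw [← iff₂, e1, map_add, map_mul, mul_add, ← mul_assoc, inv_mul_cancel₀ hq0, one_mul]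
    exact add_mem ((iff₂ _).mpr hz₂) (hA₂ t)
  · have e1 : z₁' = z' + π * t' := by rw [← ht']; ring
    rw [← iff₁, e1, map_add, map_mul, mul_add, ← mul_assoc, inv_mul_cancel₀ hq0, one_mul]
    exact add_mem ((iff₁ _).mpr hz'₁) (hA₁ t')
  · intro h
    apply hz'₂
    have e1 : z' = z₁' - π * t' := by rw [← ht']; ring
    rw [← iff₂, e1, map_sub, map_mul, mul_sub, ← mul_assoc, inv_mul_cancel₀ hq0, one_mul]
    exact sub_mem ((iff₂ _).mpr h) (hA₂ t')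

end val_form

end Fermat.Agent.S34
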