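import Mathlib
import Fermat.Agent.S34.Iface47
import Fermat.Agent.S34.NodeLocal71

/-!
# S34 lab (helper71): the local structure `(LS)` of a chart from the branch data

Abstract glue `P3 + P4 + P4' ⟹ (LS)` for the frame package: the `Prop` `s34i47_LocStr π B`
of `Iface47` from denominator-free, elementwise hypotheses on the chart `B`.

Setting: `B : Subalgebra R F` Noetherian, `V₁ V₂ : Subring F` (the two Gauss valuation rings)
with `B ⊆ V_i`, `π⁻¹ ∉ V_i`, `x ∈ V_i, π⁻¹ x ∉ V_i ⇒ x⁻¹ ∈ V_i`, and the saturation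
`hsat : x ∈ B, π⁻¹ x ∈ V₁, π⁻¹ x ∈ V₂ ⇒ π⁻¹ x ∈ B`.  Write `p_i := {x ∈ B | π⁻¹ x ∈ V_i}`.

* `nl71_smooth`  : at a prime `n ⊉ p₂` where the branch `p₁` is regular with parameter `z₀`
  (`∀ x ∈ n, ∃ s ∉ n, ∃ a, s x - a z₀ ∈ p₁`), `n B_n = (z₀, π)`: the smooth alternative of (LS).
* `nl71_coords`  : at a prime `n ⊇ p₁ + p₂` with both branches regular and `n B_n = p₁ + p₂`
  (elementwise): coordinates `z ∈ p₂`, `z' ∈ p₁` with `n B_n = (z, z', π)`.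
* `nl71_chart`   : **the node lemma at chart level**: coordinates as above and functions `U, V`
  regular at `n` with `U V = π ^ e * unit`, `U ∉ π V₁`, `V ∉ π V₂` give the LITERAL node
  alternative of `s34i47_LocStr` at `n`: `z₁ z₁' ∈ B`, `s z₁ z₁' = π ^ κ s'`, `s s' ∉ n`.
* `nl71_locStr`  : the case split over all maximal ideals `n ∋ π`: `s34i47_LocStr π B`.

All names are prefixed `nl71_`.
-/

set_option autoImplicit false

namespace Fermat.Agent.S34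

open IsLocalRing

section

variable {R F : Type*} [CommRing R] [Field F] [Algebra R F]

/-- Saturation, in divisibility form. -/
theorem nl71_sat_dvd (π : R) (B : Subalgebra R F) (V₁ V₂ : Subring F)
    (hπ₁ : (algebraMap R F π)⁻¹ ∉ V₁)
    (hsat : ∀ x ∈ B, (algebraMap R F π)⁻¹ * x ∈ V₁ → (algebraMap R F π)⁻¹ * x ∈ V₂ →
      (algebraMap R F π)⁻¹ * x ∈ B)
    (x : B) (h1 : (algebraMap R F π)⁻¹ * (x : F) ∈ V₁)
    (h2 : (algebraMap R F π)⁻¹ * (x : F) ∈ V₂) :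
    ∃ c : B, x = algebraMap R B π * c := by
  have hp0 : algebraMap R F π ≠ 0 := by
    intro h0; apply hπ₁; rw [h0, inv_zero]; exact V₁.zero_mem
  refine ⟨⟨_, hsat x x.2 h1 h2⟩, Subtype.ext ?_⟩
  show (x : F) = algebraMap R F π * ((algebraMap R F π)⁻¹ * (x : F))
  rw [← mul_assoc, mul_inv_cancel₀ hp0, one_mul]

/-- **Smooth alternative of (LS).**  At a prime `n` which does not contain the second branch
(`y ∈ p₂`, `y ∉ n`) and where the first branch is regular with parameter `z₀`: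
`n B_n = (z₀, π)`. -/
theorem nl71_smooth (π : R) (B : Subalgebra R F) (V₁ V₂ : Subring F)
    (hB₁ : ∀ x ∈ B, x ∈ V₁) (hB₂ : ∀ x ∈ B, x ∈ V₂)
    (hπ₁ : (algebraMap R F π)⁻¹ ∉ V₁)
    (hsat : ∀ x ∈ B, (algebraMap R F π)⁻¹ * x ∈ V₁ → (algebraMap R F π)⁻¹ * x ∈ V₂ →
      (algebraMap R F π)⁻¹ * x ∈ B)
    (n : Ideal B) [hn : n.IsPrime]
    (y : B) (hy : y ∉ n) (hy₂ : (algebraMap R F π)⁻¹ * (y : F) ∈ V₂)
    (z₀ : B)
    (hbr : ∀ x ∈ n, ∃ s : B, s ∉ n ∧ ∃ a : B,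
      (algebraMap R F π)⁻¹ * ((s * x - a * z₀ : B) : F) ∈ V₁) :
    ∀ x ∈ n, ∃ s : B, s ∉ n ∧ ∃ a b c : B,
      s * x = a * z₀ + b * algebraMap R B π + c * algebraMap R B π := by
  intro x hx
  obtain ⟨s, hs, a, ha⟩ := hbr x hx
  obtain ⟨c, hc⟩ := nl71_sat_dvd π B V₁ V₂ hπ₁ hsat (y * (s * x - a * z₀))
    (by
      have : (algebraMap R F π)⁻¹ * ((y * (s * x - a * z₀) : B) : F)
          = (y : F) * ((algebraMap R F π)⁻¹ * ((s * x - a * z₀ : B) : F)) := by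
        push_cast; ring
      rw [this]; exact V₁.mul_mem (hB₁ _ y.2) ha)
    (by
      have : (algebraMap R F π)⁻¹ * ((y * (s * x - a * z₀) : B) : F)
          = ((algebraMap R F π)⁻¹ * (y : F)) * ((s * x - a * z₀ : B) : F) := by
        push_cast; ring
      rw [this]; exact V₂.mul_mem hy₂ (hB₂ _ (s * x - a * z₀).2))
  refine ⟨y * s, fun h => (hn.mem_or_mem h).elim hy hs, y * a, 0, c, ?_⟩
  linear_combination hc

/-- **Coordinates at a two-branch point.**  If both branches are regular at `n` (parameters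
`z₀`, `y₀`) and `n B_n = p₁ B_n + p₂ B_n` (elementwise), then there are `z ∈ p₂ ∩ n`,
`z' ∈ p₁ ∩ n` with `n B_n = (z, z', π)`. -/
theorem nl71_coords (π : R) (B : Subalgebra R F) (V₁ V₂ : Subring F)
    (hB₁ : ∀ x ∈ B, x ∈ V₁) (hB₂ : ∀ x ∈ B, x ∈ V₂)
    (hπ₁ : (algebraMap R F π)⁻¹ ∉ V₁)
    (hsat : ∀ x ∈ B, (algebraMap R F π)⁻¹ * x ∈ V₁ → (algebraMap R F π)⁻¹ * x ∈ V₂ →
      (algebraMap R F π)⁻¹ * x ∈ B)
    (n : Ideal B) [hn : n.IsPrime]
    (hn₁ : ∀ x : B, (algebraMap R F π)⁻¹ * (x : F) ∈ V₁ → x ∈ n)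
    (z₀ y₀ : B) (hz₀ : z₀ ∈ n) (hy₀ : y₀ ∈ n)
    (hbr₁ : ∀ x ∈ n, ∃ s : B, s ∉ n ∧ ∃ a : B,
      (algebraMap R F π)⁻¹ * ((s * x - a * z₀ : B) : F) ∈ V₁)
    (hbr₂ : ∀ x ∈ n, ∃ s : B, s ∉ n ∧ ∃ a : B,
      (algebraMap R F π)⁻¹ * ((s * x - a * y₀ : B) : F) ∈ V₂)
    (htr : ∀ x ∈ n, ∃ s : B, s ∉ n ∧ ∃ u v : B, s * x = u + v ∧
      (algebraMap R F π)⁻¹ * (u : F) ∈ V₁ ∧ (algebraMap R F π)⁻¹ * (v : F) ∈ V₂) :
    ∃ z z' : B, (algebraMap R F π)⁻¹ * (z : F) ∈ V₂ ∧ (algebraMap R F π)⁻¹ * (z' : F) ∈ V₁ ∧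
      ∀ x ∈ n, ∃ s : B, s ∉ n ∧ ∃ a b c : B,
        s * x = a * z + b * z' + c * algebraMap R B π := by
  obtain ⟨s₁, hs₁, u, z, hz₀e, hu, hz⟩ := htr z₀ hz₀
  obtain ⟨s₂, hs₂, z', v', hy₀e, hz', hv'⟩ := htr y₀ hy₀
  refine ⟨z, z', hz, hz', ?_⟩
  intro x hx
  -- first branch: `t₁ x - a₁ z₀ ∈ p₁`
  obtain ⟨t₁, ht₁, a₁, h1⟩ := hbr₁ x hx
  -- `r := s₁ t₁ x - a₁ z ∈ p₁`
  have hr₁ : (algebraMap R F π)⁻¹ * ((s₁ * t₁ * x - a₁ * z : B) : F) ∈ V₁ := by
    have e1 : s₁ * t₁ * x - a₁ * z = s₁ * (t₁ * x - a₁ * z₀) + a₁ * u := by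
      linear_combination a₁ * hz₀e
    have : (algebraMap R F π)⁻¹ * ((s₁ * t₁ * x - a₁ * z : B) : F)
        = (s₁ : F) * ((algebraMap R F π)⁻¹ * ((t₁ * x - a₁ * z₀ : B) : F))
          + (a₁ : F) * ((algebraMap R F π)⁻¹ * (u : F)) := by
      rw [e1]; push_cast; ring
    rw [this]
    exact V₁.add_mem (V₁.mul_mem (hB₁ _ s₁.2) h1) (V₁.mul_mem (hB₁ _ a₁.2) hu)
  have hrn : s₁ * t₁ * x - a₁ * z ∈ n := hn₁ _ hr₁
  -- second branch: `t₂ r - a₂ y₀ ∈ p₂`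
  obtain ⟨t₂, ht₂, a₂, h2⟩ := hbr₂ _ hrn
  -- `r' := s₂ t₂ r - a₂ z' ∈ p₁ ∩ p₂`
  have e2 : s₂ * t₂ * (s₁ * t₁ * x - a₁ * z) - a₂ * z'
      = s₂ * (t₂ * (s₁ * t₁ * x - a₁ * z) - a₂ * y₀) + a₂ * v' := by
    linear_combination a₂ * hy₀e
  obtain ⟨c, hc⟩ := nl71_sat_dvd π B V₁ V₂ hπ₁ hsat
    (s₂ * t₂ * (s₁ * t₁ * x - a₁ * z) - a₂ * z')
    (by
      have : (algebraMap R F π)⁻¹ * ((s₂ * t₂ * (s₁ * t₁ * x - a₁ * z) - a₂ * z' : B) : F)
          = (s₂ : F) * (t₂ : F) * ((algebraMap R F π)⁻¹ * ((s₁ * t₁ * x - a₁ * z : B) : F))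
            - (a₂ : F) * ((algebraMap R F π)⁻¹ * (z' : F)) := by
        push_cast; ring
      rw [this]
      exact V₁.sub_mem (V₁.mul_mem (V₁.mul_mem (hB₁ _ s₂.2) (hB₁ _ t₂.2)) hr₁)
        (V₁.mul_mem (hB₁ _ a₂.2) hz'))
    (by
      have : (algebraMap R F π)⁻¹ * ((s₂ * t₂ * (s₁ * t₁ * x - a₁ * z) - a₂ * z' : B) : F)
          = (s₂ : F) * ((algebraMap R F π)⁻¹ *
              ((t₂ * (s₁ * t₁ * x - a₁ * z) - a₂ * y₀ : B) : F))
            + (a₂ : F) * ((algebraMap R F π)⁻¹ * (v' : F)) := by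
        rw [e2]; push_cast; ring
      rw [this]
      exact V₂.add_mem (V₂.mul_mem (hB₂ _ s₂.2) h2) (V₂.mul_mem (hB₂ _ a₂.2) hv'))
  refine ⟨s₂ * t₂ * s₁ * t₁, ?_, s₂ * t₂ * a₁, a₂, c, ?_⟩
  · intro h
    rcases hn.mem_or_mem h with h | h
    · rcases hn.mem_or_mem h with h | h
      · rcases hn.mem_or_mem h with h | h
        · exact hs₂ h
        · exact ht₂ h
      · exact hs₁ h
    · exact ht₁ h
  · linear_combination hc

end

section chart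

variable {R F : Type*} [CommRing R] [Field F] [Algebra R F]

/-- **P4 at chart level: the node alternative of (LS).**

`B` a Noetherian chart inside `V₁ ⊓ V₂`, saturated; `n` a prime of `B` containing both branch
ideals `p_i = B ∩ π V_i`; `z ∈ p₂`, `z' ∈ p₁` with `n B_n = (z, z', π)` (elementwise);
`U, V ∈ F` regular at `n` with `U V = π ^ e * w`, `w` a unit of `R`, `1 ≤ e`, `U ∉ π V₁`,
`V ∉ π V₂`.  Then there are `z₁ z₁' ∈ n` with `n B_n = (z₁, z₁', π)` and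
`s z₁ z₁' = π ^ κ s'`, `s, s' ∉ n`, `1 ≤ κ ≤ e`; moreover `z₁ ∈ p₂`, `z₁' ∈ p₁`. -/
theorem nl71_chart (π : R) (B : Subalgebra R F) [IsNoetherianRing B] (V₁ V₂ : Subring F)
    (hB₁ : ∀ x ∈ B, x ∈ V₁) (hB₂ : ∀ x ∈ B, x ∈ V₂)
    (hπ₁ : (algebraMap R F π)⁻¹ ∉ V₁) (hπ₂ : (algebraMap R F π)⁻¹ ∉ V₂)
    (hV₁ : ∀ x ∈ V₁, (algebraMap R F π)⁻¹ * x ∉ V₁ → x⁻¹ ∈ V₁)
    (hV₂ : ∀ x ∈ V₂, (algebraMap R F π)⁻¹ * x ∉ V₂ → x⁻¹ ∈ V₂)
    (hsat : ∀ x ∈ B, (algebraMap R F π)⁻¹ * x ∈ V₁ → (algebraMap R F π)⁻¹ * x ∈ V₂ →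
      (algebraMap R F π)⁻¹ * x ∈ B)
    (n : Ideal B) [hn : n.IsPrime]
    (hn₁ : ∀ x : B, (algebraMap R F π)⁻¹ * (x : F) ∈ V₁ → x ∈ n)
    (hn₂ : ∀ x : B, (algebraMap R F π)⁻¹ * (x : F) ∈ V₂ → x ∈ n)
    (z z' : B) (hz₂ : (algebraMap R F π)⁻¹ * (z : F) ∈ V₂)
    (hz'₁ : (algebraMap R F π)⁻¹ * (z' : F) ∈ V₁)
    (hgen : ∀ x ∈ n, ∃ s : B, s ∉ n ∧ ∃ a b c : B,
      s * x = a * z + b * z' + c * algebraMap R B π)
    (U V : F) (hU : ∃ s : B, s ∉ n ∧ (s : F) * U ∈ B) (hV : ∃ s : B, s ∉ n ∧ (s : F) * V ∈ B)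
    (e : ℕ) (he : 1 ≤ e) (w : R) (hw : IsUnit w)
    (hUV : U * V = algebraMap R F (π ^ e * w))
    (hU₁ : (algebraMap R F π)⁻¹ * U ∉ V₁) (hV₂' : (algebraMap R F π)⁻¹ * V ∉ V₂) :
    ∃ z₁ z₁' : B, z₁ ∈ n ∧ z₁' ∈ n ∧
      (∀ x ∈ n, ∃ s : B, s ∉ n ∧ ∃ a b c : B,
        s * x = a * z₁ + b * z₁' + c * algebraMap R B π) ∧
      (∃ (κ : ℕ) (s s' : B), s ∉ n ∧ s' ∉ n ∧ 1 ≤ κ ∧ κ ≤ e ∧
        s * z₁ * z₁' = algebraMap R B π ^ κ * s') ∧
      (algebraMap R F π)⁻¹ * (z₁ : F) ∈ V₂ ∧ (algebraMap R F π)⁻¹ * (z₁' : F) ∈ V₁ := by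
  classical
  set p : F := algebraMap R F π with hp
  have hp0 : p ≠ 0 := by
    intro h0; apply hπ₁; rw [h0, inv_zero]; exact V₁.zero_mem
  set πB : B := algebraMap R B π with hπB
  have hπBcoe : (πB : F) = p := rfl
  have hπBn : πB ∈ n := hn₁ πB (by
    rw [hπBcoe, inv_mul_cancel₀ hp0]; exact V₁.one_mem)
  have hzn : z ∈ n := hn₂ z hz₂
  have hz'n : z' ∈ n := hn₁ z' hz'₁
  -- the local ring `A = B_n`
  let A := Localization.AtPrime n
  have : IsNoetherianRing A := IsLocalization.isNoetherianRing n.primeCompl A inferInstance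
  let g : B →+* F := (B.val : B →+* F)
  have hg : ∀ b : B, g b = (b : F) := fun _ => rfl
  have hne : ∀ s : B, s ∉ n → (s : F) ≠ 0 := by
    intro s hs h0
    apply hs
    have : s = 0 := Subtype.ext h0
    rw [this]; exact n.zero_mem
  have hunit : ∀ y : n.primeCompl, IsUnit (g (y : B)) := fun y =>
    IsUnit.mk0 _ (hne y y.2)
  let ψ : A →+* F := IsLocalization.lift hunit
  let _ : Algebra A F := ψ.toAlgebra
  have hψalg : ∀ a : A, algebraMap A F a = ψ a := fun _ => rfl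
  have hψ : ∀ b : B, ψ (algebraMap B A b) = (b : F) := fun b => IsLocalization.lift_eq hunit b
  have hinjB : Function.Injective (algebraMap B A) :=
    IsLocalization.injective A (Ideal.primeCompl_le_nonZeroDivisors n)
  have hinj : Function.Injective (algebraMap A F) := by
    show Function.Injective ψ
    rw [IsLocalization.lift_injective_iff]
    intro x y
    constructor
    · intro h; rw [hinjB h]
    · intro h
      have : x = y := Subtype.ext h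
      rw [this]
  -- every element of `A` is a fraction
  have hfrac : ∀ a : A, ∃ (b : B) (s : B), s ∉ n ∧ a * algebraMap B A s = algebraMap B A b := by
    intro a
    obtain ⟨⟨b, s⟩, rfl⟩ := IsLocalization.mk'_surjective n.primeCompl a
    exact ⟨b, s, s.2, IsLocalization.mk'_spec A b s⟩
  have hunitA : ∀ s : B, s ∉ n → IsUnit (algebraMap B A s) := fun s hs =>
    IsLocalization.map_units A (⟨s, hs⟩ : n.primeCompl)
  -- elements outside `n` are units of `V₁`, `V₂`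
  have hinv₁ : ∀ s : B, s ∉ n → (s : F)⁻¹ ∈ V₁ := fun s hs =>
    hV₁ _ (hB₁ _ s.2) (fun h => hs (hn₁ s h))
  have hinv₂ : ∀ s : B, s ∉ n → (s : F)⁻¹ ∈ V₂ := fun s hs =>
    hV₂ _ (hB₂ _ s.2) (fun h => hs (hn₂ s h))
  have hψfrac : ∀ (a : A) (b s : B), s ∉ n → a * algebraMap B A s = algebraMap B A b →
      ψ a = (b : F) * (s : F)⁻¹ := by
    intro a b s hs h
    have h1 : ψ a * (s : F) = (b : F) := by
      rw [← hψ s, ← map_mul, h, hψ]
    rw [← h1, mul_assoc, mul_inv_cancel₀ (hne s hs), mul_one]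
  have hA₁ : ∀ a : A, algebraMap A F a ∈ V₁ := by
    intro a
    obtain ⟨b, s, hs, h⟩ := hfrac a
    rw [hψalg, hψfrac a b s hs h]
    exact V₁.mul_mem (hB₁ _ b.2) (hinv₁ s hs)
  have hA₂ : ∀ a : A, algebraMap A F a ∈ V₂ := by
    intro a
    obtain ⟨b, s, hs, h⟩ := hfrac a
    rw [hψalg, hψfrac a b s hs h]
    exact V₂.mul_mem (hB₂ _ b.2) (hinv₂ s hs)
  have hψπ : algebraMap A F (algebraMap B A πB) = p := by rw [hψalg, hψ]; exact hπBcoe
  -- saturation of `A`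
  have hsatA : ∀ a : A, (algebraMap A F (algebraMap B A πB))⁻¹ * algebraMap A F a ∈ V₁ →
      (algebraMap A F (algebraMap B A πB))⁻¹ * algebraMap A F a ∈ V₂ → (algebraMap B A πB) ∣ a := by
    intro a h1 h2
    rw [hψπ, hψalg] at h1 h2
    obtain ⟨b, s, hs, h⟩ := hfrac a
    have hb : (b : F) = ψ a * (s : F) := by
      rw [hψfrac a b s hs h, mul_assoc, inv_mul_cancel₀ (hne s hs), mul_one]
    obtain ⟨c, hc⟩ := nl71_sat_dvd π B V₁ V₂ hπ₁ hsat b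
      (by
        have : p⁻¹ * (b : F) = p⁻¹ * ψ a * (s : F) := by rw [hb]; ring
        rw [this]; exact V₁.mul_mem h1 (hB₁ _ s.2))
      (by
        have : p⁻¹ * (b : F) = p⁻¹ * ψ a * (s : F) := by rw [hb]; ring
        rw [this]; exact V₂.mul_mem h2 (hB₂ _ s.2))
    obtain ⟨t, ht⟩ := (hunitA s hs).exists_right_inv
    refine ⟨algebraMap B A c * t, ?_⟩
    have h3 : a * algebraMap B A s = (algebraMap B A πB) * algebraMap B A c := by
      rw [h, hc, map_mul]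
    calc a = a * algebraMap B A s * t := by rw [mul_assoc, ht, mul_one]
      _ = (algebraMap B A πB) * (algebraMap B A c * t) := by rw [h3]; ring
  -- the maximal ideal of `A`
  have hmaxmap : ∀ I : Ideal B, I ≤ n → (∀ x ∈ n, ∃ s : B, s ∉ n ∧ s * x ∈ I) →
      maximalIdeal A = Ideal.map (algebraMap B A) I := by
    intro I hI hloc
    rw [← Localization.AtPrime.map_eq_maximalIdeal]
    apply le_antisymm
    · rw [Ideal.map_le_iff_le_comap]
      intro x hx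
      obtain ⟨s, hs, hsx⟩ := hloc x hx
      rw [Ideal.mem_comap, IsLocalization.algebraMap_mem_map_algebraMap_iff n.primeCompl]
      exact ⟨s, hs, hsx⟩
    · exact Ideal.map_mono hI
  have hm : maximalIdeal A =
      Ideal.span {(algebraMap B A πB), algebraMap B A z, algebraMap B A z'} := by
    rw [hmaxmap (Ideal.span {πB, z, z'})]
    · rw [Ideal.map_span]
      congr 1
      simp only [Set.image_insert_eq, Set.image_singleton]
    · rw [Ideal.span_le]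
      intro x hx
      simp only [Set.mem_insert_iff, Set.mem_singleton_iff] at hx
      rcases hx with rfl | rfl | rfl
      · exact hπBn
      · exact hzn
      · exact hz'n
    · intro x hx
      obtain ⟨s, hs, a, b, c, habc⟩ := hgen x hx
      refine ⟨s, hs, ?_⟩
      rw [habc]
      exact Ideal.add_mem _ (Ideal.add_mem _
        (Ideal.mul_mem_left _ _ (Ideal.subset_span (by simp)))
        (Ideal.mul_mem_left _ _ (Ideal.subset_span (by simp))))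
        (Ideal.mul_mem_left _ _ (Ideal.subset_span (by simp)))
  -- `U`, `V` as elements of `A`
  have hlift : ∀ X : F, (∃ s : B, s ∉ n ∧ (s : F) * X ∈ B) → ∃ a : A, ψ a = X := by
    rintro X ⟨s, hs, hX⟩
    obtain ⟨t, ht⟩ := (hunitA s hs).exists_right_inv
    refine ⟨algebraMap B A ⟨_, hX⟩ * t, ?_⟩
    have h1 : ψ t = (s : F)⁻¹ := by
      have : (s : F) * ψ t = 1 := by rw [← hψ s, ← map_mul, ht, map_one]
      exact eq_inv_of_mul_eq_one_right this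
    rw [map_mul, hψ, h1]
    show (s : F) * X * (s : F)⁻¹ = X
    rw [mul_comm ((s : F)) X, mul_assoc, mul_inv_cancel₀ (hne s hs), mul_one]
  obtain ⟨UA, hUA⟩ := hlift U hU
  obtain ⟨VA, hVA⟩ := hlift V hV
  set wA : A := algebraMap B A (algebraMap R B w) with hwA
  have hwAunit : IsUnit wA := (hw.map (algebraMap R B)).map (algebraMap B A)
  have hUVA : UA * VA = (algebraMap B A πB) ^ e * wA := by
    apply hinj
    have e1 : ψ (algebraMap B A πB) = algebraMap R F π := hψ πB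
    have e2 : ψ wA = algebraMap R F w := hψ _
    show ψ (UA * VA) = ψ ((algebraMap B A πB) ^ e * wA)
    rw [map_mul, hUA, hVA, hUV, map_mul, map_pow, map_mul, map_pow, e1, e2]
  obtain ⟨κ, ζ, ζ', ε, hκ1, hκe, hε, hprod, ⟨t, ht⟩, ⟨t', ht'⟩, hmax⟩ :=
    nl71_local hinj V₁ V₂ hA₁ hA₂ (algebraMap B A πB) (by rw [hψπ]; exact hπ₁) (by rw [hψπ]; exact hπ₂)
      (by rw [hψπ]; exact hV₁) (by rw [hψπ]; exact hV₂) hsatA
      (algebraMap B A z) (algebraMap B A z') hm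
      (by rw [hψπ, hψalg, hψ]; exact hz₂) (by rw [hψπ, hψalg, hψ]; exact hz'₁)
      UA VA wA hwAunit e he hUVA
      (by rw [hψπ, hψalg, hUA]; exact hU₁) (by rw [hψπ, hψalg, hVA]; exact hV₂')
  -- descend to `B`
  obtain ⟨c, s₁, hs₁, hc⟩ := hfrac t
  obtain ⟨c', s₁', hs₁', hc'⟩ := hfrac t'
  obtain ⟨bε, sε, hsε, hbε⟩ := hfrac ε
  have hbεn : bε ∉ n := by
    have h1 : IsUnit (algebraMap B A bε) := by
      rw [← hbε]; exact hε.mul (hunitA sε hsε)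
    exact (IsLocalization.AtPrime.isUnit_to_map_iff A n bε).mp h1
  -- `b₁ = s₁ z + π c`, `b₁' = s₁' z' + π c'`
  have hb₁ : algebraMap B A (s₁ * z + πB * c) = ζ * algebraMap B A s₁ := by
    have : ζ = algebraMap B A z + (algebraMap B A πB) * t := by rw [← ht]; ring
    rw [this, map_add, map_mul, map_mul, ← hc]
    ring
  have hb₁' : algebraMap B A (s₁' * z' + πB * c') = ζ' * algebraMap B A s₁' := by
    have : ζ' = algebraMap B A z' + (algebraMap B A πB) * t' := by rw [← ht']; ring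
    rw [this, map_add, map_mul, map_mul, ← hc']
    ring
  refine ⟨s₁ * z + πB * c, s₁' * z' + πB * c',
    n.add_mem (n.mul_mem_left _ hzn) (n.mul_mem_right _ hπBn),
    n.add_mem (n.mul_mem_left _ hz'n) (n.mul_mem_right _ hπBn), ?_, ?_, ?_, ?_⟩
  · -- generation
    have hmax' : maximalIdeal A =
        Ideal.map (algebraMap B A) (Ideal.span {πB, s₁ * z + πB * c, s₁' * z' + πB * c'}) := by
      rw [hmax, Ideal.map_span]
      simp only [Set.image_insert_eq, Set.image_singleton]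
      obtain ⟨u₁, hu₁⟩ := (hunitA s₁ hs₁).exists_right_inv
      obtain ⟨u₁', hu₁'⟩ := (hunitA s₁' hs₁').exists_right_inv
      apply le_antisymm
      · rw [Ideal.span_le]
        intro x hx
        simp only [Set.mem_insert_iff, Set.mem_singleton_iff] at hx
        rcases hx with rfl | rfl | rfl
        · exact Ideal.subset_span (by simp)
        · have : x = u₁ * algebraMap B A (s₁ * z + πB * c) := by
            rw [hb₁, mul_comm u₁, mul_assoc, hu₁, mul_one]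
          rw [this]
          exact Ideal.mul_mem_left _ _ (Ideal.subset_span (by simp))
        · have : x = u₁' * algebraMap B A (s₁' * z' + πB * c') := by
            rw [hb₁', mul_comm u₁', mul_assoc, hu₁', mul_one]
          rw [this]
          exact Ideal.mul_mem_left _ _ (Ideal.subset_span (by simp))
      · rw [Ideal.span_le]
        intro x hx
        simp only [Set.mem_insert_iff, Set.mem_singleton_iff] at hx
        rcases hx with rfl | rfl | rfl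
        · exact Ideal.subset_span (by simp)
        · rw [hb₁]
          exact Ideal.mul_mem_right _ _ (Ideal.subset_span (by simp))
        · rw [hb₁']
          exact Ideal.mul_mem_right _ _ (Ideal.subset_span (by simp))
    intro x hx
    have hxA : algebraMap B A x ∈ maximalIdeal A :=
      (IsLocalization.AtPrime.to_map_mem_maximal_iff A n x).mpr hx
    rw [hmax', IsLocalization.algebraMap_mem_map_algebraMap_iff n.primeCompl] at hxA
    obtain ⟨m, hm', hmx⟩ := hxA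
    obtain ⟨c₀, y, hy, hmxe⟩ := Ideal.mem_span_insert.mp hmx
    obtain ⟨a, b, rfl⟩ := Ideal.mem_span_pair.mp hy
    exact ⟨m, hm', a, b, c₀, by rw [hmxe]; ring⟩
  · -- the equation
    refine ⟨κ, sε, bε * s₁ * s₁', hsε, ?_, hκ1, hκe, ?_⟩
    · intro h
      rcases hn.mem_or_mem h with h | h
      · rcases hn.mem_or_mem h with h | h
        · exact hbεn h
        · exact hs₁ h
      · exact hs₁' h
    · apply hinjB
      rw [map_mul, map_mul, hb₁, hb₁', map_mul, map_mul, map_mul, map_pow, ← hbε]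
      linear_combination (algebraMap B A sε * algebraMap B A s₁ * algebraMap B A s₁') * hprod
  · have : p⁻¹ * ((s₁ * z + πB * c : B) : F) = (s₁ : F) * (p⁻¹ * (z : F)) + (c : F) := by
      push_cast
      rw [hπBcoe]
      field_simp
    rw [this]
    exact V₂.add_mem (V₂.mul_mem (hB₂ _ s₁.2) hz₂) (hB₂ _ c.2)
  · have : p⁻¹ * ((s₁' * z' + πB * c' : B) : F) = (s₁' : F) * (p⁻¹ * (z' : F)) + (c' : F) := by
      push_cast
      rw [hπBcoe]
      field_simp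
    rw [this]
    exact V₁.add_mem (V₁.mul_mem (hB₁ _ s₁'.2) hz'₁) (hB₁ _ c'.2)

/-- **(LS) from the branch data.**  `B` a Noetherian chart inside `V₁ ⊓ V₂`, saturated.

* `hbr₁` / `hbr₂` : at a maximal `n` lying on one branch only, that branch is regular at `n`;
* `hnode` : at a maximal `n` lying on both branches there are coordinates `z ∈ p₂`, `z' ∈ p₁`
  with `n B_n = (z, z', π)`, and functions `U, V` regular at `n` with `U V = π ^ e * unit`,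
  `1 ≤ e`, `U ∉ π V₁`, `V ∉ π V₂`.

Then `s34i47_LocStr π B`. -/
theorem nl71_locStr (π : R) (B : Subalgebra R F) [IsNoetherianRing B] (V₁ V₂ : Subring F)
    (hB₁ : ∀ x ∈ B, x ∈ V₁) (hB₂ : ∀ x ∈ B, x ∈ V₂)
    (hπ₁ : (algebraMap R F π)⁻¹ ∉ V₁) (hπ₂ : (algebraMap R F π)⁻¹ ∉ V₂)
    (hV₁ : ∀ x ∈ V₁, (algebraMap R F π)⁻¹ * x ∉ V₁ → x⁻¹ ∈ V₁)
    (hV₂ : ∀ x ∈ V₂, (algebraMap R F π)⁻¹ * x ∉ V₂ → x⁻¹ ∈ V₂)
    (hsat : ∀ x ∈ B, (algebraMap R F π)⁻¹ * x ∈ V₁ → (algebraMap R F π)⁻¹ * x ∈ V₂ →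
      (algebraMap R F π)⁻¹ * x ∈ B)
    (hbr₁ : ∀ n : Ideal B, n.IsMaximal →
      (∀ x : B, (algebraMap R F π)⁻¹ * (x : F) ∈ V₁ → x ∈ n) →
      (∃ y : B, y ∉ n ∧ (algebraMap R F π)⁻¹ * (y : F) ∈ V₂) →
      ∃ z₀ : B, z₀ ∈ n ∧ ∀ x ∈ n, ∃ s : B, s ∉ n ∧ ∃ a : B,
        (algebraMap R F π)⁻¹ * ((s * x - a * z₀ : B) : F) ∈ V₁)
    (hbr₂ : ∀ n : Ideal B, n.IsMaximal →
      (∀ x : B, (algebraMap R F π)⁻¹ * (x : F) ∈ V₂ → x ∈ n) →
      (∃ y : B, y ∉ n ∧ (algebraMap R F π)⁻¹ * (y : F) ∈ V₁) →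
      ∃ z₀ : B, z₀ ∈ n ∧ ∀ x ∈ n, ∃ s : B, s ∉ n ∧ ∃ a : B,
        (algebraMap R F π)⁻¹ * ((s * x - a * z₀ : B) : F) ∈ V₂)
    (hnode : ∀ n : Ideal B, n.IsMaximal →
      (∀ x : B, (algebraMap R F π)⁻¹ * (x : F) ∈ V₁ → x ∈ n) →
      (∀ x : B, (algebraMap R F π)⁻¹ * (x : F) ∈ V₂ → x ∈ n) →
      (∃ z z' : B, (algebraMap R F π)⁻¹ * (z : F) ∈ V₂ ∧
        (algebraMap R F π)⁻¹ * (z' : F) ∈ V₁ ∧
        ∀ x ∈ n, ∃ s : B, s ∉ n ∧ ∃ a b c : B,
          s * x = a * z + b * z' + c * algebraMap R B π) ∧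
      ∃ (U V : F) (e : ℕ) (w : R), (∃ s : B, s ∉ n ∧ (s : F) * U ∈ B) ∧
        (∃ s : B, s ∉ n ∧ (s : F) * V ∈ B) ∧ 1 ≤ e ∧ IsUnit w ∧
        U * V = algebraMap R F (π ^ e * w) ∧
        (algebraMap R F π)⁻¹ * U ∉ V₁ ∧ (algebraMap R F π)⁻¹ * V ∉ V₂) :
    s34i47_LocStr π B := by
  classical
  intro n hnmax hπn
  have hnp : n.IsPrime := hnmax.isPrime
  have hp0 : algebraMap R F π ≠ 0 := by
    intro h0; apply hπ₁; rw [h0, inv_zero]; exact V₁.zero_mem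
  by_cases h1 : ∀ x : B, (algebraMap R F π)⁻¹ * (x : F) ∈ V₁ → x ∈ n
  · by_cases h2 : ∀ x : B, (algebraMap R F π)⁻¹ * (x : F) ∈ V₂ → x ∈ n
    · -- a node
      obtain ⟨⟨z, z', hz₂, hz'₁, hgen⟩, U, V, e, w, hU, hV, he, hw, hUV, hU₁, hV₂'⟩ :=
        hnode n hnmax h1 h2
      obtain ⟨z₁, z₁', hz₁, hz₁', hgen', ⟨κ, s, s', hs, hs', -, -, heq⟩, -, -⟩ :=
        nl71_chart π B V₁ V₂ hB₁ hB₂ hπ₁ hπ₂ hV₁ hV₂ hsat n h1 h2 z z' hz₂ hz'₁ hgen
          U V hU hV e he w hw hUV hU₁ hV₂'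
      exact ⟨z₁, z₁', hz₁, hz₁', hgen', Or.inr ⟨κ, s, s', hs, hs', heq⟩⟩
    · -- only the first branch
      simp only [not_forall] at h2
      obtain ⟨y, hy₂, hyn⟩ := h2
      obtain ⟨z₀, hz₀, hbr⟩ := hbr₁ n hnmax h1 ⟨y, hyn, hy₂⟩
      exact ⟨z₀, algebraMap R B π, hz₀, hπn,
        nl71_smooth π B V₁ V₂ hB₁ hB₂ hπ₁ hsat n y hyn hy₂ z₀ hbr, Or.inl rfl⟩
  · -- only the second branch
    simp only [not_forall] at h1
    obtain ⟨y, hy₁, hyn⟩ := h1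
    -- then `p₂ ⊆ n`
    have h2 : ∀ x : B, (algebraMap R F π)⁻¹ * (x : F) ∈ V₂ → x ∈ n := by
      intro x hx
      obtain ⟨c, hc⟩ := nl71_sat_dvd π B V₁ V₂ hπ₁ hsat (y * x)
        (by
          have : (algebraMap R F π)⁻¹ * ((y * x : B) : F)
              = ((algebraMap R F π)⁻¹ * (y : F)) * (x : F) := by push_cast; ring
          rw [this]; exact V₁.mul_mem hy₁ (hB₁ _ x.2))
        (by
          have : (algebraMap R F π)⁻¹ * ((y * x : B) : F)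
              = (y : F) * ((algebraMap R F π)⁻¹ * (x : F)) := by push_cast; ring
          rw [this]; exact V₂.mul_mem (hB₂ _ y.2) hx)
      have : y * x ∈ n := by rw [hc]; exact n.mul_mem_right _ hπn
      exact (hnp.mem_or_mem this).resolve_left hyn
    obtain ⟨z₀, hz₀, hbr⟩ := hbr₂ n hnmax h2 ⟨y, hyn, hy₁⟩
    exact ⟨z₀, algebraMap R B π, hz₀, hπn,
      nl71_smooth π B V₂ V₁ hB₂ hB₁ hπ₂ (fun x hx h2' h1' => hsat x hx h1' h2') n y hyn hy₁
        z₀ hbr, Or.inl rfl⟩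

end chart

end Fermat.Agent.S34
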