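import Mathlib
import Fermat.Agent.S34.LocStr71

/-!
# S34 lab (helper71): `(LS)` from the four branch statements of P3 / P4' (literal shapes)

The assembly `Smooth V₁ + Smooth V₂ + Transv + UVAt ⟹ s34i47_LocStr π B` in the UNFOLDED literal
shapes announced by the P3 owner (registry row 470, "P3 LITERAL SHAPES"):

* `OnBr V n`   : `∀ x : B, π⁻¹ * (x : F) ∈ V → x ∈ n`;
* `Unif V n z` : `z ∈ n ∧ ∀ x ∈ n, ∃ s : B, s ∉ n ∧ ∃ a : B, π⁻¹ * ((s * x - a * z : B) : F) ∈ V`;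
* `Smooth V`   : `∀ n maximal, π ∈ n, OnBr V n → ∃ z : B, Unif V n z`;
* `Transv`     : `∀ n maximal, π ∈ n, OnBr V₁ n → OnBr V₂ n → ∀ x ∈ n, ∃ s ∉ n, ∃ y y' : B,
                  s * x = y + y' ∧ π⁻¹ * y ∈ V₁ ∧ π⁻¹ * y' ∈ V₂`;
* `UVAt`       : `∀ n maximal, π ∈ n, OnBr V₁ n → OnBr V₂ n → ∃ (u v s : B) (e : ℕ), s ∉ n ∧ 1 ≤ e ∧
                  u * v = algebraMap R B π ^ e * s ∧ π⁻¹ * u ∉ V₁ ∧ π⁻¹ * v ∉ V₂`.

`nl71_chart_unit` is `nl71_chart` with the unit of `R` replaced by an element of `B ∖ n`;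
`nl71_locStr_sf` is the assembly.  All names are prefixed `nl71_`.
-/

set_option autoImplicit false

namespace Fermat.Agent.S34

section

variable {R F : Type*} [CommRing R] [Field F] [Algebra R F]

/-- `nl71_chart` with `U V = π ^ e * w`, `w ∈ B ∖ n` (a unit of `B_n` instead of a unit of
`R`). -/
theorem nl71_chart_unit (π : R) (B : Subalgebra R F) [IsNoetherianRing B] (V₁ V₂ : Subring F)
    (hB₁ : ∀ x ∈ B, x ∈ V₁) (hB₂ : ∀ x ∈ B, x ∈ V₂)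
    (hπ₁ : (algebraMap R F π)⁻¹ ∉ V₁) (hπ₂ : (algebraMap R F π)⁻¹ ∉ V₂)
    (hV₁ : ∀ x ∈ V₁, (algebraMap R F π)⁻¹ * x ∉ V₁ → x⁻¹ ∈ V₁)
    (hV₂ : ∀ x ∈ V₂, (algebraMap R F π)⁻¹ * x ∉ V₂ → x⁻¹ ∈ V₂)
    (hsat : ∀ x ∈ B, (algebraMap R F π)⁻¹ * x ∈ V₁ → (algebraMap R F π)⁻¹ * x ∈ V₂ →
      (algebraMap R F π)⁻¹ * x ∈ B)
    (n : Ideal B) [hn : n.IsPrime]
    (hn₁ : ∀ x : B, (algebraMap R F π)⁻¹ * (x : F) ∈ V₁ → x ∈ n)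
    (hn₂ : ∀ x : B, (algebraMap R F π)⁻¹ * (x : F) ∈ V₂ → x ∈ n)
    (z z' : B) (hz₂ : (algebraMap R F π)⁻¹ * (z : F) ∈ V₂)
    (hz'₁ : (algebraMap R F π)⁻¹ * (z' : F) ∈ V₁)
    (hgen : ∀ x ∈ n, ∃ s : B, s ∉ n ∧ ∃ a b c : B,
      s * x = a * z + b * z' + c * algebraMap R B π)
    (U V : F) (hU : ∃ s : B, s ∉ n ∧ (s : F) * U ∈ B) (hV : ∃ s : B, s ∉ n ∧ (s : F) * V ∈ B)
    (e : ℕ) (he : 1 ≤ e) (w : B) (hw : w ∉ n)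
    (hUV : U * V = algebraMap R F π ^ e * (w : F))
    (hU₁ : (algebraMap R F π)⁻¹ * U ∉ V₁) (hV₂' : (algebraMap R F π)⁻¹ * V ∉ V₂) :
    ∃ z₁ z₁' : B, z₁ ∈ n ∧ z₁' ∈ n ∧
      (∀ x ∈ n, ∃ s : B, s ∉ n ∧ ∃ a b c : B,
        s * x = a * z₁ + b * z₁' + c * algebraMap R B π) ∧
      (∃ (κ : ℕ) (s s' : B), s ∉ n ∧ s' ∉ n ∧ 1 ≤ κ ∧ κ ≤ e ∧
        s * z₁ * z₁' = algebraMap R B π ^ κ * s') ∧
      (algebraMap R F π)⁻¹ * (z₁ : F) ∈ V₂ ∧ (algebraMap R F π)⁻¹ * (z₁' : F) ∈ V₁ := by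
  have hw0 : (w : F) ≠ 0 := by
    intro h0
    apply hw
    have : w = 0 := Subtype.ext h0
    rw [this]; exact n.zero_mem
  obtain ⟨sV, hsV, hsVV⟩ := hV
  refine nl71_chart π B V₁ V₂ hB₁ hB₂ hπ₁ hπ₂ hV₁ hV₂ hsat n hn₁ hn₂ z z' hz₂ hz'₁ hgen
    U (V * (w : F)⁻¹) hU ⟨sV * w, fun h => (hn.mem_or_mem h).elim hsV hw, ?_⟩
    e he 1 isUnit_one ?_ hU₁ ?_
  · have : ((sV * w : B) : F) * (V * (w : F)⁻¹) = (sV : F) * V := by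
      push_cast
      field_simp
    rw [this]; exact hsVV
  · rw [mul_one, map_pow, ← mul_assoc, hUV, mul_assoc, mul_inv_cancel₀ hw0, mul_one]
  · intro h
    apply hV₂'
    have : (algebraMap R F π)⁻¹ * V = (algebraMap R F π)⁻¹ * (V * (w : F)⁻¹) * (w : F) := by
      field_simp
    rw [this]; exact V₂.mul_mem h (hB₂ _ w.2)

/-- **(LS) from the four branch statements** (`Smooth V₁`, `Smooth V₂`, `Transv`, `UVAt` in the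
unfolded literal shapes of registry row 470). -/
theorem nl71_locStr_sf (π : R) (B : Subalgebra R F) [IsNoetherianRing B] (V₁ V₂ : Subring F)
    (hB₁ : ∀ x ∈ B, x ∈ V₁) (hB₂ : ∀ x ∈ B, x ∈ V₂)
    (hπ₁ : (algebraMap R F π)⁻¹ ∉ V₁) (hπ₂ : (algebraMap R F π)⁻¹ ∉ V₂)
    (hV₁ : ∀ x ∈ V₁, (algebraMap R F π)⁻¹ * x ∉ V₁ → x⁻¹ ∈ V₁)
    (hV₂ : ∀ x ∈ V₂, (algebraMap R F π)⁻¹ * x ∉ V₂ → x⁻¹ ∈ V₂)
    (hsat : ∀ x ∈ B, (algebraMap R F π)⁻¹ * x ∈ V₁ → (algebraMap R F π)⁻¹ * x ∈ V₂ →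
      (algebraMap R F π)⁻¹ * x ∈ B)
    (hsm₁ : ∀ n : Ideal B, n.IsMaximal → algebraMap R B π ∈ n →
      (∀ x : B, (algebraMap R F π)⁻¹ * (x : F) ∈ V₁ → x ∈ n) →
      ∃ z : B, z ∈ n ∧ ∀ x ∈ n, ∃ s : B, s ∉ n ∧ ∃ a : B,
        (algebraMap R F π)⁻¹ * ((s * x - a * z : B) : F) ∈ V₁)
    (hsm₂ : ∀ n : Ideal B, n.IsMaximal → algebraMap R B π ∈ n →
      (∀ x : B, (algebraMap R F π)⁻¹ * (x : F) ∈ V₂ → x ∈ n) →
      ∃ z : B, z ∈ n ∧ ∀ x ∈ n, ∃ s : B, s ∉ n ∧ ∃ a : B,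
        (algebraMap R F π)⁻¹ * ((s * x - a * z : B) : F) ∈ V₂)
    (htr : ∀ n : Ideal B, n.IsMaximal → algebraMap R B π ∈ n →
      (∀ x : B, (algebraMap R F π)⁻¹ * (x : F) ∈ V₁ → x ∈ n) →
      (∀ x : B, (algebraMap R F π)⁻¹ * (x : F) ∈ V₂ → x ∈ n) →
      ∀ x ∈ n, ∃ s : B, s ∉ n ∧ ∃ y y' : B, s * x = y + y' ∧
        (algebraMap R F π)⁻¹ * (y : F) ∈ V₁ ∧ (algebraMap R F π)⁻¹ * (y' : F) ∈ V₂)
    (huv : ∀ n : Ideal B, n.IsMaximal → algebraMap R B π ∈ n →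
      (∀ x : B, (algebraMap R F π)⁻¹ * (x : F) ∈ V₁ → x ∈ n) →
      (∀ x : B, (algebraMap R F π)⁻¹ * (x : F) ∈ V₂ → x ∈ n) →
      ∃ (u v s : B) (e : ℕ), s ∉ n ∧ 1 ≤ e ∧ u * v = algebraMap R B π ^ e * s ∧
        (algebraMap R F π)⁻¹ * (u : F) ∉ V₁ ∧ (algebraMap R F π)⁻¹ * (v : F) ∉ V₂) :
    s34i47_LocStr π B := by
  classical
  intro n hnmax hπn
  have hnp : n.IsPrime := hnmax.isPrime
  have hone : (1 : B) ∉ n := (Ideal.ne_top_iff_one n).mp hnp.ne_top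
  by_cases h1 : ∀ x : B, (algebraMap R F π)⁻¹ * (x : F) ∈ V₁ → x ∈ n
  · by_cases h2 : ∀ x : B, (algebraMap R F π)⁻¹ * (x : F) ∈ V₂ → x ∈ n
    · -- a node
      obtain ⟨z₀, hz₀, hbr₁⟩ := hsm₁ n hnmax hπn h1
      obtain ⟨y₀, hy₀, hbr₂⟩ := hsm₂ n hnmax hπn h2
      obtain ⟨z, z', hz₂, hz'₁, hgen⟩ :=
        nl71_coords π B V₁ V₂ hB₁ hB₂ hπ₁ hsat n h1 z₀ y₀ hz₀ hy₀ hbr₁ hbr₂
          (htr n hnmax hπn h1 h2)
      obtain ⟨u, v, s, e, hs, he, huve, hu₁, hv₂⟩ := huv n hnmax hπn h1 h2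
      obtain ⟨z₁, z₁', hz₁, hz₁', hgen', ⟨κ, t, t', ht, ht', -, -, heq⟩, -, -⟩ :=
        nl71_chart_unit π B V₁ V₂ hB₁ hB₂ hπ₁ hπ₂ hV₁ hV₂ hsat n h1 h2 z z' hz₂ hz'₁ hgen
          (u : F) (v : F) ⟨1, hone, by simp⟩ ⟨1, hone, by simp⟩ e he s hs
          (by
            have := congrArg (Subtype.val) huve
            push_cast at this
            exact this) hu₁ hv₂
      exact ⟨z₁, z₁', hz₁, hz₁', hgen', Or.inr ⟨κ, t, t', ht, ht', heq⟩⟩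
    · -- only the first branch
      simp only [not_forall] at h2
      obtain ⟨y, hy₂, hyn⟩ := h2
      obtain ⟨z₀, hz₀, hbr⟩ := hsm₁ n hnmax hπn h1
      exact ⟨z₀, algebraMap R B π, hz₀, hπn,
        nl71_smooth π B V₁ V₂ hB₁ hB₂ hπ₁ hsat n y hyn hy₂ z₀ hbr, Or.inl rfl⟩
  · -- only the second branch
    simp only [not_forall] at h1
    obtain ⟨y, hy₁, hyn⟩ := h1
    have h2 : ∀ x : B, (algebraMap R F π)⁻¹ * (x : F) ∈ V₂ → x ∈ n := by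
      intro x hx
      obtain ⟨c, hc⟩ := nl71_sat_dvd π B V₁ V₂ hπ₁ hsat (y * x)
        (by
          have : (algebraMap R F π)⁻¹ * ((y * x : B) : F)
              = ((algebraMap R F π)⁻¹ * (y : F)) * (x : F) := by push_cast; ring
          rw [this]; exact V₁.mul_mem hy₁ (hB₁ _ x.2))
        (by
          have : (algebraMap R F π)⁻¹ * ((y * x : B) : F)
              = (y : F) * ((algebraMap R F π)⁻¹ * (x : F)) := by push_cast; ring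
          rw [this]; exact V₂.mul_mem (hB₂ _ y.2) hx)
      have : y * x ∈ n := by rw [hc]; exact n.mul_mem_right _ hπn
      exact (hnp.mem_or_mem this).resolve_left hyn
    obtain ⟨z₀, hz₀, hbr⟩ := hsm₂ n hnmax hπn h2
    exact ⟨z₀, algebraMap R B π, hz₀, hπn,
      nl71_smooth π B V₂ V₁ hB₂ hB₁ hπ₂ (fun x hx h2' h1' => hsat x hx h1' h2') n y hyn hy₁
        z₀ hbr, Or.inl rfl⟩

end

end Fermat.Agent.S34
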