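import Mathlib
import Fermat.Agent.S34.BranchIso99
import Fermat.Agent.S34.LocStrSF71

/-!
# S34 lab, package P3 (helper99): `(LS)` from the two branch structures (master adapter)

The hypotheses `Smooth V₁`, `Smooth V₂`, `Transv` of `nl71_locStr_sf` (helper71, literal shapes of
registry row 470) are derived here from

* the Dedekind property of the two branches `B ⧸ bi99_branch B Vᵢ π` (`bsf99_smooth`), and
* the Frobenius hypothesis `hFrob` at the nodes (`bsf99_transv`, via `nc99_node`);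

`bsf99_locStr` is the resulting form of `(LS)`: Dedekind branches + `hFrob` + `UVAt` + saturation.

`bsf99_locStr_of_base` is the **master adapter**: the chart `B'` of the good level `M'` (Dedekind
special fibre, saturated in its Gauss ring `V'`, noetherian, fraction field `E`), two embeddings
`ι₁ = α^*`, `ι₂ = β^*` of `E = F(M')` into `F = F(M)` with `Vᵢ ∩ ιᵢ E = ιᵢ V'`, `B` integral over
`ιᵢ B'`, residue degree one of `Vᵢ` over `ιᵢ V'` on `B`, the Frobenius congruence (F0)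
`∀ x ∈ V', ∃ x₁ ∈ V', π⁻¹ (ι₁ x - (ι₂ x₁) ^ a) ∈ V₂` (`a ≥ 2`), saturation of `B` in `V₁ ⊓ V₂`
and `UVAt`  ⟹  `s34i47_LocStr π B`.

All names are prefixed `bsf99_`.
-/

set_option autoImplicit false

namespace Fermat.Agent.S34

section bsf99

variable {R F : Type*} [CommRing R] [Field F] [Algebra R F]

/-- `Smooth V` (literal shape of `nl71_locStr_sf`) from the Dedekind property of the branch. -/
theorem bsf99_smooth (π : R) (B : Subalgebra R F) (V : Subring F) (hBV : ∀ x ∈ B, x ∈ V)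
    (hπV : (algebraMap R F π)⁻¹ ∉ V)
    (hV : ∀ x ∈ V, (algebraMap R F π)⁻¹ * x ∉ V → x⁻¹ ∈ V)
    [IsDedekindDomain (B ⧸ bi99_branch B V (algebraMap R F π) hBV)] :
    ∀ n : Ideal B, n.IsMaximal → algebraMap R B π ∈ n →
      (∀ x : B, (algebraMap R F π)⁻¹ * (x : F) ∈ V → x ∈ n) →
      ∃ z : B, z ∈ n ∧ ∀ x ∈ n, ∃ s : B, s ∉ n ∧ ∃ a : B,
        (algebraMap R F π)⁻¹ * ((s * x - a * z : B) : F) ∈ V := by
  intro n hn _ hOn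
  have hnp : n.IsPrime := hn.isPrime
  obtain ⟨t, ht, h⟩ := bi99_Br B V (algebraMap R F π) hBV hπV hV n hOn
  refine ⟨t, ht, fun x hx => ?_⟩
  obtain ⟨s, hs, a, hsa⟩ := h x hx
  exact ⟨s, hs, a, hsa⟩

/-- `Transv` (literal shape of `nl71_locStr_sf`) from the Dedekind property of the two branches
and the Frobenius hypothesis at the nodes. -/
theorem bsf99_transv (π : R) (B : Subalgebra R F) (V₁ V₂ : Subring F)
    (hB₁ : ∀ x ∈ B, x ∈ V₁) (hB₂ : ∀ x ∈ B, x ∈ V₂)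
    (hπ₁ : (algebraMap R F π)⁻¹ ∉ V₁) (hπ₂ : (algebraMap R F π)⁻¹ ∉ V₂)
    (hV₁ : ∀ x ∈ V₁, (algebraMap R F π)⁻¹ * x ∉ V₁ → x⁻¹ ∈ V₁)
    (hV₂ : ∀ x ∈ V₂, (algebraMap R F π)⁻¹ * x ∉ V₂ → x⁻¹ ∈ V₂)
    [IsDedekindDomain (B ⧸ bi99_branch B V₁ (algebraMap R F π) hB₁)]
    [IsDedekindDomain (B ⧸ bi99_branch B V₂ (algebraMap R F π) hB₂)]
    (a : ℕ) (ha : 2 ≤ a)
    (hFrob : ∀ n : Ideal B, n.IsMaximal → algebraMap R B π ∈ n →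
      (∀ x : B, (algebraMap R F π)⁻¹ * (x : F) ∈ V₁ → x ∈ n) →
      (∀ x : B, (algebraMap R F π)⁻¹ * (x : F) ∈ V₂ → x ∈ n) →
      ∀ x ∈ n, ∃ y c : B, (algebraMap R F π)⁻¹ * ((x - y : B) : F) ∈ V₁ ∧
        (algebraMap R F π)⁻¹ * ((y - c ^ a : B) : F) ∈ V₂) :
    ∀ n : Ideal B, n.IsMaximal → algebraMap R B π ∈ n →
      (∀ x : B, (algebraMap R F π)⁻¹ * (x : F) ∈ V₁ → x ∈ n) →
      (∀ x : B, (algebraMap R F π)⁻¹ * (x : F) ∈ V₂ → x ∈ n) →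
      ∀ x ∈ n, ∃ s : B, s ∉ n ∧ ∃ y y' : B, s * x = y + y' ∧
        (algebraMap R F π)⁻¹ * (y : F) ∈ V₁ ∧ (algebraMap R F π)⁻¹ * (y' : F) ∈ V₂ := by
  intro n hn hπn h1 h2 x hx
  have hnp : n.IsPrime := hn.isPrime
  have hp₁ : (bi99_branch B V₁ (algebraMap R F π) hB₁).IsPrime :=
    nc99_branch_prime B V₁ _ hB₁ hπ₁ hV₁ _ (bi99_mem_branch B V₁ _ hB₁)
  have hp₂ : (bi99_branch B V₂ (algebraMap R F π) hB₂).IsPrime :=
    nc99_branch_prime B V₂ _ hB₂ hπ₂ hV₂ _ (bi99_mem_branch B V₂ _ hB₂)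
  have hle₁ : bi99_branch B V₁ (algebraMap R F π) hB₁ ≤ n := fun y hy => h1 y hy
  have hle₂ : bi99_branch B V₂ (algebraMap R F π) hB₂ ≤ n := fun y hy => h2 y hy
  obtain ⟨z, z', hz₂, -, hz, -⟩ := nc99_node (bi99_branch B V₁ (algebraMap R F π) hB₁)
    (bi99_branch B V₂ (algebraMap R F π) hB₂) n hle₁ hle₂ a ha
    (fun x hx => hFrob n hn hπn h1 h2 x hx)
  obtain ⟨s, hs, x1, x2, hx1, hx2, hsx⟩ := bi99_Nd B _ _ n hle₁ z hz₂ hz x hx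
  exact ⟨s, hs, x1, x2, hsx, hx1, hx2⟩

/-- **(LS) from Dedekind branches, the Frobenius hypothesis and `UVAt`.** -/
theorem bsf99_locStr (π : R) (B : Subalgebra R F) [IsNoetherianRing B] (V₁ V₂ : Subring F)
    (hB₁ : ∀ x ∈ B, x ∈ V₁) (hB₂ : ∀ x ∈ B, x ∈ V₂)
    (hπ₁ : (algebraMap R F π)⁻¹ ∉ V₁) (hπ₂ : (algebraMap R F π)⁻¹ ∉ V₂)
    (hV₁ : ∀ x ∈ V₁, (algebraMap R F π)⁻¹ * x ∉ V₁ → x⁻¹ ∈ V₁)
    (hV₂ : ∀ x ∈ V₂, (algebraMap R F π)⁻¹ * x ∉ V₂ → x⁻¹ ∈ V₂)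
    (hsat : ∀ x ∈ B, (algebraMap R F π)⁻¹ * x ∈ V₁ → (algebraMap R F π)⁻¹ * x ∈ V₂ →
      (algebraMap R F π)⁻¹ * x ∈ B)
    [IsDedekindDomain (B ⧸ bi99_branch B V₁ (algebraMap R F π) hB₁)]
    [IsDedekindDomain (B ⧸ bi99_branch B V₂ (algebraMap R F π) hB₂)]
    (a : ℕ) (ha : 2 ≤ a)
    (hFrob : ∀ n : Ideal B, n.IsMaximal → algebraMap R B π ∈ n →
      (∀ x : B, (algebraMap R F π)⁻¹ * (x : F) ∈ V₁ → x ∈ n) →
      (∀ x : B, (algebraMap R F π)⁻¹ * (x : F) ∈ V₂ → x ∈ n) →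
      ∀ x ∈ n, ∃ y c : B, (algebraMap R F π)⁻¹ * ((x - y : B) : F) ∈ V₁ ∧
        (algebraMap R F π)⁻¹ * ((y - c ^ a : B) : F) ∈ V₂)
    (huv : ∀ n : Ideal B, n.IsMaximal → algebraMap R B π ∈ n →
      (∀ x : B, (algebraMap R F π)⁻¹ * (x : F) ∈ V₁ → x ∈ n) →
      (∀ x : B, (algebraMap R F π)⁻¹ * (x : F) ∈ V₂ → x ∈ n) →
      ∃ (u v s : B) (e : ℕ), s ∉ n ∧ 1 ≤ e ∧ u * v = algebraMap R B π ^ e * s ∧
        (algebraMap R F π)⁻¹ * (u : F) ∉ V₁ ∧ (algebraMap R F π)⁻¹ * (v : F) ∉ V₂) :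
    s34i47_LocStr π B :=
  nl71_locStr_sf π B V₁ V₂ hB₁ hB₂ hπ₁ hπ₂ hV₁ hV₂ hsat
    (bsf99_smooth π B V₁ hB₁ hπ₁ hV₁) (bsf99_smooth π B V₂ hB₂ hπ₂ hV₂)
    (bsf99_transv π B V₁ V₂ hB₁ hB₂ hπ₁ hπ₂ hV₁ hV₂ a ha hFrob) huv

end bsf99

section bsf99_base

variable {R E F : Type*} [CommRing R] [Field E] [Field F] [Algebra R E] [Algebra R F]

/-- the special fibre ideal `π B'` is the branch ideal of the Gauss ring (saturation). -/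
theorem bsf99_span_iff (π : R) (B' : Subalgebra R E) (V' : Subring E)
    (hπ0 : algebraMap R E π ≠ 0) (hB'V' : ∀ x ∈ B', x ∈ V')
    (hsat' : ∀ x ∈ B', (algebraMap R E π)⁻¹ * x ∈ V' → (algebraMap R E π)⁻¹ * x ∈ B')
    (x : B') : x ∈ Ideal.span {algebraMap R B' π} ↔ (algebraMap R E π)⁻¹ * (x : E) ∈ V' := by
  rw [Ideal.mem_span_singleton']
  constructor
  · rintro ⟨c, rfl⟩
    have h3 : (algebraMap R E π)⁻¹ * ((c * algebraMap R B' π : B') : E) = c := by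
      show (algebraMap R E π)⁻¹ * ((c : E) * algebraMap R E π) = c
      field_simp
    rw [h3]; exact hB'V' c c.2
  · intro h
    refine ⟨⟨_, hsat' x x.2 h⟩, ?_⟩
    apply Subtype.ext
    show (algebraMap R E π)⁻¹ * (x : E) * algebraMap R E π = x
    field_simp

/-- **Master adapter: (LS) from the chart of the good level and the two branch structures.** -/
theorem bsf99_locStr_of_base (π : R)
    -- the chart of the good level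
    (B' : Subalgebra R E) [IsNoetherianRing B'] (V' : Subring E)
    (hπ0 : algebraMap R E π ≠ 0) (hB'V' : ∀ x ∈ B', x ∈ V')
    (hπV' : (algebraMap R E π)⁻¹ ∉ V')
    (hsat' : ∀ x ∈ B', (algebraMap R E π)⁻¹ * x ∈ V' → (algebraMap R E π)⁻¹ * x ∈ B')
    (hfrac' : ∀ x : E, ∃ a ∈ B', ∃ b ∈ B', b ≠ 0 ∧ x * b = a)
    [IsDedekindDomain (B' ⧸ Ideal.span {algebraMap R B' π})]
    -- the chart of the bad level and its two valuation rings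
    (B : Subalgebra R F) [IsNoetherianRing B] (V₁ V₂ : Subring F)
    (hB₁ : ∀ x ∈ B, x ∈ V₁) (hB₂ : ∀ x ∈ B, x ∈ V₂)
    (hπ₁ : (algebraMap R F π)⁻¹ ∉ V₁) (hπ₂ : (algebraMap R F π)⁻¹ ∉ V₂)
    (hV₁ : ∀ x ∈ V₁, (algebraMap R F π)⁻¹ * x ∉ V₁ → x⁻¹ ∈ V₁)
    (hV₂ : ∀ x ∈ V₂, (algebraMap R F π)⁻¹ * x ∉ V₂ → x⁻¹ ∈ V₂)
    (hsat : ∀ x ∈ B, (algebraMap R F π)⁻¹ * x ∈ V₁ → (algebraMap R F π)⁻¹ * x ∈ V₂ →
      (algebraMap R F π)⁻¹ * x ∈ B)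
    -- the first branch structure (`α^*`)
    (ι₁ : E →ₐ[R] F) (hVV'₁ : ∀ x : E, ι₁ x ∈ V₁ ↔ x ∈ V')
    (f₁ : B' →+* B) (hf₁ : ∀ x : B', ((f₁ x : B) : F) = ι₁ (x : E)) (hint₁ : f₁.IsIntegral)
    (hres₁ : ∀ x ∈ B, ∃ b ∈ V', (algebraMap R F π)⁻¹ * (x - ι₁ b) ∈ V₁)
    -- the second branch structure (`β^*`)
    (ι₂ : E →ₐ[R] F) (hVV'₂ : ∀ x : E, ι₂ x ∈ V₂ ↔ x ∈ V')
    (f₂ : B' →+* B) (hf₂ : ∀ x : B', ((f₂ x : B) : F) = ι₂ (x : E)) (hint₂ : f₂.IsIntegral)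
    (hres₂ : ∀ x ∈ B, ∃ b ∈ V', (algebraMap R F π)⁻¹ * (x - ι₂ b) ∈ V₂)
    -- the Frobenius congruence (F0)
    (a : ℕ) (ha : 2 ≤ a)
    (hF0 : ∀ x ∈ V', ∃ x₁ ∈ V', (algebraMap R F π)⁻¹ * (ι₁ x - (ι₂ x₁) ^ a) ∈ V₂)
    -- `UVAt`
    (huv : ∀ n : Ideal B, n.IsMaximal → algebraMap R B π ∈ n →
      (∀ x : B, (algebraMap R F π)⁻¹ * (x : F) ∈ V₁ → x ∈ n) →
      (∀ x : B, (algebraMap R F π)⁻¹ * (x : F) ∈ V₂ → x ∈ n) →
      ∃ (u v s : B) (e : ℕ), s ∉ n ∧ 1 ≤ e ∧ u * v = algebraMap R B π ^ e * s ∧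
        (algebraMap R F π)⁻¹ * (u : F) ∉ V₁ ∧ (algebraMap R F π)⁻¹ * (v : F) ∉ V₂) :
    s34i47_LocStr π B := by
  have hI := bsf99_span_iff π B' V' hπ0 hB'V' hsat'
  have hloc' := bi99_loc B' V' (algebraMap R E π) hπ0 hB'V' hsat' hfrac'
    (bi99_harch B' V' (algebraMap R E π) hπ0 (B'.algebraMap_mem π) hB'V' hπV' hsat')
  obtain ⟨hD₁, -, hsurj₁⟩ := bi99_main B' V' (algebraMap R E π) (ι₁ : E →+* F) B V₁ hB'V'
    (Ideal.span {algebraMap R B' π}) hI hloc' (algebraMap R F π) (ι₁.commutes π) hB₁ hπ₁ hV₁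
    hVV'₁ f₁ hf₁ hint₁ hres₁ (bi99_branch B V₁ (algebraMap R F π) hB₁)
    (bi99_mem_branch B V₁ _ hB₁)
  obtain ⟨hD₂, -, -⟩ := bi99_main B' V' (algebraMap R E π) (ι₂ : E →+* F) B V₂ hB'V'
    (Ideal.span {algebraMap R B' π}) hI hloc' (algebraMap R F π) (ι₂.commutes π) hB₂ hπ₂ hV₂
    hVV'₂ f₂ hf₂ hint₂ hres₂ (bi99_branch B V₂ (algebraMap R F π) hB₂)
    (bi99_mem_branch B V₂ _ hB₂)
  have hp₂ : (bi99_branch B V₂ (algebraMap R F π) hB₂).IsPrime :=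
    nc99_branch_prime B V₂ _ hB₂ hπ₂ hV₂ _ (bi99_mem_branch B V₂ _ hB₂)
  refine bsf99_locStr π B V₁ V₂ hB₁ hB₂ hπ₁ hπ₂ hV₁ hV₂ hsat a ha ?_ huv
  intro n _ _ _ _ x _
  exact bi99_hFrob B' V' (algebraMap R E π) B hB'V' hloc' V₂ (algebraMap R F π) hB₂ hV₂
    (ι₁ : E →+* F) (ι₂ : E →+* F) (ι₂.commutes π) hVV'₂ f₁ f₂ hf₁ hf₂
    (bi99_branch B V₁ (algebraMap R F π) hB₁) (bi99_branch B V₂ (algebraMap R F π) hB₂)
    (bi99_mem_branch B V₂ _ hB₂) hsurj₁ a (by omega) hF0 x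

end bsf99_base

end Fermat.Agent.S34
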