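import Fermat.Agent.S34.BranchZeroInst13
import Fermat.Agent.S37.KroneckerFrob50

/-!
# S34 lab, row 523 twin (helper13): separating elements of the two branches

Canonical data of `Iface47c` at level `M' * q` (`q ∤ M'`, residue characteristic `q`):
`V_∞ = cm85_Vinf (M' * q) hπ`, `w = bz13_w M' q hq hM'`, `V_0 = s34i47c_V0 M' q hq hM' hπ`,
`h` an admissible Hauptmodul, `g := w h = h(Q^q)`, `p := algebraMap R F π`.

* `bs13_core` (any level `M`): for `x, x' ∈ F(M)_K` with `x = s` an `R`-integral series and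
  `x' = x(Q^q)`: `p⁻¹ (x' - x^q) ∈ V_∞ ↔ s̄(Q^q) = s̄^q` and `p⁻¹ (x - x'^q) ∈ V_∞ ↔ s̄ = s̄(Q^q)^q`.
* `bs13_sep` : the four separating elements
  `g - h^q ∈ (p_∞ ∖ p_0) ∩ B₁`, `h - g^q ∈ (p_0 ∖ p_∞) ∩ B₁`,
  `g⁻¹ - (h⁻¹)^q ∈ (p_∞ ∖ p_0) ∩ B₂`, `h⁻¹ - (g⁻¹)^q ∈ (p_0 ∖ p_∞) ∩ B₂`
  for `B₁ = pk15_chart R {h}`, `B₂ = pk15_chart R {h⁻¹}`.
* `bs13_hw` : the witnesses `hw₁`, `hw₂` of `lsw58_exists_locStrW` (and the `c` of `tv66_transv'`)
  LITERALLY, for both charts.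
* `bs13_br_not_le` : the branch ideals `sf79_br` are incomparable in both charts.

All names are prefixed `bs13_`.
-/

set_option autoImplicit false
set_option linter.unusedSectionVars false
set_option linter.style.haveILetI false

open ModularCurve

namespace Fermat.Agent.S34

open Fermat.Agent.S18

section bs13_series

variable (κ : Type*) [Field κ] (q : ℕ) [NeZero q]

/-- In characteristic `q`, a `q`-th power has no coefficient at an index prime to `q`. -/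
theorem bs13_pow_coeff (hq : q.Prime) (hchar : (q : κ) = 0) (z : LaurentSeries κ) {k : ℤ}
    (hk : ¬ (q : ℤ) ∣ k) : (z ^ q).coeff k = 0 := by
  haveI : Fact q.Prime := ⟨hq⟩
  haveI : CharP κ q := (CharP.charP_iff_prime_eq_zero hq).mpr hchar
  rw [Fermat.Agent.S37.kr50_pow_char q z, qExpand_coeff_of_not_dvd q _ hk]

theorem bs13_not_dvd_neg_one (hq : q.Prime) : ¬ (q : ℤ) ∣ (-1 : ℤ) := by
  intro hd
  have h2 : (q : ℤ) ∣ 1 := (dvd_neg).mp hd
  have h3 : q ∣ 1 := by exact_mod_cast h2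
  exact hq.one_lt.ne' (Nat.dvd_one.mp h3)

/-- A series with nonzero coefficient at `-1` is not a `q`-th power. -/
theorem bs13_ne_pow (hq : q.Prime) (hchar : (q : κ) = 0) (s z : LaurentSeries κ)
    (hs : s.coeff (-1) ≠ 0) : s ≠ z ^ q := by
  intro h
  apply hs
  rw [h]
  exact bs13_pow_coeff κ q hq hchar z (bs13_not_dvd_neg_one q hq)

/-- Passing to the inverse series. -/
theorem bs13_ne_pow_inv (s t : LaurentSeries κ) (hst : s * t = 1)
    (hs : s ≠ (qExpand κ q s) ^ q) : t ≠ (qExpand κ q t) ^ q := by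
  intro ht
  apply hs
  have h1 : (qExpand κ q s) ^ q * (qExpand κ q t) ^ q = 1 := by
    rw [← mul_pow, ← map_mul, hst, map_one, one_pow]
  calc s = s * ((qExpand κ q s) ^ q * (qExpand κ q t) ^ q) := by rw [h1, mul_one]
    _ = (s * t) * (qExpand κ q s) ^ q := by rw [← ht]; ring
    _ = (qExpand κ q s) ^ q := by rw [hst, one_mul]

/-- level 2: `h̄^q = h̄(Q^q)` in characteristic `q`. -/
theorem bs13_h2_pow (hq : q.Prime) (hchar : (q : κ) = 0) :
    (h70_h2 κ) ^ q = qExpand κ q (h70_h2 κ) := by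
  haveI : Fact q.Prime := ⟨hq⟩
  haveI : CharP κ q := (CharP.charP_iff_prime_eq_zero hq).mpr hchar
  rw [Fermat.Agent.S37.kr50_pow_char q (h70_h2 κ), h70_coeffMap_h2]

theorem bs13_h2inv_pow (hq : q.Prime) (hchar : (q : κ) = 0) :
    (h70_h2inv κ) ^ q = qExpand κ q (h70_h2inv κ) := by
  haveI : Fact q.Prime := ⟨hq⟩
  haveI : CharP κ q := (CharP.charP_iff_prime_eq_zero hq).mpr hchar
  rw [Fermat.Agent.S37.kr50_pow_char q (h70_h2inv κ), h70_coeffMap_h2inv]

/-- level 3: `h̄^q = h̄(Q^q)` in characteristic `q`. -/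
theorem bs13_h3_pow (hq : q.Prime) (hchar : (q : κ) = 0) :
    (h34_h3R κ) ^ q = qExpand κ q (h34_h3R κ) := by
  haveI : Fact q.Prime := ⟨hq⟩
  haveI : CharP κ q := (CharP.charP_iff_prime_eq_zero hq).mpr hchar
  rw [Fermat.Agent.S37.kr50_pow_char q (h34_h3R κ), h34_coeffMap_h3R]

theorem bs13_h3inv_pow (hq : q.Prime) (hchar : (q : κ) = 0) :
    (h34_h3Rinv κ) ^ q = qExpand κ q (h34_h3Rinv κ) := by
  haveI : Fact q.Prime := ⟨hq⟩
  haveI : CharP κ q := (CharP.charP_iff_prime_eq_zero hq).mpr hchar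
  rw [Fermat.Agent.S37.kr50_pow_char q (h34_h3Rinv κ), h34_coeffMap_h3Rinv]

/-- The coefficient at `-1` of `Q⁻¹ · u`. -/
theorem bs13_pole_coeff (u : PowerSeries κ) :
    (HahnSeries.single (-1 : ℤ) (1 : κ) * HahnSeries.ofPowerSeries ℤ κ u).coeff (-1) =
      PowerSeries.constantCoeff u := by
  have h := HahnSeries.coeff_single_mul_add (r := (1 : κ))
    (x := HahnSeries.ofPowerSeries ℤ κ u) (a := 0) (b := -1)
  rw [zero_add] at h
  rw [h, one_mul]
  have h2 := PowerSeries.coeff_coe (R := κ) u 0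
  simpa using h2

theorem bs13_h2_coeff : (h70_h2 κ).coeff (-1) = 1 := by
  rw [h70_h2_eq_pole, bs13_pole_coeff, ← PowerSeries.coeff_zero_eq_constantCoeff_apply,
    PowerSeries.coeff_map, PowerSeries.coeff_zero_eq_constantCoeff_apply, h70_constantCoeff_u2,
    map_one]

theorem bs13_h3_coeff : (h34_h3R κ).coeff (-1) = 1 := by
  rw [h34_h3R_eq_pole, bs13_pole_coeff, ← PowerSeries.coeff_zero_eq_constantCoeff_apply,
    PowerSeries.coeff_map, PowerSeries.coeff_zero_eq_constantCoeff_apply, h34_constantCoeff_u,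
    map_one]

end bs13_series

section bs13_core

variable {R K : Type} [CommRing R] [IsDomain R] [IsDiscreteValuationRing R] [Field K]
  [Algebra R K] [IsFractionRing R K] (M : ℕ) [NeZero M] (q : ℕ) [NeZero q]
  [Algebra R ↥(modularFunctionFieldFullC K M)]
  [IsScalarTower R K ↥(modularFunctionFieldFullC K M)]
  {π : R} (hπ : Irreducible π)

/-- **Gauss criterion for the two Frobenius differences** (any level `M`). -/
theorem bs13_core (x x' : ↥(modularFunctionFieldFullC K M)) (s : LaurentSeries R)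
    (hx : (x : LaurentSeries K) = coeffMap (algebraMap R K) s)
    (hx' : (x' : LaurentSeries K) = qExpand K q (x : LaurentSeries K)) :
    ((algebraMap R ↥(modularFunctionFieldFullC K M) π)⁻¹ * (x' - x ^ q) ∈
        cm85_Vinf (K := K) M hπ ↔
      qExpand (IsLocalRing.ResidueField R) q (coeffMap (IsLocalRing.residue R) s) =
        (coeffMap (IsLocalRing.residue R) s) ^ q) ∧
    ((algebraMap R ↥(modularFunctionFieldFullC K M) π)⁻¹ * (x - x' ^ q) ∈
        cm85_Vinf (K := K) M hπ ↔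
      coeffMap (IsLocalRing.residue R) s =
        (qExpand (IsLocalRing.ResidueField R) q (coeffMap (IsLocalRing.residue R) s)) ^ q) := by
  constructor
  · have h1 : ((x' - x ^ q : ↥(modularFunctionFieldFullC K M)) : LaurentSeries K) =
        coeffMap (algebraMap R K) (qExpand R q s - s ^ q) := by
      rw [map_sub, map_pow, coeffMap_qExpand, ← hx, ← hx']
      rfl
    have h2 := (pk85_gauss M hπ _ _ h1).2
    rw [map_sub, map_pow, coeffMap_qExpand, sub_eq_zero] at h2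
    exact h2
  · have h1 : ((x - x' ^ q : ↥(modularFunctionFieldFullC K M)) : LaurentSeries K) =
        coeffMap (algebraMap R K) (s - (qExpand R q s) ^ q) := by
      rw [map_sub, map_pow, coeffMap_qExpand, ← hx, ← hx']
      rfl
    have h2 := (pk85_gauss M hπ _ _ h1).2
    rw [map_sub, map_pow, coeffMap_qExpand, sub_eq_zero] at h2
    exact h2

end bs13_core

section bs13_inst

variable {R K : Type} [CommRing R] [IsDomain R] [IsDiscreteValuationRing R] [Field K]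
  [CharZero K] [Algebra R K] [IsFractionRing R K] [Algebra K (AlgebraicClosure ℚ)]
  (M' q : ℕ) [NeZero M'] [NeZero q] (hq : q.Prime) (hM' : ¬ q ∣ M')
  {π : R} (hπ : Irreducible π)

theorem bs13_w_w (x : ↥(modularFunctionFieldFullC K (M' * q))) :
    bz13_w M' q hq hM' (bz13_w M' q hq hM' x) = x :=
  al97L_w_w (algebraMap K (AlgebraicClosure ℚ)) M' q hq hM' x

/-- The residue characteristic is `q`. -/
theorem bs13_char (hqR : ¬ IsUnit (q : R)) : (q : IsLocalRing.ResidueField R) = 0 := by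
  have h := (IsLocalRing.residue_eq_zero_iff (q : R)).mpr
    ((IsLocalRing.mem_maximalIdeal (q : R)).mpr hqR)
  simpa using h

variable [Algebra R ↥(modularFunctionFieldFullC K (M' * q))]
  [IsScalarTower R K ↥(modularFunctionFieldFullC K (M' * q))]

/-- Membership in `V_0` through `w`. -/
theorem bs13_mem_V0 (x : ↥(modularFunctionFieldFullC K (M' * q))) :
    x ∈ s34i47c_V0 (K := K) M' q hq hM' hπ ↔
      bz13_w M' q hq hM' x ∈ cm85_Vinf (K := K) (M' * q) hπ := Iff.rfl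

theorem bs13_w_diff (a b : ↥(modularFunctionFieldFullC K (M' * q))) :
    bz13_w M' q hq hM' ((algebraMap R ↥(modularFunctionFieldFullC K (M' * q)) π)⁻¹ *
        (a - b ^ q)) =
      (algebraMap R ↥(modularFunctionFieldFullC K (M' * q)) π)⁻¹ *
        (bz13_w M' q hq hM' a - (bz13_w M' q hq hM' b) ^ q) := by
  rw [map_mul, map_inv₀, bz13_w_algebraMap, map_sub, map_pow]

/-- **The separating pair of a Frobenius-compatible element** `x` with `w x = x(Q^q)`:
`w x - x^q ∈ π V_∞ ∖ π V_0` and `x - (w x)^q ∈ π V_0 ∖ π V_∞`. -/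
theorem bs13_pair (x : ↥(modularFunctionFieldFullC K (M' * q))) (s : LaurentSeries R)
    (hx : (x : LaurentSeries K) = coeffMap (algebraMap R K) s)
    (hg : ((bz13_w M' q hq hM' x : ↥(modularFunctionFieldFullC K (M' * q))) : LaurentSeries K) =
      qExpand K q (x : LaurentSeries K))
    (hpow : (coeffMap (IsLocalRing.residue R) s) ^ q =
      qExpand (IsLocalRing.ResidueField R) q (coeffMap (IsLocalRing.residue R) s))
    (hne : coeffMap (IsLocalRing.residue R) s ≠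
      (qExpand (IsLocalRing.ResidueField R) q (coeffMap (IsLocalRing.residue R) s)) ^ q) :
    ((algebraMap R ↥(modularFunctionFieldFullC K (M' * q)) π)⁻¹ *
          (bz13_w M' q hq hM' x - x ^ q) ∈ cm85_Vinf (K := K) (M' * q) hπ ∧
      (algebraMap R ↥(modularFunctionFieldFullC K (M' * q)) π)⁻¹ *
          (bz13_w M' q hq hM' x - x ^ q) ∉ s34i47c_V0 (K := K) M' q hq hM' hπ) ∧
    ((algebraMap R ↥(modularFunctionFieldFullC K (M' * q)) π)⁻¹ *
          (x - (bz13_w M' q hq hM' x) ^ q) ∈ s34i47c_V0 (K := K) M' q hq hM' hπ ∧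
      (algebraMap R ↥(modularFunctionFieldFullC K (M' * q)) π)⁻¹ *
          (x - (bz13_w M' q hq hM' x) ^ q) ∉ cm85_Vinf (K := K) (M' * q) hπ) := by
  obtain ⟨c1, c2⟩ := bs13_core (M' * q) q hπ x (bz13_w M' q hq hM' x) s hx hg
  have e1 : bz13_w M' q hq hM' ((algebraMap R ↥(modularFunctionFieldFullC K (M' * q)) π)⁻¹ *
        (bz13_w M' q hq hM' x - x ^ q)) =
      (algebraMap R ↥(modularFunctionFieldFullC K (M' * q)) π)⁻¹ *
        (x - (bz13_w M' q hq hM' x) ^ q) := by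
    rw [bs13_w_diff, bs13_w_w]
  have e2 : bz13_w M' q hq hM' ((algebraMap R ↥(modularFunctionFieldFullC K (M' * q)) π)⁻¹ *
        (x - (bz13_w M' q hq hM' x) ^ q)) =
      (algebraMap R ↥(modularFunctionFieldFullC K (M' * q)) π)⁻¹ *
        (bz13_w M' q hq hM' x - x ^ q) := by
    rw [bs13_w_diff, bs13_w_w]
  refine ⟨⟨c1.mpr hpow.symm, ?_⟩, ?_, fun h => hne (c2.mp h)⟩
  · rw [bs13_mem_V0, e1]
    exact fun h => hne (c2.mp h)
  · rw [bs13_mem_V0, e2]
    exact c1.mpr hpow.symm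

include hq in
/-- The series data of an admissible Hauptmodul: integral models of `h` and `h⁻¹` whose
reductions are Frobenius-compatible and are not `q`-th powers of their own `Q ↦ Q^q`
substitution. -/
theorem bs13_haupt_data (hqR : ¬ IsUnit (q : R))
    (h : ↥(modularFunctionFieldFullC K (M' * q))) (hh : s34i47c_IsHaupt K (M' * q) q h) :
    ∃ s t : LaurentSeries R,
      (h : LaurentSeries K) = coeffMap (algebraMap R K) s ∧
      ((h⁻¹ : ↥(modularFunctionFieldFullC K (M' * q))) : LaurentSeries K) =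
        coeffMap (algebraMap R K) t ∧
      (coeffMap (IsLocalRing.residue R) s) ^ q =
        qExpand (IsLocalRing.ResidueField R) q (coeffMap (IsLocalRing.residue R) s) ∧
      (coeffMap (IsLocalRing.residue R) t) ^ q =
        qExpand (IsLocalRing.ResidueField R) q (coeffMap (IsLocalRing.residue R) t) ∧
      coeffMap (IsLocalRing.residue R) s ≠
        (qExpand (IsLocalRing.ResidueField R) q (coeffMap (IsLocalRing.residue R) s)) ^ q ∧
      coeffMap (IsLocalRing.residue R) t ≠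
        (qExpand (IsLocalRing.ResidueField R) q (coeffMap (IsLocalRing.residue R) t)) ^ q := by
  have hchar := bs13_char (R := R) q hqR
  have hinv : ((h⁻¹ : ↥(modularFunctionFieldFullC K (M' * q))) : LaurentSeries K) =
      (h : LaurentSeries K)⁻¹ := rfl
  rcases hh with ⟨hq2, h2, rfl⟩ | ⟨hq3, h3, rfl⟩
  · have hne : h70_h2 (IsLocalRing.ResidueField R) ≠
        (qExpand (IsLocalRing.ResidueField R) q (h70_h2 (IsLocalRing.ResidueField R))) ^ q :=
      bs13_ne_pow _ q hq hchar _ _ (by rw [bs13_h2_coeff]; exact one_ne_zero)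
    refine ⟨h70_h2 R, h70_h2inv R, ?_, ?_, ?_, ?_, ?_, ?_⟩
    · rw [pk85_h2_coe, h70_coeffMap_h2]
    · rw [hinv, pk85_h2_coe, h70_coeffMap_h2inv, h70_h2inv_eq_inv]
    · rw [h70_coeffMap_h2]; exact bs13_h2_pow _ q hq hchar
    · rw [h70_coeffMap_h2inv]; exact bs13_h2inv_pow _ q hq hchar
    · rw [h70_coeffMap_h2]; exact hne
    · rw [h70_coeffMap_h2inv]
      exact bs13_ne_pow_inv _ q _ _ (h70_h2_mul_h2inv _) hne
  · have hne : h34_h3R (IsLocalRing.ResidueField R) ≠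
        (qExpand (IsLocalRing.ResidueField R) q (h34_h3R (IsLocalRing.ResidueField R))) ^ q :=
      bs13_ne_pow _ q hq hchar _ _ (by rw [bs13_h3_coeff]; exact one_ne_zero)
    refine ⟨h34_h3R R, h34_h3Rinv R, ?_, ?_, ?_, ?_, ?_, ?_⟩
    · rw [pk85_h3_coe, h34_coeffMap_h3R]
    · rw [hinv, pk85_h3_coe, h34_coeffMap_h3Rinv, h34_h3Rinv_eq_inv]
    · rw [h34_coeffMap_h3R]; exact bs13_h3_pow _ q hq hchar
    · rw [h34_coeffMap_h3Rinv]; exact bs13_h3inv_pow _ q hq hchar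
    · rw [h34_coeffMap_h3R]; exact hne
    · rw [h34_coeffMap_h3Rinv]
      exact bs13_ne_pow_inv _ q _ _ (h34_h3R_mul_inv _) hne

/-- **Separating elements of the two branches in both charts** (row 523).
With `g = w h = h(Q^q)` and `p = π`:
`g - h^q ∈ B₁`, `p⁻¹ (g - h^q) ∈ V_∞ ∖ V_0`; `h - g^q ∈ B₁`, `p⁻¹ (h - g^q) ∈ V_0 ∖ V_∞`;
`g⁻¹ - (h⁻¹)^q ∈ B₂`, `p⁻¹ (g⁻¹ - (h⁻¹)^q) ∈ V_∞ ∖ V_0`; `h⁻¹ - (g⁻¹)^q ∈ B₂`,
`p⁻¹ (h⁻¹ - (g⁻¹)^q) ∈ V_0 ∖ V_∞`. -/
theorem bs13_sep (hunit : ∀ n : ℕ, Nat.Coprime n q → IsUnit (n : R)) (hqR : ¬ IsUnit (q : R))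
    (h : ↥(modularFunctionFieldFullC K (M' * q))) (hh : s34i47c_IsHaupt K (M' * q) q h) :
    (bz13_w M' q hq hM' h - h ^ q ∈
        pk15_chart R ({h} : Set ↥(modularFunctionFieldFullC K (M' * q))) ∧
      (algebraMap R ↥(modularFunctionFieldFullC K (M' * q)) π)⁻¹ *
          (bz13_w M' q hq hM' h - h ^ q) ∈ cm85_Vinf (K := K) (M' * q) hπ ∧
      (algebraMap R ↥(modularFunctionFieldFullC K (M' * q)) π)⁻¹ *
          (bz13_w M' q hq hM' h - h ^ q) ∉ s34i47c_V0 (K := K) M' q hq hM' hπ) ∧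
    (h - (bz13_w M' q hq hM' h) ^ q ∈
        pk15_chart R ({h} : Set ↥(modularFunctionFieldFullC K (M' * q))) ∧
      (algebraMap R ↥(modularFunctionFieldFullC K (M' * q)) π)⁻¹ *
          (h - (bz13_w M' q hq hM' h) ^ q) ∈ s34i47c_V0 (K := K) M' q hq hM' hπ ∧
      (algebraMap R ↥(modularFunctionFieldFullC K (M' * q)) π)⁻¹ *
          (h - (bz13_w M' q hq hM' h) ^ q) ∉ cm85_Vinf (K := K) (M' * q) hπ) ∧
    ((bz13_w M' q hq hM' h)⁻¹ - h⁻¹ ^ q ∈
        pk15_chart R ({h⁻¹} : Set ↥(modularFunctionFieldFullC K (M' * q))) ∧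
      (algebraMap R ↥(modularFunctionFieldFullC K (M' * q)) π)⁻¹ *
          ((bz13_w M' q hq hM' h)⁻¹ - h⁻¹ ^ q) ∈ cm85_Vinf (K := K) (M' * q) hπ ∧
      (algebraMap R ↥(modularFunctionFieldFullC K (M' * q)) π)⁻¹ *
          ((bz13_w M' q hq hM' h)⁻¹ - h⁻¹ ^ q) ∉ s34i47c_V0 (K := K) M' q hq hM' hπ) ∧
    (h⁻¹ - (bz13_w M' q hq hM' h)⁻¹ ^ q ∈
        pk15_chart R ({h⁻¹} : Set ↥(modularFunctionFieldFullC K (M' * q))) ∧
      (algebraMap R ↥(modularFunctionFieldFullC K (M' * q)) π)⁻¹ *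
          (h⁻¹ - (bz13_w M' q hq hM' h)⁻¹ ^ q) ∈ s34i47c_V0 (K := K) M' q hq hM' hπ ∧
      (algebraMap R ↥(modularFunctionFieldFullC K (M' * q)) π)⁻¹ *
          (h⁻¹ - (bz13_w M' q hq hM' h)⁻¹ ^ q) ∉ cm85_Vinf (K := K) (M' * q) hπ) := by
  obtain ⟨s, t, hs, ht, hsp, htp, hsn, htn⟩ := bs13_haupt_data (R := R) M' q hq hqR h hh
  have hg := bz13_w_haupt M' q hq hM' h hh
  have hg' : ((bz13_w M' q hq hM' h⁻¹ : ↥(modularFunctionFieldFullC K (M' * q))) :
      LaurentSeries K) = qExpand K q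
        ((h⁻¹ : ↥(modularFunctionFieldFullC K (M' * q))) : LaurentSeries K) := by
    rw [map_inv₀]
    have e1 : (((bz13_w M' q hq hM' h)⁻¹ : ↥(modularFunctionFieldFullC K (M' * q))) :
        LaurentSeries K) = ((bz13_w M' q hq hM' h : ↥(modularFunctionFieldFullC K (M' * q))) :
        LaurentSeries K)⁻¹ := rfl
    have e2 : ((h⁻¹ : ↥(modularFunctionFieldFullC K (M' * q))) : LaurentSeries K) =
        (h : LaurentSeries K)⁻¹ := rfl
    rw [e1, e2, hg, map_inv₀]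
  obtain ⟨⟨a1, a2⟩, a3, a4⟩ := bs13_pair M' q hq hM' hπ h s hs hg hsp hsn
  obtain ⟨⟨b1, b2⟩, b3, b4⟩ := bs13_pair M' q hq hM' hπ h⁻¹ t ht hg' htp htn
  rw [map_inv₀] at b1 b2 b3 b4
  obtain ⟨hB1, hB2, -⟩ := bz13_charts_stable (R := R) M' q hq hM' hunit h hh
  have m1 : h ∈ pk15_chart R ({h} : Set ↥(modularFunctionFieldFullC K (M' * q))) :=
    pk15_subset_chart _ rfl
  have m2 : bz13_w M' q hq hM' h ∈
      pk15_chart R ({h} : Set ↥(modularFunctionFieldFullC K (M' * q))) := (hB1 h).mpr m1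
  have m3 : h⁻¹ ∈ pk15_chart R ({h⁻¹} : Set ↥(modularFunctionFieldFullC K (M' * q))) :=
    pk15_subset_chart _ rfl
  have m4 : (bz13_w M' q hq hM' h)⁻¹ ∈
      pk15_chart R ({h⁻¹} : Set ↥(modularFunctionFieldFullC K (M' * q))) := by
    have := (hB2 h⁻¹).mpr m3
    rwa [map_inv₀] at this
  exact ⟨⟨Subalgebra.sub_mem _ m2 (Subalgebra.pow_mem _ m1 q), a1, a2⟩,
    ⟨Subalgebra.sub_mem _ m1 (Subalgebra.pow_mem _ m2 q), a3, a4⟩,
    ⟨Subalgebra.sub_mem _ m4 (Subalgebra.pow_mem _ m3 q), b1, b2⟩,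
    ⟨Subalgebra.sub_mem _ m3 (Subalgebra.pow_mem _ m4 q), b3, b4⟩⟩

/-- **The witnesses `hw₁`, `hw₂` of `lsw58_exists_locStrW`** (and the element `c` of
`tv66_transv'`) LITERALLY, for both charts of an admissible Hauptmodul at the canonical data. -/
theorem bs13_hw (hunit : ∀ n : ℕ, Nat.Coprime n q → IsUnit (n : R)) (hqR : ¬ IsUnit (q : R))
    (h : ↥(modularFunctionFieldFullC K (M' * q))) (hh : s34i47c_IsHaupt K (M' * q) q h) :
    ((∃ y : pk15_chart R ({h} : Set ↥(modularFunctionFieldFullC K (M' * q))),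
        (algebraMap R ↥(modularFunctionFieldFullC K (M' * q)) π)⁻¹ *
            (y : ↥(modularFunctionFieldFullC K (M' * q))) ∈
          (cm85_Vinf (K := K) (M' * q) hπ).toSubring ∧
        (algebraMap R ↥(modularFunctionFieldFullC K (M' * q)) π)⁻¹ *
            (y : ↥(modularFunctionFieldFullC K (M' * q))) ∉
          (s34i47c_V0 (K := K) M' q hq hM' hπ).toSubring) ∧
      (∃ y : pk15_chart R ({h} : Set ↥(modularFunctionFieldFullC K (M' * q))),
        (algebraMap R ↥(modularFunctionFieldFullC K (M' * q)) π)⁻¹ *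
            (y : ↥(modularFunctionFieldFullC K (M' * q))) ∈
          (s34i47c_V0 (K := K) M' q hq hM' hπ).toSubring ∧
        (algebraMap R ↥(modularFunctionFieldFullC K (M' * q)) π)⁻¹ *
            (y : ↥(modularFunctionFieldFullC K (M' * q))) ∉
          (cm85_Vinf (K := K) (M' * q) hπ).toSubring)) ∧
    ((∃ y : pk15_chart R ({h⁻¹} : Set ↥(modularFunctionFieldFullC K (M' * q))),
        (algebraMap R ↥(modularFunctionFieldFullC K (M' * q)) π)⁻¹ *
            (y : ↥(modularFunctionFieldFullC K (M' * q))) ∈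
          (cm85_Vinf (K := K) (M' * q) hπ).toSubring ∧
        (algebraMap R ↥(modularFunctionFieldFullC K (M' * q)) π)⁻¹ *
            (y : ↥(modularFunctionFieldFullC K (M' * q))) ∉
          (s34i47c_V0 (K := K) M' q hq hM' hπ).toSubring) ∧
      (∃ y : pk15_chart R ({h⁻¹} : Set ↥(modularFunctionFieldFullC K (M' * q))),
        (algebraMap R ↥(modularFunctionFieldFullC K (M' * q)) π)⁻¹ *
            (y : ↥(modularFunctionFieldFullC K (M' * q))) ∈
          (s34i47c_V0 (K := K) M' q hq hM' hπ).toSubring ∧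
        (algebraMap R ↥(modularFunctionFieldFullC K (M' * q)) π)⁻¹ *
            (y : ↥(modularFunctionFieldFullC K (M' * q))) ∉
          (cm85_Vinf (K := K) (M' * q) hπ).toSubring)) := by
  obtain ⟨⟨m1, a1, a2⟩, ⟨m2, a3, a4⟩, ⟨m3, b1, b2⟩, ⟨m4, b3, b4⟩⟩ :=
    bs13_sep (R := R) M' q hq hM' hπ hunit hqR h hh
  exact ⟨⟨⟨⟨_, m1⟩, a1, a2⟩, ⟨⟨_, m2⟩, a3, a4⟩⟩, ⟨⟨⟨_, m3⟩, b1, b2⟩, ⟨⟨_, m4⟩, b3, b4⟩⟩⟩

/-- **The two branch ideals are incomparable** in both charts (`hne₁₂`, `hne₂₁` of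
`lsw58_locStrW` / `lsw77_locStrW` for the branch ideals `sf79_br`). -/
theorem bs13_br_not_le (hunit : ∀ n : ℕ, Nat.Coprime n q → IsUnit (n : R))
    (hqR : ¬ IsUnit (q : R))
    (h : ↥(modularFunctionFieldFullC K (M' * q))) (hh : s34i47c_IsHaupt K (M' * q) q h) :
    (∀ (hB₁ : ∀ x ∈ pk15_chart R ({h} : Set ↥(modularFunctionFieldFullC K (M' * q))),
          x ∈ (cm85_Vinf (K := K) (M' * q) hπ).toSubring)
        (hB₂ : ∀ x ∈ pk15_chart R ({h} : Set ↥(modularFunctionFieldFullC K (M' * q))),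
          x ∈ (s34i47c_V0 (K := K) M' q hq hM' hπ).toSubring),
        ¬ sf79_br π _ _ hB₁ ≤ sf79_br π _ _ hB₂ ∧ ¬ sf79_br π _ _ hB₂ ≤ sf79_br π _ _ hB₁) ∧
    (∀ (hB₁ : ∀ x ∈ pk15_chart R ({h⁻¹} : Set ↥(modularFunctionFieldFullC K (M' * q))),
          x ∈ (cm85_Vinf (K := K) (M' * q) hπ).toSubring)
        (hB₂ : ∀ x ∈ pk15_chart R ({h⁻¹} : Set ↥(modularFunctionFieldFullC K (M' * q))),
          x ∈ (s34i47c_V0 (K := K) M' q hq hM' hπ).toSubring),
        ¬ sf79_br π _ _ hB₁ ≤ sf79_br π _ _ hB₂ ∧ ¬ sf79_br π _ _ hB₂ ≤ sf79_br π _ _ hB₁) := by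
  obtain ⟨⟨⟨y1, a1, a2⟩, ⟨y2, a3, a4⟩⟩, ⟨⟨y3, b1, b2⟩, ⟨y4, b3, b4⟩⟩⟩ :=
    bs13_hw (R := R) M' q hq hM' hπ hunit hqR h hh
  refine ⟨fun hB₁ hB₂ => ⟨fun hle => a2 ?_, fun hle => a4 ?_⟩,
    fun hB₁ hB₂ => ⟨fun hle => b2 ?_, fun hle => b4 ?_⟩⟩
  · exact (sf79_mem_br π _ _ hB₂ y1).mp (hle ((sf79_mem_br π _ _ hB₁ y1).mpr a1))
  · exact (sf79_mem_br π _ _ hB₁ y2).mp (hle ((sf79_mem_br π _ _ hB₂ y2).mpr a3))
  · exact (sf79_mem_br π _ _ hB₂ y3).mp (hle ((sf79_mem_br π _ _ hB₁ y3).mpr b1))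
  · exact (sf79_mem_br π _ _ hB₁ y4).mp (hle ((sf79_mem_br π _ _ hB₂ y4).mpr b3))

end bs13_inst

end Fermat.Agent.S34
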