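import Fermat.Agent.S34.ModPolySwap78
import Fermat.Agent.S28.CharL
import Fermat.Agent.S37.Kronecker87

/-!
# S34 lab, row 486 part (B), twin (helper78): the shape of the modular equation of prime level

`mps78_modEq p hp`: the modular equation `Φ` of `kc87_exists` (monic of degree `p + 1` in the
outer variable, `Φ(J(q^p); J) = 0`, `Φ(J; J(q^p)) = 0`, Kronecker congruence
`Φ = (X - Y^p)(X^p - Y) + p Ψ`) is swap-symmetric up to sign, hence every monomial
`X^a Y^b` of `Φ` (coefficient `(Φ.coeff a).coeff b ≠ 0`) has `a, b ≤ p + 1`, `a = p + 1` only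
for `b = 0`, `b = p + 1` only for `a = 0`, `a + b ≤ 2 p`, with `a + b = 2 p` only for
`a = b = p`, and the coefficient of `X^p Y^p` is `≡ -1 mod p`.

No pole-order computation: the independence of `1, y, …, y^p` over `ℤ[J]` (`mps78_indep`) is
Part C of S28 (`partC_main_natDegree_le`, `partC_notMem_adjoin`) over `ℚ̄`, and the symmetry is
the abstract division argument `mps78_swap`.
-/

set_option autoImplicit false
set_option linter.style.haveILetI false

open ModularCurve Polynomial Polynomial.Bivariate IntermediateField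

namespace Fermat.Agent.S34

open Fermat.Agent.S28 Fermat.Agent.S37

/-- `aevalAeval x y` on `ℤ[X][Y]` is the iterated `eval₂`. -/
theorem mps78_aevalAeval_eq {A : Type*} [CommRing A] (x y : A) (P : Polynomial (Polynomial ℤ)) :
    aevalAeval x y P = P.eval₂ (Polynomial.eval₂RingHom (Int.castRingHom A) x) y := by
  have h : ((aevalAeval x y : Polynomial (Polynomial ℤ) →ₐ[ℤ] A) : Polynomial (Polynomial ℤ) →+* A)
      = Polynomial.eval₂RingHom (Polynomial.eval₂RingHom (Int.castRingHom A) x) y := by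
    refine Polynomial.ringHom_ext' ?_ ?_
    · refine Polynomial.ringHom_ext' (RingHom.ext_int _ _) ?_
      simp
    · simp
  exact congrArg (fun f : Polynomial (Polynomial ℤ) →+* A => f P) h

/-- **Independence**: a polynomial relation of outer degree `≤ p` between `J(q^p)` and `J` with
integer coefficients is trivial. -/
theorem mps78_indep (p : ℕ) (hp : p.Prime) (P : Polynomial (Polynomial ℤ))
    (hdeg : P.natDegree ≤ p) (hP : P.eval₂ (evJ ℤ) (JdC ℤ p) = 0) : P = 0 := by
  classical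
  haveI : NeZero p := ⟨hp.ne_zero⟩
  let k := AlgebraicClosure ℚ
  set J : LaurentSeries k := jqModC k with hJ
  have hJ1 : J.coeff (-1) = 1 := coeff_jqModC_neg_one k
  have hJ0 : ∀ n : ℤ, n < -1 → J.coeff n = 0 := fun n hn => coeff_jqModC_of_lt k hn
  -- the modular equation and the unit equation over `k`
  obtain ⟨Φ, hΦm, hΦd, h1, h2⟩ := h58_level_modEq (k := k) p (exists_modular_equation p hp)
  have hU := h58_level_unit (k := k) p (exists_unit_equation p hp)
  have hpk : (p : k) ≠ 0 := by exact_mod_cast hp.ne_zero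
  have hL : qExpand k p J ∉ k⟮J⟯ :=
    partC_notMem_adjoin J (DeltaSer k) hJ1 hJ0 (h58_DeltaSer_coeff_one k)
      (h58_DeltaSer_coeff_of_lt k)
      ((partC_eq_theta_of_coeff J (theta J) (fun n => rfl)) ▸ h58_theta_pow_six theta_J_pow_six)
      p hp.two_le hpk hU
  obtain ⟨ω, hω⟩ : ∃ ω : kˣ, IsPrimitiveRoot ω p := by
    haveI : NeZero (p : k) := ⟨hpk⟩
    obtain ⟨ζ, hζ⟩ := HasEnoughRootsOfUnity.exists_primitiveRoot k p
    have hu : IsUnit ζ := hζ.isUnit hp.ne_zero
    exact ⟨hu.unit, IsPrimitiveRoot.coe_units_iff.mp (by simpa using hζ)⟩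
  -- the relation over `k`
  have hPk : P.eval₂ (evJ k) (qExpand k p J) = 0 := by
    have := h58_eval₂_transfer (evJ ℤ) (evJ k) (h58_coeffMap_comp_evJ k) P _ hP
    rwa [coeffMap_JdC, JdC_of_neZero] at this
  set g : Polynomial (LaurentSeries k) := P.map (evJ k) with hg
  have hgroot : g.eval (qExpand k p J) = 0 := by rw [hg, Polynomial.eval_map]; exact hPk
  have hgc : ∀ n, g.coeff n ∈ k⟮J⟯ := by
    intro n
    rw [hg, Polynomial.coeff_map]
    have hev : ∀ Q : Polynomial ℤ, evJ k Q ∈ k⟮J⟯ := by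
      intro Q
      induction Q using Polynomial.induction_on' with
      | add a b ha hb => rw [map_add]; exact add_mem ha hb
      | monomial n a =>
        rw [← Polynomial.C_mul_X_pow_eq_monomial, map_mul, map_pow]
        refine mul_mem ?_ (pow_mem ?_ n)
        · have : evJ k (Polynomial.C a) = ((a : ℤ) : LaurentSeries k) := by simp [evJ]
          rw [this]; exact intCast_mem _ a
        · have : evJ k Polynomial.X = J := by simp [evJ, hJ]
          rw [this]; exact mem_adjoin_simple_self k J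
    exact hev _
  have hg0 : g = 0 := by
    by_contra hne
    have hle := partC_main_natDegree_le J hJ1 p hp.two_le Φ hΦm hΦd h1 h2 ω hω k⟮J⟯
      (mem_adjoin_simple_self k J) hL g hne hgc hgroot
    have h3 : g.natDegree ≤ P.natDegree := Polynomial.natDegree_map_le
    omega
  -- injectivity of `evJ k`
  have hinj : Function.Injective (evJ k) := by
    have hcomp : ((Polynomial.aeval J : Polynomial k →ₐ[k] LaurentSeries k).toRingHom).comp
        (Polynomial.mapRingHom (Int.castRingHom k)) = evJ k :=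
      h58_eq_evJ _ (by simp [hJ])
    rw [← hcomp]
    have h4 : Function.Injective (Polynomial.aeval J : Polynomial k →ₐ[k] LaurentSeries k) :=
      transcendental_iff_injective.mp (partC_transcendental J hJ1 hJ0)
    exact h4.comp (Polynomial.map_injective _ (RingHom.injective_int _))
  ext n : 1
  have h5 : evJ k (P.coeff n) = 0 := by
    have := congrArg (fun r : Polynomial (LaurentSeries k) => r.coeff n) hg0
    simpa [hg, Polynomial.coeff_map] using this
  rw [Polynomial.coeff_zero]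
  exact hinj (by rw [h5, map_zero])

/-- **The modular equation of prime level with its shape.** -/
theorem mps78_modEq (p : ℕ) (hp : p.Prime) :
    ∃ Φ Ψ : Polynomial (Polynomial ℤ), Φ.Monic ∧ Φ.natDegree = p + 1 ∧
      Φ.eval₂ (evJ ℤ) (JdC ℤ p) = 0 ∧ Φ.eval₂ (evJd ℤ p) (jqModC ℤ) = 0 ∧
      Φ = (Polynomial.X - Polynomial.C (Polynomial.X ^ p)) *
            (Polynomial.X ^ p - Polynomial.C Polynomial.X) +
          Polynomial.C (Polynomial.C (p : ℤ)) * Ψ ∧
      (swap Φ = Φ ∨ swap Φ = -Φ) ∧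
      (∀ a b : ℕ, (Φ.coeff a).coeff b ≠ 0 →
        a ≤ p + 1 ∧ b ≤ p + 1 ∧ (a = p + 1 → b = 0) ∧ (b = p + 1 → a = 0)) ∧
      (∀ a b : ℕ, (Φ.coeff a).coeff b ≠ 0 → a + b ≤ 2 * p) ∧
      (∀ a b : ℕ, (Φ.coeff a).coeff b ≠ 0 → a + b = 2 * p → a = p ∧ b = p) ∧
      (Φ.coeff p).coeff p = -1 + (p : ℤ) * (Ψ.coeff p).coeff p := by
  obtain ⟨Φ, hm, hd, h1, h2, Ψ, hΨ⟩ := kc87_exists p hp
  have hsw : swap Φ = Φ ∨ swap Φ = -Φ := by
    refine mps78_swap p Φ hm hd (jqModC ℤ) (JdC ℤ p) ?_ ?_ ?_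
    · rw [mps78_aevalAeval_eq]; exact h1
    · rw [mps78_aevalAeval_eq]; exact h2
    · intro P hP hPz
      rw [mps78_aevalAeval_eq] at hPz
      exact mps78_indep p hp P hP hPz
  exact ⟨Φ, Ψ, hm, hd, h1, h2, hΨ, hsw,
    fun a b hab => mps78_shape p Φ hm hd hsw a b hab,
    fun a b hab => mps78_total p hp.one_lt.le Φ hm hd hsw a b hab,
    fun a b hab h => mps78_total_eq p hp.two_le Φ hm hd hsw a b hab h,
    mps78_coeff_qq p hp.two_le Φ Ψ hΨ⟩

/-- **The modular relation in the literal shape of `cs90_main`** (row 486 (A)), in `ℤ((q))`: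
a finite set `S` of exponent pairs and integers `c` with `∑ c(a,b) J(q^p)^a J^b = 0`,
`a ≤ p + 1`, `a + b ≤ 2 p` on `S`, `(p, p) ∈ S`, `c (p, p) ≡ -1 mod p`, and no other pair of
total degree `2 p` in `S`. -/
theorem mps78_rel (p : ℕ) (hp : p.Prime) :
    ∃ (S : Finset (ℕ × ℕ)) (c : ℕ × ℕ → ℤ),
      (∑ s ∈ S, ((c s : ℤ) : LaurentSeries ℤ) * JdC ℤ p ^ s.1 * jqModC ℤ ^ s.2 = 0) ∧
      (∀ s ∈ S, s.1 ≤ p + 1) ∧ (∀ s ∈ S, s.1 + s.2 ≤ 2 * p) ∧ (p, p) ∈ S ∧
      ((p : ℤ) ∣ c (p, p) + 1) ∧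
      (∀ s ∈ S, s.1 + s.2 = 2 * p → s ≠ (p, p) → (p : ℤ) ∣ c s) := by
  classical
  obtain ⟨Φ, Ψ, hm, hd, h1, -, -, -, hshape, htot, htoteq, hqq⟩ := mps78_modEq p hp
  set c : ℕ × ℕ → ℤ := fun s => (Φ.coeff s.1).coeff s.2 with hc
  set T : Finset (ℕ × ℕ) := Finset.range (p + 2) ×ˢ Finset.range (p + 2) with hT
  set S : Finset (ℕ × ℕ) := T.filter (fun s => s.1 + s.2 ≤ 2 * p) with hS
  have hp1 : 1 ≤ p := hp.one_lt.le
  refine ⟨S, c, ?_, ?_, ?_, ?_, ?_, ?_⟩
  · -- the relation
    have hcoeffdeg : ∀ a : ℕ, (Φ.coeff a).natDegree < p + 2 := by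
      intro a
      have : (Φ.coeff a).natDegree ≤ p + 1 := by
        rw [Polynomial.natDegree_le_iff_coeff_eq_zero]
        intro N hN
        by_contra hne
        have := (hshape a N hne).2.1
        omega
      omega
    have hexp : Φ.eval₂ (evJ ℤ) (JdC ℤ p) =
        ∑ a ∈ Finset.range (p + 2), ∑ b ∈ Finset.range (p + 2),
          ((c (a, b) : ℤ) : LaurentSeries ℤ) * JdC ℤ p ^ a * jqModC ℤ ^ b := by
      rw [Polynomial.eval₂_eq_sum_range' (evJ ℤ) (n := p + 2) (by rw [hd]; omega)]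
      refine Finset.sum_congr rfl fun a _ => ?_
      have h2 : evJ ℤ (Φ.coeff a) =
          ∑ b ∈ Finset.range (p + 2), ((c (a, b) : ℤ) : LaurentSeries ℤ) * jqModC ℤ ^ b := by
        have h3 : evJ ℤ (Φ.coeff a) =
            (Φ.coeff a).eval₂ (Int.castRingHom (LaurentSeries ℤ)) (jqModC ℤ) := rfl
        rw [h3, Polynomial.eval₂_eq_sum_range' (Int.castRingHom (LaurentSeries ℤ))
          (hcoeffdeg a)]
        refine Finset.sum_congr rfl fun b _ => ?_
        simp [hc]
      rw [h2, Finset.sum_mul]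
      refine Finset.sum_congr rfl fun b _ => ?_
      ring
    have hprod : ∑ s ∈ T, ((c s : ℤ) : LaurentSeries ℤ) * JdC ℤ p ^ s.1 * jqModC ℤ ^ s.2 = 0 := by
      rw [hT, Finset.sum_product, ← hexp]
      exact h1
    rw [hS, Finset.sum_filter_of_ne]
    · exact hprod
    · intro s _ hne
      have hcs : c s ≠ 0 := by
        intro h0
        apply hne
        rw [h0]; simp
      exact htot s.1 s.2 hcs
  · intro s hs
    have := (Finset.mem_filter.mp hs).1
    rw [hT, Finset.mem_product, Finset.mem_range] at this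
    omega
  · intro s hs
    exact (Finset.mem_filter.mp hs).2
  · rw [hS, Finset.mem_filter, hT, Finset.mem_product, Finset.mem_range]
    exact ⟨⟨by show p < p + 2; omega, by show p < p + 2; omega⟩, by show p + p ≤ 2 * p; omega⟩
  · refine ⟨(Ψ.coeff p).coeff p, ?_⟩
    show (Φ.coeff p).coeff p + 1 = _
    rw [hqq]; ring
  · intro s hs h2p hne
    by_cases hcs : c s = 0
    · rw [hcs]; exact dvd_zero _
    · exfalso
      apply hne
      obtain ⟨ha, hb⟩ := htoteq s.1 s.2 hcs h2p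
      exact Prod.ext ha hb

/-- The same relation over any commutative ring `R` (apply `coeffMap`). -/
theorem mps78_rel_ring (R : Type*) [CommRing R] (p : ℕ) (hp : p.Prime) :
    ∃ (S : Finset (ℕ × ℕ)) (c : ℕ × ℕ → ℤ),
      (∑ s ∈ S, ((c s : ℤ) : LaurentSeries R) * JdC R p ^ s.1 * jqModC R ^ s.2 = 0) ∧
      (∀ s ∈ S, s.1 ≤ p + 1) ∧ (∀ s ∈ S, s.1 + s.2 ≤ 2 * p) ∧ (p, p) ∈ S ∧
      ((p : ℤ) ∣ c (p, p) + 1) ∧
      (∀ s ∈ S, s.1 + s.2 = 2 * p → s ≠ (p, p) → (p : ℤ) ∣ c s) := by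
  obtain ⟨S, c, hrel, h1, h2, h3, h4, h5⟩ := mps78_rel p hp
  refine ⟨S, c, ?_, h1, h2, h3, h4, h5⟩
  have h := congrArg (coeffMap (Int.castRingHom R)) hrel
  rw [map_sum, map_zero] at h
  rw [← h]
  refine Finset.sum_congr rfl fun s _ => ?_
  rw [map_mul, map_mul, map_pow, map_pow, coeffMap_JdC, coeffMap_jqModC, map_intCast]

end Fermat.Agent.S34
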