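import Fermat.Agent.S34.HauptInt95
import Fermat.Agent.S34.ModPolyDeg78
import Fermat.Agent.S18.Pack15
import Fermat.Agent.S18.Haupt2R70
import Fermat.Agent.S18.Haupt3Mem_34

/-!
# S34, P3a-0 (i): integrality of `β^* h` over `R[h]` — the instance (helper95)

`F = F_K(M)`, `2 q ∣ M` (resp. `3 q ∣ M`), `h ∈ F` the Hauptmodul of level `2` (resp. `3`),
`hq ∈ F` with expansion `h(Q^q)`; `R` a local ring acting on `F` in which `2` (resp. `3`) is a
unit and `q` is not.  Then

* `hq ∈ pk15_chart R {h}` and `hq⁻¹ ∈ pk15_chart R {h⁻¹}`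
  (`hi95_beta_two`, `hi95_beta_three`),

i.e. `β^*` maps the level-`M'` charts into the level-`M` charts.  The modular input is the
shape of the modular equation of `j` (`mps78_modEq`, helper78), used for the two pairs
`(j(Q^q); j(Q))` and `(j(Q^{eq}); j(Q^e))`; the proof is `hi95_main_two/three` (Newton polygon
at infinity + valuative criterion).
-/

set_option autoImplicit false
set_option linter.unusedSectionVars false
set_option linter.style.haveILetI false

open ModularCurve Polynomial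

namespace Fermat.Agent.S34

open Fermat.Agent.S18 Fermat.Agent.S28

/-! ### The shape of the modular equation, in the form consumed by `hi95_main_*` -/

/-- the modular equation of prime level `q`, with the Newton shape. -/
theorem hi95_modEq (q : ℕ) (hq : q.Prime) :
    ∃ Φ : Polynomial (Polynomial ℤ), Φ.Monic ∧ Φ.natDegree = q + 1 ∧
      Φ.eval₂ (evJ ℤ) (JdC ℤ q) = 0 ∧
      (∀ a, 1 ≤ a → a ≤ q → (Φ.coeff a).natDegree ≤ q) ∧
      (Φ.coeff 0).natDegree ≤ q + 1 ∧
      IsUnit ((Φ.coeff 0).coeff (q + 1)) ∧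
      (q : ℤ) ∣ (Φ.coeff q).coeff q + 1 := by
  obtain ⟨Φ, Ψ, hm, hd, h1, -, -, hsw, hshape, -, -, hqq⟩ := mps78_modEq q hq
  refine ⟨Φ, hm, hd, h1, ?_, ?_, ?_, ?_⟩
  · intro a ha1 haq
    rw [Polynomial.natDegree_le_iff_coeff_eq_zero]
    intro N hN
    by_contra hne
    obtain ⟨-, hb, -, hb2⟩ := hshape a N hne
    have : N = q + 1 := by omega
    have := hb2 this
    omega
  · rw [Polynomial.natDegree_le_iff_coeff_eq_zero]
    intro N hN
    by_contra hne
    obtain ⟨-, hb, -, -⟩ := hshape 0 N hne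
    omega
  · have h1' : Φ.coeff (q + 1) = 1 := by rw [← hd]; exact hm.coeff_natDegree
    rcases mps78_coeff_symm Φ hsw (q + 1) 0 with h | h
    · rw [h, h1', Polynomial.coeff_one_zero]
      exact isUnit_one
    · rw [h, h1', Polynomial.coeff_one_zero]
      exact isUnit_one.neg
  · exact ⟨(Ψ.coeff q).coeff q, by rw [hqq]; ring⟩

/-! ### Transfer of bivariate evaluations along ring homomorphisms -/

theorem hi95_map_eval {A B : Type*} [CommRing A] [CommRing B] (φ : A →+* B)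
    (Φ : Polynomial (Polynomial ℤ)) (x y : A) :
    φ (Φ.eval₂ (Polynomial.eval₂RingHom (Int.castRingHom A) y) x) =
      Φ.eval₂ (Polynomial.eval₂RingHom (Int.castRingHom B) (φ y)) (φ x) := by
  rw [Polynomial.hom_eval₂]
  congr 1
  refine Polynomial.ringHom_ext (fun n => ?_) ?_
  · simp
  · simp

theorem hi95_transfer {A B : Type*} [CommRing A] [CommRing B] (φ : A →+* B)
    (hφ : Function.Injective φ) (Φ : Polynomial (Polynomial ℤ)) (x y : A)
    (h : Φ.eval₂ (Polynomial.eval₂RingHom (Int.castRingHom B) (φ y)) (φ x) = 0) :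
    Φ.eval₂ ((Polynomial.aeval y : Polynomial ℤ →ₐ[ℤ] A) : Polynomial ℤ →+* A) x = 0 := by
  have hc : ((Polynomial.aeval y : Polynomial ℤ →ₐ[ℤ] A) : Polynomial ℤ →+* A) =
      Polynomial.eval₂RingHom (Int.castRingHom A) y := by
    refine Polynomial.ringHom_ext (fun n => ?_) ?_
    · simp
    · simp
  rw [hc]
  apply hφ
  rw [map_zero, hi95_map_eval]
  exact h

/-- the two root relations of the modular equation over a field `K`:
`Φ(J(Q^q); J) = 0` and `Φ(J(Q^{e q}); J(Q^e)) = 0`. -/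
theorem hi95_roots (K : Type*) [Field K] (q e : ℕ) [NeZero q] [NeZero e]
    (Φ : Polynomial (Polynomial ℤ)) (h1 : Φ.eval₂ (evJ ℤ) (JdC ℤ q) = 0) :
    Φ.eval₂ (Polynomial.eval₂RingHom (Int.castRingHom (LaurentSeries K)) (jqModC K))
        (qExpand K q (jqModC K)) = 0 ∧
      Φ.eval₂ (Polynomial.eval₂RingHom (Int.castRingHom (LaurentSeries K))
        (qExpand K e (jqModC K))) (qExpand K e (qExpand K q (jqModC K))) = 0 := by
  have e0 : Φ.eval₂ (Polynomial.eval₂RingHom (Int.castRingHom (LaurentSeries ℤ)) (jqModC ℤ))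
      (JdC ℤ q) = 0 := h1
  have e1 := congrArg (coeffMap (Int.castRingHom K)) e0
  rw [hi95_map_eval, map_zero, coeffMap_jqModC, coeffMap_JdC, JdC_of_neZero] at e1
  refine ⟨e1, ?_⟩
  have e2 := congrArg (qExpand K e) e1
  rw [hi95_map_eval, map_zero] at e2
  exact e2

/-! ### The instance in `F_K(M)` -/

section inst

variable (R K : Type) [CommRing R] [IsLocalRing R] [Field K] [CharZero K]
  (M q : ℕ) [NeZero M] [Algebra R ↥(modularFunctionFieldFullC K M)]

/-- an integer `c ≡ -1 mod q` is invertible in `F` with inverse coming from the local ring `R`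
of residue characteristic `q`. -/
theorem hi95_unit_of_dvd (hqR : ¬ IsUnit (q : R)) (c : ℤ) (hc : (q : ℤ) ∣ c + 1) :
    ∃ r : R, algebraMap R ↥(modularFunctionFieldFullC K M) r *
      ((c : ℤ) : ↥(modularFunctionFieldFullC K M)) = 1 := by
  obtain ⟨k, hk⟩ := hc
  have hc' : (c : R) = -(1 - (q : R) * (k : R)) := by
    have h1 : c = q * k - 1 := by linarith
    rw [h1]
    push_cast
    ring
  have hmem : (q : R) * (k : R) ∈ nonunits R := by
    have h1 : (q : R) ∈ IsLocalRing.maximalIdeal R := (IsLocalRing.mem_maximalIdeal _).mpr hqR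
    exact (IsLocalRing.mem_maximalIdeal _).mp (Ideal.mul_mem_right _ _ h1)
  have hu : IsUnit (c : R) := by
    rw [hc']
    exact (IsLocalRing.isUnit_one_sub_self_of_mem_nonunits _ hmem).neg
  obtain ⟨r, hr⟩ := hu.exists_left_inv
  refine ⟨r, ?_⟩
  have h2 := congrArg (algebraMap R ↥(modularFunctionFieldFullC K M)) hr
  rw [map_mul, map_one, map_intCast] at h2
  exact h2

theorem hi95_unit_of_isUnit (n : ℕ) (hn : IsUnit (n : R)) :
    ∃ r : R, algebraMap R ↥(modularFunctionFieldFullC K M) r *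
      ((n : ℕ) : ↥(modularFunctionFieldFullC K M)) = 1 := by
  obtain ⟨r, hr⟩ := hn.exists_left_inv
  refine ⟨r, ?_⟩
  have h2 := congrArg (algebraMap R ↥(modularFunctionFieldFullC K M)) hr
  rw [map_mul, map_one, map_natCast] at h2
  exact h2

/-- **`β^* h ∈ R[h]~` and `(β^* h)⁻¹ ∈ R[h⁻¹]~`, level 2.**  `h ∈ F_K(M)` with expansion the
level-2 Hauptmodul `h70_h2 K` (e.g. `pk85_h2 K M _`, `sm79_h2 K M _`), `hq'` with expansion
`h(Q^q)`; `q ≠ 2` prime, `2 q ∣ M`, `R` local with `2` a unit and `q` not a unit. -/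
theorem hi95_beta_two (hq : q.Prime) (hq2 : q ≠ 2) (h2qM : 2 * q ∣ M)
    (h2R : IsUnit ((2 : ℕ) : R)) (hqR : ¬ IsUnit (q : R))
    (h hq' : ↥(modularFunctionFieldFullC K M))
    (hh : (h : LaurentSeries K) = h70_h2 K)
    (hhq : (hq' : LaurentSeries K) = qE K q (h70_h2 K)) :
    hq' ∈ pk15_chart R ({h} : Set ↥(modularFunctionFieldFullC K M)) ∧
      hq'⁻¹ ∈ pk15_chart R ({h⁻¹} : Set ↥(modularFunctionFieldFullC K M)) := by
  haveI : NeZero q := ⟨hq.ne_zero⟩
  rw [qE_of_neZero] at hhq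
  obtain ⟨Φ, hm, hd, h1, hmid, hzero, hc0, hcq⟩ := hi95_modEq q hq
  obtain ⟨E1, E2⟩ := hi95_roots K q 2 Φ h1
  have hqM : q ∣ M := (Dvd.intro_left 2 rfl).trans h2qM
  have h2M : 2 ∣ M := (Dvd.intro q rfl).trans h2qM
  let j : ↥(modularFunctionFieldFullC K M) := ⟨jqModC K, jqModC_mem_full K M⟩
  let jq : ↥(modularFunctionFieldFullC K M) :=
    ⟨qExpand K q (jqModC K), jqModCd_mem_full K M hqM⟩
  let j1 : ↥(modularFunctionFieldFullC K M) :=
    ⟨qExpand K 2 (jqModC K), jqModCd_mem_full K M h2M⟩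
  let jq1 : ↥(modularFunctionFieldFullC K M) :=
    ⟨qExpand K 2 (qExpand K q (jqModC K)), by
      rw [qExpand_qExpand]; exact jqModCd_mem_full K M h2qM⟩
  have hι : Function.Injective
      ((modularFunctionFieldFullC K M).val.toRingHom :
        ↥(modularFunctionFieldFullC K M) →+* LaurentSeries K) := Subtype.val_injective
  have hh0 : h ≠ 0 := by
    intro h0
    have h3 : (h : LaurentSeries K) = 0 := by rw [h0]; rfl
    rw [hh] at h3
    exact (h70_h2_isUnit K).ne_zero h3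
  have hhq0 : hq' ≠ 0 := by
    intro h0
    have h3 : (hq' : LaurentSeries K) = 0 := by rw [h0]; rfl
    rw [hhq] at h3
    exact (h70_h2_isUnit K).ne_zero
      (qExpand_injective q (by rw [h3, map_zero]))
  have r1 : j * h ^ 2 = (h + 256) ^ 3 := by
    apply Subtype.ext
    push_cast
    rw [hh]
    exact h70_j_mul_h2_sq K
  have r2 : j1 * h = (h + 16) ^ 3 := by
    apply Subtype.ext
    push_cast
    rw [hh]
    exact h70_j2_mul_h2' K
  have r3 : jq * hq' ^ 2 = (hq' + 256) ^ 3 := by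
    apply Subtype.ext
    push_cast
    rw [hhq]
    have h3 := congrArg (qExpand K q) (h70_j_mul_h2_sq K)
    simp only [map_mul, map_pow, map_add, map_ofNat] at h3
    exact h3
  have r4 : jq1 * hq' = (hq' + 16) ^ 3 := by
    apply Subtype.ext
    push_cast
    rw [hhq]
    have h3 := congrArg (qExpand K q) (h70_j2_mul_h2' K)
    simp only [map_mul, map_pow, map_add, map_ofNat] at h3
    have h4 : qExpand K 2 (qExpand K q (jqModC K)) = qExpand K q (qExpand K 2 (jqModC K)) := by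
      rw [qExpand_qExpand, qExpand_qExpand]
      exact qExpand_congr (mul_comm 2 q) _
    show qExpand K 2 (qExpand K q (jqModC K)) * qExpand K q (h70_h2 K) = _
    rw [h4]
    exact h3
  have e1 : Φ.eval₂ ((Polynomial.aeval j : Polynomial ℤ →ₐ[ℤ] ↥(modularFunctionFieldFullC K M)) :
      Polynomial ℤ →+* ↥(modularFunctionFieldFullC K M)) jq = 0 :=
    hi95_transfer _ hι Φ jq j E1
  have e2 : Φ.eval₂ ((Polynomial.aeval j1 : Polynomial ℤ →ₐ[ℤ] ↥(modularFunctionFieldFullC K M)) :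
      Polynomial ℤ →+* ↥(modularFunctionFieldFullC K M)) jq1 = 0 :=
    hi95_transfer _ hι Φ jq1 j1 E2
  have h2F : ∃ r : R, algebraMap R ↥(modularFunctionFieldFullC K M) r * 2 = 1 := by
    obtain ⟨r, hr⟩ := hi95_unit_of_isUnit R K M 2 h2R
    exact ⟨r, by simpa using hr⟩
  exact hi95_main_two q hq.one_lt.le hq2 Φ hm hd hmid hzero hc0
    (hi95_unit_of_dvd R K M q hqR _ hcq) h2F h hq' j jq j1 jq1 hh0 hhq0 r1 r2 r3 r4 e1 e2

/-- **`β^* h ∈ R[h]~` and `(β^* h)⁻¹ ∈ R[h⁻¹]~`, level 3.**  `h ∈ F_K(M)` with expansion the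
level-3 Hauptmodul `h34_h3R K` (e.g. `pk85_h3 K M _`, `sm79_h3 K M _`), `hq'` with expansion
`h(Q^q)`; `q ≠ 3` prime, `3 q ∣ M`, `R` local with `3` a unit and `q` not a unit. -/
theorem hi95_beta_three (hq : q.Prime) (hq3 : q ≠ 3) (h3qM : 3 * q ∣ M)
    (h3R : IsUnit ((3 : ℕ) : R)) (hqR : ¬ IsUnit (q : R))
    (h hq' : ↥(modularFunctionFieldFullC K M))
    (hh : (h : LaurentSeries K) = h34_h3R K)
    (hhq : (hq' : LaurentSeries K) = qE K q (h34_h3R K)) :
    hq' ∈ pk15_chart R ({h} : Set ↥(modularFunctionFieldFullC K M)) ∧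
      hq'⁻¹ ∈ pk15_chart R ({h⁻¹} : Set ↥(modularFunctionFieldFullC K M)) := by
  haveI : NeZero q := ⟨hq.ne_zero⟩
  rw [qE_of_neZero] at hhq
  obtain ⟨Φ, hm, hd, h1, hmid, hzero, hc0, hcq⟩ := hi95_modEq q hq
  obtain ⟨E1, E2⟩ := hi95_roots K q 3 Φ h1
  have hqM : q ∣ M := (Dvd.intro_left 3 rfl).trans h3qM
  have h3M : 3 ∣ M := (Dvd.intro q rfl).trans h3qM
  let j : ↥(modularFunctionFieldFullC K M) := ⟨jqModC K, jqModC_mem_full K M⟩
  let jq : ↥(modularFunctionFieldFullC K M) :=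
    ⟨qExpand K q (jqModC K), jqModCd_mem_full K M hqM⟩
  let j1 : ↥(modularFunctionFieldFullC K M) :=
    ⟨qExpand K 3 (jqModC K), jqModCd_mem_full K M h3M⟩
  let jq1 : ↥(modularFunctionFieldFullC K M) :=
    ⟨qExpand K 3 (qExpand K q (jqModC K)), by
      rw [qExpand_qExpand]; exact jqModCd_mem_full K M h3qM⟩
  have hι : Function.Injective
      ((modularFunctionFieldFullC K M).val.toRingHom :
        ↥(modularFunctionFieldFullC K M) →+* LaurentSeries K) := Subtype.val_injective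
  have hh0 : h ≠ 0 := by
    intro h0
    have h3 : (h : LaurentSeries K) = 0 := by rw [h0]; rfl
    rw [hh] at h3
    exact (h34_h3R_isUnit K).ne_zero h3
  have hhq0 : hq' ≠ 0 := by
    intro h0
    have h3 : (hq' : LaurentSeries K) = 0 := by rw [h0]; rfl
    rw [hhq] at h3
    exact (h34_h3R_isUnit K).ne_zero
      (qExpand_injective q (by rw [h3, map_zero]))
  have r1 : j * h ^ 3 = (h + 27) * (h + 243) ^ 3 := by
    apply Subtype.ext
    push_cast
    rw [hh]
    exact h34_h3R_j K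
  have r2 : j1 * h = (h + 27) * (h + 3) ^ 3 := by
    apply Subtype.ext
    push_cast
    rw [hh]
    exact h34_h3R_j3 K
  have r3 : jq * hq' ^ 3 = (hq' + 27) * (hq' + 243) ^ 3 := by
    apply Subtype.ext
    push_cast
    rw [hhq]
    have h3 := congrArg (qExpand K q) (h34_h3R_j K)
    simp only [map_mul, map_pow, map_add, map_ofNat] at h3
    exact h3
  have r4 : jq1 * hq' = (hq' + 27) * (hq' + 3) ^ 3 := by
    apply Subtype.ext
    push_cast
    rw [hhq]
    have h3 := congrArg (qExpand K q) (h34_h3R_j3 K)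
    simp only [map_mul, map_pow, map_add, map_ofNat] at h3
    have h4 : qExpand K 3 (qExpand K q (jqModC K)) = qExpand K q (qExpand K 3 (jqModC K)) := by
      rw [qExpand_qExpand, qExpand_qExpand]
      exact qExpand_congr (mul_comm 3 q) _
    show qExpand K 3 (qExpand K q (jqModC K)) * qExpand K q (h34_h3R K) = _
    rw [h4]
    exact h3
  have e1 : Φ.eval₂ ((Polynomial.aeval j : Polynomial ℤ →ₐ[ℤ] ↥(modularFunctionFieldFullC K M)) :
      Polynomial ℤ →+* ↥(modularFunctionFieldFullC K M)) jq = 0 :=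
    hi95_transfer _ hι Φ jq j E1
  have e2 : Φ.eval₂ ((Polynomial.aeval j1 : Polynomial ℤ →ₐ[ℤ] ↥(modularFunctionFieldFullC K M)) :
      Polynomial ℤ →+* ↥(modularFunctionFieldFullC K M)) jq1 = 0 :=
    hi95_transfer _ hι Φ jq1 j1 E2
  have h3F : ∃ r : R, algebraMap R ↥(modularFunctionFieldFullC K M) r * 3 = 1 := by
    obtain ⟨r, hr⟩ := hi95_unit_of_isUnit R K M 3 h3R
    exact ⟨r, by simpa using hr⟩
  exact hi95_main_three q hq.one_lt.le hq3 Φ hm hd hmid hzero hc0
    (hi95_unit_of_dvd R K M q hqR _ hcq) h3F h hq' j jq j1 jq1 hh0 hhq0 r1 r2 r3 r4 e1 e2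

/-- the expansion `h(Q^q)` of `β^* h` lies in `F_K(M)` when `2 q ∣ M`. -/
theorem hi95_beta_two_mem (hq0 : q ≠ 0) (h2qM : 2 * q ∣ M) :
    qE K q (h70_h2 K) ∈ modularFunctionFieldFullC K M := by
  haveI : NeZero q := ⟨hq0⟩
  rw [qE_of_neZero]
  have h1 : h70_h2 K ∈ modularFunctionFieldFullC K 2 := h70_h2_mem_fullC K 2 dvd_rfl
  have h2 : qExpandAlgHomC K q (h70_h2 K) ∈
      (modularFunctionFieldFullC K 2).map (qExpandAlgHomC K q) :=
    (IntermediateField.mem_map _).mpr ⟨_, h1, rfl⟩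
  exact full_degeneracyC_le K h2qM (full_degeneracyC_map_le K 2 q h2)

/-- the expansion `h(Q^q)` of `β^* h` lies in `F_K(M)` when `3 q ∣ M`. -/
theorem hi95_beta_three_mem (hq0 : q ≠ 0) (h3qM : 3 * q ∣ M) :
    qE K q (h34_h3R K) ∈ modularFunctionFieldFullC K M := by
  haveI : NeZero q := ⟨hq0⟩
  rw [qE_of_neZero]
  have h1 : h34_h3R K ∈ modularFunctionFieldFullC K 3 := h34_h3R_mem_fullC K 3 dvd_rfl
  have h2 : qExpandAlgHomC K q (h34_h3R K) ∈
      (modularFunctionFieldFullC K 3).map (qExpandAlgHomC K q) :=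
    (IntermediateField.mem_map _).mpr ⟨_, h1, rfl⟩
  exact full_degeneracyC_le K h3qM (full_degeneracyC_map_le K 3 q h2)

/-- `β^* h = h(Q^q)` as an element of `F_K(M)`, level 2 (`2 q ∣ M`). -/
noncomputable def hi95_beta2 (hq0 : q ≠ 0) (h2qM : 2 * q ∣ M) :
    ↥(modularFunctionFieldFullC K M) :=
  ⟨qE K q (h70_h2 K), hi95_beta_two_mem K M q hq0 h2qM⟩

/-- `β^* h = h(Q^q)` as an element of `F_K(M)`, level 3 (`3 q ∣ M`). -/
noncomputable def hi95_beta3 (hq0 : q ≠ 0) (h3qM : 3 * q ∣ M) :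
    ↥(modularFunctionFieldFullC K M) :=
  ⟨qE K q (h34_h3R K), hi95_beta_three_mem K M q hq0 h3qM⟩

theorem hi95_beta2_coe (hq0 : q ≠ 0) (h2qM : 2 * q ∣ M) :
    ((hi95_beta2 K M q hq0 h2qM : ↥(modularFunctionFieldFullC K M)) : LaurentSeries K) =
      qE K q (h70_h2 K) := rfl

theorem hi95_beta3_coe (hq0 : q ≠ 0) (h3qM : 3 * q ∣ M) :
    ((hi95_beta3 K M q hq0 h3qM : ↥(modularFunctionFieldFullC K M)) : LaurentSeries K) =
      qE K q (h34_h3R K) := rfl

/-- **P3a-0 (i), level 2**: `β^* h` lies in the chart `R[h]~` and `(β^* h)⁻¹` in `R[h⁻¹]~`,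
for every `h ∈ F_K(M)` with the expansion of the level-2 Hauptmodul. -/
theorem hi95_beta2_mem_chart (hq : q.Prime) (hq2 : q ≠ 2) (h2qM : 2 * q ∣ M)
    (h2R : IsUnit ((2 : ℕ) : R)) (hqR : ¬ IsUnit (q : R))
    (h : ↥(modularFunctionFieldFullC K M)) (hh : (h : LaurentSeries K) = h70_h2 K) :
    hi95_beta2 K M q hq.ne_zero h2qM ∈
        pk15_chart R ({h} : Set ↥(modularFunctionFieldFullC K M)) ∧
      (hi95_beta2 K M q hq.ne_zero h2qM)⁻¹ ∈
        pk15_chart R ({h⁻¹} : Set ↥(modularFunctionFieldFullC K M)) :=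
  hi95_beta_two R K M q hq hq2 h2qM h2R hqR h _ hh rfl

/-- **P3a-0 (i), level 3**: `β^* h` lies in the chart `R[h]~` and `(β^* h)⁻¹` in `R[h⁻¹]~`,
for every `h ∈ F_K(M)` with the expansion of the level-3 Hauptmodul. -/
theorem hi95_beta3_mem_chart (hq : q.Prime) (hq3 : q ≠ 3) (h3qM : 3 * q ∣ M)
    (h3R : IsUnit ((3 : ℕ) : R)) (hqR : ¬ IsUnit (q : R))
    (h : ↥(modularFunctionFieldFullC K M)) (hh : (h : LaurentSeries K) = h34_h3R K) :
    hi95_beta3 K M q hq.ne_zero h3qM ∈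
        pk15_chart R ({h} : Set ↥(modularFunctionFieldFullC K M)) ∧
      (hi95_beta3 K M q hq.ne_zero h3qM)⁻¹ ∈
        pk15_chart R ({h⁻¹} : Set ↥(modularFunctionFieldFullC K M)) :=
  hi95_beta_three R K M q hq hq3 h3qM h3R hqR h _ hh rfl

end inst

end Fermat.Agent.S34
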