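import Mathlib
import Fermat.Agent.S34.Iface47c
import Fermat.Agent.S34.HauptIntInst95
import Fermat.Agent.S37.KroneckerFrob50
import Fermat.Agent.S18.Haupt2R70
import Fermat.Agent.S18.Haupt3Mem_34

/-!
# S34 lab (helper70): the two branches of the special fibre are DIFFERENT in every chart

Canonical frame of `Iface47c`: level `M' * q` (`q` prime, `q ∤ M'`), `V_∞ = cm85_Vinf (M' * q) hπ`,
`w = al97L_w`, `V_0 = s34i47c_V0 = V_∞.comap w`, `h` one of the two Hauptmoduln
(`s34i47c_IsHaupt`), charts `B = pk15_chart R {h}`, `pk15_chart R {h⁻¹}`.  The branch ideals are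
`P_∞ = {x ∈ B | π⁻¹ x ∈ V_∞}` and `P_0 = {x ∈ B | π⁻¹ x ∈ V_0}`.

* `bs70_core_mem`, `bs70_core_not_mem`, `bs70_core_w` : for every `x' ∈ F_K(M')` with an
  `R`-integral expansion `S` whose reduction `S̄` satisfies `S̄(Q^q) = S̄^q` (Frobenius; true for
  series defined over the prime field) and `S̄^(q²) ≠ S̄`: with `a = α x'` (inclusion) and
  `b = β x'` (`Q ↦ Q^q`): `π⁻¹ (b - a^q) ∈ V_∞`, `π⁻¹ (a - b^q) ∉ V_∞`, and `w` swaps
  `b - a^q` and `a - b^q`.
* `bs70_Sep` : the separation statement for the two charts of `h`: there are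
  `x ∈ B` with `π⁻¹ x ∈ V_∞`, `π⁻¹ x ∉ V_0` and `y ∈ B` with `π⁻¹ y ∈ V_0`, `π⁻¹ y ∉ V_∞`.
  Witnesses: `x = β h - h^q`, `y = h - (β h)^q` (chart `{h}`; `β h ∈ B` is `hi95_beta2_mem_chart`,
  helper95) and the same with inverses (chart `{h⁻¹}`).
* `bs70_level2`, `bs70_level3`, `bs70_sep_haupt` : `bs70_Sep` for `pk85_h2`, `pk85_h3`, and for
  every `h` with `s34i47c_IsHaupt`.
* `bs70_not_le`, `bs70_not_le_inv` : ideal form = the hypotheses `hne12`, `hne21` of the abstract
  (LS′) assemblers: for ideals `P₁ P₂` of the chart with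
  `x ∈ P₁ ↔ π⁻¹ x ∈ V_∞`, `x ∈ P₂ ↔ π⁻¹ x ∈ V_0`: `¬ P₁ ≤ P₂ ∧ ¬ P₂ ≤ P₁`.

All names are prefixed `bs70_`.
-/

set_option autoImplicit false
set_option linter.unusedSectionVars false
set_option linter.style.haveILetI false

open ModularCurve

namespace Fermat.Agent.S34

open Fermat.Agent.S18 Fermat.Agent.S28

local notation "Q̄" => AlgebraicClosure ℚ

/-! ### Frobenius on series over a field of characteristic `q` -/

/-- A series over a field of characteristic `q` with coefficients fixed by Frobenius satisfies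
`s(Q^q) = s^q`. -/
theorem bs70_frob (κ : Type*) [Field κ] (q : ℕ) [NeZero q] (hq : q.Prime) (hchar : (q : κ) = 0)
    (s : LaurentSeries κ)
    (hs : ∀ (_ : ExpChar κ q), coeffMap (frobenius κ q) s = s) : qExpand κ q s = s ^ q := by
  haveI : Fact q.Prime := ⟨hq⟩
  haveI : CharP κ q := (CharP.charP_iff_prime_eq_zero hq).mpr hchar
  rw [Fermat.Agent.S37.kr50_pow_char q s, hs inferInstance]

/-- A transcendental element is not a root of `X^n - X`, `2 ≤ n`. -/
theorem bs70_pow_ne_of_transcendental {κ A : Type*} [Field κ] [CommRing A] [Algebra κ A] (s : A)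
    (hs : Transcendental κ s) (n : ℕ) (hn : 2 ≤ n) : s ^ n ≠ s := by
  intro h
  apply hs
  refine ⟨Polynomial.X ^ n - Polynomial.X, ?_, ?_⟩
  · intro h0
    have h1 := congrArg (fun p : Polynomial κ => p.coeff n) h0
    simp only [Polynomial.coeff_sub, Polynomial.coeff_X_pow, Polynomial.coeff_X,
      Polynomial.coeff_zero] at h1
    have h2 : (1 : ℕ) ≠ n := by omega
    simp [h2] at h1
  · simp [h]

section core

variable {R K : Type} [CommRing R] [IsDomain R] [IsDiscreteValuationRing R] [Field K]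
  [Algebra R K] [IsFractionRing R K]
  (M' q : ℕ) [NeZero M'] [NeZero q]

/-- `π⁻¹ (β x' - (α x')^q) ∈ V_∞`: the Frobenius congruence at the Gauss valuation. -/
theorem bs70_core_mem {π : R} (hπ : Irreducible π) (S : LaurentSeries R)
    (hfrob : qExpand (IsLocalRing.ResidueField R) q (coeffMap (IsLocalRing.residue R) S) =
      coeffMap (IsLocalRing.residue R) S ^ q)
    (x' : ↥(modularFunctionFieldFullC K M'))
    (hx' : (x' : LaurentSeries K) = coeffMap (algebraMap R K) S) :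
    (algebraMap K ↥(modularFunctionFieldFullC K (M' * q)) (algebraMap R K π))⁻¹ *
      (al97L_beta K M' q x' - al97L_alpha K M' q x' ^ q) ∈ cm85_Vinf (K := K) (M' * q) hπ := by
  refine (gv85_gauss (IsLocalRing.residue R) π (pk85_res_iff hπ) hπ.ne_zero _ _ _
    (qExpand R q S - S ^ q) ?_).mpr ?_
  · show qExpand K q (x' : LaurentSeries K) - (x' : LaurentSeries K) ^ q = _
    rw [map_sub, map_pow, coeffMap_qExpand, hx']
  · rw [map_sub, map_pow, coeffMap_qExpand, hfrob, sub_self]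

/-- `π⁻¹ (α x' - (β x')^q) ∉ V_∞` when the reduction of `x'` is not a root of `X^(q²) - X`. -/
theorem bs70_core_not_mem {π : R} (hπ : Irreducible π) (S : LaurentSeries R)
    (hfrob : qExpand (IsLocalRing.ResidueField R) q (coeffMap (IsLocalRing.residue R) S) =
      coeffMap (IsLocalRing.residue R) S ^ q)
    (hnp : coeffMap (IsLocalRing.residue R) S ^ (q * q) ≠ coeffMap (IsLocalRing.residue R) S)
    (x' : ↥(modularFunctionFieldFullC K M'))
    (hx' : (x' : LaurentSeries K) = coeffMap (algebraMap R K) S) :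
    (algebraMap K ↥(modularFunctionFieldFullC K (M' * q)) (algebraMap R K π))⁻¹ *
      (al97L_alpha K M' q x' - al97L_beta K M' q x' ^ q) ∉ cm85_Vinf (K := K) (M' * q) hπ := by
  intro hmem
  have h1 := (gv85_gauss (IsLocalRing.residue R) π (pk85_res_iff hπ) hπ.ne_zero _ _ _
    (S - qExpand R q S ^ q) (by
      show (x' : LaurentSeries K) - qExpand K q (x' : LaurentSeries K) ^ q = _
      rw [map_sub, map_pow, coeffMap_qExpand, hx'])).mp hmem
  rw [map_sub, map_pow, coeffMap_qExpand, hfrob, ← pow_mul, sub_eq_zero] at h1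
  exact hnp h1.symm

variable (hq : q.Prime) (hM' : ¬ q ∣ M') (φ : K →+* Fermat.Agent.S24.Kbar)

/-- `w` swaps `b - a^q` and `a - b^q` (`a = α x'`, `b = β x'`). -/
theorem bs70_core_w (c : K) (x' : ↥(modularFunctionFieldFullC K M')) :
    al97L_w φ M' q hq hM' ((algebraMap K ↥(modularFunctionFieldFullC K (M' * q)) c)⁻¹ *
      (al97L_beta K M' q x' - al97L_alpha K M' q x' ^ q)) =
    (algebraMap K ↥(modularFunctionFieldFullC K (M' * q)) c)⁻¹ *
      (al97L_alpha K M' q x' - al97L_beta K M' q x' ^ q) := by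
  rw [map_mul, map_inv₀, map_sub, map_pow, al97L_w_beta_apply, al97L_w_alpha_apply,
    AlgEquiv.commutes]

/-- `w` swaps `a - b^q` and `b - a^q`. -/
theorem bs70_core_w' (c : K) (x' : ↥(modularFunctionFieldFullC K M')) :
    al97L_w φ M' q hq hM' ((algebraMap K ↥(modularFunctionFieldFullC K (M' * q)) c)⁻¹ *
      (al97L_alpha K M' q x' - al97L_beta K M' q x' ^ q)) =
    (algebraMap K ↥(modularFunctionFieldFullC K (M' * q)) c)⁻¹ *
      (al97L_beta K M' q x' - al97L_alpha K M' q x' ^ q) := by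
  rw [map_mul, map_inv₀, map_sub, map_pow, al97L_w_beta_apply, al97L_w_alpha_apply,
    AlgEquiv.commutes]

end core

/-! ### The separation statement -/

section sep

variable {R K : Type} [CommRing R] [IsDomain R] [IsDiscreteValuationRing R] [Field K]
  [Algebra R K] [IsFractionRing R K] [Algebra K Q̄]
  (M' q : ℕ) [NeZero M'] [NeZero q] (hq : q.Prime) (hM' : ¬ q ∣ M')
  [Algebra R ↥(modularFunctionFieldFullC K (M' * q))]
  [IsScalarTower R K ↥(modularFunctionFieldFullC K (M' * q))]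

/-- **Separation of the two branches** in the two affine charts of `h`: each chart contains an
element of `π V_∞ ∖ π V_0` and an element of `π V_0 ∖ π V_∞`. -/
def bs70_Sep {π : R} (hπ : Irreducible π) (h : ↥(modularFunctionFieldFullC K (M' * q))) : Prop :=
  (∃ x ∈ pk15_chart R ({h} : Set ↥(modularFunctionFieldFullC K (M' * q))),
    (algebraMap R ↥(modularFunctionFieldFullC K (M' * q)) π)⁻¹ * x ∈
      cm85_Vinf (K := K) (M' * q) hπ ∧
    (algebraMap R ↥(modularFunctionFieldFullC K (M' * q)) π)⁻¹ * x ∉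
      s34i47c_V0 (K := K) M' q hq hM' hπ) ∧
  (∃ y ∈ pk15_chart R ({h} : Set ↥(modularFunctionFieldFullC K (M' * q))),
    (algebraMap R ↥(modularFunctionFieldFullC K (M' * q)) π)⁻¹ * y ∈
      s34i47c_V0 (K := K) M' q hq hM' hπ ∧
    (algebraMap R ↥(modularFunctionFieldFullC K (M' * q)) π)⁻¹ * y ∉
      cm85_Vinf (K := K) (M' * q) hπ) ∧
  (∃ x ∈ pk15_chart R ({h⁻¹} : Set ↥(modularFunctionFieldFullC K (M' * q))),
    (algebraMap R ↥(modularFunctionFieldFullC K (M' * q)) π)⁻¹ * x ∈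
      cm85_Vinf (K := K) (M' * q) hπ ∧
    (algebraMap R ↥(modularFunctionFieldFullC K (M' * q)) π)⁻¹ * x ∉
      s34i47c_V0 (K := K) M' q hq hM' hπ) ∧
  (∃ y ∈ pk15_chart R ({h⁻¹} : Set ↥(modularFunctionFieldFullC K (M' * q))),
    (algebraMap R ↥(modularFunctionFieldFullC K (M' * q)) π)⁻¹ * y ∈
      s34i47c_V0 (K := K) M' q hq hM' hπ ∧
    (algebraMap R ↥(modularFunctionFieldFullC K (M' * q)) π)⁻¹ * y ∉
      cm85_Vinf (K := K) (M' * q) hπ)

/-- **The abstract core of the separation**: `h = α h'`, `g = β h'` with `g ∈ R[h]~`,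
`g⁻¹ ∈ R[h⁻¹]~`; `h'` and `h'⁻¹` have `R`-integral expansions `S`, `S'` whose reductions satisfy
the Frobenius identity, and the reduction of `S` is not a root of `X^(q²) - X`. -/
theorem bs70_sep_of {π : R} (hπ : Irreducible π) (S S' : LaurentSeries R) (hSS' : S * S' = 1)
    (hfrob : qExpand (IsLocalRing.ResidueField R) q (coeffMap (IsLocalRing.residue R) S) =
      coeffMap (IsLocalRing.residue R) S ^ q)
    (hfrob' : qExpand (IsLocalRing.ResidueField R) q (coeffMap (IsLocalRing.residue R) S') =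
      coeffMap (IsLocalRing.residue R) S' ^ q)
    (hnp : coeffMap (IsLocalRing.residue R) S ^ (q * q) ≠ coeffMap (IsLocalRing.residue R) S)
    (h' : ↥(modularFunctionFieldFullC K M'))
    (hh' : (h' : LaurentSeries K) = coeffMap (algebraMap R K) S)
    (h : ↥(modularFunctionFieldFullC K (M' * q))) (hh : h = al97L_alpha K M' q h')
    (hg : al97L_beta K M' q h' ∈
      pk15_chart R ({h} : Set ↥(modularFunctionFieldFullC K (M' * q))))
    (hg' : (al97L_beta K M' q h')⁻¹ ∈
      pk15_chart R ({h⁻¹} : Set ↥(modularFunctionFieldFullC K (M' * q)))) :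
    bs70_Sep M' q hq hM' hπ h := by
  subst hh
  have hπF : algebraMap R ↥(modularFunctionFieldFullC K (M' * q)) π =
      algebraMap K ↥(modularFunctionFieldFullC K (M' * q)) (algebraMap R K π) :=
    IsScalarTower.algebraMap_apply R K _ π
  -- the inverse data
  have hinv' : ((h'⁻¹ : ↥(modularFunctionFieldFullC K M')) : LaurentSeries K) =
      coeffMap (algebraMap R K) S' := by
    have h1 : coeffMap (algebraMap R K) S * coeffMap (algebraMap R K) S' = 1 := by
      rw [← map_mul, hSS', map_one]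
    have h2 : ((h'⁻¹ : ↥(modularFunctionFieldFullC K M')) : LaurentSeries K) =
        (h' : LaurentSeries K)⁻¹ := rfl
    rw [h2, hh']
    exact inv_eq_of_mul_eq_one_right h1
  have hSb : coeffMap (IsLocalRing.residue R) S * coeffMap (IsLocalRing.residue R) S' = 1 := by
    rw [← map_mul, hSS', map_one]
  have hnp' : coeffMap (IsLocalRing.residue R) S' ^ (q * q) ≠
      coeffMap (IsLocalRing.residue R) S' := by
    intro h1
    apply hnp
    have h2 : coeffMap (IsLocalRing.residue R) S ^ (q * q) *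
        coeffMap (IsLocalRing.residue R) S' ^ (q * q) = 1 := by
      rw [← mul_pow, hSb, one_pow]
    calc coeffMap (IsLocalRing.residue R) S ^ (q * q)
        = coeffMap (IsLocalRing.residue R) S ^ (q * q) *
            (coeffMap (IsLocalRing.residue R) S * coeffMap (IsLocalRing.residue R) S') := by
          rw [hSb, mul_one]
      _ = coeffMap (IsLocalRing.residue R) S *
            (coeffMap (IsLocalRing.residue R) S ^ (q * q) *
              coeffMap (IsLocalRing.residue R) S' ^ (q * q)) := by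
          rw [h1]; ring
      _ = coeffMap (IsLocalRing.residue R) S := by rw [h2, mul_one]
  -- the four core facts, for `h'` and for `h'⁻¹`
  have A := bs70_core_mem (K := K) M' q hπ S hfrob h' hh'
  have B := bs70_core_not_mem (K := K) M' q hπ S hfrob hnp h' hh'
  have A' := bs70_core_mem (K := K) M' q hπ S' hfrob' h'⁻¹ hinv'
  have B' := bs70_core_not_mem (K := K) M' q hπ S' hfrob' hnp' h'⁻¹ hinv'
  have W := bs70_core_w M' q hq hM' (algebraMap K Q̄) (algebraMap R K π) h'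
  have W2 := bs70_core_w' M' q hq hM' (algebraMap K Q̄) (algebraMap R K π) h'
  have W' := bs70_core_w M' q hq hM' (algebraMap K Q̄) (algebraMap R K π) h'⁻¹
  have W2' := bs70_core_w' M' q hq hM' (algebraMap K Q̄) (algebraMap R K π) h'⁻¹
  rw [map_inv₀, map_inv₀] at A' B' W' W2'
  -- chart memberships
  have hh1 : al97L_alpha K M' q h' ∈
      pk15_chart R ({al97L_alpha K M' q h'} : Set ↥(modularFunctionFieldFullC K (M' * q))) :=
    pk15_subset_chart _ (Set.mem_singleton _)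
  have hh2 : (al97L_alpha K M' q h')⁻¹ ∈
      pk15_chart R ({(al97L_alpha K M' q h')⁻¹} :
        Set ↥(modularFunctionFieldFullC K (M' * q))) :=
    pk15_subset_chart _ (Set.mem_singleton _)
  refine ⟨⟨al97L_beta K M' q h' - al97L_alpha K M' q h' ^ q,
      Subalgebra.sub_mem _ hg (Subalgebra.pow_mem _ hh1 q), ?_, ?_⟩,
    ⟨al97L_alpha K M' q h' - al97L_beta K M' q h' ^ q,
      Subalgebra.sub_mem _ hh1 (Subalgebra.pow_mem _ hg q), ?_, ?_⟩,
    ⟨(al97L_beta K M' q h')⁻¹ - (al97L_alpha K M' q h')⁻¹ ^ q,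
      Subalgebra.sub_mem _ hg' (Subalgebra.pow_mem _ hh2 q), ?_, ?_⟩,
    ⟨(al97L_alpha K M' q h')⁻¹ - (al97L_beta K M' q h')⁻¹ ^ q,
      Subalgebra.sub_mem _ hh2 (Subalgebra.pow_mem _ hg' q), ?_, ?_⟩⟩
  · rw [hπF]; exact A
  · rw [hπF, s34i47c_mem_V0, W]; exact B
  · rw [hπF, s34i47c_mem_V0, W2]; exact A
  · rw [hπF]; exact B
  · rw [hπF]; exact A'
  · rw [hπF, s34i47c_mem_V0, W']; exact B'
  · rw [hπF, s34i47c_mem_V0, W2']; exact A'
  · rw [hπF]; exact B'

end sep

/-! ### The two Hauptmoduln -/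

section haupt

variable {R K : Type} [CommRing R] [IsDomain R] [IsDiscreteValuationRing R] [Field K] [CharZero K]
  [Algebra R K] [IsFractionRing R K] [Algebra K Q̄]
  (M' q : ℕ) [NeZero M'] [NeZero q] (hq : q.Prime) (hM' : ¬ q ∣ M')
  [Algebra R ↥(modularFunctionFieldFullC K (M' * q))]
  [IsScalarTower R K ↥(modularFunctionFieldFullC K (M' * q))]

/-- residue characteristic `q`. -/
theorem bs70_char (hqR : ¬ IsUnit (q : R)) : (q : IsLocalRing.ResidueField R) = 0 := by
  have h1 : IsLocalRing.residue R (q : R) = 0 :=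
    (IsLocalRing.residue_eq_zero_iff _).mpr ((IsLocalRing.mem_maximalIdeal _).mpr hqR)
  simpa using h1

/-- **Level 2.** -/
theorem bs70_level2 {π : R} (hπ : Irreducible π) (hq2 : q ≠ 2) (h2 : 2 ∣ M' * q)
    (h2R : IsUnit ((2 : ℕ) : R)) (hqR : ¬ IsUnit (q : R)) :
    bs70_Sep M' q hq hM' hπ (pk85_h2 K (M' * q) h2) := by
  have h2M' : 2 ∣ M' := by
    rcases (Nat.Prime.dvd_mul Nat.prime_two).mp h2 with h | h
    · exact h
    · exact absurd ((Nat.prime_dvd_prime_iff_eq Nat.prime_two hq).mp h).symm hq2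
  have h2qM : 2 * q ∣ M' * q := Nat.mul_dvd_mul_right h2M' q
  have hchar := bs70_char (R := R) q hqR
  have hred : coeffMap (IsLocalRing.residue R) (h70_h2 R) = h70_h2 (IsLocalRing.ResidueField R) :=
    h70_coeffMap_h2 _
  have hred' : coeffMap (IsLocalRing.residue R) (h70_h2inv R) =
      h70_h2inv (IsLocalRing.ResidueField R) := h70_coeffMap_h2inv _
  have hbeta : al97L_beta K M' q (pk85_h2 K M' h2M') = hi95_beta2 K (M' * q) q hq.ne_zero h2qM := by
    apply Subtype.ext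
    rw [al97L_beta_coe, hi95_beta2_coe, qE_of_neZero]
    rfl
  obtain ⟨hg, hg'⟩ := hi95_beta2_mem_chart R K (M' * q) q hq hq2 h2qM h2R hqR
    (pk85_h2 K (M' * q) h2) rfl
  refine bs70_sep_of M' q hq hM' hπ (h70_h2 R) (h70_h2inv R) (h70_h2_mul_h2inv R) ?_ ?_ ?_
    (pk85_h2 K M' h2M') (h70_coeffMap_h2 (algebraMap R K)).symm _ ?_ ?_ ?_
  · rw [hred]
    exact bs70_frob _ q hq hchar _ (fun _ => h70_coeffMap_h2 _)
  · rw [hred']
    exact bs70_frob _ q hq hchar _ (fun _ => h70_coeffMap_h2inv _)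
  · rw [hred]
    exact bs70_pow_ne_of_transcendental _ (h70_h2_transcendental _) _
      (by nlinarith [hq.two_le])
  · exact Subtype.ext rfl
  · rw [hbeta]; exact hg
  · rw [hbeta]; exact hg'

/-- **Level 3.** -/
theorem bs70_level3 {π : R} (hπ : Irreducible π) (hq3 : q ≠ 3) (h3 : 3 ∣ M' * q)
    (h3R : IsUnit ((3 : ℕ) : R)) (hqR : ¬ IsUnit (q : R)) :
    bs70_Sep M' q hq hM' hπ (pk85_h3 K (M' * q) h3) := by
  have h3M' : 3 ∣ M' := by
    rcases (Nat.Prime.dvd_mul Nat.prime_three).mp h3 with h | h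
    · exact h
    · exact absurd ((Nat.prime_dvd_prime_iff_eq Nat.prime_three hq).mp h).symm hq3
  have h3qM : 3 * q ∣ M' * q := Nat.mul_dvd_mul_right h3M' q
  have hchar := bs70_char (R := R) q hqR
  have hred : coeffMap (IsLocalRing.residue R) (h34_h3R R) =
      h34_h3R (IsLocalRing.ResidueField R) := h34_coeffMap_h3R _
  have hred' : coeffMap (IsLocalRing.residue R) (h34_h3Rinv R) =
      h34_h3Rinv (IsLocalRing.ResidueField R) := h34_coeffMap_h3Rinv _
  have hbeta : al97L_beta K M' q (pk85_h3 K M' h3M') = hi95_beta3 K (M' * q) q hq.ne_zero h3qM := by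
    apply Subtype.ext
    rw [al97L_beta_coe, hi95_beta3_coe, qE_of_neZero]
    rfl
  obtain ⟨hg, hg'⟩ := hi95_beta3_mem_chart R K (M' * q) q hq hq3 h3qM h3R hqR
    (pk85_h3 K (M' * q) h3) rfl
  refine bs70_sep_of M' q hq hM' hπ (h34_h3R R) (h34_h3Rinv R) (h34_h3R_mul_inv R) ?_ ?_ ?_
    (pk85_h3 K M' h3M') (h34_coeffMap_h3R (algebraMap R K)).symm _ ?_ ?_ ?_
  · rw [hred]
    exact bs70_frob _ q hq hchar _ (fun _ => h34_coeffMap_h3R _)
  · rw [hred']
    exact bs70_frob _ q hq hchar _ (fun _ => h34_coeffMap_h3Rinv _)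
  · rw [hred]
    exact bs70_pow_ne_of_transcendental _ (h34_h3R_transcendental _) _
      (by nlinarith [hq.two_le])
  · exact Subtype.ext rfl
  · rw [hbeta]; exact hg
  · rw [hbeta]; exact hg'

/-- **Separation for every admissible Hauptmodul** of the canonical frame. -/
theorem bs70_sep_haupt {π : R} (hπ : Irreducible π)
    (hunit : ∀ n : ℕ, Nat.Coprime n q → IsUnit (n : R)) (hqR : ¬ IsUnit (q : R))
    (h : ↥(modularFunctionFieldFullC K (M' * q))) (hh : s34i47c_IsHaupt K (M' * q) q h) :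
    bs70_Sep M' q hq hM' hπ h := by
  rcases hh with ⟨hq2, h2, rfl⟩ | ⟨hq3, h3, rfl⟩
  · exact bs70_level2 M' q hq hM' hπ hq2 h2
      (hunit 2 ((Nat.coprime_primes Nat.prime_two hq).mpr (Ne.symm hq2))) hqR
  · exact bs70_level3 M' q hq hM' hπ hq3 h3
      (hunit 3 ((Nat.coprime_primes Nat.prime_three hq).mpr (Ne.symm hq3))) hqR

/-- **Ideal form, chart `{h}`**: the two branch ideals are incomparable (`hne12`, `hne21` of the
abstract (LS′) assemblers). -/
theorem bs70_not_le {π : R} (hπ : Irreducible π)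
    (hunit : ∀ n : ℕ, Nat.Coprime n q → IsUnit (n : R)) (hqR : ¬ IsUnit (q : R))
    (h : ↥(modularFunctionFieldFullC K (M' * q))) (hh : s34i47c_IsHaupt K (M' * q) q h)
    (P₁ P₂ : Ideal (pk15_chart R ({h} : Set ↥(modularFunctionFieldFullC K (M' * q)))))
    (h₁ : ∀ x : pk15_chart R ({h} : Set ↥(modularFunctionFieldFullC K (M' * q))), x ∈ P₁ ↔
      (algebraMap R ↥(modularFunctionFieldFullC K (M' * q)) π)⁻¹ *
        (x : ↥(modularFunctionFieldFullC K (M' * q))) ∈ cm85_Vinf (K := K) (M' * q) hπ)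
    (h₂ : ∀ x : pk15_chart R ({h} : Set ↥(modularFunctionFieldFullC K (M' * q))), x ∈ P₂ ↔
      (algebraMap R ↥(modularFunctionFieldFullC K (M' * q)) π)⁻¹ *
        (x : ↥(modularFunctionFieldFullC K (M' * q))) ∈ s34i47c_V0 (K := K) M' q hq hM' hπ) :
    ¬ P₁ ≤ P₂ ∧ ¬ P₂ ≤ P₁ := by
  obtain ⟨⟨x, hx, hx1, hx2⟩, ⟨y, hy, hy1, hy2⟩, -, -⟩ :=
    bs70_sep_haupt M' q hq hM' hπ hunit hqR h hh
  constructor
  · intro hle
    exact hx2 ((h₂ ⟨x, hx⟩).mp (hle ((h₁ ⟨x, hx⟩).mpr hx1)))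
  · intro hle
    exact hy2 ((h₁ ⟨y, hy⟩).mp (hle ((h₂ ⟨y, hy⟩).mpr hy1)))

/-- **Ideal form, chart `{h⁻¹}`.** -/
theorem bs70_not_le_inv {π : R} (hπ : Irreducible π)
    (hunit : ∀ n : ℕ, Nat.Coprime n q → IsUnit (n : R)) (hqR : ¬ IsUnit (q : R))
    (h : ↥(modularFunctionFieldFullC K (M' * q))) (hh : s34i47c_IsHaupt K (M' * q) q h)
    (P₁ P₂ : Ideal (pk15_chart R ({h⁻¹} : Set ↥(modularFunctionFieldFullC K (M' * q)))))
    (h₁ : ∀ x : pk15_chart R ({h⁻¹} : Set ↥(modularFunctionFieldFullC K (M' * q))), x ∈ P₁ ↔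
      (algebraMap R ↥(modularFunctionFieldFullC K (M' * q)) π)⁻¹ *
        (x : ↥(modularFunctionFieldFullC K (M' * q))) ∈ cm85_Vinf (K := K) (M' * q) hπ)
    (h₂ : ∀ x : pk15_chart R ({h⁻¹} : Set ↥(modularFunctionFieldFullC K (M' * q))), x ∈ P₂ ↔
      (algebraMap R ↥(modularFunctionFieldFullC K (M' * q)) π)⁻¹ *
        (x : ↥(modularFunctionFieldFullC K (M' * q))) ∈ s34i47c_V0 (K := K) M' q hq hM' hπ) :
    ¬ P₁ ≤ P₂ ∧ ¬ P₂ ≤ P₁ := by
  obtain ⟨-, -, ⟨x, hx, hx1, hx2⟩, ⟨y, hy, hy1, hy2⟩⟩ :=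
    bs70_sep_haupt M' q hq hM' hπ hunit hqR h hh
  constructor
  · intro hle
    exact hx2 ((h₂ ⟨x, hx⟩).mp (hle ((h₁ ⟨x, hx⟩).mpr hx1)))
  · intro hle
    exact hy2 ((h₁ ⟨y, hy⟩).mp (hle ((h₂ ⟨y, hy⟩).mpr hy1)))

end haupt

end Fermat.Agent.S34
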