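import Mathlib
import Fermat.Agent.S18.GaussPack55
import Fermat.Agent.S34.Iface47c
import Fermat.Agent.S34.HauptIntInst95
import Fermat.Agent.S34.SpecFibre79
import Fermat.Agent.S37.KroneckerFrob50

/-!
# S34 lab (helper87, row 523): separating elements of the two branches

Canonical frame data of Iface47c at level `M' * q`: `V_∞ = cm85_Vinf (M' * q) hπ`,
`w = al97L_w (algebraMap K ℚ̄) M' q hq hM'`, `V_0 = s34i47c_V0 = V_∞.comap w`, `p = π`.

For a Hauptmodul `h` (`pk85_h2`, `pk85_h3`) and `h' := w h` (`= h(Q^q)`):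

* `c := h' - h ^ q` lies in `π V_∞` but not in `π V_0`;
* `c' := h - h' ^ q` lies in `π V_0` but not in `π V_∞`;
* both lie in the chart `pk15_chart R {h}`; the same holds for `h⁻¹`, `h'⁻¹` in the chart
  `pk15_chart R {h⁻¹}`.

Consequently the two branch ideals `P_∞ = B ∩ π V_∞`, `P_0 = B ∩ π V_0` of each chart are
incomparable: `bs87_exists` (witness shape, the literal `hne12`/`hne21` of `lsw77_chart`),
`bs87_not_le` (ideal shape, any `P₁ P₂` with the branch membership), `bs87_br_not_le` (for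
`sf79_br`).

* `bs87_core` : the abstract statement for the Gauss valuation ring `c1g55_V` at any level: if
  `x`, `x'` have expansions `S`, `S(Q^q)` with `S` integral, its reduction fixed by the Frobenius
  of the residue field and `S̄ ^ (q²) ≠ S̄`, then `π⁻¹ (x' - x^q) ∈ V` and `π⁻¹ (x - x'^q) ∉ V`.
* `bs87_pair` : transfer to `V_0` along `w`.
* `bs87_two`, `bs87_three` : the instances for the Hauptmoduln of level 2 and 3 (both charts).
* `bs87_sep` : the statement for every `h` with `s34i47c_IsHaupt`.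
-/

set_option autoImplicit false
set_option linter.unusedSectionVars false
set_option linter.style.haveILetI false

open ModularCurve AlgebraicCurve

namespace Fermat.Agent.S34

open Fermat.Agent.S18 Fermat.Agent.S37

local notation "Q̄" => AlgebraicClosure ℚ

section Series

theorem bs87_coeffMap_qExpand {S T : Type*} [CommRing S] [CommRing T] (f : S →+* T) (n : ℕ)
    [NeZero n] (x : LaurentSeries S) : coeffMap f (qExpand S n x) = qExpand T n (coeffMap f x) := by
  ext k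
  by_cases hk : (n : ℤ) ∣ k
  · obtain ⟨m, rfl⟩ := hk
    rw [coeffMap_coeff, qExpand_coeff_mul, qExpand_coeff_mul, coeffMap_coeff]
  · rw [coeffMap_coeff, qExpand_coeff_of_not_dvd n _ hk, qExpand_coeff_of_not_dvd n _ hk,
      map_zero]

/-- Frobenius: in characteristic `q`, a series with Frobenius-fixed coefficients satisfies
`S ^ q = S(Q^q)`. -/
theorem bs87_frob {κ : Type*} [Field κ] (q : ℕ) [NeZero q] [ExpChar κ q] (S : LaurentSeries κ)
    (hS : coeffMap (frobenius κ q) S = S) : S ^ q = qExpand κ q S := by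
  rw [kr50_pow_char q S, hS]

/-- A transcendental element is not a root of `X ^ n - X`, `n > 1`. -/
theorem bs87_pow_ne {κ A : Type*} [Field κ] [Ring A] [Algebra κ A] (n : ℕ) (hn : 1 < n) (S : A)
    (hS : Transcendental κ S) : S ^ n ≠ S := by
  intro h
  apply hS
  refine ⟨Polynomial.X ^ n - Polynomial.X, FiniteField.X_pow_card_sub_X_ne_zero κ hn, ?_⟩
  rw [map_sub, map_pow, Polynomial.aeval_X, h, sub_self]

end Series

section Core

variable {R K : Type} [CommRing R] [IsDomain R] [IsDiscreteValuationRing R] [Field K]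
  [Algebra R K] [IsFractionRing R K]
  (M : ℕ) [Algebra R ↥(modularFunctionFieldFullC K M)]
  [IsScalarTower R K ↥(modularFunctionFieldFullC K M)]

/-- **Core.**  Let `x, x' ∈ F(M)_K` have the expansions `S` and `S(Q^q)` for an `R`-integral
series `S` whose reduction `S̄` is fixed by the Frobenius of the residue field (characteristic
`q`) and satisfies `S̄ ^ (q²) ≠ S̄`.  Then `x' - x ^ q ∈ π V` and `x - x' ^ q ∉ π V` for the Gauss
valuation ring `V`. -/
theorem bs87_core {π : R} (hπ : Irreducible π) (q : ℕ) [NeZero q]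
    [ExpChar (IsLocalRing.ResidueField R) q] (S : LaurentSeries R)
    (hfrob : coeffMap (frobenius (IsLocalRing.ResidueField R) q)
      (coeffMap (IsLocalRing.residue R) S) = coeffMap (IsLocalRing.residue R) S)
    (hne : coeffMap (IsLocalRing.residue R) S ^ (q ^ 2) ≠ coeffMap (IsLocalRing.residue R) S)
    (x x' : ↥(modularFunctionFieldFullC K M))
    (hx : (x : LaurentSeries K) = coeffMap (algebraMap R K) S)
    (hx' : (x' : LaurentSeries K) = qExpand K q (coeffMap (algebraMap R K) S)) :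
    (algebraMap R ↥(modularFunctionFieldFullC K M) π)⁻¹ * (x' - x ^ q) ∈ c1g55_V R K M hπ ∧
      (algebraMap R ↥(modularFunctionFieldFullC K M) π)⁻¹ * (x - x' ^ q) ∉ c1g55_V R K M hπ := by
  have e1 : ((x' - x ^ q : ↥(modularFunctionFieldFullC K M)) : LaurentSeries K) =
      coeffMap (algebraMap R K) (qExpand R q S - S ^ q) := by
    rw [map_sub, map_pow, bs87_coeffMap_qExpand, ← hx', ← hx]
    rfl
  have e2 : ((x - x' ^ q : ↥(modularFunctionFieldFullC K M)) : LaurentSeries K) =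
      coeffMap (algebraMap R K) (S - qExpand R q S ^ q) := by
    rw [map_sub, map_pow, bs87_coeffMap_qExpand, ← hx', ← hx]
    rfl
  have hF := bs87_frob q _ hfrob
  have r1 : coeffMap (IsLocalRing.residue R) (qExpand R q S - S ^ q) = 0 := by
    rw [map_sub, map_pow, bs87_coeffMap_qExpand, hF, sub_self]
  have r2 : coeffMap (IsLocalRing.residue R) (S - qExpand R q S ^ q) ≠ 0 := by
    rw [map_sub, map_pow, bs87_coeffMap_qExpand, ← hF, ← pow_mul, ← sq]
    exact sub_ne_zero.mpr (Ne.symm hne)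
  exact ⟨((c1g55_gauss hπ _ _ e1).2).mpr r1, fun h => r2 (((c1g55_gauss hπ _ _ e2).2).mp h)⟩

end Core

section Canon

variable {R K : Type} [CommRing R] [IsDomain R] [IsDiscreteValuationRing R] [Field K] [CharZero K]
  [Algebra R K] [IsFractionRing R K] [Algebra K Q̄]
  (M' q : ℕ) [NeZero M'] [NeZero q] (hq : q.Prime) (hM' : ¬ q ∣ M')
  [Algebra R ↥(modularFunctionFieldFullC K (M' * q))]
  [IsScalarTower R K ↥(modularFunctionFieldFullC K (M' * q))]

/-- The residue field of `R` has characteristic `q`. -/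
theorem bs87_expChar (R : Type) [CommRing R] [IsLocalRing R] {q : ℕ} (hq : q.Prime)
    (hqR : ¬ IsUnit (q : R)) : ExpChar (IsLocalRing.ResidueField R) q := by
  have h0 : ((q : ℕ) : IsLocalRing.ResidueField R) = 0 := by
    have h1 : IsLocalRing.residue R (q : R) = 0 :=
      (IsLocalRing.residue_eq_zero_iff _).mpr ((IsLocalRing.mem_maximalIdeal _).mpr hqR)
    rwa [map_natCast] at h1
  haveI : CharP (IsLocalRing.ResidueField R) q := (CharP.charP_iff_prime_eq_zero hq).mpr h0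
  exact ExpChar.prime hq

/-- The Atkin–Lehner involution fixes the image of `R`. -/
theorem bs87_w_algebraMap (r : R) :
    al97L_w (algebraMap K Q̄) M' q hq hM'
        (algebraMap R ↥(modularFunctionFieldFullC K (M' * q)) r) =
      algebraMap R ↥(modularFunctionFieldFullC K (M' * q)) r := by
  rw [IsScalarTower.algebraMap_apply R K ↥(modularFunctionFieldFullC K (M' * q))]
  exact AlgEquiv.commutes _ _

/-- Transfer to `V_0` along `w`: if `x' = w x`, `x' - x^q ∈ π V_∞` and `x - x'^q ∉ π V_∞`, then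
`x' - x^q ∉ π V_0` and `x - x'^q ∈ π V_0`. -/
theorem bs87_pair {π : R} (hπ : Irreducible π) (x x' : ↥(modularFunctionFieldFullC K (M' * q)))
    (hw : al97L_w (algebraMap K Q̄) M' q hq hM' x = x')
    (ha : (algebraMap R ↥(modularFunctionFieldFullC K (M' * q)) π)⁻¹ * (x' - x ^ q) ∈
      cm85_Vinf (K := K) (M' * q) hπ)
    (hb : (algebraMap R ↥(modularFunctionFieldFullC K (M' * q)) π)⁻¹ * (x - x' ^ q) ∉
      cm85_Vinf (K := K) (M' * q) hπ) :
    (algebraMap R ↥(modularFunctionFieldFullC K (M' * q)) π)⁻¹ * (x' - x ^ q) ∉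
        s34i47c_V0 M' q hq hM' hπ ∧
      (algebraMap R ↥(modularFunctionFieldFullC K (M' * q)) π)⁻¹ * (x - x' ^ q) ∈
        s34i47c_V0 M' q hq hM' hπ := by
  have hw' : al97L_w (algebraMap K Q̄) M' q hq hM' x' = x := by rw [← hw, al97L_w_w]
  constructor
  · rw [s34i47c_mem_V0, map_mul, map_inv₀, bs87_w_algebraMap, map_sub, map_pow, hw, hw']
    exact hb
  · rw [s34i47c_mem_V0, map_mul, map_inv₀, bs87_w_algebraMap, map_sub, map_pow, hw, hw']
    exact ha

/-- The four separation statements for the two charts of `h`. -/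
def bs87_Sep {π : R} (hπ : Irreducible π) (h : ↥(modularFunctionFieldFullC K (M' * q))) : Prop :=
  (∃ c ∈ pk15_chart R ({h} : Set ↥(modularFunctionFieldFullC K (M' * q))),
    (algebraMap R ↥(modularFunctionFieldFullC K (M' * q)) π)⁻¹ * c ∈
      cm85_Vinf (K := K) (M' * q) hπ ∧
    (algebraMap R ↥(modularFunctionFieldFullC K (M' * q)) π)⁻¹ * c ∉
      s34i47c_V0 M' q hq hM' hπ) ∧
  (∃ c ∈ pk15_chart R ({h} : Set ↥(modularFunctionFieldFullC K (M' * q))),
    (algebraMap R ↥(modularFunctionFieldFullC K (M' * q)) π)⁻¹ * c ∈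
      s34i47c_V0 M' q hq hM' hπ ∧
    (algebraMap R ↥(modularFunctionFieldFullC K (M' * q)) π)⁻¹ * c ∉
      cm85_Vinf (K := K) (M' * q) hπ) ∧
  (∃ c ∈ pk15_chart R ({h⁻¹} : Set ↥(modularFunctionFieldFullC K (M' * q))),
    (algebraMap R ↥(modularFunctionFieldFullC K (M' * q)) π)⁻¹ * c ∈
      cm85_Vinf (K := K) (M' * q) hπ ∧
    (algebraMap R ↥(modularFunctionFieldFullC K (M' * q)) π)⁻¹ * c ∉
      s34i47c_V0 M' q hq hM' hπ) ∧
  (∃ c ∈ pk15_chart R ({h⁻¹} : Set ↥(modularFunctionFieldFullC K (M' * q))),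
    (algebraMap R ↥(modularFunctionFieldFullC K (M' * q)) π)⁻¹ * c ∈
      s34i47c_V0 M' q hq hM' hπ ∧
    (algebraMap R ↥(modularFunctionFieldFullC K (M' * q)) π)⁻¹ * c ∉
      cm85_Vinf (K := K) (M' * q) hπ)

/-- **Separation from the expansions**: `h` with integral expansion `S`, `h⁻¹` with integral
expansion `S'`, both reductions Frobenius-fixed and not roots of `X^(q²) - X`, `w h = h(Q^q)`
in the chart of `h` and `(w h)⁻¹` in the chart of `h⁻¹`. -/
theorem bs87_of_series {π : R} (hπ : Irreducible π) [ExpChar (IsLocalRing.ResidueField R) q]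
    (S S' : LaurentSeries R)
    (hfrob : coeffMap (frobenius (IsLocalRing.ResidueField R) q)
      (coeffMap (IsLocalRing.residue R) S) = coeffMap (IsLocalRing.residue R) S)
    (hfrob' : coeffMap (frobenius (IsLocalRing.ResidueField R) q)
      (coeffMap (IsLocalRing.residue R) S') = coeffMap (IsLocalRing.residue R) S')
    (hne : coeffMap (IsLocalRing.residue R) S ^ (q ^ 2) ≠ coeffMap (IsLocalRing.residue R) S)
    (hne' : coeffMap (IsLocalRing.residue R) S' ^ (q ^ 2) ≠ coeffMap (IsLocalRing.residue R) S')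
    (h : ↥(modularFunctionFieldFullC K (M' * q)))
    (hh : (h : LaurentSeries K) = coeffMap (algebraMap R K) S)
    (hhinv : (h : LaurentSeries K)⁻¹ = coeffMap (algebraMap R K) S')
    (hwh : ((al97L_w (algebraMap K Q̄) M' q hq hM' h :
        ↥(modularFunctionFieldFullC K (M' * q))) : LaurentSeries K) =
      qExpand K q (h : LaurentSeries K))
    (hmem : al97L_w (algebraMap K Q̄) M' q hq hM' h ∈
      pk15_chart R ({h} : Set ↥(modularFunctionFieldFullC K (M' * q))))
    (hmem' : (al97L_w (algebraMap K Q̄) M' q hq hM' h)⁻¹ ∈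
      pk15_chart R ({h⁻¹} : Set ↥(modularFunctionFieldFullC K (M' * q)))) :
    bs87_Sep M' q hq hM' hπ h := by
  have hhB : h ∈ pk15_chart R ({h} : Set ↥(modularFunctionFieldFullC K (M' * q))) :=
    pk15_subset_chart _ (Set.mem_singleton h)
  have hhB' : h⁻¹ ∈ pk15_chart R ({h⁻¹} : Set ↥(modularFunctionFieldFullC K (M' * q))) :=
    pk15_subset_chart _ (Set.mem_singleton h⁻¹)
  -- the pair `(h, w h)`
  have c1 := bs87_core (M' * q) hπ q S hfrob hne h (al97L_w (algebraMap K Q̄) M' q hq hM' h) hh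
    (by rw [hwh, hh])
  have p1 := bs87_pair M' q hq hM' hπ h _ rfl c1.1 c1.2
  -- the pair `(h⁻¹, (w h)⁻¹)`
  have hinv_coe : ((h⁻¹ : ↥(modularFunctionFieldFullC K (M' * q))) : LaurentSeries K) =
      coeffMap (algebraMap R K) S' := by
    rw [← hhinv]; rfl
  have hwinv_coe : (((al97L_w (algebraMap K Q̄) M' q hq hM' h)⁻¹ :
      ↥(modularFunctionFieldFullC K (M' * q))) : LaurentSeries K) =
      qExpand K q (coeffMap (algebraMap R K) S') := by
    rw [← hhinv, map_inv₀, ← hwh]; rfl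
  have c2 := bs87_core (M' * q) hπ q S' hfrob' hne' h⁻¹
    (al97L_w (algebraMap K Q̄) M' q hq hM' h)⁻¹ hinv_coe hwinv_coe
  have p2 := bs87_pair M' q hq hM' hπ h⁻¹ (al97L_w (algebraMap K Q̄) M' q hq hM' h)⁻¹
    (map_inv₀ _ h) c2.1 c2.2
  refine ⟨⟨_, Subalgebra.sub_mem _ hmem (Subalgebra.pow_mem _ hhB q), c1.1, p1.1⟩,
    ⟨_, Subalgebra.sub_mem _ hhB (Subalgebra.pow_mem _ hmem q), p1.2, c1.2⟩,
    ⟨_, Subalgebra.sub_mem _ hmem' (Subalgebra.pow_mem _ hhB' q), c2.1, p2.1⟩,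
    ⟨_, Subalgebra.sub_mem _ hhB' (Subalgebra.pow_mem _ hmem' q), p2.2, c2.2⟩⟩

/-- `2 ∣ M' * q`, `q ≠ 2` prime gives `2 ∣ M'`. -/
theorem bs87_dvd_of_dvd_mul {p₀ M' q : ℕ} (hp₀ : p₀.Prime) (hq : q.Prime) (hne : q ≠ p₀)
    (h : p₀ ∣ M' * q) : p₀ ∣ M' := by
  rcases (Nat.Prime.dvd_mul hp₀).mp h with h1 | h1
  · exact h1
  · exact absurd ((Nat.prime_dvd_prime_iff_eq hp₀ hq).mp h1).symm hne

/-- **Separation, level 2.** -/
theorem bs87_two {π : R} (hπ : Irreducible π) (hqR : ¬ IsUnit (q : R)) (hq2 : q ≠ 2)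
    (h2R : IsUnit ((2 : ℕ) : R)) (h2 : 2 ∣ M' * q) :
    bs87_Sep M' q hq hM' hπ (pk85_h2 K (M' * q) h2) := by
  haveI : ExpChar (IsLocalRing.ResidueField R) q := bs87_expChar R hq hqR
  have h2' : 2 ∣ M' := bs87_dvd_of_dvd_mul Nat.prime_two hq hq2 h2
  have h2qM : 2 * q ∣ M' * q := Nat.mul_dvd_mul h2' dvd_rfl
  have hq1 : 1 < q ^ 2 := Nat.one_lt_pow (by norm_num) hq.one_lt
  have hwh : ((al97L_w (algebraMap K Q̄) M' q hq hM' (pk85_h2 K (M' * q) h2) :
        ↥(modularFunctionFieldFullC K (M' * q))) : LaurentSeries K) =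
      qExpand K q ((pk85_h2 K (M' * q) h2 : ↥(modularFunctionFieldFullC K (M' * q))) :
        LaurentSeries K) :=
    al97L_w_alpha (algebraMap K Q̄) M' q hq hM' (pk85_h2 K M' h2') (pk85_h2 K (M' * q) h2) rfl
  have hweq : al97L_w (algebraMap K Q̄) M' q hq hM' (pk85_h2 K (M' * q) h2) =
      hi95_beta2 K (M' * q) q hq.ne_zero h2qM := by
    apply Subtype.ext
    rw [hwh, hi95_beta2_coe, Fermat.Agent.S28.qE_of_neZero]
    rfl
  have hmem := hi95_beta2_mem_chart R K (M' * q) q hq hq2 h2qM h2R hqR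
    (pk85_h2 K (M' * q) h2) rfl
  have hne : coeffMap (IsLocalRing.residue R) (h70_h2 R) ^ (q ^ 2) ≠
      coeffMap (IsLocalRing.residue R) (h70_h2 R) := by
    rw [h70_coeffMap_h2]
    exact bs87_pow_ne (q ^ 2) hq1 _ (h70_h2_transcendental (IsLocalRing.ResidueField R))
  refine bs87_of_series M' q hq hM' hπ (h70_h2 R) (h70_h2inv R) ?_ ?_ hne ?_ _ ?_ ?_ hwh ?_ ?_
  · rw [h70_coeffMap_h2, h70_coeffMap_h2]
  · rw [h70_coeffMap_h2inv, h70_coeffMap_h2inv]
  · rw [h70_coeffMap_h2inv, h70_h2inv_eq_inv, inv_pow]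
    intro h
    rw [h70_coeffMap_h2] at hne
    exact hne (inv_injective h)
  · rw [h70_coeffMap_h2]; rfl
  · rw [h70_coeffMap_h2inv, h70_h2inv_eq_inv]; rfl
  · rw [hweq]; exact hmem.1
  · rw [hweq]; exact hmem.2

/-- **Separation, level 3.** -/
theorem bs87_three {π : R} (hπ : Irreducible π) (hqR : ¬ IsUnit (q : R)) (hq3 : q ≠ 3)
    (h3R : IsUnit ((3 : ℕ) : R)) (h3 : 3 ∣ M' * q) :
    bs87_Sep M' q hq hM' hπ (pk85_h3 K (M' * q) h3) := by
  haveI : ExpChar (IsLocalRing.ResidueField R) q := bs87_expChar R hq hqR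
  have h3' : 3 ∣ M' := bs87_dvd_of_dvd_mul Nat.prime_three hq hq3 h3
  have h3qM : 3 * q ∣ M' * q := Nat.mul_dvd_mul h3' dvd_rfl
  have hq1 : 1 < q ^ 2 := Nat.one_lt_pow (by norm_num) hq.one_lt
  have hwh : ((al97L_w (algebraMap K Q̄) M' q hq hM' (pk85_h3 K (M' * q) h3) :
        ↥(modularFunctionFieldFullC K (M' * q))) : LaurentSeries K) =
      qExpand K q ((pk85_h3 K (M' * q) h3 : ↥(modularFunctionFieldFullC K (M' * q))) :
        LaurentSeries K) :=
    al97L_w_alpha (algebraMap K Q̄) M' q hq hM' (pk85_h3 K M' h3') (pk85_h3 K (M' * q) h3) rfl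
  have hweq : al97L_w (algebraMap K Q̄) M' q hq hM' (pk85_h3 K (M' * q) h3) =
      hi95_beta3 K (M' * q) q hq.ne_zero h3qM := by
    apply Subtype.ext
    rw [hwh, hi95_beta3_coe, Fermat.Agent.S28.qE_of_neZero]
    rfl
  have hmem := hi95_beta3_mem_chart R K (M' * q) q hq hq3 h3qM h3R hqR
    (pk85_h3 K (M' * q) h3) rfl
  have hne : coeffMap (IsLocalRing.residue R) (h34_h3R R) ^ (q ^ 2) ≠
      coeffMap (IsLocalRing.residue R) (h34_h3R R) := by
    rw [h34_coeffMap_h3R]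
    exact bs87_pow_ne (q ^ 2) hq1 _ (h34_h3R_transcendental (IsLocalRing.ResidueField R))
  refine bs87_of_series M' q hq hM' hπ (h34_h3R R) (h34_h3Rinv R) ?_ ?_ hne ?_ _ ?_ ?_ hwh
    ?_ ?_
  · rw [h34_coeffMap_h3R, h34_coeffMap_h3R]
  · rw [h34_coeffMap_h3Rinv, h34_coeffMap_h3Rinv]
  · rw [h34_coeffMap_h3Rinv, h34_h3Rinv_eq_inv, inv_pow]
    intro h
    rw [h34_coeffMap_h3R] at hne
    exact hne (inv_injective h)
  · rw [h34_coeffMap_h3R]; rfl
  · rw [h34_coeffMap_h3Rinv, h34_h3Rinv_eq_inv]; rfl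
  · rw [hweq]; exact hmem.1
  · rw [hweq]; exact hmem.2

/-- **Separation for every admissible Hauptmodul** (binder block of the frame). -/
theorem bs87_sep {π : R} (hπ : Irreducible π)
    (hunit : ∀ n : ℕ, Nat.Coprime n q → IsUnit (n : R)) (hqR : ¬ IsUnit (q : R))
    (h : ↥(modularFunctionFieldFullC K (M' * q))) (hh : s34i47c_IsHaupt K (M' * q) q h) :
    bs87_Sep M' q hq hM' hπ h := by
  rcases hh with ⟨hq2, h2, rfl⟩ | ⟨hq3, h3, rfl⟩
  · exact bs87_two M' q hq hM' hπ hqR hq2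
      (hunit 2 ((Nat.coprime_primes Nat.prime_two hq).mpr (Ne.symm hq2))) h2
  · exact bs87_three M' q hq hM' hπ hqR hq3
      (hunit 3 ((Nat.coprime_primes Nat.prime_three hq).mpr (Ne.symm hq3))) h3

/-- **`hne12`, `hne21` in the witness shape** (literal hypotheses of `lsw77_chart`), for either
chart `B = pk15_chart R {h}` or `B = pk15_chart R {h⁻¹}` of an admissible Hauptmodul. -/
theorem bs87_exists {π : R} (hπ : Irreducible π)
    (hunit : ∀ n : ℕ, Nat.Coprime n q → IsUnit (n : R)) (hqR : ¬ IsUnit (q : R))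
    (h : ↥(modularFunctionFieldFullC K (M' * q))) (hh : s34i47c_IsHaupt K (M' * q) q h)
    (B : Subalgebra R ↥(modularFunctionFieldFullC K (M' * q)))
    (hB : B = pk15_chart R ({h} : Set ↥(modularFunctionFieldFullC K (M' * q))) ∨
      B = pk15_chart R ({h⁻¹} : Set ↥(modularFunctionFieldFullC K (M' * q)))) :
    (∃ y : ↥B, (algebraMap R ↥(modularFunctionFieldFullC K (M' * q)) π)⁻¹ *
          (y : ↥(modularFunctionFieldFullC K (M' * q))) ∈
          (cm85_Vinf (K := K) (M' * q) hπ).toSubring ∧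
        (algebraMap R ↥(modularFunctionFieldFullC K (M' * q)) π)⁻¹ *
          (y : ↥(modularFunctionFieldFullC K (M' * q))) ∉
          (s34i47c_V0 M' q hq hM' hπ).toSubring) ∧
      (∃ y : ↥B, (algebraMap R ↥(modularFunctionFieldFullC K (M' * q)) π)⁻¹ *
          (y : ↥(modularFunctionFieldFullC K (M' * q))) ∈
          (s34i47c_V0 M' q hq hM' hπ).toSubring ∧
        (algebraMap R ↥(modularFunctionFieldFullC K (M' * q)) π)⁻¹ *
          (y : ↥(modularFunctionFieldFullC K (M' * q))) ∉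
          (cm85_Vinf (K := K) (M' * q) hπ).toSubring) := by
  obtain ⟨⟨c₁, hc₁, h11, h12⟩, ⟨c₂, hc₂, h21, h22⟩, ⟨c₃, hc₃, h31, h32⟩, ⟨c₄, hc₄, h41, h42⟩⟩ :=
    bs87_sep M' q hq hM' hπ hunit hqR h hh
  rcases hB with rfl | rfl
  · exact ⟨⟨⟨c₁, hc₁⟩, h11, h12⟩, ⟨⟨c₂, hc₂⟩, h21, h22⟩⟩
  · exact ⟨⟨⟨c₃, hc₃⟩, h31, h32⟩, ⟨⟨c₄, hc₄⟩, h41, h42⟩⟩

/-- **The two branch ideals are incomparable** (ideal form: any two ideals of the chart with the
branch membership; `hne12`, `hne21` of `lsw58_locStrW` / `lsw77_locStrW` /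
`lsw77_chart_of_dedekind`). -/
theorem bs87_not_le {π : R} (hπ : Irreducible π)
    (hunit : ∀ n : ℕ, Nat.Coprime n q → IsUnit (n : R)) (hqR : ¬ IsUnit (q : R))
    (h : ↥(modularFunctionFieldFullC K (M' * q))) (hh : s34i47c_IsHaupt K (M' * q) q h)
    (B : Subalgebra R ↥(modularFunctionFieldFullC K (M' * q)))
    (hB : B = pk15_chart R ({h} : Set ↥(modularFunctionFieldFullC K (M' * q))) ∨
      B = pk15_chart R ({h⁻¹} : Set ↥(modularFunctionFieldFullC K (M' * q))))
    (P₁ P₂ : Ideal ↥B)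
    (hP₁ : ∀ x : ↥B, x ∈ P₁ ↔ (algebraMap R ↥(modularFunctionFieldFullC K (M' * q)) π)⁻¹ *
      (x : ↥(modularFunctionFieldFullC K (M' * q))) ∈ (cm85_Vinf (K := K) (M' * q) hπ).toSubring)
    (hP₂ : ∀ x : ↥B, x ∈ P₂ ↔ (algebraMap R ↥(modularFunctionFieldFullC K (M' * q)) π)⁻¹ *
      (x : ↥(modularFunctionFieldFullC K (M' * q))) ∈ (s34i47c_V0 M' q hq hM' hπ).toSubring) :
    ¬ P₁ ≤ P₂ ∧ ¬ P₂ ≤ P₁ := by
  obtain ⟨⟨y, hy1, hy2⟩, ⟨y', hy1', hy2'⟩⟩ := bs87_exists M' q hq hM' hπ hunit hqR h hh B hB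
  exact ⟨fun hle => hy2 ((hP₂ y).mp (hle ((hP₁ y).mpr hy1))),
    fun hle => hy2' ((hP₁ y').mp (hle ((hP₂ y').mpr hy1')))⟩

/-- **The two branch ideals `sf79_br` are incomparable** (both charts). -/
theorem bs87_br_not_le {π : R} (hπ : Irreducible π)
    (hunit : ∀ n : ℕ, Nat.Coprime n q → IsUnit (n : R)) (hqR : ¬ IsUnit (q : R))
    (h : ↥(modularFunctionFieldFullC K (M' * q))) (hh : s34i47c_IsHaupt K (M' * q) q h)
    (B : Subalgebra R ↥(modularFunctionFieldFullC K (M' * q)))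
    (hB : B = pk15_chart R ({h} : Set ↥(modularFunctionFieldFullC K (M' * q))) ∨
      B = pk15_chart R ({h⁻¹} : Set ↥(modularFunctionFieldFullC K (M' * q))))
    (hBV₁ : ∀ x ∈ B, x ∈ (cm85_Vinf (K := K) (M' * q) hπ).toSubring)
    (hBV₂ : ∀ x ∈ B, x ∈ (s34i47c_V0 M' q hq hM' hπ).toSubring) :
    ¬ sf79_br π B (cm85_Vinf (K := K) (M' * q) hπ).toSubring hBV₁ ≤
        sf79_br π B (s34i47c_V0 M' q hq hM' hπ).toSubring hBV₂ ∧
      ¬ sf79_br π B (s34i47c_V0 M' q hq hM' hπ).toSubring hBV₂ ≤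
        sf79_br π B (cm85_Vinf (K := K) (M' * q) hπ).toSubring hBV₁ :=
  bs87_not_le M' q hq hM' hπ hunit hqR h hh B hB _ _ (fun _ => Iff.rfl) (fun _ => Iff.rfl)

end Canon

end Fermat.Agent.S34
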