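import Mathlib
import Fermat.Agent.S34.BranchZero7

/-!
# S34 lab, row 489 (P3a-0, twin; helper7): the `0`-branch from the `∞`-branch, consumer shapes

Mathlib + `BranchZero7` only.  All names are prefixed `bz7_`.

`w` is an automorphism of `F` fixing `R`, `B` a `w`-stable subalgebra (`hwB`, e.g. from
`bz7_charts_stable`), `V₁`, `V₂` two subrings exchanged by `w` (`x ∈ V₂ ↔ w x ∈ V₁` and
`x ∈ V₁ ↔ w x ∈ V₂`; for `V₂ = V₁.comap w` and an involution `w` both are `Iff.rfl` /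
`w (w x) = x`).

* `bz7_dedekind_swap` : `P₁ = {x ∈ B | π⁻¹ x ∈ V₁}`, `P₂ = {x ∈ B | π⁻¹ x ∈ V₂}`:
  `IsDedekindDomain (B ⧸ P₁) → IsDedekindDomain (B ⧸ P₂)`
  (the hypothesis shape `[IsDedekindDomain (B ⧸ P₂)]` of `ls63_locStr_of_dedekind`).
* `bz7_unif_swap` : the uniformiser property of the `V₁`-branch at the closed points off the
  `V₂`-branch gives the uniformiser property of the `V₂`-branch at the closed points off the
  `V₁`-branch (hypotheses `h₁`, `h₂` of `ls63_locStr`, literally).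
-/

set_option autoImplicit false

namespace Fermat.Agent.S34

section bz7_swap

variable {F : Type*} [Field F] {R : Type*} [CommRing R] [Algebra R F]

/-- **The Dedekind property of the `0`-branch from the `∞`-branch**, in the shape consumed by
`ls63_locStr_of_dedekind`. -/
theorem bz7_dedekind_swap (π : R) (B : Subalgebra R F) (w : F ≃+* F)
    (hw : ∀ r : R, w (algebraMap R F r) = algebraMap R F r)
    (hwB : ∀ z : F, w z ∈ B ↔ z ∈ B) (V₁ V₂ : Subring F)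
    (hV : ∀ x : F, x ∈ V₂ ↔ w x ∈ V₁) (P₁ P₂ : Ideal B)
    (hP₁ : ∀ x : B, x ∈ P₁ ↔ (algebraMap R F π)⁻¹ * (x : F) ∈ V₁)
    (hP₂ : ∀ x : B, x ∈ P₂ ↔ (algebraMap R F π)⁻¹ * (x : F) ∈ V₂)
    [IsDedekindDomain (B ⧸ P₁)] : IsDedekindDomain (B ⧸ P₂) := by
  have hEq : P₂ = P₁.comap ((bz7_res B w hwB : ↥B ≃+* ↥B) : ↥B →+* ↥B) := by
    ext x
    rw [Ideal.mem_comap, hP₂, hV, RingEquiv.coe_toRingHom, hP₁, bz7_res_coe, map_mul, map_inv₀,
      hw]
  rw [hEq]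
  exact bz7_dedekind B w hwB P₁

/-- **The uniformiser property of the `0`-branch from the `∞`-branch**, in the literal shape of
the hypotheses `h₁`, `h₂` of `ls63_locStr`. -/
theorem bz7_unif_swap (π : R) (B : Subalgebra R F) (w : F ≃+* F)
    (hw : ∀ r : R, w (algebraMap R F r) = algebraMap R F r)
    (hwB : ∀ z : F, w z ∈ B ↔ z ∈ B) (V₁ V₂ : Subring F)
    (hV : ∀ x : F, x ∈ V₂ ↔ w x ∈ V₁) (hV' : ∀ x : F, x ∈ V₁ ↔ w x ∈ V₂)
    (h₁ : ∀ n : Ideal B, n.IsMaximal → algebraMap R B π ∈ n →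
      (∃ y : B, y ∉ n ∧ (algebraMap R F π)⁻¹ * (y : F) ∈ V₂) →
      ∃ z ∈ n, ∀ x ∈ n, ∃ s : B, s ∉ n ∧ ∃ a : B,
        (algebraMap R F π)⁻¹ * ((s : F) * (x : F) - (a : F) * (z : F)) ∈ V₁)
    (n : Ideal B) (hn : n.IsMaximal) (hπ : algebraMap R B π ∈ n)
    (hy : ∃ y : B, y ∉ n ∧ (algebraMap R F π)⁻¹ * (y : F) ∈ V₁) :
    ∃ z ∈ n, ∀ x ∈ n, ∃ s : B, s ∉ n ∧ ∃ a : B,
      (algebraMap R F π)⁻¹ * ((s : F) * (x : F) - (a : F) * (z : F)) ∈ V₂ := by
  set e : ↥B ≃+* ↥B := bz7_res B w hwB with he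
  -- the transported point `n' = e(n)`
  set n' : Ideal B := n.comap ((e.symm : ↥B ≃+* ↥B) : ↥B →+* ↥B) with hn'
  have hn'max : n'.IsMaximal := Ideal.comap_isMaximal_of_surjective _ e.symm.surjective
  have hmem : ∀ x : B, e x ∈ n' ↔ x ∈ n := by
    intro x
    rw [hn', Ideal.mem_comap, RingEquiv.coe_toRingHom, RingEquiv.symm_apply_apply]
  have hmem' : ∀ x : B, x ∈ n' ↔ e.symm x ∈ n := fun x => Iff.rfl
  have hπ' : algebraMap R B π ∈ n' := by
    rw [← bz7_res_algebraMap B w hwB hw π, ← he, hmem]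
    exact hπ
  obtain ⟨y, hyn, hyV⟩ := hy
  have hy' : ∃ y' : B, y' ∉ n' ∧ (algebraMap R F π)⁻¹ * (y' : F) ∈ V₂ := by
    refine ⟨e y, fun h => hyn ((hmem y).mp h), ?_⟩
    have h1 := (hV' _).mp hyV
    rw [map_mul, map_inv₀, hw] at h1
    exact h1
  obtain ⟨z', hz', hgen⟩ := h₁ n' hn'max hπ' hy'
  refine ⟨e.symm z', (hmem' z').mp hz', fun x hx => ?_⟩
  obtain ⟨s', hs', a', ha'⟩ := hgen (e x) ((hmem x).mpr hx)
  refine ⟨e.symm s', fun h => hs' ((hmem' s').mpr h), e.symm a', ?_⟩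
  rw [hV, map_mul, map_inv₀, hw, map_sub, map_mul, map_mul]
  simp only [he, bz7_res_symm_coe, RingEquiv.apply_symm_apply]
  simpa only [he, bz7_res_coe] using ha'

end bz7_swap

end Fermat.Agent.S34
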