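import Fermat.Agent.S34.BranchZeroInst7
import Fermat.Agent.S34.Iface47c

/-!
# S34 lab, row 489 (P3a-0, twin; helper7): the `0`-branch of the canonical frame

Canonical frame data of `Iface47c` at level `M' * q` over a discrete valuation ring `R ⊆ K ⊆ ℚ̄`:
`V_∞ = cm85_Vinf (M' * q) hπ`, `w = al97L_w (algebraMap K ℚ̄) M' q hq hM'`,
`V_0 = s34i47c_V0 M' q hq hM' hπ = V_∞.comap w`, `h` an admissible Hauptmodul
(`s34i47c_IsHaupt K (M' * q) q h`).

* `bz7c_stable` : the three charts `pk15_chart R {h}`, `{h⁻¹}`, `{h, h⁻¹}` are `w`-stable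
  (`w z ∈ B ↔ z ∈ B`), for every admissible `h`.
* `bz7c_unif_zero` : for a `w`-stable chart `B`, the hypothesis `h₂` of `ls63_locStr` (uniformiser
  of the `V_0`-branch at the closed points off the `V_∞`-branch) follows from its hypothesis `h₁`
  (uniformiser of the `V_∞`-branch at the closed points off the `V_0`-branch); literal shapes,
  `V₁ := V_∞.toSubring`, `V₂ := V_0.toSubring`.
* `bz7c_dedekind_zero` : for a `w`-stable chart `B`, `IsDedekindDomain (B ⧸ P₁)` gives
  `IsDedekindDomain (B ⧸ P₂)` (`P₁`, `P₂` as in `ls63_locStr_of_dedekind`).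

So (3a) for the `0`-branch needs nothing beyond (3a) for the `∞`-branch.
All names are prefixed `bz7c_`.
-/

set_option autoImplicit false
set_option linter.unusedSectionVars false

open ModularCurve AlgebraicCurve IntermediateField

namespace Fermat.Agent.S34

open Fermat.Agent.S18 Fermat.Agent.S24 Fermat.Agent.S37

local notation "Q̄" => AlgebraicClosure ℚ

section bz7c

variable {R K : Type} [CommRing R] [IsDomain R] [IsDiscreteValuationRing R] [Field K] [CharZero K]
  [Algebra R K] [IsFractionRing R K] [Algebra K Q̄]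
  (M' q : ℕ) [NeZero M'] [NeZero q] (hq : q.Prime) (hM' : ¬ q ∣ M')
  [Algebra R ↥(modularFunctionFieldFullC K (M' * q))]
  [IsScalarTower R K ↥(modularFunctionFieldFullC K (M' * q))]

/-- **The charts of an admissible Hauptmodul are stable under the Atkin–Lehner involution.** -/
theorem bz7c_stable (hunit : ∀ n : ℕ, Nat.Coprime n q → IsUnit (n : R))
    (h : ↥(modularFunctionFieldFullC K (M' * q))) (hh : s34i47c_IsHaupt K (M' * q) q h) :
    (∀ z : ↥(modularFunctionFieldFullC K (M' * q)),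
      (al97L_w (algebraMap K Q̄) M' q hq hM').toRingEquiv z ∈
          pk15_chart R ({h} : Set ↥(modularFunctionFieldFullC K (M' * q))) ↔
        z ∈ pk15_chart R ({h} : Set ↥(modularFunctionFieldFullC K (M' * q)))) ∧
    (∀ z : ↥(modularFunctionFieldFullC K (M' * q)),
      (al97L_w (algebraMap K Q̄) M' q hq hM').toRingEquiv z ∈
          pk15_chart R ({h⁻¹} : Set ↥(modularFunctionFieldFullC K (M' * q))) ↔
        z ∈ pk15_chart R ({h⁻¹} : Set ↥(modularFunctionFieldFullC K (M' * q)))) ∧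
    (∀ z : ↥(modularFunctionFieldFullC K (M' * q)),
      (al97L_w (algebraMap K Q̄) M' q hq hM').toRingEquiv z ∈
          pk15_chart R ({h, h⁻¹} : Set ↥(modularFunctionFieldFullC K (M' * q))) ↔
        z ∈ pk15_chart R ({h, h⁻¹} : Set ↥(modularFunctionFieldFullC K (M' * q)))) := by
  rcases hh with ⟨hq2, h2, rfl⟩ | ⟨hq3, h3, rfl⟩
  · have h2' : 2 ∣ M' := by
      rcases (Nat.Prime.dvd_mul Nat.prime_two).mp h2 with h | h
      · exact h
      · exact absurd ((Nat.prime_dvd_prime_iff_eq Nat.prime_two hq).mp h).symm hq2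
    have hu2 : IsUnit (2 : R) := by
      have := hunit 2 ((Nat.coprime_primes Nat.prime_two hq).mpr (Ne.symm hq2))
      simpa using this
    exact bz7i_stable_level2 (R := R) (algebraMap K Q̄) M' q hq hM' h2' hq2 hu2
  · have h3' : 3 ∣ M' := by
      rcases (Nat.Prime.dvd_mul Nat.prime_three).mp h3 with h | h
      · exact h
      · exact absurd ((Nat.prime_dvd_prime_iff_eq Nat.prime_three hq).mp h).symm hq3
    have hu3 : IsUnit (3 : R) := by
      have := hunit 3 ((Nat.coprime_primes Nat.prime_three hq).mpr (Ne.symm hq3))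
      simpa using this
    exact bz7i_stable_level3 (R := R) (algebraMap K Q̄) M' q hq hM' h3' hq3 hu3

/-- **(3a) for the `0`-branch, uniformiser form**: hypothesis `h₂` of `ls63_locStr` from its
hypothesis `h₁`, for the canonical `V₁ = V_∞`, `V₂ = V_0` and a `w`-stable chart `B`. -/
theorem bz7c_unif_zero {π : R} (hπ : Irreducible π)
    (B : Subalgebra R ↥(modularFunctionFieldFullC K (M' * q)))
    (hwB : ∀ z : ↥(modularFunctionFieldFullC K (M' * q)),
      (al97L_w (algebraMap K Q̄) M' q hq hM').toRingEquiv z ∈ B ↔ z ∈ B)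
    (h₁ : ∀ n : Ideal B, n.IsMaximal → algebraMap R B π ∈ n →
      (∃ y : B, y ∉ n ∧ (algebraMap R ↥(modularFunctionFieldFullC K (M' * q)) π)⁻¹ *
        (y : ↥(modularFunctionFieldFullC K (M' * q))) ∈
          (s34i47c_V0 (K := K) M' q hq hM' hπ).toSubring) →
      ∃ z ∈ n, ∀ x ∈ n, ∃ s : B, s ∉ n ∧ ∃ a : B,
        (algebraMap R ↥(modularFunctionFieldFullC K (M' * q)) π)⁻¹ *
          ((s : ↥(modularFunctionFieldFullC K (M' * q))) * (x : ↥(modularFunctionFieldFullC K (M' * q)))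
            - (a : ↥(modularFunctionFieldFullC K (M' * q))) * (z : ↥(modularFunctionFieldFullC K (M' * q))))
          ∈ (cm85_Vinf (K := K) (M' * q) hπ).toSubring)
    (n : Ideal B) (hn : n.IsMaximal) (hπn : algebraMap R B π ∈ n)
    (hy : ∃ y : B, y ∉ n ∧ (algebraMap R ↥(modularFunctionFieldFullC K (M' * q)) π)⁻¹ *
      (y : ↥(modularFunctionFieldFullC K (M' * q))) ∈ (cm85_Vinf (K := K) (M' * q) hπ).toSubring) :
    ∃ z ∈ n, ∀ x ∈ n, ∃ s : B, s ∉ n ∧ ∃ a : B,
      (algebraMap R ↥(modularFunctionFieldFullC K (M' * q)) π)⁻¹ *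
        ((s : ↥(modularFunctionFieldFullC K (M' * q))) * (x : ↥(modularFunctionFieldFullC K (M' * q)))
          - (a : ↥(modularFunctionFieldFullC K (M' * q))) * (z : ↥(modularFunctionFieldFullC K (M' * q))))
        ∈ (s34i47c_V0 (K := K) M' q hq hM' hπ).toSubring := by
  refine bz7_unif_swap (R := R) π B (al97L_w (algebraMap K Q̄) M' q hq hM').toRingEquiv
    (bz7i_w_algebraMap (R := R) (algebraMap K Q̄) M' q hq hM') hwB
    (cm85_Vinf (K := K) (M' * q) hπ).toSubring (s34i47c_V0 (K := K) M' q hq hM' hπ).toSubring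
    (fun x => Iff.rfl) (fun x => ?_) h₁ n hn hπn hy
  show x ∈ cm85_Vinf (K := K) (M' * q) hπ ↔
    al97L_w (algebraMap K Q̄) M' q hq hM' (al97L_w (algebraMap K Q̄) M' q hq hM' x) ∈
      cm85_Vinf (K := K) (M' * q) hπ
  rw [al97L_w_w]

/-- **(3a) for the `0`-branch, Dedekind form**: the hypothesis `[IsDedekindDomain (B ⧸ P₂)]` of
`ls63_locStr_of_dedekind` from `[IsDedekindDomain (B ⧸ P₁)]`, for the canonical `V₁ = V_∞`,
`V₂ = V_0` and a `w`-stable chart `B`. -/
theorem bz7c_dedekind_zero {π : R} (hπ : Irreducible π)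
    (B : Subalgebra R ↥(modularFunctionFieldFullC K (M' * q)))
    (hwB : ∀ z : ↥(modularFunctionFieldFullC K (M' * q)),
      (al97L_w (algebraMap K Q̄) M' q hq hM').toRingEquiv z ∈ B ↔ z ∈ B)
    (P₁ P₂ : Ideal B)
    (hP₁ : ∀ x : B, x ∈ P₁ ↔ (algebraMap R ↥(modularFunctionFieldFullC K (M' * q)) π)⁻¹ *
      (x : ↥(modularFunctionFieldFullC K (M' * q))) ∈ (cm85_Vinf (K := K) (M' * q) hπ).toSubring)
    (hP₂ : ∀ x : B, x ∈ P₂ ↔ (algebraMap R ↥(modularFunctionFieldFullC K (M' * q)) π)⁻¹ *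
      (x : ↥(modularFunctionFieldFullC K (M' * q))) ∈
        (s34i47c_V0 (K := K) M' q hq hM' hπ).toSubring)
    [IsDedekindDomain (B ⧸ P₁)] : IsDedekindDomain (B ⧸ P₂) :=
  bz7_dedekind_swap (R := R) π B (al97L_w (algebraMap K Q̄) M' q hq hM').toRingEquiv
    (bz7i_w_algebraMap (R := R) (algebraMap K Q̄) M' q hq hM') hwB
    (cm85_Vinf (K := K) (M' * q) hπ).toSubring (s34i47c_V0 (K := K) M' q hq hM' hπ).toSubring
    (fun _ => Iff.rfl) P₁ P₂ hP₁ hP₂

end bz7c

end Fermat.Agent.S34
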