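import Mathlib

/-!
# S34 lab (helper70, registry row 496): the Newton polygon at the cusps, abstract part

Mathlib only.  `F` a field, `O` a valuation subring, `v = O.valuation`.

* `nc70_newton` : if `u₁ x^(q+1) + u₂ y^(q+1) + ∑_{a,b ≤ q} c a b x^a y^b = 0` with `u₁, u₂, c q q`
  units of `O` and all `c a b ∈ O` (the shape of the modular equation `Φ_q(j_q, j) = 0`), then
  `nc70_NP O q x y`:  `x ∈ O ↔ y ∈ O`, and if `y ∉ O` then `v x = v y ^ q` or `v y = v x ^ q`.
* `nc70_T_mem` : hence `x / y ^ q ∈ O` as soon as `y⁻¹ ∈ O` (the function `T = j_q / j^q`).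
* `nc70_Profile O e h j j'` : the valuation profile of a Hauptmodul `h` of level `e ∈ {2, 3}`
  against `j` and `j' = j_e`; `nc70_profile_two`, `nc70_profile_three` from the classical relations.
* `nc70_sign` : two Hauptmoduln `h`, `g` (think `g = h(Q^q)`) with profiles against `(j, j')`,
  `(jq, jq')` and the Newton property for `(jq, j)`, `(jq', j')`, `e ≠ q`: `v h ≤ 1 → v g ≤ 1`
  and `1 ≤ v h → 1 ≤ v g`.
* `nc70_isIntegral_of_forall` : integrality over `R[s]` from membership in all valuation subrings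
  containing `R` and `s`.
* `nc70_haupt_integral` : `g` is integral over `R[h]`, `g⁻¹` over `R[h⁻¹]`, and conversely.
* `nc70_T_integral` : `x / y ^ q` is integral over `R[y⁻¹]`.

All names are prefixed `nc70_`.
-/

set_option autoImplicit false

namespace Fermat.Agent.S34

open Finset

section Newton

variable {F : Type*} [Field F]

/-- A relation `t + s = 0` cannot have a strictly dominant term. -/
theorem nc70_dom {Γ₀ : Type*} [LinearOrderedCommGroupWithZero Γ₀] (v : Valuation F Γ₀)
    (t s : F) (h0 : t + s = 0) (hlt : v s < v t) : False := by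
  have h1 : t = -s := eq_neg_of_add_eq_zero_left h0
  rw [h1, Valuation.map_neg] at hlt
  exact lt_irrefl _ hlt

/-- Bound for one monomial. -/
theorem nc70_term_le (O : ValuationSubring F) (c x y : F) (hc : c ∈ O) (a b : ℕ) :
    O.valuation (c * x ^ a * y ^ b) ≤ O.valuation x ^ a * O.valuation y ^ b := by
  rw [map_mul, map_mul, map_pow, map_pow, mul_assoc]
  exact mul_le_of_le_one_left' ((O.valuation_le_one_iff c).mpr hc)

/-- Integral direction: `y ∈ O → x ∈ O`. -/
theorem nc70_newton_mem (O : ValuationSubring F) (q : ℕ)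
    (u₁ u₂ : F) (hu₁ : O.valuation u₁ = 1) (hu₂ : u₂ ∈ O)
    (c : ℕ → ℕ → F) (hc : ∀ a b, c a b ∈ O) (x y : F)
    (hrel : u₁ * x ^ (q + 1) + u₂ * y ^ (q + 1) +
      ∑ a ∈ range (q + 1), ∑ b ∈ range (q + 1), c a b * x ^ a * y ^ b = 0)
    (hy : y ∈ O) : x ∈ O := by
  by_contra hx
  have hA : 1 < O.valuation x := by
    rw [← not_le, O.valuation_le_one_iff]
    exact hx
  have hB : O.valuation y ≤ 1 := (O.valuation_le_one_iff y).mpr hy
  have hg : O.valuation (u₁ * x ^ (q + 1)) = O.valuation x ^ (q + 1) := by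
    rw [map_mul, hu₁, one_mul, map_pow]
  have h1 : (1 : O.ValueGroup) < O.valuation x ^ (q + 1) := one_lt_pow₀ hA (Nat.succ_ne_zero q)
  have hg0 : O.valuation x ^ (q + 1) ≠ 0 := ne_of_gt (lt_trans zero_lt_one h1)
  refine nc70_dom O.valuation (u₁ * x ^ (q + 1)) (u₂ * y ^ (q + 1) +
    ∑ a ∈ range (q + 1), ∑ b ∈ range (q + 1), c a b * x ^ a * y ^ b)
    (by rw [← add_assoc]; exact hrel) ?_
  rw [hg]
  refine lt_of_le_of_lt (O.valuation.map_add _ _) (max_lt ?_ ?_)
  · refine lt_of_le_of_lt ?_ h1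
    rw [map_mul, map_pow]
    exact mul_le_one' ((O.valuation_le_one_iff u₂).mpr hu₂) (pow_le_one' hB _)
  · refine O.valuation.map_sum_lt hg0 fun a ha => ?_
    refine O.valuation.map_sum_lt hg0 fun b _ => ?_
    have ha' : a < q + 1 := mem_range.mp ha
    refine lt_of_le_of_lt (nc70_term_le O (c a b) x y (hc a b) a b) ?_
    refine lt_of_le_of_lt (mul_le_of_le_one_right' (pow_le_one' hB _)) ?_
    exact pow_lt_pow_right₀ hA ha'

/-- Exclusion of the slope `v x > v y ^ q` when `y` has a pole. -/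
theorem nc70_newton_excl (O : ValuationSubring F) (q : ℕ) (hq : 1 ≤ q)
    (u₁ u₂ : F) (hu₁ : O.valuation u₁ = 1) (hu₂ : u₂ ∈ O)
    (c : ℕ → ℕ → F) (hc : ∀ a b, c a b ∈ O) (x y : F)
    (hrel : u₁ * x ^ (q + 1) + u₂ * y ^ (q + 1) +
      ∑ a ∈ range (q + 1), ∑ b ∈ range (q + 1), c a b * x ^ a * y ^ b = 0)
    (hB : 1 < O.valuation y) (hlt : O.valuation y ^ q < O.valuation x) : False := by
  have hB0 : (0 : O.ValueGroup) < O.valuation y := lt_trans zero_lt_one hB
  have hBq : O.valuation y ≤ O.valuation y ^ q := le_self_pow₀ hB.le (by omega)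
  have hBA : O.valuation y < O.valuation x := lt_of_le_of_lt hBq hlt
  have hA : 1 < O.valuation x := lt_trans hB hBA
  have hA0 : (0 : O.ValueGroup) < O.valuation x := lt_trans zero_lt_one hA
  have hg : O.valuation (u₁ * x ^ (q + 1)) = O.valuation x ^ (q + 1) := by
    rw [map_mul, hu₁, one_mul, map_pow]
  have hg0 : O.valuation x ^ (q + 1) ≠ 0 := ne_of_gt (pow_pos hA0 _)
  refine nc70_dom O.valuation (u₁ * x ^ (q + 1)) (u₂ * y ^ (q + 1) +
    ∑ a ∈ range (q + 1), ∑ b ∈ range (q + 1), c a b * x ^ a * y ^ b)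
    (by rw [← add_assoc]; exact hrel) ?_
  rw [hg]
  refine lt_of_le_of_lt (O.valuation.map_add _ _) (max_lt ?_ ?_)
  · rw [map_mul, map_pow]
    refine lt_of_le_of_lt (mul_le_of_le_one_left' ((O.valuation_le_one_iff u₂).mpr hu₂)) ?_
    exact pow_lt_pow_left₀ hBA hB0.le (Nat.succ_ne_zero q)
  · refine O.valuation.map_sum_lt hg0 fun a ha => ?_
    refine O.valuation.map_sum_lt hg0 fun b hb => ?_
    have ha' : a ≤ q := Nat.lt_succ_iff.mp (mem_range.mp ha)
    have hb' : b ≤ q := Nat.lt_succ_iff.mp (mem_range.mp hb)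
    refine lt_of_le_of_lt (nc70_term_le O (c a b) x y (hc a b) a b) ?_
    have h1 : O.valuation x ^ a * O.valuation y ^ b ≤ O.valuation x ^ q * O.valuation y ^ q :=
      mul_le_mul' (pow_le_pow_right₀ hA.le ha') (pow_le_pow_right₀ hB.le hb')
    refine lt_of_le_of_lt h1 ?_
    rw [pow_succ]
    exact (mul_lt_mul_iff_of_pos_left (pow_pos hA0 q)).mpr hlt

/-- Exclusion of the middle: both poles, `v x < v y ^ q` and `v y < v x ^ q`. -/
theorem nc70_newton_mid (O : ValuationSubring F) (q : ℕ)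
    (u₁ u₂ : F) (hu₁ : u₁ ∈ O) (hu₂ : u₂ ∈ O)
    (c : ℕ → ℕ → F) (hc : ∀ a b, c a b ∈ O) (hcq : O.valuation (c q q) = 1) (x y : F)
    (hrel : u₁ * x ^ (q + 1) + u₂ * y ^ (q + 1) +
      ∑ a ∈ range (q + 1), ∑ b ∈ range (q + 1), c a b * x ^ a * y ^ b = 0)
    (hA : 1 < O.valuation x) (hB : 1 < O.valuation y)
    (h1 : O.valuation x < O.valuation y ^ q) (h2 : O.valuation y < O.valuation x ^ q) :
    False := by
  have hA0 : (0 : O.ValueGroup) < O.valuation x := lt_trans zero_lt_one hA
  have hB0 : (0 : O.ValueGroup) < O.valuation y := lt_trans zero_lt_one hB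
  have hsplit : ∑ a ∈ range (q + 1), ∑ b ∈ range (q + 1), c a b * x ^ a * y ^ b =
      ∑ a ∈ range q, ∑ b ∈ range (q + 1), c a b * x ^ a * y ^ b +
        (∑ b ∈ range q, c q b * x ^ q * y ^ b + c q q * x ^ q * y ^ q) := by
    rw [sum_range_succ, sum_range_succ (fun b => c q b * x ^ q * y ^ b)]
  have hg : O.valuation (c q q * x ^ q * y ^ q) = O.valuation x ^ q * O.valuation y ^ q := by
    rw [map_mul, map_mul, hcq, one_mul, map_pow, map_pow]
  have hg0 : O.valuation x ^ q * O.valuation y ^ q ≠ 0 :=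
    ne_of_gt (mul_pos (pow_pos hA0 _) (pow_pos hB0 _))
  refine nc70_dom O.valuation (c q q * x ^ q * y ^ q) (u₁ * x ^ (q + 1) + (u₂ * y ^ (q + 1) +
    (∑ a ∈ range q, ∑ b ∈ range (q + 1), c a b * x ^ a * y ^ b +
      ∑ b ∈ range q, c q b * x ^ q * y ^ b))) (by rw [← hrel, hsplit]; ring) ?_
  rw [hg]
  refine lt_of_le_of_lt (O.valuation.map_add _ _) (max_lt ?_ ?_)
  · rw [map_mul, map_pow]
    refine lt_of_le_of_lt (mul_le_of_le_one_left' ((O.valuation_le_one_iff u₁).mpr hu₁)) ?_
    rw [pow_succ]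
    exact (mul_lt_mul_iff_of_pos_left (pow_pos hA0 q)).mpr h1
  refine lt_of_le_of_lt (O.valuation.map_add _ _) (max_lt ?_ ?_)
  · rw [map_mul, map_pow]
    refine lt_of_le_of_lt (mul_le_of_le_one_left' ((O.valuation_le_one_iff u₂).mpr hu₂)) ?_
    rw [pow_succ, mul_comm (O.valuation x ^ q)]
    exact (mul_lt_mul_iff_of_pos_left (pow_pos hB0 q)).mpr h2
  refine lt_of_le_of_lt (O.valuation.map_add _ _) (max_lt ?_ ?_)
  · refine O.valuation.map_sum_lt hg0 fun a ha => ?_
    refine O.valuation.map_sum_lt hg0 fun b hb => ?_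
    have ha' : a < q := mem_range.mp ha
    have hb' : b ≤ q := Nat.lt_succ_iff.mp (mem_range.mp hb)
    refine lt_of_le_of_lt (nc70_term_le O (c a b) x y (hc a b) a b) ?_
    refine lt_of_le_of_lt (mul_le_mul' le_rfl (pow_le_pow_right₀ hB.le hb')) ?_
    rw [mul_comm (O.valuation x ^ a), mul_comm (O.valuation x ^ q)]
    exact (mul_lt_mul_iff_of_pos_left (pow_pos hB0 q)).mpr (pow_lt_pow_right₀ hA ha')
  · refine O.valuation.map_sum_lt hg0 fun b hb => ?_
    have hb' : b < q := mem_range.mp hb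
    refine lt_of_le_of_lt (nc70_term_le O (c q b) x y (hc q b) q b) ?_
    exact (mul_lt_mul_iff_of_pos_left (pow_pos hA0 q)).mpr (pow_lt_pow_right₀ hB hb')

/-- The Newton property of a pair `(x, y)` at `O`. -/
def nc70_NP (O : ValuationSubring F) (q : ℕ) (x y : F) : Prop :=
  (x ∈ O ↔ y ∈ O) ∧
    (y ∉ O → O.valuation x = O.valuation y ^ q ∨ O.valuation y = O.valuation x ^ q)

theorem nc70_NP.symm {O : ValuationSubring F} {q : ℕ} {x y : F} (h : nc70_NP O q x y) :
    nc70_NP O q y x :=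
  ⟨h.1.symm, fun hx => (h.2 (fun hy => hx (h.1.mpr hy))).symm⟩

/-- **Newton polygon of the modular equation.** -/
theorem nc70_newton (O : ValuationSubring F) (q : ℕ) (hq : 1 ≤ q)
    (u₁ u₂ : F) (hu₁ : O.valuation u₁ = 1) (hu₂ : O.valuation u₂ = 1)
    (c : ℕ → ℕ → F) (hc : ∀ a b, c a b ∈ O) (hcq : O.valuation (c q q) = 1) (x y : F)
    (hrel : u₁ * x ^ (q + 1) + u₂ * y ^ (q + 1) +
      ∑ a ∈ range (q + 1), ∑ b ∈ range (q + 1), c a b * x ^ a * y ^ b = 0) :
    nc70_NP O q x y := by
  have hu₁' : u₁ ∈ O := (O.valuation_le_one_iff u₁).mp hu₁.le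
  have hu₂' : u₂ ∈ O := (O.valuation_le_one_iff u₂).mp hu₂.le
  -- the swapped relation
  have hrel' : u₂ * y ^ (q + 1) + u₁ * x ^ (q + 1) +
      ∑ a ∈ range (q + 1), ∑ b ∈ range (q + 1), c b a * y ^ a * x ^ b = 0 := by
    rw [← hrel, sum_comm, add_comm (u₂ * y ^ (q + 1))]
    congr 1
    refine sum_congr rfl fun a _ => sum_congr rfl fun b _ => ?_
    ring
  have hxy : y ∈ O → x ∈ O := nc70_newton_mem O q u₁ u₂ hu₁ hu₂' c hc x y hrel
  have hyx : x ∈ O → y ∈ O :=
    nc70_newton_mem O q u₂ u₁ hu₂ hu₁' (fun a b => c b a) (fun a b => hc b a) y x hrel'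
  refine ⟨⟨hyx, hxy⟩, fun hy => ?_⟩
  have hB : 1 < O.valuation y := by
    rw [← not_le, O.valuation_le_one_iff]
    exact hy
  have hA : 1 < O.valuation x := by
    rw [← not_le, O.valuation_le_one_iff]
    exact fun hx => hy (hyx hx)
  have e1 : ¬ O.valuation y ^ q < O.valuation x :=
    fun hlt => nc70_newton_excl O q hq u₁ u₂ hu₁ hu₂' c hc x y hrel hB hlt
  have e2 : ¬ O.valuation x ^ q < O.valuation y :=
    fun hlt => nc70_newton_excl O q hq u₂ u₁ hu₂ hu₁' (fun a b => c b a) (fun a b => hc b a)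
      y x hrel' hA hlt
  by_contra hne
  rw [not_or] at hne
  exact nc70_newton_mid O q u₁ u₂ hu₁' hu₂' c hc hcq x y hrel hA hB
    (lt_of_le_of_ne (not_lt.mp e1) hne.1) (lt_of_le_of_ne (not_lt.mp e2) hne.2)

/-- `1 ≤ v y` from `y⁻¹ ∈ O`. -/
theorem nc70_one_le_of_inv_mem (O : ValuationSubring F) (y : F) (hy0 : y ≠ 0) (hy : y⁻¹ ∈ O) :
    1 ≤ O.valuation y := by
  have h1 : O.valuation y⁻¹ ≤ 1 := (O.valuation_le_one_iff _).mpr hy
  rw [map_inv₀] at h1
  have h0 : (0 : O.ValueGroup) < O.valuation y :=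
    zero_lt_iff.mpr ((map_ne_zero O.valuation).mpr hy0)
  exact (inv_le_one₀ h0).mp h1

theorem nc70_inv_mem_of_one_le (O : ValuationSubring F) (y : F) (hy0 : y ≠ 0)
    (hy : 1 ≤ O.valuation y) : y⁻¹ ∈ O := by
  rw [← O.valuation_le_one_iff, map_inv₀]
  have h0 : (0 : O.ValueGroup) < O.valuation y :=
    zero_lt_iff.mpr ((map_ne_zero O.valuation).mpr hy0)
  exact (inv_le_one₀ h0).mpr hy

/-- The function `T = x / y ^ q` (`x = j_q`, `y = j`) is regular wherever `1 / y` is. -/
theorem nc70_T_mem (O : ValuationSubring F) (q : ℕ) (hq : 1 ≤ q) (x y : F) (hy0 : y ≠ 0)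
    (h : nc70_NP O q x y) (hy : y⁻¹ ∈ O) : x / y ^ q ∈ O := by
  have hB : 1 ≤ O.valuation y := nc70_one_le_of_inv_mem O y hy0 hy
  have hB0 : (0 : O.ValueGroup) < O.valuation y := lt_of_lt_of_le zero_lt_one hB
  rw [← O.valuation_le_one_iff, map_div₀, map_pow]
  by_cases hyO : y ∈ O
  · have hx : O.valuation x ≤ 1 := (O.valuation_le_one_iff x).mpr (h.1.mpr hyO)
    have hB1 : O.valuation y = 1 := le_antisymm ((O.valuation_le_one_iff y).mpr hyO) hB
    rw [hB1, one_pow, div_one]
    exact hx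
  · rcases h.2 hyO with h1 | h1
    · rw [h1, div_self (ne_of_gt (pow_pos hB0 q))]
    · have hB' : 1 < O.valuation y := by
        rw [← not_le, O.valuation_le_one_iff]
        exact hyO
      have hA : 1 < O.valuation x := by
        by_contra hcon
        rw [h1] at hB'
        exact absurd hB' (not_lt.mpr (pow_le_one' (not_lt.mp hcon) q))
      have hA0 : (0 : O.ValueGroup) < O.valuation x := lt_trans zero_lt_one hA
      rw [h1, ← pow_mul, div_le_one₀ (pow_pos hA0 _)]
      exact le_self_pow₀ hA.le (by positivity)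

end Newton

section Haupt

variable {F : Type*} [Field F]

/-- The valuation profile of a Hauptmodul `h` of level `e` against `j` and `j' = j_e`. -/
def nc70_Profile (O : ValuationSubring F) (e : ℕ) (h j j' : F) : Prop :=
  (O.valuation h < 1 →
      O.valuation j * O.valuation h ^ e = 1 ∧ O.valuation j' * O.valuation h = 1) ∧
    (1 < O.valuation h → O.valuation j = O.valuation h ∧ O.valuation j' = O.valuation h ^ e) ∧
    (O.valuation h = 1 → j ∈ O)

theorem nc70_val_add_small (O : ValuationSubring F) (h k : F) (hk : O.valuation k = 1)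
    (hh : O.valuation h < 1) : O.valuation (h + k) = 1 := by
  rw [add_comm, O.valuation.map_add_eq_of_lt_left (by rw [hk]; exact hh), hk]

theorem nc70_val_add_big (O : ValuationSubring F) (h k : F) (hk : O.valuation k = 1)
    (hh : 1 < O.valuation h) : O.valuation (h + k) = O.valuation h := by
  rw [O.valuation.map_add_eq_of_lt_left (by rw [hk]; exact hh)]

theorem nc70_val_add_le (O : ValuationSubring F) (h k : F) (hk : O.valuation k = 1)
    (hh : O.valuation h = 1) : O.valuation (h + k) ≤ 1 :=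
  le_trans (O.valuation.map_add _ _) (max_le hh.le hk.le)

/-- Level 2: `j h² = (h + 256)³`, `j₂ h = (h + 16)³`. -/
theorem nc70_profile_two (O : ValuationSubring F) (h2 : O.valuation (2 : F) = 1)
    (h j j' : F) (hh : h ≠ 0)
    (r1 : j * h ^ 2 = (h + 256) ^ 3) (r2 : j' * h = (h + 16) ^ 3) :
    nc70_Profile O 2 h j j' := by
  have h256 : O.valuation (256 : F) = 1 := by
    rw [show (256 : F) = 2 ^ 8 by norm_num, map_pow, h2, one_pow]
  have h16 : O.valuation (16 : F) = 1 := by
    rw [show (16 : F) = 2 ^ 4 by norm_num, map_pow, h2, one_pow]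
  have hH0 : O.valuation h ≠ 0 := (map_ne_zero O.valuation).mpr hh
  have e1 : O.valuation j * O.valuation h ^ 2 = O.valuation (h + 256) ^ 3 := by
    rw [← map_pow, ← map_mul, r1, map_pow]
  have e2 : O.valuation j' * O.valuation h = O.valuation (h + 16) ^ 3 := by
    rw [← map_mul, r2, map_pow]
  refine ⟨fun hlt => ?_, fun hgt => ?_, fun heq => ?_⟩
  · rw [nc70_val_add_small O h 256 h256 hlt, one_pow] at e1
    rw [nc70_val_add_small O h 16 h16 hlt, one_pow] at e2
    exact ⟨e1, e2⟩
  · rw [nc70_val_add_big O h 256 h256 hgt] at e1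
    rw [nc70_val_add_big O h 16 h16 hgt] at e2
    constructor
    · have : O.valuation j * O.valuation h ^ 2 = O.valuation h * O.valuation h ^ 2 := by
        rw [e1, pow_succ' (O.valuation h) 2]
      exact mul_right_cancel₀ (pow_ne_zero 2 hH0) this
    · have : O.valuation j' * O.valuation h = O.valuation h ^ 2 * O.valuation h := by
        rw [e2, pow_succ (O.valuation h) 2]
      exact mul_right_cancel₀ hH0 this
  · rw [heq, one_pow, mul_one] at e1
    rw [← O.valuation_le_one_iff, e1]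
    exact pow_le_one' (nc70_val_add_le O h 256 h256 heq) 3

/-- Level 3: `j h³ = (h + 27)(h + 243)³`, `j₃ h = (h + 27)(h + 3)³`. -/
theorem nc70_profile_three (O : ValuationSubring F) (h3 : O.valuation (3 : F) = 1)
    (h j j' : F) (hh : h ≠ 0)
    (r1 : j * h ^ 3 = (h + 27) * (h + 243) ^ 3) (r2 : j' * h = (h + 27) * (h + 3) ^ 3) :
    nc70_Profile O 3 h j j' := by
  have h27 : O.valuation (27 : F) = 1 := by
    rw [show (27 : F) = 3 ^ 3 by norm_num, map_pow, h3, one_pow]
  have h243 : O.valuation (243 : F) = 1 := by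
    rw [show (243 : F) = 3 ^ 5 by norm_num, map_pow, h3, one_pow]
  have hH0 : O.valuation h ≠ 0 := (map_ne_zero O.valuation).mpr hh
  have e1 : O.valuation j * O.valuation h ^ 3 =
      O.valuation (h + 27) * O.valuation (h + 243) ^ 3 := by
    rw [← map_pow, ← map_mul, r1, map_mul, map_pow]
  have e2 : O.valuation j' * O.valuation h = O.valuation (h + 27) * O.valuation (h + 3) ^ 3 := by
    rw [← map_mul, r2, map_mul, map_pow]
  refine ⟨fun hlt => ?_, fun hgt => ?_, fun heq => ?_⟩
  · rw [nc70_val_add_small O h 27 h27 hlt, nc70_val_add_small O h 243 h243 hlt, one_pow,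
      one_mul] at e1
    rw [nc70_val_add_small O h 27 h27 hlt, nc70_val_add_small O h 3 h3 hlt, one_pow,
      one_mul] at e2
    exact ⟨e1, e2⟩
  · rw [nc70_val_add_big O h 27 h27 hgt, nc70_val_add_big O h 243 h243 hgt] at e1
    rw [nc70_val_add_big O h 27 h27 hgt, nc70_val_add_big O h 3 h3 hgt] at e2
    constructor
    · exact mul_right_cancel₀ (pow_ne_zero 3 hH0) e1
    · have : O.valuation j' * O.valuation h = O.valuation h ^ 3 * O.valuation h := by
        rw [e2, mul_comm]
      exact mul_right_cancel₀ hH0 this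
  · rw [heq, one_pow, mul_one] at e1
    rw [← O.valuation_le_one_iff, e1]
    exact mul_le_one' (nc70_val_add_le O h 27 h27 heq)
      (pow_le_one' (nc70_val_add_le O h 243 h243 heq) 3)

/-- Injectivity of exponents on an element `> 1`. -/
theorem nc70_pow_inj {Γ₀ : Type*} [LinearOrderedCommGroupWithZero Γ₀] {X : Γ₀} (hX : 1 < X)
    {m n : ℕ} (h : X ^ m = X ^ n) : m = n :=
  pow_right_injective₀ (lt_trans zero_lt_one hX) (ne_of_gt hX) h

/-- Exclusion: `h` has a zero and `g` has a pole. -/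
theorem nc70_sign_excl (O : ValuationSubring F) (e q : ℕ) (he : 2 ≤ e) (hq : 1 ≤ q)
    (heq : e ≠ q) (h j j' g jq jq' : F) (hh : h ≠ 0)
    (P : nc70_Profile O e h j j') (Pq : nc70_Profile O e g jq jq')
    (N : nc70_NP O q jq j) (N' : nc70_NP O q jq' j')
    (hH : O.valuation h < 1) (hG : 1 < O.valuation g) : False := by
  obtain ⟨p1, p2⟩ := P.1 hH
  obtain ⟨g1, g2⟩ := Pq.2.1 hG
  have hH0 : (0 : O.ValueGroup) < O.valuation h :=
    zero_lt_iff.mpr ((map_ne_zero O.valuation).mpr hh)
  set X := (O.valuation h)⁻¹ with hX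
  set G := O.valuation g with hGdef
  have hX1 : 1 < X := (one_lt_inv₀ hH0).mpr hH
  have hj : O.valuation j = X ^ e := by
    rw [hX, inv_pow]
    exact eq_inv_of_mul_eq_one_left p1
  have hj' : O.valuation j' = X := by
    rw [hX]
    exact eq_inv_of_mul_eq_one_left p2
  have hjO : j ∉ O := by
    rw [← O.valuation_le_one_iff, not_le, hj]
    exact one_lt_pow₀ hX1 (by omega)
  have hj'O : j' ∉ O := by
    rw [← O.valuation_le_one_iff, not_le, hj']
    exact hX1
  have n1 := N.2 hjO
  have n2 := N'.2 hj'O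
  rw [g1, hj] at n1
  rw [g2, hj'] at n2
  have h4 : 4 ≤ e * e := Nat.mul_le_mul he he
  have h6 : q * 4 ≤ q * (e * e) := Nat.mul_le_mul_left q h4
  rcases n1 with n1 | n1 <;> rcases n2 with n2 | n2
  · -- G = X^(e q), G^e = X^q
    have h3 : X ^ (q * (e * e)) = X ^ q := by
      rw [← n2, n1, ← pow_mul, ← pow_mul]
      congr 1
      ring
    have := nc70_pow_inj hX1 h3
    omega
  · -- G = X^(e q), X = G^(e q)
    have h3 : X ^ (e * (q * (e * q))) = X ^ 1 := by
      rw [pow_one]
      conv_rhs => rw [n2, n1]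
      rw [← pow_mul, ← pow_mul, ← pow_mul]
    have h5 := nc70_pow_inj hX1 h3
    have h7 : 1 ≤ q * (e * q) := Nat.mul_pos (by omega) (Nat.mul_pos (by omega) (by omega))
    have h8 : e * 1 ≤ e * (q * (e * q)) := Nat.mul_le_mul_left e h7
    omega
  · -- X^e = G^q, G^e = X^q
    have h3 : X ^ (e * e) = X ^ (q * q) := by
      calc X ^ (e * e) = (X ^ e) ^ e := pow_mul X e e
        _ = (G ^ q) ^ e := by rw [n1]
        _ = (G ^ e) ^ q := by rw [← pow_mul, mul_comm, pow_mul]
        _ = (X ^ q) ^ q := by rw [n2]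
        _ = X ^ (q * q) := (pow_mul X q q).symm
    have := nc70_pow_inj hX1 h3
    exact heq (Nat.mul_self_inj.mp this)
  · -- X^e = G^q, X = G^(e q)
    have h3 : G ^ (q * (e * e)) = G ^ q := by
      calc G ^ (q * (e * e)) = ((G ^ e) ^ q) ^ e := by
            rw [← pow_mul, ← pow_mul]
            congr 1
            ring
        _ = X ^ e := by rw [← n2]
        _ = G ^ q := n1
    have := nc70_pow_inj hG h3
    omega

/-- **Sign lemma.** Zeros and poles of `h` and `g` are centred at the same valuation rings. -/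
theorem nc70_sign (O : ValuationSubring F) (e q : ℕ) (he : 2 ≤ e) (hq : 1 ≤ q) (heq : e ≠ q)
    (h j j' g jq jq' : F) (hh : h ≠ 0) (hg : g ≠ 0)
    (P : nc70_Profile O e h j j') (Pq : nc70_Profile O e g jq jq')
    (N : nc70_NP O q jq j) (N' : nc70_NP O q jq' j') :
    (O.valuation h ≤ 1 → O.valuation g ≤ 1) ∧ (1 ≤ O.valuation h → 1 ≤ O.valuation g) := by
  have hG0 : (0 : O.ValueGroup) < O.valuation g :=
    zero_lt_iff.mpr ((map_ne_zero O.valuation).mpr hg)
  -- `v h = 1 → v g = 1`
  have key : O.valuation h = 1 → O.valuation g = 1 := by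
    intro h1
    have hjO : j ∈ O := P.2.2 h1
    have hjq : O.valuation jq ≤ 1 := (O.valuation_le_one_iff jq).mpr (N.1.mpr hjO)
    rcases lt_trichotomy (O.valuation g) 1 with hlt | heq1 | hgt
    · exfalso
      have h2 := (Pq.1 hlt).1
      have h3 : O.valuation g ^ e < 1 := pow_lt_one₀ hG0.le hlt (by omega)
      have h4 : O.valuation jq * O.valuation g ^ e < 1 := by
        calc O.valuation jq * O.valuation g ^ e ≤ 1 * O.valuation g ^ e :=
              mul_le_mul' hjq le_rfl
          _ = O.valuation g ^ e := one_mul _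
          _ < 1 := h3
      rw [h2] at h4
      exact lt_irrefl _ h4
    · exact heq1
    · exfalso
      rw [(Pq.2.1 hgt).1] at hjq
      exact absurd hgt (not_lt.mpr hjq)
  constructor
  · intro hle
    rcases lt_or_eq_of_le hle with hlt | h1
    · by_contra hcon
      exact nc70_sign_excl O e q he hq heq h j j' g jq jq' hh P Pq N N' hlt (not_le.mp hcon)
    · exact (key h1).le
  · intro hle
    rcases lt_or_eq_of_le hle with hlt | h1
    · by_contra hcon
      exact nc70_sign_excl O e q he hq heq g jq jq' h j j' hg Pq P N.symm N'.symm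
        (not_le.mp hcon) hlt
    · exact (key h1.symm).ge

end Haupt

section Integral

variable {F : Type*} [Field F]

/-- Integrality over `R[s]` from membership in all valuation subrings containing `R` and `s`. -/
theorem nc70_isIntegral_of_forall {R : Type*} [CommRing R] [Algebra R F] (s : Set F) (x : F)
    (H : ∀ O : ValuationSubring F, (∀ r : R, algebraMap R F r ∈ O) → (∀ y ∈ s, y ∈ O) → x ∈ O) :
    IsIntegral (Algebra.adjoin R s) x := by
  have hx : x ∈ (⨅ V : {V : ValuationSubring F //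
      (Set.range (algebraMap R F) ∪ s) ⊆ V.toSubring}, V.1.toSubring) := by
    rw [Subring.mem_iInf]
    rintro ⟨V, hV⟩
    exact H V (fun r => hV (Or.inl ⟨r, rfl⟩)) (fun y hy => hV (Or.inr hy))
  rw [iInf_valuationSubring_superset] at hx
  have hx' : IsIntegral (Subring.closure (Set.range (algebraMap R F) ∪ s)) x := hx
  obtain ⟨p, hp, hpx⟩ := hx'
  have hle : ∀ y ∈ Subring.closure (Set.range (algebraMap R F) ∪ s), y ∈ Algebra.adjoin R s := by
    intro y hy
    rw [← Algebra.adjoin_eq_ring_closure] at hy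
    exact hy
  let ι : Subring.closure (Set.range (algebraMap R F) ∪ s) →+* Algebra.adjoin R s :=
    { toFun := fun y => ⟨y, hle y y.2⟩
      map_one' := rfl
      map_mul' := fun _ _ => rfl
      map_zero' := rfl
      map_add' := fun _ _ => rfl }
  refine ⟨p.map ι, hp.map _, ?_⟩
  rw [Polynomial.eval₂_map]
  exact hpx

/-- **Hauptmodul integrality.** If at every valuation subring containing `R` the two Hauptmoduln
`h`, `g` have profiles and the two pairs of `j`-functions have the Newton property, then `g` is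
integral over `R[h]`, `g⁻¹` over `R[h⁻¹]`, and conversely. -/
theorem nc70_haupt_integral {R : Type*} [CommRing R] [Algebra R F] (e q : ℕ) (he : 2 ≤ e)
    (hq : 1 ≤ q) (heq : e ≠ q) (h j j' g jq jq' : F) (hh : h ≠ 0) (hg : g ≠ 0)
    (hval : ∀ O : ValuationSubring F, (∀ r : R, algebraMap R F r ∈ O) →
      nc70_Profile O e h j j' ∧ nc70_Profile O e g jq jq' ∧ nc70_NP O q jq j ∧
        nc70_NP O q jq' j') :
    IsIntegral (Algebra.adjoin R ({h} : Set F)) g ∧
      IsIntegral (Algebra.adjoin R ({h⁻¹} : Set F)) g⁻¹ ∧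
      IsIntegral (Algebra.adjoin R ({g} : Set F)) h ∧
      IsIntegral (Algebra.adjoin R ({g⁻¹} : Set F)) h⁻¹ := by
  refine ⟨?_, ?_, ?_, ?_⟩
  · refine nc70_isIntegral_of_forall _ _ fun O hR hs => ?_
    obtain ⟨P, Pq, N, N'⟩ := hval O hR
    have h1 : O.valuation h ≤ 1 := (O.valuation_le_one_iff h).mpr (hs h rfl)
    exact (O.valuation_le_one_iff g).mp
      ((nc70_sign O e q he hq heq h j j' g jq jq' hh hg P Pq N N').1 h1)
  · refine nc70_isIntegral_of_forall _ _ fun O hR hs => ?_
    obtain ⟨P, Pq, N, N'⟩ := hval O hR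
    have h1 : 1 ≤ O.valuation h := nc70_one_le_of_inv_mem O h hh (hs h⁻¹ rfl)
    exact nc70_inv_mem_of_one_le O g hg
      ((nc70_sign O e q he hq heq h j j' g jq jq' hh hg P Pq N N').2 h1)
  · refine nc70_isIntegral_of_forall _ _ fun O hR hs => ?_
    obtain ⟨P, Pq, N, N'⟩ := hval O hR
    have h1 : O.valuation g ≤ 1 := (O.valuation_le_one_iff g).mpr (hs g rfl)
    exact (O.valuation_le_one_iff h).mp
      ((nc70_sign O e q he hq heq g jq jq' h j j' hg hh Pq P N.symm N'.symm).1 h1)
  · refine nc70_isIntegral_of_forall _ _ fun O hR hs => ?_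
    obtain ⟨P, Pq, N, N'⟩ := hval O hR
    have h1 : 1 ≤ O.valuation g := nc70_one_le_of_inv_mem O g hg (hs g⁻¹ rfl)
    exact nc70_inv_mem_of_one_le O h hh
      ((nc70_sign O e q he hq heq g jq jq' h j j' hg hh Pq P N.symm N'.symm).2 h1)

/-- `T = x / y ^ q` is integral over `R[y⁻¹]` when `(x, y)` has the Newton property at every
valuation subring containing `R`. -/
theorem nc70_T_integral {R : Type*} [CommRing R] [Algebra R F] (q : ℕ) (hq : 1 ≤ q) (x y : F)
    (hy0 : y ≠ 0)
    (hval : ∀ O : ValuationSubring F, (∀ r : R, algebraMap R F r ∈ O) → nc70_NP O q x y) :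
    IsIntegral (Algebra.adjoin R ({y⁻¹} : Set F)) (x / y ^ q) :=
  nc70_isIntegral_of_forall _ _ fun O hR hs =>
    nc70_T_mem O q hq x y hy0 (hval O hR) (hs y⁻¹ rfl)

end Integral

end Fermat.Agent.S34
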