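import Fermat.Agent.S34.BranchZeroB7
import Fermat.Agent.S34.NewtonCusp70
import Fermat.Agent.S34.PhiSupport70
import Fermat.Agent.S34.AtkinLehnerL97
import Fermat.Agent.S18.Pack85

/-!
# S34 lab, row 489 (P3a-0, twin; helper7): the charts of level `M' q` are stable under `w_q`

Level `M' * q`, `q` prime, `q ∤ M'`; `K` a field of characteristic zero with `φ : K →+* ℚ̄`;
`w = al97L_w φ M' q hq hM'` the Atkin–Lehner involution of `F = F_K(M' q)` (helper97); `R` any
commutative ring acting on `F` through `K`.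

* `bz7i_stable_level2` : if `2 ∣ M'`, `q ≠ 2` and `2` is a unit of `R`, then for the level-2
  Hauptmodul `h = pk85_h2 K (M' * q) _` the three charts `pk15_chart R {h}`, `pk15_chart R {h⁻¹}`,
  `pk15_chart R {h, h⁻¹}` are stable under `w`: `w z ∈ B ↔ z ∈ B`.
* `bz7i_stable_level3` : the same for `3 ∣ M'`, `q ≠ 3`, `3` a unit of `R`, `h = pk85_h3 K (M' * q) _`.

Proof: `w h = h(Q^q)` (`al97L_w_alpha`); the four integrality statements between `h` and `h(Q^q)`
(`nc70_haupt_integral`, helper70; twin `bz7_main`) from the modular equation in Newton shape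
(`ps70_modEq_map`, helper70) for the pairs `(j(Q^q), j)` and `(j(Q^(e q)), j(Q^e))` and the
Hauptmodul relations (`h70_j_mul_h2_sq`, `h70_j2_mul_h2'`, `h34_h3R_j`, `h34_h3R_j3`) and their
`Q ↦ Q^q` transforms; then `bz7_charts_stable`.

CONSUMERS (frame (LS), `0`-branch): with `hwB` from here, `bz7_dedekind_swap` /
`bz7_unif_swap` (BranchZeroB7) give the Dedekind / uniformiser property of the `0`-branch
`V_0 = V_∞.comap w` from the one of the `∞`-branch, in the literal hypothesis shapes of
`ls63_locStr_of_dedekind` / `ls63_locStr`.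

All names are prefixed `bz7i_`.
-/

set_option autoImplicit false
set_option linter.unusedSectionVars false

open ModularCurve AlgebraicCurve IntermediateField

namespace Fermat.Agent.S34

open Fermat.Agent.S18 Fermat.Agent.S24 Fermat.Agent.S28 Fermat.Agent.S37

section bz7i

variable {R K : Type} [CommRing R] [Field K] [CharZero K] [Algebra R K] (φ : K →+* Kbar)
  (M' q : ℕ) [NeZero M'] [NeZero q] (hq : q.Prime) (hM' : ¬ q ∣ M')
  [Algebra R ↥(modularFunctionFieldFullC K (M' * q))]
  [IsScalarTower R K ↥(modularFunctionFieldFullC K (M' * q))]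

/-- `w` fixes the constants of `R`. -/
theorem bz7i_w_algebraMap (r : R) :
    (al97L_w φ M' q hq hM').toRingEquiv
        (algebraMap R ↥(modularFunctionFieldFullC K (M' * q)) r) =
      algebraMap R ↥(modularFunctionFieldFullC K (M' * q)) r := by
  rw [IsScalarTower.algebraMap_apply R K ↥(modularFunctionFieldFullC K (M' * q))]
  exact (al97L_w φ M' q hq hM').commutes _

include hq in
/-- The modular equation in Newton shape for a pair `(x, y)` of elements of `F_K(M' q)` whose
Laurent series are the images of `(J(Q^q), J)` under a ring endomorphism `θ` of `K((Q))`. -/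
theorem bz7i_modEq (θ : LaurentSeries K →+* LaurentSeries K)
    (x y : ↥(modularFunctionFieldFullC K (M' * q)))
    (hx : (x : LaurentSeries K) = θ (qExpand K q (jqModC K)))
    (hy : (y : LaurentSeries K) = θ (jqModC K)) :
    ∃ (c : ℕ → ℕ → ℤ) (u : ℤ), (u = 1 ∨ u = -1) ∧ c q q = -1 ∧
      (1 : ↥(modularFunctionFieldFullC K (M' * q))) * x ^ (q + 1) +
        (u : ↥(modularFunctionFieldFullC K (M' * q))) * y ^ (q + 1) +
        ∑ a ∈ Finset.range (q + 1), ∑ b ∈ Finset.range (q + 1),
          (c a b : ↥(modularFunctionFieldFullC K (M' * q))) * x ^ a * y ^ b = 0 := by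
  obtain ⟨c, u, hu, hc, hrel⟩ := ps70_modEq_map q hq
  refine ⟨c, u, hu, hc, ?_⟩
  apply Subtype.ext
  have h1 := congrArg θ (hrel K)
  rw [JdC_of_neZero] at h1
  simp only [map_add, map_mul, map_pow, map_sum, map_intCast, map_zero, ← hx, ← hy] at h1
  push_cast
  rw [one_mul]
  exact h1

/-- **Core.**  `h` a function of level `M'` (seen in level `M' q`), `j₁`, `jq`, `jq₁` the elements
with Laurent series `J(Q^e)`, `J(Q^q)`, `J(Q^(e q))`; if `h` and `w h` have the profile of a
Hauptmodul of level `e ≠ q` against `(j, j₁)` and `(jq, jq₁)` at every valuation subring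
containing `R`, then the three charts of `h` are `w`-stable. -/
theorem bz7i_core (e : ℕ) [NeZero e] (he : 2 ≤ e) (heq : e ≠ q)
    (h : ↥(modularFunctionFieldFullC K (M' * q))) (hh0 : h ≠ 0)
    (j₁ jq jq₁ : ↥(modularFunctionFieldFullC K (M' * q)))
    (hj₁ : (j₁ : LaurentSeries K) = qExpand K e (jqModC K))
    (hjq : (jq : LaurentSeries K) = qExpand K q (jqModC K))
    (hjq₁ : (jq₁ : LaurentSeries K) = qExpand K e (qExpand K q (jqModC K)))
    (hP : ∀ O : ValuationSubring ↥(modularFunctionFieldFullC K (M' * q)),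
      (∀ r : R, algebraMap R ↥(modularFunctionFieldFullC K (M' * q)) r ∈ O) →
      nc70_Profile O e h (rm90_j K (M' * q)) j₁ ∧
        nc70_Profile O e ((al97L_w φ M' q hq hM').toRingEquiv h) jq jq₁) :
    (∀ z : ↥(modularFunctionFieldFullC K (M' * q)),
      (al97L_w φ M' q hq hM').toRingEquiv z ∈
          pk15_chart R ({h} : Set ↥(modularFunctionFieldFullC K (M' * q))) ↔
        z ∈ pk15_chart R ({h} : Set ↥(modularFunctionFieldFullC K (M' * q)))) ∧
    (∀ z : ↥(modularFunctionFieldFullC K (M' * q)),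
      (al97L_w φ M' q hq hM').toRingEquiv z ∈
          pk15_chart R ({h⁻¹} : Set ↥(modularFunctionFieldFullC K (M' * q))) ↔
        z ∈ pk15_chart R ({h⁻¹} : Set ↥(modularFunctionFieldFullC K (M' * q)))) ∧
    (∀ z : ↥(modularFunctionFieldFullC K (M' * q)),
      (al97L_w φ M' q hq hM').toRingEquiv z ∈
          pk15_chart R ({h, h⁻¹} : Set ↥(modularFunctionFieldFullC K (M' * q))) ↔
        z ∈ pk15_chart R ({h, h⁻¹} : Set ↥(modularFunctionFieldFullC K (M' * q)))) := by
  set w := (al97L_w φ M' q hq hM').toRingEquiv with hw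
  have hg0 : w h ≠ 0 := (map_ne_zero w).mpr hh0
  -- the two modular equations
  obtain ⟨c, u, hu, hc, hrel⟩ := bz7i_modEq (K := K) M' q hq (RingHom.id _) jq (rm90_j K (M' * q))
    hjq rfl
  obtain ⟨c', u', hu', hc', hrel'⟩ := bz7i_modEq (K := K) M' q hq (qExpand K e) jq₁ j₁ hjq₁ hj₁
  have hval : ∀ O : ValuationSubring ↥(modularFunctionFieldFullC K (M' * q)),
      (∀ r : R, algebraMap R ↥(modularFunctionFieldFullC K (M' * q)) r ∈ O) →
      nc70_Profile O e h (rm90_j K (M' * q)) j₁ ∧ nc70_Profile O e (w h) jq jq₁ ∧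
        nc70_NP O q jq (rm90_j K (M' * q)) ∧ nc70_NP O q jq₁ j₁ := by
    intro O hR
    obtain ⟨P, P'⟩ := hP O hR
    have hint : ∀ n : ℤ, (n : ↥(modularFunctionFieldFullC K (M' * q))) ∈ O := fun n =>
      intCast_mem O n
    have hone : O.valuation (1 : ↥(modularFunctionFieldFullC K (M' * q))) = 1 := map_one _
    have hneg : O.valuation (-1 : ↥(modularFunctionFieldFullC K (M' * q))) = 1 := by
      rw [Valuation.map_neg, map_one]
    have hpm : ∀ v : ℤ, (v = 1 ∨ v = -1) →
        O.valuation ((v : ℤ) : ↥(modularFunctionFieldFullC K (M' * q))) = 1 := by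
      rintro v (rfl | rfl)
      · rw [Int.cast_one]; exact hone
      · rw [Int.cast_neg, Int.cast_one]; exact hneg
    refine ⟨P, P', ?_, ?_⟩
    · exact nc70_newton O q hq.one_lt.le _ _ hone (hpm u hu) (fun a b => (c a b : _))
        (fun a b => hint _) (by rw [hc]; exact hpm (-1) (Or.inr rfl)) _ _ hrel
    · exact nc70_newton O q hq.one_lt.le _ _ hone (hpm u' hu') (fun a b => (c' a b : _))
        (fun a b => hint _) (by rw [hc']; exact hpm (-1) (Or.inr rfl)) _ _ hrel'
  obtain ⟨i1, i2, i3, i4⟩ := nc70_haupt_integral (R := R) e q he hq.one_lt.le heq h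
    (rm90_j K (M' * q)) j₁ (w h) jq jq₁ hh0 hg0 hval
  -- `w` is an involution
  have hww : ∀ x, w (w x) = x := fun x => al97L_w_w φ M' q hq hM' x
  have hsymm : ∀ x, w.symm x = w x := fun x => by
    rw [RingEquiv.symm_apply_eq, hww]
  have key := bz7_charts_stable (R := R) w (bz7i_w_algebraMap φ M' q hq hM') h i1 i2
    (by rw [hsymm]; exact i1) (by rw [hsymm]; exact i2)
  exact key

/-- `Q ↦ Q^a` and `Q ↦ Q^b` commute. -/
theorem bz7i_qExpand_comm (a b : ℕ) [NeZero a] [NeZero b] (f : LaurentSeries K) :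
    qExpand K a (qExpand K b f) = qExpand K b (qExpand K a f) := by
  rw [qExpand_qExpand, qExpand_qExpand]
  congr 2
  exact mul_comm a b

/-- The element of `F_K(M' q)` with Laurent series `J(Q^d)`, `d ∣ M' q`. -/
noncomputable def bz7i_jd (d : ℕ) [NeZero d] (hd : d ∣ M' * q) :
    ↥(modularFunctionFieldFullC K (M' * q)) :=
  ⟨qExpand K d (jqModC K), jqModCd_mem_full K (M' * q) hd⟩

/-- The element of `F_K(M' q)` with Laurent series `J(Q^(e q))` written as `(J(Q^q))(Q^e)`. -/
noncomputable def bz7i_jeq (e : ℕ) [NeZero e] (he : e ∣ M') :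
    ↥(modularFunctionFieldFullC K (M' * q)) :=
  ⟨qExpand K e (qExpand K q (jqModC K)), by
    rw [qExpand_qExpand]
    exact jqModCd_mem_full K (M' * q) (Nat.mul_dvd_mul he dvd_rfl)⟩

/-- **The three charts of the level-2 Hauptmodul are `w`-stable** (`2 ∣ M'`, `q ≠ 2`, `2 ∈ Rˣ`). -/
theorem bz7i_stable_level2 (h2 : 2 ∣ M') (hq2 : q ≠ 2) (hu2 : IsUnit (2 : R)) :
    (∀ z : ↥(modularFunctionFieldFullC K (M' * q)),
      (al97L_w φ M' q hq hM').toRingEquiv z ∈
          pk15_chart R ({pk85_h2 K (M' * q) (h2.trans (dvd_mul_right M' q))} :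
            Set ↥(modularFunctionFieldFullC K (M' * q))) ↔
        z ∈ pk15_chart R ({pk85_h2 K (M' * q) (h2.trans (dvd_mul_right M' q))} :
            Set ↥(modularFunctionFieldFullC K (M' * q)))) ∧
    (∀ z : ↥(modularFunctionFieldFullC K (M' * q)),
      (al97L_w φ M' q hq hM').toRingEquiv z ∈
          pk15_chart R ({(pk85_h2 K (M' * q) (h2.trans (dvd_mul_right M' q)))⁻¹} :
            Set ↥(modularFunctionFieldFullC K (M' * q))) ↔
        z ∈ pk15_chart R ({(pk85_h2 K (M' * q) (h2.trans (dvd_mul_right M' q)))⁻¹} :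
            Set ↥(modularFunctionFieldFullC K (M' * q)))) ∧
    (∀ z : ↥(modularFunctionFieldFullC K (M' * q)),
      (al97L_w φ M' q hq hM').toRingEquiv z ∈
          pk15_chart R ({pk85_h2 K (M' * q) (h2.trans (dvd_mul_right M' q)),
            (pk85_h2 K (M' * q) (h2.trans (dvd_mul_right M' q)))⁻¹} :
            Set ↥(modularFunctionFieldFullC K (M' * q))) ↔
        z ∈ pk15_chart R ({pk85_h2 K (M' * q) (h2.trans (dvd_mul_right M' q)),
            (pk85_h2 K (M' * q) (h2.trans (dvd_mul_right M' q)))⁻¹} :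
            Set ↥(modularFunctionFieldFullC K (M' * q)))) := by
  set h := pk85_h2 K (M' * q) (h2.trans (dvd_mul_right M' q)) with hh
  have hh0 : h ≠ 0 := fun h0 =>
    pk85_h2_transcendental K (M' * q) (h2.trans (dvd_mul_right M' q)) (by
      rw [← hh, h0]; exact isAlgebraic_zero)
  have hg0 : (al97L_w φ M' q hq hM').toRingEquiv h ≠ 0 := (map_ne_zero _).mpr hh0
  have hwh : (((al97L_w φ M' q hq hM').toRingEquiv h :
      ↥(modularFunctionFieldFullC K (M' * q))) : LaurentSeries K) = qExpand K q (h70_h2 K) :=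
    al97L_w_alpha φ M' q hq hM' (pk85_h2 K M' h2) h rfl
  refine bz7i_core (R := R) φ M' q hq hM' 2 le_rfl (Ne.symm hq2) h hh0
    (bz7i_jd (K := K) M' q 2 (h2.trans (dvd_mul_right M' q)))
    (bz7i_jd (K := K) M' q q (dvd_mul_left q M')) (bz7i_jeq (K := K) M' q 2 h2) rfl rfl rfl ?_
  intro O hR
  have h2O : O.valuation (2 : ↥(modularFunctionFieldFullC K (M' * q))) = 1 := by
    have := bz7_val_unit O hR hu2
    rwa [map_ofNat] at this
  refine ⟨nc70_profile_two O h2O h _ _ hh0 (pk85_h2_rel K (M' * q) _) ?_,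
    nc70_profile_two O h2O _ _ _ hg0 ?_ ?_⟩
  · apply Subtype.ext
    push_cast
    exact h70_j2_mul_h2' K
  · apply Subtype.ext
    push_cast
    rw [hwh]
    have h1 := congrArg (qExpand K q) (h70_j_mul_h2_sq K)
    simp only [map_mul, map_pow, map_add, map_ofNat] at h1
    exact h1
  · apply Subtype.ext
    push_cast
    rw [hwh]
    have h1 := congrArg (qExpand K q) (h70_j2_mul_h2' K)
    rw [map_mul, bz7i_qExpand_comm] at h1
    simp only [map_pow, map_add, map_ofNat] at h1
    exact h1

/-- **The three charts of the level-3 Hauptmodul are `w`-stable** (`3 ∣ M'`, `q ≠ 3`, `3 ∈ Rˣ`). -/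
theorem bz7i_stable_level3 (h3 : 3 ∣ M') (hq3 : q ≠ 3) (hu3 : IsUnit (3 : R)) :
    (∀ z : ↥(modularFunctionFieldFullC K (M' * q)),
      (al97L_w φ M' q hq hM').toRingEquiv z ∈
          pk15_chart R ({pk85_h3 K (M' * q) (h3.trans (dvd_mul_right M' q))} :
            Set ↥(modularFunctionFieldFullC K (M' * q))) ↔
        z ∈ pk15_chart R ({pk85_h3 K (M' * q) (h3.trans (dvd_mul_right M' q))} :
            Set ↥(modularFunctionFieldFullC K (M' * q)))) ∧
    (∀ z : ↥(modularFunctionFieldFullC K (M' * q)),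
      (al97L_w φ M' q hq hM').toRingEquiv z ∈
          pk15_chart R ({(pk85_h3 K (M' * q) (h3.trans (dvd_mul_right M' q)))⁻¹} :
            Set ↥(modularFunctionFieldFullC K (M' * q))) ↔
        z ∈ pk15_chart R ({(pk85_h3 K (M' * q) (h3.trans (dvd_mul_right M' q)))⁻¹} :
            Set ↥(modularFunctionFieldFullC K (M' * q)))) ∧
    (∀ z : ↥(modularFunctionFieldFullC K (M' * q)),
      (al97L_w φ M' q hq hM').toRingEquiv z ∈
          pk15_chart R ({pk85_h3 K (M' * q) (h3.trans (dvd_mul_right M' q)),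
            (pk85_h3 K (M' * q) (h3.trans (dvd_mul_right M' q)))⁻¹} :
            Set ↥(modularFunctionFieldFullC K (M' * q))) ↔
        z ∈ pk15_chart R ({pk85_h3 K (M' * q) (h3.trans (dvd_mul_right M' q)),
            (pk85_h3 K (M' * q) (h3.trans (dvd_mul_right M' q)))⁻¹} :
            Set ↥(modularFunctionFieldFullC K (M' * q)))) := by
  set h := pk85_h3 K (M' * q) (h3.trans (dvd_mul_right M' q)) with hh
  have hh0 : h ≠ 0 := fun h0 =>
    pk85_h3_transcendental K (M' * q) (h3.trans (dvd_mul_right M' q)) (by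
      rw [← hh, h0]; exact isAlgebraic_zero)
  have hg0 : (al97L_w φ M' q hq hM').toRingEquiv h ≠ 0 := (map_ne_zero _).mpr hh0
  have hwh : (((al97L_w φ M' q hq hM').toRingEquiv h :
      ↥(modularFunctionFieldFullC K (M' * q))) : LaurentSeries K) = qExpand K q (h34_h3R K) :=
    al97L_w_alpha φ M' q hq hM' (pk85_h3 K M' h3) h rfl
  refine bz7i_core (R := R) φ M' q hq hM' 3 (by norm_num) (Ne.symm hq3) h hh0
    (bz7i_jd (K := K) M' q 3 (h3.trans (dvd_mul_right M' q)))
    (bz7i_jd (K := K) M' q q (dvd_mul_left q M')) (bz7i_jeq (K := K) M' q 3 h3) rfl rfl rfl ?_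
  intro O hR
  have h3O : O.valuation (3 : ↥(modularFunctionFieldFullC K (M' * q))) = 1 := by
    have := bz7_val_unit O hR hu3
    rwa [map_ofNat] at this
  refine ⟨nc70_profile_three O h3O h _ _ hh0 (pk85_h3_rel K (M' * q) _) ?_,
    nc70_profile_three O h3O _ _ _ hg0 ?_ ?_⟩
  · apply Subtype.ext
    push_cast
    exact h34_h3R_j3 K
  · apply Subtype.ext
    push_cast
    rw [hwh]
    have h1 := congrArg (qExpand K q) (h34_h3R_j K)
    simp only [map_mul, map_pow, map_add, map_ofNat] at h1
    exact h1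
  · apply Subtype.ext
    push_cast
    rw [hwh]
    have h1 := congrArg (qExpand K q) (h34_h3R_j3 K)
    rw [map_mul, bz7i_qExpand_comm] at h1
    simp only [map_mul, map_pow, map_add, map_ofNat] at h1
    exact h1

end bz7i

end Fermat.Agent.S34
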