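import Mathlib
import Fermat.Agent.S34.CoreW47

/-!
# S34 lab (helper47): CORE-assembly of the first route

`s34c47_core : s34i47_Pkg_Core` — the abstract chain (UZ, LP, KR, LD, Main) over the frame
`s34i47_Frame M q` gives `s34i47_Core M q m` (literal package of Iface47).
-/

set_option autoImplicit false

open ModularCurve AlgebraicCurve

namespace Fermat.Agent.S34

open Fermat.Agent.S18

local notation "Q̄" => AlgebraicClosure ℚ

/-- **CORE-assembly of the first route**: the literal package `s34i47_Pkg_Core`. -/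
theorem s34c47_core : s34i47_Pkg_Core := by
  intro hUZ hLP hKr hLD hMain M q m _ hq hm0 hcop hFrame hFin
  intro R K _ _ _ _ _ _ _ _ _ _ π hπ hunit hqR σ τ hσ hτ f hf hord hrat
  obtain ⟨h, W, hW, hCh, hLS₁, hLS₂, hG⟩ := hFrame R K π hπ hunit hqR
  obtain ⟨hGσ, hS1h⟩ := hG σ hσ
  obtain ⟨hGτ, hTh⟩ := hG τ hτ
  set S₁ := s34i47_coeffEquiv σ M with hS1
  set T := s34i47_coeffEquiv τ M with hT
  obtain ⟨hRW, hπW, hWroot, hWunit⟩ := hW
  obtain ⟨hhtr, h12W, hsat₁, hsat₂, hsat₁₂, hN₁, hN₂, hfin, hfrac⟩ := hCh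
  have hh0 : h ≠ 0 := cap87_ne_zero (K := K) h hhtr
  have hfrac₂ : ∀ x : ↥(modularFunctionFieldFullC K M),
      ∃ a ∈ pk15_chart R ({h⁻¹} : Set ↥(modularFunctionFieldFullC K M)),
      ∃ b ∈ pk15_chart R ({h⁻¹} : Set ↥(modularFunctionFieldFullC K M)),
        b ≠ 0 ∧ x * b = a := by
    intro x
    obtain ⟨a, ha, b, hb, hb0, hab⟩ := hfrac x
    obtain ⟨k, hk⟩ := pk15_chart_loc' (R := R) h hh0 a (pk15_chart_mono (by simp) ha)
    obtain ⟨l, hl⟩ := pk15_chart_loc' (R := R) h hh0 b (pk15_chart_mono (by simp) hb)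
    have hh₂ : h⁻¹ ∈ pk15_chart R ({h⁻¹} : Set ↥(modularFunctionFieldFullC K M)) :=
      pk15_subset_chart _ (Set.mem_singleton h⁻¹)
    refine ⟨h⁻¹ ^ (k + l) * a, ?_, h⁻¹ ^ (k + l) * b, ?_, ?_, ?_⟩
    · have : h⁻¹ ^ (k + l) * a = h⁻¹ ^ l * (h⁻¹ ^ k * a) := by rw [pow_add]; ring
      rw [this]; exact Subalgebra.mul_mem _ (Subalgebra.pow_mem _ hh₂ _) hk
    · have : h⁻¹ ^ (k + l) * b = h⁻¹ ^ k * (h⁻¹ ^ l * b) := by rw [pow_add]; ring
      rw [this]; exact Subalgebra.mul_mem _ (Subalgebra.pow_mem _ hh₂ _) hl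
    · exact mul_ne_zero (pow_ne_zero _ (inv_ne_zero hh0)) hb0
    · rw [← hab]; ring
  have h1W : ∀ x ∈ pk15_chart R ({h} : Set ↥(modularFunctionFieldFullC K M)), x ∈ W :=
    fun x hx => h12W x (pk15_chart_mono (by simp) hx)
  have h2W : ∀ x ∈ pk15_chart R ({h⁻¹} : Set ↥(modularFunctionFieldFullC K M)), x ∈ W :=
    fun x hx => h12W x (pk15_chart_mono (by simp) hx)
  have fix1 : ∀ (ρ : ↥(modularFunctionFieldFullC K M) ≃+* ↥(modularFunctionFieldFullC K M)),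
      ρ h = h → ∀ g ∈ ({h} : Set ↥(modularFunctionFieldFullC K M)), ρ g = g := by
    intro ρ hρ g hg
    rw [Set.mem_singleton_iff] at hg
    rw [hg, hρ]
  have fix2 : ∀ (ρ : ↥(modularFunctionFieldFullC K M) ≃+* ↥(modularFunctionFieldFullC K M)),
      ρ h = h → ∀ g ∈ ({h⁻¹} : Set ↥(modularFunctionFieldFullC K M)), ρ g = g := by
    intro ρ hρ g hg
    rw [Set.mem_singleton_iff] at hg
    rw [hg, map_inv₀, hρ]
  have hplace : ∀ O : ValuationSubring ↥(modularFunctionFieldFullC K M),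
      s34i47_IsHoriz π O → ∃ P : Place K ↥(modularFunctionFieldFullC K M),
        P.toValuationSubring = O := by
    rintro O ⟨hO, hPIR, hRO, hπO⟩
    refine ⟨⟨O, ?_, hO, hPIR⟩, rfl⟩
    intro a
    obtain ⟨r, s, hs, rfl⟩ := IsFractionRing.div_surjective (A := R) a
    have hs0 : s ≠ 0 := nonZeroDivisors.ne_zero hs
    obtain ⟨n, e, rfl⟩ := IsDiscreteValuationRing.eq_unit_mul_pow_irreducible hs0 hπ
    have h1 : algebraMap K ↥(modularFunctionFieldFullC K M)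
        (algebraMap R K r / algebraMap R K (↑e * π ^ n)) =
        algebraMap R _ r * (algebraMap R _ ((e⁻¹ : Rˣ) : R) * ((algebraMap R _ π)⁻¹) ^ n) := by
      rw [map_div₀, ← IsScalarTower.algebraMap_apply, ← IsScalarTower.algebraMap_apply, map_mul,
        map_pow]
      have he : algebraMap R ↥(modularFunctionFieldFullC K M) (e : R) *
          algebraMap R _ ((e⁻¹ : Rˣ) : R) = 1 := by
        rw [← map_mul, Units.mul_inv, map_one]
      rw [eq_inv_of_mul_eq_one_right he, div_eq_mul_inv, mul_inv, inv_pow]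
    rw [h1]
    exact O.mul_mem _ _ (hRO r) (O.mul_mem _ _ (hRO _) (O.pow_mem hπO n))
  have hOrd : s34i47_Ord π m f := by
    rintro O ⟨hO, hPIR, hRO, hπO⟩
    exact lp7_hord_of_place_dvr (K := K) π hπ f hf m hord O hO hPIR hRO hπO
  have hRat : s34i47_Rat K π f := by
    intro O hO
    obtain ⟨P, rfl⟩ := hplace O hO
    exact hrat P
  have hFinf : s34i47_Fin π f := by
    refine Set.Finite.subset ((hFin K f hf).image (fun P => P.toValuationSubring)) ?_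
    rintro O ⟨hO, hnot⟩
    obtain ⟨P, rfl⟩ := hplace O hO
    exact ⟨P, hnot, rfl⟩
  obtain ⟨hKr₁, hKr₂⟩ := hKr R K ↥(modularFunctionFieldFullC K M) π hπ h hhtr hN₁ hN₂ hfin hfrac
  have hLD₁ : s34i47_LocalDatum π m W (pk15_chart R ({h} : Set ↥(modularFunctionFieldFullC K M)))
      (s34i47_dd S₁ T f) :=
    hLD R K _ π hπ m hm0 W _ S₁ T f hf hRW h1W hsat₁ hGσ hGτ
      (s34cw47_chart_map S₁ hGσ.1 _ (fix1 S₁ hS1h)) (s34cw47_chart_map T hGτ.1 _ (fix1 T hTh))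
      hKr₁ (hLP R K _ π hπ _ m hm0 f hf (hUZ R K _ π hπ _ hN₁ hfrac hLS₁) hOrd hRat hFinf)
  have hLD₂ : s34i47_LocalDatum π m W
      (pk15_chart R ({h⁻¹} : Set ↥(modularFunctionFieldFullC K M))) (s34i47_dd S₁ T f) :=
    hLD R K _ π hπ m hm0 W _ S₁ T f hf hRW h2W hsat₂ hGσ hGτ
      (s34cw47_chart_map S₁ hGσ.1 _ (fix2 S₁ hS1h)) (s34cw47_chart_map T hGτ.1 _ (fix2 T hTh))
      hKr₂ (hLP R K _ π hπ _ m hm0 f hf (hUZ R K _ π hπ _ hN₂ hfrac₂ hLS₂) hOrd hRat hFinf)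
  have hTf0 : T f ≠ 0 := (map_ne_zero T).mpr hf
  have hu : (algebraMap R ↥(modularFunctionFieldFullC K M) π)⁻¹ *
      (s34i47_dd S₁ T f - 1) ∈ W := by
    have h1 : T f / f ∈ W := hGτ.2.1 f hf
    have h2 : f / T f ∈ W := by
      have h3 := hGτ.2.1 f⁻¹ (inv_ne_zero hf)
      have h4 : T f⁻¹ / f⁻¹ = f / T f := by
        rw [map_inv₀, div_eq_mul_inv, inv_inv, div_eq_mul_inv, mul_comm ((T f)⁻¹) f]
      rw [h4] at h3
      exact h3
    exact wa5_dd W _ S₁ T hGσ.2.2 f hf h1 h2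
  obtain ⟨f₀, c, hf₀, hfc⟩ := hMain R K ↥(modularFunctionFieldFullC K M) π hπ m hm0
    (hunit m hcop) (cap87_algClosed_in (modularFunctionFieldFullC K M)) W h
    ⟨hRW, hπW, hWroot, hWunit⟩ ⟨hhtr, h12W, hsat₁, hsat₂, hsat₁₂, hN₁, hN₂, hfin, hfrac⟩
    (s34i47_dd S₁ T f) hu hLD₁ hLD₂
  have hu0 : s34i47_dd S₁ T f ≠ 0 := by
    unfold s34i47_dd
    exact div_ne_zero (mul_ne_zero ((map_ne_zero S₁).mpr hTf0) hf)
      (mul_ne_zero ((map_ne_zero S₁).mpr hf) hTf0)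
  refine ⟨f₀, algebraMap R K c, hf₀, ?_, ?_⟩
  · intro hc0
    have h1 : algebraMap R ↥(modularFunctionFieldFullC K M) c = 0 := by
      rw [IsScalarTower.algebraMap_apply R K, hc0, map_zero]
    rw [h1] at hfc
    exact mul_ne_zero (pow_ne_zero m hf₀) hu0 hfc
  · rw [hfc, IsScalarTower.algebraMap_apply R K]

/-- **ASSEMBLY of the first route** without any Core hypothesis: (UZ), (LP), (KR), (LD), the three
frame packages (exact (LS)), FIN and field of definition give `lc52_U p q N` = `hU`. -/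
theorem s34c47_assembly (hUZ : s34i47_Pkg_UZ) (hLP : s34i47_Pkg_LP) (hKr : s34i47_Pkg_Krull)
    (hLD : s34i47_Pkg_LD) (hSat : s34i47c_Pkg_FrameSat) (hGal : s34i47c_Pkg_FrameGal)
    (hLS : s34i47c_Pkg_FrameLS) (hFin : s34i47_Pkg_Fin) (hFD : s34i47_Pkg_FieldDef)
    {p q N : ℕ} [NeZero N] (hp : p.Prime) (hq : q.Prime) (hqp : q ≠ p) (hqN : q ∣ N)
    (hq2 : ¬ q ^ 2 ∣ N) : lc52_U p q N :=
  s34i47b_assembly hUZ hLP hKr hLD (s34i47c_frame_of hSat hGal hLS) hFin s34c47_core hFD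
    hp hq hqp hqN hq2

end Fermat.Agent.S34
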