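import Mathlib
import Fermat.Agent.S34.Iface47
import Fermat.Agent.S18.LPTwoChart7
import Fermat.Agent.S18.ConstCap87

/-!
# S34 lab: ASM-Core, twin (helper34)

`ca34_core : s34i47_Pkg_Core` — the assembly of the abstract chain
(LS) ⟹ (UZ) ⟹ (LP) ⟹ (with (KR), (G)) (LD) ⟹ `f₀ ^ m * u = c` over the frame, for the double
difference `u` of a function `f` all of whose orders are divisible by `m` and all of whose zeros
and poles are rational.

Ingredients proved here (all elementary):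
* `ca34_K_mem`     : a valuation subring containing `R` and `π⁻¹` contains `K = Frac R`
                     (dictionary horizontal valuation rings ⟷ places over `K`);
* `ca34_chart_map` : an automorphism preserving `R` and `R[s]` preserves the chart of `s`;
* `ca34_frac_inv`  : `F = Frac B₁` implies `F = Frac B₂`;
* `ca34_dd_cong`   : (G1) + (G2) give `u ≡ 1 mod π W` for the double difference `u`.
-/

set_option autoImplicit false

open ModularCurve AlgebraicCurve

namespace Fermat.Agent.S34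

open Fermat.Agent.S18

local notation "Q̄" => AlgebraicClosure ℚ

/-- A valuation subring of `F` containing the discrete valuation ring `R` and the inverse of
its uniformiser contains `K = Frac R`. -/
theorem ca34_K_mem {R K F : Type*} [CommRing R] [IsDomain R] [IsDiscreteValuationRing R]
    [Field K] [Algebra R K] [IsFractionRing R K] [Field F] [Algebra R F] [Algebra K F]
    [IsScalarTower R K F] (π : R) (hπ : Irreducible π) (O : ValuationSubring F)
    (hR : ∀ r : R, algebraMap R F r ∈ O) (hπO : (algebraMap R F π)⁻¹ ∈ O) (a : K) :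
    algebraMap K F a ∈ O := by
  obtain ⟨r, s, hs, rfl⟩ := IsFractionRing.div_surjective (A := R) a
  have hs0 : s ≠ 0 := nonZeroDivisors.ne_zero hs
  obtain ⟨n, e, rfl⟩ := IsDiscreteValuationRing.eq_unit_mul_pow_irreducible hs0 hπ
  have h1 : algebraMap K F (algebraMap R K r / algebraMap R K (↑e * π ^ n)) =
      algebraMap R F r * (algebraMap R F ((e⁻¹ : Rˣ) : R) * ((algebraMap R F π)⁻¹) ^ n) := by
    rw [map_div₀, ← IsScalarTower.algebraMap_apply, ← IsScalarTower.algebraMap_apply, map_mul,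
      map_pow]
    have he : algebraMap R F (e : R) * algebraMap R F ((e⁻¹ : Rˣ) : R) = 1 := by
      rw [← map_mul, Units.mul_inv, map_one]
    rw [eq_inv_of_mul_eq_one_right he, div_eq_mul_inv, mul_inv, inv_pow]
  rw [h1]
  exact O.mul_mem _ _ (hR r) (O.mul_mem _ _ (hR _) (pow_mem hπO n))

/-- An automorphism `σ` of `F` with `σ R ⊆ R` and `σ s ⊆ R[s]` maps the chart of `s` (the
integral closure of `R[s]` in `F`) into itself. -/
theorem ca34_chart_map {R F : Type*} [CommRing R] [Field F] [Algebra R F] (σ : F ≃+* F)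
    (hR : ∀ r : R, ∃ r' : R, σ (algebraMap R F r) = algebraMap R F r') (s : Set F)
    (hs : ∀ g ∈ s, σ g ∈ Algebra.adjoin R s) :
    ∀ x ∈ pk15_chart R s, σ x ∈ pk15_chart R s := by
  intro x hx
  rw [pk15_mem_chart] at hx ⊢
  have hS : ∀ y ∈ Algebra.adjoin R s, σ y ∈ Algebra.adjoin R s := by
    intro y hy
    induction hy using Algebra.adjoin_induction with
    | mem y hy => exact hs y hy
    | algebraMap r =>
      obtain ⟨r', hr'⟩ := hR r
      rw [hr']
      exact Subalgebra.algebraMap_mem _ r'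
    | add a b _ _ ha hb => rw [map_add]; exact Subalgebra.add_mem _ ha hb
    | mul a b _ _ ha hb => rw [map_mul]; exact Subalgebra.mul_mem _ ha hb
  obtain ⟨p, hp, hpx⟩ := hx
  let ι : Algebra.adjoin R s →+* Algebra.adjoin R s :=
    { toFun := fun y => ⟨σ y, hS y y.2⟩
      map_one' := Subtype.ext (map_one σ)
      map_mul' := fun a b => Subtype.ext (map_mul σ _ _)
      map_zero' := Subtype.ext (map_zero σ)
      map_add' := fun a b => Subtype.ext (map_add σ _ _) }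
  refine ⟨p.map ι, hp.map _, ?_⟩
  rw [Polynomial.eval₂_map]
  have h1 : (algebraMap (Algebra.adjoin R s) F).comp ι =
      (σ : F →+* F).comp (algebraMap (Algebra.adjoin R s) F) := RingHom.ext fun y => rfl
  have h2 : Polynomial.eval₂ ((σ : F →+* F).comp (algebraMap (Algebra.adjoin R s) F))
      ((σ : F →+* F) x) p = (σ : F →+* F) (Polynomial.eval₂ (algebraMap (Algebra.adjoin R s) F) x p) :=
    (Polynomial.hom_eval₂ p (algebraMap (Algebra.adjoin R s) F) (σ : F →+* F) x).symm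
  rw [h1]
  rw [hpx, map_zero] at h2
  exact h2

/-- If `F` is the fraction field of the chart at `h`, it is the fraction field of the chart at
`h⁻¹`. -/
theorem ca34_frac_inv {R F : Type*} [CommRing R] [Field F] [Algebra R F] (h : F) (hh0 : h ≠ 0)
    (hfrac : ∀ x : F, ∃ a ∈ pk15_chart R ({h} : Set F), ∃ b ∈ pk15_chart R ({h} : Set F),
      b ≠ 0 ∧ x * b = a) :
    ∀ x : F, ∃ a ∈ pk15_chart R ({h⁻¹} : Set F), ∃ b ∈ pk15_chart R ({h⁻¹} : Set F),
      b ≠ 0 ∧ x * b = a := by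
  intro x
  obtain ⟨a, ha, b, hb, hb0, hab⟩ := hfrac x
  have h112 : pk15_chart R ({h} : Set F) ≤ pk15_chart R ({h, h⁻¹} : Set F) :=
    pk15_chart_mono (by simp)
  have hh₂ : h⁻¹ ∈ pk15_chart R ({h⁻¹} : Set F) := pk15_subset_chart _ (Set.mem_singleton h⁻¹)
  obtain ⟨k, hk⟩ := pk15_chart_loc' h hh0 a (h112 ha)
  obtain ⟨l, hl⟩ := pk15_chart_loc' h hh0 b (h112 hb)
  refine ⟨h⁻¹ ^ (k + l) * a, ?_, h⁻¹ ^ (k + l) * b, ?_, ?_, ?_⟩
  · have e : h⁻¹ ^ (k + l) * a = h⁻¹ ^ l * (h⁻¹ ^ k * a) := by rw [pow_add]; ring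
    rw [e]; exact Subalgebra.mul_mem _ (Subalgebra.pow_mem _ hh₂ _) hk
  · have e : h⁻¹ ^ (k + l) * b = h⁻¹ ^ k * (h⁻¹ ^ l * b) := by rw [pow_add]; ring
    rw [e]; exact Subalgebra.mul_mem _ (Subalgebra.pow_mem _ hh₂ _) hl
  · exact mul_ne_zero (pow_ne_zero _ (inv_ne_zero hh0)) hb0
  · rw [← hab]; ring

/-- The double difference of a nonzero function is nonzero. -/
theorem ca34_dd_ne_zero {F : Type*} [Field F] (σ τ : F ≃+* F) (f : F) (hf : f ≠ 0) :
    s34i47_dd σ τ f ≠ 0 := by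
  have hτf : τ f ≠ 0 := fun h0 => hf (by simpa using h0)
  have hσf : σ f ≠ 0 := fun h0 => hf (by simpa using h0)
  have hστf : σ (τ f) ≠ 0 := fun h0 => hτf (by simpa using h0)
  unfold s34i47_dd
  exact div_ne_zero (mul_ne_zero hστf hf) (mul_ne_zero hσf hτf)

/-- (G1) for `τ` and (G2) for `σ` give `u ≡ 1 mod π W` for the double difference
`u = σ(τ f) f / (σ f · τ f) = σ g / g`, `g = τ f / f`. -/
theorem ca34_dd_cong {R F : Type*} [CommRing R] [Field F] [Algebra R F] (π : R) (W : Subring F)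
    (σ τ : F ≃+* F) (hσ : s34i47_GalProps π W σ) (hτ : s34i47_GalProps π W τ) (f : F)
    (hf : f ≠ 0) : (algebraMap R F π)⁻¹ * (s34i47_dd σ τ f - 1) ∈ W := by
  have hτf : τ f ≠ 0 := fun h0 => hf (by simpa using h0)
  have hσf : σ f ≠ 0 := fun h0 => hf (by simpa using h0)
  have hστf : σ (τ f) ≠ 0 := fun h0 => hτf (by simpa using h0)
  have hg : τ f / f ∈ W := hτ.2.1 f hf
  have hg' : f / τ f ∈ W := by
    have h1 := hτ.2.1 f⁻¹ (inv_ne_zero hf)
    rw [map_inv₀] at h1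
    have e : (τ f)⁻¹ / f⁻¹ = f / τ f := by field_simp
    rwa [e] at h1
  have h2 := hσ.2.2 (τ f / f) hg
  have e : (algebraMap R F π)⁻¹ * (s34i47_dd σ τ f - 1) =
      (algebraMap R F π)⁻¹ * (σ (τ f / f) - τ f / f) * (f / τ f) := by
    rw [map_div₀]
    unfold s34i47_dd
    field_simp
  rw [e]
  exact W.mul_mem h2 hg'

/-- **ASM-Core**: the assembly of the abstract chain over the frame. -/
theorem ca34_core : s34i47_Pkg_Core := by
  intro hUZ hLP hKr hLD hMain M q m _ _ hm hcop hFrame hFin R K _ _ _ _ _ _ _ _ _ _ π hπ hunits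
    hqR σ τ hσ hτ f hf0 hord hrat
  obtain ⟨h, W, hW, hC, hLS₁, hLS₂, hGal⟩ := hFrame R K π hπ hunits hqR
  obtain ⟨hGσ, hσh⟩ := hGal σ hσ
  obtain ⟨hGτ, hτh⟩ := hGal τ hτ
  have hC' := hC
  obtain ⟨hh, h12W, hsat₁, hsat₂, hsat₁₂, hN₁, hN₂, hfin, hfrac⟩ := hC'
  have hh0 : h ≠ 0 := cap87_ne_zero h hh
  have hfrac₂ := ca34_frac_inv h hh0 hfrac
  -- the dictionary: horizontal valuation rings are places over `K`
  have hOrd : s34i47_Ord π m f := fun O hO =>
    lp7_hord_of_place_dvr (K := K) π hπ f hf0 m hord O hO.1 hO.2.1 hO.2.2.1 hO.2.2.2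
  have hRat : s34i47_Rat K π f := fun O hO =>
    hrat ⟨O, ca34_K_mem π hπ O hO.2.2.1 hO.2.2.2, hO.1, hO.2.1⟩
  have hFin' : s34i47_Fin π f := by
    refine ((hFin K f hf0).image Place.toValuationSubring).subset ?_
    rintro O ⟨hO, hfO⟩
    exact ⟨⟨O, ca34_K_mem π hπ O hO.2.2.1 hO.2.2.2, hO.1, hO.2.1⟩, hfO, rfl⟩
  -- (UZ), (LP), (KR) on both charts
  have hUZ₁ := hUZ R K _ π hπ _ hN₁ hfrac hLS₁
  have hUZ₂ := hUZ R K _ π hπ _ hN₂ hfrac₂ hLS₂
  have hLP₁ := hLP R K _ π hπ _ m hm f hf0 hUZ₁ hOrd hRat hFin'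
  have hLP₂ := hLP R K _ π hπ _ m hm f hf0 hUZ₂ hOrd hRat hFin'
  obtain ⟨hKr₁, hKr₂⟩ := hKr R K _ π hπ h hh hN₁ hN₂ hfin hfrac
  -- the charts lie in `W` and are stable under `σ`, `τ`
  have hB₁W : ∀ x ∈ pk15_chart R ({h} : Set ↥(modularFunctionFieldFullC K M)), x ∈ W :=
    fun x hx => h12W x (pk15_chart_mono (by simp) hx)
  have hB₂W : ∀ x ∈ pk15_chart R ({h⁻¹} : Set ↥(modularFunctionFieldFullC K M)), x ∈ W :=
    fun x hx => h12W x (pk15_chart_mono (by simp) hx)
  have hstab₁ : ∀ ρ : ↥(modularFunctionFieldFullC K M) ≃+* ↥(modularFunctionFieldFullC K M),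
      s34i47_GalProps π W ρ → ρ h = h →
      ∀ x ∈ pk15_chart R ({h} : Set ↥(modularFunctionFieldFullC K M)),
        ρ x ∈ pk15_chart R ({h} : Set ↥(modularFunctionFieldFullC K M)) := by
    intro ρ hρ hρh
    refine ca34_chart_map ρ hρ.1 _ ?_
    intro g hg
    rw [Set.mem_singleton_iff] at hg
    rw [hg, hρh]
    exact Algebra.subset_adjoin (Set.mem_singleton h)
  have hstab₂ : ∀ ρ : ↥(modularFunctionFieldFullC K M) ≃+* ↥(modularFunctionFieldFullC K M),
      s34i47_GalProps π W ρ → ρ h = h →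
      ∀ x ∈ pk15_chart R ({h⁻¹} : Set ↥(modularFunctionFieldFullC K M)),
        ρ x ∈ pk15_chart R ({h⁻¹} : Set ↥(modularFunctionFieldFullC K M)) := by
    intro ρ hρ hρh
    refine ca34_chart_map ρ hρ.1 _ ?_
    intro g hg
    rw [Set.mem_singleton_iff] at hg
    rw [hg, map_inv₀, hρh]
    exact Algebra.subset_adjoin (Set.mem_singleton h⁻¹)
  -- (LD) on both charts
  have hLD₁ := hLD R K _ π hπ m hm W _ (s34i47_coeffEquiv σ M) (s34i47_coeffEquiv τ M) f hf0
    hW.1 hB₁W hsat₁ hGσ hGτ (hstab₁ _ hGσ hσh) (hstab₁ _ hGτ hτh) hKr₁ hLP₁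
  have hLD₂ := hLD R K _ π hπ m hm W _ (s34i47_coeffEquiv σ M) (s34i47_coeffEquiv τ M) f hf0
    hW.1 hB₂W hsat₂ hGσ hGτ (hstab₂ _ hGσ hσh) (hstab₂ _ hGτ hτh) hKr₂ hLP₂
  -- the nodal two-chart lemma
  have hu := ca34_dd_cong π W (s34i47_coeffEquiv σ M) (s34i47_coeffEquiv τ M) hGσ hGτ f hf0
  obtain ⟨f₀, c, hf₀, hc⟩ := hMain R K _ π hπ m hm (hunits m hcop)
    (cap87_algClosed_in (modularFunctionFieldFullC K M)) W h hW hC _ hu hLD₁ hLD₂
  refine ⟨f₀, algebraMap R K c, hf₀, ?_, ?_⟩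
  · intro hc0
    rw [IsScalarTower.algebraMap_apply R K ↥(modularFunctionFieldFullC K M), hc0, map_zero] at hc
    rcases mul_eq_zero.mp hc with h1 | h1
    · exact hf₀ (pow_eq_zero_iff (Nat.pos_iff_ne_zero.mp hm) |>.mp h1)
    · exact ca34_dd_ne_zero _ _ f hf0 h1
  · rw [hc, IsScalarTower.algebraMap_apply R K ↥(modularFunctionFieldFullC K M)]

end Fermat.Agent.S34
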