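import Mathlib
import Fermat.Agent.S34.Iface47
import Fermat.Agent.S18.LPTwoChart7
import Fermat.Agent.S18.ConstCap87

/-!
# S34 lab (helper94): the package `s34i47_Pkg_Core` of Iface47

`ca94_Pkg_Core : s34i47_Pkg_Core` -- the assembly of the abstract chain
(UZ) ⟹ (LP) ⟹ (LD) ⟹ Main over the frame, literally the interface `Prop`.

Pieces (all names prefixed `ca94_`):

* dictionary `Place K F` ↔ horizontal valuation subrings: `ca94_horiz_algebraMap_mem`
  (a horizontal `O` contains `K = Frac R`), `ca94_place_of_horiz` (it is the valuation subring of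
  a Prelude `Place`), `ca94_ord`, `ca94_rat`, `ca94_fin` (the hypotheses of `s34i47_Core` in the
  valuation-subring forms `s34i47_Ord`, `s34i47_Rat`, `s34i47_Fin`);
* `ca94_map_chart` : an automorphism `σ` of `F` with `σ R ⊆ R` fixing the generators of a chart
  maps the chart into itself;
* `ca94_hfrac_inv` : the fraction-field property of the chart `{h⁻¹}` from that of `{h}`;
* `ca94_dd_cong` : `u = σ(τ f) f / (σ f · τ f) ≡ 1 mod π W` from (G1) for `τ` and (G2) for `σ`;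
* `ca94_LD_chart` : (LS) + (KR) + ... ⟹ (LD) on one chart, by (UZ), (LP), (LD);
* `ca94_Pkg_Core`.
-/

set_option autoImplicit false

open ModularCurve AlgebraicCurve

namespace Fermat.Agent.S34

open Fermat.Agent.S18

local notation "Q̄" => AlgebraicClosure ℚ

/-! ### The dictionary `Place` ↔ horizontal valuation subrings -/

section Dictionary

variable {R K F : Type*} [CommRing R] [IsDomain R] [IsDiscreteValuationRing R] [Field K]
  [Algebra R K] [IsFractionRing R K] [Field F] [Algebra R F] [Algebra K F] [IsScalarTower R K F]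

/-- A horizontal valuation subring contains the fraction field of `R`. -/
theorem ca94_horiz_algebraMap_mem (π : R) (hπ : Irreducible π) (O : ValuationSubring F)
    (hO : s34i47_IsHoriz π O) (a : K) : algebraMap K F a ∈ O := by
  obtain ⟨-, -, hR, hπO⟩ := hO
  obtain ⟨r, s, hs, rfl⟩ := IsFractionRing.div_surjective (A := R) a
  have hs0 : s ≠ 0 := nonZeroDivisors.ne_zero hs
  obtain ⟨n, e, rfl⟩ := IsDiscreteValuationRing.eq_unit_mul_pow_irreducible hs0 hπ
  have h1 : algebraMap K F (algebraMap R K r / algebraMap R K (↑e * π ^ n)) =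
      algebraMap R F r * (algebraMap R F ((e⁻¹ : Rˣ) : R) * ((algebraMap R F π)⁻¹) ^ n) := by
    rw [map_div₀, ← IsScalarTower.algebraMap_apply, ← IsScalarTower.algebraMap_apply, map_mul,
      map_pow]
    have he : algebraMap R F (e : R) * algebraMap R F ((e⁻¹ : Rˣ) : R) = 1 := by
      rw [← map_mul, Units.mul_inv, map_one]
    rw [eq_inv_of_mul_eq_one_right he, div_eq_mul_inv, mul_inv, inv_pow]
  rw [h1]
  exact O.mul_mem _ _ (hR r) (O.mul_mem _ _ (hR _) (pow_mem hπO n))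

/-- A horizontal valuation subring is the valuation subring of a place of `F / K`. -/
theorem ca94_place_of_horiz (π : R) (hπ : Irreducible π) (O : ValuationSubring F)
    (hO : s34i47_IsHoriz π O) : ∃ P : Place K F, P.toValuationSubring = O :=
  ⟨⟨O, ca94_horiz_algebraMap_mem π hπ O hO, hO.1, hO.2.1⟩, rfl⟩

omit [IsDomain R] [IsDiscreteValuationRing R] [IsFractionRing R K] in
/-- The valuation subring of a place of `F / K` is horizontal. -/
theorem ca94_horiz_of_place (π : R) (P : Place K F) :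
    s34i47_IsHoriz π P.toValuationSubring := by
  refine ⟨P.ne_top', P.isPrincipalIdealRing', fun r => ?_, ?_⟩
  · rw [IsScalarTower.algebraMap_apply R K F]
    exact P.algebraMap_mem' _
  · rw [IsScalarTower.algebraMap_apply R K F, ← map_inv₀]
    exact P.algebraMap_mem' _

/-- (Ord) from the `Place` form. -/
theorem ca94_ord (π : R) (hπ : Irreducible π) (m : ℕ) (f : F) (hf : f ≠ 0)
    (h : ∀ P : Place K F, (m : ℤ) ∣ P.ord f) : s34i47_Ord π m f :=
  fun O hO => lp7_hord_of_place_dvr π hπ f hf m h O hO.1 hO.2.1 hO.2.2.1 hO.2.2.2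

/-- (Rat) from the `Place` form. -/
theorem ca94_rat (π : R) (hπ : Irreducible π) (f : F)
    (h : ∀ P : Place K F, (f ∈ P.toValuationSubring ∧ f⁻¹ ∈ P.toValuationSubring) ∨
      s34i47_IsRat K P.toValuationSubring) : s34i47_Rat K π f := by
  intro O hO
  obtain ⟨P, rfl⟩ := ca94_place_of_horiz (K := K) π hπ O hO
  exact h P

/-- (Fin) from the `Place` form. -/
theorem ca94_fin (π : R) (hπ : Irreducible π) (f : F)
    (h : {P : Place K F | ¬ (f ∈ P.toValuationSubring ∧ f⁻¹ ∈ P.toValuationSubring)}.Finite) :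
    s34i47_Fin π f := by
  refine (h.image (fun P : Place K F => P.toValuationSubring)).subset ?_
  rintro O ⟨hO, hf⟩
  obtain ⟨P, rfl⟩ := ca94_place_of_horiz (K := K) π hπ O hO
  exact ⟨P, hf, rfl⟩

end Dictionary

/-! ### Charts -/

section Charts

variable {R F : Type*} [CommRing R] [Field F] [Algebra R F]

/-- An automorphism of `F` which maps `R` into `R` and fixes the generators of a chart maps the
chart into itself. -/
theorem ca94_map_chart (σ : F ≃+* F)
    (hσR : ∀ r : R, ∃ r' : R, σ (algebraMap R F r) = algebraMap R F r')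
    (s : Set F) (hs : ∀ g ∈ s, σ g = g) (x : F) (hx : x ∈ pk15_chart R s) :
    σ x ∈ pk15_chart R s := by
  rw [pk15_mem_chart] at hx ⊢
  have hmem : ∀ y ∈ Algebra.adjoin R s, σ y ∈ Algebra.adjoin R s := by
    intro y hy
    induction hy using Algebra.adjoin_induction with
    | mem y hy => rw [hs y hy]; exact Algebra.subset_adjoin hy
    | algebraMap r =>
      obtain ⟨r', hr'⟩ := hσR r
      rw [hr']
      exact Subalgebra.algebraMap_mem _ r'
    | add a b _ _ ha hb => rw [map_add]; exact add_mem ha hb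
    | mul a b _ _ ha hb => rw [map_mul]; exact mul_mem ha hb
  let φ : ↥(Algebra.adjoin R s) →+* ↥(Algebra.adjoin R s) :=
    ((σ : F →+* F).comp (algebraMap ↥(Algebra.adjoin R s) F)).codRestrict (Algebra.adjoin R s)
      (fun y => hmem y.1 y.2)
  exact IsIntegral.map_of_comp_eq φ (σ : F →+* F) (RingHom.ext fun y => rfl) hx

/-- The fraction-field property of the chart `{h⁻¹}` from that of the chart `{h}`. -/
theorem ca94_hfrac_inv (h : F) (hh0 : h ≠ 0)
    (hfrac : ∀ x : F, ∃ a ∈ pk15_chart R ({h} : Set F), ∃ b ∈ pk15_chart R ({h} : Set F),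
      b ≠ 0 ∧ x * b = a) :
    ∀ x : F, ∃ a ∈ pk15_chart R ({h⁻¹} : Set F), ∃ b ∈ pk15_chart R ({h⁻¹} : Set F),
      b ≠ 0 ∧ x * b = a := by
  intro x
  obtain ⟨a, ha, b, hb, hb0, hab⟩ := hfrac x
  have hle : pk15_chart R ({h} : Set F) ≤ pk15_chart R ({h, h⁻¹} : Set F) :=
    pk15_chart_mono (by simp)
  obtain ⟨k₁, hk₁⟩ := pk15_chart_loc' h hh0 a (hle ha)
  obtain ⟨k₂, hk₂⟩ := pk15_chart_loc' h hh0 b (hle hb)
  have hinv : h⁻¹ ∈ pk15_chart R ({h⁻¹} : Set F) :=
    pk15_subset_chart _ (Set.mem_singleton h⁻¹)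
  refine ⟨h⁻¹ ^ (k₁ + k₂) * a, ?_, h⁻¹ ^ (k₁ + k₂) * b, ?_, ?_, ?_⟩
  · have : h⁻¹ ^ (k₁ + k₂) * a = h⁻¹ ^ k₂ * (h⁻¹ ^ k₁ * a) := by rw [pow_add]; ring
    rw [this]
    exact mul_mem (pow_mem hinv k₂) hk₁
  · have : h⁻¹ ^ (k₁ + k₂) * b = h⁻¹ ^ k₁ * (h⁻¹ ^ k₂ * b) := by rw [pow_add]; ring
    rw [this]
    exact mul_mem (pow_mem hinv k₁) hk₂
  · exact mul_ne_zero (pow_ne_zero _ (inv_ne_zero hh0)) hb0
  · rw [← hab]; ring

/-- `u = σ(τ f) f / (σ f · τ f) ≡ 1 mod π W` from (G1) for `τ` and (G2) for `σ`. -/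
theorem ca94_dd_cong (π : R) (W : Subring F) (σ τ : F ≃+* F)
    (hσ : s34i47_GalProps π W σ) (hτ : s34i47_GalProps π W τ) (f : F) (hf : f ≠ 0) :
    (algebraMap R F π)⁻¹ * (s34i47_dd σ τ f - 1) ∈ W := by
  have hτf : τ f ≠ 0 := (map_ne_zero_iff _ τ.injective).mpr hf
  have hσf : σ f ≠ 0 := (map_ne_zero_iff _ σ.injective).mpr hf
  have hστf : σ (τ f) ≠ 0 := (map_ne_zero_iff _ σ.injective).mpr hτf
  -- `γ = τ f / f` is a unit of `W`
  have hγ : τ f / f ∈ W := hτ.2.1 f hf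
  have hγ' : f / τ f ∈ W := by
    have h1 := hτ.2.1 f⁻¹ (inv_ne_zero hf)
    have h2 : τ f⁻¹ / f⁻¹ = f / τ f := by
      rw [map_inv₀]; field_simp
    rwa [h2] at h1
  have h3 := hσ.2.2 (τ f / f) hγ
  have h4 : (algebraMap R F π)⁻¹ * (s34i47_dd σ τ f - 1) =
      (algebraMap R F π)⁻¹ * (σ (τ f / f) - τ f / f) * (f / τ f) := by
    unfold s34i47_dd
    rw [map_div₀]
    field_simp
  rw [h4]
  exact W.mul_mem h3 hγ'

end Charts

/-! ### The chain on one chart -/

/-- (LS), (KR), saturation and the Galois hypotheses give the local datum on one chart, by the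
packages (UZ), (LP), (LD). -/
theorem ca94_LD_chart (hUZ : s34i47_Pkg_UZ) (hLP : s34i47_Pkg_LP) (hLD : s34i47_Pkg_LD)
    {R K F : Type} [CommRing R] [IsDomain R] [IsDiscreteValuationRing R] [Field K] [Field F]
    [Algebra R K] [IsFractionRing R K] [Algebra R F] [Algebra K F] [IsScalarTower R K F]
    (π : R) (hπ : Irreducible π) (m : ℕ) (hm : 0 < m) (W : Subring F) (B : Subalgebra R F)
    (hBN : IsNoetherianRing B)
    (hfrac : ∀ x : F, ∃ a ∈ B, ∃ b ∈ B, b ≠ 0 ∧ x * b = a)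
    (hLS : s34i47_LocStr π B) (hKr : s34i47_Krull π B)
    (hRW : ∀ r : R, algebraMap R F r ∈ W) (hBW : ∀ x ∈ B, x ∈ W)
    (hsat : ∀ x ∈ B, (algebraMap R F π)⁻¹ * x ∈ W → (algebraMap R F π)⁻¹ * x ∈ B)
    (σ τ : F ≃+* F) (hσ : s34i47_GalProps π W σ) (hτ : s34i47_GalProps π W τ)
    (hσB : ∀ x ∈ B, σ x ∈ B) (hτB : ∀ x ∈ B, τ x ∈ B)
    (f : F) (hf : f ≠ 0) (hord : s34i47_Ord π m f) (hrat : s34i47_Rat K π f)
    (hfin : s34i47_Fin π f) :
    s34i47_LocalDatum π m W B (s34i47_dd σ τ f) :=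
  hLD R K F π hπ m hm W B σ τ f hf hRW hBW hsat hσ hτ hσB hτB hKr
    (hLP R K F π hπ B m hm f hf (hUZ R K F π hπ B hBN hfrac hLS) hord hrat hfin)

/-! ### The package -/

/-- **ASM**: `s34i47_Pkg_Core` holds. -/
theorem ca94_Pkg_Core : s34i47_Pkg_Core := by
  intro hUZ hLP hKr hLD hMain M q m _ _ hm hcop hFrame hFinSupp R K _ _ _ _ _ _ _ _ _ _ π hπ
    hunit hq σ τ hσ hτ f hf hord hrat
  obtain ⟨h, W, hW, hC, hLS₁, hLS₂, hGal⟩ := hFrame R K π hπ hunit hq
  obtain ⟨hGσ, hσh⟩ := hGal σ hσ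
  obtain ⟨hGτ, hτh⟩ := hGal τ hτ
  have hC' := hC
  obtain ⟨hh, h12W, hsat₁, hsat₂, -, hN₁, hN₂, hfin, hfrac⟩ := hC'
  have hh0 : h ≠ 0 := cap87_ne_zero (K := K) h hh
  have hRW : ∀ r : R, algebraMap R ↥(modularFunctionFieldFullC K M) r ∈ W := hW.1
  -- the hypotheses on `f` in valuation-subring form
  have hOrd : s34i47_Ord π m f := ca94_ord (K := K) π hπ m f hf hord
  have hRat : s34i47_Rat K π f := ca94_rat π hπ f hrat
  have hFin : s34i47_Fin π f := ca94_fin (K := K) π hπ f (hFinSupp K f hf)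
  -- the Krull property of the two charts
  obtain ⟨hKr₁, hKr₂⟩ := hKr R K ↥(modularFunctionFieldFullC K M) π hπ h hh hN₁ hN₂ hfin hfrac
  -- the charts lie in `W`
  have h1W : ∀ x ∈ pk15_chart R ({h} : Set ↥(modularFunctionFieldFullC K M)), x ∈ W :=
    fun x hx => h12W x (pk15_chart_mono (by simp) hx)
  have h2W : ∀ x ∈ pk15_chart R ({h⁻¹} : Set ↥(modularFunctionFieldFullC K M)), x ∈ W :=
    fun x hx => h12W x (pk15_chart_mono (by simp) hx)
  -- `σ`, `τ` preserve the charts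
  have hσh' : s34i47_coeffEquiv σ M h⁻¹ = h⁻¹ := by rw [map_inv₀, hσh]
  have hτh' : s34i47_coeffEquiv τ M h⁻¹ = h⁻¹ := by rw [map_inv₀, hτh]
  have hσB₁ := ca94_map_chart (R := R) (s34i47_coeffEquiv σ M) hGσ.1 {h}
    (fun g hg => by rw [Set.mem_singleton_iff] at hg; rw [hg, hσh])
  have hτB₁ := ca94_map_chart (R := R) (s34i47_coeffEquiv τ M) hGτ.1 {h}
    (fun g hg => by rw [Set.mem_singleton_iff] at hg; rw [hg, hτh])
  have hσB₂ := ca94_map_chart (R := R) (s34i47_coeffEquiv σ M) hGσ.1 {h⁻¹}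
    (fun g hg => by rw [Set.mem_singleton_iff] at hg; rw [hg, hσh'])
  have hτB₂ := ca94_map_chart (R := R) (s34i47_coeffEquiv τ M) hGτ.1 {h⁻¹}
    (fun g hg => by rw [Set.mem_singleton_iff] at hg; rw [hg, hτh'])
  -- the local data
  have hLD₁ := ca94_LD_chart hUZ hLP hLD (K := K) π hπ m hm W
    (pk15_chart R ({h} : Set ↥(modularFunctionFieldFullC K M))) hN₁ hfrac hLS₁ hKr₁ hRW h1W hsat₁
    (s34i47_coeffEquiv σ M) (s34i47_coeffEquiv τ M) hGσ hGτ hσB₁ hτB₁ f hf hOrd hRat hFin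
  have hLD₂ := ca94_LD_chart hUZ hLP hLD (K := K) π hπ m hm W
    (pk15_chart R ({h⁻¹} : Set ↥(modularFunctionFieldFullC K M))) hN₂
    (ca94_hfrac_inv h hh0 hfrac) hLS₂ hKr₂ hRW h2W hsat₂
    (s34i47_coeffEquiv σ M) (s34i47_coeffEquiv τ M) hGσ hGτ hσB₂ hτB₂ f hf hOrd hRat hFin
  -- the main lemma
  have hu := ca94_dd_cong (R := R) π W (s34i47_coeffEquiv σ M) (s34i47_coeffEquiv τ M)
    hGσ hGτ f hf
  obtain ⟨f₀, c, hf₀, hc⟩ := hMain R K ↥(modularFunctionFieldFullC K M) π hπ m hm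
    (hunit m hcop) (cap87_algClosed_in (modularFunctionFieldFullC K M)) W h hW hC _ hu hLD₁ hLD₂
  have hτf : s34i47_coeffEquiv τ M f ≠ 0 :=
    (map_ne_zero_iff _ (s34i47_coeffEquiv τ M).injective).mpr hf
  have hσf : s34i47_coeffEquiv σ M f ≠ 0 :=
    (map_ne_zero_iff _ (s34i47_coeffEquiv σ M).injective).mpr hf
  have hστf : s34i47_coeffEquiv σ M (s34i47_coeffEquiv τ M f) ≠ 0 :=
    (map_ne_zero_iff _ (s34i47_coeffEquiv σ M).injective).mpr hτf
  have hu0 : s34i47_dd (s34i47_coeffEquiv σ M) (s34i47_coeffEquiv τ M) f ≠ 0 :=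
    div_ne_zero (mul_ne_zero hστf hf) (mul_ne_zero hσf hτf)
  refine ⟨f₀, algebraMap R K c, hf₀, ?_, ?_⟩
  · intro h0
    have hc0 : c = 0 := (map_eq_zero_iff _ (IsFractionRing.injective R K)).mp h0
    rw [hc0, map_zero] at hc
    exact mul_ne_zero (pow_ne_zero m hf₀) hu0 hc
  · rw [hc]
    exact IsScalarTower.algebraMap_apply R K _ c

end Fermat.Agent.S34
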