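import Fermat.Agent.S34.Iface47c
import Fermat.Agent.S34.Iface47b
import Fermat.Agent.S34.CoreAsm57

/-!
# S34 lab (helper57): CORE-assembly over (UZ) — the entry point for every "weak node" route

Request of helper89 (#2413) / helper3 (#2423): at a NORMAL two-branch point there are no deep
points, so the unique-zero property (UZ) = `s34i47_UniqueZero` holds with the weak local structure
only.  The rest of the first-route chain `(UZ) ⟹ (LP) ⟹ (LD) ⟹ CORE` is unchanged.  This file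
factors the assembly through (UZ) on the two charts of the canonical frame of `Iface47c`:

* `cau57_FrameUZ M' q` : (UZ) for the two affine charts of every admissible Hauptmodul at level
  `M' * q` (binder block of `s34i47c_FrameLS`); `cau57_Pkg_FrameUZ` : for all `(M', q)`.
* `cau57_chart_facts` : what FrameSat gives about the two charts (noetherian, fractions) — the
  side hypotheses a producer of (UZ) needs.
* `cau57_frameUZ_of_LS` : the first route feeds in (`s34i47_Pkg_UZ` + FrameSat + FrameLS).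
* `cau57_core` : (LP) + (KR) + (LD) + (Main) over FrameSat + FrameGal + FrameUZ + FinSupp
  ⟹ `s34i47_Core (M' * q) q m` (with `p₀ ∣ M' * q`, `p₀ ∈ {2, 3}`, `p₀ ≠ q`).
* `cau57_assembly` : `Pkg_LP → Pkg_Krull → Pkg_LD → Pkg_FrameSat → Pkg_FrameGal →
  cau57_Pkg_FrameUZ → Pkg_Fin → Pkg_FieldDef → lc52_U p q N` (= `hU` of `s34e60_main`).

All names are prefixed `cau57_`.
-/

set_option autoImplicit false

open ModularCurve AlgebraicCurve

namespace Fermat.Agent.S34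

open Fermat.Agent.S18

local notation "Q̄" => AlgebraicClosure ℚ

/-- **FRAME-UZ** at level `M' * q`: the unique-zero property (UZ) of the two affine charts of
every admissible Hauptmodul. -/
def cau57_FrameUZ (M' q : ℕ) [NeZero M'] [NeZero q] : Prop :=
  ∀ (R K : Type) [CommRing R] [IsDomain R] [IsDiscreteValuationRing R] [Field K] [NumberField K]
    [Algebra K Q̄] [Algebra R K] [IsFractionRing R K]
    [Algebra R ↥(modularFunctionFieldFullC K (M' * q))]
    [IsScalarTower R K ↥(modularFunctionFieldFullC K (M' * q))] (π : R), Irreducible π →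
    (∀ n : ℕ, Nat.Coprime n q → IsUnit (n : R)) → ¬ IsUnit (q : R) →
    ∀ h : ↥(modularFunctionFieldFullC K (M' * q)), s34i47c_IsHaupt K (M' * q) q h →
      s34i47_UniqueZero K π (pk15_chart R ({h} : Set ↥(modularFunctionFieldFullC K (M' * q)))) ∧
      s34i47_UniqueZero K π (pk15_chart R ({h⁻¹} : Set ↥(modularFunctionFieldFullC K (M' * q))))

/-- Package statement for FRAME-UZ. -/
def cau57_Pkg_FrameUZ : Prop :=
  ∀ (M' q : ℕ) [NeZero M'] [NeZero q], q.Prime → ¬ q ∣ M' → cau57_FrameUZ M' q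

/-- What FRAME-SAT gives about the two charts of an admissible Hauptmodul: both are noetherian
and have `F` as field of fractions (elementwise). -/
theorem cau57_chart_facts (M' q : ℕ) [NeZero M'] [NeZero q] (hq : q.Prime) (hM' : ¬ q ∣ M')
    (hSat : s34i47c_FrameSat M' q hq hM')
    (R K : Type) [CommRing R] [IsDomain R] [IsDiscreteValuationRing R] [Field K] [NumberField K]
    [Algebra K Q̄] [Algebra R K] [IsFractionRing R K]
    [Algebra R ↥(modularFunctionFieldFullC K (M' * q))]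
    [IsScalarTower R K ↥(modularFunctionFieldFullC K (M' * q))] (π : R) (hπ : Irreducible π)
    (hunit : ∀ n : ℕ, Nat.Coprime n q → IsUnit (n : R)) (hqR : ¬ IsUnit (q : R))
    (h : ↥(modularFunctionFieldFullC K (M' * q))) (hh : s34i47c_IsHaupt K (M' * q) q h) :
    h ≠ 0 ∧
    IsNoetherianRing (pk15_chart R ({h} : Set ↥(modularFunctionFieldFullC K (M' * q)))) ∧
    IsNoetherianRing (pk15_chart R ({h⁻¹} : Set ↥(modularFunctionFieldFullC K (M' * q)))) ∧
    (∀ x : ↥(modularFunctionFieldFullC K (M' * q)),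
      ∃ a ∈ pk15_chart R ({h} : Set ↥(modularFunctionFieldFullC K (M' * q))),
      ∃ b ∈ pk15_chart R ({h} : Set ↥(modularFunctionFieldFullC K (M' * q))),
        b ≠ 0 ∧ x * b = a) ∧
    (∀ x : ↥(modularFunctionFieldFullC K (M' * q)),
      ∃ a ∈ pk15_chart R ({h⁻¹} : Set ↥(modularFunctionFieldFullC K (M' * q))),
      ∃ b ∈ pk15_chart R ({h⁻¹} : Set ↥(modularFunctionFieldFullC K (M' * q))),
        b ≠ 0 ∧ x * b = a) := by
  obtain ⟨-, hCall⟩ := hSat R K π hπ hunit hqR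
  obtain ⟨htr, -, -, -, -, hN₁, hN₂, -, hfrac⟩ := hCall h hh
  have hh0 : h ≠ 0 := by
    rintro rfl
    exact htr isAlgebraic_zero
  exact ⟨hh0, hN₁, hN₂, hfrac, ca57_frac_inv (R := R) h hh0 hfrac⟩

/-- The first route feeds in: (LS) ⟹ (UZ) on both charts. -/
theorem cau57_frameUZ_of_LS (hUZ : s34i47_Pkg_UZ) (M' q : ℕ) [NeZero M'] [NeZero q]
    (hq : q.Prime) (hM' : ¬ q ∣ M') (hSat : s34i47c_FrameSat M' q hq hM')
    (hLS : s34i47c_FrameLS M' q) : cau57_FrameUZ M' q := by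
  intro R K _ _ _ _ _ _ _ _ _ _ π hπ hunit hqR h hh
  obtain ⟨-, hN₁, hN₂, hfrac₁, hfrac₂⟩ :=
    cau57_chart_facts M' q hq hM' hSat R K π hπ hunit hqR h hh
  obtain ⟨hLS₁, hLS₂⟩ := hLS R K π hπ hunit hqR h hh
  exact ⟨hUZ R K ↥(modularFunctionFieldFullC K (M' * q)) π hπ _ hN₁ hfrac₁ hLS₁,
    hUZ R K ↥(modularFunctionFieldFullC K (M' * q)) π hπ _ hN₂ hfrac₂ hLS₂⟩

/-- **CORE-assembly over (UZ)**: (LP) + (KR) + (LD) + (Main) over FrameSat + FrameGal + FrameUZ
+ FinSupp give CORE at level `M' * q`. -/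
theorem cau57_core (hLP : s34i47_Pkg_LP) (hKr : s34i47_Pkg_Krull) (hLD : s34i47_Pkg_LD)
    (hMain : s34i47_Pkg_Main)
    (M' q m : ℕ) [NeZero M'] [NeZero q] (hq : q.Prime) (hM' : ¬ q ∣ M') (hm : 0 < m)
    (hmq : Nat.Coprime m q) (p₀ : ℕ) (hp₀ : p₀ = 2 ∨ p₀ = 3) (hp₀q : p₀ ≠ q)
    (hp₀M : p₀ ∣ M' * q)
    (hSat : s34i47c_FrameSat M' q hq hM') (hGal : s34i47c_FrameGal M' q hq hM')
    (hUZ : cau57_FrameUZ M' q) (hFin : s34i47_FinSupp (M' * q)) :
    s34i47_Core (M' * q) q m := by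
  intro R K instR instD instDVR instK instNF instQ instRK instFR instRF instST π hπ hunit hqR
    σ τ hσ hτ f hf hord hrat
  -- the Hauptmodul
  obtain ⟨h, hh⟩ : ∃ h : ↥(modularFunctionFieldFullC K (M' * q)),
      s34i47c_IsHaupt K (M' * q) q h := by
    rcases hp₀ with rfl | rfl
    · exact ⟨pk85_h2 K (M' * q) hp₀M, Or.inl ⟨Ne.symm hp₀q, hp₀M, rfl⟩⟩
    · exact ⟨pk85_h3 K (M' * q) hp₀M, Or.inr ⟨Ne.symm hp₀q, hp₀M, rfl⟩⟩
  -- the frame
  obtain ⟨hW, hCall⟩ := hSat R K π hπ hunit hqR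
  have hC := hCall h hh
  obtain ⟨hGσ, hσfix⟩ := hGal R K π hπ hunit hqR σ hσ
  obtain ⟨hGτ, hτfix⟩ := hGal R K π hπ hunit hqR τ hτ
  have hσh := hσfix h hh
  have hτh := hτfix h hh
  obtain ⟨hUZ₁, hUZ₂⟩ := hUZ R K π hπ hunit hqR h hh
  have hC' := hC
  obtain ⟨htr, h12W, hsat₁, hsat₂, -, hN₁, hN₂, hfin, hfrac⟩ := hC'
  have h112 : pk15_chart R ({h} : Set ↥(modularFunctionFieldFullC K (M' * q))) ≤
      pk15_chart R ({h, h⁻¹} : Set ↥(modularFunctionFieldFullC K (M' * q))) :=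
    pk15_chart_mono (by simp)
  have h212 : pk15_chart R ({h⁻¹} : Set ↥(modularFunctionFieldFullC K (M' * q))) ≤
      pk15_chart R ({h, h⁻¹} : Set ↥(modularFunctionFieldFullC K (M' * q))) :=
    pk15_chart_mono (by simp)
  -- the hypotheses on `f` in valuation-subring form
  have hOrd : s34i47_Ord π m f := ca57_ord (K := K) hπ m f hf hord
  have hRat : s34i47_Rat K π f := ca57_rat (K := K) hπ f hrat
  have hFinS : s34i47_Fin π f := ca57_fin (K := K) hπ f (hFin K f hf)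
  -- (LP), (KR) on both charts
  have hLP₁ := hLP R K ↥(modularFunctionFieldFullC K (M' * q)) π hπ _ m hm f hf hUZ₁ hOrd hRat
    hFinS
  have hLP₂ := hLP R K ↥(modularFunctionFieldFullC K (M' * q)) π hπ _ m hm f hf hUZ₂ hOrd hRat
    hFinS
  obtain ⟨hKr₁, hKr₂⟩ :=
    hKr R K ↥(modularFunctionFieldFullC K (M' * q)) π hπ h htr hN₁ hN₂ hfin hfrac
  -- the charts are stable under the two automorphisms
  have hs₁ : ∀ ρ : ↥(modularFunctionFieldFullC K (M' * q)) ≃+*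
      ↥(modularFunctionFieldFullC K (M' * q)),
      ρ h = h → ∀ x ∈ ({h} : Set ↥(modularFunctionFieldFullC K (M' * q))),
        ρ x ∈ ({h} : Set ↥(modularFunctionFieldFullC K (M' * q))) := by
    intro ρ hρ x hx
    rw [Set.mem_singleton_iff] at hx ⊢
    rw [hx, hρ]
  have hs₂ : ∀ ρ : ↥(modularFunctionFieldFullC K (M' * q)) ≃+*
      ↥(modularFunctionFieldFullC K (M' * q)),
      ρ h = h → ∀ x ∈ ({h⁻¹} : Set ↥(modularFunctionFieldFullC K (M' * q))),
        ρ x ∈ ({h⁻¹} : Set ↥(modularFunctionFieldFullC K (M' * q))) := by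
    intro ρ hρ x hx
    rw [Set.mem_singleton_iff] at hx ⊢
    rw [hx, map_inv₀, hρ]
  have hσB₁ := ca57_chart_map (s34i47_coeffEquiv σ (M' * q)) hGσ.1 _ (hs₁ _ hσh)
  have hτB₁ := ca57_chart_map (s34i47_coeffEquiv τ (M' * q)) hGτ.1 _ (hs₁ _ hτh)
  have hσB₂ := ca57_chart_map (s34i47_coeffEquiv σ (M' * q)) hGσ.1 _ (hs₂ _ hσh)
  have hτB₂ := ca57_chart_map (s34i47_coeffEquiv τ (M' * q)) hGτ.1 _ (hs₂ _ hτh)
  -- the local datum on both charts
  have hLD₁ := hLD R K ↥(modularFunctionFieldFullC K (M' * q)) π hπ m hm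
    (s34i47c_W (K := K) M' q hq hM' hπ) _
    (s34i47_coeffEquiv σ (M' * q)) (s34i47_coeffEquiv τ (M' * q)) f hf hW.1
    (fun x hx => h12W x (h112 hx)) hsat₁ hGσ hGτ hσB₁ hτB₁ hKr₁ hLP₁
  have hLD₂ := hLD R K ↥(modularFunctionFieldFullC K (M' * q)) π hπ m hm
    (s34i47c_W (K := K) M' q hq hM' hπ) _
    (s34i47_coeffEquiv σ (M' * q)) (s34i47_coeffEquiv τ (M' * q)) f hf hW.1
    (fun x hx => h12W x (h212 hx)) hsat₂ hGσ hGτ hσB₂ hτB₂ hKr₂ hLP₂
  -- the nodal two-chart lemma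
  have hu := ca57_dd_cong (s34i47c_W (K := K) M' q hq hM' hπ) (s34i47_coeffEquiv σ (M' * q))
    (s34i47_coeffEquiv τ (M' * q)) hGσ hGτ f hf
  obtain ⟨f₀, c, hf₀, hfc⟩ := hMain R K ↥(modularFunctionFieldFullC K (M' * q)) π hπ m hm
    (hunit m hmq) (cap87_algClosed_in (modularFunctionFieldFullC K (M' * q)))
    (s34i47c_W (K := K) M' q hq hM' hπ) h hW hC _ hu hLD₁ hLD₂
  refine ⟨f₀, algebraMap R K c, hf₀, ?_, ?_⟩
  · intro h0
    have h1 : f₀ ^ m * s34i47_dd (s34i47_coeffEquiv σ (M' * q)) (s34i47_coeffEquiv τ (M' * q)) f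
        = 0 := by
      rw [hfc, IsScalarTower.algebraMap_apply R K ↥(modularFunctionFieldFullC K (M' * q)), h0,
        map_zero]
    rcases mul_eq_zero.mp h1 with h2 | h2
    · exact hf₀ (pow_eq_zero_iff (Nat.pos_iff_ne_zero.mp hm) |>.mp h2)
    · exact ca57_dd_ne_zero _ _ f hf h2
  · rw [hfc, IsScalarTower.algebraMap_apply R K ↥(modularFunctionFieldFullC K (M' * q))]

/-- **ASSEMBLY over (UZ)**: `(U)` at every level `N` with `q ∥ N`, `p ≠ q`, in the literal shape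
of the hypothesis `hU` of `s34e60_main`, from (LP), (KR), (LD), FrameSat, FrameGal, FrameUZ,
Fin and the field of definition. -/
theorem cau57_assembly (hLP : s34i47_Pkg_LP) (hKr : s34i47_Pkg_Krull) (hLD : s34i47_Pkg_LD)
    (hSat : s34i47c_Pkg_FrameSat) (hGal : s34i47c_Pkg_FrameGal)
    (hUZ : cau57_Pkg_FrameUZ) (hFin : s34i47_Pkg_Fin) (hFD : s34i47_Pkg_FieldDef)
    {p q N : ℕ} [NeZero N] (hp : p.Prime) (hq : q.Prime) (hqp : q ≠ p) (hqN : q ∣ N)
    (hq2 : ¬ q ^ 2 ∣ N) : lc52_U p q N := by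
  refine lc52_main hp hq hqp hqN hq2 ?_
  intro M p₀ hM0 hp₀ hp₀q hp₀M _ hqM hq2M _
  refine s34i47b_U_of_FFU M q p hp ?_
  intro n
  have hne : NeZero M := ⟨hM0⟩
  have hcop : Nat.Coprime (p ^ n) q :=
    Nat.Coprime.pow_left n ((Nat.coprime_primes hp hq).mpr (Ne.symm hqp))
  refine hFD M q _ hne hq (pow_pos hp.pos n) ?_
  obtain ⟨M', rfl⟩ := hqM
  have hM'0 : M' ≠ 0 := by
    rintro rfl
    exact hq2M (by simp)
  have hqM' : ¬ q ∣ M' := by
    rintro ⟨c, rfl⟩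
    exact hq2M ⟨c, by ring⟩
  have : NeZero M' := ⟨hM'0⟩
  have : NeZero q := ⟨hq.ne_zero⟩
  have hne' : NeZero (M' * q) := ⟨by rw [Nat.mul_comm]; exact hM0⟩
  rw [Nat.mul_comm q M'] at hp₀M ⊢
  exact cau57_core hLP hKr hLD s34i47b_main M' q _ hq hqM' (pow_pos hp.pos n) hcop
    p₀ hp₀ hp₀q hp₀M (hSat M' q hq hqM') (hGal M' q hq hqM') (hUZ M' q hq hqM') (hFin _ hne')

end Fermat.Agent.S34
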