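import Mathlib
import Fermat.Agent.S34.Iface47d
import Fermat.Agent.S34.CoreAsm34

/-!
# S34 lab: ASM-Core for the second route (no exact node equations), twin (helper34)

The literal `Prop` `s34i47d_Pkg_CoreW` of Iface47d quantifies over ALL levels `M' * q` and does
not assume that an admissible Hauptmodul exists (`2 ∣ M' * q`, `q ≠ 2` or `3 ∣ M' * q`, `q ≠ 3`);
without a Hauptmodul the frame hypotheses are vacuous, so that `Prop` is not provable by the
chain.  Here: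

* `caw34_coreW`    : the CORE-assembly of the second route WITH the hypothesis
                     `p₀ ∈ {2, 3}`, `p₀ ≠ q`, `p₀ ∣ M' * q` (otherwise literally
                     `s34i47d_Pkg_CoreW`);
* `caw34_assembly` : `s34i47d_assembly` without its argument `hCoreW`: the packages
                     (DOM), (UZ′), (LP′ from UZ′), (KR), (LDb), FrameSat, FrameGal, FrameLS′, FIN,
                     field of definition give `lc52_U p q N` (= `hU` of `s34e60_main`).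

Auxiliary: `caw34_inertial_symm` (the inverse of an inertial automorphism is inertial),
`caw34_coeffEquiv_symm`, `caw34_stab` ((G0), (G2), saturation ⟹ (ST)).
-/

set_option autoImplicit false

open ModularCurve AlgebraicCurve

namespace Fermat.Agent.S34

open Fermat.Agent.S18

local notation "Q̄" => AlgebraicClosure ℚ

/-- The inverse of an inertial automorphism is inertial (`σ R = R`: a discrete valuation ring
is a maximal subring of its fraction field). -/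
theorem caw34_inertial_symm {R K : Type*} [CommRing R] [IsDomain R] [IsDiscreteValuationRing R]
    [Field K] [Algebra R K] [IsFractionRing R K] (σ : K ≃+* K) (hσ : s34i47_Inertial R σ) :
    s34i47_Inertial R σ.symm := by
  have hinj := IsFractionRing.injective R K
  have key : ∀ r a : R, algebraMap R K a = σ.symm (algebraMap R K r) →
      a - r ∈ IsLocalRing.maximalIdeal R := by
    intro r a ha
    obtain ⟨a', ha', hmem⟩ := hσ a
    rw [ha, RingEquiv.apply_symm_apply] at ha'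
    have h1 : r = a' := hinj ha'
    have h2 : a - r = -(a' - a) := by rw [h1]; ring
    rw [h2]
    exact neg_mem hmem
  intro r
  by_cases hr : r = 0
  · refine ⟨0, ?_, ?_⟩
    · rw [hr, map_zero, map_zero]
    · rw [hr, sub_zero]; exact zero_mem _
  have hr' : algebraMap R K r ≠ 0 := fun h0 => hr (hinj (by rw [h0, map_zero]))
  have hx0 : σ.symm (algebraMap R K r) ≠ 0 := fun h0 => hr' (by simpa using h0)
  rcases ValuationRing.isInteger_or_isInteger R (σ.symm (algebraMap R K r)) with ⟨a, ha⟩ | ⟨b, hb⟩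
  · exact ⟨a, ha.symm, key r a ha⟩
  · obtain ⟨b', hb', hmem⟩ := hσ b
    have h1 : algebraMap R K b' * algebraMap R K r = 1 := by
      rw [← hb', hb, map_inv₀, RingEquiv.apply_symm_apply, inv_mul_cancel₀ hr']
    have h2 : b' * r = 1 := hinj (by rw [map_mul, h1, map_one])
    have hb'u : IsUnit b' := IsUnit.of_mul_eq_one _ h2
    have hbu : IsUnit b := by
      by_contra hnu
      have hbm : b ∈ IsLocalRing.maximalIdeal R := (IsLocalRing.mem_maximalIdeal b).mpr hnu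
      have h3 : b' ∈ IsLocalRing.maximalIdeal R := by
        have h4 := add_mem hmem hbm
        rwa [sub_add_cancel] at h4
      exact (IsLocalRing.mem_maximalIdeal b').mp h3 hb'u
    obtain ⟨c, hc⟩ := hbu.exists_right_inv
    have hxc : algebraMap R K c = σ.symm (algebraMap R K r) := by
      have h5 : algebraMap R K b * algebraMap R K c = 1 := by rw [← map_mul, hc, map_one]
      rw [hb] at h5
      have h6 := congrArg (fun y => σ.symm (algebraMap R K r) * y) h5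
      simp only [mul_one] at h6
      rw [← mul_assoc, mul_inv_cancel₀ hx0, one_mul] at h6
      exact h6
    exact ⟨c, hxc.symm, key r c hxc⟩

/-- The inverse of the coefficientwise automorphism is the coefficientwise automorphism of the
inverse. -/
theorem caw34_coeffEquiv_symm {K : Type*} [Field K] (σ : K ≃+* K) (M : ℕ) :
    (s34i47_coeffEquiv σ M).symm = s34i47_coeffEquiv σ.symm M :=
  RingEquiv.ext fun _ => rfl

/-- (G0) for `σ` and `σ⁻¹`, stability of the chart, (G2) and saturation give (ST). -/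
theorem caw34_stab {R F : Type*} [CommRing R] [Field F] [Algebra R F] (π : R) (W : Subring F)
    (B : Subalgebra R F) (σ : F ≃+* F) (hBW : ∀ x ∈ B, x ∈ W)
    (hsat : ∀ x ∈ B, (algebraMap R F π)⁻¹ * x ∈ W → (algebraMap R F π)⁻¹ * x ∈ B)
    (hσ : s34i47_GalProps π W σ) (hσ' : s34i47_GalProps π W σ.symm)
    (hσB : ∀ x ∈ B, σ x ∈ B) (hσB' : ∀ x ∈ B, σ.symm x ∈ B) : s34i47d_Stab π B σ :=
  ⟨hσ.1, hσ'.1, hσB, hσB',
    fun x hx => hsat _ (B.sub_mem (hσB x hx) hx) (hσ.2.2 x (hBW x hx))⟩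

/-- **ASM-Core, second route** (= `s34i47d_Pkg_CoreW` with the hypothesis that an admissible
Hauptmodul exists: `p₀ ∈ {2, 3}`, `p₀ ≠ q`, `p₀ ∣ M' * q`). -/
theorem caw34_coreW (hDom : s34i47d_Pkg_Dom) (hUZD : s34i47d_Pkg_UZD) (hLPD : s34i47d_Pkg_LPD)
    (hKr : s34i47_Pkg_Krull) (hLDb : s34i47b_Pkg_LDb) (hMain : s34i47_Pkg_Main)
    (M' q m p₀ : ℕ) [NeZero M'] [NeZero q] (hq : q.Prime) (hM' : ¬ q ∣ M')
    (hp₀ : p₀ = 2 ∨ p₀ = 3) (hp₀q : p₀ ≠ q) (hp₀M : p₀ ∣ M' * q) (hm : 0 < m)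
    (hcop : Nat.Coprime m q)
    (hSat : s34i47c_FrameSat M' q hq hM') (hGal : s34i47c_FrameGal M' q hq hM')
    (hLSW : s34i47d_FrameLSW M' q) (hFin : s34i47_FinSupp (M' * q)) :
    s34i47_Core (M' * q) q m := by
  intro R K _ _ _ _ _ _ _ _ _ _ π hπ hunits hqR σ τ hσ hτ f hf0 hord hrat
  -- the Hauptmodul
  obtain ⟨h, hhaupt⟩ : ∃ h : ↥(modularFunctionFieldFullC K (M' * q)),
      s34i47c_IsHaupt K (M' * q) q h := by
    rcases hp₀ with rfl | rfl
    · exact ⟨pk85_h2 K (M' * q) hp₀M, Or.inl ⟨Ne.symm hp₀q, hp₀M, rfl⟩⟩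
    · exact ⟨pk85_h3 K (M' * q) hp₀M, Or.inr ⟨Ne.symm hp₀q, hp₀M, rfl⟩⟩
  obtain ⟨hW, hCall⟩ := hSat R K π hπ hunits hqR
  have hC := hCall h hhaupt
  obtain ⟨⟨P₁, P₂, hP₁, hP₂, hπP₁, hπP₂, hLS₁⟩, ⟨Q₁, Q₂, hQ₁, hQ₂, hπQ₁, hπQ₂, hLS₂⟩⟩ :=
    hLSW R K π hπ hunits hqR h hhaupt
  -- (G) for σ, τ and their inverses
  obtain ⟨hGσ, hσfix⟩ := hGal R K π hπ hunits hqR σ hσ
  obtain ⟨hGτ, hτfix⟩ := hGal R K π hπ hunits hqR τ hτ
  obtain ⟨hGσ', hσfix'⟩ := hGal R K π hπ hunits hqR σ.symm (caw34_inertial_symm σ hσ)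
  obtain ⟨hGτ', hτfix'⟩ := hGal R K π hπ hunits hqR τ.symm (caw34_inertial_symm τ hτ)
  rw [← caw34_coeffEquiv_symm] at hGσ' hGτ' hσfix' hτfix'
  have hσh := hσfix h hhaupt
  have hτh := hτfix h hhaupt
  have hσh' := hσfix' h hhaupt
  have hτh' := hτfix' h hhaupt
  have hC' := hC
  obtain ⟨hh, h12W, hsat₁, hsat₂, hsat₁₂, hN₁, hN₂, hfin, hfrac⟩ := hC'
  have hh0 : h ≠ 0 := cap87_ne_zero h hh
  have hfrac₂ := ca34_frac_inv h hh0 hfrac
  -- the dictionary: horizontal valuation rings are places over `K`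
  have hOrd : s34i47_Ord π m f := fun O hO =>
    lp7_hord_of_place_dvr (K := K) π hπ f hf0 m hord O hO.1 hO.2.1 hO.2.2.1 hO.2.2.2
  have hRat : s34i47_Rat K π f := fun O hO =>
    hrat ⟨O, ca34_K_mem π hπ O hO.2.2.1 hO.2.2.2, hO.1, hO.2.1⟩
  have hFin' : s34i47_Fin π f := by
    refine ((hFin K f hf0).image Place.toValuationSubring).subset ?_
    rintro O ⟨hO, hfO⟩
    exact ⟨⟨O, ca34_K_mem π hπ O hO.2.2.1 hO.2.2.2, hO.1, hO.2.1⟩, hfO, rfl⟩
  -- the charts lie in `W` and are stable under `σ`, `τ` and their inverses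
  have hB₁W : ∀ x ∈ pk15_chart R ({h} : Set ↥(modularFunctionFieldFullC K (M' * q))),
      x ∈ s34i47c_W (K := K) M' q hq hM' hπ :=
    fun x hx => h12W x (pk15_chart_mono (by simp) hx)
  have hB₂W : ∀ x ∈ pk15_chart R ({h⁻¹} : Set ↥(modularFunctionFieldFullC K (M' * q))),
      x ∈ s34i47c_W (K := K) M' q hq hM' hπ :=
    fun x hx => h12W x (pk15_chart_mono (by simp) hx)
  have hstab₁ : ∀ ρ : ↥(modularFunctionFieldFullC K (M' * q)) ≃+*
        ↥(modularFunctionFieldFullC K (M' * q)),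
      s34i47_GalProps π (s34i47c_W (K := K) M' q hq hM' hπ) ρ → ρ h = h →
      ∀ x ∈ pk15_chart R ({h} : Set ↥(modularFunctionFieldFullC K (M' * q))),
        ρ x ∈ pk15_chart R ({h} : Set ↥(modularFunctionFieldFullC K (M' * q))) := by
    intro ρ hρ hρh
    refine ca34_chart_map ρ hρ.1 _ ?_
    intro g hg
    rw [Set.mem_singleton_iff] at hg
    rw [hg, hρh]
    exact Algebra.subset_adjoin (Set.mem_singleton h)
  have hstab₂ : ∀ ρ : ↥(modularFunctionFieldFullC K (M' * q)) ≃+*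
        ↥(modularFunctionFieldFullC K (M' * q)),
      s34i47_GalProps π (s34i47c_W (K := K) M' q hq hM' hπ) ρ → ρ h = h →
      ∀ x ∈ pk15_chart R ({h⁻¹} : Set ↥(modularFunctionFieldFullC K (M' * q))),
        ρ x ∈ pk15_chart R ({h⁻¹} : Set ↥(modularFunctionFieldFullC K (M' * q))) := by
    intro ρ hρ hρh
    refine ca34_chart_map ρ hρ.1 _ ?_
    intro g hg
    rw [Set.mem_singleton_iff] at hg
    rw [hg, map_inv₀, hρh]
    exact Algebra.subset_adjoin (Set.mem_singleton h⁻¹)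
  -- (ST) for σ, τ on both charts
  have hStσ₁ := caw34_stab π _ _ (s34i47_coeffEquiv σ (M' * q)) hB₁W hsat₁ hGσ hGσ'
    (hstab₁ _ hGσ hσh) (hstab₁ _ hGσ' hσh')
  have hStτ₁ := caw34_stab π _ _ (s34i47_coeffEquiv τ (M' * q)) hB₁W hsat₁ hGτ hGτ'
    (hstab₁ _ hGτ hτh) (hstab₁ _ hGτ' hτh')
  have hStσ₂ := caw34_stab π _ _ (s34i47_coeffEquiv σ (M' * q)) hB₂W hsat₂ hGσ hGσ'
    (hstab₂ _ hGσ hσh) (hstab₂ _ hGσ' hσh')
  have hStτ₂ := caw34_stab π _ _ (s34i47_coeffEquiv τ (M' * q)) hB₂W hsat₂ hGτ hGτ'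
    (hstab₂ _ hGτ hτh) (hstab₂ _ hGτ' hτh')
  -- (DOM), (UZ′), (LP′), (KR) on both charts
  obtain ⟨hDom₁, hDom₂⟩ := hDom R K _ π hπ h hh hN₁ hN₂ hfin hfrac
  have hUZ₁ := hUZD R K _ π hπ _ hN₁ hfrac P₁ P₂ hP₁ hP₂ hπP₁ hπP₂ hLS₁ hDom₁ _ _ hStσ₁ hStτ₁
  have hUZ₂ := hUZD R K _ π hπ _ hN₂ hfrac₂ Q₁ Q₂ hQ₁ hQ₂ hπQ₁ hπQ₂ hLS₂ hDom₂ _ _ hStσ₂ hStτ₂
  have hLP₁ := hLPD R K _ π hπ _ m hm _ _ f hf0 hStσ₁ hStτ₁ hUZ₁ hOrd hRat hFin'
  have hLP₂ := hLPD R K _ π hπ _ m hm _ _ f hf0 hStσ₂ hStτ₂ hUZ₂ hOrd hRat hFin'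
  obtain ⟨hKr₁, hKr₂⟩ := hKr R K _ π hπ h hh hN₁ hN₂ hfin hfrac
  -- (LD) on both charts
  have hLD₁ := hLDb R K _ π hπ m hm _ _ (s34i47_coeffEquiv σ (M' * q))
    (s34i47_coeffEquiv τ (M' * q)) f hf0 hW.1 hB₁W hsat₁ hGσ hGτ hKr₁ hLP₁
  have hLD₂ := hLDb R K _ π hπ m hm _ _ (s34i47_coeffEquiv σ (M' * q))
    (s34i47_coeffEquiv τ (M' * q)) f hf0 hW.1 hB₂W hsat₂ hGσ hGτ hKr₂ hLP₂
  -- the nodal two-chart lemma
  have hu := ca34_dd_cong π _ (s34i47_coeffEquiv σ (M' * q)) (s34i47_coeffEquiv τ (M' * q))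
    hGσ hGτ f hf0
  obtain ⟨f₀, c, hf₀, hc⟩ := hMain R K _ π hπ m hm (hunits m hcop)
    (cap87_algClosed_in (modularFunctionFieldFullC K (M' * q))) _ h hW hC _ hu hLD₁ hLD₂
  refine ⟨f₀, algebraMap R K c, hf₀, ?_, ?_⟩
  · intro hc0
    rw [IsScalarTower.algebraMap_apply R K ↥(modularFunctionFieldFullC K (M' * q)), hc0,
      map_zero] at hc
    rcases mul_eq_zero.mp hc with h1 | h1
    · exact hf₀ (pow_eq_zero_iff (Nat.pos_iff_ne_zero.mp hm) |>.mp h1)
    · exact ca34_dd_ne_zero _ _ f hf0 h1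
  · rw [hc, IsScalarTower.algebraMap_apply R K ↥(modularFunctionFieldFullC K (M' * q))]

/-- **ASSEMBLY, second route** (no exact node equation), with the CORE-assembly discharged:
`(U)` at every level `N` with `q ∥ N`, `p ≠ q`, in the literal shape of the hypothesis `hU` of
`s34e60_main`. -/
theorem caw34_assembly (hDom : s34i47d_Pkg_Dom) (hUZD : s34i47d_Pkg_UZD)
    (hLPD : s34i47d_Pkg_LPD) (hKr : s34i47_Pkg_Krull) (hLDb : s34i47b_Pkg_LDb)
    (hSat : s34i47c_Pkg_FrameSat) (hGal : s34i47c_Pkg_FrameGal)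
    (hLSW : s34i47d_Pkg_FrameLSW) (hFin : s34i47_Pkg_Fin) (hFD : s34i47_Pkg_FieldDef)
    {p q N : ℕ} [NeZero N] (hp : p.Prime) (hq : q.Prime) (hqp : q ≠ p) (hqN : q ∣ N)
    (hq2 : ¬ q ^ 2 ∣ N) : lc52_U p q N := by
  refine lc52_main hp hq hqp hqN hq2 ?_
  intro M p₀ hM0 hp₀ hp₀q hp₀M _ hqM hq2M _
  refine s34i47b_U_of_FFU M q p hp ?_
  intro n
  have hne : NeZero M := ⟨hM0⟩
  have hcop : Nat.Coprime (p ^ n) q :=
    Nat.Coprime.pow_left n ((Nat.coprime_primes hp hq).mpr (Ne.symm hqp))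
  refine hFD M q _ hne hq (pow_pos hp.pos n) ?_
  obtain ⟨M', rfl⟩ := hqM
  have hM'0 : M' ≠ 0 := by
    rintro rfl
    exact hq2M (by simp)
  have hqM' : ¬ q ∣ M' := by
    rintro ⟨c, rfl⟩
    exact hq2M ⟨c, by ring⟩
  have : NeZero M' := ⟨hM'0⟩
  have : NeZero q := ⟨hq.ne_zero⟩
  have hne' : NeZero (M' * q) := ⟨by rw [Nat.mul_comm]; exact hM0⟩
  rw [Nat.mul_comm q M'] at hp₀M ⊢
  exact caw34_coreW hDom hUZD hLPD hKr hLDb s34i47b_main M' q _ p₀ hq hqM' hp₀ hp₀q hp₀M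
    (pow_pos hp.pos n) hcop (hSat M' q hq hqM') (hGal M' q hq hqM') (hLSW M' q hq hqM')
    (hFin _ hne')

end Fermat.Agent.S34
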