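import Fermat.Agent.S34.Iface47d
import Fermat.Agent.S34.CoreAsm57

/-!
# S34 lab, row 514 (helper57): CORE-assembly of the second route (`Iface47d`), corrected

The literal `s34i47d_Pkg_CoreW` of `Iface47d` quantifies over ALL `(M', q)` and carries no
Hauptmodul hypothesis; for a level `M' * q` prime to `6` the frame packages are then vacuous and
the statement cannot be derived from them.  This file proves the statement WITH the missing
hypothesis and redoes the (two-line) final assembly, so that nothing else changes: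

* `caw57_coreW` : the statement of `s34i47d_Pkg_CoreW` with the additional hypotheses
  `p₀ = 2 ∨ p₀ = 3`, `p₀ ≠ q`, `p₀ ∣ M' * q`:
  (DOM) + (UZ′) + (LP′ from UZ′) + (KR) + (LDb) + (Main) over
  FrameSat + FrameGal + FrameLS′ + FinSupp ⟹ `s34i47_Core (M' * q) q m`.
* `caw57_assembly` : LITERALLY the hypotheses of `s34i47d_assembly` without `hCoreW`, and the
  same conclusion `lc52_U p q N` (= `hU` of `s34e60_main`).

Adapters:

* `caw57_inertial_symm` : the inverse of an inertial automorphism is inertial (`σ R = R`);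
* `caw57_coeffEquiv_symm` : `(s34i47_coeffEquiv σ M).symm = s34i47_coeffEquiv σ.symm M`;
* `caw57_stab` : (ST) for a chart from (G) for `σ̂`, `σ̂⁻¹`, stability of the chart and
  saturation of the chart in `W`.

All names are prefixed `caw57_`.
-/

set_option autoImplicit false

open ModularCurve AlgebraicCurve

namespace Fermat.Agent.S34

open Fermat.Agent.S18

local notation "Q̄" => AlgebraicClosure ℚ

/-- The inverse of an inertial automorphism is inertial. -/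
theorem caw57_inertial_symm {R K : Type*} [CommRing R] [IsDomain R] [IsDiscreteValuationRing R]
    [Field K] [Algebra R K] [IsFractionRing R K] (σ : K ≃+* K) (hσ : s34i47_Inertial R σ) :
    s34i47_Inertial R σ.symm := by
  intro r
  have key : ∀ t : R, σ (algebraMap R K t) = algebraMap R K r →
      σ.symm (algebraMap R K r) = algebraMap R K t ∧ t - r ∈ IsLocalRing.maximalIdeal R := by
    intro t ht
    obtain ⟨t', ht', hmem⟩ := hσ t
    have htr : t' = r := IsFractionRing.injective R K (ht'.symm.trans ht)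
    subst htr
    refine ⟨by rw [← ht, RingEquiv.symm_apply_apply], ?_⟩
    have h1 := neg_mem hmem
    rwa [neg_sub] at h1
  rcases ValuationRing.isInteger_or_isInteger R (σ.symm (algebraMap R K r)) with ⟨t, ht⟩ | ⟨t, ht⟩
  · exact ⟨t, key t (by rw [ht, RingEquiv.apply_symm_apply])⟩
  · by_cases hr : r = 0
    · subst hr
      exact ⟨0, by simp, by simp⟩
    obtain ⟨t', ht', hmem⟩ := hσ t
    have hr' : algebraMap R K r ≠ 0 := fun h0 =>
      hr ((map_eq_zero_iff _ (IsFractionRing.injective R K)).mp h0)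
    have h1 : algebraMap R K t' * algebraMap R K r = 1 := by
      rw [← ht', ht, map_inv₀, RingEquiv.apply_symm_apply]
      exact inv_mul_cancel₀ hr'
    have h2 : t' * r = 1 := IsFractionRing.injective R K (by rw [map_mul, h1, map_one])
    have ht'u : IsUnit t' := ⟨⟨t', r, h2, by rw [mul_comm]; exact h2⟩, rfl⟩
    have htu : IsUnit t := by
      by_contra hnu
      have h3 : t ∈ IsLocalRing.maximalIdeal R := (IsLocalRing.mem_maximalIdeal t).mpr hnu
      have h4 : t' ∈ IsLocalRing.maximalIdeal R := by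
        have h5 := add_mem hmem h3
        rwa [sub_add_cancel] at h5
      exact (IsLocalRing.mem_maximalIdeal t').mp h4 ht'u
    obtain ⟨u, rfl⟩ := htu
    have h3 : σ.symm (algebraMap R K r) = algebraMap R K ((u⁻¹ : Rˣ) : R) := by
      have hu1 : algebraMap R K (u : R) * algebraMap R K ((u⁻¹ : Rˣ) : R) = 1 := by
        rw [← map_mul, Units.mul_inv, map_one]
      rw [← inv_inv (σ.symm (algebraMap R K r)), ← ht]
      exact inv_eq_of_mul_eq_one_right hu1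
    exact ⟨((u⁻¹ : Rˣ) : R), key _ (by rw [← h3, RingEquiv.apply_symm_apply])⟩

/-- The inverse of the coefficientwise automorphism is the coefficientwise automorphism of the
inverse. -/
theorem caw57_coeffEquiv_symm {K : Type*} [Field K] (σ : K ≃+* K) (M : ℕ) :
    (s34i47_coeffEquiv σ M).symm = s34i47_coeffEquiv σ.symm M :=
  RingEquiv.ext fun _ => rfl

section caw57_abstract

variable {R F : Type*} [CommRing R] [Field F] [Algebra R F]

/-- (ST) for a chart `B ⊆ W` saturated in `W`, from (G) for `σ` and `σ⁻¹` and the stability of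
`B` under both. -/
theorem caw57_stab {π : R} (W : Subring F) (B : Subalgebra R F) (σ σ' : F ≃+* F)
    (hσσ' : σ.symm = σ') (hG : s34i47_GalProps π W σ) (hG' : s34i47_GalProps π W σ')
    (hBW : ∀ x ∈ B, x ∈ W)
    (hsat : ∀ x ∈ B, (algebraMap R F π)⁻¹ * x ∈ W → (algebraMap R F π)⁻¹ * x ∈ B)
    (hσB : ∀ x ∈ B, σ x ∈ B) (hσ'B : ∀ x ∈ B, σ' x ∈ B) : s34i47d_Stab π B σ := by
  subst hσσ'
  exact ⟨hG.1, hG'.1, hσB, hσ'B,
    fun x hx => hsat (σ x - x) (B.sub_mem (hσB x hx) hx) (hG.2.2 x (hBW x hx))⟩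

end caw57_abstract

/-- **CORE-assembly of the second route** (the statement of `s34i47d_Pkg_CoreW` with the
Hauptmodul hypothesis `p₀ ∣ M' * q`, `p₀ ∈ {2, 3}`, `p₀ ≠ q`). -/
theorem caw57_coreW (hDom : s34i47d_Pkg_Dom) (hUZD : s34i47d_Pkg_UZD) (hLPD : s34i47d_Pkg_LPD)
    (hKr : s34i47_Pkg_Krull) (hLDb : s34i47b_Pkg_LDb) (hMain : s34i47_Pkg_Main)
    (M' q m : ℕ) [NeZero M'] [NeZero q] (hq : q.Prime) (hM' : ¬ q ∣ M') (hm : 0 < m)
    (hmq : Nat.Coprime m q) (p₀ : ℕ) (hp₀ : p₀ = 2 ∨ p₀ = 3) (hp₀q : p₀ ≠ q)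
    (hp₀M : p₀ ∣ M' * q)
    (hSat : s34i47c_FrameSat M' q hq hM') (hGal : s34i47c_FrameGal M' q hq hM')
    (hLSW : s34i47d_FrameLSW M' q) (hFin : s34i47_FinSupp (M' * q)) :
    s34i47_Core (M' * q) q m := by
  intro R K instR instD instDVR instK instNF instQ instRK instFR instRF instST π hπ hunit hqR
    σ τ hσ hτ f hf hord hrat
  -- the Hauptmodul
  obtain ⟨h, hh⟩ : ∃ h : ↥(modularFunctionFieldFullC K (M' * q)),
      s34i47c_IsHaupt K (M' * q) q h := by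
    rcases hp₀ with rfl | rfl
    · exact ⟨pk85_h2 K (M' * q) hp₀M, Or.inl ⟨Ne.symm hp₀q, hp₀M, rfl⟩⟩
    · exact ⟨pk85_h3 K (M' * q) hp₀M, Or.inr ⟨Ne.symm hp₀q, hp₀M, rfl⟩⟩
  -- the frame
  obtain ⟨hW, hCall⟩ := hSat R K π hπ hunit hqR
  have hC := hCall h hh
  obtain ⟨hGσ, hσfix⟩ := hGal R K π hπ hunit hqR σ hσ
  obtain ⟨hGτ, hτfix⟩ := hGal R K π hπ hunit hqR τ hτ
  obtain ⟨hGσ', hσfix'⟩ := hGal R K π hπ hunit hqR σ.symm (caw57_inertial_symm σ hσ)
  obtain ⟨hGτ', hτfix'⟩ := hGal R K π hπ hunit hqR τ.symm (caw57_inertial_symm τ hτ)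
  have hσh := hσfix h hh
  have hτh := hτfix h hh
  have hσh' := hσfix' h hh
  have hτh' := hτfix' h hh
  obtain ⟨⟨P₁, P₂, hP₁, hP₂, hπP₁, hπP₂, hLS₁⟩, ⟨Q₁, Q₂, hQ₁, hQ₂, hπQ₁, hπQ₂, hLS₂⟩⟩ :=
    hLSW R K π hπ hunit hqR h hh
  have hC' := hC
  obtain ⟨htr, h12W, hsat₁, hsat₂, -, hN₁, hN₂, hfin, hfrac⟩ := hC'
  have hh0 : h ≠ 0 := by
    rintro rfl
    exact htr isAlgebraic_zero
  have h112 : pk15_chart R ({h} : Set ↥(modularFunctionFieldFullC K (M' * q))) ≤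
      pk15_chart R ({h, h⁻¹} : Set ↥(modularFunctionFieldFullC K (M' * q))) :=
    pk15_chart_mono (by simp)
  have h212 : pk15_chart R ({h⁻¹} : Set ↥(modularFunctionFieldFullC K (M' * q))) ≤
      pk15_chart R ({h, h⁻¹} : Set ↥(modularFunctionFieldFullC K (M' * q))) :=
    pk15_chart_mono (by simp)
  have hfrac₂ := ca57_frac_inv (R := R) h hh0 hfrac
  -- the hypotheses on `f` in valuation-subring form
  have hOrd : s34i47_Ord π m f := ca57_ord (K := K) hπ m f hf hord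
  have hRat : s34i47_Rat K π f := ca57_rat (K := K) hπ f hrat
  have hFinS : s34i47_Fin π f := ca57_fin (K := K) hπ f (hFin K f hf)
  -- the charts are stable under the four automorphisms
  have hs₁ : ∀ ρ : ↥(modularFunctionFieldFullC K (M' * q)) ≃+*
      ↥(modularFunctionFieldFullC K (M' * q)),
      ρ h = h → ∀ x ∈ ({h} : Set ↥(modularFunctionFieldFullC K (M' * q))),
        ρ x ∈ ({h} : Set ↥(modularFunctionFieldFullC K (M' * q))) := by
    intro ρ hρ x hx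
    rw [Set.mem_singleton_iff] at hx ⊢
    rw [hx, hρ]
  have hs₂ : ∀ ρ : ↥(modularFunctionFieldFullC K (M' * q)) ≃+*
      ↥(modularFunctionFieldFullC K (M' * q)),
      ρ h = h → ∀ x ∈ ({h⁻¹} : Set ↥(modularFunctionFieldFullC K (M' * q))),
        ρ x ∈ ({h⁻¹} : Set ↥(modularFunctionFieldFullC K (M' * q))) := by
    intro ρ hρ x hx
    rw [Set.mem_singleton_iff] at hx ⊢
    rw [hx, map_inv₀, hρ]
  have hσB₁ := ca57_chart_map (s34i47_coeffEquiv σ (M' * q)) hGσ.1 _ (hs₁ _ hσh)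
  have hτB₁ := ca57_chart_map (s34i47_coeffEquiv τ (M' * q)) hGτ.1 _ (hs₁ _ hτh)
  have hσB₂ := ca57_chart_map (s34i47_coeffEquiv σ (M' * q)) hGσ.1 _ (hs₂ _ hσh)
  have hτB₂ := ca57_chart_map (s34i47_coeffEquiv τ (M' * q)) hGτ.1 _ (hs₂ _ hτh)
  have hσB₁' := ca57_chart_map (s34i47_coeffEquiv σ.symm (M' * q)) hGσ'.1 _ (hs₁ _ hσh')
  have hτB₁' := ca57_chart_map (s34i47_coeffEquiv τ.symm (M' * q)) hGτ'.1 _ (hs₁ _ hτh')
  have hσB₂' := ca57_chart_map (s34i47_coeffEquiv σ.symm (M' * q)) hGσ'.1 _ (hs₂ _ hσh')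
  have hτB₂' := ca57_chart_map (s34i47_coeffEquiv τ.symm (M' * q)) hGτ'.1 _ (hs₂ _ hτh')
  -- (ST) on both charts
  have hSTσ₁ := caw57_stab (s34i47c_W (K := K) M' q hq hM' hπ) _ (s34i47_coeffEquiv σ (M' * q))
    _ (caw57_coeffEquiv_symm σ (M' * q)) hGσ hGσ' (fun x hx => h12W x (h112 hx)) hsat₁
    hσB₁ hσB₁'
  have hSTτ₁ := caw57_stab (s34i47c_W (K := K) M' q hq hM' hπ) _ (s34i47_coeffEquiv τ (M' * q))
    _ (caw57_coeffEquiv_symm τ (M' * q)) hGτ hGτ' (fun x hx => h12W x (h112 hx)) hsat₁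
    hτB₁ hτB₁'
  have hSTσ₂ := caw57_stab (s34i47c_W (K := K) M' q hq hM' hπ) _ (s34i47_coeffEquiv σ (M' * q))
    _ (caw57_coeffEquiv_symm σ (M' * q)) hGσ hGσ' (fun x hx => h12W x (h212 hx)) hsat₂
    hσB₂ hσB₂'
  have hSTτ₂ := caw57_stab (s34i47c_W (K := K) M' q hq hM' hπ) _ (s34i47_coeffEquiv τ (M' * q))
    _ (caw57_coeffEquiv_symm τ (M' * q)) hGτ hGτ' (fun x hx => h12W x (h212 hx)) hsat₂
    hτB₂ hτB₂'
  -- (DOM), (KR) on both charts
  obtain ⟨hDom₁, hDom₂⟩ :=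
    hDom R K ↥(modularFunctionFieldFullC K (M' * q)) π hπ h htr hN₁ hN₂ hfin hfrac
  obtain ⟨hKr₁, hKr₂⟩ :=
    hKr R K ↥(modularFunctionFieldFullC K (M' * q)) π hπ h htr hN₁ hN₂ hfin hfrac
  -- (UZ′), (LP′) on both charts
  have hUZ₁ := hUZD R K ↥(modularFunctionFieldFullC K (M' * q)) π hπ _ hN₁ hfrac P₁ P₂ hP₁ hP₂
    hπP₁ hπP₂ hLS₁ hDom₁ _ _ hSTσ₁ hSTτ₁
  have hUZ₂ := hUZD R K ↥(modularFunctionFieldFullC K (M' * q)) π hπ _ hN₂ hfrac₂ Q₁ Q₂ hQ₁ hQ₂
    hπQ₁ hπQ₂ hLS₂ hDom₂ _ _ hSTσ₂ hSTτ₂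
  have hLP₁ := hLPD R K ↥(modularFunctionFieldFullC K (M' * q)) π hπ _ m hm _ _ f hf
    hSTσ₁ hSTτ₁ hUZ₁ hOrd hRat hFinS
  have hLP₂ := hLPD R K ↥(modularFunctionFieldFullC K (M' * q)) π hπ _ m hm _ _ f hf
    hSTσ₂ hSTτ₂ hUZ₂ hOrd hRat hFinS
  -- the local datum on both charts
  have hLD₁ := hLDb R K ↥(modularFunctionFieldFullC K (M' * q)) π hπ m hm
    (s34i47c_W (K := K) M' q hq hM' hπ) _
    (s34i47_coeffEquiv σ (M' * q)) (s34i47_coeffEquiv τ (M' * q)) f hf hW.1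
    (fun x hx => h12W x (h112 hx)) hsat₁ hGσ hGτ hKr₁ hLP₁
  have hLD₂ := hLDb R K ↥(modularFunctionFieldFullC K (M' * q)) π hπ m hm
    (s34i47c_W (K := K) M' q hq hM' hπ) _
    (s34i47_coeffEquiv σ (M' * q)) (s34i47_coeffEquiv τ (M' * q)) f hf hW.1
    (fun x hx => h12W x (h212 hx)) hsat₂ hGσ hGτ hKr₂ hLP₂
  -- the nodal two-chart lemma
  have hu := ca57_dd_cong (s34i47c_W (K := K) M' q hq hM' hπ) (s34i47_coeffEquiv σ (M' * q))
    (s34i47_coeffEquiv τ (M' * q)) hGσ hGτ f hf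
  obtain ⟨f₀, c, hf₀, hfc⟩ := hMain R K ↥(modularFunctionFieldFullC K (M' * q)) π hπ m hm
    (hunit m hmq) (cap87_algClosed_in (modularFunctionFieldFullC K (M' * q)))
    (s34i47c_W (K := K) M' q hq hM' hπ) h hW hC _ hu hLD₁ hLD₂
  refine ⟨f₀, algebraMap R K c, hf₀, ?_, ?_⟩
  · intro h0
    have h1 : f₀ ^ m * s34i47_dd (s34i47_coeffEquiv σ (M' * q)) (s34i47_coeffEquiv τ (M' * q)) f
        = 0 := by
      rw [hfc, IsScalarTower.algebraMap_apply R K ↥(modularFunctionFieldFullC K (M' * q)), h0,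
        map_zero]
    rcases mul_eq_zero.mp h1 with h2 | h2
    · exact hf₀ (pow_eq_zero_iff (Nat.pos_iff_ne_zero.mp hm) |>.mp h2)
    · exact ca57_dd_ne_zero _ _ f hf h2
  · rw [hfc, IsScalarTower.algebraMap_apply R K ↥(modularFunctionFieldFullC K (M' * q))]

/-- **ASSEMBLY, second route** (no exact node equation): the hypotheses of `s34i47d_assembly`
without `hCoreW`; the conclusion is `(U)` at every level `N` with `q ∥ N`, `p ≠ q`, in the
literal shape of the hypothesis `hU` of `s34e60_main`. -/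
theorem caw57_assembly (hDom : s34i47d_Pkg_Dom) (hUZD : s34i47d_Pkg_UZD)
    (hLPD : s34i47d_Pkg_LPD) (hKr : s34i47_Pkg_Krull) (hLDb : s34i47b_Pkg_LDb)
    (hSat : s34i47c_Pkg_FrameSat) (hGal : s34i47c_Pkg_FrameGal)
    (hLSW : s34i47d_Pkg_FrameLSW) (hFin : s34i47_Pkg_Fin)
    (hFD : s34i47_Pkg_FieldDef)
    {p q N : ℕ} [NeZero N] (hp : p.Prime) (hq : q.Prime) (hqp : q ≠ p) (hqN : q ∣ N)
    (hq2 : ¬ q ^ 2 ∣ N) : lc52_U p q N := by
  refine lc52_main hp hq hqp hqN hq2 ?_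
  intro M p₀ hM0 hp₀ hp₀q hp₀M _ hqM hq2M _
  refine s34i47b_U_of_FFU M q p hp ?_
  intro n
  have hne : NeZero M := ⟨hM0⟩
  have hcop : Nat.Coprime (p ^ n) q :=
    Nat.Coprime.pow_left n ((Nat.coprime_primes hp hq).mpr (Ne.symm hqp))
  refine hFD M q _ hne hq (pow_pos hp.pos n) ?_
  obtain ⟨M', rfl⟩ := hqM
  have hM'0 : M' ≠ 0 := by
    rintro rfl
    exact hq2M (by simp)
  have hqM' : ¬ q ∣ M' := by
    rintro ⟨c, rfl⟩
    exact hq2M ⟨c, by ring⟩
  have : NeZero M' := ⟨hM'0⟩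
  have : NeZero q := ⟨hq.ne_zero⟩
  have hne' : NeZero (M' * q) := ⟨by rw [Nat.mul_comm]; exact hM0⟩
  rw [Nat.mul_comm q M'] at hp₀M ⊢
  exact caw57_coreW hDom hUZD hLPD hKr hLDb s34i47b_main M' q _ hq hqM' (pow_pos hp.pos n) hcop
    p₀ hp₀ hp₀q hp₀M (hSat M' q hq hqM') (hGal M' q hq hqM') (hLSW M' q hq hqM') (hFin _ hne')

end Fermat.Agent.S34
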