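/-
S34 lab (helper35): **the assembly over a frame stated with (UZ) instead of (LS)** — the
"UZ-route", independent of the literal shape of the local structure.

Motivation.  `ca57_core : s34i47_Pkg_Core` (helper57) uses the local structure (LS) of the frame
only through `s34i47_Pkg_UZ` ((LS) ⟹ (UZ)) on the two affine charts.  The weak route (helper89,
NoDeep89: no deep points on a normal chart; helper3, DeepNode3) produces the literal
`s34i47_UniqueZero` from a node structure WITHOUT thickness (no `U V = q^12`, no cusp analysis),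
so it needs the chain from (UZ) on.  This file provides that chain once and for all:

* `s34w35_FrameUZ M q` : the frame of `Iface47` with `s34i47_LocStr π B` replaced by
  `s34i47_UniqueZero K π B` on the two affine charts;
* `s34w35_frameUZ_of_frame` : `s34i47_Pkg_UZ → s34i47_Frame M q → s34w35_FrameUZ M q`
  (the exact route factors through the UZ-route);
* `s34w35_core` : (LP) + (KR) + (LD) + Main ⟹ `s34w35_FrameUZ M q → s34i47_FinSupp M →
  s34i47_Core M q m` (same proof as `ca57_core`);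
* `s34w35_ChartUZ M' q` + `s34w35_frameUZ_of` : the three-package split of `Iface47c`
  (`s34i47c_Pkg_FrameSat`, `s34i47c_Pkg_FrameGal`, and (UZ) for the two charts of every admissible
  Hauptmodul) gives `s34w35_FrameUZ` at every level `M` with `q ∥ M`, `p₀ ∣ M`;
* `s34w35_FFU` : the function-field statements `s34i47_FFU M q (p ^ n)` at the auxiliary levels
  (the hypothesis `hFFU` of `s34a60_result_of_FFU`, helper60);
* `s34w35_result` : the conclusion of S34 (unipotent inertia at `q ∥ N`, `q ≠ p`).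

All names are prefixed `s34w35_`.
-/
import Fermat.Agent.S34.Iface47c
import Fermat.Agent.S34.CoreAsm57
import Fermat.Agent.S34.Asm60

set_option autoImplicit false

open ModularCurve AlgebraicCurve

namespace Fermat.Agent.S34

open Fermat.Agent.S18

local notation "Q̄" => AlgebraicClosure ℚ

/-- **FRAME with (UZ)**: the frame `s34i47_Frame M q` of `Iface47` with the local structure of
the two affine charts replaced by its only consequence used downstream, the unique-zero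
property. -/
def s34w35_FrameUZ (M q : ℕ) : Prop :=
  ∀ (R K : Type) [CommRing R] [IsDomain R] [IsDiscreteValuationRing R] [Field K] [NumberField K]
    [Algebra K Q̄] [Algebra R K] [IsFractionRing R K]
    [Algebra R ↥(modularFunctionFieldFullC K M)]
    [IsScalarTower R K ↥(modularFunctionFieldFullC K M)] (π : R), Irreducible π →
    (∀ n : ℕ, Nat.Coprime n q → IsUnit (n : R)) → ¬ IsUnit (q : R) →
    ∃ (h : ↥(modularFunctionFieldFullC K M)) (W : Subring ↥(modularFunctionFieldFullC K M)),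
      s34i47_WProps π W ∧ s34i47_ChartProps K π W h ∧
      s34i47_UniqueZero K π (pk15_chart R ({h} : Set ↥(modularFunctionFieldFullC K M))) ∧
      s34i47_UniqueZero K π (pk15_chart R ({h⁻¹} : Set ↥(modularFunctionFieldFullC K M))) ∧
      ∀ σ : K ≃+* K, s34i47_Inertial R σ →
        s34i47_GalProps π W (s34i47_coeffEquiv σ M) ∧ s34i47_coeffEquiv σ M h = h

/-- The exact route factors through the UZ-route. -/
theorem s34w35_frameUZ_of_frame (hUZ : s34i47_Pkg_UZ) (M q : ℕ) (hFrame : s34i47_Frame M q) :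
    s34w35_FrameUZ M q := by
  intro R K _ _ _ _ _ _ _ _ _ _ π hπ hunit hqR
  obtain ⟨h, W, hW, hC, hLS₁, hLS₂, hGal⟩ := hFrame R K π hπ hunit hqR
  have hC' := hC
  obtain ⟨htr, -, -, -, -, hN₁, hN₂, -, hfrac⟩ := hC'
  have hh0 : h ≠ 0 := by
    rintro rfl
    exact htr isAlgebraic_zero
  have hfrac₂ := ca57_frac_inv (R := R) h hh0 hfrac
  exact ⟨h, W, hW, hC, hUZ R K ↥(modularFunctionFieldFullC K M) π hπ _ hN₁ hfrac hLS₁,
    hUZ R K ↥(modularFunctionFieldFullC K M) π hπ _ hN₂ hfrac₂ hLS₂, hGal⟩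

/-- **CORE over the UZ-frame** (the proof of `ca57_core`, helper57, from (UZ) on). -/
theorem s34w35_core (hLP : s34i47_Pkg_LP) (hKr : s34i47_Pkg_Krull) (hLD : s34i47_Pkg_LD)
    (hMain : s34i47_Pkg_Main) (M q m : ℕ) (hm : 0 < m) (hmq : Nat.Coprime m q)
    (hFrame : s34w35_FrameUZ M q) (hFin : s34i47_FinSupp M) : s34i47_Core M q m := by
  intro R K instR instD instDVR instK instNF instQ instRK instFR instRF instST π hπ hunit hqR
    σ τ hσ hτ f hf hord hrat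
  obtain ⟨h, W, hW, hC, hUZ₁, hUZ₂, hGal⟩ := hFrame R K π hπ hunit hqR
  obtain ⟨hGσ, hσh⟩ := hGal σ hσ
  obtain ⟨hGτ, hτh⟩ := hGal τ hτ
  have hC' := hC
  obtain ⟨htr, h12W, hsat₁, hsat₂, -, hN₁, hN₂, hfin, hfrac⟩ := hC'
  have h112 : pk15_chart R ({h} : Set ↥(modularFunctionFieldFullC K M)) ≤
      pk15_chart R ({h, h⁻¹} : Set ↥(modularFunctionFieldFullC K M)) :=
    pk15_chart_mono (by simp)
  have h212 : pk15_chart R ({h⁻¹} : Set ↥(modularFunctionFieldFullC K M)) ≤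
      pk15_chart R ({h, h⁻¹} : Set ↥(modularFunctionFieldFullC K M)) :=
    pk15_chart_mono (by simp)
  -- the hypotheses on `f` in valuation-subring form
  have hOrd : s34i47_Ord π m f := ca57_ord (K := K) hπ m f hf hord
  have hRat : s34i47_Rat K π f := ca57_rat (K := K) hπ f hrat
  have hFinS : s34i47_Fin π f := ca57_fin (K := K) hπ f (hFin K f hf)
  -- (LP), (KR) on both charts
  have hLP₁ := hLP R K ↥(modularFunctionFieldFullC K M) π hπ _ m hm f hf hUZ₁ hOrd hRat hFinS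
  have hLP₂ := hLP R K ↥(modularFunctionFieldFullC K M) π hπ _ m hm f hf hUZ₂ hOrd hRat hFinS
  obtain ⟨hKr₁, hKr₂⟩ :=
    hKr R K ↥(modularFunctionFieldFullC K M) π hπ h htr hN₁ hN₂ hfin hfrac
  -- the charts are stable under the two automorphisms
  have hs₁ : ∀ ρ : ↥(modularFunctionFieldFullC K M) ≃+* ↥(modularFunctionFieldFullC K M),
      ρ h = h → ∀ x ∈ ({h} : Set ↥(modularFunctionFieldFullC K M)),
        ρ x ∈ ({h} : Set ↥(modularFunctionFieldFullC K M)) := by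
    intro ρ hρ x hx
    rw [Set.mem_singleton_iff] at hx ⊢
    rw [hx, hρ]
  have hs₂ : ∀ ρ : ↥(modularFunctionFieldFullC K M) ≃+* ↥(modularFunctionFieldFullC K M),
      ρ h = h → ∀ x ∈ ({h⁻¹} : Set ↥(modularFunctionFieldFullC K M)),
        ρ x ∈ ({h⁻¹} : Set ↥(modularFunctionFieldFullC K M)) := by
    intro ρ hρ x hx
    rw [Set.mem_singleton_iff] at hx ⊢
    rw [hx, map_inv₀, hρ]
  have hσB₁ := ca57_chart_map (s34i47_coeffEquiv σ M) hGσ.1 _ (hs₁ _ hσh)
  have hτB₁ := ca57_chart_map (s34i47_coeffEquiv τ M) hGτ.1 _ (hs₁ _ hτh)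
  have hσB₂ := ca57_chart_map (s34i47_coeffEquiv σ M) hGσ.1 _ (hs₂ _ hσh)
  have hτB₂ := ca57_chart_map (s34i47_coeffEquiv τ M) hGτ.1 _ (hs₂ _ hτh)
  -- the local datum on both charts
  have hLD₁ := hLD R K ↥(modularFunctionFieldFullC K M) π hπ m hm W _
    (s34i47_coeffEquiv σ M) (s34i47_coeffEquiv τ M) f hf hW.1
    (fun x hx => h12W x (h112 hx)) hsat₁ hGσ hGτ hσB₁ hτB₁ hKr₁ hLP₁
  have hLD₂ := hLD R K ↥(modularFunctionFieldFullC K M) π hπ m hm W _
    (s34i47_coeffEquiv σ M) (s34i47_coeffEquiv τ M) f hf hW.1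
    (fun x hx => h12W x (h212 hx)) hsat₂ hGσ hGτ hσB₂ hτB₂ hKr₂ hLP₂
  -- the nodal two-chart lemma
  have hu := ca57_dd_cong W (s34i47_coeffEquiv σ M) (s34i47_coeffEquiv τ M) hGσ hGτ f hf
  obtain ⟨f₀, c, hf₀, hfc⟩ := hMain R K ↥(modularFunctionFieldFullC K M) π hπ m hm
    (hunit m hmq) (cap87_algClosed_in (modularFunctionFieldFullC K M)) W h hW hC _ hu hLD₁ hLD₂
  refine ⟨f₀, algebraMap R K c, hf₀, ?_, ?_⟩
  · intro h0
    have h1 : f₀ ^ m * s34i47_dd (s34i47_coeffEquiv σ M) (s34i47_coeffEquiv τ M) f = 0 := by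
      rw [hfc, IsScalarTower.algebraMap_apply R K ↥(modularFunctionFieldFullC K M), h0, map_zero]
    rcases mul_eq_zero.mp h1 with h2 | h2
    · exact hf₀ (pow_eq_zero_iff (Nat.pos_iff_ne_zero.mp hm) |>.mp h2)
    · exact ca57_dd_ne_zero _ _ f hf h2
  · rw [hfc, IsScalarTower.algebraMap_apply R K ↥(modularFunctionFieldFullC K M)]

/-- **CHART-UZ** at level `M' * q`: the unique-zero property of the two affine charts of every
admissible Hauptmodul (the only output of the local structure used downstream). -/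
def s34w35_ChartUZ (M' q : ℕ) [NeZero M'] [NeZero q] : Prop :=
  ∀ (R K : Type) [CommRing R] [IsDomain R] [IsDiscreteValuationRing R] [Field K] [NumberField K]
    [Algebra K Q̄] [Algebra R K] [IsFractionRing R K]
    [Algebra R ↥(modularFunctionFieldFullC K (M' * q))]
    [IsScalarTower R K ↥(modularFunctionFieldFullC K (M' * q))] (π : R), Irreducible π →
    (∀ n : ℕ, Nat.Coprime n q → IsUnit (n : R)) → ¬ IsUnit (q : R) →
    ∀ h : ↥(modularFunctionFieldFullC K (M' * q)), s34i47c_IsHaupt K (M' * q) q h →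
      s34i47_UniqueZero K π
        (pk15_chart R ({h} : Set ↥(modularFunctionFieldFullC K (M' * q)))) ∧
      s34i47_UniqueZero K π
        (pk15_chart R ({h⁻¹} : Set ↥(modularFunctionFieldFullC K (M' * q))))

/-- Package statement for CHART-UZ. -/
def s34w35_Pkg_ChartUZ : Prop :=
  ∀ (M' q : ℕ) [NeZero M'] [NeZero q], q.Prime → ¬ q ∣ M' → s34w35_ChartUZ M' q

/-- The exact route gives CHART-UZ: `s34i47c_Pkg_FrameLS` + `s34i47_Pkg_UZ` (+ the chart facts
of `s34i47c_Pkg_FrameSat`). -/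
theorem s34w35_chartUZ_of_LS (hUZ : s34i47_Pkg_UZ) (hSat : s34i47c_Pkg_FrameSat)
    (hLS : s34i47c_Pkg_FrameLS) : s34w35_Pkg_ChartUZ := by
  intro M' q _ _ hq hqM' R K _ _ _ _ _ _ _ _ _ _ π hπ hunit hqR h hh
  obtain ⟨-, hC⟩ := hSat M' q hq hqM' R K π hπ hunit hqR
  obtain ⟨hLS₁, hLS₂⟩ := hLS M' q hq hqM' R K π hπ hunit hqR h hh
  obtain ⟨htr, -, -, -, -, hN₁, hN₂, -, hfrac⟩ := hC h hh
  have hh0 : h ≠ 0 := by
    rintro rfl
    exact htr isAlgebraic_zero
  have hfrac₂ := ca57_frac_inv (R := R) h hh0 hfrac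
  exact ⟨hUZ R K ↥(modularFunctionFieldFullC K (M' * q)) π hπ _ hN₁ hfrac hLS₁,
    hUZ R K ↥(modularFunctionFieldFullC K (M' * q)) π hπ _ hN₂ hfrac₂ hLS₂⟩

/-- **UZ-FRAME from three packages**: FRAME-SAT, FRAME-GAL (`Iface47c`) and CHART-UZ give the
UZ-frame at every level `M` with `q ∥ M` and `p₀ ∣ M`, `p₀ ∈ {2, 3}`, `p₀ ≠ q`. -/
theorem s34w35_frameUZ_of (hSat : s34i47c_Pkg_FrameSat) (hGal : s34i47c_Pkg_FrameGal)
    (hCU : s34w35_Pkg_ChartUZ) (M q p₀ : ℕ) (hq : q.Prime) (hqM : q ∣ M) (hq2 : ¬ q ^ 2 ∣ M)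
    (hp₀ : p₀ = 2 ∨ p₀ = 3) (hp₀q : p₀ ≠ q) (hp₀M : p₀ ∣ M) : s34w35_FrameUZ M q := by
  obtain ⟨M', rfl⟩ := hqM
  have hM'0 : M' ≠ 0 := by
    rintro rfl
    exact hq2 (by simp)
  have hqM' : ¬ q ∣ M' := by
    rintro ⟨c, rfl⟩
    exact hq2 ⟨c, by ring⟩
  have : NeZero M' := ⟨hM'0⟩
  have : NeZero q := ⟨hq.ne_zero⟩
  rw [Nat.mul_comm q M'] at hp₀M ⊢
  intro R K _ _ _ _ _ _ _ _ _ _ π hπ hunit hqR
  obtain ⟨h, hh⟩ : ∃ h : ↥(modularFunctionFieldFullC K (M' * q)),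
      s34i47c_IsHaupt K (M' * q) q h := by
    rcases hp₀ with rfl | rfl
    · exact ⟨pk85_h2 K (M' * q) hp₀M, Or.inl ⟨Ne.symm hp₀q, hp₀M, rfl⟩⟩
    · exact ⟨pk85_h3 K (M' * q) hp₀M, Or.inr ⟨Ne.symm hp₀q, hp₀M, rfl⟩⟩
  obtain ⟨hW, hC⟩ := hSat M' q hq hqM' R K π hπ hunit hqR
  obtain ⟨hUZ₁, hUZ₂⟩ := hCU M' q hq hqM' R K π hπ hunit hqR h hh
  refine ⟨h, s34i47c_W (K := K) M' q hq hqM' hπ, hW, hC h hh, hUZ₁, hUZ₂, ?_⟩
  intro σ hσ
  obtain ⟨hG, hfix⟩ := hGal M' q hq hqM' R K π hπ hunit hqR σ hσ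
  exact ⟨hG, hfix h hh⟩

/-- **The function-field statements at the auxiliary levels** (the hypothesis `hFFU` of
`s34a60_result_of_FFU`) from the UZ-route packages. -/
theorem s34w35_FFU (hLP : s34i47_Pkg_LP) (hKr : s34i47_Pkg_Krull) (hLD : s34i47_Pkg_LD)
    (hMain : s34i47_Pkg_Main) (hFin : s34i47_Pkg_Fin) (hFD : s34i47_Pkg_FieldDef)
    (hSat : s34i47c_Pkg_FrameSat) (hGal : s34i47c_Pkg_FrameGal) (hCU : s34w35_Pkg_ChartUZ)
    {p q : ℕ} (hp : p.Prime) (hq : q.Prime) (hqp : q ≠ p)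
    (M p₀ : ℕ) (hM : NeZero M) (h23 : p₀ = 2 ∨ p₀ = 3) (hp₀q : p₀ ≠ q) (hp₀M : p₀ ∣ M)
    (hqM : q ∣ M) (hq2M : ¬ q ^ 2 ∣ M) (n : ℕ) : s34i47_FFU M q (p ^ n) := by
  have hcop : Nat.Coprime (p ^ n) q :=
    Nat.Coprime.pow_left n ((Nat.coprime_primes hp hq).mpr (Ne.symm hqp))
  exact hFD M q (p ^ n) hM hq (pow_pos hp.pos n)
    (s34w35_core hLP hKr hLD hMain M q (p ^ n) (pow_pos hp.pos n) hcop
      (s34w35_frameUZ_of hSat hGal hCU M q p₀ hq hqM hq2M h23 hp₀q hp₀M) (hFin M hM))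

section Main

variable {p : ℕ} {N : ℕ} [NeZero N] {S : Finset ℕ}
  {𝒪 : Type} [CommRing 𝒪] [IsDomain 𝒪] [IsDiscreteValuationRing 𝒪]
  [IsAdicComplete (IsLocalRing.maximalIdeal 𝒪) 𝒪]
  {θ : CuspForm.heckeAlgebra N 2 (↑S : Set ℕ) →+* IsLocalRing.ResidueField 𝒪}
  {T : Type} [CommRing T] [IsLocalRing T] [IsNoetherianRing T]
  [IsAdicComplete (IsLocalRing.maximalIdeal T) T] [Algebra 𝒪 T] [IsLocalHom (algebraMap 𝒪 T)]
  [Module.Finite 𝒪 T] [Module.Free 𝒪 T]

/-- **S34 from the UZ-route packages**: (LP), (KR), (LD), Main, FIN, field of definition,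
FRAME-SAT, FRAME-GAL and CHART-UZ give unipotent inertia at `q ∥ N`, `q ≠ p`. -/
theorem s34w35_result (hLP : s34i47_Pkg_LP) (hKr : s34i47_Pkg_Krull) (hLD : s34i47_Pkg_LD)
    (hMain : s34i47_Pkg_Main) (hFin : s34i47_Pkg_Fin) (hFD : s34i47_Pkg_FieldDef)
    (hSat : s34i47c_Pkg_FrameSat) (hGal : s34i47c_Pkg_FrameGal) (hCU : s34w35_Pkg_ChartUZ)
    (hp : p.Prime) (hp𝒪 : (p : 𝒪) ∈ IsLocalRing.maximalIdeal 𝒪) (hpS : p ∈ S)
    (hNS : ∀ q : ℕ, q.Prime → q ∣ N → q ∈ S)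
    (H : CuspForm.HeckeGaloisRepDatum N (↑S : Set ℕ) 𝒪 θ T)
    (q : ℕ) (hq : q.Prime) (hqp : q ≠ p) (hqN : q ∣ N) (hq2 : ¬ q ^ 2 ∣ N) :
    H.ρ.IsUnipotentOnInertiaAt q :=
  s34a60_result_of_FFU hp hp𝒪 hpS hNS H q hq hqp hqN hq2
    (fun M p₀ hM h23 hp₀q hp₀M hqM hq2M n =>
      s34w35_FFU hLP hKr hLD hMain hFin hFD hSat hGal hCU hp hq hqp M p₀ hM h23 hp₀q hp₀M
        hqM hq2M n)

end Main

end Fermat.Agent.S34
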