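import Mathlib

/-!
# S34 lab, row P3c (helper22): cusps are not nodes, abstract form on the `T`-route

Mathlib only.  `F` a field, `B` a commutative ring with `[Algebra B F]` which is integrally closed
in `F` (a chart), `n` a prime of `B`.  `j`, `y` in `F` (`j = j(τ)`, `y = j(qτ)`), and the point `n`
is *cuspidal*: `j * a₀ = c₀` with `a₀ ∈ n`, `c₀ ∉ n` (so `J := 1/j` is regular and vanishes at `n`).

The only arithmetic input: `T := y / j ^ q` is integral over `ℤ[J]`, in the form of a monic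
`Ψ ∈ ℤ[Y][X]` with `Ψ(T, J) = 0` (`cs22_T_integral` of `CuspSep22`).

* `ca22_clear`    : `c₀ ^ N * ψ(a₀ / c₀) ∈ B` for `ψ ∈ ℤ[Y]` of degree `≤ N`;
* `ca22_exists_E` : `T` lies in `B_n`: there are `s ∉ n` and `E ∈ B` with `E = s * T`;
* `ca22_not_node` : if `V₁`, `V₂` are valuation subrings of `F` containing `B`, with `j` a unit of
  both, `j ^ q - y ∈ m_{V₁}` (Kronecker) and `y ^ q - j ∈ m_{V₂}` (its Atkin–Lehner transport), then
  the centres of `V₁` and `V₂` on `B` are not both contained in `n`.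
  (On `V₁`: `T ≡ 1`.  On `V₂`: `T ^ q ≡ J ^ (q ^ 2 - 1) ≡ 0`.)
* `ca22_regular_or_cusp` : bookkeeping for the chart dichotomy (3d).
-/

set_option autoImplicit false

namespace Fermat.Agent.S34

open Polynomial

section CuspAbs

variable {F : Type*} [Field F] {B : Type*} [CommRing B] [Algebra B F]

/-- Clearing denominators: `c₀ ^ N * ψ(J) ∈ B` when `J = a₀ / c₀` and `deg ψ ≤ N`. -/
theorem ca22_clear (a₀ c₀ : B) (J : F)
    (hJ : J * algebraMap B F c₀ = algebraMap B F a₀) (ψ : Polynomial ℤ) (N : ℕ)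
    (hN : ψ.natDegree ≤ N) :
    ∃ b : B, algebraMap B F b = algebraMap B F c₀ ^ N * eval₂ (Int.castRingHom F) J ψ := by
  refine ⟨∑ i ∈ Finset.range (ψ.natDegree + 1), (ψ.coeff i : B) * a₀ ^ i * c₀ ^ (N - i), ?_⟩
  rw [eval₂_eq_sum_range, map_sum, Finset.mul_sum]
  refine Finset.sum_congr rfl fun i hi => ?_
  have hi' : i ≤ N := (Nat.lt_succ_iff.mp (Finset.mem_range.mp hi)).trans hN
  have h1 : algebraMap B F c₀ ^ N = algebraMap B F c₀ ^ (N - i) * algebraMap B F c₀ ^ i := by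
    rw [← pow_add, Nat.sub_add_cancel hi']
  rw [map_mul, map_mul, map_pow, map_pow, map_intCast, eq_intCast, ← hJ, h1, mul_pow]
  ring

/-- **Integrality of the separating function.**  If `T` satisfies a monic equation over `ℤ[J]`
and `J = a₀ / c₀` with `c₀ ∉ n`, then `T ∈ B_n`. -/
theorem ca22_exists_E (hBcl : ∀ x : F, IsIntegral B x → ∃ b : B, algebraMap B F b = x)
    (n : Ideal B) [hn : n.IsPrime] (J T : F) (a₀ c₀ : B) (hc₀ : c₀ ∉ n)
    (hJ : J * algebraMap B F c₀ = algebraMap B F a₀)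
    (Ψ : Polynomial (Polynomial ℤ)) (hΨ : Ψ.Monic)
    (hroot : Ψ.eval₂ (eval₂RingHom (Int.castRingHom F) J) T = 0) :
    ∃ s E : B, s ∉ n ∧ algebraMap B F E = algebraMap B F s * T := by
  classical
  set d := Ψ.natDegree with hd
  set N := (Finset.range (d + 1)).sup (fun i => (Ψ.coeff i).natDegree) with hNdef
  have hN : ∀ i ∈ Finset.range (d + 1), (Ψ.coeff i).natDegree ≤ N := fun i hi =>
    Finset.le_sup (f := fun i => (Ψ.coeff i).natDegree) hi
  have hex : ∀ i : ℕ, ∃ b : B, i ∈ Finset.range (d + 1) →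
      algebraMap B F b = algebraMap B F c₀ ^ N * eval₂ (Int.castRingHom F) J (Ψ.coeff i) := by
    intro i
    by_cases hi : i ∈ Finset.range (d + 1)
    · obtain ⟨b, hb⟩ := ca22_clear a₀ c₀ J hJ (Ψ.coeff i) N (hN i hi)
      exact ⟨b, fun _ => hb⟩
    · exact ⟨0, fun h => absurd h hi⟩
  choose b hb using hex
  have hsn : c₀ ^ N ∉ n := fun h => hc₀ (hn.mem_of_pow_mem _ h)
  have hs0 : c₀ ^ N ≠ 0 := fun h0 => hsn (h0 ▸ n.zero_mem)
  set Rm : Polynomial B := ∑ i ∈ Finset.range d, C (b i) * X ^ i with hRm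
  set P : Polynomial B := Rm + C (c₀ ^ N) * X ^ d with hP
  have hRdeg : Rm.degree < (C (c₀ ^ N) * X ^ d : Polynomial B).degree := by
    rw [degree_C_mul_X_pow d hs0]
    refine (degree_sum_le _ _).trans_lt ?_
    refine (Finset.sup_lt_iff (WithBot.bot_lt_coe d)).2 ?_
    intro k hk
    exact (degree_C_mul_X_pow_le k _).trans_lt (WithBot.coe_lt_coe.2 (Finset.mem_range.1 hk))
  have hlead : P.leadingCoeff = c₀ ^ N := by
    rw [hP, leadingCoeff_add_of_degree_lt hRdeg, leadingCoeff_C_mul_X_pow]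
  have haev : aeval T P = 0 := by
    have h1 : aeval T P = algebraMap B F c₀ ^ N *
        Ψ.eval₂ (eval₂RingHom (Int.castRingHom F) J) T := by
      rw [eval₂_eq_sum_range, ← hd, Finset.sum_range_succ, mul_add, Finset.mul_sum, hP, hRm,
        map_add, map_sum]
      congr 1
      · refine Finset.sum_congr rfl fun i hi => ?_
        have hi' : i ∈ Finset.range (d + 1) :=
          Finset.mem_range.mpr ((Finset.mem_range.mp hi).trans (Nat.lt_succ_self d))
        rw [map_mul, aeval_C, map_pow, aeval_X, hb i hi', coe_eval₂RingHom, mul_assoc]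
      · have hcoeff : Ψ.coeff d = 1 := hΨ.coeff_natDegree
        rw [map_mul, aeval_C, map_pow, map_pow, aeval_X, hcoeff, map_one, one_mul]
    rw [h1, hroot, mul_zero]
  have hint : IsIntegral B (P.leadingCoeff • T) := isIntegral_leadingCoeff_smul P T haev
  rw [hlead] at hint
  obtain ⟨E, hE⟩ := hBcl _ hint
  exact ⟨c₀ ^ N, E, hsn, by rw [hE, Algebra.smul_def]⟩

/-- **Cusps are not nodes (abstract form, `T`-route).**  The centres of `V₁` and `V₂` on `B` are
not both contained in the cuspidal prime `n`. -/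
theorem ca22_not_node (hBcl : ∀ x : F, IsIntegral B x → ∃ b : B, algebraMap B F b = x)
    (n : Ideal B) [hn : n.IsPrime] (q : ℕ) (hq : 2 ≤ q) (j y : F)
    (a₀ c₀ : B) (ha₀ : a₀ ∈ n) (hc₀ : c₀ ∉ n)
    (hs : j * algebraMap B F a₀ = algebraMap B F c₀)
    (Ψ : Polynomial (Polynomial ℤ)) (hΨ : Ψ.Monic)
    (hroot : Ψ.eval₂ (eval₂RingHom (Int.castRingHom F) j⁻¹) (y * j⁻¹ ^ q) = 0)
    (V₁ V₂ : ValuationSubring F) (hBV₁ : ∀ x : B, algebraMap B F x ∈ V₁)
    (hBV₂ : ∀ x : B, algebraMap B F x ∈ V₂)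
    (hj₁ : V₁.valuation j = 1) (hk₁ : V₁.valuation (j ^ q - y) < 1)
    (hj₂ : V₂.valuation j = 1) (hk₂ : V₂.valuation (y ^ q - j) < 1)
    (hc₁ : ∀ x : B, V₁.valuation (algebraMap B F x) < 1 → x ∈ n)
    (hc₂ : ∀ x : B, V₂.valuation (algebraMap B F x) < 1 → x ∈ n) : False := by
  have hj0 : j ≠ 0 := by
    intro h0
    rw [h0, map_zero] at hj₁
    exact zero_ne_one hj₁
  have hJ : j⁻¹ * algebraMap B F c₀ = algebraMap B F a₀ := by
    rw [← hs, ← mul_assoc, inv_mul_cancel₀ hj0, one_mul]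
  obtain ⟨s, E, hsn, hE⟩ := ca22_exists_E hBcl n j⁻¹ (y * j⁻¹ ^ q) a₀ c₀ hc₀ hJ Ψ hΨ hroot
  obtain ⟨m, hm⟩ : ∃ m : ℕ, m + 1 = q * q - 1 := ⟨q * q - 2, by
    have : 4 ≤ q * q := by nlinarith
    omega⟩
  have hqq : q * q = m + 2 := by
    have : 4 ≤ q * q := by nlinarith
    omega
  -- the branch `V₁`: `s - E ∈ n`
  have h1 : s - E ∈ n := by
    apply hc₁
    have hX : algebraMap B F (s - E) = algebraMap B F s * (j⁻¹ ^ q * (j ^ q - y)) := by
      rw [map_sub, hE]
      have : j⁻¹ ^ q * j ^ q = 1 := by rw [← mul_pow, inv_mul_cancel₀ hj0, one_pow]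
      linear_combination (-(algebraMap B F s)) * this
    have hv : V₁.valuation (j⁻¹ ^ q * (j ^ q - y)) = V₁.valuation (j ^ q - y) := by
      rw [Valuation.map_mul, Valuation.map_pow, map_inv₀, hj₁, inv_one, one_pow, one_mul]
    rw [hX, Valuation.map_mul, hv]
    have hle : V₁.valuation (algebraMap B F s) ≤ 1 := (V₁.valuation_le_one_iff _).mpr (hBV₁ s)
    calc V₁.valuation (algebraMap B F s) * V₁.valuation (j ^ q - y)
        ≤ 1 * V₁.valuation (j ^ q - y) := by gcongr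
      _ = V₁.valuation (j ^ q - y) := one_mul _
      _ < 1 := hk₁
  -- the branch `V₂`: `E ∈ n`
  have h2 : E ∈ n := by
    have hmem : c₀ ^ (m + 1) * E ^ q - s ^ q * a₀ ^ (m + 1) ∈ n := by
      apply hc₂
      have hX : algebraMap B F (c₀ ^ (m + 1) * E ^ q - s ^ q * a₀ ^ (m + 1)) =
          algebraMap B F (s ^ q * c₀ ^ (m + 1)) * (j⁻¹ ^ (m + 2) * (y ^ q - j)) := by
        rw [map_sub, map_mul, map_mul, map_pow, map_pow, map_pow, map_pow, hE, ← hJ, map_mul,
          map_pow, map_pow]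
        have e1 : (j⁻¹ ^ q) ^ q = j⁻¹ ^ (m + 2) := by rw [← pow_mul, hqq]
        have e2 : j⁻¹ ^ (m + 2) * j = j⁻¹ ^ (m + 1) := by
          rw [pow_succ, mul_assoc, inv_mul_cancel₀ hj0, mul_one]
        rw [mul_pow, mul_pow, mul_pow, e1]
        linear_combination (algebraMap B F s ^ q * algebraMap B F c₀ ^ (m + 1)) * e2
      have hv : V₂.valuation (j⁻¹ ^ (m + 2) * (y ^ q - j)) = V₂.valuation (y ^ q - j) := by
        rw [Valuation.map_mul, Valuation.map_pow, map_inv₀, hj₂, inv_one, one_pow, one_mul]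
      rw [hX, Valuation.map_mul, hv]
      have hle : V₂.valuation (algebraMap B F (s ^ q * c₀ ^ (m + 1))) ≤ 1 :=
        (V₂.valuation_le_one_iff _).mpr (hBV₂ _)
      calc V₂.valuation (algebraMap B F (s ^ q * c₀ ^ (m + 1))) * V₂.valuation (y ^ q - j)
          ≤ 1 * V₂.valuation (y ^ q - j) := by gcongr
        _ = V₂.valuation (y ^ q - j) := one_mul _
        _ < 1 := hk₂
    have h3 : c₀ ^ (m + 1) * E ^ q ∈ n := by
      have h4 : c₀ ^ (m + 1) * E ^ q =
          (c₀ ^ (m + 1) * E ^ q - s ^ q * a₀ ^ (m + 1)) + s ^ q * a₀ ^ (m + 1) := by ring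
      rw [h4]
      exact Ideal.add_mem _ hmem
        (Ideal.mul_mem_left _ _ (Ideal.pow_mem_of_mem _ ha₀ _ (Nat.succ_pos m)))
    have hcm : c₀ ^ (m + 1) ∉ n := fun h => hc₀ (hn.mem_of_pow_mem _ h)
    exact hn.mem_of_pow_mem _ ((hn.mem_or_mem h3).resolve_left hcm)
  apply hsn
  have h3 : s = (s - E) + E := by ring
  rw [h3]
  exact Ideal.add_mem _ h1 h2

/-- Chart dichotomy, bookkeeping form: if `j * a = c` with `a, c ∈ B` and `c ∉ n` whenever
`a ∈ n`, then `j` is regular at `n` or `n` is cuspidal. -/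
theorem ca22_regular_or_cusp (n : Ideal B) (j : F) (a c : B)
    (hs : j * algebraMap B F a = algebraMap B F c) (hac : a ∈ n → c ∉ n) :
    (∃ s b : B, s ∉ n ∧ algebraMap B F s * j = algebraMap B F b) ∨
      (∃ a₀ c₀ : B, a₀ ∈ n ∧ c₀ ∉ n ∧ j * algebraMap B F a₀ = algebraMap B F c₀) := by
  by_cases ha : a ∈ n
  · exact Or.inr ⟨a, c, ha, hac ha, hs⟩
  · exact Or.inl ⟨a, c, ha, by rw [mul_comm]; exact hs⟩

end CuspAbs

end Fermat.Agent.S34
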