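import Mathlib

/-!
# S34 lab, step (3c) (helper53): cuspidal closed points are not nodes, without the `Δ`-quotient

Abstract, Mathlib-only.  Notation of the lab: `j = α j`, `y = β j = j(Q^q)`, `h` the chart
coordinate (the Hauptmodul of level `p0` or its inverse), `j * h ^ a = D(h)` with `D ∈ R[h]`
a unit at the cusp, `V₁ = V_∞`, `V₂ = V_0`, `B` the chart (the integral closure of `R[h]`), `n` a
closed point of `B` with `h ∈ n` (a cusp).

* `cn53_bev f x y Φ` : evaluation of `Φ ∈ A[Y][X]` at `X = x` (outer variable), `Y = y` (inner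
  variable) through `f : A →+* F`; for `A = ℤ` this is `es87_biEval Φ x y` of S37.
* `cn53_swap_deg`, `cn53_hdeg` : if `Φ` is monic of degree `d` in `X`, `Φ(x, y) = 0 = Φ(y, x)` and
  no nonzero polynomial of `X`-degree `< d` vanishes at `(x, y)`, then `swap Φ = c Φ`; hence the
  coefficient of `X ^ i` has `Y`-degree `≤ d - 1` for `i ≥ 1` and `≤ d` for `i = 0`, in particular
  `≤ (d - i) * (d - 1)` for all `i` (if `d ≥ 2`).
* `cn53_integral` : if `Φ(x, j) = 0`, `Φ` monic in `X` with `deg_Y (coeff of X ^ i) ≤ (d - i) * q`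
  and `j * h ^ a = D ∈ R[h]`, then `x * h ^ (a * q)` is integral over `R[h]`.
* `cn53_not_node` : a prime `n` of `B` containing `B ∩ m_{V₁}`, `B ∩ m_{V₂}` and `h`, with
  `D ∉ n`, `y - j ^ q ∈ m_{V₁}`, `y ^ q - j ∈ m_{V₂}` and `y * h ^ (a * q) ∈ B`, does not exist.
* `cn53_hmin` : the minimality hypothesis of `cn53_swap_deg` from `j` transcendental and the
  degree of `y` over `K(j)`.
-/

set_option autoImplicit false

open Polynomial

namespace Fermat.Agent.S34

/-! ### Two-variable evaluation and the swap -/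

section bev

variable {A F : Type*} [CommRing A] [CommRing F]

/-- Evaluation of `Φ ∈ A[Y][X]` at `X = x` (outer variable), `Y = y` (inner variable). -/
noncomputable def cn53_bev (f : A →+* F) (x y : F) : Polynomial (Polynomial A) →+* F :=
  Polynomial.eval₂RingHom (Polynomial.eval₂RingHom f y) x

theorem cn53_bev_apply (f : A →+* F) (x y : F) (Φ : Polynomial (Polynomial A)) :
    cn53_bev f x y Φ = Φ.eval₂ (Polynomial.eval₂RingHom f y) x := rfl

theorem cn53_bev_monomial (f : A →+* F) (x y : F) (n m : ℕ) (r : A) :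
    cn53_bev f x y (monomial n (monomial m r)) = f r * y ^ m * x ^ n := by
  rw [cn53_bev_apply, eval₂_monomial, coe_eval₂RingHom, eval₂_monomial]

/-- Evaluating `swap Φ` at `(x, y)` is evaluating `Φ` at `(y, x)`. -/
theorem cn53_bev_swap (f : A →+* F) (x y : F) (Φ : Polynomial (Polynomial A)) :
    cn53_bev f x y (Polynomial.Bivariate.swap Φ) = cn53_bev f y x Φ := by
  induction Φ using Polynomial.induction_on' with
  | add p q hp hq => rw [map_add, map_add, map_add, hp, hq]
  | monomial n c =>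
    induction c using Polynomial.induction_on' with
    | add p q hp hq =>
      rw [map_add, map_add, map_add, map_add, hp, hq]
    | monomial m r =>
      rw [Polynomial.Bivariate.swap_monomial_monomial, cn53_bev_monomial, cn53_bev_monomial]
      ring

/-- Coefficients of the swap. -/
theorem cn53_coeff_swap (Φ : Polynomial (Polynomial A)) (m i : ℕ) :
    ((Polynomial.Bivariate.swap Φ).coeff m).coeff i = (Φ.coeff i).coeff m := by
  induction Φ using Polynomial.induction_on' with
  | add p q hp hq => rw [map_add, coeff_add, coeff_add, coeff_add, coeff_add, hp, hq]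
  | monomial n c =>
    induction c using Polynomial.induction_on' with
    | add p q hp hq =>
      rw [map_add, map_add, coeff_add, coeff_add, coeff_add, coeff_add, hp, hq]
    | monomial k r =>
      rw [Polynomial.Bivariate.swap_monomial_monomial]
      by_cases h1 : k = m <;> by_cases h2 : n = i <;> simp [coeff_monomial, h1, h2]

end bev

/-! ### (ii) The degree bound from the two modular relations -/

section swapdeg

variable {A F : Type*} [CommRing A] [IsDomain A] [CommRing F]

/-- If `Φ ∈ A[Y][X]` is monic of degree `d ≥ 1` in `X`, `Φ(x, y) = 0 = Φ(y, x)`, and no nonzero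
polynomial of `X`-degree `< d` vanishes at `(x, y)`, then `swap Φ = Φ * c` for a constant `c`. -/
theorem cn53_swap_eq (f : A →+* F) (x y : F) (Φ : Polynomial (Polynomial A)) (hΦ : Φ.Monic)
    (hd1 : 1 ≤ Φ.natDegree) (h1 : cn53_bev f x y Φ = 0) (h2 : cn53_bev f y x Φ = 0)
    (hmin : ∀ P : Polynomial (Polynomial A), P.natDegree < Φ.natDegree →
      cn53_bev f x y P = 0 → P = 0) :
    ∃ c : A, Polynomial.Bivariate.swap Φ = Φ * C (C c) := by
  set Φ' := Polynomial.Bivariate.swap Φ with hΦ'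
  have hs : cn53_bev f x y Φ' = 0 := by rw [hΦ', cn53_bev_swap]; exact h2
  have hΦ1 : Φ ≠ 1 := by
    intro h
    rw [h, natDegree_one] at hd1
    omega
  have hr : Φ' %ₘ Φ = 0 := by
    apply hmin
    · exact natDegree_modByMonic_lt _ hΦ hΦ1
    · have h3 := modByMonic_add_div Φ' Φ
      have e : Φ' %ₘ Φ = Φ' - Φ * (Φ' /ₘ Φ) := eq_sub_of_add_eq h3
      rw [e, map_sub, map_mul, hs, h1, zero_mul, sub_zero]
  obtain ⟨G, hG⟩ : Φ ∣ Φ' := (modByMonic_eq_zero_iff_dvd hΦ).mp hr
  have hΦ0 : Φ ≠ 0 := hΦ.ne_zero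
  have hGG : G * Polynomial.Bivariate.swap G = 1 := by
    have h4 : Φ * 1 = Φ * (G * Polynomial.Bivariate.swap G) := by
      have h5 : Polynomial.Bivariate.swap Φ' = Φ := Polynomial.Bivariate.swap_swap_apply Φ
      calc Φ * 1 = Polynomial.Bivariate.swap Φ' := by rw [mul_one, h5]
        _ = Polynomial.Bivariate.swap Φ * Polynomial.Bivariate.swap G := by rw [hG, map_mul]
        _ = Φ * G * Polynomial.Bivariate.swap G := by rw [← hΦ', hG]
        _ = Φ * (G * Polynomial.Bivariate.swap G) := by ring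
    exact (mul_left_cancel₀ hΦ0 h4).symm
  have hGu : IsUnit G := IsUnit.of_mul_eq_one _ hGG
  obtain ⟨g, hgu, rfl⟩ := Polynomial.isUnit_iff.mp hGu
  obtain ⟨c, -, rfl⟩ := Polynomial.isUnit_iff.mp hgu
  exact ⟨c, hG⟩

/-- **Degree bound.** Under the hypotheses of `cn53_swap_eq`, the coefficient of `X ^ i` of `Φ`
has `Y`-degree `≤ d`, and `≤ d - 1` for `i ≥ 1`. -/
theorem cn53_swap_deg (f : A →+* F) (x y : F) (Φ : Polynomial (Polynomial A)) (hΦ : Φ.Monic)
    (hd1 : 1 ≤ Φ.natDegree) (h1 : cn53_bev f x y Φ = 0) (h2 : cn53_bev f y x Φ = 0)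
    (hmin : ∀ P : Polynomial (Polynomial A), P.natDegree < Φ.natDegree →
      cn53_bev f x y P = 0 → P = 0) :
    (∀ i, (Φ.coeff i).natDegree ≤ Φ.natDegree) ∧
      ∀ i, 1 ≤ i → (Φ.coeff i).natDegree ≤ Φ.natDegree - 1 := by
  obtain ⟨c, hc⟩ := cn53_swap_eq f x y Φ hΦ hd1 h1 h2 hmin
  have hcoef : ∀ m i, (Φ.coeff i).coeff m = ((Φ * C (C c)).coeff m).coeff i := by
    intro m i
    rw [← hc, cn53_coeff_swap]
  constructor
  · intro i
    rw [natDegree_le_iff_coeff_eq_zero]
    intro m hm
    rw [hcoef, coeff_mul_C, coeff_eq_zero_of_natDegree_lt hm, zero_mul, coeff_zero]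
  · intro i hi
    rw [natDegree_le_iff_coeff_eq_zero]
    intro m hm
    rcases (show Φ.natDegree ≤ m by omega).eq_or_lt with rfl | hlt
    · rw [hcoef, coeff_mul_C, hΦ.coeff_natDegree, one_mul, coeff_C, if_neg (by omega)]
    · rw [hcoef, coeff_mul_C, coeff_eq_zero_of_natDegree_lt hlt, zero_mul, coeff_zero]

/-- The degree bound in the shape consumed by `cn53_integral` (with `q = d - 1`). -/
theorem cn53_hdeg (f : A →+* F) (x y : F) (Φ : Polynomial (Polynomial A)) (hΦ : Φ.Monic)
    (hd2 : 2 ≤ Φ.natDegree) (h1 : cn53_bev f x y Φ = 0) (h2 : cn53_bev f y x Φ = 0)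
    (hmin : ∀ P : Polynomial (Polynomial A), P.natDegree < Φ.natDegree →
      cn53_bev f x y P = 0 → P = 0) (i : ℕ) :
    (Φ.coeff i).natDegree ≤ (Φ.natDegree - i) * (Φ.natDegree - 1) := by
  obtain ⟨hA, hB⟩ := cn53_swap_deg f x y Φ hΦ (by omega) h1 h2 hmin
  rcases Nat.eq_zero_or_pos i with rfl | hi
  · refine (hA 0).trans ?_
    rw [Nat.sub_zero]
    exact Nat.le_mul_of_pos_right _ (by omega)
  · rcases lt_or_ge i Φ.natDegree with hlt | hge
    · refine (hB i hi).trans ?_
      exact Nat.le_mul_of_pos_left _ (by omega)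
    · rcases hge.eq_or_lt with heq | hgt
      · rw [← heq, hΦ.coeff_natDegree, natDegree_one]
        exact Nat.zero_le _
      · rw [coeff_eq_zero_of_natDegree_lt hgt, natDegree_zero]
        exact Nat.zero_le _

end swapdeg

/-! ### (i) Integrality of `x * h ^ (a * q)` over `R[h]` -/

section integral

variable {A R F : Type*} [CommRing A] [CommRing R] [CommRing F] [Nontrivial F] [Algebra R F]

omit [Nontrivial F] in
/-- A polynomial expression in `j` of degree `≤ N`, times `h ^ (a * N)`, lies in `R[h]` when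
`j * h ^ a ∈ R[h]`. -/
theorem cn53_eval_mul_mem (f : A →+* F) (h j D : F) (hf : ∀ r : A, f r ∈ Algebra.adjoin R {h})
    (hD : D ∈ Algebra.adjoin R {h}) (a : ℕ) (hjD : j * h ^ a = D) (c : Polynomial A) (N : ℕ)
    (hc : c.natDegree ≤ N) :
    c.eval₂ f j * h ^ (a * N) ∈ Algebra.adjoin R {h} := by
  rw [eval₂_eq_sum_range' f (Nat.lt_succ_of_le hc), Finset.sum_mul]
  refine Subalgebra.sum_mem _ fun m hm => ?_
  have hm' : m ≤ N := Nat.lt_succ_iff.mp (Finset.mem_range.mp hm)
  have e : f (c.coeff m) * j ^ m * h ^ (a * N) = f (c.coeff m) * (D ^ m * h ^ (a * (N - m))) := by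
    have e1 : a * N = a * m + a * (N - m) := by
      rw [← Nat.mul_add, Nat.add_sub_cancel' hm']
    rw [← hjD, e1, pow_add, mul_pow, ← pow_mul]
    ring
  rw [e]
  exact Subalgebra.mul_mem _ (hf _)
    (Subalgebra.mul_mem _ (Subalgebra.pow_mem _ hD _)
      (Subalgebra.pow_mem _ (Algebra.subset_adjoin (Set.mem_singleton h)) _))

/-- **Integrality.** If `Φ(x, j) = 0` with `Φ ∈ A[Y][X]` monic in `X`, the coefficient of `X ^ i`
of `Y`-degree `≤ (d - i) * q`, and `j * h ^ a = D ∈ R[h]`, then `x * h ^ (a * q)` is integral over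
`R[h]`. -/
theorem cn53_integral (f : A →+* F) (Φ : Polynomial (Polynomial A)) (hΦ : Φ.Monic) (q a : ℕ)
    (hdeg : ∀ i, (Φ.coeff i).natDegree ≤ (Φ.natDegree - i) * q)
    (h j x D : F) (hf : ∀ r : A, f r ∈ Algebra.adjoin R {h})
    (hD : D ∈ Algebra.adjoin R {h}) (hjD : j * h ^ a = D)
    (hrel : cn53_bev f x j Φ = 0) :
    IsIntegral (Algebra.adjoin R {h}) (x * h ^ (a * q)) := by
  set S := Algebra.adjoin R {h} with hS
  set p : Polynomial F := Φ.map (Polynomial.eval₂RingHom f j) with hp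
  have hpm : p.Monic := hΦ.map _
  have hpd : p.natDegree = Φ.natDegree := hΦ.natDegree_map _
  have hpx : p.eval x = 0 := by
    rw [hp, eval_map]
    exact hrel
  set P : Polynomial F := p.scaleRoots (h ^ (a * q)) with hP
  have hPm : P.Monic := (monic_scaleRoots_iff _).mpr hpm
  have hPz : P.eval (h ^ (a * q) * x) = 0 := by
    rw [hP, scaleRoots_eval_mul, hpx, mul_zero]
  have hcoef : ∀ i, P.coeff i ∈ Set.range (algebraMap S F) := by
    intro i
    have h1 : P.coeff i = (Φ.coeff i).eval₂ f j * h ^ (a * ((Φ.natDegree - i) * q)) := by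
      rw [hP, coeff_scaleRoots, hpd, hp, coeff_map, coe_eval₂RingHom, ← pow_mul]
      congr 2
      ring
    have h2 := cn53_eval_mul_mem (R := R) f h j D hf hD a hjD (Φ.coeff i) _ (hdeg i)
    rw [h1]
    exact ⟨⟨_, h2⟩, rfl⟩
  have hl : P ∈ Polynomial.lifts (algebraMap S F) := (lifts_iff_coeff_lifts P).mpr hcoef
  obtain ⟨Q, hQmap, -, hQm⟩ := lifts_and_natDegree_eq_and_monic hl hPm
  refine ⟨Q, hQm, ?_⟩
  rw [← eval_map, hQmap, mul_comm]
  exact hPz

end integral

/-! ### (iii) The separation lemma: a cusp is not a node -/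

/-- **A cuspidal closed point is not a node.**  `B` a ring with `ι : B →+* F` into a field, `V₁`,
`V₂` valuation subrings of `F` containing `ι B`, `n` a prime of `B` containing `B ∩ m_{V₁}` and
`B ∩ m_{V₂}` (a point on both branches), `h ∈ n`, `D ∉ n`, `j * h ^ a = D`, and `y` with
`y - j ^ q ∈ m_{V₁}`, `y ^ q - j ∈ m_{V₂}`, `y * h ^ (a * q) = ι E ∈ ι B`: contradiction. -/
theorem cn53_not_node {F B : Type*} [Field F] [CommRing B] (ι : B →+* F)
    (V₁ V₂ : ValuationSubring F) (hB₁ : ∀ x : B, ι x ∈ V₁) (hB₂ : ∀ x : B, ι x ∈ V₂)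
    (n : Ideal B) (hn : n.IsPrime)
    (hn₁ : ∀ x : B, V₁.valuation (ι x) < 1 → x ∈ n)
    (hn₂ : ∀ x : B, V₂.valuation (ι x) < 1 → x ∈ n)
    (q a : ℕ) (hq : 2 ≤ q) (ha : 1 ≤ a)
    (h D E : B) (hh : h ∈ n) (hD : D ∉ n)
    (j y : F) (hjD : j * ι h ^ a = ι D)
    (hK₁ : V₁.valuation (y - j ^ q) < 1)
    (hK₂ : V₂.valuation (y ^ q - j) < 1)
    (hE : ι E = y * ι h ^ (a * q)) : False := by
  have hv₁ : V₁.valuation (ι h) ≤ 1 := (V₁.valuation_le_one_iff _).mpr (hB₁ h)
  have hv₂ : V₂.valuation (ι h) ≤ 1 := (V₂.valuation_le_one_iff _).mpr (hB₂ h)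
  -- on the first branch `E ≡ D ^ q`
  have h1 : E - D ^ q ∈ n := by
    apply hn₁
    have e : ι (E - D ^ q) = (y - j ^ q) * ι h ^ (a * q) := by
      rw [map_sub, map_pow, hE, ← hjD, mul_pow, ← pow_mul]
      ring
    rw [e, map_mul, map_pow]
    calc V₁.valuation (y - j ^ q) * V₁.valuation (ι h) ^ (a * q)
        ≤ V₁.valuation (y - j ^ q) * 1 := mul_le_mul' le_rfl (pow_le_one' hv₁ _)
      _ < 1 := by rw [mul_one]; exact hK₁
  -- on the second branch `E ^ q ≡ D * h ^ (a (q² - 1))`
  obtain ⟨Q, hQ⟩ : ∃ Q : ℕ, q * q = Q + 1 :=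
    ⟨q * q - 1, (Nat.sub_add_cancel (Nat.one_le_iff_ne_zero.mpr (by positivity))).symm⟩
  have hQpos : 0 < Q := by
    have : 4 ≤ q * q := Nat.mul_le_mul hq hq
    omega
  have h2 : E ^ q - D * h ^ (a * Q) ∈ n := by
    apply hn₂
    have e : ι (E ^ q - D * h ^ (a * Q)) = (y ^ q - j) * ι h ^ (a * (Q + 1)) := by
      have e2 : a * q * q = a * (Q + 1) := by rw [mul_assoc, hQ]
      rw [map_sub, map_pow, map_mul, map_pow, hE, ← hjD, mul_pow, ← pow_mul, e2]
      have e3 : a * (Q + 1) = a + a * Q := by ring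
      rw [e3, pow_add]
      ring
    rw [e, map_mul, map_pow]
    calc V₂.valuation (y ^ q - j) * V₂.valuation (ι h) ^ (a * (Q + 1))
        ≤ V₂.valuation (y ^ q - j) * 1 := mul_le_mul' le_rfl (pow_le_one' hv₂ _)
      _ < 1 := by rw [mul_one]; exact hK₂
  have h3 : D * h ^ (a * Q) ∈ n :=
    n.mul_mem_left _ (n.pow_mem_of_mem hh _ (Nat.mul_pos (by omega) hQpos))
  have h4 : E ^ q ∈ n := by
    have := n.add_mem h2 h3
    rwa [sub_add_cancel] at this
  have h5 : E ∈ n := hn.mem_of_pow_mem _ h4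
  have h6 : D ^ q ∈ n := by
    have := n.sub_mem h5 h1
    rwa [sub_sub_cancel] at this
  exact hD (hn.mem_of_pow_mem _ h6)

/-! ### The minimality hypothesis from the degree of `y` over `K(j)` -/

/-- If `j` is transcendental over the field `K` and `y` is not a root of any nonzero polynomial of
degree `< d` with coefficients in `K[j]`... here in the form: `1, y, …, y ^ (d-1)` are linearly
independent over `K[j]`, given through polynomials over the subring generated by `j`: for every
nonzero `p : K[j][X]` of degree `< d`, `p(y) ≠ 0`. -/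
theorem cn53_hmin {K F : Type*} [Field K] [Field F] [Algebra K F] (j y : F)
    (hj : Transcendental K j) (d : ℕ)
    (hy : ∀ p : Polynomial F, p ≠ 0 → p.natDegree < d →
      (∀ i, p.coeff i ∈ Algebra.adjoin K {j}) → p.eval y ≠ 0)
    (P : Polynomial (Polynomial K)) (hP : P.natDegree < d)
    (h0 : cn53_bev (algebraMap K F) y j P = 0) : P = 0 := by
  by_contra hne
  set φ : Polynomial K →+* F := Polynomial.eval₂RingHom (algebraMap K F) j with hφ
  have hφinj : Function.Injective φ := by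
    have : (φ : Polynomial K → F) = Polynomial.aeval j := by
      funext c
      rfl
    rw [this]
    exact transcendental_iff_injective.mp hj
  have hp0 : P.map φ ≠ 0 := by
    intro h
    apply hne
    exact Polynomial.map_injective φ hφinj (by rw [h, Polynomial.map_zero])
  refine hy (P.map φ) hp0 (lt_of_le_of_lt natDegree_map_le hP) ?_ ?_
  · intro i
    rw [coeff_map]
    show Polynomial.aeval j (P.coeff i) ∈ Algebra.adjoin K {j}
    rw [Algebra.adjoin_singleton_eq_range_aeval]
    exact ⟨_, rfl⟩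
  · rw [eval_map]
    exact h0

end Fermat.Agent.S34
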