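import Fermat.Agent.S34.CuspSep22
import Fermat.Agent.S34.CuspNode53
import Fermat.Agent.S34.ChartM85
import Fermat.Agent.S34.UVIntegral75

/-!
# S34 lab, row 491 (twin, helper1): (3c) + (3d) at the charts of level `2` and `3`

*Cuspidal closed points are never nodes; at a node every function of the big chart is regular.*

Setting: `F = F(M)_K` (`modularFunctionFieldFullC K M`), `j = rm90_j K M`, `y ∈ F` with
`q`-expansion `j(Q^q)` (`q` prime), `h` a chart coordinate with `j * h ^ a = D ∈ R[h]`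
(`h = pk85_h2`, `pk85_h3` or their inverses), `B = pk15_chart R {h}`, `V₁`, `V₂` two valuation
subrings of `F` containing `B` with the Kronecker congruences
`y - j ^ q ∈ m_{V₁}`, `y ^ q - j ∈ m_{V₂}`, and `n` a prime of `B` containing both centres
`B ∩ m_{V₁}`, `B ∩ m_{V₂}` (a point of the special fibre on both branches).

* `cc1_modrel`     : the modular relation `Φ(y, j) = 0` in `F` for the Kronecker polynomial `Φ`
  of `cs22_exists` (helper22).
* `cc1_core`       : (3c) `h ∈ n` and `D ∉ n` is impossible (`cs22_exists` + `cn53_integral` +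
  `cn53_not_node`, helper53).
* `cc1_loc`, `cc1_loc'` : (3d) if `h ∉ n` then every `x ∈ pk15_chart R {h, h⁻¹}` is regular at `n`:
  `∃ s ∉ n, s * x ∈ B` (`'`: the chart of `h⁻¹`).
* `cc1_node_level2`, `cc1_node_level2'`, `cc1_node_level3`, `cc1_node_level3'` : the four
  instances: at a prime `n` of the chart `R[h]~` (resp. `R[h⁻¹]~`, `'`) on both branches, every
  element of the big chart `R[h, h⁻¹]~` (e.g. the `Δ`-quotients `U`, `V` of `uvi75_mem_chart2/3`)
  is regular at `n`.  Level 2 chart 1 needs `2 ∈ Rˣ`, level 3 chart 1 needs `3 ∈ Rˣ`.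
* `cc1_kron_inf`, `cc1_kron_inf_pi` : the Kronecker congruence `y - j ^ q ∈ m_{V_∞} = π V_∞` for the
  Gauss valuation ring `V_∞ = cm85_Vinf` when the residue field has characteristic `q`
  (`cc1_charP_residue`: this holds as soon as `q` is not a unit of `R`).
* `cc1_kron_comap` : transport to `V_0 = V_∞.comap w` for any ring endomorphism `w` of `F`
  with `w j = y`, `w y = j`.
* `cc1_val_lt_one_iff`, `cc1_val_lt_one_of_pi`, `cc1_centre_of_pi` : adapters between
  `V.valuation x < 1` and `π⁻¹ * x ∈ V`.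
-/

set_option autoImplicit false
set_option linter.unusedSectionVars false
set_option linter.style.haveILetI false

open ModularCurve Polynomial

namespace Fermat.Agent.S34

open Fermat.Agent.S18 Fermat.Agent.S24 Fermat.Agent.S28 Fermat.Agent.S37

/-! ### Valuation adapters -/

section cc1_val

variable {F : Type*} [Field F]

/-- `x` lies in the maximal ideal of `V` iff `x = 0` or `x⁻¹ ∉ V`. -/
theorem cc1_val_lt_one_iff (V : ValuationSubring F) (x : F) :
    V.valuation x < 1 ↔ x = 0 ∨ x⁻¹ ∉ V := by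
  by_cases hx : x = 0
  · subst hx
    simp
  · rw [← V.valuation_le_one_iff, not_le, Valuation.one_lt_val_iff _ (inv_ne_zero hx), inv_inv]
    simp [hx]

/-- If `π⁻¹ ∉ V` and `π⁻¹ * x ∈ V` then `x` lies in the maximal ideal of `V`. -/
theorem cc1_val_lt_one_of_pi (V : ValuationSubring F) (π x : F) (hπV : π⁻¹ ∉ V)
    (hx : π⁻¹ * x ∈ V) : V.valuation x < 1 := by
  rw [cc1_val_lt_one_iff]
  by_cases hx0 : x = 0
  · exact Or.inl hx0
  · right
    intro hxinv
    apply hπV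
    have h1 : π⁻¹ = π⁻¹ * x * x⁻¹ := by
      rw [mul_assoc, mul_inv_cancel₀ hx0, mul_one]
    rw [h1]
    exact V.mul_mem _ _ hx hxinv

/-- The centre of `V` on `B` in the form `{x | π⁻¹ * x ∈ V}` (when `m_V = π V`). -/
theorem cc1_centre_of_pi (V : ValuationSubring F) (π : F)
    (hmax : ∀ x ∈ V, x⁻¹ ∉ V → π⁻¹ * x ∈ V) {B : Type*} [CommRing B] (ι : B →+* F)
    (n : Ideal B) (hn : ∀ x : B, π⁻¹ * ι x ∈ V → x ∈ n) :
    ∀ x : B, V.valuation (ι x) < 1 → x ∈ n := by
  intro x hx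
  apply hn
  have hxV : ι x ∈ V := (V.valuation_le_one_iff _).mp hx.le
  rcases (cc1_val_lt_one_iff V _).mp hx with h0 | h1
  · rw [h0, mul_zero]
    exact V.zero_mem
  · exact hmax _ hxV h1

/-- Transport of the Kronecker congruence along a ring endomorphism `w` swapping `j` and `y`:
if `y - j ^ q ∈ m_V` then `y ^ q - j ∈ m_{V.comap w}`. -/
theorem cc1_kron_comap (V : ValuationSubring F) (w : F →+* F) (j y : F) (q : ℕ)
    (hwj : w j = y) (hwy : w y = j) (hK : V.valuation (y - j ^ q) < 1) :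
    (V.comap w).valuation (y ^ q - j) < 1 := by
  rw [cc1_val_lt_one_iff] at hK ⊢
  have hw : w (y ^ q - j) = -(y - j ^ q) := by
    rw [map_sub, map_pow, hwj, hwy]
    ring
  rcases hK with h0 | h1
  · left
    apply w.injective
    rw [hw, h0, neg_zero, map_zero]
  · right
    intro hmem
    apply h1
    have h2 : w (y ^ q - j)⁻¹ ∈ V := hmem
    rw [map_inv₀, hw, inv_neg] at h2
    have h3 := V.neg_mem _ h2
    rwa [neg_neg] at h3

end cc1_val

/-! ### (3d) Localisation: the big chart is regular away from the cusp -/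

section cc1_loc

variable {R : Type*} [CommRing R] {F : Type*} [Field F] [Algebra R F]

/-- The subalgebra `R[s]` lies in its chart. -/
theorem cc1_adjoin_le_chart (s : Set F) {x : F} (hx : x ∈ Algebra.adjoin R s) :
    x ∈ pk15_chart R s := by
  rw [pk15_mem_chart]
  exact isIntegral_algebraMap (x := (⟨x, hx⟩ : Algebra.adjoin R s))

/-- **(3d)** If the chart coordinate `h` does not vanish at the prime `n` of `B = R[h]~`, then every
element of the big chart `R[h, h⁻¹]~` is regular at `n`. -/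
theorem cc1_loc (h : F) (hh0 : h ≠ 0) (n : Ideal ↥(pk15_chart R ({h} : Set F))) (hn : n.IsPrime)
    (hB : ↥(pk15_chart R ({h} : Set F))) (hhB : (hB : F) = h) (hhn : hB ∉ n)
    (x : F) (hx : x ∈ pk15_chart R ({h, h⁻¹} : Set F)) :
    ∃ s : ↥(pk15_chart R ({h} : Set F)), s ∉ n ∧ (s : F) * x ∈ pk15_chart R ({h} : Set F) := by
  obtain ⟨k, hk⟩ := pk15_chart_loc (R := R) h hh0 x hx
  refine ⟨hB ^ k, fun hmem => hhn (hn.mem_of_pow_mem k hmem), ?_⟩
  rw [SubmonoidClass.coe_pow, hhB]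
  exact hk

/-- **(3d)**, second chart: if `h⁻¹` does not vanish at the prime `n` of `B = R[h⁻¹]~`, then every
element of the big chart `R[h, h⁻¹]~` is regular at `n`. -/
theorem cc1_loc' (h : F) (hh0 : h ≠ 0) (n : Ideal ↥(pk15_chart R ({h⁻¹} : Set F)))
    (hn : n.IsPrime) (gB : ↥(pk15_chart R ({h⁻¹} : Set F))) (hgB : (gB : F) = h⁻¹) (hgn : gB ∉ n)
    (x : F) (hx : x ∈ pk15_chart R ({h, h⁻¹} : Set F)) :
    ∃ s : ↥(pk15_chart R ({h⁻¹} : Set F)), s ∉ n ∧
      (s : F) * x ∈ pk15_chart R ({h⁻¹} : Set F) := by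
  have hset : ({h, h⁻¹} : Set F) = {h⁻¹, h⁻¹⁻¹} := by
    rw [inv_inv]
    exact Set.pair_comm _ _
  rw [hset] at hx
  exact cc1_loc h⁻¹ (inv_ne_zero hh0) n hn gB hgB hgn x hx

end cc1_loc

/-! ### (3c) The core: a cusp is not a node -/

section cc1_core

variable {R : Type*} [CommRing R] (K : Type) [Field K] (M : ℕ) [NeZero M]
  [Algebra R ↥(modularFunctionFieldFullC K M)]

/-- The modular relation `Φ(y, j) = 0` in `F(M)_K`, for `y` with `q`-expansion `j(Q^q)`. -/
theorem cc1_modrel (q : ℕ) [NeZero q] (Φ : Polynomial (Polynomial ℤ))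
    (hroot : Φ.eval₂ (evJ ℤ) (JdC ℤ q) = 0) (y : ↥(modularFunctionFieldFullC K M))
    (hy : (y : LaurentSeries K) = qExpand K q (jqModC K)) :
    cn53_bev (Int.castRingHom ↥(modularFunctionFieldFullC K M)) y (rm90_j K M) Φ = 0 := by
  have h1 := cs22_root q Φ hroot K
  rw [JdC_of_neZero] at h1
  apply Subtype.ext
  set ι : ↥(modularFunctionFieldFullC K M) →+* LaurentSeries K :=
    (modularFunctionFieldFullC K M).val.toRingHom with hι
  have hcomp : ι.comp (Polynomial.eval₂RingHom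
      (Int.castRingHom ↥(modularFunctionFieldFullC K M)) (rm90_j K M)) = evJ K := by
    apply Polynomial.ringHom_ext
    · intro a
      simp [evJ]
    · simp [evJ, hι, rm90_j]
  have h2 : ι (cn53_bev (Int.castRingHom ↥(modularFunctionFieldFullC K M)) y (rm90_j K M) Φ) =
      Φ.eval₂ (evJ K) (qExpand K q (jqModC K)) := by
    rw [cn53_bev_apply, Polynomial.hom_eval₂, hcomp]
    congr 1
  show ι _ = ι 0
  rw [h2, h1, map_zero]

/-- **(3c), core.**  Let `h` be a chart coordinate with `j * h ^ a = D ∈ R[h]`, `B = R[h]~`,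
`V₁`, `V₂` valuation subrings containing `B` with `y - j ^ q ∈ m_{V₁}`, `y ^ q - j ∈ m_{V₂}`
(`y = j(Q^q)`), and `n` a prime of `B` containing both centres.  Then `h ∈ n` and `D ∉ n` is
impossible. -/
theorem cc1_core (q : ℕ) [NeZero q] (hq : q.Prime) (h : ↥(modularFunctionFieldFullC K M)) (a : ℕ)
    (ha : 1 ≤ a) (D : ↥(modularFunctionFieldFullC K M))
    (hD : D ∈ Algebra.adjoin R ({h} : Set ↥(modularFunctionFieldFullC K M)))
    (hjD : rm90_j K M * h ^ a = D)
    (y : ↥(modularFunctionFieldFullC K M))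
    (hy : (y : LaurentSeries K) = qExpand K q (jqModC K))
    (V₁ V₂ : ValuationSubring ↥(modularFunctionFieldFullC K M))
    (hB₁ : ∀ x ∈ pk15_chart R ({h} : Set ↥(modularFunctionFieldFullC K M)), x ∈ V₁)
    (hB₂ : ∀ x ∈ pk15_chart R ({h} : Set ↥(modularFunctionFieldFullC K M)), x ∈ V₂)
    (hK₁ : V₁.valuation (y - rm90_j K M ^ q) < 1)
    (hK₂ : V₂.valuation (y ^ q - rm90_j K M) < 1)
    (n : Ideal ↥(pk15_chart R ({h} : Set ↥(modularFunctionFieldFullC K M)))) (hn : n.IsPrime)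
    (hn₁ : ∀ x : ↥(pk15_chart R ({h} : Set ↥(modularFunctionFieldFullC K M))),
      V₁.valuation (x : ↥(modularFunctionFieldFullC K M)) < 1 → x ∈ n)
    (hn₂ : ∀ x : ↥(pk15_chart R ({h} : Set ↥(modularFunctionFieldFullC K M))),
      V₂.valuation (x : ↥(modularFunctionFieldFullC K M)) < 1 → x ∈ n)
    (hB DB : ↥(pk15_chart R ({h} : Set ↥(modularFunctionFieldFullC K M))))
    (hhB : (hB : ↥(modularFunctionFieldFullC K M)) = h)
    (hDB : (DB : ↥(modularFunctionFieldFullC K M)) = D)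
    (hhn : hB ∈ n) (hDn : DB ∉ n) : False := by
  obtain ⟨Φ, hmon, hdeg, hroot, hbound⟩ := cs22_exists q hq
  have hrel := cc1_modrel K M q Φ hroot y hy
  have hint : IsIntegral (Algebra.adjoin R ({h} : Set ↥(modularFunctionFieldFullC K M)))
      (y * h ^ (a * q)) := by
    refine cn53_integral (R := R) (Int.castRingHom ↥(modularFunctionFieldFullC K M)) Φ hmon q a
      ?_ h (rm90_j K M) y D (fun r => ?_) hD hjD hrel
    · intro i
      rw [hdeg, mul_comm]
      exact hbound i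
    · rw [eq_intCast]
      exact intCast_mem _ r
  let E : ↥(pk15_chart R ({h} : Set ↥(modularFunctionFieldFullC K M))) :=
    ⟨y * h ^ (a * q), hint⟩
  refine cn53_not_node
    ((pk15_chart R ({h} : Set ↥(modularFunctionFieldFullC K M))).val.toRingHom) V₁ V₂
    (fun x => hB₁ _ x.2) (fun x => hB₂ _ x.2) n hn
    hn₁ hn₂ q a hq.two_le ha hB DB E hhn hDn (rm90_j K M) y ?_ hK₁ hK₂ ?_
  · show rm90_j K M * (hB : ↥(modularFunctionFieldFullC K M)) ^ a =
      (DB : ↥(modularFunctionFieldFullC K M))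
    rw [hhB, hDB]
    exact hjD
  · show y * h ^ (a * q) = y * (hB : ↥(modularFunctionFieldFullC K M)) ^ (a * q)
    rw [hhB]

/-- **(3c) + (3d), general chart coordinate.**  `h ≠ 0` with `j * h ^ a = D ∈ R[h]`, where `D`
does not vanish at any prime of `B = R[h]~` containing `h`.  At a prime `n` of `B` on both
branches, every element of the big chart `R[h, h⁻¹]~` is regular. -/
theorem cc1_node (q : ℕ) [NeZero q] (hq : q.Prime) (h : ↥(modularFunctionFieldFullC K M))
    (hh0 : h ≠ 0) (a : ℕ) (ha : 1 ≤ a)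
    (DB : ↥(pk15_chart R ({h} : Set ↥(modularFunctionFieldFullC K M))))
    (hD : (DB : ↥(modularFunctionFieldFullC K M)) ∈
      Algebra.adjoin R ({h} : Set ↥(modularFunctionFieldFullC K M)))
    (hjD : rm90_j K M * h ^ a = (DB : ↥(modularFunctionFieldFullC K M)))
    (y : ↥(modularFunctionFieldFullC K M))
    (hy : (y : LaurentSeries K) = qExpand K q (jqModC K))
    (V₁ V₂ : ValuationSubring ↥(modularFunctionFieldFullC K M))
    (hRV₁ : ∀ r : R, algebraMap R ↥(modularFunctionFieldFullC K M) r ∈ V₁)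
    (hRV₂ : ∀ r : R, algebraMap R ↥(modularFunctionFieldFullC K M) r ∈ V₂)
    (hh₁ : h ∈ V₁) (hh₂ : h ∈ V₂)
    (hK₁ : V₁.valuation (y - rm90_j K M ^ q) < 1)
    (hK₂ : V₂.valuation (y ^ q - rm90_j K M) < 1)
    (n : Ideal ↥(pk15_chart R ({h} : Set ↥(modularFunctionFieldFullC K M)))) (hn : n.IsPrime)
    (hn₁ : ∀ x : ↥(pk15_chart R ({h} : Set ↥(modularFunctionFieldFullC K M))),
      V₁.valuation (x : ↥(modularFunctionFieldFullC K M)) < 1 → x ∈ n)
    (hn₂ : ∀ x : ↥(pk15_chart R ({h} : Set ↥(modularFunctionFieldFullC K M))),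
      V₂.valuation (x : ↥(modularFunctionFieldFullC K M)) < 1 → x ∈ n)
    (hDn : ∀ hB : ↥(pk15_chart R ({h} : Set ↥(modularFunctionFieldFullC K M))),
      (hB : ↥(modularFunctionFieldFullC K M)) = h → hB ∈ n → DB ∉ n)
    (x : ↥(modularFunctionFieldFullC K M))
    (hx : x ∈ pk15_chart R ({h, h⁻¹} : Set ↥(modularFunctionFieldFullC K M))) :
    ∃ s : ↥(pk15_chart R ({h} : Set ↥(modularFunctionFieldFullC K M))),
      s ∉ n ∧ (s : ↥(modularFunctionFieldFullC K M)) * x ∈
        pk15_chart R ({h} : Set ↥(modularFunctionFieldFullC K M)) := by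
  let hB : ↥(pk15_chart R ({h} : Set ↥(modularFunctionFieldFullC K M))) :=
    ⟨h, pk15_subset_chart _ (Set.mem_singleton h)⟩
  refine cc1_loc h hh0 n hn hB rfl (fun hhn => ?_) x hx
  exact cc1_core (R := R) K M q hq h a ha _ hD hjD y hy V₁ V₂
    (pk15_chart_le_V V₁ hRV₁ _ (fun g hg => by rw [Set.mem_singleton_iff.mp hg]; exact hh₁))
    (pk15_chart_le_V V₂ hRV₂ _ (fun g hg => by rw [Set.mem_singleton_iff.mp hg]; exact hh₂))
    hK₁ hK₂ n hn hn₁ hn₂ hB DB rfl rfl hhn (hDn hB rfl hhn)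

end cc1_core

/-! ### The four instances -/

section cc1_inst

variable {R : Type*} [CommRing R] (K : Type) [Field K] [CharZero K] (M : ℕ) [NeZero M]
  [Algebra R ↥(modularFunctionFieldFullC K M)]

/-- A prime ideal of an `R`-algebra does not contain the image of a unit of `R`. -/
theorem cc1_unit_not_mem {B : Type*} [CommRing B] [Algebra R B] (n : Ideal B) (hn : n.IsPrime)
    (r : R) (hr : IsUnit r) : algebraMap R B r ∉ n := fun hmem =>
  hn.ne_top (Ideal.eq_top_of_isUnit_mem n hmem (hr.map (algebraMap R B)))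

theorem cc1_h2_ne_zero (h2 : 2 ∣ M) : pk85_h2 K M h2 ≠ 0 := by
  intro h0
  have hrel := pk85_h2_rel K M h2
  rw [h0] at hrel
  norm_num at hrel

theorem cc1_h3_ne_zero (h3 : 3 ∣ M) : pk85_h3 K M h3 ≠ 0 := by
  intro h0
  have hrel := pk85_h3_rel K M h3
  rw [h0] at hrel
  norm_num at hrel

/-- `j * h⁻¹ = (1 + 256 h⁻¹)^3` for the level 2 Hauptmodul. -/
theorem cc1_h2_rel_inv (h2 : 2 ∣ M) :
    rm90_j K M * (pk85_h2 K M h2)⁻¹ ^ 1 = (1 + 256 * (pk85_h2 K M h2)⁻¹) ^ 3 := by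
  have hrel := pk85_h2_rel K M h2
  have hh0 := cc1_h2_ne_zero K M h2
  have e : rm90_j K M = (pk85_h2 K M h2 + 256) ^ 3 * (pk85_h2 K M h2)⁻¹ ^ 2 := by
    rw [← hrel, mul_assoc, ← mul_pow, mul_inv_cancel₀ hh0, one_pow, mul_one]
  rw [e]
  field_simp

/-- `j * h⁻¹ = (1 + 27 h⁻¹) (1 + 243 h⁻¹)^3` for the level 3 Hauptmodul. -/
theorem cc1_h3_rel_inv (h3 : 3 ∣ M) :
    rm90_j K M * (pk85_h3 K M h3)⁻¹ ^ 1 =
      (1 + 27 * (pk85_h3 K M h3)⁻¹) * (1 + 243 * (pk85_h3 K M h3)⁻¹) ^ 3 := by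
  have hrel := pk85_h3_rel K M h3
  have hh0 := cc1_h3_ne_zero K M h3
  have e : rm90_j K M =
      (pk85_h3 K M h3 + 27) * (pk85_h3 K M h3 + 243) ^ 3 * (pk85_h3 K M h3)⁻¹ ^ 3 := by
    rw [← hrel, mul_assoc, ← mul_pow, mul_inv_cancel₀ hh0, one_pow, mul_one]
  rw [e]
  field_simp

variable (q : ℕ) [NeZero q] (hq : q.Prime) (y : ↥(modularFunctionFieldFullC K M))
  (hy : (y : LaurentSeries K) = qExpand K q (jqModC K))
  (V₁ V₂ : ValuationSubring ↥(modularFunctionFieldFullC K M))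
  (hRV₁ : ∀ r : R, algebraMap R ↥(modularFunctionFieldFullC K M) r ∈ V₁)
  (hRV₂ : ∀ r : R, algebraMap R ↥(modularFunctionFieldFullC K M) r ∈ V₂)
  (hK₁ : V₁.valuation (y - rm90_j K M ^ q) < 1)
  (hK₂ : V₂.valuation (y ^ q - rm90_j K M) < 1)

include hq hy hRV₁ hRV₂ hK₁ hK₂

/-- **(3c) + (3d), level 2, chart `R[h]~`.**  At a prime `n` on both branches every element of the
big chart `R[h, h⁻¹]~` is regular. -/
theorem cc1_node_level2 (h2 : 2 ∣ M) (hu : IsUnit (2 : R))
    (hh₁ : pk85_h2 K M h2 ∈ V₁) (hh₂ : pk85_h2 K M h2 ∈ V₂)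
    (n : Ideal ↥(pk15_chart R ({pk85_h2 K M h2} : Set ↥(modularFunctionFieldFullC K M))))
    (hn : n.IsPrime)
    (hn₁ : ∀ x : ↥(pk15_chart R ({pk85_h2 K M h2} : Set ↥(modularFunctionFieldFullC K M))),
      V₁.valuation (x : ↥(modularFunctionFieldFullC K M)) < 1 → x ∈ n)
    (hn₂ : ∀ x : ↥(pk15_chart R ({pk85_h2 K M h2} : Set ↥(modularFunctionFieldFullC K M))),
      V₂.valuation (x : ↥(modularFunctionFieldFullC K M)) < 1 → x ∈ n)
    (x : ↥(modularFunctionFieldFullC K M))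
    (hx : x ∈ pk15_chart R
      ({pk85_h2 K M h2, (pk85_h2 K M h2)⁻¹} : Set ↥(modularFunctionFieldFullC K M))) :
    ∃ s : ↥(pk15_chart R ({pk85_h2 K M h2} : Set ↥(modularFunctionFieldFullC K M))),
      s ∉ n ∧ (s : ↥(modularFunctionFieldFullC K M)) * x ∈
        pk15_chart R ({pk85_h2 K M h2} : Set ↥(modularFunctionFieldFullC K M)) := by
  have hu' : IsUnit (256 : R) := by
    have e : (256 : R) = 2 ^ 8 := by norm_num
    rw [e]
    exact hu.pow 8
  let hB : ↥(pk15_chart R ({pk85_h2 K M h2} : Set ↥(modularFunctionFieldFullC K M))) :=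
    ⟨pk85_h2 K M h2, pk15_subset_chart _ (Set.mem_singleton _)⟩
  have hDB : (((hB + algebraMap R _ 256) ^ 3 :
      ↥(pk15_chart R ({pk85_h2 K M h2} : Set ↥(modularFunctionFieldFullC K M)))) :
      ↥(modularFunctionFieldFullC K M)) = (pk85_h2 K M h2 + 256) ^ 3 := by
    rw [SubmonoidClass.coe_pow, AddMemClass.coe_add, Subalgebra.coe_algebraMap, map_ofNat]
  refine cc1_node (R := R) K M q hq (pk85_h2 K M h2) (cc1_h2_ne_zero K M h2) 2 (by norm_num)
    ((hB + algebraMap R _ 256) ^ 3) ?_ ?_ y hy V₁ V₂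
    hRV₁ hRV₂ hh₁ hh₂ hK₁ hK₂ n hn hn₁ hn₂ ?_ x hx
  · rw [SubmonoidClass.coe_pow, AddMemClass.coe_add, Subalgebra.coe_algebraMap]
    exact Subalgebra.pow_mem _ (Subalgebra.add_mem _ (Algebra.subset_adjoin (Set.mem_singleton _))
      (Subalgebra.algebraMap_mem _ _)) 3
  · rw [hDB]
    exact pk85_h2_rel K M h2
  · intro hB' hhB' hhn hDn
    have e : hB' = hB := Subtype.ext hhB'
    rw [e] at hhn
    have h1 := hn.mem_of_pow_mem 3 hDn
    have h3 := n.sub_mem h1 hhn
    rw [add_sub_cancel_left] at h3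
    exact cc1_unit_not_mem (R := R) n hn 256 hu' h3

/-- **(3c) + (3d), level 2, chart `R[h⁻¹]~`.**  At a prime `n` on both branches every element of
the big chart `R[h, h⁻¹]~` is regular. -/
theorem cc1_node_level2' (h2 : 2 ∣ M)
    (hh₁ : (pk85_h2 K M h2)⁻¹ ∈ V₁) (hh₂ : (pk85_h2 K M h2)⁻¹ ∈ V₂)
    (n : Ideal ↥(pk15_chart R ({(pk85_h2 K M h2)⁻¹} : Set ↥(modularFunctionFieldFullC K M))))
    (hn : n.IsPrime)
    (hn₁ : ∀ x : ↥(pk15_chart R ({(pk85_h2 K M h2)⁻¹} : Set ↥(modularFunctionFieldFullC K M))),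
      V₁.valuation (x : ↥(modularFunctionFieldFullC K M)) < 1 → x ∈ n)
    (hn₂ : ∀ x : ↥(pk15_chart R ({(pk85_h2 K M h2)⁻¹} : Set ↥(modularFunctionFieldFullC K M))),
      V₂.valuation (x : ↥(modularFunctionFieldFullC K M)) < 1 → x ∈ n)
    (x : ↥(modularFunctionFieldFullC K M))
    (hx : x ∈ pk15_chart R
      ({pk85_h2 K M h2, (pk85_h2 K M h2)⁻¹} : Set ↥(modularFunctionFieldFullC K M))) :
    ∃ s : ↥(pk15_chart R ({(pk85_h2 K M h2)⁻¹} : Set ↥(modularFunctionFieldFullC K M))),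
      s ∉ n ∧ (s : ↥(modularFunctionFieldFullC K M)) * x ∈
        pk15_chart R ({(pk85_h2 K M h2)⁻¹} : Set ↥(modularFunctionFieldFullC K M)) := by
  have hset : ({pk85_h2 K M h2, (pk85_h2 K M h2)⁻¹} : Set ↥(modularFunctionFieldFullC K M)) =
      {(pk85_h2 K M h2)⁻¹, (pk85_h2 K M h2)⁻¹⁻¹} := by
    rw [inv_inv]
    exact Set.pair_comm _ _
  rw [hset] at hx
  let gB : ↥(pk15_chart R ({(pk85_h2 K M h2)⁻¹} : Set ↥(modularFunctionFieldFullC K M))) :=
    ⟨(pk85_h2 K M h2)⁻¹, pk15_subset_chart _ (Set.mem_singleton _)⟩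
  have hDB : (((1 + algebraMap R _ 256 * gB) ^ 3 :
      ↥(pk15_chart R ({(pk85_h2 K M h2)⁻¹} : Set ↥(modularFunctionFieldFullC K M)))) :
      ↥(modularFunctionFieldFullC K M)) = (1 + 256 * (pk85_h2 K M h2)⁻¹) ^ 3 := by
    rw [SubmonoidClass.coe_pow, AddMemClass.coe_add, MulMemClass.coe_mul,
      Subalgebra.coe_algebraMap, map_ofNat, OneMemClass.coe_one]
  refine cc1_node (R := R) K M q hq (pk85_h2 K M h2)⁻¹ (inv_ne_zero (cc1_h2_ne_zero K M h2)) 1
    le_rfl ((1 + algebraMap R _ 256 * gB) ^ 3) ?_ ?_ y hy V₁ V₂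
    hRV₁ hRV₂ hh₁ hh₂ hK₁ hK₂ n hn hn₁ hn₂ ?_ x hx
  · rw [SubmonoidClass.coe_pow, AddMemClass.coe_add, MulMemClass.coe_mul,
      Subalgebra.coe_algebraMap, OneMemClass.coe_one]
    exact Subalgebra.pow_mem _ (Subalgebra.add_mem _ (Subalgebra.one_mem _)
      (Subalgebra.mul_mem _ (Subalgebra.algebraMap_mem _ _)
        (Algebra.subset_adjoin (Set.mem_singleton _)))) 3
  · rw [hDB]
    exact cc1_h2_rel_inv K M h2
  · intro gB' hgB' hgn hDn
    have e : gB' = gB := Subtype.ext hgB'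
    rw [e] at hgn
    have h1 := hn.mem_of_pow_mem 3 hDn
    have h3 := n.sub_mem h1 (n.mul_mem_left (algebraMap R _ 256) hgn)
    rw [add_sub_cancel_right] at h3
    exact hn.ne_top ((Ideal.eq_top_iff_one n).mpr h3)

/-- **(3c) + (3d), level 3, chart `R[h]~`.**  At a prime `n` on both branches every element of the
big chart `R[h, h⁻¹]~` is regular. -/
theorem cc1_node_level3 (h3 : 3 ∣ M) (hu : IsUnit (3 : R))
    (hh₁ : pk85_h3 K M h3 ∈ V₁) (hh₂ : pk85_h3 K M h3 ∈ V₂)
    (n : Ideal ↥(pk15_chart R ({pk85_h3 K M h3} : Set ↥(modularFunctionFieldFullC K M))))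
    (hn : n.IsPrime)
    (hn₁ : ∀ x : ↥(pk15_chart R ({pk85_h3 K M h3} : Set ↥(modularFunctionFieldFullC K M))),
      V₁.valuation (x : ↥(modularFunctionFieldFullC K M)) < 1 → x ∈ n)
    (hn₂ : ∀ x : ↥(pk15_chart R ({pk85_h3 K M h3} : Set ↥(modularFunctionFieldFullC K M))),
      V₂.valuation (x : ↥(modularFunctionFieldFullC K M)) < 1 → x ∈ n)
    (x : ↥(modularFunctionFieldFullC K M))
    (hx : x ∈ pk15_chart R
      ({pk85_h3 K M h3, (pk85_h3 K M h3)⁻¹} : Set ↥(modularFunctionFieldFullC K M))) :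
    ∃ s : ↥(pk15_chart R ({pk85_h3 K M h3} : Set ↥(modularFunctionFieldFullC K M))),
      s ∉ n ∧ (s : ↥(modularFunctionFieldFullC K M)) * x ∈
        pk15_chart R ({pk85_h3 K M h3} : Set ↥(modularFunctionFieldFullC K M)) := by
  have hu27 : IsUnit (27 : R) := by
    have e : (27 : R) = 3 ^ 3 := by norm_num
    rw [e]
    exact hu.pow 3
  have hu243 : IsUnit (243 : R) := by
    have e : (243 : R) = 3 ^ 5 := by norm_num
    rw [e]
    exact hu.pow 5
  let hB : ↥(pk15_chart R ({pk85_h3 K M h3} : Set ↥(modularFunctionFieldFullC K M))) :=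
    ⟨pk85_h3 K M h3, pk15_subset_chart _ (Set.mem_singleton _)⟩
  have hDB : (((hB + algebraMap R _ 27) * (hB + algebraMap R _ 243) ^ 3 :
      ↥(pk15_chart R ({pk85_h3 K M h3} : Set ↥(modularFunctionFieldFullC K M)))) :
      ↥(modularFunctionFieldFullC K M)) =
      (pk85_h3 K M h3 + 27) * (pk85_h3 K M h3 + 243) ^ 3 := by
    rw [MulMemClass.coe_mul, SubmonoidClass.coe_pow, AddMemClass.coe_add, AddMemClass.coe_add,
      Subalgebra.coe_algebraMap, Subalgebra.coe_algebraMap, map_ofNat, map_ofNat]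
  refine cc1_node (R := R) K M q hq (pk85_h3 K M h3) (cc1_h3_ne_zero K M h3) 3 (by norm_num)
    ((hB + algebraMap R _ 27) * (hB + algebraMap R _ 243) ^ 3) ?_ ?_ y hy V₁ V₂
    hRV₁ hRV₂ hh₁ hh₂ hK₁ hK₂ n hn hn₁ hn₂ ?_ x hx
  · rw [MulMemClass.coe_mul, SubmonoidClass.coe_pow, AddMemClass.coe_add, AddMemClass.coe_add,
      Subalgebra.coe_algebraMap, Subalgebra.coe_algebraMap]
    exact Subalgebra.mul_mem _
      (Subalgebra.add_mem _ (Algebra.subset_adjoin (Set.mem_singleton _))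
        (Subalgebra.algebraMap_mem _ _))
      (Subalgebra.pow_mem _ (Subalgebra.add_mem _ (Algebra.subset_adjoin (Set.mem_singleton _))
        (Subalgebra.algebraMap_mem _ _)) 3)
  · rw [hDB]
    exact pk85_h3_rel K M h3
  · intro hB' hhB' hhn hDn
    have e : hB' = hB := Subtype.ext hhB'
    rw [e] at hhn
    rcases hn.mem_or_mem hDn with h1 | h1
    · have h3' := n.sub_mem h1 hhn
      rw [add_sub_cancel_left] at h3'
      exact cc1_unit_not_mem (R := R) n hn 27 hu27 h3'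
    · have h2 := hn.mem_of_pow_mem 3 h1
      have h3' := n.sub_mem h2 hhn
      rw [add_sub_cancel_left] at h3'
      exact cc1_unit_not_mem (R := R) n hn 243 hu243 h3'

/-- **(3c) + (3d), level 3, chart `R[h⁻¹]~`.**  At a prime `n` on both branches every element of
the big chart `R[h, h⁻¹]~` is regular. -/
theorem cc1_node_level3' (h3 : 3 ∣ M)
    (hh₁ : (pk85_h3 K M h3)⁻¹ ∈ V₁) (hh₂ : (pk85_h3 K M h3)⁻¹ ∈ V₂)
    (n : Ideal ↥(pk15_chart R ({(pk85_h3 K M h3)⁻¹} : Set ↥(modularFunctionFieldFullC K M))))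
    (hn : n.IsPrime)
    (hn₁ : ∀ x : ↥(pk15_chart R ({(pk85_h3 K M h3)⁻¹} : Set ↥(modularFunctionFieldFullC K M))),
      V₁.valuation (x : ↥(modularFunctionFieldFullC K M)) < 1 → x ∈ n)
    (hn₂ : ∀ x : ↥(pk15_chart R ({(pk85_h3 K M h3)⁻¹} : Set ↥(modularFunctionFieldFullC K M))),
      V₂.valuation (x : ↥(modularFunctionFieldFullC K M)) < 1 → x ∈ n)
    (x : ↥(modularFunctionFieldFullC K M))
    (hx : x ∈ pk15_chart R
      ({pk85_h3 K M h3, (pk85_h3 K M h3)⁻¹} : Set ↥(modularFunctionFieldFullC K M))) :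
    ∃ s : ↥(pk15_chart R ({(pk85_h3 K M h3)⁻¹} : Set ↥(modularFunctionFieldFullC K M))),
      s ∉ n ∧ (s : ↥(modularFunctionFieldFullC K M)) * x ∈
        pk15_chart R ({(pk85_h3 K M h3)⁻¹} : Set ↥(modularFunctionFieldFullC K M)) := by
  have hset : ({pk85_h3 K M h3, (pk85_h3 K M h3)⁻¹} : Set ↥(modularFunctionFieldFullC K M)) =
      {(pk85_h3 K M h3)⁻¹, (pk85_h3 K M h3)⁻¹⁻¹} := by
    rw [inv_inv]
    exact Set.pair_comm _ _
  rw [hset] at hx
  let gB : ↥(pk15_chart R ({(pk85_h3 K M h3)⁻¹} : Set ↥(modularFunctionFieldFullC K M))) :=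
    ⟨(pk85_h3 K M h3)⁻¹, pk15_subset_chart _ (Set.mem_singleton _)⟩
  have hDB : (((1 + algebraMap R _ 27 * gB) * (1 + algebraMap R _ 243 * gB) ^ 3 :
      ↥(pk15_chart R ({(pk85_h3 K M h3)⁻¹} : Set ↥(modularFunctionFieldFullC K M)))) :
      ↥(modularFunctionFieldFullC K M)) =
      (1 + 27 * (pk85_h3 K M h3)⁻¹) * (1 + 243 * (pk85_h3 K M h3)⁻¹) ^ 3 := by
    rw [MulMemClass.coe_mul, SubmonoidClass.coe_pow, AddMemClass.coe_add, AddMemClass.coe_add,
      MulMemClass.coe_mul, MulMemClass.coe_mul, Subalgebra.coe_algebraMap,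
      Subalgebra.coe_algebraMap, map_ofNat, map_ofNat, OneMemClass.coe_one]
  refine cc1_node (R := R) K M q hq (pk85_h3 K M h3)⁻¹ (inv_ne_zero (cc1_h3_ne_zero K M h3)) 1
    le_rfl ((1 + algebraMap R _ 27 * gB) * (1 + algebraMap R _ 243 * gB) ^ 3) ?_ ?_ y hy V₁ V₂
    hRV₁ hRV₂ hh₁ hh₂ hK₁ hK₂ n hn hn₁ hn₂ ?_ x hx
  · rw [MulMemClass.coe_mul, SubmonoidClass.coe_pow, AddMemClass.coe_add, AddMemClass.coe_add,
      MulMemClass.coe_mul, MulMemClass.coe_mul, Subalgebra.coe_algebraMap,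
      Subalgebra.coe_algebraMap, OneMemClass.coe_one]
    exact Subalgebra.mul_mem _
      (Subalgebra.add_mem _ (Subalgebra.one_mem _)
        (Subalgebra.mul_mem _ (Subalgebra.algebraMap_mem _ _)
          (Algebra.subset_adjoin (Set.mem_singleton _))))
      (Subalgebra.pow_mem _ (Subalgebra.add_mem _ (Subalgebra.one_mem _)
        (Subalgebra.mul_mem _ (Subalgebra.algebraMap_mem _ _)
          (Algebra.subset_adjoin (Set.mem_singleton _)))) 3)
  · rw [hDB]
    exact cc1_h3_rel_inv K M h3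
  · intro gB' hgB' hgn hDn
    have e : gB' = gB := Subtype.ext hgB'
    rw [e] at hgn
    rcases hn.mem_or_mem hDn with h1 | h1
    · have h3' := n.sub_mem h1 (n.mul_mem_left (algebraMap R _ 27) hgn)
      rw [add_sub_cancel_right] at h3'
      exact hn.ne_top ((Ideal.eq_top_iff_one n).mpr h3')
    · have h2 := hn.mem_of_pow_mem 3 h1
      have h3' := n.sub_mem h2 (n.mul_mem_left (algebraMap R _ 243) hgn)
      rw [add_sub_cancel_right] at h3'
      exact hn.ne_top ((Ideal.eq_top_iff_one n).mpr h3')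

end cc1_inst

/-! ### The Kronecker congruence on the Gauss valuation ring `V_∞` -/

section cc1_kron

variable {R K : Type} [CommRing R] [IsDomain R] [IsDiscreteValuationRing R] [Field K]
  [Algebra R K] [IsFractionRing R K] (M : ℕ) [NeZero M]
  [Algebra R ↥(modularFunctionFieldFullC K M)]
  [IsScalarTower R K ↥(modularFunctionFieldFullC K M)]

omit [IsDomain R] [IsDiscreteValuationRing R] in
/-- The residue field of a local ring in which the prime `q` is not a unit has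
characteristic `q`. -/
theorem cc1_charP_residue [IsLocalRing R] (q : ℕ) (hq : q.Prime) (hqR : ¬ IsUnit (q : R)) :
    CharP (IsLocalRing.ResidueField R) q := by
  rw [CharP.charP_iff_prime_eq_zero hq]
  have h1 : (q : R) ∈ IsLocalRing.maximalIdeal R := (IsLocalRing.mem_maximalIdeal _).mpr hqR
  have h2 : IsLocalRing.residue R (q : R) = 0 := (IsLocalRing.residue_eq_zero_iff _).mpr h1
  rwa [map_natCast] at h2

/-- **Kronecker on `V_∞`**: if the residue field of `R` has characteristic `q`, then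
`y - j ^ q ∈ π V_∞` for `y = j(Q^q)`. -/
theorem cc1_kron_inf_pi {π : R} (hπ : Irreducible π) (q : ℕ) [NeZero q] [Fact q.Prime]
    [CharP (IsLocalRing.ResidueField R) q] (y : ↥(modularFunctionFieldFullC K M))
    (hy : (y : LaurentSeries K) = qExpand K q (jqModC K)) :
    (algebraMap R ↥(modularFunctionFieldFullC K M) π)⁻¹ * (y - rm90_j K M ^ q) ∈
      cm85_Vinf (K := K) M hπ := by
  have hcoe : ((y - rm90_j K M ^ q : ↥(modularFunctionFieldFullC K M)) : LaurentSeries K) =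
      coeffMap (algebraMap R K) (qExpand R q (jqModC R) - jqModC R ^ q) := by
    rw [map_sub, map_pow, coeffMap_qExpand, coeffMap_jqModC]
    push_cast
    rw [hy]
    rfl
  refine (pk85_gauss M hπ _ _ hcoe).2.mpr ?_
  rw [map_sub, map_pow, coeffMap_qExpand, coeffMap_jqModC]
  have h1 := kc87_jqModC_pow_char (IsLocalRing.ResidueField R) q
  rw [sub_eq_zero]
  exact h1.symm

/-- **Kronecker on `V_∞`**, valuation form: `y - j ^ q ∈ m_{V_∞}`. -/
theorem cc1_kron_inf {π : R} (hπ : Irreducible π) (q : ℕ) [NeZero q] [Fact q.Prime]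
    [CharP (IsLocalRing.ResidueField R) q] (y : ↥(modularFunctionFieldFullC K M))
    (hy : (y : LaurentSeries K) = qExpand K q (jqModC K)) :
    (cm85_Vinf (K := K) M hπ).valuation (y - rm90_j K M ^ q) < 1 := by
  have hconv : algebraMap R ↥(modularFunctionFieldFullC K M) π =
      algebraMap K ↥(modularFunctionFieldFullC K M) (algebraMap R K π) :=
    IsScalarTower.algebraMap_apply R K ↥(modularFunctionFieldFullC K M) π
  refine cc1_val_lt_one_of_pi _ (algebraMap R ↥(modularFunctionFieldFullC K M) π) _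
    ?_ (cc1_kron_inf_pi M hπ q y hy)
  rw [hconv]
  exact gv85_pi_inv_not_mem (IsLocalRing.residue R) π (pk85_res_iff hπ) hπ.ne_zero _ _

end cc1_kron

end Fermat.Agent.S34
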