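import Fermat.Agent.S34.CuspChart1
import Fermat.Agent.S34.DeltaQuot56b
import Fermat.Agent.S34.UVAt17

/-!
# S34 lab, rows 491 / 511 (helper1): `j`, `U`, `V` are regular at every node — CANONICAL frame data

Canonical data of `Iface47c` at level `M' * q` (`q` prime, `q ∤ M'`) over a discrete valuation
ring `R` with fraction field `K` of characteristic zero (`[Algebra K ℚ̄]`), `π` a uniformizer,
`q` not a unit of `R`: `V_∞ = cm85_Vinf (M' * q) hπ`, `V_0 = s34i47c_V0 M' q hq hM' hπ`,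
`h` a Hauptmodul (`s34i47c_IsHaupt K (M' * q) q h`), `B` one of the two charts
`pk15_chart R {h}`, `pk15_chart R {h⁻¹}`.  "`n` lies on the branch `V`" is the unfolded
`OnBr V n := ∀ x : B, π⁻¹ * x ∈ V → x ∈ n` of registry row 470.

* `cf1_algebraMap_mem_V0`, `cf1_hmax_V0`, `cf1_mem_V0_of_series`, `cf1_h2_mem_V0`,
  `cf1_h3_mem_V0` : the facts on `V_0` needed below (`R ⊆ V_0`, `m_{V_0} = π V_0`,
  `h, h⁻¹ ∈ V_0`).
* `cf1_kron` : the two Kronecker congruences `j(Q^q) - j^q ∈ m_{V_∞}`, `j(Q^q)^q - j ∈ m_{V_0}`.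
* `cf1_reg`, `cf1_reg'` : at a prime `n` of the chart `R[h]~` (resp. `R[h⁻¹]~`) on both branches,
  every element of the big chart `R[h, h⁻¹]~` is regular (`∃ s ∉ n, s * x ∈ B`).
* `cf1_hj`, `cf1_hj'` : the LITERAL hypothesis `hj` of `uv17_UVAt` (helper17) for both charts:
  `j` is regular at every node.
* `cf1_UVAt`, `cf1_UVAt'` : the LITERAL `huv` (`sf79_UVAt`) of `nl71_locStr_sf` (helper71) for both
  charts, with `V₁ = V_∞`, `V₂ = V_0`: at every node there are `u v s : B`, `e ≥ 1` with `s ∉ n`,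
  `u * v = π ^ e * s`, `π⁻¹ u ∉ V_∞`, `π⁻¹ v ∉ V_0` (from `dq56b_main`, helper56, and `uv17_UVAt`).
-/

set_option autoImplicit false
set_option linter.unusedSectionVars false
set_option linter.style.haveILetI false

open ModularCurve AlgebraicCurve

namespace Fermat.Agent.S34

open Fermat.Agent.S18 Fermat.Agent.S24 Fermat.Agent.S28 Fermat.Agent.S37

local notation "Q̄" => AlgebraicClosure ℚ

section cf1

variable {R K : Type} [CommRing R] [IsDomain R] [IsDiscreteValuationRing R] [Field K] [CharZero K]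
  [Algebra R K] [IsFractionRing R K] [Algebra K Q̄]
  (M' q : ℕ) [NeZero M'] [NeZero q] (hq : q.Prime) (hM' : ¬ q ∣ M')
  [Algebra R ↥(modularFunctionFieldFullC K (M' * q))]
  [IsScalarTower R K ↥(modularFunctionFieldFullC K (M' * q))]
  {π : R} (hπ : Irreducible π)

/-! ### Facts on `V_0` -/

/-- `w` fixes the constants of `R`. -/
theorem cf1_w_algebraMap (r : R) :
    al97L_w (algebraMap K Q̄) M' q hq hM'
        (algebraMap R ↥(modularFunctionFieldFullC K (M' * q)) r) =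
      algebraMap R ↥(modularFunctionFieldFullC K (M' * q)) r := by
  rw [IsScalarTower.algebraMap_apply R K ↥(modularFunctionFieldFullC K (M' * q)),
    AlgEquiv.commutes]

/-- `R ⊆ V_0`. -/
theorem cf1_algebraMap_mem_V0 (r : R) :
    algebraMap R ↥(modularFunctionFieldFullC K (M' * q)) r ∈
      s34i47c_V0 (K := K) M' q hq hM' hπ := by
  rw [s34i47c_mem_V0, cf1_w_algebraMap]
  exact pk85_hRV (M' * q) hπ r

/-- `π⁻¹ ∉ V_∞`. -/
theorem cf1_pi_inv_not_mem_Vinf :
    (algebraMap R ↥(modularFunctionFieldFullC K (M' * q)) π)⁻¹ ∉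
      cm85_Vinf (K := K) (M' * q) hπ := by
  rw [IsScalarTower.algebraMap_apply R K ↥(modularFunctionFieldFullC K (M' * q))]
  exact gv85_pi_inv_not_mem (IsLocalRing.residue R) π (pk85_res_iff hπ) hπ.ne_zero _ _

/-- `m_{V_∞} = π V_∞`. -/
theorem cf1_hmax_Vinf (x : ↥(modularFunctionFieldFullC K (M' * q)))
    (hx : x ∈ cm85_Vinf (K := K) (M' * q) hπ) (hx' : x⁻¹ ∉ cm85_Vinf (K := K) (M' * q) hπ) :
    (algebraMap R ↥(modularFunctionFieldFullC K (M' * q)) π)⁻¹ * x ∈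
      cm85_Vinf (K := K) (M' * q) hπ := by
  rw [IsScalarTower.algebraMap_apply R K ↥(modularFunctionFieldFullC K (M' * q))]
  exact gv85_hmax (IsLocalRing.residue R) π (pk85_res_iff hπ) hπ.ne_zero _ _ x hx hx'

/-- `m_{V_0} = π V_0`. -/
theorem cf1_hmax_V0 (x : ↥(modularFunctionFieldFullC K (M' * q)))
    (hx : x ∈ s34i47c_V0 (K := K) M' q hq hM' hπ)
    (hx' : x⁻¹ ∉ s34i47c_V0 (K := K) M' q hq hM' hπ) :
    (algebraMap R ↥(modularFunctionFieldFullC K (M' * q)) π)⁻¹ * x ∈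
      s34i47c_V0 (K := K) M' q hq hM' hπ := by
  rw [s34i47c_mem_V0] at hx hx' ⊢
  rw [map_inv₀] at hx'
  rw [map_mul, map_inv₀, cf1_w_algebraMap]
  exact cf1_hmax_Vinf M' q hπ _ hx hx'

/-- An element of `F_K(M' q)` coming from level `M'` with an `R`-integral `q`-expansion lies in
`V_0`. -/
theorem cf1_mem_V0_of_series (x' : ↥(modularFunctionFieldFullC K M'))
    (x : ↥(modularFunctionFieldFullC K (M' * q)))
    (hx : (x : LaurentSeries K) = (x' : LaurentSeries K)) (yR : LaurentSeries R)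
    (hy : (x' : LaurentSeries K) = coeffMap (algebraMap R K) yR) :
    x ∈ s34i47c_V0 (K := K) M' q hq hM' hπ := by
  rw [s34i47c_mem_V0]
  refine (pk85_gauss (M' * q) hπ _ (qExpand R q yR) ?_).1
  rw [al97L_w_alpha (algebraMap K Q̄) M' q hq hM' x' x hx, hy, coeffMap_qExpand]

/-- The level 2 Hauptmodul and its inverse lie in `V_0`. -/
theorem cf1_h2_mem_V0 (h2 : 2 ∣ M' * q) (hq2 : q ≠ 2) :
    pk85_h2 K (M' * q) h2 ∈ s34i47c_V0 (K := K) M' q hq hM' hπ ∧
      (pk85_h2 K (M' * q) h2)⁻¹ ∈ s34i47c_V0 (K := K) M' q hq hM' hπ := by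
  have h2' : 2 ∣ M' :=
    Nat.Coprime.dvd_of_dvd_mul_right ((Nat.coprime_primes Nat.prime_two hq).mpr (Ne.symm hq2)) h2
  constructor
  · exact cf1_mem_V0_of_series M' q hq hM' hπ (pk85_h2 K M' h2') _
      ((pk85_h2_coe K (M' * q) h2).trans (pk85_h2_coe K M' h2').symm) (h70_h2 R)
      ((pk85_h2_coe K M' h2').trans (h70_coeffMap_h2 (algebraMap R K)).symm)
  · refine cf1_mem_V0_of_series M' q hq hM' hπ (pk85_h2 K M' h2')⁻¹ _ ?_ (h70_h2inv R) ?_
    · rw [IntermediateField.coe_inv, IntermediateField.coe_inv, pk85_h2_coe, pk85_h2_coe]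
    · have h1 : coeffMap (algebraMap R K) (h70_h2 R) * coeffMap (algebraMap R K) (h70_h2inv R) =
          1 := by
        rw [← map_mul, h70_h2_mul_h2inv, map_one]
      rw [IntermediateField.coe_inv, pk85_h2_coe, ← h70_coeffMap_h2 (algebraMap R K)]
      exact inv_eq_of_mul_eq_one_right h1

/-- The level 3 Hauptmodul and its inverse lie in `V_0`. -/
theorem cf1_h3_mem_V0 (h3 : 3 ∣ M' * q) (hq3 : q ≠ 3) :
    pk85_h3 K (M' * q) h3 ∈ s34i47c_V0 (K := K) M' q hq hM' hπ ∧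
      (pk85_h3 K (M' * q) h3)⁻¹ ∈ s34i47c_V0 (K := K) M' q hq hM' hπ := by
  have h3' : 3 ∣ M' :=
    Nat.Coprime.dvd_of_dvd_mul_right
      ((Nat.coprime_primes Nat.prime_three hq).mpr (Ne.symm hq3)) h3
  constructor
  · exact cf1_mem_V0_of_series M' q hq hM' hπ (pk85_h3 K M' h3') _
      ((pk85_h3_coe K (M' * q) h3).trans (pk85_h3_coe K M' h3').symm) (h34_h3R R)
      ((pk85_h3_coe K M' h3').trans (h34_coeffMap_h3R (algebraMap R K)).symm)
  · refine cf1_mem_V0_of_series M' q hq hM' hπ (pk85_h3 K M' h3')⁻¹ _ ?_ (h34_h3Rinv R) ?_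
    · rw [IntermediateField.coe_inv, IntermediateField.coe_inv, pk85_h3_coe, pk85_h3_coe]
    · have h1 : coeffMap (algebraMap R K) (h34_h3R R) *
          coeffMap (algebraMap R K) (h34_h3Rinv R) = 1 := by
        rw [← map_mul, h34_h3R_mul_inv, map_one]
      rw [IntermediateField.coe_inv, pk85_h3_coe, ← h34_coeffMap_h3R (algebraMap R K)]
      exact inv_eq_of_mul_eq_one_right h1

/-! ### The Kronecker congruences on the two branches -/

/-- **Kronecker** on `V_∞` and on `V_0`: `j(Q^q) - j^q ∈ m_{V_∞}` and `j(Q^q)^q - j ∈ m_{V_0}`. -/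
theorem cf1_kron (hqR : ¬ IsUnit (q : R)) :
    (cm85_Vinf (K := K) (M' * q) hπ).valuation
        (dq56b_jq (K := K) M' q - rm90_j K (M' * q) ^ q) < 1 ∧
      (s34i47c_V0 (K := K) M' q hq hM' hπ).valuation
        (dq56b_jq (K := K) M' q ^ q - rm90_j K (M' * q)) < 1 := by
  haveI : Fact q.Prime := ⟨hq⟩
  haveI : CharP (IsLocalRing.ResidueField R) q := cc1_charP_residue q hq hqR
  have hK₁ := cc1_kron_inf (K := K) (M' * q) hπ q (dq56b_jq (K := K) M' q) rfl
  refine ⟨hK₁, ?_⟩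
  exact cc1_kron_comap (cm85_Vinf (K := K) (M' * q) hπ)
    ((al97L_w (algebraMap K Q̄) M' q hq hM' :
      ↥(modularFunctionFieldFullC K (M' * q)) ≃ₐ[K] ↥(modularFunctionFieldFullC K (M' * q))) :
      ↥(modularFunctionFieldFullC K (M' * q)) →+* ↥(modularFunctionFieldFullC K (M' * q)))
    (rm90_j K (M' * q)) (dq56b_jq (K := K) M' q) q (dq56b_w_j M' q hq hM')
    (dq56b_w_jq M' q hq hM') hK₁

/-! ### Centres: from the `π`-form to the valuation form -/

theorem cf1_centre_inf (B : Subalgebra R ↥(modularFunctionFieldFullC K (M' * q))) (n : Ideal B)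
    (h1 : ∀ x : B, (algebraMap R ↥(modularFunctionFieldFullC K (M' * q)) π)⁻¹ *
      (x : ↥(modularFunctionFieldFullC K (M' * q))) ∈ cm85_Vinf (K := K) (M' * q) hπ → x ∈ n) :
    ∀ x : B, (cm85_Vinf (K := K) (M' * q) hπ).valuation
      (x : ↥(modularFunctionFieldFullC K (M' * q))) < 1 → x ∈ n :=
  cc1_centre_of_pi (cm85_Vinf (K := K) (M' * q) hπ) _ (cf1_hmax_Vinf M' q hπ)
    B.val.toRingHom n h1

theorem cf1_centre_zero (B : Subalgebra R ↥(modularFunctionFieldFullC K (M' * q))) (n : Ideal B)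
    (h2 : ∀ x : B, (algebraMap R ↥(modularFunctionFieldFullC K (M' * q)) π)⁻¹ *
      (x : ↥(modularFunctionFieldFullC K (M' * q))) ∈ s34i47c_V0 (K := K) M' q hq hM' hπ →
        x ∈ n) :
    ∀ x : B, (s34i47c_V0 (K := K) M' q hq hM' hπ).valuation
      (x : ↥(modularFunctionFieldFullC K (M' * q))) < 1 → x ∈ n :=
  cc1_centre_of_pi (s34i47c_V0 (K := K) M' q hq hM' hπ) _ (cf1_hmax_V0 M' q hq hM' hπ)
    B.val.toRingHom n h2

/-! ### Regularity at the nodes -/

/-- **Regularity at the nodes, chart `R[h]~`.**  At a prime `n` on both branches every element of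
the big chart `R[h, h⁻¹]~` is regular. -/
theorem cf1_reg (hunit : ∀ n : ℕ, Nat.Coprime n q → IsUnit (n : R)) (hqR : ¬ IsUnit (q : R))
    (h : ↥(modularFunctionFieldFullC K (M' * q))) (hh : s34i47c_IsHaupt K (M' * q) q h)
    (n : Ideal ↥(pk15_chart R ({h} : Set ↥(modularFunctionFieldFullC K (M' * q))))) (hn : n.IsPrime)
    (h1 : ∀ x : ↥(pk15_chart R ({h} : Set ↥(modularFunctionFieldFullC K (M' * q)))),
      (algebraMap R ↥(modularFunctionFieldFullC K (M' * q)) π)⁻¹ *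
        (x : ↥(modularFunctionFieldFullC K (M' * q))) ∈ cm85_Vinf (K := K) (M' * q) hπ → x ∈ n)
    (h2 : ∀ x : ↥(pk15_chart R ({h} : Set ↥(modularFunctionFieldFullC K (M' * q)))),
      (algebraMap R ↥(modularFunctionFieldFullC K (M' * q)) π)⁻¹ *
        (x : ↥(modularFunctionFieldFullC K (M' * q))) ∈ s34i47c_V0 (K := K) M' q hq hM' hπ → x ∈ n)
    (x : ↥(modularFunctionFieldFullC K (M' * q)))
    (hx : x ∈ pk15_chart R ({h, h⁻¹} : Set ↥(modularFunctionFieldFullC K (M' * q)))) :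
    ∃ s : ↥(pk15_chart R ({h} : Set ↥(modularFunctionFieldFullC K (M' * q)))), s ∉ n ∧
      (s : ↥(modularFunctionFieldFullC K (M' * q))) * x ∈ pk15_chart R ({h} : Set ↥(modularFunctionFieldFullC K (M' * q))) := by
  obtain ⟨hK₁, hK₂⟩ := cf1_kron (K := K) M' q hq hM' hπ hqR
  rcases hh with ⟨hq2, hdiv, rfl⟩ | ⟨hq3, hdiv, rfl⟩
  · have hu : IsUnit (2 : R) := by
      have := hunit 2 ((Nat.coprime_primes Nat.prime_two hq).mpr (Ne.symm hq2))
      rwa [Nat.cast_ofNat] at this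
    obtain ⟨-, -, -, -, hhV, hhV', -⟩ := cm85_facts_level2 (R := R) (K := K) (M' * q) hπ hdiv
    exact cc1_node_level2 (R := R) K (M' * q) q hq (dq56b_jq (K := K) M' q) rfl _ _
      (pk85_hRV (M' * q) hπ) (cf1_algebraMap_mem_V0 M' q hq hM' hπ) hK₁ hK₂ hdiv hu hhV
      (cf1_h2_mem_V0 M' q hq hM' hπ hdiv hq2).1 n hn (cf1_centre_inf M' q hπ _ n h1)
      (cf1_centre_zero M' q hq hM' hπ _ n h2) x hx
  · have hu : IsUnit (3 : R) := by
      have := hunit 3 ((Nat.coprime_primes Nat.prime_three hq).mpr (Ne.symm hq3))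
      rwa [Nat.cast_ofNat] at this
    obtain ⟨-, -, -, -, hhV, hhV', -⟩ := cm85_facts_level3 (R := R) (K := K) (M' * q) hπ hdiv
    exact cc1_node_level3 (R := R) K (M' * q) q hq (dq56b_jq (K := K) M' q) rfl _ _
      (pk85_hRV (M' * q) hπ) (cf1_algebraMap_mem_V0 M' q hq hM' hπ) hK₁ hK₂ hdiv hu hhV
      (cf1_h3_mem_V0 M' q hq hM' hπ hdiv hq3).1 n hn (cf1_centre_inf M' q hπ _ n h1)
      (cf1_centre_zero M' q hq hM' hπ _ n h2) x hx

/-- **Regularity at the nodes, chart `R[h⁻¹]~`.**  At a prime `n` on both branches every element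
of the big chart `R[h, h⁻¹]~` is regular. -/
theorem cf1_reg' (hunit : ∀ n : ℕ, Nat.Coprime n q → IsUnit (n : R)) (hqR : ¬ IsUnit (q : R))
    (h : ↥(modularFunctionFieldFullC K (M' * q))) (hh : s34i47c_IsHaupt K (M' * q) q h)
    (n : Ideal ↥(pk15_chart R ({h⁻¹} : Set ↥(modularFunctionFieldFullC K (M' * q))))) (hn : n.IsPrime)
    (h1 : ∀ x : ↥(pk15_chart R ({h⁻¹} : Set ↥(modularFunctionFieldFullC K (M' * q)))),
      (algebraMap R ↥(modularFunctionFieldFullC K (M' * q)) π)⁻¹ *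
        (x : ↥(modularFunctionFieldFullC K (M' * q))) ∈ cm85_Vinf (K := K) (M' * q) hπ → x ∈ n)
    (h2 : ∀ x : ↥(pk15_chart R ({h⁻¹} : Set ↥(modularFunctionFieldFullC K (M' * q)))),
      (algebraMap R ↥(modularFunctionFieldFullC K (M' * q)) π)⁻¹ *
        (x : ↥(modularFunctionFieldFullC K (M' * q))) ∈ s34i47c_V0 (K := K) M' q hq hM' hπ → x ∈ n)
    (x : ↥(modularFunctionFieldFullC K (M' * q)))
    (hx : x ∈ pk15_chart R ({h, h⁻¹} : Set ↥(modularFunctionFieldFullC K (M' * q)))) :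
    ∃ s : ↥(pk15_chart R ({h⁻¹} : Set ↥(modularFunctionFieldFullC K (M' * q)))), s ∉ n ∧
      (s : ↥(modularFunctionFieldFullC K (M' * q))) * x ∈ pk15_chart R ({h⁻¹} : Set ↥(modularFunctionFieldFullC K (M' * q))) := by
  obtain ⟨hK₁, hK₂⟩ := cf1_kron (K := K) M' q hq hM' hπ hqR
  rcases hh with ⟨hq2, hdiv, rfl⟩ | ⟨hq3, hdiv, rfl⟩
  · have hu : IsUnit (2 : R) := by
      have := hunit 2 ((Nat.coprime_primes Nat.prime_two hq).mpr (Ne.symm hq2))
      rwa [Nat.cast_ofNat] at this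
    obtain ⟨-, -, -, -, hhV, hhV', -⟩ := cm85_facts_level2 (R := R) (K := K) (M' * q) hπ hdiv
    exact cc1_node_level2' (R := R) K (M' * q) q hq (dq56b_jq (K := K) M' q) rfl _ _
      (pk85_hRV (M' * q) hπ) (cf1_algebraMap_mem_V0 M' q hq hM' hπ) hK₁ hK₂ hdiv hhV'
      (cf1_h2_mem_V0 M' q hq hM' hπ hdiv hq2).2 n hn (cf1_centre_inf M' q hπ _ n h1)
      (cf1_centre_zero M' q hq hM' hπ _ n h2) x hx
  · have hu : IsUnit (3 : R) := by
      have := hunit 3 ((Nat.coprime_primes Nat.prime_three hq).mpr (Ne.symm hq3))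
      rwa [Nat.cast_ofNat] at this
    obtain ⟨-, -, -, -, hhV, hhV', -⟩ := cm85_facts_level3 (R := R) (K := K) (M' * q) hπ hdiv
    exact cc1_node_level3' (R := R) K (M' * q) q hq (dq56b_jq (K := K) M' q) rfl _ _
      (pk85_hRV (M' * q) hπ) (cf1_algebraMap_mem_V0 M' q hq hM' hπ) hK₁ hK₂ hdiv hhV'
      (cf1_h3_mem_V0 M' q hq hM' hπ hdiv hq3).2 n hn (cf1_centre_inf M' q hπ _ n h1)
      (cf1_centre_zero M' q hq hM' hπ _ n h2) x hx

/-! ### The literal `hj` of `uv17_UVAt` -/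

/-- **`j` is regular at every node, chart `R[h]~`** (the literal hypothesis `hj` of `uv17_UVAt` on the
canonical frame data). -/
theorem cf1_hj (hunit : ∀ n : ℕ, Nat.Coprime n q → IsUnit (n : R)) (hqR : ¬ IsUnit (q : R))
    (h : ↥(modularFunctionFieldFullC K (M' * q))) (hh : s34i47c_IsHaupt K (M' * q) q h) :
    ∀ n : Ideal ↥(pk15_chart R ({h} : Set ↥(modularFunctionFieldFullC K (M' * q)))), n.IsMaximal →
      algebraMap R ↥(pk15_chart R ({h} : Set ↥(modularFunctionFieldFullC K (M' * q)))) π ∈ n →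
      (∀ x : ↥(pk15_chart R ({h} : Set ↥(modularFunctionFieldFullC K (M' * q)))),
      (algebraMap R ↥(modularFunctionFieldFullC K (M' * q)) π)⁻¹ *
        (x : ↥(modularFunctionFieldFullC K (M' * q))) ∈ cm85_Vinf (K := K) (M' * q) hπ → x ∈ n) →
      (∀ x : ↥(pk15_chart R ({h} : Set ↥(modularFunctionFieldFullC K (M' * q)))),
      (algebraMap R ↥(modularFunctionFieldFullC K (M' * q)) π)⁻¹ *
        (x : ↥(modularFunctionFieldFullC K (M' * q))) ∈ s34i47c_V0 (K := K) M' q hq hM' hπ → x ∈ n) →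
      ∃ s : ↥(pk15_chart R ({h} : Set ↥(modularFunctionFieldFullC K (M' * q)))), s ∉ n ∧
        (s : ↥(modularFunctionFieldFullC K (M' * q))) * rm90_j K (M' * q) ∈
          pk15_chart R ({h} : Set ↥(modularFunctionFieldFullC K (M' * q))) := by
  intro n hn _ h1 h2
  refine cf1_reg M' q hq hM' hπ hunit hqR h hh n hn.isPrime h1 h2 _ ?_
  rcases hh with ⟨-, hdiv, rfl⟩ | ⟨-, hdiv, rfl⟩
  · exact cc1_adjoin_le_chart _ (uvi75_j_mem_adjoin2 (R := R) K (M' * q) hdiv)
  · exact cc1_adjoin_le_chart _ (uvi75_j_mem_adjoin3 (R := R) K (M' * q) hdiv)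

/-- **`j` is regular at every node, chart `R[h⁻¹]~`** (the literal hypothesis `hj` of `uv17_UVAt` on
the canonical frame data). -/
theorem cf1_hj' (hunit : ∀ n : ℕ, Nat.Coprime n q → IsUnit (n : R)) (hqR : ¬ IsUnit (q : R))
    (h : ↥(modularFunctionFieldFullC K (M' * q))) (hh : s34i47c_IsHaupt K (M' * q) q h) :
    ∀ n : Ideal ↥(pk15_chart R ({h⁻¹} : Set ↥(modularFunctionFieldFullC K (M' * q)))), n.IsMaximal →
      algebraMap R ↥(pk15_chart R ({h⁻¹} : Set ↥(modularFunctionFieldFullC K (M' * q)))) π ∈ n →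
      (∀ x : ↥(pk15_chart R ({h⁻¹} : Set ↥(modularFunctionFieldFullC K (M' * q)))),
      (algebraMap R ↥(modularFunctionFieldFullC K (M' * q)) π)⁻¹ *
        (x : ↥(modularFunctionFieldFullC K (M' * q))) ∈ cm85_Vinf (K := K) (M' * q) hπ → x ∈ n) →
      (∀ x : ↥(pk15_chart R ({h⁻¹} : Set ↥(modularFunctionFieldFullC K (M' * q)))),
      (algebraMap R ↥(modularFunctionFieldFullC K (M' * q)) π)⁻¹ *
        (x : ↥(modularFunctionFieldFullC K (M' * q))) ∈ s34i47c_V0 (K := K) M' q hq hM' hπ → x ∈ n) →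
      ∃ s : ↥(pk15_chart R ({h⁻¹} : Set ↥(modularFunctionFieldFullC K (M' * q)))), s ∉ n ∧
        (s : ↥(modularFunctionFieldFullC K (M' * q))) * rm90_j K (M' * q) ∈
          pk15_chart R ({h⁻¹} : Set ↥(modularFunctionFieldFullC K (M' * q))) := by
  intro n hn _ h1 h2
  refine cf1_reg' M' q hq hM' hπ hunit hqR h hh n hn.isPrime h1 h2 _ ?_
  rcases hh with ⟨-, hdiv, rfl⟩ | ⟨-, hdiv, rfl⟩
  · exact cc1_adjoin_le_chart _ (uvi75_j_mem_adjoin2 (R := R) K (M' * q) hdiv)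
  · exact cc1_adjoin_le_chart _ (uvi75_j_mem_adjoin3 (R := R) K (M' * q) hdiv)

/-! ### The literal `huv` (`sf79_UVAt`) of `nl71_locStr_sf` -/

/-- **`UVAt`, chart `R[h]~`** (the literal `huv` of `nl71_locStr_sf` with `V₁ = V_∞`, `V₂ = V_0`). -/
theorem cf1_UVAt (hunit : ∀ n : ℕ, Nat.Coprime n q → IsUnit (n : R)) (hqR : ¬ IsUnit (q : R))
    (h : ↥(modularFunctionFieldFullC K (M' * q))) (hh : s34i47c_IsHaupt K (M' * q) q h) :
    ∀ n : Ideal ↥(pk15_chart R ({h} : Set ↥(modularFunctionFieldFullC K (M' * q)))), n.IsMaximal →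
      algebraMap R ↥(pk15_chart R ({h} : Set ↥(modularFunctionFieldFullC K (M' * q)))) π ∈ n →
      (∀ x : ↥(pk15_chart R ({h} : Set ↥(modularFunctionFieldFullC K (M' * q)))),
      (algebraMap R ↥(modularFunctionFieldFullC K (M' * q)) π)⁻¹ *
        (x : ↥(modularFunctionFieldFullC K (M' * q))) ∈ cm85_Vinf (K := K) (M' * q) hπ → x ∈ n) →
      (∀ x : ↥(pk15_chart R ({h} : Set ↥(modularFunctionFieldFullC K (M' * q)))),
      (algebraMap R ↥(modularFunctionFieldFullC K (M' * q)) π)⁻¹ *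
        (x : ↥(modularFunctionFieldFullC K (M' * q))) ∈ s34i47c_V0 (K := K) M' q hq hM' hπ → x ∈ n) →
      ∃ (u v s : ↥(pk15_chart R ({h} : Set ↥(modularFunctionFieldFullC K (M' * q))))) (e : ℕ),
        s ∉ n ∧ 1 ≤ e ∧
        u * v = (algebraMap R ↥(pk15_chart R ({h} : Set ↥(modularFunctionFieldFullC K (M' * q)))) π) ^ e * s ∧
        (algebraMap R ↥(modularFunctionFieldFullC K (M' * q)) π)⁻¹ *
          (u : ↥(modularFunctionFieldFullC K (M' * q))) ∉ cm85_Vinf (K := K) (M' * q) hπ ∧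
        (algebraMap R ↥(modularFunctionFieldFullC K (M' * q)) π)⁻¹ *
          (v : ↥(modularFunctionFieldFullC K (M' * q))) ∉ s34i47c_V0 (K := K) M' q hq hM' hπ := by
  obtain ⟨U, V, e, ε, hε, he, hUV, hUint, hVint, -, -, -, -, -, -, hUinv, hVinv⟩ :=
    dq56b_main (K := K) M' q hq hM' hπ hqR
  have hπ0 : algebraMap R ↥(modularFunctionFieldFullC K (M' * q)) π ≠ 0 := by
    rw [IsScalarTower.algebraMap_apply R K ↥(modularFunctionFieldFullC K (M' * q))]
    intro h0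
    have h1 : algebraMap R K π = 0 :=
      (map_eq_zero (algebraMap K ↥(modularFunctionFieldFullC K (M' * q)))).mp h0
    exact hπ.ne_zero ((map_eq_zero_iff _ (IsFractionRing.injective R K)).mp h1)
  exact uv17_UVAt π hπ0 _ (uv17_chart_intClosed _) _ _ (rm90_j K (M' * q)) U V hUint hVint e he ε
    hε hUV hUinv hVinv (cf1_hj M' q hq hM' hπ hunit hqR h hh)

/-- **`UVAt`, chart `R[h⁻¹]~`** (the literal `huv` of `nl71_locStr_sf` with `V₁ = V_∞`, `V₂ = V_0`). -/
theorem cf1_UVAt' (hunit : ∀ n : ℕ, Nat.Coprime n q → IsUnit (n : R)) (hqR : ¬ IsUnit (q : R))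
    (h : ↥(modularFunctionFieldFullC K (M' * q))) (hh : s34i47c_IsHaupt K (M' * q) q h) :
    ∀ n : Ideal ↥(pk15_chart R ({h⁻¹} : Set ↥(modularFunctionFieldFullC K (M' * q)))), n.IsMaximal →
      algebraMap R ↥(pk15_chart R ({h⁻¹} : Set ↥(modularFunctionFieldFullC K (M' * q)))) π ∈ n →
      (∀ x : ↥(pk15_chart R ({h⁻¹} : Set ↥(modularFunctionFieldFullC K (M' * q)))),
      (algebraMap R ↥(modularFunctionFieldFullC K (M' * q)) π)⁻¹ *
        (x : ↥(modularFunctionFieldFullC K (M' * q))) ∈ cm85_Vinf (K := K) (M' * q) hπ → x ∈ n) →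
      (∀ x : ↥(pk15_chart R ({h⁻¹} : Set ↥(modularFunctionFieldFullC K (M' * q)))),
      (algebraMap R ↥(modularFunctionFieldFullC K (M' * q)) π)⁻¹ *
        (x : ↥(modularFunctionFieldFullC K (M' * q))) ∈ s34i47c_V0 (K := K) M' q hq hM' hπ → x ∈ n) →
      ∃ (u v s : ↥(pk15_chart R ({h⁻¹} : Set ↥(modularFunctionFieldFullC K (M' * q))))) (e : ℕ),
        s ∉ n ∧ 1 ≤ e ∧
        u * v = (algebraMap R ↥(pk15_chart R ({h⁻¹} : Set ↥(modularFunctionFieldFullC K (M' * q)))) π) ^ e * s ∧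
        (algebraMap R ↥(modularFunctionFieldFullC K (M' * q)) π)⁻¹ *
          (u : ↥(modularFunctionFieldFullC K (M' * q))) ∉ cm85_Vinf (K := K) (M' * q) hπ ∧
        (algebraMap R ↥(modularFunctionFieldFullC K (M' * q)) π)⁻¹ *
          (v : ↥(modularFunctionFieldFullC K (M' * q))) ∉ s34i47c_V0 (K := K) M' q hq hM' hπ := by
  obtain ⟨U, V, e, ε, hε, he, hUV, hUint, hVint, -, -, -, -, -, -, hUinv, hVinv⟩ :=
    dq56b_main (K := K) M' q hq hM' hπ hqR
  have hπ0 : algebraMap R ↥(modularFunctionFieldFullC K (M' * q)) π ≠ 0 := by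
    rw [IsScalarTower.algebraMap_apply R K ↥(modularFunctionFieldFullC K (M' * q))]
    intro h0
    have h1 : algebraMap R K π = 0 :=
      (map_eq_zero (algebraMap K ↥(modularFunctionFieldFullC K (M' * q)))).mp h0
    exact hπ.ne_zero ((map_eq_zero_iff _ (IsFractionRing.injective R K)).mp h1)
  exact uv17_UVAt π hπ0 _ (uv17_chart_intClosed _) _ _ (rm90_j K (M' * q)) U V hUint hVint e he ε
    hε hUV hUinv hVinv (cf1_hj' M' q hq hM' hπ hunit hqR h hh)

end cf1

end Fermat.Agent.S34
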