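import Fermat.Agent.S34.CuspInst22
import Fermat.Agent.S34.FrameGlue15

/-!
# S34 lab, row P3c + P3d (helper22): cusps are not nodes, for the canonical frame

Level `M' * q` (`q` prime, `q ∤ M'`), `V_∞ = cm85_Vinf (M' * q) hπ`, `V_0 = cm15_V0 φ M' q hq hqM hπ`
(FrameGlue15), `j = rm90_j K (M' * q)`, `y = ci22_y K (M' * q) q _ = j(Q^q)`.

* `cf22_w_j`, `cf22_w_y` : `w j = y`, `w y = j`;
* `cf22_V0_j`, `cf22_V0_kron`, `cf22_V0_hmax` : `j` is a unit of `V_0`,
  `π⁻¹ (y ^ q - j) ∈ V_0`, `m_{V_0} = π V_0`; `cf22_Vinf_hmax` : `m_{V_∞} = π V_∞`;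
* `cf22_chart` : for a chart `B = pk15_chart R s` with `s ⊆ V_∞ ∩ V_0` and a prime `n` of `B` with
  `B ∩ π V_∞ ⊆ n` and `B ∩ π V_0 ⊆ n` (a NODE, in the literal shape of `ls63_locStr`): given the
  chart dichotomy at `n`, `j` is regular at `n`: `∃ a b : B, a ∉ n ∧ a * j = b`;
* `cf22_level2`, `cf22_level2_inv`, `cf22_level3`, `cf22_level3_inv` : the four charts of the frame
  (`h = pk85_h2 K (M' * q) _` resp. `pk85_h3 K (M' * q) _`), no hypothesis left except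
  `IsUnit (2 : R)` resp. `IsUnit (3 : R)` for the chart `{h}`;
* `cf22_integral_level2`, ... : every `x` which is a root of a monic `Ψ ∈ ℤ[Y][X]` at `Y = j`
  (e.g. the modular units `U`, `V` of P4') is regular at every node: `∃ a b : B, a ∉ n ∧ a * x = b`.
-/

set_option autoImplicit false
set_option linter.unusedSectionVars false
set_option linter.style.haveILetI false

open ModularCurve

namespace Fermat.Agent.S34

open Fermat.Agent.S18 Fermat.Agent.S24

local notation "Q̄" => AlgebraicClosure ℚ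

noncomputable section

section Frame

variable {R K : Type} [CommRing R] [IsDomain R] [IsDiscreteValuationRing R] [Field K] [CharZero K]
  [Algebra R K] [IsFractionRing R K] (φ : K →+* Q̄)
  (M' q : ℕ) [NeZero M'] [NeZero q] (hq : q.Prime) (hqM : ¬ q ∣ M')

/-- `w j = y`. -/
theorem cf22_w_j :
    al97L_w φ M' q hq hqM (rm90_j K (M' * q)) = ci22_y K (M' * q) q (dvd_mul_left q M') :=
  Subtype.ext (al97L_w_alpha φ M' q hq hqM (rm90_j K M') _ rfl)

/-- `w y = j`. -/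
theorem cf22_w_y :
    al97L_w φ M' q hq hqM (ci22_y K (M' * q) q (dvd_mul_left q M')) = rm90_j K (M' * q) :=
  Subtype.ext (al97L_w_beta φ M' q hq hqM (rm90_j K M') _ rfl)

variable [Algebra R ↥(modularFunctionFieldFullC K (M' * q))]
  [IsScalarTower R K ↥(modularFunctionFieldFullC K (M' * q))]

/-- `j` is a unit of `V_0`. -/
theorem cf22_V0_j {π : R} (hπ : Irreducible π) :
    rm90_j K (M' * q) ∈ cm15_V0 φ M' q hq hqM hπ ∧
      (rm90_j K (M' * q))⁻¹ ∈ cm15_V0 φ M' q hq hqM hπ := by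
  constructor
  · rw [cm15_mem_V0, cf22_w_j]
    exact (ci22_Vinf_y (M' * q) q hπ _).1
  · rw [cm15_mem_V0, map_inv₀, cf22_w_j]
    exact (ci22_Vinf_y (M' * q) q hπ _).2

/-- **Kronecker's congruence on `V_0`**: `π⁻¹ (y ^ q - j) ∈ V_0`. -/
theorem cf22_V0_kron {π : R} (hπ : Irreducible π) (hqR : ¬ IsUnit (q : R)) :
    (algebraMap R ↥(modularFunctionFieldFullC K (M' * q)) π)⁻¹ *
      (ci22_y K (M' * q) q (dvd_mul_left q M') ^ q - rm90_j K (M' * q)) ∈
        cm15_V0 φ M' q hq hqM hπ := by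
  rw [cm15_mem_V0, map_mul, map_inv₀, cm15_w_algebraMap, map_sub, map_pow, cf22_w_y, cf22_w_j]
  exact ci22_Vinf_kron (M' * q) q hπ hq hqR _

/-- `m_{V_∞} = π V_∞`. -/
theorem cf22_Vinf_hmax {π : R} (hπ : Irreducible π)
    (x : ↥(modularFunctionFieldFullC K (M' * q)))
    (hx : x ∈ cm85_Vinf (K := K) (M' * q) hπ) (hx' : x⁻¹ ∉ cm85_Vinf (K := K) (M' * q) hπ) :
    (algebraMap R ↥(modularFunctionFieldFullC K (M' * q)) π)⁻¹ * x ∈
      cm85_Vinf (K := K) (M' * q) hπ := by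
  rw [IsScalarTower.algebraMap_apply R K ↥(modularFunctionFieldFullC K (M' * q))]
  exact gv85_hmax (IsLocalRing.residue R) π (pk85_res_iff hπ) hπ.ne_zero _ _ x hx hx'

/-- `m_{V_0} = π V_0`. -/
theorem cf22_V0_hmax {π : R} (hπ : Irreducible π)
    (x : ↥(modularFunctionFieldFullC K (M' * q)))
    (hx : x ∈ cm15_V0 φ M' q hq hqM hπ) (hx' : x⁻¹ ∉ cm15_V0 φ M' q hq hqM hπ) :
    (algebraMap R ↥(modularFunctionFieldFullC K (M' * q)) π)⁻¹ * x ∈
      cm15_V0 φ M' q hq hqM hπ := by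
  rw [cm15_mem_V0] at hx hx' ⊢
  rw [map_inv₀] at hx'
  rw [map_mul, map_inv₀, cm15_w_algebraMap]
  exact cf22_Vinf_hmax M' q hπ _ hx hx'

/-- **`j` is regular at every node of a chart of the canonical frame** (given the chart
dichotomy at `n`); the node hypothesis is in the literal shape of `ls63_locStr`. -/
theorem cf22_chart {π : R} (hπ : Irreducible π) (hqR : ¬ IsUnit (q : R))
    (s : Set ↥(modularFunctionFieldFullC K (M' * q)))
    (hs₁ : ∀ g ∈ s, g ∈ cm85_Vinf (K := K) (M' * q) hπ)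
    (hs₂ : ∀ g ∈ s, g ∈ cm15_V0 φ M' q hq hqM hπ)
    (n : Ideal ↥(pk15_chart R s)) [hn : n.IsPrime]
    (hdich : (∃ a b : ↥(pk15_chart R s), a ∉ n ∧
        (a : ↥(modularFunctionFieldFullC K (M' * q))) * rm90_j K (M' * q) =
          (b : ↥(modularFunctionFieldFullC K (M' * q)))) ∨
      (∃ a₀ c₀ : ↥(pk15_chart R s), a₀ ∈ n ∧ c₀ ∉ n ∧
        rm90_j K (M' * q) * (a₀ : ↥(modularFunctionFieldFullC K (M' * q))) =
          (c₀ : ↥(modularFunctionFieldFullC K (M' * q)))))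
    (hc₁ : ∀ y : ↥(pk15_chart R s),
      (algebraMap R ↥(modularFunctionFieldFullC K (M' * q)) π)⁻¹ *
        (y : ↥(modularFunctionFieldFullC K (M' * q))) ∈ cm85_Vinf (K := K) (M' * q) hπ → y ∈ n)
    (hc₂ : ∀ y : ↥(pk15_chart R s),
      (algebraMap R ↥(modularFunctionFieldFullC K (M' * q)) π)⁻¹ *
        (y : ↥(modularFunctionFieldFullC K (M' * q))) ∈ cm15_V0 φ M' q hq hqM hπ → y ∈ n) :
    ∃ a b : ↥(pk15_chart R s), a ∉ n ∧
      (a : ↥(modularFunctionFieldFullC K (M' * q))) * rm90_j K (M' * q) =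
        (b : ↥(modularFunctionFieldFullC K (M' * q))) := by
  have hB₁ : ∀ x ∈ pk15_chart R s, x ∈ cm85_Vinf (K := K) (M' * q) hπ :=
    pk15_chart_le_V _ (pk85_hRV (M' * q) hπ) s hs₁
  have hB₂ : ∀ x ∈ pk15_chart R s, x ∈ cm15_V0 φ M' q hq hqM hπ :=
    pk15_chart_le_V _ (cm15_V0_algebraMap φ M' q hq hqM hπ) s hs₂
  exact ci22_chart (M' * q) q hπ hq hqR (dvd_mul_left q M') s hs₁ n hdich
    (cm15_V0 φ M' q hq hqM hπ) hB₂ (cm15_V0_pi_inv φ M' q hq hqM hπ)
    (cf22_V0_j φ M' q hq hqM hπ).1 (cf22_V0_j φ M' q hq hqM hπ).2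
    (cf22_V0_kron φ M' q hq hqM hπ hqR)
    (ci22_centre_of_max _ _ _ (cf22_Vinf_hmax M' q hπ) hB₁ n hc₁)
    (ci22_centre_of_max _ _ _ (cf22_V0_hmax φ M' q hq hqM hπ) hB₂ n hc₂)

/-- **Functions integral over `ℤ[j]` are regular at every node** of a chart of the canonical
frame (given the chart dichotomy at `n`): e.g. the modular units `U`, `V` of P4'. -/
theorem cf22_integral_chart {π : R} (hπ : Irreducible π) (hqR : ¬ IsUnit (q : R))
    (s : Set ↥(modularFunctionFieldFullC K (M' * q)))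
    (hs₁ : ∀ g ∈ s, g ∈ cm85_Vinf (K := K) (M' * q) hπ)
    (hs₂ : ∀ g ∈ s, g ∈ cm15_V0 φ M' q hq hqM hπ)
    (n : Ideal ↥(pk15_chart R s)) [hn : n.IsPrime]
    (hdich : (∃ a b : ↥(pk15_chart R s), a ∉ n ∧
        (a : ↥(modularFunctionFieldFullC K (M' * q))) * rm90_j K (M' * q) =
          (b : ↥(modularFunctionFieldFullC K (M' * q)))) ∨
      (∃ a₀ c₀ : ↥(pk15_chart R s), a₀ ∈ n ∧ c₀ ∉ n ∧
        rm90_j K (M' * q) * (a₀ : ↥(modularFunctionFieldFullC K (M' * q))) =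
          (c₀ : ↥(modularFunctionFieldFullC K (M' * q)))))
    (hc₁ : ∀ y : ↥(pk15_chart R s),
      (algebraMap R ↥(modularFunctionFieldFullC K (M' * q)) π)⁻¹ *
        (y : ↥(modularFunctionFieldFullC K (M' * q))) ∈ cm85_Vinf (K := K) (M' * q) hπ → y ∈ n)
    (hc₂ : ∀ y : ↥(pk15_chart R s),
      (algebraMap R ↥(modularFunctionFieldFullC K (M' * q)) π)⁻¹ *
        (y : ↥(modularFunctionFieldFullC K (M' * q))) ∈ cm15_V0 φ M' q hq hqM hπ → y ∈ n)
    (x : ↥(modularFunctionFieldFullC K (M' * q))) (Ψ : Polynomial (Polynomial ℤ)) (hΨ : Ψ.Monic)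
    (hroot : Ψ.eval₂ (Polynomial.eval₂RingHom
      (Int.castRingHom ↥(modularFunctionFieldFullC K (M' * q))) (rm90_j K (M' * q))) x = 0) :
    ∃ a b : ↥(pk15_chart R s), a ∉ n ∧
      (a : ↥(modularFunctionFieldFullC K (M' * q))) * x =
        (b : ↥(modularFunctionFieldFullC K (M' * q))) :=
  ci22_integral_regular (M' * q) (pk15_chart R s) (ci22_chart_closed s) n
    (cf22_chart φ M' q hq hqM hπ hqR s hs₁ hs₂ n hdich hc₁ hc₂) x Ψ hΨ hroot

/-- **`j` is regular at every node**, level `2`, chart `{h}`. -/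
theorem cf22_level2 {π : R} (hπ : Irreducible π) (hqR : ¬ IsUnit (q : R)) (h2 : 2 ∣ M') (h2u : IsUnit (2 : R))
    (n : Ideal ↥(pk15_chart R ({pk85_h2 K (M' * q) (h2.trans (dvd_mul_right M' q))} : Set ↥(modularFunctionFieldFullC K (M' * q)))))
    [hn : n.IsPrime]
    (hc₁ : ∀ y : ↥(pk15_chart R ({pk85_h2 K (M' * q) (h2.trans (dvd_mul_right M' q))} : Set ↥(modularFunctionFieldFullC K (M' * q)))),
      (algebraMap R ↥(modularFunctionFieldFullC K (M' * q)) π)⁻¹ *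
        (y : ↥(modularFunctionFieldFullC K (M' * q))) ∈ cm85_Vinf (K := K) (M' * q) hπ → y ∈ n)
    (hc₂ : ∀ y : ↥(pk15_chart R ({pk85_h2 K (M' * q) (h2.trans (dvd_mul_right M' q))} : Set ↥(modularFunctionFieldFullC K (M' * q)))),
      (algebraMap R ↥(modularFunctionFieldFullC K (M' * q)) π)⁻¹ *
        (y : ↥(modularFunctionFieldFullC K (M' * q))) ∈ cm15_V0 φ M' q hq hqM hπ → y ∈ n) :
    ∃ a b : ↥(pk15_chart R ({pk85_h2 K (M' * q) (h2.trans (dvd_mul_right M' q))} : Set ↥(modularFunctionFieldFullC K (M' * q)))),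
      a ∉ n ∧ (a : ↥(modularFunctionFieldFullC K (M' * q))) * rm90_j K (M' * q) =
        (b : ↥(modularFunctionFieldFullC K (M' * q))) := by
  refine cf22_chart φ M' q hq hqM hπ hqR _ ?_ ?_ n (ci22_dich_level2 (M' * q) _ h2u n) hc₁ hc₂
  · intro g hg
    rw [Set.mem_singleton_iff] at hg
    rw [hg]
    exact (cm85_facts_level2 (M' * q) hπ _).2.2.2.2.1
  · intro g hg
    rw [Set.mem_singleton_iff] at hg
    rw [hg]
    exact (cm15_V0_h2 φ M' q hq hqM hπ h2).1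

/-- **`j` is regular at every node**, level `2`, chart `{h⁻¹}`. -/
theorem cf22_level2_inv {π : R} (hπ : Irreducible π) (hqR : ¬ IsUnit (q : R)) (h2 : 2 ∣ M')
    (n : Ideal ↥(pk15_chart R ({(pk85_h2 K (M' * q) (h2.trans (dvd_mul_right M' q)))⁻¹} : Set ↥(modularFunctionFieldFullC K (M' * q)))))
    [hn : n.IsPrime]
    (hc₁ : ∀ y : ↥(pk15_chart R ({(pk85_h2 K (M' * q) (h2.trans (dvd_mul_right M' q)))⁻¹} : Set ↥(modularFunctionFieldFullC K (M' * q)))),
      (algebraMap R ↥(modularFunctionFieldFullC K (M' * q)) π)⁻¹ *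
        (y : ↥(modularFunctionFieldFullC K (M' * q))) ∈ cm85_Vinf (K := K) (M' * q) hπ → y ∈ n)
    (hc₂ : ∀ y : ↥(pk15_chart R ({(pk85_h2 K (M' * q) (h2.trans (dvd_mul_right M' q)))⁻¹} : Set ↥(modularFunctionFieldFullC K (M' * q)))),
      (algebraMap R ↥(modularFunctionFieldFullC K (M' * q)) π)⁻¹ *
        (y : ↥(modularFunctionFieldFullC K (M' * q))) ∈ cm15_V0 φ M' q hq hqM hπ → y ∈ n) :
    ∃ a b : ↥(pk15_chart R ({(pk85_h2 K (M' * q) (h2.trans (dvd_mul_right M' q)))⁻¹} : Set ↥(modularFunctionFieldFullC K (M' * q)))),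
      a ∉ n ∧ (a : ↥(modularFunctionFieldFullC K (M' * q))) * rm90_j K (M' * q) =
        (b : ↥(modularFunctionFieldFullC K (M' * q))) := by
  refine cf22_chart φ M' q hq hqM hπ hqR _ ?_ ?_ n (ci22_dich_level2_inv (M' * q) _ n) hc₁ hc₂
  · intro g hg
    rw [Set.mem_singleton_iff] at hg
    rw [hg]
    exact (cm85_facts_level2 (M' * q) hπ _).2.2.2.2.2.1
  · intro g hg
    rw [Set.mem_singleton_iff] at hg
    rw [hg]
    exact (cm15_V0_h2 φ M' q hq hqM hπ h2).2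

/-- **`j` is regular at every node**, level `3`, chart `{h}`. -/
theorem cf22_level3 {π : R} (hπ : Irreducible π) (hqR : ¬ IsUnit (q : R)) (h3 : 3 ∣ M') (h3u : IsUnit (3 : R))
    (n : Ideal ↥(pk15_chart R ({pk85_h3 K (M' * q) (h3.trans (dvd_mul_right M' q))} : Set ↥(modularFunctionFieldFullC K (M' * q)))))
    [hn : n.IsPrime]
    (hc₁ : ∀ y : ↥(pk15_chart R ({pk85_h3 K (M' * q) (h3.trans (dvd_mul_right M' q))} : Set ↥(modularFunctionFieldFullC K (M' * q)))),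
      (algebraMap R ↥(modularFunctionFieldFullC K (M' * q)) π)⁻¹ *
        (y : ↥(modularFunctionFieldFullC K (M' * q))) ∈ cm85_Vinf (K := K) (M' * q) hπ → y ∈ n)
    (hc₂ : ∀ y : ↥(pk15_chart R ({pk85_h3 K (M' * q) (h3.trans (dvd_mul_right M' q))} : Set ↥(modularFunctionFieldFullC K (M' * q)))),
      (algebraMap R ↥(modularFunctionFieldFullC K (M' * q)) π)⁻¹ *
        (y : ↥(modularFunctionFieldFullC K (M' * q))) ∈ cm15_V0 φ M' q hq hqM hπ → y ∈ n) :
    ∃ a b : ↥(pk15_chart R ({pk85_h3 K (M' * q) (h3.trans (dvd_mul_right M' q))} : Set ↥(modularFunctionFieldFullC K (M' * q)))),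
      a ∉ n ∧ (a : ↥(modularFunctionFieldFullC K (M' * q))) * rm90_j K (M' * q) =
        (b : ↥(modularFunctionFieldFullC K (M' * q))) := by
  refine cf22_chart φ M' q hq hqM hπ hqR _ ?_ ?_ n (ci22_dich_level3 (M' * q) _ h3u n) hc₁ hc₂
  · intro g hg
    rw [Set.mem_singleton_iff] at hg
    rw [hg]
    exact (cm85_facts_level3 (M' * q) hπ _).2.2.2.2.1
  · intro g hg
    rw [Set.mem_singleton_iff] at hg
    rw [hg]
    exact (cm15_V0_h3 φ M' q hq hqM hπ h3).1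

/-- **`j` is regular at every node**, level `3`, chart `{h⁻¹}`. -/
theorem cf22_level3_inv {π : R} (hπ : Irreducible π) (hqR : ¬ IsUnit (q : R)) (h3 : 3 ∣ M')
    (n : Ideal ↥(pk15_chart R ({(pk85_h3 K (M' * q) (h3.trans (dvd_mul_right M' q)))⁻¹} : Set ↥(modularFunctionFieldFullC K (M' * q)))))
    [hn : n.IsPrime]
    (hc₁ : ∀ y : ↥(pk15_chart R ({(pk85_h3 K (M' * q) (h3.trans (dvd_mul_right M' q)))⁻¹} : Set ↥(modularFunctionFieldFullC K (M' * q)))),
      (algebraMap R ↥(modularFunctionFieldFullC K (M' * q)) π)⁻¹ *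
        (y : ↥(modularFunctionFieldFullC K (M' * q))) ∈ cm85_Vinf (K := K) (M' * q) hπ → y ∈ n)
    (hc₂ : ∀ y : ↥(pk15_chart R ({(pk85_h3 K (M' * q) (h3.trans (dvd_mul_right M' q)))⁻¹} : Set ↥(modularFunctionFieldFullC K (M' * q)))),
      (algebraMap R ↥(modularFunctionFieldFullC K (M' * q)) π)⁻¹ *
        (y : ↥(modularFunctionFieldFullC K (M' * q))) ∈ cm15_V0 φ M' q hq hqM hπ → y ∈ n) :
    ∃ a b : ↥(pk15_chart R ({(pk85_h3 K (M' * q) (h3.trans (dvd_mul_right M' q)))⁻¹} : Set ↥(modularFunctionFieldFullC K (M' * q)))),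
      a ∉ n ∧ (a : ↥(modularFunctionFieldFullC K (M' * q))) * rm90_j K (M' * q) =
        (b : ↥(modularFunctionFieldFullC K (M' * q))) := by
  refine cf22_chart φ M' q hq hqM hπ hqR _ ?_ ?_ n (ci22_dich_level3_inv (M' * q) _ n) hc₁ hc₂
  · intro g hg
    rw [Set.mem_singleton_iff] at hg
    rw [hg]
    exact (cm85_facts_level3 (M' * q) hπ _).2.2.2.2.2.1
  · intro g hg
    rw [Set.mem_singleton_iff] at hg
    rw [hg]
    exact (cm15_V0_h3 φ M' q hq hqM hπ h3).2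

end Frame

end

end Fermat.Agent.S34
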