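import Fermat.Agent.S34.CuspSep22
import Fermat.Agent.S34.CuspAbs22
import Fermat.Agent.S34.ChartM85
import Fermat.Agent.S37.KroneckerNorm97

/-!
# S34 lab, row P3c + P3d (helper22): cusps are not nodes — the instance at level `M`, `q ∣ M`

`F = F(M)_K = modularFunctionFieldFullC K M`, `j = rm90_j K M`, `y = ci22_y K M q hqM = j(Q^q)`.

* `ci22_root`        : the monic `Ψ ∈ ℤ[Y][X]` with `Ψ(y / j ^ q, 1 / j) = 0` in `F`;
* `ci22_Vinf_j`, `ci22_Vinf_y`, `ci22_Vinf_kron` : on the Gauss valuation ring `V_∞` of a discrete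
  valuation ring `R` of residue characteristic `q`: `j`, `y` are units and
  `π⁻¹ (j ^ q - y) ∈ V_∞` (Kronecker);
* `ci22_node_regular` (general chart `B`, given the chart dichotomy) and the four instances
  `ci22_level2`, `ci22_level2_inv`, `ci22_level3`, `ci22_level3_inv` for the charts
  `pk15_chart R {h}`, `pk15_chart R {h⁻¹}`, `h = pk85_h2 K M _` / `pk85_h3 K M _`:

  **if a prime `n` of the chart contains the centres of `V_∞` and of a second valuation ring `V₂`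
  with `j` a unit of `V₂` and `π⁻¹ (y ^ q - j) ∈ V₂`, then `j` is regular at `n`**:
  `∃ s b : B, s ∉ n ∧ (s : F) * j = b`.

  (So the cuspidal closed points `J = 1/j ∈ n B_n` lie on one branch only, and at every node the
  functions integral over `R[j]` are regular.)
* `ci22_dich_level2`, ... : the chart dichotomy (3d): `j` is regular at `n`, or `n` is cuspidal.
-/

set_option autoImplicit false
set_option linter.unusedSectionVars false
set_option linter.style.haveILetI false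

open ModularCurve

namespace Fermat.Agent.S34

open Fermat.Agent.S18 Fermat.Agent.S24 Fermat.Agent.S28 Fermat.Agent.S37

noncomputable section

section ValLemmas

variable {F : Type*} [Field F]

theorem ci22_val_eq_one (V : ValuationSubring F) (x : F) (hx0 : x ≠ 0) (hx : x ∈ V)
    (hx' : x⁻¹ ∈ V) : V.valuation x = 1 := by
  have h1 : V.valuation x ≤ 1 := (V.valuation_le_one_iff x).mpr hx
  have h2 : V.valuation x⁻¹ ≤ 1 := (V.valuation_le_one_iff x⁻¹).mpr hx'
  rw [map_inv₀] at h2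
  have hpos : 0 < V.valuation x := zero_lt_iff.mpr ((Valuation.ne_zero_iff _).mpr hx0)
  exact le_antisymm h1 ((inv_le_one₀ hpos).mp h2)

theorem ci22_val_lt_one (V : ValuationSubring F) (p x : F) (hp : p ∈ V) (hp' : p⁻¹ ∉ V)
    (hx : p⁻¹ * x ∈ V) : V.valuation x < 1 := by
  have hp0 : p ≠ 0 := by
    rintro rfl
    apply hp'
    rw [inv_zero]
    exact V.zero_mem
  have h1 : V.valuation p ≤ 1 := (V.valuation_le_one_iff p).mpr hp
  have h2 : V.valuation p ≠ 1 := by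
    intro h
    apply hp'
    rw [← V.valuation_le_one_iff, map_inv₀, h, inv_one]
  have h3 : V.valuation p < 1 := lt_of_le_of_ne h1 h2
  have h4 : V.valuation (p⁻¹ * x) ≤ 1 := (V.valuation_le_one_iff _).mpr hx
  have h5 : x = p * (p⁻¹ * x) := by rw [← mul_assoc, mul_inv_cancel₀ hp0, one_mul]
  rw [h5, Valuation.map_mul]
  calc V.valuation p * V.valuation (p⁻¹ * x) ≤ V.valuation p * 1 := by gcongr
    _ = V.valuation p := mul_one _
    _ < 1 := h3

/-- The centre condition in valuation form from its membership form. -/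
theorem ci22_centre {B : Type*} [CommRing B] [Algebra B F]
    (hinj : Function.Injective (algebraMap B F)) (V : ValuationSubring F)
    (n : Ideal B) (hc : ∀ x : B, x ∉ n → (algebraMap B F x)⁻¹ ∈ V) (x : B)
    (hx : V.valuation (algebraMap B F x) < 1) : x ∈ n := by
  by_contra hxn
  have h1 : V.valuation (algebraMap B F x)⁻¹ ≤ 1 := (V.valuation_le_one_iff _).mpr (hc x hxn)
  have h0 : algebraMap B F x ≠ 0 := by
    intro h0
    apply hxn
    have : x = 0 := hinj (by rw [h0, map_zero])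
    rw [this]
    exact n.zero_mem
  rw [map_inv₀] at h1
  have hpos : 0 < V.valuation (algebraMap B F x) :=
    zero_lt_iff.mpr ((Valuation.ne_zero_iff _).mpr h0)
  exact absurd hx (not_lt.mpr ((inv_le_one₀ hpos).mp h1))

/-- The centre condition in valuation form from the form `B ∩ p V ⊆ n` (when `m_V = p V`). -/
theorem ci22_centre_of_max {R : Type*} [CommRing R] [Algebra R F] (B : Subalgebra R F)
    (V : ValuationSubring F) (p : F) (hmax : ∀ x ∈ V, x⁻¹ ∉ V → p⁻¹ * x ∈ V)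
    (hBV : ∀ x ∈ B, x ∈ V) (n : Ideal B) (hc : ∀ y : B, p⁻¹ * (y : F) ∈ V → y ∈ n) (x : B)
    (hx : V.valuation (x : F) < 1) : x ∈ n := by
  apply hc
  by_cases h0 : (x : F) = 0
  · rw [h0, mul_zero]
    exact V.zero_mem
  · apply hmax _ (hBV _ x.2)
    intro hinv
    have h1 : V.valuation (x : F)⁻¹ ≤ 1 := (V.valuation_le_one_iff _).mpr hinv
    rw [map_inv₀] at h1
    have hpos : 0 < V.valuation (x : F) := zero_lt_iff.mpr ((Valuation.ne_zero_iff _).mpr h0)
    exact absurd hx (not_lt.mpr ((inv_le_one₀ hpos).mp h1))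

end ValLemmas

section Root

variable (K : Type) [Field K] (M q : ℕ) [NeZero M] [NeZero q]

/-- `y = j(Q^q)` as an element of `F(M)_K`, `q ∣ M`. -/
def ci22_y (hqM : q ∣ M) : ↥(modularFunctionFieldFullC K M) :=
  ⟨qExpand K q (jqModC K), jqModCd_mem_full K M hqM⟩

theorem ci22_y_coe (hqM : q ∣ M) :
    ((ci22_y K M q hqM : ↥(modularFunctionFieldFullC K M)) : LaurentSeries K) =
      qExpand K q (jqModC K) := rfl

theorem ci22_j_coe :
    ((rm90_j K M : ↥(modularFunctionFieldFullC K M)) : LaurentSeries K) = jqModC K := rfl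

theorem ci22_j_ne_zero : rm90_j K M ≠ 0 := by
  intro h
  have h2 := h63_jqModC_mul_jInv K
  rw [← ci22_j_coe K M, h, ZeroMemClass.coe_zero, zero_mul] at h2
  exact (zero_ne_one (α := LaurentSeries K)) h2

theorem ci22_j_inv_coe :
    (((rm90_j K M)⁻¹ : ↥(modularFunctionFieldFullC K M)) : LaurentSeries K) = h63_jInv K := by
  rw [h63_jInv_eq_inv]
  rfl

theorem ci22_y_ne_zero (hqM : q ∣ M) : ci22_y K M q hqM ≠ 0 := by
  intro h
  have h2 := congrArg (qExpand K q) (h63_jqModC_mul_jInv K)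
  rw [map_mul, map_one, ← ci22_y_coe K M q hqM, h, ZeroMemClass.coe_zero, zero_mul] at h2
  exact (zero_ne_one (α := LaurentSeries K)) h2

theorem ci22_y_inv_coe (hqM : q ∣ M) :
    (((ci22_y K M q hqM)⁻¹ : ↥(modularFunctionFieldFullC K M)) : LaurentSeries K) =
      qExpand K q (h63_jInv K) := by
  have h2 := congrArg (qExpand K q) (h63_jqModC_mul_jInv K)
  rw [map_mul, map_one] at h2
  have h3 : (((ci22_y K M q hqM)⁻¹ : ↥(modularFunctionFieldFullC K M)) : LaurentSeries K) =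
      (qExpand K q (jqModC K))⁻¹ := rfl
  rw [h3]
  exact inv_eq_of_mul_eq_one_right h2

/-- **The integrality relation in `F(M)_K`**: a monic `Ψ ∈ ℤ[Y][X]` with
`Ψ(y / j ^ q, 1 / j) = 0`. -/
theorem ci22_root (hq : q.Prime) (hqM : q ∣ M) :
    ∃ Ψ : Polynomial (Polynomial ℤ), Ψ.Monic ∧
      Ψ.eval₂ (Polynomial.eval₂RingHom
          (Int.castRingHom ↥(modularFunctionFieldFullC K M)) (rm90_j K M)⁻¹)
        (ci22_y K M q hqM * (rm90_j K M)⁻¹ ^ q) = 0 := by
  obtain ⟨Ψ, hmon, -, hΨ⟩ := cs22_T_integral.{0} q hq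
  refine ⟨Ψ, hmon, ?_⟩
  have h := hΨ K (h63_jInv K) (h63_jqModC_mul_jInv K)
  let φ : ↥(modularFunctionFieldFullC K M) →+* LaurentSeries K :=
    (modularFunctionFieldFullC K M).toSubring.subtype
  have hφ : Function.Injective φ := Subtype.val_injective
  apply hφ
  rw [map_zero, Polynomial.hom_eval₂]
  have hinv : φ (rm90_j K M)⁻¹ = h63_jInv K := ci22_j_inv_coe K M
  have hcomp : φ.comp (Polynomial.eval₂RingHom
      (Int.castRingHom ↥(modularFunctionFieldFullC K M)) (rm90_j K M)⁻¹) =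
      Polynomial.eval₂RingHom (Int.castRingHom (LaurentSeries K)) (h63_jInv K) := by
    apply Polynomial.ringHom_ext
    · intro a
      simp
    · simp [hinv]
  rw [hcomp]
  have hT : φ (ci22_y K M q hqM * (rm90_j K M)⁻¹ ^ q) = JdC K q * h63_jInv K ^ q := by
    rw [map_mul, map_pow, hinv, JdC_of_neZero]
    rfl
  rw [hT]
  exact h

end Root

section Gauss

variable {R K : Type} [CommRing R] [IsDomain R] [IsDiscreteValuationRing R] [Field K]
  [Algebra R K] [IsFractionRing R K] (M q : ℕ) [NeZero M] [NeZero q]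
  [Algebra R ↥(modularFunctionFieldFullC K M)]
  [IsScalarTower R K ↥(modularFunctionFieldFullC K M)]

/-- The residue field of a local ring in which the prime `q` is not a unit has
characteristic `q`. -/
theorem ci22_expChar (hq : q.Prime) (hqR : ¬ IsUnit (q : R)) :
    ExpChar (IsLocalRing.ResidueField R) q := by
  have h0 : ((q : ℕ) : IsLocalRing.ResidueField R) = 0 := by
    have h1 : IsLocalRing.residue R (q : R) = 0 := by
      rw [IsLocalRing.residue_eq_zero_iff]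
      exact (IsLocalRing.mem_maximalIdeal _).mpr hqR
    rwa [map_natCast] at h1
  obtain ⟨c, hc⟩ := CharP.exists (IsLocalRing.ResidueField R)
  have h1 : c ∣ q := (CharP.cast_eq_zero_iff (IsLocalRing.ResidueField R) c q).mp h0
  rcases (Nat.dvd_prime hq).mp h1 with rfl | rfl
  · exact absurd rfl (CharP.char_ne_one (IsLocalRing.ResidueField R) 1)
  · exact ExpChar.prime hq

/-- `j` is a unit of the Gauss valuation ring `V_∞`. -/
theorem ci22_Vinf_j {π : R} (hπ : Irreducible π) :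
    rm90_j K M ∈ cm85_Vinf (K := K) M hπ ∧ (rm90_j K M)⁻¹ ∈ cm85_Vinf (K := K) M hπ := by
  refine ⟨(pk85_gauss M hπ (rm90_j K M) (jqModC R) ?_).1,
    (pk85_gauss M hπ (rm90_j K M)⁻¹ (h63_jInv R) ?_).1⟩
  · rw [coeffMap_jqModC]
    rfl
  · rw [h63_coeffMap_jInv]
    exact ci22_j_inv_coe K M

/-- `y = j(Q^q)` is a unit of the Gauss valuation ring `V_∞`. -/
theorem ci22_Vinf_y {π : R} (hπ : Irreducible π) (hqM : q ∣ M) :
    ci22_y K M q hqM ∈ cm85_Vinf (K := K) M hπ ∧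
      (ci22_y K M q hqM)⁻¹ ∈ cm85_Vinf (K := K) M hπ := by
  refine ⟨(pk85_gauss M hπ (ci22_y K M q hqM) (qExpand R q (jqModC R)) ?_).1,
    (pk85_gauss M hπ (ci22_y K M q hqM)⁻¹ (qExpand R q (h63_jInv R)) ?_).1⟩
  · rw [coeffMap_qExpand, coeffMap_jqModC]
    rfl
  · rw [coeffMap_qExpand, h63_coeffMap_jInv]
    exact ci22_y_inv_coe K M q hqM

/-- **Kronecker's congruence on `V_∞`**: `π⁻¹ (j ^ q - y) ∈ V_∞` when the residue
characteristic is `q`. -/
theorem ci22_Vinf_kron {π : R} (hπ : Irreducible π) (hq : q.Prime) (hqR : ¬ IsUnit (q : R))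
    (hqM : q ∣ M) :
    (algebraMap R ↥(modularFunctionFieldFullC K M) π)⁻¹ *
      (rm90_j K M ^ q - ci22_y K M q hqM) ∈ cm85_Vinf (K := K) M hπ := by
  have hcoe : ((rm90_j K M ^ q - ci22_y K M q hqM : ↥(modularFunctionFieldFullC K M)) :
      LaurentSeries K) =
      coeffMap (algebraMap R K) (jqModC R ^ q - qExpand R q (jqModC R)) := by
    rw [map_sub, map_pow, coeffMap_jqModC, coeffMap_qExpand, coeffMap_jqModC]
    rfl
  refine ((pk85_gauss M hπ _ _ hcoe).2).mpr ?_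
  haveI : ExpChar (IsLocalRing.ResidueField R) q := ci22_expChar q hq hqR
  rw [map_sub, map_pow, coeffMap_jqModC, coeffMap_qExpand, coeffMap_jqModC,
    kn97_frobenius q (jqModC (IsLocalRing.ResidueField R)), coeffMap_jqModC, sub_self]

/-- `π ∈ V_∞`, `π⁻¹ ∉ V_∞`. -/
theorem ci22_Vinf_pi {π : R} (hπ : Irreducible π) :
    algebraMap R ↥(modularFunctionFieldFullC K M) π ∈ cm85_Vinf (K := K) M hπ ∧
      (algebraMap R ↥(modularFunctionFieldFullC K M) π)⁻¹ ∉ cm85_Vinf (K := K) M hπ := by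
  refine ⟨pk85_hRV M hπ π, ?_⟩
  rw [IsScalarTower.algebraMap_apply R K ↥(modularFunctionFieldFullC K M)]
  exact gv85_pi_inv_not_mem (IsLocalRing.residue R) π (pk85_res_iff hπ) hπ.ne_zero _ _

end Gauss

section Main

variable {R K : Type} [CommRing R] [IsDomain R] [IsDiscreteValuationRing R] [Field K]
  [Algebra R K] [IsFractionRing R K] (M q : ℕ) [NeZero M] [NeZero q]
  [Algebra R ↥(modularFunctionFieldFullC K M)]
  [IsScalarTower R K ↥(modularFunctionFieldFullC K M)]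

/-- **Cusps are not nodes** (general chart `B`): a cuspidal prime `n` of `B` (`j a₀ = c₀`,
`a₀ ∈ n`, `c₀ ∉ n`) does not contain both the centre of `V_∞` and the centre of a valuation ring
`V₂ ⊇ B` in which `j` is a unit and `π⁻¹ (y ^ q - j) ∈ V₂`. -/
theorem ci22_cusp_not_node {π : R} (hπ : Irreducible π) (hq : q.Prime) (hqR : ¬ IsUnit (q : R))
    (hqM : q ∣ M) (B : Subalgebra R ↥(modularFunctionFieldFullC K M))
    (hBcl : ∀ x : ↥(modularFunctionFieldFullC K M), IsIntegral B x → x ∈ B)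
    (n : Ideal B) [hn : n.IsPrime] (a₀ c₀ : B) (ha₀ : a₀ ∈ n) (hc₀ : c₀ ∉ n)
    (hs : rm90_j K M * (a₀ : ↥(modularFunctionFieldFullC K M)) =
      (c₀ : ↥(modularFunctionFieldFullC K M)))
    (hBV₁ : ∀ x ∈ B, x ∈ cm85_Vinf (K := K) M hπ)
    (V₂ : ValuationSubring ↥(modularFunctionFieldFullC K M)) (hBV₂ : ∀ x ∈ B, x ∈ V₂)
    (hπV₂ : (algebraMap R ↥(modularFunctionFieldFullC K M) π)⁻¹ ∉ V₂)
    (hj₂ : rm90_j K M ∈ V₂) (hj₂' : (rm90_j K M)⁻¹ ∈ V₂)
    (hk₂ : (algebraMap R ↥(modularFunctionFieldFullC K M) π)⁻¹ *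
      (ci22_y K M q hqM ^ q - rm90_j K M) ∈ V₂)
    (hc₁ : ∀ x : B, (cm85_Vinf (K := K) M hπ).valuation
      (x : ↥(modularFunctionFieldFullC K M)) < 1 → x ∈ n)
    (hc₂ : ∀ x : B, V₂.valuation (x : ↥(modularFunctionFieldFullC K M)) < 1 → x ∈ n) : False := by
  obtain ⟨Ψ, hmon, hroot⟩ := ci22_root K M q hq hqM
  have hπB : algebraMap R ↥(modularFunctionFieldFullC K M) π ∈ B := B.algebraMap_mem π
  exact ca22_not_node (B := B) (fun x hx => ⟨⟨x, hBcl x hx⟩, rfl⟩) n q hq.two_le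
    (rm90_j K M) (ci22_y K M q hqM) a₀ c₀ ha₀ hc₀ hs Ψ hmon hroot
    (cm85_Vinf (K := K) M hπ) V₂ (fun x => hBV₁ x x.2) (fun x => hBV₂ x x.2)
    (ci22_val_eq_one _ _ (ci22_j_ne_zero K M) (ci22_Vinf_j M hπ).1 (ci22_Vinf_j M hπ).2)
    (ci22_val_lt_one _ _ _ (ci22_Vinf_pi M hπ).1 (ci22_Vinf_pi M hπ).2
      (ci22_Vinf_kron M q hπ hq hqR hqM))
    (ci22_val_eq_one _ _ (ci22_j_ne_zero K M) hj₂ hj₂')
    (ci22_val_lt_one _ _ _ (hBV₂ _ hπB) hπV₂ hk₂)
    hc₁ hc₂

/-- **`j` is regular at every node** (general chart `B`, given the chart dichotomy at `n`):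
if the prime `n` of `B` contains the centres of `V_∞` and of a valuation ring `V₂ ⊇ B` in which
`j` is a unit and `π⁻¹ (y ^ q - j) ∈ V₂`, then `n` is not cuspidal, hence `j ∈ B_n`. -/
theorem ci22_node_regular {π : R} (hπ : Irreducible π) (hq : q.Prime) (hqR : ¬ IsUnit (q : R))
    (hqM : q ∣ M) (B : Subalgebra R ↥(modularFunctionFieldFullC K M))
    (hBcl : ∀ x : ↥(modularFunctionFieldFullC K M), IsIntegral B x → x ∈ B)
    (n : Ideal B) [hn : n.IsPrime]
    (hdich : (∃ s b : B, s ∉ n ∧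
        (s : ↥(modularFunctionFieldFullC K M)) * rm90_j K M = (b : ↥(modularFunctionFieldFullC K M))) ∨
      (∃ a₀ c₀ : B, a₀ ∈ n ∧ c₀ ∉ n ∧
        rm90_j K M * (a₀ : ↥(modularFunctionFieldFullC K M)) =
          (c₀ : ↥(modularFunctionFieldFullC K M))))
    (hBV₁ : ∀ x ∈ B, x ∈ cm85_Vinf (K := K) M hπ)
    (V₂ : ValuationSubring ↥(modularFunctionFieldFullC K M)) (hBV₂ : ∀ x ∈ B, x ∈ V₂)
    (hπV₂ : (algebraMap R ↥(modularFunctionFieldFullC K M) π)⁻¹ ∉ V₂)
    (hj₂ : rm90_j K M ∈ V₂) (hj₂' : (rm90_j K M)⁻¹ ∈ V₂)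
    (hk₂ : (algebraMap R ↥(modularFunctionFieldFullC K M) π)⁻¹ *
      (ci22_y K M q hqM ^ q - rm90_j K M) ∈ V₂)
    (hc₁ : ∀ x : B, (cm85_Vinf (K := K) M hπ).valuation
      (x : ↥(modularFunctionFieldFullC K M)) < 1 → x ∈ n)
    (hc₂ : ∀ x : B, V₂.valuation (x : ↥(modularFunctionFieldFullC K M)) < 1 → x ∈ n) :
    ∃ s b : B, s ∉ n ∧
      (s : ↥(modularFunctionFieldFullC K M)) * rm90_j K M =
        (b : ↥(modularFunctionFieldFullC K M)) := by
  rcases hdich with h | ⟨a₀, c₀, ha₀, hc₀, hs⟩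
  · exact h
  · exact (ci22_cusp_not_node M q hπ hq hqR hqM B hBcl n a₀ c₀ ha₀ hc₀ hs hBV₁ V₂ hBV₂ hπV₂
      hj₂ hj₂' hk₂ hc₁ hc₂).elim

/-- **Functions integral over `ℤ[j]` are regular where `j` is** (in particular at every node):
if `s j = b` with `s ∉ n` and `x` is a root of a monic `Ψ ∈ ℤ[Y][X]` at `Y = j`, then
`s' x ∈ B` for some `s' ∉ n`. -/
theorem ci22_integral_regular (B : Subalgebra R ↥(modularFunctionFieldFullC K M))
    (hBcl : ∀ x : ↥(modularFunctionFieldFullC K M), IsIntegral B x → x ∈ B)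
    (n : Ideal B) [hn : n.IsPrime]
    (hreg : ∃ s b : B, s ∉ n ∧
      (s : ↥(modularFunctionFieldFullC K M)) * rm90_j K M = (b : ↥(modularFunctionFieldFullC K M)))
    (x : ↥(modularFunctionFieldFullC K M)) (Ψ : Polynomial (Polynomial ℤ)) (hΨ : Ψ.Monic)
    (hroot : Ψ.eval₂ (Polynomial.eval₂RingHom
      (Int.castRingHom ↥(modularFunctionFieldFullC K M)) (rm90_j K M)) x = 0) :
    ∃ s' b' : B, s' ∉ n ∧
      (s' : ↥(modularFunctionFieldFullC K M)) * x = (b' : ↥(modularFunctionFieldFullC K M)) := by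
  obtain ⟨s, b, hs, hsb⟩ := hreg
  obtain ⟨s', E, hs', hE⟩ := ca22_exists_E (B := B) (fun x hx => ⟨⟨x, hBcl x hx⟩, rfl⟩) n
    (rm90_j K M) x b s hs (by rw [mul_comm]; exact hsb) Ψ hΨ hroot
  exact ⟨s', E, hs', hE.symm⟩

end Main

section Charts

/-- A chart is integrally closed in `F`. -/
theorem ci22_chart_closed {R : Type*} [CommRing R] {F : Type*} [Field F] [Algebra R F]
    (s : Set F) (x : F) (hx : IsIntegral ↥(pk15_chart R s) x) : x ∈ pk15_chart R s := by
  rw [pk15_mem_chart]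
  have hx' : IsIntegral ↥(integralClosure ↥(Algebra.adjoin R s) F) x := hx
  exact isIntegral_trans (A := ↥(integralClosure ↥(Algebra.adjoin R s) F)) x hx'

/-- Chart dichotomy (3d), generic form: `j * t ^ k = u` with `t, u ∈ B` and `u ∉ n` whenever
`t ∈ n`. -/
theorem ci22_dich {R : Type*} [CommRing R] {F : Type*} [Field F] [Algebra R F]
    (B : Subalgebra R F) (n : Ideal B) [hn : n.IsPrime] (j : F) (t u : B) (k : ℕ)
    (hs : j * (t : F) ^ k = (u : F)) (hu : t ∈ n → u ∉ n) :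
    (∃ s b : B, s ∉ n ∧ (s : F) * j = (b : F)) ∨
      (∃ a₀ c₀ : B, a₀ ∈ n ∧ c₀ ∉ n ∧ j * (a₀ : F) = (c₀ : F)) := by
  have hs' : j * ((t ^ k : B) : F) = (u : F) := by
    rw [← hs]
    rfl
  by_cases ht : t ^ k ∈ n
  · exact Or.inr ⟨t ^ k, u, ht, hu (hn.mem_of_pow_mem _ ht), hs'⟩
  · exact Or.inl ⟨t ^ k, u, ht, by rw [mul_comm]; exact hs'⟩

/-- (3d) for a coordinate `t` with `j t² = (t + 256)³` (level `2`, chart `{h}`). -/
theorem ci22_dich_aux2 {R : Type*} [CommRing R] {F : Type*} [Field F] [Algebra R F]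
    (B : Subalgebra R F) (n : Ideal B) [hn : n.IsPrime] (j : F) (t : B)
    (hrel : j * (t : F) ^ 2 = ((t : F) + 256) ^ 3) (h2u : IsUnit (2 : R)) :
    (∃ s b : B, s ∉ n ∧ (s : F) * j = (b : F)) ∨
      (∃ a₀ c₀ : B, a₀ ∈ n ∧ c₀ ∉ n ∧ j * (a₀ : F) = (c₀ : F)) := by
  have hc : IsUnit (algebraMap R B 256) := by
    have : (256 : R) = 2 ^ 8 := by norm_num
    rw [this]
    exact (h2u.pow 8).map _
  refine ci22_dich B n j t ((t + algebraMap R B 256) ^ 3) 2 ?_ ?_
  · have h1 : (((t + algebraMap R B 256) ^ 3 : B) : F) = ((t : F) + 256) ^ 3 := by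
      push_cast
      rw [map_ofNat]
    rw [h1]
    exact hrel
  · intro ht hu
    have h1 : t + algebraMap R B 256 ∈ n := hn.mem_of_pow_mem _ hu
    have h2' : algebraMap R B 256 ∈ n := by
      have : algebraMap R B 256 = (t + algebraMap R B 256) - t := by ring
      rw [this]
      exact Ideal.sub_mem _ h1 ht
    exact hn.ne_top (Ideal.eq_top_of_isUnit_mem _ h2' hc)

/-- (3d) for a coordinate `t` with `j t = (1 + 256 t)³` (level `2`, chart `{h⁻¹}`). -/
theorem ci22_dich_aux2_inv {R : Type*} [CommRing R] {F : Type*} [Field F] [Algebra R F]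
    (B : Subalgebra R F) (n : Ideal B) [hn : n.IsPrime] (j : F) (t : B)
    (hrel : j * (t : F) = (1 + 256 * (t : F)) ^ 3) :
    (∃ s b : B, s ∉ n ∧ (s : F) * j = (b : F)) ∨
      (∃ a₀ c₀ : B, a₀ ∈ n ∧ c₀ ∉ n ∧ j * (a₀ : F) = (c₀ : F)) := by
  refine ci22_dich B n j t ((1 + algebraMap R B 256 * t) ^ 3) 1 ?_ ?_
  · have h1 : (((1 + algebraMap R B 256 * t) ^ 3 : B) : F) = (1 + 256 * (t : F)) ^ 3 := by
      push_cast
      rw [map_ofNat]
    rw [h1, pow_one]
    exact hrel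
  · intro ht hu
    have h1 : 1 + algebraMap R B 256 * t ∈ n := hn.mem_of_pow_mem _ hu
    have h2' : (1 : B) ∈ n := by
      have : (1 : B) = (1 + algebraMap R B 256 * t) - algebraMap R B 256 * t := by ring
      rw [this]
      exact Ideal.sub_mem _ h1 (Ideal.mul_mem_left _ _ ht)
    exact hn.ne_top ((Ideal.eq_top_iff_one _).mpr h2')

/-- (3d) for a coordinate `t` with `j t³ = (t + 27) (t + 243)³` (level `3`, chart `{h}`). -/
theorem ci22_dich_aux3 {R : Type*} [CommRing R] {F : Type*} [Field F] [Algebra R F]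
    (B : Subalgebra R F) (n : Ideal B) [hn : n.IsPrime] (j : F) (t : B)
    (hrel : j * (t : F) ^ 3 = ((t : F) + 27) * ((t : F) + 243) ^ 3) (h3u : IsUnit (3 : R)) :
    (∃ s b : B, s ∉ n ∧ (s : F) * j = (b : F)) ∨
      (∃ a₀ c₀ : B, a₀ ∈ n ∧ c₀ ∉ n ∧ j * (a₀ : F) = (c₀ : F)) := by
  have hc1 : IsUnit (algebraMap R B 27) := by
    have : (27 : R) = 3 ^ 3 := by norm_num
    rw [this]
    exact (h3u.pow 3).map _
  have hc2 : IsUnit (algebraMap R B 243) := by
    have : (243 : R) = 3 ^ 5 := by norm_num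
    rw [this]
    exact (h3u.pow 5).map _
  refine ci22_dich B n j t ((t + algebraMap R B 27) * (t + algebraMap R B 243) ^ 3) 3 ?_ ?_
  · have h1 : (((t + algebraMap R B 27) * (t + algebraMap R B 243) ^ 3 : B) : F) =
        ((t : F) + 27) * ((t : F) + 243) ^ 3 := by
      push_cast
      rw [map_ofNat, map_ofNat]
    rw [h1]
    exact hrel
  · intro ht hu
    rcases hn.mem_or_mem hu with h1 | h1
    · have h2' : algebraMap R B 27 ∈ n := by
        have : algebraMap R B 27 = (t + algebraMap R B 27) - t := by ring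
        rw [this]
        exact Ideal.sub_mem _ h1 ht
      exact hn.ne_top (Ideal.eq_top_of_isUnit_mem _ h2' hc1)
    · have h1' : t + algebraMap R B 243 ∈ n := hn.mem_of_pow_mem _ h1
      have h2' : algebraMap R B 243 ∈ n := by
        have : algebraMap R B 243 = (t + algebraMap R B 243) - t := by ring
        rw [this]
        exact Ideal.sub_mem _ h1' ht
      exact hn.ne_top (Ideal.eq_top_of_isUnit_mem _ h2' hc2)

/-- (3d) for a coordinate `t` with `j t = (1 + 27 t) (1 + 243 t)³` (level `3`, chart `{h⁻¹}`). -/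
theorem ci22_dich_aux3_inv {R : Type*} [CommRing R] {F : Type*} [Field F] [Algebra R F]
    (B : Subalgebra R F) (n : Ideal B) [hn : n.IsPrime] (j : F) (t : B)
    (hrel : j * (t : F) = (1 + 27 * (t : F)) * (1 + 243 * (t : F)) ^ 3) :
    (∃ s b : B, s ∉ n ∧ (s : F) * j = (b : F)) ∨
      (∃ a₀ c₀ : B, a₀ ∈ n ∧ c₀ ∉ n ∧ j * (a₀ : F) = (c₀ : F)) := by
  refine ci22_dich B n j t
    ((1 + algebraMap R B 27 * t) * (1 + algebraMap R B 243 * t) ^ 3) 1 ?_ ?_
  · have h1 : (((1 + algebraMap R B 27 * t) * (1 + algebraMap R B 243 * t) ^ 3 : B) : F) =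
        (1 + 27 * (t : F)) * (1 + 243 * (t : F)) ^ 3 := by
      push_cast
      rw [map_ofNat, map_ofNat]
    rw [h1, pow_one]
    exact hrel
  · intro ht hu
    have key : ∀ c : B, 1 + c * t ∈ n → False := by
      intro c h1
      have h2' : (1 : B) ∈ n := by
        have : (1 : B) = (1 + c * t) - c * t := by ring
        rw [this]
        exact Ideal.sub_mem _ h1 (Ideal.mul_mem_left _ _ ht)
      exact hn.ne_top ((Ideal.eq_top_iff_one _).mpr h2')
    rcases hn.mem_or_mem hu with h1 | h1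
    · exact key _ h1
    · exact key _ (hn.mem_of_pow_mem _ h1)

end Charts

section Levels

variable {R K : Type} [CommRing R] [IsDomain R] [IsDiscreteValuationRing R] [Field K] [CharZero K]
  [Algebra R K] [IsFractionRing R K] (M q : ℕ) [NeZero M] [NeZero q]
  [Algebra R ↥(modularFunctionFieldFullC K M)]
  [IsScalarTower R K ↥(modularFunctionFieldFullC K M)]

theorem ci22_h2_ne_zero (h2 : 2 ∣ M) : pk85_h2 K M h2 ≠ 0 := fun h0 =>
  pk85_h2_transcendental K M h2 (by rw [h0]; exact isAlgebraic_zero)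

theorem ci22_h3_ne_zero (h3 : 3 ∣ M) : pk85_h3 K M h3 ≠ 0 := fun h0 =>
  pk85_h3_transcendental K M h3 (by rw [h0]; exact isAlgebraic_zero)

/-- (3d), level `2`, chart `{h}`. -/
theorem ci22_dich_level2 (h2 : 2 ∣ M) (h2u : IsUnit (2 : R))
    (n : Ideal ↥(pk15_chart R ({pk85_h2 K M h2} : Set ↥(modularFunctionFieldFullC K M))))
    [hn : n.IsPrime] :
    (∃ s b : ↥(pk15_chart R ({pk85_h2 K M h2} : Set ↥(modularFunctionFieldFullC K M))), s ∉ n ∧
        (s : ↥(modularFunctionFieldFullC K M)) * rm90_j K M =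
          (b : ↥(modularFunctionFieldFullC K M))) ∨
      (∃ a₀ c₀ : ↥(pk15_chart R ({pk85_h2 K M h2} : Set ↥(modularFunctionFieldFullC K M))),
        a₀ ∈ n ∧ c₀ ∉ n ∧ rm90_j K M * (a₀ : ↥(modularFunctionFieldFullC K M)) =
          (c₀ : ↥(modularFunctionFieldFullC K M))) :=
  ci22_dich_aux2 _ n (rm90_j K M)
    ⟨pk85_h2 K M h2, pk15_subset_chart _ (Set.mem_singleton _)⟩ (pk85_h2_rel K M h2) h2u

/-- (3d), level `2`, chart `{h⁻¹}` (no hypothesis on `2`). -/
theorem ci22_dich_level2_inv (h2 : 2 ∣ M)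
    (n : Ideal ↥(pk15_chart R ({(pk85_h2 K M h2)⁻¹} : Set ↥(modularFunctionFieldFullC K M))))
    [hn : n.IsPrime] :
    (∃ s b : ↥(pk15_chart R ({(pk85_h2 K M h2)⁻¹} : Set ↥(modularFunctionFieldFullC K M))),
        s ∉ n ∧ (s : ↥(modularFunctionFieldFullC K M)) * rm90_j K M =
          (b : ↥(modularFunctionFieldFullC K M))) ∨
      (∃ a₀ c₀ : ↥(pk15_chart R ({(pk85_h2 K M h2)⁻¹} : Set ↥(modularFunctionFieldFullC K M))),
        a₀ ∈ n ∧ c₀ ∉ n ∧ rm90_j K M * (a₀ : ↥(modularFunctionFieldFullC K M)) =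
          (c₀ : ↥(modularFunctionFieldFullC K M))) := by
  refine ci22_dich_aux2_inv _ n (rm90_j K M)
    ⟨(pk85_h2 K M h2)⁻¹, pk15_subset_chart _ (Set.mem_singleton _)⟩ ?_
  have hrel := pk85_h2_rel (K := K) M h2
  have hh0 := ci22_h2_ne_zero (K := K) M h2
  show rm90_j K M * (pk85_h2 K M h2)⁻¹ = (1 + 256 * (pk85_h2 K M h2)⁻¹) ^ 3
  have hj : rm90_j K M = (pk85_h2 K M h2 + 256) ^ 3 / pk85_h2 K M h2 ^ 2 := by
    rw [eq_div_iff (pow_ne_zero 2 hh0)]
    exact hrel
  rw [hj]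
  field_simp

/-- (3d), level `3`, chart `{h}`. -/
theorem ci22_dich_level3 (h3 : 3 ∣ M) (h3u : IsUnit (3 : R))
    (n : Ideal ↥(pk15_chart R ({pk85_h3 K M h3} : Set ↥(modularFunctionFieldFullC K M))))
    [hn : n.IsPrime] :
    (∃ s b : ↥(pk15_chart R ({pk85_h3 K M h3} : Set ↥(modularFunctionFieldFullC K M))), s ∉ n ∧
        (s : ↥(modularFunctionFieldFullC K M)) * rm90_j K M =
          (b : ↥(modularFunctionFieldFullC K M))) ∨
      (∃ a₀ c₀ : ↥(pk15_chart R ({pk85_h3 K M h3} : Set ↥(modularFunctionFieldFullC K M))),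
        a₀ ∈ n ∧ c₀ ∉ n ∧ rm90_j K M * (a₀ : ↥(modularFunctionFieldFullC K M)) =
          (c₀ : ↥(modularFunctionFieldFullC K M))) :=
  ci22_dich_aux3 _ n (rm90_j K M)
    ⟨pk85_h3 K M h3, pk15_subset_chart _ (Set.mem_singleton _)⟩ (pk85_h3_rel K M h3) h3u

/-- (3d), level `3`, chart `{h⁻¹}` (no hypothesis on `3`). -/
theorem ci22_dich_level3_inv (h3 : 3 ∣ M)
    (n : Ideal ↥(pk15_chart R ({(pk85_h3 K M h3)⁻¹} : Set ↥(modularFunctionFieldFullC K M))))
    [hn : n.IsPrime] :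
    (∃ s b : ↥(pk15_chart R ({(pk85_h3 K M h3)⁻¹} : Set ↥(modularFunctionFieldFullC K M))),
        s ∉ n ∧ (s : ↥(modularFunctionFieldFullC K M)) * rm90_j K M =
          (b : ↥(modularFunctionFieldFullC K M))) ∨
      (∃ a₀ c₀ : ↥(pk15_chart R ({(pk85_h3 K M h3)⁻¹} : Set ↥(modularFunctionFieldFullC K M))),
        a₀ ∈ n ∧ c₀ ∉ n ∧ rm90_j K M * (a₀ : ↥(modularFunctionFieldFullC K M)) =
          (c₀ : ↥(modularFunctionFieldFullC K M))) := by
  refine ci22_dich_aux3_inv _ n (rm90_j K M)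
    ⟨(pk85_h3 K M h3)⁻¹, pk15_subset_chart _ (Set.mem_singleton _)⟩ ?_
  have hrel := pk85_h3_rel (K := K) M h3
  have hh0 := ci22_h3_ne_zero (K := K) M h3
  show rm90_j K M * (pk85_h3 K M h3)⁻¹ =
    (1 + 27 * (pk85_h3 K M h3)⁻¹) * (1 + 243 * (pk85_h3 K M h3)⁻¹) ^ 3
  have hj : rm90_j K M =
      (pk85_h3 K M h3 + 27) * (pk85_h3 K M h3 + 243) ^ 3 / pk85_h3 K M h3 ^ 3 := by
    rw [eq_div_iff (pow_ne_zero 3 hh0)]
    exact hrel
  rw [hj]
  field_simp

/-- **`j` is regular at every node of a chart** `pk15_chart R s`, `s ⊆ V_∞` (given the chart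
dichotomy at `n`). -/
theorem ci22_chart {π : R} (hπ : Irreducible π) (hq : q.Prime) (hqR : ¬ IsUnit (q : R))
    (hqM : q ∣ M) (s : Set ↥(modularFunctionFieldFullC K M))
    (hs : ∀ g ∈ s, g ∈ cm85_Vinf (K := K) M hπ)
    (n : Ideal ↥(pk15_chart R s)) [hn : n.IsPrime]
    (hdich : (∃ a b : ↥(pk15_chart R s), a ∉ n ∧
        (a : ↥(modularFunctionFieldFullC K M)) * rm90_j K M = (b : ↥(modularFunctionFieldFullC K M))) ∨
      (∃ a₀ c₀ : ↥(pk15_chart R s), a₀ ∈ n ∧ c₀ ∉ n ∧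
        rm90_j K M * (a₀ : ↥(modularFunctionFieldFullC K M)) =
          (c₀ : ↥(modularFunctionFieldFullC K M))))
    (V₂ : ValuationSubring ↥(modularFunctionFieldFullC K M))
    (hBV₂ : ∀ x ∈ pk15_chart R s, x ∈ V₂)
    (hπV₂ : (algebraMap R ↥(modularFunctionFieldFullC K M) π)⁻¹ ∉ V₂)
    (hj₂ : rm90_j K M ∈ V₂) (hj₂' : (rm90_j K M)⁻¹ ∈ V₂)
    (hk₂ : (algebraMap R ↥(modularFunctionFieldFullC K M) π)⁻¹ *
      (ci22_y K M q hqM ^ q - rm90_j K M) ∈ V₂)
    (hc₁ : ∀ x : ↥(pk15_chart R s), (cm85_Vinf (K := K) M hπ).valuation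
      (x : ↥(modularFunctionFieldFullC K M)) < 1 → x ∈ n)
    (hc₂ : ∀ x : ↥(pk15_chart R s),
      V₂.valuation (x : ↥(modularFunctionFieldFullC K M)) < 1 → x ∈ n) :
    ∃ a b : ↥(pk15_chart R s), a ∉ n ∧
      (a : ↥(modularFunctionFieldFullC K M)) * rm90_j K M =
        (b : ↥(modularFunctionFieldFullC K M)) :=
  ci22_node_regular M q hπ hq hqR hqM (pk15_chart R s) (ci22_chart_closed s) n hdich
    (pk15_chart_le_V _ (pk85_hRV M hπ) s hs) V₂ hBV₂ hπV₂ hj₂ hj₂' hk₂ hc₁ hc₂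

end Levels






end

end Fermat.Agent.S34
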