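import Fermat.Agent.S37.Kronecker87

/-!
# S34 lab (helper22): the cusp-separating function `T = j(q^p) / j(q)^p` is integral over `ℤ[1/j]`

Row P3 (3c) of the S34 lab ("cuspidal closed points are not nodes").  With `J := 1/j`:

* `cs22_exists`: the Kronecker polynomial `Φ ∈ ℤ[Y][X]` of prime level `p` (monic of degree `p + 1`,
  `Φ(j(q^p), j(q)) = 0`) with the degree bound `deg_Y (coeff_{X^i} Φ) ≤ p (p + 1 - i)`;
* `cs22_T_integral`: a monic `Ψ ∈ ℤ[Y][X]` of degree `p + 1` with `Ψ(T, J) = 0`, for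
  `T = j(q^p) * J^p` and any inverse `J` of `j` in `R((q))`, `R` any commutative ring.

So `T` is integral over `ℤ[J]`.  At a closed point `n` of the special fibre where `J` is regular and
vanishes (a cuspidal point) `T` is therefore regular; since `T ≡ 1` on the `∞`-branch (Kronecker)
and `T ≡ J_p^(p^2-1)` on the `0`-branch (`J_p = 1/j(q^p)`), such an `n` cannot lie on both branches.
-/

set_option autoImplicit false
set_option linter.style.haveILetI false

open ModularCurve

namespace Fermat.Agent.S34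

open Fermat.Agent.S28 Fermat.Agent.S37

noncomputable section

universe u

/-- `f` has no coefficient below `n`. -/
def cs22_OrdGE {R : Type*} [CommRing R] (f : LaurentSeries R) (n : ℤ) : Prop :=
  ∀ k : ℤ, k < n → f.coeff k = 0

section Ord

variable {R : Type*} [CommRing R]

theorem cs22_ordGE_zero (n : ℤ) : cs22_OrdGE (0 : LaurentSeries R) n := fun _ _ => rfl

theorem cs22_ordGE_mono {f : LaurentSeries R} {a b : ℤ} (h : cs22_OrdGE f a) (hab : b ≤ a) :
    cs22_OrdGE f b := fun k hk => h k (lt_of_lt_of_le hk hab)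

theorem cs22_ordGE_add {f g : LaurentSeries R} {n : ℤ} (hf : cs22_OrdGE f n)
    (hg : cs22_OrdGE g n) : cs22_OrdGE (f + g) n := fun k hk => by
  rw [HahnSeries.coeff_add, hf k hk, hg k hk, add_zero]

theorem cs22_ordGE_neg {f : LaurentSeries R} {n : ℤ} (hf : cs22_OrdGE f n) :
    cs22_OrdGE (-f) n := fun k hk => by
  rw [HahnSeries.coeff_neg, hf k hk, neg_zero]

theorem cs22_ordGE_sub {f g : LaurentSeries R} {n : ℤ} (hf : cs22_OrdGE f n)
    (hg : cs22_OrdGE g n) : cs22_OrdGE (f - g) n := by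
  rw [sub_eq_add_neg]
  exact cs22_ordGE_add hf (cs22_ordGE_neg hg)

theorem cs22_ordGE_mul {f g : LaurentSeries R} {a b : ℤ} (hf : cs22_OrdGE f a)
    (hg : cs22_OrdGE g b) : cs22_OrdGE (f * g) (a + b) := by
  intro k hk
  rw [HahnSeries.coeff_mul]
  apply Finset.sum_eq_zero
  intro ij hij
  rw [Finset.mem_antidiagonal] at hij
  obtain ⟨h1, h2, h3⟩ := hij
  exfalso
  have h1' : ¬ ij.1 < a := fun h => h1 (hf _ h)
  have h2' : ¬ ij.2 < b := fun h => h2 (hg _ h)
  omega

theorem cs22_ordGE_one : cs22_OrdGE (1 : LaurentSeries R) 0 := by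
  intro k hk
  rw [HahnSeries.coeff_one, if_neg (ne_of_lt hk)]

/-- The coefficients of `∏ (X - L i)`: if no `L i` has a coefficient below `-B`, the coefficient
of `X^k` has none below `-B (card - k)`. -/
theorem cs22_ordGE_prod_coeff {ι : Type*} (s : Finset ι) (L : ι → LaurentSeries R) (B : ℤ)
    (hL : ∀ i ∈ s, cs22_OrdGE (L i) (-B)) (k : ℕ) :
    cs22_OrdGE ((∏ i ∈ s, (Polynomial.X - Polynomial.C (L i)) :
      Polynomial (LaurentSeries R)).coeff k) (-B * ((s.card : ℤ) - k)) := by
  classical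
  induction s using Finset.induction_on generalizing k with
  | empty =>
    rw [Finset.prod_empty, Finset.card_empty, Polynomial.coeff_one]
    by_cases hk : k = 0
    · subst hk
      simpa using (cs22_ordGE_one (R := R))
    · rw [if_neg hk]
      exact cs22_ordGE_zero _
  | insert a s ha ih =>
    have hLs : ∀ i ∈ s, cs22_OrdGE (L i) (-B) := fun i hi => hL i (Finset.mem_insert_of_mem hi)
    have hLa : cs22_OrdGE (L a) (-B) := hL a (Finset.mem_insert_self a s)
    rw [Finset.prod_insert ha, Finset.card_insert_of_notMem ha]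
    cases k with
    | zero =>
      rw [Polynomial.mul_coeff_zero, Polynomial.coeff_sub, Polynomial.coeff_X_zero,
        Polynomial.coeff_C_zero, zero_sub, neg_mul]
      apply cs22_ordGE_neg
      have h := cs22_ordGE_mul hLa (ih hLs 0)
      have e : -B + -B * ((s.card : ℤ) - ((0 : ℕ) : ℤ)) =
          -B * (((s.card + 1 : ℕ) : ℤ) - ((0 : ℕ) : ℤ)) := by
        push_cast; ring
      rw [← e]
      exact h
    | succ k =>
      rw [sub_mul, Polynomial.coeff_sub, Polynomial.coeff_X_mul, Polynomial.coeff_C_mul]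
      apply cs22_ordGE_sub
      · have h := ih hLs k
        have e : -B * ((s.card : ℤ) - (k : ℤ)) =
            -B * (((s.card + 1 : ℕ) : ℤ) - ((k + 1 : ℕ) : ℤ)) := by
          push_cast; ring
        rw [← e]
        exact h
      · have h := cs22_ordGE_mul hLa (ih hLs (k + 1))
        have e : -B + -B * ((s.card : ℤ) - ((k + 1 : ℕ) : ℤ)) =
            -B * (((s.card + 1 : ℕ) : ℤ) - ((k + 1 : ℕ) : ℤ)) := by
          push_cast; ring
        rw [← e]
        exact h

theorem cs22_coeff_intCast_mul (n : ℤ) (x : LaurentSeries R) (k : ℤ) :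
    ((n : LaurentSeries R) * x).coeff k = (n : R) * x.coeff k := by
  rw [← zsmul_eq_mul, ← zsmul_eq_mul]
  exact map_zsmul (HahnSeries.coeff.addMonoidHom k) n x

/-- The coefficient of `q^(-deg c)` of `c(J)` is the leading coefficient of `c`. -/
theorem cs22_evJ_coeff (c : Polynomial ℤ) :
    (evJ R c).coeff (-(c.natDegree : ℤ)) = (c.leadingCoeff : R) := by
  unfold evJ
  rw [Polynomial.coe_eval₂RingHom, Polynomial.eval₂_eq_sum_range]
  have hsum : ∀ (t : Finset ℕ) (g : ℕ → LaurentSeries R) (m : ℤ),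
      (∑ i ∈ t, g i).coeff m = ∑ i ∈ t, (g i).coeff m := by
    intro t g m
    exact map_sum (HahnSeries.coeff.addMonoidHom m) g t
  rw [hsum, Finset.sum_eq_single c.natDegree]
  · rw [eq_intCast, cs22_coeff_intCast_mul, coeff_jqModC_pow_self, mul_one]
    rfl
  · intro i hi hne
    rw [eq_intCast, cs22_coeff_intCast_mul, coeff_jqModC_pow_of_lt, mul_zero]
    have : i < c.natDegree := lt_of_le_of_ne (Nat.lt_succ_iff.mp (Finset.mem_range.mp hi)) hne
    omega
  · intro h
    exact absurd (Finset.mem_range.mpr (Nat.lt_succ_self _)) h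

end Ord

/-- No conjugate of `j(q^p)` (in the variable `w = q^(1/p)`) has a coefficient below `-p^2`. -/
theorem cs22_ordGE_L (p : ℕ) [NeZero p] (i : Option (Fin p)) :
    cs22_OrdGE (h93_L p i) (-((p : ℤ) ^ 2)) := by
  have hp : (1 : ℤ) ≤ p := by exact_mod_cast Nat.pos_of_ne_zero (NeZero.ne p)
  cases i with
  | none =>
    intro k hk
    show (qExpand ℂ p (qExpand ℂ p (jqModC ℂ))).coeff k = 0
    by_cases h1 : (p : ℤ) ∣ k
    · obtain ⟨k1, rfl⟩ := h1
      rw [qExpand_coeff_mul]
      by_cases h2 : (p : ℤ) ∣ k1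
      · obtain ⟨k2, rfl⟩ := h2
        rw [qExpand_coeff_mul]
        apply coeff_jqModC_of_lt
        nlinarith
      · exact qExpand_coeff_of_not_dvd p _ h2
    · exact qExpand_coeff_of_not_dvd p _ h1
  | some b =>
    intro k hk
    show (twist (h93_zeta p ^ (b : ℕ)) (jqModC ℂ)).coeff k = 0
    rw [twist_coeff, coeff_jqModC_of_lt, mul_zero]
    nlinarith

/-- The coefficient of `q^(-p deg c)` of `c(J(q^p))` is the leading coefficient of `c`. -/
theorem cs22_Theta_coeff (p : ℕ) [NeZero p] (c : Polynomial ℤ) :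
    (kc87_Theta ℂ p c).coeff (-((p : ℤ) * c.natDegree)) = (c.leadingCoeff : ℂ) := by
  show (qExpand ℂ p (evJ ℂ c)).coeff _ = _
  rw [show -((p : ℤ) * c.natDegree) = (p : ℤ) * (-(c.natDegree : ℤ)) by ring, qExpand_coeff_mul,
    cs22_evJ_coeff]

/-- Degree bound from the pole order. -/
theorem cs22_natDegree_le (p : ℕ) [NeZero p] (c : Polynomial ℤ) (m : ℕ)
    (h : cs22_OrdGE (kc87_Theta ℂ p c) (-((p : ℤ) ^ 2) * m)) : c.natDegree ≤ p * m := by
  by_contra hlt'
  have hlt : p * m < c.natDegree := not_le.mp hlt'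
  have hp : (1 : ℤ) ≤ p := by exact_mod_cast Nat.pos_of_ne_zero (NeZero.ne p)
  have hlt' : ((p : ℤ) * m) < c.natDegree := by exact_mod_cast hlt
  have h1 := h (-((p : ℤ) * c.natDegree)) (by nlinarith)
  rw [cs22_Theta_coeff] at h1
  have h2 : c.leadingCoeff = 0 := by exact_mod_cast h1
  have hc : c = 0 := Polynomial.leadingCoeff_eq_zero.mp h2
  subst hc
  simp at hlt

/-- **The Kronecker polynomial with its degree bound.**  `Φ ∈ ℤ[Y][X]` monic of degree `p + 1`,
`Φ(J(q^p), J(q)) = 0`, and the coefficient of `X^i` has `Y`-degree at most `p (p + 1 - i)`. -/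
theorem cs22_exists (p : ℕ) (hp : p.Prime) :
    ∃ Φ : Polynomial (Polynomial ℤ), Φ.Monic ∧ Φ.natDegree = p + 1 ∧
      Φ.eval₂ (evJ ℤ) (JdC ℤ p) = 0 ∧
      ∀ i : ℕ, (Φ.coeff i).natDegree ≤ p * (p + 1 - i) := by
  haveI : NeZero p := ⟨hp.ne_zero⟩
  haveI : Fact p.Prime := ⟨hp⟩
  have hζ : IsPrimitiveRoot (h93_zeta p) p := by
    rw [← IsPrimitiveRoot.coe_units_iff]
    exact h93_zeta_isPrimitiveRoot p
  have hprod : (∏ i, (Polynomial.X - Polynomial.C (h93_L p i)) : Polynomial (LaurentSeries ℂ)) =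
      h82_Phi ℂ p (h93_zeta p) := by
    rw [Fintype.prod_option]
    rfl
  obtain ⟨Φ, hmon, hdeg, hmap⟩ := h93_family (N := p) (Int.castRingHom ℂ) Int.cast_injective
    (h93_F p) (h93_L p) (h93_hasWExp p) (h93_perm p hp)
    (fun k => by rw [hprod]; exact modEq_descent p hp (h93_zeta p) hζ k)
  have hΘ : (coeffMap (Int.castRingHom ℂ)).comp
      ((qExpand ℤ p).comp (Polynomial.aeval (jqModC ℤ)).toRingHom) = kc87_Theta ℂ p := by
    apply Polynomial.ringHom_ext
    · intro a
      simp [kc87_Theta, evJ]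
    · simp [kc87_Theta, evJ, coeffMap_qExpand, coeffMap_jqModC]
  rw [hΘ] at hmap
  have hcard : Fintype.card (Option (Fin p)) = p + 1 := by
    rw [Fintype.card_option, Fintype.card_fin]
  have hinjC : Function.Injective (coeffMap (Int.castRingHom ℂ)) :=
    h82_coeffMap_injective _ Int.cast_injective
  have hdeg' : Φ.natDegree = p + 1 := by rw [hdeg, hcard]
  refine ⟨Φ, hmon, hdeg', ?_, ?_⟩
  · -- the root `J(q^(p^2))`
    have hinj : Function.Injective ((coeffMap (Int.castRingHom ℂ)).comp (qExpand ℤ p)) :=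
      hinjC.comp (qExpand_injective p)
    apply hinj
    have hψ : ((coeffMap (Int.castRingHom ℂ)).comp (qExpand ℤ p)).comp (evJ ℤ) =
        kc87_Theta ℂ p := by
      rw [RingHom.comp_assoc]
      exact kc87_coeffMap_Theta (Int.castRingHom ℂ) p
    have hroot : ((coeffMap (Int.castRingHom ℂ)).comp (qExpand ℤ p)) (JdC ℤ p) =
        qExpand ℂ p (qExpand ℂ p (jqModC ℂ)) := by
      show coeffMap _ (qExpand ℤ p (JdC ℤ p)) = qExpand ℂ p (qExpand ℂ p (jqModC ℂ))
      rw [JdC_of_neZero, coeffMap_qExpand, coeffMap_qExpand, coeffMap_jqModC]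
    rw [map_zero, Polynomial.hom_eval₂, hψ, ← Polynomial.eval_map, hmap, hroot, hprod]
    unfold h82_Phi
    rw [Polynomial.eval_mul]
    simp
  · -- the degree bound
    intro i
    by_cases hi : i ≤ p + 1
    · apply cs22_natDegree_le
      have h1 : kc87_Theta ℂ p (Φ.coeff i) =
          (∏ k, (Polynomial.X - Polynomial.C (h93_L p k)) :
            Polynomial (LaurentSeries ℂ)).coeff i := by
        rw [← hmap, Polynomial.coeff_map]
      rw [h1]
      have h2 := cs22_ordGE_prod_coeff (Finset.univ : Finset (Option (Fin p))) (h93_L p)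
        ((p : ℤ) ^ 2) (fun k _ => cs22_ordGE_L p k) i
      have e : -((p : ℤ) ^ 2) * (((Finset.univ : Finset (Option (Fin p))).card : ℤ) - i) =
          -((p : ℤ) ^ 2) * ((p + 1 - i : ℕ) : ℤ) := by
        rw [Finset.card_univ, hcard, Nat.cast_sub hi]
      rw [← e]
      exact h2
    · rw [Polynomial.coeff_eq_zero_of_natDegree_lt (by rw [hdeg']; exact not_le.mp hi)]
      simp

/-- `c(j) * J^N = (reflect N c)(J)` when `j * J = 1` and `deg c ≤ N`. -/
theorem cs22_eval₂_reflect {S : Type*} [CommRing S] (ι : ℤ →+* S) (j Jinv : S)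
    (h : j * Jinv = 1) (N : ℕ) (c : Polynomial ℤ) (hc : c.natDegree ≤ N) :
    Polynomial.eval₂ ι Jinv (Polynomial.reflect N c) = Polynomial.eval₂ ι j c * Jinv ^ N := by
  letI : Invertible j := ⟨Jinv, by rw [mul_comm]; exact h, h⟩
  have h1 := Polynomial.eval₂_reflect_mul_pow ι j N c hc
  have h2 : (⅟j : S) = Jinv := rfl
  rw [h2] at h1
  rw [← h1, mul_assoc, ← mul_pow, h, one_pow, mul_one]

theorem cs22_coeffMap_evJ {R S : Type*} [CommRing R] [CommRing S] (φ : R →+* S) :
    (coeffMap φ).comp (evJ R) = evJ S := by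
  apply Polynomial.ringHom_ext
  · intro a
    simp [evJ]
  · simp [evJ, coeffMap_jqModC]

/-- The Kronecker relation over any commutative ring. -/
theorem cs22_root (p : ℕ) (Φ : Polynomial (Polynomial ℤ))
    (hroot : Φ.eval₂ (evJ ℤ) (JdC ℤ p) = 0) (R : Type*) [CommRing R] :
    Φ.eval₂ (evJ R) (JdC R p) = 0 := by
  have h := congrArg (coeffMap (Int.castRingHom R)) hroot
  rw [map_zero, Polynomial.hom_eval₂, cs22_coeffMap_evJ, coeffMap_JdC] at h
  exact h

/-- **`T = j(q^p) / j(q)^p` is integral over `ℤ[1/j]`.**  There is a monic `Ψ ∈ ℤ[Y][X]` of degree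
`p + 1` such that `Ψ(T, J) = 0` for every commutative ring `R` and every inverse `J` of the
`q`-expansion `j` in `R((q))`, where `T = j(q^p) * J^p`. -/
theorem cs22_T_integral (p : ℕ) (hp : p.Prime) :
    ∃ Ψ : Polynomial (Polynomial ℤ), Ψ.Monic ∧ Ψ.natDegree = p + 1 ∧
      ∀ (R : Type u) [CommRing R] (Jinv : LaurentSeries R), jqModC R * Jinv = 1 →
        Ψ.eval₂ (Polynomial.eval₂RingHom (Int.castRingHom (LaurentSeries R)) Jinv)
          (JdC R p * Jinv ^ p) = 0 := by
  obtain ⟨Φ, hmon, hdeg, hroot, hbound⟩ := cs22_exists p hp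
  set Rm : Polynomial (Polynomial ℤ) :=
    ∑ i ∈ Finset.range (p + 1),
      Polynomial.C (Polynomial.reflect (p * (p + 1 - i)) (Φ.coeff i)) * Polynomial.X ^ i with hRm
  have hRdeg : Rm.degree < ((p + 1 : ℕ) : WithBot ℕ) := by
    refine (Polynomial.degree_sum_le _ _).trans_lt ?_
    refine (Finset.sup_lt_iff (WithBot.bot_lt_coe (p + 1))).2 ?_
    intro k hk
    exact (Polynomial.degree_C_mul_X_pow_le k _).trans_lt
      (WithBot.coe_lt_coe.2 (Finset.mem_range.1 hk))
  have hnat : (Polynomial.X ^ (p + 1) + Rm : Polynomial (Polynomial ℤ)).natDegree = p + 1 := by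
    rw [Polynomial.natDegree_add_eq_left_of_degree_lt
      (by rw [Polynomial.degree_X_pow]; exact hRdeg), Polynomial.natDegree_X_pow]
  refine ⟨Polynomial.X ^ (p + 1) + Rm, Polynomial.monic_X_pow_add hRdeg, hnat, ?_⟩
  intro R _ Jinv hJ
  have hΦ := cs22_root p Φ hroot R
  rw [Polynomial.eval₂_eq_sum_range, hdeg, Finset.sum_range_succ] at hΦ
  have hlead : Φ.coeff (p + 1) = 1 := by
    have := hmon.coeff_natDegree
    rwa [hdeg] at this
  rw [hlead, map_one, one_mul] at hΦ
  set ev := Polynomial.eval₂RingHom (Int.castRingHom (LaurentSeries R)) Jinv with hev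
  have hterm : ∀ i ∈ Finset.range (p + 1),
      ev (Polynomial.reflect (p * (p + 1 - i)) (Φ.coeff i)) * (JdC R p * Jinv ^ p) ^ i =
        evJ R (Φ.coeff i) * JdC R p ^ i * Jinv ^ (p * (p + 1)) := by
    intro i hi
    have hi' : i ≤ p := Nat.lt_succ_iff.mp (Finset.mem_range.mp hi)
    have h1 : ev (Polynomial.reflect (p * (p + 1 - i)) (Φ.coeff i)) =
        evJ R (Φ.coeff i) * Jinv ^ (p * (p + 1 - i)) :=
      cs22_eval₂_reflect (Int.castRingHom (LaurentSeries R)) (jqModC R) Jinv hJ _ _ (hbound i)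
    have h2 : p * (p + 1) = p * (p + 1 - i) + p * i := by
      rw [← Nat.mul_add, Nat.sub_add_cancel (by omega)]
    rw [h1, h2, pow_add, mul_pow, ← pow_mul]
    ring
  rw [Polynomial.eval₂_add, Polynomial.eval₂_pow, Polynomial.eval₂_X, hRm,
    Polynomial.eval₂_finsetSum]
  have hsum : ∑ i ∈ Finset.range (p + 1),
      Polynomial.eval₂ ev (JdC R p * Jinv ^ p)
        (Polynomial.C (Polynomial.reflect (p * (p + 1 - i)) (Φ.coeff i)) * Polynomial.X ^ i) =
      ∑ i ∈ Finset.range (p + 1), evJ R (Φ.coeff i) * JdC R p ^ i * Jinv ^ (p * (p + 1)) := by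
    refine Finset.sum_congr rfl fun i hi => ?_
    rw [Polynomial.eval₂_mul, Polynomial.eval₂_C, Polynomial.eval₂_pow, Polynomial.eval₂_X]
    exact hterm i hi
  rw [hsum, ← Finset.sum_mul]
  have hT : (JdC R p * Jinv ^ p) ^ (p + 1) = JdC R p ^ (p + 1) * Jinv ^ (p * (p + 1)) := by
    rw [mul_pow, ← pow_mul]
  rw [hT, ← add_mul, add_comm, hΦ, zero_mul]

end

end Fermat.Agent.S34
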