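import Fermat.Agent.S34.CuspNode53
import Fermat.Agent.S34.CuspSep22
import Fermat.Agent.S34.ChartM85
import Fermat.Agent.S37.KroneckerNorm97

/-!
# S34 lab, step (3c), the INSTANCE (helper53): cuspidal closed points lie on one branch only

Concrete form of `cn53_not_node` (CuspNode53) at the level `M` with `q ∣ M`, `p₀ ∣ M`
(`p₀ ∈ {2, 3}`, `p₀ ≠ q`), over a discrete valuation ring `R` of residue characteristic `q`
with fraction field `K`:  `F = F(M)_K`, `j = rm90_j K M`, `y = cni53_y K M q = j(Q^q)`,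
`V₁ = cm85_Vinf M hπ` (the Gauss ring at `∞`), `V₂` = any valuation subring with the Kummer
property `y ^ q - j ∈ m_{V₂}` (e.g. `V₁.comap w` for a ring hom `w` with `w j = y`, `w y = j`).

* `cni53_y`, `cni53_y_coe` : `y = j(Q^q)` as an element of `F(M)_K`.
* `cni53_rel` : the Kronecker relation `Φ(y, j) = 0` in `F(M)_K` (`Φ` of `cs22_exists`).
* `cni53_E_mem` : `y * g ^ (a * q) ∈ pk15_chart R {g}` whenever `j * g ^ a = D ∈ R[g]`
  (no saturation, no integral-closedness argument: a monic equation over `R[g]`).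
* `cni53_kronecker` : `π⁻¹ * (y - j ^ q) ∈ V_∞`, `cni53_kronecker_val` : `v_∞(y - j ^ q) < 1`.
* `cni53_gen` : the generic separation statement for a chart coordinate `g ∈ V_∞` with
  `j * g ^ a = D`, `D` a unit at the prime `n ∋ g`.
* `cni53_level2`, `cni53_level2_inv`, `cni53_level3`, `cni53_level3_inv` : the four cases
  (`g = h`, `g = h⁻¹` for `h = pk85_h2 K M`, `pk85_h3 K M`), valuation form.
* `cni53_level2_pi`, … : the same in the `π⁻¹`-form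
  (`∀ x : B, π⁻¹ * x ∈ Vᵢ → x ∈ n` for `i = 1, 2` is impossible).
* `cni53_comap_*` : the form with `V₂ = V_∞.comap w`.
* `cni53_noncusp_level2`, … : (3d) at a prime `n` of the chart not containing the coordinate,
  `j` is regular: `∃ s ∉ n, s * j ∈ B`.
-/

set_option autoImplicit false
set_option linter.unusedSectionVars false
set_option linter.style.haveILetI false

open ModularCurve Polynomial

namespace Fermat.Agent.S34

open Fermat.Agent.S18 Fermat.Agent.S28 Fermat.Agent.S37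

/-! ### Two small facts on valuation subrings -/

theorem cni53_val_lt_one {F : Type*} [Field F] (V : ValuationSubring F) (x : F) (hx : x ∈ V)
    (hx' : x⁻¹ ∉ V) : V.valuation x < 1 := by
  by_contra hlt
  have h1 : V.valuation x ≤ 1 := (V.valuation_le_one_iff x).mpr hx
  have h2 : V.valuation x = 1 := le_antisymm h1 (not_lt.mp hlt)
  apply hx'
  rw [← V.valuation_le_one_iff, map_inv₀, h2, inv_one]

theorem cni53_of_val_lt_one {F : Type*} [Field F] (V : ValuationSubring F) (x : F)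
    (hx : V.valuation x < 1) : x ∈ V ∧ (x = 0 ∨ x⁻¹ ∉ V) := by
  refine ⟨(V.valuation_le_one_iff x).mp hx.le, ?_⟩
  by_cases h0 : x = 0
  · exact Or.inl h0
  · right
    intro hmem
    have h1 : V.valuation x⁻¹ ≤ 1 := (V.valuation_le_one_iff _).mpr hmem
    have h2 : V.valuation x * V.valuation x⁻¹ = 1 := by
      rw [← map_mul, mul_inv_cancel₀ h0, map_one]
    have h3 : V.valuation x * V.valuation x⁻¹ < 1 := by
      calc V.valuation x * V.valuation x⁻¹ ≤ V.valuation x * 1 := mul_le_mul' le_rfl h1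
        _ < 1 := by rw [mul_one]; exact hx
    exact absurd h2 h3.ne

/-- If `m_V = π V` (in the `hmax` form), then `v(x) < 1` implies `π⁻¹ * x ∈ V`. -/
theorem cni53_pi_inv_mul_mem {F : Type*} [Field F] (V : ValuationSubring F) (ϖ : F)
    (hmax : ∀ x ∈ V, x⁻¹ ∉ V → ϖ⁻¹ * x ∈ V) (x : F) (hx : V.valuation x < 1) :
    ϖ⁻¹ * x ∈ V := by
  obtain ⟨h1, h2⟩ := cni53_of_val_lt_one V x hx
  rcases h2 with h0 | h2
  · rw [h0, mul_zero]
    exact V.zero_mem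
  · exact hmax x h1 h2

/-- If `ϖ ∈ V`, `ϖ⁻¹ ∉ V` and `ϖ⁻¹ * x ∈ V`, then `v(x) < 1`. -/
theorem cni53_val_lt_one_of_pi {F : Type*} [Field F] (V : ValuationSubring F) (ϖ : F)
    (hϖ : ϖ ∈ V) (hϖ' : ϖ⁻¹ ∉ V) (x : F) (hx : ϖ⁻¹ * x ∈ V) : V.valuation x < 1 := by
  have hϖ0 : ϖ ≠ 0 := by
    rintro rfl
    apply hϖ'
    rw [inv_zero]
    exact V.zero_mem
  have e : x = ϖ * (ϖ⁻¹ * x) := by
    rw [← mul_assoc, mul_inv_cancel₀ hϖ0, one_mul]
  rw [e, map_mul]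
  calc V.valuation ϖ * V.valuation (ϖ⁻¹ * x) ≤ V.valuation ϖ * 1 :=
        mul_le_mul' le_rfl ((V.valuation_le_one_iff _).mpr hx)
    _ < 1 := by rw [mul_one]; exact cni53_val_lt_one V ϖ hϖ hϖ'

/-! ### The function `y = j(Q^q)` and the Kronecker relation -/

section cni53_y

variable (K : Type) [Field K] (M : ℕ) [NeZero M]

/-- `y = j(Q^q)` as an element of `F(M)_K`, for `q ∣ M`. -/
noncomputable def cni53_y (q : ℕ) [NeZero q] (hqM : q ∣ M) : ↥(modularFunctionFieldFullC K M) :=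
  ⟨qExpand K q (jqModC K), jqModCd_mem_full K M hqM⟩

theorem cni53_y_coe (q : ℕ) [NeZero q] (hqM : q ∣ M) :
    ((cni53_y K M q hqM : ↥(modularFunctionFieldFullC K M)) : LaurentSeries K) =
      qExpand K q (jqModC K) := rfl

/-- The Kronecker relation `Φ(y, j) = 0` in `F(M)_K`, for any `Φ ∈ ℤ[Y][X]` with
`Φ(j(Q^q), j) = 0` in `ℤ((Q))`. -/
theorem cni53_rel (q : ℕ) [NeZero q] (hqM : q ∣ M) (Φ : Polynomial (Polynomial ℤ))
    (hroot : Φ.eval₂ (evJ ℤ) (JdC ℤ q) = 0) :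
    cn53_bev (Int.castRingHom ↥(modularFunctionFieldFullC K M)) (cni53_y K M q hqM)
      (rm90_j K M) Φ = 0 := by
  have h1 := cs22_root q Φ hroot K
  apply Subtype.ext
  set val : ↥(modularFunctionFieldFullC K M) →+* LaurentSeries K :=
    (modularFunctionFieldFullC K M).toSubring.subtype with hval
  have hcomp : val.comp (Polynomial.eval₂RingHom
      (Int.castRingHom ↥(modularFunctionFieldFullC K M)) (rm90_j K M)) = evJ K := by
    apply Polynomial.ringHom_ext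
    · intro a
      simp [evJ]
    · simp only [evJ, hval, rm90_j, RingHom.coe_comp, Function.comp_apply,
        Polynomial.coe_eval₂RingHom, Polynomial.eval₂_X]
      rfl
  have h2 : val (cn53_bev (Int.castRingHom ↥(modularFunctionFieldFullC K M))
      (cni53_y K M q hqM) (rm90_j K M) Φ) = Φ.eval₂ (evJ K) (JdC K q) := by
    rw [cn53_bev_apply, Polynomial.hom_eval₂, hcomp, JdC_of_neZero]
    rfl
  show val _ = (0 : LaurentSeries K)
  rw [h2, h1]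

end cni53_y

/-! ### Integrality of `E = y * g ^ (a * q)`, the Kronecker congruence, the generic statement -/

section cni53_main

variable {R K : Type} [CommRing R] [IsDomain R] [IsDiscreteValuationRing R] [Field K] [CharZero K]
  [Algebra R K] [IsFractionRing R K] (M : ℕ) [NeZero M]
  [Algebra R ↥(modularFunctionFieldFullC K M)]
  [IsScalarTower R K ↥(modularFunctionFieldFullC K M)]

local notation "𝔽" => (modularFunctionFieldFullC K M)

/-- `y * g ^ (a * q)` lies in the chart of `g` as soon as `j * g ^ a ∈ R[g]`. -/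
theorem cni53_E_mem (q : ℕ) (hq : q.Prime) [NeZero q] (hqM : q ∣ M) (g D : 𝔽) (a : ℕ)
    (hD : D ∈ Algebra.adjoin R ({g} : Set 𝔽)) (hjD : rm90_j K M * g ^ a = D) :
    cni53_y K M q hqM * g ^ (a * q) ∈ pk15_chart R ({g} : Set 𝔽) := by
  obtain ⟨Φ, hmon, hdeg, hroot, hbound⟩ := cs22_exists q hq
  rw [pk15_mem_chart]
  refine cn53_integral (R := R) (Int.castRingHom 𝔽) Φ hmon q a ?_ g (rm90_j K M) _ D ?_ hD hjD
    (cni53_rel K M q hqM Φ hroot)
  · intro i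
    rw [hdeg, Nat.mul_comm]
    exact hbound i
  · intro r
    rw [eq_intCast]
    exact intCast_mem _ r

/-- **Kronecker's congruence on the Gauss ring**: `y ≡ j ^ q` modulo `π V_∞`, when the residue
characteristic of `R` is `q`. -/
theorem cni53_kronecker (q : ℕ) (hq : q.Prime) [NeZero q] (hqM : q ∣ M) {π : R}
    (hπ : Irreducible π) (hqR : ¬ IsUnit (q : R)) :
    (algebraMap R 𝔽 π)⁻¹ * (cni53_y K M q hqM - rm90_j K M ^ q) ∈ cm85_Vinf (K := K) M hπ := by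
  have hq0 : ((q : ℕ) : IsLocalRing.ResidueField R) = 0 := by
    rw [← map_natCast (IsLocalRing.residue R), IsLocalRing.residue_eq_zero_iff]
    exact hqR
  haveI : CharP (IsLocalRing.ResidueField R) q := (CharP.charP_iff_prime_eq_zero hq).mpr hq0
  haveI : ExpChar (IsLocalRing.ResidueField R) q := ExpChar.prime hq
  have hcoe : ((cni53_y K M q hqM - rm90_j K M ^ q : 𝔽) : LaurentSeries K) =
      coeffMap (algebraMap R K) (qExpand R q (jqModC R) - jqModC R ^ q) := by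
    rw [map_sub, map_pow, coeffMap_qExpand, coeffMap_jqModC]
    rfl
  refine ((pk85_gauss M hπ _ _ hcoe).2).mpr ?_
  rw [map_sub, map_pow, coeffMap_qExpand, coeffMap_jqModC, kn97_frobenius q (jqModC _),
    coeffMap_jqModC, sub_self]

theorem cni53_kronecker_val (q : ℕ) (hq : q.Prime) [NeZero q] (hqM : q ∣ M) {π : R}
    (hπ : Irreducible π) (hqR : ¬ IsUnit (q : R)) :
    (cm85_Vinf (K := K) M hπ).valuation (cni53_y K M q hqM - rm90_j K M ^ q) < 1 := by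
  have hconv : algebraMap R 𝔽 π = algebraMap K 𝔽 (algebraMap R K π) :=
    IsScalarTower.algebraMap_apply R K 𝔽 π
  refine cni53_val_lt_one_of_pi _ (algebraMap R 𝔽 π) (pk85_hRV M hπ π) ?_ _
    (cni53_kronecker M q hq hqM hπ hqR)
  rw [hconv]
  exact gv85_pi_inv_not_mem (IsLocalRing.residue R) π (pk85_res_iff hπ) hπ.ne_zero _ _

/-- `g` is a *cusp coordinate*: `j * g ^ a = D` with `D ∈ R[g]` a unit at every prime of the chart
of `g` containing `g`. -/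
def cni53_CuspCoord (R : Type) {K : Type} [CommRing R] [Field K] (M : ℕ) [NeZero M]
    [Algebra R ↥(modularFunctionFieldFullC K M)] (g : ↥(modularFunctionFieldFullC K M)) : Prop :=
  ∃ (a : ℕ) (D : ↥(modularFunctionFieldFullC K M))
    (DB : ↥(pk15_chart R ({g} : Set ↥(modularFunctionFieldFullC K M)))),
    1 ≤ a ∧ D ∈ Algebra.adjoin R ({g} : Set ↥(modularFunctionFieldFullC K M)) ∧
    rm90_j K M * g ^ a = D ∧ (DB : ↥(modularFunctionFieldFullC K M)) = D ∧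
    ∀ n : Ideal ↥(pk15_chart R ({g} : Set ↥(modularFunctionFieldFullC K M))), n.IsPrime →
      (⟨g, pk15_subset_chart _ (Set.mem_singleton g)⟩ :
        ↥(pk15_chart R ({g} : Set ↥(modularFunctionFieldFullC K M)))) ∈ n → DB ∉ n

/-- **(3c), generic form.**  `g ∈ V_∞` a cusp coordinate, `V₂ ⊇ B = pk15_chart R {g}` a valuation
subring with `y ^ q - j ∈ m_{V₂}`.  A prime `n ∋ g` of `B` does not contain both centres
`B ∩ m_{V_∞}` and `B ∩ m_{V₂}`. -/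
theorem cni53_gen (q : ℕ) (hq : q.Prime) [NeZero q] (hqM : q ∣ M) {π : R} (hπ : Irreducible π)
    (hqR : ¬ IsUnit (q : R)) (g : 𝔽) (hc : cni53_CuspCoord R M g)
    (hgV : g ∈ cm85_Vinf (K := K) M hπ)
    (V₂ : ValuationSubring 𝔽) (hB₂ : ∀ x ∈ pk15_chart R ({g} : Set 𝔽), x ∈ V₂)
    (hK₂ : V₂.valuation (cni53_y K M q hqM ^ q - rm90_j K M) < 1)
    (n : Ideal ↥(pk15_chart R ({g} : Set 𝔽))) (hn : n.IsPrime)
    (hgn : (⟨g, pk15_subset_chart _ (Set.mem_singleton g)⟩ : ↥(pk15_chart R ({g} : Set 𝔽))) ∈ n)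
    (hn₁ : ∀ x : ↥(pk15_chart R ({g} : Set 𝔽)),
      (cm85_Vinf (K := K) M hπ).valuation (x : 𝔽) < 1 → x ∈ n)
    (hn₂ : ∀ x : ↥(pk15_chart R ({g} : Set 𝔽)), V₂.valuation (x : 𝔽) < 1 → x ∈ n) : False := by
  obtain ⟨a, D, DB, ha, hD, hjD, hDB, hDn⟩ := hc
  have hE := cni53_E_mem (R := R) M q hq hqM g D a hD hjD
  have hB₁ : ∀ x : ↥(pk15_chart R ({g} : Set 𝔽)), (x : 𝔽) ∈ cm85_Vinf (K := K) M hπ := fun x =>
    pk15_chart_le_V (cm85_Vinf (K := K) M hπ) (pk85_hRV M hπ) {g}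
      (fun g' hg' => by rw [Set.mem_singleton_iff.mp hg']; exact hgV) x x.2
  exact cn53_not_node (pk15_chart R ({g} : Set 𝔽)).toSubring.subtype (cm85_Vinf (K := K) M hπ) V₂
    hB₁ (fun x => hB₂ x x.2) n hn hn₁ hn₂ q a hq.two_le ha
    ⟨g, pk15_subset_chart _ (Set.mem_singleton g)⟩ DB ⟨_, hE⟩ hgn (hDn n hn hgn)
    (rm90_j K M) (cni53_y K M q hqM) (hjD.trans hDB.symm)
    (cni53_kronecker_val M q hq hqM hπ hqR) hK₂ rfl

/-- **(3c), `π⁻¹`-form.**  `V₂` a valuation subring with `m_{V₂} = π V₂` (`hmax₂`), containing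
the chart `B` of the cusp coordinate `g`, with the Kummer property `π⁻¹ (y ^ q - j) ∈ V₂`.
A prime `n ∋ g` of `B` does not contain both `p_∞ = B ∩ π V_∞` and `p_0 = B ∩ π V₂`. -/
theorem cni53_one_branch (q : ℕ) (hq : q.Prime) [NeZero q] (hqM : q ∣ M) {π : R}
    (hπ : Irreducible π) (hqR : ¬ IsUnit (q : R)) (g : 𝔽) (hc : cni53_CuspCoord R M g)
    (hgV : g ∈ cm85_Vinf (K := K) M hπ)
    (V₂ : ValuationSubring 𝔽) (hB₂ : ∀ x ∈ pk15_chart R ({g} : Set 𝔽), x ∈ V₂)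
    (hπ₂ : (algebraMap R 𝔽 π)⁻¹ ∉ V₂)
    (hK₂ : (algebraMap R 𝔽 π)⁻¹ * (cni53_y K M q hqM ^ q - rm90_j K M) ∈ V₂)
    (n : Ideal ↥(pk15_chart R ({g} : Set 𝔽))) (hn : n.IsPrime)
    (hgn : (⟨g, pk15_subset_chart _ (Set.mem_singleton g)⟩ : ↥(pk15_chart R ({g} : Set 𝔽))) ∈ n) :
    ¬ ((∀ x : ↥(pk15_chart R ({g} : Set 𝔽)),
          (algebraMap R 𝔽 π)⁻¹ * (x : 𝔽) ∈ cm85_Vinf (K := K) M hπ → x ∈ n) ∧
        (∀ x : ↥(pk15_chart R ({g} : Set 𝔽)), (x : 𝔽) ∈ V₂ → ((x : 𝔽))⁻¹ ∉ V₂ → x ∈ n)) := by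
  rintro ⟨h1, h2⟩
  have hconv : algebraMap R 𝔽 π = algebraMap K 𝔽 (algebraMap R K π) :=
    IsScalarTower.algebraMap_apply R K 𝔽 π
  have hmax₁ : ∀ x ∈ cm85_Vinf (K := K) M hπ, x⁻¹ ∉ cm85_Vinf (K := K) M hπ →
      (algebraMap R 𝔽 π)⁻¹ * x ∈ cm85_Vinf (K := K) M hπ := by
    intro x hx hx'
    rw [hconv]
    exact gv85_hmax (IsLocalRing.residue R) π (pk85_res_iff hπ) hπ.ne_zero _ _ x hx hx'
  have hπB : algebraMap R 𝔽 π ∈ V₂ := hB₂ _ (Subalgebra.algebraMap_mem _ π)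
  refine cni53_gen M q hq hqM hπ hqR g hc hgV V₂ hB₂
    (cni53_val_lt_one_of_pi V₂ _ hπB hπ₂ _ hK₂) n hn hgn ?_ ?_
  · intro x hx
    exact h1 x (cni53_pi_inv_mul_mem _ _ hmax₁ _ hx)
  · intro x hx
    obtain ⟨hx1, hx2⟩ := cni53_of_val_lt_one V₂ _ hx
    rcases hx2 with h0 | hx2
    · have : x = 0 := Subtype.ext h0
      rw [this]
      exact n.zero_mem
    · exact h2 x hx1 hx2

/-- **(3c), Atkin–Lehner form.**  `w` a ring endomorphism of `F(M)_K` fixing `π`, with `w j = y`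
and `w y = j`, and `V₂ = V_∞.comap w` (so `x ∈ V₂ ↔ w x ∈ V_∞`); the chart `B` of the cusp
coordinate `g` is contained in `V₂`.  A prime `n ∋ g` of `B` does not contain both
`p_∞ = B ∩ π V_∞` and `p_0 = B ∩ π V₂`. -/
theorem cni53_one_branch_comap (q : ℕ) (hq : q.Prime) [NeZero q] (hqM : q ∣ M) {π : R}
    (hπ : Irreducible π) (hqR : ¬ IsUnit (q : R)) (g : 𝔽) (hc : cni53_CuspCoord R M g)
    (hgV : g ∈ cm85_Vinf (K := K) M hπ) (w : 𝔽 →+* 𝔽)
    (hwπ : w (algebraMap R 𝔽 π) = algebraMap R 𝔽 π)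
    (hwj : w (rm90_j K M) = cni53_y K M q hqM) (hwy : w (cni53_y K M q hqM) = rm90_j K M)
    (hB₂ : ∀ x ∈ pk15_chart R ({g} : Set 𝔽), w x ∈ cm85_Vinf (K := K) M hπ)
    (n : Ideal ↥(pk15_chart R ({g} : Set 𝔽))) (hn : n.IsPrime)
    (hgn : (⟨g, pk15_subset_chart _ (Set.mem_singleton g)⟩ : ↥(pk15_chart R ({g} : Set 𝔽))) ∈ n) :
    ¬ ((∀ x : ↥(pk15_chart R ({g} : Set 𝔽)),
          (algebraMap R 𝔽 π)⁻¹ * (x : 𝔽) ∈ cm85_Vinf (K := K) M hπ → x ∈ n) ∧
        (∀ x : ↥(pk15_chart R ({g} : Set 𝔽)),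
          (algebraMap R 𝔽 π)⁻¹ * w (x : 𝔽) ∈ cm85_Vinf (K := K) M hπ → x ∈ n)) := by
  rintro ⟨h1, h2⟩
  have hconv : algebraMap R 𝔽 π = algebraMap K 𝔽 (algebraMap R K π) :=
    IsScalarTower.algebraMap_apply R K 𝔽 π
  have hπV : (algebraMap R 𝔽 π)⁻¹ ∉ cm85_Vinf (K := K) M hπ := by
    rw [hconv]
    exact gv85_pi_inv_not_mem (IsLocalRing.residue R) π (pk85_res_iff hπ) hπ.ne_zero _ _
  have hmax₁ : ∀ x ∈ cm85_Vinf (K := K) M hπ, x⁻¹ ∉ cm85_Vinf (K := K) M hπ →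
      (algebraMap R 𝔽 π)⁻¹ * x ∈ cm85_Vinf (K := K) M hπ := by
    intro x hx hx'
    rw [hconv]
    exact gv85_hmax (IsLocalRing.residue R) π (pk85_res_iff hπ) hπ.ne_zero _ _ x hx hx'
  refine cni53_one_branch M q hq hqM hπ hqR g hc hgV ((cm85_Vinf (K := K) M hπ).comap w)
    hB₂ ?_ ?_ n hn hgn ⟨h1, ?_⟩
  · rw [ValuationSubring.mem_comap, map_inv₀, hwπ]
    exact hπV
  · rw [ValuationSubring.mem_comap, map_mul, map_inv₀, hwπ, map_sub, map_pow, hwy, hwj]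
    have h3 := cni53_kronecker (K := K) M q hq hqM hπ hqR
    have e : (algebraMap R 𝔽 π)⁻¹ * (rm90_j K M ^ q - cni53_y K M q hqM) =
        -((algebraMap R 𝔽 π)⁻¹ * (cni53_y K M q hqM - rm90_j K M ^ q)) := by ring
    rw [e]
    exact neg_mem h3
  · intro x hx hx'
    rw [ValuationSubring.mem_comap] at hx hx'
    rw [map_inv₀] at hx'
    exact h2 x (hmax₁ _ hx hx')

/-- **(3d)** At a prime `n` of the chart of a cusp coordinate `g` with `g ∉ n`, the function `j`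
is regular: `∃ s ∉ n, s * j ∈ B`. -/
theorem cni53_noncusp (g : 𝔽) (hc : cni53_CuspCoord R M g)
    (n : Ideal ↥(pk15_chart R ({g} : Set 𝔽))) (hn : n.IsPrime)
    (hgn : (⟨g, pk15_subset_chart _ (Set.mem_singleton g)⟩ : ↥(pk15_chart R ({g} : Set 𝔽))) ∉ n) :
    ∃ s : ↥(pk15_chart R ({g} : Set 𝔽)), s ∉ n ∧
      (s : 𝔽) * rm90_j K M ∈ pk15_chart R ({g} : Set 𝔽) := by
  obtain ⟨a, D, DB, -, -, hjD, hDB, -⟩ := hc
  refine ⟨⟨g, pk15_subset_chart _ (Set.mem_singleton g)⟩ ^ a,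
    fun hmem => hgn (hn.mem_of_pow_mem _ hmem), ?_⟩
  have e : ((⟨g, pk15_subset_chart _ (Set.mem_singleton g)⟩ ^ a :
      ↥(pk15_chart R ({g} : Set 𝔽))) : 𝔽) * rm90_j K M = (DB : 𝔽) := by
    rw [hDB, ← hjD, mul_comm]
    rfl
  rw [e]
  exact DB.2

/-- **(3c), `π⁻¹`-form on both branches** (with `m_{V₂} = π V₂` in the `hmax` form). -/
theorem cni53_one_branch_pi (q : ℕ) (hq : q.Prime) [NeZero q] (hqM : q ∣ M) {π : R}
    (hπ : Irreducible π) (hqR : ¬ IsUnit (q : R)) (g : 𝔽) (hc : cni53_CuspCoord R M g)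
    (hgV : g ∈ cm85_Vinf (K := K) M hπ)
    (V₂ : ValuationSubring 𝔽) (hB₂ : ∀ x ∈ pk15_chart R ({g} : Set 𝔽), x ∈ V₂)
    (hπ₂ : (algebraMap R 𝔽 π)⁻¹ ∉ V₂)
    (hmax₂ : ∀ x ∈ V₂, x⁻¹ ∉ V₂ → (algebraMap R 𝔽 π)⁻¹ * x ∈ V₂)
    (hK₂ : (algebraMap R 𝔽 π)⁻¹ * (cni53_y K M q hqM ^ q - rm90_j K M) ∈ V₂)
    (n : Ideal ↥(pk15_chart R ({g} : Set 𝔽))) (hn : n.IsPrime)
    (hgn : (⟨g, pk15_subset_chart _ (Set.mem_singleton g)⟩ : ↥(pk15_chart R ({g} : Set 𝔽))) ∈ n) :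
    ¬ ((∀ x : ↥(pk15_chart R ({g} : Set 𝔽)),
          (algebraMap R 𝔽 π)⁻¹ * (x : 𝔽) ∈ cm85_Vinf (K := K) M hπ → x ∈ n) ∧
        (∀ x : ↥(pk15_chart R ({g} : Set 𝔽)), (algebraMap R 𝔽 π)⁻¹ * (x : 𝔽) ∈ V₂ → x ∈ n)) := by
  rintro ⟨h1, h2⟩
  exact cni53_one_branch M q hq hqM hπ hqR g hc hgV V₂ hB₂ hπ₂ hK₂ n hn hgn
    ⟨h1, fun x hx hx' => h2 x (hmax₂ _ hx hx')⟩

/-! ### The four cusp coordinates -/

/-- The level `2` Hauptmodul is a cusp coordinate (`j h² = (h + 256)³`) when `2` is a unit. -/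
theorem cni53_cuspCoord_h2 (h2 : 2 ∣ M) (hu : IsUnit ((256 : ℕ) : R)) :
    cni53_CuspCoord R M (pk85_h2 K M h2) := by
  set g := pk85_h2 K M h2 with hg
  set gB : ↥(pk15_chart R ({g} : Set 𝔽)) := ⟨g, pk15_subset_chart _ (Set.mem_singleton g)⟩
    with hgB
  have hrel : rm90_j K M * g ^ 2 = (g + algebraMap R 𝔽 ((256 : ℕ) : R)) ^ 3 := by
    rw [map_natCast, Nat.cast_ofNat]
    exact pk85_h2_rel K M h2
  refine ⟨2, (g + algebraMap R 𝔽 ((256 : ℕ) : R)) ^ 3,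
    (gB + algebraMap R _ ((256 : ℕ) : R)) ^ 3, by norm_num, ?_, hrel, rfl, ?_⟩
  · exact Subalgebra.pow_mem _ (Subalgebra.add_mem _ (Algebra.subset_adjoin (Set.mem_singleton g))
      (Subalgebra.algebraMap_mem _ _)) 3
  · intro n hn hgn hDn
    have h1 := hn.mem_of_pow_mem _ hDn
    have h3 := (Ideal.add_mem_iff_right n hgn).mp h1
    exact hn.ne_top (Ideal.eq_top_of_isUnit_mem n h3 (hu.map _))

/-- The inverse of the level `2` Hauptmodul is a cusp coordinate (`j g = (1 + 256 g)³`). -/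
theorem cni53_cuspCoord_h2_inv (h2 : 2 ∣ M) : cni53_CuspCoord R M (pk85_h2 K M h2)⁻¹ := by
  have hh0 : pk85_h2 K M h2 ≠ 0 :=
    cap87_ne_zero (K := K) _ (pk85_h2_transcendental K M h2)
  set g := (pk85_h2 K M h2)⁻¹ with hg
  set gB : ↥(pk15_chart R ({g} : Set 𝔽)) := ⟨g, pk15_subset_chart _ (Set.mem_singleton g)⟩
    with hgB
  have hrel : rm90_j K M * g ^ 1 = (1 + algebraMap R 𝔽 ((256 : ℕ) : R) * g) ^ 3 := by
    rw [map_natCast, Nat.cast_ofNat, hg]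
    have h0 := pk85_h2_rel K M h2
    field_simp
    linear_combination h0
  refine ⟨1, (1 + algebraMap R 𝔽 ((256 : ℕ) : R) * g) ^ 3,
    (1 + algebraMap R _ ((256 : ℕ) : R) * gB) ^ 3, le_rfl, ?_, hrel, rfl, ?_⟩
  · exact Subalgebra.pow_mem _ (Subalgebra.add_mem _ (Subalgebra.one_mem _)
      (Subalgebra.mul_mem _ (Subalgebra.algebraMap_mem _ _)
        (Algebra.subset_adjoin (Set.mem_singleton g)))) 3
  · intro n hn hgn hDn
    have h1 := hn.mem_of_pow_mem _ hDn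
    have h3 := (Ideal.add_mem_iff_left n (n.mul_mem_left _ hgn)).mp h1
    exact hn.ne_top ((Ideal.eq_top_iff_one n).mpr h3)

/-- The level `3` Hauptmodul is a cusp coordinate (`j h³ = (h + 27)(h + 243)³`) when `3` is a
unit. -/
theorem cni53_cuspCoord_h3 (h3 : 3 ∣ M) (hu27 : IsUnit ((27 : ℕ) : R))
    (hu243 : IsUnit ((243 : ℕ) : R)) : cni53_CuspCoord R M (pk85_h3 K M h3) := by
  set g := pk85_h3 K M h3 with hg
  set gB : ↥(pk15_chart R ({g} : Set 𝔽)) := ⟨g, pk15_subset_chart _ (Set.mem_singleton g)⟩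
    with hgB
  have hrel : rm90_j K M * g ^ 3 = (g + algebraMap R 𝔽 ((27 : ℕ) : R)) *
      (g + algebraMap R 𝔽 ((243 : ℕ) : R)) ^ 3 := by
    rw [map_natCast, map_natCast, Nat.cast_ofNat, Nat.cast_ofNat]
    exact pk85_h3_rel K M h3
  refine ⟨3, (g + algebraMap R 𝔽 ((27 : ℕ) : R)) * (g + algebraMap R 𝔽 ((243 : ℕ) : R)) ^ 3,
    (gB + algebraMap R _ ((27 : ℕ) : R)) * (gB + algebraMap R _ ((243 : ℕ) : R)) ^ 3,
    by norm_num, ?_, hrel, rfl, ?_⟩
  · exact Subalgebra.mul_mem _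
      (Subalgebra.add_mem _ (Algebra.subset_adjoin (Set.mem_singleton g))
        (Subalgebra.algebraMap_mem _ _))
      (Subalgebra.pow_mem _ (Subalgebra.add_mem _ (Algebra.subset_adjoin (Set.mem_singleton g))
        (Subalgebra.algebraMap_mem _ _)) 3)
  · intro n hn hgn hDn
    rcases hn.mem_or_mem hDn with h1 | h1
    · have h3' := (Ideal.add_mem_iff_right n hgn).mp h1
      exact hn.ne_top (Ideal.eq_top_of_isUnit_mem n h3' (hu27.map _))
    · have h2 := hn.mem_of_pow_mem _ h1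
      have h3' := (Ideal.add_mem_iff_right n hgn).mp h2
      exact hn.ne_top (Ideal.eq_top_of_isUnit_mem n h3' (hu243.map _))

/-- The inverse of the level `3` Hauptmodul is a cusp coordinate
(`j g = (1 + 27 g)(1 + 243 g)³`). -/
theorem cni53_cuspCoord_h3_inv (h3 : 3 ∣ M) : cni53_CuspCoord R M (pk85_h3 K M h3)⁻¹ := by
  have hh0 : pk85_h3 K M h3 ≠ 0 :=
    cap87_ne_zero (K := K) _ (pk85_h3_transcendental K M h3)
  set g := (pk85_h3 K M h3)⁻¹ with hg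
  set gB : ↥(pk15_chart R ({g} : Set 𝔽)) := ⟨g, pk15_subset_chart _ (Set.mem_singleton g)⟩
    with hgB
  have hrel : rm90_j K M * g ^ 1 = (1 + algebraMap R 𝔽 ((27 : ℕ) : R) * g) *
      (1 + algebraMap R 𝔽 ((243 : ℕ) : R) * g) ^ 3 := by
    rw [map_natCast, map_natCast, Nat.cast_ofNat, Nat.cast_ofNat, hg]
    have h0 := pk85_h3_rel K M h3
    field_simp
    linear_combination h0
  refine ⟨1, (1 + algebraMap R 𝔽 ((27 : ℕ) : R) * g) *
      (1 + algebraMap R 𝔽 ((243 : ℕ) : R) * g) ^ 3,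
    (1 + algebraMap R _ ((27 : ℕ) : R) * gB) * (1 + algebraMap R _ ((243 : ℕ) : R) * gB) ^ 3,
    le_rfl, ?_, hrel, rfl, ?_⟩
  · exact Subalgebra.mul_mem _
      (Subalgebra.add_mem _ (Subalgebra.one_mem _)
        (Subalgebra.mul_mem _ (Subalgebra.algebraMap_mem _ _)
          (Algebra.subset_adjoin (Set.mem_singleton g))))
      (Subalgebra.pow_mem _ (Subalgebra.add_mem _ (Subalgebra.one_mem _)
        (Subalgebra.mul_mem _ (Subalgebra.algebraMap_mem _ _)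
          (Algebra.subset_adjoin (Set.mem_singleton g)))) 3)
  · intro n hn hgn hDn
    rcases hn.mem_or_mem hDn with h1 | h1
    · have h3' := (Ideal.add_mem_iff_left n (n.mul_mem_left _ hgn)).mp h1
      exact hn.ne_top ((Ideal.eq_top_iff_one n).mpr h3')
    · have h2 := hn.mem_of_pow_mem _ h1
      have h3' := (Ideal.add_mem_iff_left n (n.mul_mem_left _ hgn)).mp h2
      exact hn.ne_top ((Ideal.eq_top_iff_one n).mpr h3')

/-! ### Export: `j` is regular at every point lying on both branches -/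

/-- **Export ((3c) + (3d)).**  At a prime `n` of the chart `B` of a cusp coordinate `g` which
contains both `p_∞ = B ∩ π V_∞` and `p_0 = B ∩ π V₂`, the coordinate `g` is a unit and `j` is
regular: `g ∉ n` and `∃ s ∉ n, s * j ∈ B`. -/
theorem cni53_node_regular (q : ℕ) (hq : q.Prime) [NeZero q] (hqM : q ∣ M) {π : R}
    (hπ : Irreducible π) (hqR : ¬ IsUnit (q : R)) (g : 𝔽) (hc : cni53_CuspCoord R M g)
    (hgV : g ∈ cm85_Vinf (K := K) M hπ)
    (V₂ : ValuationSubring 𝔽) (hB₂ : ∀ x ∈ pk15_chart R ({g} : Set 𝔽), x ∈ V₂)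
    (hπ₂ : (algebraMap R 𝔽 π)⁻¹ ∉ V₂)
    (hmax₂ : ∀ x ∈ V₂, x⁻¹ ∉ V₂ → (algebraMap R 𝔽 π)⁻¹ * x ∈ V₂)
    (hK₂ : (algebraMap R 𝔽 π)⁻¹ * (cni53_y K M q hqM ^ q - rm90_j K M) ∈ V₂)
    (n : Ideal ↥(pk15_chart R ({g} : Set 𝔽))) (hn : n.IsPrime)
    (h1 : ∀ x : ↥(pk15_chart R ({g} : Set 𝔽)),
      (algebraMap R 𝔽 π)⁻¹ * (x : 𝔽) ∈ cm85_Vinf (K := K) M hπ → x ∈ n)
    (h2 : ∀ x : ↥(pk15_chart R ({g} : Set 𝔽)), (algebraMap R 𝔽 π)⁻¹ * (x : 𝔽) ∈ V₂ → x ∈ n) :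
    (⟨g, pk15_subset_chart _ (Set.mem_singleton g)⟩ : ↥(pk15_chart R ({g} : Set 𝔽))) ∉ n ∧
    ∃ s : ↥(pk15_chart R ({g} : Set 𝔽)), s ∉ n ∧
      (s : 𝔽) * rm90_j K M ∈ pk15_chart R ({g} : Set 𝔽) := by
  have hgn : (⟨g, pk15_subset_chart _ (Set.mem_singleton g)⟩ :
      ↥(pk15_chart R ({g} : Set 𝔽))) ∉ n := fun hgn =>
    cni53_one_branch_pi M q hq hqM hπ hqR g hc hgV V₂ hB₂ hπ₂ hmax₂ hK₂ n hn hgn ⟨h1, h2⟩
  exact ⟨hgn, cni53_noncusp M g hc n hn hgn⟩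

/-! ### The cusp coordinates in the literal hypotheses of the frame -/

/-- In the frame (`∀ n, n.Coprime q → IsUnit (n : R)`, `p₀ ∈ {2, 3}`, `p₀ ≠ q`, `p₀ ∣ M`) there is
a Hauptmodul `h` with the level-free chart facts for `V_∞` such that both `h` and `h⁻¹` are cusp
coordinates. -/
theorem cni53_exists_coord (q : ℕ) (hq : q.Prime) {π : R} (hπ : Irreducible π)
    (hu : ∀ n : ℕ, Nat.Coprime n q → IsUnit (n : R)) (p₀ : ℕ) (hp₀ : p₀ = 2 ∨ p₀ = 3)
    (hp₀q : p₀ ≠ q) (hp₀M : p₀ ∣ M) :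
    ∃ h : 𝔽, cm85_Facts R K M π h (cm85_Vinf M hπ) ∧
      cni53_CuspCoord R M h ∧ cni53_CuspCoord R M h⁻¹ := by
  rcases hp₀ with rfl | rfl
  · have hc : Nat.Coprime 256 q := by
      have h1 : Nat.Coprime 2 q := (Nat.coprime_primes Nat.prime_two hq).mpr hp₀q
      have h2 := Nat.Coprime.pow_left 8 h1
      norm_num at h2
      exact h2
    exact ⟨pk85_h2 K M hp₀M, cm85_facts_level2 M hπ hp₀M,
      cni53_cuspCoord_h2 M hp₀M (hu 256 hc), cni53_cuspCoord_h2_inv M hp₀M⟩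
  · have h1 : Nat.Coprime 3 q := (Nat.coprime_primes Nat.prime_three hq).mpr hp₀q
    have hc27 : Nat.Coprime 27 q := by
      have h2 := Nat.Coprime.pow_left 3 h1
      norm_num at h2
      exact h2
    have hc243 : Nat.Coprime 243 q := by
      have h2 := Nat.Coprime.pow_left 5 h1
      norm_num at h2
      exact h2
    exact ⟨pk85_h3 K M hp₀M, cm85_facts_level3 M hπ hp₀M,
      cni53_cuspCoord_h3 M hp₀M (hu 27 hc27) (hu 243 hc243), cni53_cuspCoord_h3_inv M hp₀M⟩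

end cni53_main

end Fermat.Agent.S34
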