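import Mathlib

/-!
# S34 lab (helper17): cuspidal closed points are one-branch points — abstract part

Registry row 492 (twin of step (3c) of the S34 plan, with no modular unit `U`).

Setting of the application: `F = F(q M')_L`, `B` a chart (integrally closed in `F`), `n` a maximal
ideal of `B` over `π`, `V1 = V_∞`, `V2 = V_0` the two Gauss valuation rings, `j' = j(Q^q)`.
Put `x = 1/j`, `t = j'/j^q`, `t' = j/j'^q`, so that `t' * t^q = x^(q^2-1)`.

* the modular equation (monic in `X`, with `deg_Y (coeff of X^a) ≤ q (q+1-a)`) makes `t` integral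
  over `ℤ[x]`, hence `t ∈ B_n` as soon as `x ∈ B_n`  (input `hint`, proved in `ModEqDeg17`);
* Kronecker's congruence `j(Q^q) ≡ j^q mod q` gives `1 - t ∈ 𝔪_{V1}`, and its Atkin–Lehner
  transport gives `1 - t' ∈ 𝔪_{V2}`.

`cs17_one_branch`: if moreover `x ∈ n B_n` (the point is cuspidal), then `n` cannot contain both
`B ∩ 𝔪_{V1}` and `B ∩ 𝔪_{V2}`.  [If it did, `B_n ⊆ V1 ∩ V2`; `1 - t` is a non-unit of `B_n`, so `t`
is a unit; then `t' = x^(q^2-1) t^(-q)` is a non-unit, so `1 - t'` is a unit of `B_n ⊆ V2`: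
contradiction.]

Mathlib only.  All names are prefixed `cs17_`.
-/

set_option autoImplicit false
set_option linter.style.haveILetI false
set_option linter.unusedVariables false

namespace Fermat.Agent.S34

section core

variable {F : Type*} [Field F]

/-- a non-unit of a valuation subring has no inverse inside it. -/
theorem cs17_not_unit_of_nonunits (V : ValuationSubring F) (a b : F) (ha : a ∈ V.nonunits)
    (hb : b ∈ V) : a * b ≠ 1 := by
  intro h
  have h1 : V.valuation a < 1 := (ValuationSubring.mem_nonunits_iff (A := V)).mp ha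
  have h2 : V.valuation b ≤ 1 := (V.valuation_le_one_iff b).mpr hb
  have h3 : V.valuation (a * b) = 1 := by rw [h, map_one]
  rw [map_mul] at h3
  have h4 : V.valuation a * V.valuation b ≤ V.valuation a * 1 := mul_le_mul' le_rfl h2
  rw [h3, mul_one] at h4
  exact absurd h1 (not_lt.mpr h4)

/-- **Core.**  `A` a local subring of `F` inside two valuation subrings, `x ∈ A` a non-unit,
`t ∈ A`, `t' * t ^ m = x ^ k` with `k > 0`, `1 - t` a non-unit of `V1` and `1 - t'` a non-unit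
of `V2`: contradiction. -/
theorem cs17_core (A : Subring F)
    (hloc : ∀ a ∈ A, (∃ b ∈ A, a * b = 1) ∨ (∃ b ∈ A, (1 - a) * b = 1))
    (V1 V2 : ValuationSubring F) (h1 : ∀ a ∈ A, a ∈ V1) (h2 : ∀ a ∈ A, a ∈ V2)
    (x t t' : F) (k m : ℕ) (hk : 0 < k)
    (hxA : x ∈ A) (hx : ¬ ∃ b ∈ A, x * b = 1)
    (htA : t ∈ A) (htt : t' * t ^ m = x ^ k)
    (ht1 : 1 - t ∈ V1.nonunits) (ht2 : 1 - t' ∈ V2.nonunits) : False := by
  -- `t` is a unit of `A`
  obtain ⟨b, hbA, hb⟩ : ∃ b ∈ A, t * b = 1 := by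
    rcases hloc (1 - t) (A.sub_mem A.one_mem htA) with ⟨b, hbA, hb⟩ | ⟨b, hbA, hb⟩
    · exact absurd hb (cs17_not_unit_of_nonunits V1 _ _ ht1 (h1 b hbA))
    · exact ⟨b, hbA, by rw [sub_sub_cancel] at hb; exact hb⟩
  -- `t' = x ^ k * b ^ m`
  have ht' : t' = x ^ k * b ^ m := by
    have h3 : t' * (t * b) ^ m = x ^ k * b ^ m := by
      rw [mul_pow, ← mul_assoc, htt]
    rw [hb, one_pow, mul_one] at h3
    exact h3
  have ht'A : t' ∈ A := by
    rw [ht']
    exact A.mul_mem (A.pow_mem hxA k) (A.pow_mem hbA m)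
  -- `t'` is not a unit of `A`
  have hnu : ¬ ∃ c ∈ A, t' * c = 1 := by
    rintro ⟨c, hcA, hc⟩
    apply hx
    obtain ⟨d, rfl⟩ : ∃ d, k = d + 1 := ⟨k - 1, by omega⟩
    refine ⟨x ^ d * b ^ m * c, A.mul_mem (A.mul_mem (A.pow_mem hxA d) (A.pow_mem hbA m)) hcA, ?_⟩
    rw [← hc, ht', pow_succ]
    ring
  rcases hloc t' ht'A with h | ⟨c, hcA, hc⟩
  · exact hnu h
  · exact cs17_not_unit_of_nonunits V2 _ _ ht2 (h2 c hcA) hc

end core

section loc

variable {F : Type*} [Field F]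

/-- The localisation of a subring `B ⊆ F` at a prime ideal `n`, as a subring of `F`. -/
def cs17_loc (B : Subring F) (n : Ideal B) [hn : n.IsPrime] : Subring F where
  carrier := {z | ∃ s : B, s ∉ n ∧ z * (s : F) ∈ B}
  mul_mem' := by
    rintro a b ⟨s, hs, has⟩ ⟨r, hr, hbr⟩
    refine ⟨s * r, fun h => (hn.mem_or_mem h).elim hs hr, ?_⟩
    have : a * b * ((s * r : B) : F) = a * (s : F) * (b * (r : F)) := by push_cast; ring
    rw [this]
    exact B.mul_mem has hbr
  one_mem' := ⟨1, fun h => hn.ne_top ((Ideal.eq_top_iff_one n).mpr h), by simp [B.one_mem]⟩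
  add_mem' := by
    rintro a b ⟨s, hs, has⟩ ⟨r, hr, hbr⟩
    refine ⟨s * r, fun h => (hn.mem_or_mem h).elim hs hr, ?_⟩
    have : (a + b) * ((s * r : B) : F) = a * (s : F) * (r : F) + b * (r : F) * (s : F) := by
      push_cast; ring
    rw [this]
    exact B.add_mem (B.mul_mem has r.2) (B.mul_mem hbr s.2)
  zero_mem' := ⟨1, fun h => hn.ne_top ((Ideal.eq_top_iff_one n).mpr h), by simp [B.zero_mem]⟩
  neg_mem' := by
    rintro a ⟨s, hs, has⟩
    refine ⟨s, hs, ?_⟩
    rw [neg_mul]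
    exact B.neg_mem has

theorem cs17_mem_loc (B : Subring F) (n : Ideal B) [n.IsPrime] (z : F) :
    z ∈ cs17_loc B n ↔ ∃ s : B, s ∉ n ∧ z * (s : F) ∈ B := Iff.rfl

theorem cs17_le_loc (B : Subring F) (n : Ideal B) [hn : n.IsPrime] : B ≤ cs17_loc B n := by
  intro z hz
  exact ⟨1, fun h => hn.ne_top ((Ideal.eq_top_iff_one n).mpr h), by simpa using hz⟩

/-- an element of `B` outside `n` is a unit of the localisation. -/
theorem cs17_loc_unit (B : Subring F) (n : Ideal B) [hn : n.IsPrime] (z : F) (s : B)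
    (hs : s ∉ n) (b : B) (hb : b ∉ n) (hz : z * (s : F) = b) :
    ∃ w ∈ cs17_loc B n, z * w = 1 := by
  have hb0 : (b : F) ≠ 0 := by
    intro h
    apply hb
    have : b = 0 := Subtype.ext h
    rw [this]
    exact n.zero_mem
  refine ⟨(s : F) / (b : F), ⟨b, hb, ?_⟩, ?_⟩
  · rw [div_mul_cancel₀ _ hb0]
    exact s.2
  · rw [← mul_div_assoc, hz, div_self hb0]

/-- the localisation is a local ring. -/
theorem cs17_loc_local (B : Subring F) (n : Ideal B) [hn : n.IsPrime] :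
    ∀ a ∈ cs17_loc B n, (∃ b ∈ cs17_loc B n, a * b = 1) ∨ (∃ b ∈ cs17_loc B n, (1 - a) * b = 1) := by
  rintro a ⟨s, hs, has⟩
  by_cases hb : (⟨a * (s : F), has⟩ : B) ∈ n
  · right
    refine cs17_loc_unit B n (1 - a) s hs (s - ⟨a * (s : F), has⟩) ?_ ?_
    · intro h
      apply hs
      have : s = (s - ⟨a * (s : F), has⟩) + ⟨a * (s : F), has⟩ := by ring
      rw [this]
      exact n.add_mem h hb
    · push_cast
      ring
  · left
    exact cs17_loc_unit B n a s hs ⟨a * (s : F), has⟩ hb rfl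

/-- the localisation of a subring which is integrally closed in `F` is integrally closed in
`F`. -/
theorem cs17_loc_intClosed (B : Subring F) (hBint : ∀ z : F, IsIntegral B z → z ∈ B)
    (n : Ideal B) [hn : n.IsPrime] :
    ∀ z : F, IsIntegral (cs17_loc B n) z → z ∈ cs17_loc B n := by
  intro z hz
  letI : Algebra B (cs17_loc B n) := (Subring.inclusion (cs17_le_loc B n)).toAlgebra
  haveI : IsScalarTower B (cs17_loc B n) F := IsScalarTower.of_algebraMap_eq (fun _ => rfl)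
  haveI : IsLocalization n.primeCompl (cs17_loc B n) :=
    { map_units := by
        rintro ⟨s, hs⟩
        obtain ⟨w, hw, hsw⟩ := cs17_loc_unit B n (s : F) 1
          (fun h => hn.ne_top ((Ideal.eq_top_iff_one n).mpr h)) s hs (by simp)
        rw [isUnit_iff_exists_inv]
        exact ⟨⟨w, hw⟩, Subtype.ext hsw⟩
      surj := by
        rintro ⟨a, s, hs, has⟩
        exact ⟨(⟨a * (s : F), has⟩, ⟨s, hs⟩), Subtype.ext rfl⟩
      exists_of_eq := by
        intro x y hxy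
        refine ⟨1, ?_⟩
        have h1 : ((algebraMap B (cs17_loc B n) x : cs17_loc B n) : F)
            = ((algebraMap B (cs17_loc B n) y : cs17_loc B n) : F) := congrArg Subtype.val hxy
        have h2 : (x : F) = (y : F) := h1
        rw [Subtype.ext h2] }
  obtain ⟨⟨m, hm⟩, hmz⟩ :=
    IsIntegral.exists_multiple_integral_of_isLocalization n.primeCompl z hz
  have h3 : (m : F) * z ∈ B := hBint _ hmz
  exact ⟨m, hm, by rw [mul_comm]; exact h3⟩

end loc

section main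

variable {F : Type*} [Field F]

/-- **Cuspidal closed points lie on one branch only.**
`B` integrally closed in `F`, `n` a prime of `B`, `V1`, `V2` valuation subrings containing `B`.
If `1/j ∈ n B_n`, `j'/j^q` is integral over every integrally closed subring containing `1/j`
(modular equation), `1 - j'/j^q ∈ 𝔪_{V1}` and `1 - j/j'^q ∈ 𝔪_{V2}` (Kronecker), then `n` does not
contain both `B ∩ 𝔪_{V1}` and `B ∩ 𝔪_{V2}`. -/
theorem cs17_one_branch (B : Subring F) (hBint : ∀ z : F, IsIntegral B z → z ∈ B)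
    (n : Ideal B) [hn : n.IsPrime] (V1 V2 : ValuationSubring F)
    (hB1 : ∀ b ∈ B, b ∈ V1) (hB2 : ∀ b ∈ B, b ∈ V2)
    (j j' : F) (hj : j ≠ 0) (hj' : j' ≠ 0) (q : ℕ) (hq : 2 ≤ q)
    (hx : ∃ s : B, s ∉ n ∧ ∃ a : B, a ∈ n ∧ j⁻¹ * (s : F) = a)
    (hint : ∀ A : Subring F, (∀ z : F, IsIntegral A z → z ∈ A) → j⁻¹ ∈ A → j' * j⁻¹ ^ q ∈ A)
    (hk1 : 1 - j' * j⁻¹ ^ q ∈ V1.nonunits) (hk2 : 1 - j * j'⁻¹ ^ q ∈ V2.nonunits) :
    ¬ ((∀ b : B, (b : F) ∈ V1.nonunits → b ∈ n) ∧ (∀ b : B, (b : F) ∈ V2.nonunits → b ∈ n)) := by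
  rintro ⟨hp1, hp2⟩
  have hsub : ∀ (V : ValuationSubring F), (∀ b ∈ B, b ∈ V) →
      (∀ b : B, (b : F) ∈ V.nonunits → b ∈ n) → ∀ a ∈ cs17_loc B n, a ∈ V := by
    rintro V hBV hpV a ⟨s, hs, has⟩
    have hs1 : V.valuation (s : F) = 1 := by
      have h1 : V.valuation (s : F) ≤ 1 := (V.valuation_le_one_iff _).mpr (hBV _ s.2)
      rcases lt_or_eq_of_le h1 with h | h
      · exact absurd (hpV s ((ValuationSubring.mem_nonunits_iff (A := V)).mpr h)) hs
      · exact h
    have h2 : V.valuation (a * (s : F)) ≤ 1 := (V.valuation_le_one_iff _).mpr (hBV _ has)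
    rw [map_mul, hs1, mul_one] at h2
    exact (V.valuation_le_one_iff _).mp h2
  obtain ⟨s, hs, a, ha, hxs⟩ := hx
  have hxA : j⁻¹ ∈ cs17_loc B n := ⟨s, hs, by rw [hxs]; exact a.2⟩
  have hxnu : ¬ ∃ b ∈ cs17_loc B n, j⁻¹ * b = 1 := by
    rintro ⟨b, ⟨r, hr, hbr⟩, hb⟩
    have h1 : (a : F) * (b * (r : F)) = (s : F) * (r : F) := by
      rw [← hxs]
      calc j⁻¹ * (s : F) * (b * (r : F)) = (j⁻¹ * b) * ((s : F) * (r : F)) := by ring
        _ = (s : F) * (r : F) := by rw [hb, one_mul]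
    have h2 : a * ⟨b * (r : F), hbr⟩ = s * r := Subtype.ext (by push_cast; exact h1)
    have h3 : s * r ∈ n := by
      rw [← h2]
      exact n.mul_mem_right _ ha
    exact (hn.mem_or_mem h3).elim hs hr
  have htA : j' * j⁻¹ ^ q ∈ cs17_loc B n := hint _ (cs17_loc_intClosed B hBint n) hxA
  have hqq : 0 < q * q - 1 := by
    have : 4 ≤ q * q := by nlinarith
    omega
  refine cs17_core (cs17_loc B n) (cs17_loc_local B n) V1 V2 (hsub V1 hB1 hp1) (hsub V2 hB2 hp2)
    j⁻¹ (j' * j⁻¹ ^ q) (j * j'⁻¹ ^ q) (q * q - 1) q hqq hxA hxnu htA ?_ hk1 hk2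
  have h1 : j * j⁻¹ = 1 := mul_inv_cancel₀ hj
  have h2 : j' * j'⁻¹ = 1 := mul_inv_cancel₀ hj'
  have h3 : j⁻¹ ^ (q * q) = j⁻¹ ^ (q * q - 1) * j⁻¹ := by
    rw [← pow_succ]
    congr 1
    omega
  calc j * j'⁻¹ ^ q * (j' * j⁻¹ ^ q) ^ q
      = (j' * j'⁻¹) ^ q * (j * j⁻¹ ^ (q * q)) := by
        rw [mul_pow, mul_pow, ← pow_mul]; ring
    _ = j⁻¹ ^ (q * q - 1) * (j * j⁻¹) := by rw [h2, one_pow, one_mul, h3]; ring
    _ = j⁻¹ ^ (q * q - 1) := by rw [h1, mul_one]

end main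

end Fermat.Agent.S34
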