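import Mathlib

set_option autoImplicit false

/-!
# Cusp separation (S34 lab, row 486 = P3c-core, part (A); independent twin of `CuspSep90`)

Abstract, Mathlib-only.  `B` is a subring of a field `F`, integrally closed in `F`, `n` a prime of
`B` containing the prime number `q`, and `j, y ∈ F` (think `j = j(τ)`, `y = j(qτ)`) satisfy a
polynomial relation `∑ c a b * y ^ a * j ^ b = 0` with integer coefficients supported in
`a ≤ q + 1`, `a + b ≤ 2 q` whose top-degree part satisfies
`∑_{a + b = 2q} (-1)^(q+1-a) c a b ≡ 1 mod q` (Kronecker: only `- X^q Y^q`).  If `1/j ∈ n B_n`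
(a cuspidal closed point) and `V₁, V₂ ⊇ B` are valuation rings with `j ^ q ≡ y` in `V₁` and
`y ^ q ≡ j` in `V₂`, then the centres of `V₁` and `V₂` on `B` are NOT both contained in `n`:
a cuspidal closed point is not a node.

Proof: `e := y / (j + y)` is a root of a polynomial over `B` whose leading coefficient `d` is a
unit at `n`, hence `E := d e ∈ B`; the congruence in `V₁` gives `d - E ∈ n`, the one in `V₂`
gives `E ∈ n`, so `d ∈ n`, a contradiction.
-/

namespace Fermat.Agent.S34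

open Polynomial

section cs44

variable {F : Type*} [Field F]

/-- Scaling lemma: if `Q(x) = 0` for a polynomial `Q` of degree `≤ N` with coefficients in `B` and
`B` is integrally closed in `F` (elementary form), then `(coefficient of X^N) * x ∈ B`. -/
theorem cs44_lead_mul_mem (B : Subring F)
    (hB : ∀ x : F, (∃ p : F[X], p.Monic ∧ (∀ i, p.coeff i ∈ B) ∧ p.eval x = 0) → x ∈ B)
    (Q : F[X]) (N : ℕ) (hQB : ∀ i, Q.coeff i ∈ B) (hdeg : Q.natDegree ≤ N) (x : F)
    (hx : Q.eval x = 0) : Q.coeff N * x ∈ B := by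
  have hsum : ∑ i ∈ Finset.range (N + 1), Q.coeff i * x ^ i = 0 := by
    rw [← Polynomial.eval_eq_sum_range' (Nat.lt_succ_of_le hdeg)]
    exact hx
  rcases Nat.eq_zero_or_pos N with hN | hN
  · subst hN
    have h0 : Q.coeff 0 = 0 := by simpa using hsum
    rw [h0, zero_mul]
    exact B.zero_mem
  set d := Q.coeff N with hd
  apply hB
  refine ⟨X ^ N + ∑ i ∈ Finset.range N, C (Q.coeff i * d ^ (N - 1 - i)) * X ^ i, ?_, ?_, ?_⟩
  · apply Polynomial.monic_X_pow_add
    rw [Polynomial.degree_lt_iff_coeff_zero]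
    intro k hk
    rw [Polynomial.finsetSum_coeff]
    refine Finset.sum_eq_zero fun i hi => ?_
    have hi' : i < N := Finset.mem_range.mp hi
    rw [Polynomial.coeff_C_mul, Polynomial.coeff_X_pow, if_neg (by omega), mul_zero]
  · intro k
    rw [Polynomial.coeff_add, Polynomial.coeff_X_pow, Polynomial.finsetSum_coeff]
    refine B.add_mem ?_ (B.sum_mem fun i _ => ?_)
    · split_ifs
      · exact B.one_mem
      · exact B.zero_mem
    · rw [Polynomial.coeff_C_mul, Polynomial.coeff_X_pow]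
      refine B.mul_mem (B.mul_mem (hQB i) (B.pow_mem (hQB N) _)) ?_
      split_ifs
      · exact B.one_mem
      · exact B.zero_mem
  · rw [Polynomial.eval_add, Polynomial.eval_pow, Polynomial.eval_X, Polynomial.eval_finsetSum]
    have hterm : ∀ i ∈ Finset.range N,
        (C (Q.coeff i * d ^ (N - 1 - i)) * X ^ i).eval (d * x)
          = d ^ (N - 1) * (Q.coeff i * x ^ i) := by
      intro i hi
      have hi' : i < N := Finset.mem_range.mp hi
      have e1 : d ^ (N - 1) = d ^ (N - 1 - i) * d ^ i := by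
        rw [← pow_add]; congr 1; omega
      rw [Polynomial.eval_mul, Polynomial.eval_C, Polynomial.eval_pow, Polynomial.eval_X, e1,
        mul_pow]
      ring
    rw [Finset.sum_congr rfl hterm, ← Finset.mul_sum]
    have e2 : (d * x) ^ N = d ^ (N - 1) * (Q.coeff N * x ^ N) := by
      have e3 : d ^ N = d ^ (N - 1) * d := by
        rw [← pow_succ]; congr 1; omega
      rw [mul_pow, e3, mul_assoc]
    rw [e2, ← mul_add, add_comm, ← Finset.sum_range_succ, hsum, mul_zero]

/-- the coefficient of `X^k` in `(1 - X)^k` is `(-1)^k`. -/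
theorem cs44_coeff_one_sub_X_pow (R : Type*) [CommRing R] [Nontrivial R] (k : ℕ) :
    ((1 - X : R[X]) ^ k).coeff k = (-1) ^ k := by
  have h1 : (1 - X : R[X]) = C (-1 : R) * (X - C 1) := by
    simp
  have hmon : ((X - C (1 : R)) ^ k).Monic := (monic_X_sub_C 1).pow k
  have hdeg : ((X - C (1 : R)) ^ k).natDegree = k := by
    rw [Polynomial.Monic.natDegree_pow (monic_X_sub_C 1), natDegree_X_sub_C, mul_one]
  rw [h1, mul_pow, ← C_pow, coeff_C_mul]
  have h2 : ((X - C (1 : R)) ^ k).coeff k = 1 := by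
    have := hmon.coeff_natDegree
    rwa [hdeg] at this
  rw [h2, mul_one]

/-- **Cusp separation, abstract form** (row 486, part (A)).  See the file header.
`hs : j * a₀ = c₀` with `a₀ ∈ n`, `c₀ ∉ n` says `1/j ∈ n B_n`; `hc₁`, `hc₂` say that the centres of
`V₁`, `V₂` on `B` are contained in `n`.  The conclusion is `False`: they cannot both be.
No hypothesis `j ≠ 0`, `y ≠ 0`, `j + y ≠ 0` is needed (all three are derived). -/
theorem cs44_main (B : Subring F)
    (hB : ∀ x : F, (∃ p : F[X], p.Monic ∧ (∀ i, p.coeff i ∈ B) ∧ p.eval x = 0) → x ∈ B)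
    (n : Ideal B) (hn : n.IsPrime) (q : ℕ) (hq2 : 2 ≤ q) (hqn : (q : B) ∈ n)
    (j y : F) (a₀ c₀ : B) (ha₀ : a₀ ∈ n) (hc₀ : c₀ ∉ n) (hs : j * (a₀ : F) = (c₀ : F))
    (c : ℕ → ℕ → ℤ)
    (hc0 : ∀ a b, c a b ≠ 0 → a ≤ q + 1 ∧ a + b ≤ 2 * q)
    (hrel : ∑ a ∈ Finset.range (q + 2), ∑ b ∈ Finset.range (2 * q + 1),
        (c a b : F) * y ^ a * j ^ b = 0)
    (htop : (q : ℤ) ∣ (∑ a ∈ Finset.range (q + 2), (-1) ^ (q + 1 - a) * c a (2 * q - a)) - 1)
    (V₁ V₂ : ValuationSubring F) (hBV₁ : ∀ x : B, (x : F) ∈ V₁) (hBV₂ : ∀ x : B, (x : F) ∈ V₂)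
    (hj₁ : j⁻¹ ∈ V₁) (hy₁ : y⁻¹ ∈ V₁) (hj₂ : j⁻¹ ∈ V₂)
    (h₁ : V₁.valuation (j ^ q - y) < 1) (h₂ : V₂.valuation (y ^ q - j) < 1)
    (hc₁ : ∀ x : B, V₁.valuation (x : F) < 1 → x ∈ n)
    (hc₂ : ∀ x : B, V₂.valuation (x : F) < 1 → x ∈ n) : False := by
  classical
  -- the cleared coefficients `Ã_a` and the leading coefficient `d`
  let At : ℕ → B := fun a => ∑ b ∈ Finset.range (2 * q + 1),
      (c a b : B) * a₀ ^ (2 * q - a - b) * c₀ ^ (a + b)
  have hAt_def : ∀ a, At a = ∑ b ∈ Finset.range (2 * q + 1),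
      (c a b : B) * a₀ ^ (2 * q - a - b) * c₀ ^ (a + b) := fun _ => rfl
  let d : B := ∑ a ∈ Finset.range (q + 2), At a * (-1) ^ (q + 1 - a)
  have hd_def : d = ∑ a ∈ Finset.range (q + 2), At a * (-1) ^ (q + 1 - a) := rfl
  -- (D1) `d ∉ n`
  have hd_not : d ∉ n := by
    intro hdn
    have hπd : Ideal.Quotient.mk n d = 0 := Ideal.Quotient.eq_zero_iff_mem.mpr hdn
    have hπa : Ideal.Quotient.mk n a₀ = 0 := Ideal.Quotient.eq_zero_iff_mem.mpr ha₀
    have hπq : ((q : ℕ) : B ⧸ n) = 0 := by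
      have := Ideal.Quotient.eq_zero_iff_mem.mpr hqn
      simpa using this
    have hπc : Ideal.Quotient.mk n c₀ ≠ 0 := fun h => hc₀ (Ideal.Quotient.eq_zero_iff_mem.mp h)
    have hAtπ : ∀ a ∈ Finset.range (q + 2), Ideal.Quotient.mk n (At a)
        = ((c a (2 * q - a) : ℤ) : B ⧸ n) * (Ideal.Quotient.mk n c₀) ^ (2 * q) := by
      intro a ha
      have ha' : a ≤ q + 1 := by have := Finset.mem_range.mp ha; omega
      rw [hAt_def]
      simp only [map_sum, map_mul, map_pow, map_intCast, hπa]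
      rw [Finset.sum_eq_single (2 * q - a)]
      · have e1 : 2 * q - a - (2 * q - a) = 0 := by omega
        have e2 : a + (2 * q - a) = 2 * q := by omega
        rw [e1, e2, pow_zero, mul_one]
      · intro b _ hne
        by_cases h0 : 2 * q - a - b = 0
        · have hcab : c a b = 0 := by
            by_contra hcne
            have := (hc0 a b hcne).2
            omega
          rw [hcab]; simp
        · rw [zero_pow h0]; simp
      · intro hnot
        exact absurd (Finset.mem_range.mpr (by omega)) hnot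
    have key : Ideal.Quotient.mk n d = (Ideal.Quotient.mk n c₀) ^ (2 * q) := by
      obtain ⟨k, hk⟩ := htop
      have hsumZ : (∑ a ∈ Finset.range (q + 2), (-1) ^ (q + 1 - a) * c a (2 * q - a))
          = 1 + q * k := by linarith
      calc Ideal.Quotient.mk n d
          = ∑ a ∈ Finset.range (q + 2), Ideal.Quotient.mk n (At a) * (-1) ^ (q + 1 - a) := by
            rw [hd_def]
            simp only [map_sum, map_mul, map_pow, map_neg, map_one]
        _ = ∑ a ∈ Finset.range (q + 2), ((c a (2 * q - a) : ℤ) : B ⧸ n)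
              * (Ideal.Quotient.mk n c₀) ^ (2 * q) * (-1) ^ (q + 1 - a) :=
            Finset.sum_congr rfl fun a ha => by rw [hAtπ a ha]
        _ = (Ideal.Quotient.mk n c₀) ^ (2 * q)
              * (((∑ a ∈ Finset.range (q + 2), (-1) ^ (q + 1 - a) * c a (2 * q - a) : ℤ)) :
                  B ⧸ n) := by
            push_cast
            rw [Finset.mul_sum]
            exact Finset.sum_congr rfl fun a _ => by ring
        _ = (Ideal.Quotient.mk n c₀) ^ (2 * q) := by
            rw [hsumZ]; push_cast; rw [hπq]; ring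
    have hdom : IsDomain (B ⧸ n) := Ideal.Quotient.isDomain n
    rw [key] at hπd
    exact hπc (pow_eq_zero_iff (by omega) |>.mp hπd)
  -- (H) the homogeneous relation
  have hH : ∀ κ : F, ∑ a ∈ Finset.range (q + 2),
      ((At a : B) : F) * (κ * y) ^ a * (κ * j) ^ (q + 1 - a) = 0 := by
    intro κ
    have hterm : ∀ a ∈ Finset.range (q + 2),
        ((At a : B) : F) * (κ * y) ^ a * (κ * j) ^ (q + 1 - a)
          = κ ^ (q + 1) * (a₀ : F) ^ (2 * q) * j ^ (q + 1)
            * ∑ b ∈ Finset.range (2 * q + 1), (c a b : F) * y ^ a * j ^ b := by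
      intro a _
      rw [hAt_def]
      push_cast
      rw [Finset.sum_mul, Finset.sum_mul, Finset.mul_sum]
      refine Finset.sum_congr rfl fun b _ => ?_
      by_cases hcab : c a b = 0
      · simp [hcab]
      · obtain ⟨h1, h2⟩ := hc0 a b hcab
        have eA : (a₀ : F) ^ (2 * q) = (a₀ : F) ^ (2 * q - a - b) * (a₀ : F) ^ (a + b) := by
          rw [← pow_add]; congr 1; omega
        have eK : κ ^ (q + 1) = κ ^ a * κ ^ (q + 1 - a) := by
          rw [← pow_add]; congr 1; omega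
        have eJ : j ^ (q + 1) * j ^ b = j ^ (a + b) * j ^ (q + 1 - a) := by
          rw [← pow_add, ← pow_add]; congr 1; omega
        rw [← hs, eA, eK, mul_pow, mul_pow, mul_pow]
        linear_combination (-((c a b : F) * (a₀ : F) ^ (2 * q - a - b) * (a₀ : F) ^ (a + b)
          * κ ^ a * κ ^ (q + 1 - a) * y ^ a)) * eJ
    rw [Finset.sum_congr rfl hterm, ← Finset.mul_sum, hrel, mul_zero]
  -- nonvanishing of `j`, `j + y`, `y`
  have hc₀F : (c₀ : F) ≠ 0 := by
    intro h
    apply hc₀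
    have : c₀ = 0 := by exact_mod_cast h
    rw [this]; exact n.zero_mem
  have hj0 : j ≠ 0 := by
    intro h; rw [h, zero_mul] at hs; exact hc₀F hs.symm
  have hJ : j * j⁻¹ = 1 := mul_inv_cancel₀ hj0
  have hjy : j + y ≠ 0 := by
    intro h
    have hy : y = -j := by linear_combination h
    have hκ := hH (-j⁻¹)
    have e1 : -j⁻¹ * y = 1 := by rw [hy]; linear_combination hJ
    have e2 : -j⁻¹ * j = -1 := by linear_combination -hJ
    rw [e1, e2] at hκ
    have hdF : (d : F) = 0 := by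
      rw [← hκ, hd_def]
      push_cast
      exact Finset.sum_congr rfl fun a _ => by rw [one_pow, mul_one]
    apply hd_not
    have : d = 0 := by exact_mod_cast hdF
    rw [this]; exact n.zero_mem
  have hy0 : y ≠ 0 := by
    intro h
    rw [h, sub_zero] at h₁
    have h3 : V₁.valuation ((j⁻¹) ^ q) ≤ 1 :=
      (V₁.valuation_le_one_iff _).mpr (V₁.pow_mem hj₁ q)
    have h4 : V₁.valuation (j ^ q) * V₁.valuation ((j⁻¹) ^ q) = 1 := by
      rw [← map_mul, ← mul_pow, hJ, one_pow, map_one]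
    have h5 : V₁.valuation (j ^ q) * V₁.valuation ((j⁻¹) ^ q) < 1 :=
      (mul_le_of_le_one_right' h3).trans_lt h₁
    rw [h4] at h5
    exact lt_irrefl _ h5
  have hY : y * y⁻¹ = 1 := mul_inv_cancel₀ hy0
  -- the element `e = y / (j + y)` and its polynomial
  have hWmul : (j + y) * (j + y)⁻¹ = 1 := mul_inv_cancel₀ hjy
  obtain ⟨W, hW⟩ : ∃ W : F, (j + y) * W = 1 := ⟨_, hWmul⟩
  have hκ := hH W
  have hWj : W * j = 1 - W * y := by linear_combination hW
  rw [hWj] at hκ
  let QB : B[X] := ∑ a ∈ Finset.range (q + 2), C (At a) * X ^ a * (1 - X) ^ (q + 1 - a)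
  have hQB_def : QB = ∑ a ∈ Finset.range (q + 2), C (At a) * X ^ a * (1 - X) ^ (q + 1 - a) := rfl
  have hQdeg : (QB.map B.subtype).natDegree ≤ q + 1 := by
    refine (Polynomial.natDegree_map_le).trans ?_
    refine Polynomial.natDegree_sum_le_of_forall_le _ _ fun a ha => ?_
    have ha' : a ≤ q + 1 := by have := Finset.mem_range.mp ha; omega
    have h1 : ((1 - X : B[X]) ^ (q + 1 - a)).natDegree ≤ q + 1 - a := by
      refine (Polynomial.natDegree_pow_le).trans ?_
      have h2 : (1 - X : B[X]).natDegree ≤ 1 := by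
        refine (Polynomial.natDegree_sub_le _ _).trans ?_
        simp
      calc (q + 1 - a) * (1 - X : B[X]).natDegree ≤ (q + 1 - a) * 1 := Nat.mul_le_mul_left _ h2
        _ = q + 1 - a := mul_one _
    calc (C (At a) * X ^ a * (1 - X) ^ (q + 1 - a)).natDegree
        ≤ (C (At a) * X ^ a).natDegree + ((1 - X : B[X]) ^ (q + 1 - a)).natDegree :=
          Polynomial.natDegree_mul_le
      _ ≤ a + (q + 1 - a) := Nat.add_le_add (Polynomial.natDegree_C_mul_X_pow_le _ _) h1
      _ = q + 1 := by omega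
  have hQcoeff : (QB.map B.subtype).coeff (q + 1) = (d : F) := by
    rw [Polynomial.coeff_map]
    have h1 : QB.coeff (q + 1) = d := by
      rw [hQB_def, Polynomial.finsetSum_coeff, hd_def]
      refine Finset.sum_congr rfl fun a ha => ?_
      have ha' : a ≤ q + 1 := by have := Finset.mem_range.mp ha; omega
      rw [mul_assoc, Polynomial.coeff_C_mul, Polynomial.coeff_X_pow_mul', if_pos ha',
        cs44_coeff_one_sub_X_pow]
    rw [h1]; rfl
  have hQeval : (QB.map B.subtype).eval (W * y) = 0 := by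
    rw [Polynomial.eval_map, hQB_def, Polynomial.eval₂_finsetSum, ← hκ]
    refine Finset.sum_congr rfl fun a _ => ?_
    simp [Polynomial.eval₂_mul, Polynomial.eval₂_pow, Polynomial.eval₂_sub]
  have hE : (d : F) * (W * y) ∈ B := by
    rw [← hQcoeff]
    exact cs44_lead_mul_mem B hB _ (q + 1)
      (fun i => by rw [Polynomial.coeff_map]; exact (QB.coeff i).2) hQdeg _ hQeval
  obtain ⟨E, hEF⟩ : ∃ E : B, (E : F) = (d : F) * (W * y) := ⟨⟨_, hE⟩, rfl⟩
  -- the two congruences
  have haF : (a₀ : F) = (c₀ : F) * j⁻¹ := by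
    rw [← hs]; linear_combination (-(a₀ : F)) * hJ
  have hjq : j ^ q = j ^ (q - 1) * j := by
    rw [← pow_succ]; congr 1; omega
  have hjJ : j ^ q * (j⁻¹) ^ (q - 1) = j := by
    rw [hjq, mul_right_comm, ← mul_pow, hJ, one_pow, one_mul]
  have hjJq : j ^ q * (j⁻¹) ^ q = 1 := by
    rw [← mul_pow, hJ, one_pow]
  have hx₁ : ((c₀ ^ (q - 1) * (d - E) - a₀ ^ (q - 1) * E : B) : F)
      = (j ^ q - y) * ((c₀ : F) ^ (q - 1) * (E : F) * y⁻¹ * (j⁻¹) ^ (q - 1)) := by
    push_cast
    rw [hEF, haF, mul_pow]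
    linear_combination (-((c₀ : F) ^ (q - 1) * (d : F))) * hW
      + (-((c₀ : F) ^ (q - 1) * (d : F) * W)) * hjJ
      + (-((c₀ : F) ^ (q - 1) * (d : F) * W * (j⁻¹) ^ (q - 1) * (j ^ q - y))) * hY
  have hx₁n : c₀ ^ (q - 1) * (d - E) - a₀ ^ (q - 1) * E ∈ n := by
    apply hc₁
    rw [hx₁, map_mul]
    have hk : V₁.valuation ((c₀ : F) ^ (q - 1) * (E : F) * y⁻¹ * (j⁻¹) ^ (q - 1)) ≤ 1 := by
      rw [V₁.valuation_le_one_iff]
      exact V₁.mul_mem _ _ (V₁.mul_mem _ _ (V₁.mul_mem _ _ (V₁.pow_mem (hBV₁ c₀) _) (hBV₁ E)) hy₁)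
        (V₁.pow_mem hj₁ _)
    exact (mul_le_of_le_one_right' hk).trans_lt h₁
  have hc₀pow : c₀ ^ (q - 1) ∉ n := fun h => hc₀ (hn.mem_of_pow_mem _ h)
  have ha₀pow : a₀ ^ (q - 1) ∈ n := Ideal.pow_mem_of_mem n ha₀ _ (by omega)
  have hdE : d - E ∈ n := by
    have h1 : a₀ ^ (q - 1) * E ∈ n := n.mul_mem_right _ ha₀pow
    have h2 : c₀ ^ (q - 1) * (d - E) ∈ n := by
      have := n.add_mem hx₁n h1
      simpa using this
    rcases hn.mem_or_mem h2 with h | h
    · exact absurd h hc₀pow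
    · exact h
  have hdEF : ((d - E : B) : F) = (d : F) * W * j := by
    push_cast
    rw [hEF]
    linear_combination (-(d : F)) * hW
  have hx₂ : ((c₀ ^ (q - 1) * E ^ q - a₀ ^ (q - 1) * (d - E) ^ q : B) : F)
      = (y ^ q - j) * ((c₀ : F) ^ (q - 1) * ((d - E : B) : F) ^ q * (j⁻¹) ^ q) := by
    have h0 : ((c₀ ^ (q - 1) * E ^ q - a₀ ^ (q - 1) * (d - E) ^ q : B) : F)
        = (c₀ : F) ^ (q - 1) * (E : F) ^ q - (a₀ : F) ^ (q - 1) * ((d - E : B) : F) ^ q := by
      push_cast; ring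
    rw [h0, hdEF, hEF, haF]
    simp only [mul_pow]
    linear_combination (-((c₀ : F) ^ (q - 1) * (d : F) ^ q * W ^ q)) * hjJ
      + (-((c₀ : F) ^ (q - 1) * (d : F) ^ q * W ^ q * (y ^ q - j))) * hjJq
  have hx₂n : c₀ ^ (q - 1) * E ^ q - a₀ ^ (q - 1) * (d - E) ^ q ∈ n := by
    apply hc₂
    rw [hx₂, map_mul]
    have hk : V₂.valuation ((c₀ : F) ^ (q - 1) * ((d - E : B) : F) ^ q * (j⁻¹) ^ q) ≤ 1 := by
      rw [V₂.valuation_le_one_iff]
      exact V₂.mul_mem _ _ (V₂.mul_mem _ _ (V₂.pow_mem (hBV₂ c₀) _) (V₂.pow_mem (hBV₂ _) _))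
        (V₂.pow_mem hj₂ _)
    exact (mul_le_of_le_one_right' hk).trans_lt h₂
  have hEn : E ∈ n := by
    have h1 : a₀ ^ (q - 1) * (d - E) ^ q ∈ n := n.mul_mem_right _ ha₀pow
    have h2 : c₀ ^ (q - 1) * E ^ q ∈ n := by
      have := n.add_mem hx₂n h1
      simpa using this
    rcases hn.mem_or_mem h2 with h | h
    · exact absurd h hc₀pow
    · exact hn.mem_of_pow_mem _ h
  apply hd_not
  have := n.add_mem hdE hEn
  simpa using this

end cs44

end Fermat.Agent.S34
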