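import Mathlib

/-!
# S34 lab, row P3c-core (helper90): cusps are not nodes — the abstract separation lemma

Mathlib only.  `F` a field, `B` a subring of `F` integrally closed in `F`, `n` a prime ideal of
`B` containing the natural number `q ≥ 2`.  `j ≠ 0`, `y` in `F` (in the application `j = j(τ)`,
`y = j(qτ)`) with `j + y ≠ 0`, such that `1 / j = a₀ / c₀` with `a₀ ∈ n`, `c₀ ∉ n`
(the point `n` is cuspidal), and an integer polynomial relation `∑ c(a,b) y^a j^b = 0` whose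
monomials satisfy `a ≤ q + 1`, `a + b ≤ 2 q`, with `c(q,q) ≡ -1` and `c(a,b) ≡ 0` modulo `q` for
the other monomials of total degree `2 q` (the modular equation with Kronecker's congruence).

`V₁`, `V₂` valuation subrings of `F` containing `B` in which `j`, `y` are units, with
`j ^ q - y ∈ m_{V₁}` and `y ^ q - j ∈ m_{V₂}`.

* `cs90_exists_E` : `e := y / (j + y)` lies in the localisation `B_n`: there are `lam ∉ n` and
  `E ∈ B` with `E = lam * e`.
* `cs90_main` : the centres of `V₁` and `V₂` on `B` are not both contained in `n`.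
  (On `V₁` one has `1 - e ∈ n B_n`, on `V₂` one has `e ∈ n B_n`.)
-/

set_option autoImplicit false

namespace Fermat.Agent.S34

open Polynomial

section CuspSep

variable {F : Type*} [Field F]

/-- The per-monomial identity behind the polynomial satisfied by `e = y / (j + y)`. -/
theorem cs90_term (j y e a₀ c₀ : F) (hjA : a₀ * j = c₀) (hej : e * j = (1 - e) * y)
    (cp : F) (a b d k : ℕ) :
    (((-1 : F) ^ k * cp) * a₀ ^ d * c₀ ^ (a + b)) * (e ^ a * (e - 1) ^ k) * j ^ (a + b + d) =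
      (c₀ ^ (a + b + d) * (1 - e) ^ (a + k)) * (cp * y ^ a * j ^ b) := by
  have hneg : (-1 : F) * (e - 1) = 1 - e := by ring
  have h1 : ((-1 : F) ^ k * cp) * a₀ ^ d * c₀ ^ (a + b) * (e ^ a * (e - 1) ^ k) * j ^ (a + b + d) =
      cp * c₀ ^ (a + b) * ((-1) ^ k * (e - 1) ^ k) * (a₀ ^ d * j ^ d) * (e ^ a * j ^ a) * j ^ b := by
    ring
  rw [h1, ← mul_pow, ← mul_pow, ← mul_pow, hjA, hej, hneg, mul_pow]
  generalize 1 - e = u
  ring

/-- The coefficient attached to the monomial `p = (a, b)`. -/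
def cs90_gam (B : Subring F) (q : ℕ) (c : ℕ × ℕ → ℤ) (a₀ c₀ : B) (p : ℕ × ℕ) : B :=
  ((-1 : B) ^ (q + 1 - p.1) * (c p : B)) * a₀ ^ (2 * q - (p.1 + p.2)) * c₀ ^ (p.1 + p.2)

/-- The polynomial over `B` killing `e = y / (j + y)`. -/
noncomputable def cs90_poly (B : Subring F) (q : ℕ) (S : Finset (ℕ × ℕ)) (c : ℕ × ℕ → ℤ)
    (a₀ c₀ : B) : Polynomial B :=
  ∑ p ∈ S, C (cs90_gam B q c a₀ c₀ p) * (X ^ p.1 * (X - C 1) ^ (q + 1 - p.1))

theorem cs90_monic (B : Subring F) (a k : ℕ) :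
    ((X : Polynomial B) ^ a * (X - C 1) ^ k).Monic :=
  (monic_X_pow a).mul ((monic_X_sub_C (1 : B)).pow k)

theorem cs90_natDegree (B : Subring F) (a k : ℕ) :
    ((X : Polynomial B) ^ a * (X - C 1) ^ k).natDegree = a + k := by
  rw [Monic.natDegree_mul (monic_X_pow a) ((monic_X_sub_C (1 : B)).pow k), natDegree_X_pow,
    Monic.natDegree_pow (monic_X_sub_C (1 : B)), natDegree_X_sub_C, mul_one]

theorem cs90_poly_natDegree_le (B : Subring F) (q : ℕ) (S : Finset (ℕ × ℕ)) (c : ℕ × ℕ → ℤ)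
    (a₀ c₀ : B) (hdeg1 : ∀ p ∈ S, p.1 ≤ q + 1) :
    (cs90_poly B q S c a₀ c₀).natDegree ≤ q + 1 := by
  unfold cs90_poly
  refine natDegree_sum_le_of_forall_le _ _ (fun p hp => ?_)
  refine (natDegree_C_mul_le _ _).trans ?_
  rw [cs90_natDegree]
  have := hdeg1 p hp
  omega

theorem cs90_poly_coeff (B : Subring F) (q : ℕ) (S : Finset (ℕ × ℕ)) (c : ℕ × ℕ → ℤ)
    (a₀ c₀ : B) (hdeg1 : ∀ p ∈ S, p.1 ≤ q + 1) :
    (cs90_poly B q S c a₀ c₀).coeff (q + 1) = ∑ p ∈ S, cs90_gam B q c a₀ c₀ p := by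
  unfold cs90_poly
  rw [finsetSum_coeff]
  refine Finset.sum_congr rfl (fun p hp => ?_)
  rw [coeff_C_mul]
  have h1 : ((X : Polynomial B) ^ p.1 * (X - C 1) ^ (q + 1 - p.1)).natDegree = q + 1 := by
    rw [cs90_natDegree]
    have := hdeg1 p hp
    omega
  have h2 := (cs90_monic B p.1 (q + 1 - p.1)).coeff_natDegree
  rw [h1] at h2
  rw [h2, mul_one]

/-- The leading coefficient is congruent to `c₀ ^ (2 q)` modulo `n`. -/
theorem cs90_lam_sub_mem (B : Subring F) (n : Ideal B) (q : ℕ) (hqn : (q : B) ∈ n)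
    (S : Finset (ℕ × ℕ)) (c : ℕ × ℕ → ℤ) (a₀ c₀ : B) (ha₀ : a₀ ∈ n)
    (hdeg2 : ∀ p ∈ S, p.1 + p.2 ≤ 2 * q)
    (hqq : (q, q) ∈ S) (hcqq : (q : ℤ) ∣ c (q, q) + 1)
    (hother : ∀ p ∈ S, p.1 + p.2 = 2 * q → p ≠ (q, q) → (q : ℤ) ∣ c p) :
    (∑ p ∈ S, cs90_gam B q c a₀ c₀ p) - c₀ ^ (2 * q) ∈ n := by
  classical
  rw [← Finset.add_sum_erase S _ hqq]
  have h1 : cs90_gam B q c a₀ c₀ (q, q) - c₀ ^ (2 * q) ∈ n := by
    obtain ⟨k, hk⟩ := hcqq
    have h2 : cs90_gam B q c a₀ c₀ (q, q) - c₀ ^ (2 * q) =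
        (q : B) * (-(k : B) * c₀ ^ (2 * q)) := by
      unfold cs90_gam
      have e1 : q + 1 - (q, q).1 = 1 := by simp
      have e2 : 2 * q - ((q, q).1 + (q, q).2) = 0 := by simp; omega
      have e3 : (q, q).1 + (q, q).2 = 2 * q := by simp; omega
      rw [e1, e2, e3]
      have h3 : ((c (q, q) : ℤ) : B) = ((q : ℤ) : B) * (k : B) - 1 := by
        have : c (q, q) = (q : ℤ) * k - 1 := by linarith
        rw [this]; push_cast; ring
      rw [h3]
      push_cast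
      ring
    rw [h2]
    exact Ideal.mul_mem_right _ _ hqn
  have h2 : ∑ p ∈ S.erase (q, q), cs90_gam B q c a₀ c₀ p ∈ n := by
    refine Ideal.sum_mem _ (fun p hp => ?_)
    have hpS : p ∈ S := Finset.mem_of_mem_erase hp
    have hpne : p ≠ (q, q) := Finset.ne_of_mem_erase hp
    unfold cs90_gam
    by_cases hlt : p.1 + p.2 = 2 * q
    · obtain ⟨k, hk⟩ := hother p hpS hlt hpne
      have h3 : ((c p : ℤ) : B) = (q : B) * (k : B) := by
        rw [hk]; push_cast; ring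
      rw [h3]
      have h4 : (-1 : B) ^ (q + 1 - p.1) * ((q : B) * (k : B)) * a₀ ^ (2 * q - (p.1 + p.2)) *
          c₀ ^ (p.1 + p.2) = (q : B) * ((-1 : B) ^ (q + 1 - p.1) * (k : B) *
            a₀ ^ (2 * q - (p.1 + p.2)) * c₀ ^ (p.1 + p.2)) := by ring
      rw [h4]
      exact Ideal.mul_mem_right _ _ hqn
    · have hle := hdeg2 p hpS
      have hpos : 2 * q - (p.1 + p.2) ≠ 0 := by omega
      have h3 : a₀ ^ (2 * q - (p.1 + p.2)) ∈ n := Ideal.pow_mem_of_mem _ ha₀ _ (Nat.pos_of_ne_zero hpos)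
      exact Ideal.mul_mem_right _ _ (Ideal.mul_mem_left _ _ h3)
  have h3 : cs90_gam B q c a₀ c₀ (q, q) + ∑ p ∈ S.erase (q, q), cs90_gam B q c a₀ c₀ p -
      c₀ ^ (2 * q) = (cs90_gam B q c a₀ c₀ (q, q) - c₀ ^ (2 * q)) +
        ∑ p ∈ S.erase (q, q), cs90_gam B q c a₀ c₀ p := by ring
  rw [h3]
  exact Ideal.add_mem _ h1 h2

/-- `e = y / (j + y)` is a root of `cs90_poly`. -/
theorem cs90_poly_aeval (B : Subring F) (q : ℕ) (S : Finset (ℕ × ℕ)) (c : ℕ × ℕ → ℤ)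
    (a₀ c₀ : B) (j y : F) (hj0 : j ≠ 0) (hjy : j + y ≠ 0)
    (hs : j * (a₀ : F) = (c₀ : F))
    (hrel : ∑ p ∈ S, (c p : F) * y ^ p.1 * j ^ p.2 = 0)
    (hdeg1 : ∀ p ∈ S, p.1 ≤ q + 1) (hdeg2 : ∀ p ∈ S, p.1 + p.2 ≤ 2 * q) :
    aeval (y / (j + y)) (cs90_poly B q S c a₀ c₀) = 0 := by
  set e : F := y / (j + y) with he
  have hej : e * j = (1 - e) * y := by
    rw [he]; field_simp; ring
  have hjA : (a₀ : F) * j = (c₀ : F) := by rw [mul_comm]; exact hs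
  have hj2 : j ^ (2 * q) ≠ 0 := pow_ne_zero _ hj0
  apply (mul_left_injective₀ hj2)
  simp only [zero_mul]
  unfold cs90_poly
  rw [map_sum, Finset.sum_mul]
  have hterm : ∀ p ∈ S, aeval e (C (cs90_gam B q c a₀ c₀ p) *
      (X ^ p.1 * (X - C 1) ^ (q + 1 - p.1))) * j ^ (2 * q) =
      ((c₀ : F) ^ (2 * q) * (1 - e) ^ (q + 1)) * ((c p : F) * y ^ p.1 * j ^ p.2) := by
    intro p hp
    have h1 := hdeg1 p hp
    have h2 := hdeg2 p hp
    have h3 := cs90_term j y e (a₀ : F) (c₀ : F) hjA hej (c p : F) p.1 p.2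
      (2 * q - (p.1 + p.2)) (q + 1 - p.1)
    rw [show p.1 + p.2 + (2 * q - (p.1 + p.2)) = 2 * q by omega,
      show p.1 + (q + 1 - p.1) = q + 1 by omega] at h3
    rw [← h3]
    congr 1
    rw [map_mul, aeval_C, map_mul, map_pow, map_pow, map_sub, aeval_X, aeval_C, map_one]
    congr 1
  rw [Finset.sum_congr rfl hterm, ← Finset.mul_sum, hrel, mul_zero]

/-- **Integrality of the separating function.** `e = y / (j + y)` lies in `B_n`. -/
theorem cs90_exists_E (B : Subring F) (hBcl : ∀ x : F, IsIntegral B x → x ∈ B)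
    (n : Ideal B) [hn : n.IsPrime] (q : ℕ) (hqn : (q : B) ∈ n)
    (j y : F) (hj0 : j ≠ 0) (hjy : j + y ≠ 0)
    (a₀ c₀ : B) (ha₀ : a₀ ∈ n) (hc₀ : c₀ ∉ n) (hs : j * (a₀ : F) = (c₀ : F))
    (S : Finset (ℕ × ℕ)) (c : ℕ × ℕ → ℤ)
    (hrel : ∑ p ∈ S, (c p : F) * y ^ p.1 * j ^ p.2 = 0)
    (hdeg1 : ∀ p ∈ S, p.1 ≤ q + 1) (hdeg2 : ∀ p ∈ S, p.1 + p.2 ≤ 2 * q)
    (hqq : (q, q) ∈ S) (hcqq : (q : ℤ) ∣ c (q, q) + 1)
    (hother : ∀ p ∈ S, p.1 + p.2 = 2 * q → p ≠ (q, q) → (q : ℤ) ∣ c p) :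
    ∃ lam E : B, lam ∉ n ∧ (E : F) = (lam : F) * (y / (j + y)) := by
  set P := cs90_poly B q S c a₀ c₀ with hP
  set lam : B := ∑ p ∈ S, cs90_gam B q c a₀ c₀ p with hlam
  have hsub := cs90_lam_sub_mem B n q hqn S c a₀ c₀ ha₀ hdeg2 hqq hcqq hother
  have hlamn : lam ∉ n := by
    intro hmem
    have h1 : c₀ ^ (2 * q) ∈ n := by
      have h2 : c₀ ^ (2 * q) = lam - (lam - c₀ ^ (2 * q)) := by ring
      rw [h2]
      exact Ideal.sub_mem _ hmem hsub
    exact hc₀ (hn.mem_of_pow_mem _ h1)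
  have hlam0 : lam ≠ 0 := fun h0 => hlamn (h0 ▸ n.zero_mem)
  have hcoeff : P.coeff (q + 1) = lam := cs90_poly_coeff B q S c a₀ c₀ hdeg1
  have hle : P.natDegree ≤ q + 1 := cs90_poly_natDegree_le B q S c a₀ c₀ hdeg1
  have hnat : P.natDegree = q + 1 := by
    refine le_antisymm hle ?_
    refine le_natDegree_of_ne_zero ?_
    rw [hcoeff]
    exact hlam0
  have hlead : P.leadingCoeff = lam := by
    rw [leadingCoeff, hnat, hcoeff]
  have haev : aeval (y / (j + y)) P = 0 :=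
    cs90_poly_aeval B q S c a₀ c₀ j y hj0 hjy hs hrel hdeg1 hdeg2
  have hint : IsIntegral B (P.leadingCoeff • (y / (j + y))) := isIntegral_leadingCoeff_smul P _ haev
  rw [hlead] at hint
  have hmem : (lam : F) * (y / (j + y)) ∈ B := hBcl _ hint
  exact ⟨lam, ⟨_, hmem⟩, hlamn, rfl⟩

/-- **Cusps are not nodes (abstract form).** The centres of `V₁` and `V₂` on `B` are not both
contained in the cuspidal prime `n`. -/
theorem cs90_main (B : Subring F) (hBcl : ∀ x : F, IsIntegral B x → x ∈ B)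
    (n : Ideal B) [hn : n.IsPrime] (q : ℕ) (hq : 2 ≤ q) (hqn : (q : B) ∈ n)
    (j y : F) (hj0 : j ≠ 0) (hjy : j + y ≠ 0)
    (a₀ c₀ : B) (ha₀ : a₀ ∈ n) (hc₀ : c₀ ∉ n) (hs : j * (a₀ : F) = (c₀ : F))
    (S : Finset (ℕ × ℕ)) (c : ℕ × ℕ → ℤ)
    (hrel : ∑ p ∈ S, (c p : F) * y ^ p.1 * j ^ p.2 = 0)
    (hdeg1 : ∀ p ∈ S, p.1 ≤ q + 1) (hdeg2 : ∀ p ∈ S, p.1 + p.2 ≤ 2 * q)
    (hqq : (q, q) ∈ S) (hcqq : (q : ℤ) ∣ c (q, q) + 1)
    (hother : ∀ p ∈ S, p.1 + p.2 = 2 * q → p ≠ (q, q) → (q : ℤ) ∣ c p)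
    (V₁ V₂ : ValuationSubring F) (hBV₁ : ∀ x ∈ B, x ∈ V₁) (hBV₂ : ∀ x ∈ B, x ∈ V₂)
    (hj₁ : V₁.valuation j = 1) (hy₁ : V₁.valuation y = 1)
    (hk₁ : V₁.valuation (j ^ q - y) < 1)
    (hj₂ : V₂.valuation j = 1) (hk₂ : V₂.valuation (y ^ q - j) < 1)
    (hc₁ : ∀ x : B, V₁.valuation (x : F) < 1 → x ∈ n)
    (hc₂ : ∀ x : B, V₂.valuation (x : F) < 1 → x ∈ n) : False := by
  obtain ⟨lam, E, hlamn, hE⟩ := cs90_exists_E B hBcl n q hqn j y hj0 hjy a₀ c₀ ha₀ hc₀ hs S c hrel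
    hdeg1 hdeg2 hqq hcqq hother
  obtain ⟨r, rfl⟩ : ∃ r, q = r + 1 := ⟨q - 1, by omega⟩
  have hr : 1 ≤ r := by omega
  have hc0F : (c₀ : F) ≠ 0 := by
    intro h0
    apply hc₀
    have : c₀ = 0 := Subtype.ext h0
    rw [this]; exact n.zero_mem
  have hjA : (a₀ : F) * j = (c₀ : F) := by rw [mul_comm]; exact hs
  have har' : (a₀ : F) ^ r * j ^ r = (c₀ : F) ^ r := by rw [← mul_pow, hjA]
  have hcr : c₀ ^ r ∉ n := fun h => hc₀ (hn.mem_of_pow_mem _ h)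
  have har : a₀ ^ r ∈ n := Ideal.pow_mem_of_mem _ ha₀ _ hr
  set e : F := y / (j + y) with he
  have hej : e * j = (1 - e) * y := by
    rw [he]; field_simp; ring
  obtain ⟨u, hu⟩ : ∃ u : F, u = 1 - e := ⟨_, rfl⟩
  have hej' : e * j = u * y := by rw [hu]; exact hej
  have hejp : e ^ (r + 1) * j ^ (r + 1) = u ^ (r + 1) * y ^ (r + 1) := by
    rw [← mul_pow, ← mul_pow, hej']
  have hLE : (lam : F) - (E : F) = (lam : F) * u := by rw [hE, hu]; ring
  -- the branch `V₁`: `lam - E ∈ n`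
  have h1 : lam - E ∈ n := by
    have hX : ((c₀ ^ r * (lam - E) - a₀ ^ r * E : B) : F) * (y * j ^ r) =
        ((c₀ ^ r * E : B) : F) * (j ^ (r + 1) - y) := by
      push_cast
      rw [hLE, hE]
      linear_combination (-(c₀ : F) ^ r * (lam : F) * j ^ r) * hej' - ((lam : F) * e * y) * har'
    have hval : V₁.valuation ((c₀ ^ r * (lam - E) - a₀ ^ r * E : B) : F) < 1 := by
      have h5 := congrArg V₁.valuation hX
      simp only [map_mul, map_pow, hy₁, hj₁, one_pow, mul_one] at h5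
      rw [h5]
      have hle : V₁.valuation ((c₀ ^ r * E : B) : F) ≤ 1 :=
        (V₁.valuation_le_one_iff _).mpr (hBV₁ _ (c₀ ^ r * E).2)
      calc V₁.valuation ((c₀ ^ r * E : B) : F) * V₁.valuation (j ^ (r + 1) - y)
          ≤ 1 * V₁.valuation (j ^ (r + 1) - y) := by gcongr
        _ = V₁.valuation (j ^ (r + 1) - y) := one_mul _
        _ < 1 := hk₁
    have hmem := hc₁ _ hval
    have h2 : c₀ ^ r * (lam - E) ∈ n := by
      have h3 : c₀ ^ r * (lam - E) = (c₀ ^ r * (lam - E) - a₀ ^ r * E) + a₀ ^ r * E := by ring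
      rw [h3]
      exact Ideal.add_mem _ hmem (Ideal.mul_mem_right _ _ har)
    exact (hn.mem_or_mem h2).resolve_left hcr
  -- the branch `V₂`: `E ∈ n`
  have h2 : E ∈ n := by
    have hX : ((c₀ ^ r * E ^ (r + 1) - a₀ ^ r * (lam - E) ^ (r + 1) : B) : F) * j ^ (r + 1) =
        ((c₀ ^ r * (lam - E) ^ (r + 1) : B) : F) * (y ^ (r + 1) - j) := by
      push_cast
      rw [hLE, hE]
      linear_combination ((c₀ : F) ^ r * (lam : F) ^ (r + 1)) * hejp -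
        ((lam : F) ^ (r + 1) * u ^ (r + 1) * j) * har'
    have hval : V₂.valuation ((c₀ ^ r * E ^ (r + 1) - a₀ ^ r * (lam - E) ^ (r + 1) : B) : F)
        < 1 := by
      have h5 := congrArg V₂.valuation hX
      simp only [map_mul, map_pow, hj₂, one_pow, mul_one] at h5
      rw [h5]
      have hle : V₂.valuation ((c₀ ^ r * (lam - E) ^ (r + 1) : B) : F) ≤ 1 :=
        (V₂.valuation_le_one_iff _).mpr (hBV₂ _ (c₀ ^ r * (lam - E) ^ (r + 1)).2)
      calc V₂.valuation ((c₀ ^ r * (lam - E) ^ (r + 1) : B) : F) *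
            V₂.valuation (y ^ (r + 1) - j)
          ≤ 1 * V₂.valuation (y ^ (r + 1) - j) := by gcongr
        _ = V₂.valuation (y ^ (r + 1) - j) := one_mul _
        _ < 1 := hk₂
    have hmem := hc₂ _ hval
    have h3 : c₀ ^ r * E ^ (r + 1) ∈ n := by
      have h4 : c₀ ^ r * E ^ (r + 1) =
          (c₀ ^ r * E ^ (r + 1) - a₀ ^ r * (lam - E) ^ (r + 1)) +
            a₀ ^ r * (lam - E) ^ (r + 1) := by ring
      rw [h4]
      exact Ideal.add_mem _ hmem (Ideal.mul_mem_right _ _ har)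
    exact hn.mem_of_pow_mem _ ((hn.mem_or_mem h3).resolve_left hcr)
  apply hlamn
  have h3 : lam = (lam - E) + E := by ring
  rw [h3]
  exact Ideal.add_mem _ h1 h2

end CuspSep

end Fermat.Agent.S34
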