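import Fermat.Agent.S37.Kronecker87

/-!
# S34 lab, step (3c) (helper93), arithmetic part: `J(q^p)/J^p` is integral over `ℤ[1/J]`

* `cs93_prod_orderTop`: the coefficient of `X^k` in `∏_{i ∈ s} (X - L i)` has order
  `≥ c (|s| - k)` if every `L i` has order `≥ c`.
* `cs93_Phi`: the modular equation `Φ ∈ ℤ[Y][X]` of prime level `p` (monic of degree `p + 1`,
  `Φ(J(q^p), J) = 0`) with the DEGREE BOUND `deg_Y (coeff of X^k) ≤ p (p + 1 - k)`.
* `cs93_G`: a MONIC `G ∈ ℤ[x][T]` with `G(1/J, J(q^p)/J^p) = 0` in `ℤ((q))`;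
  `cs93_G_map`: the same over any commutative ring.
-/

set_option autoImplicit false
set_option linter.style.haveILetI false

open ModularCurve

namespace Fermat.Agent.S34

open Fermat.Agent.S28 Fermat.Agent.S37

noncomputable section

/-- Lower bound for the orders of the coefficients of `∏ (X - L i)`. -/
theorem cs93_prod_orderTop {R : Type*} [CommRing R] {ι : Type*} (L : ι → LaurentSeries R)
    (c : ℤ) (hL : ∀ i, ((c : ℤ) : WithTop ℤ) ≤ (L i).orderTop) (s : Finset ι) (k : ℕ) :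
    ((c * ((s.card : ℤ) - k) : ℤ) : WithTop ℤ) ≤
      ((∏ i ∈ s, (Polynomial.X - Polynomial.C (L i)) :
        Polynomial (LaurentSeries R)).coeff k).orderTop := by
  classical
  induction s using Finset.induction_on generalizing k with
  | empty =>
    rw [Finset.prod_empty, Polynomial.coeff_one]
    split_ifs with hk
    · rw [HahnSeries.le_orderTop_iff_forall]
      intro j hj
      have hj' : j < 0 := by
        rw [hk] at hj
        have : ((j : ℤ) : WithTop ℤ) < ((0 : ℤ) : WithTop ℤ) := by simpa using hj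
        exact_mod_cast this
      rw [HahnSeries.coeff_one, if_neg hj'.ne]
    · rw [HahnSeries.orderTop_zero]
      exact le_top
  | insert a s ha ih =>
    rw [Finset.prod_insert ha, Finset.card_insert_of_notMem ha]
    set P : Polynomial (LaurentSeries R) := ∏ i ∈ s, (Polynomial.X - Polynomial.C (L i)) with hP
    have hmul : ∀ (m : ℕ), ((c * ((s.card : ℤ) - m) + c : ℤ) : WithTop ℤ) ≤
        (L a * P.coeff m).orderTop := by
      intro m
      refine le_trans ?_ HahnSeries.orderTop_add_le_mul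
      rw [WithTop.coe_add, add_comm]
      exact add_le_add (hL a) (ih m)
    rcases k with _ | m
    · rw [Polynomial.mul_coeff_zero, Polynomial.coeff_sub, Polynomial.coeff_X_zero,
        Polynomial.coeff_C_zero, zero_sub, neg_mul, HahnSeries.orderTop_neg]
      have h := hmul 0
      have e : c * (((s.card + 1 : ℕ) : ℤ) - ((0 : ℕ) : ℤ)) =
          c * ((s.card : ℤ) - ((0 : ℕ) : ℤ)) + c := by
        push_cast; ring
      rw [e]
      exact h
    · rw [Polynomial.coeff_X_sub_C_mul]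
      refine le_trans ?_ HahnSeries.min_orderTop_le_orderTop_sub
      refine le_min ?_ ?_
      · have e : c * (((s.card + 1 : ℕ) : ℤ) - ((m + 1 : ℕ) : ℤ)) =
            c * ((s.card : ℤ) - (m : ℤ)) := by
          push_cast; ring
        rw [e]
        exact ih m
      · have e : c * (((s.card + 1 : ℕ) : ℤ) - ((m + 1 : ℕ) : ℤ)) =
            c * ((s.card : ℤ) - ((m + 1 : ℕ) : ℤ)) + c := by
          push_cast; ring
        rw [e]
        exact hmul (m + 1)

/-- The conjugates of `J(q^p)` in the variable `w = q^(1/p)` have order `≥ -p²`. -/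
theorem cs93_L_orderTop (p : ℕ) [NeZero p] (i : Option (Fin p)) :
    (((-(p * p : ℕ) : ℤ)) : WithTop ℤ) ≤ (h93_L p i).orderTop := by
  rw [HahnSeries.le_orderTop_iff_forall]
  intro j hj
  have hj' : j < -((p * p : ℕ) : ℤ) := by exact_mod_cast hj
  have hp1 : (1 : ℤ) ≤ (p : ℤ) := by exact_mod_cast NeZero.one_le
  rcases i with _ | b
  · show (qExpand ℂ p (qExpand ℂ p (jqModC ℂ))).coeff j = 0
    by_cases h1 : (p : ℤ) ∣ j
    · obtain ⟨j1, rfl⟩ := h1
      rw [qExpand_coeff_mul]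
      by_cases h2 : (p : ℤ) ∣ j1
      · obtain ⟨j2, rfl⟩ := h2
        rw [qExpand_coeff_mul]
        apply coeff_jqModC_of_lt
        push_cast at hj'
        nlinarith
      · exact qExpand_coeff_of_not_dvd p _ h2
    · exact qExpand_coeff_of_not_dvd p _ h1
  · show (twist (h93_zeta p ^ (b : ℕ)) (jqModC ℂ)).coeff j = 0
    rw [twist_coeff, coeff_jqModC_of_lt ℂ (by push_cast at hj'; nlinarith), mul_zero]

/-- **The modular equation with its degree bound.** -/
theorem cs93_Phi (p : ℕ) (hp : p.Prime) :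
    ∃ Φ : Polynomial (Polynomial ℤ), Φ.Monic ∧ Φ.natDegree = p + 1 ∧
      Φ.eval₂ (evJ ℤ) (JdC ℤ p) = 0 ∧
      ∀ k, k ≤ p + 1 → (Φ.coeff k).natDegree ≤ p * (p + 1 - k) := by
  haveI : NeZero p := ⟨hp.ne_zero⟩
  haveI : Fact p.Prime := ⟨hp⟩
  have hζ : IsPrimitiveRoot (h93_zeta p) p := by
    rw [← IsPrimitiveRoot.coe_units_iff]
    exact h93_zeta_isPrimitiveRoot p
  have hprod : (∏ i, (Polynomial.X - Polynomial.C (h93_L p i)) : Polynomial (LaurentSeries ℂ)) =
      h82_Phi ℂ p (h93_zeta p) := by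
    rw [Fintype.prod_option]
    rfl
  obtain ⟨Φ, hmon, hdeg, hmap⟩ := h93_family (N := p) (Int.castRingHom ℂ) Int.cast_injective
    (h93_F p) (h93_L p) (h93_hasWExp p) (h93_perm p hp)
    (fun k => by rw [hprod]; exact modEq_descent p hp (h93_zeta p) hζ k)
  have hΘ : (coeffMap (Int.castRingHom ℂ)).comp
      ((qExpand ℤ p).comp (Polynomial.aeval (jqModC ℤ)).toRingHom) = kc87_Theta ℂ p := by
    apply Polynomial.ringHom_ext
    · intro a
      simp [kc87_Theta, evJ]
    · simp [kc87_Theta, evJ, coeffMap_qExpand, coeffMap_jqModC]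
  rw [hΘ] at hmap
  have hcard : Fintype.card (Option (Fin p)) = p + 1 := by
    rw [Fintype.card_option, Fintype.card_fin]
  have hinjC : Function.Injective (coeffMap (Int.castRingHom ℂ)) :=
    h82_coeffMap_injective _ Int.cast_injective
  refine ⟨Φ, hmon, by rw [hdeg, hcard], ?_, ?_⟩
  · -- the root `J(q^(p^2))`
    have hinj : Function.Injective ((coeffMap (Int.castRingHom ℂ)).comp (qExpand ℤ p)) :=
      hinjC.comp (qExpand_injective p)
    apply hinj
    have hψ : ((coeffMap (Int.castRingHom ℂ)).comp (qExpand ℤ p)).comp (evJ ℤ) =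
        kc87_Theta ℂ p := by
      rw [RingHom.comp_assoc]
      exact kc87_coeffMap_Theta (Int.castRingHom ℂ) p
    have hroot : ((coeffMap (Int.castRingHom ℂ)).comp (qExpand ℤ p)) (JdC ℤ p) =
        qExpand ℂ p (qExpand ℂ p (jqModC ℂ)) := by
      show coeffMap _ (qExpand ℤ p (JdC ℤ p)) = qExpand ℂ p (qExpand ℂ p (jqModC ℂ))
      rw [JdC_of_neZero, coeffMap_qExpand, coeffMap_qExpand, coeffMap_jqModC]
    rw [map_zero, Polynomial.hom_eval₂, hψ, ← Polynomial.eval_map, hmap, hroot, hprod]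
    unfold h82_Phi
    rw [Polynomial.eval_mul]
    simp
  · -- the degree bound
    intro k hk
    set a : Polynomial ℤ := Φ.coeff k with ha
    by_cases ha0 : a = 0
    · rw [ha0, Polynomial.natDegree_zero]
      exact Nat.zero_le _
    have hcoef : kc87_Theta ℂ p a =
        (∏ i, (Polynomial.X - Polynomial.C (h93_L p i)) : Polynomial (LaurentSeries ℂ)).coeff k := by
      rw [← hmap, Polynomial.coeff_map]
    have hord := cs93_prod_orderTop (h93_L p) (-(p * p : ℕ) : ℤ) (cs93_L_orderTop p)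
      Finset.univ k
    rw [← hcoef, Finset.card_univ, hcard] at hord
    -- the coefficient of `a(J(q^p))` at `-p * deg a` is the leading coefficient
    have h2 : evJ ℂ a = Polynomial.eval₂ HahnSeries.C (jqModC ℂ) (a.map (Int.castRingHom ℂ)) := by
      rw [Polynomial.eval₂_map, RingHom.ext_int ((HahnSeries.C : ℂ →+* LaurentSeries ℂ).comp
        (Int.castRingHom ℂ)) (Int.castRingHom (LaurentSeries ℂ))]
      rfl
    have hdegmap : (a.map (Int.castRingHom ℂ)).natDegree = a.natDegree :=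
      Polynomial.natDegree_map_eq_of_injective Int.cast_injective a
    have hlead : (a.map (Int.castRingHom ℂ)).leadingCoeff ≠ 0 := by
      rw [Polynomial.leadingCoeff_ne_zero]
      exact (Polynomial.map_ne_zero_iff Int.cast_injective).mpr ha0
    have h3 : (kc87_Theta ℂ p a).coeff ((p : ℤ) * (-(a.natDegree : ℤ))) ≠ 0 := by
      show (qExpand ℂ p (evJ ℂ a)).coeff ((p : ℤ) * (-(a.natDegree : ℤ))) ≠ 0
      rw [qExpand_coeff_mul, h2, ← hdegmap, h63_coeff_eval₂_jqModC]
      exact hlead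
    have h4 := HahnSeries.orderTop_le_of_coeff_ne_zero h3
    have h5 := le_trans hord h4
    have h6 : (-((p * p : ℕ) : ℤ)) * (((p + 1 : ℕ) : ℤ) - (k : ℤ)) ≤
        (p : ℤ) * (-(a.natDegree : ℤ)) := by exact_mod_cast h5
    have hp0 : (0 : ℤ) < (p : ℤ) := by exact_mod_cast hp.pos
    have h7 : (a.natDegree : ℤ) ≤ (p : ℤ) * (((p + 1 : ℕ) : ℤ) - (k : ℤ)) := by
      push_cast at h6 ⊢
      nlinarith
    have h8 : ((p * (p + 1 - k) : ℕ) : ℤ) = (p : ℤ) * (((p + 1 : ℕ) : ℤ) - (k : ℤ)) := by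
      rw [Nat.cast_mul, Nat.cast_sub hk]
    exact_mod_cast h8 ▸ h7

/-- Reflected polynomials evaluate at `1/J` to `a(J) / J^N`. -/
theorem cs93_reflect (N : ℕ) (a : Polynomial ℤ) (ha : a.natDegree ≤ N) :
    Polynomial.eval₂ (Int.castRingHom (LaurentSeries ℤ)) (h63_jInv ℤ) (Polynomial.reflect N a) =
      evJ ℤ a * h63_jInv ℤ ^ N := by
  letI : Invertible (jqModC ℤ) :=
    ⟨h63_jInv ℤ, by rw [mul_comm]; exact h63_jqModC_mul_jInv ℤ, h63_jqModC_mul_jInv ℤ⟩
  have h := Polynomial.eval₂_reflect_mul_pow (Int.castRingHom (LaurentSeries ℤ)) (jqModC ℤ) N a ha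
  have h1 : ⅟(jqModC ℤ) = h63_jInv ℤ := rfl
  rw [h1] at h
  have h2 : jqModC ℤ ^ N * h63_jInv ℤ ^ N = 1 := by
    rw [← mul_pow, h63_jqModC_mul_jInv, one_pow]
  calc Polynomial.eval₂ (Int.castRingHom (LaurentSeries ℤ)) (h63_jInv ℤ) (Polynomial.reflect N a)
      = Polynomial.eval₂ (Int.castRingHom (LaurentSeries ℤ)) (h63_jInv ℤ) (Polynomial.reflect N a)
          * (jqModC ℤ ^ N * h63_jInv ℤ ^ N) := by rw [h2, mul_one]
    _ = (Polynomial.eval₂ (Int.castRingHom (LaurentSeries ℤ)) (h63_jInv ℤ)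
          (Polynomial.reflect N a) * jqModC ℤ ^ N) * h63_jInv ℤ ^ N := by ring
    _ = evJ ℤ a * h63_jInv ℤ ^ N := by rw [h]; rfl

/-- **`J(q^p)/J^p` is integral over `ℤ[1/J]`**: a monic `G ∈ ℤ[x][T]` of degree `p + 1` with
`G(1/J, J(q^p)/J^p) = 0` in `ℤ((q))`. -/
theorem cs93_G (p : ℕ) (hp : p.Prime) :
    ∃ G : Polynomial (Polynomial ℤ), G.Monic ∧ G.natDegree = p + 1 ∧
      G.eval₂ (Polynomial.eval₂RingHom (Int.castRingHom (LaurentSeries ℤ)) (h63_jInv ℤ))
        (JdC ℤ p * h63_jInv ℤ ^ p) = 0 := by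
  obtain ⟨Φ, hmon, hdeg, hroot, hbd⟩ := cs93_Phi p hp
  set x : LaurentSeries ℤ := h63_jInv ℤ with hx
  set Jp : LaurentSeries ℤ := JdC ℤ p with hJp
  set Rm : Polynomial (Polynomial ℤ) :=
    ∑ k ∈ Finset.range (p + 1),
      Polynomial.C (Polynomial.reflect (p * (p + 1 - k)) (Φ.coeff k)) * Polynomial.X ^ k with hR
  have hRdeg : Rm.degree < ((p + 1 : ℕ) : WithBot ℕ) := by
    refine (Polynomial.degree_sum_le _ _).trans_lt ?_
    refine (Finset.sup_lt_iff (WithBot.bot_lt_coe (p + 1))).2 ?_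
    intro k hk
    exact (Polynomial.degree_C_mul_X_pow_le k _).trans_lt
      (WithBot.coe_lt_coe.2 (Finset.mem_range.1 hk))
  have hnat : (Polynomial.X ^ (p + 1) + Rm : Polynomial (Polynomial ℤ)).natDegree = p + 1 := by
    rw [Polynomial.natDegree_add_eq_left_of_degree_lt
      (by rw [Polynomial.degree_X_pow]; exact hRdeg), Polynomial.natDegree_X_pow]
  refine ⟨Polynomial.X ^ (p + 1) + Rm, Polynomial.monic_X_pow_add hRdeg, hnat, ?_⟩
  -- the root equation of `Φ`, expanded
  have hΦ : Jp ^ (p + 1) + ∑ k ∈ Finset.range (p + 1), evJ ℤ (Φ.coeff k) * Jp ^ k = 0 := by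
    have h1 := hmon.as_sum
    rw [hdeg] at h1
    rw [h1] at hroot
    simpa [Polynomial.eval₂_add, Polynomial.eval₂_pow, Polynomial.eval₂_X,
      Polynomial.eval₂_finset_sum, Polynomial.eval₂_mul, Polynomial.eval₂_C] using hroot
  rw [Polynomial.eval₂_add, Polynomial.eval₂_pow, Polynomial.eval₂_X, hR,
    Polynomial.eval₂_finset_sum]
  have hterm : ∀ k ∈ Finset.range (p + 1),
      Polynomial.eval₂ (Polynomial.eval₂RingHom (Int.castRingHom (LaurentSeries ℤ)) x) (Jp * x ^ p)
        (Polynomial.C (Polynomial.reflect (p * (p + 1 - k)) (Φ.coeff k)) * Polynomial.X ^ k) =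
      x ^ (p * (p + 1)) * (evJ ℤ (Φ.coeff k) * Jp ^ k) := by
    intro k hk
    have hk' : k ≤ p + 1 := (Finset.mem_range.1 hk).le
    rw [Polynomial.eval₂_mul, Polynomial.eval₂_C, Polynomial.eval₂_pow, Polynomial.eval₂_X,
      Polynomial.coe_eval₂RingHom, cs93_reflect _ _ (hbd k hk')]
    have e : p * (p + 1) = p * (p + 1 - k) + p * k := by
      rw [← Nat.mul_add, Nat.sub_add_cancel hk']
    rw [e, pow_add, mul_pow, ← pow_mul]
    ring
  rw [Finset.sum_congr rfl hterm, ← Finset.mul_sum]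
  have e2 : (Jp * x ^ p) ^ (p + 1) = x ^ (p * (p + 1)) * Jp ^ (p + 1) := by
    rw [mul_pow, ← pow_mul]
    ring
  rw [e2, ← mul_add, hΦ, mul_zero]

/-- **The same over any commutative ring.** -/
theorem cs93_G_map (p : ℕ) (hp : p.Prime) :
    ∃ G : Polynomial (Polynomial ℤ), G.Monic ∧ G.natDegree = p + 1 ∧
      ∀ (R : Type*) [CommRing R],
        haveI : NeZero p := ⟨hp.ne_zero⟩
        G.eval₂ (Polynomial.eval₂RingHom (Int.castRingHom (LaurentSeries R)) (h63_jInv R))
          (qExpand R p (jqModC R) * h63_jInv R ^ p) = 0 := by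
  haveI : NeZero p := ⟨hp.ne_zero⟩
  obtain ⟨G, hG, hdeg, h0⟩ := cs93_G p hp
  refine ⟨G, hG, hdeg, fun R _ => ?_⟩
  have h1 := congrArg (coeffMap (Int.castRingHom R)) h0
  rw [map_zero, Polynomial.hom_eval₂] at h1
  have hψ : (coeffMap (Int.castRingHom R)).comp
      (Polynomial.eval₂RingHom (Int.castRingHom (LaurentSeries ℤ)) (h63_jInv ℤ)) =
      Polynomial.eval₂RingHom (Int.castRingHom (LaurentSeries R)) (h63_jInv R) := by
    apply Polynomial.ringHom_ext
    · intro a
      simp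
    · simp [h63_coeffMap_jInv]
  rw [hψ, map_mul, map_pow, h63_coeffMap_jInv, JdC_of_neZero, coeffMap_qExpand,
    coeffMap_jqModC] at h1
  exact h1

end

end Fermat.Agent.S34
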