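import Mathlib

/-!
# S34 lab, step (3c) (helper93), abstract part: a separating function excludes nodes

`B` a subring of a field `F`, integrally closed in `F`; `n` a prime of `B`; `V₁ V₂` valuation
subrings of `F` containing `B`; `ϖ : F` ("uniformiser", no hypothesis needed); the two branches
through `n` are `p_i := {b ∈ B | ϖ⁻¹ b ∈ V_i}`.

If `x ∈ n B_n` (`s x = a`, `a ∈ n`, `s ∉ n`), `T` is integral over `ℤ[x]` (a monic
`G ∈ ℤ[X][T]` with `G(x, T) = 0`), `T ≡ 1` on the first branch (`ϖ⁻¹ (T - 1) ∈ V₁`) and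
`T^q ≡ x^k` on the second (`ϖ⁻¹ (T^q - x^k) ∈ V₂`, `q k ≥ 1`), then `n` does not contain both
branches: `cs93_not_both`, `cs93_one_branch`.

Mathlib only.
-/

set_option autoImplicit false
set_option linter.style.haveILetI false

namespace Fermat.Agent.S34

open Polynomial

section

variable {F : Type*} [Field F]

/-- Elements outside a prime of a subring of a field are units of the field. -/
theorem cs93_isUnit (B : Subring F) (n : Ideal B) [n.IsPrime] (y : n.primeCompl) :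
    IsUnit ((B.subtype : B →+* F) (y : B)) := by
  apply IsUnit.mk0
  intro h
  have h0 : (y : B) = 0 := Subtype.ext h
  exact y.2 (h0 ▸ n.zero_mem)

/-- **Integral closedness of the local ring, concretely.**  If `x = a / s` with `a s ∈ B`,
`s ∉ n` and `T` is a root of a monic `G ∈ ℤ[X][T]` at `X = x`, then `t T ∈ B` for some
`t ∈ B ∖ n`. -/
theorem cs93_mem_loc (B : Subring F) (hB : ∀ f : F, IsIntegral B f → f ∈ B)
    (n : Ideal B) [n.IsPrime] (x T : F) (a s : B) (hs : s ∉ n) (hx : (s : F) * x = a)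
    (G : Polynomial (Polynomial ℤ)) (hG : G.Monic)
    (hGT : G.eval₂ (Polynomial.eval₂RingHom (Int.castRingHom F) x) T = 0) :
    ∃ t : B, t ∉ n ∧ ∃ b : B, (t : F) * T = b := by
  classical
  let A := Localization.AtPrime n
  let φ : A →+* F := IsLocalization.lift (M := n.primeCompl) (g := B.subtype)
    (fun y => cs93_isUnit B n y)
  letI : Algebra A F := φ.toAlgebra
  haveI : IsScalarTower B A F := IsScalarTower.of_algebraMap_eq fun b => by
    show (b : F) = φ (algebraMap B A b)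
    exact (IsLocalization.lift_eq (M := n.primeCompl) (g := B.subtype) _ b).symm
  have hs0 : (s : F) ≠ 0 := fun h => hs ((Subtype.ext h : s = 0) ▸ n.zero_mem)
  -- `x` is the image of `a / s`
  let ξ : A := IsLocalization.mk' A a (⟨s, hs⟩ : n.primeCompl)
  have hξ : φ ξ = x := by
    have h1 : φ ξ * (s : F) = a := by
      have h2 : ξ * algebraMap B A s = algebraMap B A a :=
        IsLocalization.mk'_spec A a (⟨s, hs⟩ : n.primeCompl)
      have h3 := congrArg φ h2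
      rw [map_mul] at h3
      have e1 : φ (algebraMap B A s) = (s : F) :=
        IsLocalization.lift_eq (M := n.primeCompl) (g := B.subtype) _ s
      have e2 : φ (algebraMap B A a) = (a : F) :=
        IsLocalization.lift_eq (M := n.primeCompl) (g := B.subtype) _ a
      rw [e1, e2] at h3
      exact h3
    have h4 : φ ξ * (s : F) = x * (s : F) := by rw [h1, ← hx, mul_comm]
    exact mul_right_cancel₀ hs0 h4
  -- `T` is integral over `A`
  let ψ : Polynomial ℤ →+* A := Polynomial.eval₂RingHom (Int.castRingHom A) ξ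
  have hψ : φ.comp ψ = Polynomial.eval₂RingHom (Int.castRingHom F) x := by
    apply Polynomial.ringHom_ext
    · intro z
      simp [ψ]
    · simp [ψ, hξ]
  have hint : IsIntegral A T := by
    refine ⟨G.map ψ, hG.map ψ, ?_⟩
    rw [Polynomial.eval₂_map]
    show G.eval₂ (φ.comp ψ) T = 0
    rw [hψ]
    exact hGT
  obtain ⟨m, hm⟩ := IsIntegral.exists_multiple_integral_of_isLocalization n.primeCompl
    (Rₘ := A) T hint
  have hm' : (m : B) • T ∈ B := hB _ hm
  exact ⟨(m : B), m.2, ⟨(m : B) • T, hm'⟩, rfl⟩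

/-- **A separating function excludes nodes.** -/
theorem cs93_not_both (B : Subring F) (hB : ∀ f : F, IsIntegral B f → f ∈ B)
    (n : Ideal B) [n.IsPrime] (V₁ V₂ : ValuationSubring F)
    (hBV₁ : ∀ b : B, (b : F) ∈ V₁) (hBV₂ : ∀ b : B, (b : F) ∈ V₂) (ϖ : F)
    (hp₁ : ∀ b : B, ϖ⁻¹ * (b : F) ∈ V₁ → b ∈ n)
    (hp₂ : ∀ b : B, ϖ⁻¹ * (b : F) ∈ V₂ → b ∈ n)
    (x T : F) (a s : B) (ha : a ∈ n) (hs : s ∉ n) (hx : (s : F) * x = a)
    (G : Polynomial (Polynomial ℤ)) (hG : G.Monic)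
    (hGT : G.eval₂ (Polynomial.eval₂RingHom (Int.castRingHom F) x) T = 0)
    (h1 : ϖ⁻¹ * (T - 1) ∈ V₁) (q k : ℕ) (hk : 0 < k)
    (h2 : ϖ⁻¹ * (T ^ q - x ^ k) ∈ V₂) : False := by
  obtain ⟨t, ht, b, hb⟩ := cs93_mem_loc B hB n x T a s hs hx G hG hGT
  -- on the first branch: `b - t ∈ p₁ ⊆ n`
  have e1 : ϖ⁻¹ * ((b - t : B) : F) = (t : F) * (ϖ⁻¹ * (T - 1)) := by
    push_cast
    rw [← hb]
    ring
  have hbt : b - t ∈ n := hp₁ _ (by rw [e1]; exact V₁.mul_mem _ _ (hBV₁ t) h1)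
  have hbn : b ∉ n := fun hbn => ht (by
    have := n.sub_mem hbn hbt
    rwa [sub_sub_cancel] at this)
  -- on the second branch: `b^q s^k - a^k t^q ∈ p₂ ⊆ n`
  have e2 : ϖ⁻¹ * ((b ^ q * s ^ k - a ^ k * t ^ q : B) : F) =
      ((t : F) ^ q * (s : F) ^ k) * (ϖ⁻¹ * (T ^ q - x ^ k)) := by
    push_cast
    rw [← hb, ← hx]
    ring
  have h3 : b ^ q * s ^ k - a ^ k * t ^ q ∈ n :=
    hp₂ _ (by
      rw [e2]
      exact V₂.mul_mem _ _ (V₂.mul_mem _ _ (pow_mem (hBV₂ t) q) (pow_mem (hBV₂ s) k)) h2)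
  have h4 : a ^ k * t ^ q ∈ n :=
    n.mul_mem_right _ (n.pow_mem_of_mem ha k hk)
  have h5 : b ^ q * s ^ k ∈ n := by
    have := n.add_mem h3 h4
    rwa [sub_add_cancel] at this
  rcases (Ideal.IsPrime.mem_or_mem inferInstance h5) with h6 | h6
  · exact hbn (Ideal.IsPrime.mem_of_pow_mem inferInstance q h6)
  · exact hs (Ideal.IsPrime.mem_of_pow_mem inferInstance k h6)

/-- **One-branch form**: some element of `B ∖ n` lies in one of the two branches. -/
theorem cs93_one_branch (B : Subring F) (hB : ∀ f : F, IsIntegral B f → f ∈ B)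
    (n : Ideal B) [n.IsPrime] (V₁ V₂ : ValuationSubring F)
    (hBV₁ : ∀ b : B, (b : F) ∈ V₁) (hBV₂ : ∀ b : B, (b : F) ∈ V₂) (ϖ : F)
    (x T : F) (a s : B) (ha : a ∈ n) (hs : s ∉ n) (hx : (s : F) * x = a)
    (G : Polynomial (Polynomial ℤ)) (hG : G.Monic)
    (hGT : G.eval₂ (Polynomial.eval₂RingHom (Int.castRingHom F) x) T = 0)
    (h1 : ϖ⁻¹ * (T - 1) ∈ V₁) (q k : ℕ) (hk : 0 < k)
    (h2 : ϖ⁻¹ * (T ^ q - x ^ k) ∈ V₂) :
    (∃ y : B, y ∉ n ∧ ϖ⁻¹ * (y : F) ∈ V₁) ∨ (∃ y : B, y ∉ n ∧ ϖ⁻¹ * (y : F) ∈ V₂) := by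
  by_contra hcon
  rw [not_or] at hcon
  obtain ⟨hc1, hc2⟩ := hcon
  refine cs93_not_both B hB n V₁ V₂ hBV₁ hBV₂ ϖ (fun b hb => ?_) (fun b hb => ?_) x T a s ha hs hx
    G hG hGT h1 q k hk h2
  · by_contra hbn
    exact hc1 ⟨b, hbn, hb⟩
  · by_contra hbn
    exact hc2 ⟨b, hbn, hb⟩

end

end Fermat.Agent.S34
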