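import Fermat.Agent.S34.CuspSep93
import Fermat.Agent.S34.CuspSepAbs93

/-!
# S34 lab, step (3c) (helper93), instance: cuspidal closed points are one-branch points

`F := modularFunctionFieldFullC K M`, `q` a prime dividing `M`, `R → K` the base, `res : R → κ`
with `char κ = q`.  Elements of `F`: `cs93_j` (`= J`), `cs93_jq` (`= J(Q^q)`),
`cs93_x := 1/J`, `cs93_T := J(Q^q)/J^q`.

* `cs93_T_root`: `T` is a root of a monic `G ∈ ℤ[x][T]` at `x = 1/J`.
* `cs93_T_sub_one`, `cs93_swap`: the two Kronecker congruences as `R`-integral series with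
  vanishing reduction: `T - 1` and `(J^q - J(Q^q)) / J(Q^q)^(q²)`.
* `cs93_swap_eq`: for a ring endomorphism `w` of `F` with `w J = J(Q^q)`, `w J(Q^q) = J`:
  `w (T^q - x^(q²-1)) = (J^q - J(Q^q)) / J(Q^q)^(q²)`.
* `cs93_cusp`: **a prime `n` of an integrally closed `B ⊆ V ∩ V₀` with `1/J ∈ n B_n` is a
  one-branch point**, for `V` any valuation subring with the Gauss clause (reduction `0`
  implies `ϖ⁻¹ x ∈ V`) and `V₀` any valuation subring with `ϖ⁻¹ (T^q - x^(q²-1)) ∈ V₀`
  (`cs93_hV0_of_swap`: true for `V₀ = V.comap w`).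
* `cs93_cusp_zero2/inf2/zero3/inf3`: the hypothesis `1/J ∈ n B_n` at the points `h ∈ n`,
  `h⁻¹ ∈ n` for a Hauptmodul of level 2 (`J h² = (h + 256)³`, `h70_j_mul_h2_sq`) or 3
  (`J h³ = (h + 27)(h + 243)³`, `h34_h3R_j`).
-/

set_option autoImplicit false
set_option linter.style.haveILetI false

open ModularCurve

namespace Fermat.Agent.S34

open Fermat.Agent.S28 Fermat.Agent.S37

noncomputable section

variable (K : Type*) [Field K] (M : ℕ) (q : ℕ) [Fact q.Prime]

/-- `J` as an element of `F(M)_K`. -/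
def cs93_j : modularFunctionFieldFullC K M :=
  ⟨jqModC K, by
    have h := jqModCd_mem_full K M (d := 1) (one_dvd M)
    rwa [qExpand_one_apply] at h⟩

/-- `J(Q^q)` as an element of `F(M)_K`, `q ∣ M`. -/
def cs93_jq (hqM : q ∣ M) : modularFunctionFieldFullC K M :=
  haveI : NeZero q := ⟨(Fact.out : q.Prime).ne_zero⟩
  ⟨qExpand K q (jqModC K), jqModCd_mem_full K M hqM⟩

/-- `x = 1/J`. -/
def cs93_x : modularFunctionFieldFullC K M := (cs93_j K M)⁻¹

/-- `T = J(Q^q)/J^q`. -/
def cs93_T (hqM : q ∣ M) : modularFunctionFieldFullC K M := cs93_jq K M q hqM * cs93_x K M ^ q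

theorem cs93_j_coe : ((cs93_j K M : modularFunctionFieldFullC K M) : LaurentSeries K) = jqModC K :=
  rfl

theorem cs93_jq_coe (hqM : q ∣ M) :
    haveI : NeZero q := ⟨(Fact.out : q.Prime).ne_zero⟩
    ((cs93_jq K M q hqM : modularFunctionFieldFullC K M) : LaurentSeries K) =
      qExpand K q (jqModC K) := rfl

theorem cs93_x_coe :
    ((cs93_x K M : modularFunctionFieldFullC K M) : LaurentSeries K) = h63_jInv K := by
  rw [h63_jInv_eq_inv]
  rfl

theorem cs93_j_ne_zero : cs93_j K M ≠ 0 := by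
  intro h
  have h1 := congrArg (fun z : modularFunctionFieldFullC K M => (z : LaurentSeries K)) h
  simp only [cs93_j_coe] at h1
  have h2 := h63_jqModC_mul_jInv K
  rw [h1] at h2
  simp at h2

theorem cs93_j_mul_x : cs93_j K M * cs93_x K M = 1 :=
  mul_inv_cancel₀ (cs93_j_ne_zero K M)

/-- **Integrality of `T` over `ℤ[x]`.** -/
theorem cs93_T_root (hqM : q ∣ M) :
    ∃ G : Polynomial (Polynomial ℤ), G.Monic ∧
      G.eval₂ (Polynomial.eval₂RingHom (Int.castRingHom (modularFunctionFieldFullC K M))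
        (cs93_x K M)) (cs93_T K M q hqM) = 0 := by
  haveI : NeZero q := ⟨(Fact.out : q.Prime).ne_zero⟩
  obtain ⟨G, hG, -, h0⟩ := cs93_G_map q (Fact.out : q.Prime)
  refine ⟨G, hG, ?_⟩
  have h1 := h0 K
  let ι : modularFunctionFieldFullC K M →+* LaurentSeries K :=
    (modularFunctionFieldFullC K M).val.toRingHom
  have hι : Function.Injective ι := Subtype.val_injective
  apply hι
  rw [map_zero, Polynomial.hom_eval₂]
  have hψ : ι.comp (Polynomial.eval₂RingHom (Int.castRingHom (modularFunctionFieldFullC K M))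
      (cs93_x K M)) = Polynomial.eval₂RingHom (Int.castRingHom (LaurentSeries K)) (h63_jInv K) := by
    apply Polynomial.ringHom_ext
    · intro a
      simp
    · simp only [RingHom.comp_apply, Polynomial.coe_eval₂RingHom, Polynomial.eval₂_X]
      exact cs93_x_coe K M
  have hT : ι (cs93_T K M q hqM) = qExpand K q (jqModC K) * h63_jInv K ^ q := by
    show ((cs93_jq K M q hqM * cs93_x K M ^ q : modularFunctionFieldFullC K M) : LaurentSeries K) = _
    push_cast
    rw [cs93_x_coe]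
    rfl
  rw [hψ, hT]
  exact h1

variable {K}
variable {R κ : Type*} [CommRing R] [Algebra R K] [CommRing κ] [CharP κ q] (res : R →+* κ)

/-- The first Kronecker congruence: `T - 1` is `R`-integral with vanishing reduction. -/
theorem cs93_T_sub_one (hqM : q ∣ M) :
    haveI : NeZero q := ⟨(Fact.out : q.Prime).ne_zero⟩
    ((cs93_T K M q hqM - 1 : modularFunctionFieldFullC K M) : LaurentSeries K) =
        coeffMap (algebraMap R K) (qExpand R q (jqModC R) * h63_jInv R ^ q - 1) ∧
      coeffMap res (qExpand R q (jqModC R) * h63_jInv R ^ q - 1) = 0 := by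
  haveI : NeZero q := ⟨(Fact.out : q.Prime).ne_zero⟩
  constructor
  · rw [map_sub, map_mul, map_pow, map_one, coeffMap_qExpand, coeffMap_jqModC, h63_coeffMap_jInv]
    show ((cs93_jq K M q hqM * cs93_x K M ^ q - 1 : modularFunctionFieldFullC K M) :
      LaurentSeries K) = _
    push_cast
    rw [cs93_x_coe]
    rfl
  · rw [map_sub, map_mul, map_pow, map_one, coeffMap_qExpand, coeffMap_jqModC, h63_coeffMap_jInv,
      ← kc87_jqModC_pow_char κ q, ← mul_pow, h63_jqModC_mul_jInv, one_pow, sub_self]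

/-- The second Kronecker congruence: `(J^q - J(Q^q)) / J(Q^q)^(q²)` is `R`-integral with
vanishing reduction. -/
theorem cs93_swap (hqM : q ∣ M) :
    haveI : NeZero q := ⟨(Fact.out : q.Prime).ne_zero⟩
    (((cs93_j K M ^ q - cs93_jq K M q hqM) * (cs93_jq K M q hqM)⁻¹ ^ (q * q) :
        modularFunctionFieldFullC K M) : LaurentSeries K) =
        coeffMap (algebraMap R K) ((jqModC R ^ q - qExpand R q (jqModC R)) *
          qExpand R q (h63_jInv R) ^ (q * q)) ∧
      coeffMap res ((jqModC R ^ q - qExpand R q (jqModC R)) *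
          qExpand R q (h63_jInv R) ^ (q * q)) = 0 := by
  haveI : NeZero q := ⟨(Fact.out : q.Prime).ne_zero⟩
  constructor
  · rw [map_mul, map_sub, map_pow, map_pow, coeffMap_qExpand, coeffMap_qExpand, coeffMap_jqModC,
      h63_coeffMap_jInv]
    have hinv : ((cs93_jq K M q hqM : modularFunctionFieldFullC K M) : LaurentSeries K)⁻¹ =
        qExpand K q (h63_jInv K) := by
      have h1 : qExpand K q (jqModC K) * qExpand K q (h63_jInv K) = 1 := by
        rw [← map_mul, h63_jqModC_mul_jInv, map_one]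
      exact inv_eq_of_mul_eq_one_right h1
    push_cast
    rw [hinv]
    rfl
  · rw [map_mul, map_sub, map_pow, coeffMap_qExpand, coeffMap_jqModC,
      kc87_jqModC_pow_char κ q, sub_self, zero_mul]

variable (K)

/-- A ring endomorphism swapping `J` and `J(Q^q)` maps `T^q - x^(q²-1)` to
`(J^q - J(Q^q)) / J(Q^q)^(q²)`. -/
theorem cs93_swap_eq (hqM : q ∣ M)
    (w : modularFunctionFieldFullC K M →+* modularFunctionFieldFullC K M)
    (hw1 : w (cs93_j K M) = cs93_jq K M q hqM) (hw2 : w (cs93_jq K M q hqM) = cs93_j K M) :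
    w (cs93_T K M q hqM ^ q - cs93_x K M ^ (q * q - 1)) =
      (cs93_j K M ^ q - cs93_jq K M q hqM) * (cs93_jq K M q hqM)⁻¹ ^ (q * q) := by
  have hq : 0 < q := (Fact.out : q.Prime).pos
  have hjq0 : cs93_jq K M q hqM ≠ 0 := by
    intro h
    rw [h, map_zero] at hw2
    exact cs93_j_ne_zero K M hw2.symm
  have hx : w (cs93_x K M) = (cs93_jq K M q hqM)⁻¹ := by
    unfold cs93_x
    rw [map_inv₀, hw1]
  have hqq : q * q = (q * q - 1) + 1 := (Nat.sub_add_cancel (Nat.mul_pos hq hq)).symm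
  have e1 : (cs93_jq K M q hqM)⁻¹ ^ (q * q - 1) =
      cs93_jq K M q hqM * (cs93_jq K M q hqM)⁻¹ ^ (q * q) := by
    conv_rhs => rw [hqq, pow_succ]
    field_simp
  unfold cs93_T
  rw [map_sub, map_pow, map_pow, map_mul, map_pow, hw2, hx, e1, mul_pow, ← pow_mul]
  ring

variable {K}

/-- `ϖ⁻¹ (T^q - x^(q²-1)) ∈ V₀` whenever `V₀ ⊇ w⁻¹ V` for a ring endomorphism `w` of `F`
swapping `J` and `J(Q^q)` and fixing `ϖ`, and `V` has the Gauss clause. -/
theorem cs93_hV0_of_swap (hqM : q ∣ M)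
    (V V₀ : ValuationSubring (modularFunctionFieldFullC K M)) (ϖ : modularFunctionFieldFullC K M)
    (hgauss : ∀ (z : modularFunctionFieldFullC K M) (y : LaurentSeries R),
      (z : LaurentSeries K) = coeffMap (algebraMap R K) y → coeffMap res y = 0 → ϖ⁻¹ * z ∈ V)
    (w : modularFunctionFieldFullC K M →+* modularFunctionFieldFullC K M)
    (hw1 : w (cs93_j K M) = cs93_jq K M q hqM) (hw2 : w (cs93_jq K M q hqM) = cs93_j K M)
    (hwϖ : w ϖ = ϖ) (hV₀ : ∀ z, w z ∈ V → z ∈ V₀) :
    ϖ⁻¹ * (cs93_T K M q hqM ^ q - cs93_x K M ^ (q * q - 1)) ∈ V₀ := by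
  apply hV₀
  rw [map_mul, map_inv₀, hwϖ, cs93_swap_eq K M q hqM w hw1 hw2]
  obtain ⟨h1, h2⟩ := cs93_swap (K := K) M q res hqM
  exact hgauss _ _ h1 h2

/-- **Cuspidal closed points are one-branch points (step (3c)).**  `B ⊆ V ∩ V₀` integrally
closed in `F = F(M)_K`, `n` a prime of `B` with `1/J ∈ n B_n` (`s / J = a`, `a ∈ n`, `s ∉ n`),
`V` with the Gauss clause, `V₀` with `ϖ⁻¹ (T^q - x^(q²-1)) ∈ V₀`: some element of `B ∖ n` lies
in `ϖ V` or in `ϖ V₀`, i.e. `n` does not contain both branches `B ∩ ϖ V`, `B ∩ ϖ V₀`. -/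
theorem cs93_cusp (hqM : q ∣ M)
    (V V₀ : ValuationSubring (modularFunctionFieldFullC K M)) (ϖ : modularFunctionFieldFullC K M)
    (hgauss : ∀ (z : modularFunctionFieldFullC K M) (y : LaurentSeries R),
      (z : LaurentSeries K) = coeffMap (algebraMap R K) y → coeffMap res y = 0 → ϖ⁻¹ * z ∈ V)
    (hV₀ : ϖ⁻¹ * (cs93_T K M q hqM ^ q - cs93_x K M ^ (q * q - 1)) ∈ V₀)
    (B : Subring (modularFunctionFieldFullC K M))
    (hB : ∀ f : modularFunctionFieldFullC K M, IsIntegral B f → f ∈ B)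
    (hBV : ∀ b : B, (b : modularFunctionFieldFullC K M) ∈ V)
    (hBV₀ : ∀ b : B, (b : modularFunctionFieldFullC K M) ∈ V₀)
    (n : Ideal B) [n.IsPrime] (a s : B) (ha : a ∈ n) (hs : s ∉ n)
    (hx : (s : modularFunctionFieldFullC K M) * cs93_x K M = a) :
    (∃ y : B, y ∉ n ∧ ϖ⁻¹ * (y : modularFunctionFieldFullC K M) ∈ V) ∨
      (∃ y : B, y ∉ n ∧ ϖ⁻¹ * (y : modularFunctionFieldFullC K M) ∈ V₀) := by
  obtain ⟨G, hG, hGT⟩ := cs93_T_root K M q hqM
  obtain ⟨h1, h2⟩ := cs93_T_sub_one (K := K) M q res hqM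
  have hq2 : 2 ≤ q := (Fact.out : q.Prime).two_le
  have hk : 0 < q * q - 1 := by
    have : 4 ≤ q * q := Nat.mul_le_mul hq2 hq2
    omega
  exact cs93_one_branch B hB n V V₀ hBV hBV₀ ϖ (cs93_x K M) (cs93_T K M q hqM) a s ha hs hx
    G hG hGT (hgauss _ _ h1 h2) q (q * q - 1) hk hV₀

/-- Negative form: `n` does not contain both branches. -/
theorem cs93_cusp_not_node (hqM : q ∣ M)
    (V V₀ : ValuationSubring (modularFunctionFieldFullC K M)) (ϖ : modularFunctionFieldFullC K M)
    (hgauss : ∀ (z : modularFunctionFieldFullC K M) (y : LaurentSeries R),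
      (z : LaurentSeries K) = coeffMap (algebraMap R K) y → coeffMap res y = 0 → ϖ⁻¹ * z ∈ V)
    (hV₀ : ϖ⁻¹ * (cs93_T K M q hqM ^ q - cs93_x K M ^ (q * q - 1)) ∈ V₀)
    (B : Subring (modularFunctionFieldFullC K M))
    (hB : ∀ f : modularFunctionFieldFullC K M, IsIntegral B f → f ∈ B)
    (hBV : ∀ b : B, (b : modularFunctionFieldFullC K M) ∈ V)
    (hBV₀ : ∀ b : B, (b : modularFunctionFieldFullC K M) ∈ V₀)
    (n : Ideal B) [n.IsPrime] (a s : B) (ha : a ∈ n) (hs : s ∉ n)
    (hx : (s : modularFunctionFieldFullC K M) * cs93_x K M = a)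
    (hp : ∀ b : B, ϖ⁻¹ * (b : modularFunctionFieldFullC K M) ∈ V → b ∈ n)
    (hp₀ : ∀ b : B, ϖ⁻¹ * (b : modularFunctionFieldFullC K M) ∈ V₀ → b ∈ n) : False := by
  rcases cs93_cusp M q res hqM V V₀ ϖ hgauss hV₀ B hB hBV hBV₀ n a s ha hs hx with
    ⟨y, hy, hy'⟩ | ⟨y, hy, hy'⟩
  · exact hy (hp y hy')
  · exact hy (hp₀ y hy')

/-! ### `1/J ∈ n B_n` at the cuspidal points of the Hauptmodul charts -/

section Haupt

variable (K)
variable (B : Subring (modularFunctionFieldFullC K M)) (n : Ideal B) [n.IsPrime]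

/-- Level 2, chart `h`: at a prime `n ∋ h` with `2 ∉ n`. -/
theorem cs93_x_mem_zero2 (h : B)
    (hrel : cs93_j K M * (h : modularFunctionFieldFullC K M) ^ 2 =
      ((h : modularFunctionFieldFullC K M) + 256) ^ 3)
    (hn : h ∈ n) (h2 : (2 : B) ∉ n) :
    ∃ a s : B, a ∈ n ∧ s ∉ n ∧ (s : modularFunctionFieldFullC K M) * cs93_x K M = a := by
  refine ⟨h ^ 2, (h + 256) ^ 3, n.pow_mem_of_mem hn 2 (by norm_num), ?_, ?_⟩
  · intro hs
    have h1 : h + 256 ∈ n := Ideal.IsPrime.mem_of_pow_mem inferInstance 3 hs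
    have h3 : (256 : B) ∈ n := by
      have := n.sub_mem h1 hn
      rwa [add_sub_cancel_left] at this
    have h4 : (2 : B) ^ 8 ∈ n := by
      have e : (2 : B) ^ 8 = 256 := by norm_num
      rw [e]; exact h3
    exact h2 (Ideal.IsPrime.mem_of_pow_mem inferInstance 8 h4)
  · show ((h : modularFunctionFieldFullC K M) + 256) ^ 3 * cs93_x K M =
      (h : modularFunctionFieldFullC K M) ^ 2
    rw [← hrel, mul_comm (cs93_j K M), mul_assoc, cs93_j_mul_x, mul_one]

/-- Level 2, chart `h⁻¹`: at a prime `n ∋ g = h⁻¹`. -/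
theorem cs93_x_mem_inf2 (g : B) (h : modularFunctionFieldFullC K M)
    (hg : (g : modularFunctionFieldFullC K M) * h = 1)
    (hrel : cs93_j K M * h ^ 2 = (h + 256) ^ 3) (hn : g ∈ n) :
    ∃ a s : B, a ∈ n ∧ s ∉ n ∧ (s : modularFunctionFieldFullC K M) * cs93_x K M = a := by
  refine ⟨g, (1 + 256 * g) ^ 3, hn, ?_, ?_⟩
  · intro hs
    have h1 : 1 + 256 * g ∈ n := Ideal.IsPrime.mem_of_pow_mem inferInstance 3 hs
    have h3 : (1 : B) ∈ n := by
      have := n.sub_mem h1 (n.mul_mem_left 256 hn)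
      rwa [add_sub_cancel_right] at this
    exact (Ideal.IsPrime.ne_top inferInstance) ((Ideal.eq_top_iff_one n).mpr h3)
  · have hj0 := cs93_j_ne_zero K M
    have hh0 : h ≠ 0 := by
      intro h0
      rw [h0, mul_zero] at hg
      exact zero_ne_one hg
    have hgh : (g : modularFunctionFieldFullC K M) = h⁻¹ := eq_inv_of_mul_eq_one_left hg
    have e : (1 + 256 * (g : modularFunctionFieldFullC K M)) ^ 3 =
        cs93_j K M * (g : modularFunctionFieldFullC K M) := by
      rw [hgh]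
      field_simp
      rw [← hrel]
      ring
    show (1 + 256 * (g : modularFunctionFieldFullC K M)) ^ 3 * cs93_x K M =
      (g : modularFunctionFieldFullC K M)
    rw [e, mul_comm (cs93_j K M), mul_assoc, cs93_j_mul_x, mul_one]

/-- Level 3, chart `h`: at a prime `n ∋ h` with `3 ∉ n`. -/
theorem cs93_x_mem_zero3 (h : B)
    (hrel : cs93_j K M * (h : modularFunctionFieldFullC K M) ^ 3 =
      ((h : modularFunctionFieldFullC K M) + 27) * ((h : modularFunctionFieldFullC K M) + 243) ^ 3)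
    (hn : h ∈ n) (h3 : (3 : B) ∉ n) :
    ∃ a s : B, a ∈ n ∧ s ∉ n ∧ (s : modularFunctionFieldFullC K M) * cs93_x K M = a := by
  refine ⟨h ^ 3, (h + 27) * (h + 243) ^ 3, n.pow_mem_of_mem hn 3 (by norm_num), ?_, ?_⟩
  · intro hs
    rcases Ideal.IsPrime.mem_or_mem inferInstance hs with h1 | h1
    · have h4 : (27 : B) ∈ n := by
        have := n.sub_mem h1 hn
        rwa [add_sub_cancel_left] at this
      have h5 : (3 : B) ^ 3 ∈ n := by
        have e : (3 : B) ^ 3 = 27 := by norm_num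
        rw [e]; exact h4
      exact h3 (Ideal.IsPrime.mem_of_pow_mem inferInstance 3 h5)
    · have h1' : h + 243 ∈ n := Ideal.IsPrime.mem_of_pow_mem inferInstance 3 h1
      have h4 : (243 : B) ∈ n := by
        have := n.sub_mem h1' hn
        rwa [add_sub_cancel_left] at this
      have h5 : (3 : B) ^ 5 ∈ n := by
        have e : (3 : B) ^ 5 = 243 := by norm_num
        rw [e]; exact h4
      exact h3 (Ideal.IsPrime.mem_of_pow_mem inferInstance 5 h5)
  · show ((h : modularFunctionFieldFullC K M) + 27) *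
      ((h : modularFunctionFieldFullC K M) + 243) ^ 3 * cs93_x K M =
      (h : modularFunctionFieldFullC K M) ^ 3
    rw [← hrel, mul_comm (cs93_j K M), mul_assoc, cs93_j_mul_x, mul_one]

/-- Level 3, chart `h⁻¹`: at a prime `n ∋ g = h⁻¹`. -/
theorem cs93_x_mem_inf3 (g : B) (h : modularFunctionFieldFullC K M)
    (hg : (g : modularFunctionFieldFullC K M) * h = 1)
    (hrel : cs93_j K M * h ^ 3 = (h + 27) * (h + 243) ^ 3) (hn : g ∈ n) :
    ∃ a s : B, a ∈ n ∧ s ∉ n ∧ (s : modularFunctionFieldFullC K M) * cs93_x K M = a := by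
  refine ⟨g, (1 + 27 * g) * (1 + 243 * g) ^ 3, hn, ?_, ?_⟩
  · intro hs
    have hone : ∀ c : B, 1 + c * g ∉ n := by
      intro c h1
      have h3 : (1 : B) ∈ n := by
        have := n.sub_mem h1 (n.mul_mem_left c hn)
        rwa [add_sub_cancel_right] at this
      exact (Ideal.IsPrime.ne_top inferInstance) ((Ideal.eq_top_iff_one n).mpr h3)
    rcases Ideal.IsPrime.mem_or_mem inferInstance hs with h1 | h1
    · exact hone 27 h1
    · exact hone 243 (Ideal.IsPrime.mem_of_pow_mem inferInstance 3 h1)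
  · have hj0 := cs93_j_ne_zero K M
    have hh0 : h ≠ 0 := by
      intro h0
      rw [h0, mul_zero] at hg
      exact zero_ne_one hg
    have hgh : (g : modularFunctionFieldFullC K M) = h⁻¹ := eq_inv_of_mul_eq_one_left hg
    have e : (1 + 27 * (g : modularFunctionFieldFullC K M)) *
        (1 + 243 * (g : modularFunctionFieldFullC K M)) ^ 3 =
        cs93_j K M * (g : modularFunctionFieldFullC K M) := by
      rw [hgh]
      field_simp
      rw [← hrel]
      ring
    show (1 + 27 * (g : modularFunctionFieldFullC K M)) *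
      (1 + 243 * (g : modularFunctionFieldFullC K M)) ^ 3 * cs93_x K M =
      (g : modularFunctionFieldFullC K M)
    rw [e, mul_comm (cs93_j K M), mul_assoc, cs93_j_mul_x, mul_one]

end Haupt

end

end Fermat.Agent.S34
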