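import Mathlib

/-!
# S34 lab (helper3): nodes WITHOUT a thickness bound (no `U V = q^12`)

Pure local algebra, Mathlib only.  `A` is the local ring of a chart at a two-branch closed point,
`R` the base discrete valuation ring with uniformiser `π`, `𝔭`, `𝔭'` the two vertical primes,
`z ∈ 𝔭 \ 𝔭'`, `z' ∈ 𝔭' \ 𝔭` with `𝔪 = (π, z, z')` and `π ∣ z z'`.

* `dn3_loop`: for every `N`, EITHER exact coordinates `z₁ z₁' = π ^ κ * unit` with `1 ≤ κ ≤ N`,
  OR approximate coordinates `z₁ z₁' = π ^ (N + 1) * c` (both `≡ z, z'` mod `π`).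
* `dn3_ker`: for a retraction `ρ : A → R` (an `R`-point centred at the node),
  `ker ρ = (z - ρ z, z' - ρ z')`.
* `dn3_local_eq`: if `z z' = Q c`, `Q = ρ z * r`, `r ∈ 𝔪_R`, then `ρ z * ker ρ ⊆ (z - ρ z) A`.
* `dn3_Deep`: the (intrinsic) deep points; `dn3_deep_unique` (at most one),
  `dn3_deep_invariant` (stable under semilinear automorphisms preserving `𝔭`, `𝔭'`).
* `dn3_main`: every non-deep `R`-point `ρ` has a local equation `P ∈ ker ρ`,
  `a * ker ρ ⊆ P A` with `0 ≠ a ∈ R`.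
* `dn3_ker_le_of_mem`: a prime `𝔮 ∌ π` containing `P` contains `ker ρ`.
-/

set_option autoImplicit false

namespace Fermat.Agent.S34

open IsLocalRing

section Loop

variable {A : Type*} [CommRing A]

/-- changing the two coordinates modulo `p` does not change the ideal `(p, z, z')`. -/
theorem dn3_span_congr (p z z' z₁ z₁' : A) (h : p ∣ z₁ - z) (h' : p ∣ z₁' - z') :
    Ideal.span ({p, z₁, z₁'} : Set A) = Ideal.span ({p, z, z'} : Set A) := by
  obtain ⟨d, hd⟩ := h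
  obtain ⟨d', hd'⟩ := h'
  have hz₁ : z₁ = z + p * d := by linear_combination hd
  have hz₁' : z₁' = z' + p * d' := by linear_combination hd'
  apply le_antisymm
  · rw [Ideal.span_le]
    intro x hx
    have hp : p ∈ Ideal.span ({p, z, z'} : Set A) := Ideal.subset_span (by simp)
    have hzm : z ∈ Ideal.span ({p, z, z'} : Set A) := Ideal.subset_span (by simp)
    have hzm' : z' ∈ Ideal.span ({p, z, z'} : Set A) := Ideal.subset_span (by simp)
    rcases hx with rfl | rfl | rfl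
    · exact hp
    · rw [hz₁]
      exact Ideal.add_mem _ hzm (Ideal.mul_mem_right _ _ hp)
    · rw [hz₁']
      exact Ideal.add_mem _ hzm' (Ideal.mul_mem_right _ _ hp)
  · rw [Ideal.span_le]
    intro x hx
    have hp : p ∈ Ideal.span ({p, z₁, z₁'} : Set A) := Ideal.subset_span (by simp)
    have hzm : z₁ ∈ Ideal.span ({p, z₁, z₁'} : Set A) := Ideal.subset_span (by simp)
    have hzm' : z₁' ∈ Ideal.span ({p, z₁, z₁'} : Set A) := Ideal.subset_span (by simp)
    have e : z = z₁ - p * d := by rw [hz₁]; ring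
    have e' : z' = z₁' - p * d' := by rw [hz₁']; ring
    rcases hx with rfl | rfl | rfl
    · exact hp
    · rw [e]
      exact Ideal.sub_mem _ hzm (Ideal.mul_mem_right _ _ hp)
    · rw [e']
      exact Ideal.sub_mem _ hzm' (Ideal.mul_mem_right _ _ hp)

/-- membership in `(p, z, z')`, explicitly. -/
theorem dn3_mem_span_triple (p z z' x : A) :
    x ∈ Ideal.span ({p, z, z'} : Set A) ↔ ∃ c a b : A, x = c * p + a * z + b * z' := by
  rw [Ideal.mem_span_insert]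
  constructor
  · rintro ⟨c, y, hy, rfl⟩
    obtain ⟨a, b, rfl⟩ := Ideal.mem_span_pair.mp hy
    exact ⟨c, a, b, by ring⟩
  · rintro ⟨c, a, b, rfl⟩
    exact ⟨c, a * z + b * z', Ideal.mem_span_pair.mpr ⟨a, b, rfl⟩, by ring⟩

variable [IsLocalRing A]

/-- one step of the loop: a non-unit cofactor gains one power of `p`. -/
theorem dn3_step (p z z' c : A) (j : ℕ) (hj : 1 ≤ j)
    (hmax : maximalIdeal A = Ideal.span ({p, z, z'} : Set A))
    (hzz : z * z' = p ^ j * c) (hc : ¬ IsUnit c) :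
    ∃ z₁ z₁' c₁ : A, z₁ * z₁' = p ^ (j + 1) * c₁ ∧ p ∣ z₁ - z ∧ p ∣ z₁' - z' := by
  obtain ⟨i, rfl⟩ : ∃ i, j = i + 1 := ⟨j - 1, by omega⟩
  have hcm : c ∈ maximalIdeal A := (mem_maximalIdeal c).mpr hc
  rw [hmax, dn3_mem_span_triple] at hcm
  obtain ⟨c₀, a, b, hcab⟩ := hcm
  refine ⟨z - p ^ (i + 1) * b, z' - p ^ (i + 1) * a, c₀ + p ^ i * (a * b), ?_, ?_, ?_⟩
  · rw [hcab] at hzz
    linear_combination hzz
  · exact ⟨-(p ^ i * b), by ring⟩
  · exact ⟨-(p ^ i * a), by ring⟩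

/-- **The loop without termination.**  For every `N`: exact coordinates with `κ ≤ N`, or
approximate coordinates of order `N + 1`. -/
theorem dn3_loop (p z z' : A)
    (hmax : maximalIdeal A = Ideal.span ({p, z, z'} : Set A)) (hzz : p ∣ z * z') (N : ℕ) :
    (∃ κ : ℕ, 1 ≤ κ ∧ κ ≤ N ∧ ∃ z₁ z₁' ε : A, IsUnit ε ∧ z₁ * z₁' = p ^ κ * ε ∧
        p ∣ z₁ - z ∧ p ∣ z₁' - z') ∨
    (∃ z₁ z₁' c : A, z₁ * z₁' = p ^ (N + 1) * c ∧ p ∣ z₁ - z ∧ p ∣ z₁' - z') := by
  induction N with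
  | zero =>
    right
    obtain ⟨c, hc⟩ := hzz
    exact ⟨z, z', c, by rw [hc]; ring, ⟨0, by ring⟩, ⟨0, by ring⟩⟩
  | succ N ih =>
    rcases ih with ⟨κ, h1, h2, h⟩ | ⟨z₁, z₁', c, hc, hd, hd'⟩
    · left
      exact ⟨κ, h1, by omega, h⟩
    · by_cases hu : IsUnit c
      · left
        exact ⟨N + 1, by omega, le_refl _, z₁, z₁', c, hu, hc, hd, hd'⟩
      · right
        have hmax₁ : maximalIdeal A = Ideal.span ({p, z₁, z₁'} : Set A) := by
          rw [hmax, dn3_span_congr p z z' z₁ z₁' hd hd']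
        obtain ⟨z₂, z₂', c₂, hc₂, hd₂, hd₂'⟩ := dn3_step p z₁ z₁' c (N + 1) (by omega) hmax₁ hc hu
        refine ⟨z₂, z₂', c₂, hc₂, ?_, ?_⟩
        · have : z₂ - z = (z₂ - z₁) + (z₁ - z) := by ring
          rw [this]
          exact dvd_add hd₂ hd
        · have : z₂' - z' = (z₂' - z₁') + (z₁' - z') := by ring
          rw [this]
          exact dvd_add hd₂' hd'

end Loop

section Point

variable {R A : Type*} [CommRing R] [CommRing A] [Algebra R A] [IsLocalRing R] [IsLocalRing A]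

/-- a retraction `ρ : A → R` of the structure map is a local homomorphism. -/
theorem dn3_rho_mem (ρ : A →+* R) (hρ : ∀ r : R, ρ (algebraMap R A r) = r) (x : A)
    (hx : x ∈ maximalIdeal A) : ρ x ∈ maximalIdeal R := by
  by_contra hcon
  have hu : IsUnit (ρ x) := by
    by_contra h
    exact hcon ((mem_maximalIdeal _).mpr h)
  have hker : RingHom.ker ρ ≤ maximalIdeal A :=
    le_maximalIdeal (RingHom.ker_ne_top ρ)
  have h1 : x - algebraMap R A (ρ x) ∈ maximalIdeal A := by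
    apply hker
    rw [RingHom.mem_ker, map_sub, hρ, sub_self]
  have h2 : algebraMap R A (ρ x) ∈ maximalIdeal A := by
    have : algebraMap R A (ρ x) = x - (x - algebraMap R A (ρ x)) := by ring
    rw [this]
    exact Ideal.sub_mem _ hx h1
  exact (mem_maximalIdeal _).mp h2 (hu.map (algebraMap R A))

/-- the structure map is a local homomorphism as soon as it has a retraction. -/
theorem dn3_algebraMap_mem (ρ : A →+* R) (hρ : ∀ r : R, ρ (algebraMap R A r) = r) (r : R)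
    (hr : r ∈ maximalIdeal R) : algebraMap R A r ∈ maximalIdeal A := by
  rw [mem_maximalIdeal]
  intro hu
  have := hu.map ρ
  rw [hρ] at this
  exact (mem_maximalIdeal _).mp hr this

variable [IsDomain R] [IsNoetherianRing A]

/-- **The kernel of an `R`-point centred at a node** is generated by `z - ρ z`, `z' - ρ z'`. -/
theorem dn3_ker (π : R) (hπ0 : π ≠ 0) (hπR : maximalIdeal R = Ideal.span {π}) (z z' : A)
    (hmax : maximalIdeal A = Ideal.span ({algebraMap R A π, z, z'} : Set A))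
    (ρ : A →+* R) (hρ : ∀ r : R, ρ (algebraMap R A r) = r) :
    RingHom.ker ρ =
      Ideal.span ({z - algebraMap R A (ρ z), z' - algebraMap R A (ρ z')} : Set A) := by
  set I : Ideal A :=
    Ideal.span ({z - algebraMap R A (ρ z), z' - algebraMap R A (ρ z')} : Set A) with hI
  have hIle : I ≤ RingHom.ker ρ := by
    rw [hI, Ideal.span_le]
    intro x hx
    rcases hx with rfl | rfl
    · show _ ∈ RingHom.ker ρ
      rw [RingHom.mem_ker, map_sub, hρ, sub_self]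
    · show _ ∈ RingHom.ker ρ
      rw [RingHom.mem_ker, map_sub, hρ, sub_self]
  have hzm : z ∈ maximalIdeal A := by rw [hmax]; exact Ideal.subset_span (by simp)
  have hzm' : z' ∈ maximalIdeal A := by rw [hmax]; exact Ideal.subset_span (by simp)
  have ha : ρ z ∈ Ideal.span {π} := hπR ▸ dn3_rho_mem ρ hρ z hzm
  have hb : ρ z' ∈ Ideal.span {π} := hπR ▸ dn3_rho_mem ρ hρ z' hzm'
  obtain ⟨a₁, ha₁⟩ := Ideal.mem_span_singleton.mp ha
  obtain ⟨b₁, hb₁⟩ := Ideal.mem_span_singleton.mp hb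
  have hπm : algebraMap R A π ∈ maximalIdeal A := by
    rw [hmax]; exact Ideal.subset_span (by simp)
  refine le_antisymm ?_ hIle
  refine Submodule.le_of_le_smul_of_le_jacobson_bot (I := maximalIdeal A)
    (IsNoetherian.noetherian _) (by rw [IsLocalRing.jacobson_eq_maximalIdeal ⊥ bot_ne_top]) ?_
  intro x hx
  have hxm : x ∈ maximalIdeal A := le_maximalIdeal (RingHom.ker_ne_top ρ) hx
  rw [hmax, dn3_mem_span_triple] at hxm
  obtain ⟨x₁, x₂, x₃, hx123⟩ := hxm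
  set y : A := x₁ + algebraMap R A a₁ * x₂ + algebraMap R A b₁ * x₃ with hy
  have hxy : x = algebraMap R A π * y + (x₂ * (z - algebraMap R A (ρ z))
      + x₃ * (z' - algebraMap R A (ρ z'))) := by
    rw [hx123, hy, ha₁, hb₁, map_mul, map_mul]
    ring
  have hI2 : x₂ * (z - algebraMap R A (ρ z)) + x₃ * (z' - algebraMap R A (ρ z')) ∈ I :=
    Ideal.add_mem _ (Ideal.mul_mem_left _ _ (Ideal.subset_span (by simp)))
      (Ideal.mul_mem_left _ _ (Ideal.subset_span (by simp)))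
  have hyker : y ∈ RingHom.ker ρ := by
    have h1 : ρ x = 0 := hx
    have h2 : ρ (x₂ * (z - algebraMap R A (ρ z)) + x₃ * (z' - algebraMap R A (ρ z'))) = 0 :=
      hIle hI2
    rw [hxy, map_add, h2, add_zero, map_mul, hρ] at h1
    rcases mul_eq_zero.mp h1 with h | h
    · exact absurd h hπ0
    · exact h
  rw [hxy]
  refine Submodule.add_mem _ (Submodule.mem_sup_right ?_) (Submodule.mem_sup_left hI2)
  exact Submodule.smul_mem_smul hπm hyker

/-- **Local equation of a point** (general form): if `z z' = Q c` with `Q ∈ R`, `Q = ρ z * r`,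
`r ∈ 𝔪_R`, then `ρ z * ker ρ ⊆ (z - ρ z) A`. -/
theorem dn3_local_eq (π : R) (hπ0 : π ≠ 0) (hπR : maximalIdeal R = Ideal.span {π}) (z z' : A)
    (hmax : maximalIdeal A = Ideal.span ({algebraMap R A π, z, z'} : Set A))
    (ρ : A →+* R) (hρ : ∀ r : R, ρ (algebraMap R A r) = r)
    (Q r : R) (c : A) (hzz : z * z' = algebraMap R A Q * c) (hQ : Q = ρ z * r)
    (hr : r ∈ maximalIdeal R) :
    ∀ x ∈ RingHom.ker ρ, ∃ y : A,
      algebraMap R A (ρ z) * x = (z - algebraMap R A (ρ z)) * y := by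
  have hker := dn3_ker π hπ0 hπR z z' hmax ρ hρ
  set a : A := algebraMap R A (ρ z) with ha
  set b : A := algebraMap R A (ρ z') with hb
  have hc : c - algebraMap R A (ρ c) ∈ RingHom.ker ρ := by
    rw [RingHom.mem_ker, map_sub, hρ, sub_self]
  rw [hker, Ideal.mem_span_pair] at hc
  obtain ⟨X, Y, hXY⟩ := hc
  -- `a b = Q ρ(c)` in `A`
  have hab : a * b = algebraMap R A Q * algebraMap R A (ρ c) := by
    have h1 : ρ z * ρ z' = Q * ρ c := by
      have := congrArg ρ hzz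
      rwa [map_mul, map_mul, hρ] at this
    rw [ha, hb, ← map_mul, h1, map_mul]
  have hQa : algebraMap R A Q = a * algebraMap R A r := by rw [hQ, map_mul]
  -- the unit `1 - r Y`
  have hrm : algebraMap R A r * Y ∈ maximalIdeal A :=
    Ideal.mul_mem_right _ _ (dn3_algebraMap_mem ρ hρ r hr)
  have hunit : IsUnit (1 - algebraMap R A r * Y) := by
    by_contra h
    have h1 : 1 - algebraMap R A r * Y ∈ maximalIdeal A := (mem_maximalIdeal _).mpr h
    have h2 : (1 : A) ∈ maximalIdeal A := by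
      have : (1 : A) = (1 - algebraMap R A r * Y) + algebraMap R A r * Y := by ring
      rw [this]
      exact Ideal.add_mem _ h1 hrm
    exact (Ideal.ne_top_iff_one _).mp (maximalIdeal.isMaximal A).ne_top h2
  obtain ⟨v, hv⟩ := hunit.exists_right_inv
  -- `a (1 - r Y) (z' - b) = (z - a) (a r X - z')`
  have key : a * (1 - algebraMap R A r * Y) * (z' - b)
      = (z - a) * (a * algebraMap R A r * X - z') := by
    linear_combination hzz - hab + (-a * algebraMap R A r) * hXY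
      + (c - algebraMap R A (ρ c)) * hQa
  have key2 : a * (z' - b) = (z - a) * ((a * algebraMap R A r * X - z') * v) := by
    calc a * (z' - b) = a * (z' - b) * ((1 - algebraMap R A r * Y) * v) := by rw [hv, mul_one]
      _ = a * (1 - algebraMap R A r * Y) * (z' - b) * v := by ring
      _ = (z - a) * ((a * algebraMap R A r * X - z') * v) := by rw [key]; ring
  intro x hx
  rw [hker, Ideal.mem_span_pair] at hx
  obtain ⟨X', Y', rfl⟩ := hx
  refine ⟨a * X' + Y' * ((a * algebraMap R A r * X - z') * v), ?_⟩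
  linear_combination Y' * key2

end Point

section Symbolic

variable {A : Type*} [CommRing A]

/-- the `(j+1)`-st symbolic power of a vertical prime `𝔭 ∋ p`: `p ^ (j+1) A_𝔭 ∩ A`. -/
def dn3_P (𝔭 : Ideal A) (p : A) (j : ℕ) : Set A :=
  {x | ∃ y : A, y ∉ 𝔭 ∧ p ^ (j + 1) ∣ y * x}

theorem dn3_P_anti (𝔭 : Ideal A) (p : A) {i j : ℕ} (hij : i ≤ j) :
    dn3_P 𝔭 p j ⊆ dn3_P 𝔭 p i := by
  rintro x ⟨y, hy, hd⟩
  exact ⟨y, hy, (pow_dvd_pow p (by omega)).trans hd⟩

variable [IsLocalRing A] [IsNoetherianRing A]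

/-- a vertical prime at a node is generated by `p` and its coordinate. -/
theorem dn3_prime_eq (𝔭 : Ideal A) [𝔭.IsPrime] (p z z' : A) (hp : p ∈ 𝔭) (hz : z ∈ 𝔭)
    (hz' : z' ∉ 𝔭) (hmax : maximalIdeal A = Ideal.span ({p, z, z'} : Set A)) :
    𝔭 = Ideal.span ({p, z} : Set A) := by
  have hle : Ideal.span ({p, z} : Set A) ≤ 𝔭 := by
    rw [Ideal.span_le]
    intro x hx
    rcases hx with rfl | rfl
    · exact hp
    · exact hz
  refine le_antisymm ?_ hle
  refine Submodule.le_of_le_smul_of_le_jacobson_bot (I := maximalIdeal A)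
    (IsNoetherian.noetherian _) (by rw [IsLocalRing.jacobson_eq_maximalIdeal ⊥ bot_ne_top]) ?_
  intro x hx
  have hxm : x ∈ maximalIdeal A :=
    le_maximalIdeal (Ideal.IsPrime.ne_top inferInstance) hx
  rw [hmax, dn3_mem_span_triple] at hxm
  obtain ⟨x₁, x₂, x₃, hx123⟩ := hxm
  have h3 : x₃ * z' ∈ 𝔭 := by
    have : x₃ * z' = x - (x₁ * p + x₂ * z) := by rw [hx123]; ring
    rw [this]
    exact Ideal.sub_mem _ hx (Ideal.add_mem _ (Ideal.mul_mem_left _ _ hp)
      (Ideal.mul_mem_left _ _ hz))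
  have hx₃ : x₃ ∈ 𝔭 := ((Ideal.IsPrime.mem_or_mem inferInstance h3).resolve_right hz')
  have hz'm : z' ∈ maximalIdeal A := by rw [hmax]; exact Ideal.subset_span (by simp)
  rw [hx123]
  refine Submodule.add_mem _ (Submodule.mem_sup_left ?_) (Submodule.mem_sup_right ?_)
  · exact Ideal.add_mem _ (Ideal.mul_mem_left _ _ (Ideal.subset_span (by simp)))
      (Ideal.mul_mem_left _ _ (Ideal.subset_span (by simp)))
  · have : x₃ * z' = z' • x₃ := by rw [smul_eq_mul, mul_comm]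
    rw [this]
    exact Submodule.smul_mem_smul hz'm hx₃

omit [IsLocalRing A] [IsNoetherianRing A] in
/-- the symbolic power is `z A + p ^ (j+1) A` for a coordinate `z` in it. -/
theorem dn3_P_eq [IsDomain A] (𝔭 : Ideal A) [𝔭.IsPrime] (p z : A) (hp0 : p ≠ 0)
    (h𝔭 : 𝔭 = Ideal.span ({p, z} : Set A)) (j : ℕ) (hzj : z ∈ dn3_P 𝔭 p j) :
    ∀ i : ℕ, i ≤ j → ∀ x ∈ dn3_P 𝔭 p i, ∃ u v : A, x = u * z + v * p ^ (i + 1) := by
  obtain ⟨yj, hyj, wj, hwj⟩ := hzj
  have hp𝔭 : p ∈ 𝔭 := by rw [h𝔭]; exact Ideal.subset_span (by simp)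
  intro i
  induction i with
  | zero =>
    rintro - x ⟨y, hy, w, hw⟩
    have hyx : y * x ∈ 𝔭 := by
      rw [hw]
      exact Ideal.mul_mem_right _ _ (by simpa using hp𝔭)
    have hx : x ∈ 𝔭 := (Ideal.IsPrime.mem_or_mem inferInstance hyx).resolve_left hy
    rw [h𝔭, Ideal.mem_span_pair] at hx
    obtain ⟨v, u, rfl⟩ := hx
    exact ⟨u, v, by ring⟩
  | succ i ih =>
    intro hij x hx
    obtain ⟨u, v, huv⟩ := ih (by omega) x (dn3_P_anti 𝔭 p (Nat.le_succ i) hx)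
    obtain ⟨y, hy, w, hw⟩ := hx
    obtain ⟨d, hd⟩ : ∃ d, j = i + 1 + d := ⟨j - (i + 1), by omega⟩
    -- `yj * y * v = p * (...)`
    have h1 : p ^ (i + 1) * (yj * y * v) = p ^ (i + 1) * (p * (yj * w - y * u * p ^ d * wj)) := by
      have e1 : yj * (y * x) = yj * (p ^ (i + 1 + 1) * w) := by rw [hw]
      have e2 : y * u * (yj * z) = y * u * (p ^ (j + 1) * wj) := by rw [hwj]
      rw [huv] at e1
      rw [hd] at e2
      linear_combination e1 - e2
    have h2 : yj * y * v = p * (yj * w - y * u * p ^ d * wj) :=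
      mul_left_cancel₀ (pow_ne_zero _ hp0) h1
    have hv : v ∈ 𝔭 := by
      have h3 : yj * y * v ∈ 𝔭 := by rw [h2]; exact Ideal.mul_mem_right _ _ hp𝔭
      rcases Ideal.IsPrime.mem_or_mem inferInstance h3 with h | h
      · rcases Ideal.IsPrime.mem_or_mem inferInstance h with h | h
        · exact absurd h hyj
        · exact absurd h hy
      · exact h
    rw [h𝔭, Ideal.mem_span_pair] at hv
    obtain ⟨v₁, u₁, rfl⟩ := hv
    exact ⟨u + u₁ * p ^ (i + 1), v₁, by rw [huv]; ring⟩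

end Symbolic

section Deep

variable {R A : Type*} [CommRing R] [CommRing A] [Algebra R A]

/-- **Deep points** of a node: the `R`-points `ρ` whose values on the symbolic powers of both
vertical primes are as small as possible.  (Intrinsic: no coordinates.) -/
def dn3_Deep (𝔭 𝔭' : Ideal A) (π : R) (ρ : A →+* R) : Prop :=
  ∀ j : ℕ, (∀ x ∈ dn3_P 𝔭 (algebraMap R A π) j, π ^ (j + 1) ∣ ρ x) ∧
    (∀ x ∈ dn3_P 𝔭' (algebraMap R A π) j, π ^ (j + 1) ∣ ρ x)

theorem dn3_deep_symm {𝔭 𝔭' : Ideal A} {π : R} {ρ : A →+* R} (h : dn3_Deep 𝔭 𝔭' π ρ) :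
    dn3_Deep 𝔭' 𝔭 π ρ := fun j => ⟨(h j).2, (h j).1⟩

variable [IsDomain R] [IsDiscreteValuationRing R]

omit [Algebra R A] [CommRing A] in
/-- in a discrete valuation ring: `π ^ (n+1) ∣ a` or `a ∣ π ^ n`. -/
theorem dn3_dvd_or (π : R) (hπ : Irreducible π) (a : R) (n : ℕ) :
    π ^ (n + 1) ∣ a ∨ a ∣ π ^ n := by
  by_cases ha : a = 0
  · left; rw [ha]; exact dvd_zero _
  obtain ⟨k, u, rfl⟩ := IsDiscreteValuationRing.eq_unit_mul_pow_irreducible ha hπ
  by_cases hk : n + 1 ≤ k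
  · left
    exact Dvd.dvd.mul_left (pow_dvd_pow π hk) _
  · right
    obtain ⟨d, rfl⟩ : ∃ d, n = k + d := ⟨n - k, by omega⟩
    refine ⟨(↑u⁻¹ : R) * π ^ d, ?_⟩
    have : (↑u : R) * π ^ k * (↑u⁻¹ * π ^ d) = (↑u * ↑u⁻¹) * (π ^ k * π ^ d) := by ring
    rw [this, Units.mul_inv, one_mul, pow_add]

omit [Algebra R A] [CommRing A] in
/-- in a discrete valuation ring an element divisible by all powers of `π` vanishes. -/
theorem dn3_eq_zero_of_forall_dvd (π : R) (hπ : Irreducible π) (a : R)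
    (h : ∀ n : ℕ, π ^ (n + 1) ∣ a) : a = 0 := by
  by_contra ha
  obtain ⟨k, u, rfl⟩ := IsDiscreteValuationRing.eq_unit_mul_pow_irreducible ha hπ
  obtain ⟨w, hw⟩ := h k
  have h1 : π ^ k * (↑u : R) = π ^ k * (π * w) := by rw [mul_comm, hw]; ring
  have h2 : (↑u : R) = π * w := mul_left_cancel₀ (pow_ne_zero _ hπ.ne_zero) h1
  exact hπ.not_isUnit (isUnit_of_mul_isUnit_left (h2 ▸ u.isUnit))

omit [IsDiscreteValuationRing R] in
/-- with exact coordinates there is NO deep point. -/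
theorem dn3_not_deep_exact (π : R) (hπ : Irreducible π) (𝔭 𝔭' : Ideal A)
    (z z' ε : A) (hzn : z ∉ 𝔭') (hzn' : z' ∉ 𝔭) (κ : ℕ) (hκ : 1 ≤ κ) (hε : IsUnit ε)
    (hzz : z * z' = algebraMap R A π ^ κ * ε)
    (ρ : A →+* R) (hρ : ∀ r : R, ρ (algebraMap R A r) = r) : ¬ dn3_Deep 𝔭 𝔭' π ρ := by
  intro hd
  obtain ⟨i, rfl⟩ : ∃ i, κ = i + 1 := ⟨κ - 1, by omega⟩
  have h1 : z ∈ dn3_P 𝔭 (algebraMap R A π) i :=
    ⟨z', hzn', ε, by rw [mul_comm, hzz]⟩
  have h2 : z' ∈ dn3_P 𝔭' (algebraMap R A π) i := ⟨z, hzn, ε, hzz⟩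
  obtain ⟨w, hw⟩ := (hd i).1 z h1
  obtain ⟨w', hw'⟩ := (hd i).2 z' h2
  have h3 : ρ z * ρ z' = π ^ (i + 1) * ρ ε := by
    have := congrArg ρ hzz
    rwa [map_mul, map_mul, map_pow, hρ] at this
  rw [hw, hw'] at h3
  have h4 : π ^ (i + 1) * (w * (π ^ (i + 1) * w')) = π ^ (i + 1) * ρ ε := by
    rw [← h3]; ring
  have h5 : w * (π ^ (i + 1) * w') = ρ ε := mul_left_cancel₀ (pow_ne_zero _ hπ.ne_zero) h4
  have h6 : IsUnit (ρ ε) := hε.map ρ
  rw [← h5, pow_succ] at h6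
  have h7 : IsUnit π := by
    have : w * (π ^ i * π * w') = π * (w * π ^ i * w') := by ring
    rw [this] at h6
    exact isUnit_of_mul_isUnit_left h6
  exact hπ.not_isUnit h7

variable [IsDomain A] [IsLocalRing A] [IsNoetherianRing A]

/-- **Every non-deep point of a node has a local equation**: `P ∈ ker ρ` with
`a * ker ρ ⊆ P A` for some `0 ≠ a ∈ R`.  No thickness bound is used. -/
theorem dn3_main (π : R) (hπ : Irreducible π) (𝔭 𝔭' : Ideal A) [𝔭.IsPrime] [𝔭'.IsPrime]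
    (hπ𝔭 : algebraMap R A π ∈ 𝔭) (hπ𝔭' : algebraMap R A π ∈ 𝔭')
    (z z' : A) (hz : z ∈ 𝔭) (hz' : z' ∈ 𝔭') (hzn : z ∉ 𝔭') (hzn' : z' ∉ 𝔭)
    (hmax : maximalIdeal A = Ideal.span ({algebraMap R A π, z, z'} : Set A))
    (hzz : algebraMap R A π ∣ z * z')
    (ρ : A →+* R) (hρ : ∀ r : R, ρ (algebraMap R A r) = r) (hnd : ¬ dn3_Deep 𝔭 𝔭' π ρ) :
    ∃ P ∈ RingHom.ker ρ, ∃ a : R, a ≠ 0 ∧
      ∀ x ∈ RingHom.ker ρ, ∃ y : A, algebraMap R A a * x = P * y := by
  classical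
  have hπR : maximalIdeal R = Ideal.span {π} := hπ.maximalIdeal_eq
  have hπ0 : π ≠ 0 := hπ.ne_zero
  set p : A := algebraMap R A π with hp
  have hp0 : p ≠ 0 := by
    intro h
    have := congrArg ρ h
    rw [hp, hρ, map_zero] at this
    exact hπ0 this
  -- the general mechanism: approximate coordinates + small value
  have mech : ∀ (𝔮 𝔮' : Ideal A) [𝔮.IsPrime] [𝔮'.IsPrime], p ∈ 𝔮 → p ∈ 𝔮' →
      ∀ y y' : A, y ∈ 𝔮 → y' ∈ 𝔮' → y ∉ 𝔮' → y' ∉ 𝔮 →
      maximalIdeal A = Ideal.span ({p, y, y'} : Set A) → p ∣ y * y' →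
      ∀ j : ℕ, (∃ x ∈ dn3_P 𝔮 p j, ¬ π ^ (j + 1) ∣ ρ x) →
      ∃ P ∈ RingHom.ker ρ, ∃ a : R, a ≠ 0 ∧
        ∀ x ∈ RingHom.ker ρ, ∃ t : A, algebraMap R A a * x = P * t := by
    intro 𝔮 𝔮' _ _ hp𝔮 hp𝔮' y y' hy hy' hyn hyn' hmaxy hyy j ⟨x, hxP, hxρ⟩
    rcases dn3_loop p y y' hmaxy hyy j with
      ⟨κ, hκ1, -, y₁, y₁', ε, hε, hyy₁, hd, hd'⟩ | ⟨y₁, y₁', c, hyy₁, hd, hd'⟩
    · -- exact coordinates
      have hmax₁ : maximalIdeal A = Ideal.span ({p, y₁, y₁'} : Set A) := by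
        rw [hmaxy, dn3_span_congr p y y' y₁ y₁' hd hd']
      have hεR : IsUnit (ρ ε) := hε.map ρ
      obtain ⟨e, he⟩ := hεR.exists_right_inv
      have h1 : ρ y₁ * ρ y₁' = π ^ κ * ρ ε := by
        have := congrArg ρ hyy₁
        rwa [map_mul, map_mul, map_pow, hρ] at this
      have hy₁'m : y₁' ∈ maximalIdeal A := by rw [hmax₁]; exact Ideal.subset_span (by simp)
      have hQ : π ^ κ = ρ y₁ * (ρ y₁' * e) := by
        calc π ^ κ = π ^ κ * (ρ ε * e) := by rw [he, mul_one]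
          _ = (π ^ κ * ρ ε) * e := by ring
          _ = ρ y₁ * (ρ y₁' * e) := by rw [← h1]; ring
      have hr : ρ y₁' * e ∈ maximalIdeal R :=
        Ideal.mul_mem_right _ _ (dn3_rho_mem ρ hρ y₁' hy₁'m)
      have ha0 : ρ y₁ ≠ 0 := by
        intro h0
        rw [h0, zero_mul] at hQ
        exact pow_ne_zero _ hπ0 hQ
      refine ⟨y₁ - algebraMap R A (ρ y₁), ?_, ρ y₁, ha0, ?_⟩
      · rw [RingHom.mem_ker, map_sub, hρ, sub_self]
      · exact dn3_local_eq π hπ0 hπR y₁ y₁' hmax₁ ρ hρ (π ^ κ) (ρ y₁' * e) ε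
          (by rw [map_pow]; exact hyy₁) hQ hr
    · -- approximate coordinates of order `j + 1`
      have hmax₁ : maximalIdeal A = Ideal.span ({p, y₁, y₁'} : Set A) := by
        rw [hmaxy, dn3_span_congr p y y' y₁ y₁' hd hd']
      have hy₁ : y₁ ∈ 𝔮 := by
        obtain ⟨d, hd⟩ := hd
        have : y₁ = y + p * d := by linear_combination hd
        rw [this]
        exact Ideal.add_mem _ hy (Ideal.mul_mem_right _ _ hp𝔮)
      have hy₁n' : y₁' ∉ 𝔮 := by
        intro h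
        obtain ⟨d, hd⟩ := hd'
        have : y' = y₁' - p * d := by linear_combination -hd
        apply hyn'
        rw [this]
        exact Ideal.sub_mem _ h (Ideal.mul_mem_right _ _ hp𝔮)
      have h𝔮 : 𝔮 = Ideal.span ({p, y₁} : Set A) := dn3_prime_eq 𝔮 p y₁ y₁' hp𝔮 hy₁ hy₁n' hmax₁
      have hy₁P : y₁ ∈ dn3_P 𝔮 p j := ⟨y₁', hy₁n', c, by rw [mul_comm, hyy₁]⟩
      obtain ⟨u, v, huv⟩ := dn3_P_eq 𝔮 p y₁ hp0 h𝔮 j hy₁P j le_rfl x hxP
      have hnot : ¬ π ^ (j + 1) ∣ ρ y₁ := by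
        intro hdiv
        apply hxρ
        rw [huv, map_add, map_mul, map_mul, map_pow, hp, hρ]
        exact dvd_add (Dvd.dvd.mul_left hdiv _) (Dvd.intro_left _ rfl)
      obtain ⟨w, hw⟩ := (dn3_dvd_or π hπ (ρ y₁) j).resolve_left hnot
      have ha0 : ρ y₁ ≠ 0 := by
        intro h0
        rw [h0, zero_mul] at hw
        exact pow_ne_zero _ hπ0 hw
      have hQ : π ^ (j + 1) = ρ y₁ * (w * π) := by rw [pow_succ, hw]; ring
      have hr : w * π ∈ maximalIdeal R := by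
        rw [hπR]
        exact Ideal.mul_mem_left _ _ (Ideal.subset_span rfl)
      refine ⟨y₁ - algebraMap R A (ρ y₁), ?_, ρ y₁, ha0, ?_⟩
      · rw [RingHom.mem_ker, map_sub, hρ, sub_self]
      · exact dn3_local_eq π hπ0 hπR y₁ y₁' hmax₁ ρ hρ (π ^ (j + 1)) (w * π) c
          (by rw [map_pow]; exact hyy₁) hQ hr
  -- unfold `¬ Deep`
  unfold dn3_Deep at hnd
  push Not at hnd
  obtain ⟨j, hj⟩ := hnd
  by_cases h1 : ∀ x ∈ dn3_P 𝔭 (algebraMap R A π) j, π ^ (j + 1) ∣ ρ x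
  · obtain ⟨x, hxP, hx⟩ := hj h1
    have hmax' : maximalIdeal A = Ideal.span ({p, z', z} : Set A) := by
      rw [hmax]
      congr 1
      ext t
      simp only [Set.mem_insert_iff, Set.mem_singleton_iff]
      tauto
    exact mech 𝔭' 𝔭 hπ𝔭' hπ𝔭 z' z hz' hz hzn' hzn hmax' (by rw [mul_comm]; exact hzz) j
      ⟨x, hxP, hx⟩
  · push Not at h1
    obtain ⟨x, hxP, hx⟩ := h1
    exact mech 𝔭 𝔭' hπ𝔭 hπ𝔭' z z' hz hz' hzn hzn' hmax hzz j ⟨x, hxP, hx⟩

omit [IsDomain A] [IsNoetherianRing A] in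
/-- **At most one deep point per node.** -/
theorem dn3_deep_unique (π : R) (hπ : Irreducible π) (𝔭 𝔭' : Ideal A) [𝔭.IsPrime] [𝔭'.IsPrime]
    (hπ𝔭 : algebraMap R A π ∈ 𝔭) (hπ𝔭' : algebraMap R A π ∈ 𝔭')
    (z z' : A) (hz : z ∈ 𝔭) (hz' : z' ∈ 𝔭') (hzn : z ∉ 𝔭') (hzn' : z' ∉ 𝔭)
    (hmax : maximalIdeal A = Ideal.span ({algebraMap R A π, z, z'} : Set A))
    (hzz : algebraMap R A π ∣ z * z')
    (ρ ρ' : A →+* R) (hρ : ∀ r : R, ρ (algebraMap R A r) = r)
    (hρ' : ∀ r : R, ρ' (algebraMap R A r) = r)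
    (hd : dn3_Deep 𝔭 𝔭' π ρ) (hd' : dn3_Deep 𝔭 𝔭' π ρ') : ρ = ρ' := by
  classical
  have _ := hz
  have _ := hz'
  set p : A := algebraMap R A π with hp
  ext x
  rw [← sub_eq_zero]
  apply dn3_eq_zero_of_forall_dvd π hπ
  intro j
  rcases dn3_loop p z z' hmax hzz j with
    ⟨κ, hκ1, -, z₁, z₁', ε, hε, hzz₁, hdv, hdv'⟩ | ⟨z₁, z₁', c, hzz₁, hdv, hdv'⟩
  · -- exact coordinates: no deep point at all
    exfalso
    have hz₁n : z₁ ∉ 𝔭' := by
      intro h
      obtain ⟨d, hd⟩ := hdv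
      have : z = z₁ - p * d := by linear_combination -hd
      apply hzn
      rw [this]
      exact Ideal.sub_mem _ h (Ideal.mul_mem_right _ _ hπ𝔭')
    have hz₁n' : z₁' ∉ 𝔭 := by
      intro h
      obtain ⟨d, hd⟩ := hdv'
      have : z' = z₁' - p * d := by linear_combination -hd
      apply hzn'
      rw [this]
      exact Ideal.sub_mem _ h (Ideal.mul_mem_right _ _ hπ𝔭)
    exact dn3_not_deep_exact π hπ 𝔭 𝔭' z₁ z₁' ε hz₁n hz₁n' κ hκ1 hε hzz₁ ρ hρ hd
  · have hmax₁ : maximalIdeal A = Ideal.span ({p, z₁, z₁'} : Set A) := by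
      rw [hmax, dn3_span_congr p z z' z₁ z₁' hdv hdv']
    have hz₁n : z₁ ∉ 𝔭' := by
      intro h
      obtain ⟨d, hd⟩ := hdv
      have : z = z₁ - p * d := by linear_combination -hd
      apply hzn
      rw [this]
      exact Ideal.sub_mem _ h (Ideal.mul_mem_right _ _ hπ𝔭')
    have hz₁n' : z₁' ∉ 𝔭 := by
      intro h
      obtain ⟨d, hd⟩ := hdv'
      have : z' = z₁' - p * d := by linear_combination -hd
      apply hzn'
      rw [this]
      exact Ideal.sub_mem _ h (Ideal.mul_mem_right _ _ hπ𝔭)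
    have hP : z₁ ∈ dn3_P 𝔭 p j := ⟨z₁', hz₁n', c, by rw [mul_comm, hzz₁]⟩
    have hP' : z₁' ∈ dn3_P 𝔭' p j := ⟨z₁, hz₁n, c, hzz₁⟩
    have e1 := (hd j).1 z₁ hP
    have e2 := (hd' j).1 z₁ hP
    have e3 := (hd j).2 z₁' hP'
    have e4 := (hd' j).2 z₁' hP'
    -- induction: `π ^ i ∣ ρ x - ρ' x` for all `x`, `i ≤ j + 1`
    have key : ∀ i : ℕ, i ≤ j + 1 → ∀ x : A, π ^ i ∣ ρ x - ρ' x := by
      intro i
      induction i with
      | zero => intro _ x; simp
      | succ i ih =>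
        intro hi x
        have hxk : x - algebraMap R A (ρ x) ∈ maximalIdeal A := by
          apply le_maximalIdeal (RingHom.ker_ne_top ρ)
          rw [RingHom.mem_ker, map_sub, hρ, sub_self]
        rw [hmax₁, dn3_mem_span_triple] at hxk
        obtain ⟨x₁, x₂, x₃, hx123⟩ := hxk
        have hx : x = algebraMap R A (ρ x) + (x₁ * p + x₂ * z₁ + x₃ * z₁') := by
          rw [← hx123]; ring
        have h1 : ρ x = ρ x + (ρ x₁ * π + ρ x₂ * ρ z₁ + ρ x₃ * ρ z₁') := by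
          conv_lhs => rw [hx]
          simp only [map_add, map_mul, hρ, hp]
        have h2 : ρ' x = ρ x + (ρ' x₁ * π + ρ' x₂ * ρ' z₁ + ρ' x₃ * ρ' z₁') := by
          conv_lhs => rw [hx]
          simp only [map_add, map_mul, hρ', hp]
        have h3 : ρ x - ρ' x = π * (ρ x₁ - ρ' x₁) + (ρ x₂ * ρ z₁ - ρ' x₂ * ρ' z₁)
            + (ρ x₃ * ρ z₁' - ρ' x₃ * ρ' z₁') := by
          have h1' : ρ x₁ * π + ρ x₂ * ρ z₁ + ρ x₃ * ρ z₁' = 0 := by
            linear_combination -h1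
          rw [h2]
          linear_combination -h1'
        have hle : π ^ (i + 1) ∣ π ^ (j + 1) := pow_dvd_pow π hi
        rw [h3]
        refine dvd_add (dvd_add ?_ ?_) ?_
        · rw [pow_succ, mul_comm (π ^ i) π]
          exact mul_dvd_mul_left π (ih (by omega) x₁)
        · exact dvd_sub (Dvd.dvd.mul_left (hle.trans e1) _) (Dvd.dvd.mul_left (hle.trans e2) _)
        · exact dvd_sub (Dvd.dvd.mul_left (hle.trans e3) _) (Dvd.dvd.mul_left (hle.trans e4) _)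
    exact key (j + 1) le_rfl x

omit [IsDomain A] [IsLocalRing A] [IsNoetherianRing A] in
/-- **Deep points are stable under semilinear automorphisms** preserving the two vertical
primes: if `ρ` is deep, so is `σR ∘ ρ ∘ σA⁻¹`. -/
theorem dn3_deep_invariant (π : R) (hπ : Irreducible π) (𝔭 𝔭' : Ideal A)
    (σA : A ≃+* A) (σR : R ≃+* R)
    (hσ : ∀ r : R, σA (algebraMap R A r) = algebraMap R A (σR r))
    (h𝔭 : ∀ x ∈ 𝔭, σA x ∈ 𝔭) (h𝔭' : ∀ x ∈ 𝔭', σA x ∈ 𝔭')
    (ρ : A →+* R) (hd : dn3_Deep 𝔭 𝔭' π ρ) :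
    dn3_Deep 𝔭 𝔭' π ((σR : R →+* R).comp (ρ.comp (σA.symm : A →+* A))) := by
  have hπR : maximalIdeal R = Ideal.span {π} := hπ.maximalIdeal_eq
  -- `π ∣ σR π` and `π ∣ σR⁻¹ π`
  have hdvd : ∀ τ : R ≃+* R, π ∣ τ π := by
    intro τ
    have h1 : τ π ∈ maximalIdeal R := by
      rw [mem_maximalIdeal]
      intro hu
      have := hu.map (τ.symm : R →+* R)
      simp only [RingEquiv.coe_toRingHom, RingEquiv.symm_apply_apply] at this
      exact hπ.not_isUnit this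
    rw [hπR] at h1
    exact Ideal.mem_span_singleton.mp h1
  have hσsymm : ∀ r : R, σA.symm (algebraMap R A r) = algebraMap R A (σR.symm r) := by
    intro r
    apply σA.injective
    rw [RingEquiv.apply_symm_apply, hσ, RingEquiv.apply_symm_apply]
  -- the symbolic powers are stable under `σA⁻¹`
  have hP : ∀ (𝔮 : Ideal A), (∀ x ∈ 𝔮, σA x ∈ 𝔮) → ∀ j : ℕ,
      ∀ x ∈ dn3_P 𝔮 (algebraMap R A π) j, σA.symm x ∈ dn3_P 𝔮 (algebraMap R A π) j := by
    rintro 𝔮 h𝔮 j x ⟨y, hy, w, hw⟩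
    refine ⟨σA.symm y, ?_, ?_⟩
    · intro h
      apply hy
      have := h𝔮 _ h
      rwa [RingEquiv.apply_symm_apply] at this
    · obtain ⟨e, he⟩ := hdvd σR.symm
      refine ⟨algebraMap R A (e ^ (j + 1)) * σA.symm w, ?_⟩
      rw [← map_mul, hw, map_mul, map_pow, hσsymm, he, map_mul, map_pow]
      ring
  have hval : ∀ r : R, ∀ j : ℕ, π ^ (j + 1) ∣ r → π ^ (j + 1) ∣ σR r := by
    rintro r j ⟨w, rfl⟩
    obtain ⟨e, he⟩ := hdvd σR
    rw [map_mul, map_pow, he, mul_pow]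
    exact ⟨e ^ (j + 1) * σR w, by ring⟩
  intro j
  refine ⟨fun x hx => ?_, fun x hx => ?_⟩
  · exact hval _ j ((hd j).1 _ (hP 𝔭 h𝔭 j x hx))
  · exact hval _ j ((hd j).2 _ (hP 𝔭' h𝔭' j x hx))

omit [IsDomain R] [IsDiscreteValuationRing R] [IsDomain A] [IsLocalRing A] [IsNoetherianRing A] in
/-- a prime of `A` not containing `a` (e.g. a horizontal prime) which contains a local equation
`P` of `ρ` contains `ker ρ`. -/
theorem dn3_ker_le_of_mem (ρ : A →+* R) (P : A) (a : R)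
    (hP : ∀ x ∈ RingHom.ker ρ, ∃ y : A, algebraMap R A a * x = P * y)
    (𝔮 : Ideal A) [𝔮.IsPrime] (ha : algebraMap R A a ∉ 𝔮) (hP𝔮 : P ∈ 𝔮) :
    RingHom.ker ρ ≤ 𝔮 := by
  intro x hx
  obtain ⟨y, hy⟩ := hP x hx
  have h1 : algebraMap R A a * x ∈ 𝔮 := by rw [hy]; exact Ideal.mul_mem_right _ _ hP𝔮
  exact (Ideal.IsPrime.mem_or_mem inferInstance h1).resolve_left ha

omit [IsDomain A] [IsLocalRing A] [IsNoetherianRing A] in
/-- the only prime of `A` not containing `π` which contains a local equation `P` of `ρ`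
is `ker ρ`. -/
theorem dn3_eq_ker_of_mem (π : R) (hπ : Irreducible π) (ρ : A →+* R)
    (hρ : ∀ r : R, ρ (algebraMap R A r) = r) (P : A) (a : R) (ha : a ≠ 0)
    (hP : ∀ x ∈ RingHom.ker ρ, ∃ y : A, algebraMap R A a * x = P * y)
    (𝔮 : Ideal A) [𝔮.IsPrime] (hπ𝔮 : algebraMap R A π ∉ 𝔮) (hP𝔮 : P ∈ 𝔮) :
    𝔮 = RingHom.ker ρ := by
  have hconst : ∀ r : R, r ≠ 0 → algebraMap R A r ∉ 𝔮 := by
    intro r hr h
    obtain ⟨k, u, rfl⟩ := IsDiscreteValuationRing.eq_unit_mul_pow_irreducible hr hπ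
    rw [map_mul, map_pow] at h
    rcases Ideal.IsPrime.mem_or_mem inferInstance h with h | h
    · exact (Ideal.IsPrime.ne_top inferInstance)
        (𝔮.eq_top_of_isUnit_mem h (u.isUnit.map (algebraMap R A)))
    · exact hπ𝔮 (Ideal.IsPrime.mem_of_pow_mem inferInstance k h)
  have hle : RingHom.ker ρ ≤ 𝔮 := dn3_ker_le_of_mem ρ P a hP 𝔮 (hconst a ha) hP𝔮
  refine le_antisymm (fun x hx => ?_) hle
  by_contra hne
  have h0 : ρ x ≠ 0 := hne
  have h1 : x - algebraMap R A (ρ x) ∈ 𝔮 := by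
    apply hle
    rw [RingHom.mem_ker, map_sub, hρ, sub_self]
  have h2 : algebraMap R A (ρ x) ∈ 𝔮 := by
    have : algebraMap R A (ρ x) = x - (x - algebraMap R A (ρ x)) := by ring
    rw [this]
    exact Ideal.sub_mem _ hx h1
  exact hconst _ h0 h2

end Deep

end Fermat.Agent.S34
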