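import Mathlib
import Fermat.Agent.S34.DeepNode3

/-!
# S34 lab (helper3): at a NORMAL node there are NO deep points

Continuation of `DeepNode3` (Mathlib only).  Setting: `A` a noetherian local domain (the local
ring of a chart at a two-branch closed point), `R` the base discrete valuation ring, `π` a
uniformiser, `𝔭`, `𝔭'` the two vertical primes, `z ∈ 𝔭 \ 𝔭'`, `z' ∈ 𝔭' \ 𝔭`, `𝔪 = (π, z, z')`,
`π ∣ z z'`.  NO relation `z z' = π ^ κ * unit` is assumed.

* `dn3b_not_deep_of_principal`: if `ker ρ` is locally principal (`d * ker ρ ⊆ t A`, `ρ d ≠ 0`),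
  then `ρ` is not deep.
* `dn3b_prime_lt`: `𝔪` has height `≤ 2` (it is minimal over `(π, z + z')`), so a prime strictly
  below a prime `𝔮 < 𝔪` is zero.
* `dn3b_principal`: in an integrally closed noetherian domain a prime with only `⊥` strictly
  below it is locally principal.
* `dn3b_main`: **if `A` is integrally closed, EVERY `R`-point `ρ` of the node has a local
  equation**: `P ∈ ker ρ`, `0 ≠ a ∈ R`, `a * ker ρ ⊆ P A`.
-/

set_option autoImplicit false

namespace Fermat.Agent.S34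

open IsLocalRing

section Height

variable {A : Type*} [CommRing A] [IsDomain A] [IsLocalRing A] [IsNoetherianRing A]

omit [IsDomain A] [IsNoetherianRing A] in
/-- the maximal ideal of a node is minimal over `(p, z + z')`. -/
theorem dn3b_mem_minimalPrimes (p z z' : A)
    (hmax : maximalIdeal A = Ideal.span ({p, z, z'} : Set A)) (hzz : p ∣ z * z') :
    maximalIdeal A ∈ (Ideal.span ({p, z + z'} : Set A)).minimalPrimes := by
  have hp : p ∈ maximalIdeal A := by rw [hmax]; exact Ideal.subset_span (by simp)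
  have hz : z ∈ maximalIdeal A := by rw [hmax]; exact Ideal.subset_span (by simp)
  have hz' : z' ∈ maximalIdeal A := by rw [hmax]; exact Ideal.subset_span (by simp)
  refine ⟨⟨inferInstance, ?_⟩, ?_⟩
  · rw [Ideal.span_le]
    intro x hx
    rcases hx with rfl | rfl
    · exact hp
    · exact Ideal.add_mem _ hz hz'
  · rintro 𝔓 ⟨h𝔓, hle⟩ -
    have hp𝔓 : p ∈ 𝔓 := hle (Ideal.subset_span (by simp))
    have hs𝔓 : z + z' ∈ 𝔓 := hle (Ideal.subset_span (by simp))
    have hzz𝔓 : z * z' ∈ 𝔓 := by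
      obtain ⟨c, hc⟩ := hzz
      rw [hc]
      exact Ideal.mul_mem_right _ _ hp𝔓
    have hboth : z ∈ 𝔓 ∧ z' ∈ 𝔓 := by
      rcases h𝔓.mem_or_mem hzz𝔓 with h | h
      · refine ⟨h, ?_⟩
        have : z' = (z + z') - z := by ring
        rw [this]
        exact Ideal.sub_mem _ hs𝔓 h
      · refine ⟨?_, h⟩
        have : z = (z + z') - z' := by ring
        rw [this]
        exact Ideal.sub_mem _ hs𝔓 h
    rw [hmax, Ideal.span_le]
    intro x hx
    rcases hx with rfl | rfl | rfl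
    · exact hp𝔓
    · exact hboth.1
    · exact hboth.2

/-- at a node, a prime strictly below a prime `𝔮 < 𝔪` is zero (`𝔪` has height at most `2`). -/
theorem dn3b_prime_lt (p z z' : A)
    (hmax : maximalIdeal A = Ideal.span ({p, z, z'} : Set A)) (hzz : p ∣ z * z')
    (𝔮 𝔮' : Ideal A) [𝔮.IsPrime] [𝔮'.IsPrime] (h𝔮 : 𝔮 < maximalIdeal A) (h𝔮' : 𝔮' < 𝔮) :
    𝔮' = ⊥ := by
  have h1 : (maximalIdeal A).height ≤ (({p, z + z'} : Set A)).ncard :=
    Ideal.height_le_card_of_mem_minimalPrimes_span (Set.toFinite _)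
      (dn3b_mem_minimalPrimes p z z' hmax hzz)
  have h2 : (maximalIdeal A).height ≤ ((2 : ℕ) : ℕ∞) := by
    refine h1.trans ?_
    have : (({p, z + z'} : Set A)).ncard ≤ 2 := by
      refine (Set.ncard_insert_le p {z + z'}).trans ?_
      rw [Set.ncard_singleton]
    exact_mod_cast this
  have h3 : 𝔮.height < ((2 : ℕ) : ℕ∞) := (Ideal.height_le_iff.mp h2) 𝔮 inferInstance h𝔮
  have h4 : 𝔮.height ≤ ((1 : ℕ) : ℕ∞) := by
    have : 𝔮.height < ((1 : ℕ) : ℕ∞) + 1 := by exact_mod_cast h3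
    exact Order.le_of_lt_add_one this
  have h5 : 𝔮'.height < ((1 : ℕ) : ℕ∞) := (Ideal.height_le_iff.mp h4) 𝔮' inferInstance h𝔮'
  have h6 : 𝔮'.height = 0 := by
    have : 𝔮'.height < 1 := by exact_mod_cast h5
    exact Order.lt_one_iff.mp this
  exact Ideal.height_eq_zero_iff_eq_bot.mp h6

end Height

section Principal

variable {A : Type*} [CommRing A] [IsDomain A] [IsNoetherianRing A]

/-- **Normality input.**  In an integrally closed noetherian domain, a prime `𝔮` with only `⊥`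
strictly below it is locally principal: there is `t ∈ 𝔮` with `𝔮 A_𝔮 = t A_𝔮`, in the
denominator-free form. -/
theorem dn3b_principal [IsIntegrallyClosed A] (𝔮 : Ideal A) [𝔮.IsPrime]
    (hlt : ∀ 𝔮' : Ideal A, 𝔮'.IsPrime → 𝔮' < 𝔮 → 𝔮' = ⊥) :
    ∃ t ∈ 𝔮, ∀ x ∈ 𝔮, ∃ d : A, d ∉ 𝔮 ∧ ∃ y : A, d * x = t * y := by
  classical
  let L := Localization.AtPrime 𝔮
  have hM : 𝔮.primeCompl ≤ nonZeroDivisors A := by
    intro x hx
    rw [mem_nonZeroDivisors_iff_ne_zero]
    rintro rfl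
    exact hx 𝔮.zero_mem
  have : IsIntegrallyClosed L := isIntegrallyClosed_of_isLocalization L 𝔮.primeCompl hM
  have hinj : Function.Injective (algebraMap A L) := IsLocalization.injective L hM
  -- every nonzero prime of `L` is the maximal ideal
  have hprime : ∀ P : Ideal L, P ≠ ⊥ → P.IsPrime → P = maximalIdeal L := by
    intro P hP0 hP
    have hPle : P ≤ maximalIdeal L := le_maximalIdeal hP.ne_top
    have hc : (P.comap (algebraMap A L)).IsPrime := hP.comap _
    have hcle : P.comap (algebraMap A L) ≤ 𝔮 := by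
      have h1 := Ideal.comap_mono (f := algebraMap A L) hPle
      have h2 : Ideal.comap (algebraMap A L) (maximalIdeal L) = 𝔮 :=
        IsLocalization.AtPrime.under_maximalIdeal L 𝔮
      rwa [h2] at h1
    have hmc : Ideal.map (algebraMap A L) (P.comap (algebraMap A L)) = P :=
      IsLocalization.map_under 𝔮.primeCompl L P
    rcases hcle.lt_or_eq with hlt' | heq
    · exfalso
      apply hP0
      rw [← hmc, hlt _ hc hlt', Ideal.map_bot]
    · rw [← hmc, heq]
      exact IsLocalization.AtPrime.map_eq_maximalIdeal 𝔮 L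
  have hpr : (maximalIdeal L).IsPrincipal :=
    ((tfae_of_isNoetherianRing_of_isLocalRing_of_isDomain L).out 3 4).mp
      (⟨inferInstance, hprime⟩ : IsIntegrallyClosed L ∧
        ∀ P : Ideal L, P ≠ ⊥ → P.IsPrime → P = maximalIdeal L)
  obtain ⟨τ, hτ⟩ := hpr
  obtain ⟨t, s₀, rfl⟩ := IsLocalization.exists_mk'_eq 𝔮.primeCompl τ
  have hτm : IsLocalization.mk' L t s₀ ∈ maximalIdeal L := by
    rw [hτ]
    exact Submodule.mem_span_singleton_self _
  have ht : t ∈ 𝔮 := (IsLocalization.AtPrime.mk'_mem_maximal_iff L 𝔮 t s₀).mp hτm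
  refine ⟨t, ht, fun x hx => ?_⟩
  have hxm : algebraMap A L x ∈ maximalIdeal L := by
    rw [← IsLocalization.AtPrime.map_eq_maximalIdeal 𝔮 L]
    exact Ideal.mem_map_of_mem _ hx
  rw [hτ] at hxm
  obtain ⟨w, hw⟩ := Submodule.mem_span_singleton.mp hxm
  obtain ⟨y, s₁, rfl⟩ := IsLocalization.exists_mk'_eq 𝔮.primeCompl w
  refine ⟨(s₀ : A) * (s₁ : A), ?_, y, ?_⟩
  · exact (s₀ * s₁ : 𝔮.primeCompl).2
  · apply hinj
    have h1 : IsLocalization.mk' L y s₁ * IsLocalization.mk' L t s₀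
        = IsLocalization.mk' L (y * t) (s₁ * s₀) := (IsLocalization.mk'_mul L y t s₁ s₀).symm
    rw [smul_eq_mul, h1] at hw
    have h2 := (IsLocalization.eq_mk'_iff_mul_eq (S := L) (x := y * t) (y := s₁ * s₀)
      (z := algebraMap A L x)).mp hw.symm
    rw [Submonoid.coe_mul, map_mul, map_mul] at h2
    simp only [map_mul]
    linear_combination h2

end Principal

section NotDeep

variable {R A : Type*} [CommRing R] [CommRing A] [Algebra R A]
  [IsDomain R] [IsDiscreteValuationRing R] [IsDomain A] [IsLocalRing A] [IsNoetherianRing A]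

/-- **A point with locally principal kernel is not deep.** -/
theorem dn3b_not_deep_of_principal (π : R) (hπ : Irreducible π) (𝔭 𝔭' : Ideal A)
    [𝔭.IsPrime] [𝔭'.IsPrime]
    (hπ𝔭 : algebraMap R A π ∈ 𝔭) (hπ𝔭' : algebraMap R A π ∈ 𝔭')
    (z z' : A) (hzn : z ∉ 𝔭') (hzn' : z' ∉ 𝔭)
    (hmax : maximalIdeal A = Ideal.span ({algebraMap R A π, z, z'} : Set A))
    (hzz : algebraMap R A π ∣ z * z')
    (ρ : A →+* R) (hρ : ∀ r : R, ρ (algebraMap R A r) = r)
    (t d : A) (ht : ρ t = 0) (hd : ρ d ≠ 0)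
    (hprin : ∀ x ∈ RingHom.ker ρ, ∃ y : A, d * x = t * y) : ¬ dn3_Deep 𝔭 𝔭' π ρ := by
  classical
  intro hdeep
  have hπR : maximalIdeal R = Ideal.span {π} := hπ.maximalIdeal_eq
  have hπ0 : π ≠ 0 := hπ.ne_zero
  set p : A := algebraMap R A π with hp
  apply hd
  apply dn3_eq_zero_of_forall_dvd π hπ
  intro j
  rcases dn3_loop p z z' hmax hzz j with
    ⟨κ, hκ1, -, z₁, z₁', ε, hε, hzz₁, hdv, hdv'⟩ | ⟨z₁, z₁', c, hzz₁, hdv, hdv'⟩
  · exfalso
    have hz₁n : z₁ ∉ 𝔭' := by
      intro h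
      obtain ⟨e, he⟩ := hdv
      have : z = z₁ - p * e := by linear_combination -he
      apply hzn
      rw [this]
      exact Ideal.sub_mem _ h (Ideal.mul_mem_right _ _ hπ𝔭')
    have hz₁n' : z₁' ∉ 𝔭 := by
      intro h
      obtain ⟨e, he⟩ := hdv'
      have : z' = z₁' - p * e := by linear_combination -he
      apply hzn'
      rw [this]
      exact Ideal.sub_mem _ h (Ideal.mul_mem_right _ _ hπ𝔭)
    exact dn3_not_deep_exact π hπ 𝔭 𝔭' z₁ z₁' ε hz₁n hz₁n' κ hκ1 hε hzz₁ ρ hρ hdeep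
  · have hmax₁ : maximalIdeal A = Ideal.span ({p, z₁, z₁'} : Set A) := by
      rw [hmax, dn3_span_congr p z z' z₁ z₁' hdv hdv']
    have hz₁n : z₁ ∉ 𝔭' := by
      intro h
      obtain ⟨e, he⟩ := hdv
      have : z = z₁ - p * e := by linear_combination -he
      apply hzn
      rw [this]
      exact Ideal.sub_mem _ h (Ideal.mul_mem_right _ _ hπ𝔭')
    have hz₁n' : z₁' ∉ 𝔭 := by
      intro h
      obtain ⟨e, he⟩ := hdv'
      have : z' = z₁' - p * e := by linear_combination -he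
      apply hzn'
      rw [this]
      exact Ideal.sub_mem _ h (Ideal.mul_mem_right _ _ hπ𝔭)
    have hP : z₁ ∈ dn3_P 𝔭 p j := ⟨z₁', hz₁n', c, by rw [mul_comm, hzz₁]⟩
    have hP' : z₁' ∈ dn3_P 𝔭' p j := ⟨z₁, hz₁n, c, hzz₁⟩
    obtain ⟨a', ha'⟩ := (hdeep j).1 z₁ hP
    obtain ⟨b', hb'⟩ := (hdeep j).2 z₁' hP'
    set s : A := z₁ - algebraMap R A (ρ z₁) with hs
    set s' : A := z₁' - algebraMap R A (ρ z₁') with hs'
    have hsk : s ∈ RingHom.ker ρ := by rw [RingHom.mem_ker, hs, map_sub, hρ, sub_self]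
    have hsk' : s' ∈ RingHom.ker ρ := by rw [RingHom.mem_ker, hs', map_sub, hρ, sub_self]
    have hker := dn3_ker π hπ0 hπR z₁ z₁' hmax₁ ρ hρ
    obtain ⟨x, hx⟩ := hprin s hsk
    obtain ⟨x', hx'⟩ := hprin s' hsk'
    have hd0 : d ≠ 0 := by
      rintro rfl
      exact hd (map_zero ρ)
    -- `s`, `s'` avoid the other branch
    have hs𝔭' : s ∉ 𝔭' := by
      intro h
      apply hz₁n
      have : z₁ = s + algebraMap R A (π ^ (j + 1) * a') := by rw [hs, ha']; ring
      rw [this, map_mul, map_pow]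
      exact Ideal.add_mem _ h (Ideal.mul_mem_right _ _
        (Ideal.pow_mem_of_mem _ hπ𝔭' _ (Nat.succ_pos j)))
    have hs'𝔭 : s' ∉ 𝔭 := by
      intro h
      apply hz₁n'
      have : z₁' = s' + algebraMap R A (π ^ (j + 1) * b') := by rw [hs', hb']; ring
      rw [this, map_mul, map_pow]
      exact Ideal.add_mem _ h (Ideal.mul_mem_right _ _
        (Ideal.pow_mem_of_mem _ hπ𝔭 _ (Nat.succ_pos j)))
    have ht0 : t ≠ 0 := by
      rintro rfl
      rw [zero_mul] at hx
      rcases mul_eq_zero.mp hx with h | h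
      · exact hd0 h
      · exact hs𝔭' (h ▸ 𝔭'.zero_mem)
    -- `x' s = x s'`
    have hxs : x' * s = x * s' := by
      apply mul_left_cancel₀ ht0
      linear_combination (-s) * hx' + s' * hx
    -- `x ∈ P_j(𝔭)`, `x' ∈ P_j(𝔭')`
    have hxP : x ∈ dn3_P 𝔭 p j := by
      refine ⟨z₁' * s', ?_, x' * (c - z₁' * algebraMap R A a'), ?_⟩
      · intro h
        rcases Ideal.IsPrime.mem_or_mem inferInstance h with h | h
        · exact hz₁n' h
        · exact hs'𝔭 h
      · have e1 : algebraMap R A (ρ z₁) = p ^ (j + 1) * algebraMap R A a' := by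
          rw [ha', map_mul, map_pow]
        have e2 : s = z₁ - p ^ (j + 1) * algebraMap R A a' := by rw [hs, e1]
        rw [e2] at hxs
        linear_combination (-z₁') * hxs + x' * hzz₁
    have hxP' : x' ∈ dn3_P 𝔭' p j := by
      refine ⟨z₁ * s, ?_, x * (c - z₁ * algebraMap R A b'), ?_⟩
      · intro h
        rcases Ideal.IsPrime.mem_or_mem inferInstance h with h | h
        · exact hz₁n h
        · exact hs𝔭' h
      · have e1 : algebraMap R A (ρ z₁') = p ^ (j + 1) * algebraMap R A b' := by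
          rw [hb', map_mul, map_pow]
        have e2 : s' = z₁' - p ^ (j + 1) * algebraMap R A b' := by rw [hs', e1]
        rw [e2] at hxs
        linear_combination z₁ * hxs + x * hzz₁
    -- `t = α s + β s'`, hence `d = α x + β x'`
    have htk : t ∈ RingHom.ker ρ := ht
    rw [hker, Ideal.mem_span_pair] at htk
    obtain ⟨α, β, hαβ⟩ := htk
    have hdeq : d = α * x + β * x' := by
      apply mul_left_cancel₀ ht0
      linear_combination (-d) * hαβ + α * hx + β * hx'
    rw [hdeq, map_add, map_mul, map_mul]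
    exact dvd_add (Dvd.dvd.mul_left ((hdeep j).1 x hxP) _) (Dvd.dvd.mul_left ((hdeep j).2 x' hxP') _)

/-- **At a NORMAL node every `R`-point has a local equation** (no thickness bound needed):
`P ∈ ker ρ` and `0 ≠ a ∈ R` with `a * ker ρ ⊆ P A`. -/
theorem dn3b_main [IsIntegrallyClosed A] (π : R) (hπ : Irreducible π) (𝔭 𝔭' : Ideal A)
    [𝔭.IsPrime] [𝔭'.IsPrime]
    (hπ𝔭 : algebraMap R A π ∈ 𝔭) (hπ𝔭' : algebraMap R A π ∈ 𝔭')
    (z z' : A) (hz : z ∈ 𝔭) (hz' : z' ∈ 𝔭') (hzn : z ∉ 𝔭') (hzn' : z' ∉ 𝔭)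
    (hmax : maximalIdeal A = Ideal.span ({algebraMap R A π, z, z'} : Set A))
    (hzz : algebraMap R A π ∣ z * z')
    (ρ : A →+* R) (hρ : ∀ r : R, ρ (algebraMap R A r) = r) :
    ∃ P ∈ RingHom.ker ρ, ∃ a : R, a ≠ 0 ∧
      ∀ x ∈ RingHom.ker ρ, ∃ y : A, algebraMap R A a * x = P * y := by
  classical
  have hπR : maximalIdeal R = Ideal.span {π} := hπ.maximalIdeal_eq
  have hπ0 : π ≠ 0 := hπ.ne_zero
  refine dn3_main π hπ 𝔭 𝔭' hπ𝔭 hπ𝔭' z z' hz hz' hzn hzn' hmax hzz ρ hρ ?_
  -- `ker ρ` is a prime strictly below the maximal ideal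
  have hkp : (RingHom.ker ρ).IsPrime := RingHom.ker_isPrime ρ
  have hklt : RingHom.ker ρ < maximalIdeal A := by
    refine lt_of_le_of_ne (le_maximalIdeal (RingHom.ker_ne_top ρ)) ?_
    intro h
    have h1 : algebraMap R A π ∈ RingHom.ker ρ := by
      rw [h, hmax]; exact Ideal.subset_span (by simp)
    rw [RingHom.mem_ker, hρ] at h1
    exact hπ0 h1
  obtain ⟨t, ht, hprin⟩ := dn3b_principal (RingHom.ker ρ)
    (fun 𝔮' h𝔮' hlt => by
      have := h𝔮'
      exact dn3b_prime_lt (algebraMap R A π) z z' hmax hzz (RingHom.ker ρ) 𝔮' hklt hlt)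
  -- a uniform denominator from the two generators of `ker ρ`
  have hker := dn3_ker π hπ0 hπR z z' hmax ρ hρ
  set s : A := z - algebraMap R A (ρ z) with hs
  set s' : A := z' - algebraMap R A (ρ z') with hs'
  have hsk : s ∈ RingHom.ker ρ := by rw [RingHom.mem_ker, hs, map_sub, hρ, sub_self]
  have hsk' : s' ∈ RingHom.ker ρ := by rw [RingHom.mem_ker, hs', map_sub, hρ, sub_self]
  obtain ⟨d₁, hd₁, y₁, hy₁⟩ := hprin s hsk
  obtain ⟨d₂, hd₂, y₂, hy₂⟩ := hprin s' hsk'
  refine dn3b_not_deep_of_principal π hπ 𝔭 𝔭' hπ𝔭 hπ𝔭' z z' hzn hzn' hmax hzz ρ hρ t (d₁ * d₂)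
    ht ?_ ?_
  · rw [map_mul]
    exact mul_ne_zero hd₁ hd₂
  · intro x hx
    rw [hker, Ideal.mem_span_pair] at hx
    obtain ⟨α, β, rfl⟩ := hx
    exact ⟨α * d₂ * y₁ + β * d₁ * y₂, by linear_combination (α * d₂) * hy₁ + (β * d₁) * hy₂⟩

end NotDeep

end Fermat.Agent.S34
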