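import Fermat.Agent.S34.DerivAbs54
import Fermat.Agent.S18.RElimConst29
import Fermat.Agent.S28.ThetaJ
import Fermat.Agent.S28.CTools

/-!
# S34 lab, sub-row P4a (helper54): the Δ-quotient `U = Δ(Q) / Δ(Q^q)`, FORMALLY

No analysis.  `K` a field of characteristic zero, `q ≥ 1`, `q ∣ M`, `F = F(M)_K =
modularFunctionFieldFullC K M`, `J = jqModC K`, `J_q = J(Q^q)`.

* `da54_U R q`    : `Δ(Q) · Δ(Q^q)⁻¹` as a Laurent series over ANY commutative ring `R`
  (`da54_Uinv R q` its inverse; both commute with `coeffMap`, so over a discrete valuation ring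
  `U` and `U⁻¹` have integral `q`-expansions: `U` is a unit of the Gauss valuation ring `V_∞`).
* `da54_U_formula`: `U · J⁴ (J - 1728)³ · (θ J_q)⁶ = q⁶ · J_q⁴ (J_q - 1728)³ · (θ J)⁶`
  (from `theta_J_pow_six`: `(θJ)⁶ = J⁴ (J - 1728)³ Δ`).
* `da54_rho`      : `θ J_q = ρ · θ J` with `ρ ∈ F` (`J_q` is algebraic over `K(J)`).
* `da54_U_mem`    : `U ∈ F(M)_K`.
* `da54_UV`       : for every ring endomorphism `w` of `F(M)_K` fixing `K` with `w ∘ w = id` and
  `w J = J_q` (the Atkin–Lehner involution `w_q`):  `w U · U = q¹²`.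

All names are prefixed `da54_`.
-/

set_option autoImplicit false
set_option linter.unusedSectionVars false

open ModularCurve IntermediateField

namespace Fermat.Agent.S34

open Fermat.Agent.S28 Fermat.Agent.S18

noncomputable section

/-! ### The formal Δ-quotient over any ring -/

section da54_formal

variable (R : Type*) [CommRing R] (q : ℕ) [NeZero q]

/-- `U = Δ(Q) / Δ(Q^q)` as a Laurent series over `R`. -/
def da54_U : LaurentSeries R := DeltaSer R * qExpand R q (DeltaInv R)

/-- `U⁻¹ = Δ(Q^q) / Δ(Q)` as a Laurent series over `R`. -/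
def da54_Uinv : LaurentSeries R := DeltaInv R * qExpand R q (DeltaSer R)

theorem da54_U_mul_Uinv : da54_U R q * da54_Uinv R q = 1 := by
  have h1 := DeltaSer_mul_DeltaInv R
  have h2 : qExpand R q (DeltaSer R) * qExpand R q (DeltaInv R) = 1 := by
    rw [← map_mul, h1, map_one]
  unfold da54_U da54_Uinv
  linear_combination (qExpand R q (DeltaSer R) * qExpand R q (DeltaInv R)) * h1 + h2

theorem da54_U_mul_qExpand : da54_U R q * qExpand R q (DeltaSer R) = DeltaSer R := by
  have h2 : qExpand R q (DeltaSer R) * qExpand R q (DeltaInv R) = 1 := by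
    rw [← map_mul, DeltaSer_mul_DeltaInv, map_one]
  unfold da54_U
  linear_combination DeltaSer R * h2

variable {R} in
theorem da54_coeffMap_U {S : Type*} [CommRing S] (φ : R →+* S) :
    coeffMap φ (da54_U R q) = da54_U S q := by
  unfold da54_U
  rw [map_mul, coeffMap_qExpand, coeffMap_DeltaSer, coeffMap_DeltaInv]

variable {R} in
theorem da54_coeffMap_Uinv {S : Type*} [CommRing S] (φ : R →+* S) :
    coeffMap φ (da54_Uinv R q) = da54_Uinv S q := by
  unfold da54_Uinv
  rw [map_mul, coeffMap_qExpand, coeffMap_DeltaSer, coeffMap_DeltaInv]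

/-- `(θJ)⁶ = J⁴ (J - 1728)³ Δ` over any ring. -/
theorem da54_theta_pow_six :
    theta (jqModC R) ^ 6 = jqModC R ^ 4 * (jqModC R - 1728) ^ 3 * DeltaSer R := by
  have h := congrArg (coeffMap (Int.castRingHom R)) theta_J_pow_six
  simpa only [map_pow, map_mul, map_sub, coeffMap_theta, coeffMap_jqModC, coeffMap_DeltaSer,
    map_ofNat] using h

/-- `(θ J_q)⁶ = q⁶ J_q⁴ (J_q - 1728)³ Δ(Q^q)` over any ring. -/
theorem da54_theta_q_pow_six :
    theta (qExpand R q (jqModC R)) ^ 6 = (q : LaurentSeries R) ^ 6 *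
      (qExpand R q (jqModC R) ^ 4 * (qExpand R q (jqModC R) - 1728) ^ 3 *
        qExpand R q (DeltaSer R)) := by
  have h := congrArg (qExpand R q) (da54_theta_pow_six R)
  simp only [map_pow, map_mul, map_sub, map_ofNat] at h
  rw [theta_qExpand, mul_pow, h]

/-- **The formula for `U`** (division-free):
`U · J⁴ (J - 1728)³ · (θ J_q)⁶ = q⁶ · J_q⁴ (J_q - 1728)³ · (θ J)⁶`. -/
theorem da54_U_formula :
    da54_U R q * (jqModC R ^ 4 * (jqModC R - 1728) ^ 3) * theta (qExpand R q (jqModC R)) ^ 6 =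
      (q : LaurentSeries R) ^ 6 *
        (qExpand R q (jqModC R) ^ 4 * (qExpand R q (jqModC R) - 1728) ^ 3) *
        theta (jqModC R) ^ 6 := by
  rw [da54_theta_q_pow_six, da54_theta_pow_six]
  linear_combination ((q : LaurentSeries R) ^ 6 *
    (qExpand R q (jqModC R) ^ 4 * (qExpand R q (jqModC R) - 1728) ^ 3) *
    (jqModC R ^ 4 * (jqModC R - 1728) ^ 3)) * da54_U_mul_qExpand R q

end da54_formal

/-! ### Over a field of characteristic zero -/

section da54_field

variable (K : Type) [Field K] [CharZero K] (q : ℕ) [NeZero q]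

theorem da54_charZero : CharZero (LaurentSeries K) :=
  charZero_of_injective_algebraMap (algebraMap K (LaurentSeries K)).injective

theorem da54_theta_J_ne_zero : theta (jqModC K) ≠ 0 := by
  intro h
  have h1 := congrArg (fun s : LaurentSeries K => s.coeff (-1)) h
  simp only [theta_coeff, coeff_jqModC_neg_one, HahnSeries.coeff_zero] at h1
  norm_num at h1

theorem da54_theta_Jq_ne_zero : theta (qExpand K q (jqModC K)) ≠ 0 := by
  rw [theta_qExpand]
  have hcz := da54_charZero K
  refine mul_ne_zero (Nat.cast_ne_zero.mpr (NeZero.ne q)) ?_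
  exact fun h => da54_theta_J_ne_zero K (qExpand_injective q (h.trans (map_zero _).symm))

theorem da54_A_ne_zero : jqModC K ^ 4 * (jqModC K - 1728) ^ 3 ≠ 0 := by
  intro h
  have h6 := da54_theta_pow_six K
  rw [h, zero_mul] at h6
  exact da54_theta_J_ne_zero K (pow_eq_zero_iff (by norm_num) |>.mp h6)

theorem da54_Aq_ne_zero :
    qExpand K q (jqModC K) ^ 4 * (qExpand K q (jqModC K) - 1728) ^ 3 ≠ 0 := by
  intro h
  have h6 := da54_theta_q_pow_six K q
  rw [h, zero_mul, mul_zero] at h6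
  exact da54_theta_Jq_ne_zero K q (pow_eq_zero_iff (by norm_num) |>.mp h6)

theorem da54_U_ne_zero : da54_U K q ≠ 0 := by
  intro h
  have := da54_U_mul_Uinv K q
  rw [h, zero_mul] at this
  exact zero_ne_one this

variable (M : ℕ) [NeZero M]

/-- `J_q = J(Q^q)` as an element of `F(M)_K`, `q ∣ M` (`J` itself is `relimc_J K M`). -/
def da54_Jq (hq : q ∣ M) : ↥(modularFunctionFieldFullC K M) :=
  ⟨qExpand K q (jqModC K), jqModCd_mem_full K M hq⟩

theorem da54_halg (x : ↥(modularFunctionFieldFullC K M)) : IsAlgebraic K⟮relimc_J K M⟯ x := by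
  have h1 : FiniteDimensional K⟮relimc_J K M⟯ ↥(modularFunctionFieldFullC K M) := relimc_finite K M
  have h2 : Algebra.IsAlgebraic K⟮relimc_J K M⟯ ↥(modularFunctionFieldFullC K M) :=
    Algebra.IsAlgebraic.of_finite _ _
  exact h2.isAlgebraic x

theorem da54_theta_algebraMap (c : K) : theta (algebraMap K (LaurentSeries K) c) = 0 := by
  ext n
  rw [theta_coeff, algebraMap_laurentSeries_eq_single, HahnSeries.coeff_zero]
  by_cases hn : n = 0
  · subst hn; simp
  · rw [HahnSeries.coeff_single_of_ne hn, mul_zero]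

theorem da54_theta_mul (f g : LaurentSeries K) : theta (f * g) = f * theta g + g * theta f := by
  rw [theta_mul]; ring

/-- **`θ J_q = ρ · θ J` with `ρ ∈ F(M)_K`**. -/
theorem da54_rho (hq : q ∣ M) :
    ∃ ρ : ↥(modularFunctionFieldFullC K M),
      theta (qExpand K q (jqModC K)) = (ρ : LaurentSeries K) * theta (jqModC K) := by
  have hcz := da54_charZero K
  exact da54_der_mem (theta (R := K)) theta_add (da54_theta_mul K) (da54_theta_algebraMap K)
    (modularFunctionFieldFullC K M) (relimc_J K M) (da54_halg K M) (da54_Jq K q M hq)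

/-- The relation between `U` and `ρ`: `U · J⁴ (J - 1728)³ · ρ⁶ = q⁶ · J_q⁴ (J_q - 1728)³`. -/
theorem da54_U_rho (ρ : LaurentSeries K)
    (hρ : theta (qExpand K q (jqModC K)) = ρ * theta (jqModC K)) :
    da54_U K q * (jqModC K ^ 4 * (jqModC K - 1728) ^ 3) * ρ ^ 6 =
      (q : LaurentSeries K) ^ 6 *
        (qExpand K q (jqModC K) ^ 4 * (qExpand K q (jqModC K) - 1728) ^ 3) := by
  have h := da54_U_formula K q
  rw [hρ, mul_pow, ← mul_assoc] at h
  exact mul_right_cancel₀ (pow_ne_zero 6 (da54_theta_J_ne_zero K)) h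

/-- **`U = Δ(Q)/Δ(Q^q)` lies in `F(M)_K`** for `q ∣ M`. -/
theorem da54_U_mem (hq : q ∣ M) : da54_U K q ∈ modularFunctionFieldFullC K M := by
  obtain ⟨ρ, hρ⟩ := da54_rho K q M hq
  have h := da54_U_rho K q (ρ : LaurentSeries K) hρ
  have hρ0 : (ρ : LaurentSeries K) ≠ 0 := by
    intro h0
    rw [h0, zero_mul] at hρ
    exact da54_theta_Jq_ne_zero K q hρ
  have hA := da54_A_ne_zero K
  have hU : da54_U K q = (q : LaurentSeries K) ^ 6 *
      (qExpand K q (jqModC K) ^ 4 * (qExpand K q (jqModC K) - 1728) ^ 3) *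
      ((jqModC K ^ 4 * (jqModC K - 1728) ^ 3) * (ρ : LaurentSeries K) ^ 6)⁻¹ := by
    rw [eq_mul_inv_iff_mul_eq₀ (mul_ne_zero hA (pow_ne_zero 6 hρ0)), ← mul_assoc]
    exact h
  rw [hU]
  have hJ : jqModC K ∈ modularFunctionFieldFullC K M := jqModC_mem_full K M
  have hJq : qExpand K q (jqModC K) ∈ modularFunctionFieldFullC K M := jqModCd_mem_full K M hq
  have h1728 : (1728 : LaurentSeries K) ∈ modularFunctionFieldFullC K M :=
    _root_.ofNat_mem _ 1728
  have hqm : (q : LaurentSeries K) ∈ modularFunctionFieldFullC K M := _root_.natCast_mem _ q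
  exact mul_mem (mul_mem (pow_mem hqm 6) (mul_mem (pow_mem hJq 4) (pow_mem (sub_mem hJq h1728) 3)))
    (inv_mem (mul_mem (mul_mem (pow_mem hJ 4) (pow_mem (sub_mem hJ h1728) 3)) (pow_mem ρ.2 6)))

/-- `U` as an element of `F(M)_K`. -/
def da54_UF (hq : q ∣ M) : ↥(modularFunctionFieldFullC K M) := ⟨da54_U K q, da54_U_mem K q M hq⟩

/-- **`w_q(U) · U = q¹²`**: for every ring endomorphism `w` of `F(M)_K` fixing `K`, with
`w ∘ w = id` and `w J = J_q`. -/
theorem da54_UV (hq : q ∣ M)
    (w : ↥(modularFunctionFieldFullC K M) →+* ↥(modularFunctionFieldFullC K M))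
    (hwK : ∀ c : K, w (algebraMap K ↥(modularFunctionFieldFullC K M) c) =
      algebraMap K ↥(modularFunctionFieldFullC K M) c)
    (hww : ∀ x, w (w x) = x) (hwJ : w (relimc_J K M) = da54_Jq K q M hq) :
    w (da54_UF K q M hq) * da54_UF K q M hq = (q : ↥(modularFunctionFieldFullC K M)) ^ 12 := by
  have hcz := da54_charZero K
  obtain ⟨ρ, hρ⟩ := da54_rho K q M hq
  have hinv : w ρ * ρ = 1 :=
    da54_involution (theta (R := K)) theta_add (da54_theta_mul K) (da54_theta_algebraMap K)
      (modularFunctionFieldFullC K M) (relimc_J K M)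
      (da54_Jq K q M hq) (da54_halg K M) (da54_theta_J_ne_zero K) w hwK hww hwJ ρ hρ
  have hwJq : w (da54_Jq K q M hq) = relimc_J K M := by rw [← hwJ, hww]
  -- the relation in `F`
  have hrel : da54_UF K q M hq * (relimc_J K M ^ 4 * (relimc_J K M - 1728) ^ 3) * ρ ^ 6 =
      (q : ↥(modularFunctionFieldFullC K M)) ^ 6 *
        (da54_Jq K q M hq ^ 4 * (da54_Jq K q M hq - 1728) ^ 3) := by
    apply Subtype.ext
    push_cast
    exact da54_U_rho K q (ρ : LaurentSeries K) hρ
  have hrel' := congrArg w hrel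
  simp only [map_mul, map_pow, map_sub, map_ofNat, map_natCast, hwJ, hwJq] at hrel'
  have hA : relimc_J K M ^ 4 * (relimc_J K M - 1728) ^ 3 ≠ 0 := by
    intro h0
    apply da54_A_ne_zero K
    have h1 : ((relimc_J K M ^ 4 * (relimc_J K M - 1728) ^ 3 :
        ↥(modularFunctionFieldFullC K M)) : LaurentSeries K) = 0 := by rw [h0]; rfl
    push_cast at h1
    exact h1
  have hAq : da54_Jq K q M hq ^ 4 * (da54_Jq K q M hq - 1728) ^ 3 ≠ 0 := by
    intro h0
    apply da54_Aq_ne_zero K q
    have h1 : ((da54_Jq K q M hq ^ 4 * (da54_Jq K q M hq - 1728) ^ 3 :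
        ↥(modularFunctionFieldFullC K M)) : LaurentSeries K) = 0 := by rw [h0]; rfl
    push_cast at h1
    exact h1
  have hρ6 : w ρ ^ 6 * ρ ^ 6 = 1 := by rw [← mul_pow, hinv, one_pow]
  have key : (w (da54_UF K q M hq) * da54_UF K q M hq) *
      ((relimc_J K M ^ 4 * (relimc_J K M - 1728) ^ 3) *
        (da54_Jq K q M hq ^ 4 * (da54_Jq K q M hq - 1728) ^ 3)) =
      (q : ↥(modularFunctionFieldFullC K M)) ^ 12 *
      ((relimc_J K M ^ 4 * (relimc_J K M - 1728) ^ 3) *
        (da54_Jq K q M hq ^ 4 * (da54_Jq K q M hq - 1728) ^ 3)) := by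
    linear_combination (da54_UF K q M hq * (relimc_J K M ^ 4 * (relimc_J K M - 1728) ^ 3) *
      ρ ^ 6) * hrel' + ((q : ↥(modularFunctionFieldFullC K M)) ^ 6 *
        (relimc_J K M ^ 4 * (relimc_J K M - 1728) ^ 3)) * hrel -
      (w (da54_UF K q M hq) * da54_UF K q M hq *
        ((relimc_J K M ^ 4 * (relimc_J K M - 1728) ^ 3) *
        (da54_Jq K q M hq ^ 4 * (da54_Jq K q M hq - 1728) ^ 3))) * hρ6
  exact mul_right_cancel₀ (mul_ne_zero hA hAq) key

/-! ### Consumer forms -/

theorem da54_UF_coe (hq : q ∣ M) :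
    ((da54_UF K q M hq : ↥(modularFunctionFieldFullC K M)) : LaurentSeries K) = da54_U K q := rfl

theorem da54_UF_ne_zero (hq : q ∣ M) : da54_UF K q M hq ≠ 0 := by
  intro h
  apply da54_U_ne_zero K q
  rw [← da54_UF_coe K q M hq, h]
  rfl

theorem da54_UF_inv_coe (hq : q ∣ M) :
    (((da54_UF K q M hq)⁻¹ : ↥(modularFunctionFieldFullC K M)) : LaurentSeries K) =
      da54_Uinv K q := by
  push_cast
  rw [da54_UF_coe]
  exact inv_eq_of_mul_eq_one_right (da54_U_mul_Uinv K q)

/-- `U` is the base change of the series `da54_U R q` over any ring `R → K` (in particular over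
a discrete valuation ring `R` with fraction field `K`: integral `q`-expansion). -/
theorem da54_UF_eq_coeffMap {R : Type*} [CommRing R] (φ : R →+* K) (hq : q ∣ M) :
    ((da54_UF K q M hq : ↥(modularFunctionFieldFullC K M)) : LaurentSeries K) =
      coeffMap φ (da54_U R q) := by
  rw [da54_UF_coe, da54_coeffMap_U]

/-- `U⁻¹` is the base change of the series `da54_Uinv R q` over any ring `R → K`. -/
theorem da54_UF_inv_eq_coeffMap {R : Type*} [CommRing R] (φ : R →+* K) (hq : q ∣ M) :
    (((da54_UF K q M hq)⁻¹ : ↥(modularFunctionFieldFullC K M)) : LaurentSeries K) =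
      coeffMap φ (da54_Uinv R q) := by
  rw [da54_UF_inv_coe, da54_coeffMap_Uinv]

/-- `da54_UV` with the hypothesis on `w J` stated on the underlying Laurent series. -/
theorem da54_UV' (hq : q ∣ M)
    (w : ↥(modularFunctionFieldFullC K M) →+* ↥(modularFunctionFieldFullC K M))
    (hwK : ∀ c : K, w (algebraMap K ↥(modularFunctionFieldFullC K M) c) =
      algebraMap K ↥(modularFunctionFieldFullC K M) c)
    (hww : ∀ x, w (w x) = x)
    (hwJ : ((w ⟨jqModC K, jqModC_mem_full K M⟩ : ↥(modularFunctionFieldFullC K M)) :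
      LaurentSeries K) = qExpand K q (jqModC K)) :
    w (da54_UF K q M hq) * da54_UF K q M hq = (q : ↥(modularFunctionFieldFullC K M)) ^ 12 :=
  da54_UV K q M hq w hwK hww (Subtype.ext hwJ)

/-- **`V := w_q(U) = q¹² · U⁻¹`**. -/
theorem da54_wU (hq : q ∣ M)
    (w : ↥(modularFunctionFieldFullC K M) →+* ↥(modularFunctionFieldFullC K M))
    (hwK : ∀ c : K, w (algebraMap K ↥(modularFunctionFieldFullC K M) c) =
      algebraMap K ↥(modularFunctionFieldFullC K M) c)
    (hww : ∀ x, w (w x) = x)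
    (hwJ : ((w ⟨jqModC K, jqModC_mem_full K M⟩ : ↥(modularFunctionFieldFullC K M)) :
      LaurentSeries K) = qExpand K q (jqModC K)) :
    w (da54_UF K q M hq) = (q : ↥(modularFunctionFieldFullC K M)) ^ 12 * (da54_UF K q M hq)⁻¹ := by
  rw [eq_mul_inv_iff_mul_eq₀ (da54_UF_ne_zero K q M hq)]
  exact da54_UV' K q M hq w hwK hww hwJ

end da54_field

end

end Fermat.Agent.S34
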