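import Fermat.Agent.S28.CharL

/-!
# S34 lab, row P4' (helper86): the modular unit `Δ(Q)/Δ(Q^q)` — purely formal

Everything is a statement about formal Laurent series over a field `k` of characteristic `0`
(S28 notation: `J = jqModC k`, `J_q = qExpand k q J`, `Δ = DeltaSer k`, `θ = partC_theta`),
and every input is an S28 theorem on main (`exists_modular_equation`, `exists_unit_equations`,
`theta_J_pow_six`): no analysis.

* `df86_chain` : the chain rule for a derivation applied to `G(a, b)`, `G ∈ k[X][Y]`.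
* `df86_exists_good` : a polynomial `G` with `G(J, J_q) = 0` and `∂G/∂Y (J, J_q) ≠ 0`.
* `df86_U_mem` : `U := Δ(Q)/Δ(Q^q) ∈ k(J, J_q)`.
* `df86_w_mul` : for every `k`-algebra endomorphism `w` of an intermediate field `E ∋ J, J_q`
  with `w J = J_q`, `w J_q = J`:  `w(U) * U = q ^ 12`.
* `df86_int_U`, `df86_int_V` : `q^12 U` and `q^12 U⁻¹` are roots of monic polynomials with
  coefficients in `ℤ[J]`.
* `df86_U_coeffMap`, `df86_Uinv_coeffMap` : `U` and `U⁻¹` have integer coefficients.
-/

set_option autoImplicit false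
set_option linter.unusedSectionVars false

open ModularCurve Polynomial IntermediateField

namespace Fermat.Agent.S34

open Fermat.Agent.S28

noncomputable section

/-! ### Two-variable polynomials `G ∈ k[X][Y]` evaluated at `(a, b)` -/

section Chain

variable {k : Type*} [Field k] {K : Type*} [CommRing K] [Algebra k K]

/-- `G(a, b)`: the inner variable goes to `a`, the outer one to `b`. -/
def df86_ev (a b : K) (G : Polynomial (Polynomial k)) : K :=
  G.eval₂ (aeval a : Polynomial k →ₐ[k] K).toRingHom b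

/-- `(∂G/∂X)(a, b)` (derivative with respect to the inner variable). -/
def df86_A (a b : K) (G : Polynomial (Polynomial k)) : K :=
  G.sum fun i c => aeval a (derivative c) * b ^ i

theorem df86_ev_add (a b : K) (G H : Polynomial (Polynomial k)) :
    df86_ev a b (G + H) = df86_ev a b G + df86_ev a b H := by
  unfold df86_ev
  rw [eval₂_add]

theorem df86_ev_monomial (a b : K) (n : ℕ) (c : Polynomial k) :
    df86_ev a b (monomial n c) = aeval a c * b ^ n := by
  unfold df86_ev
  rw [eval₂_monomial]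
  rfl

theorem df86_A_add (a b : K) (G H : Polynomial (Polynomial k)) :
    df86_A a b (G + H) = df86_A a b G + df86_A a b H := by
  unfold df86_A
  rw [Polynomial.sum_add_index]
  · intro i
    rw [derivative_zero, map_zero, zero_mul]
  · intro i c d
    rw [derivative_add, map_add, add_mul]

theorem df86_A_monomial (a b : K) (n : ℕ) (c : Polynomial k) :
    df86_A a b (monomial n c) = aeval a (derivative c) * b ^ n := by
  unfold df86_A
  rw [Polynomial.sum_monomial_index]
  rw [derivative_zero, map_zero, zero_mul]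

/-- **Chain rule** for `θ = q d/dq` applied to `G(a, b)`. -/
theorem df86_chain (a b : LaurentSeries k) (G : Polynomial (Polynomial k)) :
    partC_theta (df86_ev a b G) =
      df86_A a b G * partC_theta a + df86_ev a b (derivative G) * partC_theta b := by
  induction G using Polynomial.induction_on' with
  | add G H hG hH =>
    rw [df86_ev_add, map_add, hG, hH, df86_A_add, derivative_add, df86_ev_add]
    ring
  | monomial n c =>
    rw [df86_ev_monomial, df86_A_monomial, derivative_monomial, df86_ev_monomial,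
      Derivation.leibniz, Derivation.map_aeval, Derivation.leibniz_pow]
    simp only [smul_eq_mul, nsmul_eq_mul, map_mul, map_natCast]
    ring

/-- Evaluation commutes with algebra homomorphisms. -/
theorem df86_map_ev {K' : Type*} [CommRing K'] [Algebra k K'] (w : K →ₐ[k] K') (a b : K)
    (G : Polynomial (Polynomial k)) : w (df86_ev a b G) = df86_ev (w a) (w b) G := by
  unfold df86_ev
  have h := Polynomial.hom_eval₂ G (aeval a : Polynomial k →ₐ[k] K).toRingHom
    (w : K →+* K') b
  have hc : (w : K →+* K').comp (aeval a : Polynomial k →ₐ[k] K).toRingHom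
      = (aeval (w a) : Polynomial k →ₐ[k] K').toRingHom := by
    refine Polynomial.ringHom_ext (fun c => ?_) ?_
    · simp
    · simp
  rw [hc] at h
  exact h

theorem df86_map_A {K' : Type*} [CommRing K'] [Algebra k K'] (w : K →ₐ[k] K') (a b : K)
    (G : Polynomial (Polynomial k)) : w (df86_A a b G) = df86_A (w a) (w b) G := by
  unfold df86_A
  rw [Polynomial.sum, map_sum, Polynomial.sum]
  refine Finset.sum_congr rfl fun i _ => ?_
  rw [map_mul, map_pow, Polynomial.aeval_algHom_apply]

end Chain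

/-! ### The good polynomial -/

section Good

variable (k : Type*) [Field k] [CharZero k] (q : ℕ) [NeZero q]

/-- A nonzero two-variable relation `G(J, J_q) = 0` with `(∂G/∂Y)(J, J_q) ≠ 0`: take a relation of
minimal `Y`-degree (the modular equation provides one relation; `J` is transcendental). -/
theorem df86_exists_good (hq : q.Prime) :
    ∃ G : Polynomial (Polynomial k),
      df86_ev (jqModC k) (qExpand k q (jqModC k)) G = 0 ∧
      df86_ev (jqModC k) (qExpand k q (jqModC k)) (derivative G) ≠ 0 := by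
  have htr : Transcendental k (jqModC k) :=
    partC_transcendental (jqModC k) (coeff_jqModC_neg_one k) (fun n hn => coeff_jqModC_of_lt k hn)
  have key : ∀ n : ℕ, ∀ G : Polynomial (Polynomial k), G ≠ 0 → G.natDegree = n →
      df86_ev (jqModC k) (qExpand k q (jqModC k)) G = 0 →
      ∃ G' : Polynomial (Polynomial k),
        df86_ev (jqModC k) (qExpand k q (jqModC k)) G' = 0 ∧
        df86_ev (jqModC k) (qExpand k q (jqModC k)) (derivative G') ≠ 0 := by
    intro n
    induction n using Nat.strong_induction_on with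
    | _ n ih =>
      intro G hG0 hn hG
      by_cases hd : df86_ev (jqModC k) (qExpand k q (jqModC k)) (derivative G) = 0
      · by_cases hdz : derivative G = 0
        · exfalso
          have hnat : G.natDegree = 0 := Polynomial.derivative_eq_zero.mp hdz
          obtain ⟨c, rfl⟩ := Polynomial.natDegree_eq_zero.mp hnat
          have hc : c ≠ 0 := fun h => hG0 (by rw [h, map_zero])
          have h0 : aeval (jqModC k) c = 0 := by
            have := hG
            unfold df86_ev at this
            rw [eval₂_C] at this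
            exact this
          exact hc (transcendental_iff.mp htr c h0)
        · have hne : G.natDegree ≠ 0 := fun h0 =>
            hdz (Polynomial.derivative_eq_zero.mpr h0)
          have hlt : (derivative G).natDegree < n := hn ▸ Polynomial.natDegree_derivative_lt hne
          exact ih _ hlt (derivative G) hdz rfl hd
      · exact ⟨G, hG, hd⟩
  obtain ⟨Φ, hΦ, -, h1, -⟩ := h58_level_modEq (k := k) q (exists_modular_equation q hq)
  exact key _ Φ hΦ.ne_zero rfl h1

end Good

/-! ### Field algebra -/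

section Alg

variable {F : Type*} [Field F]

theorem df86_alg_formula (A B T S X1 X1q D Dq c : F) (h1 : A * T + B * S = 0)
    (hT6 : T ^ 6 = X1 * D) (hS6 : S ^ 6 = c ^ 6 * (X1q * Dq)) (hDq : Dq ≠ 0) :
    D * Dq⁻¹ * (A ^ 6 * X1) = c ^ 6 * B ^ 6 * X1q := by
  have h2 : A * T = -(B * S) := by linear_combination h1
  have h3 : A ^ 6 * T ^ 6 = B ^ 6 * S ^ 6 := by
    have h6 : (A * T) ^ 6 = (-(B * S)) ^ 6 := by rw [h2]
    rw [mul_pow] at h6
    rw [h6]
    ring
  rw [hT6, hS6] at h3
  field_simp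
  linear_combination h3

theorem df86_alg_cross (A B A' B' T S : F) (h1 : A * T + B * S = 0) (h2 : A' * S + B' * T = 0)
    (hT : T ≠ 0) (hS : S ≠ 0) : A * A' = B * B' := by
  have h3 : A * A' * (T * S) = B * B' * (T * S) := by
    have e1 : A * T = -(B * S) := by linear_combination h1
    have e2 : A' * S = -(B' * T) := by linear_combination h2
    calc A * A' * (T * S) = (A * T) * (A' * S) := by ring
      _ = (-(B * S)) * (-(B' * T)) := by rw [e1, e2]
      _ = B * B' * (T * S) := by ring
  exact mul_right_cancel₀ (mul_ne_zero hT hS) h3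

theorem df86_alg_prod (U Uw A B A' B' X1 X1q c : F) (hU : U * (A ^ 6 * X1) = c ^ 6 * B ^ 6 * X1q)
    (hUw : Uw * (A' ^ 6 * X1q) = c ^ 6 * B' ^ 6 * X1) (hAB : A * A' = B * B')
    (hA : A ≠ 0) (hA' : A' ≠ 0) (hX1 : X1 ≠ 0) (hX1q : X1q ≠ 0) : Uw * U = c ^ 12 := by
  have h : Uw * U * ((A * A') ^ 6 * (X1 * X1q)) = c ^ 12 * ((A * A') ^ 6 * (X1 * X1q)) := by
    calc Uw * U * ((A * A') ^ 6 * (X1 * X1q))
        = (Uw * (A' ^ 6 * X1q)) * (U * (A ^ 6 * X1)) := by ring
      _ = (c ^ 6 * B' ^ 6 * X1) * (c ^ 6 * B ^ 6 * X1q) := by rw [hU, hUw]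
      _ = c ^ 12 * ((B * B') ^ 6 * (X1 * X1q)) := by ring
      _ = c ^ 12 * ((A * A') ^ 6 * (X1 * X1q)) := by rw [hAB]
  exact mul_right_cancel₀
    (mul_ne_zero (pow_ne_zero 6 (mul_ne_zero hA hA')) (mul_ne_zero hX1 hX1q)) h

end Alg

/-! ### The modular unit `U = Δ(Q)/Δ(Q^q)` -/

section Formula

variable (k : Type*) [Field k] [CharZero k] (q : ℕ) [NeZero q]

/-- The modular unit `U = Δ(Q)/Δ(Q^q)` as a formal Laurent series over `k`. -/
def df86_U : LaurentSeries k := DeltaSer k * qExpand k q (DeltaInv k)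

theorem df86_U_eq : df86_U k q = DeltaSer k * (qExpand k q (DeltaSer k))⁻¹ := by
  rw [df86_U, h58_qExpand_DeltaSer_inv]

/-- `J^4 (J - 1728)^3`. -/
def df86_X1 : LaurentSeries k := jqModC k ^ 4 * (jqModC k - HahnSeries.C (1728 : k)) ^ 3

/-- `J_q^4 (J_q - 1728)^3`. -/
def df86_X1q : LaurentSeries k :=
  qExpand k q (jqModC k) ^ 4 * (qExpand k q (jqModC k) - HahnSeries.C (1728 : k)) ^ 3

theorem df86_theta_ne_zero : partC_theta (jqModC k) ≠ 0 := by
  intro h
  have h1 := congrArg (fun f : LaurentSeries k => f.coeff (-1)) h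
  simp only [partC_theta_coeff, coeff_jqModC_neg_one, HahnSeries.coeff_zero] at h1
  norm_num at h1

theorem df86_Cq_ne_zero : (HahnSeries.C (q : k) : LaurentSeries k) ≠ 0 :=
  partC_C_ne_zero (Nat.cast_ne_zero.mpr (NeZero.ne q))

theorem df86_theta_q_ne_zero : partC_theta (qExpand k q (jqModC k)) ≠ 0 := by
  rw [partC_theta_qExpand]
  exact mul_ne_zero (df86_Cq_ne_zero k q)
    ((map_ne_zero_iff _ (qExpand_injective q)).mpr (df86_theta_ne_zero k))

theorem df86_X1q_ne_zero : df86_X1q k q ≠ 0 :=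
  mul_ne_zero (pow_ne_zero _ (partC_qExpand_J_ne_zero (jqModC k) (coeff_jqModC_neg_one k) q))
    (pow_ne_zero _ (partC_qExpand_J_sub_C_ne_zero (jqModC k) (coeff_jqModC_neg_one k) q _))

theorem df86_X1_ne_zero : df86_X1 k ≠ 0 := by
  have h := df86_X1q_ne_zero k 1
  rwa [df86_X1q, qExpand_one_apply] at h

theorem df86_theta_pow_six :
    partC_theta (jqModC k) ^ 6 = df86_X1 k * DeltaSer k := by
  have h := h58_theta_pow_six (k := k) theta_J_pow_six
  rw [partC_eq_theta_of_coeff (jqModC k) (theta (jqModC k)) (fun n => rfl)] at h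
  exact h

theorem df86_theta_q_pow_six :
    partC_theta (qExpand k q (jqModC k)) ^ 6 =
      HahnSeries.C (q : k) ^ 6 * (df86_X1q k q * qExpand k q (DeltaSer k)) := by
  rw [partC_theta_qExpand, mul_pow, ← map_pow (qExpand k q), df86_theta_pow_six, df86_X1,
    df86_X1q, map_mul, map_mul, map_pow, map_pow, map_sub, qExpand_C]

theorem df86_DeltaSer_q_ne_zero : qExpand k q (DeltaSer k) ≠ 0 :=
  (map_ne_zero_iff _ (qExpand_injective q)).mpr
    (partC_ne_zero_of_coeff (n := 1) (by rw [h58_DeltaSer_coeff_one]; exact one_ne_zero))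

/-- The derivative of the relation `G(J, J_q) = 0`. -/
theorem df86_rel (a b : LaurentSeries k) (G : Polynomial (Polynomial k))
    (hG : df86_ev a b G = 0) :
    df86_A a b G * partC_theta a + df86_ev a b (derivative G) * partC_theta b = 0 := by
  have h := df86_chain a b G
  rw [hG, map_zero] at h
  exact h.symm

/-- **The formula**: `U · (A^6 · J^4 (J-1728)^3) = q^6 · B^6 · J_q^4 (J_q-1728)^3` with
`A = ∂G/∂X`, `B = ∂G/∂Y` at `(J, J_q)`, for every relation `G(J, J_q) = 0`. -/
theorem df86_U_formula (G : Polynomial (Polynomial k))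
    (hG : df86_ev (jqModC k) (qExpand k q (jqModC k)) G = 0) :
    df86_U k q * (df86_A (jqModC k) (qExpand k q (jqModC k)) G ^ 6 * df86_X1 k) =
      HahnSeries.C (q : k) ^ 6 *
        df86_ev (jqModC k) (qExpand k q (jqModC k)) (derivative G) ^ 6 * df86_X1q k q := by
  rw [df86_U_eq]
  exact df86_alg_formula _ _ _ _ _ _ _ _ _ (df86_rel k _ _ G hG) (df86_theta_pow_six k)
    (df86_theta_q_pow_six k q) (df86_DeltaSer_q_ne_zero k q)

/-- `A ≠ 0` as soon as `B ≠ 0`. -/
theorem df86_A_ne_zero (G : Polynomial (Polynomial k))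
    (hG : df86_ev (jqModC k) (qExpand k q (jqModC k)) G = 0)
    (hB : df86_ev (jqModC k) (qExpand k q (jqModC k)) (derivative G) ≠ 0) :
    df86_A (jqModC k) (qExpand k q (jqModC k)) G ≠ 0 := by
  intro hA
  have h := df86_rel k _ _ G hG
  rw [hA, zero_mul, zero_add] at h
  exact mul_ne_zero hB (df86_theta_q_ne_zero k q) h

end Formula

/-! ### Membership in intermediate fields -/

section Mem

variable {k : Type*} [Field k] {K : Type*} [Field K] [Algebra k K]

theorem df86_ev_mem (E : IntermediateField k K) {a b : K} (ha : a ∈ E) (hb : b ∈ E)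
    (G : Polynomial (Polynomial k)) : df86_ev a b G ∈ E := by
  have h := df86_map_ev E.val ⟨a, ha⟩ ⟨b, hb⟩ G
  have h' : df86_ev a b G = ((df86_ev (⟨a, ha⟩ : E) ⟨b, hb⟩ G : E) : K) := h.symm
  rw [h']
  exact Subtype.prop _

theorem df86_A_mem (E : IntermediateField k K) {a b : K} (ha : a ∈ E) (hb : b ∈ E)
    (G : Polynomial (Polynomial k)) : df86_A a b G ∈ E := by
  have h := df86_map_A E.val ⟨a, ha⟩ ⟨b, hb⟩ G
  have h' : df86_A a b G = ((df86_A (⟨a, ha⟩ : E) ⟨b, hb⟩ G : E) : K) := h.symm
  rw [h']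
  exact Subtype.prop _

end Mem

/-! ### `U ∈ k(J, J_q)` and the Atkin–Lehner product -/

section Transport

variable {k : Type*} [Field k] {K : Type*} [CommRing K] [Algebra k K]

/-- `a^4 (a - 1728)^3` in any `k`-algebra. -/
def df86_X (k : Type*) [Field k] {K : Type*} [CommRing K] [Algebra k K] (a : K) : K :=
  a ^ 4 * (a - algebraMap k K 1728) ^ 3

theorem df86_map_X {K' : Type*} [CommRing K'] [Algebra k K'] (w : K →ₐ[k] K') (a : K) :
    w (df86_X k a) = df86_X k (w a) := by
  unfold df86_X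
  rw [map_mul, map_pow, map_pow, map_sub, AlgHom.commutes]

/-- The formula `u · (A^6 · X(a)) = q^6 · B^6 · X(b)` as a predicate on `(u, a, b)` in a
`k`-algebra; it is transported by `k`-algebra homomorphisms. -/
def df86_Formula (q : ℕ) (G : Polynomial (Polynomial k)) (u a b : K) : Prop :=
  u * (df86_A a b G ^ 6 * df86_X k a) =
    algebraMap k K (q : k) ^ 6 * df86_ev a b (derivative G) ^ 6 * df86_X k b

theorem df86_Formula_map {K' : Type*} [CommRing K'] [Algebra k K'] (w : K →ₐ[k] K') (q : ℕ)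
    (G : Polynomial (Polynomial k)) (u a b : K) (h : df86_Formula q G u a b) :
    df86_Formula q G (w u) (w a) (w b) := by
  unfold df86_Formula at h ⊢
  have h' := congrArg w h
  rw [map_mul, map_mul, map_pow, map_mul, map_mul, map_pow, map_pow, df86_map_A, df86_map_ev,
    df86_map_X, df86_map_X, AlgHom.commutes] at h'
  exact h'

theorem df86_Formula_of_map {K' : Type*} [CommRing K'] [Algebra k K'] (w : K →ₐ[k] K')
    (hw : Function.Injective w) (q : ℕ)
    (G : Polynomial (Polynomial k)) (u a b : K) (h : df86_Formula q G (w u) (w a) (w b)) :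
    df86_Formula q G u a b := by
  unfold df86_Formula at h ⊢
  apply hw
  rw [map_mul, map_mul, map_pow, map_mul, map_mul, map_pow, map_pow, df86_map_A, df86_map_ev,
    df86_map_X, df86_map_X, AlgHom.commutes]
  exact h

end Transport

section Unit

variable (k : Type*) [Field k] [CharZero k] (q : ℕ) [NeZero q]

theorem df86_X_J : df86_X k (jqModC k) = df86_X1 k := by
  rw [df86_X, df86_X1, LaurentSeries.algebraMap_apply]

theorem df86_X_Jq : df86_X k (qExpand k q (jqModC k)) = df86_X1q k q := by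
  rw [df86_X, df86_X1q, LaurentSeries.algebraMap_apply]

theorem df86_Formula_U (G : Polynomial (Polynomial k))
    (hG : df86_ev (jqModC k) (qExpand k q (jqModC k)) G = 0) :
    df86_Formula q G (df86_U k q) (jqModC k) (qExpand k q (jqModC k)) := by
  unfold df86_Formula
  rw [df86_X_J, df86_X_Jq, LaurentSeries.algebraMap_apply]
  exact df86_U_formula k q G hG

/-- **`U = Δ(Q)/Δ(Q^q)` lies in every intermediate field containing `J` and `J_q`.** -/
theorem df86_U_mem (hq : q.Prime) (E : IntermediateField k (LaurentSeries k))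
    (hJ : jqModC k ∈ E) (hJq : qExpand k q (jqModC k) ∈ E) : df86_U k q ∈ E := by
  obtain ⟨G, hG, hB⟩ := df86_exists_good k q hq
  have hA := df86_A_ne_zero k q G hG hB
  have hf := df86_U_formula k q G hG
  have hden : df86_A (jqModC k) (qExpand k q (jqModC k)) G ^ 6 * df86_X1 k ≠ 0 :=
    mul_ne_zero (pow_ne_zero 6 hA) (df86_X1_ne_zero k)
  have hU : df86_U k q = (HahnSeries.C (q : k) ^ 6 *
        df86_ev (jqModC k) (qExpand k q (jqModC k)) (derivative G) ^ 6 * df86_X1q k q) /
      (df86_A (jqModC k) (qExpand k q (jqModC k)) G ^ 6 * df86_X1 k) := by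
    rw [eq_div_iff hden]
    exact hf
  rw [hU]
  have hX1m : df86_X1 k ∈ E :=
    mul_mem (pow_mem hJ 4) (pow_mem (sub_mem hJ (partC_C_mem E _)) 3)
  have hX1qm : df86_X1q k q ∈ E :=
    mul_mem (pow_mem hJq 4) (pow_mem (sub_mem hJq (partC_C_mem E _)) 3)
  exact div_mem
    (mul_mem (mul_mem (pow_mem (partC_C_mem E _) 6) (pow_mem (df86_ev_mem E hJ hJq _) 6)) hX1qm)
    (mul_mem (pow_mem (df86_A_mem E hJ hJq _) 6) hX1m)

/-- `U ∈ k(X₀(M))^{full}` for `q ∣ M`. -/
theorem df86_U_mem_full (hq : q.Prime) (M : ℕ) (hqM : q ∣ M) :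
    df86_U k q ∈ modularFunctionFieldFullC k M :=
  df86_U_mem k q hq _ (jqModC_mem_full k M) (jqModCd_mem_full k M hqM)

/-- **The Atkin–Lehner product.** If a `k`-algebra endomorphism `w` of an intermediate field
`E ∋ J, J_q` exchanges `J` and `J_q`, then `w(U) · U = q^12`. -/
theorem df86_w_mul (hq : q.Prime) (E : IntermediateField k (LaurentSeries k))
    (hJ : jqModC k ∈ E) (hJq : qExpand k q (jqModC k) ∈ E) (w : E →ₐ[k] E)
    (hw1 : w ⟨jqModC k, hJ⟩ = ⟨qExpand k q (jqModC k), hJq⟩)
    (hw2 : w ⟨qExpand k q (jqModC k), hJq⟩ = ⟨jqModC k, hJ⟩) :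
    ((w ⟨df86_U k q, df86_U_mem k q hq E hJ hJq⟩ : E) : LaurentSeries k) * df86_U k q =
      HahnSeries.C ((q : k) ^ 12) := by
  obtain ⟨G, hG, hB⟩ := df86_exists_good k q hq
  have hA := df86_A_ne_zero k q G hG hB
  have hvinj : Function.Injective (E.val : E → LaurentSeries k) := E.val.toRingHom.injective
  have hwinj : Function.Injective (w : E → E) := w.toRingHom.injective
  -- the composite `φ = val ∘ w`
  have hφ1 : E.val (w ⟨jqModC k, hJ⟩) = qExpand k q (jqModC k) := by rw [hw1]; rfl
  have hφ2 : E.val (w ⟨qExpand k q (jqModC k), hJq⟩) = jqModC k := by rw [hw2]; rfl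
  -- the formula in `E`, then its image under `φ`
  have hFE : df86_Formula q G (⟨df86_U k q, df86_U_mem k q hq E hJ hJq⟩ : E)
      ⟨jqModC k, hJ⟩ ⟨qExpand k q (jqModC k), hJq⟩ :=
    df86_Formula_of_map E.val hvinj q G _ _ _ (df86_Formula_U k q G hG)
  have hFw := df86_Formula_map (E.val.comp w) q G _ _ _ hFE
  simp only [AlgHom.comp_apply] at hFw
  rw [hφ1, hφ2] at hFw
  unfold df86_Formula at hFw
  rw [df86_X_J, df86_X_Jq, LaurentSeries.algebraMap_apply] at hFw
  -- the swapped relation and nonvanishing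
  have hG' : df86_ev (qExpand k q (jqModC k)) (jqModC k) G = 0 := by
    have h0 : df86_ev (⟨jqModC k, hJ⟩ : E) ⟨qExpand k q (jqModC k), hJq⟩ G = 0 := by
      apply hvinj
      rw [df86_map_ev, map_zero]
      exact hG
    have h1 := df86_map_ev (E.val.comp w) (⟨jqModC k, hJ⟩ : E) ⟨qExpand k q (jqModC k), hJq⟩ G
    rw [h0, map_zero] at h1
    simp only [AlgHom.comp_apply] at h1
    rw [hφ1, hφ2] at h1
    exact h1.symm
  have hB' : df86_ev (qExpand k q (jqModC k)) (jqModC k) (derivative G) ≠ 0 := by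
    have h1 := df86_map_ev (E.val.comp w) (⟨jqModC k, hJ⟩ : E) ⟨qExpand k q (jqModC k), hJq⟩
      (derivative G)
    simp only [AlgHom.comp_apply] at h1
    rw [hφ1, hφ2] at h1
    rw [← h1]
    intro h0
    have h2 : df86_ev (⟨jqModC k, hJ⟩ : E) ⟨qExpand k q (jqModC k), hJq⟩ (derivative G) = 0 := by
      apply hwinj
      apply hvinj
      rw [h0, map_zero, map_zero]
    apply hB
    have h3 := df86_map_ev E.val (⟨jqModC k, hJ⟩ : E) ⟨qExpand k q (jqModC k), hJq⟩
      (derivative G)
    rw [h2, map_zero] at h3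
    exact h3.symm
  have hA' : df86_A (qExpand k q (jqModC k)) (jqModC k) G ≠ 0 := by
    have h1 := df86_map_A (E.val.comp w) (⟨jqModC k, hJ⟩ : E) ⟨qExpand k q (jqModC k), hJq⟩ G
    simp only [AlgHom.comp_apply] at h1
    rw [hφ1, hφ2] at h1
    rw [← h1]
    intro h0
    have h2 : df86_A (⟨jqModC k, hJ⟩ : E) ⟨qExpand k q (jqModC k), hJq⟩ G = 0 := by
      apply hwinj
      apply hvinj
      rw [h0, map_zero, map_zero]
    apply hA
    have h3 := df86_map_A E.val (⟨jqModC k, hJ⟩ : E) ⟨qExpand k q (jqModC k), hJq⟩ G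
    rw [h2, map_zero] at h3
    exact h3.symm
  have hcross := df86_alg_cross _ _ _ _ _ _ (df86_rel k _ _ G hG) (df86_rel k _ _ G hG')
    (df86_theta_ne_zero k) (df86_theta_q_ne_zero k q)
  have hprod := df86_alg_prod _ _ _ _ _ _ _ _ _ (df86_U_formula k q G hG) hFw hcross hA hA'
    (df86_X1_ne_zero k) (df86_X1q_ne_zero k q)
  rw [map_pow]
  exact hprod

end Unit

/-! ### Integrality over `ℤ[J]` and integer coefficients -/

section Integral

variable (k : Type*) [Field k] (q : ℕ) [NeZero q]

/-- `U` has integer coefficients. -/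
theorem df86_U_coeffMap :
    df86_U k q = coeffMap (Int.castRingHom k) (DeltaSer ℤ * qE ℤ q (DeltaInv ℤ)) := by
  rw [df86_U, map_mul, coeffMap_qE, coeffMap_DeltaSer, coeffMap_DeltaInv, qE_of_neZero]

/-- `U⁻¹ = Δ(Q^q)/Δ(Q)`. -/
def df86_Uinv : LaurentSeries k := qExpand k q (DeltaSer k) * DeltaInv k

/-- `U⁻¹` has integer coefficients. -/
theorem df86_Uinv_coeffMap :
    df86_Uinv k q = coeffMap (Int.castRingHom k) (qE ℤ q (DeltaSer ℤ) * DeltaInv ℤ) := by
  rw [df86_Uinv, map_mul, coeffMap_qE, coeffMap_DeltaSer, coeffMap_DeltaInv, qE_of_neZero]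

theorem df86_U_mul_Uinv : df86_U k q * df86_Uinv k q = 1 := by
  have h1 : qExpand k q (DeltaInv k) * qExpand k q (DeltaSer k) = 1 := by
    rw [← map_mul, mul_comm, DeltaSer_mul_DeltaInv, map_one]
  calc df86_U k q * df86_Uinv k q
      = (DeltaSer k * DeltaInv k) * (qExpand k q (DeltaInv k) * qExpand k q (DeltaSer k)) := by
        rw [df86_U, df86_Uinv]; ring
    _ = 1 := by rw [DeltaSer_mul_DeltaInv, h1, one_mul]

theorem df86_Uinv_eq : df86_Uinv k q = (df86_U k q)⁻¹ :=
  (inv_eq_of_mul_eq_one_right (df86_U_mul_Uinv k q)).symm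

theorem df86_U_ne_zero : df86_U k q ≠ 0 :=
  left_ne_zero_of_mul_eq_one (df86_U_mul_Uinv k q)

/-- **Integrality (1)**: `q^12 · U` is a root of a monic polynomial with coefficients in `ℤ[J]`. -/
theorem df86_int_U (hq : q.Prime) :
    ∃ P : Polynomial (Polynomial ℤ), P.Monic ∧
      P.eval₂ (evJ k) (HahnSeries.C ((q : k) ^ 12) * df86_U k q) = 0 := by
  obtain ⟨-, Q, -, hQ, -, h4⟩ := exists_unit_equations q hq
  refine ⟨Q, hQ, ?_⟩
  have := h58_eval₂_transfer (evJ ℤ) (evJ k) (h58_coeffMap_comp_evJ k) Q _ h4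
  rw [map_mul, map_pow, map_natCast, map_mul, coeffMap_qE, coeffMap_DeltaSer,
    coeffMap_DeltaInv, qE_of_neZero] at this
  rw [h58_C_natCast_pow, df86_U]
  exact this

/-- **Integrality (2)**: `q^12 · U⁻¹` is a root of a monic polynomial with coefficients in
`ℤ[J]`. -/
theorem df86_int_V (hq : q.Prime) :
    ∃ P : Polynomial (Polynomial ℤ), P.Monic ∧
      P.eval₂ (evJ k) (HahnSeries.C ((q : k) ^ 12) * df86_Uinv k q) = 0 := by
  obtain ⟨P, -, hP, -, h3, -⟩ := exists_unit_equations q hq
  refine ⟨P, hP, ?_⟩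
  have := h58_eval₂_transfer (evJ ℤ) (evJ k) (h58_coeffMap_comp_evJ k) P _ h3
  rw [map_mul, map_pow, map_natCast, map_mul, coeffMap_qE, coeffMap_DeltaSer,
    coeffMap_DeltaInv, qE_of_neZero] at this
  rw [h58_C_natCast_pow, df86_Uinv]
  exact this

end Integral

section Final

variable (k : Type*) [Field k] [CharZero k] (q : ℕ) [NeZero q]

/-- `U⁻¹ ∈ E` as well. -/
theorem df86_Uinv_mem (hq : q.Prime) (E : IntermediateField k (LaurentSeries k))
    (hJ : jqModC k ∈ E) (hJq : qExpand k q (jqModC k) ∈ E) : df86_Uinv k q ∈ E := by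
  rw [df86_Uinv_eq]
  exact E.inv_mem (df86_U_mem k q hq E hJ hJq)

/-- **`w(U) = q^12 · U⁻¹`** for every `k`-algebra endomorphism `w` of `E ∋ J, J_q` exchanging
`J` and `J_q`. -/
theorem df86_w_U (hq : q.Prime) (E : IntermediateField k (LaurentSeries k))
    (hJ : jqModC k ∈ E) (hJq : qExpand k q (jqModC k) ∈ E) (w : E →ₐ[k] E)
    (hw1 : w ⟨jqModC k, hJ⟩ = ⟨qExpand k q (jqModC k), hJq⟩)
    (hw2 : w ⟨qExpand k q (jqModC k), hJq⟩ = ⟨jqModC k, hJ⟩) :
    ((w ⟨df86_U k q, df86_U_mem k q hq E hJ hJq⟩ : E) : LaurentSeries k) =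
      HahnSeries.C ((q : k) ^ 12) * df86_Uinv k q := by
  have h := df86_w_mul k q hq E hJ hJq w hw1 hw2
  calc ((w ⟨df86_U k q, df86_U_mem k q hq E hJ hJq⟩ : E) : LaurentSeries k)
      = ((w ⟨df86_U k q, df86_U_mem k q hq E hJ hJq⟩ : E) : LaurentSeries k) *
          (df86_U k q * df86_Uinv k q) := by rw [df86_U_mul_Uinv, mul_one]
    _ = HahnSeries.C ((q : k) ^ 12) * df86_Uinv k q := by rw [← mul_assoc, h]

end Final

end

end Fermat.Agent.S34
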