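import Fermat.Prelude.Def_ModularCurve_ModularUnit
import Fermat.Agent.S28.UnitEq
import Fermat.Agent.S42.GaloisFinal41
import Fermat.Agent.S42.GaloisK1_41
import Fermat.Agent.S42.LaurentInter56

/-!
# S34 lab, row P4' (helper42): the modular unit `U = Δ(Q)/Δ(Q^p)`

`U := ModularCurve.modularUnitSeries p = Δ(Q)/Δ(Q^p)` (Prelude), `p` prime.

* `dq42_coe_eq_of_ev` : the Laurent series of `G ∈ F_ℂ(N)` is the expansion at infinity of the
  holomorphic function `ev G` (dictionary formal series / functions on the upper half plane).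
* `dq42_exists_of_monic` : a `Γ₀(N)`-invariant holomorphic function which is integral over
  `R[j]` is `ev G`.
* `dq42_ev_level` : `ev` does not depend on the level.
* `dq42_U_mem_full` : `U ∈ modularFunctionFieldFull p` (**I1**), with the variants
  `dq42_U_mem_full_of_dvd`, `dq42_U_mem_baseChange`, `dq42_U_mem_bar`, `dq42_Uinv_mem_full`.
* `dq42_U_eq_int`, `dq42_Uinv_eq_int`, `dq42_coeffEmb_U`, `dq42_coeffEmb_Uinv` : `U` and `U⁻¹`
  have integral coefficients (`U = coeffMap (DeltaSer ℤ * qE ℤ p (DeltaInv ℤ))`), with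
  `dq42_UZ_mul_UinvZ`; `dq42_isMonicOfOrder_inv` : `U⁻¹` has order `p - 1`, leading coefficient `1`.
* `dq42_unit_equations`, `dq42_unit_equations_field` : `p^12 U⁻¹` and `p^12 U` are roots of monic
  polynomials with coefficients in `ℤ[j]` (**I3**, formal form).
* `dq42_ev_VC` : `ev (p^12 U) = (τ ↦ p^12 Δ(τ)/Δ(pτ))`.
-/

set_option autoImplicit false

open ModularCurve AlgebraicCurve MatrixGroups UpperHalfPlane IntermediateField CongruenceSubgroup
open Fermat.Agent.S24 Fermat.Agent.S28 Fermat.Agent.S42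

namespace Fermat.Agent.S34

noncomputable section

/-! ### Polynomials in the generators -/

/-- The element of `F_ℂ(N)` given by a polynomial in the generators `j(q^d)`, `d ∣ N`. -/
def dq42_polyElt (N : ℕ) [NeZero N] (P : MvPolynomial N.divisors ℂ) : gi41_FC N :=
  MvPolynomial.aeval (fun d : N.divisors =>
    (⟨ff79_JJ ℂ d.1, ff79_JJ_mem ℂ N d.1 (Nat.dvd_of_mem_divisors d.2)⟩ : gi41_FC N)) P

theorem dq42_polyElt_coe (N : ℕ) [NeZero N] (P : MvPolynomial N.divisors ℂ) :
    ((dq42_polyElt N P : gi41_FC N) : LaurentSeries ℂ) =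
      MvPolynomial.aeval (fun d : N.divisors => ff79_JJ ℂ d.1) P := by
  have h := MvPolynomial.comp_aeval_apply (R := ℂ)
    (f := fun d : N.divisors =>
      (⟨ff79_JJ ℂ d.1, ff79_JJ_mem ℂ N d.1 (Nat.dvd_of_mem_divisors d.2)⟩ : gi41_FC N))
    (laurentBaseChange ℂ (modularFunctionFieldFull N)).val P
  exact h

theorem dq42_polyElt_ev (N : ℕ) [NeZero N] (P : MvPolynomial N.divisors ℂ) :
    ff79_evMer N (dq42_polyElt N P) =
      algebraMap mer95_O mer95_MER
        (MvPolynomial.aeval (fun d : N.divisors => ff79_jO d.1) P) := by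
  have h1 := MvPolynomial.comp_aeval_apply (R := ℂ)
    (f := fun d : N.divisors =>
      (⟨ff79_JJ ℂ d.1, ff79_JJ_mem ℂ N d.1 (Nat.dvd_of_mem_divisors d.2)⟩ : gi41_FC N))
    (ff79_evMer N) P
  have h2 := MvPolynomial.comp_aeval_apply (R := ℂ)
    (f := fun d : N.divisors => ff79_jO d.1) ff79_incl P
  have h3 : (fun d : N.divisors => ff79_evMer N
      (⟨ff79_JJ ℂ d.1, ff79_JJ_mem ℂ N d.1 (Nat.dvd_of_mem_divisors d.2)⟩ : gi41_FC N)) =
      fun d : N.divisors => ff79_incl (ff79_jO d.1) := by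
    funext d
    exact ff79_evMer_gen N d.1 (Nat.dvd_of_mem_divisors d.2)
  unfold dq42_polyElt
  rw [h1, h3, ← h2]
  rfl

theorem dq42_polyO_val (N : ℕ) (P : MvPolynomial N.divisors ℂ) :
    (MvPolynomial.aeval (fun d : N.divisors => ff79_jO d.1) P : mer95_O).1 =
      MvPolynomial.aeval (fun d : N.divisors => genFn 1 d.1) P := by
  have h := MvPolynomial.comp_aeval_apply (R := ℂ)
    (f := fun d : N.divisors => ff79_jO d.1) mer95_O.val P
  exact h

/-- **Dictionary.**  If `ev G` is the holomorphic function `f` and `f` has the expansion `L(w^N)`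
at infinity, then the Laurent series `G` is `L`. -/
theorem dq42_coe_eq_of_ev (N : ℕ) [NeZero N] (G : gi41_FC N) (f : mer95_O)
    (L : LaurentSeries ℂ) (hf : HasWExp N f.1 (qExpand ℂ N L))
    (hG : ff79_evMer N G = algebraMap mer95_O mer95_MER f) :
    (G : LaurentSeries ℂ) = L := by
  have hmem : (G : LaurentSeries ℂ) ∈ IntermediateField.adjoin ℂ (ff79_gens ℂ N) := by
    rw [← ff79_eq_adjoin]
    exact G.2
  rw [IntermediateField.mem_adjoin_iff_div] at hmem
  obtain ⟨r, hr, s, hs, hrs⟩ := hmem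
  rw [← ff79_range] at hr hs
  obtain ⟨PA, hPA⟩ := hr
  obtain ⟨PB, hPB⟩ := hs
  change ff79_phiJ ℂ N PA = r at hPA
  change ff79_phiJ ℂ N PB = s at hPB
  subst hPA hPB
  have hA : ff79_phiJ ℂ N PA = ((dq42_polyElt N PA : gi41_FC N) : LaurentSeries ℂ) :=
    (dq42_polyElt_coe N PA).symm
  have hB : ff79_phiJ ℂ N PB = ((dq42_polyElt N PB : gi41_FC N) : LaurentSeries ℂ) :=
    (dq42_polyElt_coe N PB).symm
  by_cases hB0 : ff79_phiJ ℂ N PB = 0
  · -- `G = 0`
    have hG0 : G = 0 := by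
      apply Subtype.ext
      rw [hrs, hB0, div_zero]
      rfl
    rw [hG0, map_zero] at hG
    have hf0 : f = 0 := mer95_algebraMap_injective (by rw [← hG, map_zero])
    have hf1 : f.1 = 0 := by rw [hf0]; rfl
    have hL := (hf.eq_zero_iff).mp hf1
    have hL0 : L = 0 := qExpand_injective (R := ℂ) N (by rw [hL, map_zero])
    rw [hG0, hL0]
    rfl
  · have hmul : G * dq42_polyElt N PB = dq42_polyElt N PA := by
      apply Subtype.ext
      show (G : LaurentSeries ℂ) * ((dq42_polyElt N PB : gi41_FC N) : LaurentSeries ℂ) = _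
      rw [← hA, ← hB, hrs, div_mul_cancel₀ _ hB0]
    have hev := congrArg (ff79_evMer N) hmul
    rw [map_mul, hG, dq42_polyElt_ev, dq42_polyElt_ev, ← map_mul] at hev
    have hO := mer95_algebraMap_injective hev
    have hfun : f.1 * MvPolynomial.aeval (fun d : N.divisors => genFn 1 d.1) PB =
        MvPolynomial.aeval (fun d : N.divisors => genFn 1 d.1) PA := by
      rw [← dq42_polyO_val, ← dq42_polyO_val, ← hO]
      rfl
    have h1 := hf.mul (ff79_hasWExp N PB)
    rw [hfun] at h1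
    have h2 := h1.unique (ff79_hasWExp N PA)
    rw [← map_mul] at h2
    have h3 : L * ff79_phiJ ℂ N PB = ff79_phiJ ℂ N PA := qExpand_injective (R := ℂ) N h2
    rw [hrs, div_eq_iff hB0, h3]

/-! ### Invariant functions integral over `R[j]` come from the function field -/

/-- Evaluation of a holomorphic function at a point, as a ring homomorphism. -/
def dq42_evPt (τ : ℍ) : mer95_O →+* ℂ :=
  (Pi.evalRingHom (fun _ : ℍ => ℂ) τ).comp mer95_O.val.toRingHom

theorem dq42_evPt_apply (τ : ℍ) (f : mer95_O) : dq42_evPt τ f = f.1 τ := rfl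

/-- `R[Y] → O`, `Y ↦ j`. -/
def dq42_psiO (R : Subring ℂ) : Polynomial R →+* mer95_O :=
  Polynomial.eval₂RingHom ((algebraMap ℂ mer95_O).comp R.subtype) l1j27_jO

/-- `R[Y] → F_ℂ(N)`, `Y ↦ j`. -/
def dq42_psiF (N : ℕ) [NeZero N] (R : Subring ℂ) : Polynomial R →+* gi41_FC N :=
  Polynomial.eval₂RingHom ((algebraMap ℂ (gi41_FC N)).comp R.subtype) (gi41_j0 N)

theorem dq42_evPt_comp_psiO (R : Subring ℂ) (τ : ℍ) :
    (dq42_evPt τ).comp (dq42_psiO R) = evalJ R τ := by
  refine Polynomial.ringHom_ext (fun a => ?_) ?_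
  · simp only [RingHom.comp_apply, dq42_psiO, Polynomial.coe_eval₂RingHom, Polynomial.eval₂_C,
      evalJ_apply, Polynomial.map_C, Polynomial.eval_C]
    rfl
  · simp only [RingHom.comp_apply, dq42_psiO, Polynomial.coe_eval₂RingHom, Polynomial.eval₂_X,
      evalJ_apply, Polynomial.map_X, Polynomial.eval_X]
    rfl

theorem dq42_ev_comp_psiF (N : ℕ) [NeZero N] (R : Subring ℂ) :
    ((ff79_evMer N : gi41_FC N →+* mer95_MER)).comp (dq42_psiF N R) =
      (algebraMap mer95_O mer95_MER).comp (dq42_psiO R) := by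
  refine Polynomial.ringHom_ext (fun a => ?_) ?_
  · simp only [RingHom.comp_apply, dq42_psiF, dq42_psiO, Polynomial.coe_eval₂RingHom,
      Polynomial.eval₂_C, RingHom.coe_coe, AlgHom.commutes]
    exact IsScalarTower.algebraMap_apply ℂ mer95_O mer95_MER _
  · simp only [RingHom.comp_apply, dq42_psiF, dq42_psiO, Polynomial.coe_eval₂RingHom,
      Polynomial.eval₂_X, RingHom.coe_coe]
    exact gi41_ev_j0 N

/-- A `Γ₀(N)`-invariant holomorphic function on the upper half plane which is a root of a monic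
polynomial with coefficients in `R[j]` is `ev G` for some `G` in the function field. -/
theorem dq42_exists_of_monic (N : ℕ) [NeZero N] (f : mer95_O)
    (hinv : ∀ g ∈ Gamma0 N, actFn g f.1 = f.1) (R : Subring ℂ)
    (Q : Polynomial (Polynomial R)) (hQ : Q.Monic)
    (hroot : ∀ τ : ℍ, Q.eval₂ (evalJ R τ) (f.1 τ) = 0) :
    ∃ G : gi41_FC N, ff79_evMer N G = algebraMap mer95_O mer95_MER f := by
  have hx : ∀ g ∈ Gamma0 N, g • algebraMap mer95_O mer95_MER f = algebraMap mer95_O mer95_MER f := by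
    intro g hg
    rw [mer95_smul_algebraMap_SL]
    congr 1
    apply Subtype.ext
    funext τ
    rw [mer95_smul_apply_SL]
    exact congrFun (hinv g hg) τ
  have hzero : Q.eval₂ (dq42_psiO R) f = 0 := by
    apply Subtype.ext
    funext τ
    have h := Polynomial.hom_eval₂ Q (dq42_psiO R) (dq42_evPt τ) f
    rw [dq42_evPt_comp_psiO, dq42_evPt_apply, dq42_evPt_apply] at h
    rw [h]
    exact hroot τ
  refine gi41_final_K2_top N hx ⟨Q.map (dq42_psiF N R), (hQ.map _).ne_zero, ?_⟩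
  rw [Polynomial.eval₂_map, dq42_ev_comp_psiF, ← Polynomial.hom_eval₂, hzero, map_zero]

/-! ### The functions `p^12 Δ(τ)/Δ(pτ)` and `p^12 Δ(pτ)/Δ(τ)` -/

/-- `v(τ) = p^12 Δ(τ)/Δ(pτ)` as a holomorphic function. -/
def dq42_vO (p : ℕ) [NeZero p] : mer95_O := mer95_mk (vInf p) (vInf_hasWExp p).mdiff

/-- `u(τ) = p^12 Δ(pτ)/Δ(τ)` as a holomorphic function. -/
def dq42_uO (p : ℕ) [NeZero p] : mer95_O := mer95_mk (uInf p) (uInf_hasWExp p).mdiff

theorem dq42_vO_val (p : ℕ) [NeZero p] : (dq42_vO p).1 = vInf p := rfl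

theorem dq42_uO_val (p : ℕ) [NeZero p] : (dq42_uO p).1 = uInf p := rfl

theorem dq42_exists_G_v (p : ℕ) (hp : p.Prime) [NeZero p] :
    ∃ G : gi41_FC p, ff79_evMer p G = algebraMap mer95_O mer95_MER (dq42_vO p) := by
  have hexpV : ∀ g : SL(2, ℤ), ∃ L : LaurentSeries ℂ, HasWExp p (actFn g (vInf p)) L ∧
      ∀ n, L.coeff n ∈ Zbar := by
    intro g
    rcases vInf_translate p hp g with h | ⟨b, h⟩
    · rw [h]
      exact vInf_mem p
    · rw [h]
      exact vFin_mem p b
  obtain ⟨Q, hQm, hQ⟩ := exists_monic_of_invariant p Zbar (vInf p) (vInf_actFn_of_mem p) hexpV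
  exact dq42_exists_of_monic p (dq42_vO p) (vInf_actFn_of_mem p) Zbar Q hQm hQ

/-- The complex series `p^12 Δ(Q)/Δ(Q^p)` lies in the complex function field of level `p`. -/
theorem dq42_VC_mem (p : ℕ) (hp : p.Prime) [NeZero p] :
    coeffMap (Int.castRingHom ℂ) (Vseries p) ∈
      laurentBaseChange ℂ (modularFunctionFieldFull p) := by
  obtain ⟨G, hG⟩ := dq42_exists_G_v p hp
  have h := dq42_coe_eq_of_ev p G (dq42_vO p) _ (vInf_hasWExp p) hG
  rw [← h]
  exact G.2

/-- The rational series `p^12 Δ(Q)/Δ(Q^p)` lies in the function field of level `p`. -/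
theorem dq42_VQ_mem (p : ℕ) (hp : p.Prime) [NeZero p] :
    coeffMap (Int.castRingHom ℚ) (Vseries p) ∈ modularFunctionFieldFull p := by
  have h := dq42_VC_mem p hp
  rw [gi41_baseChange_eq ℂ p] at h
  have h2 : coeffMap (algebraMap ℚ ℂ) (coeffMap (Int.castRingHom ℚ) (Vseries p)) =
      coeffMap (Int.castRingHom ℂ) (Vseries p) := by
    rw [coeffMap_coeffMap]
    exact coeffMap_congr (RingHom.ext_int _ _) _
  rw [← h2] at h
  exact li56_inter (algebraMap ℚ ℂ) p _ h

/-! ### The integral models of `U = Δ(Q)/Δ(Q^p)` and of `U⁻¹` -/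

/-- `Δ(Q)/Δ(Q^p)` with integer coefficients. -/
def dq42_UZ (p : ℕ) : LaurentSeries ℤ := DeltaSer ℤ * qE ℤ p (DeltaInv ℤ)

/-- `Δ(Q^p)/Δ(Q)` with integer coefficients. -/
def dq42_UinvZ (p : ℕ) : LaurentSeries ℤ := qE ℤ p (DeltaSer ℤ) * DeltaInv ℤ

theorem dq42_UZ_mul_UinvZ (p : ℕ) : dq42_UZ p * dq42_UinvZ p = 1 := by
  have h1 := DeltaSer_mul_DeltaInv ℤ
  have h2 : qE ℤ p (DeltaSer ℤ) * qE ℤ p (DeltaInv ℤ) = 1 := by
    rw [← map_mul, h1, map_one]
  calc dq42_UZ p * dq42_UinvZ p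
      = (DeltaSer ℤ * DeltaInv ℤ) * (qE ℤ p (DeltaSer ℤ) * qE ℤ p (DeltaInv ℤ)) := by
        unfold dq42_UZ dq42_UinvZ
        ring
    _ = 1 := by rw [h1, h2, mul_one]

theorem dq42_Vseries_eq (p : ℕ) : Vseries p = (p : LaurentSeries ℤ) ^ 12 * dq42_UZ p := rfl

theorem dq42_Useries_eq (p : ℕ) : Useries p = (p : LaurentSeries ℤ) ^ 12 * dq42_UinvZ p := rfl

theorem dq42_deltaSeries_eq : deltaSeries = DeltaSer ℚ := rfl

theorem dq42_deltaSeriesN_inv (p : ℕ) [NeZero p] :
    (deltaSeriesN p)⁻¹ = qExpand ℚ p (DeltaInv ℚ) := by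
  refine inv_eq_of_mul_eq_one_right ?_
  rw [deltaSeriesN, dq42_deltaSeries_eq, ← map_mul, DeltaSer_mul_DeltaInv, map_one]

/-- `U` has integer coefficients. -/
theorem dq42_U_eq_int (p : ℕ) [NeZero p] :
    modularUnitSeries p = coeffMap (Int.castRingHom ℚ) (dq42_UZ p) := by
  rw [dq42_UZ, map_mul, coeffMap_DeltaSer, coeffMap_qE, coeffMap_DeltaInv, qE_of_neZero,
    modularUnitSeries, dq42_deltaSeriesN_inv]
  rfl

/-- `U⁻¹` has integer coefficients. -/
theorem dq42_Uinv_eq_int (p : ℕ) [NeZero p] :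
    (modularUnitSeries p)⁻¹ = coeffMap (Int.castRingHom ℚ) (dq42_UinvZ p) := by
  refine inv_eq_of_mul_eq_one_right ?_
  rw [dq42_U_eq_int, ← map_mul, dq42_UZ_mul_UinvZ, map_one]

theorem dq42_natCast_ne_zero (p : ℕ) [NeZero p] : (p : LaurentSeries ℚ) ≠ 0 := by
  have h : (p : LaurentSeries ℚ) = algebraMap ℚ (LaurentSeries ℚ) (p : ℚ) := by
    rw [map_natCast]
  rw [h]
  intro h0
  have h1 : (p : ℚ) = 0 := (algebraMap ℚ (LaurentSeries ℚ)).injective (by rw [h0, map_zero])
  exact NeZero.ne p (by exact_mod_cast h1)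

/-! ### (I1): `U` lies in the function field of level `p` -/

/-- **(I1)** `U = Δ(Q)/Δ(Q^p)` lies in the function field of `X₀(p)` over `ℚ`. -/
theorem dq42_U_mem_full (p : ℕ) (hp : p.Prime) [NeZero p] :
    modularUnitSeries p ∈ modularFunctionFieldFull p := by
  have h := dq42_VQ_mem p hp
  rw [dq42_Vseries_eq, map_mul, map_pow, map_natCast, ← dq42_U_eq_int] at h
  have hp0 : (p : LaurentSeries ℚ) ^ 12 ≠ 0 := pow_ne_zero _ (dq42_natCast_ne_zero p)
  have hpm : (p : LaurentSeries ℚ) ^ 12 ∈ modularFunctionFieldFull p :=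
    pow_mem (IntermediateField.natCast_mem _ p) 12
  have e : modularUnitSeries p =
      ((p : LaurentSeries ℚ) ^ 12)⁻¹ * ((p : LaurentSeries ℚ) ^ 12 * modularUnitSeries p) := by
    rw [← mul_assoc, inv_mul_cancel₀ hp0, one_mul]
  rw [e]
  exact mul_mem (inv_mem hpm) h

theorem dq42_Uinv_mem_full (p : ℕ) (hp : p.Prime) [NeZero p] :
    (modularUnitSeries p)⁻¹ ∈ modularFunctionFieldFull p :=
  inv_mem (dq42_U_mem_full p hp)

/-- `U` lies in the function field of every level divisible by `p`. -/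
theorem dq42_U_mem_full_of_dvd (p M : ℕ) (hp : p.Prime) [NeZero p] [NeZero M] (h : p ∣ M) :
    modularUnitSeries p ∈ modularFunctionFieldFull M :=
  full_degeneracy_le h (dq42_U_mem_full p hp)

/-- `U` with coefficients in `L` lies in the base-changed function field. -/
theorem dq42_U_mem_baseChange (L : Type*) [Field L] [Algebra ℚ L] (p M : ℕ) (hp : p.Prime)
    [NeZero p] [NeZero M] (h : p ∣ M) :
    coeffEmb L (modularUnitSeries p) ∈ laurentBaseChange L (modularFunctionFieldFull M) :=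
  coeffEmb_mem_laurentBaseChange L (dq42_U_mem_full_of_dvd p M hp h)

/-- `U` over `ℚ̄` lies in `modularFunctionFieldBar M` for `p ∣ M`. -/
theorem dq42_U_mem_bar (p M : ℕ) (hp : p.Prime) [NeZero p] [NeZero M] (h : p ∣ M) :
    coeffEmb (AlgebraicClosure ℚ) (modularUnitSeries p) ∈ modularFunctionFieldBar M :=
  dq42_U_mem_baseChange (AlgebraicClosure ℚ) p M hp h

/-- The coefficients of `U` over `L` are integers: `U_L = coeffMap (ℤ → L) U_ℤ`. -/
theorem dq42_coeffEmb_U (L : Type*) [Field L] [Algebra ℚ L] (p : ℕ) [NeZero p] :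
    coeffEmb L (modularUnitSeries p) = coeffMap (Int.castRingHom L) (dq42_UZ p) := by
  rw [dq42_U_eq_int, coeffEmb, coeffMap_coeffMap]
  exact coeffMap_congr (RingHom.ext_int _ _) _

theorem dq42_coeffEmb_Uinv (L : Type*) [Field L] [Algebra ℚ L] (p : ℕ) [NeZero p] :
    (coeffEmb L (modularUnitSeries p))⁻¹ = coeffMap (Int.castRingHom L) (dq42_UinvZ p) := by
  refine inv_eq_of_mul_eq_one_right ?_
  rw [dq42_coeffEmb_U, ← map_mul, dq42_UZ_mul_UinvZ, map_one]

/-! ### (I3): the unit equations -/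

theorem dq42_coeffMap_comp_evJ (R : Type*) [CommRing R] :
    (coeffMap (Int.castRingHom R)).comp (evJ ℤ) = evJ R := by
  refine Polynomial.ringHom_ext (fun a => ?_) ?_
  · simp [evJ]
  · simp [evJ, coeffMap_jqModC]

/-- Transport of a polynomial identity over `ℤ[j]` from `ℤ((Q))` to `R((Q))`. -/
theorem dq42_eval₂_coeffMap (R : Type*) [CommRing R] (P : Polynomial (Polynomial ℤ))
    (x : LaurentSeries ℤ) (h : P.eval₂ (evJ ℤ) x = 0) :
    P.eval₂ (evJ R) (coeffMap (Int.castRingHom R) x) = 0 := by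
  have h1 := Polynomial.hom_eval₂ P (evJ ℤ) (coeffMap (Int.castRingHom R)) x
  rw [dq42_coeffMap_comp_evJ, h, map_zero] at h1
  exact h1.symm

/-- **(I3), integral form.** `p^12 U⁻¹` and `p^12 U` are roots of monic polynomials with
coefficients in `ℤ[j]`, in `ℤ((Q))`. -/
theorem dq42_unit_equations (p : ℕ) (hp : p.Prime) :
    ∃ P Q : Polynomial (Polynomial ℤ), P.Monic ∧ Q.Monic ∧
      P.eval₂ (evJ ℤ) ((p : LaurentSeries ℤ) ^ 12 * dq42_UinvZ p) = 0 ∧
      Q.eval₂ (evJ ℤ) ((p : LaurentSeries ℤ) ^ 12 * dq42_UZ p) = 0 :=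
  exists_unit_equations p hp

/-- **(I3) over a field `L ⊇ ℚ`.** `p^12 U⁻¹` and `p^12 U` are roots of monic polynomials with
coefficients in `ℤ[j]`. -/
theorem dq42_unit_equations_field (L : Type*) [Field L] [Algebra ℚ L] (p : ℕ) (hp : p.Prime)
    [NeZero p] :
    ∃ P Q : Polynomial (Polynomial ℤ), P.Monic ∧ Q.Monic ∧
      P.eval₂ (evJ L) ((p : LaurentSeries L) ^ 12 * (coeffEmb L (modularUnitSeries p))⁻¹) = 0 ∧
      Q.eval₂ (evJ L) ((p : LaurentSeries L) ^ 12 * coeffEmb L (modularUnitSeries p)) = 0 := by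
  obtain ⟨P, Q, hP, hQ, h1, h2⟩ := dq42_unit_equations p hp
  refine ⟨P, Q, hP, hQ, ?_, ?_⟩
  · have h := dq42_eval₂_coeffMap L P _ h1
    rw [map_mul, map_pow, map_natCast, ← dq42_coeffEmb_Uinv] at h
    exact h
  · have h := dq42_eval₂_coeffMap L Q _ h2
    rw [map_mul, map_pow, map_natCast, ← dq42_coeffEmb_U] at h
    exact h

/-! ### Order and leading coefficient -/

/-- `U⁻¹ = Δ(Q^p)/Δ(Q)` has order `p - 1` and leading coefficient `1` (for `U` itself this is
`ModularCurve.isMonicOfOrder_modularUnitSeries`: order `1 - p`, leading coefficient `1`). -/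
theorem dq42_isMonicOfOrder_inv (p : ℕ) [NeZero p] :
    IsMonicOfOrder (modularUnitSeries p)⁻¹ ((p : ℤ) - 1) := by
  have h1 : IsMonicOfOrder ((modularUnitSeries p)⁻¹ * modularUnitSeries p) 0 := by
    rw [inv_mul_cancel₀ (modularUnitSeries_ne_zero p)]
    exact IsMonicOfOrder.single 0
  have h2 := IsMonicOfOrder.of_mul_right h1 (isMonicOfOrder_modularUnitSeries p)
  have e : (0 : ℤ) - (1 - (p : ℤ)) = (p : ℤ) - 1 := by ring
  rwa [e] at h2

/-- The analytic meaning of `p^12 U`: the element of the complex function field of level `p`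
with Laurent series `p^12 Δ(Q)/Δ(Q^p)` is sent by `ev` to the function `p^12 Δ(τ)/Δ(pτ)`. -/
theorem dq42_ev_VC (p : ℕ) (hp : p.Prime) [NeZero p] :
    ff79_evMer p ⟨coeffMap (Int.castRingHom ℂ) (Vseries p), dq42_VC_mem p hp⟩ =
      algebraMap mer95_O mer95_MER (dq42_vO p) := by
  obtain ⟨G, hG⟩ := dq42_exists_G_v p hp
  have h := dq42_coe_eq_of_ev p G (dq42_vO p) _ (vInf_hasWExp p) hG
  have e : (⟨coeffMap (Int.castRingHom ℂ) (Vseries p), dq42_VC_mem p hp⟩ : gi41_FC p) = G :=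
    Subtype.ext h.symm
  rw [e, hG]

/-! ### Change of level for `ev` -/

theorem dq42_baseChange_mono {N M : ℕ} [NeZero N] [NeZero M] (h : N ∣ M) :
    laurentBaseChange ℂ (modularFunctionFieldFull N) ≤
      laurentBaseChange ℂ (modularFunctionFieldFull M) :=
  IntermediateField.adjoin.mono ℂ _ _ (Set.image_mono (full_degeneracy_le h))

theorem dq42_inclusion_coe {N M : ℕ} [NeZero N] [NeZero M] (h : N ∣ M) (G : gi41_FC N) :
    ((IntermediateField.inclusion (dq42_baseChange_mono h) G : gi41_FC M) : LaurentSeries ℂ) =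
      (G : LaurentSeries ℂ) :=
  IntermediateField.coe_inclusion (dq42_baseChange_mono h) G

/-- `ev` does not depend on the level: an element of `F_ℂ(N)`, viewed in `F_ℂ(M)` for `N ∣ M`,
has the same image in the field of meromorphic functions. -/
theorem dq42_ev_level {N M : ℕ} [NeZero N] [NeZero M] (h : N ∣ M) (G : gi41_FC N)
    (G' : gi41_FC M) (hc : (G' : LaurentSeries ℂ) = (G : LaurentSeries ℂ)) :
    ff79_evMer M G' = ff79_evMer N G := by
  have hgen : ∀ (d : ℕ) (hd : d ∣ N),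
      ((ff79_evMer M).comp (IntermediateField.inclusion (dq42_baseChange_mono h)))
        ⟨ff79_JJ ℂ d, ff79_JJ_mem ℂ N d hd⟩ = algebraMap mer95_O mer95_MER (ff79_jO d) := by
    intro d hd
    have e1 : IntermediateField.inclusion (dq42_baseChange_mono h)
        (⟨ff79_JJ ℂ d, ff79_JJ_mem ℂ N d hd⟩ : gi41_FC N) =
        (⟨ff79_JJ ℂ d, ff79_JJ_mem ℂ M d (hd.trans h)⟩ : gi41_FC M) :=
      Subtype.ext (dq42_inclusion_coe h _)
    rw [AlgHom.comp_apply, e1]
    exact ff79_evMer_gen M d (hd.trans h)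
  have hu := ff79_evMer_unique N
    ((ff79_evMer M).comp (IntermediateField.inclusion (dq42_baseChange_mono h))) hgen
  have e : G' = IntermediateField.inclusion (dq42_baseChange_mono h) G :=
    Subtype.ext (hc.trans (dq42_inclusion_coe h G).symm)
  rw [e, ← hu, AlgHom.comp_apply]

end

end Fermat.Agent.S34
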