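import Fermat.Agent.S28.ModEq
import Fermat.Agent.S28.ThetaJ
import Fermat.Agent.S28.CharLBridge
import Fermat.Agent.S28.CPrime

/-!
# S34 lab, package P4' (helper56, twin): the modular unit `U = Δ(Q)/Δ(Q^q)`, formal route

Everything is formal (no analysis), on the S28 toolkit (`exists_modular_equation`,
`theta_J_pow_six`, `partC_theta`, `partC_roots`), following the referee note of helper86.
`K` is any field of characteristic zero, `q` a prime, `Φ = dq56_Phi q ∈ ℤ[Y][X]` the integer
modular equation of level `q`, `J = jqModC K`, `J_q = JdC K q = J(Q^q)`.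

* `dq56_chain`    : two-variable chain rule for an additive map with the Leibniz rule;
* `dq56_Z1`       : `U · B^6 · J^4 (J - 1728)^3 = q^6 · A^6 · J_q^4 (J_q - 1728)^3`,
                    `A = ∂Φ/∂X (J_q, J)`, `B = ∂Φ/∂Y (J_q, J)`;
* `dq56_Z2`       : `A · A' = B · B'`, `A' = ∂Φ/∂X (J, J_q)`, `B' = ∂Φ/∂Y (J, J_q)`;
* `dq56_Z3`       : `A, B, A', B' ≠ 0` (simple roots of `Φ(X, J_q)` over the algebraic closure);
* `dq56_U_mem`, `dq56_U_mem_full` : `U` lies in every subfield containing `J, J_q`, in particular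
                    in `modularFunctionFieldFullC K M` for `q ∣ M`;
* `dq56_w_mul`    : for EVERY ring homomorphism `w` of a field `F ⊆ K((Q))` with `w j = j_q`,
                    `w j_q = j`: `u * w u = q ^ 12` (Atkin-Lehner, pure algebra);
* `dq56_U_mul_Uinv`, `dq56_coeffMap_U`, `dq56_coeffMap_Uinv` : `U` and `U⁻¹` have integer
                    coefficients (Gauss valuation `0` at every prime).

All names are prefixed `dq56_`.
-/

set_option autoImplicit false

open ModularCurve Polynomial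

namespace Fermat.Agent.S34

noncomputable section

open Fermat.Agent.S28

/-- Partial derivative in the inner variable of a two-variable integer polynomial. -/
def dq56_dY (Φ : Polynomial (Polynomial ℤ)) : Polynomial (Polynomial ℤ) :=
  Φ.sum fun n c => monomial n (derivative c)

theorem dq56_dY_add (Φ Ψ : Polynomial (Polynomial ℤ)) :
    dq56_dY (Φ + Ψ) = dq56_dY Φ + dq56_dY Ψ := by
  unfold dq56_dY
  exact Polynomial.sum_add_index Φ Ψ _ (by simp) (by simp)

theorem dq56_dY_monomial (n : ℕ) (P : Polynomial ℤ) :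
    dq56_dY (monomial n P) = monomial n (derivative P) := by
  unfold dq56_dY
  exact Polynomial.sum_monomial_index P _ (by simp)

/-- Evaluation of a two-variable integer polynomial: inner variable at `b`, outer at `a`. -/
def dq56_ev {L : Type*} [CommRing L] (a b : L) (Φ : Polynomial (Polynomial ℤ)) : L :=
  Φ.eval₂ (Polynomial.eval₂RingHom (Int.castRingHom L) b) a

theorem dq56_ev_map {L L' : Type*} [CommRing L] [CommRing L'] (g : L →+* L') (a b : L)
    (Φ : Polynomial (Polynomial ℤ)) : g (dq56_ev a b Φ) = dq56_ev (g a) (g b) Φ := by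
  unfold dq56_ev
  rw [Polynomial.hom_eval₂]
  congr 1
  refine Polynomial.ringHom_ext' (Subsingleton.elim _ _) ?_
  simp

/-- The two-variable chain rule for an additive map satisfying the Leibniz rule. -/
theorem dq56_chain {L : Type*} [CommRing L] (D : L →+ L)
    (hD : ∀ x y : L, D (x * y) = D x * y + x * D y) (a b : L)
    (Φ : Polynomial (Polynomial ℤ)) :
    D (dq56_ev a b Φ) =
      dq56_ev a b (derivative Φ) * D a + dq56_ev a b (dq56_dY Φ) * D b := by
  have hD1 : D 1 = 0 := by
    have h := hD 1 1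
    rw [mul_one, mul_one, one_mul] at h
    exact left_eq_add.mp h
  have hDint : ∀ n : ℤ, D (n : L) = 0 := by
    intro n
    have h : (n : L) = n • (1 : L) := by simp
    rw [h, map_zsmul, hD1, smul_zero]
  have hDpow : ∀ (x : L) (n : ℕ), D (x ^ (n + 1)) = ((n + 1 : ℕ) : L) * x ^ n * D x := by
    intro x n
    induction n with
    | zero => simp
    | succ n ih =>
      rw [pow_succ, hD, ih]
      push_cast
      ring
  have hDpoly : ∀ P : Polynomial ℤ, D (P.eval₂ (Int.castRingHom L) b) =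
      (derivative P).eval₂ (Int.castRingHom L) b * D b := by
    intro P
    induction P using Polynomial.induction_on' with
    | add p q hp hq =>
      rw [eval₂_add, map_add, hp, hq, derivative_add, eval₂_add]
      ring
    | monomial n c =>
      rw [eval₂_monomial, hD, derivative_monomial, eval₂_monomial]
      simp only [eq_intCast]
      rw [hDint, zero_mul, zero_add]
      cases n with
      | zero => simp [hD1]
      | succ n =>
        rw [hDpow]
        simp only [Nat.add_sub_cancel]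
        push_cast
        ring
  unfold dq56_ev
  induction Φ using Polynomial.induction_on' with
  | add p q hp hq =>
    rw [eval₂_add, map_add, hp, hq, derivative_add, eval₂_add, dq56_dY_add, eval₂_add]
    ring
  | monomial n P =>
    have hP : D (Polynomial.eval₂RingHom (Int.castRingHom L) b P) =
        Polynomial.eval₂RingHom (Int.castRingHom L) b (derivative P) * D b := hDpoly P
    rw [eval₂_monomial, dq56_dY_monomial, eval₂_monomial, derivative_monomial, eval₂_monomial,
      hD, hP]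
    cases n with
    | zero => simp [hD1]
    | succ n =>
      rw [hDpow]
      simp only [Nat.add_sub_cancel, map_mul, map_natCast]
      push_cast
      ring

/-! ### The integer modular equation -/

/-- The integer modular equation of prime level `q` (S28 `exists_modular_equation`). -/
def dq56_Phi (q : ℕ) : Polynomial (Polynomial ℤ) :=
  if h : q.Prime then (exists_modular_equation q h).choose else 0

theorem dq56_Phi_spec (q : ℕ) (hq : q.Prime) :
    (dq56_Phi q).Monic ∧ (dq56_Phi q).natDegree = q + 1 ∧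
      dq56_ev (JdC ℤ q) (jqModC ℤ) (dq56_Phi q) = 0 ∧
      dq56_ev (jqModC ℤ) (JdC ℤ q) (dq56_Phi q) = 0 := by
  unfold dq56_Phi
  rw [dif_pos hq]
  exact (exists_modular_equation q hq).choose_spec

/-- `Φ(J(Q^q), J) = 0` over any commutative ring. -/
theorem dq56_eq1 (R : Type*) [CommRing R] (q : ℕ) (hq : q.Prime) :
    dq56_ev (JdC R q) (jqModC R) (dq56_Phi q) = 0 := by
  have h := congrArg (coeffMap (Int.castRingHom R)) (dq56_Phi_spec q hq).2.2.1
  rwa [dq56_ev_map, coeffMap_JdC, coeffMap_jqModC, map_zero] at h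

/-- `Φ(J, J(Q^q)) = 0` over any commutative ring. -/
theorem dq56_eq2 (R : Type*) [CommRing R] (q : ℕ) (hq : q.Prime) :
    dq56_ev (jqModC R) (JdC R q) (dq56_Phi q) = 0 := by
  have h := congrArg (coeffMap (Int.castRingHom R)) (dq56_Phi_spec q hq).2.2.2
  rwa [dq56_ev_map, coeffMap_JdC, coeffMap_jqModC, map_zero] at h

/-- Over a field with a primitive `q`-th root of unity, `Φ(X, J(Q^q))` has `q + 1` distinct roots
in `k((Q))`, hence `∂Φ/∂X` does not vanish at `(J, J(Q^q))` nor at `(J(Q^q), J)`. -/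
theorem dq56_sep (k : Type*) [Field k] (q : ℕ) (hq : q.Prime) (ω : kˣ)
    (hω : IsPrimitiveRoot ω q) :
    dq56_ev (jqModC k) (JdC k q) (derivative (dq56_Phi q)) ≠ 0 ∧
      dq56_ev (JdC k q) (jqModC k) (derivative (dq56_Phi q)) ≠ 0 := by
  classical
  have : NeZero q := ⟨hq.ne_zero⟩
  obtain ⟨hmon, hdeg, -, -⟩ := dq56_Phi_spec q hq
  have hJq : JdC k q = qExpand k q (jqModC k) := JdC_of_neZero k q
  have hJ1 : (jqModC k).coeff (-1) = 1 := coeff_jqModC_neg_one k
  have hGmon : ((dq56_Phi q).map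
      (Polynomial.eval₂RingHom (Int.castRingHom (LaurentSeries k)) (JdC k q))).Monic := hmon.map _
  have hGdeg : ((dq56_Phi q).map
      (Polynomial.eval₂RingHom (Int.castRingHom (LaurentSeries k)) (JdC k q))).natDegree = q + 1 := by
    rw [hmon.natDegree_map, hdeg]
  have hGeval : ∀ x, ((dq56_Phi q).map
      (Polynomial.eval₂RingHom (Int.castRingHom (LaurentSeries k)) (JdC k q))).eval x =
        dq56_ev x (JdC k q) (dq56_Phi q) := fun x => by
    rw [Polynomial.eval_map]; rfl
  have hdGeval : ∀ x, (derivative ((dq56_Phi q).map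
      (Polynomial.eval₂RingHom (Int.castRingHom (LaurentSeries k)) (JdC k q)))).eval x =
        dq56_ev x (JdC k q) (derivative (dq56_Phi q)) := fun x => by
    rw [Polynomial.derivative_map, Polynomial.eval_map]; rfl
  generalize hG : (dq56_Phi q).map
      (Polynomial.eval₂RingHom (Int.castRingHom (LaurentSeries k)) (JdC k q)) = G at *
  -- the roots
  have hroot_tw : ∀ c : ℕ, G.eval (partC_twist (ω ^ c) (jqModC k)) = 0 := by
    intro c
    rw [hGeval]
    have h := congrArg (partC_twist (ω ^ c)) (dq56_eq2 k q hq)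
    rw [dq56_ev_map, map_zero, hJq, partC_twist_qExpand_of_pow_eq_one (ω ^ c) q
      (by rw [← pow_mul, mul_comm, pow_mul, hω.pow_eq_one, one_pow])] at h
    rw [hJq]; exact h
  have hroot_inf : G.eval (qExpand k q (qExpand k q (jqModC k))) = 0 := by
    rw [hGeval]
    have h := congrArg (qExpand k q) (dq56_eq1 k q hq)
    rw [dq56_ev_map, map_zero, hJq] at h
    rw [hJq]; exact h
  have hZroot : ∀ z ∈ partC_roots (jqModC k) q ω, G.eval z = 0 := by
    intro z hz
    rcases Finset.mem_insert.mp hz with rfl | hz'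
    · exact hroot_inf
    · obtain ⟨c, -, rfl⟩ := Finset.mem_image.mp hz'
      exact hroot_tw c
  have hZcard : (partC_roots (jqModC k) q ω).card = q + 1 :=
    partC_roots_card (jqModC k) hJ1 q ω hq.two_le hω
  have hG0 : G ≠ 0 := hGmon.ne_zero
  have hle : (partC_roots (jqModC k) q ω).val ≤ G.roots := by
    rw [Finset.val_le_iff_val_subset]
    intro z hz
    rw [Polynomial.mem_roots hG0, Polynomial.IsRoot.def]
    exact hZroot z (Finset.mem_val.mp hz)
  have hroots : (partC_roots (jqModC k) q ω).val = G.roots :=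
    Multiset.eq_of_le_of_card_le hle (by
      rw [Finset.card_val, hZcard, ← hGdeg]; exact Polynomial.card_roots' G)
  have hprod : G = ∏ z ∈ partC_roots (jqModC k) q ω, (X - C (id z)) := by
    have h := Polynomial.prod_multiset_X_sub_C_of_monic_of_roots_card_eq hGmon
      (by rw [← hroots, Finset.card_val, hZcard, hGdeg])
    rw [← h, ← hroots]
    rfl
  have hsep : G.Separable := by
    rw [hprod, Polynomial.separable_prod_X_sub_C_iff']
    intro x _ y _ hxy
    exact hxy
  have hne : ∀ z ∈ partC_roots (jqModC k) q ω, (derivative G).eval z ≠ 0 := by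
    intro z hz
    have h := hsep.eval₂_derivative_ne_zero (RingHom.id (LaurentSeries k)) (x := z)
      (by rw [Polynomial.eval₂_id]; exact hZroot z hz)
    rwa [Polynomial.eval₂_id] at h
  have hJmem : jqModC k ∈ partC_roots (jqModC k) q ω := by
    unfold partC_roots
    refine Finset.mem_insert_of_mem (Finset.mem_image.mpr ⟨0, Finset.mem_range.mpr hq.pos, ?_⟩)
    rw [pow_zero, partC_twist_one]
  have hinfmem : qExpand k q (qExpand k q (jqModC k)) ∈ partC_roots (jqModC k) q ω := by
    unfold partC_roots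
    exact Finset.mem_insert_self _ _
  refine ⟨?_, ?_⟩
  · rw [← hdGeval]
    exact hne _ hJmem
  · intro h0
    have h := congrArg (qExpand k q) h0
    rw [dq56_ev_map, map_zero, hJq] at h
    have h' := hne _ hinfmem
    rw [hdGeval, hJq] at h'
    exact h' h


/-! ### The modular unit as a formal series -/

section Unit

variable (R : Type*) [CommRing R] (q : ℕ)

/-- The modular unit `U = Δ(Q)/Δ(Q^q)` as a Laurent series over `R`. -/
def dq56_U : LaurentSeries R := DeltaSer R * qE R q (DeltaInv R)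

/-- Its inverse `Δ(Q^q)/Δ(Q)`. -/
def dq56_Uinv : LaurentSeries R := DeltaInv R * qE R q (DeltaSer R)

theorem dq56_U_mul_Uinv : dq56_U R q * dq56_Uinv R q = 1 := by
  unfold dq56_U dq56_Uinv
  have h1 : DeltaSer R * DeltaInv R = 1 := DeltaSer_mul_DeltaInv R
  have h2 : qE R q (DeltaSer R) * qE R q (DeltaInv R) = 1 := by
    rw [← map_mul, DeltaSer_mul_DeltaInv, map_one]
  linear_combination (qE R q (DeltaSer R) * qE R q (DeltaInv R)) * h1 + h2

variable {R} in
theorem dq56_coeffMap_U {S : Type*} [CommRing S] (φ : R →+* S) :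
    coeffMap φ (dq56_U R q) = dq56_U S q := by
  unfold dq56_U
  rw [map_mul, coeffMap_qE, coeffMap_DeltaSer, coeffMap_DeltaInv]

variable {R} in
theorem dq56_coeffMap_Uinv {S : Type*} [CommRing S] (φ : R →+* S) :
    coeffMap φ (dq56_Uinv R q) = dq56_Uinv S q := by
  unfold dq56_Uinv
  rw [map_mul, coeffMap_qE, coeffMap_DeltaSer, coeffMap_DeltaInv]

theorem dq56_U_ne_zero [Nontrivial R] : dq56_U R q ≠ 0 := by
  intro h
  have h1 := dq56_U_mul_Uinv R q
  rw [h, zero_mul] at h1
  exact zero_ne_one h1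

theorem dq56_Uinv_ne_zero [Nontrivial R] : dq56_Uinv R q ≠ 0 := by
  intro h
  have h1 := dq56_U_mul_Uinv R q
  rw [h, mul_zero] at h1
  exact zero_ne_one h1

end Unit

/-! ### The core identities over a field of characteristic zero -/

section Core

variable (K : Type*) [Field K] (q : ℕ)

/-- `A = ∂Φ/∂X (J(Q^q), J)`. -/
def dq56_A : LaurentSeries K := dq56_ev (JdC K q) (jqModC K) (derivative (dq56_Phi q))

/-- `B = ∂Φ/∂Y (J(Q^q), J)`. -/
def dq56_B : LaurentSeries K := dq56_ev (JdC K q) (jqModC K) (dq56_dY (dq56_Phi q))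

/-- `A' = ∂Φ/∂X (J, J(Q^q))`. -/
def dq56_A' : LaurentSeries K := dq56_ev (jqModC K) (JdC K q) (derivative (dq56_Phi q))

/-- `B' = ∂Φ/∂Y (J, J(Q^q))`. -/
def dq56_B' : LaurentSeries K := dq56_ev (jqModC K) (JdC K q) (dq56_dY (dq56_Phi q))

/-- `θ = Q d/dQ` as an additive map. -/
def dq56_theta : LaurentSeries K →+ LaurentSeries K :=
  (partC_theta (k := K)).toLinearMap.toAddMonoidHom

theorem dq56_theta_apply (f : LaurentSeries K) : dq56_theta K f = partC_theta f := rfl

theorem dq56_theta_leibniz (x y : LaurentSeries K) :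
    dq56_theta K (x * y) = dq56_theta K x * y + x * dq56_theta K y := by
  rw [dq56_theta_apply, dq56_theta_apply, dq56_theta_apply, Derivation.leibniz, smul_eq_mul,
    smul_eq_mul]
  ring

theorem dq56_theta_J_ne_zero : partC_theta (jqModC K) ≠ 0 := by
  intro h
  have h1 := congrArg (fun f : LaurentSeries K => f.coeff (-1)) h
  simp only [partC_theta_coeff, coeff_jqModC_neg_one, HahnSeries.coeff_zero] at h1
  norm_num at h1

theorem dq56_theta_pow_six :
    partC_theta (jqModC K) ^ 6 =
      jqModC K ^ 4 * (jqModC K - 1728) ^ 3 * DeltaSer K := by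
  have h := h58_theta_pow_six (k := K) theta_J_pow_six
  have hT : theta (jqModC K) = partC_theta (jqModC K) :=
    partC_eq_theta_of_coeff _ _ (fun n => rfl)
  rw [hT, map_ofNat] at h
  exact h

/-- The two differentiated modular equations. -/
theorem dq56_E1 (hq : q.Prime) [NeZero q] :
    dq56_A K q * ((q : LaurentSeries K) * qExpand K q (partC_theta (jqModC K))) +
      dq56_B K q * partC_theta (jqModC K) = 0 := by
  have h := congrArg (dq56_theta K) (dq56_eq1 K q hq)
  rw [dq56_chain _ (dq56_theta_leibniz K), map_zero, dq56_theta_apply, dq56_theta_apply, JdC_of_neZero,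
    partC_theta_qExpand, map_natCast] at h
  unfold dq56_A dq56_B
  rw [JdC_of_neZero]
  exact h

theorem dq56_E2 (hq : q.Prime) [NeZero q] :
    dq56_A' K q * partC_theta (jqModC K) +
      dq56_B' K q * ((q : LaurentSeries K) * qExpand K q (partC_theta (jqModC K))) = 0 := by
  have h := congrArg (dq56_theta K) (dq56_eq2 K q hq)
  rw [dq56_chain _ (dq56_theta_leibniz K), map_zero, dq56_theta_apply, dq56_theta_apply, JdC_of_neZero,
    partC_theta_qExpand, map_natCast] at h
  unfold dq56_A' dq56_B'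
  rw [JdC_of_neZero]
  exact h

variable [CharZero K]

theorem dq56_natCast_ne_zero [NeZero q] : (q : LaurentSeries K) ≠ 0 := by
  have h : (q : LaurentSeries K) = HahnSeries.C (q : K) := by rw [map_natCast]
  rw [h]
  exact partC_C_ne_zero (Nat.cast_ne_zero.mpr (NeZero.ne q))

theorem dq56_X_ne_zero [NeZero q] :
    (q : LaurentSeries K) * qExpand K q (partC_theta (jqModC K)) ≠ 0 :=
  mul_ne_zero (dq56_natCast_ne_zero K q)
    ((map_ne_zero_iff _ (qExpand_injective q)).mpr (dq56_theta_J_ne_zero K))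

omit [CharZero K] in
/-- **(Z1)** `U · B^6 · J^4 (J - 1728)^3 = q^6 · A^6 · J_q^4 (J_q - 1728)^3`. -/
theorem dq56_Z1 (hq : q.Prime) [NeZero q] :
    dq56_U K q * (dq56_B K q ^ 6 * (jqModC K ^ 4 * (jqModC K - 1728) ^ 3)) =
      (q : LaurentSeries K) ^ 6 * dq56_A K q ^ 6 * (JdC K q ^ 4 * (JdC K q - 1728) ^ 3) := by
  have hE1 := dq56_E1 K q hq
  have hT := dq56_theta_pow_six K
  have hσT := congrArg (qExpand K q) hT
  rw [map_pow, map_mul, map_mul, map_pow, map_pow, map_sub, map_ofNat] at hσT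
  have hinv : qExpand K q (DeltaSer K) * qExpand K q (DeltaInv K) = 1 := by
    rw [← map_mul, DeltaSer_mul_DeltaInv, map_one]
  have h6 : dq56_B K q ^ 6 * partC_theta (jqModC K) ^ 6 =
      (q : LaurentSeries K) ^ 6 * dq56_A K q ^ 6 * qExpand K q (partC_theta (jqModC K)) ^ 6 := by
    have hBT : dq56_B K q * partC_theta (jqModC K) =
        -(dq56_A K q * ((q : LaurentSeries K) * qExpand K q (partC_theta (jqModC K)))) := by
      linear_combination hE1
    rw [← mul_pow, hBT]
    ring
  unfold dq56_U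
  rw [qE_of_neZero, JdC_of_neZero]
  linear_combination (qExpand K q (DeltaInv K)) * h6 -
    (qExpand K q (DeltaInv K) * dq56_B K q ^ 6) * hT +
    (qExpand K q (DeltaInv K) * (q : LaurentSeries K) ^ 6 * dq56_A K q ^ 6) * hσT +
    ((q : LaurentSeries K) ^ 6 * dq56_A K q ^ 6 * (qExpand K q (jqModC K) ^ 4 *
      (qExpand K q (jqModC K) - 1728) ^ 3)) * hinv

/-- **(Z2)** `A · A' = B · B'`. -/
theorem dq56_Z2 (hq : q.Prime) [NeZero q] :
    dq56_A K q * dq56_A' K q = dq56_B K q * dq56_B' K q := by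
  have hE1 := dq56_E1 K q hq
  have hE2 := dq56_E2 K q hq
  have hne : partC_theta (jqModC K) *
      ((q : LaurentSeries K) * qExpand K q (partC_theta (jqModC K))) ≠ 0 :=
    mul_ne_zero (dq56_theta_J_ne_zero K) (dq56_X_ne_zero K q)
  apply mul_right_cancel₀ hne
  linear_combination (dq56_A' K q * partC_theta (jqModC K)) * hE1 -
    (dq56_B K q * partC_theta (jqModC K)) * hE2

/-- **(Z3)** none of the four partial derivatives vanishes. -/
theorem dq56_Z3 (hq : q.Prime) [NeZero q] :
    dq56_A K q ≠ 0 ∧ dq56_B K q ≠ 0 ∧ dq56_A' K q ≠ 0 ∧ dq56_B' K q ≠ 0 := by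
  have hE1 := dq56_E1 K q hq
  have hE2 := dq56_E2 K q hq
  -- pass to the algebraic closure for the simple-root argument
  have hsep : dq56_A' K q ≠ 0 ∧ dq56_A K q ≠ 0 := by
    have : NeZero ((q : ℕ) : AlgebraicClosure K) := ⟨Nat.cast_ne_zero.mpr hq.ne_zero⟩
    obtain ⟨ζ, hζ⟩ := HasEnoughRootsOfUnity.exists_primitiveRoot (AlgebraicClosure K) q
    have hu : IsUnit ζ := hζ.isUnit hq.ne_zero
    have hω : IsPrimitiveRoot hu.unit q := IsPrimitiveRoot.coe_units_iff.mp (by simpa using hζ)
    obtain ⟨h1, h2⟩ := dq56_sep (AlgebraicClosure K) q hq hu.unit hω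
    refine ⟨fun h0 => h1 ?_, fun h0 => h2 ?_⟩
    · have h := congrArg (coeffMap (algebraMap K (AlgebraicClosure K))) h0
      unfold dq56_A' at h
      rwa [dq56_ev_map, coeffMap_JdC, coeffMap_jqModC, map_zero] at h
    · have h := congrArg (coeffMap (algebraMap K (AlgebraicClosure K))) h0
      unfold dq56_A at h
      rwa [dq56_ev_map, coeffMap_JdC, coeffMap_jqModC, map_zero] at h
  refine ⟨hsep.2, ?_, hsep.1, ?_⟩
  · intro hB
    rw [hB, zero_mul, add_zero] at hE1
    exact (mul_ne_zero hsep.2 (dq56_X_ne_zero K q)) hE1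
  · intro hB
    rw [hB, zero_mul, add_zero] at hE2
    exact (mul_ne_zero hsep.1 (dq56_theta_J_ne_zero K)) hE2


omit [CharZero K] in
theorem dq56_J_ne_zero : jqModC K ≠ 0 :=
  partC_J_ne_zero (jqModC K) (coeff_jqModC_neg_one K)

omit [CharZero K] in
theorem dq56_J_sub_ne_zero : jqModC K - 1728 ≠ 0 := by
  have h := partC_qExpand_J_sub_C_ne_zero (jqModC K) (coeff_jqModC_neg_one K) 1 (1728 : K)
  rwa [qExpand_one_apply, map_ofNat] at h

omit [CharZero K] in
theorem dq56_Jq_ne_zero [NeZero q] : JdC K q ≠ 0 := by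
  rw [JdC_of_neZero]
  exact partC_qExpand_J_ne_zero (jqModC K) (coeff_jqModC_neg_one K) q

omit [CharZero K] in
theorem dq56_Jq_sub_ne_zero [NeZero q] : JdC K q - 1728 ≠ 0 := by
  have h := partC_qExpand_J_sub_C_ne_zero (jqModC K) (coeff_jqModC_neg_one K) q (1728 : K)
  rwa [map_ofNat, ← JdC_of_neZero] at h

/-- The explicit formula `U = q^6 A^6 J_q^4 (J_q - 1728)^3 / (B^6 J^4 (J - 1728)^3)`. -/
theorem dq56_U_formula (hq : q.Prime) [NeZero q] :
    dq56_U K q =
      (q : LaurentSeries K) ^ 6 * dq56_A K q ^ 6 * (JdC K q ^ 4 * (JdC K q - 1728) ^ 3) /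
        (dq56_B K q ^ 6 * (jqModC K ^ 4 * (jqModC K - 1728) ^ 3)) := by
  have hden : dq56_B K q ^ 6 * (jqModC K ^ 4 * (jqModC K - 1728) ^ 3) ≠ 0 :=
    mul_ne_zero (pow_ne_zero _ (dq56_Z3 K q hq).2.1)
      (mul_ne_zero (pow_ne_zero _ (dq56_J_ne_zero K)) (pow_ne_zero _ (dq56_J_sub_ne_zero K)))
  rw [eq_div_iff hden]
  exact dq56_Z1 K q hq

/-- **Membership.** The modular unit `U = Δ(Q)/Δ(Q^q)` lies in every subfield of `K((Q))`
containing `J` and `J(Q^q)`. -/
theorem dq56_U_mem (hq : q.Prime) (E : Subfield (LaurentSeries K)) (hJ : jqModC K ∈ E)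
    (hJq : JdC K q ∈ E) : dq56_U K q ∈ E := by
  have : NeZero q := ⟨hq.ne_zero⟩
  have hev : ∀ Ψ : Polynomial (Polynomial ℤ), dq56_ev (JdC K q) (jqModC K) Ψ ∈ E := by
    intro Ψ
    have h : dq56_ev (JdC K q) (jqModC K) Ψ =
        E.subtype (dq56_ev ⟨JdC K q, hJq⟩ ⟨jqModC K, hJ⟩ Ψ) :=
      (dq56_ev_map E.subtype ⟨JdC K q, hJq⟩ ⟨jqModC K, hJ⟩ Ψ).symm
    rw [h]
    exact SetLike.coe_mem _
  rw [dq56_U_formula K q hq]
  have h1728 : (1728 : LaurentSeries K) ∈ E := by
    have h : ((1728 : ℕ) : LaurentSeries K) ∈ E := natCast_mem E 1728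
    simp only [Nat.cast_ofNat] at h
    exact h
  exact div_mem (mul_mem (mul_mem (pow_mem (natCast_mem E q) _) (pow_mem (hev _) _))
      (mul_mem (pow_mem hJq _) (pow_mem (sub_mem hJq h1728) _)))
    (mul_mem (pow_mem (hev _) _) (mul_mem (pow_mem hJ _) (pow_mem (sub_mem hJ h1728) _)))

/-- **Membership at level `M`.** For `q ∣ M` the modular unit `U = Δ(Q)/Δ(Q^q)` lies in the
function field `modularFunctionFieldFullC K M`. -/
theorem dq56_U_mem_full (hq : q.Prime) (M : ℕ) [NeZero M] (hqM : q ∣ M) :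
    dq56_U K q ∈ modularFunctionFieldFullC K M := by
  have : NeZero q := ⟨hq.ne_zero⟩
  have h := dq56_U_mem K q hq (modularFunctionFieldFullC K M).toSubfield
    (jqModC_mem_full K M) (by rw [JdC_of_neZero]; exact jqModCd_mem_full K M hqM)
  exact h

/-- **Atkin-Lehner, abstract form.** Let `F` be a field with a ring homomorphism
`ι : F →+* K((Q))`, and `j, jq, u ∈ F` with `ι j = J`, `ι jq = J(Q^q)`, `ι u = U = Δ(Q)/Δ(Q^q)`.
For EVERY ring homomorphism `w : F →+* F` with `w j = jq` and `w jq = j`: `u * w u = q ^ 12`. -/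
theorem dq56_w_mul (hq : q.Prime) {F : Type*} [Field F] (ι : F →+* LaurentSeries K)
    (w : F →+* F) (j jq u : F) (hj : ι j = jqModC K) (hjq : ι jq = JdC K q)
    (hu : ι u = dq56_U K q) (hwj : w j = jq) (hwjq : w jq = j) :
    u * w u = (q : F) ^ 12 := by
  have : NeZero q := ⟨hq.ne_zero⟩
  have hinj : Function.Injective ι := ι.injective
  obtain ⟨hA, hB, hA', hB'⟩ := dq56_Z3 K q hq
  -- the four partial derivatives inside `F`
  have ha : ι (dq56_ev jq j (derivative (dq56_Phi q))) = dq56_A K q := by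
    rw [dq56_ev_map, hj, hjq]; rfl
  have hb : ι (dq56_ev jq j (dq56_dY (dq56_Phi q))) = dq56_B K q := by
    rw [dq56_ev_map, hj, hjq]; rfl
  have ha' : ι (dq56_ev j jq (derivative (dq56_Phi q))) = dq56_A' K q := by
    rw [dq56_ev_map, hj, hjq]; rfl
  have hb' : ι (dq56_ev j jq (dq56_dY (dq56_Phi q))) = dq56_B' K q := by
    rw [dq56_ev_map, hj, hjq]; rfl
  have hwa : w (dq56_ev jq j (derivative (dq56_Phi q))) =
      dq56_ev j jq (derivative (dq56_Phi q)) := by
    rw [dq56_ev_map, hwj, hwjq]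
  have hwb : w (dq56_ev jq j (dq56_dY (dq56_Phi q))) =
      dq56_ev j jq (dq56_dY (dq56_Phi q)) := by
    rw [dq56_ev_map, hwj, hwjq]
  generalize dq56_ev jq j (derivative (dq56_Phi q)) = a at ha hwa
  generalize dq56_ev jq j (dq56_dY (dq56_Phi q)) = b at hb hwb
  generalize dq56_ev j jq (derivative (dq56_Phi q)) = a' at ha' hwa
  generalize dq56_ev j jq (dq56_dY (dq56_Phi q)) = b' at hb' hwb
  have hb0 : b ≠ 0 := fun h => hB (by rw [← hb, h, map_zero])
  have hb'0 : b' ≠ 0 := fun h => hB' (by rw [← hb', h, map_zero])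
  have hj0 : j ≠ 0 := fun h => dq56_J_ne_zero K (by rw [← hj, h, map_zero])
  have hjq0 : jq ≠ 0 := fun h => dq56_Jq_ne_zero K q (by rw [← hjq, h, map_zero])
  have hj1 : j - 1728 ≠ 0 := fun h => dq56_J_sub_ne_zero K (by
    have h2 := congrArg ι h
    rwa [map_sub, map_ofNat, hj, map_zero] at h2)
  have hjq1 : jq - 1728 ≠ 0 := fun h => dq56_Jq_sub_ne_zero K q (by
    have h2 := congrArg ι h
    rwa [map_sub, map_ofNat, hjq, map_zero] at h2)
  -- (Z1) and (Z2) inside `F`
  have hZ1 : u * (b ^ 6 * (j ^ 4 * (j - 1728) ^ 3)) =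
      (q : F) ^ 6 * a ^ 6 * (jq ^ 4 * (jq - 1728) ^ 3) := by
    apply hinj
    simp only [map_mul, map_pow, map_sub, map_natCast, map_ofNat, hu, ha, hb, hj, hjq]
    exact dq56_Z1 K q hq
  have hZ2 : a * a' = b * b' := by
    apply hinj
    simp only [map_mul, ha, hb, ha', hb']
    exact dq56_Z2 K q hq
  have hwZ1 : w u * (b' ^ 6 * (jq ^ 4 * (jq - 1728) ^ 3)) =
      (q : F) ^ 6 * a' ^ 6 * (j ^ 4 * (j - 1728) ^ 3) := by
    have h := congrArg w hZ1
    simpa only [map_mul, map_pow, map_sub, map_natCast, map_ofNat, hwa, hwb, hwj, hwjq] using h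
  have hne : (b * b') ^ 6 * ((j ^ 4 * (j - 1728) ^ 3) * (jq ^ 4 * (jq - 1728) ^ 3)) ≠ 0 :=
    mul_ne_zero (pow_ne_zero _ (mul_ne_zero hb0 hb'0))
      (mul_ne_zero (mul_ne_zero (pow_ne_zero _ hj0) (pow_ne_zero _ hj1))
        (mul_ne_zero (pow_ne_zero _ hjq0) (pow_ne_zero _ hjq1)))
  apply mul_right_cancel₀ hne
  have hZ2' : (a * a') ^ 6 = (b * b') ^ 6 := by rw [hZ2]
  linear_combination (w u * (b' ^ 6 * (jq ^ 4 * (jq - 1728) ^ 3))) * hZ1 +
    ((q : F) ^ 6 * a ^ 6 * (jq ^ 4 * (jq - 1728) ^ 3)) * hwZ1 +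
    ((q : F) ^ 12 * ((j ^ 4 * (j - 1728) ^ 3) * (jq ^ 4 * (jq - 1728) ^ 3))) * hZ2'

end Core

end

end Fermat.Agent.S34
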