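import Mathlib

/-!
# S34 lab, sub-row P4a (helper54): derivations on algebraic extensions of `K(t)`, characteristic zero

Mathlib only.  `K ⊆ F` fields of characteristic zero, `t : F` with `F` algebraic over `K(t)`.

* `da54_der_eq_zero`  : a `K`-derivation of `F` (values in any `F`-module) that kills `t` is zero.
* `da54_der_mem`      : if `F` is an intermediate field of `L / K` and `D` is a `K`-derivation of
  `L`, then `D x ∈ F · D t` for every `x ∈ F` ("`dx/dt ∈ F`").
* `da54_involution`   : if moreover `w` is a `K`-linear ring involution of `F` and `s = w t`, then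
  `w (ds/dt) * (ds/dt) = 1`  ("`w (ds/dt) = dt/ds`").

All names are prefixed `da54_`.
-/

set_option autoImplicit false
set_option linter.unusedSectionVars false

open Polynomial IntermediateField

namespace Fermat.Agent.S34

section da54_abs

variable {K F M : Type*} [Field K] [Field F] [CharZero F] [Algebra K F]
  [AddCommGroup M] [Module K M] [Module F M] [IsScalarTower K F M]

/-- A derivation which kills a subalgebra `S` satisfies `E (p(x)) = p'(x) • E x` for `p ∈ S[X]`. -/
theorem da54_der_aeval (E : Derivation K F M) (S : IntermediateField K F)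
    (hS : ∀ a : S, E (a : F) = 0) (x : F) (p : Polynomial S) :
    E (aeval x p) = aeval x (derivative p) • E x := by
  induction p using Polynomial.induction_on' with
  | add p q hp hq => simp only [map_add, add_smul, hp, hq]
  | monomial n a =>
    rw [aeval_monomial, derivative_monomial, aeval_monomial, Derivation.leibniz,
      Derivation.leibniz_pow]
    have ha : E (algebraMap S F a) = 0 := hS a
    rw [ha, smul_zero, add_zero, map_mul, map_natCast, mul_smul, mul_smul,
      Nat.cast_smul_eq_nsmul]

/-- **Uniqueness of derivations on a separable algebraic extension of `K(t)`**: a `K`-derivation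
of `F` with `E t = 0` is zero, if `F` is algebraic over `K(t)` (characteristic zero). -/
theorem da54_der_eq_zero (E : Derivation K F M) (t : F) (ht : E t = 0)
    (halg : ∀ x : F, IsAlgebraic K⟮t⟯ x) (x : F) : E x = 0 := by
  have h1 : ∀ a ∈ K⟮t⟯, E a = 0 := by
    intro a ha
    induction ha using IntermediateField.adjoin_induction with
    | mem a ha =>
      rw [Set.mem_singleton_iff] at ha
      rw [ha, ht]
    | algebraMap c => exact E.map_algebraMap c
    | add a b _ _ ha hb => rw [map_add, ha, hb, add_zero]
    | inv a _ ha => rw [Derivation.leibniz_inv, ha, smul_zero]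
    | mul a b _ _ ha hb => rw [Derivation.leibniz, ha, hb, smul_zero, smul_zero, add_zero]
  have hx := halg x
  have hint : IsIntegral K⟮t⟯ x := hx.isIntegral
  have hsep : (minpoly K⟮t⟯ x).Separable := (minpoly.irreducible hint).separable
  have h0 : aeval x (minpoly K⟮t⟯ x) = 0 := minpoly.aeval _ _
  have h2 := da54_der_aeval E K⟮t⟯ (fun a => h1 a a.2) x (minpoly K⟮t⟯ x)
  rw [h0, map_zero] at h2
  have h3 : aeval x (derivative (minpoly K⟮t⟯ x)) ≠ 0 := hsep.aeval_derivative_ne_zero h0
  have h4 : E x = (aeval x (derivative (minpoly K⟮t⟯ x)))⁻¹ •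
      (aeval x (derivative (minpoly K⟮t⟯ x)) • E x) := (inv_smul_smul₀ h3 _).symm
  rw [h4, ← h2, smul_zero]

end da54_abs

section da54_mem

variable {K L : Type*} [Field K] [Field L] [CharZero L] [Algebra K L]

/-- An unbundled `K`-derivation of `L` (additive, Leibniz, zero on `K`) as a `Derivation`. -/
def da54_mkDer (D : L → L) (hadd : ∀ x y, D (x + y) = D x + D y)
    (hmul : ∀ x y, D (x * y) = x * D y + y * D x) (hK : ∀ c : K, D (algebraMap K L c) = 0) :
    Derivation K L L :=
  Derivation.mk'
    { toFun := D
      map_add' := hadd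
      map_smul' := fun c x => by
        rw [RingHom.id_apply, Algebra.smul_def, hmul, hK, mul_zero, add_zero, Algebra.smul_def] }
    (fun x y => by
      show D (x * y) = x • D y + y • D x
      rw [smul_eq_mul, smul_eq_mul]; exact hmul x y)

theorem da54_mkDer_apply (D : L → L) (hadd : ∀ x y, D (x + y) = D x + D y)
    (hmul : ∀ x y, D (x * y) = x * D y + y * D x) (hK : ∀ c : K, D (algebraMap K L c) = 0)
    (x : L) : da54_mkDer D hadd hmul hK x = D x := rfl

/-- **`dx/dt ∈ F`** (bundled form): `F` an intermediate field of `L / K`, algebraic over `K(t)`,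
`D` a `K`-derivation of `L`; then `D x ∈ F · D t` for every `x ∈ F`. -/
theorem da54_der_mem' (D : Derivation K L L) (F : IntermediateField K L) (t : F)
    (halg : ∀ x : F, IsAlgebraic K⟮t⟯ x) (x : F) :
    ∃ c : F, D (x : L) = (c : L) * D (t : L) := by
  let N : Submodule F L := Submodule.span F {D (t : L)}
  let E : Derivation K F (L ⧸ N) := (N.mkQ).compDer (D.compAlgebraMap F)
  have hE : ∀ y : F, E y = N.mkQ (D (y : L)) := fun y => rfl
  have ht : E t = 0 := by
    rw [hE, Submodule.mkQ_apply, Submodule.Quotient.mk_eq_zero]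
    exact Submodule.mem_span_singleton_self _
  have hx := da54_der_eq_zero E t ht halg x
  rw [hE, Submodule.mkQ_apply, Submodule.Quotient.mk_eq_zero, Submodule.mem_span_singleton] at hx
  obtain ⟨c, hc⟩ := hx
  exact ⟨c, hc.symm⟩

/-- **`dx/dt ∈ F`**: `F` an intermediate field of `L / K`, algebraic over `K(t)`, `D` an
(unbundled) `K`-derivation of `L`; then `D x ∈ F · D t` for every `x ∈ F`. -/
theorem da54_der_mem (D : L → L) (hadd : ∀ x y, D (x + y) = D x + D y)
    (hmul : ∀ x y, D (x * y) = x * D y + y * D x) (hK : ∀ c : K, D (algebraMap K L c) = 0)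
    (F : IntermediateField K L) (t : F)
    (halg : ∀ x : F, IsAlgebraic K⟮t⟯ x) (x : F) :
    ∃ c : F, D (x : L) = (c : L) * D (t : L) :=
  da54_der_mem' (da54_mkDer D hadd hmul hK) F t halg x

/-- **`w (ds/dt) = dt/ds`** for a `K`-linear ring involution `w` of `F` with `w t = s`:
if `D s = r * D t` with `r ∈ F` and `D t ≠ 0`, then `w r * r = 1`. -/
theorem da54_involution (D : L → L) (hadd : ∀ x y, D (x + y) = D x + D y)
    (hmul : ∀ x y, D (x * y) = x * D y + y * D x) (hK : ∀ c : K, D (algebraMap K L c) = 0)
    (F : IntermediateField K L) (t s : F)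
    (halg : ∀ x : F, IsAlgebraic K⟮t⟯ x) (hDt : D (t : L) ≠ 0)
    (w : F →+* F) (hwK : ∀ c : K, w (algebraMap K F c) = algebraMap K F c)
    (hww : ∀ x : F, w (w x) = x) (hwt : w t = s)
    (r : F) (hr : D (s : L) = (r : L) * D (t : L)) : w r * r = 1 := by
  classical
  -- the derivation `δ = D / D t` of `F`
  choose δf hδf using da54_der_mem D hadd hmul hK F t halg
  have hδ_unique : ∀ (x c : F), D (x : L) = (c : L) * D (t : L) → δf x = c := by
    intro x c hc
    have h := hδf x
    rw [hc] at h
    exact (Subtype.ext (mul_right_cancel₀ hDt h)).symm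
  have hδ_add : ∀ x y : F, δf (x + y) = δf x + δf y := by
    intro x y
    apply hδ_unique
    push_cast
    rw [hadd, hδf x, hδf y, add_mul]
  have hδ_smul : ∀ (c : K) (x : F), δf (c • x) = c • δf x := by
    intro c x
    apply hδ_unique
    have h1 : ((c • x : F) : L) = algebraMap K L c * (x : L) := by
      rw [← Algebra.smul_def]; rfl
    have h2 : ((c • δf x : F) : L) = algebraMap K L c * (δf x : L) := by
      rw [← Algebra.smul_def]; rfl
    rw [h1, h2, hmul, hK, mul_zero, add_zero, hδf x, mul_assoc]
  have hδ_mul : ∀ x y : F, δf (x * y) = x * δf y + y * δf x := by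
    intro x y
    apply hδ_unique
    push_cast
    rw [hmul, hδf x, hδf y]
    ring
  have hδt : δf t = 1 := hδ_unique t 1 (by push_cast; rw [one_mul])
  have hδs : δf s = r := hδ_unique s r hr
  have hw_smul : ∀ (c : K) (x : F), w (c • x) = c • w x := by
    intro c x
    rw [Algebra.smul_def, map_mul, hwK, ← Algebra.smul_def]
  let δ : Derivation K F F := Derivation.mk'
    { toFun := δf
      map_add' := hδ_add
      map_smul' := fun c x => by rw [RingHom.id_apply]; exact hδ_smul c x }
    (fun x y => by
      show δf (x * y) = x • δf y + y • δf x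
      rw [smul_eq_mul, smul_eq_mul]; exact hδ_mul x y)
  let δ' : Derivation K F F := Derivation.mk'
    { toFun := fun x => w (δf (w x))
      map_add' := fun x y => by rw [map_add, hδ_add, map_add]
      map_smul' := fun c x => by
        rw [RingHom.id_apply, hw_smul, hδ_smul, hw_smul] }
    (fun x y => by
      show w (δf (w (x * y))) = x • w (δf (w y)) + y • w (δf (w x))
      rw [map_mul, hδ_mul, map_add, map_mul, map_mul, hww, hww, smul_eq_mul, smul_eq_mul])
  have hδ_apply : ∀ x : F, δ x = δf x := fun x => rfl
  have hδ'_apply : ∀ x : F, δ' x = w (δf (w x)) := fun x => rfl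
  let E : Derivation K F F := δ' - (δ' t) • δ
  have hE : ∀ x : F, E x = δ' x - δ' t * δ x := fun x => rfl
  have hEt : E t = 0 := by
    rw [hE, hδ_apply, hδt, mul_one, sub_self]
  have hEs := da54_der_eq_zero E t hEt halg s
  rw [hE, hδ'_apply, hδ'_apply, hδ_apply, hδs, hwt, hδs, ← hwt, hww, hδt, map_one] at hEs
  exact (sub_eq_zero.mp hEs).symm

end da54_mem

end Fermat.Agent.S34
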