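import Mathlib

/-!
# S34 lab (helper46): the different of a monogenic order, in elementwise form

`A` an integrally closed domain with fraction field `K`, `L / K` finite separable, `y ∈ L`
integral over `A` with `K[y] = L`.  Then for every `x ∈ L` integral over `A`

  `f'(y) * x ∈ A[y]`,   `f` the minimal polynomial of `y` over `K`

(`da46_deriv_mul_mem`), i.e. `f'(y) * x = p(y)` for a polynomial `p ∈ A[X]`
(`da46_exists_aeval`).  This is Mathlib's `traceForm_dualSubmodule_adjoin` read elementwise.
-/

set_option autoImplicit false

open Polynomial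

namespace Fermat.Agent.S34

section

variable (A K : Type*) {L : Type*} [CommRing A] [Field K] [Field L] [Algebra A K] [Algebra K L]
  [Algebra A L] [IsScalarTower A K L] [IsDomain A] [IsFractionRing A K] [FiniteDimensional K L]
  [Algebra.IsSeparable K L] [IsIntegrallyClosed A]

/-- `f'(y) * x ∈ A[y]` for `x` integral over `A`. -/
theorem da46_deriv_mul_mem {y : L} (hy : Algebra.adjoin K {y} = ⊤) (hAy : IsIntegral A y)
    (x : L) (hx : IsIntegral A x) :
    aeval y (derivative (minpoly K y)) * x ∈ Algebra.adjoin A {y} := by
  have hne : aeval y (derivative (minpoly K y)) ≠ 0 :=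
    (Algebra.IsSeparable.isSeparable K y).aeval_derivative_ne_zero (minpoly.aeval K y)
  have hxdual : x ∈ (Algebra.traceForm K L).dualSubmodule
      (Subalgebra.toSubmodule (Algebra.adjoin A {y})) := by
    rw [LinearMap.BilinForm.mem_dualSubmodule]
    intro a ha
    have ha' : IsIntegral A a := by
      have hle : Algebra.adjoin A {y} ≤ integralClosure A L :=
        Algebra.adjoin_le (by
          intro z hz
          rw [Set.mem_singleton_iff] at hz
          rw [hz]
          exact hAy)
      exact hle ha
    have hxa : IsIntegral A (x * a) := hx.mul ha'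
    have htr : IsIntegral A (Algebra.trace K L (x * a)) := Algebra.isIntegral_trace hxa
    obtain ⟨r, hr⟩ := IsIntegrallyClosed.isIntegral_iff.mp htr
    rw [Algebra.traceForm_apply, Submodule.mem_one]
    exact ⟨r, hr⟩
  rw [traceForm_dualSubmodule_adjoin A K hy hAy] at hxdual
  obtain ⟨w, hw, hwx⟩ := hxdual
  have hwx' : (aeval y (derivative (minpoly K y)))⁻¹ * w = x := hwx
  rw [← hwx', ← mul_assoc, mul_inv_cancel₀ hne, one_mul]
  exact hw

/-- `f'(y) * x = p(y)` with `p ∈ A[X]`, for `x` integral over `A`. -/
theorem da46_exists_aeval {y : L} (hy : Algebra.adjoin K {y} = ⊤) (hAy : IsIntegral A y)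
    (x : L) (hx : IsIntegral A x) :
    ∃ p : A[X], aeval y p = aeval y (derivative (minpoly K y)) * x := by
  have h := da46_deriv_mul_mem A K hy hAy x hx
  rw [Algebra.adjoin_singleton_eq_range_aeval] at h
  exact h

end

end Fermat.Agent.S34
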