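import Mathlib
import Fermat.Agent.S34.Iface47d
import Fermat.Agent.S34.Hartogs19
import Fermat.Agent.S34.Krull65

/-!
# S34 lab (helper65): every horizontal valuation ring over a chart is a localisation of the chart
— `s34i47d_Pkg_Dom`

* `dm65_poly` : in `R[X]` (`R` a domain in which every nonzero element divides a power of `π`),
  a nonzero prime contained in a prime not containing `π` is equal to it (`K[X]` is a principal
  ideal domain, with denominators cleared by hand).
* `dm65_adjoin` : the same in `R[g]` (any quotient of `R[X]`).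
* `dm65_dim` : the same in any domain integral over such a ring (incomparability).
* `dm65_dom` : for a Noetherian chart `B = pk15_chart R {g}` with fraction field `F`, every
  horizontal valuation subring `O ⊇ B` is the localisation of `B` at its centre:
  `s34i47d_Dom π B`  (`hg19_mem_localization` + `hg19_mem_of_valuation`, helper19).
* `dm65_Pkg_Dom` : `s34i47d_Pkg_Dom`, literally.

All names are prefixed `dm65_`.
-/

set_option autoImplicit false
set_option linter.style.haveILetI false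

namespace Fermat.Agent.S34

open Fermat.Agent.S18 Polynomial

section Poly

/-- In `R[X]` (`R` a domain in which every nonzero element divides a power of `π`): a nonzero
prime contained in a prime not containing `π` is equal to it. -/
theorem dm65_poly {R K : Type*} [CommRing R] [IsDomain R] [Field K] [Algebra R K]
    [IsFractionRing R K] (π : R)
    (hdiv : ∀ r : R, r ≠ 0 → ∃ (k : ℕ) (r' : R), r * r' = π ^ k)
    (P q : Ideal R[X]) [hP : P.IsPrime] [hq : q.IsPrime] (hle : P ≤ q) (hP0 : P ≠ ⊥)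
    (hπ : C π ∉ q) : q ≤ P := by
  classical
  have hinjK : Function.Injective (algebraMap R K) := IsFractionRing.injective R K
  have hinj : Function.Injective (Polynomial.map (algebraMap R K)) :=
    Polynomial.map_injective _ hinjK
  have hconst : ∀ r : R, r ≠ 0 → C r ∉ q := by
    intro r hr hrq
    obtain ⟨k, r', hk⟩ := hdiv r hr
    have h1 : C (π ^ k) ∈ q := by
      rw [← hk, C_mul]
      exact q.mul_mem_right _ hrq
    rw [C_pow] at h1
    exact hπ (hq.mem_of_pow_mem _ h1)
  have hex : ∃ n : ℕ, ∃ G ∈ P, G ≠ 0 ∧ G.natDegree = n := by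
    obtain ⟨G, hG, hG0⟩ := Submodule.exists_mem_ne_zero_of_ne_bot hP0
    exact ⟨_, G, hG, hG0, rfl⟩
  obtain ⟨G, hGP, hG0, hGn⟩ := Nat.find_spec hex
  have hmin : ∀ G' ∈ P, G' ≠ 0 → G.natDegree ≤ G'.natDegree := by
    intro G' hG' hG'0
    rw [hGn]
    exact Nat.find_min' hex ⟨G', hG', hG'0, rfl⟩
  have hclear : ∀ a : K[X], ∃ (r : R) (a1 : R[X]), r ≠ 0 ∧
      a1.map (algebraMap R K) = C (algebraMap R K r) * a := by
    intro a
    obtain ⟨b, hbM, hb⟩ := IsLocalization.integerNormalization_spec (nonZeroDivisors R) a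
    refine ⟨b, IsLocalization.integerNormalization (nonZeroDivisors R) a,
      nonZeroDivisors.ne_zero hbM, ?_⟩
    rw [hb, Algebra.smul_def, Polynomial.algebraMap_apply]
  have hCne : ∀ r : R, r ≠ 0 → algebraMap R K r ≠ 0 := fun r hr h0 =>
    hr (hinjK (by rw [h0, map_zero]))
  have hGmap0 : G.map (algebraMap R K) ≠ 0 := fun h0 =>
    hG0 (hinj (by rw [h0, Polynomial.map_zero]))
  have hGdeg : (G.map (algebraMap R K)).natDegree = G.natDegree :=
    natDegree_map_eq_of_injective hinjK G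
  have hirr : Irreducible (G.map (algebraMap R K)) := by
    rw [irreducible_iff]
    constructor
    · intro hu
      have h1 : (G.map (algebraMap R K)).natDegree = 0 := natDegree_eq_zero_of_isUnit hu
      rw [hGdeg] at h1
      have h2 : G = C (G.coeff 0) := eq_C_of_natDegree_eq_zero h1
      have h3 : G.coeff 0 ≠ 0 := by
        intro h0
        apply hG0
        rw [h2, h0, C_0]
      apply hconst _ h3
      rw [← h2]
      exact hle hGP
    · intro a b hab
      have ha0 : a ≠ 0 := by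
        rintro rfl
        rw [zero_mul] at hab
        exact hGmap0 hab
      have hb0 : b ≠ 0 := by
        rintro rfl
        rw [mul_zero] at hab
        exact hGmap0 hab
      obtain ⟨ra, a1, hra, ha1⟩ := hclear a
      obtain ⟨rb, b1, hrb, hb1⟩ := hclear b
      have hprod : C (ra * rb) * G = a1 * b1 := by
        apply hinj
        rw [Polynomial.map_mul, Polynomial.map_mul, ha1, hb1, Polynomial.map_C, hab, map_mul,
          C_mul]
        ring
      have hmem : a1 * b1 ∈ P := by
        rw [← hprod]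
        exact P.mul_mem_left _ hGP
      have hdeg : G.natDegree = a.natDegree + b.natDegree := by
        rw [← hGdeg, hab, natDegree_mul ha0 hb0]
      have hda : a1.natDegree = a.natDegree := by
        rw [← natDegree_map_eq_of_injective hinjK a1, ha1, natDegree_C_mul (hCne ra hra)]
      have hdb : b1.natDegree = b.natDegree := by
        rw [← natDegree_map_eq_of_injective hinjK b1, hb1, natDegree_C_mul (hCne rb hrb)]
      have ha10 : a1 ≠ 0 := by
        rintro rfl
        rw [Polynomial.map_zero] at ha1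
        exact (mul_ne_zero (C_ne_zero.mpr (hCne ra hra)) ha0) ha1.symm
      have hb10 : b1 ≠ 0 := by
        rintro rfl
        rw [Polynomial.map_zero] at hb1
        exact (mul_ne_zero (C_ne_zero.mpr (hCne rb hrb)) hb0) hb1.symm
      rcases hP.mem_or_mem hmem with h | h
      · right
        have h1 := hmin a1 h ha10
        have h2 : b.natDegree = 0 := by omega
        rw [Polynomial.isUnit_iff_degree_eq_zero, degree_eq_natDegree hb0, h2]
        rfl
      · left
        have h1 := hmin b1 h hb10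
        have h2 : a.natDegree = 0 := by omega
        rw [Polynomial.isUnit_iff_degree_eq_zero, degree_eq_natDegree ha0, h2]
        rfl
  intro e he
  by_cases hdvd : G.map (algebraMap R K) ∣ e.map (algebraMap R K)
  · obtain ⟨c, hc⟩ := hdvd
    obtain ⟨r, c1, hr, hc1⟩ := hclear c
    have hprod : C r * e = G * c1 := by
      apply hinj
      rw [Polynomial.map_mul, Polynomial.map_mul, hc1, Polynomial.map_C, hc]
      ring
    have hmem : C r * e ∈ P := by
      rw [hprod]
      exact P.mul_mem_right _ hGP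
    rcases hP.mem_or_mem hmem with h | h
    · exact absurd (hle h) (hconst r hr)
    · exact h
  · exfalso
    obtain ⟨a, b, hab⟩ := (hirr.coprime_iff_not_dvd).mpr hdvd
    obtain ⟨ra, a1, hra, ha1⟩ := hclear a
    obtain ⟨rb, b1, hrb, hb1⟩ := hclear b
    have hsum : C rb * a1 * G + C ra * b1 * e = C (ra * rb) := by
      apply hinj
      rw [Polynomial.map_add, Polynomial.map_mul, Polynomial.map_mul, Polynomial.map_mul,
        Polynomial.map_mul, ha1, hb1, Polynomial.map_C, Polynomial.map_C, Polynomial.map_C,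
        map_mul, C_mul]
      linear_combination (C (algebraMap R K ra) * C (algebraMap R K rb)) * hab
    apply hconst (ra * rb) (mul_ne_zero hra hrb)
    rw [← hsum]
    exact q.add_mem (q.mul_mem_left _ (hle hGP)) (q.mul_mem_left _ he)

end Poly

section Adjoin

variable {R : Type*} [CommRing R] [IsDomain R]

/-- The dimension statement in `R[g]`. -/
theorem dm65_adjoin {F : Type*} [CommRing F] [Algebra R F] (π : R)
    (hdiv : ∀ r : R, r ≠ 0 → ∃ (k : ℕ) (r' : R), r * r' = π ^ k) (g : F)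
    (P q : Ideal (Algebra.adjoin R ({g} : Set F))) [hP : P.IsPrime] [hq : q.IsPrime]
    (hle : P ≤ q) (hP0 : P ≠ ⊥)
    (hπ : algebraMap R (Algebra.adjoin R ({g} : Set F)) π ∉ q) : q ≤ P := by
  classical
  let ψ : R[X] →ₐ[R] Algebra.adjoin R ({g} : Set F) :=
    (Polynomial.aeval g : R[X] →ₐ[R] F).codRestrict (Algebra.adjoin R ({g} : Set F)) (fun p => by
      rw [Algebra.adjoin_singleton_eq_range_aeval]
      exact ⟨p, rfl⟩)
  have hψsurj : Function.Surjective ψ := by
    intro a
    have ha : (a : F) ∈ (Polynomial.aeval g : R[X] →ₐ[R] F).range := by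
      rw [← Algebra.adjoin_singleton_eq_range_aeval]
      exact a.2
    obtain ⟨p, hp⟩ := ha
    exact ⟨p, Subtype.ext hp⟩
  haveI : (P.comap (ψ : R[X] →+* Algebra.adjoin R ({g} : Set F))).IsPrime :=
    Ideal.comap_isPrime _ P
  haveI : (q.comap (ψ : R[X] →+* Algebra.adjoin R ({g} : Set F))).IsPrime :=
    Ideal.comap_isPrime _ q
  have h1 : q.comap (ψ : R[X] →+* Algebra.adjoin R ({g} : Set F)) ≤
      P.comap (ψ : R[X] →+* Algebra.adjoin R ({g} : Set F)) := by
    refine dm65_poly (K := FractionRing R) π hdiv _ _ (Ideal.comap_mono hle) ?_ ?_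
    · obtain ⟨a, haP, ha0⟩ := Submodule.exists_mem_ne_zero_of_ne_bot hP0
      obtain ⟨p, rfl⟩ := hψsurj a
      intro hbot
      have hp : p ∈ P.comap (ψ : R[X] →+* Algebra.adjoin R ({g} : Set F)) := haP
      rw [hbot, Ideal.mem_bot] at hp
      apply ha0
      rw [hp, map_zero]
    · intro hmem
      apply hπ
      have h2 : ψ (C π) = algebraMap R (Algebra.adjoin R ({g} : Set F)) π := by
        rw [Polynomial.C_eq_algebraMap]
        exact ψ.commutes π
      rw [← h2]
      exact hmem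
  intro a ha
  obtain ⟨p, rfl⟩ := hψsurj a
  exact h1 ha

/-- The dimension statement in a domain integral over a ring where it holds. -/
theorem dm65_dim {A₀ S : Type*} [CommRing A₀] [Nontrivial A₀] [CommRing S] [IsDomain S]
    [Algebra A₀ S] [Algebra.IsIntegral A₀ S] (π₀ : A₀)
    (h0 : ∀ P₀ q₀ : Ideal A₀, P₀.IsPrime → q₀.IsPrime → P₀ ≤ q₀ → P₀ ≠ ⊥ → π₀ ∉ q₀ → q₀ ≤ P₀)
    (P q : Ideal S) [hP : P.IsPrime] [hq : q.IsPrime] (hle : P ≤ q) (hP0 : P ≠ ⊥)
    (hπ : algebraMap A₀ S π₀ ∉ q) : q ≤ P := by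
  by_contra hnot
  obtain ⟨y, hyq, hyP⟩ := Set.not_subset.mp hnot
  have hlt := Ideal.comap_lt_comap_of_integral_mem_sdiff hle ⟨hyq, hyP⟩
    (Algebra.IsIntegral.isIntegral (R := A₀) y)
  have hne : P.comap (algebraMap A₀ S) ≠ ⊥ := fun h => hP0 (Ideal.eq_bot_of_comap_eq_bot h)
  have h1 := h0 _ _ (Ideal.comap_isPrime _ P) (Ideal.comap_isPrime _ q) hlt.le hne
    (fun h => hπ h)
  exact absurd h1 (not_le_of_gt hlt)

end Adjoin

section Chart

variable {R F : Type*} [CommRing R] [Field F] [Algebra R F]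

/-- **(DOM) for a chart.** -/
theorem dm65_dom [IsDomain R] (π : R) (hπ0 : algebraMap R F π ≠ 0)
    (hdiv : ∀ r : R, r ≠ 0 → ∃ (k : ℕ) (r' : R), r * r' = π ^ k) (g : F)
    [IsNoetherianRing (pk15_chart R ({g} : Set F))]
    (hfrac : ∀ x : F, ∃ a ∈ pk15_chart R ({g} : Set F), ∃ b ∈ pk15_chart R ({g} : Set F),
      b ≠ 0 ∧ x * b = a) :
    s34i47d_Dom π (pk15_chart R ({g} : Set F)) := by
  classical
  intro O hO hBO x hx
  obtain ⟨hOtop, -, hRO, hπO⟩ := hO
  haveI hFR : IsFractionRing (pk15_chart R ({g} : Set F)) F := kr65_isFractionRing _ hfrac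
  haveI hIC : IsIntegrallyClosed (pk15_chart R ({g} : Set F)) :=
    (isIntegrallyClosed_iff F).mpr fun {y} hy => ⟨⟨y, kr65_chart_closed _ y hy⟩, rfl⟩
  let φ : pk15_chart R ({g} : Set F) →+* O :=
    (algebraMap (pk15_chart R ({g} : Set F)) F).codRestrict O.toSubring (fun b => hBO b b.2)
  have hφ : ∀ b : pk15_chart R ({g} : Set F), ((φ b : O) : F) = (b : F) := fun _ => rfl
  let q : Ideal (pk15_chart R ({g} : Set F)) := (IsLocalRing.maximalIdeal O).comap φ
  haveI hqprime : q.IsPrime := Ideal.comap_isPrime φ _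
  have hq_unit : ∀ b : pk15_chart R ({g} : Set F), b ∉ q → (b : F) ≠ 0 ∧ (b : F)⁻¹ ∈ O := by
    intro b hb
    have h1 : IsUnit (φ b) := by
      by_contra hnu
      exact hb ((IsLocalRing.mem_maximalIdeal _).mpr hnu)
    obtain ⟨c, hc⟩ := isUnit_iff_exists_inv.mp h1
    have h2 : (b : F) * (c : F) = 1 := by
      have := congrArg (fun t : O => (t : F)) hc
      simpa [hφ] using this
    refine ⟨left_ne_zero_of_mul_eq_one h2, ?_⟩
    rw [inv_eq_of_mul_eq_one_right h2]
    exact c.2
  have hq_centre : ∀ b : pk15_chart R ({g} : Set F), b ∈ q → (b : F) ≠ 0 → (b : F)⁻¹ ∉ O := by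
    intro b hb hb0 hinv
    have h1 : ¬ IsUnit (φ b) := (IsLocalRing.mem_maximalIdeal _).mp hb
    apply h1
    refine isUnit_iff_exists_inv.mpr ⟨⟨(b : F)⁻¹, hinv⟩, Subtype.ext ?_⟩
    show (b : F) * (b : F)⁻¹ = 1
    exact mul_inv_cancel₀ hb0
  have hπq : algebraMap R (pk15_chart R ({g} : Set F)) π ∉ q := fun hmem =>
    hq_centre _ hmem hπ0 hπO
  have hq0 : q ≠ ⊥ := by
    intro hbot
    apply hOtop
    refine eq_top_iff.mpr fun y _ => ?_
    obtain ⟨a, ha, b, hb, hb0, hab⟩ := hfrac y
    have hbq : (⟨b, hb⟩ : pk15_chart R ({g} : Set F)) ∉ q := by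
      rw [hbot, Ideal.mem_bot]
      intro h0
      exact hb0 (congrArg Subtype.val h0)
    have h1 := (hq_unit _ hbq).2
    have h2 : y = a * b⁻¹ := by rw [← hab, mul_inv_cancel_right₀ hb0]
    rw [h2]
    exact O.mul_mem _ _ (hBO a ha) h1
  -- the dimension statement
  have hdim : ∀ P : Ideal (pk15_chart R ({g} : Set F)), P.IsPrime → P ≤ q → P ≠ ⊥ → P = q := by
    intro P hP hPq hP0
    letI : Algebra (Algebra.adjoin R ({g} : Set F)) (pk15_chart R ({g} : Set F)) :=
      inferInstanceAs (Algebra (Algebra.adjoin R ({g} : Set F))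
        (integralClosure (Algebra.adjoin R ({g} : Set F)) F))
    haveI : Algebra.IsIntegral (Algebra.adjoin R ({g} : Set F)) (pk15_chart R ({g} : Set F)) :=
      inferInstanceAs (Algebra.IsIntegral (Algebra.adjoin R ({g} : Set F))
        (integralClosure (Algebra.adjoin R ({g} : Set F)) F))
    refine le_antisymm hPq ?_
    refine dm65_dim (A₀ := Algebra.adjoin R ({g} : Set F))
      (algebraMap R (Algebra.adjoin R ({g} : Set F)) π)
      (fun P₀ q₀ hP₀ hq₀ hle h0 hπ => @dm65_adjoin R _ _ F _ _ π hdiv g P₀ q₀ hP₀ hq₀ hle h0 hπ)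
      P q hPq hP0 ?_
    intro hmem
    exact hπq hmem
  obtain ⟨s, hs, a, ha⟩ := hg19_mem_localization (F := F) q x (fun P hP hPq hP0 hprin => by
    have hPeq : P = q := hdim P hP hPq hP0
    rw [hPeq] at hprin ⊢
    exact hg19_mem_of_valuation q hprin O (fun a ha => (hq_unit a ha).2)
      (fun a ha ha0 => hq_centre a ha (fun h0 => ha0 (Subtype.ext h0))) x hx)
  refine ⟨s, (hq_unit s hs).1, (hq_unit s hs).2, ?_⟩
  have h1 : (s : F) * x = (a : F) := ha
  rw [h1]
  exact a.2

/-- `hfrac` for the chart of `h⁻¹` from `hfrac` for the chart of `h`. -/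
theorem dm65_hfrac_inv (h : F) (hh0 : h ≠ 0)
    (hfrac : ∀ x : F, ∃ a ∈ pk15_chart R ({h} : Set F), ∃ b ∈ pk15_chart R ({h} : Set F),
      b ≠ 0 ∧ x * b = a) :
    ∀ x : F, ∃ a ∈ pk15_chart R ({h⁻¹} : Set F), ∃ b ∈ pk15_chart R ({h⁻¹} : Set F),
      b ≠ 0 ∧ x * b = a := by
  intro x
  obtain ⟨a, ha, b, hb, hb0, hab⟩ := hfrac x
  have h12 : pk15_chart R ({h} : Set F) ≤ pk15_chart R ({h, h⁻¹} : Set F) :=
    pk15_chart_mono (by simp)
  obtain ⟨k, hk⟩ := pk15_chart_loc' h hh0 a (h12 ha)
  obtain ⟨l, hl⟩ := pk15_chart_loc' h hh0 b (h12 hb)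
  have hhinv : h⁻¹ ∈ pk15_chart R ({h⁻¹} : Set F) := pk15_subset_chart _ (by simp)
  refine ⟨h⁻¹ ^ l * (h⁻¹ ^ k * a), Subalgebra.mul_mem _ (Subalgebra.pow_mem _ hhinv _) hk,
    h⁻¹ ^ k * (h⁻¹ ^ l * b), Subalgebra.mul_mem _ (Subalgebra.pow_mem _ hhinv _) hl, ?_, ?_⟩
  · exact mul_ne_zero (pow_ne_zero _ (inv_ne_zero hh0))
      (mul_ne_zero (pow_ne_zero _ (inv_ne_zero hh0)) hb0)
  · rw [← hab]; ring

end Chart

/-- **DOM** = `s34i47d_Pkg_Dom`. -/
theorem dm65_Pkg_Dom : s34i47d_Pkg_Dom := by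
  intro R K F _ _ _ _ _ _ _ _ _ _ _ π hπ h hh hN₁ hN₂ hfin hfrac
  have hh0 : h ≠ 0 := by
    rintro rfl
    exact hh (isAlgebraic_zero)
  have hπ0 : algebraMap R F π ≠ 0 := by
    rw [IsScalarTower.algebraMap_apply R K F]
    intro h0
    have h1 : algebraMap R K π = 0 := (map_eq_zero (algebraMap K F)).mp h0
    exact hπ.ne_zero ((IsFractionRing.injective R K) (by rw [h1, map_zero]))
  have hdiv : ∀ r : R, r ≠ 0 → ∃ (k : ℕ) (r' : R), r * r' = π ^ k := by
    intro r hr
    obtain ⟨n, u, hu⟩ := IsDiscreteValuationRing.associated_pow_irreducible hr hπ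
    exact ⟨n, u, hu⟩
  haveI := hN₁
  haveI := hN₂
  exact ⟨dm65_dom π hπ0 hdiv h hfrac, dm65_dom π hπ0 hdiv h⁻¹ (dm65_hfrac_inv h hh0 hfrac)⟩

end Fermat.Agent.S34
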