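import Mathlib

/-!
# S34 lab (helper69): horizontal regularity at a closed point from valuation rings

Mathlib-only bridge between the *valuation-ring form* of "no pole at the places centred in `n`"
(the `hord` style of S18/LPTwoChart7) and the *chart form* used by the local datum of the nodal
two-chart lemma (`∃ s ∈ B ∖ n, ∃ k, π ^ k * s * y ∈ B`, resp. `∃ s ∈ B ∖ n, s * y ∈ B`).

* `hu69_loc B π n` : the subring `B[π⁻¹, (B ∖ n)⁻¹]` of `F`, elementwise;
* `hu69_loc_closed` : it is integrally closed in `F` when `B` is;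
* `hu69_regular` : `y` lies in it as soon as `y ∈ O` for every valuation subring `O ⊇ B` of `F`
  with `π⁻¹ ∈ O` in which the elements of `B ∖ n` are units (centre inside `n`);
* `hu69_unit` : the same for `y` and `y⁻¹` (horizontal unit at `n`);
* `hu69_sat` : with a subring `W ⊇ B` in which `B` is `π`-saturated and `y ∈ W`: `s * y ∈ B`.

All names are prefixed `hu69_`.
-/

set_option autoImplicit false

namespace Fermat.Agent.S34

open Polynomial

section

variable {F : Type*} [Field F]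

/-- The subring `B[π⁻¹, (B ∖ n)⁻¹]` of `F`: elements `x` with `π ^ k * s * x ∈ B` for some
`s ∈ B ∖ n` and some `k`. -/
def hu69_loc (B : Subring F) (π : F) (hπB : π ∈ B) (n : Ideal B) [hn : n.IsPrime] : Subring F where
  carrier := {x | ∃ s : B, s ∉ n ∧ ∃ k : ℕ, π ^ k * (s : F) * x ∈ B}
  mul_mem' := by
    rintro x y ⟨s, hs, k, hx⟩ ⟨t, ht, l, hy⟩
    refine ⟨s * t, fun h => (hn.mem_or_mem h).elim hs ht, k + l, ?_⟩
    have : π ^ (k + l) * ((s * t : B) : F) * (x * y)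
        = (π ^ k * (s : F) * x) * (π ^ l * (t : F) * y) := by
      push_cast; ring
    rw [this]; exact B.mul_mem hx hy
  one_mem' := ⟨1, fun h => hn.ne_top ((Ideal.eq_top_iff_one _).mpr h), 0, by
    simp only [pow_zero, OneMemClass.coe_one, mul_one]; exact B.one_mem⟩
  add_mem' := by
    rintro x y ⟨s, hs, k, hx⟩ ⟨t, ht, l, hy⟩
    refine ⟨s * t, fun h => (hn.mem_or_mem h).elim hs ht, k + l, ?_⟩
    have : π ^ (k + l) * ((s * t : B) : F) * (x + y)
        = (π ^ l * (t : F)) * (π ^ k * (s : F) * x) + (π ^ k * (s : F)) * (π ^ l * (t : F) * y) := by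
      push_cast; ring
    rw [this]
    exact B.add_mem (B.mul_mem (B.mul_mem (B.pow_mem hπB _) t.2) hx)
      (B.mul_mem (B.mul_mem (B.pow_mem hπB _) s.2) hy)
  zero_mem' := ⟨1, fun h => hn.ne_top ((Ideal.eq_top_iff_one _).mpr h), 0, by
    simp only [mul_zero]; exact B.zero_mem⟩
  neg_mem' := by
    rintro x ⟨s, hs, k, hx⟩
    refine ⟨s, hs, k, ?_⟩
    have : π ^ k * (s : F) * (-x) = -(π ^ k * (s : F) * x) := by ring
    rw [this]; exact B.neg_mem hx

theorem hu69_mem_loc (B : Subring F) (π : F) (hπB : π ∈ B) (n : Ideal B) [n.IsPrime] (x : F) :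
    x ∈ hu69_loc B π hπB n ↔ ∃ s : B, s ∉ n ∧ ∃ k : ℕ, π ^ k * (s : F) * x ∈ B := Iff.rfl

theorem hu69_le_loc (B : Subring F) (π : F) (hπB : π ∈ B) (n : Ideal B) [hn : n.IsPrime] :
    B ≤ hu69_loc B π hπB n := fun x hx =>
  ⟨1, fun h => hn.ne_top ((Ideal.eq_top_iff_one _).mpr h), 0, by
    simp only [pow_zero, OneMemClass.coe_one, one_mul]; exact hx⟩

theorem hu69_pi_inv_mem_loc (B : Subring F) (π : F) (hπB : π ∈ B) (hπ0 : π ≠ 0) (n : Ideal B)
    [hn : n.IsPrime] : π⁻¹ ∈ hu69_loc B π hπB n :=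
  ⟨1, fun h => hn.ne_top ((Ideal.eq_top_iff_one _).mpr h), 1, by
    simp only [pow_one, OneMemClass.coe_one, mul_one, mul_inv_cancel₀ hπ0]; exact B.one_mem⟩

theorem hu69_inv_mem_loc (B : Subring F) (π : F) (hπB : π ∈ B) (n : Ideal B) [n.IsPrime]
    (s : B) (hs : s ∉ n) : (s : F)⁻¹ ∈ hu69_loc B π hπB n := by
  have hs0 : (s : F) ≠ 0 := by
    intro h
    apply hs
    have : s = 0 := Subtype.ext h
    rw [this]; exact n.zero_mem
  exact ⟨s, hs, 0, by simp only [pow_zero, one_mul, mul_inv_cancel₀ hs0]; exact B.one_mem⟩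

/-- common denominator for finitely many elements of `hu69_loc`. -/
theorem hu69_common_den (B : Subring F) (π : F) (hπB : π ∈ B) (n : Ideal B) [hn : n.IsPrime]
    {ι : Type*} (I : Finset ι) (c : ι → F) (hc : ∀ i ∈ I, c i ∈ hu69_loc B π hπB n) :
    ∃ s : B, s ∉ n ∧ ∃ k : ℕ, ∀ i ∈ I, π ^ k * (s : F) * c i ∈ B := by
  classical
  induction I using Finset.induction_on with
  | empty =>
    exact ⟨1, fun h => hn.ne_top ((Ideal.eq_top_iff_one _).mpr h), 0, fun i hi => by simp at hi⟩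
  | insert a I ha ih =>
    obtain ⟨s, hs, k, hsk⟩ := ih (fun i hi => hc i (Finset.mem_insert_of_mem hi))
    obtain ⟨t, ht, l, htl⟩ := hc a (Finset.mem_insert_self a I)
    refine ⟨s * t, fun h => (hn.mem_or_mem h).elim hs ht, k + l, ?_⟩
    intro i hi
    rcases Finset.mem_insert.mp hi with rfl | hi
    · have : π ^ (k + l) * ((s * t : B) : F) * c i = (π ^ k * (s : F)) * (π ^ l * (t : F) * c i) := by
        push_cast; ring
      rw [this]; exact B.mul_mem (B.mul_mem (B.pow_mem hπB _) s.2) htl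
    · have : π ^ (k + l) * ((s * t : B) : F) * c i = (π ^ l * (t : F)) * (π ^ k * (s : F) * c i) := by
        push_cast; ring
      rw [this]; exact B.mul_mem (B.mul_mem (B.pow_mem hπB _) t.2) (hsk i hi)

/-- `B[π⁻¹, (B ∖ n)⁻¹]` is integrally closed in `F` when `B` is. -/
theorem hu69_loc_closed (B : Subring F) (hB : ∀ x : F, IsIntegral B x → x ∈ B) (π : F)
    (hπB : π ∈ B) (n : Ideal B) [hn : n.IsPrime] (x : F)
    (hx : IsIntegral (hu69_loc B π hπB n) x) : x ∈ hu69_loc B π hπB n := by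
  classical
  obtain ⟨p, hp, hpx⟩ := hx
  -- the polynomial over `F`
  set P : F[X] := p.map (hu69_loc B π hπB n).subtype with hP
  have hPm : P.Monic := hp.map _
  have hPx : P.eval x = 0 := by
    rw [hP, eval_map]; exact hpx
  obtain ⟨s, hs, k, hsk⟩ := hu69_common_den B π hπB n (Finset.range (P.natDegree + 1))
    (fun i => P.coeff i) (fun i _ => by rw [hP, coeff_map]; exact (p.coeff i).2)
  set t : F := π ^ k * (s : F) with ht
  have htB : t ∈ B := B.mul_mem (B.pow_mem hπB _) s.2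
  -- the scaled polynomial has coefficients in `B`
  have hQm : (scaleRoots P t).Monic := (monic_scaleRoots_iff t).mpr hPm
  have hQx : (scaleRoots P t).eval (t * x) = 0 := by
    have h := scaleRoots_eval₂_mul (p := P) (RingHom.id F) (r := x) (s := t)
    simp only [eval₂_id, RingHom.id_apply] at h
    rw [h, hPx, mul_zero]
  have hlift : scaleRoots P t ∈ lifts B.subtype := by
    rw [lifts_iff_coeff_lifts]
    intro i
    rw [coeff_scaleRoots]
    have hmem : P.coeff i * t ^ (P.natDegree - i) ∈ B := by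
      rcases lt_trichotomy i P.natDegree with hi | hi | hi
      · obtain ⟨d, hd⟩ : ∃ d, P.natDegree - i = d + 1 := ⟨P.natDegree - i - 1, by omega⟩
        have h1 : P.coeff i * t ^ (P.natDegree - i) = t ^ d * (t * P.coeff i) := by
          rw [hd, pow_succ]; ring
        rw [h1]
        exact B.mul_mem (B.pow_mem htB _)
          (hsk i (Finset.mem_range.mpr (by omega)))
      · rw [hi, Nat.sub_self, pow_zero, mul_one, hPm.coeff_natDegree]; exact B.one_mem
      · rw [coeff_eq_zero_of_natDegree_lt hi, zero_mul]; exact B.zero_mem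
    exact ⟨⟨_, hmem⟩, rfl⟩
  obtain ⟨q, hq, -, hqm⟩ := lifts_and_natDegree_eq_and_monic hlift hQm
  have hint : IsIntegral B (t * x) := by
    refine ⟨q, hqm, ?_⟩
    have : eval₂ (algebraMap B F) (t * x) q = (q.map B.subtype).eval (t * x) := by
      rw [eval_map]; rfl
    rw [this, hq, hQx]
  exact ⟨s, hs, k, hB _ hint⟩

/-- **Horizontal regularity from valuation rings.**  `B` a subring of a field `F`, integrally
closed in `F`, `π ∈ B`, `n` a prime ideal of `B`.  If `y` lies in every valuation subring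
`O ⊇ B` of `F` with `π⁻¹ ∈ O` in which the elements of `B ∖ n` are units, then
`π ^ k * s * y ∈ B` for some `s ∈ B ∖ n` and some `k`. -/
theorem hu69_regular (B : Subring F) (hB : ∀ x : F, IsIntegral B x → x ∈ B) (π : F)
    (hπB : π ∈ B) (hπ0 : π ≠ 0) (n : Ideal B) [hn : n.IsPrime] (y : F)
    (hreg : ∀ O : ValuationSubring F, (∀ x ∈ B, x ∈ O) → π⁻¹ ∈ O →
      (∀ x : B, x ∉ n → (x : F)⁻¹ ∈ O) → y ∈ O) :
    ∃ s : B, s ∉ n ∧ ∃ k : ℕ, π ^ k * (s : F) * y ∈ B := by
  by_contra hcon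
  have hy : y ∉ hu69_loc B π hπB n := hcon
  have : IsIntegrallyClosedIn (hu69_loc B π hπB n) F :=
    Subring.isIntegrallyClosedIn_iff.mpr (fun {x} hx => hu69_loc_closed B hB π hπB n x hx)
  obtain ⟨O, hO, hyO⟩ := Subring.exists_le_valuationSubring_of_isIntegrallyClosedIn hy
  exact hyO (hreg O (fun x hx => hO (hu69_le_loc B π hπB n hx))
    (hO (hu69_pi_inv_mem_loc B π hπB hπ0 n))
    (fun x hx => hO (hu69_inv_mem_loc B π hπB n x hx)))

/-- **Horizontal unit from valuation rings**: the same for `y` and `y⁻¹`. -/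
theorem hu69_unit (B : Subring F) (hB : ∀ x : F, IsIntegral B x → x ∈ B) (π : F)
    (hπB : π ∈ B) (hπ0 : π ≠ 0) (n : Ideal B) [hn : n.IsPrime] (y : F)
    (hreg : ∀ O : ValuationSubring F, (∀ x ∈ B, x ∈ O) → π⁻¹ ∈ O →
      (∀ x : B, x ∉ n → (x : F)⁻¹ ∈ O) → y ∈ O ∧ y⁻¹ ∈ O) :
    (∃ s : B, s ∉ n ∧ ∃ k : ℕ, π ^ k * (s : F) * y ∈ B) ∧
      (∃ s : B, s ∉ n ∧ ∃ k : ℕ, π ^ k * (s : F) * y⁻¹ ∈ B) :=
  ⟨hu69_regular B hB π hπB hπ0 n y (fun O h1 h2 h3 => (hreg O h1 h2 h3).1),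
    hu69_regular B hB π hπB hπ0 n y⁻¹ (fun O h1 h2 h3 => (hreg O h1 h2 h3).2)⟩

/-- Saturation step: if `B` is `π`-saturated in a subring `W ⊇ B`, `s * y ∈ W` and
`π ^ k * (s * y) ∈ B`, then `s * y ∈ B`. -/
theorem hu69_sat_aux (B W : Subring F) (π : F) (hπ0 : π ≠ 0) (hπW : π ∈ W)
    (hsat : ∀ x ∈ B, π⁻¹ * x ∈ W → π⁻¹ * x ∈ B) (x : F) (hxW : x ∈ W) :
    ∀ k : ℕ, π ^ k * x ∈ B → x ∈ B := by
  intro k
  induction k with
  | zero => intro h; simpa using h
  | succ k ih =>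
    intro h
    apply ih
    have h1 : π ^ k * x = π⁻¹ * (π ^ (k + 1) * x) := by
      rw [pow_succ]; field_simp
    rw [h1]
    apply hsat _ h
    rw [← h1]
    exact W.mul_mem (W.pow_mem hπW _) hxW

/-- **Regularity at `n` in the shape of the local datum `hLD` of the nodal two-chart lemma**:
`B` integrally closed in `F` and `π`-saturated in `W ⊇ B`; `y ∈ W`; `y ∈ O` for every valuation
subring `O ⊇ B` with `π⁻¹ ∈ O` centred inside `n`.  Then `s * y ∈ B` for some `s ∈ B ∖ n`. -/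
theorem hu69_sat (B W : Subring F) (hBW : B ≤ W) (hB : ∀ x : F, IsIntegral B x → x ∈ B) (π : F)
    (hπB : π ∈ B) (hπ0 : π ≠ 0)
    (hsat : ∀ x ∈ B, π⁻¹ * x ∈ W → π⁻¹ * x ∈ B)
    (n : Ideal B) [hn : n.IsPrime] (y : F) (hyW : y ∈ W)
    (hreg : ∀ O : ValuationSubring F, (∀ x ∈ B, x ∈ O) → π⁻¹ ∈ O →
      (∀ x : B, x ∉ n → (x : F)⁻¹ ∈ O) → y ∈ O) :
    ∃ s : B, s ∉ n ∧ (s : F) * y ∈ B := by
  obtain ⟨s, hs, k, hk⟩ := hu69_regular B hB π hπB hπ0 n y hreg
  refine ⟨s, hs, ?_⟩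
  refine hu69_sat_aux B W π hπ0 (hBW hπB) hsat _ (W.mul_mem (hBW s.2) hyW) k ?_
  rw [← mul_assoc]; exact hk

end

end Fermat.Agent.S34
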