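import Mathlib

/-!
# S34 lab, package P5 (helper91): points of a local chart, abstract (Mathlib-only) part

`A` is a Noetherian local ring (a local ring `B_{L,n}` of a chart at a closed point `n` of the
special fibre), `R` a discrete valuation ring with uniformizer `ϖ` (the ring `R_L`), `A` an
`R`-algebra, and `ρ : A →ₐ[R] R` an `R`-point centred at the closed point.

* `pt91_ker_eq` : if `𝔪_A ≤ I ⊔ (ϖ)` and `I ≤ ker ρ` then `ker ρ = I`.
* `pt91_ker_regular` : (5a) `𝔪_A = (ϖ, ξ)` ⟹ `ker ρ = (ξ - ξ(ρ))`.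
* `pt91_ker_node` : (5b) `𝔪_A = (ϖ, z, z')` ⟹ `ker ρ = (z - a, z' - b)`, `a = z(ρ)`, `b = z'(ρ)`.
* `pt91_node_unit_mul_mem`, `pt91_node_smul_ker_le` : (5b) if moreover `z z' = q₀ ε` with `ε` a
  unit, then `a · υ · (z' - b) ∈ (z - a)` for a unit `υ`, and `a · ker ρ ⊆ (z - a)`: `z - a` is a
  local equation of the point on the generic fibre.
* `pt91_prime_eq_ker` : a prime `𝔮 ⊇ ker ρ` not containing `ϖ` is `ker ρ`.
* `pt91_prime_eq_ker_regular`, `pt91_prime_eq_ker_node` : the only prime not containing `ϖ`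
  (the only "horizontal" prime) which contains the local equation `c - c(ρ)` is `ker ρ`.
* `pt91_localEq_not_mem` : two distinct points have distinct local equations.
* `pt91_horizontal` : a function which is regular at every horizontal prime below `n` is of the
  form `(ϖ ^ k s)⁻¹ b` with `s ∉ n` ("horizontal regularity at `n`").

All names are prefixed `pt91_`.
-/

set_option autoImplicit false
set_option linter.unusedSectionVars false

namespace Fermat.Agent.S34

open IsLocalRing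

section pt91_kernel

variable {R A : Type*} [CommRing R] [CommRing A] [IsLocalRing A] [Algebra R A]

/-- The image of a non-unit of `R` lies in the maximal ideal of `A`. -/
theorem pt91_algebraMap_mem (ρ : A →ₐ[R] R) {r : R} (hr : ¬ IsUnit r) :
    algebraMap R A r ∈ maximalIdeal A := by
  rw [mem_maximalIdeal, mem_nonunits_iff]
  intro h
  exact hr (by simpa using h.map ρ)

/-- The kernel of a point lies in the maximal ideal. -/
theorem pt91_ker_le [Nontrivial R] (ρ : A →ₐ[R] R) :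
    RingHom.ker (ρ : A →+* R) ≤ maximalIdeal A :=
  le_maximalIdeal (RingHom.ker_ne_top _)

omit [IsLocalRing A] in
theorem pt91_sub_mem_ker (ρ : A →ₐ[R] R) (x : A) :
    x - algebraMap R A (ρ x) ∈ RingHom.ker (ρ : A →+* R) := by
  rw [RingHom.mem_ker]
  simp

/-- A point maps the maximal ideal to non-units. -/
theorem pt91_map_not_isUnit [Nontrivial R] (ρ : A →ₐ[R] R) {x : A} (hx : x ∈ maximalIdeal A) :
    ¬ IsUnit (ρ x) := by
  intro h
  have h1 : IsUnit (algebraMap R A (ρ x)) := h.map (algebraMap R A)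
  have h2 : x - algebraMap R A (ρ x) ∈ maximalIdeal A := pt91_ker_le ρ (pt91_sub_mem_ker ρ x)
  have h3 : algebraMap R A (ρ x) ∈ maximalIdeal A := by
    have := (maximalIdeal A).sub_mem hx h2
    simpa using this
  exact (mem_nonunits_iff.mp ((mem_maximalIdeal _).mp h3)) h1

/-- **Kernel lemma.** If the maximal ideal of the Noetherian local ring `A` is `I + (ϖ)` with
`I ≤ ker ρ` and `ϖ` a non-unit of `R`, then `ker ρ = I`. -/
theorem pt91_ker_eq [IsNoetherianRing A] [Nontrivial R] (ρ : A →ₐ[R] R) (ϖ : R)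
    (hϖ : ¬ IsUnit ϖ) (I : Ideal A) (hI : I ≤ RingHom.ker (ρ : A →+* R))
    (hm : maximalIdeal A ≤ I ⊔ Ideal.span {algebraMap R A ϖ}) :
    RingHom.ker (ρ : A →+* R) = I := by
  refine le_antisymm ?_ hI
  have hϖm : algebraMap R A ϖ ∈ maximalIdeal A := pt91_algebraMap_mem ρ hϖ
  have key : ∀ k : ℕ, ∀ x : A, ∃ (r : R) (y : A) (i : A), i ∈ I ∧
      x = algebraMap R A r + algebraMap R A ϖ ^ k * y + i := by
    intro k
    induction k with
    | zero =>
      intro x
      exact ⟨0, x, 0, I.zero_mem, by simp⟩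
    | succ k ih =>
      intro x
      obtain ⟨r, y, i, hi, hx⟩ := ih x
      have hy : y - algebraMap R A (ρ y) ∈ I ⊔ Ideal.span {algebraMap R A ϖ} :=
        hm (pt91_ker_le ρ (pt91_sub_mem_ker ρ y))
      obtain ⟨i', hi', w, hw, hyw⟩ := Submodule.mem_sup.mp hy
      obtain ⟨y', rfl⟩ := Ideal.mem_span_singleton'.mp hw
      refine ⟨r + ϖ ^ k * ρ y, y', i + algebraMap R A ϖ ^ k * i',
        I.add_mem hi (I.mul_mem_left _ hi'), ?_⟩
      have hy2 : y = algebraMap R A (ρ y) + (i' + y' * algebraMap R A ϖ) := by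
        rw [hyw]; ring
      rw [hx]
      conv_lhs => rw [hy2]
      simp only [map_add, map_mul, map_pow]
      ring
  intro x hx
  have hxk : ∀ k : ℕ, x ∈ I ⊔ maximalIdeal A ^ k := by
    intro k
    obtain ⟨r, y, i, hi, hxe⟩ := key k x
    have h0 : ρ x = 0 := hx
    rw [hxe] at h0
    simp only [map_add, map_mul, map_pow, AlgHom.commutes] at h0
    have hρi : ρ i = 0 := hI hi
    rw [hρi, add_zero] at h0
    have hr : r = - (ϖ ^ k * ρ y) := eq_neg_of_add_eq_zero_left h0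
    rw [hxe, hr]
    refine Ideal.add_mem _ (Ideal.mem_sup_right ?_) (Ideal.mem_sup_left hi)
    have e : algebraMap R A (-(ϖ ^ k * ρ y)) + algebraMap R A ϖ ^ k * y =
        algebraMap R A ϖ ^ k * (y - algebraMap R A (ρ y)) := by
      simp only [map_neg, map_mul, map_pow]
      ring
    rw [e]
    exact Ideal.mul_mem_right _ _ (Ideal.pow_mem_pow hϖm k)
  have hK := Ideal.iInf_pow_smul_eq_bot_of_le_jacobson (R := A) (M := A ⧸ I) (maximalIdeal A)
    (by rw [jacobson_eq_maximalIdeal ⊥ bot_ne_top])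
  have hx' : (Ideal.Quotient.mk I x : A ⧸ I) ∈
      (⨅ i, maximalIdeal A ^ i • (⊤ : Submodule A (A ⧸ I))) := by
    rw [Submodule.mem_iInf]
    intro k
    obtain ⟨i, hi, w, hw, rfl⟩ := Submodule.mem_sup.mp (hxk k)
    have e : (Ideal.Quotient.mk I (i + w) : A ⧸ I) = w • (Ideal.Quotient.mk I 1 : A ⧸ I) := by
      rw [map_add, Ideal.Quotient.eq_zero_iff_mem.mpr hi, zero_add, Algebra.smul_def, map_one,
        mul_one, Ideal.Quotient.algebraMap_eq]
    rw [e]
    exact Submodule.smul_mem_smul hw Submodule.mem_top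
  rw [hK] at hx'
  exact Ideal.Quotient.eq_zero_iff_mem.mp ((Submodule.mem_bot _).mp hx')

end pt91_kernel

section pt91_dvr

variable {R A : Type*} [CommRing R] [IsDomain R] [IsDiscreteValuationRing R]
  [CommRing A] [IsLocalRing A] [IsNoetherianRing A] [Algebra R A]

/-- The value of a function of the maximal ideal at a point is divisible by the uniformizer. -/
theorem pt91_dvd_of_mem (ρ : A →ₐ[R] R) {ϖ : R} (hϖ : Irreducible ϖ) {x : A}
    (hx : x ∈ maximalIdeal A) : ϖ ∣ ρ x := by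
  have h1 : ρ x ∈ maximalIdeal R :=
    (mem_maximalIdeal _).mpr (mem_nonunits_iff.mpr (pt91_map_not_isUnit ρ hx))
  rw [hϖ.maximalIdeal_eq] at h1
  exact Ideal.mem_span_singleton.mp h1

/-- **(5a)** At a regular point, `𝔪_A = (ϖ, ξ)`: the kernel of a point is `(ξ - ξ(ρ))`. -/
theorem pt91_ker_regular (ρ : A →ₐ[R] R) {ϖ : R} (hϖ : Irreducible ϖ) (ξ : A)
    (hξ : maximalIdeal A = Ideal.span {algebraMap R A ϖ, ξ}) :
    RingHom.ker (ρ : A →+* R) = Ideal.span {ξ - algebraMap R A (ρ ξ)} := by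
  refine pt91_ker_eq ρ ϖ hϖ.not_isUnit _ ?_ ?_
  · rw [Ideal.span_singleton_le_iff_mem]
    exact pt91_sub_mem_ker ρ ξ
  · rw [hξ, Ideal.span_le]
    intro x hx
    rcases hx with rfl | hx
    · exact Ideal.mem_sup_right (Ideal.subset_span rfl)
    · rw [Set.mem_singleton_iff] at hx
      subst hx
      obtain ⟨r, hr⟩ := pt91_dvd_of_mem ρ hϖ (x := x)
        (by rw [hξ]; exact Ideal.subset_span (by simp))
      have hmem : (x - algebraMap R A (ρ x)) + algebraMap R A r * algebraMap R A ϖ ∈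
          Ideal.span {x - algebraMap R A (ρ x)} ⊔ Ideal.span {algebraMap R A ϖ} :=
        Ideal.add_mem _ (Ideal.mem_sup_left (Ideal.subset_span rfl))
          (Ideal.mem_sup_right (Ideal.mul_mem_left _ _ (Ideal.subset_span rfl)))
      have e : (x - algebraMap R A (ρ x)) + algebraMap R A r * algebraMap R A ϖ = x := by
        rw [← map_mul, mul_comm r ϖ, ← hr]
        ring
      rw [e] at hmem
      exact hmem

/-- **(5b)** At a node, `𝔪_A = (ϖ, z, z')`: the kernel of a point is `(z - a, z' - b)`. -/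
theorem pt91_ker_node (ρ : A →ₐ[R] R) {ϖ : R} (hϖ : Irreducible ϖ) (z z' : A)
    (hm : maximalIdeal A = Ideal.span {algebraMap R A ϖ, z, z'}) :
    RingHom.ker (ρ : A →+* R) =
      Ideal.span {z - algebraMap R A (ρ z), z' - algebraMap R A (ρ z')} := by
  have hz : z ∈ maximalIdeal A := by rw [hm]; exact Ideal.subset_span (by simp)
  have hz' : z' ∈ maximalIdeal A := by rw [hm]; exact Ideal.subset_span (by simp)
  have aux : ∀ y : A, y ∈ maximalIdeal A →
      y - algebraMap R A (ρ y) ∈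
        Ideal.span {z - algebraMap R A (ρ z), z' - algebraMap R A (ρ z')} →
      y ∈ Ideal.span {z - algebraMap R A (ρ z), z' - algebraMap R A (ρ z')} ⊔
        Ideal.span {algebraMap R A ϖ} := by
    intro y hy hmemy
    obtain ⟨r, hr⟩ := pt91_dvd_of_mem ρ hϖ hy
    have hmem : (y - algebraMap R A (ρ y)) + algebraMap R A r * algebraMap R A ϖ ∈
        Ideal.span {z - algebraMap R A (ρ z), z' - algebraMap R A (ρ z')} ⊔
          Ideal.span {algebraMap R A ϖ} :=
      Ideal.add_mem _ (Ideal.mem_sup_left hmemy)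
        (Ideal.mem_sup_right (Ideal.mul_mem_left _ _ (Ideal.subset_span rfl)))
    have e : (y - algebraMap R A (ρ y)) + algebraMap R A r * algebraMap R A ϖ = y := by
      rw [← map_mul, mul_comm r ϖ, ← hr]
      ring
    rw [e] at hmem
    exact hmem
  refine pt91_ker_eq ρ ϖ hϖ.not_isUnit _ ?_ ?_
  · rw [Ideal.span_le]
    intro x hx
    rcases hx with rfl | hx
    · exact pt91_sub_mem_ker ρ z
    · rw [Set.mem_singleton_iff] at hx
      subst hx
      exact pt91_sub_mem_ker ρ z'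
  · rw [hm, Ideal.span_le]
    intro x hx
    rcases hx with rfl | rfl | hx
    · exact Ideal.mem_sup_right (Ideal.subset_span rfl)
    · exact aux _ hz (Ideal.subset_span (by simp))
    · rw [Set.mem_singleton_iff] at hx
      subst hx
      exact aux _ hz' (Ideal.subset_span (by simp))

/-- **(5b)** At a node with `z z' = q₀ ε`, `ε` a unit: `a · υ · (z' - b) ∈ (z - a)` for a unit
`υ` of `A` (`a = z(ρ)`, `b = z'(ρ)`). -/
theorem pt91_node_unit_mul_mem (ρ : A →ₐ[R] R) {ϖ : R} (hϖ : Irreducible ϖ) (z z' ε : A)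
    (q₀ : R) (hm : maximalIdeal A = Ideal.span {algebraMap R A ϖ, z, z'})
    (hzz : z * z' = algebraMap R A q₀ * ε) (hε : IsUnit ε) :
    ∃ υ : A, IsUnit υ ∧
      algebraMap R A (ρ z) * υ * (z' - algebraMap R A (ρ z')) ∈
        Ideal.span {z - algebraMap R A (ρ z)} := by
  have hker := pt91_ker_node ρ hϖ z z' hm
  have h1 : ε - algebraMap R A (ρ ε) ∈
      Ideal.span {z - algebraMap R A (ρ z), z' - algebraMap R A (ρ z')} := by
    rw [← hker]
    exact pt91_sub_mem_ker ρ ε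
  obtain ⟨r₁, r₂, h12⟩ := Ideal.mem_span_pair.mp h1
  have hab : ρ z * ρ z' = q₀ * ρ ε := by
    have := congrArg ρ hzz
    simpa [map_mul] using this
  obtain ⟨e, he⟩ := (hε.map ρ).exists_right_inv
  have hq : q₀ = ρ z * (ρ z' * e) := by
    calc q₀ = q₀ * (ρ ε * e) := by rw [he, mul_one]
      _ = (q₀ * ρ ε) * e := by ring
      _ = ρ z * ρ z' * e := by rw [hab]
      _ = ρ z * (ρ z' * e) := by ring
  have hz' : z' ∈ maximalIdeal A := by rw [hm]; exact Ideal.subset_span (by simp)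
  refine ⟨1 - algebraMap R A (ρ z' * e) * r₂, ?_, ?_⟩
  · have hb : ¬ IsUnit (ρ z') := pt91_map_not_isUnit ρ hz'
    have hbe : ¬ IsUnit (ρ z' * e) := fun h => hb (isUnit_of_mul_isUnit_left h)
    have hmem : algebraMap R A (ρ z' * e) * r₂ ∈ maximalIdeal A :=
      Ideal.mul_mem_right _ _ (pt91_algebraMap_mem ρ hbe)
    exact IsLocalRing.isUnit_one_sub_self_of_mem_nonunits _ ((mem_maximalIdeal _).mp hmem)
  · rw [Ideal.mem_span_singleton]
    refine ⟨algebraMap R A q₀ * r₁ - z', ?_⟩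
    have hab' : algebraMap R A (ρ z) * algebraMap R A (ρ z') =
        algebraMap R A q₀ * algebraMap R A (ρ ε) := by
      rw [← map_mul (algebraMap R A), ← map_mul (algebraMap R A), hab]
    have hq' : algebraMap R A q₀ = algebraMap R A (ρ z) * algebraMap R A (ρ z' * e) := by
      rw [← map_mul (algebraMap R A), ← hq]
    linear_combination (-1 : A) * hab' + hzz - algebraMap R A q₀ * h12 +
      (r₂ * (z' - algebraMap R A (ρ z'))) * hq'

/-- **(5b)** `a · ker ρ ⊆ (z - a)`: on the generic fibre `z - a` is a local equation of the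
point. -/
theorem pt91_node_smul_ker_le (ρ : A →ₐ[R] R) {ϖ : R} (hϖ : Irreducible ϖ) (z z' ε : A)
    (q₀ : R) (hm : maximalIdeal A = Ideal.span {algebraMap R A ϖ, z, z'})
    (hzz : z * z' = algebraMap R A q₀ * ε) (hε : IsUnit ε) (x : A)
    (hx : x ∈ RingHom.ker (ρ : A →+* R)) :
    algebraMap R A (ρ z) * x ∈ Ideal.span {z - algebraMap R A (ρ z)} := by
  obtain ⟨υ, hυ, hmem⟩ := pt91_node_unit_mul_mem ρ hϖ z z' ε q₀ hm hzz hε
  rw [pt91_ker_node ρ hϖ z z' hm] at hx
  obtain ⟨r, s, rfl⟩ := Ideal.mem_span_pair.mp hx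
  obtain ⟨υ', hυ'⟩ := hυ.exists_right_inv
  have e : algebraMap R A (ρ z) * (r * (z - algebraMap R A (ρ z)) +
      s * (z' - algebraMap R A (ρ z'))) =
      (algebraMap R A (ρ z) * r) * (z - algebraMap R A (ρ z)) +
      (s * υ') * (algebraMap R A (ρ z) * υ * (z' - algebraMap R A (ρ z'))) := by
    linear_combination (-(algebraMap R A (ρ z) * s * (z' - algebraMap R A (ρ z')))) * hυ'
  rw [e]
  exact Ideal.add_mem _ (Ideal.mul_mem_left _ _ (Ideal.subset_span rfl))
    (Ideal.mul_mem_left _ _ hmem)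

end pt91_dvr

section pt91_prime

variable {R A : Type*} [CommRing R] [IsDomain R] [IsDiscreteValuationRing R]
  [CommRing A] [Algebra R A]

/-- A prime of `A` containing the image of a nonzero element of `R` contains the uniformizer. -/
theorem pt91_uniformizer_mem {ϖ : R} (hϖ : Irreducible ϖ) (𝔮 : Ideal A) [𝔮.IsPrime] {r : R}
    (hr : r ≠ 0) (h : algebraMap R A r ∈ 𝔮) : algebraMap R A ϖ ∈ 𝔮 := by
  obtain ⟨k, u, hu⟩ := IsDiscreteValuationRing.eq_unit_mul_pow_irreducible hr hϖ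
  rw [hu, map_mul, map_pow] at h
  rcases Ideal.IsPrime.mem_or_mem inferInstance h with h | h
  · exact absurd (𝔮.eq_top_of_isUnit_mem h (u.isUnit.map (algebraMap R A)))
      (Ideal.IsPrime.ne_top inferInstance)
  · exact Ideal.IsPrime.mem_of_pow_mem inferInstance k h

/-- A prime containing the kernel of a point and not the uniformizer is the kernel. -/
theorem pt91_prime_eq_ker (ρ : A →ₐ[R] R) {ϖ : R} (hϖ : Irreducible ϖ) (𝔮 : Ideal A)
    [𝔮.IsPrime] (hϖ𝔮 : algebraMap R A ϖ ∉ 𝔮) (hle : RingHom.ker (ρ : A →+* R) ≤ 𝔮) :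
    𝔮 = RingHom.ker (ρ : A →+* R) := by
  refine le_antisymm (fun x hx => ?_) hle
  by_contra hne
  have h0 : ρ x ≠ 0 := hne
  have h1 : algebraMap R A (ρ x) ∈ 𝔮 := by
    have := 𝔮.sub_mem hx (hle (pt91_sub_mem_ker ρ x))
    simpa using this
  exact hϖ𝔮 (pt91_uniformizer_mem hϖ 𝔮 h0 h1)

end pt91_prime

section pt91_unique

variable {R A : Type*} [CommRing R] [IsDomain R] [IsDiscreteValuationRing R]
  [CommRing A] [IsLocalRing A] [IsNoetherianRing A] [Algebra R A]

/-- **(5a)** At a regular point the only horizontal prime containing `ξ - ξ(ρ)` is `ker ρ`. -/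
theorem pt91_prime_eq_ker_regular (ρ : A →ₐ[R] R) {ϖ : R} (hϖ : Irreducible ϖ) (ξ : A)
    (hξ : maximalIdeal A = Ideal.span {algebraMap R A ϖ, ξ}) (𝔮 : Ideal A) [𝔮.IsPrime]
    (hϖ𝔮 : algebraMap R A ϖ ∉ 𝔮) (h : ξ - algebraMap R A (ρ ξ) ∈ 𝔮) :
    𝔮 = RingHom.ker (ρ : A →+* R) := by
  refine pt91_prime_eq_ker ρ hϖ 𝔮 hϖ𝔮 ?_
  rw [pt91_ker_regular ρ hϖ ξ hξ, Ideal.span_singleton_le_iff_mem]
  exact h

/-- **(5b)** At a node the only horizontal prime containing `z - a` (`a = z(ρ) ≠ 0`) is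
`ker ρ`. -/
theorem pt91_prime_eq_ker_node (ρ : A →ₐ[R] R) {ϖ : R} (hϖ : Irreducible ϖ) (z z' ε : A)
    (q₀ : R) (hm : maximalIdeal A = Ideal.span {algebraMap R A ϖ, z, z'})
    (hzz : z * z' = algebraMap R A q₀ * ε) (hε : IsUnit ε) (ha : ρ z ≠ 0)
    (𝔮 : Ideal A) [𝔮.IsPrime] (hϖ𝔮 : algebraMap R A ϖ ∉ 𝔮)
    (h : z - algebraMap R A (ρ z) ∈ 𝔮) : 𝔮 = RingHom.ker (ρ : A →+* R) := by
  refine pt91_prime_eq_ker ρ hϖ 𝔮 hϖ𝔮 (fun x hx => ?_)
  have h1 : algebraMap R A (ρ z) * x ∈ 𝔮 :=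
    ((Ideal.span_singleton_le_iff_mem _).mpr h)
      (pt91_node_smul_ker_le ρ hϖ z z' ε q₀ hm hzz hε x hx)
  rcases Ideal.IsPrime.mem_or_mem inferInstance h1 with h2 | h2
  · exact absurd (pt91_uniformizer_mem hϖ 𝔮 ha h2) hϖ𝔮
  · exact h2

end pt91_unique

section pt91_horizontal

variable {B F : Type*} [CommRing B] [Field F] [Algebra B F]

/-- **Horizontal regularity.** If `θ : F` is regular at every prime `𝔮 ≤ n` of `B` which does not
contain `π` (a "horizontal" prime through `n`), then `π ^ k s θ ∈ B` for some `k` and some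
`s ∉ n`. -/
theorem pt91_horizontal (n : Ideal B) [n.IsPrime] (π : B) (θ : F)
    (h : ∀ 𝔮 : Ideal B, 𝔮.IsPrime → 𝔮 ≤ n → π ∉ 𝔮 →
      ∃ s : B, s ∉ 𝔮 ∧ ∃ b : B, algebraMap B F s * θ = algebraMap B F b) :
    ∃ (s : B) (k : ℕ), s ∉ n ∧ ∃ b : B, algebraMap B F (π ^ k * s) * θ = algebraMap B F b := by
  classical
  let D : Ideal B :=
    { carrier := {d | ∃ b : B, algebraMap B F d * θ = algebraMap B F b}
      add_mem' := by
        rintro x y ⟨b, hb⟩ ⟨c, hc⟩
        exact ⟨b + c, by rw [map_add, add_mul, hb, hc, map_add]⟩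
      zero_mem' := ⟨0, by simp⟩
      smul_mem' := by
        rintro c x ⟨b, hb⟩
        exact ⟨c * b, by rw [smul_eq_mul, map_mul, mul_assoc, hb, map_mul]⟩ }
  let S : Submonoid B := Submonoid.powers π ⊔ n.primeCompl
  by_cases hdis : Disjoint (D : Set B) (S : Set B)
  · exfalso
    obtain ⟨𝔮, h𝔮, hD𝔮, h𝔮S⟩ := Ideal.exists_le_prime_disjoint D S hdis
    have hle : 𝔮 ≤ n := by
      intro x hx
      by_contra hxn
      exact Set.disjoint_left.mp h𝔮S hx
        (Submonoid.mem_sup_right (show x ∈ n.primeCompl from hxn))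
    have hπ : π ∉ 𝔮 := fun hx =>
      Set.disjoint_left.mp h𝔮S hx (Submonoid.mem_sup_left (Submonoid.mem_powers π))
    obtain ⟨s, hs, b, hb⟩ := h 𝔮 h𝔮 hle hπ
    exact hs (hD𝔮 ⟨b, hb⟩)
  · rw [Set.not_disjoint_iff] at hdis
    obtain ⟨x, ⟨b, hb⟩, hxS⟩ := hdis
    obtain ⟨y, ⟨k, rfl⟩, s, hs, rfl⟩ := Submonoid.mem_sup.mp hxS
    exact ⟨s, k, hs, b, hb⟩

end pt91_horizontal

end Fermat.Agent.S34
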