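import Mathlib
import Fermat.Agent.S34.PointsAbs91

/-!
# S34 lab, step 5 (helper91): the local equation `P_n` of a divisor at a NODE, place form

Continuation of `PointsAbs91`.  Everything is stated for a local subring `A` of a field `F`
(in the application `A = B_n`, the local ring of a chart of `X_0(qM')` over `R = R_L` at a node
`n` of the special fibre, `F = F(qM')_L`), a discrete valuation ring `R` with uniformizer `ϖ`,
and valuation subrings `O` of `F` containing `A` and `ϖ⁻¹` ("horizontal places through `n`").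
Mathlib + `PointsAbs91` only; all names are prefixed `pn91_`.

* `pn91_exists_rho` (centre lemma): a place `O ⊇ A[ϖ⁻¹]` at which every function of `A` takes a
  value in `Frac R` (evaluation form: `v_O (x - r / s) < 1`) defines a point `ρ : A →+* R`
  with `ρ x = 0 ↔ v_O x < 1`; the values are integral because `A` is local with `ϖ ∈ 𝔪_A`.
* `pn91_node_exp`: at a node (`𝔪_A = (ϖ, z, z')`, `z z' = q₀ ε`), for a discrete `O` with point
  `ρ`: `c := z - ρ z` is a uniformizer of `O`, in the form: every `x ≠ 0` of `F` is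
  `(c / a) ^ k * (y / y')` with `y, y' ∈ A` not vanishing at `ρ`, `a := ρ z`.
* `pn91_node_other`: `z - ρ z` is a unit of every OTHER valuation subring containing `A[ϖ⁻¹]`.
* `pn91_node_main`: for a finite set `S` of such rational places with `m ∣ ord_O f`, there are
  `a_O : R`, `e_O : ℤ` with `f / (∏_{O ∈ S} (z - a_O) ^ e_O) ^ m` of valuation one at every
  valuation subring `O ⊇ A[ϖ⁻¹]` which lies in `S` or at which `f` is a unit.
* `pn91_node_hord`: the same from the hypothesis shape `hord` of S18 `lp7_tc_main`, a finite set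
  `T` containing the places where `f` is not a unit, and their rationality in evaluation form.
* `pn91_isLocalRing`, `pn91_maximalIdeal`, `pn91_loc_transfer`: the local structure from the
  elementwise hypotheses `hloc`, `hprop` of `nl71_main`, and their invariance under a change
  of `(z, z')` modulo `ϖ A`.
* `pn91_node_elem`: `pn91_node_hord` with the node given elementwise
  (`z z' = ϖ ^ κ c`, `c d = 1`: the output shape of `nl71_main`).
* `pn91_rat_of_field`: evaluation-form rationality over a field `K = Frac R`.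
-/

set_option autoImplicit false

namespace Fermat.Agent.S34

open IsLocalRing

section pn91_val

variable {F : Type*} [Field F]

theorem pn91_mul_lt_one {Γ : Type*} [LinearOrderedCommGroupWithZero Γ] {a b : Γ} (ha : a < 1)
    (hb : b ≤ 1) : a * b < 1 :=
  lt_of_le_of_lt (mul_le_mul' (le_refl a) hb) (by rwa [mul_one])

/-- An element of `O` whose inverse lies in `O` has valuation one. -/
theorem pn91_val_eq_one (O : ValuationSubring F) {x : F} (hx0 : x ≠ 0) (hx : x ∈ O)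
    (hx' : x⁻¹ ∈ O) : O.valuation x = 1 := by
  apply le_antisymm ((O.valuation_le_one_iff _).mpr hx)
  have h := (O.valuation_le_one_iff _).mpr hx'
  rw [map_inv₀] at h
  exact (inv_le_one₀ (zero_lt_iff.mpr ((Valuation.ne_zero_iff _).mpr hx0))).mp h

theorem pn91_mem_of_val_eq_one (O : ValuationSubring F) {x : F} (hx : O.valuation x = 1) :
    x ∈ O ∧ x⁻¹ ∈ O := by
  refine ⟨(O.valuation_le_one_iff _).mp hx.le, (O.valuation_le_one_iff _).mp ?_⟩
  rw [map_inv₀, hx, inv_one]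

/-- A unit of a subring `A ≤ O` has valuation one. -/
theorem pn91_val_unit (A : Subring F) (O : ValuationSubring F) (hAO : ∀ x ∈ A, x ∈ O) (y : A)
    (hy : IsUnit y) : O.valuation (y : F) = 1 := by
  obtain ⟨y', hy'⟩ := hy.exists_right_inv
  have h1 : (y : F) * (y' : F) = 1 := by
    have := congrArg (Subtype.val : A → F) hy'
    simpa using this
  have hy0 : (y : F) ≠ 0 := left_ne_zero_of_mul_eq_one h1
  refine pn91_val_eq_one O hy0 (hAO _ y.2) ?_
  rw [inv_eq_of_mul_eq_one_right h1]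
  exact hAO _ y'.2

end pn91_val

section pn91_const

variable {R F : Type*} [CommRing R] [IsDomain R] [IsDiscreteValuationRing R] [Field F]
  [Algebra R F]

/-- Nonzero constants are nonzero in `F`. -/
theorem pn91_algebraMap_ne_zero {ϖ : R} (hϖ : Irreducible ϖ) (hπ0 : algebraMap R F ϖ ≠ 0)
    {r : R} (hr : r ≠ 0) : algebraMap R F r ≠ 0 := by
  obtain ⟨n, u, rfl⟩ := IsDiscreteValuationRing.eq_unit_mul_pow_irreducible hr hϖ
  rw [map_mul, map_pow]
  exact mul_ne_zero (u.isUnit.map (algebraMap R F)).ne_zero (pow_ne_zero _ hπ0)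

/-- A valuation subring containing `R` and `ϖ⁻¹` contains `Frac R`: nonzero constants have
valuation one. -/
theorem pn91_val_const {ϖ : R} (hϖ : Irreducible ϖ) (hπ0 : algebraMap R F ϖ ≠ 0)
    (O : ValuationSubring F) (hRO : ∀ r : R, algebraMap R F r ∈ O)
    (hπO : (algebraMap R F ϖ)⁻¹ ∈ O) {r : R} (hr : r ≠ 0) :
    O.valuation (algebraMap R F r) = 1 := by
  refine pn91_val_eq_one O (pn91_algebraMap_ne_zero hϖ hπ0 hr) (hRO r) ?_
  obtain ⟨n, u, rfl⟩ := IsDiscreteValuationRing.eq_unit_mul_pow_irreducible hr hϖ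
  have h1 : (algebraMap R F (↑u * ϖ ^ n))⁻¹ =
      algebraMap R F ((u⁻¹ : Rˣ) : R) * (algebraMap R F ϖ)⁻¹ ^ n := by
    have hu : algebraMap R F (u : R) * algebraMap R F ((u⁻¹ : Rˣ) : R) = 1 := by
      rw [← map_mul, Units.mul_inv, map_one]
    rw [map_mul, map_pow, mul_inv, inv_pow, inv_eq_of_mul_eq_one_right hu]
  rw [h1]
  exact mul_mem (hRO _) (pow_mem hπO _)

/-- **Centre lemma.** A place `O ⊇ A` (with `ϖ⁻¹ ∈ O`) at which the functions of `A` take
values in `Frac R` defines an `R`-point `ρ : A → R` of the local ring `A`: the values are integral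
because `A` is local with `ϖ ∈ 𝔪_A`. -/
theorem pn91_exists_rho {ϖ : R} (hϖ : Irreducible ϖ) (hπ0 : algebraMap R F ϖ ≠ 0)
    (A : Subring F) (hRA : ∀ r : R, algebraMap R F r ∈ A) [IsLocalRing A]
    (hπA : (⟨algebraMap R F ϖ, hRA ϖ⟩ : A) ∈ maximalIdeal A)
    (O : ValuationSubring F) (hAO : ∀ x ∈ A, x ∈ O) (hπO : (algebraMap R F ϖ)⁻¹ ∈ O)
    (hrat : ∀ x ∈ A, ∃ r s : R, s ≠ 0 ∧
      O.valuation (x - algebraMap R F r / algebraMap R F s) < 1) :
    ∃ ρ : A →+* R, (∀ r : R, ρ ⟨algebraMap R F r, hRA r⟩ = r) ∧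
      ∀ x : A, ρ x = 0 ↔ O.valuation (x : F) < 1 := by
  have hRO : ∀ r : R, algebraMap R F r ∈ O := fun r => hAO _ (hRA r)
  have hne : ∀ {r : R}, r ≠ 0 → algebraMap R F r ≠ 0 := fun hr =>
    pn91_algebraMap_ne_zero hϖ hπ0 hr
  have key1 : ∀ x : A, ∃ r : R, O.valuation ((x : F) - algebraMap R F r) < 1 := by
    intro x
    obtain ⟨r, s, hs, hv⟩ := hrat x x.2
    rcases ValuationRing.dvd_total s r with ⟨t, rfl⟩ | ⟨t, rfl⟩
    · refine ⟨t, ?_⟩
      have e : algebraMap R F (s * t) / algebraMap R F s = algebraMap R F t := by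
        rw [map_mul]; exact mul_div_cancel_left₀ _ (hne hs)
      rwa [e] at hv
    · have hr : r ≠ 0 := left_ne_zero_of_mul hs
      have ht : t ≠ 0 := right_ne_zero_of_mul hs
      by_cases htu : IsUnit t
      · obtain ⟨u, rfl⟩ := htu
        refine ⟨((u⁻¹ : Rˣ) : R), ?_⟩
        have hu : algebraMap R F (u : R) * algebraMap R F ((u⁻¹ : Rˣ) : R) = 1 := by
          rw [← map_mul, Units.mul_inv, map_one]
        have e : algebraMap R F r / algebraMap R F (r * ↑u) =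
            algebraMap R F ((u⁻¹ : Rˣ) : R) := by
          rw [map_mul, div_mul_eq_div_div, div_self (hne hr), one_div,
            inv_eq_of_mul_eq_one_right hu]
        rwa [e] at hv
      · exfalso
        have htm : (⟨algebraMap R F t, hRA t⟩ : A) ∈ maximalIdeal A := by
          have h1 : t ∈ maximalIdeal R := (mem_maximalIdeal _).mpr (mem_nonunits_iff.mpr htu)
          rw [hϖ.maximalIdeal_eq] at h1
          obtain ⟨t', rfl⟩ := Ideal.mem_span_singleton.mp h1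
          have : (⟨algebraMap R F (ϖ * t'), hRA _⟩ : A) =
              ⟨algebraMap R F ϖ, hRA ϖ⟩ * ⟨algebraMap R F t', hRA t'⟩ := by
            apply Subtype.ext
            simp [map_mul]
          rw [this]
          exact Ideal.mul_mem_right _ _ hπA
        have hy : IsUnit ((⟨algebraMap R F t, hRA t⟩ : A) * x - 1) := by
          have h1 : (⟨algebraMap R F t, hRA t⟩ : A) * x ∈ nonunits A :=
            (mem_maximalIdeal _).mp (Ideal.mul_mem_right _ _ htm)
          have h2 := IsLocalRing.isUnit_one_sub_self_of_mem_nonunits _ h1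
          have h3 : (⟨algebraMap R F t, hRA t⟩ : A) * x - 1 =
              -(1 - (⟨algebraMap R F t, hRA t⟩ : A) * x) := by ring
          rw [h3]
          exact h2.neg
        have hv1 := pn91_val_unit A O hAO _ hy
        have e : (((⟨algebraMap R F t, hRA t⟩ : A) * x - 1 : A) : F) =
            algebraMap R F t * ((x : F) - algebraMap R F r / algebraMap R F (r * t)) := by
          have h1 : algebraMap R F t * (algebraMap R F r / algebraMap R F (r * t)) = 1 := by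
            have h2 := hne hr
            have h3 := hne ht
            rw [map_mul]
            field_simp
          have h4 : (((⟨algebraMap R F t, hRA t⟩ : A) * x - 1 : A) : F) =
              algebraMap R F t * (x : F) - 1 := rfl
          rw [h4, mul_sub, h1]
        rw [e, map_mul, pn91_val_const hϖ hπ0 O hRO hπO ht, one_mul] at hv1
        exact absurd hv1 hv.ne
  have key2 : ∀ r : R, O.valuation (algebraMap R F r) < 1 → r = 0 := by
    intro r hr
    by_contra h0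
    exact absurd (pn91_val_const hϖ hπ0 O hRO hπO h0) hr.ne
  choose ρf hρf using key1
  have huniq : ∀ (x : A) (r : R), O.valuation ((x : F) - algebraMap R F r) < 1 → ρf x = r := by
    intro x r hr
    have h := Valuation.map_sub_lt _ hr (hρf x)
    have e : (x : F) - algebraMap R F r - ((x : F) - algebraMap R F (ρf x)) =
        algebraMap R F (ρf x - r) := by
      rw [map_sub]; ring
    rw [e] at h
    exact sub_eq_zero.mp (key2 _ h)
  have hle : ∀ x : A, O.valuation (x : F) ≤ 1 := fun x => (O.valuation_le_one_iff _).mpr (hAO _ x.2)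
  have hleR : ∀ r : R, O.valuation (algebraMap R F r) ≤ 1 := fun r =>
    (O.valuation_le_one_iff _).mpr (hRO r)
  refine ⟨{ toFun := ρf
            map_one' := huniq 1 1 (by simp)
            map_mul' := fun x y => huniq _ _ ?_
            map_zero' := huniq 0 0 (by simp)
            map_add' := fun x y => huniq _ _ ?_ }, ?_, ?_⟩
  · have e : ((x * y : A) : F) - algebraMap R F (ρf x * ρf y) =
        ((x : F) - algebraMap R F (ρf x)) * (y : F) +
          ((y : F) - algebraMap R F (ρf y)) * algebraMap R F (ρf x) := by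
      show (x : F) * (y : F) - algebraMap R F (ρf x * ρf y) = _
      rw [map_mul]; ring
    rw [e]
    refine Valuation.map_add_lt _ ?_ ?_
    · rw [map_mul]; exact pn91_mul_lt_one (hρf x) (hle y)
    · rw [map_mul]; exact pn91_mul_lt_one (hρf y) (hleR _)
  · have e : ((x + y : A) : F) - algebraMap R F (ρf x + ρf y) =
        ((x : F) - algebraMap R F (ρf x)) + ((y : F) - algebraMap R F (ρf y)) := by
      show (x : F) + (y : F) - algebraMap R F (ρf x + ρf y) = _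
      rw [map_add]; ring
    rw [e]
    exact Valuation.map_add_lt _ (hρf x) (hρf y)
  · intro r
    exact huniq _ r (by simp)
  · intro x
    constructor
    · intro h
      have h1 := hρf x
      have h2 : ρf x = 0 := h
      rwa [h2, map_zero, sub_zero] at h1
    · intro h
      exact huniq x 0 (by rwa [map_zero, sub_zero])

end pn91_const

section pn91_node

variable {R F : Type*} [CommRing R] [IsDomain R] [IsDiscreteValuationRing R] [Field F]
  [Algebra R F]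

/-- The algebraic content of `PointsAbs91` at a node, for a local subring `A` of `F` and a point
`ρ : A →+* R` (a retraction of the constants), without any instance on `A` beyond the ring
structure: `a := ρ z` is a nonzero non-unit; `a · ker ρ ⊆ (z - a)`; and `ker ρ` is the only
prime of `A` without `ϖ` containing `z - a`. -/
theorem pn91_node_aux {ϖ : R} (hϖ : Irreducible ϖ)
    (A : Subring F) (hRA : ∀ r : R, algebraMap R F r ∈ A) [IsLocalRing A] [IsNoetherianRing A]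
    (z z' ε : A) (q₀ : R) (hq₀ : q₀ ≠ 0)
    (hm : maximalIdeal A = Ideal.span {⟨algebraMap R F ϖ, hRA ϖ⟩, z, z'})
    (hzz : (z : F) * z' = algebraMap R F q₀ * ε) (hε : IsUnit ε)
    (ρ : A →+* R) (hρR : ∀ r : R, ρ ⟨algebraMap R F r, hRA r⟩ = r) :
    ρ z ≠ 0 ∧ ¬ IsUnit (ρ z) ∧
    (∀ x : A, ρ x = 0 →
      ∃ y : A, algebraMap R F (ρ z) * (x : F) = ((z : F) - algebraMap R F (ρ z)) * y) ∧
    (∀ 𝔮 : Ideal A, 𝔮.IsPrime → (⟨algebraMap R F ϖ, hRA ϖ⟩ : A) ∉ 𝔮 →
      z - ⟨algebraMap R F (ρ z), hRA _⟩ ∈ 𝔮 → ∀ x : A, x ∈ 𝔮 ↔ ρ x = 0) := by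
  let _ : Algebra R A := ((algebraMap R F).codRestrict A hRA).toAlgebra
  let ρ' : A →ₐ[R] R := { ρ with commutes' := fun r => hρR r }
  have hm' : maximalIdeal A = Ideal.span {algebraMap R A ϖ, z, z'} := hm
  have hzz' : z * z' = algebraMap R A q₀ * ε := Subtype.ext hzz
  have ha : ρ z ≠ 0 := by
    intro h0
    have h1 : ρ z * ρ z' = q₀ * ρ ε := by
      rw [← map_mul, hzz', map_mul]
      congr 1
      exact hρR q₀
    rw [h0, zero_mul] at h1
    have h2 : IsUnit (ρ ε) := hε.map ρ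
    exact (mul_ne_zero hq₀ h2.ne_zero) h1.symm
  have hnu : ¬ IsUnit (ρ z) :=
    pt91_map_not_isUnit ρ' (x := z) (by rw [hm']; exact Ideal.subset_span (by simp))
  refine ⟨ha, hnu, ?_, ?_⟩
  · intro x hx
    have h1 := pt91_node_smul_ker_le ρ' hϖ z z' ε q₀ hm' hzz' hε x hx
    obtain ⟨y, hy⟩ := Ideal.mem_span_singleton'.mp h1
    refine ⟨y, ?_⟩
    have h2 := congrArg (Subtype.val : A → F) hy
    have h3 : algebraMap R F (ρ z) * (x : F) = (y : F) * ((z : F) - algebraMap R F (ρ z)) :=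
      h2.symm
    rw [h3, mul_comm]
  · intro 𝔮 h𝔮 hπ𝔮 hc x
    have h1 := pt91_prime_eq_ker_node ρ' hϖ z z' ε q₀ hm' hzz' hε ha 𝔮 hπ𝔮 hc
    rw [h1]
    exact RingHom.mem_ker

/-- **The local equation at a node is a uniformizer at its point.**  `O` a discrete valuation
subring of `F` containing the local ring `A` and `ϖ⁻¹`, with evaluation `ρ : A →+* R`
(`ρ x = 0 ↔ v_O(x) < 1`); `𝔪_A = (ϖ, z, z')`, `z z' = q₀ ε`.  Then `c := z - ρ(z)` is nonzero,
lies in the maximal ideal of `O`, and every `x ≠ 0` of `F` is `(c / a) ^ k * (y / y')` with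
`y, y' ∈ A` not vanishing at `ρ` (`a := ρ z`). -/
theorem pn91_node_exp {ϖ : R} (hϖ : Irreducible ϖ) (hπ0 : algebraMap R F ϖ ≠ 0)
    (A : Subring F) (hRA : ∀ r : R, algebraMap R F r ∈ A) [IsLocalRing A] [IsNoetherianRing A]
    (hfrac : ∀ x : F, ∃ a ∈ A, ∃ b ∈ A, b ≠ 0 ∧ x * b = a)
    (z z' ε : A) (q₀ : R) (hq₀ : q₀ ≠ 0)
    (hm : maximalIdeal A = Ideal.span {⟨algebraMap R F ϖ, hRA ϖ⟩, z, z'})
    (hzz : (z : F) * z' = algebraMap R F q₀ * ε) (hε : IsUnit ε)
    (O : ValuationSubring F) (hO : O ≠ ⊤) [IsPrincipalIdealRing O]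
    (hAO : ∀ x ∈ A, x ∈ O) (hπO : (algebraMap R F ϖ)⁻¹ ∈ O)
    (ρ : A →+* R) (hρR : ∀ r : R, ρ ⟨algebraMap R F r, hRA r⟩ = r)
    (hρ : ∀ x : A, ρ x = 0 ↔ O.valuation (x : F) < 1) :
    (z : F) - algebraMap R F (ρ z) ≠ 0 ∧
    O.valuation ((z : F) - algebraMap R F (ρ z)) < 1 ∧
    ∀ x : F, x ≠ 0 → ∃ (k : ℤ) (y y' : A), ρ y ≠ 0 ∧ ρ y' ≠ 0 ∧
      x = (((z : F) - algebraMap R F (ρ z)) / algebraMap R F (ρ z)) ^ k *
        ((y : F) / (y' : F)) := by
  obtain ⟨ha, -, hker, -⟩ := pn91_node_aux hϖ A hRA z z' ε q₀ hq₀ hm hzz hε ρ hρR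
  have hRO : ∀ r : R, algebraMap R F r ∈ O := fun r => hAO _ (hRA r)
  have ha0 : algebraMap R F (ρ z) ≠ 0 := pn91_algebraMap_ne_zero hϖ hπ0 ha
  have hva : O.valuation (algebraMap R F (ρ z)) = 1 := pn91_val_const hϖ hπ0 O hRO hπO ha
  have hainv : (algebraMap R F (ρ z))⁻¹ ∈ O := (pn91_mem_of_val_eq_one O hva).2
  have hvc : O.valuation ((z : F) - algebraMap R F (ρ z)) < 1 := by
    have h1 : ρ (z - ⟨algebraMap R F (ρ z), hRA _⟩) = 0 := by
      rw [map_sub, hρR, sub_self]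
    exact (hρ _).mp h1
  have hunit : ∀ y : A, ρ y ≠ 0 → O.valuation (y : F) = 1 := fun y hy =>
    le_antisymm ((O.valuation_le_one_iff _).mpr (hAO _ y.2)) (not_lt.mp (mt (hρ y).mpr hy))
  have hne0 : ∀ y : A, ρ y ≠ 0 → (y : F) ≠ 0 := by
    intro y hy h0
    apply hy
    have : y = 0 := Subtype.ext h0
    rw [this, map_zero]
  -- the descent
  have key : ∀ n : ℕ, ∀ x : A, x ≠ 0 →
      (¬ ∃ t ∈ O, (x : F) = ((z : F) - algebraMap R F (ρ z)) ^ (n + 1) * t) →
      ∃ (k : ℕ) (y : A), ρ y ≠ 0 ∧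
        (x : F) * algebraMap R F (ρ z) ^ k = ((z : F) - algebraMap R F (ρ z)) ^ k * y := by
    intro n
    induction n with
    | zero =>
      intro x _ hnd
      by_cases hρx : ρ x = 0
      · exfalso
        obtain ⟨y, hy⟩ := hker x hρx
        apply hnd
        refine ⟨(algebraMap R F (ρ z))⁻¹ * y, mul_mem hainv (hAO _ y.2), ?_⟩
        rw [zero_add, pow_one]
        field_simp
        linear_combination hy
      · exact ⟨0, x, hρx, by simp⟩
    | succ n ih =>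
      intro x hx0 hnd
      by_cases hρx : ρ x = 0
      · obtain ⟨y, hy⟩ := hker x hρx
        have hy0 : y ≠ 0 := by
          rintro rfl
          apply hx0
          have h1 : algebraMap R F (ρ z) * (x : F) = 0 := by
            rw [hy]; simp
          exact Subtype.ext ((mul_eq_zero.mp h1).resolve_left ha0)
        have hnd' : ¬ ∃ t ∈ O, (y : F) = ((z : F) - algebraMap R F (ρ z)) ^ (n + 1) * t := by
          rintro ⟨t, ht, hyt⟩
          apply hnd
          refine ⟨(algebraMap R F (ρ z))⁻¹ * t, mul_mem hainv ht, ?_⟩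
          rw [hyt] at hy
          field_simp
          linear_combination hy
        obtain ⟨k, y₂, hy₂, hk⟩ := ih y hy0 hnd'
        refine ⟨k + 1, y₂, hy₂, ?_⟩
        calc (x : F) * algebraMap R F (ρ z) ^ (k + 1)
            = (algebraMap R F (ρ z) * (x : F)) * algebraMap R F (ρ z) ^ k := by ring
          _ = ((z : F) - algebraMap R F (ρ z)) * ((y : F) * algebraMap R F (ρ z) ^ k) := by
              rw [hy]; ring
          _ = ((z : F) - algebraMap R F (ρ z)) ^ (k + 1) * y₂ := by rw [hk]; ring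
      · exact ⟨0, x, hρx, by simp⟩
  have key' : ∀ x : A, x ≠ 0 → ∃ (k : ℕ) (y : A), ρ y ≠ 0 ∧
      (x : F) * algebraMap R F (ρ z) ^ k = ((z : F) - algebraMap R F (ρ z)) ^ k * y := by
    intro x hx0
    let cO : O := ⟨(z : F) - algebraMap R F (ρ z), sub_mem (hAO _ z.2) (hRO _)⟩
    let xO : O := ⟨x, hAO _ x.2⟩
    have hcO : ¬ IsUnit cO := by
      rw [O.valuation_eq_one_iff]
      exact hvc.ne
    have hxO : xO ≠ 0 := by
      intro h
      apply hx0
      have h' : (x : F) = 0 := congrArg (Subtype.val : O → F) h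
      exact Subtype.ext h'
    obtain ⟨n, hn⟩ := FiniteMultiplicity.of_not_isUnit hcO hxO
    refine key n x hx0 ?_
    rintro ⟨t, ht, hxt⟩
    apply hn
    exact ⟨⟨t, ht⟩, Subtype.ext hxt⟩
  have hc0 : (z : F) - algebraMap R F (ρ z) ≠ 0 := by
    intro hc
    apply hO
    rw [eq_top_iff]
    intro x _
    obtain ⟨p, hp, b, hb, hb0, hxb⟩ := hfrac x
    have hρb : ρ ⟨b, hb⟩ ≠ 0 := by
      intro h0
      obtain ⟨y, hy⟩ := hker ⟨b, hb⟩ h0
      rw [hc, zero_mul] at hy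
      exact hb0 ((mul_eq_zero.mp hy).resolve_left ha0)
    have hvb := hunit ⟨b, hb⟩ hρb
    have hx : x = p * b⁻¹ := by
      rw [← hxb, mul_assoc, mul_inv_cancel₀ hb0, mul_one]
    rw [hx]
    exact mul_mem (hAO _ hp) (pn91_mem_of_val_eq_one O hvb).2
  refine ⟨hc0, hvc, ?_⟩
  intro x hx0
  obtain ⟨p, hp, b, hb, hb0, hxb⟩ := hfrac x
  have hp0 : p ≠ 0 := by
    rintro rfl
    exact hx0 ((mul_eq_zero.mp hxb).resolve_right hb0)
  obtain ⟨k, y, hy, hk⟩ := key' ⟨p, hp⟩ (fun h => hp0 (congrArg Subtype.val h))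
  obtain ⟨l, y', hy', hl⟩ := key' ⟨b, hb⟩ (fun h => hb0 (congrArg Subtype.val h))
  refine ⟨(k : ℤ) - l, y, y', hy, hy', ?_⟩
  have hy'0 : (y' : F) ≠ 0 := hne0 y' hy'
  rw [zpow_sub₀ (div_ne_zero hc0 ha0), zpow_natCast, zpow_natCast, div_pow, div_pow]
  field_simp
  simp only at hk hl
  linear_combination (-(x * algebraMap R F (ρ z) ^ k)) * hl +
    algebraMap R F (ρ z) ^ k * algebraMap R F (ρ z) ^ l * hxb + algebraMap R F (ρ z) ^ l * hk

/-- **The local equation at a node is a unit at every other horizontal place.**  If `O'` is a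
valuation subring of `F` containing `A` and `ϖ⁻¹` and `O' ≠ O`, then `z - ρ(z)` is a unit of
`O'`. -/
theorem pn91_node_other {ϖ : R} (hϖ : Irreducible ϖ) (hπ0 : algebraMap R F ϖ ≠ 0)
    (A : Subring F) (hRA : ∀ r : R, algebraMap R F r ∈ A) [IsLocalRing A] [IsNoetherianRing A]
    (hfrac : ∀ x : F, ∃ a ∈ A, ∃ b ∈ A, b ≠ 0 ∧ x * b = a)
    (z z' ε : A) (q₀ : R) (hq₀ : q₀ ≠ 0)
    (hm : maximalIdeal A = Ideal.span {⟨algebraMap R F ϖ, hRA ϖ⟩, z, z'})
    (hzz : (z : F) * z' = algebraMap R F q₀ * ε) (hε : IsUnit ε)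
    (O : ValuationSubring F) (hO : O ≠ ⊤) [IsPrincipalIdealRing O]
    (hAO : ∀ x ∈ A, x ∈ O) (hπO : (algebraMap R F ϖ)⁻¹ ∈ O)
    (ρ : A →+* R) (hρR : ∀ r : R, ρ ⟨algebraMap R F r, hRA r⟩ = r)
    (hρ : ∀ x : A, ρ x = 0 ↔ O.valuation (x : F) < 1)
    (O' : ValuationSubring F) (hAO' : ∀ x ∈ A, x ∈ O') (hπO' : (algebraMap R F ϖ)⁻¹ ∈ O')
    (hne : O' ≠ O) : O'.valuation ((z : F) - algebraMap R F (ρ z)) = 1 := by
  obtain ⟨ha, -, -, hprime⟩ := pn91_node_aux hϖ A hRA z z' ε q₀ hq₀ hm hzz hε ρ hρR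
  obtain ⟨hc0, hvc, hexp⟩ := pn91_node_exp hϖ hπ0 A hRA hfrac z z' ε q₀ hq₀ hm hzz hε O hO
    hAO hπO ρ hρR hρ
  have hRO : ∀ r : R, algebraMap R F r ∈ O := fun r => hAO _ (hRA r)
  have hRO' : ∀ r : R, algebraMap R F r ∈ O' := fun r => hAO' _ (hRA r)
  have hle' : ∀ x : A, O'.valuation (x : F) ≤ 1 := fun x =>
    (O'.valuation_le_one_iff _).mpr (hAO' _ x.2)
  by_contra hv
  have hvc' : O'.valuation ((z : F) - algebraMap R F (ρ z)) < 1 :=
    lt_of_le_of_ne (hle' (z - ⟨algebraMap R F (ρ z), hRA _⟩)) hv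
  apply hne
  -- the centre of `O'` on `A`
  let 𝔮 : Ideal A :=
    { carrier := {x | O'.valuation (x : F) < 1}
      add_mem' := fun {x y} hx hy => by
        show O'.valuation ((x : F) + (y : F)) < 1
        exact Valuation.map_add_lt _ hx hy
      zero_mem' := by
        show O'.valuation ((0 : A) : F) < 1
        simp
      smul_mem' := fun c x hx => by
        show O'.valuation ((c : F) * (x : F)) < 1
        rw [map_mul, mul_comm]
        exact pn91_mul_lt_one hx (hle' c) }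
  have hmem : ∀ x : A, x ∈ 𝔮 ↔ O'.valuation (x : F) < 1 := fun x => Iff.rfl
  have h𝔮 : 𝔮.IsPrime := by
    refine ⟨?_, ?_⟩
    · intro htop
      have h1 : (1 : A) ∈ 𝔮 := by rw [htop]; trivial
      rw [hmem] at h1
      simp at h1
    · intro x y hxy
      by_contra hcon
      rw [not_or] at hcon
      have hx : O'.valuation (x : F) = 1 := le_antisymm (hle' x) (not_lt.mp hcon.1)
      have hy : O'.valuation (y : F) = 1 := le_antisymm (hle' y) (not_lt.mp hcon.2)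
      have h1 : O'.valuation ((x : F) * (y : F)) < 1 := hxy
      rw [map_mul, hx, hy, one_mul] at h1
      exact lt_irrefl _ h1
  have hπ𝔮 : (⟨algebraMap R F ϖ, hRA ϖ⟩ : A) ∉ 𝔮 := by
    rw [hmem]
    have h1 := pn91_val_const hϖ hπ0 O' hRO' hπO' hϖ.ne_zero
    show ¬ O'.valuation (algebraMap R F ϖ) < 1
    rw [h1]
    exact lt_irrefl _
  have hc𝔮 : z - ⟨algebraMap R F (ρ z), hRA _⟩ ∈ 𝔮 := hvc'
  have hiff : ∀ x : A, O'.valuation (x : F) < 1 ↔ ρ x = 0 := fun x =>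
    hprime 𝔮 h𝔮 hπ𝔮 hc𝔮 x
  have hunit : ∀ y : A, ρ y ≠ 0 → O.valuation (y : F) = 1 := fun y hy =>
    le_antisymm ((O.valuation_le_one_iff _).mpr (hAO _ y.2)) (not_lt.mp (mt (hρ y).mpr hy))
  have hunit' : ∀ y : A, ρ y ≠ 0 → O'.valuation (y : F) = 1 := fun y hy =>
    le_antisymm (hle' y) (not_lt.mp (mt (hiff y).mp hy))
  have hva : O.valuation (algebraMap R F (ρ z)) = 1 := pn91_val_const hϖ hπ0 O hRO hπO ha
  have hva' : O'.valuation (algebraMap R F (ρ z)) = 1 := pn91_val_const hϖ hπ0 O' hRO' hπO' ha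
  ext x
  by_cases hx0 : x = 0
  · subst hx0
    exact ⟨fun _ => zero_mem _, fun _ => zero_mem _⟩
  obtain ⟨k, y, y', hy, hy', hx⟩ := hexp x hx0
  have hv1 : O.valuation x = O.valuation ((z : F) - algebraMap R F (ρ z)) ^ k := by
    rw [hx, map_mul, map_zpow₀, map_div₀, map_div₀, hva, hunit y hy, hunit y' hy', div_one,
      div_one, mul_one]
  have hv2 : O'.valuation x = O'.valuation ((z : F) - algebraMap R F (ρ z)) ^ k := by
    rw [hx, map_mul, map_zpow₀, map_div₀, map_div₀, hva', hunit' y hy, hunit' y' hy', div_one,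
      div_one, mul_one]
  have h1 : x ∈ O ↔ 0 ≤ k := by
    rw [← O.valuation_le_one_iff, hv1]
    exact zpow_le_one_iff_right_of_lt_one₀
      (zero_lt_iff.mpr ((Valuation.ne_zero_iff _).mpr hc0)) hvc
  have h2 : x ∈ O' ↔ 0 ≤ k := by
    rw [← O'.valuation_le_one_iff, hv2]
    exact zpow_le_one_iff_right_of_lt_one₀
      (zero_lt_iff.mpr ((Valuation.ne_zero_iff _).mpr hc0)) hvc'
  exact h2.trans h1.symm

/-- **Local datum at one rational place through a node.**  For a place `O` as in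
`pn91_node_exp` and `f = ε w ^ m` with `ε` a unit of `O` (`m ∣ ord_O f`): there are a nonzero
non-unit `a : R` and `e : ℤ` such that `f / ((z - a) ^ e) ^ m` is a unit of `O`, while `z - a` is
a unit of every other valuation subring containing `A` and `ϖ⁻¹`. -/
theorem pn91_node_local {ϖ : R} (hϖ : Irreducible ϖ) (hπ0 : algebraMap R F ϖ ≠ 0)
    (A : Subring F) (hRA : ∀ r : R, algebraMap R F r ∈ A) [IsLocalRing A] [IsNoetherianRing A]
    (hfrac : ∀ x : F, ∃ a ∈ A, ∃ b ∈ A, b ≠ 0 ∧ x * b = a)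
    (z z' ε : A) (q₀ : R) (hq₀ : q₀ ≠ 0)
    (hm : maximalIdeal A = Ideal.span {⟨algebraMap R F ϖ, hRA ϖ⟩, z, z'})
    (hzz : (z : F) * z' = algebraMap R F q₀ * ε) (hε : IsUnit ε)
    (O : ValuationSubring F) (hO : O ≠ ⊤) [IsPrincipalIdealRing O]
    (hAO : ∀ x ∈ A, x ∈ O) (hπO : (algebraMap R F ϖ)⁻¹ ∈ O)
    (ρ : A →+* R) (hρR : ∀ r : R, ρ ⟨algebraMap R F r, hRA r⟩ = r)
    (hρ : ∀ x : A, ρ x = 0 ↔ O.valuation (x : F) < 1)
    (m : ℕ) (f : F) (hf0 : f ≠ 0) (hord : ∃ η w : F, O.valuation η = 1 ∧ f = η * w ^ m) :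
    ∃ (a : R) (e : ℤ), a ≠ 0 ∧ ¬ IsUnit a ∧ (z : F) - algebraMap R F a ≠ 0 ∧
      O.valuation (f / (((z : F) - algebraMap R F a) ^ e) ^ m) = 1 ∧
      ∀ O' : ValuationSubring F, (∀ x ∈ A, x ∈ O') → (algebraMap R F ϖ)⁻¹ ∈ O' → O' ≠ O →
        O'.valuation ((z : F) - algebraMap R F a) = 1 := by
  obtain ⟨ha, hnu, -, -⟩ := pn91_node_aux hϖ A hRA z z' ε q₀ hq₀ hm hzz hε ρ hρR
  obtain ⟨hc0, hvc, hexp⟩ := pn91_node_exp hϖ hπ0 A hRA hfrac z z' ε q₀ hq₀ hm hzz hε O hO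
    hAO hπO ρ hρR hρ
  have hRO : ∀ r : R, algebraMap R F r ∈ O := fun r => hAO _ (hRA r)
  have hother := fun O' hAO' hπO' hne => pn91_node_other hϖ hπ0 A hRA hfrac z z' ε q₀ hq₀ hm
    hzz hε O hO hAO hπO ρ hρR hρ O' hAO' hπO' hne
  obtain ⟨η, w, hη, hfw⟩ := hord
  have hunit : ∀ y : A, ρ y ≠ 0 → O.valuation (y : F) = 1 := fun y hy =>
    le_antisymm ((O.valuation_le_one_iff _).mpr (hAO _ y.2)) (not_lt.mp (mt (hρ y).mpr hy))
  have hva : O.valuation (algebraMap R F (ρ z)) = 1 := pn91_val_const hϖ hπ0 O hRO hπO ha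
  by_cases hw : w = 0
  · refine ⟨ρ z, 0, ha, hnu, hc0, ?_, hother⟩
    rcases Nat.eq_zero_or_pos m with hm0 | hm0
    · subst hm0
      rw [hfw]
      simpa using hη
    · exfalso
      apply hf0
      rw [hfw, hw, zero_pow hm0.ne', mul_zero]
  · obtain ⟨k, y, y', hy, hy', hx⟩ := hexp w hw
    refine ⟨ρ z, k, ha, hnu, hc0, ?_, hother⟩
    have hvw : O.valuation w = O.valuation ((z : F) - algebraMap R F (ρ z)) ^ k := by
      rw [hx, map_mul, map_zpow₀, map_div₀, map_div₀, hva, hunit y hy, hunit y' hy', div_one,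
        div_one, mul_one]
    have hvc0 : O.valuation ((z : F) - algebraMap R F (ρ z)) ≠ 0 :=
      (Valuation.ne_zero_iff _).mpr hc0
    rw [map_div₀, map_pow, map_zpow₀, hfw, map_mul, map_pow, hη, hvw, one_mul]
    exact div_self (pow_ne_zero _ (zpow_ne_zero _ hvc0))

/-- **(P_n) at a node.**  `A` the local ring of the chart at a node (`𝔪_A = (ϖ, z, z')`,
`z z' = q₀ ε`), `S` a finite set of discrete valuation subrings of `F` containing `A` and
`ϖ⁻¹`, each `R`-rational (with evaluation `ρ`) and with `m ∣ ord f` there.  Then there are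
constants `a_O : R` and exponents `e_O : ℤ` such that `f / (∏_{O ∈ S} (z - a_O) ^ e_O) ^ m` is a
unit of EVERY valuation subring `O ⊇ A[ϖ⁻¹]` which belongs to `S` or at which `f` is a unit. -/
theorem pn91_node_main {ϖ : R} (hϖ : Irreducible ϖ) (hπ0 : algebraMap R F ϖ ≠ 0)
    (A : Subring F) (hRA : ∀ r : R, algebraMap R F r ∈ A) [IsLocalRing A] [IsNoetherianRing A]
    (hfrac : ∀ x : F, ∃ a ∈ A, ∃ b ∈ A, b ≠ 0 ∧ x * b = a)
    (z z' ε : A) (q₀ : R) (hq₀ : q₀ ≠ 0)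
    (hm : maximalIdeal A = Ideal.span {⟨algebraMap R F ϖ, hRA ϖ⟩, z, z'})
    (hzz : (z : F) * z' = algebraMap R F q₀ * ε) (hε : IsUnit ε)
    (m : ℕ) (f : F) (hf0 : f ≠ 0)
    (S : Finset (ValuationSubring F))
    (hS : ∀ O ∈ S, O ≠ ⊤ ∧ IsPrincipalIdealRing O ∧ (∀ x ∈ A, x ∈ O) ∧
      (algebraMap R F ϖ)⁻¹ ∈ O ∧
      (∃ ρ : A →+* R, (∀ r : R, ρ ⟨algebraMap R F r, hRA r⟩ = r) ∧
        ∀ x : A, ρ x = 0 ↔ O.valuation (x : F) < 1) ∧
      ∃ η w : F, O.valuation η = 1 ∧ f = η * w ^ m) :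
    ∃ (a : ValuationSubring F → R) (e : ValuationSubring F → ℤ),
      (∀ O ∈ S, a O ≠ 0 ∧ ¬ IsUnit (a O) ∧ (z : F) - algebraMap R F (a O) ≠ 0) ∧
      ∀ O : ValuationSubring F, (∀ x ∈ A, x ∈ O) → (algebraMap R F ϖ)⁻¹ ∈ O →
        (O ∈ S ∨ O.valuation f = 1) →
        O.valuation (f / (∏ P ∈ S, ((z : F) - algebraMap R F (a P)) ^ e P) ^ m) = 1 := by
  classical
  have hloc : ∀ O ∈ S, ∃ (a : R) (e : ℤ), a ≠ 0 ∧ ¬ IsUnit a ∧
      (z : F) - algebraMap R F a ≠ 0 ∧
      O.valuation (f / (((z : F) - algebraMap R F a) ^ e) ^ m) = 1 ∧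
      ∀ O' : ValuationSubring F, (∀ x ∈ A, x ∈ O') → (algebraMap R F ϖ)⁻¹ ∈ O' → O' ≠ O →
        O'.valuation ((z : F) - algebraMap R F a) = 1 := by
    intro O hOS
    obtain ⟨hO, hPID, hAO, hπO, ⟨ρ, hρR, hρ⟩, hord⟩ := hS O hOS
    exact pn91_node_local hϖ hπ0 A hRA hfrac z z' ε q₀ hq₀ hm hzz hε O hO hAO hπO ρ hρR hρ
      m f hf0 hord
  choose! a e ha using hloc
  refine ⟨a, e, fun O hO => ⟨(ha O hO).1, (ha O hO).2.1, (ha O hO).2.2.1⟩, ?_⟩
  intro O hAO hπO hcase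
  rw [map_div₀, map_pow, map_prod]
  by_cases hOS : O ∈ S
  · have h1 : ∏ P ∈ S, O.valuation (((z : F) - algebraMap R F (a P)) ^ e P) =
        O.valuation (((z : F) - algebraMap R F (a O)) ^ e O) := by
      rw [← Finset.mul_prod_erase S _ hOS]
      have h2 : ∏ P ∈ S.erase O, O.valuation (((z : F) - algebraMap R F (a P)) ^ e P) = 1 := by
        apply Finset.prod_eq_one
        intro P hP
        have hPS : P ∈ S := Finset.mem_of_mem_erase hP
        have hPO : O ≠ P := (Finset.ne_of_mem_erase hP).symm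
        rw [map_zpow₀, (ha P hPS).2.2.2.2 O hAO hπO hPO, one_zpow]
      rw [h2, mul_one]
    rw [h1, ← map_pow, ← map_div₀]
    exact (ha O hOS).2.2.2.1
  · have hf1 : O.valuation f = 1 := hcase.resolve_left hOS
    have h2 : ∏ P ∈ S, O.valuation (((z : F) - algebraMap R F (a P)) ^ e P) = 1 := by
      apply Finset.prod_eq_one
      intro P hP
      have hPO : O ≠ P := fun h => hOS (h ▸ hP)
      rw [map_zpow₀, (ha P hP).2.2.2.2 O hAO hπO hPO, one_zpow]
    rw [h2, hf1, one_pow, div_one]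

/-- **(P_n) at a node, `hord` form** (the hypothesis shape of S18 `lp7_tc_main`).  `f` has
`m ∣ ord_O f` at every discrete valuation subring `O ⊇ A[ϖ⁻¹]`; the finitely many such `O` at
which `f` is not a unit lie in a finite set `T` and are `R`-rational in evaluation form (every
function of `A` takes a value in `Frac R` at `O`).  Then, with `P := ∏ (z - a_O) ^ e_O`,
`f / P ^ m` is a unit of every discrete valuation subring `O ⊇ A[ϖ⁻¹]`. -/
theorem pn91_node_hord {ϖ : R} (hϖ : Irreducible ϖ) (hπ0 : algebraMap R F ϖ ≠ 0)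
    (A : Subring F) (hRA : ∀ r : R, algebraMap R F r ∈ A) [IsLocalRing A] [IsNoetherianRing A]
    (hfrac : ∀ x : F, ∃ a ∈ A, ∃ b ∈ A, b ≠ 0 ∧ x * b = a)
    (z z' ε : A) (q₀ : R) (hq₀ : q₀ ≠ 0)
    (hm : maximalIdeal A = Ideal.span {⟨algebraMap R F ϖ, hRA ϖ⟩, z, z'})
    (hzz : (z : F) * z' = algebraMap R F q₀ * ε) (hε : IsUnit ε)
    (m : ℕ) (f : F) (hf0 : f ≠ 0)
    (hord : ∀ O : ValuationSubring F, O ≠ ⊤ → IsPrincipalIdealRing O → (∀ x ∈ A, x ∈ O) →
      (algebraMap R F ϖ)⁻¹ ∈ O → ∃ η w : F, η ∈ O ∧ η⁻¹ ∈ O ∧ f = η * w ^ m)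
    (T : Finset (ValuationSubring F))
    (hT : ∀ O : ValuationSubring F, O ≠ ⊤ → IsPrincipalIdealRing O → (∀ x ∈ A, x ∈ O) →
      (algebraMap R F ϖ)⁻¹ ∈ O → (f ∉ O ∨ f⁻¹ ∉ O) → O ∈ T)
    (hrat : ∀ O ∈ T, O ≠ ⊤ → IsPrincipalIdealRing O → (∀ x ∈ A, x ∈ O) →
      (algebraMap R F ϖ)⁻¹ ∈ O → ∀ x ∈ A, ∃ r s : R, s ≠ 0 ∧
        O.valuation (x - algebraMap R F r / algebraMap R F s) < 1) :
    ∃ (S : Finset (ValuationSubring F)) (a : ValuationSubring F → R)
      (e : ValuationSubring F → ℤ),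
      (∀ O ∈ S, a O ≠ 0 ∧ ¬ IsUnit (a O) ∧ (z : F) - algebraMap R F (a O) ≠ 0) ∧
      ∀ O : ValuationSubring F, O ≠ ⊤ → IsPrincipalIdealRing O → (∀ x ∈ A, x ∈ O) →
        (algebraMap R F ϖ)⁻¹ ∈ O →
        f / (∏ P ∈ S, ((z : F) - algebraMap R F (a P)) ^ e P) ^ m ∈ O ∧
        (f / (∏ P ∈ S, ((z : F) - algebraMap R F (a P)) ^ e P) ^ m)⁻¹ ∈ O := by
  classical
  let S : Finset (ValuationSubring F) := T.filter (fun O => O ≠ ⊤ ∧ IsPrincipalIdealRing O ∧
    (∀ x ∈ A, x ∈ O) ∧ (algebraMap R F ϖ)⁻¹ ∈ O)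
  have hπA : (⟨algebraMap R F ϖ, hRA ϖ⟩ : A) ∈ maximalIdeal A := by
    rw [hm]; exact Ideal.subset_span (by simp)
  have hS : ∀ O ∈ S, O ≠ ⊤ ∧ IsPrincipalIdealRing O ∧ (∀ x ∈ A, x ∈ O) ∧
      (algebraMap R F ϖ)⁻¹ ∈ O ∧
      (∃ ρ : A →+* R, (∀ r : R, ρ ⟨algebraMap R F r, hRA r⟩ = r) ∧
        ∀ x : A, ρ x = 0 ↔ O.valuation (x : F) < 1) ∧
      ∃ η w : F, O.valuation η = 1 ∧ f = η * w ^ m := by
    intro O hOS
    obtain ⟨hOT, hO, hPID, hAO, hπO⟩ := Finset.mem_filter.mp hOS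
    refine ⟨hO, hPID, hAO, hπO,
      pn91_exists_rho hϖ hπ0 A hRA hπA O hAO hπO (hrat O hOT hO hPID hAO hπO), ?_⟩
    obtain ⟨η, w, hη, hη', hfw⟩ := hord O hO hPID hAO hπO
    have hη0 : η ≠ 0 := by
      rintro rfl
      apply hf0
      rw [hfw, zero_mul]
    exact ⟨η, w, pn91_val_eq_one O hη0 hη hη', hfw⟩
  obtain ⟨a, e, ha, hmain⟩ := pn91_node_main hϖ hπ0 A hRA hfrac z z' ε q₀ hq₀ hm hzz hε m f hf0
    S hS
  refine ⟨S, a, e, ha, ?_⟩
  intro O hO hPID hAO hπO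
  apply pn91_mem_of_val_eq_one
  apply hmain O hAO hπO
  by_cases hu : f ∈ O ∧ f⁻¹ ∈ O
  · exact Or.inr (pn91_val_eq_one O hf0 hu.1 hu.2)
  · left
    have hOT : O ∈ T := hT O hO hPID hAO hπO (by
      by_contra hcon
      rw [not_or, not_not, not_not] at hcon
      exact hu hcon)
    exact Finset.mem_filter.mpr ⟨hOT, hO, hPID, hAO, hπO⟩

end pn91_node

section pn91_elem

variable {F : Type*} [Field F]

/-- A subring `A` of `F` all of whose elements are units or lie in `(q, z, z')`, the latter being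
a proper ideal (the elementwise shape of `nl71_main`), is a local ring. -/
theorem pn91_isLocalRing (A : Subring F) (q z z' : F)
    (hloc : ∀ c ∈ A, (∃ d ∈ A, c * d = 1) ∨
      ∃ c' ∈ A, ∃ a ∈ A, ∃ b ∈ A, c = q * c' + a * z + b * z')
    (hprop : ∀ c' ∈ A, ∀ a ∈ A, ∀ b ∈ A, q * c' + a * z + b * z' ≠ 1) : IsLocalRing A := by
  apply IsLocalRing.of_nonunits_add
  intro x y hx hy
  have hI : ∀ w : A, w ∈ nonunits A →
      ∃ c' ∈ A, ∃ a ∈ A, ∃ b ∈ A, (w : F) = q * c' + a * z + b * z' := by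
    intro w hw
    rcases hloc w w.2 with ⟨d, hd, hwd⟩ | h
    · exfalso
      apply hw
      exact IsUnit.of_mul_eq_one (⟨d, hd⟩ : A) (Subtype.ext hwd)
    · exact h
  obtain ⟨c₁, hc₁, a₁, ha₁, b₁, hb₁, h₁⟩ := hI x hx
  obtain ⟨c₂, hc₂, a₂, ha₂, b₂, hb₂, h₂⟩ := hI y hy
  intro hu
  obtain ⟨d, hd⟩ := hu.exists_right_inv
  have hd' : ((x : F) + (y : F)) * (d : F) = 1 := congrArg (Subtype.val : A → F) hd
  apply hprop ((c₁ + c₂) * d) (A.mul_mem (A.add_mem hc₁ hc₂) d.2)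
    ((a₁ + a₂) * d) (A.mul_mem (A.add_mem ha₁ ha₂) d.2)
    ((b₁ + b₂) * d) (A.mul_mem (A.add_mem hb₁ hb₂) d.2)
  rw [h₁, h₂] at hd'
  linear_combination hd'

/-- The maximal ideal in the situation of `pn91_isLocalRing`. -/
theorem pn91_maximalIdeal (A : Subring F) [IsLocalRing A] (q z z' : A)
    (hloc : ∀ c ∈ A, (∃ d ∈ A, c * d = 1) ∨
      ∃ c' ∈ A, ∃ a ∈ A, ∃ b ∈ A, c = (q : F) * c' + a * (z : F) + b * (z' : F))
    (hprop : ∀ c' ∈ A, ∀ a ∈ A, ∀ b ∈ A, (q : F) * c' + a * (z : F) + b * (z' : F) ≠ 1) :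
    maximalIdeal A = Ideal.span {q, z, z'} := by
  apply le_antisymm
  · intro x hx
    rcases hloc x x.2 with ⟨d, hd, hxd⟩ | ⟨c', hc', a, ha, b, hb, h⟩
    · exact absurd (IsUnit.of_mul_eq_one (⟨d, hd⟩ : A) (Subtype.ext hxd))
        ((mem_maximalIdeal _).mp hx)
    · have hx' : x = ⟨c', hc'⟩ * q + (⟨a, ha⟩ * z + ⟨b, hb⟩ * z') := by
        apply Subtype.ext
        show (x : F) = c' * (q : F) + (a * (z : F) + b * (z' : F))
        rw [h]; ring
      rw [hx']
      refine Ideal.add_mem _ (Ideal.mul_mem_left _ _ (Ideal.subset_span (by simp)))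
        (Ideal.add_mem _ (Ideal.mul_mem_left _ _ (Ideal.subset_span (by simp)))
          (Ideal.mul_mem_left _ _ (Ideal.subset_span (by simp))))
  · rw [Ideal.span_le]
    intro x hx
    rw [SetLike.mem_coe, mem_maximalIdeal, mem_nonunits_iff]
    intro hu
    obtain ⟨d, hd⟩ := hu.exists_right_inv
    have hd' : (x : F) * (d : F) = 1 := congrArg (Subtype.val : A → F) hd
    simp only [Set.mem_insert_iff, Set.mem_singleton_iff] at hx
    rcases hx with rfl | rfl | rfl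
    · apply hprop d d.2 0 A.zero_mem 0 A.zero_mem
      linear_combination hd'
    · apply hprop 0 A.zero_mem d d.2 0 A.zero_mem
      linear_combination hd'
    · apply hprop 0 A.zero_mem 0 A.zero_mem d d.2
      linear_combination hd'

/-- The elementwise hypotheses of `pn91_isLocalRing` are insensitive to a change of
`(z, z')` modulo `q A` (the output of the node lemma `nl71_main`). -/
theorem pn91_loc_transfer (A : Subring F) (q z z' z₁ z₁' : F) (hq0 : q ≠ 0)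
    (h1 : q⁻¹ * (z₁ - z) ∈ A) (h2 : q⁻¹ * (z₁' - z') ∈ A)
    (hloc : ∀ c ∈ A, (∃ d ∈ A, c * d = 1) ∨
      ∃ c' ∈ A, ∃ a ∈ A, ∃ b ∈ A, c = q * c' + a * z + b * z')
    (hprop : ∀ c' ∈ A, ∀ a ∈ A, ∀ b ∈ A, q * c' + a * z + b * z' ≠ 1) :
    (∀ c ∈ A, (∃ d ∈ A, c * d = 1) ∨
      ∃ c' ∈ A, ∃ a ∈ A, ∃ b ∈ A, c = q * c' + a * z₁ + b * z₁') ∧
    (∀ c' ∈ A, ∀ a ∈ A, ∀ b ∈ A, q * c' + a * z₁ + b * z₁' ≠ 1) := by
  have e1 : z₁ = z + q * (q⁻¹ * (z₁ - z)) := by field_simp; ring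
  have e2 : z₁' = z' + q * (q⁻¹ * (z₁' - z')) := by field_simp; ring
  constructor
  · intro c hc
    rcases hloc c hc with h | ⟨c', hc', a, ha, b, hb, h⟩
    · exact Or.inl h
    · refine Or.inr ⟨c' - a * (q⁻¹ * (z₁ - z)) - b * (q⁻¹ * (z₁' - z')),
        A.sub_mem (A.sub_mem hc' (A.mul_mem ha h1)) (A.mul_mem hb h2), a, ha, b, hb, ?_⟩
      rw [h]
      linear_combination (-a) * e1 - b * e2
  · intro c' hc' a ha b hb h
    apply hprop (c' + a * (q⁻¹ * (z₁ - z)) + b * (q⁻¹ * (z₁' - z')))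
      (A.add_mem (A.add_mem hc' (A.mul_mem ha h1)) (A.mul_mem hb h2)) a ha b hb
    rw [← h]
    linear_combination (-a) * e1 - b * e2

end pn91_elem

section pn91_final

variable {R F : Type*} [CommRing R] [IsDomain R] [IsDiscreteValuationRing R] [Field F]
  [Algebra R F]

/-- **(P_n) at a node, elementwise form.**  The local ring `A ⊆ F` of the chart at the node is
given as in `nl71_main` (`hloc`, `hprop` for the coordinates `z, z'`), with the node relation
`z z' = ϖ ^ κ c`, `c` a unit of `A`; `f` as in `pn91_node_hord`.  Then there are a finite set `S`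
of places, constants `a_O : R` (nonzero non-units) and exponents `e_O : ℤ` such that
`f / (∏_{O ∈ S} (z - a_O) ^ e_O) ^ m` is a unit of every discrete valuation subring
`O ⊇ A[ϖ⁻¹]` of `F`. -/
theorem pn91_node_elem {ϖ : R} (hϖ : Irreducible ϖ) (hπ0 : algebraMap R F ϖ ≠ 0)
    (A : Subring F) (hRA : ∀ r : R, algebraMap R F r ∈ A) [IsNoetherianRing A]
    (hfrac : ∀ x : F, ∃ a ∈ A, ∃ b ∈ A, b ≠ 0 ∧ x * b = a)
    (z z' : F) (hz : z ∈ A) (hz' : z' ∈ A)
    (hloc : ∀ c ∈ A, (∃ d ∈ A, c * d = 1) ∨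
      ∃ c' ∈ A, ∃ a ∈ A, ∃ b ∈ A, c = algebraMap R F ϖ * c' + a * z + b * z')
    (hprop : ∀ c' ∈ A, ∀ a ∈ A, ∀ b ∈ A, algebraMap R F ϖ * c' + a * z + b * z' ≠ 1)
    (κ : ℕ) (c d : F) (hc : c ∈ A) (hd : d ∈ A) (hcd : c * d = 1)
    (hzz : z * z' = algebraMap R F ϖ ^ κ * c)
    (m : ℕ) (f : F) (hf0 : f ≠ 0)
    (hord : ∀ O : ValuationSubring F, O ≠ ⊤ → IsPrincipalIdealRing O → (∀ x ∈ A, x ∈ O) →
      (algebraMap R F ϖ)⁻¹ ∈ O → ∃ η w : F, η ∈ O ∧ η⁻¹ ∈ O ∧ f = η * w ^ m)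
    (T : Finset (ValuationSubring F))
    (hT : ∀ O : ValuationSubring F, O ≠ ⊤ → IsPrincipalIdealRing O → (∀ x ∈ A, x ∈ O) →
      (algebraMap R F ϖ)⁻¹ ∈ O → (f ∉ O ∨ f⁻¹ ∉ O) → O ∈ T)
    (hrat : ∀ O ∈ T, O ≠ ⊤ → IsPrincipalIdealRing O → (∀ x ∈ A, x ∈ O) →
      (algebraMap R F ϖ)⁻¹ ∈ O → ∀ x ∈ A, ∃ r s : R, s ≠ 0 ∧
        O.valuation (x - algebraMap R F r / algebraMap R F s) < 1) :
    ∃ (S : Finset (ValuationSubring F)) (a : ValuationSubring F → R)
      (e : ValuationSubring F → ℤ),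
      (∀ O ∈ S, a O ≠ 0 ∧ ¬ IsUnit (a O) ∧ z - algebraMap R F (a O) ≠ 0) ∧
      ∀ O : ValuationSubring F, O ≠ ⊤ → IsPrincipalIdealRing O → (∀ x ∈ A, x ∈ O) →
        (algebraMap R F ϖ)⁻¹ ∈ O →
        f / (∏ P ∈ S, (z - algebraMap R F (a P)) ^ e P) ^ m ∈ O ∧
        (f / (∏ P ∈ S, (z - algebraMap R F (a P)) ^ e P) ^ m)⁻¹ ∈ O := by
  have : IsLocalRing A := pn91_isLocalRing A _ z z' hloc hprop
  have hm := pn91_maximalIdeal A ⟨algebraMap R F ϖ, hRA ϖ⟩ ⟨z, hz⟩ ⟨z', hz'⟩ hloc hprop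
  have hε : IsUnit (⟨c, hc⟩ : A) := IsUnit.of_mul_eq_one (⟨d, hd⟩ : A) (Subtype.ext hcd)
  have hzz' : ((⟨z, hz⟩ : A) : F) * ((⟨z', hz'⟩ : A) : F) =
      algebraMap R F (ϖ ^ κ) * ((⟨c, hc⟩ : A) : F) := by
    rw [map_pow]; exact hzz
  exact pn91_node_hord hϖ hπ0 A hRA hfrac ⟨z, hz⟩ ⟨z', hz'⟩ ⟨c, hc⟩ (ϖ ^ κ)
    (pow_ne_zero _ hϖ.ne_zero) hm hzz' hε m f hf0 hord T hT hrat

/-- Rationality in evaluation form over the fraction field `K` of `R` gives the
denominator form used above. -/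
theorem pn91_rat_of_field {K : Type*} [Field K] [Algebra R K] [IsFractionRing R K] [Algebra K F]
    [IsScalarTower R K F] (O : ValuationSubring F) (x : F)
    (h : ∃ c : K, O.valuation (x - algebraMap K F c) < 1) :
    ∃ r s : R, s ≠ 0 ∧ O.valuation (x - algebraMap R F r / algebraMap R F s) < 1 := by
  obtain ⟨c, hc⟩ := h
  obtain ⟨r, s, hs, rfl⟩ := IsFractionRing.div_surjective (A := R) c
  refine ⟨r, s, nonZeroDivisors.ne_zero hs, ?_⟩
  rwa [map_div₀, ← IsScalarTower.algebraMap_apply, ← IsScalarTower.algebraMap_apply] at hc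

end pn91_final

end Fermat.Agent.S34
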