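import Mathlib
import Fermat.Agent.S34.Iface47d
import Fermat.Agent.S34.HorizUnit69
import Fermat.Agent.S34.Krull65
import Fermat.Agent.S34.PointsNode91

/-!
# S34 lab (helper91): the package (DOM) of the second route — `s34i47d_Pkg_Dom`, literally

`dom91_Pkg_Dom : s34i47d_Pkg_Dom`: for the two affine charts `B = pk15_chart R {h}`,
`pk15_chart R {h⁻¹}`, every horizontal valuation subring `O ⊇ B` of `F` is the localisation of
`B` at its centre: `∀ x ∈ O, ∃ b ∈ B, b ≠ 0, b⁻¹ ∈ O, b * x ∈ B`.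

Elementary valuative route (no Dedekind domains, no dimension theory, no Hartogs; twin of
`Dom65`):

* `dom91_core` (Mathlib only): `O` a valuation subring of `F`, `D` a subring integrally closed
  in `F`, `x ∈ O` a root of `∑ c i X ^ i` with `c i ∈ D ∩ O`, one `c i` a unit of `O`.  With `s`
  the last unit index, `y := ∑_{i ≥ s} c i x ^ (i - s)` is a unit of `O`, `x y` is a polynomial
  in `x⁻¹`, and `y`, `x y` lie in every valuation subring containing `D` (case `x` resp.
  `x⁻¹`), hence in `D`.  So `x = (x y) / y` with `y, x y ∈ D`, `y ∈ Oˣ`.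
* `dom91_gcd`: an element of `K(g) ∩ O` is `P(g) / Q(g)` with `Q(g)` a unit of `O`.
* `dom91_clear`: `ρ P(g) ∈ R[g] ⊆ B` for some `ρ ≠ 0` in `R` (`K = Frac R`).
* `dom91_centre`: the centre of `O` on a subring, a prime ideal; `D` is `hu69_loc` at it.
* `dom91_dom`: (DOM) for an integrally closed `R`-subalgebra `B ∋ g` with `F / K(g)` algebraic.
* `dom91_Pkg_Dom`: the package (only `hfrac` and the definition of the charts are used).
-/

set_option autoImplicit false

open Polynomial IntermediateField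

namespace Fermat.Agent.S34

open Fermat.Agent.S18

section dom91_core

variable {F : Type*} [Field F]

theorem dom91_mul_lt_one {Γ : Type*} [LinearOrderedCommGroupWithZero Γ] {a b : Γ} (ha : a < 1)
    (hb : b ≤ 1) : a * b < 1 :=
  lt_of_le_of_lt (mul_le_mul' (le_refl a) hb) (by rwa [mul_one])

/-- **Core of (DOM).**  `O` a valuation subring of `F`, `D` a subring integrally closed in `F`,
`x ∈ O` a root of `∑ c i X ^ i` with coefficients in `D ∩ O`, one of which is a unit of `O`.
Then `x = z / y` with `y, z ∈ D` and `y` a unit of `O`. -/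
theorem dom91_core (O : ValuationSubring F) (D : Subring F)
    (hDcl : ∀ x : F, IsIntegral D x → x ∈ D)
    (x : F) (hx : x ∈ O) (n : ℕ) (c : ℕ → F) (hcD : ∀ i, c i ∈ D) (hcO : ∀ i, c i ∈ O)
    (hrel : ∑ i ∈ Finset.range (n + 1), c i * x ^ i = 0)
    (hunit : ∃ i ≤ n, O.valuation (c i) = 1) :
    ∃ y z : F, y ∈ D ∧ z ∈ D ∧ O.valuation y = 1 ∧ x * y = z := by
  classical
  by_cases hx0 : x = 0
  · exact ⟨1, 0, D.one_mem, D.zero_mem, map_one _, by rw [hx0, zero_mul]⟩
  have hIC : IsIntegrallyClosedIn D F :=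
    Subring.isIntegrallyClosedIn_iff.mpr (fun {y} hy => hDcl y hy)
  obtain ⟨i₀, hi₀n, hi₀⟩ := hunit
  set s := Nat.findGreatest (fun i => O.valuation (c i) = 1) n with hs
  have hs1 : O.valuation (c s) = 1 :=
    Nat.findGreatest_spec (P := fun i => O.valuation (c i) = 1) hi₀n hi₀
  have hsn : s ≤ n := Nat.findGreatest_le n
  have hs2 : ∀ i, s < i → i ≤ n → O.valuation (c i) < 1 := by
    intro i hsi hin
    have h1 : ¬ O.valuation (c i) = 1 := Nat.findGreatest_is_greatest hsi hin
    exact lt_of_le_of_ne ((O.valuation_le_one_iff _).mpr (hcO i)) h1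
  have hvx : O.valuation x ≤ 1 := (O.valuation_le_one_iff _).mpr hx
  set y : F := ∑ i ∈ Finset.range (n + 1 - s), c (s + i) * x ^ i with hy
  have hvy : O.valuation y = 1 := by
    have e : n + 1 - s = (n - s) + 1 := by omega
    rw [hy, e, Finset.sum_range_succ']
    simp only [add_zero, pow_zero, mul_one]
    have hlt : O.valuation (∑ i ∈ Finset.range (n - s), c (s + (i + 1)) * x ^ (i + 1)) < 1 := by
      apply Valuation.map_sum_lt _ one_ne_zero
      intro i hi
      rw [Finset.mem_range] at hi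
      rw [map_mul, map_pow]
      exact dom91_mul_lt_one (hs2 _ (by omega) (by omega)) (pow_le_one' hvx _)
    rw [← hs1] at hlt
    rw [Valuation.map_add_eq_of_lt_right _ hlt, hs1]
  have hs0 : s ≠ 0 := by
    intro h0
    have h1 : y = 0 := by
      rw [hy, h0]
      simpa using hrel
    rw [h1, map_zero] at hvy
    exact zero_ne_one hvy
  obtain ⟨t, ht⟩ : ∃ t, s = t + 1 := Nat.exists_eq_succ_of_ne_zero hs0
  set z₁ : F := ∑ i ∈ Finset.range (t + 1), c i * x⁻¹ ^ (t - i) with hz
  have hxy : x * y = - z₁ := by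
    have h1 : x ^ (t + 1) * y =
        ∑ i ∈ Finset.range (n + 1 - s), c (s + i) * x ^ (s + i) := by
      rw [hy, Finset.mul_sum]
      apply Finset.sum_congr rfl
      intro i _
      rw [ht]; ring
    have h2 : x ^ t * z₁ = ∑ i ∈ Finset.range s, c i * x ^ i := by
      rw [hz, Finset.mul_sum, ht]
      apply Finset.sum_congr rfl
      intro i hi
      rw [Finset.mem_range] at hi
      have e : x ^ t = x ^ i * x ^ (t - i) := by
        rw [← pow_add]; congr 1; omega
      rw [e, inv_pow]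
      field_simp
    have h3 : ∑ i ∈ Finset.range s, c i * x ^ i +
        ∑ i ∈ Finset.range (n + 1 - s), c (s + i) * x ^ (s + i) = 0 := by
      rw [← Finset.sum_range_add (fun i => c i * x ^ i) s (n + 1 - s)]
      have e : s + (n + 1 - s) = n + 1 := by omega
      rw [e]; exact hrel
    have h4 : x ^ t * (x * y + z₁) = 0 := by
      have e : x ^ t * (x * y + z₁) = x ^ (t + 1) * y + x ^ t * z₁ := by ring
      rw [e, h1, h2, add_comm]; exact h3
    have h5 := (mul_eq_zero.mp h4).resolve_left (pow_ne_zero _ hx0)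
    linear_combination h5
  have hval : ∀ O' : ValuationSubring F, D ≤ O'.toSubring → y ∈ O' ∧ z₁ ∈ O' := by
    intro O' hDO'
    have hc' : ∀ i, c i ∈ O' := fun i => hDO' (hcD i)
    rcases O'.mem_or_inv_mem x with h | h
    · have hyO' : y ∈ O' := sum_mem (fun i _ => mul_mem (hc' _) (pow_mem h _))
      refine ⟨hyO', ?_⟩
      have e : z₁ = -(x * y) := by rw [hxy, neg_neg]
      rw [e]; exact neg_mem (mul_mem h hyO')
    · have hzO' : z₁ ∈ O' := sum_mem (fun i _ => mul_mem (hc' _) (pow_mem h _))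
      refine ⟨?_, hzO'⟩
      have e : y = -(z₁ * x⁻¹) := by
        field_simp
        linear_combination hxy
      rw [e]; exact neg_mem (mul_mem hzO' h)
  have hyD : y ∈ D := by
    by_contra hy'
    obtain ⟨O', hO', hyO'⟩ := Subring.exists_le_valuationSubring_of_isIntegrallyClosedIn hy'
    exact hyO' (hval O' hO').1
  have hzD : z₁ ∈ D := by
    by_contra hz'
    obtain ⟨O', hO', hzO'⟩ := Subring.exists_le_valuationSubring_of_isIntegrallyClosedIn hz'
    exact hzO' (hval O' hO').2
  exact ⟨y, -z₁, hyD, D.neg_mem hzD, hvy, hxy⟩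

end dom91_core

section dom91_centre

variable {F : Type*} [Field F]

/-- The centre on the subring `B` of a valuation subring `O ⊇ B`. -/
def dom91_centre (B : Subring F) (O : ValuationSubring F) (hBO : ∀ x ∈ B, x ∈ O) : Ideal B where
  carrier := {b | O.valuation (b : F) < 1}
  add_mem' := fun {x y} hx hy => by
    show O.valuation ((x : F) + (y : F)) < 1
    exact Valuation.map_add_lt _ hx hy
  zero_mem' := by
    show O.valuation ((0 : B) : F) < 1
    simp
  smul_mem' := fun c x hx => by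
    show O.valuation ((c : F) * (x : F)) < 1
    rw [map_mul, mul_comm]
    exact dom91_mul_lt_one hx ((O.valuation_le_one_iff _).mpr (hBO _ c.2))

theorem dom91_mem_centre (B : Subring F) (O : ValuationSubring F) (hBO : ∀ x ∈ B, x ∈ O)
    (b : B) : b ∈ dom91_centre B O hBO ↔ O.valuation (b : F) < 1 := Iff.rfl

theorem dom91_not_mem_centre (B : Subring F) (O : ValuationSubring F) (hBO : ∀ x ∈ B, x ∈ O)
    (b : B) : b ∉ dom91_centre B O hBO ↔ O.valuation (b : F) = 1 := by
  rw [dom91_mem_centre]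
  have hle : O.valuation (b : F) ≤ 1 := (O.valuation_le_one_iff _).mpr (hBO _ b.2)
  exact ⟨fun h => le_antisymm hle (not_lt.mp h), fun h => by rw [h]; exact lt_irrefl _⟩

instance dom91_centre_isPrime (B : Subring F) (O : ValuationSubring F) (hBO : ∀ x ∈ B, x ∈ O) :
    (dom91_centre B O hBO).IsPrime := by
  refine ⟨?_, ?_⟩
  · intro htop
    have h1 : (1 : B) ∈ dom91_centre B O hBO := by rw [htop]; trivial
    rw [dom91_mem_centre] at h1
    simp at h1
  · intro x y hxy
    by_contra hcon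
    rw [not_or, dom91_not_mem_centre, dom91_not_mem_centre] at hcon
    have h1 : O.valuation ((x : F) * (y : F)) < 1 := hxy
    rw [map_mul, hcon.1, hcon.2, one_mul] at h1
    exact lt_irrefl _ h1

end dom91_centre

section dom91_chart

variable {R K F : Type*} [CommRing R] [IsDomain R] [IsDiscreteValuationRing R] [Field K]
  [Field F] [Algebra R K] [IsFractionRing R K] [Algebra R F] [Algebra K F] [IsScalarTower R K F]

omit [IsDomain R] [IsDiscreteValuationRing R] [IsFractionRing R K] [IsScalarTower R K F]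
  [Algebra R K] [Algebra R F] [CommRing R] in
theorem dom91_aeval_mem (O : ValuationSubring F) (hKO : ∀ c : K, algebraMap K F c ∈ O) (g : F)
    (hg : g ∈ O) (p : K[X]) : aeval g p ∈ O := by
  rw [aeval_eq_sum_range]
  exact sum_mem (fun i _ => by
    rw [Algebra.smul_def]; exact mul_mem (hKO _) (pow_mem hg _))

omit [IsDomain R] [IsDiscreteValuationRing R] [IsFractionRing R K] [IsScalarTower R K F]
  [Algebra R K] [Algebra R F] [CommRing R] in
/-- An element of `K(g) ∩ O` is a fraction of polynomials in `g` whose denominator is a unit of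
`O` (`K[X]` is a principal ideal domain). -/
theorem dom91_gcd (O : ValuationSubring F) (hKO : ∀ c : K, algebraMap K F c ∈ O) (g : F)
    (hg : g ∈ O) (p r : K[X]) (hr : aeval g r ≠ 0) (h : aeval g p / aeval g r ∈ O) :
    ∃ p' r' : K[X], O.valuation (aeval g r') = 1 ∧
      aeval g p / aeval g r = aeval g p' / aeval g r' := by
  classical
  have hr0 : r ≠ 0 := by
    rintro rfl
    exact hr (map_zero _)
  have hd0 : EuclideanDomain.gcd p r ≠ 0 := fun h0 =>
    hr0 (EuclideanDomain.gcd_eq_zero_iff.mp h0).2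
  obtain ⟨p', hp'⟩ := EuclideanDomain.gcd_dvd_left p r
  obtain ⟨r', hr'⟩ := EuclideanDomain.gcd_dvd_right p r
  have hcop : p' * EuclideanDomain.gcdA p r + r' * EuclideanDomain.gcdB p r = 1 := by
    have h1 := EuclideanDomain.gcd_eq_gcd_ab p r
    apply mul_left_cancel₀ hd0
    calc EuclideanDomain.gcd p r * (p' * EuclideanDomain.gcdA p r + r' * EuclideanDomain.gcdB p r)
        = (EuclideanDomain.gcd p r * p') * EuclideanDomain.gcdA p r +
            (EuclideanDomain.gcd p r * r') * EuclideanDomain.gcdB p r := by ring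
      _ = p * EuclideanDomain.gcdA p r + r * EuclideanDomain.gcdB p r := by rw [← hp', ← hr']
      _ = EuclideanDomain.gcd p r * 1 := by rw [← h1, mul_one]
  have hrr : aeval g r = aeval g (EuclideanDomain.gcd p r) * aeval g r' := by
    rw [← map_mul, ← hr']
  have hpp : aeval g p = aeval g (EuclideanDomain.gcd p r) * aeval g p' := by
    rw [← map_mul, ← hp']
  have hd : aeval g (EuclideanDomain.gcd p r) ≠ 0 := left_ne_zero_of_mul (hrr ▸ hr)
  have hr'0 : aeval g r' ≠ 0 := right_ne_zero_of_mul (hrr ▸ hr)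
  have heq : aeval g p / aeval g r = aeval g p' / aeval g r' := by
    rw [hpp, hrr]
    field_simp
  refine ⟨p', r', ?_, heq⟩
  have hmem := dom91_aeval_mem O hKO g hg
  have hle : ∀ q : K[X], O.valuation (aeval g q) ≤ 1 := fun q =>
    (O.valuation_le_one_iff _).mpr (hmem q)
  by_contra hv
  have hlt : O.valuation (aeval g r') < 1 := lt_of_le_of_ne (hle r') hv
  have hp'lt : O.valuation (aeval g p') < 1 := by
    have e : aeval g p' = (aeval g p' / aeval g r') * aeval g r' := by
      field_simp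
    rw [e, map_mul, mul_comm]
    refine dom91_mul_lt_one hlt ?_
    rw [← heq]
    exact (O.valuation_le_one_iff _).mpr h
  have h1 : O.valuation (aeval g (p' * EuclideanDomain.gcdA p r + r' * EuclideanDomain.gcdB p r))
      < 1 := by
    rw [map_add, map_mul, map_mul]
    refine Valuation.map_add_lt _ ?_ ?_
    · rw [map_mul]; exact dom91_mul_lt_one hp'lt (hle _)
    · rw [map_mul]; exact dom91_mul_lt_one hlt (hle _)
  rw [hcop, map_one, map_one] at h1
  exact lt_irrefl _ h1

omit [IsDiscreteValuationRing R] in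
/-- Clearing denominators: a polynomial in `g` over `K = Frac R` becomes an element of `R[g]`
after multiplication by a nonzero constant of `R`. -/
theorem dom91_clear (B : Subalgebra R F) (g : F) (hgB : g ∈ B) (p : K[X]) :
    ∃ ρ : R, ρ ≠ 0 ∧ algebraMap R F ρ * aeval g p ∈ B := by
  obtain ⟨b, hbM, hb⟩ := IsLocalization.integerNormalization_spec (nonZeroDivisors R) p
  refine ⟨b, nonZeroDivisors.ne_zero hbM, ?_⟩
  have h1 : aeval g ((IsLocalization.integerNormalization (nonZeroDivisors R) p).map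
      (algebraMap R K)) = algebraMap R F b * aeval g p := by
    rw [hb, ← IsScalarTower.algebraMap_smul K (b : R) p, map_smul, Algebra.smul_def,
      ← IsScalarTower.algebraMap_apply]
  rw [← h1, aeval_map_algebraMap]
  exact (Algebra.adjoin_le (Set.singleton_subset_iff.mpr hgB)) (aeval_mem_adjoin_singleton R g)

/-- **(DOM) for an integrally closed `R`-subalgebra `B ∋ g` of `F` with `F` algebraic over
`K(g)`**: every horizontal valuation subring `O ⊇ B` is the localisation of `B` at its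
centre. -/
theorem dom91_dom {π : R} (hπ : Irreducible π) (B : Subalgebra R F)
    (hBcl : ∀ x : F, IsIntegral B x → x ∈ B) (g : F) (hgB : g ∈ B)
    (halg : ∀ x : F, IsIntegral K⟮g⟯ x) : s34i47d_Dom π B := by
  intro O hO hBO x hx
  obtain ⟨-, -, hRO, hπO⟩ := hO
  have hπ0 : algebraMap R F π ≠ 0 := by
    rw [IsScalarTower.algebraMap_apply R K F]
    intro h0
    have h1 : algebraMap R K π = 0 := (map_eq_zero (algebraMap K F)).mp h0
    exact hπ.ne_zero ((IsFractionRing.injective R K) (by rw [h1, map_zero]))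
  have hvR : ∀ {r : R}, r ≠ 0 → O.valuation (algebraMap R F r) = 1 := fun hr =>
    pn91_val_const hπ hπ0 O hRO hπO hr
  have hKO : ∀ c : K, algebraMap K F c ∈ O := by
    intro c
    obtain ⟨r, s, hs, rfl⟩ := IsFractionRing.div_surjective (A := R) c
    rw [map_div₀, ← IsScalarTower.algebraMap_apply, ← IsScalarTower.algebraMap_apply,
      div_eq_mul_inv]
    exact mul_mem (hRO r) (pn91_mem_of_val_eq_one O (hvR (nonZeroDivisors.ne_zero hs))).2
  have hgO : g ∈ O := hBO g hgB
  -- the localisation `D` of `B` at the centre of `O`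
  let ι : B.toSubring →+* B :=
    { toFun := fun y => ⟨y.1, y.2⟩
      map_one' := rfl
      map_mul' := fun _ _ => rfl
      map_zero' := rfl
      map_add' := fun _ _ => rfl }
  have hBcl' : ∀ y : F, IsIntegral B.toSubring y → y ∈ B.toSubring := by
    intro y hy
    obtain ⟨p, hp, hpy⟩ := hy
    exact hBcl y ⟨p.map ι, hp.map _, by rw [eval₂_map]; exact hpy⟩
  have hB'O : ∀ y ∈ B.toSubring, y ∈ O := hBO
  have hπB' : algebraMap R F π ∈ B.toSubring := B.algebraMap_mem π
  have hDcl : ∀ y : F,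
      IsIntegral (hu69_loc B.toSubring (algebraMap R F π) hπB' (dom91_centre B.toSubring O hB'O))
        y → y ∈ hu69_loc B.toSubring (algebraMap R F π) hπB' (dom91_centre B.toSubring O hB'O) :=
    fun y hy => hu69_loc_closed B.toSubring hBcl' _ hπB' _ y hy
  -- the minimal polynomial of `x` over `K(g)`
  have hint := halg x
  have hq : (minpoly K⟮g⟯ x).Monic := minpoly.monic hint
  have hqx : aeval x (minpoly K⟮g⟯ x) = 0 := minpoly.aeval _ x
  have hrel0 : ∑ i ∈ Finset.range ((minpoly K⟮g⟯ x).natDegree + 1),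
      (((minpoly K⟮g⟯ x).coeff i : K⟮g⟯) : F) * x ^ i = 0 := by
    rw [← hqx, aeval_eq_sum_range]
    apply Finset.sum_congr rfl
    intro i _
    rw [Algebra.smul_def]; rfl
  obtain ⟨j, hj, hjmax⟩ := Finset.exists_max_image
    (Finset.range ((minpoly K⟮g⟯ x).natDegree + 1))
    (fun i => O.valuation (((minpoly K⟮g⟯ x).coeff i : K⟮g⟯) : F)) ⟨0, by simp⟩
  have hvj : O.valuation (((minpoly K⟮g⟯ x).coeff j : K⟮g⟯) : F) ≠ 0 := by
    intro h0
    have h1 := hjmax (minpoly K⟮g⟯ x).natDegree (Finset.mem_range.mpr (Nat.lt_succ_self _))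
    rw [hq.coeff_natDegree, h0] at h1
    have h2 : O.valuation (((1 : K⟮g⟯) : K⟮g⟯) : F) = 1 := by
      rw [OneMemClass.coe_one, map_one]
    rw [h2] at h1
    exact absurd h1 (not_le.mpr zero_lt_one)
  have haj : (((minpoly K⟮g⟯ x).coeff j : K⟮g⟯) : F) ≠ 0 := (Valuation.ne_zero_iff _).mp hvj
  have hcO : ∀ i, (((minpoly K⟮g⟯ x).coeff i : K⟮g⟯) : F) /
      (((minpoly K⟮g⟯ x).coeff j : K⟮g⟯) : F) ∈ O := by
    intro i
    rw [← O.valuation_le_one_iff, map_div₀]
    by_cases hi : i ∈ Finset.range ((minpoly K⟮g⟯ x).natDegree + 1)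
    · exact (div_le_one₀ (zero_lt_iff.mpr hvj)).mpr (hjmax i hi)
    · have h0 : (minpoly K⟮g⟯ x).coeff i = 0 :=
        coeff_eq_zero_of_natDegree_lt (by
          rw [Finset.mem_range] at hi
          omega)
      rw [h0, ZeroMemClass.coe_zero, map_zero, zero_div]
      exact zero_le
  have hrel : ∑ i ∈ Finset.range ((minpoly K⟮g⟯ x).natDegree + 1),
      ((((minpoly K⟮g⟯ x).coeff i : K⟮g⟯) : F) /
        (((minpoly K⟮g⟯ x).coeff j : K⟮g⟯) : F)) * x ^ i = 0 := by
    have e : ∑ i ∈ Finset.range ((minpoly K⟮g⟯ x).natDegree + 1),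
        ((((minpoly K⟮g⟯ x).coeff i : K⟮g⟯) : F) /
          (((minpoly K⟮g⟯ x).coeff j : K⟮g⟯) : F)) * x ^ i =
        (∑ i ∈ Finset.range ((minpoly K⟮g⟯ x).natDegree + 1),
          (((minpoly K⟮g⟯ x).coeff i : K⟮g⟯) : F) * x ^ i) /
          (((minpoly K⟮g⟯ x).coeff j : K⟮g⟯) : F) := by
      rw [Finset.sum_div]
      apply Finset.sum_congr rfl
      intro i _
      ring
    rw [e, hrel0, zero_div]
  have hunit : ∃ i ≤ (minpoly K⟮g⟯ x).natDegree,
      O.valuation ((((minpoly K⟮g⟯ x).coeff i : K⟮g⟯) : F) /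
        (((minpoly K⟮g⟯ x).coeff j : K⟮g⟯) : F)) = 1 :=
    ⟨j, Nat.lt_succ_iff.mp (Finset.mem_range.mp hj), by rw [div_self haj, map_one]⟩
  have hcD : ∀ i, (((minpoly K⟮g⟯ x).coeff i : K⟮g⟯) : F) /
      (((minpoly K⟮g⟯ x).coeff j : K⟮g⟯) : F) ∈
        hu69_loc B.toSubring (algebraMap R F π) hπB' (dom91_centre B.toSubring O hB'O) := by
    intro i
    have hmem : (((minpoly K⟮g⟯ x).coeff i : K⟮g⟯) : F) /
        (((minpoly K⟮g⟯ x).coeff j : K⟮g⟯) : F) ∈ K⟮g⟯ :=
      div_mem ((minpoly K⟮g⟯ x).coeff i).2 ((minpoly K⟮g⟯ x).coeff j).2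
    obtain ⟨r, s, hrs⟩ := (IntermediateField.mem_adjoin_simple_iff K _).mp hmem
    by_cases hs0 : aeval g s = 0
    · rw [hrs, hs0, div_zero]
      exact Subring.zero_mem _
    have hO' : aeval g r / aeval g s ∈ O := hrs ▸ hcO i
    obtain ⟨p', r', hr'v, heq⟩ := dom91_gcd O hKO g hgO r s hs0 hO'
    obtain ⟨ρ₁, hρ₁, hρ₁B⟩ := dom91_clear B g hgB p'
    obtain ⟨ρ₂, hρ₂, hρ₂B⟩ := dom91_clear B g hgB r'
    rw [hrs, heq, div_eq_mul_inv]
    refine Subring.mul_mem _ ?_ ?_
    · refine ⟨⟨algebraMap R F ρ₁, B.algebraMap_mem ρ₁⟩, ?_, 0, ?_⟩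
      · rw [dom91_not_mem_centre]
        exact hvR hρ₁
      · rw [pow_zero, one_mul]
        exact hρ₁B
    · refine ⟨⟨algebraMap R F ρ₂ * aeval g r', hρ₂B⟩, ?_, 0, ?_⟩
      · rw [dom91_not_mem_centre]
        show O.valuation (algebraMap R F ρ₂ * aeval g r') = 1
        rw [map_mul, hvR hρ₂, hr'v, one_mul]
      · have hr'0 : aeval g r' ≠ 0 :=
          (Valuation.ne_zero_iff _).mp (by rw [hr'v]; exact one_ne_zero)
        have e : algebraMap R F π ^ 0 * (algebraMap R F ρ₂ * aeval g r') * (aeval g r')⁻¹ =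
            algebraMap R F ρ₂ := by
          field_simp
        show algebraMap R F π ^ 0 * (algebraMap R F ρ₂ * aeval g r') * (aeval g r')⁻¹ ∈ _
        rw [e]
        exact B.algebraMap_mem ρ₂
  obtain ⟨y, z, hyD, hzD, hvy, hxyz⟩ := dom91_core O _ hDcl x hx _ _ hcD hcO hrel hunit
  obtain ⟨s₁, hs₁, k₁, h₁⟩ := hyD
  obtain ⟨s₂, hs₂, k₂, h₂⟩ := hzD
  rw [dom91_not_mem_centre] at hs₁ hs₂
  have hvπ : O.valuation (algebraMap R F π) = 1 := hvR hπ.ne_zero
  have hv : O.valuation ((algebraMap R F π ^ k₁ * (s₁ : F) * y) *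
      (algebraMap R F π ^ k₂ * (s₂ : F))) = 1 := by
    rw [map_mul, map_mul, map_mul, map_mul, map_pow, map_pow, hvπ, hs₁, hs₂, hvy]
    simp
  refine ⟨⟨(algebraMap R F π ^ k₁ * (s₁ : F) * y) * (algebraMap R F π ^ k₂ * (s₂ : F)),
    B.mul_mem h₁ (B.mul_mem (B.pow_mem (B.algebraMap_mem π) _) s₂.2)⟩, ?_, ?_, ?_⟩
  · exact (Valuation.ne_zero_iff _).mp (by rw [hv]; exact one_ne_zero)
  · exact (pn91_mem_of_val_eq_one O hv).2
  · have e : (algebraMap R F π ^ k₁ * (s₁ : F) * y) * (algebraMap R F π ^ k₂ * (s₂ : F)) * x =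
        (algebraMap R F π ^ k₁ * (s₁ : F)) * (algebraMap R F π ^ k₂ * (s₂ : F) * z) := by
      rw [← hxyz]; ring
    show (algebraMap R F π ^ k₁ * (s₁ : F) * y) * (algebraMap R F π ^ k₂ * (s₂ : F)) * x ∈ B
    rw [e]
    exact B.mul_mem (B.mul_mem (B.pow_mem (B.algebraMap_mem π) _) s₁.2) h₂

omit [IsDomain R] [IsDiscreteValuationRing R] [IsFractionRing R K] in
/-- The elements of the chart at `g` are integral over `K(g)`. -/
theorem dom91_isIntegral_of_chart (g : F) (x : F) (hx : x ∈ pk15_chart R ({g} : Set F)) :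
    IsIntegral K⟮g⟯ x := by
  have hle : Algebra.adjoin R ({g} : Set F) ≤ K⟮g⟯.toSubalgebra.restrictScalars R :=
    Algebra.adjoin_le (by
      intro y hy
      rw [Set.mem_singleton_iff] at hy
      subst hy
      exact IntermediateField.mem_adjoin_simple_self K _)
  let φ : Algebra.adjoin R ({g} : Set F) →+* K⟮g⟯ :=
    { toFun := fun y => ⟨y.1, hle y.2⟩
      map_one' := rfl
      map_mul' := fun _ _ => rfl
      map_zero' := rfl
      map_add' := fun _ _ => rfl }
  obtain ⟨p, hp, hpx⟩ := (pk15_mem_chart _ x).mp hx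
  exact ⟨p.map φ, hp.map _, by rw [eval₂_map]; exact hpx⟩

end dom91_chart

/-- **(DOM)** = `s34i47d_Pkg_Dom`, literally. -/
theorem dom91_Pkg_Dom : s34i47d_Pkg_Dom := by
  intro R K F _ _ _ _ _ _ _ _ _ _ _ π hπ h hh hN₁ hN₂ hfin hfrac
  have halg : ∀ x : F, IsIntegral K⟮h⟯ x := by
    intro x
    obtain ⟨a, ha, b, hb, hb0, hab⟩ := hfrac x
    have hx : x = a * b⁻¹ := by
      rw [← hab, mul_assoc, mul_inv_cancel₀ hb0, mul_one]
    rw [hx]
    exact (dom91_isIntegral_of_chart h a ha).mul (dom91_isIntegral_of_chart h b hb).inv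
  have halg' : ∀ x : F, IsIntegral K⟮h⁻¹⟯ x := by
    intro x
    have hle : K⟮h⟯ ≤ K⟮h⁻¹⟯ := by
      rw [IntermediateField.adjoin_simple_le_iff]
      have h1 := inv_mem (IntermediateField.mem_adjoin_simple_self K h⁻¹)
      rwa [inv_inv] at h1
    obtain ⟨p, hp, hpx⟩ := halg x
    exact ⟨p.map (IntermediateField.inclusion hle).toRingHom, hp.map _, by
      rw [eval₂_map]; exact hpx⟩
  exact ⟨dom91_dom hπ _ (kr65_chart_closed _) h (pk15_subset_chart _ (Set.mem_singleton h)) halg,
    dom91_dom hπ _ (kr65_chart_closed _) h⁻¹ (pk15_subset_chart _ (Set.mem_singleton _)) halg'⟩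

end Fermat.Agent.S34
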