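/-
S34 lab, package P6 (helper35): the DOUBLE DIFFERENCE, abstract part (Mathlib only).

Setting (helper47's proof of (U), report 2289, step 6): `F` a field, `σ τ : F →+* F` (two inertia
elements acting on the function field through the coefficients), `f ∈ F` a Kummer function and

  `u := σ (τ f) * f / (σ f * τ f)`        (`dd35_u`),

the Kummer function of `(σ - 1)(τ - 1) D`.  `W` is a subring of `F` (in the application the
intersection of the two Gauss valuation rings), `p` the uniformizer, and "`x ≡ 1 mod p W`" is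
written `p⁻¹ * (x - 1) ∈ W` (as in `ntc47_main`).

* congruence calculus modulo `p V` for a subring `V` (`dd35_Adm`): products, inverses, integer
  powers, finite products (`dd35_mul_cong`, `dd35_inv_cong`, `dd35_zpow_cong`, `dd35_prod_cong`);
* (6a) `dd35_u_cong` : `u ≡ 1 mod p W` as soon as `τ f / f` is a unit of `W` and `σ` is trivial
  on `W` modulo `p W`;
* the local factor `dd35_fac σ τ c a = (c - τ a)(c - σ a) / ((c - σ τ a)(c - a))` and
  `dd35_phi = ∏ j, fac (a j) ^ n j`; `dd35_fac_cong_unit` (the coordinate `c` dominates: every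
  single ratio is `≡ 1`), `dd35_fac_cong_small` (the constants dominate: the factor is
  `≡ θ / σ θ`, `θ = τ a / a`, which is `≡ 1` because `σ` is trivial on constants modulo `p`:
  `dd35_theta_cong`); `dd35_phi_cong`;
* `dd35_phi_pow_mul_u` : if `f = ω * ∏ j, (c - a j) ^ (m * n j)` with `σ c = c`, `τ c = c`, then
  `φ ^ m * u(f) = u(ω)`;
* `dd35_regular` : if `ω` and `ω⁻¹` are regular at a prime `n` of the chart `B` up to powers of
  `p`, `σ`, `τ` preserve `B`, the complement of `n` and `p` up to units, `u(ω) ∈ W` and `B` is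
  saturated in `W`, then `u(ω)` is regular at `n` — no divisor theory, no Hartogs;
* `dd35_local_datum` : the local datum `hLD` of `ntc47_main` at `n`.

All names are prefixed `dd35_`.
-/
import Mathlib

set_option autoImplicit false

namespace Fermat.Agent.S34

/-! ### Congruences modulo `p V` -/

section cong

variable {F : Type*} [Field F]

/-- The standing hypotheses on a subring `V` and an element `p` ("uniformizer"): exactly the
properties of `W` used in `ntc47_main`. -/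
structure dd35_Adm (V : Subring F) (p : F) : Prop where
  ne_zero : p ≠ 0
  mem : p ∈ V
  inv_notMem : p⁻¹ ∉ V
  unit : ∀ y ∈ V, (1 + p * y)⁻¹ ∈ V

variable {V : Subring F} {p : F}

theorem dd35_one_cong : p⁻¹ * ((1 : F) - 1) ∈ V := by
  rw [sub_self, mul_zero]
  exact V.zero_mem

/-- `x ≡ 1 mod p V` implies `x ∈ V`. -/
theorem dd35_mem_of_cong (h : dd35_Adm V p) {x : F} (hx : p⁻¹ * (x - 1) ∈ V) : x ∈ V := by
  have e : x = 1 + p * (p⁻¹ * (x - 1)) := by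
    have := h.ne_zero
    field_simp
    ring
  rw [e]
  exact V.add_mem V.one_mem (V.mul_mem h.mem hx)

theorem dd35_ne_zero_of_cong (h : dd35_Adm V p) {x : F} (hx : p⁻¹ * (x - 1) ∈ V) : x ≠ 0 := by
  intro h0
  apply h.inv_notMem
  have e : p⁻¹ = -(p⁻¹ * (x - 1)) := by
    rw [h0]
    ring
  rw [e]
  exact V.neg_mem hx

theorem dd35_mul_cong (h : dd35_Adm V p) {x y : F} (hx : p⁻¹ * (x - 1) ∈ V)
    (hy : p⁻¹ * (y - 1) ∈ V) : p⁻¹ * (x * y - 1) ∈ V := by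
  have e : p⁻¹ * (x * y - 1) =
      p * (p⁻¹ * (x - 1)) * (p⁻¹ * (y - 1)) + p⁻¹ * (x - 1) + p⁻¹ * (y - 1) := by
    have := h.ne_zero
    field_simp
    ring
  rw [e]
  exact V.add_mem (V.add_mem (V.mul_mem (V.mul_mem h.mem hx) hy) hx) hy

theorem dd35_inv_cong (h : dd35_Adm V p) {x : F} (hx : p⁻¹ * (x - 1) ∈ V) :
    p⁻¹ * (x⁻¹ - 1) ∈ V := by
  have hx0 : x ≠ 0 := dd35_ne_zero_of_cong h hx
  have e1 : x = 1 + p * (p⁻¹ * (x - 1)) := by
    have := h.ne_zero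
    field_simp
    ring
  have e : p⁻¹ * (x⁻¹ - 1) = -(p⁻¹ * (x - 1)) * (1 + p * (p⁻¹ * (x - 1)))⁻¹ := by
    rw [← e1]
    have := h.ne_zero
    field_simp
    ring
  rw [e]
  exact V.mul_mem (V.neg_mem hx) (h.unit _ hx)

theorem dd35_div_cong (h : dd35_Adm V p) {x y : F} (hx : p⁻¹ * (x - 1) ∈ V)
    (hy : p⁻¹ * (y - 1) ∈ V) : p⁻¹ * (x / y - 1) ∈ V := by
  rw [div_eq_mul_inv]
  exact dd35_mul_cong h hx (dd35_inv_cong h hy)

theorem dd35_pow_cong (h : dd35_Adm V p) {x : F} (hx : p⁻¹ * (x - 1) ∈ V) (k : ℕ) :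
    p⁻¹ * (x ^ k - 1) ∈ V := by
  induction k with
  | zero => rw [pow_zero]; exact dd35_one_cong
  | succ k ih => rw [pow_succ]; exact dd35_mul_cong h ih hx

theorem dd35_zpow_cong (h : dd35_Adm V p) {x : F} (hx : p⁻¹ * (x - 1) ∈ V) (k : ℤ) :
    p⁻¹ * (x ^ k - 1) ∈ V := by
  cases k with
  | ofNat k => rw [Int.ofNat_eq_natCast, zpow_natCast]; exact dd35_pow_cong h hx k
  | negSucc k =>
    rw [zpow_negSucc]
    exact dd35_inv_cong h (dd35_pow_cong h hx (k + 1))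

theorem dd35_prod_cong (h : dd35_Adm V p) {ι : Type*} (s : Finset ι) (x : ι → F)
    (hx : ∀ j ∈ s, p⁻¹ * (x j - 1) ∈ V) : p⁻¹ * (∏ j ∈ s, x j - 1) ∈ V := by
  classical
  induction s using Finset.induction_on with
  | empty => rw [Finset.prod_empty]; exact dd35_one_cong
  | insert j s hj ih =>
    rw [Finset.prod_insert hj]
    exact dd35_mul_cong h (hx j (Finset.mem_insert_self j s))
      (ih fun i hi => hx i (Finset.mem_insert_of_mem hi))

/-- The hypotheses pass to an intersection. -/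
theorem dd35_Adm.inf {V₁ V₂ : Subring F} (h₁ : dd35_Adm V₁ p) (h₂ : dd35_Adm V₂ p) :
    dd35_Adm (V₁ ⊓ V₂) p where
  ne_zero := h₁.ne_zero
  mem := ⟨h₁.mem, h₂.mem⟩
  inv_notMem := fun h => h₁.inv_notMem h.1
  unit := fun y hy => ⟨h₁.unit y hy.1, h₂.unit y hy.2⟩

/-- A valuation subring with `p` in its maximal ideal is admissible. -/
theorem dd35_Adm.of_valuationSubring (A : ValuationSubring F) (hp0 : p ≠ 0)
    (hp : p⁻¹ ∉ A) : dd35_Adm A.toSubring p where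
  ne_zero := hp0
  mem := by
    rcases A.mem_or_inv_mem p with h | h
    · exact h
    · exact absurd h hp
  inv_notMem := hp
  unit := by
    intro y hy
    have hval2 : A.valuation p < 1 := by
      by_contra hge
      rw [not_lt] at hge
      apply hp
      show p⁻¹ ∈ A
      rw [← A.valuation_le_one_iff, map_inv₀]
      exact inv_le_one_of_one_le₀ hge
    have hy1 : A.valuation y ≤ 1 := (A.valuation_le_one_iff y).mpr hy
    have hval3 : A.valuation (p * y) < 1 := by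
      rw [map_mul]
      calc A.valuation p * A.valuation y ≤ A.valuation p * 1 := by gcongr
        _ = A.valuation p := mul_one _
        _ < 1 := hval2
    have hone : A.valuation (1 + p * y) = 1 := by
      apply Valuation.map_one_add_of_lt
      exact hval3
    show (1 + p * y)⁻¹ ∈ A
    rw [← A.valuation_le_one_iff, map_inv₀, hone, inv_one]

end cong

/-! ### The double difference -/

section dd

variable {F : Type*} [Field F]

/-- The double difference `u = σ (τ f) * f / (σ f * τ f)`. -/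
def dd35_u (σ τ : F →+* F) (f : F) : F := σ (τ f) * f / (σ f * τ f)

theorem dd35_u_eq (σ τ : F →+* F) (f : F) (hf : f ≠ 0) :
    dd35_u σ τ f = σ (τ f / f) / (τ f / f) := by
  have h1 : τ f ≠ 0 := (map_ne_zero τ).mpr hf
  have h2 : σ f ≠ 0 := (map_ne_zero σ).mpr hf
  have h3 : σ (τ f) ≠ 0 := (map_ne_zero σ).mpr h1
  rw [dd35_u, map_div₀]
  field_simp

/-- **(6a)**: `u ≡ 1 mod p W` if `g = τ f / f` is a unit of `W` and `σ` is trivial on `W`
modulo `p W`. -/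
theorem dd35_u_cong (W : Subring F) (p : F) (σ τ : F →+* F) (f : F) (hf : f ≠ 0)
    (hg' : f / τ f ∈ W) (hσ : p⁻¹ * (σ (τ f / f) - τ f / f) ∈ W) :
    p⁻¹ * (dd35_u σ τ f - 1) ∈ W := by
  have h1 : τ f ≠ 0 := (map_ne_zero τ).mpr hf
  have e : p⁻¹ * (dd35_u σ τ f - 1) = f / τ f * (p⁻¹ * (σ (τ f / f) - τ f / f)) := by
    rw [dd35_u_eq σ τ f hf]
    field_simp
  rw [e]
  exact W.mul_mem hg' hσ

/-- The local factor of the double difference at a point with coordinate value `a`. -/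
def dd35_fac (σ τ : F →+* F) (c a : F) : F :=
  (c - τ a) * (c - σ a) / ((c - σ (τ a)) * (c - a))

/-- **The coordinate dominates**: if `c - a` and `c - σ τ a` are units of `V` and the constants
`a - τ a`, `σ τ a - σ a` are divisible by `p`, then the local factor is `≡ 1 mod p V`. -/
theorem dd35_fac_cong_unit {V : Subring F} {p : F} (h : dd35_Adm V p) (σ τ : F →+* F) (c a : F)
    (h1 : c - a ≠ 0) (h1' : (c - a)⁻¹ ∈ V) (h2 : c - σ (τ a) ≠ 0) (h2' : (c - σ (τ a))⁻¹ ∈ V)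
    (ha : p⁻¹ * (a - τ a) ∈ V) (ha' : p⁻¹ * (σ (τ a) - σ a) ∈ V) :
    p⁻¹ * (dd35_fac σ τ c a - 1) ∈ V := by
  have e1 : p⁻¹ * ((c - τ a) / (c - a) - 1) = p⁻¹ * (a - τ a) * (c - a)⁻¹ := by
    field_simp
    ring
  have e2 : p⁻¹ * ((c - σ a) / (c - σ (τ a)) - 1) = p⁻¹ * (σ (τ a) - σ a) * (c - σ (τ a))⁻¹ := by
    field_simp
    ring
  have e : dd35_fac σ τ c a = (c - τ a) / (c - a) * ((c - σ a) / (c - σ (τ a))) := by
    rw [dd35_fac]
    field_simp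
  rw [e]
  refine dd35_mul_cong h ?_ ?_
  · rw [e1]; exact V.mul_mem ha h1'
  · rw [e2]; exact V.mul_mem ha' h2'

/-- `θ / σ θ ≡ 1 mod p V` for a unit `θ` on which `σ` is trivial modulo `p`. -/
theorem dd35_theta_cong {V : Subring F} {p : F} (σ : F →+* F) (θ : F) (hθ0 : θ ≠ 0)
    (hθ' : (σ θ)⁻¹ ∈ V) (hσ : p⁻¹ * (σ θ - θ) ∈ V) : p⁻¹ * (θ / σ θ - 1) ∈ V := by
  have h1 : σ θ ≠ 0 := (map_ne_zero σ).mpr hθ0
  have e : p⁻¹ * (θ / σ θ - 1) = -(p⁻¹ * (σ θ - θ)) * (σ θ)⁻¹ := by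
    field_simp
    ring
  rw [e]
  exact V.mul_mem (V.neg_mem hσ) hθ'

/-- **The constants dominate**: if `c / a'` is divisible by `p` for the four conjugates `a'` of
`a` and `θ / σ θ ≡ 1` for `θ = τ a / a`, then the local factor is `≡ 1 mod p V`. -/
theorem dd35_fac_cong_small {V : Subring F} {p : F} (h : dd35_Adm V p) (σ τ : F →+* F) (c a : F)
    (ha0 : a ≠ 0)
    (h1 : p⁻¹ * (c / a) ∈ V) (h2 : p⁻¹ * (c / τ a) ∈ V) (h3 : p⁻¹ * (c / σ a) ∈ V)
    (h4 : p⁻¹ * (c / σ (τ a)) ∈ V)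
    (hθ : p⁻¹ * ((τ a / a) / σ (τ a / a) - 1) ∈ V) :
    p⁻¹ * (dd35_fac σ τ c a - 1) ∈ V := by
  have hτ0 : τ a ≠ 0 := (map_ne_zero τ).mpr ha0
  have hσ0 : σ a ≠ 0 := (map_ne_zero σ).mpr ha0
  have hστ0 : σ (τ a) ≠ 0 := (map_ne_zero σ).mpr hτ0
  have key : ∀ b : F, b ≠ 0 → p⁻¹ * (c / b) ∈ V → p⁻¹ * ((1 - c / b) - 1) ∈ V := by
    intro b _ hb
    have e : p⁻¹ * ((1 - c / b) - 1) = -(p⁻¹ * (c / b)) := by ring
    rw [e]
    exact V.neg_mem hb
  have e : dd35_fac σ τ c a = (τ a / a) / σ (τ a / a) *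
      ((1 - c / τ a) * (1 - c / σ a) / ((1 - c / σ (τ a)) * (1 - c / a))) := by
    rw [dd35_fac, map_div₀]
    have k1 : 1 - c / τ a = -(c - τ a) / τ a := by field_simp; ring
    have k2 : 1 - c / σ a = -(c - σ a) / σ a := by field_simp; ring
    have k3 : 1 - c / σ (τ a) = -(c - σ (τ a)) / σ (τ a) := by field_simp; ring
    have k4 : 1 - c / a = -(c - a) / a := by field_simp; ring
    rw [k1, k2, k3, k4]
    by_cases z1 : c - σ (τ a) = 0
    · rw [z1]; simp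
    by_cases z2 : c - a = 0
    · rw [z2]; simp
    field_simp
  rw [e]
  refine dd35_mul_cong h hθ (dd35_div_cong h ?_ ?_)
  · exact dd35_mul_cong h (key _ hτ0 h2) (key _ hσ0 h3)
  · exact dd35_mul_cong h (key _ hστ0 h4) (key _ ha0 h1)

/-- The local multiplier `φ = ∏ j, fac (a j) ^ n j`. -/
def dd35_phi {ι : Type*} (σ τ : F →+* F) (c : F) (a : ι → F) (n : ι → ℤ) (s : Finset ι) : F :=
  ∏ j ∈ s, dd35_fac σ τ c (a j) ^ n j

theorem dd35_phi_cong {V : Subring F} {p : F} (h : dd35_Adm V p) {ι : Type*} (σ τ : F →+* F)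
    (c : F) (a : ι → F) (n : ι → ℤ) (s : Finset ι)
    (hfac : ∀ j ∈ s, p⁻¹ * (dd35_fac σ τ c (a j) - 1) ∈ V) :
    p⁻¹ * (dd35_phi σ τ c a n s - 1) ∈ V :=
  dd35_prod_cong h s _ fun j hj => dd35_zpow_cong h (hfac j hj) (n j)

/-- The product `∏ j, (c - x j) ^ (m * n j)`. -/
def dd35_P {ι : Type*} (c : F) (x : ι → F) (m : ℕ) (n : ι → ℤ) (s : Finset ι) : F :=
  ∏ j ∈ s, (c - x j) ^ ((m : ℤ) * n j)

theorem dd35_P_ne_zero {ι : Type*} (c : F) (x : ι → F) (m : ℕ) (n : ι → ℤ) (s : Finset ι)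
    (hx : ∀ j ∈ s, c - x j ≠ 0) : dd35_P c x m n s ≠ 0 :=
  Finset.prod_ne_zero_iff.mpr fun j hj => zpow_ne_zero _ (hx j hj)

theorem dd35_map_P {ι : Type*} (σ : F →+* F) (c : F) (hc : σ c = c) (x : ι → F) (m : ℕ)
    (n : ι → ℤ) (s : Finset ι) :
    σ (dd35_P c x m n s) = dd35_P c (fun j => σ (x j)) m n s := by
  rw [dd35_P, dd35_P, map_prod]
  refine Finset.prod_congr rfl fun j _ => ?_
  rw [map_zpow₀, map_sub, hc]

theorem dd35_phi_pow {ι : Type*} (σ τ : F →+* F) (c : F) (a : ι → F) (m : ℕ) (n : ι → ℤ)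
    (s : Finset ι) :
    dd35_phi σ τ c a n s ^ m =
      dd35_P c (fun j => τ (a j)) m n s * dd35_P c (fun j => σ (a j)) m n s /
        (dd35_P c (fun j => σ (τ (a j))) m n s * dd35_P c a m n s) := by
  rw [dd35_phi, dd35_P, dd35_P, dd35_P, dd35_P, ← Finset.prod_pow, ← Finset.prod_mul_distrib,
    ← Finset.prod_mul_distrib, ← Finset.prod_div_distrib]
  refine Finset.prod_congr rfl fun j _ => ?_
  rw [← zpow_natCast, ← zpow_mul, mul_comm (n j) (m : ℤ), dd35_fac, div_zpow, mul_zpow, mul_zpow]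

/-- **The factorization identity**: if `f = ω * ∏ j, (c - a j) ^ (m * n j)` with `c` fixed by
`σ` and `τ`, then `φ ^ m * u(f) = u(ω)`. -/
theorem dd35_phi_pow_mul_u {ι : Type*} (σ τ : F →+* F) (c : F) (hσc : σ c = c) (hτc : τ c = c)
    (a : ι → F) (m : ℕ) (n : ι → ℤ) (s : Finset ι) (ω : F)
    (h1 : ∀ j ∈ s, c - a j ≠ 0) (h2 : ∀ j ∈ s, c - σ (a j) ≠ 0)
    (h3 : ∀ j ∈ s, c - τ (a j) ≠ 0) (h4 : ∀ j ∈ s, c - σ (τ (a j)) ≠ 0) :
    dd35_phi σ τ c a n s ^ m * dd35_u σ τ (ω * dd35_P c a m n s) = dd35_u σ τ ω := by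
  have hP1 := dd35_P_ne_zero c a m n s h1
  have hP2 := dd35_P_ne_zero c (fun j => σ (a j)) m n s h2
  have hP3 := dd35_P_ne_zero c (fun j => τ (a j)) m n s h3
  have hP4 := dd35_P_ne_zero c (fun j => σ (τ (a j))) m n s h4
  have eτ : τ (ω * dd35_P c a m n s) = τ ω * dd35_P c (fun j => τ (a j)) m n s := by
    rw [map_mul, dd35_map_P τ c hτc]
  have eσ : σ (ω * dd35_P c a m n s) = σ ω * dd35_P c (fun j => σ (a j)) m n s := by
    rw [map_mul, dd35_map_P σ c hσc]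
  have eστ : σ (τ (ω * dd35_P c a m n s)) =
      σ (τ ω) * dd35_P c (fun j => σ (τ (a j))) m n s := by
    rw [eτ, map_mul, dd35_map_P σ c hσc]
  rw [dd35_phi_pow, dd35_u, dd35_u, eστ, eσ, eτ]
  by_cases hω : ω = 0
  · rw [hω]; simp
  have hω2 : σ ω ≠ 0 := (map_ne_zero σ).mpr hω
  have hω3 : τ ω ≠ 0 := (map_ne_zero τ).mpr hω
  have hω4 : σ (τ ω) ≠ 0 := (map_ne_zero σ).mpr hω3
  field_simp

end dd

/-! ### Regularity at a prime of the chart, by saturation -/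

section regular

variable {R : Type*} [CommRing R] {F : Type*} [Field F] [Algebra R F]

/-- `x ∈ B_n[1/p]`: regular at the prime `n` of the chart `B` up to a power of `p`. -/
def dd35_Reg (B : Subalgebra R F) (n : Ideal B) (p x : F) : Prop :=
  ∃ d : B, d ∉ n ∧ ∃ k : ℕ, (d : F) * p ^ k * x ∈ B

theorem dd35_Reg.of_mem {B : Subalgebra R F} {n : Ideal B} (hn : n.IsPrime) {p x : F}
    (hx : x ∈ B) : dd35_Reg B n p x := by
  refine ⟨1, fun h => hn.ne_top ((Ideal.eq_top_iff_one n).mpr h), 0, ?_⟩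
  rw [pow_zero, mul_one]
  exact B.mul_mem (1 : B).2 hx

theorem dd35_Reg.mul {B : Subalgebra R F} {n : Ideal B} (hn : n.IsPrime) {p x y : F}
    (hx : dd35_Reg B n p x) (hy : dd35_Reg B n p y) : dd35_Reg B n p (x * y) := by
  obtain ⟨d₁, hd₁, k₁, h₁⟩ := hx
  obtain ⟨d₂, hd₂, k₂, h₂⟩ := hy
  refine ⟨d₁ * d₂, fun h => (hn.mem_or_mem h).elim hd₁ hd₂, k₁ + k₂, ?_⟩
  have e : ((d₁ * d₂ : B) : F) * p ^ (k₁ + k₂) * (x * y) =
      ((d₁ : F) * p ^ k₁ * x) * ((d₂ : F) * p ^ k₂ * y) := by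
    push_cast
    ring
  rw [e]
  exact B.mul_mem h₁ h₂

/-- Transport along a ring endomorphism preserving `B`, the complement of `n`, and `p` up to a
factor in `B ∖ n`. -/
theorem dd35_Reg.map {B : Subalgebra R F} {n : Ideal B} (hn : n.IsPrime) {p x : F}
    (σ : F →+* F) (hσB : ∀ y ∈ B, σ y ∈ B)
    (hσn : ∀ d : B, d ∉ n → (⟨σ d, hσB d d.2⟩ : B) ∉ n)
    (e : B) (he : e ∉ n) (hσp : σ p = e * p)
    (hx : dd35_Reg B n p x) : dd35_Reg B n p (σ x) := by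
  obtain ⟨d, hd, k, h⟩ := hx
  have hek : e ^ k ∉ n := fun h' => he (hn.mem_of_pow_mem k h')
  refine ⟨⟨σ d, hσB d d.2⟩ * e ^ k, fun h' => (hn.mem_or_mem h').elim (hσn d hd) hek, k, ?_⟩
  have e1 : (((⟨σ d, hσB d d.2⟩ : B) * e ^ k : B) : F) * p ^ k * σ x =
      σ ((d : F) * p ^ k * x) := by
    rw [map_mul, map_mul, map_pow, hσp]
    push_cast
    ring
  rw [e1]
  exact hσB _ h

/-- Iterated saturation. -/
theorem dd35_sat_pow (B : Subalgebra R F) (W : Subring F) (p : F) (hp0 : p ≠ 0) (hpW : p ∈ W)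
    (hsat : ∀ x ∈ B, p⁻¹ * x ∈ W → p⁻¹ * x ∈ B) (k : ℕ) :
    ∀ x ∈ B, (p⁻¹) ^ k * x ∈ W → (p⁻¹) ^ k * x ∈ B := by
  induction k with
  | zero =>
    intro x hx _
    rw [pow_zero, one_mul]
    exact hx
  | succ k ih =>
    intro x hx hxW
    have h1 : (p⁻¹) ^ k * x ∈ W := by
      have e : (p⁻¹) ^ k * x = p * ((p⁻¹) ^ (k + 1) * x) := by
        rw [pow_succ]
        field_simp
      rw [e]
      exact W.mul_mem hpW hxW
    have h2 := ih x hx h1
    have e3 : (p⁻¹) ^ (k + 1) * x = p⁻¹ * ((p⁻¹) ^ k * x) := by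
      rw [pow_succ]
      ring
    rw [e3]
    apply hsat _ h2
    rw [← e3]
    exact hxW

/-- **Descent by saturation**: an element of `B_n[1/p] ∩ W` is regular at `n`. -/
theorem dd35_Reg.descend {B : Subalgebra R F} {n : Ideal B} {p x : F} (W : Subring F)
    (hBW : ∀ y ∈ B, y ∈ W) (hp0 : p ≠ 0) (hpW : p ∈ W)
    (hsat : ∀ y ∈ B, p⁻¹ * y ∈ W → p⁻¹ * y ∈ B)
    (hx : dd35_Reg B n p x) (hxW : x ∈ W) : ∃ d : B, d ∉ n ∧ (d : F) * x ∈ B := by
  obtain ⟨d, hd, k, h⟩ := hx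
  refine ⟨d, hd, ?_⟩
  have e : (d : F) * x = (p⁻¹) ^ k * ((d : F) * p ^ k * x) := by
    rw [inv_pow]
    field_simp
  rw [e]
  apply dd35_sat_pow B W p hp0 hpW hsat k _ h
  rw [← e]
  exact W.mul_mem (hBW _ d.2) hxW

/-- **Regularity of the double difference of a local unit**: if `ω` and `ω⁻¹` lie in
`B_n[1/p]`, `σ` and `τ` preserve `B`, the complement of `n` and `p` up to factors in `B ∖ n`,
`u(ω) ∈ W` and `B` is saturated in `W`, then `u(ω)` is regular at `n`. -/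
theorem dd35_regular (B : Subalgebra R F) (n : Ideal B) (hn : n.IsPrime) (W : Subring F)
    (hBW : ∀ y ∈ B, y ∈ W) (p : F) (hp0 : p ≠ 0) (hpW : p ∈ W)
    (hsat : ∀ y ∈ B, p⁻¹ * y ∈ W → p⁻¹ * y ∈ B)
    (σ τ : F →+* F) (hσB : ∀ y ∈ B, σ y ∈ B) (hτB : ∀ y ∈ B, τ y ∈ B)
    (hσn : ∀ d : B, d ∉ n → (⟨σ d, hσB d d.2⟩ : B) ∉ n)
    (hτn : ∀ d : B, d ∉ n → (⟨τ d, hτB d d.2⟩ : B) ∉ n)
    (eσ eτ : B) (heσ : eσ ∉ n) (heτ : eτ ∉ n) (hσp : σ p = eσ * p) (hτp : τ p = eτ * p)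
    (ω : F) (hω : dd35_Reg B n p ω) (hω' : dd35_Reg B n p ω⁻¹)
    (hu : dd35_u σ τ ω ∈ W) : ∃ d : B, d ∉ n ∧ (d : F) * dd35_u σ τ ω ∈ B := by
  have e : dd35_u σ τ ω = σ (τ ω) * ω * (σ ω⁻¹ * τ ω⁻¹) := by
    rw [dd35_u, map_inv₀, map_inv₀, div_eq_mul_inv, mul_inv]
  have hreg : dd35_Reg B n p (dd35_u σ τ ω) := by
    rw [e]
    refine dd35_Reg.mul hn (dd35_Reg.mul hn ?_ hω) (dd35_Reg.mul hn ?_ ?_)
    · exact dd35_Reg.map hn σ hσB hσn eσ heσ hσp (dd35_Reg.map hn τ hτB hτn eτ heτ hτp hω)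
    · exact dd35_Reg.map hn σ hσB hσn eσ heσ hσp hω'
    · exact dd35_Reg.map hn τ hτB hτn eτ heτ hτp hω'
  exact dd35_Reg.descend W hBW hp0 hpW hsat hreg hu

/-- The hypothesis `hσn` of `dd35_regular` from "`σ` is trivial on `B` modulo `p`" (and `p ∈ n`). -/
theorem dd35_notMem_of_triv {B : Subalgebra R F} {n : Ideal B} {p : F} (pB : B)
    (hpB : (pB : F) = p) (hpn : pB ∈ n)
    (σ : F →+* F) (hσB : ∀ y ∈ B, σ y ∈ B)
    (hσ : ∀ y ∈ B, ∃ b ∈ B, σ y - y = p * b) :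
    ∀ d : B, d ∉ n → (⟨σ d, hσB d d.2⟩ : B) ∉ n := by
  intro d hd h
  obtain ⟨b, hb, hb'⟩ := hσ d d.2
  apply hd
  have e : d = (⟨σ d, hσB d d.2⟩ : B) - pB * ⟨b, hb⟩ := by
    apply Subtype.ext
    push_cast
    rw [hpB, ← hb']
    ring
  rw [e]
  exact n.sub_mem h (n.mul_mem_right _ hpn)


/-- **The local datum of `ntc47_main` at `n`**: if the Kummer function factors as
`f = ω * ∏ j, (c - a j) ^ (m * e j)` with `ω` a unit of `B_n[1/p]`, the coordinate `c` fixed by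
`σ` and `τ`, every local factor `≡ 1 mod p W`, and `u(f) ≡ 1 mod p W`, then
`φ = ∏ j, fac (a j) ^ e j` satisfies `φ ≡ 1 mod p W` and `φ ^ m * u(f)` is regular at `n`. -/
theorem dd35_local_datum (B : Subalgebra R F) (n : Ideal B) (hn : n.IsPrime) (W : Subring F)
    (hBW : ∀ y ∈ B, y ∈ W) (p : F) (hW : dd35_Adm W p)
    (hsat : ∀ y ∈ B, p⁻¹ * y ∈ W → p⁻¹ * y ∈ B)
    (σ τ : F →+* F) (hσB : ∀ y ∈ B, σ y ∈ B) (hτB : ∀ y ∈ B, τ y ∈ B)
    (hσn : ∀ d : B, d ∉ n → (⟨σ d, hσB d d.2⟩ : B) ∉ n)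
    (hτn : ∀ d : B, d ∉ n → (⟨τ d, hτB d d.2⟩ : B) ∉ n)
    (eσ eτ : B) (heσ : eσ ∉ n) (heτ : eτ ∉ n) (hσp : σ p = eσ * p) (hτp : τ p = eτ * p)
    (c : F) (hσc : σ c = c) (hτc : τ c = c)
    {ι : Type*} (a : ι → F) (m : ℕ) (e : ι → ℤ) (s : Finset ι)
    (h1 : ∀ j ∈ s, c - a j ≠ 0) (h2 : ∀ j ∈ s, c - σ (a j) ≠ 0)
    (h3 : ∀ j ∈ s, c - τ (a j) ≠ 0) (h4 : ∀ j ∈ s, c - σ (τ (a j)) ≠ 0)
    (hfac : ∀ j ∈ s, p⁻¹ * (dd35_fac σ τ c (a j) - 1) ∈ W)
    (ω : F) (hω : dd35_Reg B n p ω) (hω' : dd35_Reg B n p ω⁻¹)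
    (f : F) (hf : f = ω * dd35_P c a m e s)
    (hu : p⁻¹ * (dd35_u σ τ f - 1) ∈ W) :
    ∃ φ : F, p⁻¹ * (φ - 1) ∈ W ∧ ∃ d : B, d ∉ n ∧ (d : F) * (φ ^ m * dd35_u σ τ f) ∈ B := by
  have hφ : p⁻¹ * (dd35_phi σ τ c a e s - 1) ∈ W := dd35_phi_cong hW σ τ c a e s hfac
  refine ⟨dd35_phi σ τ c a e s, hφ, ?_⟩
  have key : dd35_phi σ τ c a e s ^ m * dd35_u σ τ f = dd35_u σ τ ω := by
    rw [hf]
    exact dd35_phi_pow_mul_u σ τ c hσc hτc a m e s ω h1 h2 h3 h4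
  have huW : dd35_u σ τ ω ∈ W := by
    rw [← key]
    exact dd35_mem_of_cong hW (dd35_mul_cong hW (dd35_pow_cong hW hφ m) hu)
  rw [key]
  exact dd35_regular B n hn W hBW p hW.ne_zero hW.mem hsat σ τ hσB hτB hσn hτn eσ eτ heσ heτ
    hσp hτp ω hω hω' huW

end regular

end Fermat.Agent.S34
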