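import Mathlib

/-!
# S34 lab, package P6 (twin, helper74): the double difference, abstract part

Mathlib-only.  Notation of #2289 step 6: `F` a field, `W` a subring (in the application
`W = V_∞ ⊓ V_0`), `p` the uniformizer, `s t : F →+* F` two inertia elements.

* `dd74_Q s t x = s (t x) * x / (s x * t x)` is multiplicative (`F →*₀ F`); the Kummer function of
  `(s-1)(t-1) D` is `u = dd74_Q s t f`.
* congruence calculus `x ≡ 1 mod p W` (written `p⁻¹ * (x - 1) ∈ W`): `dd74_cong_*`.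
* (6a) `dd74_u_cong`: `u ≡ 1 mod p W` from `g := t f / f` a unit of `W` and `s g ≡ g mod p W`.
* (6b-cong) `dd74_factor_cong_unit` (case `c - a` a unit) and `dd74_factor_cong_node`
  (case `c / a ∈ p V`): the local factor
  `(c - t a) (c - s a) / ((c - s (t a)) (c - a))` is `≡ 1 mod p V`.
* (6b-reg) `dd74_regular_of_sat`: an element of `W` which is regular at `n` after multiplication by
  a power of `p` is regular at `n` (saturation), and `dd74_locInv` (the ring `B_n[1/p]`).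
* `dd74_local_datum`: from a local factorisation `f = ω * ∏ (c - a j) ^ (m * e j)` the local datum
  `hLD` of `ntc47_main` at `n`:  `φ ≡ 1 mod p W` and `φ ^ m * u` regular at `n`.

All names are prefixed `dd74_`.
-/

set_option autoImplicit false

namespace Fermat.Agent.S34

section cong

variable {F : Type*} [Field F]

theorem dd74_cong_one (W : Subring F) (p : F) : p⁻¹ * ((1 : F) - 1) ∈ W := by
  rw [sub_self, mul_zero]; exact W.zero_mem

theorem dd74_cong_mul (W : Subring F) (p : F) (hpW : p ∈ W) {x y : F}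
    (hx : p⁻¹ * (x - 1) ∈ W) (hy : p⁻¹ * (y - 1) ∈ W) : p⁻¹ * (x * y - 1) ∈ W := by
  by_cases hp0 : p = 0
  · subst hp0; rw [inv_zero, zero_mul]; exact W.zero_mem
  have h : p⁻¹ * (x * y - 1)
      = p * (p⁻¹ * (x - 1)) * (p⁻¹ * (y - 1)) + p⁻¹ * (x - 1) + p⁻¹ * (y - 1) := by
    field_simp; ring
  rw [h]
  exact W.add_mem (W.add_mem (W.mul_mem (W.mul_mem hpW hx) hy) hx) hy

theorem dd74_ne_zero_of_cong (W : Subring F) (p : F) (hpinv : p⁻¹ ∉ W) {x : F}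
    (hx : p⁻¹ * (x - 1) ∈ W) : x ≠ 0 := by
  rintro rfl
  apply hpinv
  have h : p⁻¹ = -(p⁻¹ * ((0 : F) - 1)) := by ring
  rw [h]; exact W.neg_mem hx

theorem dd74_inv_mem_of_cong (W : Subring F) (p : F)
    (hWunit : ∀ x ∈ W, (1 + p * x)⁻¹ ∈ W) {x : F} (hp0 : p ≠ 0)
    (hx : p⁻¹ * (x - 1) ∈ W) : x⁻¹ ∈ W := by
  have hx' : x = 1 + p * (p⁻¹ * (x - 1)) := by field_simp; ring
  rw [hx']; exact hWunit _ hx

theorem dd74_mem_of_cong (W : Subring F) (p : F) (hpW : p ∈ W) {x : F} (hp0 : p ≠ 0)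
    (hx : p⁻¹ * (x - 1) ∈ W) : x ∈ W := by
  have hx' : x = 1 + p * (p⁻¹ * (x - 1)) := by field_simp; ring
  rw [hx']; exact W.add_mem W.one_mem (W.mul_mem hpW hx)

theorem dd74_cong_inv (W : Subring F) (p : F) (hWunit : ∀ x ∈ W, (1 + p * x)⁻¹ ∈ W) {x : F}
    (hx : p⁻¹ * (x - 1) ∈ W) : p⁻¹ * (x⁻¹ - 1) ∈ W := by
  by_cases hp0 : p = 0
  · subst hp0; rw [inv_zero, zero_mul]; exact W.zero_mem
  by_cases hx0 : x = 0
  · subst hx0; rw [inv_zero]; exact hx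
  have hinv : x⁻¹ ∈ W := dd74_inv_mem_of_cong W p hWunit hp0 hx
  have h : p⁻¹ * (x⁻¹ - 1) = -(p⁻¹ * (x - 1)) * x⁻¹ := by field_simp; ring
  rw [h]; exact W.mul_mem (W.neg_mem hx) hinv

theorem dd74_cong_div (W : Subring F) (p : F) (hpW : p ∈ W)
    (hWunit : ∀ x ∈ W, (1 + p * x)⁻¹ ∈ W) {x y : F}
    (hx : p⁻¹ * (x - 1) ∈ W) (hy : p⁻¹ * (y - 1) ∈ W) : p⁻¹ * (x / y - 1) ∈ W := by
  rw [div_eq_mul_inv]; exact dd74_cong_mul W p hpW hx (dd74_cong_inv W p hWunit hy)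

theorem dd74_cong_pow (W : Subring F) (p : F) (hpW : p ∈ W) {x : F}
    (hx : p⁻¹ * (x - 1) ∈ W) (k : ℕ) : p⁻¹ * (x ^ k - 1) ∈ W := by
  induction k with
  | zero => rw [pow_zero]; exact dd74_cong_one W p
  | succ k ih => rw [pow_succ]; exact dd74_cong_mul W p hpW ih hx

theorem dd74_cong_zpow (W : Subring F) (p : F) (hpW : p ∈ W)
    (hWunit : ∀ x ∈ W, (1 + p * x)⁻¹ ∈ W) {x : F}
    (hx : p⁻¹ * (x - 1) ∈ W) (k : ℤ) : p⁻¹ * (x ^ k - 1) ∈ W := by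
  cases k with
  | ofNat k => rw [Int.ofNat_eq_natCast, zpow_natCast]; exact dd74_cong_pow W p hpW hx k
  | negSucc k =>
    rw [zpow_negSucc]
    exact dd74_cong_inv W p hWunit (dd74_cong_pow W p hpW hx (k + 1))

theorem dd74_cong_prod (W : Subring F) (p : F) (hpW : p ∈ W) {ι : Type*} (J : Finset ι)
    (x : ι → F) (hx : ∀ j ∈ J, p⁻¹ * (x j - 1) ∈ W) : p⁻¹ * (∏ j ∈ J, x j - 1) ∈ W := by
  classical
  induction J using Finset.induction_on with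
  | empty => rw [Finset.prod_empty]; exact dd74_cong_one W p
  | insert j J hj ih =>
    rw [Finset.prod_insert hj]
    exact dd74_cong_mul W p hpW (hx j (Finset.mem_insert_self j J))
      (ih fun i hi => hx i (Finset.mem_insert_of_mem hi))

/-- `1 - y ≡ 1` when `y ∈ p W`. -/
theorem dd74_cong_one_sub (W : Subring F) (p : F) {y : F} (hy : p⁻¹ * y ∈ W) :
    p⁻¹ * ((1 - y) - 1) ∈ W := by
  have h : p⁻¹ * ((1 - y) - 1) = -(p⁻¹ * y) := by ring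
  rw [h]; exact W.neg_mem hy

/-- `g' / g ≡ 1` when `g' ≡ g mod p W` and `g` is a unit of `W`. -/
theorem dd74_cong_quot (W : Subring F) (p : F) {g g' : F} (hg0 : g ≠ 0) (hginv : g⁻¹ ∈ W)
    (h : p⁻¹ * (g' - g) ∈ W) : p⁻¹ * (g' / g - 1) ∈ W := by
  have h' : p⁻¹ * (g' / g - 1) = p⁻¹ * (g' - g) * g⁻¹ := by field_simp
  rw [h']; exact W.mul_mem h hginv

/-- congruences modulo `p (V₁ ⊓ V₂)` are checked at `V₁` and at `V₂`. -/
theorem dd74_cong_inf (V₁ V₂ : Subring F) (p x : F) :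
    p⁻¹ * (x - 1) ∈ V₁ ⊓ V₂ ↔ p⁻¹ * (x - 1) ∈ V₁ ∧ p⁻¹ * (x - 1) ∈ V₂ :=
  Subring.mem_inf

end cong

section Q

variable {F : Type*} [Field F]

/-- The double-difference operator `x ↦ x^{st} x / (x^s x^t)`. -/
def dd74_Q (s t : F →+* F) : F →*₀ F where
  toFun x := s (t x) * x / (s x * t x)
  map_zero' := by simp
  map_one' := by simp
  map_mul' x y := by
    simp only [map_mul]
    rw [div_mul_div_comm]
    congr 1 <;> ring

theorem dd74_Q_apply (s t : F →+* F) (x : F) : dd74_Q s t x = s (t x) * x / (s x * t x) := rfl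

/-- `Q x = s (t x / x) * (x / t x)`. -/
theorem dd74_Q_eq (s t : F →+* F) (x : F) : dd74_Q s t x = s (t x / x) * (x / t x) := by
  rw [dd74_Q_apply, map_div₀, div_mul_div_comm]

/-- `Q` of a linear factor `c - a` with `c` fixed by `s` and `t` is the inverse of the local
factor `ψ = (c - t a)(c - s a) / ((c - s (t a))(c - a))`. -/
theorem dd74_Q_sub (s t : F →+* F) (c a : F) (hsc : s c = c) (htc : t c = c) :
    dd74_Q s t (c - a) = ((c - t a) * (c - s a) / ((c - s (t a)) * (c - a)))⁻¹ := by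
  rw [dd74_Q_apply, inv_div, map_sub, map_sub, map_sub, htc, hsc, mul_comm (c - s a) (c - t a)]

/-- (6a) the Kummer function of the double difference is `≡ 1 mod p W`. -/
theorem dd74_u_cong (W : Subring F) (p : F) (s t : F →+* F) (f : F) (hf0 : f ≠ 0)
    (hg : f / t f ∈ W) (hs : p⁻¹ * (s (t f / f) - t f / f) ∈ W) :
    p⁻¹ * (dd74_Q s t f - 1) ∈ W := by
  have htf : t f ≠ 0 := (map_ne_zero t).mpr hf0
  have hg0 : t f / f ≠ 0 := div_ne_zero htf hf0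
  have hginv : (t f / f)⁻¹ ∈ W := by rw [inv_div]; exact hg
  have h := dd74_cong_quot W p hg0 hginv hs
  have hQ : dd74_Q s t f = s (t f / f) / (t f / f) := by
    rw [dd74_Q_eq, div_eq_mul_inv (s (t f / f)), inv_div]
  rw [hQ]; exact h

/-- `Q ω ∈ W` when `t ω / ω` is a unit of `W` and `s` preserves `W`. -/
theorem dd74_Q_mem_W (W : Subring F) (s t : F →+* F) (hsW : ∀ x ∈ W, s x ∈ W) (ω : F)
    (h1 : t ω / ω ∈ W) (h2 : ω / t ω ∈ W) : dd74_Q s t ω ∈ W := by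
  rw [dd74_Q_eq]; exact W.mul_mem (hsW _ h1) h2

/-- `Q ω ∈ A` when `ω` is a unit of an `s, t`-stable subring `A`. -/
theorem dd74_Q_mem (A : Subring F) (s t : F →+* F) (hs : ∀ x ∈ A, s x ∈ A)
    (ht : ∀ x ∈ A, t x ∈ A) (ω : F) (hω : ω ∈ A) (hω' : ω⁻¹ ∈ A) : dd74_Q s t ω ∈ A := by
  rw [dd74_Q_apply, div_eq_mul_inv, mul_inv, ← map_inv₀, ← map_inv₀]
  exact A.mul_mem (A.mul_mem (hs _ (ht _ hω)) hω) (A.mul_mem (hs _ hω') (ht _ hω'))

end Q

section factor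

variable {F : Type*} [Field F]

/-- (6b-cong), case "`c - a` is a unit of `V`" (`V_∞` at a node; both valuations at a regular
point): if `a₁, a₂, a₃ ≡ a mod p V` then the local factor is `≡ 1 mod p V`. -/
theorem dd74_factor_cong_unit (V : Subring F) (p : F) (hpV : p ∈ V) (hpinv : p⁻¹ ∉ V)
    (hVunit : ∀ x ∈ V, (1 + p * x)⁻¹ ∈ V)
    (c a a₁ a₂ a₃ : F) (hca : c - a ≠ 0) (hcainv : (c - a)⁻¹ ∈ V)
    (h₁ : p⁻¹ * (a₁ - a) ∈ V) (h₂ : p⁻¹ * (a₂ - a) ∈ V) (h₃ : p⁻¹ * (a₃ - a) ∈ V) :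
    p⁻¹ * ((c - a₁) * (c - a₂) / ((c - a₃) * (c - a)) - 1) ∈ V := by
  have key : ∀ a' : F, p⁻¹ * (a' - a) ∈ V → p⁻¹ * ((c - a') / (c - a) - 1) ∈ V := by
    intro a' ha'
    have h : p⁻¹ * ((c - a') / (c - a) - 1) = -(p⁻¹ * (a' - a)) * (c - a)⁻¹ := by
      field_simp; ring
    rw [h]; exact V.mul_mem (V.neg_mem ha') hcainv
  have k₁ := key a₁ h₁
  have k₂ := key a₂ h₂
  have k₃ := key a₃ h₃
  have hne₃ : (c - a₃) / (c - a) ≠ 0 := dd74_ne_zero_of_cong V p hpinv k₃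
  have hca₃ : c - a₃ ≠ 0 := fun h0 => hne₃ (by rw [h0, zero_div])
  have h : (c - a₁) * (c - a₂) / ((c - a₃) * (c - a))
      = (c - a₁) / (c - a) * ((c - a₂) / (c - a)) / ((c - a₃) / (c - a)) := by
    field_simp
  rw [h]
  exact dd74_cong_div V p hpV hVunit (dd74_cong_mul V p hpV k₁ k₂) k₃

/-- (6b-cong), case "`c / a ∈ p V`" (`V_0` at a node): the local factor is congruent to
`a₁ a₂ / (a₃ a)`, hence `≡ 1 mod p V` as soon as the latter is. -/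
theorem dd74_factor_cong_node (V : Subring F) (p : F) (hpV : p ∈ V) (hpinv : p⁻¹ ∉ V)
    (hVunit : ∀ x ∈ V, (1 + p * x)⁻¹ ∈ V)
    (c a a₁ a₂ a₃ : F) (ha : a ≠ 0) (ha₁ : a₁ ≠ 0) (ha₂ : a₂ ≠ 0) (ha₃ : a₃ ≠ 0)
    (hc : p⁻¹ * (c / a) ∈ V) (hc₁ : p⁻¹ * (c / a₁) ∈ V) (hc₂ : p⁻¹ * (c / a₂) ∈ V)
    (hc₃ : p⁻¹ * (c / a₃) ∈ V)
    (hθ : p⁻¹ * (a₁ * a₂ / (a₃ * a) - 1) ∈ V) :
    p⁻¹ * ((c - a₁) * (c - a₂) / ((c - a₃) * (c - a)) - 1) ∈ V := by
  have k := dd74_cong_one_sub V p hc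
  have k₁ := dd74_cong_one_sub V p hc₁
  have k₂ := dd74_cong_one_sub V p hc₂
  have k₃ := dd74_cong_one_sub V p hc₃
  have hne : 1 - c / a ≠ 0 := dd74_ne_zero_of_cong V p hpinv k
  have hne₃ : 1 - c / a₃ ≠ 0 := dd74_ne_zero_of_cong V p hpinv k₃
  have hca : c - a ≠ 0 := by
    intro h0; apply hne; field_simp; linear_combination -h0
  have hca₃ : c - a₃ ≠ 0 := by
    intro h0; apply hne₃; field_simp; linear_combination -h0
  have h : (c - a₁) * (c - a₂) / ((c - a₃) * (c - a))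
      = a₁ * a₂ / (a₃ * a) * ((1 - c / a₁) * (1 - c / a₂) / ((1 - c / a₃) * (1 - c / a))) := by
    have e : ∀ b : F, b ≠ 0 → c - b = -b * (1 - c / b) := by
      intro b hb; field_simp; ring
    rw [e a₁ ha₁, e a₂ ha₂, e a₃ ha₃, e a ha]
    have hd : (1 - c / a₃) * (1 - c / a) ≠ 0 := mul_ne_zero hne₃ hne
    field_simp
  rw [h]
  exact dd74_cong_mul V p hpV hθ
    (dd74_cong_div V p hpV hVunit (dd74_cong_mul V p hpV k₁ k₂) (dd74_cong_mul V p hpV k₃ k))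

/-- the constant `a₁ a₂ / (a₃ a)` for `a₁ = t a`, `a₂ = s a`, `a₃ = s (t a)` is `θ / s θ`,
`θ = t a / a`; it is `≡ 1 mod p V` when `s θ ≡ θ mod p V` and `s θ` is a unit of `V`. -/
theorem dd74_theta_cong (V : Subring F) (p : F) (s t : F →+* F) (a : F) (ha : a ≠ 0)
    (hinv : (s (t a / a))⁻¹ ∈ V) (hs : p⁻¹ * (s (t a / a) - t a / a) ∈ V) :
    p⁻¹ * (t a * s a / (s (t a) * a) - 1) ∈ V := by
  have hta : t a ≠ 0 := (map_ne_zero t).mpr ha
  have hsa : s a ≠ 0 := (map_ne_zero s).mpr ha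
  have hsta : s (t a) ≠ 0 := (map_ne_zero s).mpr hta
  have hθ0 : s (t a / a) ≠ 0 := (map_ne_zero s).mpr (div_ne_zero hta ha)
  have h : p⁻¹ * (t a * s a / (s (t a) * a) - 1)
      = -(p⁻¹ * (s (t a / a) - t a / a)) * (s (t a / a))⁻¹ := by
    rw [map_div₀] at hθ0 ⊢
    field_simp
    ring
  rw [h]; exact V.mul_mem (V.neg_mem hs) hinv

end factor

section regular

variable {R : Type*} [CommRing R] {F : Type*} [Field F] [Algebra R F]

/-- (6b-reg) saturation: an element of `W` which becomes regular at `n` after multiplication by a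
power of `p` is regular at `n`. -/
theorem dd74_regular_of_sat (W : Subring F) (p : F) (hp0 : p ≠ 0) (hpW : p ∈ W)
    (B : Subalgebra R F) (hBW : ∀ x ∈ B, x ∈ W)
    (hsat : ∀ x ∈ B, p⁻¹ * x ∈ W → p⁻¹ * x ∈ B) (n : Ideal B)
    (x : F) (hxW : x ∈ W)
    (h : ∃ k : ℕ, ∃ σ : B, σ ∉ n ∧ (σ : F) * (p ^ k * x) ∈ B) :
    ∃ σ : B, σ ∉ n ∧ (σ : F) * x ∈ B := by
  obtain ⟨k, σ, hσ, hk⟩ := h
  refine ⟨σ, hσ, ?_⟩
  induction k with
  | zero => simpa using hk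
  | succ k ih =>
    apply ih
    have h1 : (σ : F) * (p ^ k * x) = p⁻¹ * ((σ : F) * (p ^ (k + 1) * x)) := by
      rw [pow_succ]; field_simp
    rw [h1]
    apply hsat _ hk
    rw [← h1]
    exact W.mul_mem (hBW _ σ.2) (W.mul_mem (W.pow_mem hpW k) hxW)

/-- The ring `B_n[1/p]` inside `F`. -/
def dd74_locInv (B : Subalgebra R F) (n : Ideal B) [n.IsPrime] (p : F) (hpB : p ∈ B) :
    Subring F where
  carrier := {x | ∃ k : ℕ, ∃ σ : B, σ ∉ n ∧ (σ : F) * (p ^ k * x) ∈ B}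
  mul_mem' := by
    rintro x y ⟨k, σ, hσ, hx⟩ ⟨l, τ, hτ, hy⟩
    refine ⟨k + l, σ * τ, fun h => (Ideal.IsPrime.mem_or_mem ‹n.IsPrime› h).elim hσ hτ, ?_⟩
    have h : ((σ * τ : B) : F) * (p ^ (k + l) * (x * y))
        = ((σ : F) * (p ^ k * x)) * ((τ : F) * (p ^ l * y)) := by
      push_cast; ring
    rw [h]; exact B.mul_mem hx hy
  one_mem' := ⟨0, 1, fun h => (Ideal.IsPrime.ne_top ‹n.IsPrime›) ((Ideal.eq_top_iff_one n).mpr h),
    by simp [B.one_mem]⟩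
  add_mem' := by
    rintro x y ⟨k, σ, hσ, hx⟩ ⟨l, τ, hτ, hy⟩
    refine ⟨k + l, σ * τ, fun h => (Ideal.IsPrime.mem_or_mem ‹n.IsPrime› h).elim hσ hτ, ?_⟩
    have h : ((σ * τ : B) : F) * (p ^ (k + l) * (x + y))
        = (τ : F) * p ^ l * ((σ : F) * (p ^ k * x)) + (σ : F) * p ^ k * ((τ : F) * (p ^ l * y)) := by
      push_cast; ring
    rw [h]
    exact B.add_mem (B.mul_mem (B.mul_mem τ.2 (B.pow_mem hpB l)) hx)
      (B.mul_mem (B.mul_mem σ.2 (B.pow_mem hpB k)) hy)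
  zero_mem' := ⟨0, 1, fun h => (Ideal.IsPrime.ne_top ‹n.IsPrime›) ((Ideal.eq_top_iff_one n).mpr h),
    by simp [B.zero_mem]⟩
  neg_mem' := by
    rintro x ⟨k, σ, hσ, hx⟩
    refine ⟨k, σ, hσ, ?_⟩
    have h : (σ : F) * (p ^ k * -x) = -((σ : F) * (p ^ k * x)) := by ring
    rw [h]; exact B.neg_mem hx

theorem dd74_mem_locInv (B : Subalgebra R F) (n : Ideal B) [n.IsPrime] (p : F) (hpB : p ∈ B)
    (x : F) : x ∈ dd74_locInv B n p hpB ↔
      ∃ k : ℕ, ∃ σ : B, σ ∉ n ∧ (σ : F) * (p ^ k * x) ∈ B := Iff.rfl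

theorem dd74_le_locInv (B : Subalgebra R F) (n : Ideal B) [n.IsPrime] (p : F) (hpB : p ∈ B)
    (x : F) (hx : x ∈ B) : x ∈ dd74_locInv B n p hpB :=
  ⟨0, 1, fun h => (Ideal.IsPrime.ne_top ‹n.IsPrime›) ((Ideal.eq_top_iff_one n).mpr h),
    by simpa using hx⟩

/-- `p⁻¹ ∈ B_n[1/p]`. -/
theorem dd74_inv_mem_locInv (B : Subalgebra R F) (n : Ideal B) [n.IsPrime] (p : F) (hpB : p ∈ B)
    (hp0 : p ≠ 0) : p⁻¹ ∈ dd74_locInv B n p hpB :=
  ⟨1, 1, fun h => (Ideal.IsPrime.ne_top ‹n.IsPrime›) ((Ideal.eq_top_iff_one n).mpr h),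
    by simp [hp0, B.one_mem]⟩

/-- elements of `B ∖ n` are units of `B_n[1/p]`. -/
theorem dd74_inv_mem_locInv_of_not_mem (B : Subalgebra R F) (n : Ideal B) [n.IsPrime] (p : F)
    (hpB : p ∈ B) (σ : B) (hσ : σ ∉ n) : (σ : F)⁻¹ ∈ dd74_locInv B n p hpB := by
  refine ⟨0, σ, hσ, ?_⟩
  by_cases h0 : (σ : F) = 0
  · simp [h0, B.zero_mem]
  · simp [h0, B.one_mem]

/-- A ring endomorphism `s` of `F` which preserves `B`, the complement of `n`, and multiplies `p`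
by an element of `B ∖ n`, preserves `B_n[1/p]`. -/
theorem dd74_locInv_map (B : Subalgebra R F) (n : Ideal B) [n.IsPrime] (p : F) (hpB : p ∈ B)
    (s : F →+* F) (hsB : ∀ x ∈ B, s x ∈ B)
    (hsn : ∀ σ : B, σ ∉ n → (⟨s σ, hsB σ σ.2⟩ : B) ∉ n)
    (ε : B) (hε : ε ∉ n) (hsp : s p = p * ε) :
    ∀ x ∈ dd74_locInv B n p hpB, s x ∈ dd74_locInv B n p hpB := by
  rintro x ⟨k, σ, hσ, hx⟩
  refine ⟨k, ⟨s σ, hsB σ σ.2⟩ * ε ^ k, ?_, ?_⟩
  · intro h
    rcases Ideal.IsPrime.mem_or_mem ‹n.IsPrime› h with h | h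
    · exact hsn σ hσ h
    · exact hε (Ideal.IsPrime.mem_of_pow_mem ‹n.IsPrime› k h)
  · have h : ((⟨s σ, hsB σ σ.2⟩ * ε ^ k : B) : F) * (p ^ k * s x)
        = s ((σ : F) * (p ^ k * x)) := by
      rw [map_mul, map_mul, map_pow, hsp]
      push_cast; ring
    rw [h]; exact hsB _ hx

end regular

section datum

variable {R : Type*} [CommRing R] {F : Type*} [Field F] [Algebra R F]

/-- **The local datum of the double difference** (#2289 step 6b, abstract form).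

`f = ω * ∏ j ∈ J, (c - a j) ^ (m * e j)` is a local factorisation of the Kummer function at `n`
(`c` a local coordinate fixed by `s` and `t`, `a j` the values of `c` at the points of `D` centred
at `n`, `e j` their multiplicities, `ω` a unit of `B_n[1/p]`).  If every local factor
`ψ j = (c - t (a j)) (c - s (a j)) / ((c - s (t (a j))) (c - a j))` is `≡ 1 mod p W`, and
`Q ω = ω^{st} ω / (ω^s ω^t)` lies in `W` and in `B_n[1/p]`, then
`φ := ∏ j, ψ j ^ e j` satisfies `φ ≡ 1 mod p W` and `φ ^ m * u` is regular at `n`,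
`u = f^{st} f / (f^s f^t)`: exactly the hypothesis `hLD` of `ntc47_main` at `n`. -/
theorem dd74_local_datum (W : Subring F) (p : F) (hp0 : p ≠ 0) (hpW : p ∈ W) (hpinv : p⁻¹ ∉ W)
    (hWunit : ∀ x ∈ W, (1 + p * x)⁻¹ ∈ W)
    (B : Subalgebra R F) (hBW : ∀ x ∈ B, x ∈ W)
    (hsat : ∀ x ∈ B, p⁻¹ * x ∈ W → p⁻¹ * x ∈ B) (n : Ideal B)
    (s t : F →+* F) (m : ℕ) (f : F)
    {ι : Type*} (J : Finset ι) (c : F) (hsc : s c = c) (htc : t c = c) (a : ι → F) (e : ι → ℤ)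
    (ω : F) (hf : f = ω * ∏ j ∈ J, (c - a j) ^ ((m : ℤ) * e j))
    (hψ : ∀ j ∈ J, p⁻¹ * ((c - t (a j)) * (c - s (a j)) / ((c - s (t (a j))) * (c - a j)) - 1) ∈ W)
    (hΩW : dd74_Q s t ω ∈ W)
    (hΩB : ∃ k : ℕ, ∃ σ : B, σ ∉ n ∧ (σ : F) * (p ^ k * dd74_Q s t ω) ∈ B) :
    ∃ φ : F, p⁻¹ * (φ - 1) ∈ W ∧
      ∃ σ : B, σ ∉ n ∧ (σ : F) * (φ ^ m * (s (t f) * f / (s f * t f))) ∈ B := by
  classical
  set ψ : ι → F := fun j =>
    (c - t (a j)) * (c - s (a j)) / ((c - s (t (a j))) * (c - a j)) with hψdef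
  have hψ0 : ∀ j ∈ J, ψ j ≠ 0 := fun j hj => dd74_ne_zero_of_cong W p hpinv (hψ j hj)
  refine ⟨∏ j ∈ J, ψ j ^ e j, ?_, ?_⟩
  · exact dd74_cong_prod W p hpW J _ fun j hj => dd74_cong_zpow W p hpW hWunit (hψ j hj) (e j)
  · have hu : s (t f) * f / (s f * t f) = dd74_Q s t f := rfl
    have hQf : dd74_Q s t f = dd74_Q s t ω * ∏ j ∈ J, ((ψ j)⁻¹) ^ ((m : ℤ) * e j) := by
      rw [hf, map_mul, map_prod]
      congr 1
      refine Finset.prod_congr rfl fun j _ => ?_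
      rw [map_zpow₀, dd74_Q_sub s t c (a j) hsc htc]
    have hprod : (∏ j ∈ J, ψ j ^ e j) ^ m * ∏ j ∈ J, ((ψ j)⁻¹) ^ ((m : ℤ) * e j) = 1 := by
      rw [← Finset.prod_pow, ← Finset.prod_mul_distrib]
      refine Finset.prod_eq_one fun j hj => ?_
      have h0 := hψ0 j hj
      rw [← zpow_natCast, ← zpow_mul, inv_zpow, mul_comm (e j) (m : ℤ)]
      exact mul_inv_cancel₀ (zpow_ne_zero _ h0)
    have hfin : (∏ j ∈ J, ψ j ^ e j) ^ m * (s (t f) * f / (s f * t f)) = dd74_Q s t ω := by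
      rw [hu, hQf, mul_left_comm, hprod, mul_one]
    rw [hfin]
    exact dd74_regular_of_sat W p hp0 hpW B hBW hsat n _ hΩW hΩB

end datum

end Fermat.Agent.S34
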