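/-
S34 lab, package P6 (helper35), FINAL ADAPTER: the outputs `hu`, `hLD₁`, `hLD₂` of the double
difference in the literal shape of the hypotheses of `ntc47_main`, from the weakest inputs
(δ-form of helper62 / helper39 / helper3; no invariant coordinate, no congruence of constants).

`σ τ : F →+* F` (inertia elements acting on the function field), `W` a subring, `p` the
uniformizer, `δ x := dd35_u σ τ x = σ (τ x) * x / (σ x * τ x)`.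

Inputs on `σ`, `τ` (package P1c):
* `(H1)` `∀ x ≠ 0, x / τ x ∈ W` and `τ x / x ∈ W`   (`τ` preserves both valuations);
* `(H2)` `∀ y ∈ W, p⁻¹ * (σ y - y) ∈ W`             (`σ` is trivial on `W / p W`).

Results:
* `dd35_u_mul`, `dd35_u_inv`, `dd35_u_pow`, `dd35_u_div` : `δ` is multiplicative;
* `dd35_u_cong_gen` : **(A)** `δ x ≡ 1 mod p W` for EVERY `x ≠ 0`  (for `x = f` this is `hu`);
* `dd35_hLD_of_delta` : **(B)** at a prime `n` of the chart `B` (saturated in `W`): if for some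
  `g ≠ 0` the element `δ (f / g ^ m)` lies in `B_n[1/p]` (`dd35_Reg`), then `φ := (δ g)⁻¹`
  is a local datum: `φ ≡ 1 mod p W` and `d * (φ ^ m * δ f) ∈ B` for some `d ∉ n`;
* `dd35_fix_of_triv` : `σ` fixes every prime `n ∋ p` of `B` (from `(H2)` and saturation);
* `dd35_delta_reg` : `δ ω ∈ B_n[1/p]` as soon as `ω`, `ω⁻¹ ∈ B_n[1/p]`, `σ`, `τ` preserve `B`,
  satisfy `(H2)` and multiply `p` by units of `B`;
* `dd35_hLD_of_LP` : (B) from `ω = f / g ^ m` and `ω⁻¹` in `B_n[1/p]`;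
* `dd35_hLD_all`, `dd35_hLD_all_LP` : the statements for all maximal `n ∋ π` at once, literally
  the hypothesis `hLD_i` of `ntc47_main` (with `u = σ (τ f) * f / (σ f * τ f)`);
  `dd35_hu` : literally its hypothesis `hu`.

All names are prefixed `dd35_`.
-/
import Fermat.Agent.S34.DoubleDiff35

set_option autoImplicit false

namespace Fermat.Agent.S34

section mult

variable {F : Type*} [Field F]

theorem dd35_u_mul (σ τ : F →+* F) (x y : F) :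
    dd35_u σ τ (x * y) = dd35_u σ τ x * dd35_u σ τ y := by
  rw [dd35_u, dd35_u, dd35_u]
  simp only [map_mul]
  rw [← mul_div_mul_comm]
  congr 1 <;> ring

theorem dd35_u_one (σ τ : F →+* F) : dd35_u σ τ 1 = 1 := by
  rw [dd35_u]
  simp only [map_one, mul_one, div_self one_ne_zero]

theorem dd35_u_inv (σ τ : F →+* F) (x : F) : dd35_u σ τ x⁻¹ = (dd35_u σ τ x)⁻¹ := by
  rw [dd35_u, dd35_u]
  simp only [map_inv₀]
  rw [← mul_inv, ← mul_inv, inv_div_inv, inv_div]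

theorem dd35_u_pow (σ τ : F →+* F) (x : F) (k : ℕ) : dd35_u σ τ (x ^ k) = dd35_u σ τ x ^ k := by
  induction k with
  | zero => rw [pow_zero, pow_zero, dd35_u_one]
  | succ k ih => rw [pow_succ, pow_succ, dd35_u_mul, ih]

theorem dd35_u_div (σ τ : F →+* F) (x y : F) :
    dd35_u σ τ (x / y) = dd35_u σ τ x / dd35_u σ τ y := by
  rw [div_eq_mul_inv, div_eq_mul_inv, dd35_u_mul, dd35_u_inv]

/-- **(A)** the double difference of EVERY nonzero element is `≡ 1 mod p W`. -/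
theorem dd35_u_cong_gen (W : Subring F) (p : F) (σ τ : F →+* F)
    (hτ1 : ∀ x : F, x ≠ 0 → x / τ x ∈ W) (hτ2 : ∀ x : F, x ≠ 0 → τ x / x ∈ W)
    (hσ : ∀ y ∈ W, p⁻¹ * (σ y - y) ∈ W) (x : F) (hx : x ≠ 0) :
    p⁻¹ * (dd35_u σ τ x - 1) ∈ W :=
  dd35_u_cong W p σ τ x hx (hτ1 x hx) (hσ _ (hτ2 x hx))

end mult

section local_datum

variable {R : Type*} [CommRing R] {F : Type*} [Field F] [Algebra R F]

/-- **(B), δ-form**: if `δ (f / g ^ m) ∈ B_n[1/p]` for some `g ≠ 0`, then `φ := (δ g)⁻¹` is a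
local datum at `n`. -/
theorem dd35_hLD_of_delta (B : Subalgebra R F) (n : Ideal B) (W : Subring F)
    (hBW : ∀ y ∈ B, y ∈ W) (p : F) (hW : dd35_Adm W p)
    (hsat : ∀ y ∈ B, p⁻¹ * y ∈ W → p⁻¹ * y ∈ B)
    (σ τ : F →+* F)
    (hτ1 : ∀ x : F, x ≠ 0 → x / τ x ∈ W) (hτ2 : ∀ x : F, x ≠ 0 → τ x / x ∈ W)
    (hσ : ∀ y ∈ W, p⁻¹ * (σ y - y) ∈ W)
    (m : ℕ) (f g : F) (hf : f ≠ 0) (hg : g ≠ 0)
    (hδ : dd35_Reg B n p (dd35_u σ τ (f / g ^ m))) :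
    ∃ φ : F, p⁻¹ * (φ - 1) ∈ W ∧ ∃ d : B, d ∉ n ∧ (d : F) * (φ ^ m * dd35_u σ τ f) ∈ B := by
  have hφ : p⁻¹ * ((dd35_u σ τ g)⁻¹ - 1) ∈ W :=
    dd35_inv_cong hW (dd35_u_cong_gen W p σ τ hτ1 hτ2 hσ g hg)
  refine ⟨(dd35_u σ τ g)⁻¹, hφ, ?_⟩
  have key : (dd35_u σ τ g)⁻¹ ^ m * dd35_u σ τ f = dd35_u σ τ (f / g ^ m) := by
    rw [dd35_u_div, dd35_u_pow, inv_pow, div_eq_mul_inv, mul_comm]
  have hω0 : f / g ^ m ≠ 0 := div_ne_zero hf (pow_ne_zero m hg)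
  have huW : dd35_u σ τ (f / g ^ m) ∈ W :=
    dd35_mem_of_cong hW (dd35_u_cong_gen W p σ τ hτ1 hτ2 hσ _ hω0)
  rw [key]
  exact dd35_Reg.descend W hBW hW.ne_zero hW.mem hsat hδ huW

/-- `σ` is trivial on `B` modulo `p B` (from (H2) and saturation). -/
theorem dd35_triv_of_sat (B : Subalgebra R F) (W : Subring F) (hBW : ∀ y ∈ B, y ∈ W) (p : F)
    (hp0 : p ≠ 0) (hsat : ∀ y ∈ B, p⁻¹ * y ∈ W → p⁻¹ * y ∈ B)
    (σ : F →+* F) (hσB : ∀ y ∈ B, σ y ∈ B) (hσ : ∀ y ∈ W, p⁻¹ * (σ y - y) ∈ W) :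
    ∀ y ∈ B, ∃ b ∈ B, σ y - y = p * b := by
  intro y hy
  refine ⟨p⁻¹ * (σ y - y), hsat _ (B.sub_mem (hσB y hy) hy) (hσ y (hBW y hy)), ?_⟩
  field_simp

/-- `σ` fixes every prime `n ∋ p` of the chart. -/
theorem dd35_fix_of_triv (B : Subalgebra R F) (n : Ideal B) (W : Subring F)
    (hBW : ∀ y ∈ B, y ∈ W) (p : F) (hp0 : p ≠ 0) (pB : B) (hpB : (pB : F) = p) (hpn : pB ∈ n)
    (hsat : ∀ y ∈ B, p⁻¹ * y ∈ W → p⁻¹ * y ∈ B)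
    (σ : F →+* F) (hσB : ∀ y ∈ B, σ y ∈ B) (hσ : ∀ y ∈ W, p⁻¹ * (σ y - y) ∈ W) :
    ∀ d : B, d ∉ n → (⟨σ d, hσB d d.2⟩ : B) ∉ n :=
  dd35_notMem_of_triv pB hpB hpn σ hσB (dd35_triv_of_sat B W hBW p hp0 hsat σ hσB hσ)

/-- `δ ω ∈ B_n[1/p]` for a unit `ω` of `B_n[1/p]`. -/
theorem dd35_delta_reg (B : Subalgebra R F) (n : Ideal B) (hn : n.IsPrime) (W : Subring F)
    (hBW : ∀ y ∈ B, y ∈ W) (p : F) (hp0 : p ≠ 0) (pB : B) (hpB : (pB : F) = p) (hpn : pB ∈ n)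
    (hsat : ∀ y ∈ B, p⁻¹ * y ∈ W → p⁻¹ * y ∈ B)
    (σ τ : F →+* F) (hσB : ∀ y ∈ B, σ y ∈ B) (hτB : ∀ y ∈ B, τ y ∈ B)
    (hσ : ∀ y ∈ W, p⁻¹ * (σ y - y) ∈ W) (hτ : ∀ y ∈ W, p⁻¹ * (τ y - y) ∈ W)
    (eσ eτ : B) (heσ : eσ ∉ n) (heτ : eτ ∉ n) (hσp : σ p = eσ * p) (hτp : τ p = eτ * p)
    (ω : F) (hω : dd35_Reg B n p ω) (hω' : dd35_Reg B n p ω⁻¹) :
    dd35_Reg B n p (dd35_u σ τ ω) := by
  have hσn := dd35_fix_of_triv B n W hBW p hp0 pB hpB hpn hsat σ hσB hσ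
  have hτn := dd35_fix_of_triv B n W hBW p hp0 pB hpB hpn hsat τ hτB hτ
  have e : dd35_u σ τ ω = σ (τ ω) * ω * (σ ω⁻¹ * τ ω⁻¹) := by
    rw [dd35_u, map_inv₀, map_inv₀, div_eq_mul_inv, mul_inv]
  rw [e]
  refine dd35_Reg.mul hn (dd35_Reg.mul hn ?_ hω) (dd35_Reg.mul hn ?_ ?_)
  · exact dd35_Reg.map hn σ hσB hσn eσ heσ hσp (dd35_Reg.map hn τ hτB hτn eτ heτ hτp hω)
  · exact dd35_Reg.map hn σ hσB hσn eσ heσ hσp hω'
  · exact dd35_Reg.map hn τ hτB hτn eτ heτ hτp hω'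

/-- **(B), unit form**: if `ω = f / g ^ m` and `ω⁻¹` lie in `B_n[1/p]` for some `g ≠ 0`, then
`φ := (δ g)⁻¹` is a local datum at `n`. -/
theorem dd35_hLD_of_LP (B : Subalgebra R F) (n : Ideal B) (hn : n.IsPrime) (W : Subring F)
    (hBW : ∀ y ∈ B, y ∈ W) (p : F) (hW : dd35_Adm W p) (pB : B) (hpB : (pB : F) = p)
    (hpn : pB ∈ n) (hsat : ∀ y ∈ B, p⁻¹ * y ∈ W → p⁻¹ * y ∈ B)
    (σ τ : F →+* F) (hσB : ∀ y ∈ B, σ y ∈ B) (hτB : ∀ y ∈ B, τ y ∈ B)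
    (hτ1 : ∀ x : F, x ≠ 0 → x / τ x ∈ W) (hτ2 : ∀ x : F, x ≠ 0 → τ x / x ∈ W)
    (hσ : ∀ y ∈ W, p⁻¹ * (σ y - y) ∈ W) (hτ : ∀ y ∈ W, p⁻¹ * (τ y - y) ∈ W)
    (eσ eτ : B) (heσ : eσ ∉ n) (heτ : eτ ∉ n) (hσp : σ p = eσ * p) (hτp : τ p = eτ * p)
    (m : ℕ) (f g : F) (hf : f ≠ 0) (hg : g ≠ 0)
    (hω : dd35_Reg B n p (f / g ^ m)) (hω' : dd35_Reg B n p (f / g ^ m)⁻¹) :
    ∃ φ : F, p⁻¹ * (φ - 1) ∈ W ∧ ∃ d : B, d ∉ n ∧ (d : F) * (φ ^ m * dd35_u σ τ f) ∈ B :=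
  dd35_hLD_of_delta B n W hBW p hW hsat σ τ hτ1 hτ2 hσ m f g hf hg
    (dd35_delta_reg B n hn W hBW p hW.ne_zero pB hpB hpn hsat σ τ hσB hτB hσ hτ eσ eτ heσ heτ
      hσp hτp _ hω hω')

end local_datum

section ntc

variable {R : Type*} [CommRing R] {F : Type*} [Field F] [Algebra R F]

/-- **`hu` of `ntc47_main`** for `u = σ (τ f) * f / (σ f * τ f)`. -/
theorem dd35_hu (π : R) (W : Subring F) (σ τ : F →+* F)
    (hτ1 : ∀ x : F, x ≠ 0 → x / τ x ∈ W) (hτ2 : ∀ x : F, x ≠ 0 → τ x / x ∈ W)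
    (hσ : ∀ y ∈ W, (algebraMap R F π)⁻¹ * (σ y - y) ∈ W) (f : F) (hf : f ≠ 0) :
    (algebraMap R F π)⁻¹ * (σ (τ f) * f / (σ f * τ f) - 1) ∈ W :=
  dd35_u_cong_gen W _ σ τ hτ1 hτ2 hσ f hf

/-- **`hLD_i` of `ntc47_main`, δ-form**: for all maximal `n ∋ π` of the chart `B` at once. -/
theorem dd35_hLD_all (π : R) (W : Subring F) (hW : dd35_Adm W (algebraMap R F π))
    (B : Subalgebra R F) (hBW : ∀ y ∈ B, y ∈ W)
    (hsat : ∀ y ∈ B, (algebraMap R F π)⁻¹ * y ∈ W → (algebraMap R F π)⁻¹ * y ∈ B)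
    (σ τ : F →+* F)
    (hτ1 : ∀ x : F, x ≠ 0 → x / τ x ∈ W) (hτ2 : ∀ x : F, x ≠ 0 → τ x / x ∈ W)
    (hσ : ∀ y ∈ W, (algebraMap R F π)⁻¹ * (σ y - y) ∈ W)
    (m : ℕ) (f : F) (hf : f ≠ 0)
    (hLP : ∀ n : Ideal B, n.IsMaximal → algebraMap R B π ∈ n →
      ∃ g : F, g ≠ 0 ∧ dd35_Reg B n (algebraMap R F π) (dd35_u σ τ (f / g ^ m))) :
    ∀ n : Ideal B, n.IsMaximal → algebraMap R B π ∈ n →
      ∃ φ : F, (algebraMap R F π)⁻¹ * (φ - 1) ∈ W ∧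
        ∃ s : B, s ∉ n ∧ (s : F) * (φ ^ m * (σ (τ f) * f / (σ f * τ f))) ∈ B := by
  intro n hn hπn
  obtain ⟨g, hg, hδ⟩ := hLP n hn hπn
  exact dd35_hLD_of_delta B n W hBW _ hW hsat σ τ hτ1 hτ2 hσ m f g hf hg hδ

/-- **`hLD_i` of `ntc47_main`, unit form**: `σ π = ε_σ π`, `τ π = ε_τ π` with units of `R`, and
at every maximal `n ∋ π` a `g ≠ 0` with `f / g ^ m` a unit of `B_n[1/π]`. -/
theorem dd35_hLD_all_LP (π : R) (W : Subring F) (hW : dd35_Adm W (algebraMap R F π))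
    (B : Subalgebra R F) (hBW : ∀ y ∈ B, y ∈ W)
    (hsat : ∀ y ∈ B, (algebraMap R F π)⁻¹ * y ∈ W → (algebraMap R F π)⁻¹ * y ∈ B)
    (σ τ : F →+* F) (hσB : ∀ y ∈ B, σ y ∈ B) (hτB : ∀ y ∈ B, τ y ∈ B)
    (hτ1 : ∀ x : F, x ≠ 0 → x / τ x ∈ W) (hτ2 : ∀ x : F, x ≠ 0 → τ x / x ∈ W)
    (hσ : ∀ y ∈ W, (algebraMap R F π)⁻¹ * (σ y - y) ∈ W)
    (hτ : ∀ y ∈ W, (algebraMap R F π)⁻¹ * (τ y - y) ∈ W)
    (εσ ετ : R) (hεσ : IsUnit εσ) (hετ : IsUnit ετ)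
    (hσπ : σ (algebraMap R F π) = algebraMap R F εσ * algebraMap R F π)
    (hτπ : τ (algebraMap R F π) = algebraMap R F ετ * algebraMap R F π)
    (m : ℕ) (f : F) (hf : f ≠ 0)
    (hLP : ∀ n : Ideal B, n.IsMaximal → algebraMap R B π ∈ n →
      ∃ g : F, g ≠ 0 ∧ dd35_Reg B n (algebraMap R F π) (f / g ^ m) ∧
        dd35_Reg B n (algebraMap R F π) (f / g ^ m)⁻¹) :
    ∀ n : Ideal B, n.IsMaximal → algebraMap R B π ∈ n →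
      ∃ φ : F, (algebraMap R F π)⁻¹ * (φ - 1) ∈ W ∧
        ∃ s : B, s ∉ n ∧ (s : F) * (φ ^ m * (σ (τ f) * f / (σ f * τ f))) ∈ B := by
  intro n hn hπn
  obtain ⟨g, hg, hω, hω'⟩ := hLP n hn hπn
  have hu : ∀ ε : R, IsUnit ε → algebraMap R B ε ∉ n := fun ε hε h =>
    hn.ne_top (Ideal.eq_top_of_isUnit_mem n h (hε.map (algebraMap R B)))
  exact dd35_hLD_of_LP B n hn.isPrime W hBW _ hW (algebraMap R B π) rfl hπn hsat σ τ hσB hτB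
    hτ1 hτ2 hσ hτ (algebraMap R B εσ) (algebraMap R B ετ) (hu εσ hεσ) (hu ετ hετ) hσπ hτπ
    m f g hf hg hω hω'

end ntc

end Fermat.Agent.S34
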