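import Mathlib
import Fermat.Agent.S34.Iface47b
import Fermat.Agent.S34.LocPrin9
import Fermat.Agent.S34.PkgLD32

/-!
# S34 lab, fallback track (helper74): unique zeros up to Galois-fixed points ⟹ (LP′)

The bookkeeping half of the fallback route (helper3's `DeepNode3`: nodes WITHOUT a thickness
bound).  Abstract, Mathlib + `Iface47` / `Iface47b` only.

* `fb74_UZ2 K π B σ τ` : the relaxed unique-zero property.  Every `K`-rational horizontal
  valuation ring `O` through a closed point `n` of the special fibre EITHER is fixed by `σ` and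
  `τ` (`O.comap σ = O`, `O.comap τ = O`; e.g. the deep point of a node) OR has a uniformiser
  which is a unit at every other horizontal `O'` through `n` (the clause of `s34i47_UniqueZero`).
* `fb74_UZ2_of_UZ` : `s34i47_UniqueZero` implies `fb74_UZ2` (for all `σ`, `τ`).
* `fb74_dd_mem_of_fixed` : along a principal valuation ring fixed by `σ`, the double difference
  `σ(τ θ) θ / (σ θ · τ θ)` of ANY `θ ≠ 0` is a unit.
* `fb74_pkg_LP2 : fb74_Pkg_LP2` : `fb74_UZ2` + orders divisible by `m` + rational zeros and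
  poles + finiteness + (G) for `σ`, `τ` ⟹ `s34i47b_LocPrinDD` (the relaxed (LP) of `Iface47b`).
  With `dd35_pkg_LDb` this gives the local datum (LD) without any thickness bound at the nodes.

Proof of `fb74_pkg_LP2` at a closed point `n`: `c := ∏ p_O ^ k_O` over the finitely many zeros
and poles `O` of `f` through `n` which are not fixed by `σ`, `τ`.  Then `θ := f / c ^ m` is a unit
at every horizontal `O` through `n` which is not fixed.  If `O` is not fixed, neither are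
`O.comap σ`, `O.comap τ`, `(O.comap σ).comap τ`, and all three are horizontal through `n`; so all
four factors of the double difference of `θ` are units of `O`.  If `O` is fixed, use
`fb74_dd_mem_of_fixed`.
-/

set_option autoImplicit false

namespace Fermat.Agent.S34

section Defs

variable {R F : Type*} [CommRing R] [Field F] [Algebra R F]

/-- `O` is fixed by `σ` and by `τ`. -/
def fb74_Fixed (σ τ : F ≃+* F) (O : ValuationSubring F) : Prop :=
  O.comap (σ : F →+* F) = O ∧ O.comap (τ : F →+* F) = O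

/-- **(UZ2)** relaxed unique-zero property: every rational horizontal `O` through a closed
point `n` of the special fibre is fixed by `σ` and `τ`, or has a uniformiser which is a unit at
every other horizontal `O'` through `n`. -/
def fb74_UZ2 (K : Type*) [Field K] [Algebra K F] (π : R) (B : Subalgebra R F)
    (σ τ : F ≃+* F) : Prop :=
  ∀ n : Ideal B, n.IsMaximal → algebraMap R B π ∈ n →
    ∀ O : ValuationSubring F, s34i47_IsHoriz π O → s34i47_Through B n O → s34i47_IsRat K O →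
      fb74_Fixed σ τ O ∨
      ∃ p : F, p ≠ 0 ∧ p ∈ O ∧ p⁻¹ ∉ O ∧ (∀ x ∈ O, x⁻¹ ∉ O → x * p⁻¹ ∈ O) ∧
        ∀ O' : ValuationSubring F, s34i47_IsHoriz π O' → s34i47_Through B n O' → O' ≠ O →
          p ∈ O' ∧ p⁻¹ ∈ O'

theorem fb74_UZ2_of_UZ (K : Type*) [Field K] [Algebra K F] (π : R) (B : Subalgebra R F)
    (σ τ : F ≃+* F) (h : s34i47_UniqueZero K π B) : fb74_UZ2 K π B σ τ :=
  fun n hn hπn O hO hOn hrat => Or.inr (h n hn hπn O hO hOn hrat)

end Defs

section Comap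

variable {F : Type*} [Field F]

theorem fb74_mem_comap (σ : F ≃+* F) (O : ValuationSubring F) (x : F) :
    x ∈ O.comap (σ : F →+* F) ↔ σ x ∈ O := Iff.rfl

/-- `O ↦ O.comap σ` is injective for an automorphism `σ`. -/
theorem fb74_comap_inj (σ : F ≃+* F) {O O' : ValuationSubring F}
    (h : O.comap (σ : F →+* F) = O'.comap (σ : F →+* F)) : O = O' := by
  ext x
  have h1 : σ.symm x ∈ O.comap (σ : F →+* F) ↔ σ.symm x ∈ O'.comap (σ : F →+* F) := by rw [h]
  rw [fb74_mem_comap, fb74_mem_comap, RingEquiv.apply_symm_apply] at h1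
  exact h1

theorem fb74_not_fixed_comap_left (σ τ : F ≃+* F) (O : ValuationSubring F)
    (h : ¬ fb74_Fixed σ τ O) : ¬ fb74_Fixed σ τ (O.comap (σ : F →+* F)) := by
  rintro ⟨h1, h2⟩
  have h3 : O.comap (σ : F →+* F) = O := fb74_comap_inj σ h1
  rw [h3] at h2
  exact h ⟨h3, h2⟩

theorem fb74_not_fixed_comap_right (σ τ : F ≃+* F) (O : ValuationSubring F)
    (h : ¬ fb74_Fixed σ τ O) : ¬ fb74_Fixed σ τ (O.comap (τ : F →+* F)) := by
  rintro ⟨h1, h2⟩
  have h3 : O.comap (τ : F →+* F) = O := fb74_comap_inj τ h2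
  rw [h3] at h1
  exact h ⟨h1, h3⟩

theorem fb74_not_fixed_comap_both (σ τ : F ≃+* F) (O : ValuationSubring F)
    (h : ¬ fb74_Fixed σ τ O) :
    ¬ fb74_Fixed σ τ ((O.comap (σ : F →+* F)).comap (τ : F →+* F)) := by
  rintro ⟨h1, h2⟩
  have h3 : (O.comap (σ : F →+* F)).comap (τ : F →+* F) = O.comap (σ : F →+* F) :=
    fb74_comap_inj τ h2
  rw [h3] at h1 h2
  exact fb74_not_fixed_comap_left σ τ O h ⟨h1, h3⟩

end Comap

section FixedRing

variable {F : Type*} [Field F]

/-- A principal valuation subring `O ≠ ⊤` has a uniformiser. -/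
theorem fb74_exists_unif (O : ValuationSubring F) (hPIR : IsPrincipalIdealRing O)
    (htop : O ≠ ⊤) :
    ∃ p : F, p ≠ 0 ∧ p ∈ O ∧ p⁻¹ ∉ O ∧ ∀ x ∈ O, x⁻¹ ∉ O → x * p⁻¹ ∈ O := by
  obtain ⟨ϖ, hϖ⟩ := (IsPrincipalIdealRing.principal (IsLocalRing.maximalIdeal O)).principal
  have hmem : ∀ x : O, x ∈ IsLocalRing.maximalIdeal O ↔ ∃ y : O, x = y * ϖ := by
    intro x
    rw [hϖ]
    constructor
    · intro hx
      obtain ⟨y, hy⟩ := Submodule.mem_span_singleton.mp hx
      exact ⟨y, by rw [← hy]; rfl⟩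
    · rintro ⟨y, rfl⟩
      exact Submodule.mem_span_singleton.mpr ⟨y, rfl⟩
  -- nonunits of `O` are the elements whose inverse is not in `O`
  have hnonunit : ∀ x : O, (x : F)⁻¹ ∉ O → x ∈ IsLocalRing.maximalIdeal O := by
    intro x hx
    rw [IsLocalRing.mem_maximalIdeal, mem_nonunits_iff]
    intro hu
    obtain ⟨y, hy⟩ := hu.exists_right_inv
    apply hx
    have h1 : (x : F) * (y : F) = 1 := by
      have := congrArg (fun t : O => (t : F)) hy
      simpa using this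
    rw [← eq_inv_of_mul_eq_one_right h1]
    exact y.2
  have hϖ0 : (ϖ : F) ≠ 0 := by
    intro h0
    apply htop
    rw [eq_top_iff]
    intro x _
    rcases O.mem_or_inv_mem x with hx | hx
    · exact hx
    · -- `x⁻¹ ∈ O`; if `x ∉ O` then `x⁻¹` is a nonunit, hence a multiple of `ϖ = 0`
      by_contra hxO
      have h1 : (⟨x⁻¹, hx⟩ : O) ∈ IsLocalRing.maximalIdeal O :=
        hnonunit ⟨x⁻¹, hx⟩ (by rw [inv_inv]; exact hxO)
      obtain ⟨y, hy⟩ := (hmem _).mp h1
      have h2 : x⁻¹ = (y : F) * (ϖ : F) := by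
        have := congrArg (fun t : O => (t : F)) hy
        simpa using this
      rw [h0, mul_zero] at h2
      have hx0 : x = 0 := by simpa using h2
      exact hxO (hx0 ▸ O.zero_mem)
  have hϖm : ϖ ∈ IsLocalRing.maximalIdeal O := (hmem ϖ).mpr ⟨1, by rw [one_mul]⟩
  refine ⟨(ϖ : F), hϖ0, ϖ.2, ?_, ?_⟩
  · intro hinv
    have hu : IsUnit ϖ := by
      refine isUnit_iff_exists_inv.mpr ⟨⟨(ϖ : F)⁻¹, hinv⟩, ?_⟩
      apply Subtype.ext
      show (ϖ : F) * (ϖ : F)⁻¹ = 1
      exact mul_inv_cancel₀ hϖ0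
    exact (IsLocalRing.mem_maximalIdeal _).mp hϖm hu
  · intro x hx hxinv
    obtain ⟨y, hy⟩ := (hmem ⟨x, hx⟩).mp (hnonunit ⟨x, hx⟩ hxinv)
    have h2 : x = (y : F) * (ϖ : F) := by
      have := congrArg (fun t : O => (t : F)) hy
      simpa using this
    rw [h2, mul_assoc, mul_inv_cancel₀ hϖ0, mul_one]
    exact y.2

/-- Along a principal valuation ring fixed by `σ`, `σ x / x` is a unit for every `x ≠ 0`. -/
theorem fb74_isU_div_of_fixed (O : ValuationSubring F) (hPIR : IsPrincipalIdealRing O)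
    (htop : O ≠ ⊤) (σ : F ≃+* F) (hσ : O.comap (σ : F →+* F) = O) (x : F) (hx : x ≠ 0) :
    lp9_IsU O (σ x / x) := by
  have hiff : ∀ y : F, y ∈ O ↔ σ y ∈ O := by
    intro y
    have h1 : y ∈ O.comap (σ : F →+* F) ↔ y ∈ O := by rw [hσ]
    rw [fb74_mem_comap] at h1
    exact h1.symm
  have hU : ∀ u : F, lp9_IsU O u → lp9_IsU O (σ u) := by
    rintro u ⟨h1, h2⟩
    refine ⟨(hiff u).mp h1, ?_⟩
    rw [← map_inv₀]
    exact (hiff _).mp h2
  obtain ⟨p, hp0, hpO, hpinv, hgen⟩ := fb74_exists_unif O hPIR htop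
  -- `σ p / p` is a unit
  have hσp0 : σ p ≠ 0 := by simpa using hp0
  have hp1 : σ p * p⁻¹ ∈ O := by
    refine hgen (σ p) ((hiff p).mp hpO) ?_
    intro h
    rw [← map_inv₀] at h
    exact hpinv ((hiff _).mpr h)
  have hp2 : p * (σ p)⁻¹ ∈ O := by
    have hy : σ.symm p ∈ O := (hiff _).mpr (by rw [RingEquiv.apply_symm_apply]; exact hpO)
    have hy' : (σ.symm p)⁻¹ ∉ O := by
      intro h
      have := (hiff _).mp h
      rw [map_inv₀, RingEquiv.apply_symm_apply] at this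
      exact hpinv this
    have h3 := (hiff _).mp (hgen _ hy hy')
    rwa [map_mul, RingEquiv.apply_symm_apply, map_inv₀] at h3
  have hpU : lp9_IsU O (σ p / p) := by
    refine ⟨by rw [div_eq_mul_inv]; exact hp1, ?_⟩
    rw [inv_div, div_eq_mul_inv]
    exact hp2
  obtain ⟨k, hk⟩ := lp9_exists_zpow O hPIR p hp0 hpO hpinv hgen x hx
  have he : σ x / x = σ (x / p ^ k) * (x / p ^ k)⁻¹ * (σ p / p) ^ k := by
    have hpk : p ^ k ≠ 0 := zpow_ne_zero k hp0
    have hσpk : σ p ^ k ≠ 0 := zpow_ne_zero k hσp0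
    have hσx : σ x ≠ 0 := by simpa using hx
    rw [map_div₀, map_zpow₀, div_zpow]
    field_simp
  rw [he]
  exact lp9_IsU_mul (lp9_IsU_mul (hU _ hk) (lp9_IsU_inv hk)) (lp9_IsU_zpow hpU k)

/-- Along a principal valuation ring fixed by `σ`, the double difference of every `θ ≠ 0` is a
unit (no hypothesis on `τ`). -/
theorem fb74_dd_isU_of_fixed (O : ValuationSubring F) (hPIR : IsPrincipalIdealRing O)
    (htop : O ≠ ⊤) (σ τ : F ≃+* F) (hσ : O.comap (σ : F →+* F) = O) (θ : F) (hθ : θ ≠ 0) :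
    lp9_IsU O (s34i47_dd σ τ θ) := by
  have hτθ : τ θ ≠ 0 := by simpa using hθ
  have hσθ : σ θ ≠ 0 := by simpa using hθ
  have hστθ : σ (τ θ) ≠ 0 := by simpa using hτθ
  have he : s34i47_dd σ τ θ = (σ (τ θ) / τ θ) * (σ θ / θ)⁻¹ := by
    rw [s34i47_dd]
    field_simp
  rw [he]
  exact lp9_IsU_mul (fb74_isU_div_of_fixed O hPIR htop σ hσ (τ θ) hτθ)
    (lp9_IsU_inv (fb74_isU_div_of_fixed O hPIR htop σ hσ θ hθ))

theorem fb74_dd_mem_of_fixed (O : ValuationSubring F) (hPIR : IsPrincipalIdealRing O)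
    (htop : O ≠ ⊤) (σ τ : F ≃+* F) (hσ : O.comap (σ : F →+* F) = O) (θ : F) (hθ : θ ≠ 0) :
    s34i47_dd σ τ θ ∈ O :=
  (fb74_dd_isU_of_fixed O hPIR htop σ τ hσ θ hθ).1

/-- The double difference of a function which is a unit along `O`, `O.comap σ`, `O.comap τ`
and `(O.comap σ).comap τ` is a unit along `O`. -/
theorem fb74_dd_isU_of_units (O : ValuationSubring F) (σ τ : F ≃+* F) (θ : F)
    (h0 : lp9_IsU O θ) (h1 : lp9_IsU (O.comap (σ : F →+* F)) θ)
    (h2 : lp9_IsU (O.comap (τ : F →+* F)) θ)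
    (h3 : lp9_IsU ((O.comap (σ : F →+* F)).comap (τ : F →+* F)) θ) :
    lp9_IsU O (s34i47_dd σ τ θ) := by
  have a1 : lp9_IsU O (σ θ) := by
    refine ⟨h1.1, ?_⟩
    rw [← map_inv₀]
    exact h1.2
  have a2 : lp9_IsU O (τ θ) := by
    refine ⟨h2.1, ?_⟩
    rw [← map_inv₀]
    exact h2.2
  have a3 : lp9_IsU O (σ (τ θ)) := by
    refine ⟨h3.1, ?_⟩
    rw [← map_inv₀, ← map_inv₀]
    exact h3.2
  have he : s34i47_dd σ τ θ = σ (τ θ) * θ * (σ θ * τ θ)⁻¹ := by
    rw [s34i47_dd, div_eq_mul_inv]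
  rw [he]
  exact lp9_IsU_mul (lp9_IsU_mul a3 h0) (lp9_IsU_inv (lp9_IsU_mul a1 a2))

end FixedRing

/-- The local factor at one horizontal valuation ring `O` with a unique-zero uniformiser. -/
theorem fb74_local {R F : Type*} [CommRing R] [Field F] [Algebra R F]
    (π : R) (B : Subalgebra R F) (m : ℕ) (hm : 0 < m) (f : F) (hf : f ≠ 0)
    (hOrd : s34i47_Ord π m f) (n : Ideal B)
    (O : ValuationSubring F) (hO : s34i47_IsHoriz π O)
    (hp : ∃ p : F, p ≠ 0 ∧ p ∈ O ∧ p⁻¹ ∉ O ∧ (∀ x ∈ O, x⁻¹ ∉ O → x * p⁻¹ ∈ O) ∧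
        ∀ O' : ValuationSubring F, s34i47_IsHoriz π O' → s34i47_Through B n O' → O' ≠ O →
          p ∈ O' ∧ p⁻¹ ∈ O') :
    ∃ g : F, g ≠ 0 ∧ lp9_IsU O (f / g ^ m) ∧
      ∀ O' : ValuationSubring F, s34i47_IsHoriz π O' → s34i47_Through B n O' → O' ≠ O →
        lp9_IsU O' g := by
  obtain ⟨p, hp0, hpO, hpinv, hgen, hother⟩ := hp
  obtain ⟨ε, w, hε, hεinv, hfw⟩ := hOrd O hO
  have hw : w ≠ 0 := by
    rintro rfl
    apply hf
    rw [hfw, zero_pow (by omega), mul_zero]
  obtain ⟨k, hk⟩ := lp9_exists_zpow O hO.2.1 p hp0 hpO hpinv hgen w hw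
  refine ⟨p ^ k, zpow_ne_zero k hp0, ?_, ?_⟩
  · have he : f / (p ^ k) ^ m = ε * (w / p ^ k) ^ m := by
      rw [hfw, div_pow, mul_div_assoc]
    rw [he]
    exact lp9_IsU_mul ⟨hε, hεinv⟩ (lp9_IsU_pow hk m)
  · intro O' hO' hOn' hne
    exact lp9_IsU_zpow (hother O' hO' hOn' hne) k

/-- **Fallback package (LP2)**: (UZ2) + orders divisible by `m` + rational zeros and poles +
finiteness + (G) for `σ`, `τ` + saturation ⟹ the relaxed (LP) of `Iface47b`. -/
def fb74_Pkg_LP2 : Prop :=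
  ∀ (R K F : Type) [CommRing R] [IsDomain R] [IsDiscreteValuationRing R] [Field K] [Field F]
    [Algebra R K] [IsFractionRing R K] [Algebra R F] [Algebra K F] [IsScalarTower R K F]
    (π : R), Irreducible π → ∀ (m : ℕ), 0 < m → ∀ (W : Subring F) (B : Subalgebra R F)
    (σ τ : F ≃+* F) (f : F), f ≠ 0 →
    (∀ x ∈ B, x ∈ W) →
    (∀ x ∈ B, (algebraMap R F π)⁻¹ * x ∈ W → (algebraMap R F π)⁻¹ * x ∈ B) →
    s34i47_GalProps π W σ → s34i47_GalProps π W τ →
    (∀ x ∈ B, σ x ∈ B) → (∀ x ∈ B, τ x ∈ B) →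
    fb74_UZ2 K π B σ τ → s34i47_Ord π m f → s34i47_Rat K π f → s34i47_Fin π f →
    s34i47b_LocPrinDD π m B σ τ f

theorem fb74_pkg_LP2 : fb74_Pkg_LP2 := by
  intro R K F _ _ _ _ _ _ _ _ _ _ π hπ m hm W B σ τ f hf hBW hsat hGσ hGτ hσB hτB hUZ hOrd hRat
    hFin n hn hπn
  classical
  have hp0 : algebraMap R F π ≠ 0 := by
    rw [IsScalarTower.algebraMap_apply R K F]
    intro h0
    have h1 : algebraMap R K π = 0 := (map_eq_zero (algebraMap K F)).mp h0
    exact hπ.ne_zero ((map_eq_zero_iff _ (IsFractionRing.injective R K)).mp h1)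
  have hfin : {O : ValuationSubring F | s34i47_IsHoriz π O ∧ s34i47_Through B n O ∧
      ¬ (f ∈ O ∧ f⁻¹ ∈ O)}.Finite :=
    hFin.subset fun O hO => ⟨hO.1, hO.2.2⟩
  set T : Finset (ValuationSubring F) := hfin.toFinset with hT
  have hmemT : ∀ O : ValuationSubring F, O ∈ T ↔
      s34i47_IsHoriz π O ∧ s34i47_Through B n O ∧ ¬ (f ∈ O ∧ f⁻¹ ∈ O) := by
    intro O
    rw [hT, Set.Finite.mem_toFinset]
    rfl
  have hex : ∀ O ∈ T, ∃ g : F, g ≠ 0 ∧ (fb74_Fixed σ τ O ∨ lp9_IsU O (f / g ^ m)) ∧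
      ∀ O' : ValuationSubring F, s34i47_IsHoriz π O' → s34i47_Through B n O' → O' ≠ O →
        lp9_IsU O' g := by
    intro O hO
    rw [hmemT] at hO
    have hrat : s34i47_IsRat K O := (hRat O hO.1).resolve_left hO.2.2
    rcases hUZ n hn hπn O hO.1 hO.2.1 hrat with hfix | hp
    · exact ⟨1, one_ne_zero, Or.inl hfix, fun O' _ _ _ => lp9_IsU_one⟩
    · obtain ⟨g, hg0, hgU, hgo⟩ := fb74_local π B m hm f hf hOrd n O hO.1 hp
      exact ⟨g, hg0, Or.inr hgU, hgo⟩
  choose! g hg0 hgU hgother using hex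
  have hc0 : ∏ O ∈ T, g O ≠ 0 := Finset.prod_ne_zero_iff.mpr hg0
  refine ⟨∏ O ∈ T, g O, hc0, ?_⟩
  -- `θ = f / c ^ m` is a unit at every non-fixed horizontal `O` through `n`
  have key : ∀ O : ValuationSubring F, s34i47_IsHoriz π O → s34i47_Through B n O →
      ¬ fb74_Fixed σ τ O → lp9_IsU O (f / (∏ O' ∈ T, g O') ^ m) := by
    intro O hO hOn hnf
    by_cases hOT : O ∈ T
    · have hsplit : ∏ O' ∈ T, g O' = g O * ∏ O' ∈ T.erase O, g O' :=
        (Finset.mul_prod_erase T g hOT).symm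
      have hrest : lp9_IsU O (∏ O' ∈ T.erase O, g O') := by
        apply lp9_IsU_prod
        intro O' hO'
        have h := Finset.mem_erase.mp hO'
        exact hgother O' h.2 O hO hOn (Ne.symm h.1)
      have he : f / (∏ O' ∈ T, g O') ^ m =
          (f / g O ^ m) * ((∏ O' ∈ T.erase O, g O') ^ m)⁻¹ := by
        rw [hsplit, mul_pow, div_mul_eq_div_div, div_eq_mul_inv (f / g O ^ m)]
      rw [he]
      exact lp9_IsU_mul ((hgU O hOT).resolve_left hnf) (lp9_IsU_inv (lp9_IsU_pow hrest m))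
    · have hfU : lp9_IsU O f := by
        by_contra h
        exact hOT ((hmemT O).mpr ⟨hO, hOn, h⟩)
      have hcU : lp9_IsU O (∏ O' ∈ T, g O') := by
        apply lp9_IsU_prod
        intro O' hO'
        exact hgother O' hO' O hO hOn (by rintro rfl; exact hOT hO')
      rw [div_eq_mul_inv]
      exact lp9_IsU_mul hfU (lp9_IsU_inv (lp9_IsU_pow hcU m))
  have hθ0 : f / (∏ O' ∈ T, g O') ^ m ≠ 0 := div_ne_zero hf (pow_ne_zero m hc0)
  intro O hO hOn
  by_cases hfix : fb74_Fixed σ τ O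
  · exact fb74_dd_mem_of_fixed O hO.2.1 hO.1 σ τ hfix.1 _ hθ0
  · -- the three translates of `O` are horizontal through `n` and not fixed
    have hOσ : s34i47_IsHoriz π (O.comap (σ : F →+* F)) :=
      pld32_comap_isHoriz π hπ σ hGσ.1 O hO
    have hOτ : s34i47_IsHoriz π (O.comap (τ : F →+* F)) :=
      pld32_comap_isHoriz π hπ τ hGτ.1 O hO
    have hOστ : s34i47_IsHoriz π ((O.comap (σ : F →+* F)).comap (τ : F →+* F)) :=
      pld32_comap_isHoriz π hπ τ hGτ.1 _ hOσ
    have hnσ : s34i47_Through B n (O.comap (σ : F →+* F)) :=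
      pld32_comap_through π hp0 W B hBW hsat σ hσB hGσ.2.2 n hπn O hOn
    have hnτ : s34i47_Through B n (O.comap (τ : F →+* F)) :=
      pld32_comap_through π hp0 W B hBW hsat τ hτB hGτ.2.2 n hπn O hOn
    have hnστ : s34i47_Through B n ((O.comap (σ : F →+* F)).comap (τ : F →+* F)) :=
      pld32_comap_through π hp0 W B hBW hsat τ hτB hGτ.2.2 n hπn _ hnσ
    exact (fb74_dd_isU_of_units O σ τ _ (key O hO hOn hfix)
      (key _ hOσ hnσ (fb74_not_fixed_comap_left σ τ O hfix))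
      (key _ hOτ hnτ (fb74_not_fixed_comap_right σ τ O hfix))
      (key _ hOστ hnστ (fb74_not_fixed_comap_both σ τ O hfix))).1

end Fermat.Agent.S34
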