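import Mathlib
import Fermat.Agent.S34.Iface47d
import Fermat.Agent.S34.FallbackLP74

/-!
# S34 lab, second route (helper74): the package `s34i47d_Pkg_LPD`

`fbd74_pkg_LPD : s34i47d_Pkg_LPD` — the LITERAL interface Prop of `Iface47d`:
(UZ′) + orders divisible by `m` + rational zeros and poles + finiteness + (ST) for `σ`, `τ`
⟹ (LP′) = `s34i47b_LocPrinDD`.

Proof: as `fb74_pkg_LP2` (`FallbackLP74.lean`), with `W := B` (the hypothesis (ST) is (G0) and
(G2) for `W = B`; (G1) is never used).  At a closed point `n`, `Dp` the set of deep points: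
`c := ∏ p_O ^ k_O` over the zeros and poles `O ∉ Dp` of `f` through `n`; `θ := f / c ^ m` is a
unit at every horizontal `O ∉ Dp` through `n`; for such `O` the rings `O.comap σ`, `O.comap τ`,
`(O.comap σ).comap τ` are horizontal through `n` and not in `Dp` (or not fixed by `σ`, `τ`), and
along an `O` fixed by `σ` the double difference of ANY `θ ≠ 0` is a unit (`fb74_dd_mem_of_fixed`).

* `fbd74_LP_core` : the common core, with the minimal hypotheses ((G0) for `σ`, `τ`; `σ`, `τ`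
  map `B` into `B` and are trivial modulo `π B`; `fb74_UZ2`).
* `fbd74_UZ2_of_UZD` : `s34i47d_UniqueZeroD` implies `fb74_UZ2`.
-/

set_option autoImplicit false

namespace Fermat.Agent.S34

section Core

variable {R K F : Type*} [CommRing R] [IsDomain R] [IsDiscreteValuationRing R] [Field K]
  [Field F] [Algebra R K] [IsFractionRing R K] [Algebra R F] [Algebra K F] [IsScalarTower R K F]

/-- (UZ′) of `Iface47d` implies the relaxed unique-zero property `fb74_UZ2`. -/
theorem fbd74_UZ2_of_UZD (π : R) (B : Subalgebra R F) (σ τ : F ≃+* F)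
    (h : s34i47d_UniqueZeroD K π B σ τ) : fb74_UZ2 K π B σ τ := by
  intro n hn hπn O hO hOn hrat
  obtain ⟨Dp, hDp, hUZ⟩ := h n hn hπn
  by_cases hOD : O ∈ Dp
  · left
    obtain ⟨h1, h2⟩ := hDp O hOD
    refine ⟨?_, ?_⟩
    · ext x
      rw [fb74_mem_comap]
      exact (h1 x).symm
    · ext x
      rw [fb74_mem_comap]
      exact (h2 x).symm
  · exact Or.inr (hUZ O hO hOn hrat hOD)

/-- **Core of (LP′)**: `fb74_UZ2` + Ord + Rat + Fin ⟹ `s34i47b_LocPrinDD`, for automorphisms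
`σ`, `τ` mapping `R` into `R`, `B` into `B` and trivial modulo `π B` on `B`. -/
theorem fbd74_LP_core (π : R) (hπ : Irreducible π) (B : Subalgebra R F) (m : ℕ) (hm : 0 < m)
    (σ τ : F ≃+* F) (f : F) (hf : f ≠ 0)
    (hσR : ∀ r : R, ∃ r' : R, σ (algebraMap R F r) = algebraMap R F r')
    (hτR : ∀ r : R, ∃ r' : R, τ (algebraMap R F r) = algebraMap R F r')
    (hσB : ∀ x ∈ B, σ x ∈ B) (hτB : ∀ x ∈ B, τ x ∈ B)
    (hσ1 : ∀ x ∈ B, (algebraMap R F π)⁻¹ * (σ x - x) ∈ B)
    (hτ1 : ∀ x ∈ B, (algebraMap R F π)⁻¹ * (τ x - x) ∈ B)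
    (hUZ : fb74_UZ2 K π B σ τ) (hOrd : s34i47_Ord π m f) (hRat : s34i47_Rat K π f)
    (hFin : s34i47_Fin π f) : s34i47b_LocPrinDD π m B σ τ f := by
  intro n hn hπn
  classical
  have hp0 : algebraMap R F π ≠ 0 := by
    rw [IsScalarTower.algebraMap_apply R K F]
    intro h0
    have h1 : algebraMap R K π = 0 := (map_eq_zero (algebraMap K F)).mp h0
    exact hπ.ne_zero ((map_eq_zero_iff _ (IsFractionRing.injective R K)).mp h1)
  have hfin : {O : ValuationSubring F | s34i47_IsHoriz π O ∧ s34i47_Through B n O ∧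
      ¬ (f ∈ O ∧ f⁻¹ ∈ O)}.Finite :=
    hFin.subset fun O hO => ⟨hO.1, hO.2.2⟩
  set T : Finset (ValuationSubring F) := hfin.toFinset with hT
  have hmemT : ∀ O : ValuationSubring F, O ∈ T ↔
      s34i47_IsHoriz π O ∧ s34i47_Through B n O ∧ ¬ (f ∈ O ∧ f⁻¹ ∈ O) := by
    intro O
    rw [hT, Set.Finite.mem_toFinset]
    rfl
  have hex : ∀ O ∈ T, ∃ g : F, g ≠ 0 ∧ (fb74_Fixed σ τ O ∨ lp9_IsU O (f / g ^ m)) ∧
      ∀ O' : ValuationSubring F, s34i47_IsHoriz π O' → s34i47_Through B n O' → O' ≠ O →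
        lp9_IsU O' g := by
    intro O hO
    rw [hmemT] at hO
    have hrat : s34i47_IsRat K O := (hRat O hO.1).resolve_left hO.2.2
    rcases hUZ n hn hπn O hO.1 hO.2.1 hrat with hfix | hp
    · exact ⟨1, one_ne_zero, Or.inl hfix, fun O' _ _ _ => lp9_IsU_one⟩
    · obtain ⟨g, hg0, hgU, hgo⟩ := fb74_local π B m hm f hf hOrd n O hO.1 hp
      exact ⟨g, hg0, Or.inr hgU, hgo⟩
  choose! g hg0 hgU hgother using hex
  have hc0 : ∏ O ∈ T, g O ≠ 0 := Finset.prod_ne_zero_iff.mpr hg0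
  refine ⟨∏ O ∈ T, g O, hc0, ?_⟩
  have key : ∀ O : ValuationSubring F, s34i47_IsHoriz π O → s34i47_Through B n O →
      ¬ fb74_Fixed σ τ O → lp9_IsU O (f / (∏ O' ∈ T, g O') ^ m) := by
    intro O hO hOn hnf
    by_cases hOT : O ∈ T
    · have hsplit : ∏ O' ∈ T, g O' = g O * ∏ O' ∈ T.erase O, g O' :=
        (Finset.mul_prod_erase T g hOT).symm
      have hrest : lp9_IsU O (∏ O' ∈ T.erase O, g O') := by
        apply lp9_IsU_prod
        intro O' hO'
        have h := Finset.mem_erase.mp hO'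
        exact hgother O' h.2 O hO hOn (Ne.symm h.1)
      have he : f / (∏ O' ∈ T, g O') ^ m =
          (f / g O ^ m) * ((∏ O' ∈ T.erase O, g O') ^ m)⁻¹ := by
        rw [hsplit, mul_pow, div_mul_eq_div_div, div_eq_mul_inv (f / g O ^ m)]
      rw [he]
      exact lp9_IsU_mul ((hgU O hOT).resolve_left hnf) (lp9_IsU_inv (lp9_IsU_pow hrest m))
    · have hfU : lp9_IsU O f := by
        by_contra h
        exact hOT ((hmemT O).mpr ⟨hO, hOn, h⟩)
      have hcU : lp9_IsU O (∏ O' ∈ T, g O') := by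
        apply lp9_IsU_prod
        intro O' hO'
        exact hgother O' hO' O hO hOn (by rintro rfl; exact hOT hO')
      rw [div_eq_mul_inv]
      exact lp9_IsU_mul hfU (lp9_IsU_inv (lp9_IsU_pow hcU m))
  have hθ0 : f / (∏ O' ∈ T, g O') ^ m ≠ 0 := div_ne_zero hf (pow_ne_zero m hc0)
  intro O hO hOn
  by_cases hfix : fb74_Fixed σ τ O
  · exact fb74_dd_mem_of_fixed O hO.2.1 hO.1 σ τ hfix.1 _ hθ0
  · have hBW : ∀ x ∈ B, x ∈ B.toSubring := fun x hx => hx
    have hsat : ∀ x ∈ B, (algebraMap R F π)⁻¹ * x ∈ B.toSubring →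
        (algebraMap R F π)⁻¹ * x ∈ B := fun x _ h => h
    have hOσ : s34i47_IsHoriz π (O.comap (σ : F →+* F)) :=
      pld32_comap_isHoriz π hπ σ hσR O hO
    have hOτ : s34i47_IsHoriz π (O.comap (τ : F →+* F)) :=
      pld32_comap_isHoriz π hπ τ hτR O hO
    have hOστ : s34i47_IsHoriz π ((O.comap (σ : F →+* F)).comap (τ : F →+* F)) :=
      pld32_comap_isHoriz π hπ τ hτR _ hOσ
    have hnσ : s34i47_Through B n (O.comap (σ : F →+* F)) :=
      pld32_comap_through π hp0 B.toSubring B hBW hsat σ hσB hσ1 n hπn O hOn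
    have hnτ : s34i47_Through B n (O.comap (τ : F →+* F)) :=
      pld32_comap_through π hp0 B.toSubring B hBW hsat τ hτB hτ1 n hπn O hOn
    have hnστ : s34i47_Through B n ((O.comap (σ : F →+* F)).comap (τ : F →+* F)) :=
      pld32_comap_through π hp0 B.toSubring B hBW hsat τ hτB hτ1 n hπn _ hnσ
    exact (fb74_dd_isU_of_units O σ τ _ (key O hO hOn hfix)
      (key _ hOσ hnσ (fb74_not_fixed_comap_left σ τ O hfix))
      (key _ hOτ hnτ (fb74_not_fixed_comap_right σ τ O hfix))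
      (key _ hOστ hnστ (fb74_not_fixed_comap_both σ τ O hfix))).1

end Core

/-- **Package (LP′ from UZ′)** of the second route: the literal Prop `s34i47d_Pkg_LPD`. -/
theorem fbd74_pkg_LPD : s34i47d_Pkg_LPD := by
  intro R K F _ _ _ _ _ _ _ _ _ _ π hπ B m hm σ τ f hf hSσ hSτ hUZ hOrd hRat hFin
  exact fbd74_LP_core π hπ B m hm σ τ f hf hSσ.1 hSτ.1 hSσ.2.2.1 hSτ.2.2.1 hSσ.2.2.2.2
    hSτ.2.2.2.2 (fbd74_UZ2_of_UZD π B σ τ hUZ) hOrd hRat hFin

end Fermat.Agent.S34
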