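import Mathlib
import Fermat.Agent.S18.FieldDef27
import Fermat.Agent.S42.OpenStab25

/-!
# S34 lab (helper88), row P9b: rational support

The descent package `ℚ̄ → L` for the bridge `JZero M ↔ F(M)_L` of the S34 lab: a Kummer function
`f` on `X₀(M)` over `ℚ̄` is defined over a number field `L`, and for `L` large enough and normal
over `ℚ` every place in the support of `div f` -- and every Galois conjugate of such a place --
is an `L`-**rational point**, in evaluation form: every function defined over `L` which is
regular at the place takes a value in `L` there.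

Abstract part (any `Place K F`, any `SemilinearAut K F`), value shape of `wp1_exists_const`
(`x = c ∨ 0 < ord_v (x - c)`):

* `rs88_value_unique` : a function has at most one value at a place;
* `rs88_value_smul` : `g • x` takes the value `g c` at `g • v`;
* `rs88_value_fixed` : if `g` fixes the place and the function, it fixes the value.

Modular part (`F̄ = modularFunctionFieldBar M`, `F_L = modularFunctionFieldFullC L M`,
`ι = fd27_iota (algebraMap L ℚ̄) M`, coefficientwise Galois action `arithmeticGalois`):

* `rs88_iota_fixed` : `ι x` is fixed by every `τ` fixing `L` pointwise;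
* `rs88_iota_restrict` : `σ • ι x = ι (coeffMap (σ|L) x)` for `L` normal over `ℚ`;
* `rs88_rational_of_stab` : if the stabiliser of a place `P` contains the fixing group of a
  finite set `S₀ ⊆ L` and `L / ℚ` is normal, every `σ • P` is `L`-rational;
* `rs88_exists` : **eventual form** -- there is a number field `L₀` (containing any prescribed
  finite set `T`) such that for EVERY intermediate field `L ⊇ L₀`: `f = ι f_L`, and if `L / ℚ` is
  normal then `σ • P` is `L`-rational for all `σ` and all `P` in the support of `div f`;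
* `rs88_main` : the same with ONE finite Galois extension `L / ℚ`.
-/

set_option autoImplicit false
set_option linter.style.haveILetI false

open ModularCurve AlgebraicCurve IntermediateField

namespace Fermat.Agent.S34

open Fermat.Agent.S18 Fermat.Agent.S24 Fermat.Agent.S37 Fermat.Agent.S42

section Value

variable {K F : Type*} [Field K] [Field F] [Algebra K F]

theorem rs88_ord_neg (v : Place K F) (f : F) : v.ord (-f) = v.ord f := by
  rcases eq_or_ne f 0 with rfl | hf
  · simp
  have h1 : (-f) = algebraMap K F (-1) * f := by rw [map_neg, map_one]; ring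
  have h2 : algebraMap K F (-1) ≠ 0 := by
    rw [map_neg, map_one]; exact neg_ne_zero.mpr one_ne_zero
  rw [h1, v.ord_mul h2 hf, wp1_ord_algebraMap, zero_add]

/-- A function has at most one value at a place. -/
theorem rs88_value_unique (v : Place K F) (x : F) (c c' : K)
    (h : x = algebraMap K F c ∨ 0 < v.ord (x - algebraMap K F c))
    (h' : x = algebraMap K F c' ∨ 0 < v.ord (x - algebraMap K F c')) : c = c' := by
  by_contra hne
  have hd : algebraMap K F c' - algebraMap K F c = algebraMap K F (c' - c) := by
    rw [map_sub]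
  have hd0 : algebraMap K F (c' - c) ≠ 0 := by
    rw [Ne, map_eq_zero, sub_eq_zero]
    exact fun h => hne h.symm
  have hord : v.ord (algebraMap K F c' - algebraMap K F c) = 0 := by
    rw [hd]; exact wp1_ord_algebraMap v _
  rcases h with h | h
  · rcases h' with h' | h'
    · exact hne ((algebraMap K F).injective (h.symm.trans h'))
    · rw [h] at h'
      have : v.ord (algebraMap K F c - algebraMap K F c') = 0 := by
        rw [← map_sub]; exact wp1_ord_algebraMap v _
      omega
  · rcases h' with h' | h'
    · rw [h'] at h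
      omega
    · have ha : x - algebraMap K F c ≠ 0 := by
        intro h0; rw [h0] at h; simp at h
      have hb : x - algebraMap K F c' ≠ 0 := by
        intro h0; rw [h0] at h'; simp at h'
      have hsum : (x - algebraMap K F c) + -(x - algebraMap K F c')
          = algebraMap K F c' - algebraMap K F c := by ring
      have hsum0 : (x - algebraMap K F c) + -(x - algebraMap K F c') ≠ 0 := by
        rw [hsum, hd]; exact hd0
      have := wp1_ord_add v _ _ hsum0 ha (neg_ne_zero.mpr hb)
      rw [hsum, hord, rs88_ord_neg] at this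
      have h3 : 0 < min (v.ord (x - algebraMap K F c)) (v.ord (x - algebraMap K F c')) :=
        lt_min h h'
      omega

/-- `g • x` takes the value `g c` at `g • v`. -/
theorem rs88_value_smul (g : SemilinearAut K F) (v : Place K F) (x : F) (c : K)
    (h : x = algebraMap K F c ∨ 0 < v.ord (x - algebraMap K F c)) :
    g • x = algebraMap K F (SemilinearAut.baseAut g c) ∨
      0 < (g • v).ord (g • x - algebraMap K F (SemilinearAut.baseAut g c)) := by
  rcases h with h | h
  · left
    rw [h, SemilinearAut.smul_algebraMap]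
  · right
    have h1 := SemilinearAut.ord_smul g v (x - algebraMap K F c)
    rw [smul_sub, SemilinearAut.smul_algebraMap] at h1
    rw [h1]
    exact h

/-- If `g` fixes the place and the function, it fixes the value. -/
theorem rs88_value_fixed (g : SemilinearAut K F) (v : Place K F) (x : F) (c : K)
    (hv : g • v = v) (hx : g • x = x)
    (h : x = algebraMap K F c ∨ 0 < v.ord (x - algebraMap K F c)) :
    SemilinearAut.baseAut g c = c := by
  have h1 := rs88_value_smul g v x c h
  rw [hv, hx] at h1
  exact rs88_value_unique v x _ _ h1 h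

end Value

section Modular

local notation "Q̄" => AlgebraicClosure ℚ

variable (M : ℕ)

/-- `ι x` is fixed by every `τ` fixing `L` pointwise. -/
theorem rs88_iota_fixed (L : IntermediateField ℚ Q̄) (τ : Q̄ ≃ₐ[ℚ] Q̄)
    (hτ : ∀ a ∈ L, τ a = a) (x : ↥(modularFunctionFieldFullC L M)) :
    arithmeticGalois (modularFunctionFieldFull M) τ • fd27_iota (algebraMap L Q̄) M x
      = fd27_iota (algebraMap L Q̄) M x := by
  apply Subtype.ext
  rw [coe_arithmeticGalois_smul, fd27_iota_coe, coeffMap_coeffMap]
  exact coeffMap_congr (RingHom.ext fun a => hτ _ a.2) _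

/-- Elements of a normal intermediate field stay in it under `Gal(ℚ̄/ℚ)`. -/
theorem rs88_map_mem (L : IntermediateField ℚ Q̄) [Normal ℚ L] (σ : Q̄ ≃ₐ[ℚ] Q̄) {a : Q̄}
    (ha : a ∈ L) : σ a ∈ L := by
  have h := AlgEquiv.restrictNormal_commutes σ L ⟨a, ha⟩
  have h2 : σ a = algebraMap L Q̄ (σ.restrictNormal L ⟨a, ha⟩) := h.symm
  rw [h2]
  exact (σ.restrictNormal L ⟨a, ha⟩).2

/-- Restriction of the coefficientwise action to `F(M)_L`, `L` normal over `ℚ`. -/
theorem rs88_iota_restrict (L : IntermediateField ℚ Q̄) [Normal ℚ L] (σ : Q̄ ≃ₐ[ℚ] Q̄)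
    (x : ↥(modularFunctionFieldFullC L M)) :
    fd27_iota (algebraMap L Q̄) M
        ⟨coeffMap ((σ.restrictNormal L : L ≃ₐ[ℚ] L) : L →+* L) (x : LaurentSeries L),
          fd27_coeffMap_mem _ M x.2⟩
      = arithmeticGalois (modularFunctionFieldFull M) σ • fd27_iota (algebraMap L Q̄) M x := by
  apply Subtype.ext
  rw [coe_arithmeticGalois_smul, fd27_iota_coe, fd27_iota_coe, coeffMap_coeffMap,
    coeffMap_coeffMap]
  exact coeffMap_congr (RingHom.ext fun a => AlgEquiv.restrictNormal_commutes σ L a) _

variable [NeZero M]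

/-- **Rationality from the stabiliser.**  If the place `P` is fixed by every `ρ` fixing the
finite set `S₀ ⊆ L` and `L / ℚ` is normal, then every conjugate `σ • P` is an `L`-rational
point: functions defined over `L` and regular at `σ • P` take values in `L` there. -/
theorem rs88_rational_of_stab (L : IntermediateField ℚ Q̄) [Normal ℚ L]
    (P : Place Q̄ ↥(modularFunctionFieldBar M)) (S₀ : Finset Q̄) (hS₀ : ∀ a ∈ S₀, a ∈ L)
    (hP : ∀ ρ : Q̄ ≃ₐ[ℚ] Q̄, (∀ a ∈ S₀, ρ a = a) →
      arithmeticGalois (modularFunctionFieldFull M) ρ • P = P)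
    (σ : Q̄ ≃ₐ[ℚ] Q̄) (x : ↥(modularFunctionFieldFullC L M))
    (hx : fd27_iota (algebraMap L Q̄) M x ∈
      (arithmeticGalois (modularFunctionFieldFull M) σ • P).toValuationSubring) :
    ∃ c : L, fd27_iota (algebraMap L Q̄) M x
          = algebraMap Q̄ ↥(modularFunctionFieldBar M) (c : Q̄) ∨
        0 < (arithmeticGalois (modularFunctionFieldFull M) σ • P).ord
          (fd27_iota (algebraMap L Q̄) M x - algebraMap Q̄ ↥(modularFunctionFieldBar M) (c : Q̄)) := by
  haveI := hi63_finite_x M
  obtain ⟨c₀, hc₀⟩ := wp1_exists_const (hi63_x M) (hi63_x_transcendental M)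
    (arithmeticGalois (modularFunctionFieldFull M) σ • P) _ hx
  have hmem : c₀ ∈ L := by
    haveI : IsAlgClosure ℚ Q̄ := ⟨inferInstance, AlgebraicClosure.isAlgebraic ℚ⟩
    haveI : IsGalois ℚ Q̄ := IsAlgClosure.isGalois ℚ Q̄
    rw [← InfiniteGalois.fixedField_fixingSubgroup L, IntermediateField.mem_fixedField_iff]
    intro τ hτ
    rw [IntermediateField.mem_fixingSubgroup_iff] at hτ
    have hτL : ∀ a ∈ L, τ a = a := fun a ha => hτ a ha
    -- `τ` fixes the place `σ • P`
    have hρ : ∀ a ∈ S₀, (σ⁻¹ * τ * σ) a = a := by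
      intro a ha
      show σ⁻¹ (τ (σ a)) = a
      rw [hτL _ (rs88_map_mem L σ (hS₀ a ha))]
      exact σ.symm_apply_apply a
    have h1 := hP _ hρ
    rw [map_mul, map_mul, mul_smul, mul_smul] at h1
    have h2 : arithmeticGalois (modularFunctionFieldFull M) τ •
        (arithmeticGalois (modularFunctionFieldFull M) σ • P)
        = arithmeticGalois (modularFunctionFieldFull M) σ • P := by
      have h3 : arithmeticGalois (modularFunctionFieldFull M) σ •
          ((arithmeticGalois (modularFunctionFieldFull M) σ⁻¹) •
            (arithmeticGalois (modularFunctionFieldFull M) τ •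
              (arithmeticGalois (modularFunctionFieldFull M) σ • P)))
          = arithmeticGalois (modularFunctionFieldFull M) σ • P := by rw [h1]
      rwa [map_inv, smul_inv_smul] at h3
    have h4 := rs88_value_fixed (arithmeticGalois (modularFunctionFieldFull M) τ) _ _ c₀ h2
      (rs88_iota_fixed M L τ hτL x) hc₀
    exact h4
  exact ⟨⟨c₀, hmem⟩, hc₀⟩

/-- **Rational support, eventual form.**  For a nonzero function `f` on `X₀(M)` over `ℚ̄` and a
finite set `T` of algebraic numbers there is a number field `L₀ ∋ T` such that for every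
intermediate field `L ⊇ L₀`: `f` is defined over `L`, and if `L / ℚ` is normal then every Galois
conjugate of every place in the support of `div f` is an `L`-rational point. -/
theorem rs88_exists (f : ↥(modularFunctionFieldBar M)) (hf : f ≠ 0) (T : Finset Q̄) :
    ∃ L₀ : IntermediateField ℚ Q̄, FiniteDimensional ℚ L₀ ∧ (∀ t ∈ T, t ∈ L₀) ∧
      ∀ L : IntermediateField ℚ Q̄, L₀ ≤ L →
        (∃ fL : ↥(modularFunctionFieldFullC L M), fd27_iota (algebraMap L Q̄) M fL = f) ∧
        (Normal ℚ L → ∀ P : Place Q̄ ↥(modularFunctionFieldBar M), P.ord f ≠ 0 →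
          ∀ (σ : Q̄ ≃ₐ[ℚ] Q̄) (x : ↥(modularFunctionFieldFullC L M)),
            fd27_iota (algebraMap L Q̄) M x ∈
              (arithmeticGalois (modularFunctionFieldFull M) σ • P).toValuationSubring →
            ∃ c : L, fd27_iota (algebraMap L Q̄) M x
                  = algebraMap Q̄ ↥(modularFunctionFieldBar M) (c : Q̄) ∨
                0 < (arithmeticGalois (modularFunctionFieldFull M) σ • P).ord
                  (fd27_iota (algebraMap L Q̄) M x -
                    algebraMap Q̄ ↥(modularFunctionFieldBar M) (c : Q̄))) := by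
  classical
  haveI := hi63_hasPrincipalDivisors_bar M
  obtain ⟨D, hD, -⟩ := HasPrincipalDivisors.exists_divisor (K := Q̄) f hf
  have hopen : os25_Open (fun σ => ∀ P ∈ D.support,
      arithmeticGalois (modularFunctionFieldFull M) σ • P = P) :=
    os25_Open.finset D.support fun P _ => os25_open_place (modularFunctionFieldFull M) P
  obtain ⟨S₀, hS₀⟩ := hopen
  obtain ⟨K0, hK0fd, hK0T, hK0f⟩ := fd27_exists M {(f : LaurentSeries Q̄)}
    (by
      intro x hx
      rw [Finset.mem_singleton] at hx
      rw [hx]; exact f.2) (T ∪ S₀)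
  refine ⟨K0, hK0fd, fun t ht => hK0T t (Finset.mem_union_left _ ht), ?_⟩
  intro L hL
  refine ⟨?_, ?_⟩
  · obtain ⟨y, hy, hyf⟩ := hK0f _ (Finset.mem_singleton_self _)
    obtain ⟨y', hy', hyy⟩ := fd27_lift hL M y hy
    refine ⟨⟨y', hy'⟩, Subtype.ext ?_⟩
    rw [fd27_iota_coe]
    exact hyy.trans hyf
  · intro hnorm P hP σ x hx
    haveI := hnorm
    have hPD : P ∈ D.support := by
      rw [Finsupp.mem_support_iff, hD]; exact hP
    exact rs88_rational_of_stab M L P S₀
      (fun a ha => hL (hK0T a (Finset.mem_union_right _ ha)))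
      (fun ρ hρ => hS₀ ρ hρ P hPD) σ x hx

/-- **Rational support, Galois form.**  One finite Galois extension `L / ℚ` inside `ℚ̄`,
containing a prescribed finite set `T`, over which `f` is defined and all Galois conjugates of
the places in the support of `div f` are rational. -/
theorem rs88_main (f : ↥(modularFunctionFieldBar M)) (hf : f ≠ 0) (T : Finset Q̄) :
    ∃ L : IntermediateField ℚ Q̄, FiniteDimensional ℚ L ∧ IsGalois ℚ L ∧ (∀ t ∈ T, t ∈ L) ∧
      (∃ fL : ↥(modularFunctionFieldFullC L M), fd27_iota (algebraMap L Q̄) M fL = f) ∧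
      ∀ P : Place Q̄ ↥(modularFunctionFieldBar M), P.ord f ≠ 0 →
        ∀ (σ : Q̄ ≃ₐ[ℚ] Q̄) (x : ↥(modularFunctionFieldFullC L M)),
          fd27_iota (algebraMap L Q̄) M x ∈
            (arithmeticGalois (modularFunctionFieldFull M) σ • P).toValuationSubring →
          ∃ c : L, fd27_iota (algebraMap L Q̄) M x
                = algebraMap Q̄ ↥(modularFunctionFieldBar M) (c : Q̄) ∨
              0 < (arithmeticGalois (modularFunctionFieldFull M) σ • P).ord
                (fd27_iota (algebraMap L Q̄) M x -
                  algebraMap Q̄ ↥(modularFunctionFieldBar M) (c : Q̄)) := by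
  obtain ⟨L₀, hfd, hT, h⟩ := rs88_exists M f hf T
  haveI := hfd
  have halg : Algebra.IsAlgebraic ℚ Q̄ := AlgebraicClosure.isAlgebraic ℚ
  haveI : IsAlgClosure ℚ Q̄ := ⟨inferInstance, halg⟩
  haveI : Normal ℚ Q̄ := IsAlgClosure.normal ℚ Q̄
  have hfdL : FiniteDimensional ℚ ↥(IntermediateField.normalClosure ℚ L₀ Q̄) :=
    normalClosure.is_finiteDimensional ℚ L₀ Q̄
  have hnorm : Normal ℚ ↥(IntermediateField.normalClosure ℚ L₀ Q̄) :=
    normalClosure.normal ℚ L₀ Q̄
  have hsep : Algebra.IsSeparable ℚ ↥(IntermediateField.normalClosure ℚ L₀ Q̄) :=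
    ⟨fun x => (minpoly.irreducible (hnorm.isIntegral x)).separable⟩
  obtain ⟨h1, h2⟩ := h (IntermediateField.normalClosure ℚ L₀ Q̄) L₀.le_normalClosure
  exact ⟨IntermediateField.normalClosure ℚ L₀ Q̄, hfdL, ⟨⟩,
    fun t ht => L₀.le_normalClosure (hT t ht), h1, h2 hnorm⟩

end Modular

end Fermat.Agent.S34
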