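import Mathlib
import Fermat.Agent.S34.Iface47
import Fermat.Agent.S34.RatSupp88
import Fermat.Agent.S18.ConstExtModular25
import Fermat.Agent.S18.NumFieldDVR23

/-!
# S34 lab (helper92, twin of registry row P9b-FieldDef): `s34i47_Pkg_FieldDef`

The package `CORE M q m ⟹ FFU M q m` of the interface `Iface47`, literally:

* `fd92_inertia` : an element of an inertia group of a valuation subring `A` preserves `A` and
  acts trivially on its residue field;
* `fd92_inertial` : for a normal intermediate field `L` of `ℚ̄ / ℚ` the restriction to `L` of an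
  inertia element of `A` is inertial (`s34i47_Inertial`) for the ring `A ∩ L`;
* `fd92_iota_coeffEquiv` : the base change map `F(M)_L → F(M)_{ℚ̄}` intertwines the coefficientwise
  action of `t|_L` with the arithmetic action of `t`;
* `fd92_pkg_fieldDef : s34i47_Pkg_FieldDef`.

Proof of the last: descend the Kummer function `f` to a finite Galois extension `L / ℚ` over
which all zeros and poles of `f` are rational points (`rs88_main`, helper88), apply `CORE` over
the discrete valuation ring `A ∩ L` to the restriction of the inertia element, push the resulting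
identity `f₀ ^ m * dd f_L = c` back to `ℚ̄` and extract an `m`-th root of the constant `c`.
-/

set_option autoImplicit false
set_option linter.style.haveILetI false

open ModularCurve AlgebraicCurve IntermediateField

namespace Fermat.Agent.S34

open Fermat.Agent.S18 Fermat.Agent.S24

local notation "Q̄" => AlgebraicClosure ℚ

section Inertia

variable {L : Type*} [Field L] (K : Type*) [Field K] [Algebra K L] (A : ValuationSubring L)

/-- Elements of an inertia group preserve the valuation ring and act trivially on its residue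
field. -/
theorem fd92_inertia {σ : L ≃ₐ[K] L} (hσ : σ ∈ A.inertiaSubgroupIn K) (x : L) (hx : x ∈ A) :
    σ x ∈ A ∧ σ x - x ∈ A.nonunits := by
  obtain ⟨τ, hτ, rfl⟩ := Subgroup.mem_map.mp hσ
  have hmem : (τ : L ≃ₐ[K] L) x ∈ A := (A.subMulAction K).smul_mem τ (x := x) hx
  refine ⟨hmem, ?_⟩
  have h1 : MulSemiringAction.toRingAut (A.decompositionSubgroup K) (IsLocalRing.ResidueField A) τ
      = 1 := MonoidHom.mem_ker.mp hτ
  have h2 : τ • (IsLocalRing.residue A ⟨x, hx⟩) = IsLocalRing.residue A ⟨x, hx⟩ := by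
    have := congrArg (fun f => f (IsLocalRing.residue A ⟨x, hx⟩)) h1
    simpa using this
  rw [← IsLocalRing.ResidueField.residue_smul] at h2
  have h3 : IsLocalRing.residue A (τ • (⟨x, hx⟩ : A) - ⟨x, hx⟩) = 0 := by
    rw [map_sub, h2, sub_self]
  rw [IsLocalRing.residue_eq_zero_iff] at h3
  exact ValuationSubring.coe_mem_nonunits_iff.mpr h3

end Inertia

section Restrict

variable (L : IntermediateField ℚ Q̄) [Normal ℚ L] (A : ValuationSubring Q̄)

/-- The restriction to a normal intermediate field `L` of an inertia element of `A` is inertial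
for the ring `A ∩ L`. -/
theorem fd92_inertial {t : Q̄ ≃ₐ[ℚ] Q̄} (ht : t ∈ A.inertiaSubgroupIn ℚ) :
    s34i47_Inertial (↥(A.comap (algebraMap ↥L Q̄))) ((t.restrictNormal L).toRingEquiv) := by
  intro r
  have hcomm : algebraMap ↥L Q̄ (t.restrictNormal L (r : ↥L)) = t (algebraMap ↥L Q̄ (r : ↥L)) :=
    AlgEquiv.restrictNormal_commutes t L (r : ↥L)
  have hr : algebraMap ↥L Q̄ (r : ↥L) ∈ A := r.2
  obtain ⟨h1, h2⟩ := fd92_inertia ℚ A ht _ hr
  have hmem : t.restrictNormal L (r : ↥L) ∈ A.comap (algebraMap ↥L Q̄) := by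
    rw [ValuationSubring.mem_comap, hcomm]
    exact h1
  refine ⟨⟨_, hmem⟩, rfl, ?_⟩
  rw [← ValuationSubring.coe_mem_nonunits_iff, nf23_mem_nonunits_comap]
  have h3 : algebraMap ↥L Q̄
      ((((⟨_, hmem⟩ : ↥(A.comap (algebraMap ↥L Q̄))) - r :
        ↥(A.comap (algebraMap ↥L Q̄))) : ↥L)) =
      t (algebraMap ↥L Q̄ (r : ↥L)) - algebraMap ↥L Q̄ (r : ↥L) := by
    rw [← hcomm, ← map_sub]
    rfl
  rw [h3]
  exact h2

end Restrict

section Main

variable (M : ℕ)

/-- The base change map `F(M)_L → F(M)_{ℚ̄}` intertwines the coefficientwise action of `t|_L`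
with the arithmetic action of `t`. -/
theorem fd92_iota_coeffEquiv (L : IntermediateField ℚ Q̄) [Normal ℚ L] (t : Q̄ ≃ₐ[ℚ] Q̄)
    (x : ↥(modularFunctionFieldFullC ↥L M)) :
    fd27_iota (algebraMap ↥L Q̄) M (s34i47_coeffEquiv ((t.restrictNormal L).toRingEquiv) M x) =
      arithmeticRingAut (modularFunctionFieldFull M) t (fd27_iota (algebraMap ↥L Q̄) M x) := by
  apply Subtype.ext
  rw [coe_arithmeticRingAut_apply, fd27_iota_coe, fd27_iota_coe, s34i47_coeffEquiv_coe,
    coeffMap_coeffMap, coeffMap_coeffMap]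
  exact coeffMap_congr (RingHom.ext fun a => AlgEquiv.restrictNormal_commutes t L a) _

/-- **P9b**: `CORE M q m ⟹ FFU M q m` (`s34i47_Pkg_FieldDef` of `Iface47`). -/
theorem fd92_pkg_fieldDef : s34i47_Pkg_FieldDef := by
  intro M q m hM hq hm hcore A hA t ht f hf hdiv
  haveI := hM
  obtain ⟨L, hfd, hgal, -, ⟨fL, hfL⟩, hrat⟩ := rs88_main M f hf ∅
  haveI := hfd
  haveI := hgal
  haveI hnorm : Normal ℚ ↥L := inferInstance
  haveI hNF : NumberField ↥L := fd27_numberField L hfd
  have hιcoe : ∀ x : ↥(modularFunctionFieldFullC ↥L M),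
      ((fd27_iota (algebraMap ↥L Q̄) M x : ↥(modularFunctionFieldBar M)) : LaurentSeries Q̄) =
        coeffMap (algebraMap ↥L Q̄) (x : LaurentSeries ↥L) := fun x => fd27_iota_coe _ _ x
  have hfL0 : fL ≠ 0 := by
    rintro rfl
    exact hf (by rw [← hfL, map_zero])
  -- the discrete valuation ring `A ∩ L`
  haveI hdvr : IsDiscreteValuationRing ↥(A.comap (algebraMap ↥L Q̄)) :=
    nf23_comap_isDVR_of_liesOverPrime (algebraMap ↥L Q̄) A hq.ne_zero hA
  obtain ⟨π, hπ⟩ := IsDiscreteValuationRing.exists_irreducible ↥(A.comap (algebraMap ↥L Q̄))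
  letI alg : Algebra ↥(A.comap (algebraMap ↥L Q̄)) ↥(modularFunctionFieldFullC ↥L M) :=
    ((algebraMap ↥L ↥(modularFunctionFieldFullC ↥L M)).comp
      (algebraMap ↥(A.comap (algebraMap ↥L Q̄)) ↥L)).toAlgebra
  haveI htower : IsScalarTower ↥(A.comap (algebraMap ↥L Q̄)) ↥L
      ↥(modularFunctionFieldFullC ↥L M) := IsScalarTower.of_algebraMap_eq (fun _ => rfl)
  have hunit : ∀ n : ℕ, Nat.Coprime n q →
      IsUnit ((n : ℕ) : ↥(A.comap (algebraMap ↥L Q̄))) := by
    intro n hn
    obtain ⟨μ, hμ⟩ := nf23_exists_natCast_mul_eq_one (algebraMap ↥L Q̄) A hA hn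
    exact IsUnit.of_mul_eq_one _ hμ
  have hqnu : ¬ IsUnit ((q : ℕ) : ↥(A.comap (algebraMap ↥L Q̄))) := by
    intro hu
    have h1 : ((q : ↥L)) ∈ (A.comap (algebraMap ↥L Q̄)).nonunits := by
      rw [nf23_mem_nonunits_comap, map_natCast]
      exact hA
    have h2 : ((q : ℕ) : ↥(A.comap (algebraMap ↥L Q̄))) ∈
        IsLocalRing.maximalIdeal ↥(A.comap (algebraMap ↥L Q̄)) := by
      rw [← ValuationSubring.coe_mem_nonunits_iff]
      exact h1
    exact h2 hu
  have hσ := fd92_inertial L A ht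
  -- the hypotheses of CORE on the places of `F(M)_L`
  have hP1 : ∀ P : Place ↥L ↥(modularFunctionFieldFullC ↥L M), (m : ℤ) ∣ P.ord fL := by
    intro P
    refine cx_modular_place_dvd (K0 := ↥L) (fd27_iota (algebraMap ↥L Q̄) M) hιcoe (m : ℤ) fL ?_ P
    intro P'
    rw [hfL]
    exact hdiv P'
  have hP2 : ∀ P : Place ↥L ↥(modularFunctionFieldFullC ↥L M),
      (fL ∈ P.toValuationSubring ∧ fL⁻¹ ∈ P.toValuationSubring) ∨
        s34i47_IsRat ↥L P.toValuationSubring := by
    intro P
    obtain ⟨P', hP'⟩ := cx_modular_place_exists (K0 := ↥L) (fd27_iota (algebraMap ↥L Q̄) M)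
      hιcoe P
    by_cases h0 : P'.ord f = 0
    · left
      have h1 : P.ord fL = 0 := by rw [← hP' fL, hfL, h0]
      refine ⟨(wp1_mem_iff_ord_nonneg P fL).mpr h1.ge,
        (wp1_mem_iff_ord_nonneg P fL⁻¹).mpr ?_⟩
      rw [Place.ord_inv, h1, neg_zero]
    · right
      intro x hx
      have hx' : fd27_iota (algebraMap ↥L Q̄) M x ∈ P'.toValuationSubring :=
        (wp1_mem_iff_ord_nonneg P' _).mpr
          (by rw [hP' x]; exact (wp1_mem_iff_ord_nonneg P x).mp hx)
      have hx1 : fd27_iota (algebraMap ↥L Q̄) M x ∈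
          (arithmeticGalois (modularFunctionFieldFull M) (1 : Q̄ ≃ₐ[ℚ] Q̄) • P').toValuationSubring := by
        rw [map_one, one_smul]
        exact hx'
      obtain ⟨c, hc⟩ := hrat P' h0 1 x hx1
      rw [map_one, one_smul] at hc
      refine ⟨c, ?_⟩
      have hcmap : fd27_iota (algebraMap ↥L Q̄) M
          (algebraMap ↥L ↥(modularFunctionFieldFullC ↥L M) c) =
          algebraMap Q̄ ↥(modularFunctionFieldBar M) (c : Q̄) :=
        fd27_iota_algebraMap (algebraMap ↥L Q̄) M c
      rcases hc with hc | hc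
      · left
        apply fd27_iota_injective (algebraMap ↥L Q̄) M
        rw [hcmap]
        exact hc
      · right
        intro hinv
        rw [← hcmap, ← map_sub, hP'] at hc
        have h2 := (wp1_mem_iff_ord_nonneg P _).mp hinv
        rw [Place.ord_inv] at h2
        omega
  obtain ⟨f₀, c, hf₀, -, hmain⟩ := hcore ↥(A.comap (algebraMap ↥L Q̄)) ↥L π hπ hunit hqnu
    ((t.restrictNormal L).toRingEquiv) ((t.restrictNormal L).toRingEquiv) hσ hσ fL hfL0 hP1 hP2
  -- transport to `ℚ̄`
  have hι := congrArg (fd27_iota (algebraMap ↥L Q̄) M) hmain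
  have hdd : fd27_iota (algebraMap ↥L Q̄) M
      (s34i47_dd (s34i47_coeffEquiv ((t.restrictNormal L).toRingEquiv) M)
        (s34i47_coeffEquiv ((t.restrictNormal L).toRingEquiv) M) fL) =
      s34i47_dd (arithmeticRingAut (modularFunctionFieldFull M) t)
        (arithmeticRingAut (modularFunctionFieldFull M) t) f := by
    unfold s34i47_dd
    rw [map_div₀, map_mul, map_mul, fd92_iota_coeffEquiv, fd92_iota_coeffEquiv, hfL]
  rw [map_mul, map_pow, hdd, fd27_iota_algebraMap] at hι
  obtain ⟨γ, hγ⟩ := IsAlgClosed.exists_pow_nat_eq (algebraMap ↥L Q̄ c) hm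
  have hf0' : fd27_iota (algebraMap ↥L Q̄) M f₀ ≠ 0 :=
    (map_ne_zero_iff _ (fd27_iota_injective (algebraMap ↥L Q̄) M)).mpr hf₀
  refine ⟨algebraMap Q̄ ↥(modularFunctionFieldBar M) γ *
    (fd27_iota (algebraMap ↥L Q̄) M f₀)⁻¹, ?_⟩
  rw [mul_pow, ← map_pow, hγ, ← hι, inv_pow, mul_comm, ← mul_assoc,
    inv_mul_cancel₀ (pow_ne_zero m hf0'), one_mul]

end Main

end Fermat.Agent.S34
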