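import Fermat.Agent.S34.Iface47
import Fermat.Agent.S18.ConstExtModular25
import Fermat.Agent.S37.HeckeInputs63

/-!
# S34 lab: `s34i47_Pkg_Fin` (helper75, twin of row 500)

Finiteness of the zeros and poles of a nonzero function of `F_K(M)` over a field `K` of
characteristic `0` mapping to `ℚ̄`: every place of `F_K(M) / K` extends to a place of
`F_{ℚ̄}(M) / ℚ̄` with the same orders (`cx_modular_place_exists`, S18), the extension determines
the place, and over `ℚ̄` the function field has principal divisors
(`hi63_hasPrincipalDivisors_bar`, S37).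

* `fs75_ord_ne_zero` : a function which is not a unit at a place has nonzero order there.
* `fs75_finite_ord_ne_zero` : `{P | P.ord f ≠ 0}` is finite (`K` of characteristic `0`).
* `fs75_finSupp` : `s34i47_FinSupp M`.
* `fs75_pkg_fin` : `s34i47_Pkg_Fin` (the literal package `Prop` of `Iface47`).
-/

set_option autoImplicit false

open ModularCurve AlgebraicCurve

open Fermat.Agent.S18 Fermat.Agent.S24 Fermat.Agent.S37

namespace Fermat.Agent.S34

local notation "Q̄" => AlgebraicClosure ℚ

/-- A function which is not a unit at a place has nonzero order there. -/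
theorem fs75_ord_ne_zero {K F : Type*} [Field K] [Field F] [Algebra K F] (P : Place K F) {f : F}
    (h : ¬ (f ∈ P.toValuationSubring ∧ f⁻¹ ∈ P.toValuationSubring)) : P.ord f ≠ 0 := by
  intro h0
  apply h
  refine ⟨(wp1_mem_iff_ord_nonneg P f).mpr (by omega), (wp1_mem_iff_ord_nonneg P f⁻¹).mpr ?_⟩
  rw [P.ord_inv]
  omega

/-- Finiteness of the zeros and poles of a nonzero function of `F_K(M)`, `K` of characteristic
`0` inside `ℚ̄`. -/
theorem fs75_finite_ord_ne_zero (M : ℕ) [NeZero M] (K : Type) [Field K] [CharZero K]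
    [Algebra K Q̄] (f : ↥(modularFunctionFieldFullC K M)) (hf : f ≠ 0) :
    {P : Place K ↥(modularFunctionFieldFullC K M) | P.ord f ≠ 0}.Finite := by
  classical
  have hPD : HasPrincipalDivisors Q̄ ↥(modularFunctionFieldBar M) :=
    hi63_hasPrincipalDivisors_bar M
  have hιf : cx_iota K M f ≠ 0 := (map_ne_zero (cx_iota K M)).mpr hf
  obtain ⟨D, hD, -⟩ := HasPrincipalDivisors.exists_divisor (K := Q̄) (cx_iota K M f) hιf
  choose ext hext using fun P : Place K ↥(modularFunctionFieldFullC K M) =>
    cx_modular_place_exists (cx_iota K M) (cx_iota_coe K M) P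
  refine Set.Finite.of_finite_image (f := ext) ((D.support.finite_toSet).subset ?_) ?_
  · rintro _ ⟨P, hP, rfl⟩
    rw [Finset.mem_coe, Finsupp.mem_support_iff, hD, hext]
    exact hP
  · intro P1 _ P2 _ h12
    apply Place.ext
    ext g
    rw [wp1_mem_iff_ord_nonneg, wp1_mem_iff_ord_nonneg, ← hext P1 g, ← hext P2 g, h12]

/-- **FIN** at level `M`. -/
theorem fs75_finSupp (M : ℕ) [NeZero M] : s34i47_FinSupp M := by
  intro K _ _ _ f hf
  refine (fs75_finite_ord_ne_zero M K f hf).subset ?_
  intro P hP
  exact fs75_ord_ne_zero P hP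

/-- **The package `s34i47_Pkg_Fin`** of the interface. -/
theorem fs75_pkg_fin : s34i47_Pkg_Fin := fun M hM => by
  have := hM
  exact fs75_finSupp M

end Fermat.Agent.S34
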