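import Mathlib
import Fermat.Agent.S34.Inertia87
import Fermat.Agent.S34.Iface47
import Fermat.Agent.S34.WInter11
import Fermat.Agent.S34.AtkinLehnerVal97

/-!
# S34 lab, P1c (helper87): the Galois clause (G) of the frame in the literal interface shape

For a discrete valuation ring `R` with fraction field `K`, a uniformiser `π`, an automorphism
`σ : K ≃+* K` with `s34i47_Inertial R σ` (Iface47) and ANY level `M`:

* `in87i_h0` : `σ R ⊆ R`;
* `in87i_mem_V` : `σ V_∞ ⊆ V_∞`  (`V_∞ = c1g55_V R K M hπ`, action `s34i47_coeffEquiv σ M`);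
* `in87i_h2` : `π⁻¹ (σ x - x) ∈ V_∞` for `x ∈ V_∞`;
* `in87i_h1` : `σ x / x ∈ V_∞` for `x ≠ 0`  (`K` a number field: `σ` has finite order);
* `in87i_GalProps_W` : `s34i47_GalProps π (V_∞ ⊓ V_0) (s34i47_coeffEquiv σ (N * ℓ))` with
  `V_0 = al97V_V0` (helper97) — the clause (G) of `s34i47_Frame`;
* `in87i_GalProps_comap` : the same for `V_0 = V_∞.comap w`, `w` any ring endomorphism of
  `F(M)_K` fixing `π` and commuting with `σ`;
* `in87i_fix_of_coeff`, `in87i_fix_of_rat`, `in87i_fix_of_int` : `s34i47_coeffEquiv σ M h = h`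
  when the `q`-expansion of `h` has `σ`-fixed (e.g. rational, integral) coefficients;
* `in87i_chart_mem` : `σ` maps the chart `pk15_chart R S` into itself when it fixes `S`
  pointwise and preserves `R` — see the statement.
-/

set_option autoImplicit false
set_option linter.unusedSectionVars false
set_option linter.style.haveILetI false

open ModularCurve IntermediateField

namespace Fermat.Agent.S34

open Fermat.Agent.S18

section Basic

variable {K : Type*} [Field K]

/-- The interface automorphism `s34i47_coeffEquiv σ M` is `in87_aut M σ`. -/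
theorem in87i_coeffEquiv_eq (σ : K ≃+* K) (M : ℕ) : s34i47_coeffEquiv σ M = in87_aut M σ :=
  RingEquiv.ext fun _ => Subtype.ext rfl

/-- `s34i47_coeffEquiv σ M` fixes the functions whose `q`-expansion has `σ`-fixed
coefficients. -/
theorem in87i_fix_of_coeff (σ : K ≃+* K) (M : ℕ) (h : ↥(modularFunctionFieldFullC K M))
    (hh : ∀ n : ℤ, σ ((h : LaurentSeries K).coeff n) = (h : LaurentSeries K).coeff n) :
    s34i47_coeffEquiv σ M h = h := by
  apply Subtype.ext
  rw [s34i47_coeffEquiv_coe]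
  ext n
  rw [coeffMap_coeff]
  exact hh n

/-- `s34i47_coeffEquiv σ M` fixes the functions with rational `q`-expansion. -/
theorem in87i_fix_of_rat [CharZero K] (σ : K ≃+* K) (M : ℕ)
    (h : ↥(modularFunctionFieldFullC K M)) (h0 : LaurentSeries ℚ)
    (hh : (h : LaurentSeries K) = coeffMap (algebraMap ℚ K) h0) :
    s34i47_coeffEquiv σ M h = h := by
  refine in87i_fix_of_coeff σ M h fun n => ?_
  rw [hh, coeffMap_coeff]
  exact map_ratCast σ _

/-- `s34i47_coeffEquiv σ M` fixes the functions with integral `q`-expansion. -/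
theorem in87i_fix_of_int (σ : K ≃+* K) (M : ℕ)
    (h : ↥(modularFunctionFieldFullC K M)) (h0 : LaurentSeries ℤ)
    (hh : (h : LaurentSeries K) = coeffMap (Int.castRingHom K) h0) :
    s34i47_coeffEquiv σ M h = h := by
  refine in87i_fix_of_coeff σ M h fun n => ?_
  rw [hh, coeffMap_coeff]
  exact map_intCast σ _

/-- Every ring automorphism of a number field has finite order. -/
theorem in87i_finOrder {K : Type*} [Field K] [NumberField K] (σ : K ≃+* K) :
    ∃ k : ℕ, 0 < k ∧ σ ^ k = 1 := by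
  haveI : Finite (K ≃ₐ[ℚ] K) := inferInstance
  let f : (K ≃+* K) → (K ≃ₐ[ℚ] K) := fun τ =>
    AlgEquiv.ofRingEquiv (f := τ) (fun r => map_ratCast τ r)
  have hf : Function.Injective f := fun a b h => RingEquiv.ext fun x => by
    have := congrArg (fun g : K ≃ₐ[ℚ] K => g x) h
    exact this
  haveI : Finite (K ≃+* K) := Finite.of_injective f hf
  exact isOfFinOrder_iff_pow_eq_one.mp (isOfFinOrder_of_finite σ)

end Basic

section Inertial

variable {R K : Type} [CommRing R] [IsDomain R] [IsDiscreteValuationRing R] [Field K]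
  [Algebra R K] [IsFractionRing R K]

/-- (G0) over `K`: an inertial automorphism preserves `R`. -/
theorem in87i_h0 (σ : K ≃+* K) (hσ : s34i47_Inertial R σ) (r : R) :
    ∃ r' : R, σ (algebraMap R K r) = algebraMap R K r' :=
  ⟨_, (hσ r).choose_spec.1⟩

/-- The restriction of an inertial automorphism to `R`, as a function. -/
noncomputable def in87i_sigmaRfun (σ : K ≃+* K) (hσ : s34i47_Inertial R σ) (r : R) : R :=
  (hσ r).choose

theorem in87i_sigmaRfun_spec (σ : K ≃+* K) (hσ : s34i47_Inertial R σ) (r : R) :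
    algebraMap R K (in87i_sigmaRfun σ hσ r) = σ (algebraMap R K r) :=
  ((hσ r).choose_spec.1).symm

/-- The restriction of an inertial automorphism to `R`. -/
noncomputable def in87i_sigmaR (σ : K ≃+* K) (hσ : s34i47_Inertial R σ) : R →+* R where
  toFun := in87i_sigmaRfun σ hσ
  map_one' := IsFractionRing.injective R K (by
    rw [in87i_sigmaRfun_spec, map_one, map_one])
  map_mul' a b := IsFractionRing.injective R K (by
    rw [in87i_sigmaRfun_spec, map_mul, map_mul, map_mul, in87i_sigmaRfun_spec,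
      in87i_sigmaRfun_spec])
  map_zero' := IsFractionRing.injective R K (by
    rw [in87i_sigmaRfun_spec, map_zero, map_zero])
  map_add' a b := IsFractionRing.injective R K (by
    rw [in87i_sigmaRfun_spec, map_add, map_add, map_add, in87i_sigmaRfun_spec,
      in87i_sigmaRfun_spec])

theorem in87i_sigmaR_spec (σ : K ≃+* K) (hσ : s34i47_Inertial R σ) (r : R) :
    algebraMap R K (in87i_sigmaR σ hσ r) = σ (algebraMap R K r) :=
  in87i_sigmaRfun_spec σ hσ r

theorem in87i_sigmaRfun_mem (σ : K ≃+* K) (hσ : s34i47_Inertial R σ) (r : R) :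
    in87i_sigmaRfun σ hσ r - r ∈ IsLocalRing.maximalIdeal R :=
  (hσ r).choose_spec.2

theorem in87i_sigmaR_dvd {π : R} (hπ : Irreducible π) (σ : K ≃+* K)
    (hσ : s34i47_Inertial R σ) (r : R) : π ∣ in87i_sigmaR σ hσ r - r := by
  have h : in87i_sigmaRfun σ hσ r - r ∈ IsLocalRing.maximalIdeal R :=
    in87i_sigmaRfun_mem σ hσ r
  rw [hπ.maximalIdeal_eq, Ideal.mem_span_singleton] at h
  exact h

/-- **(I1)**: an inertial automorphism maps `V_∞` into itself. -/
theorem in87i_mem_V (M : ℕ) {π : R} (hπ : Irreducible π) (σ : K ≃+* K)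
    (hσ : s34i47_Inertial R σ) (x : ↥(modularFunctionFieldFullC K M))
    (hx : x ∈ c1g55_V R K M hπ) : s34i47_coeffEquiv σ M x ∈ c1g55_V R K M hπ := by
  rw [in87i_coeffEquiv_eq]
  exact in87_mem_V_of_inertia M hπ σ (in87i_sigmaR σ hσ) (in87i_sigmaR_spec σ hσ)
    (in87i_sigmaR_dvd hπ σ hσ) x hx

/-- **(I2)** over `K`: an inertial automorphism is trivial on `V_∞ / π V_∞`. -/
theorem in87i_sub_mem_V (M : ℕ) {π : R} (hπ : Irreducible π) (σ : K ≃+* K)
    (hσ : s34i47_Inertial R σ) (x : ↥(modularFunctionFieldFullC K M))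
    (hx : x ∈ c1g55_V R K M hπ) :
    (algebraMap K ↥(modularFunctionFieldFullC K M) (algebraMap R K π))⁻¹ *
      (s34i47_coeffEquiv σ M x - x) ∈ c1g55_V R K M hπ := by
  rw [in87i_coeffEquiv_eq]
  exact in87_sub_mem_V M hπ σ (in87i_sigmaR σ hσ) (in87i_sigmaR_spec σ hσ)
    (in87i_sigmaR_dvd hπ σ hσ) x hx

/-- **(G1) for `V_∞`**: over a number field, `σ x / x ∈ V_∞` for every `x ≠ 0`. -/
theorem in87i_h1 [NumberField K] (M : ℕ) {π : R} (hπ : Irreducible π) (σ : K ≃+* K)
    (hσ : s34i47_Inertial R σ) (x : ↥(modularFunctionFieldFullC K M)) (hx : x ≠ 0) :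
    s34i47_coeffEquiv σ M x / x ∈ c1g55_V R K M hπ := by
  obtain ⟨k, hk0, hk⟩ := in87i_finOrder σ
  refine wi11_finOrder_div_mem (c1g55_V R K M hπ) (s34i47_coeffEquiv σ M)
    (fun y hy => in87i_mem_V M hπ σ hσ y hy) k hk0 ?_ x hx
  rw [in87i_coeffEquiv_eq]
  exact in87_aut_pow_eq_one M σ k hk

/-- (G1) for `V_∞`, inverse form: `x / σ x ∈ V_∞`. -/
theorem in87i_h1_inv [NumberField K] (M : ℕ) {π : R} (hπ : Irreducible π) (σ : K ≃+* K)
    (hσ : s34i47_Inertial R σ) (x : ↥(modularFunctionFieldFullC K M)) (hx : x ≠ 0) :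
    x / s34i47_coeffEquiv σ M x ∈ c1g55_V R K M hπ := by
  obtain ⟨k, hk0, hk⟩ := in87i_finOrder σ
  refine wi11_finOrder_inv_div_mem (c1g55_V R K M hπ) (s34i47_coeffEquiv σ M)
    (fun y hy => in87i_mem_V M hπ σ hσ y hy) k hk0 ?_ x hx
  rw [in87i_coeffEquiv_eq]
  exact in87_aut_pow_eq_one M σ k hk

variable {M : ℕ} [Algebra R ↥(modularFunctionFieldFullC K M)]
  [IsScalarTower R K ↥(modularFunctionFieldFullC K M)]

/-- (G0) over `F(M)_K`. -/
theorem in87i_g0 (σ : K ≃+* K) (hσ : s34i47_Inertial R σ) (r : R) :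
    ∃ r' : R, s34i47_coeffEquiv σ M (algebraMap R ↥(modularFunctionFieldFullC K M) r) =
      algebraMap R ↥(modularFunctionFieldFullC K M) r' := by
  obtain ⟨r', hr'⟩ := in87i_h0 σ hσ r
  refine ⟨r', ?_⟩
  rw [IsScalarTower.algebraMap_apply R K ↥(modularFunctionFieldFullC K M), in87i_coeffEquiv_eq,
    in87_aut_algebraMap, hr', ← IsScalarTower.algebraMap_apply R K ↥(modularFunctionFieldFullC K M)]

/-- **(G2) for `V_∞`** in the interface shape. -/
theorem in87i_h2 {π : R} (hπ : Irreducible π) (σ : K ≃+* K)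
    (hσ : s34i47_Inertial R σ) (x : ↥(modularFunctionFieldFullC K M))
    (hx : x ∈ c1g55_V R K M hπ) :
    (algebraMap R ↥(modularFunctionFieldFullC K M) π)⁻¹ *
      (s34i47_coeffEquiv σ M x - x) ∈ c1g55_V R K M hπ := by
  rw [c1g55_algebraMap_eq]
  exact in87i_sub_mem_V M hπ σ hσ x hx

/-- `σ` sends `π` to `π` times a unit of `V_∞` — more precisely `σ π / π ∈ V_∞` and
`π / σ π ∈ V_∞`. -/
theorem in87i_pi [NumberField K] {π : R} (hπ : Irreducible π) (σ : K ≃+* K)
    (hσ : s34i47_Inertial R σ) :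
    s34i47_coeffEquiv σ M (algebraMap R ↥(modularFunctionFieldFullC K M) π) /
        algebraMap R ↥(modularFunctionFieldFullC K M) π ∈ c1g55_V R K M hπ ∧
      algebraMap R ↥(modularFunctionFieldFullC K M) π /
        s34i47_coeffEquiv σ M (algebraMap R ↥(modularFunctionFieldFullC K M) π) ∈
          c1g55_V R K M hπ := by
  have hπ0 : algebraMap R ↥(modularFunctionFieldFullC K M) π ≠ 0 := by
    rw [IsScalarTower.algebraMap_apply R K ↥(modularFunctionFieldFullC K M)]
    intro h0
    have h1 : algebraMap R K π = 0 :=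
      (map_eq_zero (algebraMap K ↥(modularFunctionFieldFullC K M))).mp h0
    exact hπ.ne_zero ((map_eq_zero_iff _ (IsFractionRing.injective R K)).mp h1)
  exact ⟨in87i_h1 M hπ σ hσ _ hπ0, in87i_h1_inv M hπ σ hσ _ hπ0⟩

/-- **(G) for `W = V_∞ ⊓ V_∞.comap w`**, `w` any ring endomorphism of `F(M)_K` fixing `π` and
commuting with the coefficientwise action of `σ`. -/
theorem in87i_GalProps_comap [NumberField K] {π : R} (hπ : Irreducible π)
    (w : ↥(modularFunctionFieldFullC K M) →+* ↥(modularFunctionFieldFullC K M))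
    (hwπ : w (algebraMap R ↥(modularFunctionFieldFullC K M) π) =
      algebraMap R ↥(modularFunctionFieldFullC K M) π)
    (σ : K ≃+* K) (hσ : s34i47_Inertial R σ)
    (hcomm : ∀ x, w (s34i47_coeffEquiv σ M x) = s34i47_coeffEquiv σ M (w x)) :
    s34i47_GalProps π
      ((c1g55_V R K M hπ).toSubring ⊓ ((c1g55_V R K M hπ).comap w).toSubring)
      (s34i47_coeffEquiv σ M) := by
  refine ⟨fun r => in87i_g0 σ hσ r, fun x hx => ?_, fun x hx => ?_⟩
  · refine Subring.mem_inf.mpr ⟨in87i_h1 M hπ σ hσ x hx, ?_⟩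
    show s34i47_coeffEquiv σ M x / x ∈ (c1g55_V R K M hπ).comap w
    rw [ValuationSubring.mem_comap, map_div₀, hcomm]
    exact in87i_h1 M hπ σ hσ _ (fun h => hx ((map_eq_zero_iff _ w.injective).mp h))
  · obtain ⟨hxV, hxV0⟩ := Subring.mem_inf.mp hx
    refine Subring.mem_inf.mpr ⟨in87i_h2 hπ σ hσ x hxV, ?_⟩
    exact in87_comap_sub_mem (c1g55_V R K M hπ) w (s34i47_coeffEquiv σ M) _ hwπ hcomm
      (fun y hy => in87i_h2 hπ σ hσ y hy) x hxV0

end Inertial

section AtkinLehner

local notation "Qb" => AlgebraicClosure ℚ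

variable {R K : Type} [CommRing R] [IsDomain R] [IsDiscreteValuationRing R] [Field K]
  [NumberField K] [Algebra R K] [IsFractionRing R K] (φ : K →+* Qb)
variable (N ℓ : ℕ) [NeZero N] [NeZero ℓ] (hℓ : ℓ.Prime) (hN : ¬ ℓ ∣ N)
  {π : R} (hπ : Irreducible π)
variable [Algebra R ↥(modularFunctionFieldFullC K (N * ℓ))]
  [IsScalarTower R K ↥(modularFunctionFieldFullC K (N * ℓ))]

/-- **The clause (G) of `s34i47_Frame`** for `W = V_∞ ⊓ V_0`, `V_∞ = c1g55_V R K (N ℓ) hπ`,
`V_0 = al97V_V0` (helper97): every inertial automorphism of the number field `K` satisfies the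
Galois hypotheses of the interface. -/
theorem in87i_GalProps_W (σ : K ≃+* K) (hσ : s34i47_Inertial R σ) :
    s34i47_GalProps π
      ((c1g55_V R K (N * ℓ) hπ).toSubring ⊓ (al97V_V0 φ N ℓ hℓ hN hπ).toSubring)
      (s34i47_coeffEquiv σ (N * ℓ)) :=
  al97V_GalProps_W φ N ℓ hℓ hN hπ σ (fun r => in87i_h0 σ hσ r)
    (fun x hx => in87i_h1 (N * ℓ) hπ σ hσ x hx) (fun x hx => in87i_h2 hπ σ hσ x hx)

end AtkinLehner

section Chart

variable {R F : Type*} [CommRing R] [Field F] [Algebra R F]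

/-- A ring automorphism of `F` preserving `R` and mapping `s` into itself maps `R[s]` into
itself. -/
theorem in87i_adjoin_mem (σ : F ≃+* F)
    (hR : ∀ r : R, ∃ r' : R, σ (algebraMap R F r) = algebraMap R F r')
    (s : Set F) (hs : ∀ y ∈ s, σ y ∈ s) (x : F) (hx : x ∈ Algebra.adjoin R s) :
    σ x ∈ Algebra.adjoin R s := by
  induction hx using Algebra.adjoin_induction with
  | mem y hy => exact Algebra.subset_adjoin (hs y hy)
  | algebraMap r =>
    obtain ⟨r', hr'⟩ := hR r
    rw [hr']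
    exact Subalgebra.algebraMap_mem _ r'
  | add x y _ _ hx hy => rw [map_add]; exact Subalgebra.add_mem _ hx hy
  | mul x y _ _ hx hy => rw [map_mul]; exact Subalgebra.mul_mem _ hx hy

/-- **Charts are stable**: a ring automorphism of `F` preserving `R` and mapping `s` into itself
(e.g. fixing the Hauptmodul `h`, `s = {h}`, `{h⁻¹}`, `{h, h⁻¹}`) maps the chart `pk15_chart R s`
into itself. -/
theorem in87i_chart_mem (σ : F ≃+* F)
    (hR : ∀ r : R, ∃ r' : R, σ (algebraMap R F r) = algebraMap R F r')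
    (s : Set F) (hs : ∀ y ∈ s, σ y ∈ s) (x : F) (hx : x ∈ pk15_chart R s) :
    σ x ∈ pk15_chart R s := by
  rw [pk15_mem_chart] at hx ⊢
  let σA : ↥(Algebra.adjoin R s) →+* ↥(Algebra.adjoin R s) :=
    ((σ : F →+* F).comp (algebraMap ↥(Algebra.adjoin R s) F)).codRestrict (Algebra.adjoin R s)
      (fun a => in87i_adjoin_mem σ hR s hs a a.2)
  exact IsIntegral.map_of_comp_eq σA (σ : F →+* F) (RingHom.ext fun a => rfl) hx

/-- The three charts of a Hauptmodul fixed by `σ` are stable under `σ`. -/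
theorem in87i_chart_mem_haupt (σ : F ≃+* F)
    (hR : ∀ r : R, ∃ r' : R, σ (algebraMap R F r) = algebraMap R F r')
    (h : F) (hh : σ h = h) :
    (∀ x ∈ pk15_chart R ({h} : Set F), σ x ∈ pk15_chart R ({h} : Set F)) ∧
    (∀ x ∈ pk15_chart R ({h⁻¹} : Set F), σ x ∈ pk15_chart R ({h⁻¹} : Set F)) ∧
    (∀ x ∈ pk15_chart R ({h, h⁻¹} : Set F), σ x ∈ pk15_chart R ({h, h⁻¹} : Set F)) := by
  have hh' : σ h⁻¹ = h⁻¹ := by rw [map_inv₀, hh]
  refine ⟨fun x hx => in87i_chart_mem σ hR _ ?_ x hx, fun x hx => in87i_chart_mem σ hR _ ?_ x hx,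
    fun x hx => in87i_chart_mem σ hR _ ?_ x hx⟩
  · intro y hy
    rw [Set.mem_singleton_iff] at hy ⊢
    rw [hy, hh]
  · intro y hy
    rw [Set.mem_singleton_iff] at hy ⊢
    rw [hy, hh']
  · intro y hy
    rcases hy with rfl | hy
    · rw [hh]; exact Set.mem_insert _ _
    · rw [Set.mem_singleton_iff] at hy
      rw [hy, hh']
      exact Set.mem_insert_of_mem _ (Set.mem_singleton _)

end Chart

end Fermat.Agent.S34
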