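import Mathlib
import Fermat.Agent.S34.InertiaIface87
import Fermat.Agent.S34.Iface47c
import Fermat.Agent.S34.ChartM15c
import Fermat.Agent.S34.FrameGlue15

/-!
# S34 lab, P1c (helper87): the package FRAME-GAL

* `in87g_frameGal M' q hq hM' : s34i47c_FrameGal M' q hq hM'` and
  `in87g_pkg_frameGal : s34i47c_Pkg_FrameGal` — the Galois package of the architect's frame split
  (Iface47c): for every number field `K ⊆ ℚ̄`, discrete valuation ring `R` of `K`, uniformiser
  `π` and inertial automorphism `σ` of `K`, the coefficientwise action of `σ` on `F_K(M' q)`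
  satisfies (G) for `W = V_∞ ⊓ w_q^* V_∞` and fixes the Hauptmoduln.
* `in87g_cm15_frameGal M' q hq hqM : cm15_FrameGal M' q hq hqM` — the same statement in the
  literal shape of helper15's twin glue (FrameGlue15).
-/

set_option autoImplicit false
set_option linter.unusedSectionVars false
set_option linter.style.haveILetI false

open ModularCurve AlgebraicCurve

namespace Fermat.Agent.S34

open Fermat.Agent.S18

local notation "Q̄" => AlgebraicClosure ℚ

section

variable {R K : Type} [CommRing R] [IsDomain R] [IsDiscreteValuationRing R] [Field K]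
  [NumberField K] [Algebra K Q̄] [Algebra R K] [IsFractionRing R K]
  (M' q : ℕ) [NeZero M'] [NeZero q] (hq : q.Prime) (hM' : ¬ q ∣ M')
  [Algebra R ↥(modularFunctionFieldFullC K (M' * q))]
  [IsScalarTower R K ↥(modularFunctionFieldFullC K (M' * q))]

/-- The Atkin–Lehner involution fixes the image of `R`. -/
theorem in87g_w_algebraMap (r : R) :
    al97L_w (algebraMap K Q̄) M' q hq hM'
        (algebraMap R ↥(modularFunctionFieldFullC K (M' * q)) r) =
      algebraMap R ↥(modularFunctionFieldFullC K (M' * q)) r := by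
  rw [IsScalarTower.algebraMap_apply R K ↥(modularFunctionFieldFullC K (M' * q))]
  exact AlgEquiv.commutes _ _

/-- The Atkin–Lehner involution commutes with the coefficientwise action. -/
theorem in87g_w_comm (σ : K ≃+* K) (x : ↥(modularFunctionFieldFullC K (M' * q))) :
    al97L_w (algebraMap K Q̄) M' q hq hM' (s34i47_coeffEquiv σ (M' * q) x) =
      s34i47_coeffEquiv σ (M' * q) (al97L_w (algebraMap K Q̄) M' q hq hM' x) :=
  al97V_w_coeffEquiv (algebraMap K Q̄) M' q hq hM' σ x

/-- (G) for the canonical `W` of Iface47c. -/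
theorem in87g_galProps {π : R} (hπ : Irreducible π) (σ : K ≃+* K) (hσ : s34i47_Inertial R σ) :
    s34i47_GalProps π (s34i47c_W (K := K) M' q hq hM' hπ) (s34i47_coeffEquiv σ (M' * q)) :=
  in87i_GalProps_comap (M := M' * q) hπ
    ((al97L_w (algebraMap K Q̄) M' q hq hM' :
      ↥(modularFunctionFieldFullC K (M' * q)) ≃ₐ[K] ↥(modularFunctionFieldFullC K (M' * q))) :
      ↥(modularFunctionFieldFullC K (M' * q)) →+* ↥(modularFunctionFieldFullC K (M' * q)))
    (in87g_w_algebraMap M' q hq hM' π) σ hσ (fun x => in87g_w_comm M' q hq hM' σ x)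

/-- (G) for the canonical `W` of FrameGlue15. -/
theorem in87g_galProps_cm15 {π : R} (hπ : Irreducible π) (σ : K ≃+* K)
    (hσ : s34i47_Inertial R σ) :
    s34i47_GalProps π
      (wa5_W (cm85_Vinf (K := K) (M' * q) hπ) (cm15_V0 (algebraMap K Q̄) M' q hq hM' hπ))
      (s34i47_coeffEquiv σ (M' * q)) :=
  in87i_GalProps_comap (M := M' * q) hπ
    (al97L_w (algebraMap K Q̄) M' q hq hM').toRingEquiv.toRingHom
    (in87g_w_algebraMap M' q hq hM' π) σ hσ (fun x => in87g_w_comm M' q hq hM' σ x)

end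

/-- **FRAME-GAL** at level `M' * q`. -/
theorem in87g_frameGal (M' q : ℕ) [NeZero M'] [NeZero q] (hq : q.Prime) (hM' : ¬ q ∣ M') :
    s34i47c_FrameGal M' q hq hM' := by
  intro R K _ _ _ _ _ _ _ _ _ _ π hπ _ _ σ hσ
  refine ⟨in87g_galProps M' q hq hM' hπ σ hσ, ?_⟩
  rintro h (⟨-, h2, rfl⟩ | ⟨-, h3, rfl⟩)
  · exact cm15_coeffEquiv_h2 (M' * q) σ h2
  · exact cm15_coeffEquiv_h3 (M' * q) σ h3

/-- **The package FRAME-GAL** of Iface47c. -/
theorem in87g_pkg_frameGal : s34i47c_Pkg_FrameGal :=
  fun M' q _ _ hq hM' => in87g_frameGal M' q hq hM'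

/-- FRAME-GAL in the literal shape of FrameGlue15 (helper15). -/
theorem in87g_cm15_frameGal (M' q : ℕ) [NeZero M'] [NeZero q] (hq : q.Prime) (hqM : ¬ q ∣ M') :
    cm15_FrameGal M' q hq hqM := by
  intro R K _ _ _ _ _ _ _ _ _ _ π hπ _ _ σ hσ
  exact in87g_galProps_cm15 M' q hq hqM hπ σ hσ

end Fermat.Agent.S34
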