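import Mathlib
import Fermat.Agent.S34.Iface47

/-!
# S34 lab, package P5b (twin, helper81): `(UZ) + (Ord) + (Rat) + (Fin) ⟹ (LP)`

`lp81_Pkg_LP : s34i47_Pkg_LP` — the literal interface `Prop` of `Iface47.lean`.

Proof.  Fix a closed point `n` of the special fibre.  Let `T` be the (finite) set of horizontal
`O` through `n` at which `f` is not a unit.  Every `O ∈ T` is rational, so (UZ) gives a
uniformiser `p_O` of `O` which is a unit at every other horizontal `O'` through `n`; (Ord) gives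
`f = ε w ^ m` at `O` and, `O` being a discrete valuation ring, `w = unit * p_O ^ k_O`
(`lp81_exists_zpow`, Krull intersection theorem).  Then `c := ∏_{O ∈ T} p_O ^ k_O` works.

All names are prefixed `lp81_`.  Mathlib + `Iface47` only.
-/

set_option autoImplicit false

namespace Fermat.Agent.S34

section units

variable {F : Type*} [Field F]

/-- `x` is a unit of the valuation ring `O` (as a predicate on the field). -/
def lp81_U (O : ValuationSubring F) (x : F) : Prop := x ∈ O ∧ x⁻¹ ∈ O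

theorem lp81_U_one (O : ValuationSubring F) : lp81_U O 1 :=
  ⟨O.one_mem, by rw [inv_one]; exact O.one_mem⟩

theorem lp81_U_mul {O : ValuationSubring F} {x y : F} (hx : lp81_U O x) (hy : lp81_U O y) :
    lp81_U O (x * y) :=
  ⟨O.mul_mem _ _ hx.1 hy.1, by rw [mul_inv]; exact O.mul_mem _ _ hx.2 hy.2⟩

theorem lp81_U_inv {O : ValuationSubring F} {x : F} (hx : lp81_U O x) : lp81_U O x⁻¹ :=
  ⟨hx.2, by rw [inv_inv]; exact hx.1⟩

theorem lp81_U_pow {O : ValuationSubring F} {x : F} (hx : lp81_U O x) (k : ℕ) :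
    lp81_U O (x ^ k) := by
  induction k with
  | zero => rw [pow_zero]; exact lp81_U_one O
  | succ k ih => rw [pow_succ]; exact lp81_U_mul ih hx

theorem lp81_U_zpow {O : ValuationSubring F} {x : F} (hx : lp81_U O x) (k : ℤ) :
    lp81_U O (x ^ k) := by
  cases k with
  | ofNat k => rw [Int.ofNat_eq_natCast, zpow_natCast]; exact lp81_U_pow hx k
  | negSucc k => rw [zpow_negSucc]; exact lp81_U_inv (lp81_U_pow hx (k + 1))

theorem lp81_U_prod {ι : Type*} (O : ValuationSubring F) (s : Finset ι) (g : ι → F)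
    (h : ∀ i ∈ s, lp81_U O (g i)) : lp81_U O (∏ i ∈ s, g i) := by
  classical
  induction s using Finset.induction_on with
  | empty => rw [Finset.prod_empty]; exact lp81_U_one O
  | insert a s ha ih =>
    rw [Finset.prod_insert ha]
    exact lp81_U_mul (h a (Finset.mem_insert_self a s))
      (ih fun i hi => h i (Finset.mem_insert_of_mem hi))

/-- In a valuation ring which is a principal ideal ring, with maximal ideal generated by the
non-unit `p`, every nonzero element of the ring is a unit times a power of `p`. -/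
theorem lp81_exists_pow (O : ValuationSubring F) (hPIR : IsPrincipalIdealRing O) (p : F)
    (hpO : p ∈ O) (hpinv : p⁻¹ ∉ O) (hgen : ∀ x ∈ O, x⁻¹ ∉ O → x * p⁻¹ ∈ O)
    (w : F) (hw : w ≠ 0) (hwO : w ∈ O) : ∃ k : ℕ, lp81_U O (w / p ^ k) := by
  by_contra hcon
  have hcon' : ∀ k : ℕ, ¬ lp81_U O (w / p ^ k) := fun k hk => hcon ⟨k, hk⟩
  have hall : ∀ k : ℕ, w / p ^ k ∈ O := by
    intro k
    induction k with
    | zero => rw [pow_zero, div_one]; exact hwO
    | succ k ih =>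
      have h1 : (w / p ^ k)⁻¹ ∉ O := fun h => hcon' k ⟨ih, h⟩
      have h2 := hgen _ ih h1
      have h3 : w / p ^ (k + 1) = w / p ^ k * p⁻¹ := by
        rw [pow_succ, div_mul_eq_div_div, div_eq_mul_inv (w / p ^ k) p]
      rw [h3]; exact h2
  have := hPIR
  have hp0 : p ≠ 0 := by
    rintro rfl
    apply hpinv
    rw [inv_zero]; exact O.zero_mem
  let pO : O := ⟨p, hpO⟩
  let wO : O := ⟨w, hwO⟩
  have hI : Ideal.span ({pO} : Set O) ≠ ⊤ := by
    intro h
    rw [Ideal.span_singleton_eq_top] at h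
    obtain ⟨u, hu⟩ := h
    apply hpinv
    have h1 : (pO : F) * ((u⁻¹ : Oˣ) : O) = 1 := by
      have : pO * ((u⁻¹ : Oˣ) : O) = 1 := by rw [← hu]; exact u.mul_inv
      exact_mod_cast congrArg (Subtype.val) this
    have h2 : p⁻¹ = (((u⁻¹ : Oˣ) : O) : F) := (eq_inv_of_mul_eq_one_right h1).symm ▸ rfl
    rw [h2]; exact (((u⁻¹ : Oˣ) : O)).2
  have hmem : wO ∈ ⨅ i : ℕ, Ideal.span ({pO} : Set O) ^ i := by
    rw [Ideal.mem_iInf]
    intro k
    rw [Ideal.span_singleton_pow, Ideal.mem_span_singleton]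
    refine ⟨⟨w / p ^ k, hall k⟩, ?_⟩
    apply Subtype.ext
    show w = p ^ k * (w / p ^ k)
    field_simp
  rw [Ideal.iInf_pow_eq_bot_of_isDomain _ hI] at hmem
  apply hw
  have : wO = 0 := hmem
  exact congrArg Subtype.val this

/-- Same, for every nonzero element of the field, with an integer exponent. -/
theorem lp81_exists_zpow (O : ValuationSubring F) (hPIR : IsPrincipalIdealRing O) (p : F)
    (hpO : p ∈ O) (hpinv : p⁻¹ ∉ O) (hgen : ∀ x ∈ O, x⁻¹ ∉ O → x * p⁻¹ ∈ O)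
    (w : F) (hw : w ≠ 0) : ∃ k : ℤ, lp81_U O (w / p ^ k) := by
  rcases O.mem_or_inv_mem w with h | h
  · obtain ⟨k, hk⟩ := lp81_exists_pow O hPIR p hpO hpinv hgen w hw h
    exact ⟨(k : ℤ), by rw [zpow_natCast]; exact hk⟩
  · obtain ⟨k, hk⟩ := lp81_exists_pow O hPIR p hpO hpinv hgen w⁻¹ (inv_ne_zero hw) h
    refine ⟨-(k : ℤ), ?_⟩
    have h1 : w / p ^ (-(k : ℤ)) = (w⁻¹ / p ^ k)⁻¹ := by
      rw [zpow_neg, zpow_natCast, inv_div, div_inv_eq_mul, div_eq_mul_inv, inv_inv, mul_comm]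
    rw [h1]; exact lp81_U_inv hk

end units

/-- **P5b** (twin): `(UZ) + (Ord) + (Rat) + (Fin) ⟹ (LP)`, the literal interface statement. -/
theorem lp81_Pkg_LP : s34i47_Pkg_LP := by
  intro R K F _ _ _ _ _ _ _ _ _ _ π _hπ B m hm f hf hUZ hOrd hRat hFin n hn hπn
  classical
  have hSfin : {O : ValuationSubring F | s34i47_IsHoriz π O ∧ ¬ (f ∈ O ∧ f⁻¹ ∈ O)}.Finite := hFin
  let T : Finset (ValuationSubring F) :=
    hSfin.toFinset.filter (fun O => s34i47_Through B n O)
  have hTmem : ∀ O : ValuationSubring F, O ∈ T ↔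
      (s34i47_IsHoriz π O ∧ ¬ (f ∈ O ∧ f⁻¹ ∈ O)) ∧ s34i47_Through B n O := by
    intro O
    rw [Finset.mem_filter, Set.Finite.mem_toFinset]
    rfl
  have key : ∀ O : ValuationSubring F, O ∈ T → ∃ (p : F) (k : ℤ), p ≠ 0 ∧
      (∀ O' : ValuationSubring F, s34i47_IsHoriz π O' → s34i47_Through B n O' → O' ≠ O →
        lp81_U O' p) ∧ lp81_U O (f / (p ^ k) ^ m) := by
    intro O hO
    obtain ⟨⟨hH, hnu⟩, hThr⟩ := (hTmem O).1 hO
    have hrat : s34i47_IsRat K O := (hRat O hH).resolve_left hnu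
    obtain ⟨p, hp0, hpO, hpinv, hgen, hoth⟩ := hUZ n hn hπn O hH hThr hrat
    obtain ⟨ε, w, hε, hεinv, hfw⟩ := hOrd O hH
    have hw0 : w ≠ 0 := by
      rintro rfl
      apply hf
      rw [hfw, zero_pow hm.ne', mul_zero]
    obtain ⟨k, hk⟩ := lp81_exists_zpow O hH.2.1 p hpO hpinv hgen w hw0
    refine ⟨p, k, hp0, fun O' h1 h2 h3 => hoth O' h1 h2 h3, ?_⟩
    have h1 : f / (p ^ k) ^ m = ε * (w / p ^ k) ^ m := by
      rw [hfw, div_pow, mul_div_assoc]
    rw [h1]
    exact lp81_U_mul ⟨hε, hεinv⟩ (lp81_U_pow hk m)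
  choose! P Kk hP0 hPoth hPk using key
  refine ⟨∏ O ∈ T, P O ^ Kk O, ?_, ?_⟩
  · exact Finset.prod_ne_zero_iff.mpr fun O hO => zpow_ne_zero _ (hP0 O hO)
  · intro O' hH' hThr'
    suffices h : lp81_U O' (f / (∏ O ∈ T, P O ^ Kk O) ^ m) by
      refine ⟨h.1, ?_⟩
      have h2 := h.2
      rwa [inv_div] at h2
    by_cases hO'T : O' ∈ T
    · have hrest : lp81_U O' (∏ O ∈ T.erase O', P O ^ Kk O) := by
        refine lp81_U_prod O' _ _ fun O hO => ?_
        have hO1 : O ∈ T := Finset.mem_of_mem_erase hO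
        have hO2 : O ≠ O' := Finset.ne_of_mem_erase hO
        exact lp81_U_zpow (hPoth O hO1 O' hH' hThr' (Ne.symm hO2)) _
      have hsplit : f / (∏ O ∈ T, P O ^ Kk O) ^ m =
          f / (P O' ^ Kk O') ^ m * ((∏ O ∈ T.erase O', P O ^ Kk O) ^ m)⁻¹ := by
        rw [← Finset.mul_prod_erase T _ hO'T, mul_pow, div_mul_eq_div_div, div_eq_mul_inv
          (f / (P O' ^ Kk O') ^ m)]
      rw [hsplit]
      exact lp81_U_mul (hPk O' hO'T) (lp81_U_inv (lp81_U_pow hrest m))
    · have hfu : lp81_U O' f := by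
        by_contra hcon
        exact hO'T ((hTmem O').2 ⟨⟨hH', hcon⟩, hThr'⟩)
      rw [div_eq_mul_inv]
      refine lp81_U_mul hfu (lp81_U_inv (lp81_U_pow (lp81_U_prod O' _ _ fun O hO => ?_) m))
      exact lp81_U_zpow (hPoth O hO O' hH' hThr' (by rintro rfl; exact hO'T hO)) _

end Fermat.Agent.S34
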