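import Mathlib
import Fermat.Agent.S34.Iface47d
import Fermat.Agent.S34.LocPrinTwin81

/-!
# S34 lab, second route, package (4) (twin, helper81): `(UZ′) + (Ord) + (Rat) + (Fin) + (ST) ⟹ (LP′)`

`lpd81_Pkg_LPD : s34i47d_Pkg_LPD` — the literal interface `Prop` of `Iface47d.lean`.

Proof.  Fix a closed point `n` of the special fibre and the set `Dp` of (UZ′).  Let `T` be the
finite set of horizontal `O ∉ Dp` through `n` at which `f` is not a unit.  Every `O ∈ T` is
rational, so (UZ′) gives a uniformiser `p_O` of `O` which is a unit at every other horizontal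
`O'` through `n`; with (Ord), `f / (p_O ^ k_O) ^ m` is a unit of `O`.  Put
`c := ∏_{O ∈ T} p_O ^ k_O` and `g := f / c ^ m`.

* `g` is a unit of every horizontal `O ∉ Dp` through `n` (as in (LP)).
* If `O ∉ Dp` is horizontal through `n`, so are `O.comap σ`, `O.comap τ`,
  `(O.comap σ).comap τ` ((ST); `Dp` consists of invariant rings), hence `g`, `σ g`, `τ g`,
  `σ (τ g)` are units of `O` and so is the double difference of `g`.
* If `O ∈ Dp` then `O` is `σ`-stable; in a discrete valuation ring stable under `σ` every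
  `σ x / x` is a unit, and the double difference is `(σ (τ g) / τ g) / (σ g / g)`.

All names are prefixed `lpd81_`.  Mathlib + `Iface47d` + `LocPrinTwin81` only.
-/

set_option autoImplicit false

namespace Fermat.Agent.S34

section invariant

variable {F : Type*} [Field F]

/-- A valuation ring which is a principal ideal ring and not the whole field has a
uniformiser. -/
theorem lpd81_exists_unif (O : ValuationSubring F) (hPIR : IsPrincipalIdealRing O)
    (htop : O ≠ ⊤) :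
    ∃ p : F, p ≠ 0 ∧ p ∈ O ∧ p⁻¹ ∉ O ∧ ∀ x ∈ O, x⁻¹ ∉ O → x * p⁻¹ ∈ O := by
  have := hPIR
  have hunit : ∀ x : O, IsUnit x → (x : F)⁻¹ ∈ O := by
    intro x hx
    obtain ⟨y, hy⟩ := isUnit_iff_exists_inv.mp hx
    have h1 : (x : F) * (y : F) = 1 := by exact_mod_cast congrArg Subtype.val hy
    rw [← eq_inv_of_mul_eq_one_right h1]
    exact y.2
  have hunit' : ∀ x : O, (x : F) ≠ 0 → (x : F)⁻¹ ∈ O → IsUnit x := by
    intro x hx0 hx
    refine isUnit_iff_exists_inv.mpr ⟨⟨(x : F)⁻¹, hx⟩, ?_⟩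
    apply Subtype.ext
    show (x : F) * (x : F)⁻¹ = 1
    exact mul_inv_cancel₀ hx0
  obtain ⟨ϖ, hϖ⟩ := (IsPrincipalIdealRing.principal (IsLocalRing.maximalIdeal O)).principal
  have hmem : ∀ x : O, x ∈ IsLocalRing.maximalIdeal O ↔ ¬ IsUnit x := fun x =>
    IsLocalRing.mem_maximalIdeal x
  have hϖmem : ϖ ∈ IsLocalRing.maximalIdeal O := by
    rw [hϖ]
    exact Submodule.mem_span_singleton_self ϖ
  have hϖnu : ¬ IsUnit ϖ := (hmem ϖ).1 hϖmem
  have hϖ0 : (ϖ : F) ≠ 0 := by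
    intro h0
    apply htop
    rw [eq_top_iff]
    intro x _
    by_contra hx
    -- `x ∉ O`, so `x⁻¹ ∈ O` is a non-unit, hence lies in the maximal ideal `(ϖ) = 0`
    have hxinv : x⁻¹ ∈ O := (O.mem_or_inv_mem x).resolve_left hx
    have hnu : ¬ IsUnit (⟨x⁻¹, hxinv⟩ : O) := by
      intro hu
      have := hunit _ hu
      simp only [inv_inv] at this
      exact hx this
    have h1 : (⟨x⁻¹, hxinv⟩ : O) ∈ IsLocalRing.maximalIdeal O := (hmem _).2 hnu
    rw [hϖ] at h1
    obtain ⟨a, ha⟩ := Submodule.mem_span_singleton.mp h1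
    have h2 : (a : F) * (ϖ : F) = x⁻¹ := by
      have := congrArg Subtype.val ha
      simpa using this
    rw [h0, mul_zero] at h2
    have hx0 : x = 0 := by
      have := h2.symm
      rwa [inv_eq_zero] at this
    exact hx (hx0 ▸ O.zero_mem)
  refine ⟨(ϖ : F), hϖ0, ϖ.2, fun h => hϖnu (hunit' ϖ hϖ0 h), ?_⟩
  intro x hx hxinv
  by_cases hx0 : x = 0
  · rw [hx0, zero_mul]; exact O.zero_mem
  have hnu : ¬ IsUnit (⟨x, hx⟩ : O) := fun hu => hxinv (hunit _ hu)
  have h1 : (⟨x, hx⟩ : O) ∈ IsLocalRing.maximalIdeal O := (hmem _).2 hnu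
  rw [hϖ] at h1
  obtain ⟨a, ha⟩ := Submodule.mem_span_singleton.mp h1
  have h2 : (a : F) * (ϖ : F) = x := by
    have := congrArg Subtype.val ha
    simpa using this
  have h3 : x * (ϖ : F)⁻¹ = (a : F) := by
    rw [← h2, mul_assoc, mul_inv_cancel₀ hϖ0, mul_one]
  rw [h3]
  exact a.2

/-- In a discrete valuation ring `O` stable under the automorphism `σ`, the quotient `σ x / x`
is a unit of `O` for every `x ≠ 0`. -/
theorem lpd81_inv_unit (O : ValuationSubring F) (hPIR : IsPrincipalIdealRing O) (htop : O ≠ ⊤)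
    (σ : F ≃+* F) (hσ : ∀ x : F, x ∈ O ↔ σ x ∈ O) (x : F) (hx : x ≠ 0) :
    lp81_U O (σ x / x) := by
  obtain ⟨p, hp0, hpO, hpinv, hgen⟩ := lpd81_exists_unif O hPIR htop
  have hU : ∀ u : F, lp81_U O u → lp81_U O (σ u) := fun u hu =>
    ⟨(hσ u).1 hu.1, by rw [← map_inv₀]; exact (hσ _).1 hu.2⟩
  have hσp0 : σ p ≠ 0 := fun h => hp0 (by simpa using h)
  have hσp : lp81_U O (σ p / p) := by
    constructor
    · rw [div_eq_mul_inv]
      refine hgen (σ p) ((hσ p).1 hpO) ?_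
      rw [← map_inv₀]
      exact fun h => hpinv ((hσ _).2 h)
    · rw [inv_div]
      have h1 : p / σ p = σ (σ.symm p * p⁻¹) := by
        rw [map_mul, RingEquiv.apply_symm_apply, map_inv₀, div_eq_mul_inv]
      rw [h1]
      refine (hσ _).1 (hgen (σ.symm p) ?_ ?_)
      · exact (hσ _).2 (by rw [RingEquiv.apply_symm_apply]; exact hpO)
      · intro h
        apply hpinv
        have h2 := (hσ _).1 h
        rwa [map_inv₀, RingEquiv.apply_symm_apply] at h2
  obtain ⟨k, hk⟩ := lp81_exists_zpow O hPIR p hpO hpinv hgen x hx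
  have hpk : p ^ k ≠ 0 := zpow_ne_zero _ hp0
  have hσpk : σ p ^ k ≠ 0 := zpow_ne_zero _ hσp0
  have h2 : σ x / x = σ (x / p ^ k) * (x / p ^ k)⁻¹ * (σ p / p) ^ k := by
    rw [map_div₀, map_zpow₀, div_zpow]
    field_simp
  rw [h2]
  exact lp81_U_mul (lp81_U_mul (hU _ hk) (lp81_U_inv hk)) (lp81_U_zpow hσp k)

/-- The double difference of any `g ≠ 0` is a unit of every discrete valuation ring stable
under `σ`. -/
theorem lpd81_dd_unit_of_stable (O : ValuationSubring F) (hPIR : IsPrincipalIdealRing O)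
    (htop : O ≠ ⊤) (σ τ : F ≃+* F) (hσ : ∀ x : F, x ∈ O ↔ σ x ∈ O) (g : F) (hg : g ≠ 0) :
    lp81_U O (s34i47_dd σ τ g) := by
  have hτg : τ g ≠ 0 := fun h => hg (by simpa using h)
  have hσg : σ g ≠ 0 := fun h => hg (by simpa using h)
  have hστg : σ (τ g) ≠ 0 := fun h => hτg (by simpa using h)
  have h1 : s34i47_dd σ τ g = σ (τ g) / τ g * (σ g / g)⁻¹ := by
    unfold s34i47_dd
    field_simp
  rw [h1]
  exact lp81_U_mul (lpd81_inv_unit O hPIR htop σ hσ (τ g) hτg)
    (lp81_U_inv (lpd81_inv_unit O hPIR htop σ hσ g hg))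

/-- The double difference of `g` is a unit of `O` as soon as `g` is a unit of the four rings
`O`, `O.comap σ`, `O.comap τ`, `(O.comap σ).comap τ`. -/
theorem lpd81_dd_unit_of_four (O : ValuationSubring F) (σ τ : F ≃+* F) (g : F)
    (h1 : lp81_U O g) (h2 : lp81_U (O.comap (σ : F →+* F)) g)
    (h3 : lp81_U (O.comap (τ : F →+* F)) g)
    (h4 : lp81_U ((O.comap (σ : F →+* F)).comap (τ : F →+* F)) g) :
    lp81_U O (s34i47_dd σ τ g) := by
  have e2 : lp81_U O (σ g) := ⟨h2.1, by rw [← map_inv₀]; exact h2.2⟩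
  have e3 : lp81_U O (τ g) := ⟨h3.1, by rw [← map_inv₀]; exact h3.2⟩
  have e4 : lp81_U O (σ (τ g)) := ⟨h4.1, by rw [← map_inv₀, ← map_inv₀]; exact h4.2⟩
  have h : s34i47_dd σ τ g = σ (τ g) * g * (σ g * τ g)⁻¹ := by
    unfold s34i47_dd
    rw [div_eq_mul_inv]
  rw [h]
  exact lp81_U_mul (lp81_U_mul e4 h1) (lp81_U_inv (lp81_U_mul e2 e3))

end invariant

section comap

variable {R F : Type*} [CommRing R] [Field F] [Algebra R F]

/-- The pull-back of a horizontal valuation ring under an automorphism stabilising `R` is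
horizontal. -/
theorem lpd81_comap_horiz [IsDomain R] [IsDiscreteValuationRing R]
    (hinj : Function.Injective (algebraMap R F)) (π : R) (hπ : Irreducible π) (σ : F ≃+* F)
    (hR : ∀ r : R, ∃ r' : R, σ (algebraMap R F r) = algebraMap R F r')
    (O : ValuationSubring F) (hO : s34i47_IsHoriz π O) :
    s34i47_IsHoriz π (O.comap (σ : F →+* F)) := by
  obtain ⟨htop, hPIR, hRO, hπO⟩ := hO
  have hinvO : ∀ r : R, r ≠ 0 → (algebraMap R F r)⁻¹ ∈ O := by
    intro r hr
    obtain ⟨k, u, hu⟩ := IsDiscreteValuationRing.eq_unit_mul_pow_irreducible hr hπ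
    have h1 : (algebraMap R F r)⁻¹ =
        algebraMap R F ((u⁻¹ : Rˣ) : R) * ((algebraMap R F π)⁻¹) ^ k := by
      have hu1 : algebraMap R F (u : R) * algebraMap R F ((u⁻¹ : Rˣ) : R) = 1 := by
        rw [← map_mul, Units.mul_inv, map_one]
      have hu2 : algebraMap R F ((u⁻¹ : Rˣ) : R) = (algebraMap R F (u : R))⁻¹ :=
        eq_inv_of_mul_eq_one_right hu1
      rw [hu, map_mul, map_pow, mul_inv, hu2, inv_pow]
    rw [h1]
    exact O.mul_mem _ _ (hRO _) (pow_mem hπO k)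
  refine ⟨?_, ?_, ?_, ?_⟩
  · intro h
    apply htop
    rw [eq_top_iff]
    intro x _
    have h1 : σ.symm x ∈ O.comap (σ : F →+* F) := by rw [h]; trivial
    have h2 : σ (σ.symm x) ∈ O := h1
    rwa [RingEquiv.apply_symm_apply] at h2
  · have := hPIR
    let φ : O →+* ↥(O.comap (σ : F →+* F)) :=
      { toFun := fun x => ⟨σ.symm x, by
          show σ (σ.symm (x : F)) ∈ O
          rw [RingEquiv.apply_symm_apply]; exact x.2⟩
        map_one' := Subtype.ext (map_one σ.symm)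
        map_mul' := fun x y => Subtype.ext (map_mul σ.symm (x : F) (y : F))
        map_zero' := Subtype.ext (map_zero σ.symm)
        map_add' := fun x y => Subtype.ext (map_add σ.symm (x : F) (y : F)) }
    have hφ : Function.Surjective φ := fun y =>
      ⟨⟨σ (y : F), y.2⟩, Subtype.ext (σ.symm_apply_apply (y : F))⟩
    exact IsPrincipalIdealRing.of_surjective φ hφ
  · intro r
    obtain ⟨r', hr'⟩ := hR r
    show σ (algebraMap R F r) ∈ O
    rw [hr']
    exact hRO r'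
  · obtain ⟨r', hr'⟩ := hR π
    show σ ((algebraMap R F π)⁻¹) ∈ O
    rw [map_inv₀, hr']
    refine hinvO r' ?_
    rintro rfl
    rw [map_zero] at hr'
    have h1 : algebraMap R F π = 0 := by simpa using hr'
    exact hπ.ne_zero (hinj (by rw [h1, map_zero]))

/-- The pull-back under `σ` of a valuation ring through `n` passes through `n`, if `σ`
stabilises the chart `B` and is trivial on `B / π B`. -/
theorem lpd81_comap_through (π : R) (hπ0 : algebraMap R F π ≠ 0) (B : Subalgebra R F)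
    (σ : F ≃+* F) (hB : ∀ x ∈ B, σ x ∈ B)
    (hcong : ∀ x ∈ B, (algebraMap R F π)⁻¹ * (σ x - x) ∈ B)
    (n : Ideal B) (hπn : algebraMap R B π ∈ n) (O : ValuationSubring F)
    (hO : s34i47_Through B n O) : s34i47_Through B n (O.comap (σ : F →+* F)) := by
  refine ⟨fun x hx => hO.1 _ (hB x hx), ?_⟩
  intro x hx
  show σ ((x : F)⁻¹) ∈ O
  rw [map_inv₀]
  let y : B := ⟨σ (x : F), hB _ x.2⟩
  let b : B := ⟨(algebraMap R F π)⁻¹ * (σ (x : F) - (x : F)), hcong _ x.2⟩
  have hy : y = x + algebraMap R B π * b := by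
    apply Subtype.ext
    show σ (x : F) = (x : F) + algebraMap R F π * ((algebraMap R F π)⁻¹ * (σ (x : F) - (x : F)))
    rw [← mul_assoc, mul_inv_cancel₀ hπ0, one_mul]
    ring
  have hyn : y ∉ n := by
    intro h
    apply hx
    have h1 : x = y - algebraMap R B π * b := by rw [hy]; ring
    rw [h1]
    exact n.sub_mem h (n.mul_mem_right _ hπn)
  exact hO.2 y hyn

end comap

/-- **(4)** (twin): `(UZ′) + (Ord) + (Rat) + (Fin) + (ST) ⟹ (LP′)`, the literal interface
statement of `Iface47d`. -/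
theorem lpd81_Pkg_LPD : s34i47d_Pkg_LPD := by
  intro R K F _ _ _ _ _ _ _ _ _ _ π hπ B m hm σ τ f hf hSσ hSτ hUZD hOrd hRat hFin n hn hπn
  classical
  obtain ⟨Dp, hDp, hUZ⟩ := hUZD n hn hπn
  have hinj : Function.Injective (algebraMap R F) := by
    rw [IsScalarTower.algebraMap_eq R K F]
    exact (algebraMap K F).injective.comp (IsFractionRing.injective R K)
  have hπ0 : algebraMap R F π ≠ 0 := fun h => hπ.ne_zero (hinj (by rw [h, map_zero]))
  have hSfin : {O : ValuationSubring F | s34i47_IsHoriz π O ∧ ¬ (f ∈ O ∧ f⁻¹ ∈ O)}.Finite := hFin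
  let T : Finset (ValuationSubring F) :=
    hSfin.toFinset.filter (fun O => s34i47_Through B n O ∧ O ∉ Dp)
  have hTmem : ∀ O : ValuationSubring F, O ∈ T ↔
      (s34i47_IsHoriz π O ∧ ¬ (f ∈ O ∧ f⁻¹ ∈ O)) ∧ s34i47_Through B n O ∧ O ∉ Dp := by
    intro O
    rw [Finset.mem_filter, Set.Finite.mem_toFinset]
    rfl
  have key : ∀ O : ValuationSubring F, O ∈ T → ∃ (p : F) (k : ℤ), p ≠ 0 ∧
      (∀ O' : ValuationSubring F, s34i47_IsHoriz π O' → s34i47_Through B n O' → O' ≠ O →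
        lp81_U O' p) ∧ lp81_U O (f / (p ^ k) ^ m) := by
    intro O hO
    obtain ⟨⟨hH, hnu⟩, hThr, hD⟩ := (hTmem O).1 hO
    have hrat : s34i47_IsRat K O := (hRat O hH).resolve_left hnu
    obtain ⟨p, hp0, hpO, hpinv, hgen, hoth⟩ := hUZ O hH hThr hrat hD
    obtain ⟨ε, w, hε, hεinv, hfw⟩ := hOrd O hH
    have hw0 : w ≠ 0 := by
      rintro rfl
      apply hf
      rw [hfw, zero_pow hm.ne', mul_zero]
    obtain ⟨k, hk⟩ := lp81_exists_zpow O hH.2.1 p hpO hpinv hgen w hw0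
    refine ⟨p, k, hp0, fun O' h1 h2 h3 => hoth O' h1 h2 h3, ?_⟩
    have h1 : f / (p ^ k) ^ m = ε * (w / p ^ k) ^ m := by
      rw [hfw, div_pow, mul_div_assoc]
    rw [h1]
    exact lp81_U_mul ⟨hε, hεinv⟩ (lp81_U_pow hk m)
  choose! P Kk hP0 hPoth hPk using key
  have hc0 : (∏ O ∈ T, P O ^ Kk O) ≠ 0 :=
    Finset.prod_ne_zero_iff.mpr fun O hO => zpow_ne_zero _ (hP0 O hO)
  refine ⟨∏ O ∈ T, P O ^ Kk O, hc0, ?_⟩
  -- `g = f / c ^ m` is a unit at every horizontal `O' ∉ Dp` through `n`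
  have hA : ∀ O' : ValuationSubring F, s34i47_IsHoriz π O' → s34i47_Through B n O' → O' ∉ Dp →
      lp81_U O' (f / (∏ O ∈ T, P O ^ Kk O) ^ m) := by
    intro O' hH' hThr' hD'
    by_cases hO'T : O' ∈ T
    · have hrest : lp81_U O' (∏ O ∈ T.erase O', P O ^ Kk O) := by
        refine lp81_U_prod O' _ _ fun O hO => ?_
        have hO1 : O ∈ T := Finset.mem_of_mem_erase hO
        have hO2 : O ≠ O' := Finset.ne_of_mem_erase hO
        exact lp81_U_zpow (hPoth O hO1 O' hH' hThr' (Ne.symm hO2)) _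
      have hsplit : f / (∏ O ∈ T, P O ^ Kk O) ^ m =
          f / (P O' ^ Kk O') ^ m * ((∏ O ∈ T.erase O', P O ^ Kk O) ^ m)⁻¹ := by
        rw [← Finset.mul_prod_erase T _ hO'T, mul_pow, div_mul_eq_div_div, div_eq_mul_inv
          (f / (P O' ^ Kk O') ^ m)]
      rw [hsplit]
      exact lp81_U_mul (hPk O' hO'T) (lp81_U_inv (lp81_U_pow hrest m))
    · have hfu : lp81_U O' f := by
        by_contra hcon
        exact hO'T ((hTmem O').2 ⟨⟨hH', hcon⟩, hThr', hD'⟩)
      rw [div_eq_mul_inv]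
      refine lp81_U_mul hfu (lp81_U_inv (lp81_U_pow (lp81_U_prod O' _ _ fun O hO => ?_) m))
      exact lp81_U_zpow (hPoth O hO O' hH' hThr' (by rintro rfl; exact hO'T hO)) _
  have hg0 : f / (∏ O ∈ T, P O ^ Kk O) ^ m ≠ 0 := div_ne_zero hf (pow_ne_zero _ hc0)
  -- pull-backs of horizontal rings through `n` outside `Dp`
  have hstep : ∀ (ρ : F ≃+* F), s34i47d_Stab π B ρ →
      (∀ O ∈ Dp, ∀ x : F, x ∈ O ↔ ρ x ∈ O) →
      ∀ O' : ValuationSubring F, s34i47_IsHoriz π O' → s34i47_Through B n O' → O' ∉ Dp →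
        s34i47_IsHoriz π (O'.comap (ρ : F →+* F)) ∧
        s34i47_Through B n (O'.comap (ρ : F →+* F)) ∧ O'.comap (ρ : F →+* F) ∉ Dp := by
    intro ρ hS hinv O' hH' hThr' hD'
    refine ⟨lpd81_comap_horiz hinj π hπ ρ hS.1 O' hH',
      lpd81_comap_through π hπ0 B ρ hS.2.2.1 hS.2.2.2.2 n hπn O' hThr', ?_⟩
    intro hmem
    apply hD'
    have heq : O' = O'.comap (ρ : F →+* F) := by
      ext y
      have h1 := hinv _ hmem (ρ.symm y)
      have h2 : ρ.symm y ∈ O'.comap (ρ : F →+* F) ↔ y ∈ O' := by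
        show ρ (ρ.symm y) ∈ O' ↔ y ∈ O'
        rw [RingEquiv.apply_symm_apply]
      have h3 : ρ (ρ.symm y) ∈ O'.comap (ρ : F →+* F) ↔ y ∈ O'.comap (ρ : F →+* F) := by
        rw [RingEquiv.apply_symm_apply]
      exact h2.symm.trans (h1.trans h3)
    rw [heq]
    exact hmem
  intro O' hH' hThr'
  by_cases hD : O' ∈ Dp
  · exact (lpd81_dd_unit_of_stable O' hH'.2.1 hH'.1 σ τ (hDp O' hD).1 _ hg0).1
  · obtain ⟨hσH, hσT, hσD⟩ := hstep σ hSσ (fun O hO => (hDp O hO).1) O' hH' hThr' hD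
    obtain ⟨hτH, hτT, hτD⟩ := hstep τ hSτ (fun O hO => (hDp O hO).2) O' hH' hThr' hD
    obtain ⟨hστH, hστT, hστD⟩ := hstep τ hSτ (fun O hO => (hDp O hO).2) _ hσH hσT hσD
    exact (lpd81_dd_unit_of_four O' σ τ _ (hA O' hH' hThr' hD) (hA _ hσH hσT hσD)
      (hA _ hτH hτT hτD) (hA _ hστH hστT hστD)).1

end Fermat.Agent.S34
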