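/-
S34 lab, package P6 (helper35): **proof of the interface proposition `s34i47_Pkg_LD`**
(Iface47 v1): (LP) + (KR) + (G) for `σ` and `τ` + saturation ⟹ the local datum (LD) of the
nodal two-chart lemma for the double difference `u = σ(τ f) f / (σ f · τ f)`.

Proof (δ-form): `δ x := σ(τ x) x / (σ x · τ x)` is multiplicative and `≡ 1 mod π W` for every
`x ≠ 0` by (G1), (G2).  At a maximal `n ∋ π` take `c` from (LP) and `φ := δ(c⁻¹)`; then
`φ ^ m * u = δ(f / c ^ m)` lies in `W`, and it lies in every horizontal `O` through `n`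
because `σ`, `τ` permute the horizontal valuation rings through `n` (they fix `n` by (G2) and
saturation); (KR) puts it in `B_n[1/π]` and saturation descends it to `B_n`.

Main result: `dd35_pkg_LD : s34i47_Pkg_LD`.  All names are prefixed `dd35_`.
-/
import Fermat.Agent.S34.Iface47
import Fermat.Agent.S34.DoubleDiffGen35

set_option autoImplicit false

namespace Fermat.Agent.S34

section aux

variable {F : Type*} [Field F]

theorem dd35_dd_eq (σ τ : F ≃+* F) (f : F) :
    s34i47_dd σ τ f = dd35_u (σ : F →+* F) (τ : F →+* F) f := rfl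

/-- **(A)** from (G1), (G2) alone. -/
theorem dd35_delta_cong (W : Subring F) (p : F) (σ τ : F ≃+* F)
    (hτ : ∀ x : F, x ≠ 0 → τ x / x ∈ W) (hσ : ∀ y ∈ W, p⁻¹ * (σ y - y) ∈ W)
    (x : F) (hx : x ≠ 0) :
    p⁻¹ * (dd35_u (σ : F →+* F) (τ : F →+* F) x - 1) ∈ W := by
  refine dd35_u_cong W p (σ : F →+* F) (τ : F →+* F) x hx ?_ (hσ _ (hτ x hx))
  have h := hτ x⁻¹ (inv_ne_zero hx)
  rw [map_inv₀, inv_div_inv] at h
  exact h

theorem dd35_mem_of_cong' (W : Subring F) (p : F) (hp0 : p ≠ 0) (hpW : p ∈ W) {x : F}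
    (hx : p⁻¹ * (x - 1) ∈ W) : x ∈ W := by
  have e : x = 1 + p * (p⁻¹ * (x - 1)) := by
    field_simp
    ring
  rw [e]
  exact W.add_mem W.one_mem (W.mul_mem hpW hx)

end aux

section horiz

variable {R K F : Type*} [CommRing R] [IsDomain R] [IsDiscreteValuationRing R] [Field K]
  [Field F] [Algebra R K] [IsFractionRing R K] [Algebra R F] [Algebra K F] [IsScalarTower R K F]

include K in
omit [IsDomain R] [IsDiscreteValuationRing R] in
theorem dd35_algebraMap_injective : Function.Injective (algebraMap R F) := by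
  rw [IsScalarTower.algebraMap_eq R K F]
  exact (algebraMap K F).injective.comp (IsFractionRing.injective R K)

include K in
/-- A horizontal valuation ring contains the inverses of the nonzero constants. -/
theorem dd35_horiz_inv_mem (π : R) (hπ : Irreducible π) (O : ValuationSubring F)
    (hO : s34i47_IsHoriz π O) (r : R) (hr : r ≠ 0) : (algebraMap R F r)⁻¹ ∈ O := by
  obtain ⟨k, u, rfl⟩ := IsDiscreteValuationRing.eq_unit_mul_pow_irreducible hr hπ
  have e : (algebraMap R F ((u : R) * π ^ k))⁻¹ =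
      algebraMap R F ((u⁻¹ : Rˣ) : R) * ((algebraMap R F π)⁻¹) ^ k := by
    have hinj : Function.Injective (algebraMap R F) := dd35_algebraMap_injective (K := K)
    have hπ0 : algebraMap R F π ≠ 0 := fun h => hπ.ne_zero (hinj (by rw [h, map_zero]))
    have hu0 : algebraMap R F (u : R) ≠ 0 := fun h => u.ne_zero (hinj (by rw [h, map_zero]))
    have h1 : algebraMap R F ((u⁻¹ : Rˣ) : R) * algebraMap R F (u : R) = 1 := by
      rw [← map_mul, Units.inv_mul, map_one]
    rw [map_mul, map_pow, mul_inv, inv_pow, eq_inv_of_mul_eq_one_left h1]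
  rw [e]
  exact O.mul_mem _ _ (hO.2.2.1 _) (O.pow_mem hO.2.2.2 k)

include K in
/-- The preimage of a horizontal valuation ring under an automorphism preserving the constants
is horizontal. -/
theorem dd35_horiz_comap (π : R) (hπ : Irreducible π) (σ : F ≃+* F)
    (hσR : ∀ r : R, ∃ r' : R, σ (algebraMap R F r) = algebraMap R F r')
    (O : ValuationSubring F) (hO : s34i47_IsHoriz π O) :
    s34i47_IsHoriz π (O.comap (σ : F →+* F)) := by
  have hinj : Function.Injective (algebraMap R F) := dd35_algebraMap_injective (K := K)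
  refine ⟨?_, ?_, ?_, ?_⟩
  · intro htop
    apply hO.1
    rw [eq_top_iff]
    intro x _
    have hx : σ.symm x ∈ O.comap (σ : F →+* F) := by rw [htop]; trivial
    have hx' : σ (σ.symm x) ∈ O := hx
    rwa [σ.apply_symm_apply] at hx'
  · have : IsPrincipalIdealRing O := hO.2.1
    have hmem : ∀ x ∈ O, (σ.symm : F →+* F) x ∈ O.comap (σ : F →+* F) := by
      intro x hx
      show σ (σ.symm x) ∈ O
      rwa [σ.apply_symm_apply]
    let g : O →+* (O.comap (σ : F →+* F)) :=
      (σ.symm : F →+* F).restrict O (O.comap (σ : F →+* F)) hmem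
    have hg : Function.Surjective g := by
      intro y
      have hy : σ (y : F) ∈ O := y.2
      refine ⟨⟨σ (y : F), hy⟩, ?_⟩
      apply Subtype.ext
      show σ.symm (σ (y : F)) = (y : F)
      exact σ.symm_apply_apply _
    exact IsPrincipalIdealRing.of_surjective g hg
  · intro r
    obtain ⟨r', hr'⟩ := hσR r
    show σ (algebraMap R F r) ∈ O
    rw [hr']
    exact hO.2.2.1 r'
  · obtain ⟨r', hr'⟩ := hσR π
    show σ ((algebraMap R F π)⁻¹) ∈ O
    rw [map_inv₀, hr']
    refine dd35_horiz_inv_mem (K := K) π hπ O hO r' ?_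
    intro h0
    rw [h0, map_zero] at hr'
    have h1 : algebraMap R F π = 0 := by
      have := congrArg σ.symm hr'
      rwa [σ.symm_apply_apply, map_zero] at this
    exact hπ.ne_zero (hinj (by rw [h1, map_zero]))

omit [IsDomain R] [IsDiscreteValuationRing R] in
/-- The preimage of a valuation ring through `n` under an automorphism preserving `B` and the
complement of `n` passes through `n`. -/
theorem dd35_through_comap (B : Subalgebra R F) (n : Ideal B) (σ : F ≃+* F)
    (hσB : ∀ x ∈ B, σ x ∈ B) (hσn : ∀ d : B, d ∉ n → (⟨σ d, hσB d d.2⟩ : B) ∉ n)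
    (O : ValuationSubring F) (hO : s34i47_Through B n O) :
    s34i47_Through B n (O.comap (σ : F →+* F)) := by
  refine ⟨fun x hx => hO.1 _ (hσB x hx), fun x hx => ?_⟩
  show σ ((x : F)⁻¹) ∈ O
  rw [map_inv₀]
  exact hO.2 ⟨σ x, hσB x x.2⟩ (hσn x hx)

end horiz

/-- **Package P6**: the interface proposition `s34i47_Pkg_LD`. -/
theorem dd35_pkg_LD : s34i47_Pkg_LD := by
  intro R K F _ _ _ _ _ _ _ _ _ _ π hπ m hm W B σ τ f hf hRW hBW hsat hGσ hGτ hσB hτB hKr hLP
    n hn hπn
  obtain ⟨hσR, hσ1, hσ2⟩ := hGσ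
  obtain ⟨hτR, hτ1, hτ2⟩ := hGτ
  have hinj : Function.Injective (algebraMap R F) := dd35_algebraMap_injective (K := K)
  have hp0 : algebraMap R F π ≠ 0 := fun h => hπ.ne_zero (hinj (by rw [h, map_zero]))
  have hpW : algebraMap R F π ∈ W := hRW π
  obtain ⟨c, hc0, hc⟩ := hLP n hn hπn
  -- `σ`, `τ` fix `n`
  have hσn := dd35_fix_of_triv B n W hBW _ hp0 (algebraMap R B π) rfl hπn hsat
    (σ : F →+* F) hσB hσ2
  have hτn := dd35_fix_of_triv B n W hBW _ hp0 (algebraMap R B π) rfl hπn hsat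
    (τ : F →+* F) hτB hτ2
  -- the datum
  have hc0' : c⁻¹ ≠ 0 := inv_ne_zero hc0
  refine ⟨dd35_u (σ : F →+* F) (τ : F →+* F) c⁻¹,
    dd35_delta_cong W _ σ τ hτ1 hσ2 c⁻¹ hc0', ?_⟩
  rw [dd35_dd_eq]
  have hω0 : f / c ^ m ≠ 0 := div_ne_zero hf (pow_ne_zero m hc0)
  have key : dd35_u (σ : F →+* F) (τ : F →+* F) c⁻¹ ^ m * dd35_u (σ : F →+* F) (τ : F →+* F) f
      = dd35_u (σ : F →+* F) (τ : F →+* F) (f / c ^ m) := by
    rw [dd35_u_div, dd35_u_pow, dd35_u_inv, inv_pow, div_eq_mul_inv, mul_comm]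
  rw [key]
  have huW : dd35_u (σ : F →+* F) (τ : F →+* F) (f / c ^ m) ∈ W :=
    dd35_mem_of_cong' W _ hp0 hpW (dd35_delta_cong W _ σ τ hτ1 hσ2 _ hω0)
  -- membership in every horizontal valuation ring through `n`
  have hO : ∀ O : ValuationSubring F, s34i47_IsHoriz π O → s34i47_Through B n O →
      dd35_u (σ : F →+* F) (τ : F →+* F) (f / c ^ m) ∈ O := by
    intro O hO1 hO2
    have hOσ1 := dd35_horiz_comap (K := K) π hπ σ hσR O hO1
    have hOσ2 := dd35_through_comap B n σ hσB hσn O hO2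
    have hOτ1 := dd35_horiz_comap (K := K) π hπ τ hτR O hO1
    have hOτ2 := dd35_through_comap B n τ hτB hτn O hO2
    have hOστ1 := dd35_horiz_comap (K := K) π hπ τ hτR _ hOσ1
    have hOστ2 := dd35_through_comap B n τ hτB hτn _ hOσ2
    have e : dd35_u (σ : F →+* F) (τ : F →+* F) (f / c ^ m) =
        σ (τ (f / c ^ m)) * (f / c ^ m) * (σ (c ^ m / f) * τ (c ^ m / f)) := by
      have hinv : c ^ m / f = (f / c ^ m)⁻¹ := (inv_div f (c ^ m)).symm
      rw [hinv, dd35_u, map_inv₀, map_inv₀, div_eq_mul_inv, mul_inv]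
      rfl
    rw [e]
    refine O.mul_mem _ _ (O.mul_mem _ _ ?_ (hc O hO1 hO2).1) (O.mul_mem _ _ ?_ ?_)
    · exact (hc _ hOστ1 hOστ2).1
    · exact (hc _ hOσ1 hOσ2).2
    · exact (hc _ hOτ1 hOτ2).2
  obtain ⟨s, hs, k, hk⟩ := hKr n hn hπn _ hO
  have hreg : dd35_Reg B n (algebraMap R F π)
      (dd35_u (σ : F →+* F) (τ : F →+* F) (f / c ^ m)) := by
    refine ⟨s, hs, k, ?_⟩
    have e : (s : F) * algebraMap R F π ^ k * dd35_u (σ : F →+* F) (τ : F →+* F) (f / c ^ m)
        = algebraMap R F π ^ k * ((s : F) * dd35_u (σ : F →+* F) (τ : F →+* F) (f / c ^ m)) := by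
      ring
    rw [e]
    exact hk
  exact dd35_Reg.descend W hBW hp0 hpW hsat hreg huW

end Fermat.Agent.S34
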