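/-
S34 lab, package P6 (helper35, twin of row 482): **proofs of the two halves
`s34i47b_Pkg_LDa` and `s34i47b_Pkg_LDb` of (LD)** (Iface47b), separately, so that the fallback
route (helper3's DeepNode3, whose output is the relaxed form `s34i47b_LocPrinDD`) can use
`LDb` alone.

* `dd35_pkg_LDa : s34i47b_Pkg_LDa` : (LP) ⟹ (LP′): `σ`, `τ` permute the horizontal valuation
  rings through `n` (`dd35_horiz_comap`, `dd35_through_comap`; `σ n = n` from (G2) + saturation).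
* `dd35_pkg_LDb : s34i47b_Pkg_LDb` : (LP′) + (KR) + (G) + saturation ⟹ (LD):
  `φ := δ(c⁻¹)`, `φ ^ m * δ f = δ(f / c ^ m) ∈ W ∩ B_n[1/π]`, saturation descent.

All names are prefixed `dd35_`.
-/
import Fermat.Agent.S34.Iface47b
import Fermat.Agent.S34.PkgLD35

set_option autoImplicit false

namespace Fermat.Agent.S34

/-- **P6a**: (LP) ⟹ (LP′). -/
theorem dd35_pkg_LDa : s34i47b_Pkg_LDa := by
  intro R K F _ _ _ _ _ _ _ _ _ _ π hπ m W B σ τ f _ hBW hsat hGσ hGτ hσB hτB hLP n hn hπn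
  obtain ⟨hσR, -, hσ2⟩ := hGσ
  obtain ⟨hτR, -, hτ2⟩ := hGτ
  have hinj : Function.Injective (algebraMap R F) := dd35_algebraMap_injective (K := K)
  have hp0 : algebraMap R F π ≠ 0 := fun h => hπ.ne_zero (hinj (by rw [h, map_zero]))
  obtain ⟨c, hc0, hc⟩ := hLP n hn hπn
  have hσn := dd35_fix_of_triv B n W hBW _ hp0 (algebraMap R B π) rfl hπn hsat
    (σ : F →+* F) hσB hσ2
  have hτn := dd35_fix_of_triv B n W hBW _ hp0 (algebraMap R B π) rfl hπn hsat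
    (τ : F →+* F) hτB hτ2
  refine ⟨c, hc0, ?_⟩
  intro O hO1 hO2
  have hOσ1 := dd35_horiz_comap (K := K) π hπ σ hσR O hO1
  have hOσ2 := dd35_through_comap B n σ hσB hσn O hO2
  have hOτ1 := dd35_horiz_comap (K := K) π hπ τ hτR O hO1
  have hOτ2 := dd35_through_comap B n τ hτB hτn O hO2
  have hOστ1 := dd35_horiz_comap (K := K) π hπ τ hτR _ hOσ1
  have hOστ2 := dd35_through_comap B n τ hτB hτn _ hOσ2
  have e : s34i47_dd σ τ (f / c ^ m) =
      σ (τ (f / c ^ m)) * (f / c ^ m) * (σ (c ^ m / f) * τ (c ^ m / f)) := by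
    have hinv : c ^ m / f = (f / c ^ m)⁻¹ := (inv_div f (c ^ m)).symm
    rw [hinv, s34i47_dd, map_inv₀, map_inv₀, div_eq_mul_inv, mul_inv]
  rw [e]
  refine O.mul_mem _ _ (O.mul_mem _ _ ?_ (hc O hO1 hO2).1) (O.mul_mem _ _ ?_ ?_)
  · exact (hc _ hOστ1 hOστ2).1
  · exact (hc _ hOσ1 hOσ2).2
  · exact (hc _ hOτ1 hOτ2).2

/-- **P6b**: (LP′) + (KR) + (G) + saturation ⟹ (LD). -/
theorem dd35_pkg_LDb : s34i47b_Pkg_LDb := by
  intro R K F _ _ _ _ _ _ _ _ _ _ π hπ m _ W B σ τ f hf hRW hBW hsat hGσ hGτ hKr hLP n hn hπn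
  obtain ⟨-, -, hσ2⟩ := hGσ
  obtain ⟨-, hτ1, -⟩ := hGτ
  have hinj : Function.Injective (algebraMap R F) := dd35_algebraMap_injective (K := K)
  have hp0 : algebraMap R F π ≠ 0 := fun h => hπ.ne_zero (hinj (by rw [h, map_zero]))
  have hpW : algebraMap R F π ∈ W := hRW π
  obtain ⟨c, hc0, hc⟩ := hLP n hn hπn
  have hc0' : c⁻¹ ≠ 0 := inv_ne_zero hc0
  refine ⟨dd35_u (σ : F →+* F) (τ : F →+* F) c⁻¹,
    dd35_delta_cong W _ σ τ hτ1 hσ2 c⁻¹ hc0', ?_⟩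
  rw [dd35_dd_eq]
  have hω0 : f / c ^ m ≠ 0 := div_ne_zero hf (pow_ne_zero m hc0)
  have key : dd35_u (σ : F →+* F) (τ : F →+* F) c⁻¹ ^ m * dd35_u (σ : F →+* F) (τ : F →+* F) f
      = dd35_u (σ : F →+* F) (τ : F →+* F) (f / c ^ m) := by
    rw [dd35_u_div, dd35_u_pow, dd35_u_inv, inv_pow, div_eq_mul_inv, mul_comm]
  rw [key]
  have huW : dd35_u (σ : F →+* F) (τ : F →+* F) (f / c ^ m) ∈ W :=
    dd35_mem_of_cong' W _ hp0 hpW (dd35_delta_cong W _ σ τ hτ1 hσ2 _ hω0)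
  obtain ⟨s, hs, k, hk⟩ := hKr n hn hπn _ hc
  have hreg : dd35_Reg B n (algebraMap R F π)
      (dd35_u (σ : F →+* F) (τ : F →+* F) (f / c ^ m)) := by
    refine ⟨s, hs, k, ?_⟩
    have e : (s : F) * algebraMap R F π ^ k * dd35_u (σ : F →+* F) (τ : F →+* F) (f / c ^ m)
        = algebraMap R F π ^ k * ((s : F) * dd35_u (σ : F →+* F) (τ : F →+* F) (f / c ^ m)) := by
      ring
    rw [e]
    exact hk
  exact dd35_Reg.descend W hBW hp0 hpW hsat hreg huW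

end Fermat.Agent.S34
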