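import Mathlib
import Fermat.Agent.S34.Core47
import Fermat.Agent.S34.Unip60
import Fermat.Agent.S34.UniqueZero37
import Fermat.Agent.S34.LocPrin9
import Fermat.Agent.S34.Krull65
import Fermat.Agent.S34.PkgLD32
import Fermat.Agent.S34.PkgLDab35
import Fermat.Agent.S34.FrameSat85
import Fermat.Agent.S34.FrameGal87
import Fermat.Agent.S34.FinSupp29
import Fermat.Agent.S34.FieldDef45
import Fermat.Agent.S34.Dom65
import Fermat.Agent.S34.LPDTwin81

/-!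
# S34 lab: the registrar's certificate (helper51)

Every package of the interface that is proved on main is plugged into the two assemblies of the
architect (`s34c47_assembly`, first route; `s34cw47_assembly`, second route).  What is left:

* first route: ONE closed `Prop`, `s34i47c_Pkg_FrameLS` (Iface47c);
* second route: TWO closed `Prop`s, `s34i47d_Pkg_UZD` and `s34i47d_Pkg_FrameLSW` (Iface47d).

`s34g51_result_route1` / `s34g51_result_route2` have the hypotheses and the conclusion of the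
frozen statement S34 after these `Prop`s.
-/

set_option autoImplicit false

namespace Fermat.Agent.S34

/-- First route: `(U)` from `s34i47c_Pkg_FrameLS` alone. -/
theorem s34g51_U_route1 (hLS : s34i47c_Pkg_FrameLS) {p q N : ℕ} [NeZero N] (hp : p.Prime)
    (hq : q.Prime) (hqp : q ≠ p) (hqN : q ∣ N) (hq2 : ¬ q ^ 2 ∣ N) : lc52_U p q N :=
  s34c47_assembly uz37_Pkg_UZ lp9_Pkg_LP kr65_Pkg_Krull pld32_Pkg_LD fs85_pkg_frameSat
    in87g_pkg_frameGal hLS fs29_Pkg_Fin fd45_pkg_fieldDef hp hq hqp hqN hq2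

/-- Second route: `(U)` from `s34i47d_Pkg_UZD` and `s34i47d_Pkg_FrameLSW`. -/
theorem s34g51_U_route2 (hUZD : s34i47d_Pkg_UZD) (hLSW : s34i47d_Pkg_FrameLSW) {p q N : ℕ}
    [NeZero N] (hp : p.Prime) (hq : q.Prime) (hqp : q ≠ p) (hqN : q ∣ N) (hq2 : ¬ q ^ 2 ∣ N) :
    lc52_U p q N :=
  s34cw47_assembly dm65_Pkg_Dom hUZD lpd81_Pkg_LPD kr65_Pkg_Krull dd35_pkg_LDb fs85_pkg_frameSat
    in87g_pkg_frameGal hLSW fs29_Pkg_Fin fd45_pkg_fieldDef hp hq hqp hqN hq2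

section Result

variable {𝒪 : Type} [CommRing 𝒪] [IsDomain 𝒪] [IsDiscreteValuationRing 𝒪]
  [IsAdicComplete (IsLocalRing.maximalIdeal 𝒪) 𝒪]
  {p : ℕ} {N : ℕ} [NeZero N] {S : Finset ℕ}
  {θ : CuspForm.heckeAlgebra N 2 (↑S : Set ℕ) →+* IsLocalRing.ResidueField 𝒪}
  {T : Type} [CommRing T] [IsLocalRing T] [IsNoetherianRing T]
  [IsAdicComplete (IsLocalRing.maximalIdeal T) T] [Algebra 𝒪 T] [IsLocalHom (algebraMap 𝒪 T)]
  [Module.Finite 𝒪 T] [Module.Free 𝒪 T]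

/-- **S34 after the first route**: the frozen statement from `s34i47c_Pkg_FrameLS`. -/
theorem s34g51_result_route1 (hLS : s34i47c_Pkg_FrameLS)
    (hp : p.Prime) (hp𝒪 : (p : 𝒪) ∈ IsLocalRing.maximalIdeal 𝒪) (hpS : p ∈ S)
    (hNS : ∀ q : ℕ, q.Prime → q ∣ N → q ∈ S)
    (H : CuspForm.HeckeGaloisRepDatum N (↑S : Set ℕ) 𝒪 θ T)
    (q : ℕ) (hq : q.Prime) (hqp : q ≠ p) (hqN : q ∣ N) (hq2 : ¬ q ^ 2 ∣ N) :
    H.ρ.IsUnipotentOnInertiaAt q :=
  s34e60_main hp hp𝒪 hpS hNS H q hq hqp (s34g51_U_route1 hLS hp hq hqp hqN hq2)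

/-- **S34 after the second route**: the frozen statement from `s34i47d_Pkg_UZD` and
`s34i47d_Pkg_FrameLSW`. -/
theorem s34g51_result_route2 (hUZD : s34i47d_Pkg_UZD) (hLSW : s34i47d_Pkg_FrameLSW)
    (hp : p.Prime) (hp𝒪 : (p : 𝒪) ∈ IsLocalRing.maximalIdeal 𝒪) (hpS : p ∈ S)
    (hNS : ∀ q : ℕ, q.Prime → q ∣ N → q ∈ S)
    (H : CuspForm.HeckeGaloisRepDatum N (↑S : Set ℕ) 𝒪 θ T)
    (q : ℕ) (hq : q.Prime) (hqp : q ≠ p) (hqN : q ∣ N) (hq2 : ¬ q ^ 2 ∣ N) :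
    H.ρ.IsUnipotentOnInertiaAt q :=
  s34e60_main hp hp𝒪 hpS hNS H q hq hqp (s34g51_U_route2 hUZD hLSW hp hq hqp hqN hq2)

end Result

end Fermat.Agent.S34
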