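import Mathlib
import Fermat.Agent.S34.Iface47c
import Fermat.Agent.S34.SpecFibre79
import Fermat.Agent.S34.BranchZeroInst13
import Fermat.Agent.S34.UVAtFrame22
import Fermat.Agent.S34.AtkinLehnerCanon97

/-!
# S34 lab: interface, part e (helper47, architect) — FRAME-LS reduced to TWO instance packages

State of the frame (canonical data of `Iface47c` at level `M' * q`, `q ∤ M'`:
`V_∞ = cm85_Vinf (M' * q) hπ`, `V_0 = s34i47c_V0 M' q hq hM' hπ`, charts
`B = pk15_chart R {h}`, `pk15_chart R {h⁻¹}`, `h` an admissible Hauptmodul):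

* `sf79_UVAt π B V_∞ V_0` is PROVED (`uvf22_UVAt`, helper22);
* `sf79_Smooth π B V_0` follows from `sf79_Smooth π B V_∞` (`bz13_smooth_V0`, helper13);
* saturation, noetherianity, `B ⊆ W` are in `s34i47c_Pkg_FrameSat` (`fs85_pkg_frameSat`).

So `s34i47c_Pkg_FrameLS` is reduced (by `sf79_locStr`, helper79) to the two closed Props

* `s34i47e_Pkg_FrameSmooth` : `sf79_Smooth π B V_∞` for both affine charts   [(3a), row 488];
* `s34i47e_Pkg_FrameTransv` : `sf79_Transv π B V_∞ V_0` for both affine charts [(3b), row 490].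

`s34i47e_frameLS_of` : FRAME-SAT + these two packages ⟹ `s34i47c_Pkg_FrameLS`.
-/

set_option autoImplicit false

open ModularCurve AlgebraicCurve

namespace Fermat.Agent.S34

open Fermat.Agent.S18

local notation "Q̄" => AlgebraicClosure ℚ

/-- **FRAME-SMOOTH** ((3a) on the `∞`-branch) at level `M' * q`: every closed point of the
`∞`-branch of the two affine charts of every admissible Hauptmodul has a local coordinate. -/
def s34i47e_FrameSmooth (M' q : ℕ) [NeZero M'] [NeZero q] : Prop :=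
  ∀ (R K : Type) [CommRing R] [IsDomain R] [IsDiscreteValuationRing R] [Field K] [NumberField K]
    [Algebra K Q̄] [Algebra R K] [IsFractionRing R K]
    [Algebra R ↥(modularFunctionFieldFullC K (M' * q))]
    [IsScalarTower R K ↥(modularFunctionFieldFullC K (M' * q))] (π : R) (hπ : Irreducible π),
    (∀ n : ℕ, Nat.Coprime n q → IsUnit (n : R)) → ¬ IsUnit (q : R) →
    ∀ h : ↥(modularFunctionFieldFullC K (M' * q)), s34i47c_IsHaupt K (M' * q) q h →
      sf79_Smooth π (pk15_chart R ({h} : Set ↥(modularFunctionFieldFullC K (M' * q))))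
        (cm85_Vinf (K := K) (M' * q) hπ).toSubring ∧
      sf79_Smooth π (pk15_chart R ({h⁻¹} : Set ↥(modularFunctionFieldFullC K (M' * q))))
        (cm85_Vinf (K := K) (M' * q) hπ).toSubring

/-- **FRAME-TRANSV** ((3b)) at level `M' * q`: at the closed points lying on both branches of the
two affine charts, `n B_n = p_∞ B_n + p_0 B_n`. -/
def s34i47e_FrameTransv (M' q : ℕ) [NeZero M'] [NeZero q] (hq : q.Prime) (hM' : ¬ q ∣ M') :
    Prop :=
  ∀ (R K : Type) [CommRing R] [IsDomain R] [IsDiscreteValuationRing R] [Field K] [NumberField K]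
    [Algebra K Q̄] [Algebra R K] [IsFractionRing R K]
    [Algebra R ↥(modularFunctionFieldFullC K (M' * q))]
    [IsScalarTower R K ↥(modularFunctionFieldFullC K (M' * q))] (π : R) (hπ : Irreducible π),
    (∀ n : ℕ, Nat.Coprime n q → IsUnit (n : R)) → ¬ IsUnit (q : R) →
    ∀ h : ↥(modularFunctionFieldFullC K (M' * q)), s34i47c_IsHaupt K (M' * q) q h →
      sf79_Transv π (pk15_chart R ({h} : Set ↥(modularFunctionFieldFullC K (M' * q))))
        (cm85_Vinf (K := K) (M' * q) hπ).toSubring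
        (s34i47c_V0 (K := K) M' q hq hM' hπ).toSubring ∧
      sf79_Transv π (pk15_chart R ({h⁻¹} : Set ↥(modularFunctionFieldFullC K (M' * q))))
        (cm85_Vinf (K := K) (M' * q) hπ).toSubring
        (s34i47c_V0 (K := K) M' q hq hM' hπ).toSubring

/-- Package statement for FRAME-SMOOTH. -/
def s34i47e_Pkg_FrameSmooth : Prop :=
  ∀ (M' q : ℕ) [NeZero M'] [NeZero q], q.Prime → ¬ q ∣ M' → s34i47e_FrameSmooth M' q

/-- Package statement for FRAME-TRANSV. -/
def s34i47e_Pkg_FrameTransv : Prop :=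
  ∀ (M' q : ℕ) [NeZero M'] [NeZero q] (hq : q.Prime) (hM' : ¬ q ∣ M'),
    s34i47e_FrameTransv M' q hq hM'

/-- **FRAME-LS from FRAME-SAT, FRAME-SMOOTH and FRAME-TRANSV** (`sf79_locStr` with
`bz13_smooth_V0` and `uvf22_UVAt`). -/
theorem s34i47e_frameLS_of (hSat : s34i47c_Pkg_FrameSat) (hSm : s34i47e_Pkg_FrameSmooth)
    (hTr : s34i47e_Pkg_FrameTransv) : s34i47c_Pkg_FrameLS := by
  intro M' q _ _ hq hM' R K _ _ _ _ _ _ _ _ _ _ π hπ hunit hqR h hh
  obtain ⟨-, hC⟩ := hSat M' q hq hM' R K π hπ hunit hqR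
  obtain ⟨-, h12W, hsat₁, hsat₂, -, hN₁, hN₂, -, -⟩ := hC h hh
  obtain ⟨hS₁, hS₂⟩ := hSm M' q hq hM' R K π hπ hunit hqR h hh
  obtain ⟨hT₁, hT₂⟩ := hTr M' q hq hM' R K π hπ hunit hqR h hh
  obtain ⟨hS₁0, hS₂0⟩ := bz13_smooth_V0 (K := K) M' q hq hM' (π := π) hπ hunit h hh
  obtain ⟨hUV₁, hUV₂⟩ := uvf22_UVAt (K := K) M' q hq hM' hπ hunit hqR h hh
  have hπ₁ : (algebraMap R ↥(modularFunctionFieldFullC K (M' * q)) π)⁻¹ ∉
      (cm85_Vinf (K := K) (M' * q) hπ).toSubring := by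
    rw [IsScalarTower.algebraMap_apply R K ↥(modularFunctionFieldFullC K (M' * q))]
    exact gv85_pi_inv_not_mem (IsLocalRing.residue R) π (pk85_res_iff hπ) hπ.ne_zero _ _
  have hπ₂ : (algebraMap R ↥(modularFunctionFieldFullC K (M' * q)) π)⁻¹ ∉
      (s34i47c_V0 (K := K) M' q hq hM' hπ).toSubring := by
    intro hmem
    have hmem' : (algebraMap R ↥(modularFunctionFieldFullC K (M' * q)) π)⁻¹ ∈
        s34i47c_V0 (K := K) M' q hq hM' hπ := hmem
    rw [s34i47c_mem_V0, map_inv₀,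
      IsScalarTower.algebraMap_apply R K ↥(modularFunctionFieldFullC K (M' * q)),
      AlgEquiv.commutes,
      ← IsScalarTower.algebraMap_apply R K ↥(modularFunctionFieldFullC K (M' * q))] at hmem'
    exact hπ₁ hmem'
  have hV₁ : ∀ x ∈ (cm85_Vinf (K := K) (M' * q) hπ).toSubring,
      (algebraMap R ↥(modularFunctionFieldFullC K (M' * q)) π)⁻¹ * x ∉
        (cm85_Vinf (K := K) (M' * q) hπ).toSubring →
      x⁻¹ ∈ (cm85_Vinf (K := K) (M' * q) hπ).toSubring := by
    intro x hx hnot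
    by_contra hinv
    apply hnot
    have := gv85_hmax (IsLocalRing.residue R) π (pk85_res_iff hπ) hπ.ne_zero _ _ x hx hinv
    rw [IsScalarTower.algebraMap_apply R K ↥(modularFunctionFieldFullC K (M' * q))]
    exact this
  have hV₂ : ∀ x ∈ (s34i47c_V0 (K := K) M' q hq hM' hπ).toSubring,
      (algebraMap R ↥(modularFunctionFieldFullC K (M' * q)) π)⁻¹ * x ∉
        (s34i47c_V0 (K := K) M' q hq hM' hπ).toSubring →
      x⁻¹ ∈ (s34i47c_V0 (K := K) M' q hq hM' hπ).toSubring := by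
    intro x hx hnot
    have hx' : al97L_w (algebraMap K Q̄) M' q hq hM' x ∈
        (cm85_Vinf (K := K) (M' * q) hπ).toSubring := hx
    have h1 := hV₁ _ hx' (by
      intro hmem
      apply hnot
      show (algebraMap R ↥(modularFunctionFieldFullC K (M' * q)) π)⁻¹ * x ∈
        s34i47c_V0 (K := K) M' q hq hM' hπ
      rw [s34i47c_mem_V0, map_mul, map_inv₀,
        IsScalarTower.algebraMap_apply R K ↥(modularFunctionFieldFullC K (M' * q)),
        AlgEquiv.commutes,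
        ← IsScalarTower.algebraMap_apply R K ↥(modularFunctionFieldFullC K (M' * q))]
      exact hmem)
    show x⁻¹ ∈ s34i47c_V0 (K := K) M' q hq hM' hπ
    rw [s34i47c_mem_V0, map_inv₀]
    exact h1
  have hBW : ∀ (s : Set ↥(modularFunctionFieldFullC K (M' * q))),
      s ⊆ {h, h⁻¹} → ∀ x ∈ pk15_chart R s, x ∈ s34i47c_W (K := K) M' q hq hM' hπ :=
    fun s hs x hx => h12W x (pk15_chart_mono hs hx)
  have hsat : ∀ (B : Subalgebra R ↥(modularFunctionFieldFullC K (M' * q))),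
      (∀ x ∈ B, (algebraMap R ↥(modularFunctionFieldFullC K (M' * q)) π)⁻¹ * x ∈
        s34i47c_W (K := K) M' q hq hM' hπ →
        (algebraMap R ↥(modularFunctionFieldFullC K (M' * q)) π)⁻¹ * x ∈ B) →
      ∀ x ∈ B, (algebraMap R ↥(modularFunctionFieldFullC K (M' * q)) π)⁻¹ * x ∈
          (cm85_Vinf (K := K) (M' * q) hπ).toSubring →
        (algebraMap R ↥(modularFunctionFieldFullC K (M' * q)) π)⁻¹ * x ∈
          (s34i47c_V0 (K := K) M' q hq hM' hπ).toSubring →
        (algebraMap R ↥(modularFunctionFieldFullC K (M' * q)) π)⁻¹ * x ∈ B :=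
    fun B hB x hx h1 h2 => hB x hx ((wa5_mem_W _ _ _).mpr ⟨h1, h2⟩)
  have hB₁ : ∀ (s : Set ↥(modularFunctionFieldFullC K (M' * q))),
      s ⊆ {h, h⁻¹} → ∀ x ∈ pk15_chart R s, x ∈ (cm85_Vinf (K := K) (M' * q) hπ).toSubring :=
    fun s hs x hx => ((wa5_mem_W _ _ _).mp (hBW s hs x hx)).1
  have hB₂ : ∀ (s : Set ↥(modularFunctionFieldFullC K (M' * q))),
      s ⊆ {h, h⁻¹} → ∀ x ∈ pk15_chart R s,
        x ∈ (s34i47c_V0 (K := K) M' q hq hM' hπ).toSubring :=
    fun s hs x hx => ((wa5_mem_W _ _ _).mp (hBW s hs x hx)).2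
  have hs₁ : ({h} : Set ↥(modularFunctionFieldFullC K (M' * q))) ⊆ {h, h⁻¹} := by simp
  have hs₂ : ({h⁻¹} : Set ↥(modularFunctionFieldFullC K (M' * q))) ⊆ {h, h⁻¹} := by simp
  have := hN₁
  have := hN₂
  exact ⟨sf79_locStr π _ _ _ (hB₁ _ hs₁) (hB₂ _ hs₁) hπ₁ hπ₂ hV₁ hV₂ (hsat _ hsat₁) hS₁
      (hS₁0 hS₁) hT₁ hUV₁,
    sf79_locStr π _ _ _ (hB₁ _ hs₂) (hB₂ _ hs₂) hπ₁ hπ₂ hV₁ hV₂ (hsat _ hsat₂) hS₂
      (hS₂0 hS₂) hT₂ hUV₂⟩

end Fermat.Agent.S34
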