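import Fermat.Agent.S34.AtkinLehnerVal73
import Fermat.Agent.S34.BranchInf93
import Fermat.Agent.S34.BranchZeroInst13

/-!
# S34 lab, rows 488 / 489 / 521 (helper73): residue degree one and (3a) on the canonical frame

Canonical data of `Iface47c` at level `M' * q` (`q` prime, `q ∤ M'`, residue characteristic `q`):
`V_∞ = cm85_Vinf (M' * q) hπ`, `V_0 = s34i47c_V0 M' q hq hM' hπ`, `h` an admissible Hauptmodul
(`s34i47c_IsHaupt`).

* `sc73_F1`      : `bi93_F1 M' (M' * q)` (helper93's ONE hypothesis: residue degree one of `V_∞`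
  over the Gauss ring of level `M'`), from `alv73_main`;
* `sc73_F1_V0`   : residue degree one of `V_0` over the Gauss ring of level `M'` along `β`;
* `sc73_smooth_Vinf` : `sf79_Smooth π B V_∞` for both affine charts `B = pk15_chart R {h}`,
  `pk15_chart R {h⁻¹}` (from `bi93_level2/3`);
* `sc73_smooth_V0`   : `sf79_Smooth π B V_0` for both charts (by helper13's `bz13_smooth_V0`);
* `sc73_smooth`      : the four statements together = the inputs `hS₁`, `hS₂` of `sf79_locStr`
  for both charts, with no hypothesis beyond the binder block of `s34i47c_FrameLS`.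

All names are prefixed `sc73_`.
-/

set_option autoImplicit false
set_option linter.unusedSectionVars false
set_option linter.style.haveILetI false

open ModularCurve

namespace Fermat.Agent.S34

open Fermat.Agent.S18

local notation "Q̄" => AlgebraicClosure ℚ

section sc73

variable {R K : Type} [CommRing R] [IsDomain R] [IsDiscreteValuationRing R] [Field K] [CharZero K]
  [Algebra R K] [IsFractionRing R K] [Algebra K Q̄]
  (M' q : ℕ) [NeZero M'] [NeZero q] (hq : q.Prime) (hM' : ¬ q ∣ M')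
  [Algebra R ↥(modularFunctionFieldFullC K (M' * q))]
  [IsScalarTower R K ↥(modularFunctionFieldFullC K (M' * q))] {π : R} (hπ : Irreducible π)

include hq hM' in
/-- **Residue degree one of `V_∞`** at level `M' * q` over the Gauss ring of level `M'`
(the hypothesis `hf1` of `bi93_level2/3`, `bi93_surj`, `bi93_unif`). -/
theorem sc73_F1 (hqR : ¬ IsUnit (q : R)) :
    bi93_F1 (K := K) M' (M' * q) (dvd_mul_right M' q) hπ := by
  intro x hx
  obtain ⟨b, hb, h⟩ := (alv73_main (algebraMap K Q̄) M' q hq hM' hπ hqR).2.2 x hx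
  refine ⟨b, hb, ?_⟩
  rw [alv73_pi_eq]
  exact h

/-- The canonical `V_0` of `Iface47c` is `alv73_V0`. -/
theorem sc73_V0_iff (x : ↥(modularFunctionFieldFullC K (M' * q))) :
    x ∈ s34i47c_V0 (K := K) M' q hq hM' hπ ↔ x ∈ alv73_V0 (algebraMap K Q̄) M' q hq hM' hπ :=
  Iff.rfl

/-- **Residue degree one of `V_0`** over the Gauss ring of level `M'` along `β`. -/
theorem sc73_F1_V0 (hqR : ¬ IsUnit (q : R)) (x : ↥(modularFunctionFieldFullC K (M' * q)))
    (hx : x ∈ s34i47c_V0 (K := K) M' q hq hM' hπ) :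
    ∃ b ∈ cm85_Vinf (K := K) M' hπ,
      (algebraMap R ↥(modularFunctionFieldFullC K (M' * q)) π)⁻¹ * (x - al97L_beta K M' q b) ∈
        s34i47c_V0 (K := K) M' q hq hM' hπ := by
  obtain ⟨b, hb, h⟩ := alv73_res_V0 (algebraMap K Q̄) M' q hq hM' hπ hqR x hx
  refine ⟨b, hb, ?_⟩
  rw [alv73_pi_eq]
  exact h

include hq hM' in
/-- **(3a) for the `∞`-branch on the canonical frame**: both affine charts of every admissible
Hauptmodul, in the literal shape `sf79_Smooth` of `SpecFibre79`. -/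
theorem sc73_smooth_Vinf (hunit : ∀ n : ℕ, Nat.Coprime n q → IsUnit (n : R))
    (hqR : ¬ IsUnit (q : R))
    (h : ↥(modularFunctionFieldFullC K (M' * q))) (hh : s34i47c_IsHaupt K (M' * q) q h) :
    sf79_Smooth π (pk15_chart R ({h} : Set ↥(modularFunctionFieldFullC K (M' * q))))
        (cm85_Vinf (K := K) (M' * q) hπ).toSubring ∧
      sf79_Smooth π (pk15_chart R ({h⁻¹} : Set ↥(modularFunctionFieldFullC K (M' * q))))
        (cm85_Vinf (K := K) (M' * q) hπ).toSubring := by
  haveI : Algebra.IsAlgebraic K Q̄ := cx_isAlgebraic_closure K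
  letI : Algebra R ↥(modularFunctionFieldFullC K M') :=
    ((algebraMap K ↥(modularFunctionFieldFullC K M')).comp (algebraMap R K)).toAlgebra
  haveI : IsScalarTower R K ↥(modularFunctionFieldFullC K M') :=
    IsScalarTower.of_algebraMap_eq (fun _ => rfl)
  have hMu : IsUnit (M' : R) :=
    hunit M' (Nat.Coprime.symm ((Nat.Prime.coprime_iff_not_dvd hq).mpr hM'))
  have hf1 := sc73_F1 (R := R) (K := K) M' q hq hM' hπ hqR
  rcases hh with ⟨hq2, h2, rfl⟩ | ⟨hq3, h3, rfl⟩
  · have hcop : Nat.Coprime 2 q := (Nat.coprime_primes Nat.prime_two hq).mpr (Ne.symm hq2)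
    have h2' : 2 ∣ M' := hcop.dvd_of_dvd_mul_right h2
    obtain ⟨⟨-, hU₁⟩, ⟨-, hU₂⟩⟩ := bi93_level2 (R := R) (K := K) M' (M' * q)
      (dvd_mul_right M' q) hπ h2' hMu hf1
    constructor
    · intro n hn hπn hbr
      obtain ⟨z', -, z, hzn, -, hx⟩ := hU₁ n hn.isPrime hbr
      exact ⟨z, hzn, hx⟩
    · intro n hn hπn hbr
      obtain ⟨z', -, z, hzn, -, hx⟩ := hU₂ n hn.isPrime hbr
      exact ⟨z, hzn, hx⟩
  · have hcop : Nat.Coprime 3 q := (Nat.coprime_primes Nat.prime_three hq).mpr (Ne.symm hq3)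
    have h3' : 3 ∣ M' := hcop.dvd_of_dvd_mul_right h3
    obtain ⟨⟨-, hU₁⟩, ⟨-, hU₂⟩⟩ := bi93_level3 (R := R) (K := K) M' (M' * q)
      (dvd_mul_right M' q) hπ h3' hMu hf1
    constructor
    · intro n hn hπn hbr
      obtain ⟨z', -, z, hzn, -, hx⟩ := hU₁ n hn.isPrime hbr
      exact ⟨z, hzn, hx⟩
    · intro n hn hπn hbr
      obtain ⟨z', -, z, hzn, -, hx⟩ := hU₂ n hn.isPrime hbr
      exact ⟨z, hzn, hx⟩

/-- **(3a) for the `0`-branch on the canonical frame**, both affine charts. -/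
theorem sc73_smooth_V0 (hunit : ∀ n : ℕ, Nat.Coprime n q → IsUnit (n : R))
    (hqR : ¬ IsUnit (q : R))
    (h : ↥(modularFunctionFieldFullC K (M' * q))) (hh : s34i47c_IsHaupt K (M' * q) q h) :
    sf79_Smooth π (pk15_chart R ({h} : Set ↥(modularFunctionFieldFullC K (M' * q))))
        (s34i47c_V0 (K := K) M' q hq hM' hπ).toSubring ∧
      sf79_Smooth π (pk15_chart R ({h⁻¹} : Set ↥(modularFunctionFieldFullC K (M' * q))))
        (s34i47c_V0 (K := K) M' q hq hM' hπ).toSubring := by
  obtain ⟨h1, h2⟩ := sc73_smooth_Vinf (R := R) (K := K) M' q hq hM' hπ hunit hqR h hh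
  obtain ⟨k1, k2⟩ := bz13_smooth_V0 (R := R) (K := K) M' q hq hM' hπ hunit h hh
  exact ⟨k1 h1, k2 h2⟩

/-- **(3a) on the canonical frame**: both branches, both affine charts, every admissible
Hauptmodul (`hS₁`, `hS₂` of `sf79_locStr`). -/
theorem sc73_smooth (hunit : ∀ n : ℕ, Nat.Coprime n q → IsUnit (n : R))
    (hqR : ¬ IsUnit (q : R))
    (h : ↥(modularFunctionFieldFullC K (M' * q))) (hh : s34i47c_IsHaupt K (M' * q) q h) :
    (sf79_Smooth π (pk15_chart R ({h} : Set ↥(modularFunctionFieldFullC K (M' * q))))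
        (cm85_Vinf (K := K) (M' * q) hπ).toSubring ∧
      sf79_Smooth π (pk15_chart R ({h} : Set ↥(modularFunctionFieldFullC K (M' * q))))
        (s34i47c_V0 (K := K) M' q hq hM' hπ).toSubring) ∧
    (sf79_Smooth π (pk15_chart R ({h⁻¹} : Set ↥(modularFunctionFieldFullC K (M' * q))))
        (cm85_Vinf (K := K) (M' * q) hπ).toSubring ∧
      sf79_Smooth π (pk15_chart R ({h⁻¹} : Set ↥(modularFunctionFieldFullC K (M' * q))))
        (s34i47c_V0 (K := K) M' q hq hM' hπ).toSubring) :=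
  ⟨⟨(sc73_smooth_Vinf M' q hq hM' hπ hunit hqR h hh).1,
      (sc73_smooth_V0 M' q hq hM' hπ hunit hqR h hh).1⟩,
    ⟨(sc73_smooth_Vinf M' q hq hM' hπ hunit hqR h hh).2,
      (sc73_smooth_V0 M' q hq hM' hπ hunit hqR h hh).2⟩⟩

end sc73

end Fermat.Agent.S34
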