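import Mathlib
import Fermat.Agent.S34.Iface47e
import Fermat.Agent.S34.SmoothCanon73
import Fermat.Agent.S34.Gate51

/-!
# S34 lab (helper47, architect): S34 from the single package `s34i47e_Pkg_FrameTransv`

* `s34f47_pkg_frameSmooth : s34i47e_Pkg_FrameSmooth` (helper73's `sc73_smooth_Vinf`, literal);
* `s34f47_frameLS : s34i47e_Pkg_FrameTransv → s34i47c_Pkg_FrameLS`;
* `s34f47_U : s34i47e_Pkg_FrameTransv → lc52_U p q N` (the hypothesis `hU` of `s34e60_main`);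
* `s34f47_result` : the frozen statement S34 from `s34i47e_Pkg_FrameTransv`.
-/

set_option autoImplicit false

namespace Fermat.Agent.S34

/-- **FRAME-SMOOTH** is proved (helper73, `SmoothCanon73`). -/
theorem s34f47_pkg_frameSmooth : s34i47e_Pkg_FrameSmooth := by
  intro M' q _ _ hq hM' R K _ _ _ _ _ _ _ _ _ _ π hπ hunit hqR h hh
  exact sc73_smooth_Vinf (R := R) (K := K) M' q hq hM' hπ hunit hqR h hh

/-- **FRAME-LS from FRAME-TRANSV alone.** -/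
theorem s34f47_frameLS (hTr : s34i47e_Pkg_FrameTransv) : s34i47c_Pkg_FrameLS :=
  s34i47e_frameLS_of fs85_pkg_frameSat s34f47_pkg_frameSmooth hTr

/-- `(U)` at every level `N` with `q ∥ N`, `p ≠ q`, from FRAME-TRANSV alone. -/
theorem s34f47_U (hTr : s34i47e_Pkg_FrameTransv) {p q N : ℕ} [NeZero N] (hp : p.Prime)
    (hq : q.Prime) (hqp : q ≠ p) (hqN : q ∣ N) (hq2 : ¬ q ^ 2 ∣ N) : lc52_U p q N :=
  s34g51_U_route1 (s34f47_frameLS hTr) hp hq hqp hqN hq2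

section Result

variable {𝒪 : Type} [CommRing 𝒪] [IsDomain 𝒪] [IsDiscreteValuationRing 𝒪]
  [IsAdicComplete (IsLocalRing.maximalIdeal 𝒪) 𝒪]
  {p : ℕ} {N : ℕ} [NeZero N] {S : Finset ℕ}
  {θ : CuspForm.heckeAlgebra N 2 (↑S : Set ℕ) →+* IsLocalRing.ResidueField 𝒪}
  {T : Type} [CommRing T] [IsLocalRing T] [IsNoetherianRing T]
  [IsAdicComplete (IsLocalRing.maximalIdeal T) T] [Algebra 𝒪 T] [IsLocalHom (algebraMap 𝒪 T)]
  [Module.Finite 𝒪 T] [Module.Free 𝒪 T]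

/-- **S34 from FRAME-TRANSV alone**: hypotheses and conclusion of the frozen statement. -/
theorem s34f47_result (hTr : s34i47e_Pkg_FrameTransv)
    (hp : p.Prime) (hp𝒪 : (p : 𝒪) ∈ IsLocalRing.maximalIdeal 𝒪) (hpS : p ∈ S)
    (hNS : ∀ q : ℕ, q.Prime → q ∣ N → q ∈ S)
    (H : CuspForm.HeckeGaloisRepDatum N (↑S : Set ℕ) 𝒪 θ T)
    (q : ℕ) (hq : q.Prime) (hqp : q ≠ p) (hqN : q ∣ N) (hq2 : ¬ q ^ 2 ∣ N) :
    H.ρ.IsUnipotentOnInertiaAt q :=
  s34g51_result_route1 (s34f47_frameLS hTr) hp hp𝒪 hpS hNS H q hq hqp hqN hq2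

end Result

end Fermat.Agent.S34
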