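import Mathlib

/-!
# S34 lab (helper25): the residue field of a local ring inside a number field is finite

The FRAME binder block (`s34i47_Frame`, `s34i47c_FrameLS`, ...) gives a discrete valuation ring
`R` whose fraction field `K` is a number field, and a prime `q` which is not a unit of `R`.
The Frobenius steps of P3 (`fi66_frob_dvr`, `ins50_frob`) need the residue field of `R` to be
finite / perfect of characteristic `q`.  This file provides exactly that, Mathlib only:

* `rf25_residue_natCast` : `¬ IsUnit (q : R) → (q : ResidueField R) = 0`;
* `rf25_charP` : `CharP (ResidueField R) q`;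
* `rf25_finite` : `Finite (ResidueField R)` for ANY local ring `R` with an injective ring
  homomorphism into a number field `K` and a prime `q` which is not a unit of `R`
  (`dim_{𝔽_q} κ ≤ [K : ℚ]`: a primitive integral relation between lifts reduces to a
  nontrivial relation);
* `rf25_frob_surj` : every element of the residue field is a `q`-th power;
* `rf25_perfectRing`, `rf25_expChar` : the same in typeclass form;
* `rf25_frame` : the three facts from the literal FRAME binder block.
-/

set_option autoImplicit false
set_option linter.style.haveILetI false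

namespace Fermat.Agent.S34

open IsLocalRing

section Local

variable {R : Type*} [CommRing R] [IsLocalRing R]

/-- A natural number which is not a unit of `R` vanishes in the residue field. -/
theorem rf25_residue_natCast {q : ℕ} (hqR : ¬ IsUnit (q : R)) : (q : ResidueField R) = 0 := by
  have h : residue R (q : R) = 0 :=
    (residue_eq_zero_iff _).mpr ((mem_maximalIdeal _).mpr (mem_nonunits_iff.mpr hqR))
  rwa [map_natCast] at h

/-- The residue characteristic. -/
theorem rf25_charP {q : ℕ} (hq : q.Prime) (hqR : ¬ IsUnit (q : R)) :
    CharP (ResidueField R) q :=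
  (CharP.charP_iff_prime_eq_zero hq).mpr (rf25_residue_natCast hqR)

/-- The residue characteristic, exponential form. -/
theorem rf25_expChar {q : ℕ} (hq : q.Prime) (hqR : ¬ IsUnit (q : R)) :
    ExpChar (ResidueField R) q :=
  haveI := rf25_charP hq hqR
  ExpChar.prime hq

variable {K : Type*} [Field K] [NumberField K] [Algebra R K]

/-- **The residue field is finite**: `R` a local ring with an injective homomorphism into a
number field, `q` a prime which is not a unit of `R`. -/
theorem rf25_finite (hinj : Function.Injective (algebraMap R K)) {q : ℕ} (hq : q.Prime)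
    (hqR : ¬ IsUnit (q : R)) : Finite (ResidueField R) := by
  classical
  haveI : Fact q.Prime := ⟨hq⟩
  haveI : CharP (ResidueField R) q := rf25_charP hq hqR
  letI : Algebra (ZMod q) (ResidueField R) := ZMod.algebra _ q
  have hrank : Module.rank (ZMod q) (ResidueField R) ≤ ((Module.finrank ℚ K : ℕ) : Cardinal) := by
    apply rank_le
    intro s hs
    by_contra hlt
    rw [not_le] at hlt
    choose f hf using (residue_surjective (R := R))
    have hdep : ¬ LinearIndependent ℚ (fun i : s => algebraMap R K (f i)) := by
      intro hli
      have h1 := hli.fintype_card_le_finrank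
      rw [Fintype.card_coe] at h1
      omega
    rw [Fintype.not_linearIndependent_iff] at hdep
    obtain ⟨g, hg, i0, hi0⟩ := hdep
    -- clear denominators
    obtain ⟨b, hb⟩ := IsLocalization.exist_integer_multiples_of_finite (nonZeroDivisors ℤ) g
    choose a ha using hb
    have hb0 : ((b : ℤ) : ℚ) ≠ 0 := by
      exact_mod_cast nonZeroDivisors.ne_zero b.2
    have ha' : ∀ i, ((a i : ℤ) : ℚ) = (b : ℤ) * g i := by
      intro i
      have := ha i
      simpa [Algebra.smul_def] using this
    have ha0 : a i0 ≠ 0 := by
      intro h0
      have h1 := ha' i0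
      rw [h0, Int.cast_zero] at h1
      exact (mul_ne_zero hb0 hi0) h1.symm
    have hsumA : ∑ i, ((a i : ℤ) : K) * algebraMap R K (f i) = 0 := by
      have h1 : ∑ i, ((a i : ℤ) : K) * algebraMap R K (f i) =
          ((b : ℤ) : K) * ∑ i, g i • algebraMap R K (f i) := by
        rw [Finset.mul_sum]
        refine Finset.sum_congr rfl fun i _ => ?_
        rw [Rat.smul_def, ← mul_assoc]
        congr 1
        have h2 := congrArg (fun x : ℚ => (x : K)) (ha' i)
        simpa using h2
      rw [h1, hg, mul_zero]
    -- extract the gcd
    obtain ⟨c, hc, hc1⟩ := Finset.extract_gcd (s := (Finset.univ : Finset s)) a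
      ⟨i0, Finset.mem_univ _⟩
    set G : ℤ := (Finset.univ : Finset s).gcd a with hG
    have hG0 : G ≠ 0 := by
      intro h0
      apply ha0
      rw [hc i0 (Finset.mem_univ _), h0, zero_mul]
    have hsumC : ∑ i, ((c i : ℤ) : K) * algebraMap R K (f i) = 0 := by
      have h1 : ∑ i, ((a i : ℤ) : K) * algebraMap R K (f i) =
          (G : K) * ∑ i, ((c i : ℤ) : K) * algebraMap R K (f i) := by
        rw [Finset.mul_sum]
        refine Finset.sum_congr rfl fun i _ => ?_
        rw [hc i (Finset.mem_univ _)]
        push_cast
        ring
      rw [h1] at hsumA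
      have hGK : (G : K) ≠ 0 := by exact_mod_cast hG0
      exact (mul_eq_zero.mp hsumA).resolve_left hGK
    have hsumR : ∑ i, ((c i : ℤ) : R) * f i = 0 := by
      apply hinj
      rw [map_sum, map_zero, ← hsumC]
      refine Finset.sum_congr rfl fun i _ => ?_
      rw [map_mul, map_intCast]
    have hsumκ : ∑ i : s, ((c i : ℤ) : ZMod q) • ((i : ResidueField R)) = 0 := by
      have h1 := congrArg (residue R) hsumR
      rw [map_sum, map_zero] at h1
      rw [← h1]
      refine Finset.sum_congr rfl fun i _ => ?_
      rw [map_mul, map_intCast, hf, Algebra.smul_def, map_intCast]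
    have hzero := Fintype.linearIndependent_iff.mp hs (fun i => ((c i : ℤ) : ZMod q)) hsumκ
    have hdvd : ((q : ℕ) : ℤ) ∣ (Finset.univ : Finset s).gcd c := by
      apply Finset.dvd_gcd
      intro i _
      exact (ZMod.intCast_zmod_eq_zero_iff_dvd (c i) q).mp (hzero i)
    rw [hc1] at hdvd
    have h2 : (q : ℤ) = 1 ∨ (q : ℤ) = -1 := Int.isUnit_iff.mp (isUnit_of_dvd_one hdvd)
    have h3 := hq.one_lt
    omega
  haveI hfin : Module.Finite (ZMod q) (ResidueField R) :=
    Module.rank_lt_aleph0_iff.mp (lt_of_le_of_lt hrank (Cardinal.natCast_lt_aleph0))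
  exact Module.finite_of_finite (ZMod q)

/-- Every element of the residue field is a `q`-th power. -/
theorem rf25_frob_surj (hinj : Function.Injective (algebraMap R K)) {q : ℕ} (hq : q.Prime)
    (hqR : ¬ IsUnit (q : R)) (c : ResidueField R) : ∃ d : ResidueField R, d ^ q = c := by
  haveI : Fact q.Prime := ⟨hq⟩
  haveI : CharP (ResidueField R) q := rf25_charP hq hqR
  haveI : Finite (ResidueField R) := rf25_finite (K := K) hinj hq hqR
  obtain ⟨d, hd⟩ := Finite.surjective_of_injective (frobenius_inj (ResidueField R) q) c
  exact ⟨d, hd⟩

/-- The residue field is perfect. -/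
theorem rf25_perfectRing (hinj : Function.Injective (algebraMap R K)) {q : ℕ} (hq : q.Prime)
    (hqR : ¬ IsUnit (q : R)) :
    haveI := rf25_expChar (R := R) hq hqR
    PerfectRing (ResidueField R) q := by
  haveI : Fact q.Prime := ⟨hq⟩
  haveI : CharP (ResidueField R) q := rf25_charP hq hqR
  haveI : Finite (ResidueField R) := rf25_finite (K := K) hinj hq hqR
  haveI := rf25_expChar (R := R) hq hqR
  exact PerfectRing.ofSurjective (ResidueField R) q
    (Finite.surjective_of_injective (frobenius_inj (ResidueField R) q))

end Local

/-- **The FRAME binder block**: `R` a discrete valuation ring whose fraction field `K` is a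
number field, `q` a prime which is not a unit of `R`.  Then the residue field of `R` is finite of
characteristic `q`, and every element of it is a `q`-th power. -/
theorem rf25_frame (R K : Type*) [CommRing R] [IsDomain R] [IsDiscreteValuationRing R] [Field K]
    [NumberField K] [Algebra R K] [IsFractionRing R K] {q : ℕ} (hq : q.Prime)
    (hqR : ¬ IsUnit (q : R)) :
    Finite (ResidueField R) ∧ (q : ResidueField R) = 0 ∧ CharP (ResidueField R) q ∧
      ∀ c : ResidueField R, ∃ d : ResidueField R, d ^ q = c :=
  ⟨rf25_finite (K := K) (IsFractionRing.injective R K) hq hqR, rf25_residue_natCast hqR,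
    rf25_charP hq hqR, rf25_frob_surj (K := K) (IsFractionRing.injective R K) hq hqR⟩

end Fermat.Agent.S34
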