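import Fermat.Agent.S34.BranchInf93
import Fermat.Agent.S34.AtkinLehnerVal73
import Fermat.Agent.S34.BranchZeroInst13
import Fermat.Agent.S34.UVAtFrame22
import Fermat.Agent.S34.TransvChart50
import Fermat.Agent.S34.FrobInsepDVR50
import Fermat.Agent.S34.FrameSat85
import Fermat.Agent.S34.HauptInt70
import Fermat.Agent.S34.ResField25
import Fermat.Agent.S34.AtkinLehnerCanon97

/-!
# S34 lab (helper48): FRAME-LS of `Iface47c` from the landed instance files

`fl48_pkg_frameLS : s34i47c_Pkg_FrameLS`.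
-/

set_option autoImplicit false
set_option linter.unusedSectionVars false
set_option linter.style.haveILetI false

open ModularCurve

namespace Fermat.Agent.S34

open Fermat.Agent.S18 Fermat.Agent.S24

local notation "Q̄" => AlgebraicClosure ℚ

section fl48_abs

variable {R F' F : Type*} [CommRing R] [Field F'] [Field F] [Algebra R F'] [Algebra R F]

/-- Transport of chart membership along an `R`-algebra homomorphism. -/
theorem fl48_map_chart (φ : F' →ₐ[R] F) (s : Set F') (x : F') (hx : x ∈ pk15_chart R s) :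
    φ x ∈ pk15_chart R (φ '' s) := by
  rw [pk15_mem_chart] at hx ⊢
  have hmap : ∀ y : Algebra.adjoin R s, φ (y : F') ∈ Algebra.adjoin R (φ '' s) := by
    intro y
    rw [← AlgHom.map_adjoin]
    exact ⟨y, y.2, rfl⟩
  let ψ : Algebra.adjoin R s →+* Algebra.adjoin R (φ '' s) :=
    { toFun := fun y => ⟨φ y, hmap y⟩
      map_one' := Subtype.ext (by simp)
      map_mul' := fun a b => Subtype.ext (by simp)
      map_zero' := Subtype.ext (by simp)
      map_add' := fun a b => Subtype.ext (by simp) }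
  exact IsIntegral.map_of_comp_eq ψ (φ : F' →+* F) (RingHom.ext fun y => rfl) hx

/-- A chart is mapped into every chart containing the images of its generators. -/
theorem fl48_map_chart_le (φ : F' →ₐ[R] F) (s : Set F') (t : Set F)
    (hst : ∀ g ∈ s, φ g ∈ pk15_chart R t) (x : F') (hx : x ∈ pk15_chart R s) :
    φ x ∈ pk15_chart R t := by
  have h1 := fl48_map_chart φ s x hx
  rw [pk15_mem_chart] at h1
  apply uv17_chart_intClosed t
  refine pk15_isIntegral_mono (?_ : Algebra.adjoin R (φ '' s) ≤ pk15_chart R t) h1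
  exact Algebra.adjoin_le (by rintro _ ⟨g, hg, rfl⟩; exact hst g hg)

end fl48_abs

section fl48_inst

variable {R K : Type} [CommRing R] [IsDomain R] [IsDiscreteValuationRing R] [Field K] [CharZero K]
  [Algebra R K] [IsFractionRing R K] [Algebra K Q̄] [Algebra.IsAlgebraic K Q̄]
  (M' q : ℕ) [NeZero M'] [NeZero q] (hq : q.Prime) (hM' : ¬ q ∣ M')
  [Algebra R ↥(modularFunctionFieldFullC K M')]
  [IsScalarTower R K ↥(modularFunctionFieldFullC K M')]
  [Algebra R ↥(modularFunctionFieldFullC K (M' * q))]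
  [IsScalarTower R K ↥(modularFunctionFieldFullC K (M' * q))] {π : R} (hπ : Irreducible π)

include hq hM' in
/-- Residue degree one of `V_∞(M' q)` over `V_∞(M')`. -/
theorem fl48_F1 (hqR : ¬ IsUnit (q : R)) :
    bi93_F1 (K := K) M' (M' * q) (dvd_mul_right M' q) hπ := by
  intro x hx
  obtain ⟨b, hb, hxb⟩ := (alv73_main (algebraMap K Q̄) M' q hq hM' hπ hqR).2.2 x hx
  refine ⟨b, hb, ?_⟩
  rw [alv73_pi_eq (K := K) (M' * q) π]
  have e : cm15_incl K M' (M' * q) (dvd_mul_right M' q) b = al97L_alpha K M' q b :=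
    Subtype.ext (by rw [cm15_incl_coe, al97L_alpha_coe])
  rw [e]
  exact hxb

/-- **(LS) for one chart** of the canonical frame at level `M' q`, from the transfer data
of the good level `M'`. -/
theorem fl48_chart
    (hchar : (q : IsLocalRing.ResidueField R) = 0)
    (hperf : ∀ c : IsLocalRing.ResidueField R, ∃ d : IsLocalRing.ResidueField R, d ^ q = c)
    (s' : Set ↥(modularFunctionFieldFullC K M')) (s : Set ↥(modularFunctionFieldFullC K (M' * q)))
    [IsNoetherianRing (pk15_chart R s)]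
    (hs'V : ∀ g ∈ s', g ∈ cm85_Vinf (K := K) M' hπ)
    (hsat' : cm15_Sat R π s' (cm85_Vinf (K := K) M' hπ).toSubring)
    (hfrac' : ∀ x : ↥(modularFunctionFieldFullC K M'),
      ∃ a ∈ pk15_chart R s', ∃ b ∈ pk15_chart R s', b ≠ 0 ∧ x * b = a)
    (hα : ∀ g ∈ s', al97L_alpha K M' q g ∈ pk15_chart R s)
    (hβ : ∀ g ∈ s', al97L_beta K M' q g ∈ pk15_chart R s)
    (hsurj : bi93_Surj M' (M' * q) (dvd_mul_right M' q) hπ s' s)
    (hunif : bi93_Unif M' (M' * q) (dvd_mul_right M' q) hπ s' s)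
    (hB₁ : ∀ x ∈ pk15_chart R s, x ∈ cm85_Vinf (K := K) (M' * q) hπ)
    (hB₂ : ∀ x ∈ pk15_chart R s, x ∈ s34i47c_V0 (K := K) M' q hq hM' hπ)
    (hsat : ∀ x ∈ pk15_chart R s,
      (algebraMap R ↥(modularFunctionFieldFullC K (M' * q)) π)⁻¹ * x ∈
        cm85_Vinf (K := K) (M' * q) hπ →
      (algebraMap R ↥(modularFunctionFieldFullC K (M' * q)) π)⁻¹ * x ∈
        s34i47c_V0 (K := K) M' q hq hM' hπ →
      (algebraMap R ↥(modularFunctionFieldFullC K (M' * q)) π)⁻¹ * x ∈ pk15_chart R s)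
    (hS₂ : sf79_Smooth π (pk15_chart R s) (cm85_Vinf (K := K) (M' * q) hπ).toSubring →
      sf79_Smooth π (pk15_chart R s) (s34i47c_V0 (K := K) M' q hq hM' hπ).toSubring)
    (hUV : sf79_UVAt π (pk15_chart R s) (cm85_Vinf (K := K) (M' * q) hπ).toSubring
      (s34i47c_V0 (K := K) M' q hq hM' hπ).toSubring) :
    s34i47_LocStr π (pk15_chart R s) := by
  have hdvd : M' ∣ M' * q := dvd_mul_right M' q
  -- the two valuation rings of the bad level
  have hπ₁ : (algebraMap R ↥(modularFunctionFieldFullC K (M' * q)) π)⁻¹ ∉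
      (cm85_Vinf (K := K) (M' * q) hπ).toSubring :=
    al97C_pi_inv_not_mem_Vinf (K := K) M' q hπ
  have hπ₂ : (algebraMap R ↥(modularFunctionFieldFullC K (M' * q)) π)⁻¹ ∉
      (s34i47c_V0 (K := K) M' q hq hM' hπ).toSubring :=
    al97C_pi_inv_not_mem_V0 (K := K) M' q hq hM' hπ
  have hV₁ : ∀ x ∈ (cm85_Vinf (K := K) (M' * q) hπ).toSubring,
      (algebraMap R ↥(modularFunctionFieldFullC K (M' * q)) π)⁻¹ * x ∉
        (cm85_Vinf (K := K) (M' * q) hπ).toSubring →
      x⁻¹ ∈ (cm85_Vinf (K := K) (M' * q) hπ).toSubring := by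
    intro x hx hnot
    by_contra hinv
    apply hnot
    have h1 := alv73_hmax_Vinf (K := K) (M' * q) hπ x hx hinv
    rwa [← alv73_pi_eq (K := K) (M' * q) π] at h1
  have hV₂ : ∀ x ∈ (s34i47c_V0 (K := K) M' q hq hM' hπ).toSubring,
      (algebraMap R ↥(modularFunctionFieldFullC K (M' * q)) π)⁻¹ * x ∉
        (s34i47c_V0 (K := K) M' q hq hM' hπ).toSubring →
      x⁻¹ ∈ (s34i47c_V0 (K := K) M' q hq hM' hπ).toSubring := by
    intro x hx hnot
    by_contra hinv
    exact hnot (al97C_hmax_V0 M' q hq hM' hπ x hx hinv)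
  -- (3a) on the `∞`-branch and on the `0`-branch
  have hS₁ : sf79_Smooth π (pk15_chart R s) (cm85_Vinf (K := K) (M' * q) hπ).toSubring := by
    intro n hn _ hOn
    obtain ⟨z', -, z, hzn, -, hz⟩ := hunif n hn.isPrime hOn
    exact ⟨z, hzn, hz⟩
  have hS₂' := hS₂ hS₁
  -- the good level
  have hB'V' : ∀ x ∈ pk15_chart R s', x ∈ cm85_Vinf (K := K) M' hπ :=
    pk15_chart_le_V _ (pk85_hRV M' hπ) s' hs'V
  have hmax' : ∀ x ∈ (cm85_Vinf (K := K) M' hπ).toSubring,
      x⁻¹ ∉ (cm85_Vinf (K := K) M' hπ).toSubring →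
      (algebraMap R ↥(modularFunctionFieldFullC K M') π)⁻¹ * x ∈
        (cm85_Vinf (K := K) M' hπ).toSubring := by
    intro x hx hinv
    have h1 := alv73_hmax_Vinf (K := K) M' hπ x hx hinv
    rwa [← alv73_pi_eq (K := K) M' π] at h1
  have harch' : ∀ x : ↥(modularFunctionFieldFullC K M'), x ≠ 0 →
      ∃ k : ℕ, ((algebraMap R ↥(modularFunctionFieldFullC K M') π) ^ k)⁻¹ * x ∉
        (cm85_Vinf (K := K) M' hπ).toSubring := by
    intro x hx
    obtain ⟨k, hk⟩ := fs85_harch (K := K) M' hπ x hx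
    refine ⟨k, ?_⟩
    rwa [IsScalarTower.algebraMap_apply R K ↥(modularFunctionFieldFullC K M')]
  have hfracV := tr50_frac_of_sat (algebraMap R ↥(modularFunctionFieldFullC K M') π)
    (pk15_chart R s').toSubring (cm85_Vinf (K := K) M' hπ).toSubring hB'V' hmax' hsat' harch'
    hfrac'
  -- the two maps `α`, `β` send the good chart into the bad chart
  have hαB : ∀ x ∈ pk15_chart R s', al97L_alpha K M' q x ∈ pk15_chart R s :=
    fl48_map_chart_le ((al97L_alpha K M' q).restrictScalars R) s' s hα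
  have hβB : ∀ x ∈ pk15_chart R s', al97L_beta K M' q x ∈ pk15_chart R s :=
    fl48_map_chart_le ((al97L_beta K M' q).restrictScalars R) s' s hβ
  have hins := tr50_hins π (pk15_chart R s) (cm85_Vinf (K := K) (M' * q) hπ).toSubring
    (s34i47c_V0 (K := K) M' q hq hM' hπ).toSubring hB₂ hπ₂
    (al97L_alpha K M' q : ↥(modularFunctionFieldFullC K M') →+*
      ↥(modularFunctionFieldFullC K (M' * q)))
    (al97L_beta K M' q : ↥(modularFunctionFieldFullC K M') →+*
      ↥(modularFunctionFieldFullC K (M' * q)))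
    (pk15_chart R s').toSubring (cm85_Vinf (K := K) M' hπ).toSubring
    (pk15_chart R s' : Set ↥(modularFunctionFieldFullC K M'))
    hαB hB'V' hβB (fun x hx => (al97C_beta_mem_V0 M' q hq hM' hπ x).mpr hx) q
    (by
      intro x
      obtain ⟨x', hx', hxx'⟩ := hsurj x x.2
      refine ⟨x', hx', ?_⟩
      have e : cm15_incl K M' (M' * q) hdvd x' = al97L_alpha K M' q x' :=
        Subtype.ext (by rw [cm15_incl_coe, al97L_alpha_coe])
      rw [e] at hxx'
      exact hxx')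
    (by
      intro x hx
      obtain ⟨x₁, hx₁, h⟩ :=
        ins50_frob_Vzero M' q (algebraMap K Q̄) hπ hq hM' hchar hperf x hx
      refine ⟨x₁, hx₁, ?_⟩
      rw [IsScalarTower.algebraMap_apply R K ↥(modularFunctionFieldFullC K (M' * q))]
      exact h)
    hfracV
  have hT := tr50_transv π (pk15_chart R s) _ _ hB₁ hB₂ hπ₂ hV₂ hS₁ hS₂' q hq.two_le hins
  exact sf79_locStr π (pk15_chart R s) _ _ hB₁ hB₂ hπ₁ hπ₂ hV₁ hV₂ hsat hS₁ hS₂' hT hUV

end fl48_inst

section fl48_frame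

/-- **FRAME-LS** (`Iface47c`) at every level `M' * q`, `q ∤ M'`. -/
theorem fl48_frameLS (M' q : ℕ) [NeZero M'] [NeZero q] (hq : q.Prime) (hM' : ¬ q ∣ M') :
    s34i47c_FrameLS M' q := by
  intro R K _ _ _ _ _ _ _ _ _ _ π hπ hunit hqR h hh
  haveI : Algebra.IsAlgebraic K Q̄ := fs85_isAlgebraic K
  letI : Algebra R ↥(modularFunctionFieldFullC K M') :=
    ((algebraMap K ↥(modularFunctionFieldFullC K M')).comp (algebraMap R K)).toAlgebra
  haveI : IsScalarTower R K ↥(modularFunctionFieldFullC K M') :=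
    IsScalarTower.of_algebraMap_eq (fun _ => rfl)
  have hdvd : M' ∣ M' * q := dvd_mul_right M' q
  have hMu : IsUnit (M' : R) := hunit M' ((Nat.Prime.coprime_iff_not_dvd hq).mpr hM').symm
  have hchar : (q : IsLocalRing.ResidueField R) = 0 := rf25_residue_natCast hqR
  have hperf : ∀ c : IsLocalRing.ResidueField R, ∃ d : IsLocalRing.ResidueField R, d ^ q = c :=
    rf25_frob_surj (K := K) (IsFractionRing.injective R K) hq hqR
  have hf1 : bi93_F1 (K := K) M' (M' * q) hdvd hπ := fl48_F1 M' q hq hM' hπ hqR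
  obtain ⟨hS0₁, hS0₂⟩ := bz13_smooth_V0 M' q hq hM' hπ hunit h hh
  obtain ⟨hUV₁, hUV₂⟩ := uvf22_UVAt M' q hq hM' hπ hunit hqR h hh
  obtain ⟨-, hCall⟩ := fs85_frameSat M' q hq hM' R K π hπ hunit hqR
  obtain ⟨-, -, hsat₁, hsat₂, -, hN₁, hN₂, -, -⟩ := hCall h hh
  have hle₁ := al97C_chart_le_W M' q hq hM' hπ h hh {h} (by simp)
  have hle₂ := al97C_chart_le_W M' q hq hM' hπ h hh {h⁻¹} (by simp)
  haveI := hN₁
  haveI := hN₂
  rcases hh with ⟨hq2, h2, rfl⟩ | ⟨hq3, h3, rfl⟩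
  · have hcop : Nat.Coprime 2 q := (Nat.coprime_primes Nat.prime_two hq).mpr (Ne.symm hq2)
    have h2' : 2 ∣ M' := hcop.dvd_of_dvd_mul_right h2
    have hu : IsUnit (2 : R) := by
      have := hunit 2 hcop
      simpa using this
    have hM : 2 * q ∣ M' * q := Nat.mul_dvd_mul_right h2' q
    obtain ⟨⟨hsu₁, hun₁⟩, ⟨hsu₂, hun₂⟩⟩ := bi93_level2 M' (M' * q) hdvd hπ h2' hMu hf1
    obtain ⟨-, -, -, -, hhV, hhV', -, -, -, -, hfrac₁, hfrac₂, -⟩ :=
      cm85_facts_level2 (R := R) (K := K) M' hπ h2'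
    obtain ⟨hs₁, hs₂, -⟩ := cm15_base_sat_level2 (R := R) (K := K) M' hπ h2' hMu
    have hαh : al97L_alpha K M' q (pk85_h2 K M' h2') = pk85_h2 K (M' * q) h2 :=
      Subtype.ext (by rw [al97L_alpha_coe, pk85_h2_coe, pk85_h2_coe])
    obtain ⟨i1, i2, -, -⟩ := hi70_level2_full (K := K) (M' * q) (R := R) q hq hq2 hu hM
      (pk85_h2 K (M' * q) h2) (al97L_beta K M' q (pk85_h2 K M' h2')) (pk85_h2_coe K (M' * q) h2)
      (by rw [al97L_beta_coe, pk85_h2_coe])
    refine ⟨fl48_chart M' q hq hM' hπ hchar hperf {pk85_h2 K M' h2'} {pk85_h2 K (M' * q) h2}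
        (fun g hg => by rw [Set.mem_singleton_iff.mp hg]; exact hhV) hs₁ hfrac₁
        (fun g hg => by
          rw [Set.mem_singleton_iff.mp hg, hαh]
          exact pk15_subset_chart _ (Set.mem_singleton _))
        (fun g hg => by rw [Set.mem_singleton_iff.mp hg]; exact i1)
        hsu₁ hun₁ (fun x hx => ((wa5_mem_W _ _ x).mp (hle₁ x hx)).1)
        (fun x hx => ((wa5_mem_W _ _ x).mp (hle₁ x hx)).2)
        (fun x hx h1 h2 => hsat₁ x hx ((wa5_mem_W _ _ _).mpr ⟨h1, h2⟩)) hS0₁ hUV₁,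
      fl48_chart M' q hq hM' hπ hchar hperf {(pk85_h2 K M' h2')⁻¹} {(pk85_h2 K (M' * q) h2)⁻¹}
        (fun g hg => by rw [Set.mem_singleton_iff.mp hg]; exact hhV') hs₂ hfrac₂
        (fun g hg => by
          rw [Set.mem_singleton_iff.mp hg, map_inv₀, hαh]
          exact pk15_subset_chart _ (Set.mem_singleton _))
        (fun g hg => by rw [Set.mem_singleton_iff.mp hg, map_inv₀]; exact i2)
        hsu₂ hun₂ (fun x hx => ((wa5_mem_W _ _ x).mp (hle₂ x hx)).1)
        (fun x hx => ((wa5_mem_W _ _ x).mp (hle₂ x hx)).2)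
        (fun x hx h1 h2 => hsat₂ x hx ((wa5_mem_W _ _ _).mpr ⟨h1, h2⟩)) hS0₂ hUV₂⟩
  · have hcop : Nat.Coprime 3 q := (Nat.coprime_primes Nat.prime_three hq).mpr (Ne.symm hq3)
    have h3' : 3 ∣ M' := hcop.dvd_of_dvd_mul_right h3
    have hu : IsUnit (3 : R) := by
      have := hunit 3 hcop
      simpa using this
    have hM : 3 * q ∣ M' * q := Nat.mul_dvd_mul_right h3' q
    obtain ⟨⟨hsu₁, hun₁⟩, ⟨hsu₂, hun₂⟩⟩ := bi93_level3 M' (M' * q) hdvd hπ h3' hMu hf1
    obtain ⟨-, -, -, -, hhV, hhV', -, -, -, -, hfrac₁, hfrac₂, -⟩ :=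
      cm85_facts_level3 (R := R) (K := K) M' hπ h3'
    obtain ⟨hs₁, hs₂, -⟩ := cm15_base_sat_level3 (R := R) (K := K) M' hπ h3' hMu
    have hαh : al97L_alpha K M' q (pk85_h3 K M' h3') = pk85_h3 K (M' * q) h3 :=
      Subtype.ext (by rw [al97L_alpha_coe, pk85_h3_coe, pk85_h3_coe])
    obtain ⟨i1, i2, -, -⟩ := hi70_level3_full (K := K) (M' * q) (R := R) q hq hq3 hu hM
      (pk85_h3 K (M' * q) h3) (al97L_beta K M' q (pk85_h3 K M' h3')) (pk85_h3_coe K (M' * q) h3)
      (by rw [al97L_beta_coe, pk85_h3_coe])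
    refine ⟨fl48_chart M' q hq hM' hπ hchar hperf {pk85_h3 K M' h3'} {pk85_h3 K (M' * q) h3}
        (fun g hg => by rw [Set.mem_singleton_iff.mp hg]; exact hhV) hs₁ hfrac₁
        (fun g hg => by
          rw [Set.mem_singleton_iff.mp hg, hαh]
          exact pk15_subset_chart _ (Set.mem_singleton _))
        (fun g hg => by rw [Set.mem_singleton_iff.mp hg]; exact i1)
        hsu₁ hun₁ (fun x hx => ((wa5_mem_W _ _ x).mp (hle₁ x hx)).1)
        (fun x hx => ((wa5_mem_W _ _ x).mp (hle₁ x hx)).2)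
        (fun x hx h1 h2 => hsat₁ x hx ((wa5_mem_W _ _ _).mpr ⟨h1, h2⟩)) hS0₁ hUV₁,
      fl48_chart M' q hq hM' hπ hchar hperf {(pk85_h3 K M' h3')⁻¹} {(pk85_h3 K (M' * q) h3)⁻¹}
        (fun g hg => by rw [Set.mem_singleton_iff.mp hg]; exact hhV') hs₂ hfrac₂
        (fun g hg => by
          rw [Set.mem_singleton_iff.mp hg, map_inv₀, hαh]
          exact pk15_subset_chart _ (Set.mem_singleton _))
        (fun g hg => by rw [Set.mem_singleton_iff.mp hg, map_inv₀]; exact i2)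
        hsu₂ hun₂ (fun x hx => ((wa5_mem_W _ _ x).mp (hle₂ x hx)).1)
        (fun x hx => ((wa5_mem_W _ _ x).mp (hle₂ x hx)).2)
        (fun x hx h1 h2 => hsat₂ x hx ((wa5_mem_W _ _ _).mpr ⟨h1, h2⟩)) hS0₂ hUV₂⟩

/-- **The package FRAME-LS** of `Iface47c`. -/
theorem fl48_pkg_frameLS : s34i47c_Pkg_FrameLS :=
  fun M' q _ _ hq hM' => fl48_frameLS M' q hq hM'

end fl48_frame

end Fermat.Agent.S34
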