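import Fermat.Agent.S34.WIntInst18
import Fermat.Agent.S34.FrameSat85
import Fermat.Agent.S34.BranchInf93
import Fermat.Agent.S34.AtkinLehnerCanon97

/-!
# S34 lab, P3 instance input (helper90): residue degree one on the canonical frame data

Level `M' * q` (`q` prime, `q ∤ M'`), `R` a discrete valuation ring with fraction field `K` of
residue characteristic `q`, `V' = cm85_Vinf M'`, `V_∞ = cm85_Vinf (M' * q)`,
`V_0 = s34i47c_V0 M' q` (`= V_∞.comap w`), `α = al97L_alpha`, `β = al97L_beta`.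

* `rd90_ne`   : `V_∞ ≠ V_0` (witness `π⁻¹ (β j - α j ^ q)`);
* `rd90_F1`   : `bi93_F1 M' (M' * q) (dvd_mul_right M' q) hπ` — the only hypothesis at level
  `M' * q` of helper93's `bi93_level2/3` (fourth clause of `wi18_main`, helper18);
* `rd90_res1` : `∀ x ∈ V_∞, ∃ b ∈ V', π⁻¹ (x - α b) ∈ V_∞` (`hres₁` of `bsf99_locStr_of_base`);
* `rd90_res2` : `∀ x ∈ V_0, ∃ b ∈ V', π⁻¹ (x - β b) ∈ V_0` (`hres₂`, by `w`);
* `rd90_only` : every valuation subring of `F(M' q)_K` over `α(V')` not containing `π⁻¹` is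
  `V_∞` or `V_0`; `rd90_hmax_V0`.

All names are prefixed `rd90_`.
-/

set_option autoImplicit false
set_option linter.unusedSectionVars false
set_option linter.style.haveILetI false

open ModularCurve IntermediateField Polynomial

namespace Fermat.Agent.S34

open Fermat.Agent.S18 Fermat.Agent.S24 Fermat.Agent.S37

local notation "Q̄" => AlgebraicClosure ℚ

section rd90

variable {R K : Type} [CommRing R] [IsDomain R] [IsDiscreteValuationRing R] [Field K] [CharZero K]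
  [Algebra R K] [IsFractionRing R K] [Algebra K Q̄] (M' q : ℕ) [NeZero M'] [NeZero q]
  [Algebra R ↥(modularFunctionFieldFullC K M')]
  [IsScalarTower R K ↥(modularFunctionFieldFullC K M')]
  [Algebra R ↥(modularFunctionFieldFullC K (M' * q))]
  [IsScalarTower R K ↥(modularFunctionFieldFullC K (M' * q))]

theorem rd90_incl_eq :
    cm15_incl K M' (M' * q) (dvd_mul_right M' q) = al97L_alpha K M' q := rfl

/-- `w (π⁻¹ (β j ^ q - α j)) ∈ V_∞`, i.e. the Kummer congruence at `V_0`. -/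
theorem rd90_kummer (hq : q.Prime) (hM' : ¬ q ∣ M') {π : R} (hπ : Irreducible π)
    (hqR : ¬ IsUnit (q : R)) :
    (algebraMap R ↥(modularFunctionFieldFullC K (M' * q)) π)⁻¹ *
      (al97L_beta K M' q (relimc_J K M') ^ q - al97L_alpha K M' q (relimc_J K M')) ∈
        s34i47c_V0 (K := K) M' q hq hM' hπ := by
  rw [IsScalarTower.algebraMap_apply R K ↥(modularFunctionFieldFullC K (M' * q)),
    s34i47c_mem_V0, map_mul, map_inv₀, AlgEquiv.commutes, map_sub, map_pow,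
    al97L_w_beta_apply, al97L_w_alpha_apply]
  have h2 := (cm85_Vinf (K := K) (M' * q) hπ).neg_mem _ (fs85_frob (K := K) M' q hq hπ hqR)
  have h3 : (algebraMap K ↥(modularFunctionFieldFullC K (M' * q)) (algebraMap R K π))⁻¹ *
      (al97L_alpha K M' q (relimc_J K M') ^ q - al97L_beta K M' q (relimc_J K M')) =
      -((algebraMap K ↥(modularFunctionFieldFullC K (M' * q)) (algebraMap R K π))⁻¹ *
        (al97L_beta K M' q (relimc_J K M') - al97L_alpha K M' q (relimc_J K M' ^ q))) := by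
    rw [map_pow]; ring
  rw [h3]
  exact h2

/-- **`V_∞ ≠ V_0`**. -/
theorem rd90_ne (hq : q.Prime) (hM' : ¬ q ∣ M') {π : R} (hπ : Irreducible π)
    (hqR : ¬ IsUnit (q : R)) :
    cm85_Vinf (K := K) (M' * q) hπ ≠ s34i47c_V0 (K := K) M' q hq hM' hπ := by
  intro heq
  have hJV' : relimc_J K M' ∈ cm85_Vinf (K := K) M' hπ :=
    gv85_mem_V_of_integral _ _ _ _ (jqModC R) (by rw [relimc_J_coe, coeffMap_jqModC])
  have hb : al97L_beta K M' q (relimc_J K M') ∈ cm85_Vinf (K := K) (M' * q) hπ :=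
    (al97C_beta_mem_Vinf M' q hπ _).mpr hJV'
  have h1 := rd90_kummer (K := K) M' q hq hM' hπ hqR
  rw [← heq] at h1
  have hJ : al97L_alpha K M' q (relimc_J K M') = relimc_J K (M' * q) :=
    Subtype.ext (by rw [al97L_alpha_coe, relimc_J_coe, relimc_J_coe])
  rw [hJ, IsScalarTower.algebraMap_apply R K ↥(modularFunctionFieldFullC K (M' * q))] at h1
  exact fs85_hpow (K := K) (M' * q) hπ q hq.two_le _ hb h1

/-- The conclusions of `wi18_main` for the canonical frame data. -/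
theorem rd90_main (hq : q.Prime) (hM' : ¬ q ∣ M') {π : R} (hπ : Irreducible π)
    (hqR : ¬ IsUnit (q : R)) :
    (∀ V : ValuationSubring ↥(modularFunctionFieldFullC K (M' * q)),
      (∀ a ∈ cm85_Vinf (K := K) M' hπ, al97L_alpha K M' q a ∈ V) →
      (algebraMap R ↥(modularFunctionFieldFullC K (M' * q)) π)⁻¹ ∉ V →
      V = cm85_Vinf (K := K) (M' * q) hπ ∨ V = s34i47c_V0 (K := K) M' q hq hM' hπ) ∧
    (∀ x ∈ s34i47c_V0 (K := K) M' q hq hM' hπ, x⁻¹ ∉ s34i47c_V0 (K := K) M' q hq hM' hπ →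
      (algebraMap R ↥(modularFunctionFieldFullC K (M' * q)) π)⁻¹ * x ∈
        s34i47c_V0 (K := K) M' q hq hM' hπ) ∧
    bi93_F1 (K := K) M' (M' * q) (dvd_mul_right M' q) hπ := by
  have hK : ((M' * q : ℕ) : K) ≠ 0 := Nat.cast_ne_zero.mpr (NeZero.ne _)
  have hdeg := Fermat.Agent.S42.gi41_relfinrank_prime K M' q hq hM' hK
  have hJV' : relimc_J K M' ∈ cm85_Vinf (K := K) M' hπ :=
    gv85_mem_V_of_integral _ _ _ _ (jqModC R) (by rw [relimc_J_coe, coeffMap_jqModC])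
  have hV₀ : ∀ a ∈ cm85_Vinf (K := K) M' hπ,
      cm15_incl K M' (M' * q) (dvd_mul_right M' q) a ∈ s34i47c_V0 (K := K) M' q hq hM' hπ :=
    fun a ha => (al97C_alpha_mem_V0 M' q hq hM' hπ a).mpr ha
  have hy : al97L_beta K M' q (relimc_J K M') ∈ s34i47c_V0 (K := K) M' q hq hM' hπ :=
    (al97C_beta_mem_V0 M' q hq hM' hπ _).mpr hJV'
  have hnot : ∀ b ∈ cm85_Vinf (K := K) M' hπ,
      (algebraMap R ↥(modularFunctionFieldFullC K M') π)⁻¹ * (b ^ q - relimc_J K M') ∉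
        cm85_Vinf (K := K) M' hπ := by
    intro b hb
    rw [IsScalarTower.algebraMap_apply R K ↥(modularFunctionFieldFullC K M')]
    exact fs85_hpow (K := K) M' hπ q hq.two_le b hb
  obtain ⟨c1, -, c3, c4⟩ := wi18_main (K := K) M' (M' * q) (dvd_mul_right M' q) hπ q hq hdeg
    (s34i47c_V0 (K := K) M' q hq hM' hπ) hV₀ (al97C_pi_inv_not_mem_V0 M' q hq hM' hπ)
    (rd90_ne (K := K) M' q hq hM' hπ hqR) (al97L_beta K M' q (relimc_J K M')) hy
    (relimc_J K M') hJV' (rd90_kummer (K := K) M' q hq hM' hπ hqR) hnot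
  exact ⟨c1, c3, c4⟩

/-- **Residue degree one of `V_∞` over `V'`** in helper93's literal shape. -/
theorem rd90_F1 (hq : q.Prime) (hM' : ¬ q ∣ M') {π : R} (hπ : Irreducible π)
    (hqR : ¬ IsUnit (q : R)) :
    bi93_F1 (K := K) M' (M' * q) (dvd_mul_right M' q) hπ :=
  (rd90_main (K := K) M' q hq hM' hπ hqR).2.2

/-- **`hres₁`**: `∀ x ∈ V_∞, ∃ b ∈ V', π⁻¹ (x - α b) ∈ V_∞`. -/
theorem rd90_res1 (hq : q.Prime) (hM' : ¬ q ∣ M') {π : R} (hπ : Irreducible π)
    (hqR : ¬ IsUnit (q : R)) (x : ↥(modularFunctionFieldFullC K (M' * q)))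
    (hx : x ∈ cm85_Vinf (K := K) (M' * q) hπ) :
    ∃ b ∈ cm85_Vinf (K := K) M' hπ,
      (algebraMap R ↥(modularFunctionFieldFullC K (M' * q)) π)⁻¹ * (x - al97L_alpha K M' q b) ∈
        cm85_Vinf (K := K) (M' * q) hπ :=
  rd90_F1 (K := K) M' q hq hM' hπ hqR x hx

/-- **`hres₂`**: `∀ x ∈ V_0, ∃ b ∈ V', π⁻¹ (x - β b) ∈ V_0`. -/
theorem rd90_res2 (hq : q.Prime) (hM' : ¬ q ∣ M') {π : R} (hπ : Irreducible π)
    (hqR : ¬ IsUnit (q : R)) (x : ↥(modularFunctionFieldFullC K (M' * q)))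
    (hx : x ∈ s34i47c_V0 (K := K) M' q hq hM' hπ) :
    ∃ b ∈ cm85_Vinf (K := K) M' hπ,
      (algebraMap R ↥(modularFunctionFieldFullC K (M' * q)) π)⁻¹ * (x - al97L_beta K M' q b) ∈
        s34i47c_V0 (K := K) M' q hq hM' hπ := by
  rw [s34i47c_mem_V0] at hx
  obtain ⟨b, hb, hxb⟩ := rd90_res1 (K := K) M' q hq hM' hπ hqR _ hx
  refine ⟨b, hb, ?_⟩
  rw [s34i47c_mem_V0, map_mul, map_inv₀, map_sub, al97L_w_beta_apply,
    IsScalarTower.algebraMap_apply R K ↥(modularFunctionFieldFullC K (M' * q)), AlgEquiv.commutes,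
    ← IsScalarTower.algebraMap_apply R K ↥(modularFunctionFieldFullC K (M' * q))]
  exact hxb

/-- **Only extensions**: a valuation subring of `F(M' q)_K` over `α(V')` that does not contain
`π⁻¹` is `V_∞` or `V_0`. -/
theorem rd90_only (hq : q.Prime) (hM' : ¬ q ∣ M') {π : R} (hπ : Irreducible π)
    (hqR : ¬ IsUnit (q : R)) (V : ValuationSubring ↥(modularFunctionFieldFullC K (M' * q)))
    (hV : ∀ a ∈ cm85_Vinf (K := K) M' hπ, al97L_alpha K M' q a ∈ V)
    (hπV : (algebraMap R ↥(modularFunctionFieldFullC K (M' * q)) π)⁻¹ ∉ V) :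
    V = cm85_Vinf (K := K) (M' * q) hπ ∨ V = s34i47c_V0 (K := K) M' q hq hM' hπ :=
  (rd90_main (K := K) M' q hq hM' hπ hqR).1 V hV hπV

end rd90

end Fermat.Agent.S34
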