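import Mathlib
import Fermat.Agent.S34.Iface47c
import Fermat.Agent.S34.SpecFibre79
import Fermat.Agent.S34.FrameSat85
import Fermat.Agent.S34.BranchInf93
import Fermat.Agent.S34.ResDeg90
import Fermat.Agent.S34.BranchZeroInst13
import Fermat.Agent.S34.TransvChart50
import Fermat.Agent.S34.FrobInsepDVR50
import Fermat.Agent.S34.UVAtFrame22
import Fermat.Agent.S34.TwoValFull2
import Fermat.Agent.S34.SpecFibreInf79

/-!
# S34 lab (helper55): the package FRAME-LS of `Iface47c`

`fls55_pkg_frameLS : s34i47c_Pkg_FrameLS` — the local structure (LS) of the two affine charts of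
every admissible Hauptmodul at level `M' * q` on the canonical frame data.

Assembly (no new mathematics): `sf79_locStr` (helper79) applied to
* `sf79_Smooth` for `V_∞`: `bi93_level2/3` (helper93) with `rd90_F1` (helper90);
* `sf79_Smooth` for `V_0`: `bz13_smooth_V0` (helper13);
* `sf79_Transv`: `tr50_transv` / `tr50_hins` / `tr50_frac_of_sat` (helper50) with
  `ins50_frob_Vzero`, `ins50_perfect` (helper50) and the surjectivity half of `bi93_level2/3`;
* `sf79_UVAt`: `uvf22_UVAt` (helper22, helper17, helper56);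
* the chart facts: `fs85_pkg_frameSat` (helper85), `cm85_facts_level2/3`,
  `cm15_base_sat_level2/3` (helper15).

All names are prefixed `fls55_`.
-/

set_option autoImplicit false
set_option linter.unusedSectionVars false
set_option linter.style.haveILetI false

open ModularCurve

namespace Fermat.Agent.S34

open Fermat.Agent.S18

local notation "Q̄" => AlgebraicClosure ℚ

section fls55_chart

variable {R K : Type} [CommRing R] [IsDomain R] [IsDiscreteValuationRing R] [Field K] [CharZero K]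
  [Algebra R K] [IsFractionRing R K] [Algebra K Q̄]
  (M' q : ℕ) [NeZero M'] [NeZero q] (hq : q.Prime) (hM' : ¬ q ∣ M')
  [Algebra R ↥(modularFunctionFieldFullC K M')]
  [IsScalarTower R K ↥(modularFunctionFieldFullC K M')]
  [Algebra R ↥(modularFunctionFieldFullC K (M' * q))]
  [IsScalarTower R K ↥(modularFunctionFieldFullC K (M' * q))]
  {π : R} (hπ : Irreducible π)

/-- `π⁻¹ ∉ V_0`. -/
theorem fls55_pi_V0 :
    (algebraMap R ↥(modularFunctionFieldFullC K (M' * q)) π)⁻¹ ∉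
      s34i47c_V0 (K := K) M' q hq hM' hπ := by
  rw [s34i47c_mem_V0, map_inv₀,
    IsScalarTower.algebraMap_apply R K ↥(modularFunctionFieldFullC K (M' * q)), AlgEquiv.commutes]
  exact gv85_pi_inv_not_mem (IsLocalRing.residue R) π (pk85_res_iff hπ) hπ.ne_zero _ _

/-- **(3b) on the canonical frame data** for a pair of charts `B' = pk15_chart R s'` (level `M'`)
and `B = pk15_chart R s` (level `M' * q`). -/
theorem fls55_transv (hqR : ¬ IsUnit (q : R))
    (hchar : (q : IsLocalRing.ResidueField R) = 0)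
    (hperf : ∀ c : IsLocalRing.ResidueField R, ∃ d : IsLocalRing.ResidueField R, d ^ q = c)
    (s' : Set ↥(modularFunctionFieldFullC K M')) (s : Set ↥(modularFunctionFieldFullC K (M' * q)))
    [IsNoetherianRing (pk15_chart R s)]
    (hs'V : ∀ g ∈ s', g ∈ cm85_Vinf (K := K) M' hπ)
    (hsat' : cm15_Sat R π s' (cm85_Vinf (K := K) M' hπ).toSubring)
    (hfrac' : ∀ x : ↥(modularFunctionFieldFullC K M'),
      ∃ a ∈ pk15_chart R s', ∃ b ∈ pk15_chart R s', b ≠ 0 ∧ x * b = a)
    (hB₁ : ∀ x ∈ pk15_chart R s, x ∈ (cm85_Vinf (K := K) (M' * q) hπ).toSubring)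
    (hB₂ : ∀ x ∈ pk15_chart R s, x ∈ (s34i47c_V0 (K := K) M' q hq hM' hπ).toSubring)
    (hα : ∀ x ∈ pk15_chart R s', al97L_alpha K M' q x ∈ pk15_chart R s)
    (hβ : ∀ x ∈ pk15_chart R s', al97L_beta K M' q x ∈ pk15_chart R s)
    (hSurj : bi93_Surj M' (M' * q) (dvd_mul_right M' q) hπ s' s)
    (hS₁ : sf79_Smooth π (pk15_chart R s) (cm85_Vinf (K := K) (M' * q) hπ).toSubring)
    (hS₂ : sf79_Smooth π (pk15_chart R s) (s34i47c_V0 (K := K) M' q hq hM' hπ).toSubring) :
    sf79_Transv π (pk15_chart R s) (cm85_Vinf (K := K) (M' * q) hπ).toSubring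
      (s34i47c_V0 (K := K) M' q hq hM' hπ).toSubring := by
  have hπV₀ := fls55_pi_V0 (R := R) (K := K) M' q hq hM' hπ
  have hV₂ : ∀ x ∈ (s34i47c_V0 (K := K) M' q hq hM' hπ).toSubring,
      (algebraMap R ↥(modularFunctionFieldFullC K (M' * q)) π)⁻¹ * x ∉
        (s34i47c_V0 (K := K) M' q hq hM' hπ).toSubring →
      x⁻¹ ∈ (s34i47c_V0 (K := K) M' q hq hM' hπ).toSubring := by
    intro x hx h
    by_contra h'
    exact h (tv2c_hmax_zero M' q hq hM' hπ hqR x hx h')
  have hconv' : algebraMap R ↥(modularFunctionFieldFullC K M') π =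
      algebraMap K ↥(modularFunctionFieldFullC K M') (algebraMap R K π) :=
    IsScalarTower.algebraMap_apply R K ↥(modularFunctionFieldFullC K M') π
  have hconv : algebraMap R ↥(modularFunctionFieldFullC K (M' * q)) π =
      algebraMap K ↥(modularFunctionFieldFullC K (M' * q)) (algebraMap R K π) :=
    IsScalarTower.algebraMap_apply R K ↥(modularFunctionFieldFullC K (M' * q)) π
  have hB'V' : ∀ x ∈ (pk15_chart R s').toSubring, x ∈ (cm85_Vinf (K := K) M' hπ).toSubring :=
    pk15_chart_le_V (cm85_Vinf (K := K) M' hπ) (pk85_hRV M' hπ) s' hs'V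
  have hβV : ∀ x ∈ (cm85_Vinf (K := K) M' hπ).toSubring,
      (al97L_beta K M' q : ↥(modularFunctionFieldFullC K M') →+*
        ↥(modularFunctionFieldFullC K (M' * q))) x ∈
        (s34i47c_V0 (K := K) M' q hq hM' hπ).toSubring := by
    intro x hx
    show al97L_beta K M' q x ∈ s34i47c_V0 (K := K) M' q hq hM' hπ
    rw [s34i47c_mem_V0, al97L_w_beta_apply]
    exact wi18_incl_mem M' (M' * q) (dvd_mul_right M' q) hπ x hx
  have hfrob : ∀ x ∈ (cm85_Vinf (K := K) M' hπ).toSubring,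
      ∃ x₁ ∈ (cm85_Vinf (K := K) M' hπ).toSubring,
        (algebraMap R ↥(modularFunctionFieldFullC K (M' * q)) π)⁻¹ *
          ((al97L_alpha K M' q : ↥(modularFunctionFieldFullC K M') →+*
              ↥(modularFunctionFieldFullC K (M' * q))) x -
            (al97L_beta K M' q : ↥(modularFunctionFieldFullC K M') →+*
              ↥(modularFunctionFieldFullC K (M' * q))) x₁ ^ q) ∈
          (s34i47c_V0 (K := K) M' q hq hM' hπ).toSubring := by
    intro x hx
    obtain ⟨x₁, hx₁, h⟩ :=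
      ins50_frob_Vzero M' q (algebraMap K Q̄) hπ hq hM' hchar hperf x hx
    refine ⟨x₁, hx₁, ?_⟩
    rw [hconv]
    exact h
  have hfrac : ∀ x ∈ (cm85_Vinf (K := K) M' hπ).toSubring,
      ∃ a ∈ (pk15_chart R s').toSubring, ∃ c ∈ (pk15_chart R s').toSubring,
        c⁻¹ ∈ (cm85_Vinf (K := K) M' hπ).toSubring ∧ c ≠ 0 ∧ c * x = a := by
    refine tr50_frac_of_sat (algebraMap R ↥(modularFunctionFieldFullC K M') π)
      (pk15_chart R s').toSubring (cm85_Vinf (K := K) M' hπ).toSubring hB'V' ?_ hsat'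
      (fun x hx => wi18_arch M' hπ x hx) hfrac'
    intro y hy hy'
    rw [hconv']
    exact gv85_hmax (IsLocalRing.residue R) π (pk85_res_iff hπ) hπ.ne_zero _ _ y hy hy'
  refine tr50_transv π (pk15_chart R s) _ _ hB₁ hB₂ hπV₀ hV₂ hS₁ hS₂ q hq.two_le ?_
  exact tr50_hins π (pk15_chart R s) _ _ hB₂ hπV₀
    (al97L_alpha K M' q : ↥(modularFunctionFieldFullC K M') →+*
      ↥(modularFunctionFieldFullC K (M' * q)))
    (al97L_beta K M' q : ↥(modularFunctionFieldFullC K M') →+*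
      ↥(modularFunctionFieldFullC K (M' * q)))
    (pk15_chart R s').toSubring (cm85_Vinf (K := K) M' hπ).toSubring
    ((pk15_chart R s').toSubring : Set ↥(modularFunctionFieldFullC K M'))
    hα hB'V' hβ hβV q (fun x => hSurj x x.2) hfrob hfrac

/-- **(LS) on the canonical frame data** for a pair of charts `B' = pk15_chart R s'`
(level `M'`) and `B = pk15_chart R s` (level `M' * q`). -/
theorem fls55_chart (hqR : ¬ IsUnit (q : R))
    (hchar : (q : IsLocalRing.ResidueField R) = 0)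
    (hperf : ∀ c : IsLocalRing.ResidueField R, ∃ d : IsLocalRing.ResidueField R, d ^ q = c)
    (s' : Set ↥(modularFunctionFieldFullC K M')) (s : Set ↥(modularFunctionFieldFullC K (M' * q)))
    [IsNoetherianRing (pk15_chart R s)]
    (hs'V : ∀ g ∈ s', g ∈ cm85_Vinf (K := K) M' hπ)
    (hsat' : cm15_Sat R π s' (cm85_Vinf (K := K) M' hπ).toSubring)
    (hfrac' : ∀ x : ↥(modularFunctionFieldFullC K M'),
      ∃ a ∈ pk15_chart R s', ∃ b ∈ pk15_chart R s', b ≠ 0 ∧ x * b = a)
    (hB₁ : ∀ x ∈ pk15_chart R s, x ∈ (cm85_Vinf (K := K) (M' * q) hπ).toSubring)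
    (hB₂ : ∀ x ∈ pk15_chart R s, x ∈ (s34i47c_V0 (K := K) M' q hq hM' hπ).toSubring)
    (hsat : ∀ x ∈ pk15_chart R s,
      (algebraMap R ↥(modularFunctionFieldFullC K (M' * q)) π)⁻¹ * x ∈
        (cm85_Vinf (K := K) (M' * q) hπ).toSubring →
      (algebraMap R ↥(modularFunctionFieldFullC K (M' * q)) π)⁻¹ * x ∈
        (s34i47c_V0 (K := K) M' q hq hM' hπ).toSubring →
      (algebraMap R ↥(modularFunctionFieldFullC K (M' * q)) π)⁻¹ * x ∈ pk15_chart R s)
    (hα : ∀ x ∈ pk15_chart R s', al97L_alpha K M' q x ∈ pk15_chart R s)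
    (hβ : ∀ x ∈ pk15_chart R s', al97L_beta K M' q x ∈ pk15_chart R s)
    (hSurj : bi93_Surj M' (M' * q) (dvd_mul_right M' q) hπ s' s)
    (hUnif : bi93_Unif M' (M' * q) (dvd_mul_right M' q) hπ s' s)
    (hS : sf79_Smooth π (pk15_chart R s) (cm85_Vinf (K := K) (M' * q) hπ).toSubring →
      sf79_Smooth π (pk15_chart R s) (s34i47c_V0 (K := K) M' q hq hM' hπ).toSubring)
    (hUV : sf79_UVAt π (pk15_chart R s) (cm85_Vinf (K := K) (M' * q) hπ).toSubring
      (s34i47c_V0 (K := K) M' q hq hM' hπ).toSubring) :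
    s34i47_LocStr π (pk15_chart R s) := by
  have hπV : (algebraMap R ↥(modularFunctionFieldFullC K (M' * q)) π)⁻¹ ∉
      (cm85_Vinf (K := K) (M' * q) hπ).toSubring := by
    rw [IsScalarTower.algebraMap_apply R K ↥(modularFunctionFieldFullC K (M' * q))]
    exact gv85_pi_inv_not_mem (IsLocalRing.residue R) π (pk85_res_iff hπ) hπ.ne_zero _ _
  have hπV₀ := fls55_pi_V0 (R := R) (K := K) M' q hq hM' hπ
  have hV₁ : ∀ x ∈ (cm85_Vinf (K := K) (M' * q) hπ).toSubring,
      (algebraMap R ↥(modularFunctionFieldFullC K (M' * q)) π)⁻¹ * x ∉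
        (cm85_Vinf (K := K) (M' * q) hπ).toSubring →
      x⁻¹ ∈ (cm85_Vinf (K := K) (M' * q) hπ).toSubring := by
    intro x hx h
    by_contra h'
    apply h
    rw [IsScalarTower.algebraMap_apply R K ↥(modularFunctionFieldFullC K (M' * q))]
    exact gv85_hmax (IsLocalRing.residue R) π (pk85_res_iff hπ) hπ.ne_zero _ _ x hx h'
  have hV₂ : ∀ x ∈ (s34i47c_V0 (K := K) M' q hq hM' hπ).toSubring,
      (algebraMap R ↥(modularFunctionFieldFullC K (M' * q)) π)⁻¹ * x ∉
        (s34i47c_V0 (K := K) M' q hq hM' hπ).toSubring →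
      x⁻¹ ∈ (s34i47c_V0 (K := K) M' q hq hM' hπ).toSubring := by
    intro x hx h
    by_contra h'
    exact h (tv2c_hmax_zero M' q hq hM' hπ hqR x hx h')
  have hS₁ : sf79_Smooth π (pk15_chart R s) (cm85_Vinf (K := K) (M' * q) hπ).toSubring := by
    intro n hn _ hOn
    obtain ⟨z', -, z, hz, -, hu⟩ := hUnif n hn.isPrime hOn
    exact ⟨z, hz, hu⟩
  have hS₂ := hS hS₁
  exact sf79_locStr π (pk15_chart R s) _ _ hB₁ hB₂ hπV hπV₀ hV₁ hV₂ hsat hS₁ hS₂
    (fls55_transv M' q hq hM' hπ hqR hchar hperf s' s hs'V hsat' hfrac' hB₁ hB₂ hα hβ hSurj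
      hS₁ hS₂) hUV

/-- `α` maps the chart of `s'` into the chart of `α '' s'`. -/
theorem fls55_alpha_mem (s' : Set ↥(modularFunctionFieldFullC K M'))
    (x : ↥(modularFunctionFieldFullC K M')) (hx : x ∈ pk15_chart R s') :
    al97L_alpha K M' q x ∈ pk15_chart R ((al97L_alpha K M' q) '' s') :=
  sf79i_map_mem ((al97L_alpha K M' q).restrictScalars R) s' x hx

end fls55_chart

section fls55_main

/-- **FRAME-LS** (`Iface47c`) at every level `M' * q`, `q ∤ M'`. -/
theorem fls55_frameLS (M' q : ℕ) [NeZero M'] [NeZero q] (hq : q.Prime) (hM' : ¬ q ∣ M') :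
    s34i47c_FrameLS M' q := by
  intro R K _ _ _ _ _ _ _ _ _ _ π hπ hunit hqR h hh
  haveI : Algebra.IsAlgebraic K Q̄ := fs85_isAlgebraic K
  letI : Algebra R ↥(modularFunctionFieldFullC K M') :=
    ((algebraMap K ↥(modularFunctionFieldFullC K M')).comp (algebraMap R K)).toAlgebra
  haveI : IsScalarTower R K ↥(modularFunctionFieldFullC K M') :=
    IsScalarTower.of_algebraMap_eq (fun _ => rfl)
  have hdvd : M' ∣ M' * q := dvd_mul_right M' q
  have hMu : IsUnit (M' : R) := hunit M' ((Nat.Prime.coprime_iff_not_dvd hq).mpr hM').symm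
  obtain ⟨hchar, hperf⟩ :=
    ins50_perfect (R := R) (K := K) (IsFractionRing.injective R K) hq hqR
  obtain ⟨-, hC⟩ := fs85_pkg_frameSat M' q hq hM' R K π hπ hunit hqR
  obtain ⟨-, h12W, hsat1, hsat2, -, hN1, hN2, -, -⟩ := hC h hh
  obtain ⟨hUV1, hUV2⟩ := uvf22_UVAt (R := R) (K := K) M' q hq hM' hπ hunit hqR h hh
  obtain ⟨hSm1, hSm2⟩ := bz13_smooth_V0 (R := R) M' q hq hM' hπ hunit h hh
  obtain ⟨hst1, hst2, -⟩ := bz13_charts_stable (R := R) M' q hq hM' hunit h hh
  have hF1 := rd90_F1 (R := R) (K := K) M' q hq hM' hπ hqR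
  have hW : ∀ x ∈ pk15_chart R ({h, h⁻¹} : Set ↥(modularFunctionFieldFullC K (M' * q))),
      x ∈ (cm85_Vinf (K := K) (M' * q) hπ).toSubring ∧
        x ∈ (s34i47c_V0 (K := K) M' q hq hM' hπ).toSubring := fun x hx =>
    (s34i47c_mem_W M' q hq hM' hπ x).mp (h12W x hx)
  have hsub1 : pk15_chart R ({h} : Set ↥(modularFunctionFieldFullC K (M' * q))) ≤
      pk15_chart R ({h, h⁻¹} : Set ↥(modularFunctionFieldFullC K (M' * q))) :=
    pk15_chart_mono (Set.singleton_subset_iff.mpr (Set.mem_insert _ _))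
  have hsub2 : pk15_chart R ({h⁻¹} : Set ↥(modularFunctionFieldFullC K (M' * q))) ≤
      pk15_chart R ({h, h⁻¹} : Set ↥(modularFunctionFieldFullC K (M' * q))) :=
    pk15_chart_mono (Set.singleton_subset_iff.mpr (Set.mem_insert_of_mem _ rfl))
  have hβ_of : ∀ (s' : Set ↥(modularFunctionFieldFullC K M'))
      (s : Set ↥(modularFunctionFieldFullC K (M' * q))),
      (∀ z : ↥(modularFunctionFieldFullC K (M' * q)),
        bz13_w M' q hq hM' z ∈ pk15_chart R s ↔ z ∈ pk15_chart R s) →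
      (∀ x ∈ pk15_chart R s', al97L_alpha K M' q x ∈ pk15_chart R s) →
      ∀ x ∈ pk15_chart R s', al97L_beta K M' q x ∈ pk15_chart R s := by
    intro s' s hst hα x hx
    rw [← al97L_w_alpha_apply (algebraMap K Q̄) M' q hq hM' x]
    exact (hst _).mpr (hα x hx)
  haveI := hN1
  haveI := hN2
  have hsatB1 := fun (x : ↥(modularFunctionFieldFullC K (M' * q)))
      (hx : x ∈ pk15_chart R ({h} : Set ↥(modularFunctionFieldFullC K (M' * q))))
      (h1 : (algebraMap R ↥(modularFunctionFieldFullC K (M' * q)) π)⁻¹ * x ∈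
        (cm85_Vinf (K := K) (M' * q) hπ).toSubring)
      (h2 : (algebraMap R ↥(modularFunctionFieldFullC K (M' * q)) π)⁻¹ * x ∈
        (s34i47c_V0 (K := K) M' q hq hM' hπ).toSubring) =>
    hsat1 x hx ((s34i47c_mem_W M' q hq hM' hπ _).mpr ⟨h1, h2⟩)
  have hsatB2 := fun (x : ↥(modularFunctionFieldFullC K (M' * q)))
      (hx : x ∈ pk15_chart R ({h⁻¹} : Set ↥(modularFunctionFieldFullC K (M' * q))))
      (h1 : (algebraMap R ↥(modularFunctionFieldFullC K (M' * q)) π)⁻¹ * x ∈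
        (cm85_Vinf (K := K) (M' * q) hπ).toSubring)
      (h2 : (algebraMap R ↥(modularFunctionFieldFullC K (M' * q)) π)⁻¹ * x ∈
        (s34i47c_V0 (K := K) M' q hq hM' hπ).toSubring) =>
    hsat2 x hx ((s34i47c_mem_W M' q hq hM' hπ _).mpr ⟨h1, h2⟩)
  rcases hh with ⟨hq2, h2, rfl⟩ | ⟨hq3, h3, rfl⟩
  · have h2' : 2 ∣ M' := by
      rcases (Nat.Prime.dvd_mul Nat.prime_two).mp h2 with h | h
      · exact h
      · exact absurd ((Nat.prime_dvd_prime_iff_eq Nat.prime_two hq).mp h).symm hq2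
    obtain ⟨-, -, -, -, hhV, hhV', -, -, -, -, hfrac₁, hfrac₂, -⟩ :=
      cm85_facts_level2 (R := R) (K := K) M' hπ h2'
    obtain ⟨hs₁, hs₂, -⟩ := cm15_base_sat_level2 (R := R) (K := K) M' hπ h2' hMu
    obtain ⟨⟨hSu1, hUn1⟩, ⟨hSu2, hUn2⟩⟩ := bi93_level2 M' (M' * q) hdvd hπ h2' hMu hF1
    have hh : al97L_alpha K M' q (pk85_h2 K M' h2') = pk85_h2 K (M' * q) h2 :=
      Subtype.ext (by rw [al97L_alpha_coe, pk85_h2_coe, pk85_h2_coe])
    have hα1 : ∀ x ∈ pk15_chart R ({pk85_h2 K M' h2'} : Set ↥(modularFunctionFieldFullC K M')),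
        al97L_alpha K M' q x ∈
          pk15_chart R ({pk85_h2 K (M' * q) h2} : Set ↥(modularFunctionFieldFullC K (M' * q))) := by
      intro x hx
      have := fls55_alpha_mem (R := R) M' q _ x hx
      rwa [Set.image_singleton, hh] at this
    have hα2 : ∀ x ∈ pk15_chart R ({(pk85_h2 K M' h2')⁻¹} : Set ↥(modularFunctionFieldFullC K M')),
        al97L_alpha K M' q x ∈
          pk15_chart R ({(pk85_h2 K (M' * q) h2)⁻¹} :
            Set ↥(modularFunctionFieldFullC K (M' * q))) := by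
      intro x hx
      have := fls55_alpha_mem (R := R) M' q _ x hx
      rwa [Set.image_singleton, map_inv₀, hh] at this
    exact ⟨fls55_chart M' q hq hM' hπ hqR hchar hperf _ _
        (fun g hg => by rw [Set.mem_singleton_iff.mp hg]; exact hhV) hs₁ hfrac₁
        (fun x hx => (hW x (hsub1 hx)).1) (fun x hx => (hW x (hsub1 hx)).2) hsatB1
        hα1 (hβ_of _ _ hst1 hα1) hSu1 hUn1 hSm1 hUV1,
      fls55_chart M' q hq hM' hπ hqR hchar hperf _ _
        (fun g hg => by rw [Set.mem_singleton_iff.mp hg]; exact hhV') hs₂ hfrac₂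
        (fun x hx => (hW x (hsub2 hx)).1) (fun x hx => (hW x (hsub2 hx)).2) hsatB2
        hα2 (hβ_of _ _ hst2 hα2) hSu2 hUn2 hSm2 hUV2⟩
  · have h3' : 3 ∣ M' := by
      rcases (Nat.Prime.dvd_mul Nat.prime_three).mp h3 with h | h
      · exact h
      · exact absurd ((Nat.prime_dvd_prime_iff_eq Nat.prime_three hq).mp h).symm hq3
    obtain ⟨-, -, -, -, hhV, hhV', -, -, -, -, hfrac₁, hfrac₂, -⟩ :=
      cm85_facts_level3 (R := R) (K := K) M' hπ h3'
    obtain ⟨hs₁, hs₂, -⟩ := cm15_base_sat_level3 (R := R) (K := K) M' hπ h3' hMu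
    obtain ⟨⟨hSu1, hUn1⟩, ⟨hSu2, hUn2⟩⟩ := bi93_level3 M' (M' * q) hdvd hπ h3' hMu hF1
    have hh : al97L_alpha K M' q (pk85_h3 K M' h3') = pk85_h3 K (M' * q) h3 :=
      Subtype.ext (by rw [al97L_alpha_coe, pk85_h3_coe, pk85_h3_coe])
    have hα1 : ∀ x ∈ pk15_chart R ({pk85_h3 K M' h3'} : Set ↥(modularFunctionFieldFullC K M')),
        al97L_alpha K M' q x ∈
          pk15_chart R ({pk85_h3 K (M' * q) h3} : Set ↥(modularFunctionFieldFullC K (M' * q))) := by
      intro x hx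
      have := fls55_alpha_mem (R := R) M' q _ x hx
      rwa [Set.image_singleton, hh] at this
    have hα2 : ∀ x ∈ pk15_chart R ({(pk85_h3 K M' h3')⁻¹} : Set ↥(modularFunctionFieldFullC K M')),
        al97L_alpha K M' q x ∈
          pk15_chart R ({(pk85_h3 K (M' * q) h3)⁻¹} :
            Set ↥(modularFunctionFieldFullC K (M' * q))) := by
      intro x hx
      have := fls55_alpha_mem (R := R) M' q _ x hx
      rwa [Set.image_singleton, map_inv₀, hh] at this
    exact ⟨fls55_chart M' q hq hM' hπ hqR hchar hperf _ _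
        (fun g hg => by rw [Set.mem_singleton_iff.mp hg]; exact hhV) hs₁ hfrac₁
        (fun x hx => (hW x (hsub1 hx)).1) (fun x hx => (hW x (hsub1 hx)).2) hsatB1
        hα1 (hβ_of _ _ hst1 hα1) hSu1 hUn1 hSm1 hUV1,
      fls55_chart M' q hq hM' hπ hqR hchar hperf _ _
        (fun g hg => by rw [Set.mem_singleton_iff.mp hg]; exact hhV') hs₂ hfrac₂
        (fun x hx => (hW x (hsub2 hx)).1) (fun x hx => (hW x (hsub2 hx)).2) hsatB2
        hα2 (hβ_of _ _ hst2 hα2) hSu2 hUn2 hSm2 hUV2⟩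

/-- **The package FRAME-LS** of `Iface47c`. -/
theorem fls55_pkg_frameLS : s34i47c_Pkg_FrameLS :=
  fun M' q _ _ hq hM' => fls55_frameLS M' q hq hM'

end fls55_main

end Fermat.Agent.S34
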