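import Fermat.Agent.S34.DeltaQuot56b
import Fermat.Agent.S34.UVAt17
import Fermat.Agent.S34.CuspFrame22
import Fermat.Agent.S34.SpecFibre79
import Fermat.Agent.S34.TwoValBind2

/-!
# S34 lab (helper56): FRAME-LS of Iface47c reduced to the three branch statements

Canonical frame of Iface47c at level `M' * q` (`V_∞ = cm85_Vinf (M' * q) hπ`,
`V_0 = s34i47c_V0 M' q hq hM' hπ` which is `cm15_V0 (algebraMap K Q̄) M' q hq hM' hπ` by `rfl`).

* `fl56_UVAt` : `sf79_UVAt π B V_∞ V_0` for every integrally closed chart `B` at whose nodes `j`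
  is regular (`dq56b_main` + `uv17_UVAt`);
* `fl56_Branches M' q hq hM' π hπ B` : `sf79_Smooth π B V_∞ ∧ sf79_Smooth π B V_0 ∧
  sf79_Transv π B V_∞ V_0`  [(3a-∞), (3a-0), (3b) in the shapes of SpecFibre79];
* `fl56_locStr_level2`, `fl56_locStr_level2_inv`, `fl56_locStr_level3`, `fl56_locStr_level3_inv` :
  `fl56_Branches` of the chart gives `s34i47_LocStr π` of the chart (saturation, noetherianity and
  `B ⊆ W` from `cm15_chartProps_level2/3` + `tv2b_WInt`; `m_V = π V` from `cf22_*_hmax`; (3c), (3d)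
  from `cf22_level2/3(_inv)`; (UVAt) from `fl56_UVAt`; assembly `sf79_locStr`);
* `fl56_FrameBr M' q hq hM'` : `fl56_Branches` for the two charts of every admissible Hauptmodul
  (binders of `s34i47c_FrameLS`);
* `fl56_frameLS : fl56_FrameBr M' q hq hM' → s34i47c_FrameLS M' q`, `fl56_pkg_frameLS`.

All names are prefixed `fl56_`.
-/

set_option autoImplicit false
set_option linter.unusedSectionVars false
set_option linter.style.haveILetI false

open ModularCurve AlgebraicCurve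

namespace Fermat.Agent.S34

open Fermat.Agent.S18 Fermat.Agent.S24

local notation "Q̄" => AlgebraicClosure ℚ

noncomputable section

section fl56

variable {R K : Type} [CommRing R] [IsDomain R] [IsDiscreteValuationRing R] [Field K] [CharZero K]
  [Algebra K Q̄] [Algebra R K] [IsFractionRing R K]
  (M' q : ℕ) [NeZero M'] [NeZero q] (hq : q.Prime) (hM' : ¬ q ∣ M')
  [Algebra R ↥(modularFunctionFieldFullC K (M' * q))]
  [IsScalarTower R K ↥(modularFunctionFieldFullC K (M' * q))] {π : R} (hπ : Irreducible π)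

/-- The canonical `V_0` of Iface47c is the `V_0` of FrameGlue15. -/
theorem fl56_V0_eq :
    s34i47c_V0 (K := K) M' q hq hM' hπ = cm15_V0 (algebraMap K Q̄) M' q hq hM' hπ := rfl

include hπ in
theorem fl56_pi_ne_zero :
    algebraMap R ↥(modularFunctionFieldFullC K (M' * q)) π ≠ 0 := by
  rw [IsScalarTower.algebraMap_apply R K ↥(modularFunctionFieldFullC K (M' * q))]
  intro h0
  have h1 : algebraMap R K π = 0 :=
    (map_eq_zero (algebraMap K ↥(modularFunctionFieldFullC K (M' * q)))).mp h0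
  exact hπ.ne_zero ((map_eq_zero_iff _ (IsFractionRing.injective R K)).mp h1)

/-- **(UVAt) on the canonical frame**: for every integrally closed chart `B` at whose nodes `j` is
regular. -/
theorem fl56_UVAt (hqR : ¬ IsUnit (q : R))
    (B : Subalgebra R ↥(modularFunctionFieldFullC K (M' * q)))
    (hBint : ∀ z : ↥(modularFunctionFieldFullC K (M' * q)), IsIntegral B z → z ∈ B)
    (hj : ∀ n : Ideal B, n.IsMaximal → algebraMap R B π ∈ n →
      (∀ x : B, (algebraMap R ↥(modularFunctionFieldFullC K (M' * q)) π)⁻¹ *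
        (x : ↥(modularFunctionFieldFullC K (M' * q))) ∈ cm85_Vinf (K := K) (M' * q) hπ → x ∈ n) →
      (∀ x : B, (algebraMap R ↥(modularFunctionFieldFullC K (M' * q)) π)⁻¹ *
        (x : ↥(modularFunctionFieldFullC K (M' * q))) ∈
          cm15_V0 (algebraMap K Q̄) M' q hq hM' hπ → x ∈ n) →
      ∃ s : B, s ∉ n ∧ (s : ↥(modularFunctionFieldFullC K (M' * q))) * rm90_j K (M' * q) ∈ B) :
    sf79_UVAt π B (cm85_Vinf (K := K) (M' * q) hπ).toSubring
      (cm15_V0 (algebraMap K Q̄) M' q hq hM' hπ).toSubring := by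
  obtain ⟨U, V, e, ε, hε, he, hUV, hUi, hVi, -, -, -, -, -, -, hU1, hV2⟩ :=
    dq56b_main (K := K) M' q hq hM' hπ hqR
  exact uv17_UVAt π (fl56_pi_ne_zero M' q hπ) B hBint (cm85_Vinf (K := K) (M' * q) hπ)
    (cm15_V0 (algebraMap K Q̄) M' q hq hM' hπ) (rm90_j K (M' * q)) U V hUi hVi e he ε hε hUV
    hU1 hV2 hj

/-- `π⁻¹ ∉ V_∞`. -/
theorem fl56_Vinf_pi_inv :
    (algebraMap R ↥(modularFunctionFieldFullC K (M' * q)) π)⁻¹ ∉
      cm85_Vinf (K := K) (M' * q) hπ := by
  rw [IsScalarTower.algebraMap_apply R K ↥(modularFunctionFieldFullC K (M' * q))]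
  exact gv85_pi_inv_not_mem (IsLocalRing.residue R) π (pk85_res_iff hπ) hπ.ne_zero _ _

/-- **The three branch statements** (3a-∞), (3a-0), (3b) of a chart `B` on the canonical frame,
in the `sf79` shapes (SpecFibre79). -/
def fl56_Branches (π : R) (hπ : Irreducible π)
    (B : Subalgebra R ↥(modularFunctionFieldFullC K (M' * q))) : Prop :=
  sf79_Smooth π B (cm85_Vinf (K := K) (M' * q) hπ).toSubring ∧
  sf79_Smooth π B (s34i47c_V0 (K := K) M' q hq hM' hπ).toSubring ∧
  sf79_Transv π B (cm85_Vinf (K := K) (M' * q) hπ).toSubring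
    (s34i47c_V0 (K := K) M' q hq hM' hπ).toSubring

/-- **(LS) of a chart of the canonical frame** from its three branch statements, the chart facts
of FRAME-SAT (`hW`, `hsat`, noetherian) and the regularity of `j` at the nodes. -/
theorem fl56_locStr_chart (hqR : ¬ IsUnit (q : R))
    (s t : Set ↥(modularFunctionFieldFullC K (M' * q))) (hst : s ⊆ t)
    (hW : ∀ x ∈ pk15_chart R t, x ∈ s34i47c_W (K := K) M' q hq hM' hπ)
    (hsat : ∀ x ∈ pk15_chart R s,
      (algebraMap R ↥(modularFunctionFieldFullC K (M' * q)) π)⁻¹ * x ∈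
        s34i47c_W (K := K) M' q hq hM' hπ →
      (algebraMap R ↥(modularFunctionFieldFullC K (M' * q)) π)⁻¹ * x ∈ pk15_chart R s)
    (hnoeth : IsNoetherianRing ↥(pk15_chart R s))
    (hj : ∀ n : Ideal ↥(pk15_chart R s), n.IsPrime →
      (∀ y : ↥(pk15_chart R s), (algebraMap R ↥(modularFunctionFieldFullC K (M' * q)) π)⁻¹ *
        (y : ↥(modularFunctionFieldFullC K (M' * q))) ∈ cm85_Vinf (K := K) (M' * q) hπ → y ∈ n) →
      (∀ y : ↥(pk15_chart R s), (algebraMap R ↥(modularFunctionFieldFullC K (M' * q)) π)⁻¹ *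
        (y : ↥(modularFunctionFieldFullC K (M' * q))) ∈
          cm15_V0 (algebraMap K Q̄) M' q hq hM' hπ → y ∈ n) →
      ∃ a b : ↥(pk15_chart R s), a ∉ n ∧
        (a : ↥(modularFunctionFieldFullC K (M' * q))) * rm90_j K (M' * q) =
          (b : ↥(modularFunctionFieldFullC K (M' * q))))
    (hBr : fl56_Branches M' q hq hM' π hπ (pk15_chart R s)) :
    s34i47_LocStr π (pk15_chart R s) := by
  haveI := hnoeth
  obtain ⟨hS₁, hS₂, hT⟩ := hBr
  have hB : ∀ x ∈ pk15_chart R s, x ∈ s34i47c_W (K := K) M' q hq hM' hπ := fun x hx =>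
    hW x (pk15_chart_mono hst hx)
  have hB₁ : ∀ x ∈ pk15_chart R s, x ∈ (cm85_Vinf (K := K) (M' * q) hπ).toSubring := fun x hx =>
    ((s34i47c_mem_W M' q hq hM' hπ x).mp (hB x hx)).1
  have hB₂ : ∀ x ∈ pk15_chart R s,
      x ∈ (cm15_V0 (algebraMap K Q̄) M' q hq hM' hπ).toSubring := fun x hx =>
    ((s34i47c_mem_W M' q hq hM' hπ x).mp (hB x hx)).2
  refine sf79_locStr π (pk15_chart R s) (cm85_Vinf (K := K) (M' * q) hπ).toSubring
    (cm15_V0 (algebraMap K Q̄) M' q hq hM' hπ).toSubring hB₁ hB₂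
    (fl56_Vinf_pi_inv M' q hπ) (cm15_V0_pi_inv (algebraMap K Q̄) M' q hq hM' hπ)
    ?_ ?_ ?_ hS₁ hS₂ hT ?_
  · intro x hx hx'
    by_contra hinv
    exact hx' (cf22_Vinf_hmax M' q hπ x hx hinv)
  · intro x hx hx'
    by_contra hinv
    exact hx' (cf22_V0_hmax (algebraMap K Q̄) M' q hq hM' hπ x hx hinv)
  · intro x hx h1 h2
    exact hsat x hx ((s34i47c_mem_W M' q hq hM' hπ _).mpr ⟨h1, h2⟩)
  · refine fl56_UVAt M' q hq hM' hπ hqR (pk15_chart R s) (uv17_chart_intClosed s) ?_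
    intro n hn _ hc₁ hc₂
    obtain ⟨a, b, ha, hab⟩ := hj n hn.isPrime hc₁ hc₂
    exact ⟨a, ha, by rw [hab]; exact b.2⟩

/-- (C) for the level-2 Hauptmodul on the canonical `W` (helper15's chart half + helper2's
`tv2b_WInt`). -/
theorem fl56_chartProps_level2 (hMu : IsUnit (M' : R)) (hqR : ¬ IsUnit (q : R)) (h2 : 2 ∣ M') :
    s34i47_ChartProps K π (s34i47c_W (K := K) M' q hq hM' hπ)
      (pk85_h2 K (M' * q) (h2.trans (dvd_mul_right M' q))) := by
  haveI : Algebra.IsAlgebraic K Q̄ := cx_isAlgebraic_closure K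
  letI : Algebra R ↥(modularFunctionFieldFullC K M') :=
    ((algebraMap K ↥(modularFunctionFieldFullC K M')).comp (algebraMap R K)).toAlgebra
  haveI : IsScalarTower R K ↥(modularFunctionFieldFullC K M') :=
    IsScalarTower.of_algebraMap_eq (fun _ => rfl)
  obtain ⟨hh₀, hh₀'⟩ := cm15_V0_h2 (R := R) (algebraMap K Q̄) M' q hq hM' hπ h2
  exact cm15_chartProps_level2 (R := R) (K := K) M' (M' * q) (dvd_mul_right M' q) hπ h2 hMu
    (cm15_V0 (algebraMap K Q̄) M' q hq hM' hπ)
    (cm15_V0_algebraMap (algebraMap K Q̄) M' q hq hM' hπ) hh₀ hh₀'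
    (tv2b_WInt M' q hq hM' hπ hqR)

/-- (C) for the level-3 Hauptmodul on the canonical `W`. -/
theorem fl56_chartProps_level3 (hMu : IsUnit (M' : R)) (hqR : ¬ IsUnit (q : R)) (h3 : 3 ∣ M') :
    s34i47_ChartProps K π (s34i47c_W (K := K) M' q hq hM' hπ)
      (pk85_h3 K (M' * q) (h3.trans (dvd_mul_right M' q))) := by
  haveI : Algebra.IsAlgebraic K Q̄ := cx_isAlgebraic_closure K
  letI : Algebra R ↥(modularFunctionFieldFullC K M') :=
    ((algebraMap K ↥(modularFunctionFieldFullC K M')).comp (algebraMap R K)).toAlgebra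
  haveI : IsScalarTower R K ↥(modularFunctionFieldFullC K M') :=
    IsScalarTower.of_algebraMap_eq (fun _ => rfl)
  obtain ⟨hh₀, hh₀'⟩ := cm15_V0_h3 (R := R) (algebraMap K Q̄) M' q hq hM' hπ h3
  exact cm15_chartProps_level3 (R := R) (K := K) M' (M' * q) (dvd_mul_right M' q) hπ h3 hMu
    (cm15_V0 (algebraMap K Q̄) M' q hq hM' hπ)
    (cm15_V0_algebraMap (algebraMap K Q̄) M' q hq hM' hπ) hh₀ hh₀'
    (tv2b_WInt M' q hq hM' hπ hqR)

/-- **(LS), level 2, chart `{h}`** from the three branch statements. -/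
theorem fl56_locStr_level2 (hMu : IsUnit (M' : R)) (h2u : IsUnit (2 : R))
    (hqR : ¬ IsUnit (q : R)) (h2 : 2 ∣ M')
    (hBr : fl56_Branches M' q hq hM' π hπ
      (pk15_chart R ({pk85_h2 K (M' * q) (h2.trans (dvd_mul_right M' q))} :
        Set ↥(modularFunctionFieldFullC K (M' * q))))) :
    s34i47_LocStr π (pk15_chart R ({pk85_h2 K (M' * q) (h2.trans (dvd_mul_right M' q))} :
      Set ↥(modularFunctionFieldFullC K (M' * q)))) := by
  obtain ⟨-, hW, hs₁, -, -, hn₁, -, -, -⟩ :=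
    fl56_chartProps_level2 (R := R) (K := K) M' q hq hM' hπ hMu hqR h2
  refine fl56_locStr_chart M' q hq hM' hπ hqR _ _
    (Set.singleton_subset_iff.mpr (Set.mem_insert _ _)) hW hs₁ hn₁ ?_ hBr
  intro n hn hc₁ hc₂
  haveI := hn
  exact cf22_level2 (algebraMap K Q̄) M' q hq hM' hπ hqR h2 h2u n hc₁ hc₂

/-- **(LS), level 2, chart `{h⁻¹}`** from the three branch statements. -/
theorem fl56_locStr_level2_inv (hMu : IsUnit (M' : R))
    (hqR : ¬ IsUnit (q : R)) (h2 : 2 ∣ M')
    (hBr : fl56_Branches M' q hq hM' π hπ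
      (pk15_chart R ({(pk85_h2 K (M' * q) (h2.trans (dvd_mul_right M' q)))⁻¹} :
        Set ↥(modularFunctionFieldFullC K (M' * q))))) :
    s34i47_LocStr π (pk15_chart R ({(pk85_h2 K (M' * q) (h2.trans (dvd_mul_right M' q)))⁻¹} :
      Set ↥(modularFunctionFieldFullC K (M' * q)))) := by
  obtain ⟨-, hW, -, hs₂, -, -, hn₂, -, -⟩ :=
    fl56_chartProps_level2 (R := R) (K := K) M' q hq hM' hπ hMu hqR h2
  refine fl56_locStr_chart M' q hq hM' hπ hqR _ _
    (fun x hx => Set.mem_insert_of_mem _ hx) hW hs₂ hn₂ ?_ hBr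
  intro n hn hc₁ hc₂
  haveI := hn
  exact cf22_level2_inv (algebraMap K Q̄) M' q hq hM' hπ hqR h2 n hc₁ hc₂

/-- **(LS), level 3, chart `{h}`** from the three branch statements. -/
theorem fl56_locStr_level3 (hMu : IsUnit (M' : R)) (h3u : IsUnit (3 : R))
    (hqR : ¬ IsUnit (q : R)) (h3 : 3 ∣ M')
    (hBr : fl56_Branches M' q hq hM' π hπ
      (pk15_chart R ({pk85_h3 K (M' * q) (h3.trans (dvd_mul_right M' q))} :
        Set ↥(modularFunctionFieldFullC K (M' * q))))) :
    s34i47_LocStr π (pk15_chart R ({pk85_h3 K (M' * q) (h3.trans (dvd_mul_right M' q))} :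
      Set ↥(modularFunctionFieldFullC K (M' * q)))) := by
  obtain ⟨-, hW, hs₁, -, -, hn₁, -, -, -⟩ :=
    fl56_chartProps_level3 (R := R) (K := K) M' q hq hM' hπ hMu hqR h3
  refine fl56_locStr_chart M' q hq hM' hπ hqR _ _
    (Set.singleton_subset_iff.mpr (Set.mem_insert _ _)) hW hs₁ hn₁ ?_ hBr
  intro n hn hc₁ hc₂
  haveI := hn
  exact cf22_level3 (algebraMap K Q̄) M' q hq hM' hπ hqR h3 h3u n hc₁ hc₂

/-- **(LS), level 3, chart `{h⁻¹}`** from the three branch statements. -/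
theorem fl56_locStr_level3_inv (hMu : IsUnit (M' : R))
    (hqR : ¬ IsUnit (q : R)) (h3 : 3 ∣ M')
    (hBr : fl56_Branches M' q hq hM' π hπ
      (pk15_chart R ({(pk85_h3 K (M' * q) (h3.trans (dvd_mul_right M' q)))⁻¹} :
        Set ↥(modularFunctionFieldFullC K (M' * q))))) :
    s34i47_LocStr π (pk15_chart R ({(pk85_h3 K (M' * q) (h3.trans (dvd_mul_right M' q)))⁻¹} :
      Set ↥(modularFunctionFieldFullC K (M' * q)))) := by
  obtain ⟨-, hW, -, hs₂, -, -, hn₂, -, -⟩ :=
    fl56_chartProps_level3 (R := R) (K := K) M' q hq hM' hπ hMu hqR h3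
  refine fl56_locStr_chart M' q hq hM' hπ hqR _ _
    (fun x hx => Set.mem_insert_of_mem _ hx) hW hs₂ hn₂ ?_ hBr
  intro n hn hc₁ hc₂
  haveI := hn
  exact cf22_level3_inv (algebraMap K Q̄) M' q hq hM' hπ hqR h3 n hc₁ hc₂

end fl56

/-- **FRAME-BRANCH** at level `M' * q`: the three branch statements (3a-∞), (3a-0), (3b)
(`fl56_Branches`) for the two affine charts of every admissible Hauptmodul; same binders as
`s34i47c_FrameLS`. -/
def fl56_FrameBr (M' q : ℕ) [NeZero M'] [NeZero q] (hq : q.Prime) (hM' : ¬ q ∣ M') : Prop :=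
  ∀ (R K : Type) [CommRing R] [IsDomain R] [IsDiscreteValuationRing R] [Field K] [NumberField K]
    [Algebra K Q̄] [Algebra R K] [IsFractionRing R K]
    [Algebra R ↥(modularFunctionFieldFullC K (M' * q))]
    [IsScalarTower R K ↥(modularFunctionFieldFullC K (M' * q))] (π : R) (hπ : Irreducible π),
    (∀ n : ℕ, Nat.Coprime n q → IsUnit (n : R)) → ¬ IsUnit (q : R) →
    ∀ h : ↥(modularFunctionFieldFullC K (M' * q)), s34i47c_IsHaupt K (M' * q) q h →
      fl56_Branches M' q hq hM' π hπ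
        (pk15_chart R ({h} : Set ↥(modularFunctionFieldFullC K (M' * q)))) ∧
      fl56_Branches M' q hq hM' π hπ
        (pk15_chart R ({h⁻¹} : Set ↥(modularFunctionFieldFullC K (M' * q))))

/-- **FRAME-LS from FRAME-BRANCH** at level `M' * q`: everything else of P3 + P4 + P4′ ((3c), (3d),
(UVAt), saturation, noetherianity, `m_V = π V`) is discharged here. -/
theorem fl56_frameLS (M' q : ℕ) [NeZero M'] [NeZero q] (hq : q.Prime) (hM' : ¬ q ∣ M')
    (hBr : fl56_FrameBr M' q hq hM') : s34i47c_FrameLS M' q := by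
  intro R K _ _ _ _ _ _ _ _ _ _ π hπ hunit hqR h hh
  have hMu : IsUnit (M' : R) :=
    hunit M' (Nat.Coprime.symm ((Nat.Prime.coprime_iff_not_dvd hq).mpr hM'))
  obtain ⟨hBr₁, hBr₂⟩ := hBr R K π hπ hunit hqR h hh
  rcases hh with ⟨hq2, h2, rfl⟩ | ⟨hq3, h3, rfl⟩
  · have h2' : 2 ∣ M' := by
      rcases (Nat.Prime.dvd_mul Nat.prime_two).mp h2 with h | h
      · exact h
      · exact absurd ((Nat.prime_dvd_prime_iff_eq Nat.prime_two hq).mp h).symm hq2
    have h2u : IsUnit (2 : R) := by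
      have := hunit 2 ((Nat.coprime_primes Nat.prime_two hq).mpr (Ne.symm hq2))
      simpa using this
    exact ⟨fl56_locStr_level2 M' q hq hM' hπ hMu h2u hqR h2' hBr₁,
      fl56_locStr_level2_inv M' q hq hM' hπ hMu hqR h2' hBr₂⟩
  · have h3' : 3 ∣ M' := by
      rcases (Nat.Prime.dvd_mul Nat.prime_three).mp h3 with h | h
      · exact h
      · exact absurd ((Nat.prime_dvd_prime_iff_eq Nat.prime_three hq).mp h).symm hq3
    have h3u : IsUnit (3 : R) := by
      have := hunit 3 ((Nat.coprime_primes Nat.prime_three hq).mpr (Ne.symm hq3))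
      simpa using this
    exact ⟨fl56_locStr_level3 M' q hq hM' hπ hMu h3u hqR h3' hBr₁,
      fl56_locStr_level3_inv M' q hq hM' hπ hMu hqR h3' hBr₂⟩

/-- **`s34i47c_Pkg_FrameLS` from FRAME-BRANCH** (for all `M'`, `q`). -/
theorem fl56_pkg_frameLS
    (hBr : ∀ (M' q : ℕ) [NeZero M'] [NeZero q] (hq : q.Prime) (hM' : ¬ q ∣ M'),
      fl56_FrameBr M' q hq hM') : s34i47c_Pkg_FrameLS :=
  fun M' q _ _ hq hM' => fl56_frameLS M' q hq hM' (hBr M' q hq hM')

end

end Fermat.Agent.S34
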