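import Fermat.Agent.S34.Iface47c
import Fermat.Agent.S34.SpecFibre79
import Fermat.Agent.S34.FrameSat85
import Fermat.Agent.S34.BranchZeroInst13
import Fermat.Agent.S34.UVAtFrame22

/-!
# S34 lab (helper7): the final composition of FRAME-LS in the `sf79` vocabulary

Canonical frame data of `Iface47c` at level `M' * q`: `V_∞ = cm85_Vinf (M' * q) hπ`,
`V_0 = s34i47c_V0 M' q hq hM' hπ`, `W = s34i47c_W = V_∞ ⊓ V_0`, `h` an admissible Hauptmodul.

* `fl7_locStr_of` : for a noetherian chart `B ⊆ W`, saturated in `W`: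
  `sf79_Smooth` for both branches + `sf79_Transv` + `sf79_UVAt` ⟹ `s34i47_LocStr π B`
  (`sf79_locStr` with all valuation-ring side conditions of the canonical data discharged).
* `fl7_SmoothInf M' q` / `fl7_Transv M' q hq hM'` : the two closed Props still to be produced by
  rows 488 / 490 (binder block of `s34i47c_FrameLS`; for every admissible `h` and both affine
  charts `pk15_chart R {h}`, `pk15_chart R {h⁻¹}`): `sf79_Smooth π B V_∞` resp.
  `sf79_Transv π B V_∞ V_0`.  `fl7_TransvOf` : the weaker form of the second one, which may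
  assume smoothness of both branches.
* `fl7_frameLS`, `fl7_frameLS'` : `fl7_SmoothInf → fl7_Transv(Of) → s34i47c_FrameLS M' q`
  (FRAME-SAT from `fs85_frameSat`, smoothness of the `0`-branch from `bz13_smooth_V0`,
  (UVAt) from `uvf22_UVAt`).
* `fl7_pkg_frameLS`, `fl7_pkg_frameLS'` : the package `s34i47c_Pkg_FrameLS`.

All names are prefixed `fl7_`.
-/

set_option autoImplicit false
set_option linter.unusedSectionVars false

open ModularCurve AlgebraicCurve

namespace Fermat.Agent.S34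

open Fermat.Agent.S18 Fermat.Agent.S24

local notation "Q̄" => AlgebraicClosure ℚ

section fl7_canon

variable {R K : Type} [CommRing R] [IsDomain R] [IsDiscreteValuationRing R] [Field K] [CharZero K]
  [Algebra R K] [IsFractionRing R K] [Algebra K Q̄]
  (M' q : ℕ) [NeZero M'] [NeZero q] (hq : q.Prime) (hM' : ¬ q ∣ M')
  [Algebra R ↥(modularFunctionFieldFullC K (M' * q))]
  [IsScalarTower R K ↥(modularFunctionFieldFullC K (M' * q))] {π : R} (hπ : Irreducible π)

/-- The Atkin–Lehner involution fixes the constants of `R`. -/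
theorem fl7_w_algebraMap (r : R) :
    al97L_w (algebraMap K Q̄) M' q hq hM'
        (algebraMap R ↥(modularFunctionFieldFullC K (M' * q)) r) =
      algebraMap R ↥(modularFunctionFieldFullC K (M' * q)) r := by
  rw [IsScalarTower.algebraMap_apply R K ↥(modularFunctionFieldFullC K (M' * q))]
  exact (al97L_w (algebraMap K Q̄) M' q hq hM').commutes _

/-- `π⁻¹ ∉ V_∞`. -/
theorem fl7_pi_inv_not_mem_Vinf :
    (algebraMap R ↥(modularFunctionFieldFullC K (M' * q)) π)⁻¹ ∉
      (cm85_Vinf (K := K) (M' * q) hπ).toSubring := by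
  rw [IsScalarTower.algebraMap_apply R K ↥(modularFunctionFieldFullC K (M' * q))]
  exact gv85_pi_inv_not_mem (IsLocalRing.residue R) π (pk85_res_iff hπ) hπ.ne_zero _ _

/-- `π⁻¹ ∉ V_0`. -/
theorem fl7_pi_inv_not_mem_V0 :
    (algebraMap R ↥(modularFunctionFieldFullC K (M' * q)) π)⁻¹ ∉
      (s34i47c_V0 (K := K) M' q hq hM' hπ).toSubring := by
  intro h
  have h' : al97L_w (algebraMap K Q̄) M' q hq hM'
      (algebraMap R ↥(modularFunctionFieldFullC K (M' * q)) π)⁻¹ ∈
        cm85_Vinf (K := K) (M' * q) hπ := h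
  rw [map_inv₀, fl7_w_algebraMap] at h'
  exact fl7_pi_inv_not_mem_Vinf M' q hπ h'

/-- The maximal ideal of `V_∞` is generated by `π`. -/
theorem fl7_hmax_Vinf (x : ↥(modularFunctionFieldFullC K (M' * q)))
    (hx : x ∈ (cm85_Vinf (K := K) (M' * q) hπ).toSubring)
    (hx' : (algebraMap R ↥(modularFunctionFieldFullC K (M' * q)) π)⁻¹ * x ∉
      (cm85_Vinf (K := K) (M' * q) hπ).toSubring) :
    x⁻¹ ∈ (cm85_Vinf (K := K) (M' * q) hπ).toSubring := by
  by_contra hinv
  apply hx'
  rw [IsScalarTower.algebraMap_apply R K ↥(modularFunctionFieldFullC K (M' * q))]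
  exact gv85_hmax (IsLocalRing.residue R) π (pk85_res_iff hπ) hπ.ne_zero _ _ x hx hinv

/-- The maximal ideal of `V_0` is generated by `π`. -/
theorem fl7_hmax_V0 (x : ↥(modularFunctionFieldFullC K (M' * q)))
    (hx : x ∈ (s34i47c_V0 (K := K) M' q hq hM' hπ).toSubring)
    (hx' : (algebraMap R ↥(modularFunctionFieldFullC K (M' * q)) π)⁻¹ * x ∉
      (s34i47c_V0 (K := K) M' q hq hM' hπ).toSubring) :
    x⁻¹ ∈ (s34i47c_V0 (K := K) M' q hq hM' hπ).toSubring := by
  have hx₁ : al97L_w (algebraMap K Q̄) M' q hq hM' x ∈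
      (cm85_Vinf (K := K) (M' * q) hπ).toSubring := hx
  have hx₂ : (algebraMap R ↥(modularFunctionFieldFullC K (M' * q)) π)⁻¹ *
      al97L_w (algebraMap K Q̄) M' q hq hM' x ∉
        (cm85_Vinf (K := K) (M' * q) hπ).toSubring := by
    intro h
    apply hx'
    show al97L_w (algebraMap K Q̄) M' q hq hM'
      ((algebraMap R ↥(modularFunctionFieldFullC K (M' * q)) π)⁻¹ * x) ∈
        cm85_Vinf (K := K) (M' * q) hπ
    rw [map_mul, map_inv₀, fl7_w_algebraMap]
    exact h
  have h3 := fl7_hmax_Vinf M' q hπ _ hx₁ hx₂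
  show al97L_w (algebraMap K Q̄) M' q hq hM' x⁻¹ ∈ cm85_Vinf (K := K) (M' * q) hπ
  rw [map_inv₀]
  exact h3

/-- **(LS) of a chart of the canonical frame from the four `sf79` Props.**  `B` is a noetherian
chart contained in `W = V_∞ ⊓ V_0` and saturated in `W`. -/
theorem fl7_locStr_of (B : Subalgebra R ↥(modularFunctionFieldFullC K (M' * q)))
    [IsNoetherianRing B]
    (hBW : ∀ x ∈ B, x ∈ s34i47c_W (K := K) M' q hq hM' hπ)
    (hsatW : ∀ x ∈ B, (algebraMap R ↥(modularFunctionFieldFullC K (M' * q)) π)⁻¹ * x ∈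
        s34i47c_W (K := K) M' q hq hM' hπ →
      (algebraMap R ↥(modularFunctionFieldFullC K (M' * q)) π)⁻¹ * x ∈ B)
    (hS₁ : sf79_Smooth π B (cm85_Vinf (K := K) (M' * q) hπ).toSubring)
    (hS₂ : sf79_Smooth π B (s34i47c_V0 (K := K) M' q hq hM' hπ).toSubring)
    (hT : sf79_Transv π B (cm85_Vinf (K := K) (M' * q) hπ).toSubring
      (s34i47c_V0 (K := K) M' q hq hM' hπ).toSubring)
    (hUV : sf79_UVAt π B (cm85_Vinf (K := K) (M' * q) hπ).toSubring
      (s34i47c_V0 (K := K) M' q hq hM' hπ).toSubring) :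
    s34i47_LocStr π B :=
  sf79_locStr π B (cm85_Vinf (K := K) (M' * q) hπ).toSubring
    (s34i47c_V0 (K := K) M' q hq hM' hπ).toSubring
    (fun x hx => ((s34i47c_mem_W M' q hq hM' hπ x).mp (hBW x hx)).1)
    (fun x hx => ((s34i47c_mem_W M' q hq hM' hπ x).mp (hBW x hx)).2)
    (fl7_pi_inv_not_mem_Vinf M' q hπ) (fl7_pi_inv_not_mem_V0 M' q hq hM' hπ)
    (fl7_hmax_Vinf M' q hπ) (fl7_hmax_V0 M' q hq hM' hπ)
    (fun x hx h1 h2 => hsatW x hx ((s34i47c_mem_W M' q hq hM' hπ _).mpr ⟨h1, h2⟩))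
    hS₁ hS₂ hT hUV

end fl7_canon

/-- **(3a) for the `∞`-branch** at level `M' * q` (export of row 488), binder block of
`s34i47c_FrameLS`: both affine charts of every admissible Hauptmodul. -/
def fl7_SmoothInf (M' q : ℕ) [NeZero M'] [NeZero q] : Prop :=
  ∀ (R K : Type) [CommRing R] [IsDomain R] [IsDiscreteValuationRing R] [Field K] [NumberField K]
    [Algebra K Q̄] [Algebra R K] [IsFractionRing R K]
    [Algebra R ↥(modularFunctionFieldFullC K (M' * q))]
    [IsScalarTower R K ↥(modularFunctionFieldFullC K (M' * q))] (π : R) (hπ : Irreducible π),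
    (∀ n : ℕ, Nat.Coprime n q → IsUnit (n : R)) → ¬ IsUnit (q : R) →
    ∀ h : ↥(modularFunctionFieldFullC K (M' * q)), s34i47c_IsHaupt K (M' * q) q h →
      sf79_Smooth π (pk15_chart R ({h} : Set ↥(modularFunctionFieldFullC K (M' * q))))
        (cm85_Vinf (K := K) (M' * q) hπ).toSubring ∧
      sf79_Smooth π (pk15_chart R ({h⁻¹} : Set ↥(modularFunctionFieldFullC K (M' * q))))
        (cm85_Vinf (K := K) (M' * q) hπ).toSubring

/-- **(3b) transversality** at level `M' * q` (export of row 490), binder block of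
`s34i47c_FrameLS`: both affine charts of every admissible Hauptmodul. -/
def fl7_Transv (M' q : ℕ) [NeZero M'] [NeZero q] (hq : q.Prime) (hM' : ¬ q ∣ M') : Prop :=
  ∀ (R K : Type) [CommRing R] [IsDomain R] [IsDiscreteValuationRing R] [Field K] [NumberField K]
    [Algebra K Q̄] [Algebra R K] [IsFractionRing R K]
    [Algebra R ↥(modularFunctionFieldFullC K (M' * q))]
    [IsScalarTower R K ↥(modularFunctionFieldFullC K (M' * q))] (π : R) (hπ : Irreducible π),
    (∀ n : ℕ, Nat.Coprime n q → IsUnit (n : R)) → ¬ IsUnit (q : R) →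
    ∀ h : ↥(modularFunctionFieldFullC K (M' * q)), s34i47c_IsHaupt K (M' * q) q h →
      sf79_Transv π (pk15_chart R ({h} : Set ↥(modularFunctionFieldFullC K (M' * q))))
        (cm85_Vinf (K := K) (M' * q) hπ).toSubring
        (s34i47c_V0 (K := K) M' q hq hM' hπ).toSubring ∧
      sf79_Transv π (pk15_chart R ({h⁻¹} : Set ↥(modularFunctionFieldFullC K (M' * q))))
        (cm85_Vinf (K := K) (M' * q) hπ).toSubring
        (s34i47c_V0 (K := K) M' q hq hM' hπ).toSubring

/-- **(3b) transversality, weak form**: as `fl7_Transv`, but for each chart the producer may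
assume the smoothness of both branches of that chart. -/
def fl7_TransvOf (M' q : ℕ) [NeZero M'] [NeZero q] (hq : q.Prime) (hM' : ¬ q ∣ M') : Prop :=
  ∀ (R K : Type) [CommRing R] [IsDomain R] [IsDiscreteValuationRing R] [Field K] [NumberField K]
    [Algebra K Q̄] [Algebra R K] [IsFractionRing R K]
    [Algebra R ↥(modularFunctionFieldFullC K (M' * q))]
    [IsScalarTower R K ↥(modularFunctionFieldFullC K (M' * q))] (π : R) (hπ : Irreducible π),
    (∀ n : ℕ, Nat.Coprime n q → IsUnit (n : R)) → ¬ IsUnit (q : R) →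
    ∀ h : ↥(modularFunctionFieldFullC K (M' * q)), s34i47c_IsHaupt K (M' * q) q h →
      (sf79_Smooth π (pk15_chart R ({h} : Set ↥(modularFunctionFieldFullC K (M' * q))))
          (cm85_Vinf (K := K) (M' * q) hπ).toSubring →
        sf79_Smooth π (pk15_chart R ({h} : Set ↥(modularFunctionFieldFullC K (M' * q))))
          (s34i47c_V0 (K := K) M' q hq hM' hπ).toSubring →
        sf79_Transv π (pk15_chart R ({h} : Set ↥(modularFunctionFieldFullC K (M' * q))))
          (cm85_Vinf (K := K) (M' * q) hπ).toSubring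
          (s34i47c_V0 (K := K) M' q hq hM' hπ).toSubring) ∧
      (sf79_Smooth π (pk15_chart R ({h⁻¹} : Set ↥(modularFunctionFieldFullC K (M' * q))))
          (cm85_Vinf (K := K) (M' * q) hπ).toSubring →
        sf79_Smooth π (pk15_chart R ({h⁻¹} : Set ↥(modularFunctionFieldFullC K (M' * q))))
          (s34i47c_V0 (K := K) M' q hq hM' hπ).toSubring →
        sf79_Transv π (pk15_chart R ({h⁻¹} : Set ↥(modularFunctionFieldFullC K (M' * q))))
          (cm85_Vinf (K := K) (M' * q) hπ).toSubring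
          (s34i47c_V0 (K := K) M' q hq hM' hπ).toSubring)

/-- `fl7_Transv` implies its weak form. -/
theorem fl7_transvOf_of_transv (M' q : ℕ) [NeZero M'] [NeZero q] (hq : q.Prime) (hM' : ¬ q ∣ M')
    (hT : fl7_Transv M' q hq hM') : fl7_TransvOf M' q hq hM' := by
  intro R K _ _ _ _ _ _ _ _ _ _ π hπ hunit hqR h hh
  obtain ⟨h1, h2⟩ := hT R K π hπ hunit hqR h hh
  exact ⟨fun _ _ => h1, fun _ _ => h2⟩

/-- **FRAME-LS at level `M' * q`** from (3a) for the `∞`-branch and (3b) (weak form). -/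
theorem fl7_frameLS' (M' q : ℕ) [NeZero M'] [NeZero q] (hq : q.Prime) (hM' : ¬ q ∣ M')
    (hSm : fl7_SmoothInf M' q) (hTr : fl7_TransvOf M' q hq hM') : s34i47c_FrameLS M' q := by
  intro R K _ _ _ _ _ _ _ _ _ _ π hπ hunit hqR h hh
  obtain ⟨-, hCall⟩ := fs85_frameSat M' q hq hM' R K π hπ hunit hqR
  obtain ⟨-, h12W, hsat₁, hsat₂, -, hN₁, hN₂, -, -⟩ := hCall h hh
  have h112 : pk15_chart R ({h} : Set ↥(modularFunctionFieldFullC K (M' * q))) ≤
      pk15_chart R ({h, h⁻¹} : Set ↥(modularFunctionFieldFullC K (M' * q))) :=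
    pk15_chart_mono (by simp)
  have h212 : pk15_chart R ({h⁻¹} : Set ↥(modularFunctionFieldFullC K (M' * q))) ≤
      pk15_chart R ({h, h⁻¹} : Set ↥(modularFunctionFieldFullC K (M' * q))) :=
    pk15_chart_mono (by simp)
  obtain ⟨hS₁, hS₁'⟩ := hSm R K π hπ hunit hqR h hh
  obtain ⟨hz, hz'⟩ := bz13_smooth_V0 (R := R) (K := K) M' q hq hM' hπ hunit h hh
  have hS₂ := hz hS₁
  have hS₂' := hz' hS₁'
  obtain ⟨hT, hT'⟩ := hTr R K π hπ hunit hqR h hh
  obtain ⟨hUV, hUV'⟩ := uvf22_UVAt (R := R) (K := K) M' q hq hM' hπ hunit hqR h hh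
  exact ⟨fl7_locStr_of M' q hq hM' hπ _ (fun x hx => h12W x (h112 hx)) hsat₁ hS₁ hS₂
      (hT hS₁ hS₂) hUV,
    fl7_locStr_of M' q hq hM' hπ _ (fun x hx => h12W x (h212 hx)) hsat₂ hS₁' hS₂'
      (hT' hS₁' hS₂') hUV'⟩

/-- **FRAME-LS at level `M' * q`** from (3a) for the `∞`-branch and (3b). -/
theorem fl7_frameLS (M' q : ℕ) [NeZero M'] [NeZero q] (hq : q.Prime) (hM' : ¬ q ∣ M')
    (hSm : fl7_SmoothInf M' q) (hTr : fl7_Transv M' q hq hM') : s34i47c_FrameLS M' q :=
  fl7_frameLS' M' q hq hM' hSm (fl7_transvOf_of_transv M' q hq hM' hTr)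

/-- Package statement: (3a) for the `∞`-branch at every level. -/
def fl7_Pkg_SmoothInf : Prop :=
  ∀ (M' q : ℕ) [NeZero M'] [NeZero q], q.Prime → ¬ q ∣ M' → fl7_SmoothInf M' q

/-- Package statement: (3b) at every level. -/
def fl7_Pkg_Transv : Prop :=
  ∀ (M' q : ℕ) [NeZero M'] [NeZero q] (hq : q.Prime) (hM' : ¬ q ∣ M'), fl7_Transv M' q hq hM'

/-- Package statement: (3b), weak form, at every level. -/
def fl7_Pkg_TransvOf : Prop :=
  ∀ (M' q : ℕ) [NeZero M'] [NeZero q] (hq : q.Prime) (hM' : ¬ q ∣ M'), fl7_TransvOf M' q hq hM'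

/-- **The package FRAME-LS** of `Iface47c` from (3a) for the `∞`-branch and (3b). -/
theorem fl7_pkg_frameLS (hSm : fl7_Pkg_SmoothInf) (hTr : fl7_Pkg_Transv) :
    s34i47c_Pkg_FrameLS :=
  fun M' q _ _ hq hM' => fl7_frameLS M' q hq hM' (hSm M' q hq hM') (hTr M' q hq hM')

/-- **The package FRAME-LS** of `Iface47c` from (3a) for the `∞`-branch and (3b), weak form. -/
theorem fl7_pkg_frameLS' (hSm : fl7_Pkg_SmoothInf) (hTr : fl7_Pkg_TransvOf) :
    s34i47c_Pkg_FrameLS :=
  fun M' q _ _ hq hM' => fl7_frameLS' M' q hq hM' (hSm M' q hq hM') (hTr M' q hq hM')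

end Fermat.Agent.S34
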