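import Mathlib
import Fermat.Agent.S34.SpecFibre79
import Fermat.Agent.S34.Iface47c
import Fermat.Agent.S34.BranchZero7
import Fermat.Agent.S34.HauptIntInst95

/-!
# S34 lab (helper63): the `0`-branch from the `∞`-branch, in the literal shapes of `SpecFibre79`

* `sz63_smooth_comap` (abstract, Mathlib + `SpecFibre79` + `BranchZero7`): for an automorphism `w`
  of `F` over `R` with `w(B) = B`:  `sf79_Smooth π B V → sf79_Smooth π B (V.comap w)`
  (also `sz63_onBr_comap`, `sz63_unif_comap` pointwise).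
* `sz63_w_haupt`, `sz63_chart_stable`: on the canonical frame data of `Iface47c`
  (`w = al97L_w`, level `M' * q`), `w h` has the expansion `h(Q^q)` and the three charts
  `pk15_chart R {h}`, `{h⁻¹}`, `{h, h⁻¹}` of an admissible Hauptmodul are `w`-stable
  (`hi95_beta_two/three` + `bz7_charts_stable`).
* `sz63_smooth_V0`: **row 489 from row 488**, literally:
  `sf79_Smooth π B V_∞ → sf79_Smooth π B V_0` for `B = pk15_chart R {h}` and `pk15_chart R {h⁻¹}`,
  `V_∞ = (cm85_Vinf (M' * q) hπ).toSubring`, `V_0 = (s34i47c_V0 M' q hq hM' hπ).toSubring`.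
-/

set_option autoImplicit false
set_option linter.unusedSectionVars false

open ModularCurve

namespace Fermat.Agent.S34

open Fermat.Agent.S18 Fermat.Agent.S28

local notation "Q̄" => AlgebraicClosure ℚ

section abstract

variable {R F : Type*} [CommRing R] [Field F] [Algebra R F]

/-- Transport of "the branch lies in `n`" along an automorphism stabilising the chart. -/
theorem sz63_onBr_comap (π : R) (B : Subalgebra R F) (V : Subring F) (w : F ≃+* F)
    (hw : ∀ r : R, w (algebraMap R F r) = algebraMap R F r) (hwB : ∀ z : F, w z ∈ B ↔ z ∈ B)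
    (n : Ideal B) (h : sf79_OnBr π B (V.comap (w : F →+* F)) n) :
    sf79_OnBr π B V (n.comap (((bz7_res B w hwB).symm : ↥B ≃+* ↥B) : ↥B →+* ↥B)) := by
  intro y hy
  rw [Ideal.mem_comap, RingEquiv.coe_toRingHom]
  apply h
  rw [Subring.mem_comap, RingEquiv.coe_toRingHom, map_mul, map_inv₀, hw, bz7_res_symm_coe,
    RingEquiv.apply_symm_apply]
  exact hy

/-- Transport of a local coordinate of the branch along an automorphism stabilising the chart. -/
theorem sz63_unif_comap (π : R) (B : Subalgebra R F) (V : Subring F) (w : F ≃+* F)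
    (hw : ∀ r : R, w (algebraMap R F r) = algebraMap R F r) (hwB : ∀ z : F, w z ∈ B ↔ z ∈ B)
    (n : Ideal B) (z' : B)
    (h : sf79_Unif π B V (n.comap (((bz7_res B w hwB).symm : ↥B ≃+* ↥B) : ↥B →+* ↥B)) z') :
    sf79_Unif π B (V.comap (w : F →+* F)) n ((bz7_res B w hwB).symm z') := by
  obtain ⟨hz', hunif⟩ := h
  refine ⟨hz', fun x hx => ?_⟩
  have hx' : bz7_res B w hwB x ∈
      n.comap (((bz7_res B w hwB).symm : ↥B ≃+* ↥B) : ↥B →+* ↥B) := by
    rw [Ideal.mem_comap, RingEquiv.coe_toRingHom, RingEquiv.symm_apply_apply]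
    exact hx
  obtain ⟨s', hs', a', ha'⟩ := hunif _ hx'
  refine ⟨(bz7_res B w hwB).symm s', hs', (bz7_res B w hwB).symm a', ?_⟩
  rw [Subring.mem_comap, RingEquiv.coe_toRingHom, map_mul, map_inv₀, hw, map_sub, map_mul,
    map_mul, bz7_res_symm_coe, bz7_res_symm_coe, bz7_res_symm_coe, RingEquiv.apply_symm_apply,
    RingEquiv.apply_symm_apply, RingEquiv.apply_symm_apply]
  exact ha'

/-- **Transport of (3a)**: if every closed point of the branch `V` of the chart `B` has a local
coordinate, so has every closed point of the branch `V.comap w`, for an automorphism `w` of `F`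
over `R` with `w(B) = B`. -/
theorem sz63_smooth_comap (π : R) (B : Subalgebra R F) (V : Subring F) (w : F ≃+* F)
    (hw : ∀ r : R, w (algebraMap R F r) = algebraMap R F r) (hwB : ∀ z : F, w z ∈ B ↔ z ∈ B)
    (h : sf79_Smooth π B V) : sf79_Smooth π B (V.comap (w : F →+* F)) := by
  intro n hn hπn hbr
  have hn' : (n.comap (((bz7_res B w hwB).symm : ↥B ≃+* ↥B) : ↥B →+* ↥B)).IsMaximal :=
    Ideal.comap_isMaximal_of_surjective _ (bz7_res B w hwB).symm.surjective
  have hπn' : algebraMap R B π ∈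
      n.comap (((bz7_res B w hwB).symm : ↥B ≃+* ↥B) : ↥B →+* ↥B) := by
    rw [Ideal.mem_comap, RingEquiv.coe_toRingHom, bz7_res_symm_algebraMap B w hwB hw]
    exact hπn
  obtain ⟨z', hz'⟩ := h _ hn' hπn' (sz63_onBr_comap π B V w hw hwB n hbr)
  exact ⟨_, sz63_unif_comap π B V w hw hwB n z' hz'⟩

end abstract

section canonical

variable {R K : Type} [CommRing R] [IsDomain R] [IsDiscreteValuationRing R] [Field K]
  [CharZero K] [Algebra R K] [IsFractionRing R K] [Algebra K Q̄]
  (M' q : ℕ) [NeZero M'] [NeZero q] (hq : q.Prime) (hM' : ¬ q ∣ M')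

/-- The Atkin–Lehner involution maps the level-2 Hauptmodul `h` to `h(Q^q)`. -/
theorem sz63_w_haupt2 (h2 : 2 ∣ M' * q) (hq2 : q ≠ 2) :
    ((al97L_w (algebraMap K Q̄) M' q hq hM' (pk85_h2 K (M' * q) h2) :
      ↥(modularFunctionFieldFullC K (M' * q))) : LaurentSeries K) = qE K q (h70_h2 K) := by
  have h2' : 2 ∣ M' := by
    rcases (Nat.Prime.dvd_mul Nat.prime_two).mp h2 with h | h
    · exact h
    · exact absurd ((Nat.prime_dvd_prime_iff_eq Nat.prime_two hq).mp h).symm hq2
  rw [al97L_w_alpha (algebraMap K Q̄) M' q hq hM' (pk85_h2 K M' h2') (pk85_h2 K (M' * q) h2)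
    (by rw [pk85_h2_coe, pk85_h2_coe]), pk85_h2_coe, qE_of_neZero]

/-- The Atkin–Lehner involution maps the level-3 Hauptmodul `h` to `h(Q^q)`. -/
theorem sz63_w_haupt3 (h3 : 3 ∣ M' * q) (hq3 : q ≠ 3) :
    ((al97L_w (algebraMap K Q̄) M' q hq hM' (pk85_h3 K (M' * q) h3) :
      ↥(modularFunctionFieldFullC K (M' * q))) : LaurentSeries K) = qE K q (h34_h3R K) := by
  have h3' : 3 ∣ M' := by
    rcases (Nat.Prime.dvd_mul Nat.prime_three).mp h3 with h | h
    · exact h
    · exact absurd ((Nat.prime_dvd_prime_iff_eq Nat.prime_three hq).mp h).symm hq3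
  rw [al97L_w_alpha (algebraMap K Q̄) M' q hq hM' (pk85_h3 K M' h3') (pk85_h3 K (M' * q) h3)
    (by rw [pk85_h3_coe, pk85_h3_coe]), pk85_h3_coe, qE_of_neZero]

variable [Algebra R ↥(modularFunctionFieldFullC K (M' * q))]
  [IsScalarTower R K ↥(modularFunctionFieldFullC K (M' * q))]

/-- The Atkin–Lehner involution of `F_K(M' q)` as a ring automorphism. -/
noncomputable def sz63_w :
    ↥(modularFunctionFieldFullC K (M' * q)) ≃+* ↥(modularFunctionFieldFullC K (M' * q)) :=
  (al97L_w (algebraMap K Q̄) M' q hq hM').toRingEquiv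

theorem sz63_w_apply (x : ↥(modularFunctionFieldFullC K (M' * q))) :
    sz63_w M' q hq hM' x = al97L_w (algebraMap K Q̄) M' q hq hM' x := rfl

theorem sz63_w_symm_apply (x : ↥(modularFunctionFieldFullC K (M' * q))) :
    (sz63_w (K := K) M' q hq hM').symm x = al97L_w (algebraMap K Q̄) M' q hq hM' x := by
  rw [RingEquiv.symm_apply_eq, sz63_w_apply, al97L_w_w]

theorem sz63_w_algebraMap (r : R) :
    sz63_w (K := K) M' q hq hM' (algebraMap R ↥(modularFunctionFieldFullC K (M' * q)) r) =
      algebraMap R ↥(modularFunctionFieldFullC K (M' * q)) r := by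
  rw [sz63_w_apply, IsScalarTower.algebraMap_apply R K ↥(modularFunctionFieldFullC K (M' * q)),
    AlgEquiv.commutes]

/-- **The charts of an admissible Hauptmodul are stable under the Atkin–Lehner involution.** -/
theorem sz63_chart_stable (hunit : ∀ n : ℕ, Nat.Coprime n q → IsUnit (n : R))
    (hqR : ¬ IsUnit (q : R)) (h : ↥(modularFunctionFieldFullC K (M' * q)))
    (hh : s34i47c_IsHaupt K (M' * q) q h) :
    (∀ z : ↥(modularFunctionFieldFullC K (M' * q)),
      sz63_w M' q hq hM' z ∈ pk15_chart R ({h} : Set ↥(modularFunctionFieldFullC K (M' * q))) ↔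
        z ∈ pk15_chart R ({h} : Set ↥(modularFunctionFieldFullC K (M' * q)))) ∧
    (∀ z : ↥(modularFunctionFieldFullC K (M' * q)),
      sz63_w M' q hq hM' z ∈ pk15_chart R ({h⁻¹} : Set ↥(modularFunctionFieldFullC K (M' * q))) ↔
        z ∈ pk15_chart R ({h⁻¹} : Set ↥(modularFunctionFieldFullC K (M' * q)))) ∧
    (∀ z : ↥(modularFunctionFieldFullC K (M' * q)),
      sz63_w M' q hq hM' z ∈
          pk15_chart R ({h, h⁻¹} : Set ↥(modularFunctionFieldFullC K (M' * q))) ↔
        z ∈ pk15_chart R ({h, h⁻¹} : Set ↥(modularFunctionFieldFullC K (M' * q)))) := by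
  have key : sz63_w M' q hq hM' h ∈
        pk15_chart R ({h} : Set ↥(modularFunctionFieldFullC K (M' * q))) ∧
      (sz63_w M' q hq hM' h)⁻¹ ∈
        pk15_chart R ({h⁻¹} : Set ↥(modularFunctionFieldFullC K (M' * q))) := by
    rcases hh with ⟨hq2, h2, rfl⟩ | ⟨hq3, h3, rfl⟩
    · have h2' : 2 ∣ M' := by
        rcases (Nat.Prime.dvd_mul Nat.prime_two).mp h2 with h | h
        · exact h
        · exact absurd ((Nat.prime_dvd_prime_iff_eq Nat.prime_two hq).mp h).symm hq2
      have h2q : 2 * q ∣ M' * q := Nat.mul_dvd_mul_right h2' q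
      have h2R : IsUnit ((2 : ℕ) : R) :=
        hunit 2 ((Nat.coprime_primes Nat.prime_two hq).mpr (Ne.symm hq2))
      exact hi95_beta_two R K (M' * q) q hq hq2 h2q h2R hqR _ _ (pk85_h2_coe K (M' * q) h2)
        (sz63_w_haupt2 M' q hq hM' h2 hq2)
    · have h3' : 3 ∣ M' := by
        rcases (Nat.Prime.dvd_mul Nat.prime_three).mp h3 with h | h
        · exact h
        · exact absurd ((Nat.prime_dvd_prime_iff_eq Nat.prime_three hq).mp h).symm hq3
      have h3q : 3 * q ∣ M' * q := Nat.mul_dvd_mul_right h3' q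
      have h3R : IsUnit ((3 : ℕ) : R) :=
        hunit 3 ((Nat.coprime_primes Nat.prime_three hq).mpr (Ne.symm hq3))
      exact hi95_beta_three R K (M' * q) q hq hq3 h3q h3R hqR _ _ (pk85_h3_coe K (M' * q) h3)
        (sz63_w_haupt3 M' q hq hM' h3 hq3)
  have ksymm : (sz63_w (K := K) M' q hq hM').symm h = sz63_w M' q hq hM' h := by
    rw [sz63_w_symm_apply, sz63_w_apply]
  exact bz7_charts_stable (sz63_w M' q hq hM') (sz63_w_algebraMap M' q hq hM') h key.1 key.2
    (by rw [ksymm]; exact key.1) (by rw [ksymm]; exact key.2)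

variable {π : R} (hπ : Irreducible π)

/-- `V_0` is the `w`-preimage of `V_∞`, as subrings. -/
theorem sz63_V0_eq :
    (s34i47c_V0 (K := K) M' q hq hM' hπ).toSubring =
      (cm85_Vinf (K := K) (M' * q) hπ).toSubring.comap
        ((sz63_w (K := K) M' q hq hM' :
          ↥(modularFunctionFieldFullC K (M' * q)) ≃+* ↥(modularFunctionFieldFullC K (M' * q))) :
          ↥(modularFunctionFieldFullC K (M' * q)) →+* ↥(modularFunctionFieldFullC K (M' * q))) :=
  rfl

/-- **Row 489 from row 488** on the canonical frame data: the `0`-branch of each of the two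
affine charts is smooth as soon as its `∞`-branch is. -/
theorem sz63_smooth_V0 (hunit : ∀ n : ℕ, Nat.Coprime n q → IsUnit (n : R))
    (hqR : ¬ IsUnit (q : R)) (h : ↥(modularFunctionFieldFullC K (M' * q)))
    (hh : s34i47c_IsHaupt K (M' * q) q h) :
    (sf79_Smooth π (pk15_chart R ({h} : Set ↥(modularFunctionFieldFullC K (M' * q))))
        (cm85_Vinf (K := K) (M' * q) hπ).toSubring →
      sf79_Smooth π (pk15_chart R ({h} : Set ↥(modularFunctionFieldFullC K (M' * q))))
        (s34i47c_V0 (K := K) M' q hq hM' hπ).toSubring) ∧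
    (sf79_Smooth π (pk15_chart R ({h⁻¹} : Set ↥(modularFunctionFieldFullC K (M' * q))))
        (cm85_Vinf (K := K) (M' * q) hπ).toSubring →
      sf79_Smooth π (pk15_chart R ({h⁻¹} : Set ↥(modularFunctionFieldFullC K (M' * q))))
        (s34i47c_V0 (K := K) M' q hq hM' hπ).toSubring) := by
  obtain ⟨s1, s2, -⟩ := sz63_chart_stable M' q hq hM' hunit hqR h hh
  rw [sz63_V0_eq]
  exact ⟨sz63_smooth_comap π _ _ _ (sz63_w_algebraMap M' q hq hM') s1,
    sz63_smooth_comap π _ _ _ (sz63_w_algebraMap M' q hq hM') s2⟩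

end canonical

end Fermat.Agent.S34
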