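import Mathlib
import Fermat.Agent.S34.Iface47c
import Fermat.Agent.S34.SpecFibre79
import Fermat.Agent.S34.SpecFibreInf79
import Fermat.Agent.S34.FrameSat85
import Fermat.Agent.S34.BranchInf93
import Fermat.Agent.S34.ResDeg90
import Fermat.Agent.S34.SmoothZero63
import Fermat.Agent.S34.TransvChart50
import Fermat.Agent.S34.FrobInsepDVR50
import Fermat.Agent.S34.UVAtFrame22
import Fermat.Agent.S34.AtkinLehnerCanon97

/-!
# S34 lab (helper77): the package FRAME-LS of `Iface47c`, assembled from the instance files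

`fls77_pkg_frameLS : s34i47c_Pkg_FrameLS` — the local structure `(LS)` of the two affine charts
of every admissible Hauptmodul at level `M' * q`, on the canonical frame data
(`V_∞ = cm85_Vinf`, `V_0 = s34i47c_V0`).

Assembly (nothing new is proved here; every input is a landed lab file):

* `sf79_locStr` (helper79, SpecFibre79): `Smooth V_∞` + `Smooth V_0` + `Transv` + `UVAt` ⟹ `(LS)`;
* `Smooth V_∞` : `bi93_level2/3` (helper93, BranchInf93) with `rd90_F1` (helper90, ResDeg90);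
* `Smooth V_0` : `sz63_smooth_V0` (helper63, SmoothZero63);
* `Transv`     : `tr50_transv` + `tr50_hins` + `tr50_frac_of_sat` (helper50, TransvChart50) with
  `bi93_Surj`, `ins50_frob_Vzero` (helper50, FrobInsepDVR50), the `w`-stability of the charts
  `sz63_chart_stable` and the level-`M'` facts `cm85_facts_level2/3`, `cm15_base_sat_level2/3`,
  `wi18_arch`;
* `UVAt`       : `uvf22_UVAt` (helper22, UVAtFrame22);
* chart facts  : `fs85_frameSat` (helper85, FrameSat85), `al97C_*` (helper97).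

All names are prefixed `fls77_`.
-/

set_option autoImplicit false
set_option linter.unusedSectionVars false
set_option linter.style.haveILetI false

open ModularCurve AlgebraicCurve IntermediateField

namespace Fermat.Agent.S34

open Fermat.Agent.S18 Fermat.Agent.S24 Fermat.Agent.S37

local notation "Q̄" => AlgebraicClosure ℚ

section fls77

variable {R K : Type} [CommRing R] [IsDomain R] [IsDiscreteValuationRing R] [Field K] [CharZero K]
  [Algebra R K] [IsFractionRing R K] [Algebra K Q̄] (M' q : ℕ) [NeZero M'] [NeZero q]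
  [Algebra R ↥(modularFunctionFieldFullC K M')]
  [IsScalarTower R K ↥(modularFunctionFieldFullC K M')]
  [Algebra R ↥(modularFunctionFieldFullC K (M' * q))]
  [IsScalarTower R K ↥(modularFunctionFieldFullC K (M' * q))]

/-- **(LS) for one chart** `B = pk15_chart R s` of level `M' * q` lying over the chart
`B' = pk15_chart R s'` of the good level `M'`. -/
theorem fls77_chart (hq : q.Prime) (hM' : ¬ q ∣ M') {π : R} (hπ : Irreducible π)
    (hchar : (q : IsLocalRing.ResidueField R) = 0)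
    (hperf : ∀ c : IsLocalRing.ResidueField R, ∃ d : IsLocalRing.ResidueField R, d ^ q = c)
    (s' : Set ↥(modularFunctionFieldFullC K M'))
    (s : Set ↥(modularFunctionFieldFullC K (M' * q)))
    -- the good level
    (hs'V : ∀ g ∈ s', g ∈ cm85_Vinf (K := K) M' hπ)
    (hsat' : cm15_Sat R π s' (cm85_Vinf (K := K) M' hπ).toSubring)
    (hfrac' : ∀ x : ↥(modularFunctionFieldFullC K M'),
      ∃ a ∈ pk15_chart R s', ∃ b ∈ pk15_chart R s', b ≠ 0 ∧ x * b = a)
    -- the level `M' * q`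
    (hSurj : bi93_Surj M' (M' * q) (dvd_mul_right M' q) hπ s' s)
    (hUnif : bi93_Unif M' (M' * q) (dvd_mul_right M' q) hπ s' s)
    (hαB : ∀ x ∈ pk15_chart R s', al97L_alpha K M' q x ∈ pk15_chart R s)
    (hβB : ∀ x ∈ pk15_chart R s', al97L_beta K M' q x ∈ pk15_chart R s)
    (hN : IsNoetherianRing (pk15_chart R s))
    (hBW : ∀ x ∈ pk15_chart R s, x ∈ s34i47c_W (K := K) M' q hq hM' hπ)
    (hsat : ∀ x ∈ pk15_chart R s,
      (algebraMap R ↥(modularFunctionFieldFullC K (M' * q)) π)⁻¹ * x ∈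
        s34i47c_W (K := K) M' q hq hM' hπ →
      (algebraMap R ↥(modularFunctionFieldFullC K (M' * q)) π)⁻¹ * x ∈ pk15_chart R s)
    (hS0 : sf79_Smooth π (pk15_chart R s) (cm85_Vinf (K := K) (M' * q) hπ).toSubring →
      sf79_Smooth π (pk15_chart R s) (s34i47c_V0 (K := K) M' q hq hM' hπ).toSubring)
    (hUV : sf79_UVAt π (pk15_chart R s) (cm85_Vinf (K := K) (M' * q) hπ).toSubring
      (s34i47c_V0 (K := K) M' q hq hM' hπ).toSubring) :
    s34i47_LocStr π (pk15_chart R s) := by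
  haveI := hN
  have hB₁ : ∀ x ∈ pk15_chart R s, x ∈ (cm85_Vinf (K := K) (M' * q) hπ).toSubring :=
    fun x hx => ((s34i47c_mem_W M' q hq hM' hπ x).mp (hBW x hx)).1
  have hB₂ : ∀ x ∈ pk15_chart R s, x ∈ (s34i47c_V0 (K := K) M' q hq hM' hπ).toSubring :=
    fun x hx => ((s34i47c_mem_W M' q hq hM' hπ x).mp (hBW x hx)).2
  have hπ₁ : (algebraMap R ↥(modularFunctionFieldFullC K (M' * q)) π)⁻¹ ∉
      (cm85_Vinf (K := K) (M' * q) hπ).toSubring := al97C_pi_inv_not_mem_Vinf M' q hπ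
  have hπ₂ : (algebraMap R ↥(modularFunctionFieldFullC K (M' * q)) π)⁻¹ ∉
      (s34i47c_V0 (K := K) M' q hq hM' hπ).toSubring := al97C_pi_inv_not_mem_V0 M' q hq hM' hπ
  have hV₁ : ∀ x ∈ (cm85_Vinf (K := K) (M' * q) hπ).toSubring,
      (algebraMap R ↥(modularFunctionFieldFullC K (M' * q)) π)⁻¹ * x ∉
        (cm85_Vinf (K := K) (M' * q) hπ).toSubring →
      x⁻¹ ∈ (cm85_Vinf (K := K) (M' * q) hπ).toSubring := by
    intro x hx hnot
    by_contra hinv
    exact hnot (c1g55_hmax hπ x hx hinv)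
  have hV₂ : ∀ x ∈ (s34i47c_V0 (K := K) M' q hq hM' hπ).toSubring,
      (algebraMap R ↥(modularFunctionFieldFullC K (M' * q)) π)⁻¹ * x ∉
        (s34i47c_V0 (K := K) M' q hq hM' hπ).toSubring →
      x⁻¹ ∈ (s34i47c_V0 (K := K) M' q hq hM' hπ).toSubring := by
    intro x hx hnot
    by_contra hinv
    exact hnot (al97C_hmax_V0 M' q hq hM' hπ x hx hinv)
  have hsatB : ∀ x ∈ pk15_chart R s,
      (algebraMap R ↥(modularFunctionFieldFullC K (M' * q)) π)⁻¹ * x ∈
        (cm85_Vinf (K := K) (M' * q) hπ).toSubring →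
      (algebraMap R ↥(modularFunctionFieldFullC K (M' * q)) π)⁻¹ * x ∈
        (s34i47c_V0 (K := K) M' q hq hM' hπ).toSubring →
      (algebraMap R ↥(modularFunctionFieldFullC K (M' * q)) π)⁻¹ * x ∈ pk15_chart R s :=
    fun x hx h1 h2 => hsat x hx ((s34i47c_mem_W M' q hq hM' hπ _).mpr ⟨h1, h2⟩)
  -- (3a) on the `∞`-branch
  have hS₁ : sf79_Smooth π (pk15_chart R s) (cm85_Vinf (K := K) (M' * q) hπ).toSubring := by
    intro n hn _ h1
    obtain ⟨z', -, z, hz, -, hu⟩ := hUnif n hn.isPrime h1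
    exact ⟨z, hz, hu⟩
  -- (3a) on the `0`-branch
  have hS₂ := hS0 hS₁
  -- the good level: `V'` is the localisation of `B'`
  have hB'V' : ∀ x ∈ (pk15_chart R s').toSubring, x ∈ (cm85_Vinf (K := K) M' hπ).toSubring :=
    pk15_chart_le_V (cm85_Vinf (K := K) M' hπ) (fun r => c1g55_algebraMap_mem hπ r) s' hs'V
  have hfracV : ∀ x ∈ (cm85_Vinf (K := K) M' hπ).toSubring,
      ∃ a ∈ (pk15_chart R s').toSubring, ∃ c ∈ (pk15_chart R s').toSubring,
        c⁻¹ ∈ (cm85_Vinf (K := K) M' hπ).toSubring ∧ c ≠ 0 ∧ c * x = a :=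
    tr50_frac_of_sat (algebraMap R ↥(modularFunctionFieldFullC K M') π)
      (pk15_chart R s').toSubring (cm85_Vinf (K := K) M' hπ).toSubring hB'V'
      (fun x hx hx' => c1g55_hmax hπ x hx hx') hsat'
      (fun x hx => wi18_arch M' hπ x hx) hfrac'
  -- (3b)
  have hins := tr50_hins π (pk15_chart R s) (cm85_Vinf (K := K) (M' * q) hπ).toSubring
    (s34i47c_V0 (K := K) M' q hq hM' hπ).toSubring hB₂ hπ₂
    (al97L_alpha K M' q : ↥(modularFunctionFieldFullC K M') →+*
      ↥(modularFunctionFieldFullC K (M' * q)))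
    (al97L_beta K M' q : ↥(modularFunctionFieldFullC K M') →+*
      ↥(modularFunctionFieldFullC K (M' * q)))
    (pk15_chart R s').toSubring (cm85_Vinf (K := K) M' hπ).toSubring
    (pk15_chart R s' : Set ↥(modularFunctionFieldFullC K M'))
    hαB hB'V' hβB (fun x hx => (al97C_beta_mem_V0 M' q hq hM' hπ x).mpr hx) q
    (fun x => by
      obtain ⟨x', hx', h⟩ := hSurj x x.2
      exact ⟨x', hx', h⟩)
    (fun x hx => by
      obtain ⟨x₁, hx₁, h⟩ := ins50_frob_Vzero M' q (algebraMap K Q̄) hπ hq hM' hchar hperf x hx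
      refine ⟨x₁, hx₁, ?_⟩
      rw [IsScalarTower.algebraMap_apply R K ↥(modularFunctionFieldFullC K (M' * q))]
      exact h)
    (fun x hx => by
      obtain ⟨a, ha, c, hc, h⟩ := hfracV x hx
      exact ⟨a, ha, c, hc, h⟩)
  have hT := tr50_transv π (pk15_chart R s) (cm85_Vinf (K := K) (M' * q) hπ).toSubring
    (s34i47c_V0 (K := K) M' q hq hM' hπ).toSubring hB₁ hB₂ hπ₂ hV₂ hS₁ hS₂ q hq.two_le hins
  exact sf79_locStr π (pk15_chart R s) (cm85_Vinf (K := K) (M' * q) hπ).toSubring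
    (s34i47c_V0 (K := K) M' q hq hM' hπ).toSubring hB₁ hB₂ hπ₁ hπ₂ hV₁ hV₂ hsatB hS₁ hS₂ hT hUV

/-- `α` maps the chart of `s'` into the chart of `α '' s'`. -/
theorem fls77_alpha_mem (s' : Set ↥(modularFunctionFieldFullC K M'))
    (x : ↥(modularFunctionFieldFullC K M')) (hx : x ∈ pk15_chart R s') :
    al97L_alpha K M' q x ∈ pk15_chart R ((al97L_alpha K M' q) '' s') :=
  sf79i_map_mem ((al97L_alpha K M' q).restrictScalars R) s' x hx

end fls77

/-- **FRAME-LS** (`Iface47c`) at every level `M' * q`, `q ∤ M'`. -/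
theorem fls77_frameLS (M' q : ℕ) [NeZero M'] [NeZero q] (hq : q.Prime) (hM' : ¬ q ∣ M') :
    s34i47c_FrameLS M' q := by
  intro R K _ _ _ _ _ _ _ _ _ _ π hπ hunit hqR h hh
  haveI : Algebra.IsAlgebraic K Q̄ := fs85_isAlgebraic K
  letI : Algebra R ↥(modularFunctionFieldFullC K M') :=
    ((algebraMap K ↥(modularFunctionFieldFullC K M')).comp (algebraMap R K)).toAlgebra
  haveI : IsScalarTower R K ↥(modularFunctionFieldFullC K M') :=
    IsScalarTower.of_algebraMap_eq (fun _ => rfl)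
  have hdvd : M' ∣ M' * q := dvd_mul_right M' q
  have hMu : IsUnit (M' : R) := hunit M' ((Nat.Prime.coprime_iff_not_dvd hq).mpr hM').symm
  obtain ⟨hchar, hperf⟩ :=
    ins50_perfect (R := R) (K := K) (IsFractionRing.injective R K) hq hqR
  obtain ⟨-, hC⟩ := fs85_frameSat M' q hq hM' R K π hπ hunit hqR
  obtain ⟨-, hBW, hsat1, hsat2, -, hN1, hN2, -, -⟩ := hC h hh
  obtain ⟨hS0₁, hS0₂⟩ := sz63_smooth_V0 M' q hq hM' hπ hunit hqR h hh
  obtain ⟨hUV₁, hUV₂⟩ := uvf22_UVAt M' q hq hM' hπ hunit hqR h hh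
  obtain ⟨st₁, st₂, -⟩ := sz63_chart_stable M' q hq hM' hunit hqR h hh
  have hF1 := rd90_F1 (K := K) M' q hq hM' hπ hqR
  have hBW₁ : ∀ x ∈ pk15_chart R ({h} : Set ↥(modularFunctionFieldFullC K (M' * q))),
      x ∈ s34i47c_W (K := K) M' q hq hM' hπ :=
    fun x hx => hBW x (pk15_chart_mono (by simp) hx)
  have hBW₂ : ∀ x ∈ pk15_chart R ({h⁻¹} : Set ↥(modularFunctionFieldFullC K (M' * q))),
      x ∈ s34i47c_W (K := K) M' q hq hM' hπ :=
    fun x hx => hBW x (pk15_chart_mono (by simp) hx)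
  -- `β(B') ⊆ B` from `α(B') ⊆ B` and the `w`-stability of the charts
  have hβ : ∀ (s : Set ↥(modularFunctionFieldFullC K (M' * q))),
      (∀ z : ↥(modularFunctionFieldFullC K (M' * q)),
        sz63_w M' q hq hM' z ∈ pk15_chart R s ↔ z ∈ pk15_chart R s) →
      ∀ (s' : Set ↥(modularFunctionFieldFullC K M')),
      (∀ x ∈ pk15_chart R s', al97L_alpha K M' q x ∈ pk15_chart R s) →
      ∀ x ∈ pk15_chart R s', al97L_beta K M' q x ∈ pk15_chart R s := by
    intro s hst s' hα x hx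
    have h1 := (hst (al97L_alpha K M' q x)).mpr (hα x hx)
    have e : sz63_w M' q hq hM' (al97L_alpha K M' q x) = al97L_beta K M' q x :=
      al97L_w_alpha_apply (algebraMap K Q̄) M' q hq hM' x
    rwa [e] at h1
  rcases hh with ⟨hq2, h2, rfl⟩ | ⟨hq3, h3, rfl⟩
  · have h2' : 2 ∣ M' := by
      rcases (Nat.Prime.dvd_mul Nat.prime_two).mp h2 with h | h
      · exact h
      · exact absurd ((Nat.prime_dvd_prime_iff_eq Nat.prime_two hq).mp h).symm hq2
    obtain ⟨⟨hSu₁, hUn₁⟩, ⟨hSu₂, hUn₂⟩⟩ := bi93_level2 M' (M' * q) hdvd hπ h2' hMu hF1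
    obtain ⟨-, -, -, -, hhV, hhV', -, -, -, -, hfrac₁, hfrac₂, -⟩ :=
      cm85_facts_level2 (R := R) (K := K) M' hπ h2'
    obtain ⟨hs₁, hs₂, -⟩ := cm15_base_sat_level2 (R := R) (K := K) M' hπ h2' hMu
    have hhα : al97L_alpha K M' q (pk85_h2 K M' h2') = pk85_h2 K (M' * q) h2 :=
      Subtype.ext (by rw [al97L_alpha_coe, pk85_h2_coe, pk85_h2_coe])
    have hα₁ : ∀ x ∈ pk15_chart R ({pk85_h2 K M' h2'} : Set ↥(modularFunctionFieldFullC K M')),
        al97L_alpha K M' q x ∈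
          pk15_chart R ({pk85_h2 K (M' * q) h2} : Set ↥(modularFunctionFieldFullC K (M' * q))) := by
      intro x hx
      have h1 := fls77_alpha_mem M' q _ x hx
      rwa [Set.image_singleton, hhα] at h1
    have hα₂ : ∀ x ∈ pk15_chart R
          ({(pk85_h2 K M' h2')⁻¹} : Set ↥(modularFunctionFieldFullC K M')),
        al97L_alpha K M' q x ∈ pk15_chart R
          ({(pk85_h2 K (M' * q) h2)⁻¹} : Set ↥(modularFunctionFieldFullC K (M' * q))) := by
      intro x hx
      have h1 := fls77_alpha_mem M' q _ x hx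
      rwa [Set.image_singleton, map_inv₀, hhα] at h1
    exact ⟨fls77_chart M' q hq hM' hπ hchar hperf _ _
        (fun g hg => by rw [Set.mem_singleton_iff.mp hg]; exact hhV) hs₁ hfrac₁ hSu₁ hUn₁ hα₁
        (hβ _ st₁ _ hα₁) hN1 hBW₁ hsat1 hS0₁ hUV₁,
      fls77_chart M' q hq hM' hπ hchar hperf _ _
        (fun g hg => by rw [Set.mem_singleton_iff.mp hg]; exact hhV') hs₂ hfrac₂ hSu₂ hUn₂ hα₂
        (hβ _ st₂ _ hα₂) hN2 hBW₂ hsat2 hS0₂ hUV₂⟩
  · have h3' : 3 ∣ M' := by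
      rcases (Nat.Prime.dvd_mul Nat.prime_three).mp h3 with h | h
      · exact h
      · exact absurd ((Nat.prime_dvd_prime_iff_eq Nat.prime_three hq).mp h).symm hq3
    obtain ⟨⟨hSu₁, hUn₁⟩, ⟨hSu₂, hUn₂⟩⟩ := bi93_level3 M' (M' * q) hdvd hπ h3' hMu hF1
    obtain ⟨-, -, -, -, hhV, hhV', -, -, -, -, hfrac₁, hfrac₂, -⟩ :=
      cm85_facts_level3 (R := R) (K := K) M' hπ h3'
    obtain ⟨hs₁, hs₂, -⟩ := cm15_base_sat_level3 (R := R) (K := K) M' hπ h3' hMu
    have hhα : al97L_alpha K M' q (pk85_h3 K M' h3') = pk85_h3 K (M' * q) h3 :=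
      Subtype.ext (by rw [al97L_alpha_coe, pk85_h3_coe, pk85_h3_coe])
    have hα₁ : ∀ x ∈ pk15_chart R ({pk85_h3 K M' h3'} : Set ↥(modularFunctionFieldFullC K M')),
        al97L_alpha K M' q x ∈
          pk15_chart R ({pk85_h3 K (M' * q) h3} : Set ↥(modularFunctionFieldFullC K (M' * q))) := by
      intro x hx
      have h1 := fls77_alpha_mem M' q _ x hx
      rwa [Set.image_singleton, hhα] at h1
    have hα₂ : ∀ x ∈ pk15_chart R
          ({(pk85_h3 K M' h3')⁻¹} : Set ↥(modularFunctionFieldFullC K M')),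
        al97L_alpha K M' q x ∈ pk15_chart R
          ({(pk85_h3 K (M' * q) h3)⁻¹} : Set ↥(modularFunctionFieldFullC K (M' * q))) := by
      intro x hx
      have h1 := fls77_alpha_mem M' q _ x hx
      rwa [Set.image_singleton, map_inv₀, hhα] at h1
    exact ⟨fls77_chart M' q hq hM' hπ hchar hperf _ _
        (fun g hg => by rw [Set.mem_singleton_iff.mp hg]; exact hhV) hs₁ hfrac₁ hSu₁ hUn₁ hα₁
        (hβ _ st₁ _ hα₁) hN1 hBW₁ hsat1 hS0₁ hUV₁,
      fls77_chart M' q hq hM' hπ hchar hperf _ _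
        (fun g hg => by rw [Set.mem_singleton_iff.mp hg]; exact hhV') hs₂ hfrac₂ hSu₂ hUn₂ hα₂
        (hβ _ st₂ _ hα₂) hN2 hBW₂ hsat2 hS0₂ hUV₂⟩

/-- **The package FRAME-LS** of `Iface47c`. -/
theorem fls77_pkg_frameLS : s34i47c_Pkg_FrameLS :=
  fun M' q _ _ hq hM' => fls77_frameLS M' q hq hM'

end Fermat.Agent.S34
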