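import Mathlib
import Fermat.Agent.S34.SpecFibreInf79
import Fermat.Agent.S34.ChartM15b
import Fermat.Agent.S34.WIntInst18

/-!
# S34 lab, P3 (3a), the `∞`-branch (helper79): instance

Levels `M' ∣ M` (`M'` a unit of `R`, `p₀ ∣ M'`, `p₀ ∈ {2, 3}`), `V' = cm85_Vinf M'`,
`V_∞ = cm85_Vinf M`, `ι = cm15_incl K M' M hdvd`, `h = pk85_h2 / pk85_h3`.

Input `hres` (residue degree one of `V_∞` over `V'`; last conclusion of `wi18_main`):
every element of `V_∞` is congruent modulo `π V_∞` to an element of `ι V'`.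

* `sf79c_surj2 / sf79c_surj3` : the charts of level `M` are `ι(chart of level M') + p_∞`;
* `sf79c_smooth2 / sf79c_smooth3` : `sf79_Smooth π B V_∞` for both affine charts;
* `sf79c_unif2 / sf79c_unif3` : the local coordinate can be taken in `ι(chart of level M')`.
-/

set_option autoImplicit false

open ModularCurve IntermediateField Polynomial

namespace Fermat.Agent.S34

open Fermat.Agent.S18

local notation "Q̄" => AlgebraicClosure ℚ

section SF79W

variable {R F' F : Type*} [CommRing R] [Field F'] [Field F] [Algebra R F'] [Algebra R F]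

/-- The abstract `∞`-branch statements for a chart `pk15_chart R t` with `t = ι '' s`,
in elementwise form. -/
theorem sf79c_abs (ι : F' →ₐ[R] F) (π : R) (V' : ValuationSubring F') (V : ValuationSubring F)
    (hV'V : ∀ x : F', ι x ∈ V → x ∈ V') (hVV' : ∀ x ∈ V', ι x ∈ V)
    (hπV : (algebraMap R F π)⁻¹ ∉ V)
    (hmax : ∀ x ∈ V, x⁻¹ ∉ V → (algebraMap R F π)⁻¹ * x ∈ V)
    (harch : ∀ x : F', x ≠ 0 → ∃ k : ℕ, (algebraMap R F' π ^ k)⁻¹ * x ∉ V')
    (s : Set F')
    [hDed : IsDedekindDomain (pk15_chart R s ⧸ Ideal.span {algebraMap R (pk15_chart R s) π})]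
    (hB'V' : ∀ x ∈ pk15_chart R s, x ∈ V')
    (hsat' : ∀ x ∈ pk15_chart R s, (algebraMap R F' π)⁻¹ * x ∈ V' →
      (algebraMap R F' π)⁻¹ * x ∈ pk15_chart R s)
    (hfrac' : ∀ x : F', ∃ a ∈ pk15_chart R s, ∃ b ∈ pk15_chart R s, b ≠ 0 ∧ x * b = a)
    (t : Set F) (ht : ι '' s = t)
    (hBV : ∀ x ∈ pk15_chart R t, x ∈ V.toSubring)
    (hres : ∀ x ∈ pk15_chart R t, ∃ b ∈ V', (algebraMap R F π)⁻¹ * (x - ι b) ∈ V) :
    (∀ x ∈ pk15_chart R t, ∃ a ∈ pk15_chart R s, (algebraMap R F π)⁻¹ * (x - ι a) ∈ V) ∧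
    (∀ n : Ideal ↥(pk15_chart R t), n.IsPrime → sf79_OnBr π (pk15_chart R t) V.toSubring n →
      ∃ z' ∈ pk15_chart R s, ∃ hz : ι z' ∈ pk15_chart R t,
        sf79_Unif π (pk15_chart R t) V.toSubring n ⟨ι z', hz⟩) ∧
    sf79_Smooth π (pk15_chart R t) V.toSubring := by
  subst ht
  refine ⟨?_, ?_, sf79i_smooth ι π V' V hV'V hVV' hπV hmax harch s hB'V' hsat' hfrac' hBV hres⟩
  · intro x hx
    obtain ⟨a, ha⟩ := sf79i_surj ι π V' V hV'V hVV' hπV hmax harch s hB'V' hsat' hfrac' hBV hres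
      ⟨x, hx⟩
    exact ⟨a, a.2, ha⟩
  · intro n hn hOn
    obtain ⟨z', hz'⟩ := sf79i_unif_from ι π V' V hV'V hVV' hπV hmax harch s hB'V' hsat' hfrac'
      hBV hres n hOn
    exact ⟨z', z'.2, (sf79i_alpha ι s z').2, hz'⟩

end SF79W

section SF79C

variable {R K : Type} [CommRing R] [IsDomain R] [IsDiscreteValuationRing R] [Field K] [CharZero K]
  [Algebra R K] [IsFractionRing R K] [Algebra K Q̄] [Algebra.IsAlgebraic K Q̄]
  (M' M : ℕ) [NeZero M'] [NeZero M]
  [Algebra R ↥(modularFunctionFieldFullC K M')]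
  [IsScalarTower R K ↥(modularFunctionFieldFullC K M')]
  [Algebra R ↥(modularFunctionFieldFullC K M)]
  [IsScalarTower R K ↥(modularFunctionFieldFullC K M)]

/-- The Gauss valuation ring is level-free: `ι x ∈ V_∞(M) ↔ x ∈ V_∞(M')`. -/
theorem sf79c_incl_mem_iff (hdvd : M' ∣ M) {π : R} (hπ : Irreducible π)
    (a : ↥(modularFunctionFieldFullC K M')) :
    cm15_incl K M' M hdvd a ∈ cm85_Vinf (K := K) M hπ ↔ a ∈ cm85_Vinf (K := K) M' hπ := by
  have h1 : ((cm15_incl K M' M hdvd a : ↥(modularFunctionFieldFullC K M)) : LaurentSeries K) =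
      (a : LaurentSeries K) := IntermediateField.coe_inclusion (full_degeneracyC_le K hdvd) a
  constructor
  · rintro ⟨s, t, hs, hst⟩
    exact ⟨s, t, hs, by rw [← h1]; exact hst⟩
  · exact wi18_incl_mem M' M hdvd hπ a

/-- The abstract step for one chart generator `g'` of the good level. -/
theorem sf79c_core (hdvd : M' ∣ M) {π : R} (hπ : Irreducible π)
    (g' : ↥(modularFunctionFieldFullC K M')) (hg' : g' ∈ cm85_Vinf (K := K) M' hπ)
    (hDed : IsDedekindDomain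
      (pk15_chart R ({g'} : Set ↥(modularFunctionFieldFullC K M')) ⧸
        Ideal.span {algebraMap R
          (pk15_chart R ({g'} : Set ↥(modularFunctionFieldFullC K M'))) π}))
    (hsat' : cm15_Sat R π ({g'} : Set ↥(modularFunctionFieldFullC K M'))
      (cm85_Vinf (K := K) M' hπ).toSubring)
    (hfrac' : ∀ x : ↥(modularFunctionFieldFullC K M'),
      ∃ a ∈ pk15_chart R ({g'} : Set ↥(modularFunctionFieldFullC K M')),
      ∃ b ∈ pk15_chart R ({g'} : Set ↥(modularFunctionFieldFullC K M')), b ≠ 0 ∧ x * b = a)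
    (hres : ∀ x ∈ cm85_Vinf (K := K) M hπ, ∃ b ∈ cm85_Vinf (K := K) M' hπ,
      (algebraMap R ↥(modularFunctionFieldFullC K M) π)⁻¹ * (x - cm15_incl K M' M hdvd b) ∈
        cm85_Vinf (K := K) M hπ) :
    ∃ hBV : ∀ x ∈ pk15_chart R ({cm15_incl K M' M hdvd g'} :
        Set ↥(modularFunctionFieldFullC K M)), x ∈ (cm85_Vinf (K := K) M hπ).toSubring,
      (∀ x ∈ pk15_chart R ({cm15_incl K M' M hdvd g'} : Set ↥(modularFunctionFieldFullC K M)),
        ∃ a ∈ pk15_chart R ({g'} : Set ↥(modularFunctionFieldFullC K M')),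
          (algebraMap R ↥(modularFunctionFieldFullC K M) π)⁻¹ * (x - cm15_incl K M' M hdvd a) ∈
            cm85_Vinf (K := K) M hπ) ∧
      (∀ n : Ideal ↥(pk15_chart R ({cm15_incl K M' M hdvd g'} :
          Set ↥(modularFunctionFieldFullC K M))), n.IsPrime →
        sf79_OnBr π (pk15_chart R ({cm15_incl K M' M hdvd g'} :
          Set ↥(modularFunctionFieldFullC K M))) (cm85_Vinf (K := K) M hπ).toSubring n →
        ∃ z' ∈ pk15_chart R ({g'} : Set ↥(modularFunctionFieldFullC K M')),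
          ∃ hz : cm15_incl K M' M hdvd z' ∈ pk15_chart R ({cm15_incl K M' M hdvd g'} :
            Set ↥(modularFunctionFieldFullC K M)),
          sf79_Unif π (pk15_chart R ({cm15_incl K M' M hdvd g'} :
            Set ↥(modularFunctionFieldFullC K M))) (cm85_Vinf (K := K) M hπ).toSubring n
            ⟨_, hz⟩) ∧
      sf79_Smooth π (pk15_chart R ({cm15_incl K M' M hdvd g'} :
        Set ↥(modularFunctionFieldFullC K M))) (cm85_Vinf (K := K) M hπ).toSubring := by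
  classical
  set ι : ↥(modularFunctionFieldFullC K M') →ₐ[R] ↥(modularFunctionFieldFullC K M) :=
    (cm15_incl K M' M hdvd).restrictScalars R with hι
  have hιapp : ∀ x, ι x = cm15_incl K M' M hdvd x := fun _ => rfl
  have himg : (ι '' ({g'} : Set ↥(modularFunctionFieldFullC K M'))) =
      ({cm15_incl K M' M hdvd g'} : Set ↥(modularFunctionFieldFullC K M)) := by
    rw [Set.image_singleton]; rfl
  have hconv : ∀ (N : ℕ) [NeZero N] [Algebra R ↥(modularFunctionFieldFullC K N)]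
      [IsScalarTower R K ↥(modularFunctionFieldFullC K N)],
      algebraMap R ↥(modularFunctionFieldFullC K N) π =
        algebraMap K ↥(modularFunctionFieldFullC K N) (algebraMap R K π) := fun N _ _ _ =>
    IsScalarTower.algebraMap_apply R K ↥(modularFunctionFieldFullC K N) π
  have hπV : (algebraMap R ↥(modularFunctionFieldFullC K M) π)⁻¹ ∉ cm85_Vinf (K := K) M hπ := by
    rw [hconv M]
    exact gv85_pi_inv_not_mem (IsLocalRing.residue R) π (pk85_res_iff hπ) hπ.ne_zero _ _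
  have hmax : ∀ x ∈ cm85_Vinf (K := K) M hπ, x⁻¹ ∉ cm85_Vinf (K := K) M hπ →
      (algebraMap R ↥(modularFunctionFieldFullC K M) π)⁻¹ * x ∈ cm85_Vinf (K := K) M hπ := by
    intro x hx hx'
    rw [hconv M]
    exact gv85_hmax (IsLocalRing.residue R) π (pk85_res_iff hπ) hπ.ne_zero _ _ x hx hx'
  have hB'V' : ∀ x ∈ pk15_chart R ({g'} : Set ↥(modularFunctionFieldFullC K M')),
      x ∈ cm85_Vinf (K := K) M' hπ :=
    pk15_chart_le_V _ (pk85_hRV M' hπ) _ (fun g hg => by rw [Set.mem_singleton_iff.mp hg]; exact hg')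
  have hBV0 : ∀ x ∈ pk15_chart R ({cm15_incl K M' M hdvd g'} :
      Set ↥(modularFunctionFieldFullC K M)), x ∈ (cm85_Vinf (K := K) M hπ).toSubring :=
    pk15_chart_le_V _ (pk85_hRV M hπ) _ (fun g hg => by
      rw [Set.mem_singleton_iff.mp hg]; exact wi18_incl_mem M' M hdvd hπ g' hg')
  have hres0 : ∀ x ∈ pk15_chart R ({cm15_incl K M' M hdvd g'} :
      Set ↥(modularFunctionFieldFullC K M)),
      ∃ b ∈ cm85_Vinf (K := K) M' hπ,
        (algebraMap R ↥(modularFunctionFieldFullC K M) π)⁻¹ * (x - ι b) ∈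
          cm85_Vinf (K := K) M hπ := fun x hx => hres x (hBV0 x hx)
  obtain ⟨h1, h2, h3⟩ := @sf79c_abs R _ _ _ _ _ _ _ ι π (cm85_Vinf (K := K) M' hπ)
    (cm85_Vinf (K := K) M hπ)
    (fun x hx => (sf79c_incl_mem_iff M' M hdvd hπ x).mp hx)
    (fun x hx => wi18_incl_mem M' M hdvd hπ x hx) hπV hmax (wi18_arch M' hπ)
    ({g'} : Set ↥(modularFunctionFieldFullC K M')) hDed hB'V' hsat' hfrac'
    ({cm15_incl K M' M hdvd g'} : Set ↥(modularFunctionFieldFullC K M)) himg hBV0 hres0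
  exact ⟨hBV0, h1, h2, h3⟩

/-- The three outputs of (3a)-`∞` for the chart `pk15_chart R {g}` of level `M`, `g` the image
of a chart generator `g'` of the good level: surjectivity, local coordinates from the good
level, and `sf79_Smooth`. -/
def sf79c_Out (hdvd : M' ∣ M) {π : R} (hπ : Irreducible π)
    (g' : ↥(modularFunctionFieldFullC K M')) (g : ↥(modularFunctionFieldFullC K M)) : Prop :=
  (∀ x ∈ pk15_chart R ({g} : Set ↥(modularFunctionFieldFullC K M)),
    ∃ a ∈ pk15_chart R ({g'} : Set ↥(modularFunctionFieldFullC K M')),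
      (algebraMap R ↥(modularFunctionFieldFullC K M) π)⁻¹ * (x - cm15_incl K M' M hdvd a) ∈
        cm85_Vinf (K := K) M hπ) ∧
  (∀ n : Ideal ↥(pk15_chart R ({g} : Set ↥(modularFunctionFieldFullC K M))), n.IsPrime →
    sf79_OnBr π (pk15_chart R ({g} : Set ↥(modularFunctionFieldFullC K M)))
      (cm85_Vinf (K := K) M hπ).toSubring n →
    ∃ z' ∈ pk15_chart R ({g'} : Set ↥(modularFunctionFieldFullC K M')),
      ∃ hz : cm15_incl K M' M hdvd z' ∈ pk15_chart R ({g} : Set ↥(modularFunctionFieldFullC K M)),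
      sf79_Unif π (pk15_chart R ({g} : Set ↥(modularFunctionFieldFullC K M)))
        (cm85_Vinf (K := K) M hπ).toSubring n ⟨_, hz⟩) ∧
  sf79_Smooth π (pk15_chart R ({g} : Set ↥(modularFunctionFieldFullC K M)))
    (cm85_Vinf (K := K) M hπ).toSubring

theorem sf79c_out_of_core (hdvd : M' ∣ M) {π : R} (hπ : Irreducible π)
    (g' : ↥(modularFunctionFieldFullC K M')) (hg' : g' ∈ cm85_Vinf (K := K) M' hπ)
    (hDed : IsDedekindDomain
      (pk15_chart R ({g'} : Set ↥(modularFunctionFieldFullC K M')) ⧸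
        Ideal.span {algebraMap R
          (pk15_chart R ({g'} : Set ↥(modularFunctionFieldFullC K M'))) π}))
    (hsat' : cm15_Sat R π ({g'} : Set ↥(modularFunctionFieldFullC K M'))
      (cm85_Vinf (K := K) M' hπ).toSubring)
    (hfrac' : ∀ x : ↥(modularFunctionFieldFullC K M'),
      ∃ a ∈ pk15_chart R ({g'} : Set ↥(modularFunctionFieldFullC K M')),
      ∃ b ∈ pk15_chart R ({g'} : Set ↥(modularFunctionFieldFullC K M')), b ≠ 0 ∧ x * b = a)
    (hres : ∀ x ∈ cm85_Vinf (K := K) M hπ, ∃ b ∈ cm85_Vinf (K := K) M' hπ,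
      (algebraMap R ↥(modularFunctionFieldFullC K M) π)⁻¹ * (x - cm15_incl K M' M hdvd b) ∈
        cm85_Vinf (K := K) M hπ)
    (g : ↥(modularFunctionFieldFullC K M)) (hg : cm15_incl K M' M hdvd g' = g) :
    sf79c_Out M' M hdvd hπ g' g := by
  subst hg
  obtain ⟨-, h1, h2, h3⟩ := sf79c_core M' M hdvd hπ g' hg' hDed hsat' hfrac' hres
  exact ⟨h1, h2, h3⟩

/-- **(3a), `∞`-branch, level 2**: both affine charts of the level-2 Hauptmodul at level `M`
(`M' ∣ M`, `2 ∣ M'`, `M'` a unit of `R`). -/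
theorem sf79c_level2 (hdvd : M' ∣ M) {π : R} (hπ : Irreducible π) (h2 : 2 ∣ M')
    (hMu : IsUnit (M' : R))
    (hres : ∀ x ∈ cm85_Vinf (K := K) M hπ, ∃ b ∈ cm85_Vinf (K := K) M' hπ,
      (algebraMap R ↥(modularFunctionFieldFullC K M) π)⁻¹ * (x - cm15_incl K M' M hdvd b) ∈
        cm85_Vinf (K := K) M hπ) :
    sf79c_Out M' M hdvd hπ (pk85_h2 K M' h2) (pk85_h2 K M (h2.trans hdvd)) ∧
      sf79c_Out M' M hdvd hπ (pk85_h2 K M' h2)⁻¹ (pk85_h2 K M (h2.trans hdvd))⁻¹ := by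
  obtain ⟨hs₁, hs₂, -⟩ := cm15_base_sat_level2 (R := R) (K := K) M' hπ h2 hMu
  obtain ⟨⟨hD₁, -, -, hfrac₁⟩, ⟨hD₂, -, -, hfrac₂⟩⟩ := sm79_level2 (R := R) K M' hπ hMu h2
  obtain ⟨-, -, -, -, hhV, hhV', -⟩ := cm85_facts_level2 (R := R) (K := K) M' hπ h2
  have hh : cm15_incl K M' M hdvd (pk85_h2 K M' h2) = pk85_h2 K M (h2.trans hdvd) :=
    Subtype.ext (cm15_incl_coe M' M hdvd _)
  exact ⟨sf79c_out_of_core M' M hdvd hπ _ hhV hD₁ hs₁ hfrac₁ hres _ hh,
    sf79c_out_of_core M' M hdvd hπ _ hhV' hD₂ hs₂ hfrac₂ hres _ (by rw [map_inv₀, hh])⟩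

/-- **(3a), `∞`-branch, level 3.** -/
theorem sf79c_level3 (hdvd : M' ∣ M) {π : R} (hπ : Irreducible π) (h3 : 3 ∣ M')
    (hMu : IsUnit (M' : R))
    (hres : ∀ x ∈ cm85_Vinf (K := K) M hπ, ∃ b ∈ cm85_Vinf (K := K) M' hπ,
      (algebraMap R ↥(modularFunctionFieldFullC K M) π)⁻¹ * (x - cm15_incl K M' M hdvd b) ∈
        cm85_Vinf (K := K) M hπ) :
    sf79c_Out M' M hdvd hπ (pk85_h3 K M' h3) (pk85_h3 K M (h3.trans hdvd)) ∧
      sf79c_Out M' M hdvd hπ (pk85_h3 K M' h3)⁻¹ (pk85_h3 K M (h3.trans hdvd))⁻¹ := by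
  obtain ⟨hs₁, hs₂, -⟩ := cm15_base_sat_level3 (R := R) (K := K) M' hπ h3 hMu
  obtain ⟨⟨hD₁, -, -, hfrac₁⟩, ⟨hD₂, -, -, hfrac₂⟩⟩ := sm79_level3 (R := R) K M' hπ hMu h3
  obtain ⟨-, -, -, -, hhV, hhV', -⟩ := cm85_facts_level3 (R := R) (K := K) M' hπ h3
  have hh : cm15_incl K M' M hdvd (pk85_h3 K M' h3) = pk85_h3 K M (h3.trans hdvd) :=
    Subtype.ext (cm15_incl_coe M' M hdvd _)
  exact ⟨sf79c_out_of_core M' M hdvd hπ _ hhV hD₁ hs₁ hfrac₁ hres _ hh,
    sf79c_out_of_core M' M hdvd hπ _ hhV' hD₂ hs₂ hfrac₂ hres _ (by rw [map_inv₀, hh])⟩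

end SF79C

end Fermat.Agent.S34
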