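import Mathlib
import Fermat.Agent.S34.SpecFibre79
import Fermat.Agent.S34.SpecFibreInst79
import Fermat.Agent.S34.ResDeg90
import Fermat.Agent.S34.SmoothZero63
import Fermat.Agent.S34.UVAtFrame22
import Fermat.Agent.S34.FrameSat85
import Fermat.Agent.S34.AtkinLehnerCanon97
import Fermat.Agent.S34.Iface47c

/-!
# S34 lab, FRAME-LS (helper79, P3 owner): the package `s34i47c_Pkg_FrameLS` from transversality

Canonical frame data of `Iface47c` at level `M' * q`: `V_∞ = cm85_Vinf (M' * q) hπ`,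
`V_0 = s34i47c_V0 M' q hq hM' hπ`, `h` an admissible Hauptmodul, charts `pk15_chart R {h}`,
`pk15_chart R {h⁻¹}`.

* `sf79f_smooth_inf` : `sf79_Smooth π B V_∞` for both charts (row 488; `sf79c_level2/3` +
  `rd90_F1`);
* `sf79f_smooth_zero` : `sf79_Smooth π B V_0` for both charts (row 489; `sz63_smooth_V0`);
* `sf79f_Transv M' q hq hM'` : the statement of row 490 on the canonical data (both charts);
* `sf79f_frameLS_of_transv` : `sf79f_Transv M' q hq hM' → s34i47c_FrameLS M' q`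
  (`sf79_locStr` + `uvf22_UVAt` + `fs85_frameSat`);
* `sf79f_pkg_frameLS_of_transv` : the package `s34i47c_Pkg_FrameLS` from transversality at all
  levels.
-/

set_option autoImplicit false

open ModularCurve AlgebraicCurve IntermediateField

namespace Fermat.Agent.S34

open Fermat.Agent.S18

local notation "Q̄" => AlgebraicClosure ℚ

section SF79F

variable {R K : Type} [CommRing R] [IsDomain R] [IsDiscreteValuationRing R] [Field K]
  [NumberField K] [Algebra K Q̄] [Algebra R K] [IsFractionRing R K]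
  (M' q : ℕ) [NeZero M'] [NeZero q] (hq : q.Prime) (hM' : ¬ q ∣ M')
  [Algebra R ↥(modularFunctionFieldFullC K (M' * q))]
  [IsScalarTower R K ↥(modularFunctionFieldFullC K (M' * q))] {π : R} (hπ : Irreducible π)

include hq hM' in
/-- **Row 488 on the canonical data**: both affine charts of every admissible Hauptmodul are
smooth along `V_∞`. -/
theorem sf79f_smooth_inf (hunit : ∀ n : ℕ, Nat.Coprime n q → IsUnit (n : R))
    (hqR : ¬ IsUnit (q : R)) (h : ↥(modularFunctionFieldFullC K (M' * q)))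
    (hh : s34i47c_IsHaupt K (M' * q) q h) :
    sf79_Smooth π (pk15_chart R ({h} : Set ↥(modularFunctionFieldFullC K (M' * q))))
        (cm85_Vinf (K := K) (M' * q) hπ).toSubring ∧
      sf79_Smooth π (pk15_chart R ({h⁻¹} : Set ↥(modularFunctionFieldFullC K (M' * q))))
        (cm85_Vinf (K := K) (M' * q) hπ).toSubring := by
  haveI : Algebra.IsAlgebraic K Q̄ := cx_isAlgebraic_closure K
  letI : Algebra R ↥(modularFunctionFieldFullC K M') :=
    ((algebraMap K ↥(modularFunctionFieldFullC K M')).comp (algebraMap R K)).toAlgebra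
  haveI : IsScalarTower R K ↥(modularFunctionFieldFullC K M') :=
    IsScalarTower.of_algebraMap_eq (fun _ => rfl)
  have hMu : IsUnit (M' : R) :=
    hunit M' (Nat.Coprime.symm ((Nat.Prime.coprime_iff_not_dvd hq).mpr hM'))
  have hF1 := rd90_F1 (R := R) (K := K) M' q hq hM' hπ hqR
  rcases hh with ⟨hq2, h2, rfl⟩ | ⟨hq3, h3, rfl⟩
  · have h2' : 2 ∣ M' := by
      rcases (Nat.Prime.dvd_mul Nat.prime_two).mp h2 with h | h
      · exact h
      · exact absurd ((Nat.prime_dvd_prime_iff_eq Nat.prime_two hq).mp h).symm hq2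
    obtain ⟨⟨-, -, hs⟩, ⟨-, -, hs'⟩⟩ :=
      sf79c_level2 (R := R) (K := K) M' (M' * q) (dvd_mul_right M' q) hπ h2' hMu hF1
    exact ⟨hs, hs'⟩
  · have h3' : 3 ∣ M' := by
      rcases (Nat.Prime.dvd_mul Nat.prime_three).mp h3 with h | h
      · exact h
      · exact absurd ((Nat.prime_dvd_prime_iff_eq Nat.prime_three hq).mp h).symm hq3
    obtain ⟨⟨-, -, hs⟩, ⟨-, -, hs'⟩⟩ :=
      sf79c_level3 (R := R) (K := K) M' (M' * q) (dvd_mul_right M' q) hπ h3' hMu hF1
    exact ⟨hs, hs'⟩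

/-- **Row 489 on the canonical data**: both affine charts are smooth along `V_0`. -/
theorem sf79f_smooth_zero (hunit : ∀ n : ℕ, Nat.Coprime n q → IsUnit (n : R))
    (hqR : ¬ IsUnit (q : R)) (h : ↥(modularFunctionFieldFullC K (M' * q)))
    (hh : s34i47c_IsHaupt K (M' * q) q h) :
    sf79_Smooth π (pk15_chart R ({h} : Set ↥(modularFunctionFieldFullC K (M' * q))))
        (s34i47c_V0 (K := K) M' q hq hM' hπ).toSubring ∧
      sf79_Smooth π (pk15_chart R ({h⁻¹} : Set ↥(modularFunctionFieldFullC K (M' * q))))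
        (s34i47c_V0 (K := K) M' q hq hM' hπ).toSubring := by
  obtain ⟨h1, h2⟩ := sf79f_smooth_inf M' q hq hM' hπ hunit hqR h hh
  obtain ⟨t1, t2⟩ := sz63_smooth_V0 (R := R) (K := K) M' q hq hM' hπ hunit hqR h hh
  exact ⟨t1 h1, t2 h2⟩

end SF79F

/-- **Row 490 on the canonical data**: transversality of the two branches at the points of both
branches, for both affine charts of every admissible Hauptmodul. -/
def sf79f_Transv (M' q : ℕ) [NeZero M'] [NeZero q] (hq : q.Prime) (hM' : ¬ q ∣ M') : Prop :=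
  ∀ (R K : Type) [CommRing R] [IsDomain R] [IsDiscreteValuationRing R] [Field K] [NumberField K]
    [Algebra K Q̄] [Algebra R K] [IsFractionRing R K]
    [Algebra R ↥(modularFunctionFieldFullC K (M' * q))]
    [IsScalarTower R K ↥(modularFunctionFieldFullC K (M' * q))] (π : R) (hπ : Irreducible π),
    (∀ n : ℕ, Nat.Coprime n q → IsUnit (n : R)) → ¬ IsUnit (q : R) →
    ∀ h : ↥(modularFunctionFieldFullC K (M' * q)), s34i47c_IsHaupt K (M' * q) q h →
      sf79_Transv π (pk15_chart R ({h} : Set ↥(modularFunctionFieldFullC K (M' * q))))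
          (cm85_Vinf (K := K) (M' * q) hπ).toSubring
          (s34i47c_V0 (K := K) M' q hq hM' hπ).toSubring ∧
        sf79_Transv π (pk15_chart R ({h⁻¹} : Set ↥(modularFunctionFieldFullC K (M' * q))))
          (cm85_Vinf (K := K) (M' * q) hπ).toSubring
          (s34i47c_V0 (K := K) M' q hq hM' hπ).toSubring

/-- **FRAME-LS from transversality** (one level). -/
theorem sf79f_frameLS_of_transv (M' q : ℕ) [NeZero M'] [NeZero q] (hq : q.Prime)
    (hM' : ¬ q ∣ M') (hT : sf79f_Transv M' q hq hM') : s34i47c_FrameLS M' q := by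
  intro R K _ _ _ _ _ _ _ _ _ _ π hπ hunit hqR h hh
  obtain ⟨-, hC⟩ := fs85_frameSat M' q hq hM' R K π hπ hunit hqR
  obtain ⟨-, h12W, hsat1, hsat2, -, hN1, hN2, -, -⟩ := hC h hh
  obtain ⟨hSi1, hSi2⟩ := sf79f_smooth_inf M' q hq hM' hπ hunit hqR h hh
  obtain ⟨hSz1, hSz2⟩ := sf79f_smooth_zero M' q hq hM' hπ hunit hqR h hh
  obtain ⟨hT1, hT2⟩ := hT R K π hπ hunit hqR h hh
  obtain ⟨hUV1, hUV2⟩ := uvf22_UVAt (R := R) (K := K) M' q hq hM' hπ hunit hqR h hh
  have hπ₁ : (algebraMap R ↥(modularFunctionFieldFullC K (M' * q)) π)⁻¹ ∉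
      (cm85_Vinf (K := K) (M' * q) hπ).toSubring := al97C_pi_inv_not_mem_Vinf M' q hπ
  have hπ₂ : (algebraMap R ↥(modularFunctionFieldFullC K (M' * q)) π)⁻¹ ∉
      (s34i47c_V0 (K := K) M' q hq hM' hπ).toSubring := al97C_pi_inv_not_mem_V0 M' q hq hM' hπ
  have hV₁ : ∀ x ∈ (cm85_Vinf (K := K) (M' * q) hπ).toSubring,
      (algebraMap R ↥(modularFunctionFieldFullC K (M' * q)) π)⁻¹ * x ∉
        (cm85_Vinf (K := K) (M' * q) hπ).toSubring →
      x⁻¹ ∈ (cm85_Vinf (K := K) (M' * q) hπ).toSubring := by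
    intro x hx hx'
    by_contra hcon
    apply hx'
    have hconv : algebraMap R ↥(modularFunctionFieldFullC K (M' * q)) π =
        algebraMap K ↥(modularFunctionFieldFullC K (M' * q)) (algebraMap R K π) :=
      IsScalarTower.algebraMap_apply R K ↥(modularFunctionFieldFullC K (M' * q)) π
    rw [hconv]
    exact gv85_hmax (IsLocalRing.residue R) π (pk85_res_iff hπ) hπ.ne_zero _ _ x hx hcon
  have hV₂ : ∀ x ∈ (s34i47c_V0 (K := K) M' q hq hM' hπ).toSubring,
      (algebraMap R ↥(modularFunctionFieldFullC K (M' * q)) π)⁻¹ * x ∉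
        (s34i47c_V0 (K := K) M' q hq hM' hπ).toSubring →
      x⁻¹ ∈ (s34i47c_V0 (K := K) M' q hq hM' hπ).toSubring := by
    intro x hx hx'
    by_contra hcon
    exact hx' (al97C_hmax_V0 M' q hq hM' hπ x hx hcon)
  have hmemW : ∀ x : ↥(modularFunctionFieldFullC K (M' * q)),
      x ∈ s34i47c_W (K := K) M' q hq hM' hπ →
      x ∈ (cm85_Vinf (K := K) (M' * q) hπ).toSubring ∧
        x ∈ (s34i47c_V0 (K := K) M' q hq hM' hπ).toSubring := by
    intro x hx
    obtain ⟨h1, h2⟩ := (s34i47c_mem_W M' q hq hM' hπ x).mp hx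
    exact ⟨h1, (s34i47c_mem_V0 M' q hq hM' hπ x).mpr h2⟩
  have hWmem : ∀ x : ↥(modularFunctionFieldFullC K (M' * q)),
      x ∈ (cm85_Vinf (K := K) (M' * q) hπ).toSubring →
      x ∈ (s34i47c_V0 (K := K) M' q hq hM' hπ).toSubring →
      x ∈ s34i47c_W (K := K) M' q hq hM' hπ := by
    intro x h1 h2
    exact (s34i47c_mem_W M' q hq hM' hπ x).mpr ⟨h1, (s34i47c_mem_V0 M' q hq hM' hπ x).mp h2⟩
  have hsub1 : ({h} : Set ↥(modularFunctionFieldFullC K (M' * q))) ⊆ {h, h⁻¹} := by
    intro x hx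
    rw [Set.mem_singleton_iff.mp hx]
    exact Set.mem_insert _ _
  have hsub2 : ({h⁻¹} : Set ↥(modularFunctionFieldFullC K (M' * q))) ⊆ {h, h⁻¹} := by
    intro x hx
    rw [Set.mem_singleton_iff.mp hx]
    exact Set.mem_insert_of_mem _ rfl
  haveI := hN1
  haveI := hN2
  refine ⟨sf79_locStr π _ _ _ (fun x hx => (hmemW x (h12W x (pk15_chart_mono hsub1 hx))).1)
      (fun x hx => (hmemW x (h12W x (pk15_chart_mono hsub1 hx))).2) hπ₁ hπ₂ hV₁ hV₂
      (fun x hx h1 h2 => hsat1 x hx (hWmem _ h1 h2)) hSi1 hSz1 hT1 hUV1,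
    sf79_locStr π _ _ _ (fun x hx => (hmemW x (h12W x (pk15_chart_mono hsub2 hx))).1)
      (fun x hx => (hmemW x (h12W x (pk15_chart_mono hsub2 hx))).2) hπ₁ hπ₂ hV₁ hV₂
      (fun x hx h1 h2 => hsat2 x hx (hWmem _ h1 h2)) hSi2 hSz2 hT2 hUV2⟩

/-- **The package FRAME-LS from transversality at all levels.** -/
theorem sf79f_pkg_frameLS_of_transv
    (hT : ∀ (M' q : ℕ) [NeZero M'] [NeZero q] (hq : q.Prime) (hM' : ¬ q ∣ M'),
      sf79f_Transv M' q hq hM') : s34i47c_Pkg_FrameLS :=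
  fun M' q _ _ hq hM' => sf79f_frameLS_of_transv M' q hq hM' (hT M' q hq hM')

end Fermat.Agent.S34
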