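import Fermat.Agent.S34.ResDeg90
import Fermat.Agent.S34.SmoothZero63
import Fermat.Agent.S34.TransvChart50
import Fermat.Agent.S34.FrobInsepDVR50
import Fermat.Agent.S34.ResField25
import Fermat.Agent.S34.UVAtFrame22
import Fermat.Agent.S34.SpecFibre79
import Fermat.Agent.S34.SpecFibreInf79
import Fermat.Agent.S34.Iface47c

/-!
# S34 lab (helper84): the package FRAME-LS of `Iface47c`, assembled from the pieces on main

`fls84_chart` : one chart `B = pk15_chart R {g}` of level `M' * q` lying over the chart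
`B' = pk15_chart R {g'}` of the good level `M'` has the local structure `s34i47_LocStr π B`.
`fls84_pkg_frameLS` : the literal `s34i47c_Pkg_FrameLS`.
-/

set_option autoImplicit false
set_option linter.unusedSectionVars false
set_option linter.style.haveILetI false

open ModularCurve IntermediateField Polynomial

namespace Fermat.Agent.S34

open Fermat.Agent.S18 Fermat.Agent.S24 Fermat.Agent.S37

local notation "Q̄" => AlgebraicClosure ℚ

section fls84

variable {R K : Type} [CommRing R] [IsDomain R] [IsDiscreteValuationRing R] [Field K]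
  [NumberField K] [Algebra R K] [IsFractionRing R K] [Algebra K Q̄] (M' q : ℕ) [NeZero M']
  [NeZero q]
  [Algebra R ↥(modularFunctionFieldFullC K M')]
  [IsScalarTower R K ↥(modularFunctionFieldFullC K M')]
  [Algebra R ↥(modularFunctionFieldFullC K (M' * q))]
  [IsScalarTower R K ↥(modularFunctionFieldFullC K (M' * q))]

/-- **One chart.**  The chart `B = pk15_chart R {g}` of level `M' * q` over the chart
`B' = pk15_chart R {g'}` of the good level `M'`. -/
theorem fls84_chart (hq : q.Prime) (hM' : ¬ q ∣ M') {π : R} (hπ : Irreducible π)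
    (hqR : ¬ IsUnit (q : R))
    (g' : ↥(modularFunctionFieldFullC K M')) (g : ↥(modularFunctionFieldFullC K (M' * q)))
    (hg'V : g' ∈ cm85_Vinf (K := K) M' hπ)
    (hmax' : ∀ x ∈ cm85_Vinf (K := K) M' hπ, x⁻¹ ∉ cm85_Vinf (K := K) M' hπ →
      (algebraMap R ↥(modularFunctionFieldFullC K M') π)⁻¹ * x ∈ cm85_Vinf (K := K) M' hπ)
    (hsat' : cm15_Sat R π ({g'} : Set ↥(modularFunctionFieldFullC K M'))
      (cm85_Vinf (K := K) M' hπ).toSubring)
    (hfrac' : ∀ x : ↥(modularFunctionFieldFullC K M'),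
      ∃ a ∈ pk15_chart R ({g'} : Set ↥(modularFunctionFieldFullC K M')),
      ∃ b ∈ pk15_chart R ({g'} : Set ↥(modularFunctionFieldFullC K M')), b ≠ 0 ∧ x * b = a)
    (hN : IsNoetherianRing (pk15_chart R ({g} : Set ↥(modularFunctionFieldFullC K (M' * q)))))
    (hmax : ∀ x ∈ cm85_Vinf (K := K) (M' * q) hπ, x⁻¹ ∉ cm85_Vinf (K := K) (M' * q) hπ →
      (algebraMap R ↥(modularFunctionFieldFullC K (M' * q)) π)⁻¹ * x ∈
        cm85_Vinf (K := K) (M' * q) hπ)
    (hBW : ∀ x ∈ pk15_chart R ({g} : Set ↥(modularFunctionFieldFullC K (M' * q))),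
      x ∈ s34i47c_W (K := K) M' q hq hM' hπ)
    (hsat : ∀ x ∈ pk15_chart R ({g} : Set ↥(modularFunctionFieldFullC K (M' * q))),
      (algebraMap R ↥(modularFunctionFieldFullC K (M' * q)) π)⁻¹ * x ∈
        s34i47c_W (K := K) M' q hq hM' hπ →
      (algebraMap R ↥(modularFunctionFieldFullC K (M' * q)) π)⁻¹ * x ∈
        pk15_chart R ({g} : Set ↥(modularFunctionFieldFullC K (M' * q))))
    (hαB : ∀ x ∈ pk15_chart R ({g'} : Set ↥(modularFunctionFieldFullC K M')),
      al97L_alpha K M' q x ∈ pk15_chart R ({g} : Set ↥(modularFunctionFieldFullC K (M' * q))))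
    (hβB : ∀ x ∈ pk15_chart R ({g'} : Set ↥(modularFunctionFieldFullC K M')),
      al97L_beta K M' q x ∈ pk15_chart R ({g} : Set ↥(modularFunctionFieldFullC K (M' * q))))
    (hSurj : bi93_Surj M' (M' * q) (dvd_mul_right M' q) hπ
      ({g'} : Set ↥(modularFunctionFieldFullC K M'))
      ({g} : Set ↥(modularFunctionFieldFullC K (M' * q))))
    (hUnif : bi93_Unif M' (M' * q) (dvd_mul_right M' q) hπ
      ({g'} : Set ↥(modularFunctionFieldFullC K M'))
      ({g} : Set ↥(modularFunctionFieldFullC K (M' * q))))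
    (hS0 : sf79_Smooth π (pk15_chart R ({g} : Set ↥(modularFunctionFieldFullC K (M' * q))))
        (cm85_Vinf (K := K) (M' * q) hπ).toSubring →
      sf79_Smooth π (pk15_chart R ({g} : Set ↥(modularFunctionFieldFullC K (M' * q))))
        (s34i47c_V0 (K := K) M' q hq hM' hπ).toSubring)
    (hUV : sf79_UVAt π (pk15_chart R ({g} : Set ↥(modularFunctionFieldFullC K (M' * q))))
      (cm85_Vinf (K := K) (M' * q) hπ).toSubring
      (s34i47c_V0 (K := K) M' q hq hM' hπ).toSubring) :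
    s34i47_LocStr π (pk15_chart R ({g} : Set ↥(modularFunctionFieldFullC K (M' * q)))) := by
  haveI := hN
  set B := pk15_chart R ({g} : Set ↥(modularFunctionFieldFullC K (M' * q))) with hB
  have hB₁ : ∀ x ∈ B, x ∈ (cm85_Vinf (K := K) (M' * q) hπ).toSubring := fun x hx =>
    ((s34i47c_mem_W M' q hq hM' hπ x).mp (hBW x hx)).1
  have hB₂ : ∀ x ∈ B, x ∈ (s34i47c_V0 (K := K) M' q hq hM' hπ).toSubring := fun x hx =>
    ((s34i47c_mem_W M' q hq hM' hπ x).mp (hBW x hx)).2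
  have hπ₁ : (algebraMap R ↥(modularFunctionFieldFullC K (M' * q)) π)⁻¹ ∉
      (cm85_Vinf (K := K) (M' * q) hπ).toSubring :=
    al97C_pi_inv_not_mem_Vinf (K := K) M' q hπ
  have hπ₂ : (algebraMap R ↥(modularFunctionFieldFullC K (M' * q)) π)⁻¹ ∉
      (s34i47c_V0 (K := K) M' q hq hM' hπ).toSubring :=
    al97C_pi_inv_not_mem_V0 (K := K) M' q hq hM' hπ
  have hV₁ : ∀ x ∈ (cm85_Vinf (K := K) (M' * q) hπ).toSubring,
      (algebraMap R ↥(modularFunctionFieldFullC K (M' * q)) π)⁻¹ * x ∉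
        (cm85_Vinf (K := K) (M' * q) hπ).toSubring →
      x⁻¹ ∈ (cm85_Vinf (K := K) (M' * q) hπ).toSubring := by
    intro x hx hx'
    by_contra hcon
    exact hx' (hmax x hx hcon)
  have hV₂ : ∀ x ∈ (s34i47c_V0 (K := K) M' q hq hM' hπ).toSubring,
      (algebraMap R ↥(modularFunctionFieldFullC K (M' * q)) π)⁻¹ * x ∉
        (s34i47c_V0 (K := K) M' q hq hM' hπ).toSubring →
      x⁻¹ ∈ (s34i47c_V0 (K := K) M' q hq hM' hπ).toSubring := by
    intro x hx hx'
    by_contra hcon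
    exact hx' (al97C_hmax_V0 (K := K) M' q hq hM' hπ x hx hcon)
  have hsatB : ∀ x ∈ B,
      (algebraMap R ↥(modularFunctionFieldFullC K (M' * q)) π)⁻¹ * x ∈
        (cm85_Vinf (K := K) (M' * q) hπ).toSubring →
      (algebraMap R ↥(modularFunctionFieldFullC K (M' * q)) π)⁻¹ * x ∈
        (s34i47c_V0 (K := K) M' q hq hM' hπ).toSubring →
      (algebraMap R ↥(modularFunctionFieldFullC K (M' * q)) π)⁻¹ * x ∈ B := fun x hx h1 h2 =>
    hsat x hx ((s34i47c_mem_W M' q hq hM' hπ _).mpr ⟨h1, h2⟩)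
  -- (3a), `∞`-branch
  have hS₁ : sf79_Smooth π B (cm85_Vinf (K := K) (M' * q) hπ).toSubring := by
    intro n hn _ hOn
    obtain ⟨z', -, z, hz, -, hun⟩ := hUnif n hn.isPrime hOn
    exact ⟨z, hz, hun⟩
  -- (3a), `0`-branch
  have hS₂ : sf79_Smooth π B (s34i47c_V0 (K := K) M' q hq hM' hπ).toSubring := hS0 hS₁
  -- (3b)
  obtain ⟨-, hchar, -, hperf⟩ := rf25_frame R K hq hqR
  have hB'V' : ∀ x ∈ pk15_chart R ({g'} : Set ↥(modularFunctionFieldFullC K M')),
      x ∈ cm85_Vinf (K := K) M' hπ :=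
    pk15_chart_le_V _ (pk85_hRV M' hπ) _ (fun y hy => by
      rw [Set.mem_singleton_iff.mp hy]; exact hg'V)
  have hfrac : ∀ x ∈ (cm85_Vinf (K := K) M' hπ).toSubring,
      ∃ a ∈ (pk15_chart R ({g'} : Set ↥(modularFunctionFieldFullC K M'))).toSubring,
      ∃ c ∈ (pk15_chart R ({g'} : Set ↥(modularFunctionFieldFullC K M'))).toSubring,
        c⁻¹ ∈ (cm85_Vinf (K := K) M' hπ).toSubring ∧ c ≠ 0 ∧ c * x = a :=
    tr50_frac_of_sat (algebraMap R ↥(modularFunctionFieldFullC K M') π)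
      (pk15_chart R ({g'} : Set ↥(modularFunctionFieldFullC K M'))).toSubring
      (cm85_Vinf (K := K) M' hπ).toSubring hB'V' hmax' hsat'
      (fun x hx => wi18_arch (K := K) M' hπ x hx) hfrac'
  have hins := tr50_hins π B (cm85_Vinf (K := K) (M' * q) hπ).toSubring
    (s34i47c_V0 (K := K) M' q hq hM' hπ).toSubring hB₂ hπ₂
    (al97L_alpha K M' q : ↥(modularFunctionFieldFullC K M') →+*
      ↥(modularFunctionFieldFullC K (M' * q)))
    (al97L_beta K M' q : ↥(modularFunctionFieldFullC K M') →+*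
      ↥(modularFunctionFieldFullC K (M' * q)))
    (pk15_chart R ({g'} : Set ↥(modularFunctionFieldFullC K M'))).toSubring
    (cm85_Vinf (K := K) M' hπ).toSubring
    ((pk15_chart R ({g'} : Set ↥(modularFunctionFieldFullC K M')) :
      Set ↥(modularFunctionFieldFullC K M')))
    (fun x hx => hαB x hx) hB'V' (fun x hx => hβB x hx)
    (fun x hx => (al97C_beta_mem_V0 (K := K) M' q hq hM' hπ x).mpr hx) q
    (fun x => by
      obtain ⟨x', hx', h⟩ := hSurj (x : ↥(modularFunctionFieldFullC K (M' * q))) x.2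
      exact ⟨x', hx', h⟩)
    (fun x hx => by
      obtain ⟨x₁, hx₁, h⟩ := ins50_frob_Vzero (K := K) M' q (algebraMap K Q̄) hπ hq hM' hchar
        hperf x hx
      refine ⟨x₁, hx₁, ?_⟩
      rw [IsScalarTower.algebraMap_apply R K ↥(modularFunctionFieldFullC K (M' * q))]
      exact h)
    hfrac
  have hT : sf79_Transv π B (cm85_Vinf (K := K) (M' * q) hπ).toSubring
      (s34i47c_V0 (K := K) M' q hq hM' hπ).toSubring :=
    tr50_transv π B _ _ hB₁ hB₂ hπ₂ hV₂ hS₁ hS₂ q hq.two_le hins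
  exact sf79_locStr π B _ _ hB₁ hB₂ hπ₁ hπ₂ hV₁ hV₂ hsatB hS₁ hS₂ hT hUV

/-- `α` maps the chart of `g'` into the chart of `α g'`. -/
theorem fls84_alpha_mem (g' x : ↥(modularFunctionFieldFullC K M'))
    (hx : x ∈ pk15_chart R ({g'} : Set ↥(modularFunctionFieldFullC K M'))) :
    al97L_alpha K M' q x ∈
      pk15_chart R ({al97L_alpha K M' q g'} : Set ↥(modularFunctionFieldFullC K (M' * q))) := by
  have h := sf79i_map_mem ((al97L_alpha K M' q).restrictScalars R)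
    ({g'} : Set ↥(modularFunctionFieldFullC K M')) x hx
  rw [Set.image_singleton] at h
  exact h

/-- `β` maps the chart of `g'` into the (`w`-stable) chart of `α g'`. -/
theorem fls84_beta_mem (hq : q.Prime) (hM' : ¬ q ∣ M')
    (g' : ↥(modularFunctionFieldFullC K M')) (g : ↥(modularFunctionFieldFullC K (M' * q)))
    (hg : al97L_alpha K M' q g' = g)
    (hst : ∀ z : ↥(modularFunctionFieldFullC K (M' * q)),
      sz63_w M' q hq hM' z ∈ pk15_chart R ({g} : Set ↥(modularFunctionFieldFullC K (M' * q))) ↔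
        z ∈ pk15_chart R ({g} : Set ↥(modularFunctionFieldFullC K (M' * q))))
    (x : ↥(modularFunctionFieldFullC K M'))
    (hx : x ∈ pk15_chart R ({g'} : Set ↥(modularFunctionFieldFullC K M'))) :
    al97L_beta K M' q x ∈
      pk15_chart R ({g} : Set ↥(modularFunctionFieldFullC K (M' * q))) := by
  rw [← al97L_w_alpha_apply (algebraMap K Q̄) M' q hq hM' x, ← sz63_w_apply, hst, ← hg]
  exact fls84_alpha_mem M' q g' x hx

end fls84

section fls84_pkg

/-- **FRAME-LS** (`Iface47c`) at every level `M' * q`, `q ∤ M'`. -/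
theorem fls84_frameLS (M' q : ℕ) [NeZero M'] [NeZero q] (hq : q.Prime) (hM' : ¬ q ∣ M') :
    s34i47c_FrameLS M' q := by
  intro R K _ _ _ _ _ _ _ _ _ _ π hπ hunit hqR h hh
  haveI : Algebra.IsAlgebraic K Q̄ := fs85_isAlgebraic K
  letI : Algebra R ↥(modularFunctionFieldFullC K M') :=
    ((algebraMap K ↥(modularFunctionFieldFullC K M')).comp (algebraMap R K)).toAlgebra
  haveI : IsScalarTower R K ↥(modularFunctionFieldFullC K M') :=
    IsScalarTower.of_algebraMap_eq (fun _ => rfl)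
  have hdvd : M' ∣ M' * q := dvd_mul_right M' q
  have hMu : IsUnit (M' : R) := hunit M' ((Nat.Prime.coprime_iff_not_dvd hq).mpr hM').symm
  have hf1 := rd90_F1 (K := K) M' q hq hM' hπ hqR
  obtain ⟨hS0₁, hS0₂⟩ := sz63_smooth_V0 M' q hq hM' hπ hunit hqR h hh
  obtain ⟨hUV₁, hUV₂⟩ := uvf22_UVAt M' q hq hM' hπ hunit hqR h hh
  obtain ⟨hst₁, hst₂, -⟩ := sz63_chart_stable M' q hq hM' hunit hqR h hh
  have hW₁ := al97C_chart_le_W M' q hq hM' hπ h hh {h} (by simp)
  have hW₂ := al97C_chart_le_W M' q hq hM' hπ h hh {h⁻¹} (by simp)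
  obtain ⟨-, hCP⟩ := fs85_frameSat M' q hq hM' R K π hπ hunit hqR
  obtain ⟨-, -, hsat₁, hsat₂, -, hN₁, hN₂, -⟩ := hCP h hh
  rcases hh with ⟨hq2, h2, rfl⟩ | ⟨hq3, h3, rfl⟩
  · have h2' : 2 ∣ M' := by
      rcases (Nat.Prime.dvd_mul Nat.prime_two).mp h2 with h | h
      · exact h
      · exact absurd ((Nat.prime_dvd_prime_iff_eq Nat.prime_two hq).mp h).symm hq2
    obtain ⟨-, -, -, hmax', hhV, hhV', -, -, -, -, hfrac₁, hfrac₂, -⟩ :=
      cm85_facts_level2 (R := R) (K := K) M' hπ h2'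
    obtain ⟨-, -, -, hmax, -⟩ := cm85_facts_level2 (R := R) (K := K) (M' * q) hπ h2
    obtain ⟨hs₁, hs₂, -⟩ := cm15_base_sat_level2 (R := R) (K := K) M' hπ h2' hMu
    obtain ⟨⟨hSu₁, hUn₁⟩, ⟨hSu₂, hUn₂⟩⟩ := bi93_level2 (K := K) M' (M' * q) hdvd hπ h2' hMu hf1
    have hg : al97L_alpha K M' q (pk85_h2 K M' h2') = pk85_h2 K (M' * q) h2 :=
      Subtype.ext (by rw [al97L_alpha_coe, pk85_h2_coe, pk85_h2_coe])
    have hg' : al97L_alpha K M' q (pk85_h2 K M' h2')⁻¹ = (pk85_h2 K (M' * q) h2)⁻¹ := by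
      rw [map_inv₀, hg]
    exact ⟨fls84_chart M' q hq hM' hπ hqR (pk85_h2 K M' h2') (pk85_h2 K (M' * q) h2) hhV hmax'
        hs₁ hfrac₁ hN₁ hmax hW₁ hsat₁
        (fun x hx => hg ▸ fls84_alpha_mem M' q _ x hx)
        (fls84_beta_mem M' q hq hM' _ _ hg hst₁) hSu₁ hUn₁ hS0₁ hUV₁,
      fls84_chart M' q hq hM' hπ hqR (pk85_h2 K M' h2')⁻¹ (pk85_h2 K (M' * q) h2)⁻¹ hhV' hmax'
        hs₂ hfrac₂ hN₂ hmax hW₂ hsat₂
        (fun x hx => hg' ▸ fls84_alpha_mem M' q _ x hx)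
        (fls84_beta_mem M' q hq hM' _ _ hg' hst₂) hSu₂ hUn₂ hS0₂ hUV₂⟩
  · have h3' : 3 ∣ M' := by
      rcases (Nat.Prime.dvd_mul Nat.prime_three).mp h3 with h | h
      · exact h
      · exact absurd ((Nat.prime_dvd_prime_iff_eq Nat.prime_three hq).mp h).symm hq3
    obtain ⟨-, -, -, hmax', hhV, hhV', -, -, -, -, hfrac₁, hfrac₂, -⟩ :=
      cm85_facts_level3 (R := R) (K := K) M' hπ h3'
    obtain ⟨-, -, -, hmax, -⟩ := cm85_facts_level3 (R := R) (K := K) (M' * q) hπ h3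
    obtain ⟨hs₁, hs₂, -⟩ := cm15_base_sat_level3 (R := R) (K := K) M' hπ h3' hMu
    obtain ⟨⟨hSu₁, hUn₁⟩, ⟨hSu₂, hUn₂⟩⟩ := bi93_level3 (K := K) M' (M' * q) hdvd hπ h3' hMu hf1
    have hg : al97L_alpha K M' q (pk85_h3 K M' h3') = pk85_h3 K (M' * q) h3 :=
      Subtype.ext (by rw [al97L_alpha_coe, pk85_h3_coe, pk85_h3_coe])
    have hg' : al97L_alpha K M' q (pk85_h3 K M' h3')⁻¹ = (pk85_h3 K (M' * q) h3)⁻¹ := by
      rw [map_inv₀, hg]
    exact ⟨fls84_chart M' q hq hM' hπ hqR (pk85_h3 K M' h3') (pk85_h3 K (M' * q) h3) hhV hmax'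
        hs₁ hfrac₁ hN₁ hmax hW₁ hsat₁
        (fun x hx => hg ▸ fls84_alpha_mem M' q _ x hx)
        (fls84_beta_mem M' q hq hM' _ _ hg hst₁) hSu₁ hUn₁ hS0₁ hUV₁,
      fls84_chart M' q hq hM' hπ hqR (pk85_h3 K M' h3')⁻¹ (pk85_h3 K (M' * q) h3)⁻¹ hhV' hmax'
        hs₂ hfrac₂ hN₂ hmax hW₂ hsat₂
        (fun x hx => hg' ▸ fls84_alpha_mem M' q _ x hx)
        (fls84_beta_mem M' q hq hM' _ _ hg' hst₂) hSu₂ hUn₂ hS0₂ hUV₂⟩

/-- **The package FRAME-LS** of `Iface47c`. -/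
theorem fls84_pkg_frameLS : s34i47c_Pkg_FrameLS :=
  fun M' q _ _ hq hM' => fls84_frameLS M' q hq hM'

end fls84_pkg

end Fermat.Agent.S34
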