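import Fermat.Agent.S34.FrameSat85
import Fermat.Agent.S34.BranchInf93
import Fermat.Agent.S34.ResDeg90
import Fermat.Agent.S34.SmoothZero63
import Fermat.Agent.S34.UVAtFrame22
import Fermat.Agent.S34.SpecFibre79
import Fermat.Agent.S34.AtkinLehnerCanon97

/-!
# S34 lab, package FRAME-LS (helper85): `s34i47c_Pkg_FrameLS` from transversality

On the canonical frame data of `Iface47c` (level `M' * q`, `V_∞ = cm85_Vinf`, `V_0 = s34i47c_V0`)
and for both affine charts `B = pk15_chart R {h}`, `pk15_chart R {h⁻¹}` of every admissible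
Hauptmodul, the four inputs of the abstract assembly `sf79_locStr` (helper79) are

* `sf79_Smooth π B V_∞` : proved here (`fl85_smooth_inf`) from `bi93_level2/3` (helper93) and
  `rd90_F1` (helper90);
* `sf79_Smooth π B V_0` : `sz63_smooth_V0` (helper63) applied to the previous item;
* `sf79_UVAt π B V_∞ V_0` : `uvf22_UVAt` (helper22);
* `sf79_Transv π B V_∞ V_0` : the ONE remaining input, the closed `Prop` `fl85_Transv`.

`fl85_pkg_frameLS : (∀ M' q hq hM', fl85_Transv M' q hq hM') → s34i47c_Pkg_FrameLS`.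
The chart facts (noetherian, `B ⊆ W`, saturation) come from `fs85_frameSat`.

All names are prefixed `fl85_`.
-/

set_option autoImplicit false
set_option linter.unusedSectionVars false
set_option linter.style.haveILetI false

open ModularCurve IntermediateField Polynomial

namespace Fermat.Agent.S34

open Fermat.Agent.S18 Fermat.Agent.S24 Fermat.Agent.S37

local notation "Q̄" => AlgebraicClosure ℚ

/-- **Transversality (3b) on the canonical frame data**: the one input of `fl85_pkg_frameLS`. -/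
def fl85_Transv (M' q : ℕ) [NeZero M'] [NeZero q] (hq : q.Prime) (hM' : ¬ q ∣ M') : Prop :=
  ∀ (R K : Type) [CommRing R] [IsDomain R] [IsDiscreteValuationRing R] [Field K] [NumberField K]
    [Algebra K Q̄] [Algebra R K] [IsFractionRing R K]
    [Algebra R ↥(modularFunctionFieldFullC K (M' * q))]
    [IsScalarTower R K ↥(modularFunctionFieldFullC K (M' * q))] (π : R) (hπ : Irreducible π),
    (∀ n : ℕ, Nat.Coprime n q → IsUnit (n : R)) → ¬ IsUnit (q : R) →
    ∀ h : ↥(modularFunctionFieldFullC K (M' * q)), s34i47c_IsHaupt K (M' * q) q h →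
      sf79_Transv π (pk15_chart R ({h} : Set ↥(modularFunctionFieldFullC K (M' * q))))
        (cm85_Vinf (K := K) (M' * q) hπ).toSubring
        (s34i47c_V0 (K := K) M' q hq hM' hπ).toSubring ∧
      sf79_Transv π (pk15_chart R ({h⁻¹} : Set ↥(modularFunctionFieldFullC K (M' * q))))
        (cm85_Vinf (K := K) (M' * q) hπ).toSubring
        (s34i47c_V0 (K := K) M' q hq hM' hπ).toSubring

section fl85

variable {R K : Type} [CommRing R] [IsDomain R] [IsDiscreteValuationRing R] [Field K]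
  [NumberField K] [Algebra K Q̄] [Algebra R K] [IsFractionRing R K]
  (M' q : ℕ) [NeZero M'] [NeZero q]
  [Algebra R ↥(modularFunctionFieldFullC K (M' * q))]
  [IsScalarTower R K ↥(modularFunctionFieldFullC K (M' * q))] {π : R} (hπ : Irreducible π)

/-- **(3a) at `V_∞`** on the canonical frame data: both affine charts of every admissible
Hauptmodul are smooth along the `∞`-branch (`bi93_level2/3` + `rd90_F1`). -/
theorem fl85_smooth_inf (hq : q.Prime) (hM' : ¬ q ∣ M')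
    (hunit : ∀ n : ℕ, Nat.Coprime n q → IsUnit (n : R))
    (hqR : ¬ IsUnit (q : R)) (h : ↥(modularFunctionFieldFullC K (M' * q)))
    (hh : s34i47c_IsHaupt K (M' * q) q h) :
    sf79_Smooth π (pk15_chart R ({h} : Set ↥(modularFunctionFieldFullC K (M' * q))))
        (cm85_Vinf (K := K) (M' * q) hπ).toSubring ∧
      sf79_Smooth π (pk15_chart R ({h⁻¹} : Set ↥(modularFunctionFieldFullC K (M' * q))))
        (cm85_Vinf (K := K) (M' * q) hπ).toSubring := by
  haveI : Algebra.IsAlgebraic K Q̄ := fs85_isAlgebraic K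
  letI : Algebra R ↥(modularFunctionFieldFullC K M') :=
    ((algebraMap K ↥(modularFunctionFieldFullC K M')).comp (algebraMap R K)).toAlgebra
  haveI : IsScalarTower R K ↥(modularFunctionFieldFullC K M') :=
    IsScalarTower.of_algebraMap_eq (fun _ => rfl)
  have hdvd : M' ∣ M' * q := dvd_mul_right M' q
  have hMu : IsUnit (M' : R) := hunit M' ((Nat.Prime.coprime_iff_not_dvd hq).mpr hM').symm
  have hf1 := rd90_F1 (R := R) (K := K) M' q hq hM' hπ hqR
  rcases hh with ⟨hq2, h2, rfl⟩ | ⟨hq3, h3, rfl⟩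
  · have h2' : 2 ∣ M' := by
      rcases (Nat.Prime.dvd_mul Nat.prime_two).mp h2 with h | h
      · exact h
      · exact absurd ((Nat.prime_dvd_prime_iff_eq Nat.prime_two hq).mp h).symm hq2
    obtain ⟨⟨-, hU₁⟩, ⟨-, hU₂⟩⟩ := bi93_level2 (R := R) (K := K) M' (M' * q) hdvd hπ h2' hMu hf1
    refine ⟨fun n hn _ hOn => ?_, fun n hn _ hOn => ?_⟩
    · obtain ⟨z', -, z, hz, -, hx⟩ := hU₁ n hn.isPrime hOn
      exact ⟨z, hz, hx⟩
    · obtain ⟨z', -, z, hz, -, hx⟩ := hU₂ n hn.isPrime hOn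
      exact ⟨z, hz, hx⟩
  · have h3' : 3 ∣ M' := by
      rcases (Nat.Prime.dvd_mul Nat.prime_three).mp h3 with h | h
      · exact h
      · exact absurd ((Nat.prime_dvd_prime_iff_eq Nat.prime_three hq).mp h).symm hq3
    obtain ⟨⟨-, hU₁⟩, ⟨-, hU₂⟩⟩ := bi93_level3 (R := R) (K := K) M' (M' * q) hdvd hπ h3' hMu hf1
    refine ⟨fun n hn _ hOn => ?_, fun n hn _ hOn => ?_⟩
    · obtain ⟨z', -, z, hz, -, hx⟩ := hU₁ n hn.isPrime hOn
      exact ⟨z, hz, hx⟩
    · obtain ⟨z', -, z, hz, -, hx⟩ := hU₂ n hn.isPrime hOn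
      exact ⟨z, hz, hx⟩

/-- "`𝔪_V = π V`" in the contrapositive shape used by the (LS) assemblies, for `V_∞`. -/
theorem fl85_hV_inf (x : ↥(modularFunctionFieldFullC K (M' * q)))
    (hx : x ∈ (cm85_Vinf (K := K) (M' * q) hπ).toSubring)
    (hx' : (algebraMap R ↥(modularFunctionFieldFullC K (M' * q)) π)⁻¹ * x ∉
      (cm85_Vinf (K := K) (M' * q) hπ).toSubring) :
    x⁻¹ ∈ (cm85_Vinf (K := K) (M' * q) hπ).toSubring := by
  by_contra hcon
  apply hx'
  rw [IsScalarTower.algebraMap_apply R K ↥(modularFunctionFieldFullC K (M' * q))]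
  exact gv85_hmax (IsLocalRing.residue R) π (pk85_res_iff hπ) hπ.ne_zero _ _ x hx hcon

/-- The same for `V_0`. -/
theorem fl85_hV_zero (hq : q.Prime) (hM' : ¬ q ∣ M')
    (x : ↥(modularFunctionFieldFullC K (M' * q)))
    (hx : x ∈ (s34i47c_V0 (K := K) M' q hq hM' hπ).toSubring)
    (hx' : (algebraMap R ↥(modularFunctionFieldFullC K (M' * q)) π)⁻¹ * x ∉
      (s34i47c_V0 (K := K) M' q hq hM' hπ).toSubring) :
    x⁻¹ ∈ (s34i47c_V0 (K := K) M' q hq hM' hπ).toSubring := by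
  by_contra hcon
  exact hx' (al97C_hmax_V0 M' q hq hM' hπ x hx hcon)

/-- **(LS) for the two affine charts of an admissible Hauptmodul, from transversality.** -/
theorem fl85_locStr (hq : q.Prime) (hM' : ¬ q ∣ M')
    (hunit : ∀ n : ℕ, Nat.Coprime n q → IsUnit (n : R))
    (hqR : ¬ IsUnit (q : R)) (h : ↥(modularFunctionFieldFullC K (M' * q)))
    (hh : s34i47c_IsHaupt K (M' * q) q h)
    (hT₁ : sf79_Transv π (pk15_chart R ({h} : Set ↥(modularFunctionFieldFullC K (M' * q))))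
        (cm85_Vinf (K := K) (M' * q) hπ).toSubring
        (s34i47c_V0 (K := K) M' q hq hM' hπ).toSubring)
    (hT₂ : sf79_Transv π (pk15_chart R ({h⁻¹} : Set ↥(modularFunctionFieldFullC K (M' * q))))
        (cm85_Vinf (K := K) (M' * q) hπ).toSubring
        (s34i47c_V0 (K := K) M' q hq hM' hπ).toSubring) :
    s34i47_LocStr π (pk15_chart R ({h} : Set ↥(modularFunctionFieldFullC K (M' * q)))) ∧
      s34i47_LocStr π (pk15_chart R ({h⁻¹} : Set ↥(modularFunctionFieldFullC K (M' * q)))) := by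
  obtain ⟨-, hC⟩ := fs85_frameSat M' q hq hM' R K π hπ hunit hqR
  obtain ⟨-, -, hs₁, hs₂, -, hN₁, hN₂, -, -⟩ := hC h hh
  haveI := hN₁
  haveI := hN₂
  obtain ⟨hSi₁, hSi₂⟩ := fl85_smooth_inf M' q hπ hq hM' hunit hqR h hh
  obtain ⟨hSz₁, hSz₂⟩ := sz63_smooth_V0 M' q hq hM' hπ hunit hqR h hh
  obtain ⟨hUV₁, hUV₂⟩ := uvf22_UVAt M' q hq hM' hπ hunit hqR h hh
  have hW₁ := al97C_chart_le_W M' q hq hM' hπ h hh ({h} : Set _) (by
    intro g hg; rw [Set.mem_singleton_iff.mp hg]; exact Set.mem_insert _ _)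
  have hW₂ := al97C_chart_le_W M' q hq hM' hπ h hh ({h⁻¹} : Set _) (by
    intro g hg; rw [Set.mem_singleton_iff.mp hg]; exact Set.mem_insert_of_mem _ rfl)
  have hπ₁ := al97C_pi_inv_not_mem_Vinf (R := R) (K := K) M' q hπ
  have hπ₂ := al97C_pi_inv_not_mem_V0 (R := R) (K := K) M' q hq hM' hπ
  refine ⟨sf79_locStr π _ _ _ (fun x hx => ((s34i47c_mem_W M' q hq hM' hπ x).mp (hW₁ x hx)).1)
      (fun x hx => ((wa5_mem_W _ _ x).mp (hW₁ x hx)).2) hπ₁ hπ₂
      (fl85_hV_inf M' q hπ) (fl85_hV_zero M' q hπ hq hM')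
      (fun x hx h1 h2 => hs₁ x hx ((wa5_mem_W _ _ _).mpr ⟨h1, h2⟩))
      hSi₁ (hSz₁ hSi₁) hT₁ hUV₁,
    sf79_locStr π _ _ _ (fun x hx => ((s34i47c_mem_W M' q hq hM' hπ x).mp (hW₂ x hx)).1)
      (fun x hx => ((wa5_mem_W _ _ x).mp (hW₂ x hx)).2) hπ₁ hπ₂
      (fl85_hV_inf M' q hπ) (fl85_hV_zero M' q hπ hq hM')
      (fun x hx h1 h2 => hs₂ x hx ((wa5_mem_W _ _ _).mpr ⟨h1, h2⟩))
      hSi₂ (hSz₂ hSi₂) hT₂ hUV₂⟩

end fl85

/-- **FRAME-LS from transversality**: `s34i47c_Pkg_FrameLS` (`Iface47c`) from `fl85_Transv`. -/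
theorem fl85_pkg_frameLS
    (hT : ∀ (M' q : ℕ) [NeZero M'] [NeZero q] (hq : q.Prime) (hM' : ¬ q ∣ M'),
      fl85_Transv M' q hq hM') : s34i47c_Pkg_FrameLS := by
  intro M' q _ _ hq hM' R K _ _ _ _ _ _ _ _ _ _ π hπ hunit hqR h hh
  obtain ⟨hT₁, hT₂⟩ := hT M' q hq hM' R K π hπ hunit hqR h hh
  exact fl85_locStr M' q hπ hq hM' hunit hqR h hh hT₁ hT₂

end Fermat.Agent.S34
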