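import Mathlib
import Fermat.Agent.S34.Iface47c
import Fermat.Agent.S34.SpecFibre79
import Fermat.Agent.S34.FrameSat85
import Fermat.Agent.S34.AtkinLehnerCanon97
import Fermat.Agent.S34.BranchZeroInst13
import Fermat.Agent.S34.UVAtFrame22
import Fermat.Agent.S34.Gate51

/-!
# S34 lab: the last mile of FRAME-LS (helper51, registrar)

`s34i47c_Pkg_FrameLS` (Iface47c) is reduced to TWO closed `Prop`s in the literal shapes of
`SpecFibre79` (helper79) on the canonical data of Iface47c: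

* `s34g51_Pkg_SmoothInf` : `sf79_Smooth π B V_∞` for the two affine charts `B` ((3a), ∞-branch);
* `s34g51_Pkg_Transv` : `sf79_Transv π B V_∞ V_0` for the two affine charts ((3b)).

Everything else is taken from main: the chart facts and the saturation (`fs85_pkg_frameSat`,
helper85), `V_∞`, `V_0` (`c1g55_*`, `al97C_*`, helper97), (3a) on the `0`-branch by transport
(`bz13_smooth_V0`, helper13), `sf79_UVAt` (`uvf22_UVAt`, helper22) and the assembly `sf79_locStr`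
(helper79).
-/

set_option autoImplicit false

open ModularCurve AlgebraicCurve

namespace Fermat.Agent.S34

open Fermat.Agent.S18

local notation "Q̄" => AlgebraicClosure ℚ

/-- **(3a), ∞-branch**: every closed point of the branch `V_∞` of the two affine charts has a
local coordinate (`sf79_Smooth`), canonical data of Iface47c. -/
def s34g51_Pkg_SmoothInf : Prop :=
  ∀ (M' q : ℕ) [NeZero M'] [NeZero q], q.Prime → ¬ q ∣ M' →
  ∀ (R K : Type) [CommRing R] [IsDomain R] [IsDiscreteValuationRing R] [Field K] [NumberField K]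
    [Algebra K Q̄] [Algebra R K] [IsFractionRing R K]
    [Algebra R ↥(modularFunctionFieldFullC K (M' * q))]
    [IsScalarTower R K ↥(modularFunctionFieldFullC K (M' * q))] (π : R) (hπ : Irreducible π),
    (∀ n : ℕ, Nat.Coprime n q → IsUnit (n : R)) → ¬ IsUnit (q : R) →
    ∀ h : ↥(modularFunctionFieldFullC K (M' * q)), s34i47c_IsHaupt K (M' * q) q h →
      sf79_Smooth π (pk15_chart R ({h} : Set ↥(modularFunctionFieldFullC K (M' * q))))
        (cm85_Vinf (K := K) (M' * q) hπ).toSubring ∧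
      sf79_Smooth π (pk15_chart R ({h⁻¹} : Set ↥(modularFunctionFieldFullC K (M' * q))))
        (cm85_Vinf (K := K) (M' * q) hπ).toSubring

/-- **(3b)**: transversality of the two branches `V_∞`, `V_0` at their common closed points
(`sf79_Transv`), for the two affine charts, canonical data of Iface47c. -/
def s34g51_Pkg_Transv : Prop :=
  ∀ (M' q : ℕ) [NeZero M'] [NeZero q] (hq : q.Prime) (hM' : ¬ q ∣ M'),
  ∀ (R K : Type) [CommRing R] [IsDomain R] [IsDiscreteValuationRing R] [Field K] [NumberField K]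
    [Algebra K Q̄] [Algebra R K] [IsFractionRing R K]
    [Algebra R ↥(modularFunctionFieldFullC K (M' * q))]
    [IsScalarTower R K ↥(modularFunctionFieldFullC K (M' * q))] (π : R) (hπ : Irreducible π),
    (∀ n : ℕ, Nat.Coprime n q → IsUnit (n : R)) → ¬ IsUnit (q : R) →
    ∀ h : ↥(modularFunctionFieldFullC K (M' * q)), s34i47c_IsHaupt K (M' * q) q h →
      sf79_Transv π (pk15_chart R ({h} : Set ↥(modularFunctionFieldFullC K (M' * q))))
        (cm85_Vinf (K := K) (M' * q) hπ).toSubring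
        (s34i47c_V0 (K := K) M' q hq hM' hπ).toSubring ∧
      sf79_Transv π (pk15_chart R ({h⁻¹} : Set ↥(modularFunctionFieldFullC K (M' * q))))
        (cm85_Vinf (K := K) (M' * q) hπ).toSubring
        (s34i47c_V0 (K := K) M' q hq hM' hπ).toSubring

/-- **FRAME-LS from (3a) on the ∞-branch and (3b).** -/
theorem s34g51_frameLS_of (hS : s34g51_Pkg_SmoothInf) (hT : s34g51_Pkg_Transv) :
    s34i47c_Pkg_FrameLS := by
  intro M' q _ _ hq hM' R K _ _ _ _ _ _ _ _ _ _ π hπ hunit hqR h hh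
  obtain ⟨-, hC⟩ := fs85_pkg_frameSat M' q hq hM' R K π hπ hunit hqR
  obtain ⟨-, h12W, hsat₁, hsat₂, -, hN₁, hN₂, -, -⟩ := hC h hh
  obtain ⟨hS₁, hS₂⟩ := hS M' q hq hM' R K π hπ hunit hqR h hh
  obtain ⟨hT₁, hT₂⟩ := hT M' q hq hM' R K π hπ hunit hqR h hh
  obtain ⟨hZ₁, hZ₂⟩ := bz13_smooth_V0 (R := R) (K := K) M' q hq hM' hπ hunit h hh
  obtain ⟨hU₁, hU₂⟩ := uvf22_UVAt (R := R) (K := K) M' q hq hM' hπ hunit hqR h hh
  -- facts on the two valuation rings
  have hπ₁ : (algebraMap R ↥(modularFunctionFieldFullC K (M' * q)) π)⁻¹ ∉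
      (cm85_Vinf (K := K) (M' * q) hπ).toSubring :=
    al97C_pi_inv_not_mem_Vinf (R := R) (K := K) M' q hπ
  have hπ₂ : (algebraMap R ↥(modularFunctionFieldFullC K (M' * q)) π)⁻¹ ∉
      (s34i47c_V0 (K := K) M' q hq hM' hπ).toSubring :=
    al97C_pi_inv_not_mem_V0 (R := R) (K := K) M' q hq hM' hπ
  have hV₁ : ∀ x ∈ (cm85_Vinf (K := K) (M' * q) hπ).toSubring,
      (algebraMap R ↥(modularFunctionFieldFullC K (M' * q)) π)⁻¹ * x ∉
        (cm85_Vinf (K := K) (M' * q) hπ).toSubring →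
      x⁻¹ ∈ (cm85_Vinf (K := K) (M' * q) hπ).toSubring := by
    intro x hx hx'
    by_contra hinv
    exact hx' (c1g55_hmax hπ x hx hinv)
  have hV₂ : ∀ x ∈ (s34i47c_V0 (K := K) M' q hq hM' hπ).toSubring,
      (algebraMap R ↥(modularFunctionFieldFullC K (M' * q)) π)⁻¹ * x ∉
        (s34i47c_V0 (K := K) M' q hq hM' hπ).toSubring →
      x⁻¹ ∈ (s34i47c_V0 (K := K) M' q hq hM' hπ).toSubring := by
    intro x hx hx'
    by_contra hinv
    exact hx' (al97C_hmax_V0 (R := R) (K := K) M' q hq hM' hπ x hx hinv)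
  -- both charts lie in `W`
  have hsub : ∀ s : Set ↥(modularFunctionFieldFullC K (M' * q)),
      s ⊆ ({h, h⁻¹} : Set ↥(modularFunctionFieldFullC K (M' * q))) →
      ∀ x ∈ pk15_chart R s, x ∈ s34i47c_W (K := K) M' q hq hM' hπ :=
    fun s hs x hx => h12W x (pk15_chart_mono hs hx)
  have hW₁ : ∀ x, x ∈ s34i47c_W (K := K) M' q hq hM' hπ →
      x ∈ (cm85_Vinf (K := K) (M' * q) hπ).toSubring :=
    fun x hx => ((s34i47c_mem_W (K := K) M' q hq hM' hπ x).1 hx).1
  have hW₂ : ∀ x, x ∈ s34i47c_W (K := K) M' q hq hM' hπ →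
      x ∈ (s34i47c_V0 (K := K) M' q hq hM' hπ).toSubring :=
    fun x hx => (s34i47c_mem_V0 (K := K) M' q hq hM' hπ x).2
      ((s34i47c_mem_W (K := K) M' q hq hM' hπ x).1 hx).2
  have hWof : ∀ x, x ∈ (cm85_Vinf (K := K) (M' * q) hπ).toSubring →
      x ∈ (s34i47c_V0 (K := K) M' q hq hM' hπ).toSubring →
      x ∈ s34i47c_W (K := K) M' q hq hM' hπ :=
    fun x h1 h2 => (s34i47c_mem_W (K := K) M' q hq hM' hπ x).2
      ⟨h1, (s34i47c_mem_V0 (K := K) M' q hq hM' hπ x).1 h2⟩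
  have hs₁ : ({h} : Set ↥(modularFunctionFieldFullC K (M' * q))) ⊆ {h, h⁻¹} := by
    intro x hx
    rw [Set.mem_singleton_iff] at hx
    subst hx
    exact Set.mem_insert _ _
  have hs₂ : ({h⁻¹} : Set ↥(modularFunctionFieldFullC K (M' * q))) ⊆ {h, h⁻¹} := by
    intro x hx
    rw [Set.mem_singleton_iff] at hx
    subst hx
    exact Set.mem_insert_of_mem _ (Set.mem_singleton _)
  constructor
  · haveI := hN₁
    exact sf79_locStr π _ _ _ (fun x hx => hW₁ x (hsub _ hs₁ x hx))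
      (fun x hx => hW₂ x (hsub _ hs₁ x hx)) hπ₁ hπ₂ hV₁ hV₂
      (fun x hx h1 h2 => hsat₁ x hx (hWof _ h1 h2)) hS₁ (hZ₁ hS₁) hT₁ hU₁
  · haveI := hN₂
    exact sf79_locStr π _ _ _ (fun x hx => hW₁ x (hsub _ hs₂ x hx))
      (fun x hx => hW₂ x (hsub _ hs₂ x hx)) hπ₁ hπ₂ hV₁ hV₂
      (fun x hx h1 h2 => hsat₂ x hx (hWof _ h1 h2)) hS₂ (hZ₂ hS₂) hT₂ hU₂

/-- **S34 after the last mile of the first route**: the hypotheses and the conclusion of the
frozen statement S34 after the two closed `Prop`s `s34g51_Pkg_SmoothInf`, `s34g51_Pkg_Transv`. -/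
theorem s34g51_result_of_smooth_transv (hS : s34g51_Pkg_SmoothInf) (hT : s34g51_Pkg_Transv)
    {𝒪 : Type} [CommRing 𝒪] [IsDomain 𝒪] [IsDiscreteValuationRing 𝒪]
    [IsAdicComplete (IsLocalRing.maximalIdeal 𝒪) 𝒪]
    {p : ℕ} (hp : p.Prime) (hp𝒪 : (p : 𝒪) ∈ IsLocalRing.maximalIdeal 𝒪)
    {N : ℕ} [NeZero N] {S : Finset ℕ} (hpS : p ∈ S) (hNS : ∀ q : ℕ, q.Prime → q ∣ N → q ∈ S)
    {θ : CuspForm.heckeAlgebra N 2 (↑S : Set ℕ) →+* IsLocalRing.ResidueField 𝒪}
    {T : Type} [CommRing T] [IsLocalRing T] [IsNoetherianRing T]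
    [IsAdicComplete (IsLocalRing.maximalIdeal T) T] [Algebra 𝒪 T] [IsLocalHom (algebraMap 𝒪 T)]
    [Module.Finite 𝒪 T] [Module.Free 𝒪 T]
    (H : CuspForm.HeckeGaloisRepDatum N (↑S : Set ℕ) 𝒪 θ T)
    (q : ℕ) (hq : q.Prime) (hqp : q ≠ p) (hqN : q ∣ N) (hq2 : ¬ q ^ 2 ∣ N) :
    H.ρ.IsUnipotentOnInertiaAt q :=
  s34g51_result_route1 (s34g51_frameLS_of hS hT) hp hp𝒪 hpS hNS H q hq hqp hqN hq2

end Fermat.Agent.S34
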