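import Fermat.Agent.S34.FrameLS7
import Fermat.Agent.S34.BranchInf93
import Fermat.Agent.S34.AtkinLehnerVal73

/-!
# S34 lab (helper7): (3a) for the `∞`-branch of the canonical frame, closed

* `fl7_F1` : residue degree one of `V_∞ = cm85_Vinf (M' * q)` over the Gauss ring of level `M'`
  in the literal shape `bi93_F1 M' (M' * q) (dvd_mul_right M' q) hπ` (from `alv73_main`).
* `fl7_smooth_of_unif` : `bi93_Unif` (helper93) gives `sf79_Smooth` for the `∞`-branch.
* `fl7_smoothInf` : `fl7_SmoothInf M' q` (every admissible Hauptmodul, both affine charts).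
* `fl7_pkg_smoothInf` : `fl7_Pkg_SmoothInf`.
* `fl7_pkg_frameLS_of_transv` : `fl7_Pkg_TransvOf → s34i47c_Pkg_FrameLS`: FRAME-LS is reduced to
  transversality (3b) alone.

All names are prefixed `fl7_`.
-/

set_option autoImplicit false
set_option linter.unusedSectionVars false
set_option linter.style.haveILetI false

open ModularCurve AlgebraicCurve

namespace Fermat.Agent.S34

open Fermat.Agent.S18 Fermat.Agent.S24

local notation "Q̄" => AlgebraicClosure ℚ

section fl7_inf

variable {R K : Type} [CommRing R] [IsDomain R] [IsDiscreteValuationRing R] [Field K] [CharZero K]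
  [Algebra R K] [IsFractionRing R K]

/-- **Residue degree one** of the Gauss ring of level `M' * q` over that of level `M'`, in the
literal shape `bi93_F1`. -/
theorem fl7_F1 [Algebra K Q̄] [Algebra.IsAlgebraic K Q̄] (M' q : ℕ) [NeZero M'] [NeZero q] (hq : q.Prime) (hM' : ¬ q ∣ M')
    [Algebra R ↥(modularFunctionFieldFullC K M')]
    [IsScalarTower R K ↥(modularFunctionFieldFullC K M')]
    [Algebra R ↥(modularFunctionFieldFullC K (M' * q))]
    [IsScalarTower R K ↥(modularFunctionFieldFullC K (M' * q))] {π : R} (hπ : Irreducible π)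
    (hqR : ¬ IsUnit (q : R)) :
    bi93_F1 (K := K) M' (M' * q) (dvd_mul_right M' q) hπ := by
  intro x hx
  obtain ⟨-, -, h3⟩ := alv73_main (algebraMap K Q̄) M' q hq hM' hπ hqR
  obtain ⟨b, hb, hxb⟩ := h3 x hx
  refine ⟨b, hb, ?_⟩
  have h1 : cm15_incl K M' (M' * q) (dvd_mul_right M' q) b = al97L_alpha K M' q b :=
    Subtype.ext (by rw [cm15_incl_coe, al97L_alpha_coe])
  rw [h1, alv73_pi_eq]
  exact hxb

/-- `bi93_Unif` gives `sf79_Smooth` for the `∞`-branch. -/
theorem fl7_smooth_of_unif (M' M : ℕ) [NeZero M'] [NeZero M]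
    [Algebra R ↥(modularFunctionFieldFullC K M')]
    [IsScalarTower R K ↥(modularFunctionFieldFullC K M')]
    [Algebra R ↥(modularFunctionFieldFullC K M)]
    [IsScalarTower R K ↥(modularFunctionFieldFullC K M)]
    (hdvd : M' ∣ M) {π : R} (hπ : Irreducible π)
    (s' : Set ↥(modularFunctionFieldFullC K M')) (s : Set ↥(modularFunctionFieldFullC K M))
    (hU : bi93_Unif M' M hdvd hπ s' s) :
    sf79_Smooth π (pk15_chart R s) (cm85_Vinf (K := K) M hπ).toSubring := by
  intro n hn _ hOn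
  obtain ⟨z', -, z, hz, -, hgen⟩ := hU n hn.isPrime (fun x hx => hOn x hx)
  exact ⟨z, hz, hgen⟩

end fl7_inf

/-- **(3a) for the `∞`-branch** of the canonical frame at level `M' * q`. -/
theorem fl7_smoothInf (M' q : ℕ) [NeZero M'] [NeZero q] (hq : q.Prime) (hM' : ¬ q ∣ M') :
    fl7_SmoothInf M' q := by
  intro R K _ _ _ _ _ _ _ _ _ _ π hπ hunit hqR h hh
  haveI : Algebra.IsAlgebraic K Q̄ := fs85_isAlgebraic K
  letI : Algebra R ↥(modularFunctionFieldFullC K M') :=
    ((algebraMap K ↥(modularFunctionFieldFullC K M')).comp (algebraMap R K)).toAlgebra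
  haveI : IsScalarTower R K ↥(modularFunctionFieldFullC K M') :=
    IsScalarTower.of_algebraMap_eq (fun _ => rfl)
  have hdvd : M' ∣ M' * q := dvd_mul_right M' q
  have hMu : IsUnit (M' : R) := hunit M' ((Nat.Prime.coprime_iff_not_dvd hq).mpr hM').symm
  have hf1 : bi93_F1 (K := K) M' (M' * q) hdvd hπ := fl7_F1 (R := R) (K := K) M' q hq hM' hπ hqR
  rcases hh with ⟨hq2, h2, rfl⟩ | ⟨hq3, h3, rfl⟩
  · have hcop : Nat.Coprime 2 q := (Nat.coprime_primes Nat.prime_two hq).mpr (Ne.symm hq2)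
    have h2' : 2 ∣ M' := hcop.dvd_of_dvd_mul_right h2
    obtain ⟨⟨-, hU₁⟩, ⟨-, hU₂⟩⟩ :=
      bi93_level2 (R := R) (K := K) M' (M' * q) hdvd hπ h2' hMu hf1
    exact ⟨fl7_smooth_of_unif M' (M' * q) hdvd hπ _ _ hU₁,
      fl7_smooth_of_unif M' (M' * q) hdvd hπ _ _ hU₂⟩
  · have hcop : Nat.Coprime 3 q := (Nat.coprime_primes Nat.prime_three hq).mpr (Ne.symm hq3)
    have h3' : 3 ∣ M' := hcop.dvd_of_dvd_mul_right h3
    obtain ⟨⟨-, hU₁⟩, ⟨-, hU₂⟩⟩ :=
      bi93_level3 (R := R) (K := K) M' (M' * q) hdvd hπ h3' hMu hf1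
    exact ⟨fl7_smooth_of_unif M' (M' * q) hdvd hπ _ _ hU₁,
      fl7_smooth_of_unif M' (M' * q) hdvd hπ _ _ hU₂⟩

/-- **The package (3a) for the `∞`-branch.** -/
theorem fl7_pkg_smoothInf : fl7_Pkg_SmoothInf :=
  fun M' q _ _ hq hM' => fl7_smoothInf M' q hq hM'

/-- **FRAME-LS from transversality (3b) alone** (weak form: the producer may assume smoothness of
both branches). -/
theorem fl7_pkg_frameLS_of_transv (hTr : fl7_Pkg_TransvOf) : s34i47c_Pkg_FrameLS :=
  fl7_pkg_frameLS' fl7_pkg_smoothInf hTr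

end Fermat.Agent.S34
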