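import Fermat.Agent.S34.LocStrW58b
import Fermat.Agent.S34.AtkinLehnerCanon97

/-!
# S34 lab (helper58): FRAME-LS′ from FRAME-SAT and the branch data (3a) + (3b)

For the canonical frame data of `Iface47c` at level `M' * q` (`V_∞ = cm85_Vinf`,
`V_0 = s34i47c_V0`, `h` an admissible Hauptmodul) this file reduces the package
`s34i47d_FrameLSW M' q` (Iface47d, the route without exact node equations) to

* `s34i47c_FrameSat M' q hq hM'` (saturation of the charts in `W = V_∞ ⊓ V_0`), and
* `fl58_BranchData M' q hq hM'` : for both affine charts `B` of every admissible Hauptmodul,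
  - (3a) the uniformiser property of the branch `B ∩ π V_∞` at every maximal ideal on it,
  - (3a) the same for the branch `B ∩ π V_0`,
  - (3b) transversality `n B_n = (B ∩ π V_∞) B_n + (B ∩ π V_0) B_n` at the maximal ideals on
    both branches.

Everything else needed by the abstract assembly `lsw58b_exists_locStrW` is proved here:
the branches are prime ideals containing `π` (valuation rings with uniformiser `π`) and they
are NOT maximal ideals, because the chart coordinate `g ∈ {h, h⁻¹}` is a unit of `V_∞` and of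
`V_0` whose reduction is transcendental over the residue field of `R`
(`fl58_T_Vinf`, `fl58_T_V0`, from `h70_h2_transcendental` / `h34_h3R_transcendental`, the Gauss
criterion `pk85_gauss` and `w ∘ α = β`).

* `fl58_frameLSW_of` : `FrameSat → BranchData → FrameLSW` (one level);
* `fl58_pkg_frameLSW_of` : the package form.
-/

set_option autoImplicit false
set_option linter.unusedSectionVars false
set_option linter.style.haveILetI false

namespace Fermat.Agent.S34

open ModularCurve AlgebraicCurve IntermediateField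
open Fermat.Agent.S24 Fermat.Agent.S37 Fermat.Agent.S18 Fermat.Agent.S28

local notation "Q̄" => AlgebraicClosure ℚ

/-! ### Transcendence over a field of Laurent series -/

section transc

variable {k : Type*} [Field k]

theorem fl58_transc_of_mul_eq_one (x x' : LaurentSeries k) (hx : Transcendental k x)
    (h : x * x' = 1) : Transcendental k x' := by
  have e : x' = x⁻¹ := (inv_eq_of_mul_eq_one_right h).symm
  rw [e]
  exact cap87_transcendental_inv x hx

theorem fl58_transc_qExpand (N : ℕ) [NeZero N] (x : LaurentSeries k) (hx : Transcendental k x) :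
    Transcendental k (qExpand k N x) := by
  intro halg
  apply hx
  have h1 : IsAlgebraic k (qExpandAlgHomC k N x) := halg
  exact (isAlgebraic_algHom_iff (qExpandAlgHomC k N) (qExpand_injective (R := k) N)).mp h1

end transc

/-! ### The weak transcendence property (T) for the Gauss ring -/

section gauss

variable {R K : Type} [CommRing R] [IsDomain R] [IsDiscreteValuationRing R] [Field K]
  [Algebra R K] [IsFractionRing R K] (M : ℕ) [NeZero M]
  [Algebra R ↥(modularFunctionFieldFullC K M)]
  [IsScalarTower R K ↥(modularFunctionFieldFullC K M)]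

/-- The `q`-expansion of a polynomial in `g` with coefficients in `R`. -/
theorem fl58_coe_aeval (g : ↥(modularFunctionFieldFullC K M)) (s : LaurentSeries R)
    (hgs : (g : LaurentSeries K) = coeffMap (algebraMap R K) s) (P : Polynomial R) :
    ((Polynomial.aeval g P : ↥(modularFunctionFieldFullC K M)) : LaurentSeries K) =
      coeffMap (algebraMap R K) (Polynomial.eval₂ HahnSeries.C s P) := by
  have key : ((modularFunctionFieldFullC K M).val.toRingHom.comp
        (Polynomial.aeval g : Polynomial R →ₐ[R] ↥(modularFunctionFieldFullC K M)).toRingHom) =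
      (coeffMap (algebraMap R K)).comp (Polynomial.eval₂RingHom HahnSeries.C s) := by
    apply Polynomial.ringHom_ext
    · intro a
      simp only [RingHom.coe_comp, AlgHom.toRingHom_eq_coe, RingHom.coe_coe, Function.comp_apply,
        Polynomial.aeval_C, Polynomial.coe_eval₂RingHom, Polynomial.eval₂_C]
      rw [IsScalarTower.algebraMap_apply R K ↥(modularFunctionFieldFullC K M), gv85_coeffMap_C]
      exact gv85_coe_algebraMap (modularFunctionFieldFullC K M) (algebraMap R K a)
    · simp only [RingHom.coe_comp, AlgHom.toRingHom_eq_coe, RingHom.coe_coe, Function.comp_apply,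
        Polynomial.aeval_X, Polynomial.coe_eval₂RingHom, Polynomial.eval₂_X]
      exact hgs
  exact congrArg (fun φ : Polynomial R →+* LaurentSeries K => φ P) key

/-- **(T) for `V_∞`**: if `g` has an `R`-integral expansion `s` whose reduction is transcendental
over the residue field, then `π⁻¹ P(g) ∈ V_∞` forces `π ∣ P(0)`. -/
theorem fl58_T_Vinf {π : R} (hπ : Irreducible π) (g : ↥(modularFunctionFieldFullC K M))
    (s : LaurentSeries R) (hgs : (g : LaurentSeries K) = coeffMap (algebraMap R K) s)
    (htr : Transcendental (IsLocalRing.ResidueField R) (coeffMap (IsLocalRing.residue R) s))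
    (P : Polynomial R)
    (hP : (algebraMap R ↥(modularFunctionFieldFullC K M) π)⁻¹ * Polynomial.aeval g P ∈
      cm85_Vinf (K := K) M hπ) : π ∣ P.coeff 0 := by
  have h1 : coeffMap (IsLocalRing.residue R) (Polynomial.eval₂ HahnSeries.C s P) = 0 :=
    (pk85_gauss M hπ (Polynomial.aeval g P) _ (fl58_coe_aeval M g s hgs P)).2.mp hP
  have h2 : coeffMap (IsLocalRing.residue R) (Polynomial.eval₂ HahnSeries.C s P) =
      Polynomial.aeval (coeffMap (IsLocalRing.residue R) s)
        (P.map (IsLocalRing.residue R)) := by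
    rw [Polynomial.hom_eval₂, Polynomial.aeval_def, Polynomial.eval₂_map]
    congr 1
    ext a : 1
    simp only [RingHom.coe_comp, Function.comp_apply]
    rw [gv85_coeffMap_C, h63_algebraMap_eq_C]
  rw [h2] at h1
  have h3 : P.map (IsLocalRing.residue R) = 0 := transcendental_iff.mp htr _ h1
  have h4 : IsLocalRing.residue R (P.coeff 0) = 0 := by
    rw [← Polynomial.coeff_map, h3, Polynomial.coeff_zero]
  exact (pk85_res_iff hπ _).mp h4

end gauss

/-! ### (T) for `V_0`, and for the Hauptmoduln -/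

section canon

variable {R K : Type} [CommRing R] [IsDomain R] [IsDiscreteValuationRing R] [Field K]
  [CharZero K] [Algebra R K] [IsFractionRing R K] [Algebra K Q̄]
  (M' q : ℕ) [NeZero M'] [NeZero q] (hq : q.Prime) (hM' : ¬ q ∣ M')
  {π : R} (hπ : Irreducible π)
  [Algebra R ↥(modularFunctionFieldFullC K (M' * q))]
  [IsScalarTower R K ↥(modularFunctionFieldFullC K (M' * q))]

/-- **(T) for `V_0`**: if `w g` has an `R`-integral expansion `s` whose reduction is
transcendental over the residue field, then `π⁻¹ P(g) ∈ V_0` forces `π ∣ P(0)`. -/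
theorem fl58_T_V0 (g : ↥(modularFunctionFieldFullC K (M' * q))) (s : LaurentSeries R)
    (hws : ((al97L_w (algebraMap K Q̄) M' q hq hM' g : ↥(modularFunctionFieldFullC K (M' * q))) :
      LaurentSeries K) = coeffMap (algebraMap R K) s)
    (htr : Transcendental (IsLocalRing.ResidueField R) (coeffMap (IsLocalRing.residue R) s))
    (P : Polynomial R)
    (hP : (algebraMap R ↥(modularFunctionFieldFullC K (M' * q)) π)⁻¹ * Polynomial.aeval g P ∈
      s34i47c_V0 (K := K) M' q hq hM' hπ) : π ∣ P.coeff 0 := by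
  have h1 : al97L_w (algebraMap K Q̄) M' q hq hM'
      ((algebraMap R ↥(modularFunctionFieldFullC K (M' * q)) π)⁻¹ * Polynomial.aeval g P) ∈
      cm85_Vinf (K := K) (M' * q) hπ := hP
  have h2 : al97L_w (algebraMap K Q̄) M' q hq hM'
      ((algebraMap R ↥(modularFunctionFieldFullC K (M' * q)) π)⁻¹ * Polynomial.aeval g P) =
      (algebraMap R ↥(modularFunctionFieldFullC K (M' * q)) π)⁻¹ *
        Polynomial.aeval (al97L_w (algebraMap K Q̄) M' q hq hM' g) P := by
    have e1 : al97L_w (algebraMap K Q̄) M' q hq hM'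
        (algebraMap R ↥(modularFunctionFieldFullC K (M' * q)) π) =
        algebraMap R ↥(modularFunctionFieldFullC K (M' * q)) π := by
      rw [IsScalarTower.algebraMap_apply R K ↥(modularFunctionFieldFullC K (M' * q)),
        AlgEquiv.commutes]
    have e2 : al97L_w (algebraMap K Q̄) M' q hq hM' (Polynomial.aeval g P) =
        Polynomial.aeval (al97L_w (algebraMap K Q̄) M' q hq hM' g) P :=
      (Polynomial.aeval_algHom_apply
        ((al97L_w (algebraMap K Q̄) M' q hq hM' :
          ↥(modularFunctionFieldFullC K (M' * q)) →ₐ[K]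
            ↥(modularFunctionFieldFullC K (M' * q))).restrictScalars R) g P).symm
    rw [map_mul, map_inv₀, e1, e2]
  rw [h2] at h1
  exact fl58_T_Vinf (M' * q) hπ _ s hws htr P h1

include hq in
/-- The expansions of an admissible Hauptmodul and of its Atkin–Lehner transform. -/
theorem fl58_haupt_data (h : ↥(modularFunctionFieldFullC K (M' * q)))
    (hh : s34i47c_IsHaupt K (M' * q) q h) :
    ∃ s s' : LaurentSeries R, s * s' = 1 ∧
      (h : LaurentSeries K) = coeffMap (algebraMap R K) s ∧
      ((al97L_w (algebraMap K Q̄) M' q hq hM' h : ↥(modularFunctionFieldFullC K (M' * q))) :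
        LaurentSeries K) = coeffMap (algebraMap R K) (qExpand R q s) ∧
      Transcendental (IsLocalRing.ResidueField R) (coeffMap (IsLocalRing.residue R) s) := by
  rcases hh with ⟨hq2, h2, rfl⟩ | ⟨hq3, h3, rfl⟩
  · have h2' : 2 ∣ M' := by
      rcases (Nat.Prime.dvd_mul Nat.prime_two).mp h2 with h | h
      · exact h
      · exact absurd ((Nat.prime_dvd_prime_iff_eq Nat.prime_two hq).mp h).symm hq2
    refine ⟨h70_h2 R, h70_h2inv R, h70_h2_mul_h2inv R, ?_, ?_, ?_⟩
    · rw [pk85_h2_coe, h70_coeffMap_h2]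
    · rw [al97L_w_alpha (algebraMap K Q̄) M' q hq hM' (pk85_h2 K M' h2') _
        (by rw [pk85_h2_coe, pk85_h2_coe]), pk85_h2_coe, coeffMap_qExpand, h70_coeffMap_h2]
    · rw [h70_coeffMap_h2]
      exact h70_h2_transcendental _
  · have h3' : 3 ∣ M' := by
      rcases (Nat.Prime.dvd_mul Nat.prime_three).mp h3 with h | h
      · exact h
      · exact absurd ((Nat.prime_dvd_prime_iff_eq Nat.prime_three hq).mp h).symm hq3
    refine ⟨h34_h3R R, h34_h3Rinv R, h34_h3R_mul_inv R, ?_, ?_, ?_⟩
    · rw [pk85_h3_coe, h34_coeffMap_h3R]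
    · rw [al97L_w_alpha (algebraMap K Q̄) M' q hq hM' (pk85_h3 K M' h3') _
        (by rw [pk85_h3_coe, pk85_h3_coe]), pk85_h3_coe, coeffMap_qExpand, h34_coeffMap_h3R]
    · rw [h34_coeffMap_h3R]
      exact h34_h3R_transcendental _

/-- **(T) for the chart coordinates** `g = h` and `g = h⁻¹` of an admissible Hauptmodul, along
`V_∞` and along `V_0`. -/
theorem fl58_T_haupt (h : ↥(modularFunctionFieldFullC K (M' * q)))
    (hh : s34i47c_IsHaupt K (M' * q) q h) (g : ↥(modularFunctionFieldFullC K (M' * q)))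
    (hg : g = h ∨ g = h⁻¹) :
    (∀ P : Polynomial R,
      (algebraMap R ↥(modularFunctionFieldFullC K (M' * q)) π)⁻¹ * Polynomial.aeval g P ∈
        cm85_Vinf (K := K) (M' * q) hπ → π ∣ P.coeff 0) ∧
    (∀ P : Polynomial R,
      (algebraMap R ↥(modularFunctionFieldFullC K (M' * q)) π)⁻¹ * Polynomial.aeval g P ∈
        s34i47c_V0 (K := K) M' q hq hM' hπ → π ∣ P.coeff 0) := by
  obtain ⟨s, s', hss', hs, hws, htr⟩ := fl58_haupt_data (R := R) M' q hq hM' h hh
  have hres : coeffMap (IsLocalRing.residue R) s * coeffMap (IsLocalRing.residue R) s' = 1 := by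
    rw [← map_mul, hss', map_one]
  have htr' : Transcendental (IsLocalRing.ResidueField R) (coeffMap (IsLocalRing.residue R) s') :=
    fl58_transc_of_mul_eq_one _ _ htr hres
  rcases hg with rfl | rfl
  · refine ⟨fun P hP => fl58_T_Vinf (M' * q) hπ g s hs htr P hP,
      fun P hP => fl58_T_V0 M' q hq hM' hπ g (qExpand R q s) hws ?_ P hP⟩
    rw [coeffMap_qExpand]
    exact fl58_transc_qExpand q _ htr
  · have hK : coeffMap (algebraMap R K) s * coeffMap (algebraMap R K) s' = 1 := by
      rw [← map_mul, hss', map_one]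
    have hs' : ((h⁻¹ : ↥(modularFunctionFieldFullC K (M' * q))) : LaurentSeries K) =
        coeffMap (algebraMap R K) s' := by
      have e : ((h⁻¹ : ↥(modularFunctionFieldFullC K (M' * q))) : LaurentSeries K) =
          ((h : ↥(modularFunctionFieldFullC K (M' * q))) : LaurentSeries K)⁻¹ := rfl
      rw [e, hs]
      exact inv_eq_of_mul_eq_one_right hK
    have hKq : coeffMap (algebraMap R K) (qExpand R q s) *
        coeffMap (algebraMap R K) (qExpand R q s') = 1 := by
      rw [← map_mul, ← map_mul, hss', map_one, map_one]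
    have hws' : ((al97L_w (algebraMap K Q̄) M' q hq hM' h⁻¹ :
        ↥(modularFunctionFieldFullC K (M' * q))) : LaurentSeries K) =
        coeffMap (algebraMap R K) (qExpand R q s') := by
      rw [map_inv₀]
      have e : (((al97L_w (algebraMap K Q̄) M' q hq hM' h)⁻¹ :
          ↥(modularFunctionFieldFullC K (M' * q))) : LaurentSeries K) =
          ((al97L_w (algebraMap K Q̄) M' q hq hM' h :
            ↥(modularFunctionFieldFullC K (M' * q))) : LaurentSeries K)⁻¹ := rfl
      rw [e, hws]
      exact inv_eq_of_mul_eq_one_right hKq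
    refine ⟨fun P hP => fl58_T_Vinf (M' * q) hπ _ s' hs' htr' P hP,
      fun P hP => fl58_T_V0 M' q hq hM' hπ _ (qExpand R q s') hws' ?_ P hP⟩
    rw [coeffMap_qExpand]
    exact fl58_transc_qExpand q _ htr'

end canon

/-! ### The branch data (3a) + (3b), and the reduction of FRAME-LS′ to it -/

section defs

variable {R F : Type*} [CommRing R] [Field F] [Algebra R F]

/-- **(3a)** for the branch `B ∩ π V` of the chart `B`: at every maximal ideal `n ∋ π` on the
branch there is a uniformiser `z` of the branch, `n B_n = z B_n + (B ∩ π V) B_n`. -/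
def fl58_Smooth (π : R) (B : Subalgebra R F) (V : Subring F) : Prop :=
  ∀ n : Ideal B, n.IsMaximal → algebraMap R B π ∈ n →
    (∀ x : B, (algebraMap R F π)⁻¹ * (x : F) ∈ V → x ∈ n) →
    ∃ z : B, z ∈ n ∧ ∀ x ∈ n, ∃ s : B, s ∉ n ∧ ∃ a : B,
      (algebraMap R F π)⁻¹ * ((s * x - a * z : B) : F) ∈ V

/-- **(3b)** transversality of the two branches `B ∩ π V₁`, `B ∩ π V₂` at the maximal ideals
`n ∋ π` lying on both: `n B_n = (B ∩ π V₁) B_n + (B ∩ π V₂) B_n`. -/
def fl58_Transv (π : R) (B : Subalgebra R F) (V₁ V₂ : Subring F) : Prop :=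
  ∀ n : Ideal B, n.IsMaximal → algebraMap R B π ∈ n →
    (∀ x : B, (algebraMap R F π)⁻¹ * (x : F) ∈ V₁ → x ∈ n) →
    (∀ x : B, (algebraMap R F π)⁻¹ * (x : F) ∈ V₂ → x ∈ n) →
    ∀ x ∈ n, ∃ s : B, s ∉ n ∧ ∃ y y' : B, s * x = y + y' ∧
      (algebraMap R F π)⁻¹ * (y : F) ∈ V₁ ∧ (algebraMap R F π)⁻¹ * (y' : F) ∈ V₂

end defs

/-- **BRANCH DATA** at level `M' * q` (P3 (3a) + (3b)): for both affine charts
`B = pk15_chart R {g}`, `g ∈ {h, h⁻¹}`, of every admissible Hauptmodul `h`: (3a) along `V_∞`,
(3a) along `V_0`, and (3b).  Same binder block as `s34i47d_FrameLSW`. -/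
def fl58_BranchData (M' q : ℕ) [NeZero M'] [NeZero q] (hq : q.Prime) (hM' : ¬ q ∣ M') : Prop :=
  ∀ (R K : Type) [CommRing R] [IsDomain R] [IsDiscreteValuationRing R] [Field K] [NumberField K]
    [Algebra K Q̄] [Algebra R K] [IsFractionRing R K]
    [Algebra R ↥(modularFunctionFieldFullC K (M' * q))]
    [IsScalarTower R K ↥(modularFunctionFieldFullC K (M' * q))] (π : R) (hπ : Irreducible π),
    (∀ n : ℕ, Nat.Coprime n q → IsUnit (n : R)) → ¬ IsUnit (q : R) →
    ∀ h : ↥(modularFunctionFieldFullC K (M' * q)), s34i47c_IsHaupt K (M' * q) q h →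
    ∀ g : ↥(modularFunctionFieldFullC K (M' * q)), g = h ∨ g = h⁻¹ →
      fl58_Smooth π (pk15_chart R ({g} : Set ↥(modularFunctionFieldFullC K (M' * q))))
        (cm85_Vinf (K := K) (M' * q) hπ).toSubring ∧
      fl58_Smooth π (pk15_chart R ({g} : Set ↥(modularFunctionFieldFullC K (M' * q))))
        (s34i47c_V0 (K := K) M' q hq hM' hπ).toSubring ∧
      fl58_Transv π (pk15_chart R ({g} : Set ↥(modularFunctionFieldFullC K (M' * q))))
        (cm85_Vinf (K := K) (M' * q) hπ).toSubring
        (s34i47c_V0 (K := K) M' q hq hM' hπ).toSubring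

/-- **FRAME-LS′ from FRAME-SAT and the branch data.** -/
theorem fl58_frameLSW_of (M' q : ℕ) [NeZero M'] [NeZero q] (hq : q.Prime) (hM' : ¬ q ∣ M')
    (hSat : s34i47c_FrameSat M' q hq hM') (hBr : fl58_BranchData M' q hq hM') :
    s34i47d_FrameLSW M' q := by
  intro R K _ _ _ _ _ _ _ _ _ _ π hπ hunit hqR h hh
  obtain ⟨-, hC⟩ := hSat R K π hπ hunit hqR
  obtain ⟨htrK, -, hsat₁, hsat₂, -⟩ := hC h hh
  have hh0 : h ≠ 0 := cap87_ne_zero h htrK
  have hπV₁ := al97C_pi_inv_not_mem_Vinf (R := R) (K := K) M' q hπ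
  have hπV₂ := al97C_pi_inv_not_mem_V0 (R := R) (K := K) M' q hq hM' hπ
  have hπ0 : algebraMap R ↥(modularFunctionFieldFullC K (M' * q)) π ≠ 0 := by
    intro h0
    apply hπV₁
    rw [h0, inv_zero]
    exact zero_mem _
  have hhW := al97C_haupt_mem_W (R := R) M' q hq hM' hπ h hh
  have hhW' := al97C_haupt_inv_mem_W (R := R) M' q hq hM' hπ h hh
  rw [s34i47c_mem_W] at hhW hhW'
  have key : ∀ g : ↥(modularFunctionFieldFullC K (M' * q)), g = h ∨ g = h⁻¹ →
      (∀ x ∈ pk15_chart R ({g} : Set ↥(modularFunctionFieldFullC K (M' * q))),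
        (algebraMap R ↥(modularFunctionFieldFullC K (M' * q)) π)⁻¹ * x ∈
          s34i47c_W (K := K) M' q hq hM' hπ →
        (algebraMap R ↥(modularFunctionFieldFullC K (M' * q)) π)⁻¹ * x ∈
          pk15_chart R ({g} : Set ↥(modularFunctionFieldFullC K (M' * q)))) →
      ∃ P₁ P₂ : Ideal (pk15_chart R ({g} : Set ↥(modularFunctionFieldFullC K (M' * q)))),
        P₁.IsPrime ∧ P₂.IsPrime ∧ algebraMap R _ π ∈ P₁ ∧ algebraMap R _ π ∈ P₂ ∧
        s34i47d_LocStrW π (pk15_chart R ({g} : Set ↥(modularFunctionFieldFullC K (M' * q))))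
          P₁ P₂ := by
    intro g hg hsatg
    obtain ⟨hu₁, hu₂, htr⟩ := hBr R K π hπ hunit hqR h hh g hg
    obtain ⟨hT₁, hT₂⟩ := fl58_T_haupt (R := R) M' q hq hM' hπ h hh g hg
    have hsub : ({g} : Set ↥(modularFunctionFieldFullC K (M' * q))) ⊆ {h, h⁻¹} := by
      intro x hx
      rw [Set.mem_singleton_iff] at hx
      subst hx
      rcases hg with rfl | rfl
      · exact Set.mem_insert _ _
      · exact Set.mem_insert_of_mem _ rfl
    have hBW := al97C_chart_le_W (R := R) M' q hq hM' hπ h hh _ hsub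
    have hg0 : g ≠ 0 := by
      rcases hg with rfl | rfl
      · exact hh0
      · exact inv_ne_zero hh0
    have hginv : g⁻¹ ∈ cm85_Vinf (K := K) (M' * q) hπ ∧
        g⁻¹ ∈ s34i47c_V0 (K := K) M' q hq hM' hπ := by
      rcases hg with rfl | rfl
      · exact ⟨hhW'.1, hhW'.2⟩
      · rw [inv_inv]
        exact ⟨hhW.1, hhW.2⟩
    refine lsw58b_exists_locStrW π hπ0 hπ.not_isUnit
      (pk15_chart R ({g} : Set ↥(modularFunctionFieldFullC K (M' * q))))
      (cm85_Vinf (K := K) (M' * q) hπ).toSubring
      (s34i47c_V0 (K := K) M' q hq hM' hπ).toSubring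
      (fun x hx => ((s34i47c_mem_W M' q hq hM' hπ x).mp (hBW x hx)).1)
      (fun x hx => ((s34i47c_mem_W M' q hq hM' hπ x).mp (hBW x hx)).2)
      hπV₁ hπV₂ ?_ ?_ ?_ g hg0 (pk15_subset_chart _ (Set.mem_singleton g)) hginv.1 hginv.2
      (fun y hy => hy) hT₁ hT₂ hu₁ hu₂ htr
    · intro x hx hx'
      by_contra hcon
      exact hx' (c1g55_hmax hπ x hx hcon)
    · intro x hx hx'
      by_contra hcon
      exact hx' (al97C_hmax_V0 (R := R) M' q hq hM' hπ x hx hcon)
    · intro x hx h1 h2
      exact hsatg x hx ((s34i47c_mem_W M' q hq hM' hπ _).mpr ⟨h1, h2⟩)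
  exact ⟨key h (Or.inl rfl) hsat₁, key h⁻¹ (Or.inr rfl) hsat₂⟩

/-- **Package form**: FRAME-SAT and the branch data at every level give the package
`s34i47d_Pkg_FrameLSW`. -/
theorem fl58_pkg_frameLSW_of (hSat : s34i47c_Pkg_FrameSat)
    (hBr : ∀ (M' q : ℕ) [NeZero M'] [NeZero q] (hq : q.Prime) (hM' : ¬ q ∣ M'),
      fl58_BranchData M' q hq hM') : s34i47d_Pkg_FrameLSW :=
  fun M' q _ _ hq hM' => fl58_frameLSW_of M' q hq hM' (hSat M' q hq hM') (hBr M' q hq hM')

end Fermat.Agent.S34
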