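import Mathlib
import Fermat.Agent.S34.Iface47d
import Fermat.Agent.S34.LocStr63

/-!
# S34 lab (helper58): assembling the weak local structure `(LS′)` of a chart from its two branches

`s34i47d_LocStrW π B P₁ P₂` (interface part d of helper47, the route without exact node
equations) asks, at every maximal ideal `n ∋ π` of the chart `B`, for coordinates `z, z' ∈ n`
with `n B_n = (z, z', π)` and either `z' = π` (one-branch point) or
`P₁, P₂ ≤ n`, `z ∈ P₁ ∖ P₂`, `z' ∈ P₂ ∖ P₁`, `z z' ∈ π B` (two-branch point).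

This file is the abstract assembly (Mathlib + the interface only):

* `lsw58_locStrW` : `(LS′)` for two primes `P₁, P₂` of `B` with `P₁ ∩ P₂ = π B` (saturation),
  `P₁ ⊄ P₂`, `P₂ ⊄ P₁`, from
  - `hu₁`, `hu₂` : the uniformiser property of each branch at every maximal `n` on it (step (3a):
    `B ⧸ P_i` is a Dedekind domain), and
  - `htr` : transversality at the points on both branches (step (3b): `n B_n = P₁ B_n + P₂ B_n`);
* `lsw58_locStrW_of_dedekind` : the same with `hu₁`, `hu₂` replaced by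
  `IsDedekindDomain (B ⧸ P₁)`, `IsDedekindDomain (B ⧸ P₂)`;
* `lsw58_branch` : the branch `B ∩ π V` of a chart along a valuation-like subring `V ⊇ B`, a prime
  ideal containing `π` (`lsw58_mem_branch`, `lsw58_branch_isPrime`, `lsw58_pi_mem_branch`);
* `lsw58_exists_locStrW` : the conjunct of `s34i47d_FrameLSW` for one chart `B` with two
  branches `V₁, V₂` (`B` saturated in `V₁ ⊓ V₂`), in valuation form.

No exact node equation, no `U V = q ^ 12`, no cusp analysis is used.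
-/

set_option autoImplicit false

namespace Fermat.Agent.S34

section ideal

variable {R F : Type*} [CommRing R] [Field F] [Algebra R F]

/-- **Assembly of `(LS′)`, ideal form.** -/
theorem lsw58_locStrW (π : R) (B : Subalgebra R F) (P₁ P₂ : Ideal B)
    [hP₁ : P₁.IsPrime] [hP₂ : P₂.IsPrime]
    (hcap : ∀ x : B, x ∈ P₁ → x ∈ P₂ → ∃ c : B, x = algebraMap R B π * c)
    (hne₁₂ : ¬ P₁ ≤ P₂) (hne₂₁ : ¬ P₂ ≤ P₁)
    (hu₁ : ∀ n : Ideal B, n.IsMaximal → P₁ ≤ n →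
      ∃ z ∈ n, ∀ x ∈ n, ∃ s : B, s ∉ n ∧ ∃ a : B, s * x - a * z ∈ P₁)
    (hu₂ : ∀ n : Ideal B, n.IsMaximal → P₂ ≤ n →
      ∃ z ∈ n, ∀ x ∈ n, ∃ s : B, s ∉ n ∧ ∃ a : B, s * x - a * z ∈ P₂)
    (htr : ∀ n : Ideal B, n.IsMaximal → P₁ ≤ n → P₂ ≤ n →
      ∀ x ∈ n, ∃ s : B, s ∉ n ∧ ∃ y ∈ P₁, ∃ y' ∈ P₂, s * x = y + y') :
    s34i47d_LocStrW π B P₁ P₂ := by
  intro n hn hπn
  have hnp : n.IsPrime := hn.isPrime
  -- a one-branch point on the branch `P`, off the branch `P'`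
  have one : ∀ (P P' : Ideal B),
      (∀ x : B, x ∈ P → x ∈ P' → ∃ c : B, x = algebraMap R B π * c) →
      (∃ z ∈ n, ∀ x ∈ n, ∃ s : B, s ∉ n ∧ ∃ a : B, s * x - a * z ∈ P) → ¬ P' ≤ n →
      ∃ z z' : B, z ∈ n ∧ z' ∈ n ∧
        (∀ x ∈ n, ∃ s : B, s ∉ n ∧ ∃ a b c : B,
          s * x = a * z + b * z' + c * algebraMap R B π) ∧
        z' = algebraMap R B π := by
    intro P P' hc hu hP'
    obtain ⟨y, hyP', hyn⟩ := Set.not_subset.mp hP'
    obtain ⟨z, hz, hunif⟩ := hu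
    refine ⟨z, algebraMap R B π, hz, hπn, ?_, rfl⟩
    intro x hx
    obtain ⟨s, hs, a, ha⟩ := hunif x hx
    obtain ⟨c, hc'⟩ := hc (y * (s * x - a * z)) (P.mul_mem_left _ ha) (P'.mul_mem_right _ hyP')
    refine ⟨y * s, fun h => (hnp.mem_or_mem h).elim hyn hs, y * a, 0, c, ?_⟩
    linear_combination hc'
  by_cases h1 : P₁ ≤ n
  · by_cases h2 : P₂ ≤ n
    · -- a point on both branches
      -- a uniformiser of the branch `P₂` inside `P₁`
      obtain ⟨z₀, hz₀, hun₂⟩ := hu₂ n hn h2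
      obtain ⟨s₀, hs₀, y₀, hy₀, y₀', hy₀', e₀⟩ := htr n hn h1 h2 z₀ hz₀
      have hzu : ∀ x ∈ n, ∃ s : B, s ∉ n ∧ ∃ a : B, s * x - a * y₀ ∈ P₂ := by
        intro x hx
        obtain ⟨s, hs, a, ha⟩ := hun₂ x hx
        refine ⟨s₀ * s, fun h => (hnp.mem_or_mem h).elim hs₀ hs, a, ?_⟩
        have e : s₀ * s * x - a * y₀ = s₀ * (s * x - a * z₀) + a * y₀' := by
          linear_combination a * e₀
        rw [e]
        exact P₂.add_mem (P₂.mul_mem_left _ ha) (P₂.mul_mem_left _ hy₀')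
      -- a uniformiser of the branch `P₁` inside `P₂`
      obtain ⟨z₁, hz₁, hun₁⟩ := hu₁ n hn h1
      obtain ⟨s₁, hs₁, y₁, hy₁, y₁', hy₁', e₁⟩ := htr n hn h1 h2 z₁ hz₁
      have hzu' : ∀ x ∈ n, ∃ s : B, s ∉ n ∧ ∃ a : B, s * x - a * y₁' ∈ P₁ := by
        intro x hx
        obtain ⟨s, hs, a, ha⟩ := hun₁ x hx
        refine ⟨s₁ * s, fun h => (hnp.mem_or_mem h).elim hs₁ hs, a, ?_⟩
        have e : s₁ * s * x - a * y₁' = s₁ * (s * x - a * z₁) + a * y₁ := by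
          linear_combination a * e₁
        rw [e]
        exact P₁.add_mem (P₁.mul_mem_left _ ha) (P₁.mul_mem_left _ hy₁)
      refine ⟨y₀, y₁', h1 hy₀, h2 hy₁', ?_, Or.inr ⟨h1, h2, hy₀, ?_, hy₁', ?_, ?_⟩⟩
      · -- generation
        intro x hx
        obtain ⟨s, hs, y, hy, y', hy', e⟩ := htr n hn h1 h2 x hx
        obtain ⟨t, ht, a, ha⟩ := hzu y (h1 hy)
        obtain ⟨t', ht', a', ha'⟩ := hzu' y' (h2 hy')
        obtain ⟨c, hc⟩ := hcap (t * y - a * y₀)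
          (P₁.sub_mem (P₁.mul_mem_left _ hy) (P₁.mul_mem_left _ hy₀)) ha
        obtain ⟨c', hc'⟩ := hcap (t' * y' - a' * y₁') ha'
          (P₂.sub_mem (P₂.mul_mem_left _ hy') (P₂.mul_mem_left _ hy₁'))
        refine ⟨t * t' * s, fun h => (hnp.mem_or_mem h).elim
          (fun h' => (hnp.mem_or_mem h').elim ht ht') hs, t' * a, t * a', t' * c + t * c', ?_⟩
        linear_combination t * t' * e + t' * hc + t * hc'
      · -- `z ∉ P₂`
        intro hz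
        apply hne₁₂
        refine h1.trans ?_
        intro x hx
        obtain ⟨s, hs, a, ha⟩ := hzu x hx
        have h3 : s * x ∈ P₂ := by
          have e : s * x = (s * x - a * y₀) + a * y₀ := by ring
          rw [e]
          exact P₂.add_mem ha (P₂.mul_mem_left _ hz)
        exact (hP₂.mem_or_mem h3).resolve_left fun hs' => hs (h2 hs')
      · -- `z' ∉ P₁`
        intro hz
        apply hne₂₁
        refine h2.trans ?_
        intro x hx
        obtain ⟨s, hs, a, ha⟩ := hzu' x hx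
        have h3 : s * x ∈ P₁ := by
          have e : s * x = (s * x - a * y₁') + a * y₁' := by ring
          rw [e]
          exact P₁.add_mem ha (P₁.mul_mem_left _ hz)
        exact (hP₁.mem_or_mem h3).resolve_left fun hs' => hs (h1 hs')
      · exact hcap (y₀ * y₁') (P₁.mul_mem_right _ hy₀) (P₂.mul_mem_left _ hy₁')
    · obtain ⟨z, z', hz, hz', hgen, hzπ⟩ := one P₁ P₂ hcap (hu₁ n hn h1) h2
      exact ⟨z, z', hz, hz', hgen, Or.inl hzπ⟩
  · have h2 : P₂ ≤ n := by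
      by_contra h2
      obtain ⟨y₁, hy₁, hy₁n⟩ := Set.not_subset.mp h1
      obtain ⟨y₂, hy₂, hy₂n⟩ := Set.not_subset.mp h2
      obtain ⟨c, hc⟩ := hcap (y₁ * y₂) (P₁.mul_mem_right _ hy₁) (P₂.mul_mem_left _ hy₂)
      have h3 : y₁ * y₂ ∈ n := by
        rw [hc]
        exact n.mul_mem_right _ hπn
      exact (hnp.mem_or_mem h3).elim hy₁n hy₂n
    obtain ⟨z, z', hz, hz', hgen, hzπ⟩ :=
      one P₂ P₁ (fun x hx₂ hx₁ => hcap x hx₁ hx₂) (hu₂ n hn h2) h1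
    exact ⟨z, z', hz, hz', hgen, Or.inl hzπ⟩

/-- **Assembly of `(LS′)`, Dedekind form**: both branches have Dedekind quotients (step (3a)),
transversality at the points on both branches (step (3b)). -/
theorem lsw58_locStrW_of_dedekind (π : R) (B : Subalgebra R F) (P₁ P₂ : Ideal B)
    [P₁.IsPrime] [P₂.IsPrime] [IsDedekindDomain (B ⧸ P₁)] [IsDedekindDomain (B ⧸ P₂)]
    (hcap : ∀ x : B, x ∈ P₁ → x ∈ P₂ → ∃ c : B, x = algebraMap R B π * c)
    (hne₁₂ : ¬ P₁ ≤ P₂) (hne₂₁ : ¬ P₂ ≤ P₁)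
    (htr : ∀ n : Ideal B, n.IsMaximal → P₁ ≤ n → P₂ ≤ n →
      ∀ x ∈ n, ∃ s : B, s ∉ n ∧ ∃ y ∈ P₁, ∃ y' ∈ P₂, s * x = y + y') :
    s34i47d_LocStrW π B P₁ P₂ :=
  lsw58_locStrW π B P₁ P₂ hcap hne₁₂ hne₂₁
    (fun n hn h => haveI := hn.isPrime; ls63_unif_of_dedekind P₁ n h)
    (fun n hn h => haveI := hn.isPrime; ls63_unif_of_dedekind P₂ n h) htr

/-! ### The branch of a chart along a valuation-like subring -/

/-- The branch `B ∩ π V` of the chart `B` along a subring `V ⊇ B`. -/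
def lsw58_branch (π : R) (B : Subalgebra R F) (V : Subring F) (hBV : ∀ x ∈ B, x ∈ V) :
    Ideal B where
  carrier := {x | (algebraMap R F π)⁻¹ * (x : F) ∈ V}
  add_mem' := by
    intro a b ha hb
    show (algebraMap R F π)⁻¹ * ((a + b : B) : F) ∈ V
    have e : (algebraMap R F π)⁻¹ * ((a + b : B) : F) =
        (algebraMap R F π)⁻¹ * (a : F) + (algebraMap R F π)⁻¹ * (b : F) := by
      push_cast; ring
    rw [e]
    exact V.add_mem ha hb
  zero_mem' := by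
    show (algebraMap R F π)⁻¹ * ((0 : B) : F) ∈ V
    have e : (algebraMap R F π)⁻¹ * ((0 : B) : F) = 0 := by push_cast; ring
    rw [e]
    exact V.zero_mem
  smul_mem' := by
    intro c x hx
    show (algebraMap R F π)⁻¹ * ((c * x : B) : F) ∈ V
    have e : (algebraMap R F π)⁻¹ * ((c * x : B) : F) =
        (c : F) * ((algebraMap R F π)⁻¹ * (x : F)) := by
      push_cast; ring
    rw [e]
    exact V.mul_mem (hBV _ c.2) hx

theorem lsw58_mem_branch (π : R) (B : Subalgebra R F) (V : Subring F) (hBV : ∀ x ∈ B, x ∈ V)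
    (x : B) : x ∈ lsw58_branch π B V hBV ↔ (algebraMap R F π)⁻¹ * (x : F) ∈ V :=
  Iff.rfl

theorem lsw58_pi_mem_branch (π : R) (hπ0 : algebraMap R F π ≠ 0) (B : Subalgebra R F)
    (V : Subring F) (hBV : ∀ x ∈ B, x ∈ V) : algebraMap R B π ∈ lsw58_branch π B V hBV := by
  show (algebraMap R F π)⁻¹ * ((algebraMap R B π : B) : F) ∈ V
  have e : (algebraMap R F π)⁻¹ * ((algebraMap R B π : B) : F) = 1 := inv_mul_cancel₀ hπ0
  rw [e]
  exact V.one_mem

theorem lsw58_branch_isPrime (π : R) (B : Subalgebra R F) (V : Subring F)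
    (hBV : ∀ x ∈ B, x ∈ V) (hπV : (algebraMap R F π)⁻¹ ∉ V)
    (hV : ∀ x ∈ V, (algebraMap R F π)⁻¹ * x ∉ V → x⁻¹ ∈ V) :
    (lsw58_branch π B V hBV).IsPrime := by
  refine ⟨?_, ?_⟩
  · intro htop
    have h1 : (1 : B) ∈ lsw58_branch π B V hBV := by rw [htop]; trivial
    apply hπV
    have h2 : (algebraMap R F π)⁻¹ * ((1 : B) : F) ∈ V := h1
    simpa using h2
  · intro x y hxy
    by_contra hcon
    push Not at hcon
    obtain ⟨hx, hy⟩ := hcon
    have hx' : (algebraMap R F π)⁻¹ * (x : F) ∉ V := hx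
    have hxinv : (x : F)⁻¹ ∈ V := hV _ (hBV _ x.2) hx'
    have hx0 : (x : F) ≠ 0 := by
      intro h0
      apply hx'
      rw [h0, mul_zero]
      exact V.zero_mem
    apply hy
    show (algebraMap R F π)⁻¹ * (y : F) ∈ V
    have hxy' : (algebraMap R F π)⁻¹ * ((x * y : B) : F) ∈ V := hxy
    have e : (algebraMap R F π)⁻¹ * (y : F) =
        (x : F)⁻¹ * ((algebraMap R F π)⁻¹ * ((x * y : B) : F)) := by
      push_cast
      field_simp
    rw [e]
    exact V.mul_mem hxinv hxy'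

/-- **The conjunct of `s34i47d_FrameLSW` for one chart**, valuation form: `B` a chart with two
branches `V₁, V₂` (valuation-like subrings with uniformiser `π`, `B` saturated in `V₁ ⊓ V₂`,
neither branch contained in the other), the uniformiser property of each branch at the points on
it (step (3a)) and transversality at the points on both branches (step (3b)). -/
theorem lsw58_exists_locStrW (π : R) (hπ0 : algebraMap R F π ≠ 0) (B : Subalgebra R F)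
    (V₁ V₂ : Subring F) (hB₁ : ∀ x ∈ B, x ∈ V₁) (hB₂ : ∀ x ∈ B, x ∈ V₂)
    (hπV₁ : (algebraMap R F π)⁻¹ ∉ V₁) (hπV₂ : (algebraMap R F π)⁻¹ ∉ V₂)
    (hV₁ : ∀ x ∈ V₁, (algebraMap R F π)⁻¹ * x ∉ V₁ → x⁻¹ ∈ V₁)
    (hV₂ : ∀ x ∈ V₂, (algebraMap R F π)⁻¹ * x ∉ V₂ → x⁻¹ ∈ V₂)
    (hsat : ∀ x ∈ B, (algebraMap R F π)⁻¹ * x ∈ V₁ → (algebraMap R F π)⁻¹ * x ∈ V₂ →
      (algebraMap R F π)⁻¹ * x ∈ B)
    (hw₁ : ∃ y : B, (algebraMap R F π)⁻¹ * (y : F) ∈ V₁ ∧ (algebraMap R F π)⁻¹ * (y : F) ∉ V₂)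
    (hw₂ : ∃ y : B, (algebraMap R F π)⁻¹ * (y : F) ∈ V₂ ∧ (algebraMap R F π)⁻¹ * (y : F) ∉ V₁)
    (hu₁ : ∀ n : Ideal B, n.IsMaximal → algebraMap R B π ∈ n →
      (∀ x : B, (algebraMap R F π)⁻¹ * (x : F) ∈ V₁ → x ∈ n) →
      ∃ z : B, z ∈ n ∧ ∀ x ∈ n, ∃ s : B, s ∉ n ∧ ∃ a : B,
        (algebraMap R F π)⁻¹ * ((s * x - a * z : B) : F) ∈ V₁)
    (hu₂ : ∀ n : Ideal B, n.IsMaximal → algebraMap R B π ∈ n →
      (∀ x : B, (algebraMap R F π)⁻¹ * (x : F) ∈ V₂ → x ∈ n) →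
      ∃ z : B, z ∈ n ∧ ∀ x ∈ n, ∃ s : B, s ∉ n ∧ ∃ a : B,
        (algebraMap R F π)⁻¹ * ((s * x - a * z : B) : F) ∈ V₂)
    (htr : ∀ n : Ideal B, n.IsMaximal → algebraMap R B π ∈ n →
      (∀ x : B, (algebraMap R F π)⁻¹ * (x : F) ∈ V₁ → x ∈ n) →
      (∀ x : B, (algebraMap R F π)⁻¹ * (x : F) ∈ V₂ → x ∈ n) →
      ∀ x ∈ n, ∃ s : B, s ∉ n ∧ ∃ y y' : B, s * x = y + y' ∧
        (algebraMap R F π)⁻¹ * (y : F) ∈ V₁ ∧ (algebraMap R F π)⁻¹ * (y' : F) ∈ V₂) :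
    ∃ P₁ P₂ : Ideal B, P₁.IsPrime ∧ P₂.IsPrime ∧ algebraMap R B π ∈ P₁ ∧
      algebraMap R B π ∈ P₂ ∧ s34i47d_LocStrW π B P₁ P₂ := by
  have hp₁ := lsw58_branch_isPrime π B V₁ hB₁ hπV₁ hV₁
  have hp₂ := lsw58_branch_isPrime π B V₂ hB₂ hπV₂ hV₂
  have hπ₁ := lsw58_pi_mem_branch π hπ0 B V₁ hB₁
  have hπ₂ := lsw58_pi_mem_branch π hπ0 B V₂ hB₂
  refine ⟨lsw58_branch π B V₁ hB₁, lsw58_branch π B V₂ hB₂, hp₁, hp₂, hπ₁, hπ₂, ?_⟩
  refine lsw58_locStrW π B _ _ ?_ ?_ ?_ ?_ ?_ ?_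
  · -- saturation: the two branches meet in `π B`
    intro x hx₁ hx₂
    have h3 := hsat _ x.2 hx₁ hx₂
    refine ⟨⟨_, h3⟩, ?_⟩
    apply Subtype.ext
    show (x : F) = algebraMap R F π * ((algebraMap R F π)⁻¹ * (x : F))
    rw [mul_inv_cancel_left₀ hπ0]
  · obtain ⟨y, hy₁, hy₂⟩ := hw₁
    exact fun hle => hy₂ (hle hy₁)
  · obtain ⟨y, hy₂, hy₁⟩ := hw₂
    exact fun hle => hy₁ (hle hy₂)
  · intro n hn hle
    exact hu₁ n hn (hle hπ₁) fun x hx => hle hx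
  · intro n hn hle
    exact hu₂ n hn (hle hπ₂) fun x hx => hle hx
  · intro n hn hle₁ hle₂ x hx
    obtain ⟨s, hs, y, y', e, hy, hy'⟩ :=
      htr n hn (hle₁ hπ₁) (fun x hx => hle₁ hx) (fun x hx => hle₂ hx) x hx
    exact ⟨s, hs, y, hy, y', hy', e⟩

end ideal

end Fermat.Agent.S34
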