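import Mathlib

/-!
# S34 lab, row P3b-insep (helper66, twin): the abstract part (Mathlib only)

* `fi66_mem_nonunits_comap`, `fi66_transport` : **(F0)** transport of a congruence modulo the
  maximal ideal of a valuation subring `V` to `V.comap w` (`V₀ = w^* V_∞`).
* `fi66_nakayama` : **(N)** in a noetherian local ring with maximal ideal `n`, ideals
  `P, Q ≤ n` and `z` with `n ≤ (z) + P`, `z ∈ n² + Q`: `n = P + Q`.
* `fi66_mem_pow_sup` : pure inseparability gives `z ∈ n^q + Q`: if `z ≡ x^q` modulo `m_V` with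
  `x ∈ V`, and `q`-th roots modulo `m_V` of elements of `A` lie in `A` modulo `m_V`
  (`A / (A ∩ m_V)` integrally closed in the residue field of `V`), then `z ∈ n^q + (A ∩ m_V)`
  for every prime `n ∋ z` containing `A ∩ m_V`.
* `fi66_node_sum` : **(3b)** for a noetherian local subring `A` of a field:
  `n = P + Q` from `n ≤ (z) + P` (the `∞`-branch is regular at `n` with parameter `z`) and
  `z ≡ x^q` on the `0`-branch.
-/

set_option autoImplicit false

namespace Fermat.Agent.S34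

open IsLocalRing

/-- `x` lies in the maximal ideal of `V.comap w` iff `w x` lies in the maximal ideal of `V`. -/
theorem fi66_mem_nonunits_comap {F : Type*} [Field F] (w : F →+* F) (V : ValuationSubring F)
    (x : F) : x ∈ (V.comap w).nonunits ↔ w x ∈ V.nonunits := by
  rw [ValuationSubring.mem_nonunits_iff_or, ValuationSubring.mem_nonunits_iff_or,
    ValuationSubring.mem_comap, map_inv₀, map_eq_zero]

/-- **(F0)** If `w a = b`, `w b₁ = a₁` and `b - a₁^q ∈ m_V` then `a - b₁^q ∈ m_{w^* V}`. -/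
theorem fi66_transport {F : Type*} [Field F] (w : F →+* F) (V : ValuationSubring F) (q : ℕ)
    (a b a₁ b₁ : F) (hab : w a = b) (hba : w b₁ = a₁) (h : b - a₁ ^ q ∈ V.nonunits) :
    a - b₁ ^ q ∈ (V.comap w).nonunits := by
  rw [fi66_mem_nonunits_comap, map_sub, map_pow, hab, hba]
  exact h

/-- **(N)** Nakayama step: `n ≤ (z) + P` and `z ∈ n² + Q` give `n = P + Q`. -/
theorem fi66_nakayama {A : Type*} [CommRing A] [IsLocalRing A] [IsNoetherianRing A]
    (P Q : Ideal A) (hP : P ≤ maximalIdeal A) (hQ : Q ≤ maximalIdeal A) (z : A)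
    (hz : maximalIdeal A ≤ Ideal.span {z} ⊔ P) (hz2 : z ∈ maximalIdeal A ^ 2 ⊔ Q) :
    maximalIdeal A = P ⊔ Q := by
  refine le_antisymm ?_ (sup_le hP hQ)
  apply Submodule.le_of_le_smul_of_le_jacobson_bot (I := maximalIdeal A)
    (IsNoetherian.noetherian _) (IsLocalRing.maximalIdeal_le_jacobson ⊥)
  refine hz.trans (sup_le ?_ (le_sup_of_le_left le_sup_left))
  rw [Ideal.span_le, Set.singleton_subset_iff]
  have h : maximalIdeal A ^ 2 ⊔ Q ≤ (P ⊔ Q) ⊔ maximalIdeal A • maximalIdeal A := by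
    rw [pow_two, smul_eq_mul]
    exact sup_le le_sup_right (le_sup_of_le_left le_sup_right)
  exact h hz2

/-- Pure inseparability gives `z ∈ n^q + Q`. -/
theorem fi66_mem_pow_sup {F : Type*} [Field F] (A : Subring F) (V : ValuationSubring F)
    (hAV : ∀ a ∈ A, a ∈ V) (q : ℕ)
    (hroot : ∀ x ∈ V, ∀ a ∈ A, x ^ q - a ∈ V.nonunits → ∃ c ∈ A, x - c ∈ V.nonunits)
    (n Q : Ideal A) [n.IsPrime] (hQ : ∀ a : A, (a : F) ∈ V.nonunits → a ∈ Q) (hQn : Q ≤ n)
    (z : A) (hz : z ∈ n) (x : F) (hx : x ∈ V) (hzx : (z : F) - x ^ q ∈ V.nonunits) :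
    z ∈ n ^ q ⊔ Q := by
  set x' : V := ⟨x, hx⟩ with hx'
  set z' : V := ⟨(z : F), hAV _ z.2⟩ with hz'
  have h1 : z' - x' ^ q ∈ maximalIdeal V :=
    ValuationSubring.coe_mem_nonunits_iff.mp (by simpa using hzx)
  have h2 : (x ^ q - (z : F)) ∈ V.nonunits := by
    have h : x' ^ q - z' ∈ maximalIdeal V := by
      have := (maximalIdeal V).neg_mem h1
      rwa [neg_sub] at this
    have h' := ValuationSubring.coe_mem_nonunits_iff.mpr h
    simpa using h'
  obtain ⟨c, hcA, hc⟩ := hroot x hx (z : F) z.2 h2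
  set c' : V := ⟨c, hAV c hcA⟩ with hc'
  have h3 : x' - c' ∈ maximalIdeal V :=
    ValuationSubring.coe_mem_nonunits_iff.mp (by simpa using hc)
  have h4 : x' ^ q - c' ^ q ∈ maximalIdeal V := by
    obtain ⟨d, hd⟩ := sub_dvd_pow_sub_pow x' c' q
    rw [hd]
    exact (maximalIdeal V).mul_mem_right _ h3
  have h5 : z' - c' ^ q ∈ maximalIdeal V := by
    have : z' - c' ^ q = (z' - x' ^ q) + (x' ^ q - c' ^ q) := by ring
    rw [this]
    exact (maximalIdeal V).add_mem h1 h4
  set cA : A := ⟨c, hcA⟩ with hcA'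
  have h6 : ((z - cA ^ q : A) : F) ∈ V.nonunits := by
    have h' := ValuationSubring.coe_mem_nonunits_iff.mpr h5
    simpa using h'
  have h7 : z - cA ^ q ∈ Q := hQ _ h6
  have h8 : cA ^ q ∈ n := by
    have : cA ^ q = z - (z - cA ^ q) := by ring
    rw [this]
    exact n.sub_mem hz (hQn h7)
  have h9 : cA ∈ n := Ideal.IsPrime.mem_of_pow_mem inferInstance q h8
  have : z = cA ^ q + (z - cA ^ q) := by ring
  rw [this]
  exact Submodule.add_mem_sup (Ideal.pow_mem_pow h9 q) h7

/-- **(3b), abstract**: `A` a noetherian local subring of a field `F` with maximal ideal `n`,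
`V` a valuation subring containing `A` (the `0`-branch), `P, Q ≤ n` ideals with
`A ∩ m_V ⊆ Q`, `z ∈ n` with `n ≤ (z) + P` (the `∞`-branch `A / P` is regular with parameter
`z`), `z ≡ x^q` modulo `m_V` for some `x ∈ V` (`2 ≤ q`; pure inseparability on the `0`-branch)
and `q`-th roots modulo `m_V` of elements of `A` are in `A` modulo `m_V`.  Then `n = P + Q`. -/
theorem fi66_node_sum {F : Type*} [Field F] (A : Subring F) [IsLocalRing A] [IsNoetherianRing A]
    (V : ValuationSubring F) (hAV : ∀ a ∈ A, a ∈ V) (q : ℕ) (hq : 2 ≤ q)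
    (hroot : ∀ x ∈ V, ∀ a ∈ A, x ^ q - a ∈ V.nonunits → ∃ c ∈ A, x - c ∈ V.nonunits)
    (P Q : Ideal A) (hP : P ≤ maximalIdeal A) (hQm : Q ≤ maximalIdeal A)
    (hQ : ∀ a : A, (a : F) ∈ V.nonunits → a ∈ Q)
    (z : A) (hz : z ∈ maximalIdeal A) (hgen : maximalIdeal A ≤ Ideal.span {z} ⊔ P)
    (x : F) (hx : x ∈ V) (hzx : (z : F) - x ^ q ∈ V.nonunits) :
    maximalIdeal A = P ⊔ Q := by
  have h1 := fi66_mem_pow_sup A V hAV q hroot (maximalIdeal A) Q hQ hQm z hz x hx hzx
  refine fi66_nakayama P Q hP hQm z hgen ?_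
  exact (sup_le_sup_right (Ideal.pow_le_pow_right hq) Q) h1

end Fermat.Agent.S34
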