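import Mathlib
import Fermat.Agent.S34.SpecFibre79
import Fermat.Agent.S34.NodeSum66

/-!
# S34 lab, row 490 (P3b), helper66 (twin): the LITERAL `sf79_Transv π B V₁ V₂` (abstract)

`B` a noetherian chart inside the two valuation rings `V₁` (`= V_∞`), `V₂` (`= V_0`) of the
function field `F`; `p_i = B ∩ π V_i` the two branches.

* `tv66_frac` : **`V₂ = B_{p₂}`** (every `x ∈ V₂` is `b / b'` with `b, b' ∈ B`, `b' ∉ p₂`)
  from `F = Frac B`, the saturation of `B` in `V₁ ⊓ V₂`, the archimedean property of `V₂` on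
  `B` and ONE element `c ∈ p₁ ∖ p₂`.
* `tv66_hval` : at a closed point `n` of the branch `V₂` with a local coordinate
  (`sf79_Unif`), the class of `x = b / b'` or of its inverse is regular at `n`
  (`(B / p₂)_n` is a valuation ring of the residue field of `V₂`).
* `tv66_root` : if moreover `z ≡ x ^ q` modulo `π V₂` with `z ∈ n`, then
  `t z ≡ c ^ q` modulo `p₂` with `t ∉ n`, `c ∈ n`  (`z ∈ n^q B_n + p₂ B_n`).
* `tv66_nak` : (commutative algebra) `n B_n = z B_n + P B_n` and `t z - c ^ k ∈ Q`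
  (`t ∉ n`, `c ∈ n`, `2 ≤ k`) give `n B_n = P B_n + Q B_n`, elementwise.
* `tv66_transv_at`, `tv66_transv`, `tv66_transv'` : the literal `sf79_Transv π B V₁ V₂`.
-/

set_option autoImplicit false

namespace Fermat.Agent.S34

open IsLocalRing

section TV66

variable {R F : Type*} [CommRing R] [Field F] [Algebra R F]

/-- **`V₂` is the localisation of `B` at the branch `p₂`**: every `x ∈ V₂` is a quotient
`b / b'` of elements of `B` with `b'` a unit along `V₂`.  Inputs: `F = Frac B`, saturation of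
`B` in `V₁ ⊓ V₂`, the archimedean property of `V₂` on `B`, and one `c ∈ B` which vanishes
along `V₁` and is a unit along `V₂`. -/
theorem tv66_frac (π : R) (B : Subalgebra R F) (V₁ V₂ : Subring F)
    (hB₁ : ∀ x ∈ B, x ∈ V₁) (hB₂ : ∀ x ∈ B, x ∈ V₂)
    (hV₂ : ∀ x ∈ V₂, (algebraMap R F π)⁻¹ * x ∉ V₂ → x⁻¹ ∈ V₂)
    (hsat : ∀ x ∈ B, (algebraMap R F π)⁻¹ * x ∈ V₁ → (algebraMap R F π)⁻¹ * x ∈ V₂ →
      (algebraMap R F π)⁻¹ * x ∈ B)
    (hFrac : ∀ x : F, ∃ a ∈ B, ∃ b ∈ B, b ≠ 0 ∧ x * b = a)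
    (harch : ∀ x ∈ B, x ≠ 0 → ∃ k : ℕ, (algebraMap R F π ^ k)⁻¹ * x ∉ V₂)
    (c : B) (hc₁ : (algebraMap R F π)⁻¹ * (c : F) ∈ V₁)
    (hc₂ : (algebraMap R F π)⁻¹ * (c : F) ∉ V₂)
    (x : F) (hx : x ∈ V₂) :
    ∃ b b' : B, (algebraMap R F π)⁻¹ * (b' : F) ∉ V₂ ∧ (b' : F) * x = (b : F) := by
  have hcinv : (c : F)⁻¹ ∈ V₂ := hV₂ _ (hB₂ _ c.2) hc₂
  have hc0 : (c : F) ≠ 0 := by
    intro h0
    apply hc₂
    rw [h0, mul_zero]
    exact V₂.zero_mem
  have key : ∀ k : ℕ, ∀ a b : F, a ∈ B → b ∈ B → x * b = a →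
      (algebraMap R F π ^ k)⁻¹ * b ∉ V₂ →
      ∃ b₁ b' : B, (algebraMap R F π)⁻¹ * (b' : F) ∉ V₂ ∧ (b' : F) * x = (b₁ : F) := by
    intro k
    induction k with
    | zero =>
      intro a b _ hb _ h
      exact absurd (by simpa using hB₂ b hb) h
    | succ k ih =>
      intro a b ha hb hxb hk
      by_cases h1 : (algebraMap R F π)⁻¹ * b ∈ V₂
      · have h2 : (algebraMap R F π)⁻¹ * a ∈ V₂ := by
          have e : (algebraMap R F π)⁻¹ * a = x * ((algebraMap R F π)⁻¹ * b) := by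
            rw [← hxb]; ring
          rw [e]
          exact V₂.mul_mem hx h1
        have hb' : (algebraMap R F π)⁻¹ * ((c : F) * b) ∈ B := by
          apply hsat _ (B.mul_mem c.2 hb)
          · have e : (algebraMap R F π)⁻¹ * ((c : F) * b) =
                ((algebraMap R F π)⁻¹ * (c : F)) * b := by ring
            rw [e]
            exact V₁.mul_mem hc₁ (hB₁ _ hb)
          · have e : (algebraMap R F π)⁻¹ * ((c : F) * b) =
                (c : F) * ((algebraMap R F π)⁻¹ * b) := by ring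
            rw [e]
            exact V₂.mul_mem (hB₂ _ c.2) h1
        have ha' : (algebraMap R F π)⁻¹ * ((c : F) * a) ∈ B := by
          apply hsat _ (B.mul_mem c.2 ha)
          · have e : (algebraMap R F π)⁻¹ * ((c : F) * a) =
                ((algebraMap R F π)⁻¹ * (c : F)) * a := by ring
            rw [e]
            exact V₁.mul_mem hc₁ (hB₁ _ ha)
          · have e : (algebraMap R F π)⁻¹ * ((c : F) * a) =
                (c : F) * ((algebraMap R F π)⁻¹ * a) := by ring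
            rw [e]
            exact V₂.mul_mem (hB₂ _ c.2) h2
        refine ih ((algebraMap R F π)⁻¹ * ((c : F) * a)) ((algebraMap R F π)⁻¹ * ((c : F) * b))
          ha' hb' ?_ ?_
        · rw [← hxb]; ring
        · intro h3
          apply hk
          have e : (algebraMap R F π ^ (k + 1))⁻¹ * b =
              (c : F)⁻¹ * ((algebraMap R F π ^ k)⁻¹ * ((algebraMap R F π)⁻¹ * ((c : F) * b))) := by
            rw [pow_succ, mul_inv]
            field_simp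
          rw [e]
          exact V₂.mul_mem hcinv h3
      · exact ⟨⟨a, ha⟩, ⟨b, hb⟩, h1, by rw [mul_comm]; exact hxb⟩
  obtain ⟨a, ha, b, hb, hb0, hxb⟩ := hFrac x
  obtain ⟨k, hk⟩ := harch b hb hb0
  exact key k a b ha hb hxb hk

/-- **`(B / p_V)_n` is a valuation ring of the residue field of `V`**, elementwise: if the
branch `V` has a local coordinate `z₂` at `n` and `x ∈ V` is `b / b'` modulo `π V` with `b'` a
unit along `V`, then `d x ≡ c` or `d ≡ c x` modulo `π V` with `c, d ∈ B`, `d ∉ n`. -/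
theorem tv66_hval (π : R) (B : Subalgebra R F) [IsNoetherianRing B] (V : Subring F)
    (hBV : ∀ x ∈ B, x ∈ V) (hπV : (algebraMap R F π)⁻¹ ∉ V)
    (hV : ∀ x ∈ V, (algebraMap R F π)⁻¹ * x ∉ V → x⁻¹ ∈ V)
    (n : Ideal B) [hn : n.IsMaximal] (hOn : sf79_OnBr π B V n)
    (z₂ : B) (hz₂ : sf79_Unif π B V n z₂) (x : F) (hx : x ∈ V)
    (b b' : B) (hb' : (algebraMap R F π)⁻¹ * (b' : F) ∉ V)
    (hbx : (algebraMap R F π)⁻¹ * ((b' : F) * x - (b : F)) ∈ V) :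
    (∃ c d : B, d ∉ n ∧ (algebraMap R F π)⁻¹ * ((d : F) * x - (c : F)) ∈ V) ∨
      (∃ c d : B, d ∉ n ∧ (algebraMap R F π)⁻¹ * ((d : F) - (c : F) * x) ∈ V) := by
  have hnp : n.IsPrime := hn.isPrime
  have hPp : (sf79_br π B V hBV).IsPrime := sf79_br_isPrime π B V hBV hπV hV
  have h1n : (1 : B) ∉ n := (Ideal.ne_top_iff_one n).mp hnp.ne_top
  by_cases hb : (algebraMap R F π)⁻¹ * (b : F) ∈ V
  · -- `x` vanishes along `V`
    left
    refine ⟨0, 1, h1n, ?_⟩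
    have hb'inv : (b' : F)⁻¹ ∈ V := hV _ (hBV _ b'.2) hb'
    have hb'0 : (b' : F) ≠ 0 := by
      intro h0
      apply hb'
      rw [h0, mul_zero]
      exact V.zero_mem
    have e : (algebraMap R F π)⁻¹ * (((1 : B) : F) * x - ((0 : B) : F)) =
        (b' : F)⁻¹ * ((algebraMap R F π)⁻¹ * ((b' : F) * x - (b : F)) +
          (algebraMap R F π)⁻¹ * (b : F)) := by
      push_cast
      field_simp
      ring
    rw [e]
    exact V.mul_mem hb'inv (V.add_mem hbx hb)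
  · obtain ⟨μ, s, a, hs, ha, hsa⟩ := sf79_unif_pow π B V hBV hπV hV n hOn z₂ hz₂ b hb
    obtain ⟨μ', s', a', hs', ha', hsa'⟩ := sf79_unif_pow π B V hBV hπV hV n hOn z₂ hz₂ b' hb'
    -- units along `V`
    have hunit : ∀ u : B, u ∉ n → (algebraMap R F π)⁻¹ * (u : F) ∉ V := fun u hu h => hu (hOn u h)
    have hzμ : ∀ (ν : ℕ) (t u c : B), t ∉ n → (algebraMap R F π)⁻¹ * (u : F) ∉ V →
        (algebraMap R F π)⁻¹ * ((t : F) * (u : F) - (c : F) * (z₂ : F) ^ ν) ∈ V →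
        (algebraMap R F π)⁻¹ * ((z₂ : F) ^ ν) ∉ V := by
      intro ν t u c ht hu h hz
      have h3 : t * u ∈ sf79_br π B V hBV := by
        rw [sf79_mem_br]
        have e : (algebraMap R F π)⁻¹ * ((t * u : B) : F) =
            (algebraMap R F π)⁻¹ * ((t : F) * (u : F) - (c : F) * (z₂ : F) ^ ν) +
              (c : F) * ((algebraMap R F π)⁻¹ * ((z₂ : F) ^ ν)) := by
          push_cast; ring
        rw [e]
        exact V.add_mem h (V.mul_mem (hBV _ c.2) hz)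
      rcases hPp.mem_or_mem h3 with h4 | h4
      · exact hunit t ht h4
      · exact hu h4
    have hz1 : (algebraMap R F π)⁻¹ * ((z₂ : F) ^ μ) ∉ V := hzμ μ s b a hs hb hsa
    have hz2 : (algebraMap R F π)⁻¹ * ((z₂ : F) ^ μ') ∉ V := hzμ μ' s' b' a' hs' hb' hsa'
    have hz1inv : ((z₂ : F) ^ μ)⁻¹ ∈ V := hV _ (hBV _ (B.pow_mem z₂.2 μ)) hz1
    have hz2inv : ((z₂ : F) ^ μ')⁻¹ ∈ V := hV _ (hBV _ (B.pow_mem z₂.2 μ')) hz2
    have hz0 : (z₂ : F) ^ μ ≠ 0 := by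
      intro h0
      apply hz1
      rw [h0, mul_zero]
      exact V.zero_mem
    have hz0' : (z₂ : F) ^ μ' ≠ 0 := by
      intro h0
      apply hz2
      rw [h0, mul_zero]
      exact V.zero_mem
    -- the basic congruence `a' z₂^μ' s x ≡ s' a z₂^μ`
    have hcong : (algebraMap R F π)⁻¹ *
        ((a' : F) * (z₂ : F) ^ μ' * (s : F) * x - (s' : F) * (a : F) * (z₂ : F) ^ μ) ∈ V := by
      have e : (algebraMap R F π)⁻¹ *
          ((a' : F) * (z₂ : F) ^ μ' * (s : F) * x - (s' : F) * (a : F) * (z₂ : F) ^ μ) =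
          -(((algebraMap R F π)⁻¹ * ((s' : F) * (b' : F) - (a' : F) * (z₂ : F) ^ μ')) *
              ((s : F) * x)) +
            (s : F) * (s' : F) * ((algebraMap R F π)⁻¹ * ((b' : F) * x - (b : F))) +
            (s' : F) * ((algebraMap R F π)⁻¹ * ((s : F) * (b : F) - (a : F) * (z₂ : F) ^ μ)) := by
        ring
      rw [e]
      exact V.add_mem (V.add_mem (V.neg_mem (V.mul_mem hsa' (V.mul_mem (hBV _ s.2) hx)))
        (V.mul_mem (V.mul_mem (hBV _ s.2) (hBV _ s'.2)) hbx)) (V.mul_mem (hBV _ s'.2) hsa)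
    rcases le_or_gt μ' μ with hle | hlt
    · left
      obtain ⟨ν, rfl⟩ := Nat.exists_eq_add_of_le hle
      refine ⟨s' * a * z₂ ^ ν, s * a', fun h => (hnp.mem_or_mem h).elim hs ha', ?_⟩
      have e : (algebraMap R F π)⁻¹ * (((s * a' : B) : F) * x - ((s' * a * z₂ ^ ν : B) : F)) =
          ((z₂ : F) ^ μ')⁻¹ * ((algebraMap R F π)⁻¹ *
            ((a' : F) * (z₂ : F) ^ μ' * (s : F) * x -
              (s' : F) * (a : F) * (z₂ : F) ^ (μ' + ν))) := by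
        push_cast
        rw [pow_add]
        field_simp
      rw [e]
      exact V.mul_mem hz2inv hcong
    · right
      obtain ⟨ν, rfl⟩ := Nat.exists_eq_add_of_le hlt.le
      refine ⟨a' * z₂ ^ ν * s, s' * a, fun h => (hnp.mem_or_mem h).elim hs' ha, ?_⟩
      have e : (algebraMap R F π)⁻¹ * (((s' * a : B) : F) - ((a' * z₂ ^ ν * s : B) : F) * x) =
          -(((z₂ : F) ^ μ)⁻¹ * ((algebraMap R F π)⁻¹ *
            ((a' : F) * (z₂ : F) ^ (μ + ν) * (s : F) * x -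
              (s' : F) * (a : F) * (z₂ : F) ^ μ))) := by
        push_cast
        rw [pow_add]
        field_simp
        ring
      rw [e]
      exact V.neg_mem (V.mul_mem hz1inv hcong)

/-- `u ≡ v` modulo `π V` implies `u ^ q ≡ v ^ q` modulo `π V` (`u, v ∈ V`). -/
theorem tv66_pow_cong (π : R) (V : Subring F) (u v : F) (hu : u ∈ V) (hv : v ∈ V) (q : ℕ)
    (h : (algebraMap R F π)⁻¹ * (u - v) ∈ V) : (algebraMap R F π)⁻¹ * (u ^ q - v ^ q) ∈ V := by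
  have e : u ^ q - v ^ q = (u - v) * ∑ i ∈ Finset.range q, u ^ i * v ^ (q - 1 - i) :=
    (Commute.all u v).mul_geom_sum₂ q |>.symm
  rw [e, ← mul_assoc]
  exact V.mul_mem h (V.sum_mem fun i _ => V.mul_mem (V.pow_mem hu _) (V.pow_mem hv _))

/-- **Pure inseparability along `V` at `n`**: if `z ∈ n` is a `q`-th power `x ^ q` modulo
`π V` and `x = b / b'` modulo `π V`, then `t z ≡ c ^ q` modulo the branch with `t ∉ n`,
`c ∈ n`. -/
theorem tv66_root (π : R) (B : Subalgebra R F) [IsNoetherianRing B] (V : Subring F)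
    (hBV : ∀ x ∈ B, x ∈ V) (hπV : (algebraMap R F π)⁻¹ ∉ V)
    (hV : ∀ x ∈ V, (algebraMap R F π)⁻¹ * x ∉ V → x⁻¹ ∈ V)
    (n : Ideal B) [hn : n.IsMaximal] (hOn : sf79_OnBr π B V n)
    (z₂ : B) (hz₂ : sf79_Unif π B V n z₂)
    (q : ℕ) (z : B) (hz : z ∈ n) (x : F) (hx : x ∈ V)
    (hzx : (algebraMap R F π)⁻¹ * ((z : F) - x ^ q) ∈ V)
    (b b' : B) (hb' : (algebraMap R F π)⁻¹ * (b' : F) ∉ V)
    (hbx : (algebraMap R F π)⁻¹ * ((b' : F) * x - (b : F)) ∈ V) :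
    ∃ t c : B, t ∉ n ∧ c ∈ n ∧
      (algebraMap R F π)⁻¹ * ((t : F) * (z : F) - (c : F) ^ q) ∈ V := by
  have hnp : n.IsPrime := hn.isPrime
  rcases tv66_hval π B V hBV hπV hV n hOn z₂ hz₂ x hx b b' hb' hbx with
    ⟨c, d, hd, hdc⟩ | ⟨c, d, hd, hdc⟩
  · have h1 : (algebraMap R F π)⁻¹ * ((d : F) ^ q * (z : F) - (c : F) ^ q) ∈ V := by
      have e : (algebraMap R F π)⁻¹ * ((d : F) ^ q * (z : F) - (c : F) ^ q) =
          (d : F) ^ q * ((algebraMap R F π)⁻¹ * ((z : F) - x ^ q)) +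
            (algebraMap R F π)⁻¹ * (((d : F) * x) ^ q - (c : F) ^ q) := by ring
      rw [e]
      exact V.add_mem (V.mul_mem (V.pow_mem (hBV _ d.2) q) hzx)
        (tv66_pow_cong π V _ _ (V.mul_mem (hBV _ d.2) hx) (hBV _ c.2) q hdc)
    refine ⟨d ^ q, c, fun h => hd (hnp.mem_of_pow_mem q h), ?_, by simpa using h1⟩
    have h2 : d ^ q * z - c ^ q ∈ n := hOn _ (by simpa using h1)
    have h3 : c ^ q ∈ n := by
      have e : c ^ q = d ^ q * z - (d ^ q * z - c ^ q) := by ring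
      rw [e]
      exact n.sub_mem (n.mul_mem_left _ hz) h2
    exact hnp.mem_of_pow_mem q h3
  · exfalso
    have h1 : (algebraMap R F π)⁻¹ * ((d : F) ^ q - (c : F) ^ q * (z : F)) ∈ V := by
      have e : (algebraMap R F π)⁻¹ * ((d : F) ^ q - (c : F) ^ q * (z : F)) =
          (algebraMap R F π)⁻¹ * ((d : F) ^ q - ((c : F) * x) ^ q) -
            (c : F) ^ q * ((algebraMap R F π)⁻¹ * ((z : F) - x ^ q)) := by ring
      rw [e]
      exact V.sub_mem (tv66_pow_cong π V _ _ (hBV _ d.2) (V.mul_mem (hBV _ c.2) hx) q hdc)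
        (V.mul_mem (V.pow_mem (hBV _ c.2) q) hzx)
    have h2 : d ^ q - c ^ q * z ∈ n := hOn _ (by simpa using h1)
    have h3 : d ^ q ∈ n := by
      have e : d ^ q = (d ^ q - c ^ q * z) + c ^ q * z := by ring
      rw [e]
      exact n.add_mem h2 (n.mul_mem_left _ hz)
    exact hd (hnp.mem_of_pow_mem q h3)

end TV66

/-- **Nakayama at `n`, elementwise**: `B` noetherian, `n` prime, `P, Q ≤ n`; if
`n B_n = z B_n + P B_n` and `t z - c ^ k ∈ Q` with `t ∉ n`, `c ∈ n`, `2 ≤ k`, then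
`n B_n = P B_n + Q B_n`. -/
theorem tv66_nak {B : Type*} [CommRing B] [IsNoetherianRing B] (n : Ideal B) [hn : n.IsPrime]
    (P Q : Ideal B) (hP : P ≤ n) (hQ : Q ≤ n) (z : B)
    (hz : ∀ x ∈ n, ∃ s : B, s ∉ n ∧ ∃ a : B, s * x - a * z ∈ P)
    (t c : B) (ht : t ∉ n) (hc : c ∈ n) (k : ℕ) (hk : 2 ≤ k) (htz : t * z - c ^ k ∈ Q) :
    ∀ x ∈ n, ∃ s : B, s ∉ n ∧ s * x ∈ P ⊔ Q := by
  classical
  set A := Localization.AtPrime n with hA
  set f : B →+* A := algebraMap B A with hf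
  have hunit : ∀ s : B, s ∉ n → IsUnit (f s) := fun s hs =>
    IsLocalization.map_units A (⟨s, hs⟩ : n.primeCompl)
  have hm : maximalIdeal A = n.map f := (Localization.AtPrime.map_eq_maximalIdeal).symm
  have hPm : P.map f ≤ maximalIdeal A := by
    rw [hm]
    exact Ideal.map_mono hP
  have hQm : Q.map f ≤ maximalIdeal A := by
    rw [hm]
    exact Ideal.map_mono hQ
  have h1 : maximalIdeal A ≤ Ideal.span {f z} ⊔ P.map f := by
    rw [hm, Ideal.map_le_iff_le_comap]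
    intro x hx
    obtain ⟨s, hs, a, ha⟩ := hz x hx
    rw [Ideal.mem_comap]
    obtain ⟨u, hu⟩ := hunit s hs
    have e : f x = ↑u⁻¹ * (f a * f z + f (s * x - a * z)) := by
      rw [Units.eq_inv_mul_iff_mul_eq, hu, map_sub, map_mul, map_mul]
      ring
    rw [e]
    exact Ideal.mul_mem_left _ _ (Submodule.add_mem_sup
      (Ideal.mul_mem_left _ _ (Ideal.subset_span rfl)) (Ideal.mem_map_of_mem f ha))
  have h2 : f z ∈ maximalIdeal A ^ 2 ⊔ Q.map f := by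
    obtain ⟨u, hu⟩ := hunit t ht
    have e : f z = ↑u⁻¹ * (f c ^ k + f (t * z - c ^ k)) := by
      rw [Units.eq_inv_mul_iff_mul_eq, hu, map_sub, map_mul, map_pow]
      ring
    rw [e]
    refine Ideal.mul_mem_left _ _ (Submodule.add_mem_sup ?_ (Ideal.mem_map_of_mem f htz))
    have hfc : f c ∈ maximalIdeal A := by
      rw [hm]
      exact Ideal.mem_map_of_mem f hc
    exact Ideal.pow_le_pow_right hk (Ideal.pow_mem_pow hfc k)
  have h3 := fi66_nakayama (P.map f) (Q.map f) hPm hQm (f z) h1 h2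
  intro x hx
  have hx' : f x ∈ (P ⊔ Q).map f := by
    rw [Ideal.map_sup, ← h3, hm]
    exact Ideal.mem_map_of_mem f hx
  rw [IsLocalization.mem_map_algebraMap_iff n.primeCompl A] at hx'
  obtain ⟨⟨i, s⟩, e⟩ := hx'
  have e' : f (x * s) = f i := by
    rw [map_mul]
    exact e
  obtain ⟨c', hc'⟩ := (IsLocalization.eq_iff_exists n.primeCompl A).mp e'
  refine ⟨c' * s, fun h => (hn.mem_or_mem h).elim c'.2 s.2, ?_⟩
  have e'' : (c' : B) * s * x = c' * i := by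
    rw [← hc']
    ring
  rw [e'']
  exact Ideal.mul_mem_left _ _ i.2

section TV66b

variable {R F : Type*} [CommRing R] [Field F] [Algebra R F]

/-- **(3b) at one point `n` of both branches**: `n B_n = p₁ B_n + p₂ B_n`, from a local
coordinate `z` of the branch `V₁` at `n` which is a `q`-th power `x ^ q` modulo `π V₂`
(`2 ≤ q`), a local coordinate `z₂` of the branch `V₂` at `n`, and `x = b / b'` modulo `π V₂`
with `b, b' ∈ B`, `b'` a unit along `V₂`. -/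
theorem tv66_transv_at (π : R) (B : Subalgebra R F) [IsNoetherianRing B] (V₁ V₂ : Subring F)
    (hB₁ : ∀ x ∈ B, x ∈ V₁) (hB₂ : ∀ x ∈ B, x ∈ V₂)
    (hπ₂ : (algebraMap R F π)⁻¹ ∉ V₂)
    (hV₂ : ∀ x ∈ V₂, (algebraMap R F π)⁻¹ * x ∉ V₂ → x⁻¹ ∈ V₂)
    (n : Ideal B) [hn : n.IsMaximal] (h1 : sf79_OnBr π B V₁ n) (h2 : sf79_OnBr π B V₂ n)
    (z : B) (hz : sf79_Unif π B V₁ n z) (z₂ : B) (hz₂ : sf79_Unif π B V₂ n z₂)
    (q : ℕ) (hq : 2 ≤ q) (x : F) (hx : x ∈ V₂)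
    (hzx : (algebraMap R F π)⁻¹ * ((z : F) - x ^ q) ∈ V₂)
    (b b' : B) (hb' : (algebraMap R F π)⁻¹ * (b' : F) ∉ V₂)
    (hbx : (algebraMap R F π)⁻¹ * ((b' : F) * x - (b : F)) ∈ V₂) :
    ∀ y ∈ n, ∃ s : B, s ∉ n ∧ ∃ y₁ y₂ : B, s * y = y₁ + y₂ ∧
      (algebraMap R F π)⁻¹ * (y₁ : F) ∈ V₁ ∧ (algebraMap R F π)⁻¹ * (y₂ : F) ∈ V₂ := by
  have hnp : n.IsPrime := hn.isPrime
  obtain ⟨t, c, ht, hc, htc⟩ :=
    tv66_root π B V₂ hB₂ hπ₂ hV₂ n h2 z₂ hz₂ q z hz.1 x hx hzx b b' hb' hbx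
  have key := tv66_nak n (sf79_br π B V₁ hB₁) (sf79_br π B V₂ hB₂) (fun y hy => h1 y hy)
    (fun y hy => h2 y hy) z
    (fun y hy => by
      obtain ⟨s, hs, a, ha⟩ := hz.2 y hy
      refine ⟨s, hs, a, ?_⟩
      rw [sf79_mem_br]
      simpa using ha)
    t c ht hc q hq (by rw [sf79_mem_br]; simpa using htc)
  intro y hy
  obtain ⟨s, hs, hsy⟩ := key y hy
  obtain ⟨y₁, hy₁, y₂, hy₂, e⟩ := Submodule.mem_sup.mp hsy
  exact ⟨s, hs, y₁, y₂, e.symm, hy₁, hy₂⟩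

/-- **(3b) = the literal `sf79_Transv π B V₁ V₂`**, pointwise inputs: the branch `V₂` is smooth
(`sf79_Smooth`, row 489) and at every point `n` of both branches the branch `V₁` has a local
coordinate `z` (row 488) which is a `q`-th power modulo `π V₂` of an `x ∈ V₂` (pure
inseparability at `V_0`, `ins50_frob_Vzero` / `fi66_frob_V`) that is `b / b'` modulo `π V₂`. -/
theorem tv66_transv (π : R) (B : Subalgebra R F) [IsNoetherianRing B] (V₁ V₂ : Subring F)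
    (hB₁ : ∀ x ∈ B, x ∈ V₁) (hB₂ : ∀ x ∈ B, x ∈ V₂)
    (hπ₂ : (algebraMap R F π)⁻¹ ∉ V₂)
    (hV₂ : ∀ x ∈ V₂, (algebraMap R F π)⁻¹ * x ∉ V₂ → x⁻¹ ∈ V₂)
    (hS₂ : sf79_Smooth π B V₂) (q : ℕ) (hq : 2 ≤ q)
    (hSF : ∀ n : Ideal B, n.IsMaximal → algebraMap R B π ∈ n → sf79_OnBr π B V₁ n →
      sf79_OnBr π B V₂ n → ∃ z : B, sf79_Unif π B V₁ n z ∧ ∃ x ∈ V₂,
        (algebraMap R F π)⁻¹ * ((z : F) - x ^ q) ∈ V₂ ∧
        ∃ b b' : B, (algebraMap R F π)⁻¹ * (b' : F) ∉ V₂ ∧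
          (algebraMap R F π)⁻¹ * ((b' : F) * x - (b : F)) ∈ V₂) :
    sf79_Transv π B V₁ V₂ := by
  intro n hn hπn h1 h2
  obtain ⟨z, hz, x, hx, hzx, b, b', hb', hbx⟩ := hSF n hn hπn h1 h2
  obtain ⟨z₂, hz₂⟩ := hS₂ n hn hπn h2
  exact tv66_transv_at π B V₁ V₂ hB₁ hB₂ hπ₂ hV₂ n h1 h2 z hz z₂ hz₂ q hq x hx hzx b b' hb' hbx

/-- **(3b) = the literal `sf79_Transv π B V₁ V₂`**, global inputs: `B` noetherian and saturated
in `V₁ ⊓ V₂` with `F = Frac B`, `V₂` archimedean on `B`, ONE element `c ∈ p₁ ∖ p₂`, the branch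
`V₂` smooth, and at every point of both branches a local coordinate of the branch `V₁` which is
a `q`-th power modulo `π V₂`. -/
theorem tv66_transv' (π : R) (B : Subalgebra R F) [IsNoetherianRing B] (V₁ V₂ : Subring F)
    (hB₁ : ∀ x ∈ B, x ∈ V₁) (hB₂ : ∀ x ∈ B, x ∈ V₂)
    (hπ₂ : (algebraMap R F π)⁻¹ ∉ V₂)
    (hV₂ : ∀ x ∈ V₂, (algebraMap R F π)⁻¹ * x ∉ V₂ → x⁻¹ ∈ V₂)
    (hsat : ∀ x ∈ B, (algebraMap R F π)⁻¹ * x ∈ V₁ → (algebraMap R F π)⁻¹ * x ∈ V₂ →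
      (algebraMap R F π)⁻¹ * x ∈ B)
    (hFrac : ∀ x : F, ∃ a ∈ B, ∃ b ∈ B, b ≠ 0 ∧ x * b = a)
    (harch : ∀ x ∈ B, x ≠ 0 → ∃ k : ℕ, (algebraMap R F π ^ k)⁻¹ * x ∉ V₂)
    (c : B) (hc₁ : (algebraMap R F π)⁻¹ * (c : F) ∈ V₁)
    (hc₂ : (algebraMap R F π)⁻¹ * (c : F) ∉ V₂)
    (hS₂ : sf79_Smooth π B V₂) (q : ℕ) (hq : 2 ≤ q)
    (hSF : ∀ n : Ideal B, n.IsMaximal → algebraMap R B π ∈ n → sf79_OnBr π B V₁ n →
      sf79_OnBr π B V₂ n → ∃ z : B, sf79_Unif π B V₁ n z ∧ ∃ x ∈ V₂,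
        (algebraMap R F π)⁻¹ * ((z : F) - x ^ q) ∈ V₂) :
    sf79_Transv π B V₁ V₂ := by
  refine tv66_transv π B V₁ V₂ hB₁ hB₂ hπ₂ hV₂ hS₂ q hq ?_
  intro n hn hπn h1 h2
  obtain ⟨z, hz, x, hx, hzx⟩ := hSF n hn hπn h1 h2
  obtain ⟨b, b', hb', hbx⟩ :=
    tv66_frac π B V₁ V₂ hB₁ hB₂ hV₂ hsat hFrac harch c hc₁ hc₂ x hx
  refine ⟨z, hz, x, hx, hzx, b, b', hb', ?_⟩
  rw [hbx, sub_self, mul_zero]
  exact V₂.zero_mem

end TV66b

end Fermat.Agent.S34
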