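import Mathlib
import Fermat.Agent.S34.Iface47d
import Fermat.Agent.S34.SpecFibreInst79
import Fermat.Agent.S34.TwoValFull2
import Fermat.Agent.S34.BranchZeroInst13
import Fermat.Agent.S34.Transv66
import Fermat.Agent.S34.FrobInsepDVR50
import Fermat.Agent.S34.LocStrW58
import Fermat.Agent.S34.BranchSep70
import Fermat.Agent.S34.FrameSat85
import Fermat.Agent.S34.AtkinLehnerCanon97

/-!
# S34 lab (helper70): the package FRAME-LS′ — `fl70_pkg_frameLSW : s34i47d_Pkg_FrameLSW`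

Assembly of the weak local structure (LS′) of the two affine charts of every admissible
Hauptmodul at level `M' * q` (canonical frame of `Iface47c`) from the pieces on main:

* (3a), `∞`-branch: `sf79c_level2/3` (helper79) with the residue-degree-one input
  `tv2c_res_one_inf` (helper2 / helper18);
* (3a), `0`-branch: `bz13_smooth_V0` (helper13; Atkin–Lehner transport, `w B = B`);
* (3b), transversality: `tv66_transv'` (helper66) with the Frobenius congruence
  `ins50_frob_Vzero` (helper50) and `ins50_perfect`;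
* saturation of the charts in `W`: `fs85_pkg_frameSat` (helper85);
* the two branches are different: `bs70_sep_haupt` (BranchSep70);
* abstract assembly: `lsw58_exists_locStrW` (helper58).

`fl70_chart` is the statement for one chart `pk15_chart R {g}`, `g = α g'`.
-/

set_option autoImplicit false
set_option linter.unusedSectionVars false
set_option linter.style.haveILetI false

open ModularCurve

namespace Fermat.Agent.S34

open Fermat.Agent.S18

local notation "Q̄" => AlgebraicClosure ℚ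

section chart

variable {R K : Type} [CommRing R] [IsDomain R] [IsDiscreteValuationRing R] [Field K] [CharZero K]
  [Algebra R K] [IsFractionRing R K] [Algebra K Q̄]
  (M' q : ℕ) [NeZero M'] [NeZero q] (hq : q.Prime) (hM' : ¬ q ∣ M')
  [Algebra R ↥(modularFunctionFieldFullC K M')]
  [IsScalarTower R K ↥(modularFunctionFieldFullC K M')]
  [Algebra R ↥(modularFunctionFieldFullC K (M' * q))]
  [IsScalarTower R K ↥(modularFunctionFieldFullC K (M' * q))]

/-- `w` fixes the constants of `R`. -/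
theorem fl70_w_algebraMap (r : R) :
    al97L_w (algebraMap K Q̄) M' q hq hM'
        (algebraMap R ↥(modularFunctionFieldFullC K (M' * q)) r) =
      algebraMap R ↥(modularFunctionFieldFullC K (M' * q)) r := by
  rw [IsScalarTower.algebraMap_apply R K ↥(modularFunctionFieldFullC K (M' * q))]
  exact (al97L_w (algebraMap K Q̄) M' q hq hM').commutes _

/-- **(LS′) for one chart** `pk15_chart R {g}` of the canonical frame, `g = α g'`. -/
theorem fl70_chart {π : R} (hπ : Irreducible π)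
    (hFrob : ∀ x ∈ cm85_Vinf (K := K) M' hπ, ∃ x₁ ∈ cm85_Vinf (K := K) M' hπ,
      (algebraMap R ↥(modularFunctionFieldFullC K (M' * q)) π)⁻¹ *
        (al97L_alpha K M' q x - al97L_beta K M' q x₁ ^ q) ∈ s34i47c_V0 (K := K) M' q hq hM' hπ)
    (g' : ↥(modularFunctionFieldFullC K M')) (hg' : g' ∈ cm85_Vinf (K := K) M' hπ)
    (g : ↥(modularFunctionFieldFullC K (M' * q)))
    (hOut : sf79c_Out M' (M' * q) (dvd_mul_right M' q) hπ g' g)
    (hSm0 : sf79_Smooth π (pk15_chart R ({g} : Set ↥(modularFunctionFieldFullC K (M' * q))))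
      (s34i47c_V0 (K := K) M' q hq hM' hπ).toSubring)
    (hle : ∀ x ∈ pk15_chart R ({g} : Set ↥(modularFunctionFieldFullC K (M' * q))),
      x ∈ s34i47c_W (K := K) M' q hq hM' hπ)
    (hsat : ∀ x ∈ pk15_chart R ({g} : Set ↥(modularFunctionFieldFullC K (M' * q))),
      (algebraMap R ↥(modularFunctionFieldFullC K (M' * q)) π)⁻¹ * x ∈
        s34i47c_W (K := K) M' q hq hM' hπ →
      (algebraMap R ↥(modularFunctionFieldFullC K (M' * q)) π)⁻¹ * x ∈
        pk15_chart R ({g} : Set ↥(modularFunctionFieldFullC K (M' * q))))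
    (hN : IsNoetherianRing (pk15_chart R ({g} : Set ↥(modularFunctionFieldFullC K (M' * q)))))
    (hfrac : ∀ x : ↥(modularFunctionFieldFullC K (M' * q)),
      ∃ a ∈ pk15_chart R ({g} : Set ↥(modularFunctionFieldFullC K (M' * q))),
      ∃ b ∈ pk15_chart R ({g} : Set ↥(modularFunctionFieldFullC K (M' * q))), b ≠ 0 ∧ x * b = a)
    (hw₁ : ∃ x ∈ pk15_chart R ({g} : Set ↥(modularFunctionFieldFullC K (M' * q))),
      (algebraMap R ↥(modularFunctionFieldFullC K (M' * q)) π)⁻¹ * x ∈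
        cm85_Vinf (K := K) (M' * q) hπ ∧
      (algebraMap R ↥(modularFunctionFieldFullC K (M' * q)) π)⁻¹ * x ∉
        s34i47c_V0 (K := K) M' q hq hM' hπ)
    (hw₂ : ∃ y ∈ pk15_chart R ({g} : Set ↥(modularFunctionFieldFullC K (M' * q))),
      (algebraMap R ↥(modularFunctionFieldFullC K (M' * q)) π)⁻¹ * y ∈
        s34i47c_V0 (K := K) M' q hq hM' hπ ∧
      (algebraMap R ↥(modularFunctionFieldFullC K (M' * q)) π)⁻¹ * y ∉
        cm85_Vinf (K := K) (M' * q) hπ) :
    ∃ P₁ P₂ : Ideal (pk15_chart R ({g} : Set ↥(modularFunctionFieldFullC K (M' * q)))),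
      P₁.IsPrime ∧ P₂.IsPrime ∧ algebraMap R _ π ∈ P₁ ∧ algebraMap R _ π ∈ P₂ ∧
      s34i47d_LocStrW π (pk15_chart R ({g} : Set ↥(modularFunctionFieldFullC K (M' * q))))
        P₁ P₂ := by
  haveI := hN
  have hπ0 : algebraMap R ↥(modularFunctionFieldFullC K (M' * q)) π ≠ 0 := by
    intro h0
    apply al97C_pi_inv_not_mem_Vinf (K := K) M' q hπ
    rw [h0, inv_zero]
    exact zero_mem _
  have hB₁ : ∀ x ∈ pk15_chart R ({g} : Set ↥(modularFunctionFieldFullC K (M' * q))),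
      x ∈ (cm85_Vinf (K := K) (M' * q) hπ).toSubring :=
    fun x hx => ((s34i47c_mem_W M' q hq hM' hπ x).mp (hle x hx)).1
  have hB₂ : ∀ x ∈ pk15_chart R ({g} : Set ↥(modularFunctionFieldFullC K (M' * q))),
      x ∈ (s34i47c_V0 (K := K) M' q hq hM' hπ).toSubring :=
    fun x hx => ((s34i47c_mem_W M' q hq hM' hπ x).mp (hle x hx)).2
  have hπV₁ : (algebraMap R ↥(modularFunctionFieldFullC K (M' * q)) π)⁻¹ ∉
      (cm85_Vinf (K := K) (M' * q) hπ).toSubring := al97C_pi_inv_not_mem_Vinf M' q hπ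
  have hπV₂ : (algebraMap R ↥(modularFunctionFieldFullC K (M' * q)) π)⁻¹ ∉
      (s34i47c_V0 (K := K) M' q hq hM' hπ).toSubring := al97C_pi_inv_not_mem_V0 M' q hq hM' hπ
  have hV₁ : ∀ x ∈ (cm85_Vinf (K := K) (M' * q) hπ).toSubring,
      (algebraMap R ↥(modularFunctionFieldFullC K (M' * q)) π)⁻¹ * x ∉
        (cm85_Vinf (K := K) (M' * q) hπ).toSubring →
      x⁻¹ ∈ (cm85_Vinf (K := K) (M' * q) hπ).toSubring := by
    intro x hx hnx
    by_contra hinv
    exact hnx (c1g55_hmax hπ x hx hinv)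
  have hV₂ : ∀ x ∈ (s34i47c_V0 (K := K) M' q hq hM' hπ).toSubring,
      (algebraMap R ↥(modularFunctionFieldFullC K (M' * q)) π)⁻¹ * x ∉
        (s34i47c_V0 (K := K) M' q hq hM' hπ).toSubring →
      x⁻¹ ∈ (s34i47c_V0 (K := K) M' q hq hM' hπ).toSubring := by
    intro x hx hnx
    by_contra hinv
    exact hnx (al97C_hmax_V0 M' q hq hM' hπ x hx hinv)
  have hsat' : ∀ x ∈ pk15_chart R ({g} : Set ↥(modularFunctionFieldFullC K (M' * q))),
      (algebraMap R ↥(modularFunctionFieldFullC K (M' * q)) π)⁻¹ * x ∈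
        (cm85_Vinf (K := K) (M' * q) hπ).toSubring →
      (algebraMap R ↥(modularFunctionFieldFullC K (M' * q)) π)⁻¹ * x ∈
        (s34i47c_V0 (K := K) M' q hq hM' hπ).toSubring →
      (algebraMap R ↥(modularFunctionFieldFullC K (M' * q)) π)⁻¹ * x ∈
        pk15_chart R ({g} : Set ↥(modularFunctionFieldFullC K (M' * q))) :=
    fun x hx h1 h2 => hsat x hx ((s34i47c_mem_W M' q hq hM' hπ _).mpr ⟨h1, h2⟩)
  obtain ⟨x₁, hx₁B, hx₁a, hx₁b⟩ := hw₁
  obtain ⟨y₁, hy₁B, hy₁a, hy₁b⟩ := hw₂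
  obtain ⟨-, hUnifFrom, hSmInf⟩ := hOut
  have hRV' : ∀ r : R, algebraMap R ↥(modularFunctionFieldFullC K M') r ∈
      cm85_Vinf (K := K) M' hπ := fun r => pk85_hRV M' hπ r
  have hchart' : ∀ x ∈ pk15_chart R ({g'} : Set ↥(modularFunctionFieldFullC K M')),
      x ∈ cm85_Vinf (K := K) M' hπ :=
    pk15_chart_le_V _ hRV' _ (fun y hy => by
      rw [Set.mem_singleton_iff] at hy
      rw [hy]
      exact hg')
  -- no element of the chart is infinitely divisible by `π` in `V_0`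
  have harch : ∀ x ∈ pk15_chart R ({g} : Set ↥(modularFunctionFieldFullC K (M' * q))), x ≠ 0 →
      ∃ k : ℕ, (algebraMap R ↥(modularFunctionFieldFullC K (M' * q)) π ^ k)⁻¹ * x ∉
        (s34i47c_V0 (K := K) M' q hq hM' hπ).toSubring := by
    intro x _ hx0
    have hwx0 : al97L_w (algebraMap K Q̄) M' q hq hM' x ≠ 0 := by
      intro h0
      apply hx0
      have h1 := congrArg (al97L_w (algebraMap K Q̄) M' q hq hM') h0
      rw [al97L_w_w, map_zero] at h1
      exact h1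
    obtain ⟨k, hk⟩ := wi18_arch (K := K) (M' * q) hπ _ hwx0
    refine ⟨k, fun hmem => hk ?_⟩
    have h1 : al97L_w (algebraMap K Q̄) M' q hq hM'
        ((algebraMap R ↥(modularFunctionFieldFullC K (M' * q)) π ^ k)⁻¹ * x) =
        (algebraMap R ↥(modularFunctionFieldFullC K (M' * q)) π ^ k)⁻¹ *
          al97L_w (algebraMap K Q̄) M' q hq hM' x := by
      rw [map_mul, map_inv₀, map_pow, fl70_w_algebraMap]
    rw [← h1]
    exact hmem
  -- transversality
  have hTr : sf79_Transv π (pk15_chart R ({g} : Set ↥(modularFunctionFieldFullC K (M' * q))))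
      (cm85_Vinf (K := K) (M' * q) hπ).toSubring
      (s34i47c_V0 (K := K) M' q hq hM' hπ).toSubring := by
    refine tv66_transv' π _ _ _ hB₁ hB₂ hπV₂ hV₂ hsat' hfrac harch ⟨x₁, hx₁B⟩ hx₁a hx₁b hSm0 q
      hq.two_le ?_
    intro n hn hπn hbr₁ hbr₂
    obtain ⟨z', hz', hz, hU⟩ := hUnifFrom n hn.isPrime hbr₁
    obtain ⟨t, ht, hFr⟩ := hFrob z' (hchart' z' hz')
    exact ⟨⟨_, hz⟩, hU, al97L_beta K M' q t, (al97C_beta_mem_V0 M' q hq hM' hπ t).mpr ht, hFr⟩
  exact lsw58_exists_locStrW π hπ0 _ _ _ hB₁ hB₂ hπV₁ hπV₂ hV₁ hV₂ hsat'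
    ⟨⟨x₁, hx₁B⟩, hx₁a, hx₁b⟩ ⟨⟨y₁, hy₁B⟩, hy₁a, hy₁b⟩ hSmInf hSm0 hTr

end chart

/-- **FRAME-LS′ at level `M' * q`.** -/
theorem fl70_frameLSW (M' q : ℕ) [NeZero M'] [NeZero q] (hq : q.Prime) (hM' : ¬ q ∣ M') :
    s34i47d_FrameLSW M' q := by
  intro R K _ _ _ _ _ _ _ _ _ _ π hπ hunit hqR h hh
  haveI : Algebra.IsAlgebraic K Q̄ := cx_isAlgebraic_closure K
  letI : Algebra R ↥(modularFunctionFieldFullC K M') :=
    ((algebraMap K ↥(modularFunctionFieldFullC K M')).comp (algebraMap R K)).toAlgebra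
  haveI : IsScalarTower R K ↥(modularFunctionFieldFullC K M') :=
    IsScalarTower.of_algebraMap_eq (fun _ => rfl)
  have hMu : IsUnit (M' : R) :=
    hunit M' (Nat.Coprime.symm ((Nat.Prime.coprime_iff_not_dvd hq).mpr hM'))
  -- the Frobenius congruence at `V_0`
  obtain ⟨hchar, hperf⟩ := ins50_perfect (R := R) (K := K) (IsFractionRing.injective R K) hq hqR
  have hFrob : ∀ x ∈ cm85_Vinf (K := K) M' hπ, ∃ x₁ ∈ cm85_Vinf (K := K) M' hπ,
      (algebraMap R ↥(modularFunctionFieldFullC K (M' * q)) π)⁻¹ *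
        (al97L_alpha K M' q x - al97L_beta K M' q x₁ ^ q) ∈
          s34i47c_V0 (K := K) M' q hq hM' hπ := by
    intro x hx
    obtain ⟨x₁, hx₁, h1⟩ := ins50_frob_Vzero M' q (algebraMap K Q̄) hπ hq hM' hchar hperf x hx
    refine ⟨x₁, hx₁, ?_⟩
    rw [IsScalarTower.algebraMap_apply R K ↥(modularFunctionFieldFullC K (M' * q))]
    exact h1
  -- residue degree one of `V_∞` over `V'`
  have hres : ∀ x ∈ cm85_Vinf (K := K) (M' * q) hπ, ∃ b ∈ cm85_Vinf (K := K) M' hπ,
      (algebraMap R ↥(modularFunctionFieldFullC K (M' * q)) π)⁻¹ *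
        (x - cm15_incl K M' (M' * q) (dvd_mul_right M' q) b) ∈
          cm85_Vinf (K := K) (M' * q) hπ :=
    fun x hx => tv2c_res_one_inf M' q hq hM' hπ hqR x hx
  -- saturation in `W`
  obtain ⟨-, hCall⟩ := fs85_pkg_frameSat M' q hq hM' R K π hπ hunit hqR
  obtain ⟨-, -, hsat₁, hsat₂, -, -, -, -, -⟩ := hCall h hh
  -- the two branches are different
  obtain ⟨w1, w2, w1', w2'⟩ := bs70_sep_haupt M' q hq hM' hπ hunit hqR h hh
  -- transport of smoothness to `V_0`
  obtain ⟨hS0, hS0'⟩ := bz13_smooth_V0 M' q hq hM' hπ hunit h hh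
  -- the charts lie in `W`
  have hle := al97C_chart_le_W M' q hq hM' hπ h hh
  have hle₁ := hle {h} (Set.singleton_subset_iff.mpr (Set.mem_insert _ _))
  have hle₂ := hle {h⁻¹} (Set.singleton_subset_iff.mpr (Set.mem_insert_of_mem _ rfl))
  rcases hh with ⟨hq2, h2, rfl⟩ | ⟨hq3, h3, rfl⟩
  · have h2M' : 2 ∣ M' := by
      rcases (Nat.Prime.dvd_mul Nat.prime_two).mp h2 with h | h
      · exact h
      · exact absurd ((Nat.prime_dvd_prime_iff_eq Nat.prime_two hq).mp h).symm hq2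
    obtain ⟨hO, hO'⟩ := sf79c_level2 M' (M' * q) (dvd_mul_right M' q) hπ h2M' hMu hres
    obtain ⟨-, -, -, -, hhV, hhV', -⟩ := cm85_facts_level2 (R := R) (K := K) M' hπ h2M'
    obtain ⟨-, -, -, -, -, -, hN₁, hN₂, -, -, hfrac₁, hfrac₂, -⟩ :=
      cm85_facts_level2 (R := R) (K := K) (M' * q) hπ h2
    exact ⟨fl70_chart M' q hq hM' hπ hFrob _ hhV _ hO (hS0 hO.2.2) hle₁ hsat₁ hN₁ hfrac₁ w1 w2,
      fl70_chart M' q hq hM' hπ hFrob _ hhV' _ hO' (hS0' hO'.2.2) hle₂ hsat₂ hN₂ hfrac₂ w1' w2'⟩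
  · have h3M' : 3 ∣ M' := by
      rcases (Nat.Prime.dvd_mul Nat.prime_three).mp h3 with h | h
      · exact h
      · exact absurd ((Nat.prime_dvd_prime_iff_eq Nat.prime_three hq).mp h).symm hq3
    obtain ⟨hO, hO'⟩ := sf79c_level3 M' (M' * q) (dvd_mul_right M' q) hπ h3M' hMu hres
    obtain ⟨-, -, -, -, hhV, hhV', -⟩ := cm85_facts_level3 (R := R) (K := K) M' hπ h3M'
    obtain ⟨-, -, -, -, -, -, hN₁, hN₂, -, -, hfrac₁, hfrac₂, -⟩ :=
      cm85_facts_level3 (R := R) (K := K) (M' * q) hπ h3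
    exact ⟨fl70_chart M' q hq hM' hπ hFrob _ hhV _ hO (hS0 hO.2.2) hle₁ hsat₁ hN₁ hfrac₁ w1 w2,
      fl70_chart M' q hq hM' hπ hFrob _ hhV' _ hO' (hS0' hO'.2.2) hle₂ hsat₂ hN₂ hfrac₂ w1' w2'⟩

/-- **The package FRAME-LS′** (`Iface47d`). -/
theorem fl70_pkg_frameLSW : s34i47d_Pkg_FrameLSW :=
  fun M' q _ _ hq hM' => fl70_frameLSW M' q hq hM'

end Fermat.Agent.S34
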