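import Mathlib
import Fermat.Agent.S34.Iface47d
import Fermat.Agent.S34.FrameSat85
import Fermat.Agent.S34.SpecFibreInst79
import Fermat.Agent.S34.TwoValFull2
import Fermat.Agent.S34.SmoothZero63
import Fermat.Agent.S34.TransvChart50
import Fermat.Agent.S34.FrobInsepDVR50
import Fermat.Agent.S34.BranchSep70
import Fermat.Agent.S34.LocStrW58
import Fermat.Agent.S34.ResField25

/-!
# S34 lab (helper94): the package FRAME-LS′ of `Iface47d`, assembled from landed pieces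

`flsw94_pkg : s34i47d_Pkg_FrameLSW` — for every level `M' * q` (`q` prime, `q ∤ M'`), every
admissible Hauptmodul `h` and both affine charts `B = pk15_chart R {h}`, `pk15_chart R {h⁻¹}` there
are two prime ideals `P₁, P₂ ∋ π` of `B` with the weak local structure `s34i47d_LocStrW π B P₁ P₂`.

Ingredients (all on main):

* (3a), `∞`-branch: `sf79c_level2 / sf79c_level3` (helper79) with residue degree one
  `tv2c_res_one_inf` (helper2);
* (3a), `0`-branch: `sz63_smooth_V0` (helper63);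
* (3b): `tr50_transv` + `tr50_hins` + `tr50_frac_of_sat` (helper50) with the Frobenius congruence
  `ins50_frob_Vzero` (helper50), residue field `rf25_frame` (helper25), chart stability
  `sz63_chart_stable` (helper63);
* separation of the two branches: `bs70_sep_haupt` (helper70);
* saturation and noetherianity: `fs85_frameSat` (helper85);
* abstract assembly: `lsw58_exists_locStrW` (helper58).
-/

set_option autoImplicit false
set_option linter.style.haveILetI false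
set_option linter.unusedSectionVars false

open ModularCurve

namespace Fermat.Agent.S34

open Fermat.Agent.S18

local notation "Q̄" => AlgebraicClosure ℚ

section FLSW94abs

variable {R F : Type*} [CommRing R] [Field F] [Algebra R F]

/-- **One conjunct of FRAME-LS′, abstract form**: (3a) for both branches, the Frobenius hypothesis
of (3b), saturation and one separating element per branch. -/
theorem flsw94_chart (π : R) (hπ0 : algebraMap R F π ≠ 0) (B : Subalgebra R F)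
    [IsNoetherianRing B] (V₁ V₂ : Subring F)
    (hB₁ : ∀ x ∈ B, x ∈ V₁) (hB₂ : ∀ x ∈ B, x ∈ V₂)
    (hπV₁ : (algebraMap R F π)⁻¹ ∉ V₁) (hπV₂ : (algebraMap R F π)⁻¹ ∉ V₂)
    (hV₁ : ∀ x ∈ V₁, (algebraMap R F π)⁻¹ * x ∉ V₁ → x⁻¹ ∈ V₁)
    (hV₂ : ∀ x ∈ V₂, (algebraMap R F π)⁻¹ * x ∉ V₂ → x⁻¹ ∈ V₂)
    (hsat : ∀ x ∈ B, (algebraMap R F π)⁻¹ * x ∈ V₁ → (algebraMap R F π)⁻¹ * x ∈ V₂ →
      (algebraMap R F π)⁻¹ * x ∈ B)
    (hw₁ : ∃ y ∈ B, (algebraMap R F π)⁻¹ * y ∈ V₁ ∧ (algebraMap R F π)⁻¹ * y ∉ V₂)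
    (hw₂ : ∃ y ∈ B, (algebraMap R F π)⁻¹ * y ∈ V₂ ∧ (algebraMap R F π)⁻¹ * y ∉ V₁)
    (hS₁ : sf79_Smooth π B V₁) (hS₂ : sf79_Smooth π B V₂)
    (q : ℕ) (hq : 2 ≤ q)
    (hins : ∀ x : B, ∃ y : B, (algebraMap R F π)⁻¹ * ((x : F) - (y : F)) ∈ V₁ ∧
      ∃ a b : B, (algebraMap R F π)⁻¹ * (b : F) ∉ V₂ ∧
        (algebraMap R F π)⁻¹ * ((b : F) ^ q * (y : F) - (a : F) ^ q) ∈ V₂) :
    ∃ P₁ P₂ : Ideal B, P₁.IsPrime ∧ P₂.IsPrime ∧ algebraMap R B π ∈ P₁ ∧
      algebraMap R B π ∈ P₂ ∧ s34i47d_LocStrW π B P₁ P₂ := by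
  have htr := tr50_transv π B V₁ V₂ hB₁ hB₂ hπV₂ hV₂ hS₁ hS₂ q hq hins
  obtain ⟨y₁, hy₁B, hy₁, hy₁'⟩ := hw₁
  obtain ⟨y₂, hy₂B, hy₂, hy₂'⟩ := hw₂
  refine lsw58_exists_locStrW π hπ0 B V₁ V₂ hB₁ hB₂ hπV₁ hπV₂ hV₁ hV₂ hsat
    ⟨⟨y₁, hy₁B⟩, hy₁, hy₁'⟩ ⟨⟨y₂, hy₂B⟩, hy₂, hy₂'⟩ ?_ ?_ ?_
  · intro n hn hπn hOn
    obtain ⟨z, hzn, hz⟩ := hS₁ n hn hπn hOn
    refine ⟨z, hzn, fun x hx => ?_⟩
    obtain ⟨s, hs, a, ha⟩ := hz x hx
    exact ⟨s, hs, a, ha⟩
  · intro n hn hπn hOn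
    obtain ⟨z, hzn, hz⟩ := hS₂ n hn hπn hOn
    refine ⟨z, hzn, fun x hx => ?_⟩
    obtain ⟨s, hs, a, ha⟩ := hz x hx
    exact ⟨s, hs, a, ha⟩
  · intro n hn hπn h1 h2 x hx
    exact htr n hn hπn h1 h2 x hx

end FLSW94abs

section FLSW94inst

variable {R K : Type} [CommRing R] [IsDomain R] [IsDiscreteValuationRing R] [Field K] [CharZero K]
  [Algebra R K] [IsFractionRing R K] [Algebra K Q̄] [Algebra.IsAlgebraic K Q̄]
  (M' q : ℕ) [NeZero M'] [NeZero q] (hq : q.Prime) (hM' : ¬ q ∣ M')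
  [Algebra R ↥(modularFunctionFieldFullC K M')]
  [IsScalarTower R K ↥(modularFunctionFieldFullC K M')]
  [Algebra R ↥(modularFunctionFieldFullC K (M' * q))]
  [IsScalarTower R K ↥(modularFunctionFieldFullC K (M' * q))]

/-- **One chart of the canonical frame**: `g = α g'` with `g'` a chart generator of the good
level `M'`. -/
theorem flsw94_core {π : R} (hπ : Irreducible π) (hqR : ¬ IsUnit (q : R))
    (hchar : (q : IsLocalRing.ResidueField R) = 0)
    (hperf : ∀ c : IsLocalRing.ResidueField R, ∃ d : IsLocalRing.ResidueField R, d ^ q = c)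
    (g' : ↥(modularFunctionFieldFullC K M')) (g : ↥(modularFunctionFieldFullC K (M' * q)))
    (hgα : al97L_alpha K M' q g' = g)
    (hg'V : g' ∈ cm85_Vinf (K := K) M' hπ)
    (hOut : sf79c_Out M' (M' * q) (dvd_mul_right M' q) hπ g' g)
    (hsat' : cm15_Sat R π ({g'} : Set ↥(modularFunctionFieldFullC K M'))
      (cm85_Vinf (K := K) M' hπ).toSubring)
    (hfrac' : ∀ x : ↥(modularFunctionFieldFullC K M'),
      ∃ a ∈ pk15_chart R ({g'} : Set ↥(modularFunctionFieldFullC K M')),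
      ∃ b ∈ pk15_chart R ({g'} : Set ↥(modularFunctionFieldFullC K M')), b ≠ 0 ∧ x * b = a)
    (hstab : ∀ z : ↥(modularFunctionFieldFullC K (M' * q)),
      al97L_w (algebraMap K Q̄) M' q hq hM' z ∈
          pk15_chart R ({g} : Set ↥(modularFunctionFieldFullC K (M' * q))) ↔
        z ∈ pk15_chart R ({g} : Set ↥(modularFunctionFieldFullC K (M' * q))))
    (hS₀ : sf79_Smooth π (pk15_chart R ({g} : Set ↥(modularFunctionFieldFullC K (M' * q))))
        (cm85_Vinf (K := K) (M' * q) hπ).toSubring →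
      sf79_Smooth π (pk15_chart R ({g} : Set ↥(modularFunctionFieldFullC K (M' * q))))
        (s34i47c_V0 (K := K) M' q hq hM' hπ).toSubring)
    (hNoeth : IsNoetherianRing (pk15_chart R ({g} : Set ↥(modularFunctionFieldFullC K (M' * q)))))
    (hsat : ∀ x ∈ pk15_chart R ({g} : Set ↥(modularFunctionFieldFullC K (M' * q))),
      (algebraMap R ↥(modularFunctionFieldFullC K (M' * q)) π)⁻¹ * x ∈
        s34i47c_W (K := K) M' q hq hM' hπ →
      (algebraMap R ↥(modularFunctionFieldFullC K (M' * q)) π)⁻¹ * x ∈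
        pk15_chart R ({g} : Set ↥(modularFunctionFieldFullC K (M' * q))))
    (hw₁ : ∃ x ∈ pk15_chart R ({g} : Set ↥(modularFunctionFieldFullC K (M' * q))),
      (algebraMap R ↥(modularFunctionFieldFullC K (M' * q)) π)⁻¹ * x ∈
        cm85_Vinf (K := K) (M' * q) hπ ∧
      (algebraMap R ↥(modularFunctionFieldFullC K (M' * q)) π)⁻¹ * x ∉
        s34i47c_V0 (K := K) M' q hq hM' hπ)
    (hw₂ : ∃ y ∈ pk15_chart R ({g} : Set ↥(modularFunctionFieldFullC K (M' * q))),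
      (algebraMap R ↥(modularFunctionFieldFullC K (M' * q)) π)⁻¹ * y ∈
        s34i47c_V0 (K := K) M' q hq hM' hπ ∧
      (algebraMap R ↥(modularFunctionFieldFullC K (M' * q)) π)⁻¹ * y ∉
        cm85_Vinf (K := K) (M' * q) hπ) :
    ∃ P₁ P₂ : Ideal (pk15_chart R ({g} : Set ↥(modularFunctionFieldFullC K (M' * q)))),
      P₁.IsPrime ∧ P₂.IsPrime ∧ algebraMap R _ π ∈ P₁ ∧ algebraMap R _ π ∈ P₂ ∧
        s34i47d_LocStrW π (pk15_chart R ({g} : Set ↥(modularFunctionFieldFullC K (M' * q))))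
          P₁ P₂ := by
  classical
  haveI := hNoeth
  have hdvd : M' ∣ M' * q := dvd_mul_right M' q
  have hconv : algebraMap R ↥(modularFunctionFieldFullC K (M' * q)) π =
      algebraMap K ↥(modularFunctionFieldFullC K (M' * q)) (algebraMap R K π) :=
    IsScalarTower.algebraMap_apply R K ↥(modularFunctionFieldFullC K (M' * q)) π
  have hconv' : algebraMap R ↥(modularFunctionFieldFullC K M') π =
      algebraMap K ↥(modularFunctionFieldFullC K M') (algebraMap R K π) :=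
    IsScalarTower.algebraMap_apply R K ↥(modularFunctionFieldFullC K M') π
  have hπK : algebraMap R K π ≠ 0 := fun h =>
    hπ.ne_zero (IsFractionRing.injective R K (by rw [h, map_zero]))
  have hπ0 : algebraMap R ↥(modularFunctionFieldFullC K (M' * q)) π ≠ 0 := by
    rw [hconv]
    exact (map_ne_zero _).mpr hπK
  -- the valuation ring `V_∞`
  have hRV : ∀ r : R, algebraMap R ↥(modularFunctionFieldFullC K (M' * q)) r ∈
      cm85_Vinf (K := K) (M' * q) hπ := pk85_hRV (M' * q) hπ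
  have hπV : (algebraMap R ↥(modularFunctionFieldFullC K (M' * q)) π)⁻¹ ∉
      cm85_Vinf (K := K) (M' * q) hπ := by
    rw [hconv]
    exact gv85_pi_inv_not_mem (IsLocalRing.residue R) π (pk85_res_iff hπ) hπ.ne_zero _ _
  have hmax : ∀ x ∈ cm85_Vinf (K := K) (M' * q) hπ, x⁻¹ ∉ cm85_Vinf (K := K) (M' * q) hπ →
      (algebraMap R ↥(modularFunctionFieldFullC K (M' * q)) π)⁻¹ * x ∈
        cm85_Vinf (K := K) (M' * q) hπ := by
    intro x hx hx'
    rw [hconv]
    exact gv85_hmax (IsLocalRing.residue R) π (pk85_res_iff hπ) hπ.ne_zero _ _ x hx hx'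
  -- the valuation ring `V_0`
  have hRV₀ : ∀ r : R, algebraMap R ↥(modularFunctionFieldFullC K (M' * q)) r ∈
      s34i47c_V0 (K := K) M' q hq hM' hπ := by
    intro r
    rw [s34i47c_mem_V0, IsScalarTower.algebraMap_apply R K ↥(modularFunctionFieldFullC K (M' * q)),
      AlgEquiv.commutes, ← IsScalarTower.algebraMap_apply R K ↥(modularFunctionFieldFullC K (M' * q))]
    exact hRV r
  have hπV₀ : (algebraMap R ↥(modularFunctionFieldFullC K (M' * q)) π)⁻¹ ∉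
      s34i47c_V0 (K := K) M' q hq hM' hπ := by
    rw [s34i47c_mem_V0, map_inv₀,
      IsScalarTower.algebraMap_apply R K ↥(modularFunctionFieldFullC K (M' * q)), AlgEquiv.commutes,
      ← IsScalarTower.algebraMap_apply R K ↥(modularFunctionFieldFullC K (M' * q))]
    exact hπV
  have hmax₀ : ∀ x ∈ s34i47c_V0 (K := K) M' q hq hM' hπ,
      x⁻¹ ∉ s34i47c_V0 (K := K) M' q hq hM' hπ →
      (algebraMap R ↥(modularFunctionFieldFullC K (M' * q)) π)⁻¹ * x ∈
        s34i47c_V0 (K := K) M' q hq hM' hπ := fun x hx hx' =>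
    tv2c_hmax_zero M' q hq hM' hπ hqR x hx hx'
  have hα₀ : ∀ x : ↥(modularFunctionFieldFullC K M'), x ∈ cm85_Vinf (K := K) M' hπ →
      al97L_alpha K M' q x ∈ s34i47c_V0 (K := K) M' q hq hM' hπ := fun x hx =>
    (al97V_alpha_mem_V0 (algebraMap K Q̄) M' q hq hM' hπ x).mpr hx
  have hβ₀ : ∀ x : ↥(modularFunctionFieldFullC K M'), x ∈ cm85_Vinf (K := K) M' hπ →
      al97L_beta K M' q x ∈ s34i47c_V0 (K := K) M' q hq hM' hπ := fun x hx =>
    (al97V_beta_mem_V0 (algebraMap K Q̄) M' q hq hM' hπ x).mpr hx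
  have hgV : g ∈ cm85_Vinf (K := K) (M' * q) hπ := by
    rw [← hgα]
    exact wi18_incl_mem M' (M' * q) hdvd hπ g' hg'V
  have hgV₀ : g ∈ s34i47c_V0 (K := K) M' q hq hM' hπ := by
    rw [← hgα]
    exact hα₀ g' hg'V
  have hB₁ : ∀ x ∈ pk15_chart R ({g} : Set ↥(modularFunctionFieldFullC K (M' * q))),
      x ∈ (cm85_Vinf (K := K) (M' * q) hπ).toSubring :=
    pk15_chart_le_V _ hRV _ (fun y hy => by rw [Set.mem_singleton_iff.mp hy]; exact hgV)
  have hB₂ : ∀ x ∈ pk15_chart R ({g} : Set ↥(modularFunctionFieldFullC K (M' * q))),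
      x ∈ (s34i47c_V0 (K := K) M' q hq hM' hπ).toSubring :=
    pk15_chart_le_V _ hRV₀ _ (fun y hy => by rw [Set.mem_singleton_iff.mp hy]; exact hgV₀)
  have hB'V' : ∀ x ∈ pk15_chart R ({g'} : Set ↥(modularFunctionFieldFullC K M')),
      x ∈ cm85_Vinf (K := K) M' hπ :=
    pk15_chart_le_V _ (pk85_hRV M' hπ) _
      (fun y hy => by rw [Set.mem_singleton_iff.mp hy]; exact hg'V)
  obtain ⟨hsurj, -, hS₁⟩ := hOut
  have hS₂ := hS₀ hS₁
  -- the good level
  have hmax' : ∀ x ∈ cm85_Vinf (K := K) M' hπ, x⁻¹ ∉ cm85_Vinf (K := K) M' hπ →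
      (algebraMap R ↥(modularFunctionFieldFullC K M') π)⁻¹ * x ∈ cm85_Vinf (K := K) M' hπ := by
    intro x hx hx'
    rw [hconv']
    exact gv85_hmax (IsLocalRing.residue R) π (pk85_res_iff hπ) hπ.ne_zero _ _ x hx hx'
  have hfrac := tr50_frac_of_sat (algebraMap R ↥(modularFunctionFieldFullC K M') π)
    (pk15_chart R ({g'} : Set ↥(modularFunctionFieldFullC K M'))).toSubring
    (cm85_Vinf (K := K) M' hπ).toSubring hB'V' hmax' hsat' (wi18_arch M' hπ) hfrac'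
  -- the two degeneracy maps on the charts
  have hαB : ∀ x ∈ pk15_chart R ({g'} : Set ↥(modularFunctionFieldFullC K M')),
      al97L_alpha K M' q x ∈ pk15_chart R ({g} : Set ↥(modularFunctionFieldFullC K (M' * q))) := by
    intro x hx
    have h := sf79i_map_mem ((cm15_incl K M' (M' * q) hdvd).restrictScalars R)
      ({g'} : Set ↥(modularFunctionFieldFullC K M')) x hx
    rw [Set.image_singleton] at h
    have hg2 : ((cm15_incl K M' (M' * q) hdvd).restrictScalars R) g' = g := hgα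
    rw [hg2] at h
    exact h
  have hβC : ∀ x ∈ pk15_chart R ({g'} : Set ↥(modularFunctionFieldFullC K M')),
      al97L_beta K M' q x ∈ pk15_chart R ({g} : Set ↥(modularFunctionFieldFullC K (M' * q))) := by
    intro x hx
    rw [← al97L_w_alpha_apply (algebraMap K Q̄) M' q hq hM' x]
    exact (hstab _).mpr (hαB x hx)
  have hfrob : ∀ x ∈ cm85_Vinf (K := K) M' hπ, ∃ x₁ ∈ cm85_Vinf (K := K) M' hπ,
      (algebraMap R ↥(modularFunctionFieldFullC K (M' * q)) π)⁻¹ *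
        (al97L_alpha K M' q x - al97L_beta K M' q x₁ ^ q) ∈
        s34i47c_V0 (K := K) M' q hq hM' hπ := by
    intro x hx
    obtain ⟨x₁, hx₁, h⟩ := ins50_frob_Vzero M' q (algebraMap K Q̄) hπ hq hM' hchar hperf x hx
    refine ⟨x₁, hx₁, ?_⟩
    rw [hconv, s34i47c_mem_V0]
    exact h
  have hins := tr50_hins π (pk15_chart R ({g} : Set ↥(modularFunctionFieldFullC K (M' * q))))
    (cm85_Vinf (K := K) (M' * q) hπ).toSubring (s34i47c_V0 (K := K) M' q hq hM' hπ).toSubring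
    hB₂ hπV₀
    ((al97L_alpha K M' q : ↥(modularFunctionFieldFullC K M') →ₐ[K]
      ↥(modularFunctionFieldFullC K (M' * q))) : ↥(modularFunctionFieldFullC K M') →+*
      ↥(modularFunctionFieldFullC K (M' * q)))
    ((al97L_beta K M' q : ↥(modularFunctionFieldFullC K M') →ₐ[K]
      ↥(modularFunctionFieldFullC K (M' * q))) : ↥(modularFunctionFieldFullC K M') →+*
      ↥(modularFunctionFieldFullC K (M' * q)))
    (pk15_chart R ({g'} : Set ↥(modularFunctionFieldFullC K M'))).toSubring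
    (cm85_Vinf (K := K) M' hπ).toSubring
    ((pk15_chart R ({g'} : Set ↥(modularFunctionFieldFullC K M')) :
      Subalgebra R ↥(modularFunctionFieldFullC K M')) : Set ↥(modularFunctionFieldFullC K M'))
    hαB hB'V' hβC hβ₀ q (fun x => hsurj x x.2) hfrob hfrac
  have hV₁ : ∀ x ∈ (cm85_Vinf (K := K) (M' * q) hπ).toSubring,
      (algebraMap R ↥(modularFunctionFieldFullC K (M' * q)) π)⁻¹ * x ∉
        (cm85_Vinf (K := K) (M' * q) hπ).toSubring →
      x⁻¹ ∈ (cm85_Vinf (K := K) (M' * q) hπ).toSubring := fun x hx h =>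
    by_contra fun h' => h (hmax x hx h')
  have hV₂ : ∀ x ∈ (s34i47c_V0 (K := K) M' q hq hM' hπ).toSubring,
      (algebraMap R ↥(modularFunctionFieldFullC K (M' * q)) π)⁻¹ * x ∉
        (s34i47c_V0 (K := K) M' q hq hM' hπ).toSubring →
      x⁻¹ ∈ (s34i47c_V0 (K := K) M' q hq hM' hπ).toSubring := fun x hx h =>
    by_contra fun h' => h (hmax₀ x hx h')
  exact flsw94_chart π hπ0 _ (cm85_Vinf (K := K) (M' * q) hπ).toSubring
    (s34i47c_V0 (K := K) M' q hq hM' hπ).toSubring hB₁ hB₂ hπV hπV₀ hV₁ hV₂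
    (fun x hx h1 h2 => hsat x hx ((wa5_mem_W _ _ _).mpr ⟨h1, h2⟩)) hw₁ hw₂ hS₁ hS₂ q hq.two_le
    hins

end FLSW94inst

section FLSW94pkg

/-- **FRAME-LS′** (`Iface47d`) at every level `M' * q`, `q ∤ M'`. -/
theorem flsw94_frameLSW (M' q : ℕ) [NeZero M'] [NeZero q] (hq : q.Prime) (hM' : ¬ q ∣ M') :
    s34i47d_FrameLSW M' q := by
  intro R K _ _ _ _ _ _ _ _ _ _ π hπ hunit hqR
  haveI : Algebra.IsAlgebraic K Q̄ := fs85_isAlgebraic K
  letI : Algebra R ↥(modularFunctionFieldFullC K M') :=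
    ((algebraMap K ↥(modularFunctionFieldFullC K M')).comp (algebraMap R K)).toAlgebra
  haveI : IsScalarTower R K ↥(modularFunctionFieldFullC K M') :=
    IsScalarTower.of_algebraMap_eq (fun _ => rfl)
  have hdvd : M' ∣ M' * q := dvd_mul_right M' q
  have hMu : IsUnit (M' : R) := hunit M' ((Nat.Prime.coprime_iff_not_dvd hq).mpr hM').symm
  obtain ⟨-, hchar, -, hperf⟩ := rf25_frame R K hq hqR
  obtain ⟨-, hC⟩ := fs85_frameSat M' q hq hM' R K π hπ hunit hqR
  have hres : ∀ x ∈ cm85_Vinf (K := K) (M' * q) hπ, ∃ b ∈ cm85_Vinf (K := K) M' hπ,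
      (algebraMap R ↥(modularFunctionFieldFullC K (M' * q)) π)⁻¹ *
        (x - cm15_incl K M' (M' * q) hdvd b) ∈ cm85_Vinf (K := K) (M' * q) hπ :=
    fun x hx => tv2c_res_one_inf M' q hq hM' hπ hqR x hx
  intro h hh
  obtain ⟨-, -, hsat₁, hsat₂, -, hN₁, hN₂, -, -⟩ := hC h hh
  obtain ⟨hstab₁, hstab₂, -⟩ := sz63_chart_stable M' q hq hM' hunit hqR h hh
  obtain ⟨hSz₁, hSz₂⟩ := sz63_smooth_V0 M' q hq hM' hπ hunit hqR h hh
  obtain ⟨hw₁, hw₂, hw₃, hw₄⟩ := bs70_sep_haupt M' q hq hM' hπ hunit hqR h hh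
  rcases hh with ⟨hq2, h2, rfl⟩ | ⟨hq3, h3, rfl⟩
  · have h2' : 2 ∣ M' := by
      rcases (Nat.Prime.dvd_mul Nat.prime_two).mp h2 with h | h
      · exact h
      · exact absurd ((Nat.prime_dvd_prime_iff_eq Nat.prime_two hq).mp h).symm hq2
    obtain ⟨hO₁, hO₂⟩ := sf79c_level2 M' (M' * q) hdvd hπ h2' hMu hres
    obtain ⟨hs₁, hs₂, -⟩ := cm15_base_sat_level2 (R := R) (K := K) M' hπ h2' hMu
    obtain ⟨⟨-, -, -, hfrac₁⟩, ⟨-, -, -, hfrac₂⟩⟩ := sm79_level2 (R := R) K M' hπ hMu h2'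
    obtain ⟨-, -, -, -, hhV, hhV', -⟩ := cm85_facts_level2 (R := R) (K := K) M' hπ h2'
    have hh : al97L_alpha K M' q (pk85_h2 K M' h2') = pk85_h2 K (M' * q) h2 :=
      Subtype.ext (by rw [al97L_alpha_coe, pk85_h2_coe, pk85_h2_coe])
    exact ⟨flsw94_core M' q hq hM' hπ hqR hchar hperf _ _ hh hhV hO₁ hs₁ hfrac₁
        (fun z => hstab₁ z) hSz₁ hN₁ hsat₁ hw₁ hw₂,
      flsw94_core M' q hq hM' hπ hqR hchar hperf _ _ (by rw [map_inv₀, hh]) hhV' hO₂ hs₂ hfrac₂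
        (fun z => hstab₂ z) hSz₂ hN₂ hsat₂ hw₃ hw₄⟩
  · have h3' : 3 ∣ M' := by
      rcases (Nat.Prime.dvd_mul Nat.prime_three).mp h3 with h | h
      · exact h
      · exact absurd ((Nat.prime_dvd_prime_iff_eq Nat.prime_three hq).mp h).symm hq3
    obtain ⟨hO₁, hO₂⟩ := sf79c_level3 M' (M' * q) hdvd hπ h3' hMu hres
    obtain ⟨hs₁, hs₂, -⟩ := cm15_base_sat_level3 (R := R) (K := K) M' hπ h3' hMu
    obtain ⟨⟨-, -, -, hfrac₁⟩, ⟨-, -, -, hfrac₂⟩⟩ := sm79_level3 (R := R) K M' hπ hMu h3'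
    obtain ⟨-, -, -, -, hhV, hhV', -⟩ := cm85_facts_level3 (R := R) (K := K) M' hπ h3'
    have hh : al97L_alpha K M' q (pk85_h3 K M' h3') = pk85_h3 K (M' * q) h3 :=
      Subtype.ext (by rw [al97L_alpha_coe, pk85_h3_coe, pk85_h3_coe])
    exact ⟨flsw94_core M' q hq hM' hπ hqR hchar hperf _ _ hh hhV hO₁ hs₁ hfrac₁
        (fun z => hstab₁ z) hSz₁ hN₁ hsat₁ hw₁ hw₂,
      flsw94_core M' q hq hM' hπ hqR hchar hperf _ _ (by rw [map_inv₀, hh]) hhV' hO₂ hs₂ hfrac₂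
        (fun z => hstab₂ z) hSz₂ hN₂ hsat₂ hw₃ hw₄⟩

/-- **The package FRAME-LS′** of `Iface47d`. -/
theorem flsw94_pkg : s34i47d_Pkg_FrameLSW :=
  fun M' q _ _ hq hM' => flsw94_frameLSW M' q hq hM'

end FLSW94pkg

end Fermat.Agent.S34
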