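import Mathlib
import Fermat.Agent.S34.TransvChart50
import Fermat.Agent.S34.FrobInsepDVR50
import Fermat.Agent.S34.AtkinLehnerCanon97
import Fermat.Agent.S34.HauptIntInst95
import Fermat.Agent.S34.ChartM15b
import Fermat.Agent.S34.WIntInst18

/-!
# S34 lab, row P3b-insep (helper50), part 5: the INSTANCE of `sf79_Transv` (3b) on the canonical
frame data of `Iface47c`

Level `M = M' * q`, `q ∤ M'`; `F' = F_K(M')`, `F = F_K(M' q)`; `α = al97L_alpha`, `β = al97L_beta`;
`V' = cm85_Vinf M'`, `V_∞ = cm85_Vinf (M' q)`, `V_0 = s34i47c_V0`; charts `pk15_chart R s`.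

* `tri50_map_chart` : a ring hom `φ : F' → F` over `R` sending the generators `s'` of a chart into
  an integrally closed subalgebra `B` of `F` maps the whole chart `pk15_chart R s'` into `B`.
* `tri50_frac` : `V' = C_(π)` for a chart `C = pk15_chart R s'` of level `M'` saturated in `V'`.
* `tri50_frob_V0` : pure inseparability at `V_0` in subring form (`ins50_frob_Vzero`).
* `tri50_core` : `sf79_Transv π (pk15_chart R s) V_∞ V_0` for a noetherian chart inside `W`, from
  `sf79_Smooth` for both branches, (3a)-surjectivity `hsurj`, and a chart `s'` of level `M'`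
  (saturated in `V'`, fraction field `F'`) with `β s' ⊆ pk15_chart R s`.
* `tri50_transv_two`, `tri50_transv_three` : the four concrete cases (Hauptmodul of level 2 / 3,
  charts `{h}`, `{h⁻¹}`) in the binder block of `s34i47c_FrameLS`.
-/

set_option autoImplicit false
set_option linter.unusedSectionVars false
set_option linter.style.haveILetI false

open ModularCurve AlgebraicCurve IntermediateField

namespace Fermat.Agent.S34

open Fermat.Agent.S18 Fermat.Agent.S24 Fermat.Agent.S28 Fermat.Agent.S37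

local notation "Q̄" => AlgebraicClosure ℚ

section Abs

variable {R F' F : Type*} [CommRing R] [Field F'] [Field F] [Algebra R F'] [Algebra R F]

/-- A ring hom over `R` sending the generators of a chart into an integrally closed subalgebra
`B` sends the whole chart into `B`. -/
theorem tri50_map_chart (φ : F' →+* F)
    (hφR : ∀ r : R, φ (algebraMap R F' r) = algebraMap R F r)
    (s : Set F') (B : Subalgebra R F) (hBint : ∀ z : F, IsIntegral B z → z ∈ B)
    (hs : ∀ g ∈ s, φ g ∈ B) : ∀ x ∈ pk15_chart R s, φ x ∈ B := by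
  intro x hx
  rw [pk15_mem_chart] at hx
  have hS : ∀ y ∈ Algebra.adjoin R s, φ y ∈ B := by
    intro y hy
    induction hy using Algebra.adjoin_induction with
    | mem y hy => exact hs y hy
    | algebraMap r => rw [hφR r]; exact B.algebraMap_mem r
    | add a b _ _ ha hb => rw [map_add]; exact B.add_mem ha hb
    | mul a b _ _ ha hb => rw [map_mul]; exact B.mul_mem ha hb
  let φA : ↥(Algebra.adjoin R s) →+* ↥B :=
    (φ.comp (algebraMap ↥(Algebra.adjoin R s) F')).codRestrict B (fun a => hS a a.2)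
  exact hBint _ (IsIntegral.map_of_comp_eq φA φ (RingHom.ext fun a => rfl) hx)

/-- Charts are integrally closed in the ambient field. -/
theorem tri50_chart_closed (s : Set F) (z : F) (hz : IsIntegral (pk15_chart R s) z) :
    z ∈ pk15_chart R s := by
  rw [pk15_mem_chart]
  have h1 : IsIntegral (integralClosure (Algebra.adjoin R s) F) z := hz
  exact isIntegral_trans z h1

end Abs

section Canon

variable {R K : Type} [CommRing R] [IsDomain R] [IsDiscreteValuationRing R] [Field K]
  [NumberField K] [Algebra R K] [IsFractionRing R K] [Algebra K Q̄]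
  (M' q : ℕ) [NeZero M'] [NeZero q] (hq : q.Prime) (hM' : ¬ q ∣ M')
  {π : R} (hπ : Irreducible π)

section Upper

variable [Algebra R ↥(modularFunctionFieldFullC K (M' * q))]
  [IsScalarTower R K ↥(modularFunctionFieldFullC K (M' * q))]

/-- **Pure inseparability at `V_0`**, subring form: for `x ∈ V'` there is `x₁ ∈ V'` with
`π⁻¹ (α x - (β x₁) ^ q) ∈ V_0`. -/
theorem tri50_frob_V0 (hqR : ¬ IsUnit (q : R))
    (x : ↥(modularFunctionFieldFullC K M')) (hx : x ∈ cm85_Vinf (K := K) M' hπ) :
    ∃ x₁ ∈ cm85_Vinf (K := K) M' hπ,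
      (algebraMap R ↥(modularFunctionFieldFullC K (M' * q)) π)⁻¹ *
        (al97L_alpha K M' q x - al97L_beta K M' q x₁ ^ q) ∈
          s34i47c_V0 (K := K) M' q hq hM' hπ := by
  obtain ⟨hchar, hperf⟩ := ins50_perfect (R := R) (K := K) (IsFractionRing.injective R K) hq hqR
  obtain ⟨x₁, hx₁, h⟩ := ins50_frob_Vzero M' q (algebraMap K Q̄) hπ hq hM' hchar hperf x hx
  refine ⟨x₁, hx₁, ?_⟩
  rw [IsScalarTower.algebraMap_apply R K ↥(modularFunctionFieldFullC K (M' * q)) π]
  exact h

end Upper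

section Lower

variable [Algebra R ↥(modularFunctionFieldFullC K M')]
  [IsScalarTower R K ↥(modularFunctionFieldFullC K M')]

/-- **`V' = C_(π)`** for a chart `C = pk15_chart R s'` at level `M'` which is saturated in the
Gauss ring `V'` and has fraction field `F_K(M')`. -/
theorem tri50_frac (s' : Set ↥(modularFunctionFieldFullC K M'))
    (hs'V : ∀ g ∈ s', g ∈ cm85_Vinf (K := K) M' hπ)
    (hsat : cm15_Sat R π s' (cm85_Vinf (K := K) M' hπ).toSubring)
    (hfrac : ∀ x : ↥(modularFunctionFieldFullC K M'),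
      ∃ a ∈ pk15_chart R s', ∃ b ∈ pk15_chart R s', b ≠ 0 ∧ x * b = a) :
    ∀ x ∈ cm85_Vinf (K := K) M' hπ, ∃ a ∈ pk15_chart R s', ∃ c ∈ pk15_chart R s',
      c⁻¹ ∈ cm85_Vinf (K := K) M' hπ ∧ c ≠ 0 ∧ c * x = a := by
  have hRV : ∀ r : R, algebraMap R ↥(modularFunctionFieldFullC K M') r ∈
      cm85_Vinf (K := K) M' hπ := pk85_hRV M' hπ
  have hπV : (algebraMap R ↥(modularFunctionFieldFullC K M') π)⁻¹ ∉ cm85_Vinf (K := K) M' hπ := by
    rw [IsScalarTower.algebraMap_apply R K ↥(modularFunctionFieldFullC K M') π]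
    exact gv85_pi_inv_not_mem (IsLocalRing.residue R) π (pk85_res_iff hπ) hπ.ne_zero _ _
  have hmax : ∀ x ∈ (cm85_Vinf (K := K) M' hπ).toSubring,
      x⁻¹ ∉ (cm85_Vinf (K := K) M' hπ).toSubring →
      (algebraMap R ↥(modularFunctionFieldFullC K M') π)⁻¹ * x ∈
        (cm85_Vinf (K := K) M' hπ).toSubring := by
    intro x hx hx'
    rw [IsScalarTower.algebraMap_apply R K ↥(modularFunctionFieldFullC K M') π]
    exact gv85_hmax (IsLocalRing.residue R) π (pk85_res_iff hπ) hπ.ne_zero _ _ x hx hx'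
  exact tr50_frac_of_sat (algebraMap R ↥(modularFunctionFieldFullC K M') π)
    (pk15_chart R s').toSubring (cm85_Vinf (K := K) M' hπ).toSubring
    (pk15_chart_le_V _ hRV s' hs'V) hmax hsat (fun x hx => wi18_arch M' hπ x hx) hfrac


variable [Algebra R ↥(modularFunctionFieldFullC K (M' * q))]
  [IsScalarTower R K ↥(modularFunctionFieldFullC K (M' * q))]

/-- **(3b) on the canonical frame data, generic chart.**  `s` generates a noetherian chart of level
`M' q` inside `W`; `s'` generates a chart of level `M'` saturated in `V'` with fraction field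
`F_K(M')` and `β s' ⊆ pk15_chart R s`.  Then smoothness of the two branches and
(3a)-surjectivity on the `∞`-branch give the literal `sf79_Transv`. -/
theorem tri50_core (hqR : ¬ IsUnit (q : R))
    (s : Set ↥(modularFunctionFieldFullC K (M' * q)))
    [IsNoetherianRing (pk15_chart R s)]
    (hsW : ∀ x ∈ pk15_chart R s, x ∈ s34i47c_W (K := K) M' q hq hM' hπ)
    (s' : Set ↥(modularFunctionFieldFullC K M'))
    (hs'V : ∀ g ∈ s', g ∈ cm85_Vinf (K := K) M' hπ)
    (hsat : cm15_Sat R π s' (cm85_Vinf (K := K) M' hπ).toSubring)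
    (hfrac : ∀ x : ↥(modularFunctionFieldFullC K M'),
      ∃ a ∈ pk15_chart R s', ∃ b ∈ pk15_chart R s', b ≠ 0 ∧ x * b = a)
    (hβs : ∀ g ∈ s', al97L_beta K M' q g ∈ pk15_chart R s)
    (hS₁ : sf79_Smooth π (pk15_chart R s) (cm85_Vinf (K := K) (M' * q) hπ).toSubring)
    (hS₂ : sf79_Smooth π (pk15_chart R s) (s34i47c_V0 (K := K) M' q hq hM' hπ).toSubring)
    (hsurj : ∀ x ∈ pk15_chart R s, ∃ x' : ↥(modularFunctionFieldFullC K M'),
      al97L_alpha K M' q x' ∈ pk15_chart R s ∧
      (algebraMap R ↥(modularFunctionFieldFullC K (M' * q)) π)⁻¹ * (x - al97L_alpha K M' q x') ∈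
        cm85_Vinf (K := K) (M' * q) hπ) :
    sf79_Transv π (pk15_chart R s) (cm85_Vinf (K := K) (M' * q) hπ).toSubring
      (s34i47c_V0 (K := K) M' q hq hM' hπ).toSubring := by
  have hB₁ : ∀ x ∈ pk15_chart R s, x ∈ (cm85_Vinf (K := K) (M' * q) hπ).toSubring :=
    fun x hx => ((s34i47c_mem_W M' q hq hM' hπ x).mp (hsW x hx)).1
  have hB₂ : ∀ x ∈ pk15_chart R s, x ∈ (s34i47c_V0 (K := K) M' q hq hM' hπ).toSubring :=
    fun x hx => (s34i47c_mem_V0 M' q hq hM' hπ x).mpr
      ((s34i47c_mem_W M' q hq hM' hπ x).mp (hsW x hx)).2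
  have hπ₂ : (algebraMap R ↥(modularFunctionFieldFullC K (M' * q)) π)⁻¹ ∉
      (s34i47c_V0 (K := K) M' q hq hM' hπ).toSubring :=
    al97C_pi_inv_not_mem_V0 (K := K) M' q hq hM' hπ
  have hV₂ : ∀ x ∈ (s34i47c_V0 (K := K) M' q hq hM' hπ).toSubring,
      (algebraMap R ↥(modularFunctionFieldFullC K (M' * q)) π)⁻¹ * x ∉
        (s34i47c_V0 (K := K) M' q hq hM' hπ).toSubring →
      x⁻¹ ∈ (s34i47c_V0 (K := K) M' q hq hM' hπ).toSubring := by
    intro x hx hnot
    by_contra hcon
    exact hnot (al97C_hmax_V0 M' q hq hM' hπ x hx hcon)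
  have hβR : ∀ r : R, (al97L_beta K M' q : ↥(modularFunctionFieldFullC K M') →+*
      ↥(modularFunctionFieldFullC K (M' * q))) (algebraMap R ↥(modularFunctionFieldFullC K M') r) =
      algebraMap R ↥(modularFunctionFieldFullC K (M' * q)) r := by
    intro r
    rw [IsScalarTower.algebraMap_apply R K ↥(modularFunctionFieldFullC K M'),
      IsScalarTower.algebraMap_apply R K ↥(modularFunctionFieldFullC K (M' * q))]
    exact (al97L_beta K M' q).commutes _
  have hβC : ∀ x ∈ pk15_chart R s', al97L_beta K M' q x ∈ pk15_chart R s :=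
    tri50_map_chart (al97L_beta K M' q : ↥(modularFunctionFieldFullC K M') →+*
      ↥(modularFunctionFieldFullC K (M' * q))) hβR s' (pk15_chart R s) (tri50_chart_closed s) hβs
  refine tr50_transv π (pk15_chart R s) _ _ hB₁ hB₂ hπ₂ hV₂ hS₁ hS₂ q hq.two_le ?_
  refine tr50_hins π (pk15_chart R s) _ _ hB₂ hπ₂
    (al97L_alpha K M' q : ↥(modularFunctionFieldFullC K M') →+*
      ↥(modularFunctionFieldFullC K (M' * q)))
    (al97L_beta K M' q : ↥(modularFunctionFieldFullC K M') →+*
      ↥(modularFunctionFieldFullC K (M' * q)))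
    ((pk15_chart R s).toSubring.comap (al97L_alpha K M' q : ↥(modularFunctionFieldFullC K M') →+*
      ↥(modularFunctionFieldFullC K (M' * q))))
    (cm85_Vinf (K := K) M' hπ).toSubring
    (pk15_chart R s' : Set ↥(modularFunctionFieldFullC K M')) (fun x hx => hx) ?_ hβC ?_ q ?_ ?_ ?_
  · intro x hx
    exact (al97C_alpha_mem_Vinf M' q hπ x).mp (hB₁ _ hx)
  · intro x hx
    exact (al97C_beta_mem_V0 M' q hq hM' hπ x).mpr hx
  · intro x
    obtain ⟨x', hx'B, hx'⟩ := hsurj x x.2
    exact ⟨x', hx'B, hx'⟩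
  · intro x hx
    exact tri50_frob_V0 M' q hq hM' hπ hqR x hx
  · exact tri50_frac M' hπ s' hs'V hsat hfrac

end Lower

section Inst

variable [Algebra R ↥(modularFunctionFieldFullC K (M' * q))]
  [IsScalarTower R K ↥(modularFunctionFieldFullC K (M' * q))]

/-- **(3b), level-2 Hauptmodul** (`2 ∣ M'`, `q ≠ 2`), both charts, in the binder block of
`s34i47c_FrameLS`: `sf79_Transv` from row 488 (`sf79_Smooth` for `V_∞` and (3a)-surjectivity
`B = α(B') + p_∞`) and row 489 (`sf79_Smooth` for `V_0`). -/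
theorem tri50_transv_two (h2 : 2 ∣ M') (hq2 : q ≠ 2)
    (hunit : ∀ n : ℕ, Nat.Coprime n q → IsUnit (n : R)) (hqR : ¬ IsUnit (q : R)) :
    (sf79_Smooth π
        (pk15_chart R ({pk85_h2 K (M' * q) (h2.trans (dvd_mul_right M' q))} :
          Set ↥(modularFunctionFieldFullC K (M' * q))))
        (cm85_Vinf (K := K) (M' * q) hπ).toSubring →
      sf79_Smooth π
        (pk15_chart R ({pk85_h2 K (M' * q) (h2.trans (dvd_mul_right M' q))} :
          Set ↥(modularFunctionFieldFullC K (M' * q))))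
        (s34i47c_V0 (K := K) M' q hq hM' hπ).toSubring →
      (∀ x ∈ pk15_chart R ({pk85_h2 K (M' * q) (h2.trans (dvd_mul_right M' q))} :
          Set ↥(modularFunctionFieldFullC K (M' * q))),
        ∃ x' : ↥(modularFunctionFieldFullC K M'),
          al97L_alpha K M' q x' ∈
            pk15_chart R ({pk85_h2 K (M' * q) (h2.trans (dvd_mul_right M' q))} :
              Set ↥(modularFunctionFieldFullC K (M' * q))) ∧
          (algebraMap R ↥(modularFunctionFieldFullC K (M' * q)) π)⁻¹ *
            (x - al97L_alpha K M' q x') ∈ cm85_Vinf (K := K) (M' * q) hπ) →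
      sf79_Transv π
        (pk15_chart R ({pk85_h2 K (M' * q) (h2.trans (dvd_mul_right M' q))} :
          Set ↥(modularFunctionFieldFullC K (M' * q))))
        (cm85_Vinf (K := K) (M' * q) hπ).toSubring
        (s34i47c_V0 (K := K) M' q hq hM' hπ).toSubring) ∧
    (sf79_Smooth π
        (pk15_chart R ({(pk85_h2 K (M' * q) (h2.trans (dvd_mul_right M' q)))⁻¹} :
          Set ↥(modularFunctionFieldFullC K (M' * q))))
        (cm85_Vinf (K := K) (M' * q) hπ).toSubring →
      sf79_Smooth π
        (pk15_chart R ({(pk85_h2 K (M' * q) (h2.trans (dvd_mul_right M' q)))⁻¹} :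
          Set ↥(modularFunctionFieldFullC K (M' * q))))
        (s34i47c_V0 (K := K) M' q hq hM' hπ).toSubring →
      (∀ x ∈ pk15_chart R ({(pk85_h2 K (M' * q) (h2.trans (dvd_mul_right M' q)))⁻¹} :
          Set ↥(modularFunctionFieldFullC K (M' * q))),
        ∃ x' : ↥(modularFunctionFieldFullC K M'),
          al97L_alpha K M' q x' ∈
            pk15_chart R ({(pk85_h2 K (M' * q) (h2.trans (dvd_mul_right M' q)))⁻¹} :
              Set ↥(modularFunctionFieldFullC K (M' * q))) ∧
          (algebraMap R ↥(modularFunctionFieldFullC K (M' * q)) π)⁻¹ *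
            (x - al97L_alpha K M' q x') ∈ cm85_Vinf (K := K) (M' * q) hπ) →
      sf79_Transv π
        (pk15_chart R ({(pk85_h2 K (M' * q) (h2.trans (dvd_mul_right M' q)))⁻¹} :
          Set ↥(modularFunctionFieldFullC K (M' * q))))
        (cm85_Vinf (K := K) (M' * q) hπ).toSubring
        (s34i47c_V0 (K := K) M' q hq hM' hπ).toSubring) := by
  haveI : Algebra.IsAlgebraic K Q̄ := cx_isAlgebraic_closure K
  letI : Algebra R ↥(modularFunctionFieldFullC K M') :=
    ((algebraMap K ↥(modularFunctionFieldFullC K M')).comp (algebraMap R K)).toAlgebra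
  haveI : IsScalarTower R K ↥(modularFunctionFieldFullC K M') :=
    IsScalarTower.of_algebraMap_eq (fun _ => rfl)
  have hMu : IsUnit (M' : R) :=
    hunit M' (Nat.Coprime.symm ((Nat.Prime.coprime_iff_not_dvd hq).mpr hM'))
  have h2R : IsUnit ((2 : ℕ) : R) :=
    hunit 2 ((Nat.coprime_primes Nat.prime_two hq).mpr (Ne.symm hq2))
  obtain ⟨hs₁, hs₂, -⟩ := cm15_base_sat_level2 (R := R) (K := K) M' hπ h2 hMu
  obtain ⟨-, -, -, -, hhV, hhV', -, -, -, -, hfrac₁, hfrac₂, -⟩ :=
    cm85_facts_level2 (R := R) (K := K) M' hπ h2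
  obtain ⟨-, -, -, -, -, -, hNo₁, hNo₂, -⟩ :=
    cm85_facts_level2 (R := R) (K := K) (M' * q) hπ (h2.trans (dvd_mul_right M' q))
  have hHaupt : s34i47c_IsHaupt K (M' * q) q (pk85_h2 K (M' * q) (h2.trans (dvd_mul_right M' q))) :=
    Or.inl ⟨hq2, h2.trans (dvd_mul_right M' q), rfl⟩
  have hβ := hi95_beta2_mem_chart (R := R) K (M' * q) q hq hq2 (Nat.mul_dvd_mul_right h2 q) h2R hqR
    (pk85_h2 K (M' * q) (h2.trans (dvd_mul_right M' q))) (pk85_h2_coe K (M' * q) _)
  have hβeq : al97L_beta K M' q (pk85_h2 K M' h2) =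
      hi95_beta2 K (M' * q) q hq.ne_zero (Nat.mul_dvd_mul_right h2 q) := by
    apply Subtype.ext
    rw [al97L_beta_coe, pk85_h2_coe, hi95_beta2_coe, qE_of_neZero]
  constructor
  · intro hS₁ hS₂ hsurj
    haveI := hNo₁
    refine tri50_core M' q hq hM' hπ hqR _
      (al97C_chart_le_W M' q hq hM' hπ _ hHaupt _ (by simp)) {pk85_h2 K M' h2} ?_ hs₁ hfrac₁ ?_
      hS₁ hS₂ hsurj
    · intro g hg
      rw [Set.mem_singleton_iff] at hg
      rw [hg]
      exact hhV
    · intro g hg
      rw [Set.mem_singleton_iff] at hg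
      rw [hg, hβeq]
      exact hβ.1
  · intro hS₁ hS₂ hsurj
    haveI := hNo₂
    refine tri50_core M' q hq hM' hπ hqR _
      (al97C_chart_le_W M' q hq hM' hπ _ hHaupt _ (by simp)) {(pk85_h2 K M' h2)⁻¹} ?_ hs₂ hfrac₂ ?_
      hS₁ hS₂ hsurj
    · intro g hg
      rw [Set.mem_singleton_iff] at hg
      rw [hg]
      exact hhV'
    · intro g hg
      rw [Set.mem_singleton_iff] at hg
      rw [hg, map_inv₀, hβeq]
      exact hβ.2

/-- **(3b), level-3 Hauptmodul** (`3 ∣ M'`, `q ≠ 3`), both charts, in the binder block of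
`s34i47c_FrameLS`: `sf79_Transv` from row 488 (`sf79_Smooth` for `V_∞` and (3a)-surjectivity
`B = α(B') + p_∞`) and row 489 (`sf79_Smooth` for `V_0`). -/
theorem tri50_transv_three (h2 : 3 ∣ M') (hq2 : q ≠ 3)
    (hunit : ∀ n : ℕ, Nat.Coprime n q → IsUnit (n : R)) (hqR : ¬ IsUnit (q : R)) :
    (sf79_Smooth π
        (pk15_chart R ({pk85_h3 K (M' * q) (h2.trans (dvd_mul_right M' q))} :
          Set ↥(modularFunctionFieldFullC K (M' * q))))
        (cm85_Vinf (K := K) (M' * q) hπ).toSubring →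
      sf79_Smooth π
        (pk15_chart R ({pk85_h3 K (M' * q) (h2.trans (dvd_mul_right M' q))} :
          Set ↥(modularFunctionFieldFullC K (M' * q))))
        (s34i47c_V0 (K := K) M' q hq hM' hπ).toSubring →
      (∀ x ∈ pk15_chart R ({pk85_h3 K (M' * q) (h2.trans (dvd_mul_right M' q))} :
          Set ↥(modularFunctionFieldFullC K (M' * q))),
        ∃ x' : ↥(modularFunctionFieldFullC K M'),
          al97L_alpha K M' q x' ∈
            pk15_chart R ({pk85_h3 K (M' * q) (h2.trans (dvd_mul_right M' q))} :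
              Set ↥(modularFunctionFieldFullC K (M' * q))) ∧
          (algebraMap R ↥(modularFunctionFieldFullC K (M' * q)) π)⁻¹ *
            (x - al97L_alpha K M' q x') ∈ cm85_Vinf (K := K) (M' * q) hπ) →
      sf79_Transv π
        (pk15_chart R ({pk85_h3 K (M' * q) (h2.trans (dvd_mul_right M' q))} :
          Set ↥(modularFunctionFieldFullC K (M' * q))))
        (cm85_Vinf (K := K) (M' * q) hπ).toSubring
        (s34i47c_V0 (K := K) M' q hq hM' hπ).toSubring) ∧
    (sf79_Smooth π
        (pk15_chart R ({(pk85_h3 K (M' * q) (h2.trans (dvd_mul_right M' q)))⁻¹} :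
          Set ↥(modularFunctionFieldFullC K (M' * q))))
        (cm85_Vinf (K := K) (M' * q) hπ).toSubring →
      sf79_Smooth π
        (pk15_chart R ({(pk85_h3 K (M' * q) (h2.trans (dvd_mul_right M' q)))⁻¹} :
          Set ↥(modularFunctionFieldFullC K (M' * q))))
        (s34i47c_V0 (K := K) M' q hq hM' hπ).toSubring →
      (∀ x ∈ pk15_chart R ({(pk85_h3 K (M' * q) (h2.trans (dvd_mul_right M' q)))⁻¹} :
          Set ↥(modularFunctionFieldFullC K (M' * q))),
        ∃ x' : ↥(modularFunctionFieldFullC K M'),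
          al97L_alpha K M' q x' ∈
            pk15_chart R ({(pk85_h3 K (M' * q) (h2.trans (dvd_mul_right M' q)))⁻¹} :
              Set ↥(modularFunctionFieldFullC K (M' * q))) ∧
          (algebraMap R ↥(modularFunctionFieldFullC K (M' * q)) π)⁻¹ *
            (x - al97L_alpha K M' q x') ∈ cm85_Vinf (K := K) (M' * q) hπ) →
      sf79_Transv π
        (pk15_chart R ({(pk85_h3 K (M' * q) (h2.trans (dvd_mul_right M' q)))⁻¹} :
          Set ↥(modularFunctionFieldFullC K (M' * q))))
        (cm85_Vinf (K := K) (M' * q) hπ).toSubring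
        (s34i47c_V0 (K := K) M' q hq hM' hπ).toSubring) := by
  haveI : Algebra.IsAlgebraic K Q̄ := cx_isAlgebraic_closure K
  letI : Algebra R ↥(modularFunctionFieldFullC K M') :=
    ((algebraMap K ↥(modularFunctionFieldFullC K M')).comp (algebraMap R K)).toAlgebra
  haveI : IsScalarTower R K ↥(modularFunctionFieldFullC K M') :=
    IsScalarTower.of_algebraMap_eq (fun _ => rfl)
  have hMu : IsUnit (M' : R) :=
    hunit M' (Nat.Coprime.symm ((Nat.Prime.coprime_iff_not_dvd hq).mpr hM'))
  have h2R : IsUnit ((3 : ℕ) : R) :=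
    hunit 3 ((Nat.coprime_primes Nat.prime_three hq).mpr (Ne.symm hq2))
  obtain ⟨hs₁, hs₂, -⟩ := cm15_base_sat_level3 (R := R) (K := K) M' hπ h2 hMu
  obtain ⟨-, -, -, -, hhV, hhV', -, -, -, -, hfrac₁, hfrac₂, -⟩ :=
    cm85_facts_level3 (R := R) (K := K) M' hπ h2
  obtain ⟨-, -, -, -, -, -, hNo₁, hNo₂, -⟩ :=
    cm85_facts_level3 (R := R) (K := K) (M' * q) hπ (h2.trans (dvd_mul_right M' q))
  have hHaupt : s34i47c_IsHaupt K (M' * q) q (pk85_h3 K (M' * q) (h2.trans (dvd_mul_right M' q))) :=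
    Or.inr ⟨hq2, h2.trans (dvd_mul_right M' q), rfl⟩
  have hβ := hi95_beta3_mem_chart (R := R) K (M' * q) q hq hq2 (Nat.mul_dvd_mul_right h2 q) h2R hqR
    (pk85_h3 K (M' * q) (h2.trans (dvd_mul_right M' q))) (pk85_h3_coe K (M' * q) _)
  have hβeq : al97L_beta K M' q (pk85_h3 K M' h2) =
      hi95_beta3 K (M' * q) q hq.ne_zero (Nat.mul_dvd_mul_right h2 q) := by
    apply Subtype.ext
    rw [al97L_beta_coe, pk85_h3_coe, hi95_beta3_coe, qE_of_neZero]
  constructor
  · intro hS₁ hS₂ hsurj
    haveI := hNo₁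
    refine tri50_core M' q hq hM' hπ hqR _
      (al97C_chart_le_W M' q hq hM' hπ _ hHaupt _ (by simp)) {pk85_h3 K M' h2} ?_ hs₁ hfrac₁ ?_
      hS₁ hS₂ hsurj
    · intro g hg
      rw [Set.mem_singleton_iff] at hg
      rw [hg]
      exact hhV
    · intro g hg
      rw [Set.mem_singleton_iff] at hg
      rw [hg, hβeq]
      exact hβ.1
  · intro hS₁ hS₂ hsurj
    haveI := hNo₂
    refine tri50_core M' q hq hM' hπ hqR _
      (al97C_chart_le_W M' q hq hM' hπ _ hHaupt _ (by simp)) {(pk85_h3 K M' h2)⁻¹} ?_ hs₂ hfrac₂ ?_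
      hS₁ hS₂ hsurj
    · intro g hg
      rw [Set.mem_singleton_iff] at hg
      rw [hg]
      exact hhV'
    · intro g hg
      rw [Set.mem_singleton_iff] at hg
      rw [hg, map_inv₀, hβeq]
      exact hβ.2

/-- **(3b) for every admissible Hauptmodul** (`s34i47c_IsHaupt`), both charts: the row-490 export
in the binder block of `s34i47c_FrameLS`. -/
theorem tri50_transv_haupt
    (hunit : ∀ n : ℕ, Nat.Coprime n q → IsUnit (n : R)) (hqR : ¬ IsUnit (q : R))
    (h : ↥(modularFunctionFieldFullC K (M' * q))) (hh : s34i47c_IsHaupt K (M' * q) q h) :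
    (sf79_Smooth π (pk15_chart R ({h} : Set ↥(modularFunctionFieldFullC K (M' * q))))
        (cm85_Vinf (K := K) (M' * q) hπ).toSubring →
      sf79_Smooth π (pk15_chart R ({h} : Set ↥(modularFunctionFieldFullC K (M' * q))))
        (s34i47c_V0 (K := K) M' q hq hM' hπ).toSubring →
      (∀ x ∈ pk15_chart R ({h} : Set ↥(modularFunctionFieldFullC K (M' * q))),
        ∃ x' : ↥(modularFunctionFieldFullC K M'),
          al97L_alpha K M' q x' ∈
            pk15_chart R ({h} : Set ↥(modularFunctionFieldFullC K (M' * q))) ∧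
          (algebraMap R ↥(modularFunctionFieldFullC K (M' * q)) π)⁻¹ *
            (x - al97L_alpha K M' q x') ∈ cm85_Vinf (K := K) (M' * q) hπ) →
      sf79_Transv π (pk15_chart R ({h} : Set ↥(modularFunctionFieldFullC K (M' * q))))
        (cm85_Vinf (K := K) (M' * q) hπ).toSubring
        (s34i47c_V0 (K := K) M' q hq hM' hπ).toSubring) ∧
    (sf79_Smooth π (pk15_chart R ({h⁻¹} : Set ↥(modularFunctionFieldFullC K (M' * q))))
        (cm85_Vinf (K := K) (M' * q) hπ).toSubring →
      sf79_Smooth π (pk15_chart R ({h⁻¹} : Set ↥(modularFunctionFieldFullC K (M' * q))))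
        (s34i47c_V0 (K := K) M' q hq hM' hπ).toSubring →
      (∀ x ∈ pk15_chart R ({h⁻¹} : Set ↥(modularFunctionFieldFullC K (M' * q))),
        ∃ x' : ↥(modularFunctionFieldFullC K M'),
          al97L_alpha K M' q x' ∈
            pk15_chart R ({h⁻¹} : Set ↥(modularFunctionFieldFullC K (M' * q))) ∧
          (algebraMap R ↥(modularFunctionFieldFullC K (M' * q)) π)⁻¹ *
            (x - al97L_alpha K M' q x') ∈ cm85_Vinf (K := K) (M' * q) hπ) →
      sf79_Transv π (pk15_chart R ({h⁻¹} : Set ↥(modularFunctionFieldFullC K (M' * q))))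
        (cm85_Vinf (K := K) (M' * q) hπ).toSubring
        (s34i47c_V0 (K := K) M' q hq hM' hπ).toSubring) := by
  rcases hh with ⟨hq2, h2, rfl⟩ | ⟨hq3, h3, rfl⟩
  · have h2' : 2 ∣ M' := by
      rcases (Nat.Prime.dvd_mul Nat.prime_two).mp h2 with h | h
      · exact h
      · exact absurd ((Nat.prime_dvd_prime_iff_eq Nat.prime_two hq).mp h).symm hq2
    exact tri50_transv_two M' q hq hM' hπ h2' hq2 hunit hqR
  · have h3' : 3 ∣ M' := by
      rcases (Nat.Prime.dvd_mul Nat.prime_three).mp h3 with h | h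
      · exact h
      · exact absurd ((Nat.prime_dvd_prime_iff_eq Nat.prime_three hq).mp h).symm hq3
    exact tri50_transv_three M' q hq hM' hπ h3' hq3 hunit hqR

end Inst

end Canon

end Fermat.Agent.S34
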