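import Fermat.Agent.S34.Iface47d
import Fermat.Agent.S34.LocStrW58
import Fermat.Agent.S34.FrameSat85
import Fermat.Agent.S34.ResDeg90
import Fermat.Agent.S34.BranchInf93
import Fermat.Agent.S34.BranchZeroInst13
import Fermat.Agent.S34.AtkinLehnerVal73
import Fermat.Agent.S34.SpecFibreInf79
import Fermat.Agent.S34.TransvInst50
import Fermat.Agent.S34.BranchSep87

/-!
# S34 lab, FRAME-LS′ glue (helper2, twin of the glue of row 523 / registry row 526)

Canonical data of `Iface47c` at level `M' * q` (`q` prime, `q ∤ M'`):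
`V_∞ = cm85_Vinf (M' * q) hπ`, `V_0 = s34i47c_V0 M' q hq hM' hπ`, `h` an admissible Hauptmodul
(`s34i47c_IsHaupt`), charts `B = pk15_chart R {h}`, `pk15_chart R {h⁻¹}`.

* `flw2_Sep π B V₁ V₂` : the two branches of `B` are not contained in each other (one witness
  for each direction) — the `hw₁`, `hw₂` of `lsw58_exists_locStrW`.
* `flw2_chart` (abstract): `sf79_Smooth` for both branches + `sf79_Transv` + `flw2_Sep` + the
  chart facts give one conjunct of `s34i47d_FrameLSW`.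
* `flw2_surj_unif` : helper93's `bi93_Surj` and `bi93_Unif` for both charts of every admissible
  Hauptmodul over the level-`M'` charts, hypothesis-free (`bi93_level2/3` + `rd90_F1`).
* `flw2_smooth_inf`, `flw2_smooth_zero` : `sf79_Smooth π B V_∞` and `sf79_Smooth π B V_0` for
  both charts of every admissible Hauptmodul, hypothesis-free.
* `flw2_T`, `flw2_S` : the two closed `Prop`s still needed (transversality (3b) and separation
  of the branches on the canonical data).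
* `flw2_frameLSW_of`, `flw2_pkg_frameLSW_of` : `flw2_T → flw2_S → s34i47d_FrameLSW M' q`
  resp. `s34i47d_Pkg_FrameLSW`.
* `flw2_surj_alpha` : (3a)-surjectivity `B = α(B') + p_∞` in the shape of `tri50_transv_haupt`.
* `flw2_T_canon : flw2_T M' q hq hM'` (helper50's `tri50_transv_haupt`) and
  `flw2_S_canon : flw2_S M' q hq hM'` (helper87's `bs87_exists`).
* **`flw2_frameLSW : s34i47d_FrameLSW M' q`** and
  **`flw2_pkg_frameLSW : s34i47d_Pkg_FrameLSW`** — the package FRAME-LS′ of `Iface47d`,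
  hypothesis-free.

All names are prefixed `flw2_`.
-/

set_option autoImplicit false
set_option linter.unusedSectionVars false
set_option linter.style.haveILetI false

open ModularCurve AlgebraicCurve

namespace Fermat.Agent.S34

open Fermat.Agent.S18

local notation "Q̄" => AlgebraicClosure ℚ

section flw2_abs

variable {R F : Type*} [CommRing R] [Field F] [Algebra R F]

/-- The two branches `{x ∈ B | π⁻¹ x ∈ Vᵢ}` of the chart `B` are not contained in each other. -/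
def flw2_Sep (π : R) (B : Subalgebra R F) (V₁ V₂ : Subring F) : Prop :=
  (∃ y : B, (algebraMap R F π)⁻¹ * (y : F) ∈ V₁ ∧ (algebraMap R F π)⁻¹ * (y : F) ∉ V₂) ∧
  (∃ y : B, (algebraMap R F π)⁻¹ * (y : F) ∈ V₂ ∧ (algebraMap R F π)⁻¹ * (y : F) ∉ V₁)

/-- **One chart of FRAME-LS′** from (3a) for both branches, (3b) and the separation of the
branches. -/
theorem flw2_chart (π : R) (hπ0 : algebraMap R F π ≠ 0) (B : Subalgebra R F)
    (V₁ V₂ : Subring F) (hB₁ : ∀ x ∈ B, x ∈ V₁) (hB₂ : ∀ x ∈ B, x ∈ V₂)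
    (hπV₁ : (algebraMap R F π)⁻¹ ∉ V₁) (hπV₂ : (algebraMap R F π)⁻¹ ∉ V₂)
    (hV₁ : ∀ x ∈ V₁, x⁻¹ ∉ V₁ → (algebraMap R F π)⁻¹ * x ∈ V₁)
    (hV₂ : ∀ x ∈ V₂, x⁻¹ ∉ V₂ → (algebraMap R F π)⁻¹ * x ∈ V₂)
    (hsat : ∀ x ∈ B, (algebraMap R F π)⁻¹ * x ∈ V₁ → (algebraMap R F π)⁻¹ * x ∈ V₂ →
      (algebraMap R F π)⁻¹ * x ∈ B)
    (hS₁ : sf79_Smooth π B V₁) (hS₂ : sf79_Smooth π B V₂) (hT : sf79_Transv π B V₁ V₂)
    (hSep : flw2_Sep π B V₁ V₂) :
    ∃ P₁ P₂ : Ideal B, P₁.IsPrime ∧ P₂.IsPrime ∧ algebraMap R B π ∈ P₁ ∧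
      algebraMap R B π ∈ P₂ ∧ s34i47d_LocStrW π B P₁ P₂ := by
  refine lsw58_exists_locStrW π hπ0 B V₁ V₂ hB₁ hB₂ hπV₁ hπV₂
    (fun x hx hx' => by_contra fun h => hx' (hV₁ x hx h))
    (fun x hx hx' => by_contra fun h => hx' (hV₂ x hx h)) hsat hSep.1 hSep.2 ?_ ?_ hT
  · intro n hn hπn hbr
    obtain ⟨z, hz, hz'⟩ := hS₁ n hn hπn hbr
    refine ⟨z, hz, fun x hx => ?_⟩
    obtain ⟨s, hs, a, ha⟩ := hz' x hx
    exact ⟨s, hs, a, by simpa using ha⟩
  · intro n hn hπn hbr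
    obtain ⟨z, hz, hz'⟩ := hS₂ n hn hπn hbr
    refine ⟨z, hz, fun x hx => ?_⟩
    obtain ⟨s, hs, a, ha⟩ := hz' x hx
    exact ⟨s, hs, a, by simpa using ha⟩

end flw2_abs

section flw2_canon

variable {R K : Type} [CommRing R] [IsDomain R] [IsDiscreteValuationRing R] [Field K] [CharZero K]
  [Algebra R K] [IsFractionRing R K] [Algebra K Q̄] [Algebra.IsAlgebraic K Q̄]
  (M' q : ℕ) [NeZero M'] [NeZero q]
  [Algebra R ↥(modularFunctionFieldFullC K M')]
  [IsScalarTower R K ↥(modularFunctionFieldFullC K M')]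
  [Algebra R ↥(modularFunctionFieldFullC K (M' * q))]
  [IsScalarTower R K ↥(modularFunctionFieldFullC K (M' * q))]

/-- `bi93_Unif` gives `sf79_Smooth` for the `∞`-branch. -/
theorem flw2_smooth_of_unif {π : R} (hπ : Irreducible π)
    (s' : Set ↥(modularFunctionFieldFullC K M'))
    (s : Set ↥(modularFunctionFieldFullC K (M' * q)))
    (hU : bi93_Unif M' (M' * q) (dvd_mul_right M' q) hπ s' s) :
    sf79_Smooth π (pk15_chart R s) (cm85_Vinf (K := K) (M' * q) hπ).toSubring := by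
  intro n hn _ hbr
  obtain ⟨-, -, z, hz, -, hz'⟩ := hU n hn.isPrime hbr
  exact ⟨z, hz, hz'⟩

/-- **Both affine charts of an admissible Hauptmodul over the level-`M'` charts**: helper93's
`bi93_Surj` and `bi93_Unif`, hypothesis-free. -/
theorem flw2_surj_unif (hq : q.Prime) (hM' : ¬ q ∣ M') {π : R} (hπ : Irreducible π)
    (hunit : ∀ n : ℕ, Nat.Coprime n q → IsUnit (n : R)) (hqR : ¬ IsUnit (q : R))
    (h : ↥(modularFunctionFieldFullC K (M' * q))) (hh : s34i47c_IsHaupt K (M' * q) q h) :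
    ∃ h' : ↥(modularFunctionFieldFullC K M'),
      cm15_incl K M' (M' * q) (dvd_mul_right M' q) h' = h ∧
      (bi93_Surj M' (M' * q) (dvd_mul_right M' q) hπ {h'} {h} ∧
        bi93_Unif M' (M' * q) (dvd_mul_right M' q) hπ {h'} {h}) ∧
      (bi93_Surj M' (M' * q) (dvd_mul_right M' q) hπ {h'⁻¹} {h⁻¹} ∧
        bi93_Unif M' (M' * q) (dvd_mul_right M' q) hπ {h'⁻¹} {h⁻¹}) := by
  have hdvd : M' ∣ M' * q := dvd_mul_right M' q
  have hMu : IsUnit (M' : R) := hunit M' ((Nat.Prime.coprime_iff_not_dvd hq).mpr hM').symm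
  have hf1 := rd90_F1 (K := K) M' q hq hM' hπ hqR
  rcases hh with ⟨hq2, h2, rfl⟩ | ⟨hq3, h3, rfl⟩
  · have h2' : 2 ∣ M' := by
      rcases (Nat.Prime.dvd_mul Nat.prime_two).mp h2 with h | h
      · exact h
      · exact absurd ((Nat.prime_dvd_prime_iff_eq Nat.prime_two hq).mp h).symm hq2
    exact ⟨pk85_h2 K M' h2', Subtype.ext (cm15_incl_coe M' (M' * q) hdvd _),
      bi93_level2 M' (M' * q) hdvd hπ h2' hMu hf1⟩
  · have h3' : 3 ∣ M' := by
      rcases (Nat.Prime.dvd_mul Nat.prime_three).mp h3 with h | h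
      · exact h
      · exact absurd ((Nat.prime_dvd_prime_iff_eq Nat.prime_three hq).mp h).symm hq3
    exact ⟨pk85_h3 K M' h3', Subtype.ext (cm15_incl_coe M' (M' * q) hdvd _),
      bi93_level3 M' (M' * q) hdvd hπ h3' hMu hf1⟩

/-- **(3a) for the `∞`-branch**, both affine charts of every admissible Hauptmodul. -/
theorem flw2_smooth_inf (hq : q.Prime) (hM' : ¬ q ∣ M') {π : R} (hπ : Irreducible π)
    (hunit : ∀ n : ℕ, Nat.Coprime n q → IsUnit (n : R)) (hqR : ¬ IsUnit (q : R))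
    (h : ↥(modularFunctionFieldFullC K (M' * q))) (hh : s34i47c_IsHaupt K (M' * q) q h) :
    sf79_Smooth π (pk15_chart R ({h} : Set ↥(modularFunctionFieldFullC K (M' * q))))
        (cm85_Vinf (K := K) (M' * q) hπ).toSubring ∧
      sf79_Smooth π (pk15_chart R ({h⁻¹} : Set ↥(modularFunctionFieldFullC K (M' * q))))
        (cm85_Vinf (K := K) (M' * q) hπ).toSubring := by
  obtain ⟨h', -, ⟨-, hU₁⟩, ⟨-, hU₂⟩⟩ := flw2_surj_unif M' q hq hM' hπ hunit hqR h hh
  exact ⟨flw2_smooth_of_unif M' q hπ _ _ hU₁, flw2_smooth_of_unif M' q hπ _ _ hU₂⟩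

/-- **(3a) for the `0`-branch**, both affine charts of every admissible Hauptmodul. -/
theorem flw2_smooth_zero (hq : q.Prime) (hM' : ¬ q ∣ M') {π : R} (hπ : Irreducible π)
    (hunit : ∀ n : ℕ, Nat.Coprime n q → IsUnit (n : R)) (hqR : ¬ IsUnit (q : R))
    (h : ↥(modularFunctionFieldFullC K (M' * q))) (hh : s34i47c_IsHaupt K (M' * q) q h) :
    sf79_Smooth π (pk15_chart R ({h} : Set ↥(modularFunctionFieldFullC K (M' * q))))
        (s34i47c_V0 (K := K) M' q hq hM' hπ).toSubring ∧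
      sf79_Smooth π (pk15_chart R ({h⁻¹} : Set ↥(modularFunctionFieldFullC K (M' * q))))
        (s34i47c_V0 (K := K) M' q hq hM' hπ).toSubring := by
  obtain ⟨hS₁, hS₂⟩ := flw2_smooth_inf M' q hq hM' hπ hunit hqR h hh
  obtain ⟨k₁, k₂⟩ := bz13_smooth_V0 (R := R) (K := K) (π := π) (hπ := hπ) M' q hq hM' hunit h hh
  exact ⟨k₁ hS₁, k₂ hS₂⟩

end flw2_canon

section flw2_pkg

/-- **(T)** transversality (3b) of the two branches on the canonical data, both charts. -/
def flw2_T (M' q : ℕ) [NeZero M'] [NeZero q] (hq : q.Prime) (hM' : ¬ q ∣ M') : Prop :=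
  ∀ (R K : Type) [CommRing R] [IsDomain R] [IsDiscreteValuationRing R] [Field K] [NumberField K]
    [Algebra K Q̄] [Algebra R K] [IsFractionRing R K]
    [Algebra R ↥(modularFunctionFieldFullC K (M' * q))]
    [IsScalarTower R K ↥(modularFunctionFieldFullC K (M' * q))] (π : R) (hπ : Irreducible π),
    (∀ n : ℕ, Nat.Coprime n q → IsUnit (n : R)) → ¬ IsUnit (q : R) →
    ∀ h : ↥(modularFunctionFieldFullC K (M' * q)), s34i47c_IsHaupt K (M' * q) q h →
      sf79_Transv π (pk15_chart R ({h} : Set ↥(modularFunctionFieldFullC K (M' * q))))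
        (cm85_Vinf (K := K) (M' * q) hπ).toSubring
        (s34i47c_V0 (K := K) M' q hq hM' hπ).toSubring ∧
      sf79_Transv π (pk15_chart R ({h⁻¹} : Set ↥(modularFunctionFieldFullC K (M' * q))))
        (cm85_Vinf (K := K) (M' * q) hπ).toSubring
        (s34i47c_V0 (K := K) M' q hq hM' hπ).toSubring

/-- **(S)** separation of the two branches on the canonical data, both charts. -/
def flw2_S (M' q : ℕ) [NeZero M'] [NeZero q] (hq : q.Prime) (hM' : ¬ q ∣ M') : Prop :=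
  ∀ (R K : Type) [CommRing R] [IsDomain R] [IsDiscreteValuationRing R] [Field K] [NumberField K]
    [Algebra K Q̄] [Algebra R K] [IsFractionRing R K]
    [Algebra R ↥(modularFunctionFieldFullC K (M' * q))]
    [IsScalarTower R K ↥(modularFunctionFieldFullC K (M' * q))] (π : R) (hπ : Irreducible π),
    (∀ n : ℕ, Nat.Coprime n q → IsUnit (n : R)) → ¬ IsUnit (q : R) →
    ∀ h : ↥(modularFunctionFieldFullC K (M' * q)), s34i47c_IsHaupt K (M' * q) q h →
      flw2_Sep π (pk15_chart R ({h} : Set ↥(modularFunctionFieldFullC K (M' * q))))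
        (cm85_Vinf (K := K) (M' * q) hπ).toSubring
        (s34i47c_V0 (K := K) M' q hq hM' hπ).toSubring ∧
      flw2_Sep π (pk15_chart R ({h⁻¹} : Set ↥(modularFunctionFieldFullC K (M' * q))))
        (cm85_Vinf (K := K) (M' * q) hπ).toSubring
        (s34i47c_V0 (K := K) M' q hq hM' hπ).toSubring

/-- **FRAME-LS′ at level `M' * q`** from (T) and (S). -/
theorem flw2_frameLSW_of (M' q : ℕ) [NeZero M'] [NeZero q] (hq : q.Prime) (hM' : ¬ q ∣ M')
    (hT : flw2_T M' q hq hM') (hS : flw2_S M' q hq hM') : s34i47d_FrameLSW M' q := by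
  intro R K _ _ _ _ _ _ _ _ _ _ π hπ hunit hqR h hh
  haveI : Algebra.IsAlgebraic K Q̄ := fs85_isAlgebraic K
  letI : Algebra R ↥(modularFunctionFieldFullC K M') :=
    ((algebraMap K ↥(modularFunctionFieldFullC K M')).comp (algebraMap R K)).toAlgebra
  haveI : IsScalarTower R K ↥(modularFunctionFieldFullC K M') :=
    IsScalarTower.of_algebraMap_eq (fun _ => rfl)
  -- chart facts from FRAME-SAT
  obtain ⟨-, hC⟩ := fs85_frameSat M' q hq hM' R K π hπ hunit hqR
  obtain ⟨-, h12W, hsat₁, hsat₂, -, -, -, -, -⟩ := hC h hh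
  have hWmem : ∀ x : ↥(modularFunctionFieldFullC K (M' * q)),
      x ∈ s34i47c_W (K := K) M' q hq hM' hπ ↔
        x ∈ (cm85_Vinf (K := K) (M' * q) hπ).toSubring ∧
          x ∈ (s34i47c_V0 (K := K) M' q hq hM' hπ).toSubring := fun x =>
    s34i47c_mem_W M' q hq hM' hπ x
  have hπeq : algebraMap R ↥(modularFunctionFieldFullC K (M' * q)) π = alv73_pi K (M' * q) π :=
    alv73_pi_eq (M' * q) π
  have hπV₁ : (algebraMap R ↥(modularFunctionFieldFullC K (M' * q)) π)⁻¹ ∉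
      (cm85_Vinf (K := K) (M' * q) hπ).toSubring := by
    rw [hπeq]; exact alv73_pi_inv_not_mem_Vinf (M' * q) hπ
  have hπV₂ : (algebraMap R ↥(modularFunctionFieldFullC K (M' * q)) π)⁻¹ ∉
      (s34i47c_V0 (K := K) M' q hq hM' hπ).toSubring := by
    rw [hπeq]; exact alv73_pi_inv_not_mem_V0 (algebraMap K Q̄) M' q hq hM' hπ
  have hπ0 : algebraMap R ↥(modularFunctionFieldFullC K (M' * q)) π ≠ 0 := by
    intro h0
    apply hπV₁
    rw [h0, inv_zero]
    exact Subring.zero_mem _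
  have hV₁ : ∀ x ∈ (cm85_Vinf (K := K) (M' * q) hπ).toSubring,
      x⁻¹ ∉ (cm85_Vinf (K := K) (M' * q) hπ).toSubring →
      (algebraMap R ↥(modularFunctionFieldFullC K (M' * q)) π)⁻¹ * x ∈
        (cm85_Vinf (K := K) (M' * q) hπ).toSubring := by
    intro x hx hx'
    rw [hπeq]; exact alv73_hmax_Vinf (M' * q) hπ x hx hx'
  have hV₂ : ∀ x ∈ (s34i47c_V0 (K := K) M' q hq hM' hπ).toSubring,
      x⁻¹ ∉ (s34i47c_V0 (K := K) M' q hq hM' hπ).toSubring →
      (algebraMap R ↥(modularFunctionFieldFullC K (M' * q)) π)⁻¹ * x ∈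
        (s34i47c_V0 (K := K) M' q hq hM' hπ).toSubring := by
    intro x hx hx'
    rw [hπeq]; exact alv73_hmax_V0 (algebraMap K Q̄) M' q hq hM' hπ x hx hx'
  obtain ⟨hSi₁, hSi₂⟩ := flw2_smooth_inf (K := K) M' q hq hM' hπ hunit hqR h hh
  obtain ⟨hSz₁, hSz₂⟩ := flw2_smooth_zero (K := K) M' q hq hM' hπ hunit hqR h hh
  obtain ⟨hT₁, hT₂⟩ := hT R K π hπ hunit hqR h hh
  obtain ⟨hS₁, hS₂⟩ := hS R K π hπ hunit hqR h hh
  refine ⟨flw2_chart π hπ0 _ _ _ ?_ ?_ hπV₁ hπV₂ hV₁ hV₂ ?_ hSi₁ hSz₁ hT₁ hS₁,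
    flw2_chart π hπ0 _ _ _ ?_ ?_ hπV₁ hπV₂ hV₁ hV₂ ?_ hSi₂ hSz₂ hT₂ hS₂⟩
  · exact fun x hx => ((hWmem x).mp (h12W x (pk15_chart_mono (by simp) hx))).1
  · exact fun x hx => ((hWmem x).mp (h12W x (pk15_chart_mono (by simp) hx))).2
  · exact fun x hx h1 h2 => hsat₁ x hx ((hWmem _).mpr ⟨h1, h2⟩)
  · exact fun x hx => ((hWmem x).mp (h12W x (pk15_chart_mono (by simp) hx))).1
  · exact fun x hx => ((hWmem x).mp (h12W x (pk15_chart_mono (by simp) hx))).2
  · exact fun x hx h1 h2 => hsat₂ x hx ((hWmem _).mpr ⟨h1, h2⟩)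

/-- **The package FRAME-LS′** of `Iface47d` from (T) and (S) at every level. -/
theorem flw2_pkg_frameLSW_of
    (hT : ∀ (M' q : ℕ) [NeZero M'] [NeZero q] (hq : q.Prime) (hM' : ¬ q ∣ M'), flw2_T M' q hq hM')
    (hS : ∀ (M' q : ℕ) [NeZero M'] [NeZero q] (hq : q.Prime) (hM' : ¬ q ∣ M'), flw2_S M' q hq hM') :
    s34i47d_Pkg_FrameLSW :=
  fun M' q _ _ hq hM' => flw2_frameLSW_of M' q hq hM' (hT M' q hq hM') (hS M' q hq hM')

end flw2_pkg

section flw2_closed

/-- **(3a)-surjectivity** `B = α(B') + p_∞` for both affine charts of every admissible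
Hauptmodul, in the shape of the third hypothesis of `tri50_transv_haupt`. -/
theorem flw2_surj_alpha {R K : Type} [CommRing R] [IsDomain R] [IsDiscreteValuationRing R]
    [Field K] [CharZero K] [Algebra R K] [IsFractionRing R K] [Algebra K Q̄]
    [Algebra.IsAlgebraic K Q̄] (M' q : ℕ) [NeZero M'] [NeZero q]
    [Algebra R ↥(modularFunctionFieldFullC K M')]
    [IsScalarTower R K ↥(modularFunctionFieldFullC K M')]
    [Algebra R ↥(modularFunctionFieldFullC K (M' * q))]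
    [IsScalarTower R K ↥(modularFunctionFieldFullC K (M' * q))]
    (hq : q.Prime) (hM' : ¬ q ∣ M') {π : R} (hπ : Irreducible π)
    (hunit : ∀ n : ℕ, Nat.Coprime n q → IsUnit (n : R)) (hqR : ¬ IsUnit (q : R))
    (h : ↥(modularFunctionFieldFullC K (M' * q))) (hh : s34i47c_IsHaupt K (M' * q) q h) :
    (∀ x ∈ pk15_chart R ({h} : Set ↥(modularFunctionFieldFullC K (M' * q))),
      ∃ x' : ↥(modularFunctionFieldFullC K M'),
        al97L_alpha K M' q x' ∈
          pk15_chart R ({h} : Set ↥(modularFunctionFieldFullC K (M' * q))) ∧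
        (algebraMap R ↥(modularFunctionFieldFullC K (M' * q)) π)⁻¹ *
          (x - al97L_alpha K M' q x') ∈ cm85_Vinf (K := K) (M' * q) hπ) ∧
    (∀ x ∈ pk15_chart R ({h⁻¹} : Set ↥(modularFunctionFieldFullC K (M' * q))),
      ∃ x' : ↥(modularFunctionFieldFullC K M'),
        al97L_alpha K M' q x' ∈
          pk15_chart R ({h⁻¹} : Set ↥(modularFunctionFieldFullC K (M' * q))) ∧
        (algebraMap R ↥(modularFunctionFieldFullC K (M' * q)) π)⁻¹ *
          (x - al97L_alpha K M' q x') ∈ cm85_Vinf (K := K) (M' * q) hπ) := by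
  obtain ⟨h', hh', ⟨hSu₁, -⟩, ⟨hSu₂, -⟩⟩ := flw2_surj_unif (K := K) M' q hq hM' hπ hunit hqR h hh
  subst hh'
  constructor
  · intro x hx
    obtain ⟨x', hx', hx''⟩ := hSu₁ x hx
    refine ⟨x', ?_, hx''⟩
    have h1 := sf79i_map_mem ((cm15_incl K M' (M' * q) (dvd_mul_right M' q)).restrictScalars R)
      ({h'} : Set ↥(modularFunctionFieldFullC K M')) x' hx'
    rw [Set.image_singleton] at h1
    exact h1
  · intro x hx
    obtain ⟨x', hx', hx''⟩ := hSu₂ x hx
    refine ⟨x', ?_, hx''⟩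
    have h1 := sf79i_map_mem ((cm15_incl K M' (M' * q) (dvd_mul_right M' q)).restrictScalars R)
      ({h'⁻¹} : Set ↥(modularFunctionFieldFullC K M')) x' hx'
    rw [Set.image_singleton] at h1
    have h2 : ((cm15_incl K M' (M' * q) (dvd_mul_right M' q)).restrictScalars R) h'⁻¹ =
        (cm15_incl K M' (M' * q) (dvd_mul_right M' q) h')⁻¹ :=
      map_inv₀ (cm15_incl K M' (M' * q) (dvd_mul_right M' q)) h'
    rw [h2] at h1
    exact h1

/-- **(T) on the canonical data** (helper50's `tri50_transv_haupt` + (3a)). -/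
theorem flw2_T_canon (M' q : ℕ) [NeZero M'] [NeZero q] (hq : q.Prime) (hM' : ¬ q ∣ M') :
    flw2_T M' q hq hM' := by
  intro R K _ _ _ _ _ _ _ _ _ _ π hπ hunit hqR h hh
  haveI : Algebra.IsAlgebraic K Q̄ := fs85_isAlgebraic K
  letI : Algebra R ↥(modularFunctionFieldFullC K M') :=
    ((algebraMap K ↥(modularFunctionFieldFullC K M')).comp (algebraMap R K)).toAlgebra
  haveI : IsScalarTower R K ↥(modularFunctionFieldFullC K M') :=
    IsScalarTower.of_algebraMap_eq (fun _ => rfl)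
  obtain ⟨hSi₁, hSi₂⟩ := flw2_smooth_inf (K := K) M' q hq hM' hπ hunit hqR h hh
  obtain ⟨hSz₁, hSz₂⟩ := flw2_smooth_zero (K := K) M' q hq hM' hπ hunit hqR h hh
  obtain ⟨hSu₁, hSu₂⟩ := flw2_surj_alpha (K := K) M' q hq hM' hπ hunit hqR h hh
  obtain ⟨k₁, k₂⟩ := tri50_transv_haupt (R := R) (K := K) M' q hq hM' hπ hunit hqR h hh
  exact ⟨k₁ hSi₁ hSz₁ hSu₁, k₂ hSi₂ hSz₂ hSu₂⟩

/-- **(S) on the canonical data** (helper87's `bs87_exists`). -/
theorem flw2_S_canon (M' q : ℕ) [NeZero M'] [NeZero q] (hq : q.Prime) (hM' : ¬ q ∣ M') :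
    flw2_S M' q hq hM' := by
  intro R K _ _ _ _ _ _ _ _ _ _ π hπ hunit hqR h hh
  exact ⟨bs87_exists (R := R) (K := K) M' q hq hM' hπ hunit hqR h hh _ (Or.inl rfl),
    bs87_exists (R := R) (K := K) M' q hq hM' hπ hunit hqR h hh _ (Or.inr rfl)⟩

/-- **FRAME-LS′ at level `M' * q`**, hypothesis-free. -/
theorem flw2_frameLSW (M' q : ℕ) [NeZero M'] [NeZero q] (hq : q.Prime) (hM' : ¬ q ∣ M') :
    s34i47d_FrameLSW M' q :=
  flw2_frameLSW_of M' q hq hM' (flw2_T_canon M' q hq hM') (flw2_S_canon M' q hq hM')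

/-- **The package FRAME-LS′ of `Iface47d`**, hypothesis-free. -/
theorem flw2_pkg_frameLSW : s34i47d_Pkg_FrameLSW :=
  fun M' q _ _ hq hM' => flw2_frameLSW M' q hq hM'

end flw2_closed

end Fermat.Agent.S34
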