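import Fermat.Agent.S34.FrameGlue15
import Fermat.Agent.S34.TwoValBind2
import Fermat.Agent.S34.AtkinLehnerCanon97
import Fermat.Agent.S34.Iface47c
import Fermat.Agent.S34.FrameGal87

/-!
# S34 lab (helper15, twin of the FRAME assembly): `s34i47c_Pkg_FrameSat`, CLOSED

The package FRAME-SAT of `Iface47c` (the properties (W) of the canonical ring
`W = V_∞ ⊓ V_0 = s34i47c_W` at level `M' * q`, and the chart properties (C) =
`s34i47_ChartProps K π W h` for every admissible Hauptmodul `h`), with NO remaining hypothesis: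

* (W) : `al97C_WProps` (helper97);
* (C) : `cm15_frame_chart_level2/3` (ChartM15c: transcendence, charts inside `W`, saturation of
  the three charts in `W`, noetherianity, finiteness over `R[h]`, fraction field), fed with
  `R ⊆ V_0`, `π⁻¹ ∉ V_0` (`al97C_*`), `h, h⁻¹ ∈ V_0` (`cm15_V0_h2/h3`, FrameGlue15) and
  `tv2b_WInt` (helper2: `W` is integral over the Gauss ring of level `M'`).

`fs15_frameSat M' q hq hM' : s34i47c_FrameSat M' q hq hM'`,
`fs15_pkg_frameSat : s34i47c_Pkg_FrameSat`  (= `hSat` of `s34i47c_frame_of`).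

Also `fs15_frameInt : cm15_FrameInt M' q hq hqM` (the input P1a of `cm15_pkg_frame`,
FrameGlue15), and, with helper87's `in87g_pkg_frameGal`, the FRAME reduced to FRAME-LS alone:

`fs15_pkg_frame_of_LS : s34i47c_Pkg_FrameLS → s34i47_Pkg_Frame`.
-/

set_option autoImplicit false
set_option linter.unusedSectionVars false
set_option linter.style.haveILetI false

open ModularCurve IntermediateField Polynomial

namespace Fermat.Agent.S34

open Fermat.Agent.S18

local notation "Q̄" => AlgebraicClosure ℚ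

/-- The `V_0` of FrameGlue15 (for the structure map `K → ℚ̄`) is the canonical `V_0` of
`Iface47c`. -/
theorem fs15_V0_eq {R K : Type} [CommRing R] [IsDomain R] [IsDiscreteValuationRing R] [Field K]
    [CharZero K] [Algebra R K] [IsFractionRing R K] [Algebra K Q̄]
    (M' q : ℕ) [NeZero M'] [NeZero q] (hq : q.Prime) (hM' : ¬ q ∣ M') {π : R}
    (hπ : Irreducible π) :
    cm15_V0 (algebraMap K Q̄) M' q hq hM' hπ = s34i47c_V0 (K := K) M' q hq hM' hπ := by
  ext x
  exact Iff.rfl

/-- **FRAME-SAT at level `M' * q`** (literal `Iface47c` Prop). -/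
theorem fs15_frameSat (M' q : ℕ) [NeZero M'] [NeZero q] (hq : q.Prime) (hM' : ¬ q ∣ M') :
    s34i47c_FrameSat M' q hq hM' := by
  intro R K _ _ _ _ _ _ _ _ _ _ π hπ hunit hqR
  haveI : Algebra.IsAlgebraic K Q̄ := cx_isAlgebraic_closure K
  letI : Algebra R ↥(modularFunctionFieldFullC K M') :=
    ((algebraMap K ↥(modularFunctionFieldFullC K M')).comp (algebraMap R K)).toAlgebra
  haveI : IsScalarTower R K ↥(modularFunctionFieldFullC K M') :=
    IsScalarTower.of_algebraMap_eq (fun _ => rfl)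
  have hMu : IsUnit (M' : R) :=
    hunit M' ((Nat.Prime.coprime_iff_not_dvd hq).mpr hM').symm
  have hWint : cm15_WInt R K M' (M' * q) (dvd_mul_right M' q) hπ
      (s34i47c_W (K := K) M' q hq hM' hπ) := tv2b_WInt (R := R) (K := K) M' q hq hM' hπ hqR
  have hRV₀ := al97C_algebraMap_mem_V0 (R := R) (K := K) M' q hq hM' hπ
  have hπV₀ := al97C_pi_inv_not_mem_V0 (R := R) (K := K) M' q hq hM' hπ
  refine ⟨al97C_WProps (R := R) (K := K) M' q hq hM' hπ, ?_⟩
  intro h hh
  rcases hh with ⟨hq2, h2, rfl⟩ | ⟨hq3, h3, rfl⟩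
  · have h2' : 2 ∣ M' := by
      rcases (Nat.Prime.dvd_mul Nat.prime_two).mp h2 with h | h
      · exact h
      · exact absurd ((Nat.prime_dvd_prime_iff_eq Nat.prime_two hq).mp h).symm hq2
    have hh₀ := cm15_V0_h2 (R := R) (K := K) (algebraMap K Q̄) M' q hq hM' hπ h2'
    rw [fs15_V0_eq] at hh₀
    exact (cm15_frame_chart_level2 M' (M' * q) (dvd_mul_right M' q) hπ h2' hMu
      (s34i47c_V0 (K := K) M' q hq hM' hπ) hRV₀ hπV₀ hh₀.1 hh₀.2 hWint).2.1
  · have h3' : 3 ∣ M' := by
      rcases (Nat.Prime.dvd_mul Nat.prime_three).mp h3 with h | h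
      · exact h
      · exact absurd ((Nat.prime_dvd_prime_iff_eq Nat.prime_three hq).mp h).symm hq3
    have hh₀ := cm15_V0_h3 (R := R) (K := K) (algebraMap K Q̄) M' q hq hM' hπ h3'
    rw [fs15_V0_eq] at hh₀
    exact (cm15_frame_chart_level3 M' (M' * q) (dvd_mul_right M' q) hπ h3' hMu
      (s34i47c_V0 (K := K) M' q hq hM' hπ) hRV₀ hπV₀ hh₀.1 hh₀.2 hWint).2.1

/-- **Package FRAME-SAT** (literal `Iface47c` Prop; `hSat` of `s34i47c_frame_of`). -/
theorem fs15_pkg_frameSat : s34i47c_Pkg_FrameSat :=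
  fun M' q _ _ hq hM' => fs15_frameSat M' q hq hM'

/-- The input P1a of `cm15_pkg_frame` (FrameGlue15), closed. -/
theorem fs15_frameInt (M' q : ℕ) [NeZero M'] [NeZero q] (hq : q.Prime) (hqM : ¬ q ∣ M') :
    cm15_FrameInt M' q hq hqM := by
  intro R K _ _ _ _ _ _ _ _ π hπ _ hqR
  have h := tv2b_WInt (R := R) (K := K) M' q hq hqM hπ hqR
  exact h

/-- **The FRAME from FRAME-LS alone**: FRAME-SAT (`fs15_pkg_frameSat`) and FRAME-GAL
(`in87g_pkg_frameGal`, helper87) are closed. -/
theorem fs15_pkg_frame_of_LS (hLS : s34i47c_Pkg_FrameLS) : s34i47_Pkg_Frame :=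
  s34i47c_frame_of fs15_pkg_frameSat in87g_pkg_frameGal hLS

end Fermat.Agent.S34
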