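import Fermat.Agent.S34.Iface47e
import Fermat.Agent.S34.TransvInst50
import Fermat.Agent.S34.SmoothCanon73
import Fermat.Agent.S34.BranchInf93
import Fermat.Agent.S34.WIntInst18

/-!
# S34 lab (helper49): FRAME-TRANSV of `Iface47e`, literally

`ft49_pkg_frameTransv : s34i47e_Pkg_FrameTransv` — transversality (3b) of the two branches on both
affine charts of every admissible Hauptmodul, on the canonical frame data of `Iface47c`.

Pure composition of pieces on main:

* `tri50_transv_haupt` (helper50): `Smooth V_∞` + `Smooth V_0` + (3a)-surjectivity ⟹ `sf79_Transv`;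
* `sc73_smooth_Vinf`, `sc73_smooth_V0`, `sc73_F1` (helper73): the two smoothness statements and
  residue degree one;
* `bi93_level2/3` (helper93): `B = α(B') + (B ∩ π V_∞)` (surjectivity);
* `tri50_map_chart`, `tri50_chart_closed` (helper50): `α(B') ⊆ B`.

All names are prefixed `ft49_`.
-/

set_option autoImplicit false
set_option linter.unusedSectionVars false
set_option linter.style.haveILetI false

open ModularCurve

namespace Fermat.Agent.S34

open Fermat.Agent.S18 Fermat.Agent.S24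

local notation "Q̄" => AlgebraicClosure ℚ

section ft49

variable {R K : Type} [CommRing R] [IsDomain R] [IsDiscreteValuationRing R] [Field K] [CharZero K]
  [Algebra R K] [IsFractionRing R K]
  (M' q : ℕ) [NeZero M'] [NeZero q]
  [Algebra R ↥(modularFunctionFieldFullC K M')]
  [IsScalarTower R K ↥(modularFunctionFieldFullC K M')]
  [Algebra R ↥(modularFunctionFieldFullC K (M' * q))]
  [IsScalarTower R K ↥(modularFunctionFieldFullC K (M' * q))] {π : R} (hπ : Irreducible π)

/-- The surjectivity statement `bi93_Surj` of helper93 in the shape asked by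
`tri50_transv_haupt`: the lift `α x'` lies in the chart. -/
theorem ft49_surj (g' : ↥(modularFunctionFieldFullC K M'))
    (g : ↥(modularFunctionFieldFullC K (M' * q)))
    (hg : cm15_incl K M' (M' * q) (dvd_mul_right M' q) g' = g)
    (hS : bi93_Surj (K := K) M' (M' * q) (dvd_mul_right M' q) hπ
      ({g'} : Set ↥(modularFunctionFieldFullC K M'))
      ({g} : Set ↥(modularFunctionFieldFullC K (M' * q)))) :
    ∀ x ∈ pk15_chart R ({g} : Set ↥(modularFunctionFieldFullC K (M' * q))),
      ∃ x' : ↥(modularFunctionFieldFullC K M'),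
        al97L_alpha K M' q x' ∈
          pk15_chart R ({g} : Set ↥(modularFunctionFieldFullC K (M' * q))) ∧
        (algebraMap R ↥(modularFunctionFieldFullC K (M' * q)) π)⁻¹ *
          (x - al97L_alpha K M' q x') ∈ cm85_Vinf (K := K) (M' * q) hπ := by
  intro x hx
  obtain ⟨x', hx', hxx'⟩ := hS x hx
  refine ⟨x', ?_, hxx'⟩
  refine tri50_map_chart (R := R)
    ((cm15_incl K M' (M' * q) (dvd_mul_right M' q) :
      ↥(modularFunctionFieldFullC K M') →ₐ[K] ↥(modularFunctionFieldFullC K (M' * q))) :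
      ↥(modularFunctionFieldFullC K M') →+* ↥(modularFunctionFieldFullC K (M' * q)))
    (fun r => wi18_incl_algebraMap M' (M' * q) (dvd_mul_right M' q) r)
    ({g'} : Set ↥(modularFunctionFieldFullC K M'))
    (pk15_chart R ({g} : Set ↥(modularFunctionFieldFullC K (M' * q))))
    (fun z hz => tri50_chart_closed _ z hz) (fun y hy => ?_) x' hx'
  rw [Set.mem_singleton_iff.mp hy]
  show cm15_incl K M' (M' * q) (dvd_mul_right M' q) g' ∈ _
  rw [hg]
  exact pk15_subset_chart _ (Set.mem_singleton g)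

end ft49

/-- **FRAME-TRANSV at level `M' q`** (literal `Iface47e` statement). -/
theorem ft49_frameTransv (M' q : ℕ) [NeZero M'] [NeZero q] (hq : q.Prime) (hM' : ¬ q ∣ M') :
    s34i47e_FrameTransv M' q hq hM' := by
  intro R K _ _ _ _ _ _ _ _ _ _ π hπ hunit hqR h hh
  haveI : Algebra.IsAlgebraic K Q̄ := cx_isAlgebraic_closure K
  letI : Algebra R ↥(modularFunctionFieldFullC K M') :=
    ((algebraMap K ↥(modularFunctionFieldFullC K M')).comp (algebraMap R K)).toAlgebra
  haveI : IsScalarTower R K ↥(modularFunctionFieldFullC K M') :=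
    IsScalarTower.of_algebraMap_eq (fun _ => rfl)
  have hMu : IsUnit (M' : R) :=
    hunit M' (Nat.Coprime.symm ((Nat.Prime.coprime_iff_not_dvd hq).mpr hM'))
  have hf1 := sc73_F1 (R := R) (K := K) M' q hq hM' hπ hqR
  obtain ⟨hS₁, hS₁'⟩ := sc73_smooth_Vinf (R := R) (K := K) M' q hq hM' hπ hunit hqR h hh
  obtain ⟨hS₂, hS₂'⟩ := sc73_smooth_V0 (R := R) (K := K) M' q hq hM' hπ hunit hqR h hh
  obtain ⟨hT, hT'⟩ := tri50_transv_haupt (R := R) (K := K) M' q hq hM' hπ hunit hqR h hh
  rcases hh with ⟨hq2, h2, rfl⟩ | ⟨hq3, h3, rfl⟩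
  · have hcop : Nat.Coprime 2 q := (Nat.coprime_primes Nat.prime_two hq).mpr (Ne.symm hq2)
    have h2' : 2 ∣ M' := hcop.dvd_of_dvd_mul_right h2
    obtain ⟨⟨hSu₁, -⟩, ⟨hSu₂, -⟩⟩ := bi93_level2 (R := R) (K := K) M' (M' * q)
      (dvd_mul_right M' q) hπ h2' hMu hf1
    have hh : cm15_incl K M' (M' * q) (dvd_mul_right M' q) (pk85_h2 K M' h2') =
        pk85_h2 K (M' * q) h2 := Subtype.ext (cm15_incl_coe M' (M' * q) (dvd_mul_right M' q) _)
    exact ⟨hT hS₁ hS₂ (ft49_surj M' q hπ _ _ hh hSu₁),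
      hT' hS₁' hS₂' (ft49_surj M' q hπ _ _ (by rw [map_inv₀, hh]) hSu₂)⟩
  · have hcop : Nat.Coprime 3 q := (Nat.coprime_primes Nat.prime_three hq).mpr (Ne.symm hq3)
    have h3' : 3 ∣ M' := hcop.dvd_of_dvd_mul_right h3
    obtain ⟨⟨hSu₁, -⟩, ⟨hSu₂, -⟩⟩ := bi93_level3 (R := R) (K := K) M' (M' * q)
      (dvd_mul_right M' q) hπ h3' hMu hf1
    have hh : cm15_incl K M' (M' * q) (dvd_mul_right M' q) (pk85_h3 K M' h3') =
        pk85_h3 K (M' * q) h3 := Subtype.ext (cm15_incl_coe M' (M' * q) (dvd_mul_right M' q) _)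
    exact ⟨hT hS₁ hS₂ (ft49_surj M' q hπ _ _ hh hSu₁),
      hT' hS₁' hS₂' (ft49_surj M' q hπ _ _ (by rw [map_inv₀, hh]) hSu₂)⟩

/-- **The package FRAME-TRANSV** (`Iface47e`), literally. -/
theorem ft49_pkg_frameTransv : s34i47e_Pkg_FrameTransv :=
  fun M' q _ _ hq hM' => ft49_frameTransv M' q hq hM'

end Fermat.Agent.S34
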