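import Mathlib

/-!
# S34 lab, row P5i (helper72), abstract core: rational places of a function field are points of a chart

Abstract core (Mathlib only).  Setting: `FΩ / Ω` a function field over a big constant field
(`Ω = ℚ̄`), `F / L` a model over a subfield (`L` a number field), `ι : F → FΩ` over `φ : L → Ω`,
`O` a valuation subring of `FΩ` containing the constants (a place of `FΩ / Ω`), `R ⊆ L` a
valuation ring with fraction field `L`, and `B` an `R`-subalgebra of `F` (a chart).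

* `pi72_IsVal φ ι O x c` : "`c ∈ L` is the value of `x ∈ F` at the place `O`", i.e.
  `ι x - c ∈ m_O`, written `O.valuation (ι x - c) < 1`.
* `pi72_isVal_unique`, `pi72_isVal_add`, `pi72_isVal_mul`, `pi72_isVal_algebraMap`, ... :
  the value is unique and compatible with the ring operations.
* `pi72_exists_rho` : a subalgebra all of whose elements have values in `R` carries the
  evaluation homomorphism `ρ : B →ₐ[R] R`.
* `pi72_isVal_integral` : values of elements integral over such a subalgebra are integral over `R`.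
* `pi72_centre` : **the chart-level adapter.**  If the place `O` is `L`-rational in evaluation
  form (`hrat`), the chart `B` is integral over `R[s]` with `ι s ⊆ O`, and `O` is centred inside
  a proper ideal `n` of `B` containing the non-units of `R` (`B ∖ n` consists of units of `O`),
  then there is `ρ : B →ₐ[R] R` with `ρ b` = the value of `b` at `O`, `ker ρ = B ∩ m_O` and
  `n = ρ⁻¹(m_R)` (in particular `n` is maximal and `ρ z ∈ m_R ↔ z ∈ n`).
* `pi72_isVal_map`, `pi72_rho_map` : Galois transport `ρ_{σ O} (σ b) = σ (ρ_O b)`.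

All names are prefixed `pi72_`.
-/

set_option autoImplicit false
set_option linter.unusedSectionVars false

namespace Fermat.Agent.S34

section pi72_abstract

variable {L F Ω FΩ : Type*} [Field L] [Field F] [Field Ω] [Field FΩ] [Algebra Ω FΩ]

/-- `c ∈ L` is the value of `x ∈ F` at the valuation subring `O` of `FΩ`:
`ι x - c` lies in the maximal ideal of `O`. -/
def pi72_IsVal (φ : L →+* Ω) (ι : F →+* FΩ) (O : ValuationSubring FΩ) (x : F) (c : L) : Prop :=
  O.valuation (ι x - algebraMap Ω FΩ (φ c)) < 1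

/-- membership in the maximal ideal of a valuation subring, inverse form. -/
theorem pi72_val_lt_one_iff (O : ValuationSubring FΩ) (y : FΩ) :
    O.valuation y < 1 ↔ y = 0 ∨ y⁻¹ ∉ O := by
  constructor
  · intro h
    by_cases hy : y = 0
    · exact Or.inl hy
    · refine Or.inr fun hmem => ?_
      have h1 : O.valuation y⁻¹ ≤ 1 := (O.valuation_le_one_iff _).mpr hmem
      have h2 : O.valuation y * O.valuation y⁻¹ = 1 := by
        rw [← map_mul, mul_inv_cancel₀ hy, map_one]
      have h3 : O.valuation y * O.valuation y⁻¹ < 1 :=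
        lt_of_le_of_lt (mul_le_of_le_one_right' h1) h
      exact absurd h2 h3.ne
  · rintro (rfl | h)
    · rw [map_zero]; exact zero_lt_one
    · by_contra hlt
      rw [not_lt] at hlt
      apply h
      rw [← O.valuation_le_one_iff, map_inv₀]
      exact inv_le_one_of_one_le₀ hlt

/-- nonzero constants are units of a valuation subring containing the constants. -/
theorem pi72_val_const (O : ValuationSubring FΩ) (hO : ∀ c : Ω, algebraMap Ω FΩ c ∈ O)
    (c : Ω) (h : O.valuation (algebraMap Ω FΩ c) < 1) : c = 0 := by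
  by_contra hc
  rcases (pi72_val_lt_one_iff O _).mp h with h0 | h0
  · exact hc ((map_eq_zero _).mp h0)
  · apply h0
    rw [← map_inv₀]
    exact hO _

variable (φ : L →+* Ω) (ι : F →+* FΩ) (O : ValuationSubring FΩ)

theorem pi72_isVal_mem (hO : ∀ c : Ω, algebraMap Ω FΩ c ∈ O) {x : F} {c : L}
    (h : pi72_IsVal φ ι O x c) : ι x ∈ O := by
  have h1 : ι x = (ι x - algebraMap Ω FΩ (φ c)) + algebraMap Ω FΩ (φ c) := by ring
  rw [h1]
  exact O.add_mem _ _ ((O.valuation_le_one_iff _).mp h.le) (hO _)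

/-- the value is unique. -/
theorem pi72_isVal_unique (hO : ∀ c : Ω, algebraMap Ω FΩ c ∈ O) {x : F} {c c' : L}
    (h : pi72_IsVal φ ι O x c) (h' : pi72_IsVal φ ι O x c') : c = c' := by
  have h1 : O.valuation (algebraMap Ω FΩ (φ (c' - c))) < 1 := by
    have h2 : algebraMap Ω FΩ (φ (c' - c)) =
        (ι x - algebraMap Ω FΩ (φ c)) - (ι x - algebraMap Ω FΩ (φ c')) := by
      rw [map_sub, map_sub]; ring
    rw [h2]
    exact lt_of_le_of_lt (Valuation.map_sub _ _ _) (max_lt h h')
  have h3 := pi72_val_const O hO _ h1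
  have h4 : c' - c = 0 := (map_eq_zero φ).mp h3
  exact (sub_eq_zero.mp h4).symm

theorem pi72_isVal_zero : pi72_IsVal φ ι O 0 0 := by
  unfold pi72_IsVal
  rw [map_zero, map_zero, map_zero, sub_zero, map_zero]
  exact zero_lt_one

theorem pi72_isVal_one : pi72_IsVal φ ι O 1 1 := by
  unfold pi72_IsVal
  rw [map_one, map_one, map_one, sub_self, map_zero]
  exact zero_lt_one

theorem pi72_isVal_algebraMap [Algebra L F] (hι : ∀ c : L, ι (algebraMap L F c) = algebraMap Ω FΩ (φ c))
    (c : L) : pi72_IsVal φ ι O (algebraMap L F c) c := by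
  unfold pi72_IsVal
  rw [hι, sub_self, map_zero]
  exact zero_lt_one

theorem pi72_isVal_add {x y : F} {c d : L} (hx : pi72_IsVal φ ι O x c)
    (hy : pi72_IsVal φ ι O y d) : pi72_IsVal φ ι O (x + y) (c + d) := by
  unfold pi72_IsVal at *
  have h1 : ι (x + y) - algebraMap Ω FΩ (φ (c + d)) =
      (ι x - algebraMap Ω FΩ (φ c)) + (ι y - algebraMap Ω FΩ (φ d)) := by
    rw [map_add, map_add, map_add]; ring
  rw [h1]
  exact lt_of_le_of_lt (Valuation.map_add _ _ _) (max_lt hx hy)

theorem pi72_isVal_neg {x : F} {c : L} (hx : pi72_IsVal φ ι O x c) :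
    pi72_IsVal φ ι O (-x) (-c) := by
  unfold pi72_IsVal at *
  have h1 : ι (-x) - algebraMap Ω FΩ (φ (-c)) = -(ι x - algebraMap Ω FΩ (φ c)) := by
    rw [map_neg, map_neg, map_neg]; ring
  rw [h1, Valuation.map_neg]
  exact hx

theorem pi72_isVal_sub {x y : F} {c d : L} (hx : pi72_IsVal φ ι O x c)
    (hy : pi72_IsVal φ ι O y d) : pi72_IsVal φ ι O (x - y) (c - d) := by
  rw [sub_eq_add_neg, sub_eq_add_neg]
  exact pi72_isVal_add φ ι O hx (pi72_isVal_neg φ ι O hy)

theorem pi72_isVal_mul (hO : ∀ c : Ω, algebraMap Ω FΩ c ∈ O) {x y : F} {c d : L}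
    (hx : pi72_IsVal φ ι O x c) (hy : pi72_IsVal φ ι O y d) :
    pi72_IsVal φ ι O (x * y) (c * d) := by
  have hyO : O.valuation (ι y) ≤ 1 := (O.valuation_le_one_iff _).mpr (pi72_isVal_mem φ ι O hO hy)
  have hcO : O.valuation (algebraMap Ω FΩ (φ c)) ≤ 1 := (O.valuation_le_one_iff _).mpr (hO _)
  unfold pi72_IsVal at *
  have h1 : ι (x * y) - algebraMap Ω FΩ (φ (c * d)) =
      (ι x - algebraMap Ω FΩ (φ c)) * ι y +
        algebraMap Ω FΩ (φ c) * (ι y - algebraMap Ω FΩ (φ d)) := by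
    rw [map_mul, map_mul, map_mul]; ring
  rw [h1]
  refine lt_of_le_of_lt (Valuation.map_add _ _ _) (max_lt ?_ ?_)
  · rw [map_mul]
    exact lt_of_le_of_lt (mul_le_of_le_one_right' hyO) hx
  · rw [map_mul]
    exact lt_of_le_of_lt (mul_le_of_le_one_left' hcO) hy

theorem pi72_isVal_pow (hO : ∀ c : Ω, algebraMap Ω FΩ c ∈ O) {x : F} {c : L}
    (hx : pi72_IsVal φ ι O x c) (k : ℕ) : pi72_IsVal φ ι O (x ^ k) (c ^ k) := by
  induction k with
  | zero => rw [pow_zero, pow_zero]; exact pi72_isVal_one φ ι O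
  | succ k ih => rw [pow_succ, pow_succ]; exact pi72_isVal_mul φ ι O hO ih hx

/-- the value vanishes iff the function lies in the maximal ideal. -/
theorem pi72_isVal_eq_zero_iff (hO : ∀ c : Ω, algebraMap Ω FΩ c ∈ O) {x : F} {c : L}
    (hx : pi72_IsVal φ ι O x c) : c = 0 ↔ O.valuation (ι x) < 1 := by
  constructor
  · rintro rfl
    have h1 := hx
    unfold pi72_IsVal at h1
    rwa [map_zero, map_zero, sub_zero] at h1
  · intro h
    have h0 : pi72_IsVal φ ι O x 0 := by
      unfold pi72_IsVal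
      rwa [map_zero, map_zero, sub_zero]
    exact pi72_isVal_unique φ ι O hO hx h0

end pi72_abstract

section pi72_rho

variable {L F Ω FΩ : Type*} [Field L] [Field F] [Algebra L F] [Field Ω] [Field FΩ] [Algebra Ω FΩ]
variable {R : Type*} [CommRing R] [Algebra R L] [Algebra R F] [IsScalarTower R L F]
variable (φ : L →+* Ω) (ι : F →+* FΩ) (O : ValuationSubring FΩ)

/-- elements of the base ring have their own value. -/
theorem pi72_isVal_base (hι : ∀ c : L, ι (algebraMap L F c) = algebraMap Ω FΩ (φ c)) (r : R) :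
    pi72_IsVal φ ι O (algebraMap R F r) (algebraMap R L r) := by
  rw [IsScalarTower.algebraMap_apply R L F]
  exact pi72_isVal_algebraMap φ ι O hι _

/-- **The evaluation homomorphism of a subalgebra with values in `R`.** -/
theorem pi72_exists_rho (hRinj : Function.Injective (algebraMap R L))
    (hι : ∀ c : L, ι (algebraMap L F c) = algebraMap Ω FΩ (φ c))
    (hO : ∀ c : Ω, algebraMap Ω FΩ c ∈ O) (B : Subalgebra R F)
    (hB : ∀ b ∈ B, ∃ r : R, pi72_IsVal φ ι O b (algebraMap R L r)) :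
    ∃ ρ : B →ₐ[R] R, ∀ b : B, pi72_IsVal φ ι O (b : F) (algebraMap R L (ρ b)) := by
  classical
  choose! ev hev using hB
  have huniq : ∀ (b : F) (r : R), b ∈ B → pi72_IsVal φ ι O b (algebraMap R L r) → ev b = r := by
    intro b r hb hr
    exact hRinj (pi72_isVal_unique φ ι O hO (hev b hb) hr)
  refine ⟨{ toFun := fun b => ev (b : F)
            map_one' := ?_
            map_mul' := ?_
            map_zero' := ?_
            map_add' := ?_
            commutes' := ?_ }, fun b => hev b b.2⟩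
  · refine huniq _ _ B.one_mem ?_
    rw [map_one]
    exact pi72_isVal_one φ ι O
  · intro x y
    refine huniq _ _ (B.mul_mem x.2 y.2) ?_
    rw [map_mul]
    exact pi72_isVal_mul φ ι O hO (hev x x.2) (hev y y.2)
  · refine huniq _ _ B.zero_mem ?_
    rw [map_zero]
    exact pi72_isVal_zero φ ι O
  · intro x y
    refine huniq _ _ (B.add_mem x.2 y.2) ?_
    rw [map_add]
    exact pi72_isVal_add φ ι O (hev x x.2) (hev y y.2)
  · intro r
    exact huniq _ _ (B.algebraMap_mem r) (pi72_isVal_base φ ι O hι r)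

/-- the kernel of the evaluation homomorphism is `B ∩ m_O`. -/
theorem pi72_rho_eq_zero_iff (hRinj : Function.Injective (algebraMap R L))
    (hO : ∀ c : Ω, algebraMap Ω FΩ c ∈ O) (B : Subalgebra R F) (ρ : B →ₐ[R] R)
    (hρ : ∀ b : B, pi72_IsVal φ ι O (b : F) (algebraMap R L (ρ b))) (b : B) :
    ρ b = 0 ↔ O.valuation (ι (b : F)) < 1 := by
  rw [← pi72_isVal_eq_zero_iff φ ι O hO (hρ b)]
  constructor
  · intro h; rw [h, map_zero]
  · intro h; exact hRinj (h.trans (map_zero _).symm)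

/-- the evaluation homomorphism is unique. -/
theorem pi72_rho_unique (hRinj : Function.Injective (algebraMap R L))
    (hO : ∀ c : Ω, algebraMap Ω FΩ c ∈ O) (B : Subalgebra R F) (ρ ρ' : B →ₐ[R] R)
    (hρ : ∀ b : B, pi72_IsVal φ ι O (b : F) (algebraMap R L (ρ b)))
    (hρ' : ∀ b : B, pi72_IsVal φ ι O (b : F) (algebraMap R L (ρ' b))) : ρ = ρ' :=
  AlgHom.ext fun b => hRinj (pi72_isVal_unique φ ι O hO (hρ b) (hρ' b))

/-- values of polynomial expressions. -/
theorem pi72_isVal_eval₂ (hO : ∀ c : Ω, algebraMap Ω FΩ c ∈ O) (S : Subalgebra R F)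
    (ρ : S →ₐ[R] R) (hρ : ∀ a : S, pi72_IsVal φ ι O (a : F) (algebraMap R L (ρ a)))
    {x : F} {c : L} (hxc : pi72_IsVal φ ι O x c) (p : Polynomial S) :
    pi72_IsVal φ ι O (Polynomial.eval₂ (algebraMap S F) x p)
      (Polynomial.eval₂ (algebraMap R L) c (p.map (ρ : S →+* R))) := by
  induction p using Polynomial.induction_on' with
  | add p q hp hq =>
    rw [Polynomial.eval₂_add, Polynomial.map_add, Polynomial.eval₂_add]
    exact pi72_isVal_add φ ι O hp hq
  | monomial k a =>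
    rw [Polynomial.eval₂_monomial, Polynomial.map_monomial, Polynomial.eval₂_monomial]
    exact pi72_isVal_mul φ ι O hO (hρ a) (pi72_isVal_pow φ ι O hO hxc k)

/-- **Values of integral elements are integral.** -/
theorem pi72_isVal_integral (hRinj : Function.Injective (algebraMap R L))
    (hι : ∀ c : L, ι (algebraMap L F c) = algebraMap Ω FΩ (φ c))
    (hO : ∀ c : Ω, algebraMap Ω FΩ c ∈ O) (S : Subalgebra R F)
    (hS : ∀ a ∈ S, ∃ r : R, pi72_IsVal φ ι O a (algebraMap R L r))
    {x : F} (hx : IsIntegral S x) {c : L} (hxc : pi72_IsVal φ ι O x c) : IsIntegral R c := by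
  obtain ⟨ρ, hρ⟩ := pi72_exists_rho φ ι O hRinj hι hO S hS
  obtain ⟨p, hp, hpx⟩ := hx
  refine ⟨p.map (ρ : S →+* R), hp.map _, ?_⟩
  have h1 := pi72_isVal_eval₂ φ ι O hO S ρ hρ hxc p
  rw [hpx] at h1
  exact pi72_isVal_unique φ ι O hO h1 (pi72_isVal_zero φ ι O)

/-- elements of `R[s]` have values in `R` as soon as the generators do. -/
theorem pi72_isVal_adjoin (hι : ∀ c : L, ι (algebraMap L F c) = algebraMap Ω FΩ (φ c))
    (hO : ∀ c : Ω, algebraMap Ω FΩ c ∈ O) (s : Set F)
    (hs : ∀ x ∈ s, ∃ r : R, pi72_IsVal φ ι O x (algebraMap R L r)) :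
    ∀ a ∈ Algebra.adjoin R s, ∃ r : R, pi72_IsVal φ ι O a (algebraMap R L r) := by
  intro a ha
  induction ha using Algebra.adjoin_induction with
  | mem x hx => exact hs x hx
  | algebraMap r => exact ⟨r, pi72_isVal_base φ ι O hι r⟩
  | add x y _ _ hx hy =>
    obtain ⟨r, hr⟩ := hx
    obtain ⟨r', hr'⟩ := hy
    exact ⟨r + r', by rw [map_add]; exact pi72_isVal_add φ ι O hr hr'⟩
  | mul x y _ _ hx hy =>
    obtain ⟨r, hr⟩ := hx
    obtain ⟨r', hr'⟩ := hy
    exact ⟨r * r', by rw [map_mul]; exact pi72_isVal_mul φ ι O hO hr hr'⟩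

/-- integral elements over a subalgebra mapping into `O` map into `O`. -/
theorem pi72_mem_of_isIntegral (S : Subalgebra R F) (hS : ∀ a ∈ S, ι a ∈ O) {x : F}
    (hx : IsIntegral S x) : ι x ∈ O := by
  let ψ : S →+* O := (ι.comp S.val.toRingHom).codRestrict O.toSubring fun a => hS a a.2
  have hcomp : (algebraMap O FΩ).comp ψ = ι.comp (algebraMap S F) := by
    ext a
    rfl
  have h1 : IsIntegral O (ι x) := IsIntegral.map_of_comp_eq ψ ι hcomp hx
  obtain ⟨z, hz⟩ := IsIntegrallyClosed.isIntegral_iff.mp h1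
  rw [← hz]
  exact z.2

end pi72_rho

section pi72_centre

variable {L F Ω FΩ : Type*} [Field L] [Field F] [Algebra L F] [Field Ω] [Field FΩ] [Algebra Ω FΩ]
variable {R : Type*} [CommRing R] [IsDomain R] [ValuationRing R] [Algebra R L] [IsFractionRing R L]
  [Algebra R F] [IsScalarTower R L F]
variable (φ : L →+* Ω) (ι : F →+* FΩ) (O : ValuationSubring FΩ)

/-- Elements of the kernel of evaluation lie in every ideal `n` inside which `O` is centred. -/
theorem pi72_mem_of_val_lt_one (B : Subalgebra R F) (n : Ideal B)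
    (hunit : ∀ b : B, b ∉ n → (ι (b : F))⁻¹ ∈ O) (b : B) (hb : O.valuation (ι (b : F)) < 1) :
    b ∈ n := by
  by_contra hbn
  rcases (pi72_val_lt_one_iff O _).mp hb with h0 | h0
  · have h1 : (b : F) = 0 := (map_eq_zero ι).mp h0
    have h2 : b = 0 := Subtype.ext h1
    exact hbn (h2 ▸ n.zero_mem)
  · exact h0 (hunit b hbn)

/-- **Functions regular at the centre have integral values**, when the place is centred inside
a proper ideal containing the non-units of the valuation ring `R`. -/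
theorem pi72_gen_val (hι : ∀ c : L, ι (algebraMap L F c) = algebraMap Ω FΩ (φ c))
    (hO : ∀ c : Ω, algebraMap Ω FΩ c ∈ O) (B : Subalgebra R F) (n : Ideal B) (hn1 : n ≠ ⊤)
    (hnR : ∀ r : R, ¬ IsUnit r → algebraMap R B r ∈ n)
    (hunit : ∀ b : B, b ∉ n → (ι (b : F))⁻¹ ∈ O)
    {x : F} (hxB : x ∈ B) {c : L} (hxc : pi72_IsVal φ ι O x c) :
    ∃ r : R, pi72_IsVal φ ι O x (algebraMap R L r) := by
  by_cases hc : ∃ r : R, algebraMap R L r = c
  · obtain ⟨r, hr⟩ := hc
    exact ⟨r, by rw [hr]; exact hxc⟩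
  exfalso
  have hc0 : c ≠ 0 := fun h0 => hc ⟨0, by rw [map_zero, h0]⟩
  rcases ValuationRing.isInteger_or_isInteger R c with h | h
  · exact hc h
  obtain ⟨r, hr⟩ := h
  have hru : ¬ IsUnit r := by
    intro hu
    obtain ⟨r', hr'⟩ := hu.exists_right_inv
    apply hc
    refine ⟨r', ?_⟩
    have h1 : algebraMap R L r * algebraMap R L r' = 1 := by rw [← map_mul, hr', map_one]
    rw [hr] at h1
    exact (eq_inv_of_mul_eq_one_right h1).trans (inv_inv c)
  have hrn : algebraMap R B r ∈ n := hnR r hru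
  have hval : pi72_IsVal φ ι O (1 - algebraMap R F r * x) 0 := by
    have h1 := pi72_isVal_sub φ ι O (pi72_isVal_one φ ι O)
      (pi72_isVal_mul φ ι O hO (pi72_isVal_base φ ι O hι r) hxc)
    rwa [hr, inv_mul_cancel₀ hc0, sub_self] at h1
  have hmem : (1 - algebraMap R B r * ⟨x, hxB⟩ : B) ∈ n := by
    apply pi72_mem_of_val_lt_one ι O B n hunit
    exact (pi72_isVal_eq_zero_iff φ ι O hO hval).mp rfl
  apply hn1
  rw [Ideal.eq_top_iff_one]
  have h2 : (1 : B) = (1 - algebraMap R B r * ⟨x, hxB⟩) + algebraMap R B r * ⟨x, hxB⟩ := by ring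
  rw [h2]
  exact n.add_mem hmem (n.mul_mem_right _ hrn)

/-- **The chart-level adapter.**  Let `O` be a place of `FΩ / Ω` which is `L`-rational in
evaluation form (`hrat`).  Let `B` be an `R`-subalgebra of `F`, integral over `R[s]` with
`s ⊆ B`, and `n` a proper ideal of `B` containing the non-units of `R`, such that `O` is centred
inside `n`: `ι s ⊆ O` and every `b ∈ B ∖ n` is a unit of `O`.  Then there is the evaluation
homomorphism `ρ : B →ₐ[R] R` (`ρ b` = value of `b` at `O`), its kernel is `B ∩ m_O`, and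
`n = ρ⁻¹(non-units of R)`. -/
theorem pi72_centre (hι : ∀ c : L, ι (algebraMap L F c) = algebraMap Ω FΩ (φ c))
    (hO : ∀ c : Ω, algebraMap Ω FΩ c ∈ O)
    (hrat : ∀ x : F, ι x ∈ O → ∃ c : L, pi72_IsVal φ ι O x c)
    (s : Set F) (B : Subalgebra R F) (hsB : s ⊆ B)
    (hBint : ∀ b ∈ B, IsIntegral (Algebra.adjoin R s) b)
    (n : Ideal B) (hn1 : n ≠ ⊤) (hnR : ∀ r : R, ¬ IsUnit r → algebraMap R B r ∈ n)
    (hsO : ∀ x ∈ s, ι x ∈ O) (hunit : ∀ b : B, b ∉ n → (ι (b : F))⁻¹ ∈ O) :
    ∃ ρ : B →ₐ[R] R, (∀ b : B, pi72_IsVal φ ι O (b : F) (algebraMap R L (ρ b))) ∧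
      (∀ b : B, ρ b = 0 ↔ O.valuation (ι (b : F)) < 1) ∧
      (∀ b : B, b ∈ n ↔ ¬ IsUnit (ρ b)) := by
  have hRinj : Function.Injective (algebraMap R L) := IsFractionRing.injective R L
  have hs : ∀ x ∈ s, ∃ r : R, pi72_IsVal φ ι O x (algebraMap R L r) := by
    intro x hx
    obtain ⟨c, hc⟩ := hrat x (hsO x hx)
    exact pi72_gen_val φ ι O hι hO B n hn1 hnR hunit (hsB hx) hc
  have hadj := pi72_isVal_adjoin φ ι O hι hO s hs
  have hB : ∀ b ∈ B, ∃ r : R, pi72_IsVal φ ι O b (algebraMap R L r) := by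
    intro b hb
    have hbO : ι b ∈ O :=
      pi72_mem_of_isIntegral ι O (Algebra.adjoin R s)
        (fun a ha => by
          obtain ⟨r, hr⟩ := hadj a ha
          exact pi72_isVal_mem φ ι O hO hr) (hBint b hb)
    obtain ⟨c, hc⟩ := hrat b hbO
    have hint : IsIntegral R c :=
      pi72_isVal_integral φ ι O hRinj hι hO (Algebra.adjoin R s) hadj (hBint b hb) hc
    obtain ⟨r, hr⟩ := IsIntegrallyClosed.isIntegral_iff.mp hint
    exact ⟨r, by rw [hr]; exact hc⟩
  obtain ⟨ρ, hρ⟩ := pi72_exists_rho φ ι O hRinj hι hO B hB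
  have hker := pi72_rho_eq_zero_iff φ ι O hRinj hO B ρ hρ
  refine ⟨ρ, hρ, hker, fun b => ?_⟩
  have hdiff : b - algebraMap R B (ρ b) ∈ n := by
    apply pi72_mem_of_val_lt_one ι O B n hunit
    rw [← hker, map_sub, AlgHom.commutes]
    exact sub_self _
  constructor
  · intro hb hu
    apply hn1
    have h1 : algebraMap R B (ρ b) ∈ n := by
      have : algebraMap R B (ρ b) = b - (b - algebraMap R B (ρ b)) := by ring
      rw [this]
      exact n.sub_mem hb hdiff
    obtain ⟨r', hr'⟩ := hu.exists_right_inv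
    rw [Ideal.eq_top_iff_one]
    have h2 : (1 : B) = algebraMap R B (ρ b) * algebraMap R B r' := by
      rw [← map_mul, hr', map_one]
    rw [h2]
    exact n.mul_mem_right _ h1
  · intro hu
    have : b = (b - algebraMap R B (ρ b)) + algebraMap R B (ρ b) := by ring
    rw [this]
    exact n.add_mem hdiff (hnR _ hu)

end pi72_centre

section pi72_galois

variable {L F Ω FΩ : Type*} [Field L] [Field F] [Field Ω] [Field FΩ] [Algebra Ω FΩ]
variable (φ : L →+* Ω) (ι : F →+* FΩ) (O : ValuationSubring FΩ)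

/-- **Galois transport of values.**  If `(g, σ_L)` on `F / L` and `(g_Ω, σ_Ω)` on `FΩ / Ω` are
compatible semilinear maps and `O' = g_Ω(O)`, then the value of `g x` at `O'` is `σ_L` of the
value of `x` at `O`. -/
theorem pi72_isVal_map (σL : L →+* L) (σΩ : Ω →+* Ω) (g : F →+* F) (gΩ : FΩ →+* FΩ)
    (hφ : ∀ c : L, φ (σL c) = σΩ (φ c)) (hg : ∀ x : F, ι (g x) = gΩ (ι x))
    (hgΩ : ∀ c : Ω, gΩ (algebraMap Ω FΩ c) = algebraMap Ω FΩ (σΩ c))
    (O' : ValuationSubring FΩ) (hO' : ∀ y : FΩ, gΩ y ∈ O' → y ∈ O)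
    {x : F} {c : L} (h : pi72_IsVal φ ι O x c) : pi72_IsVal φ ι O' (g x) (σL c) := by
  unfold pi72_IsVal at *
  have h1 : ι (g x) - algebraMap Ω FΩ (φ (σL c)) = gΩ (ι x - algebraMap Ω FΩ (φ c)) := by
    rw [map_sub, hg, hφ, hgΩ]
  rw [h1, pi72_val_lt_one_iff]
  rcases (pi72_val_lt_one_iff O _).mp h with h0 | h0
  · exact Or.inl (by rw [h0, map_zero])
  · refine Or.inr fun hmem => h0 (hO' _ ?_)
    rwa [map_inv₀]

end pi72_galois

section pi72_galois_rho

variable {L F Ω FΩ : Type*} [Field L] [Field F] [Algebra L F] [Field Ω] [Field FΩ] [Algebra Ω FΩ]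
variable {R : Type*} [CommRing R] [Algebra R L] [Algebra R F] [IsScalarTower R L F]
variable (φ : L →+* Ω) (ι : F →+* FΩ) (O : ValuationSubring FΩ)

/-- **Galois transport of the evaluation homomorphisms**: `ρ_{σ O} (g b) = σ (ρ_O b)`. -/
theorem pi72_rho_map (σL : L →+* L) (σΩ : Ω →+* Ω) (g : F →+* F) (gΩ : FΩ →+* FΩ)
    (hφ : ∀ c : L, φ (σL c) = σΩ (φ c)) (hg : ∀ x : F, ι (g x) = gΩ (ι x))
    (hgΩ : ∀ c : Ω, gΩ (algebraMap Ω FΩ c) = algebraMap Ω FΩ (σΩ c))
    (O' : ValuationSubring FΩ) (hO' : ∀ y : FΩ, gΩ y ∈ O' → y ∈ O)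
    (hO'c : ∀ c : Ω, algebraMap Ω FΩ c ∈ O')
    (B : Subalgebra R F) (ρ ρ' : B →ₐ[R] R)
    (hρ : ∀ b : B, pi72_IsVal φ ι O (b : F) (algebraMap R L (ρ b)))
    (hρ' : ∀ b : B, pi72_IsVal φ ι O' (b : F) (algebraMap R L (ρ' b)))
    (b : B) (hgb : g (b : F) ∈ B) :
    algebraMap R L (ρ' ⟨g (b : F), hgb⟩) = σL (algebraMap R L (ρ b)) :=
  pi72_isVal_unique φ ι O' hO'c (hρ' ⟨g (b : F), hgb⟩)
    (pi72_isVal_map φ ι O σL σΩ g gΩ hφ hg hgΩ O' hO' (hρ b))

end pi72_galois_rho

end Fermat.Agent.S34
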