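import Mathlib
import Fermat.Agent.S34.Iface47
import Fermat.Agent.S34.PointsCore72

/-!
# S34 lab, row P5i (helper72): the evaluation homomorphism in the literal shapes of `Iface47`

For the package P5a (`s34i47_Pkg_UZ`) and every other consumer working over the number field
`K = Frac R` with the predicates of `Iface47`:

* `pi72_isRat_isVal` : `s34i47_IsRat K O` is the evaluation-form rationality of `PointsCore72`
  (with `ι = id`).
* `pi72_horiz_const` : a horizontal `O` contains the constants `K`.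
* `pi72_through_rho` : **the point of a rational horizontal `O` through `n`.**  For an
  `R`-subalgebra `B` of `F` (NO finiteness or integrality hypothesis), a proper ideal `n ∋ π` of
  `B`, and `O` horizontal, through `n`, `K`-rational: there is `ρ : B →ₐ[R] R` with
  `b - ρ b ∈ m_O` for all `b ∈ B`, `ker ρ = B ∩ m_O`, and `n = ρ⁻¹(π R)`, i.e.
  `b ∈ n ↔ ¬ IsUnit (ρ b)`; in particular `B = R + ker ρ` and `n = ker ρ + π B`.
* `pi72_through_unique` : `ρ` is unique.
* `pi72_through_mem_iff` : `b ∈ n ↔ π ∣ ρ b`.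
* `pi72_through_sub_mem` : `b - ρ b ∈ ker ρ ⊆ n`-form: `b ∈ n ↔ algebraMap (ρ b) ∈ n`.

All names are prefixed `pi72_`.
-/

set_option autoImplicit false
set_option linter.unusedSectionVars false

namespace Fermat.Agent.S34

section pi72_iface

variable {R K F : Type*} [CommRing R] [IsDomain R] [IsDiscreteValuationRing R] [Field K] [Field F]
  [Algebra R K] [IsFractionRing R K] [Algebra R F] [Algebra K F] [IsScalarTower R K F]

/-- in a discrete valuation ring the non-units are the multiples of a uniformiser. -/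
theorem pi72_dvd_iff_not_isUnit {π : R} (hπ : Irreducible π) (r : R) : π ∣ r ↔ ¬ IsUnit r := by
  rw [← Ideal.mem_span_singleton, ← hπ.maximalIdeal_eq, IsLocalRing.mem_maximalIdeal,
    mem_nonunits_iff]

/-- the value predicate of `PointsCore72` for `ι = id`, in the shape used by `s34i47_IsRat`. -/
theorem pi72_isVal_id_iff (O : ValuationSubring F) (x : F) (c : K) :
    pi72_IsVal (RingHom.id K) (RingHom.id F) O x c ↔
      (x = algebraMap K F c ∨ (x - algebraMap K F c)⁻¹ ∉ O) := by
  unfold pi72_IsVal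
  rw [pi72_val_lt_one_iff, RingHom.id_apply, RingHom.id_apply, sub_eq_zero]

/-- `s34i47_IsRat` is rationality in evaluation form. -/
theorem pi72_isRat_isVal (O : ValuationSubring F) (hO : s34i47_IsRat K O) (x : F) (hx : x ∈ O) :
    ∃ c : K, pi72_IsVal (RingHom.id K) (RingHom.id F) O x c := by
  obtain ⟨c, hc⟩ := hO x hx
  exact ⟨c, (pi72_isVal_id_iff O x c).mpr hc⟩

/-- a horizontal valuation ring contains the constants. -/
theorem pi72_horiz_const {π : R} (hπ : Irreducible π) (O : ValuationSubring F)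
    (hO : s34i47_IsHoriz π O) (c : K) : algebraMap K F c ∈ O := by
  obtain ⟨-, -, hRO, hπO⟩ := hO
  have hpow : ∀ k : ℕ, (algebraMap R F (π ^ k))⁻¹ ∈ O := by
    intro k
    rw [map_pow, ← inv_pow]
    exact O.pow_mem hπO k
  obtain ⟨a, b, hb, rfl⟩ := IsFractionRing.div_surjective (A := R) c
  have hb0 : b ≠ 0 := nonZeroDivisors.ne_zero hb
  obtain ⟨k, u, hu⟩ := IsDiscreteValuationRing.eq_unit_mul_pow_irreducible hb0 hπ
  have h1 : algebraMap K F (algebraMap R K a / algebraMap R K b) =
      algebraMap R F a * (algebraMap R F ((u⁻¹ : Rˣ) : R) * (algebraMap R F (π ^ k))⁻¹) := by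
    rw [map_div₀, ← IsScalarTower.algebraMap_apply R K F, ← IsScalarTower.algebraMap_apply R K F]
    have h2 : algebraMap R F b = algebraMap R F (u : R) * algebraMap R F (π ^ k) := by
      rw [← map_mul, ← hu]
    have h3 : algebraMap R F (u : R) * algebraMap R F ((u⁻¹ : Rˣ) : R) = 1 := by
      rw [← map_mul, Units.mul_inv, map_one]
    have hu0 : algebraMap R F (u : R) ≠ 0 := left_ne_zero_of_mul_eq_one h3
    have h4 : algebraMap R F ((u⁻¹ : Rˣ) : R) = (algebraMap R F (u : R))⁻¹ :=
      eq_inv_of_mul_eq_one_right h3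
    rw [h2, h4, div_eq_mul_inv, mul_inv]
  rw [h1]
  exact O.mul_mem _ _ (hRO a) (O.mul_mem _ _ (hRO _) (hpow k))

/-- **The point of a rational horizontal valuation ring through `n`.** -/
theorem pi72_through_rho {π : R} (hπ : Irreducible π) (B : Subalgebra R F) (n : Ideal B)
    (hn1 : n ≠ ⊤) (hπn : algebraMap R B π ∈ n) (O : ValuationSubring F)
    (hO : s34i47_IsHoriz π O) (hthr : s34i47_Through B n O) (hrat : s34i47_IsRat K O) :
    ∃ ρ : B →ₐ[R] R,
      (∀ b : B, (b : F) = algebraMap R F (ρ b) ∨ ((b : F) - algebraMap R F (ρ b))⁻¹ ∉ O) ∧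
      (∀ b : B, ρ b = 0 ↔ (b = 0 ∨ (b : F)⁻¹ ∉ O)) ∧
      (∀ b : B, b ∈ n ↔ ¬ IsUnit (ρ b)) := by
  have hRinj : Function.Injective (algebraMap R K) := IsFractionRing.injective R K
  have hι : ∀ c : K, (RingHom.id F) (algebraMap K F c) = algebraMap K F ((RingHom.id K) c) :=
    fun c => rfl
  have hOc : ∀ c : K, algebraMap K F c ∈ O := pi72_horiz_const hπ O hO
  have hnR : ∀ r : R, ¬ IsUnit r → algebraMap R B r ∈ n := by
    intro r hr
    obtain ⟨d, rfl⟩ := (pi72_dvd_iff_not_isUnit hπ r).mpr hr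
    rw [map_mul]
    exact n.mul_mem_right _ hπn
  have hunit : ∀ b : B, b ∉ n → ((RingHom.id F) (b : F))⁻¹ ∈ O := fun b hb => hthr.2 b hb
  have hB : ∀ b ∈ B, ∃ r : R,
      pi72_IsVal (RingHom.id K) (RingHom.id F) O b (algebraMap R K r) := by
    intro b hb
    obtain ⟨c, hc⟩ := pi72_isRat_isVal O hrat b (hthr.1 b hb)
    exact pi72_gen_val (RingHom.id K) (RingHom.id F) O hι hOc B n hn1 hnR hunit hb hc
  obtain ⟨ρ, hρ⟩ := pi72_exists_rho (RingHom.id K) (RingHom.id F) O hRinj hι hOc B hB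
  have hker := pi72_rho_eq_zero_iff (RingHom.id K) (RingHom.id F) O hRinj hOc B ρ hρ
  refine ⟨ρ, fun b => ?_, fun b => ?_, fun b => ?_⟩
  · have h1 := (pi72_isVal_id_iff O (b : F) (algebraMap R K (ρ b))).mp (hρ b)
    rwa [← IsScalarTower.algebraMap_apply R K F] at h1
  · rw [hker b, pi72_val_lt_one_iff, RingHom.id_apply]
    constructor
    · rintro (h | h)
      · exact Or.inl (Subtype.ext h)
      · exact Or.inr h
    · rintro (h | h)
      · exact Or.inl (by rw [h]; rfl)
      · exact Or.inr h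
  · have hdiff : b - algebraMap R B (ρ b) ∈ n := by
      apply pi72_mem_of_val_lt_one (RingHom.id F) O B n hunit
      rw [← hker, map_sub, AlgHom.commutes]
      exact sub_self _
    constructor
    · intro hb hu
      apply hn1
      have h1 : algebraMap R B (ρ b) ∈ n := by
        have : algebraMap R B (ρ b) = b - (b - algebraMap R B (ρ b)) := by ring
        rw [this]
        exact n.sub_mem hb hdiff
      obtain ⟨r', hr'⟩ := hu.exists_right_inv
      rw [Ideal.eq_top_iff_one]
      have h2 : (1 : B) = algebraMap R B (ρ b) * algebraMap R B r' := by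
        rw [← map_mul, hr', map_one]
      rw [h2]
      exact n.mul_mem_right _ h1
    · intro hu
      have : b = (b - algebraMap R B (ρ b)) + algebraMap R B (ρ b) := by ring
      rw [this]
      exact n.add_mem hdiff (hnR _ hu)

/-- `b - ρ b` lies in the kernel of `ρ`, hence in `n`; so `b ∈ n ↔ ρ b ∈ π R`. -/
theorem pi72_through_mem_iff {π : R} (hπ : Irreducible π) (B : Subalgebra R F) (n : Ideal B)
    (ρ : B →ₐ[R] R) (hρn : ∀ b : B, b ∈ n ↔ ¬ IsUnit (ρ b)) (b : B) :
    b ∈ n ↔ π ∣ ρ b := by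
  rw [hρn b, pi72_dvd_iff_not_isUnit hπ]

/-- the kernel of `ρ` is contained in `n`, and `b - ρ b ∈ ker ρ`. -/
theorem pi72_through_ker_le (B : Subalgebra R F) (n : Ideal B)
    (ρ : B →ₐ[R] R) (hρn : ∀ b : B, b ∈ n ↔ ¬ IsUnit (ρ b)) (b : B) (hb : ρ b = 0) : b ∈ n := by
  rw [hρn b, hb]
  exact not_isUnit_zero

theorem pi72_through_sub_mem (B : Subalgebra R F) (n : Ideal B)
    (ρ : B →ₐ[R] R) (hρn : ∀ b : B, b ∈ n ↔ ¬ IsUnit (ρ b)) (b : B) :
    b - algebraMap R B (ρ b) ∈ n :=
  pi72_through_ker_le B n ρ hρn _ (by rw [map_sub, AlgHom.commutes]; exact sub_self _)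

/-- **Uniqueness**: an `R`-algebra homomorphism `B → R` is determined by its kernel. -/
theorem pi72_through_unique (B : Subalgebra R F) (ρ ρ' : B →ₐ[R] R)
    (h : ∀ b : B, ρ b = 0 → ρ' b = 0) : ρ = ρ' := by
  refine AlgHom.ext fun b => ?_
  have h1 : ρ' (b - algebraMap R B (ρ b)) = 0 :=
    h _ (by rw [map_sub, AlgHom.commutes]; exact sub_self _)
  rw [map_sub, AlgHom.commutes, sub_eq_zero] at h1
  exact h1.symm

/-- the maximal ideal `n` is generated by `ker ρ` and `π`: every `b ∈ n` is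
`(b - ρ b) + π r`. -/
theorem pi72_through_decomp {π : R} (hπ : Irreducible π) (B : Subalgebra R F) (n : Ideal B)
    (ρ : B →ₐ[R] R) (hρn : ∀ b : B, b ∈ n ↔ ¬ IsUnit (ρ b)) (b : B) (hb : b ∈ n) :
    ∃ (k : B) (r : R), ρ k = 0 ∧ b = k + algebraMap R B π * algebraMap R B r := by
  obtain ⟨r, hr⟩ := (pi72_through_mem_iff hπ B n ρ hρn b).mp hb
  refine ⟨b - algebraMap R B (ρ b), r, by rw [map_sub, AlgHom.commutes]; exact sub_self _, ?_⟩
  rw [hr, map_mul]
  ring

end pi72_iface

end Fermat.Agent.S34
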