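import Mathlib
import Fermat.Agent.S34.Iface47
import Fermat.Agent.S34.Iface47d
import Fermat.Agent.S34.PointsInst72
import Fermat.Agent.S34.DeepNode3b

/-!
# S34 lab (helper3): (UZ) from the WEAK local structure (LS′) — no thickness bound

`s34f3_uz_of_LSW`: for a noetherian chart `B` with fraction field `F` which is integrally closed
in `F`, the weak local structure `s34i47d_LocStrW π B P₁ P₂` of `Iface47d` (at a two-branch point
only `n B_n = (z, z', π)`, `z ∈ P₁ ∖ P₂`, `z' ∈ P₂ ∖ P₁`, `z z' ∈ π B` — NO relation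
`z z' = π ^ κ * unit`) implies the LITERAL unique-zero property `s34i47_UniqueZero K π B` of
`Iface47`, so the packages (LP), (LD), Core of the first route apply unchanged.

Inputs: `pi72_through_rho` (helper72: the point `ρ : B → R` of a rational horizontal valuation
ring through `n`) and `dn3b_main` (`DeepNode3b`: at a normal two-branch point every `R`-point has
a local equation `P`, `a · ker ρ ⊆ P · B_n` with `0 ≠ a ∈ R`).

All auxiliary names are prefixed `uz3_`.
-/

set_option autoImplicit false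

namespace Fermat.Agent.S34

open IsLocalRing

/-! ## 1. From a local equation to the uniformiser (abstract) -/

section Abs

variable {A F : Type*} [CommRing A] [IsDomain A] [Field F]

/-- **Decomposition.**  If `P` is a local equation of the prime `𝔮` (the centre of the discrete
valuation ring `O`) up to the `O`-unit `α`, every nonzero `y` is `P ^ i * y' / α ^ i` with
`y' ∉ 𝔮`. -/
theorem uz3_decomp (j : A →+* F) (hj : Function.Injective j) (O : ValuationSubring F)
    (hPIR : IsPrincipalIdealRing O) (𝔮 : Ideal A)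
    (hF1 : ∀ y : A, j y ∈ O) (hF2 : ∀ y : A, y ∉ 𝔮 → (j y)⁻¹ ∈ O)
    (hF3 : ∀ y ∈ 𝔮, y = 0 ∨ (j y)⁻¹ ∉ O)
    (P α : A) (hP : P ∈ 𝔮) (hP0 : P ≠ 0) (hα : α ∉ 𝔮)
    (heq : ∀ x ∈ 𝔮, ∃ y : A, α * x = P * y) :
    ∀ y : A, y ≠ 0 → ∃ (i : ℕ) (y' : A), y' ∉ 𝔮 ∧ α ^ i * y = P ^ i * y' := by
  classical
  have := hPIR
  have hα0 : α ≠ 0 := fun h => hα (h ▸ 𝔮.zero_mem)
  have hjα : j α ≠ 0 := fun h => hα0 (hj (by rw [h, map_zero]))
  have hPinv : (j P)⁻¹ ∉ O := (hF3 P hP).resolve_left hP0
  have key : ∀ w : O, ∀ y : A, y ≠ 0 → (⟨j y, hF1 y⟩ : O) = w →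
      ∃ (i : ℕ) (y' : A), y' ∉ 𝔮 ∧ α ^ i * y = P ^ i * y' := by
    intro w
    induction w using (wellFounded_dvdNotUnit (α := O)).induction with
    | _ w ih =>
      intro y hy0 hyw
      by_cases hy : y ∈ 𝔮
      · obtain ⟨y₁, hy₁⟩ := heq y hy
        have hy₁0 : y₁ ≠ 0 := by
          rintro rfl
          rw [mul_zero] at hy₁
          rcases mul_eq_zero.mp hy₁ with h | h
          · exact hα0 h
          · exact hy0 h
        have hjy₁ : j y₁ ≠ 0 := fun h => hy₁0 (hj (by rw [h, map_zero]))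
        have hdn : DvdNotUnit (⟨j y₁, hF1 y₁⟩ : O) w := by
          refine ⟨fun h => hjy₁ (congrArg Subtype.val h), ⟨j P * (j α)⁻¹,
            O.mul_mem _ _ (hF1 P) (hF2 α hα)⟩, ?_, ?_⟩
          · intro hu
            obtain ⟨v, hv⟩ := hu.exists_right_inv
            have hv' : j P * (j α)⁻¹ * (v : F) = 1 := congrArg Subtype.val hv
            apply hPinv
            have hjP : j P ≠ 0 := by
              intro h0
              rw [h0, zero_mul, zero_mul] at hv'
              exact zero_ne_one hv'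
            have : (j P)⁻¹ = (j α)⁻¹ * (v : F) := by
              rw [inv_eq_iff_eq_inv, ← one_div]
              rw [eq_div_iff (mul_ne_zero (inv_ne_zero hjα) (by
                intro h0; rw [h0, mul_zero] at hv'; exact zero_ne_one hv'))]
              linear_combination hv'
            rw [this]
            exact O.mul_mem _ _ (hF2 α hα) v.2
          · rw [← hyw]
            apply Subtype.ext
            show j y = j y₁ * (j P * (j α)⁻¹)
            have h1 : j α * j y = j P * j y₁ := by rw [← map_mul, ← map_mul, hy₁]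
            field_simp
            linear_combination h1
        obtain ⟨i, y', hy', e⟩ := ih _ hdn y₁ hy₁0 rfl
        exact ⟨i + 1, y', hy', by linear_combination (α ^ i) * hy₁ + P * e⟩
      · exact ⟨0, y, hy, by simp⟩
  intro y hy0
  exact key _ y hy0 rfl

omit [IsDomain A] in
/-- **Membership criterion.**  In a valuation ring `O ⊇ j A` in which `α` and the elements
outside `𝔮` are units and `P` is not, an element `x = (P ^ i u / α ^ i) / (P ^ i' u' / α ^ i')`
(`u, u' ∉ 𝔮`) lies in `O` iff `i' ≤ i`. -/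
theorem uz3_mem_iff (j : A →+* F) (hj : Function.Injective j) (O : ValuationSubring F)
    (𝔮 : Ideal A) (hF1 : ∀ y : A, j y ∈ O) (hF2 : ∀ y : A, y ∉ 𝔮 → (j y)⁻¹ ∈ O)
    (P α : A) (hα : α ∉ 𝔮) (hPO : (j P)⁻¹ ∉ O)
    (x : F) (y y' u u' : A) (i i' : ℕ) (hy' : y' ≠ 0) (hxy : x * j y' = j y)
    (hu : u ∉ 𝔮) (hu' : u' ∉ 𝔮) (e : α ^ i * y = P ^ i * u) (e' : α ^ i' * y' = P ^ i' * u') :
    x ∈ O ↔ i' ≤ i := by
  have hα0 : α ≠ 0 := fun h => hα (h ▸ 𝔮.zero_mem)
  have hu0 : u ≠ 0 := fun h => hu (h ▸ 𝔮.zero_mem)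
  have hu'0 : u' ≠ 0 := fun h => hu' (h ▸ 𝔮.zero_mem)
  have hne : ∀ w : A, w ≠ 0 → j w ≠ 0 := fun w hw h => hw (hj (by rw [h, map_zero]))
  have ha := hne α hα0
  have hU := hne u hu0
  have hU' := hne u' hu'0
  have hY' := hne y' hy'
  have hp : j P ≠ 0 := by
    intro h
    apply hPO
    rw [h, inv_zero]
    exact O.zero_mem
  have E : j α ^ i * j y = j P ^ i * j u := by
    rw [← map_pow, ← map_pow, ← map_mul, ← map_mul, e]
  have E' : j α ^ i' * j y' = j P ^ i' * j u' := by
    rw [← map_pow, ← map_pow, ← map_mul, ← map_mul, e']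
  -- `x * (P^i' u' α^i) = P^i u α^i'`
  have X : x * (j P ^ i' * j u' * j α ^ i) = j P ^ i * j u * j α ^ i' := by
    have h1 : x * (j α ^ i' * j y') * j α ^ i = j α ^ i' * (j α ^ i * j y) := by
      rw [← hxy]; ring
    rw [E, E'] at h1
    linear_combination h1
  have hainv : (j α)⁻¹ ∈ O := hF2 α hα
  constructor
  · intro hx
    by_contra hlt
    have hlt' : i < i' := Nat.lt_of_not_le hlt
    obtain ⟨d, rfl⟩ : ∃ d, i' = i + 1 + d := ⟨i' - (i + 1), by omega⟩
    apply hPO
    have X' : x * j P ^ (d + 1) * j u' * j α ^ i = j u * j α ^ (i + 1 + d) := by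
      apply mul_left_cancel₀ (pow_ne_zero i hp)
      linear_combination X
    have : (j P)⁻¹ = j P ^ d * x * j u' * (j u)⁻¹ * j α ^ i * ((j α)⁻¹) ^ (i + 1 + d) := by
      apply inv_eq_of_mul_eq_one_right
      calc j P * (j P ^ d * x * j u' * (j u)⁻¹ * j α ^ i * ((j α)⁻¹) ^ (i + 1 + d))
          = (x * j P ^ (d + 1) * j u' * j α ^ i) * (j u)⁻¹ * ((j α)⁻¹) ^ (i + 1 + d) := by ring
        _ = (j u * j α ^ (i + 1 + d)) * (j u)⁻¹ * ((j α)⁻¹) ^ (i + 1 + d) := by rw [X']
        _ = (j u * (j u)⁻¹) * (j α * (j α)⁻¹) ^ (i + 1 + d) := by ring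
        _ = 1 := by rw [mul_inv_cancel₀ hU, mul_inv_cancel₀ ha, one_pow, mul_one]
    rw [this]
    exact O.mul_mem _ _ (O.mul_mem _ _ (O.mul_mem _ _ (O.mul_mem _ _ (O.mul_mem _ _
      (O.pow_mem (hF1 P) d) hx) (hF1 u')) (hF2 u hu)) (O.pow_mem (hF1 α) i))
      (O.pow_mem hainv _)
  · intro hle
    obtain ⟨d, rfl⟩ : ∃ d, i = i' + d := ⟨i - i', by omega⟩
    have hD : j P ^ i' * j u' * j α ^ (i' + d) ≠ 0 :=
      mul_ne_zero (mul_ne_zero (pow_ne_zero _ hp) hU') (pow_ne_zero _ ha)
    have : x = j P ^ d * j u * (j u')⁻¹ * j α ^ i' * ((j α)⁻¹) ^ (i' + d) := by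
      apply mul_right_cancel₀ hD
      rw [X]
      symm
      calc j P ^ d * j u * (j u')⁻¹ * j α ^ i' * ((j α)⁻¹) ^ (i' + d)
            * (j P ^ i' * j u' * j α ^ (i' + d))
          = (j P ^ (i' + d) * j u * j α ^ i') * ((j u')⁻¹ * j u')
              * ((j α)⁻¹ * j α) ^ (i' + d) := by ring
        _ = j P ^ (i' + d) * j u * j α ^ i' := by
            rw [inv_mul_cancel₀ hU', inv_mul_cancel₀ ha, one_pow, mul_one, mul_one]
    rw [this]
    exact O.mul_mem _ _ (O.mul_mem _ _ (O.mul_mem _ _ (O.mul_mem _ _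
      (O.pow_mem (hF1 P) d) (hF1 u)) (hF2 u' hu')) (O.pow_mem (hF1 α) i'))
      (O.pow_mem hainv _)

end Abs

/-! ## 2. The local ring of a chart at `n`, its embedding into `F`, the point of `O` -/

section Loc

variable {R F : Type*} [CommRing R] [Field F] [Algebra R F] (B : Subalgebra R F) (n : Ideal B)
  [n.IsPrime]

theorem uz3_primeCompl_le : n.primeCompl ≤ nonZeroDivisors (↥B) := by
  intro x hx
  rw [mem_nonZeroDivisors_iff_ne_zero]
  rintro rfl
  exact hx n.zero_mem

/-- the canonical embedding `B_n → F`. -/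
noncomputable def uz3_j : Localization.AtPrime n →+* F :=
  IsLocalization.lift (M := n.primeCompl) (g := (B.val : B →+* F)) (fun y => by
    have h0 : (y : B) ≠ 0 := fun h => y.2 (h ▸ n.zero_mem)
    have h1 : ((y : B) : F) ≠ 0 := fun h => h0 (Subtype.ext h)
    exact IsUnit.mk0 _ h1)

theorem uz3_j_algebraMap (b : B) :
    uz3_j B n (algebraMap B (Localization.AtPrime n) b) = (b : F) :=
  IsLocalization.lift_eq _ b

theorem uz3_j_injective : Function.Injective (uz3_j B n) := by
  rw [uz3_j, IsLocalization.lift_injective_iff]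
  intro x y
  constructor
  · intro h
    rw [IsLocalization.injective (Localization.AtPrime n) (uz3_primeCompl_le B n) h]
  · intro h
    have : x = y := Subtype.ext h
    rw [this]

/-- every element of `B_n` is `b / s` with `s ∉ n`. -/
theorem uz3_j_eq (y : Localization.AtPrime n) :
    ∃ (b s : B), s ∉ n ∧ y * algebraMap B (Localization.AtPrime n) s
        = algebraMap B (Localization.AtPrime n) b ∧
      uz3_j B n y = (b : F) * ((s : F))⁻¹ := by
  obtain ⟨⟨b, s⟩, h⟩ := IsLocalization.surj n.primeCompl y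
  refine ⟨b, s, s.2, h, ?_⟩
  have h1 := congrArg (uz3_j B n) h
  rw [map_mul, uz3_j_algebraMap, uz3_j_algebraMap] at h1
  have h0 : ((s : B) : F) ≠ 0 := fun h => s.2 ((Subtype.ext h : (s : B) = 0) ▸ n.zero_mem)
  rw [eq_mul_inv_iff_mul_eq₀ h0]
  exact h1

/-- the image of `B_n` lies in every valuation ring through `n`. -/
theorem uz3_j_mem (O : ValuationSubring F) (hthr : s34i47_Through B n O)
    (y : Localization.AtPrime n) : uz3_j B n y ∈ O := by
  obtain ⟨b, s, hs, -, h⟩ := uz3_j_eq B n y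
  rw [h]
  exact O.mul_mem _ _ (hthr.1 _ b.2) (hthr.2 s hs)

variable (ρ : B →ₐ[R] R) (hρn : ∀ b : B, b ∈ n ↔ ¬ IsUnit (ρ b))

/-- the point `ρ` extended to the local ring `B_n`. -/
noncomputable def uz3_rho : Localization.AtPrime n →+* R :=
  IsLocalization.lift (M := n.primeCompl) (g := (ρ : B →+* R)) (fun y => by
    by_contra h
    exact y.2 ((hρn y).mpr h))

theorem uz3_rho_algebraMap (b : B) :
    uz3_rho B n ρ hρn (algebraMap B (Localization.AtPrime n) b) = ρ b :=
  IsLocalization.lift_eq _ b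

theorem uz3_rho_base (r : R) :
    uz3_rho B n ρ hρn (algebraMap R (Localization.AtPrime n) r) = r := by
  rw [IsScalarTower.algebraMap_apply R B (Localization.AtPrime n), uz3_rho_algebraMap,
    AlgHom.commutes]
  rfl

variable [IsDomain R]

/-- outside the kernel of the point, the elements of `B_n` are units of `O`. -/
theorem uz3_inv_mem (O : ValuationSubring F) (hthr : s34i47_Through B n O)
    (hker : ∀ b : B, ρ b = 0 ↔ (b = 0 ∨ ((b : F))⁻¹ ∉ O))
    (y : Localization.AtPrime n) (hy : uz3_rho B n ρ hρn y ≠ 0) : (uz3_j B n y)⁻¹ ∈ O := by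
  obtain ⟨b, s, hs, hbs, h⟩ := uz3_j_eq B n y
  have h1 := congrArg (uz3_rho B n ρ hρn) hbs
  rw [map_mul, uz3_rho_algebraMap, uz3_rho_algebraMap] at h1
  have hρb : ρ b ≠ 0 := by
    rw [← h1]
    refine mul_ne_zero hy ?_
    intro h0
    have : ¬ IsUnit (ρ s) := by rw [h0]; exact not_isUnit_zero
    exact hs ((hρn s).mpr this)
  have hb := (not_iff_not.mpr (hker b)).mp hρb
  push Not at hb
  rw [h, mul_inv, inv_inv]
  exact O.mul_mem _ _ hb.2 (hthr.1 _ s.2)

omit [IsDomain R] in
/-- on the kernel of the point, the nonzero elements of `B_n` are non-units of `O`. -/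
theorem uz3_inv_not_mem (O : ValuationSubring F) (hthr : s34i47_Through B n O)
    (hker : ∀ b : B, ρ b = 0 ↔ (b = 0 ∨ ((b : F))⁻¹ ∉ O))
    (y : Localization.AtPrime n) (hy : uz3_rho B n ρ hρn y = 0) :
    y = 0 ∨ (uz3_j B n y)⁻¹ ∉ O := by
  obtain ⟨b, s, hs, hbs, h⟩ := uz3_j_eq B n y
  have h1 := congrArg (uz3_rho B n ρ hρn) hbs
  rw [map_mul, uz3_rho_algebraMap, uz3_rho_algebraMap, hy, zero_mul] at h1
  have hsu : IsUnit (algebraMap B (Localization.AtPrime n) s) :=
    IsLocalization.map_units (Localization.AtPrime n) (⟨s, hs⟩ : n.primeCompl)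
  rcases (hker b).mp h1.symm with hb | hb
  · left
    rw [hb, map_zero] at hbs
    exact (hsu.mul_left_eq_zero).mp hbs
  · right
    intro hmem
    apply hb
    have hs0 : ((s : B) : F) ≠ 0 := fun h => hs ((Subtype.ext h : (s : B) = 0) ▸ n.zero_mem)
    rw [h, mul_inv, inv_inv] at hmem
    have : ((b : F))⁻¹ = ((b : F))⁻¹ * (s : F) * ((s : F))⁻¹ := by
      rw [mul_assoc, mul_inv_cancel₀ hs0, mul_one]
    rw [this]
    exact O.mul_mem _ _ hmem (hthr.2 s hs)

omit [IsDomain R] in
/-- the maximal ideal of `B_n` is generated by the images of the generators of `n B_n`. -/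
theorem uz3_maximalIdeal (π : R) (z z' : B) (hz : z ∈ n) (hz' : z' ∈ n)
    (hπn : algebraMap R B π ∈ n)
    (hgen : ∀ x ∈ n, ∃ s : B, s ∉ n ∧ ∃ a b c : B,
      s * x = a * z + b * z' + c * algebraMap R B π) :
    maximalIdeal (Localization.AtPrime n) =
      Ideal.span ({algebraMap R (Localization.AtPrime n) π,
        algebraMap B (Localization.AtPrime n) z,
        algebraMap B (Localization.AtPrime n) z'} : Set (Localization.AtPrime n)) := by
  have hπA : algebraMap R (Localization.AtPrime n) π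
      = algebraMap B (Localization.AtPrime n) (algebraMap R B π) :=
    IsScalarTower.algebraMap_apply R B (Localization.AtPrime n) π
  rw [← IsLocalization.AtPrime.map_eq_maximalIdeal n (Localization.AtPrime n)]
  apply le_antisymm
  · rw [Ideal.map_le_iff_le_comap]
    intro x hx
    rw [Ideal.mem_comap]
    obtain ⟨s, hs, a, b, c, h⟩ := hgen x hx
    have hsu : IsUnit (algebraMap B (Localization.AtPrime n) s) :=
      IsLocalization.map_units (Localization.AtPrime n) (⟨s, hs⟩ : n.primeCompl)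
    obtain ⟨v, hv⟩ := hsu.exists_left_inv
    have h1 := congrArg (algebraMap B (Localization.AtPrime n)) h
    rw [map_mul, map_add, map_add, map_mul, map_mul, map_mul, ← hπA] at h1
    have h2 : algebraMap B (Localization.AtPrime n) x
        = v * algebraMap B (Localization.AtPrime n) c
            * algebraMap R (Localization.AtPrime n) π
          + v * algebraMap B (Localization.AtPrime n) a
            * algebraMap B (Localization.AtPrime n) z
          + v * algebraMap B (Localization.AtPrime n) b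
            * algebraMap B (Localization.AtPrime n) z' := by
      calc algebraMap B (Localization.AtPrime n) x
          = (v * algebraMap B (Localization.AtPrime n) s)
              * algebraMap B (Localization.AtPrime n) x := by rw [hv, one_mul]
        _ = v * (algebraMap B (Localization.AtPrime n) s
              * algebraMap B (Localization.AtPrime n) x) := by ring
        _ = _ := by rw [h1]; ring
    rw [h2]
    exact (dn3_mem_span_triple _ _ _ _).mpr ⟨_, _, _, rfl⟩
  · rw [Ideal.span_le]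
    intro x hx
    rcases hx with rfl | rfl | rfl
    · rw [hπA]
      exact Ideal.mem_map_of_mem _ hπn
    · exact Ideal.mem_map_of_mem _ hz
    · exact Ideal.mem_map_of_mem _ hz'

omit [IsDomain R] in
/-- the embedding `B_n → F` on the constants. -/
theorem uz3_j_base (r : R) :
    uz3_j B n (algebraMap R (Localization.AtPrime n) r) = algebraMap R F r := by
  rw [IsScalarTower.algebraMap_apply R B (Localization.AtPrime n), uz3_j_algebraMap]
  rfl

end Loc

/-! ## 3. Local equations at the closed points -/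

section LE

variable {R F : Type*} [CommRing R] [IsDomain R] [IsDiscreteValuationRing R] [Field F]
  [Algebra R F] (B : Subalgebra R F) (n : Ideal B) [n.IsPrime]
  (ρ : B →ₐ[R] R) (hρn : ∀ b : B, b ∈ n ↔ ¬ IsUnit (ρ b))

/-- **Local equation** of the point `ρ` at `n`: the kernel of `ρ` on `B_n` is principal up to a
nonzero constant of `R`. -/
def uz3_LE : Prop :=
  ∃ P ∈ RingHom.ker (uz3_rho B n ρ hρn), ∃ a : R, a ≠ 0 ∧
    ∀ x ∈ RingHom.ker (uz3_rho B n ρ hρn), ∃ y : Localization.AtPrime n,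
      algebraMap R (Localization.AtPrime n) a * x = P * y

/-- at a smooth point (`n B_n = (z, π)`) the kernel of the point is `(z - ρ z)`. -/
theorem uz3_LE_smooth [IsNoetherianRing B] (π : R) (hπ : Irreducible π) (z : B) (hz : z ∈ n)
    (hπn : algebraMap R B π ∈ n)
    (hgen : ∀ x ∈ n, ∃ s : B, s ∉ n ∧ ∃ a b c : B,
      s * x = a * z + b * algebraMap R B π + c * algebraMap R B π) :
    uz3_LE B n ρ hρn := by
  have hmax := uz3_maximalIdeal B n π z (algebraMap R B π) hz hπn hπn hgen
  have hπA : algebraMap B (Localization.AtPrime n) (algebraMap R B π)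
      = algebraMap R (Localization.AtPrime n) π :=
    (IsScalarTower.algebraMap_apply R B (Localization.AtPrime n) π).symm
  have hker := dn3_ker π hπ.ne_zero hπ.maximalIdeal_eq _ _ hmax (uz3_rho B n ρ hρn)
    (uz3_rho_base B n ρ hρn)
  refine ⟨algebraMap B _ z - algebraMap R _ (uz3_rho B n ρ hρn (algebraMap B _ z)), ?_, 1,
    one_ne_zero, ?_⟩
  · rw [RingHom.mem_ker, map_sub, uz3_rho_base, sub_self]
  · intro x hx
    rw [hker, hπA, uz3_rho_base, sub_self] at hx
    obtain ⟨c, d, h⟩ := Ideal.mem_span_pair.mp hx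
    exact ⟨c, by rw [map_one, one_mul, ← h]; ring⟩

/-- at a normal two-branch point every point has a local equation (`dn3b_main`). -/
theorem uz3_LE_node [IsNoetherianRing B] [IsIntegrallyClosed B] (π : R) (hπ : Irreducible π)
    (P₁ P₂ : Ideal B) [P₁.IsPrime] [P₂.IsPrime]
    (hπ₁ : algebraMap R B π ∈ P₁) (hπ₂ : algebraMap R B π ∈ P₂)
    (h₁n : P₁ ≤ n) (h₂n : P₂ ≤ n) (z z' : B) (hz : z ∈ n) (hz' : z' ∈ n)
    (hπn : algebraMap R B π ∈ n)
    (hgen : ∀ x ∈ n, ∃ s : B, s ∉ n ∧ ∃ a b c : B,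
      s * x = a * z + b * z' + c * algebraMap R B π)
    (hz₁ : z ∈ P₁) (hz₂ : z ∉ P₂) (hz'₂ : z' ∈ P₂) (hz'₁ : z' ∉ P₁)
    (c : B) (hc : z * z' = algebraMap R B π * c) :
    uz3_LE B n ρ hρn := by
  have hmax := uz3_maximalIdeal B n π z z' hz hz' hπn hgen
  have hd₁ : Disjoint (n.primeCompl : Set B) (P₁ : Set B) := by
    rw [Set.disjoint_left]
    intro x hx hx'
    exact hx (h₁n hx')
  have hd₂ : Disjoint (n.primeCompl : Set B) (P₂ : Set B) := by
    rw [Set.disjoint_left]
    intro x hx hx'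
    exact hx (h₂n hx')
  have hp₁ : (P₁.map (algebraMap B (Localization.AtPrime n))).IsPrime :=
    IsLocalization.isPrime_of_isPrime_disjoint n.primeCompl _ P₁ inferInstance hd₁
  have hp₂ : (P₂.map (algebraMap B (Localization.AtPrime n))).IsPrime :=
    IsLocalization.isPrime_of_isPrime_disjoint n.primeCompl _ P₂ inferInstance hd₂
  have hic : IsIntegrallyClosed (Localization.AtPrime n) :=
    isIntegrallyClosed_of_isLocalization (Localization.AtPrime n) n.primeCompl
      (uz3_primeCompl_le B n)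
  have hπA : algebraMap R (Localization.AtPrime n) π
      = algebraMap B (Localization.AtPrime n) (algebraMap R B π) :=
    IsScalarTower.algebraMap_apply R B (Localization.AtPrime n) π
  have hcm₁ := IsLocalization.under_map_of_isPrime_disjoint n.primeCompl
    (Localization.AtPrime n) (inferInstance : P₁.IsPrime) hd₁
  have hcm₂ := IsLocalization.under_map_of_isPrime_disjoint n.primeCompl
    (Localization.AtPrime n) (inferInstance : P₂.IsPrime) hd₂
  exact dn3b_main π hπ (P₁.map (algebraMap B (Localization.AtPrime n)))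
    (P₂.map (algebraMap B (Localization.AtPrime n)))
    (by rw [hπA]; exact Ideal.mem_map_of_mem _ hπ₁)
    (by rw [hπA]; exact Ideal.mem_map_of_mem _ hπ₂)
    (algebraMap B _ z) (algebraMap B _ z') (Ideal.mem_map_of_mem _ hz₁)
    (Ideal.mem_map_of_mem _ hz'₂)
    (fun h => hz₂ (by rw [← hcm₂]; exact h))
    (fun h => hz'₁ (by rw [← hcm₁]; exact h))
    hmax ⟨algebraMap B _ c, by rw [hπA, ← map_mul, ← map_mul, hc]⟩
    (uz3_rho B n ρ hρn) (uz3_rho_base B n ρ hρn)

end LE

/-! ## 4. From a local equation to the unique-zero property -/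

section UZ

variable {R F : Type*} [CommRing R] [IsDomain R] [IsDiscreteValuationRing R] [Field F]
  [Algebra R F]

/-- nonzero constants are units of a horizontal valuation ring. -/
theorem uz3_horiz_inv {π : R} (hπ : Irreducible π) (O : ValuationSubring F)
    (hO : s34i47_IsHoriz π O) (r : R) (hr : r ≠ 0) : (algebraMap R F r)⁻¹ ∈ O := by
  obtain ⟨k, u, hu⟩ := IsDiscreteValuationRing.eq_unit_mul_pow_irreducible hr hπ
  have h3 : algebraMap R F (u : R) * algebraMap R F ((u⁻¹ : Rˣ) : R) = 1 := by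
    rw [← map_mul, Units.mul_inv, map_one]
  have h4 : (algebraMap R F (u : R))⁻¹ = algebraMap R F ((u⁻¹ : Rˣ) : R) :=
    (eq_inv_of_mul_eq_one_right h3).symm
  rw [hu, map_mul, map_pow, mul_inv, h4, ← inv_pow]
  exact O.mul_mem _ _ (hO.2.2.1 _) (O.pow_mem hO.2.2.2 k)

/-- **(UZ) at one point from a local equation.**  If the point `ρ` of the horizontal valuation
ring `O` through `n` has a local equation `P`, then `P` is a uniformiser of `O` and a unit of
every other horizontal valuation ring through `n`. -/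
theorem uz3_of_LE (π : R) (hπ : Irreducible π) (B : Subalgebra R F)
    (hfrac : ∀ x : F, ∃ a ∈ B, ∃ b ∈ B, b ≠ 0 ∧ x * b = a)
    (n : Ideal B) [n.IsPrime] (O : ValuationSubring F) (hO : s34i47_IsHoriz π O)
    (hthr : s34i47_Through B n O) (ρ : B →ₐ[R] R)
    (hker : ∀ b : B, ρ b = 0 ↔ (b = 0 ∨ ((b : F))⁻¹ ∉ O))
    (hρn : ∀ b : B, b ∈ n ↔ ¬ IsUnit (ρ b)) (hLE : uz3_LE B n ρ hρn) :
    ∃ p : F, p ≠ 0 ∧ p ∈ O ∧ p⁻¹ ∉ O ∧ (∀ x ∈ O, x⁻¹ ∉ O → x * p⁻¹ ∈ O) ∧
      ∀ O' : ValuationSubring F, s34i47_IsHoriz π O' → s34i47_Through B n O' → O' ≠ O →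
        p ∈ O' ∧ p⁻¹ ∈ O' := by
  classical
  obtain ⟨P, hP, a, ha, heq⟩ := hLE
  have hj := uz3_j_injective B n
  have hρA : ∀ r : R, uz3_rho B n ρ hρn (algebraMap R (Localization.AtPrime n) r) = r :=
    uz3_rho_base B n ρ hρn
  have hα : algebraMap R (Localization.AtPrime n) a ∉ RingHom.ker (uz3_rho B n ρ hρn) := by
    rw [RingHom.mem_ker, hρA]
    exact ha
  have hα0 : algebraMap R (Localization.AtPrime n) a ≠ 0 := fun h => hα (h ▸ Ideal.zero_mem _)
  have hF1 : ∀ y : Localization.AtPrime n, uz3_j B n y ∈ O := uz3_j_mem B n O hthr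
  have hF2 : ∀ y : Localization.AtPrime n, y ∉ RingHom.ker (uz3_rho B n ρ hρn) →
      (uz3_j B n y)⁻¹ ∈ O :=
    fun y hy => uz3_inv_mem B n ρ hρn O hthr hker y (fun h => hy (RingHom.mem_ker.mpr h))
  have hF3 : ∀ y ∈ RingHom.ker (uz3_rho B n ρ hρn), y = 0 ∨ (uz3_j B n y)⁻¹ ∉ O :=
    fun y hy => uz3_inv_not_mem B n ρ hρn O hthr hker y (RingHom.mem_ker.mp hy)
  -- every element of `F` is a fraction of elements of `B_n`
  have hfr : ∀ x : F, ∃ y y' : Localization.AtPrime n, y' ≠ 0 ∧
      x * uz3_j B n y' = uz3_j B n y := by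
    intro x
    obtain ⟨a', ha', b, hb, hb0, hx⟩ := hfrac x
    refine ⟨algebraMap B _ ⟨a', ha'⟩, algebraMap B _ ⟨b, hb⟩, ?_, ?_⟩
    · intro h0
      have h1 := congrArg (uz3_j B n) h0
      rw [uz3_j_algebraMap, map_zero] at h1
      exact hb0 h1
    · rw [uz3_j_algebraMap, uz3_j_algebraMap]
      exact hx
  have hjne : ∀ y : Localization.AtPrime n, y ≠ 0 → uz3_j B n y ≠ 0 :=
    fun y hy h => hy (hj (by rw [h, map_zero]))
  -- `P ≠ 0`, since `O` is not the whole field
  have hP0 : P ≠ 0 := by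
    rintro rfl
    apply hO.1
    rw [eq_top_iff]
    intro x _
    obtain ⟨y, y', hy', hxy⟩ := hfr x
    have hy'k : y' ∉ RingHom.ker (uz3_rho B n ρ hρn) := by
      intro hmem
      obtain ⟨w, hw⟩ := heq y' hmem
      rw [zero_mul] at hw
      rcases mul_eq_zero.mp hw with h | h
      · exact hα0 h
      · exact hy' h
    have hx : x = uz3_j B n y * (uz3_j B n y')⁻¹ := by
      rw [← hxy, mul_assoc, mul_inv_cancel₀ (hjne y' hy'), mul_one]
    rw [hx]
    exact O.mul_mem _ _ (hF1 y) (hF2 y' hy'k)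
  have hp0 : uz3_j B n P ≠ 0 := hjne P hP0
  have hPO : (uz3_j B n P)⁻¹ ∉ O := (hF3 P hP).resolve_left hP0
  have hdec := uz3_decomp (uz3_j B n) hj O hO.2.1 (RingHom.ker (uz3_rho B n ρ hρn)) hF1 hF2 hF3
    P (algebraMap R _ a) hP hP0 hα heq
  have hy0 : ∀ (x : F) (y y' : Localization.AtPrime n), x ≠ 0 → y' ≠ 0 →
      x * uz3_j B n y' = uz3_j B n y → y ≠ 0 := by
    intro x y y' hx0 hy' hxy h0
    rw [h0, map_zero] at hxy
    rcases mul_eq_zero.mp hxy with h | h
    · exact hx0 h
    · exact hjne y' hy' h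
  refine ⟨uz3_j B n P, hp0, hF1 P, hPO, ?_, ?_⟩
  · -- `P` generates the maximal ideal of `O`
    intro x hx hxinv
    have hx0 : x ≠ 0 := by
      rintro rfl
      rw [inv_zero] at hxinv
      exact hxinv O.zero_mem
    obtain ⟨y, y', hy', hxy⟩ := hfr x
    have hy0' : y ≠ 0 := hy0 x y y' hx0 hy' hxy
    obtain ⟨i, u, hu, e⟩ := hdec y hy0'
    obtain ⟨i', u', hu', e'⟩ := hdec y' hy'
    have h1 : x ∈ O ↔ i' ≤ i :=
      uz3_mem_iff (uz3_j B n) hj O _ hF1 hF2 P _ hα hPO x y y' u u' i i' hy' hxy hu hu' e e'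
    have hxy' : x⁻¹ * uz3_j B n y = uz3_j B n y' := by
      rw [← hxy, ← mul_assoc, inv_mul_cancel₀ hx0, one_mul]
    have h2 : x⁻¹ ∈ O ↔ i ≤ i' :=
      uz3_mem_iff (uz3_j B n) hj O _ hF1 hF2 P _ hα hPO x⁻¹ y' y u' u i' i hy0' hxy' hu' hu e' e
    have hlt : i' + 1 ≤ i := by
      have h3 := h1.mp hx
      have h4 : ¬ i ≤ i' := fun h => hxinv (h2.mpr h)
      omega
    have hαu' : algebraMap R (Localization.AtPrime n) a * u' ∉
        RingHom.ker (uz3_rho B n ρ hρn) := by
      intro hmem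
      rcases (RingHom.ker_isPrime (uz3_rho B n ρ hρn)).mem_or_mem hmem with h | h
      · exact hα h
      · exact hu' h
    have h5 : x * (uz3_j B n P)⁻¹ * uz3_j B n (y' * P) = uz3_j B n y := by
      rw [map_mul, ← hxy]
      field_simp
    have h6 : algebraMap R (Localization.AtPrime n) a ^ (i' + 1) * (y' * P)
        = P ^ (i' + 1) * (algebraMap R (Localization.AtPrime n) a * u') := by
      linear_combination (algebraMap R (Localization.AtPrime n) a * P) * e'
    exact (uz3_mem_iff (uz3_j B n) hj O _ hF1 hF2 P _ hα hPO _ y (y' * P) u _ i (i' + 1)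
      (mul_ne_zero hy' hP0) h5 hu hαu' e h6).mpr hlt
  · -- `P` is a unit of every other horizontal valuation ring through `n`
    intro O' hO' hthr' hne
    refine ⟨uz3_j_mem B n O' hthr' P, ?_⟩
    by_contra hPO'
    apply hne
    have hF1' : ∀ y : Localization.AtPrime n, uz3_j B n y ∈ O' := uz3_j_mem B n O' hthr'
    have hv1 : ∀ y : Localization.AtPrime n, O'.valuation (uz3_j B n y) ≤ 1 :=
      fun y => (O'.valuation_le_one_iff _).mpr (hF1' y)
    have hvP : O'.valuation (uz3_j B n P) < 1 := (pi72_val_lt_one_iff O' _).mpr (Or.inr hPO')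
    have hRne : ∀ r : R, r ≠ 0 → algebraMap R F r ≠ 0 := by
      intro r hr h
      have h1 : algebraMap R (Localization.AtPrime n) r = 0 :=
        hj (by rw [uz3_j_base, h, map_zero])
      have h2 := congrArg (uz3_rho B n ρ hρn) h1
      rw [hρA, map_zero] at h2
      exact hr h2
    have hvR : ∀ r : R, r ≠ 0 → O'.valuation (algebraMap R F r) = 1 := by
      intro r hr
      refine le_antisymm ((O'.valuation_le_one_iff _).mpr (hO'.2.2.1 r)) ?_
      by_contra hlt
      rw [not_le] at hlt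
      rcases (pi72_val_lt_one_iff O' _).mp hlt with h | h
      · exact hRne r hr h
      · exact h (uz3_horiz_inv hπ O' hO' r hr)
    -- the elements of the kernel of `ρ` are non-units of `O'`
    have hvker : ∀ x ∈ RingHom.ker (uz3_rho B n ρ hρn), O'.valuation (uz3_j B n x) < 1 := by
      intro x hx
      obtain ⟨y, hy⟩ := heq x hx
      have h1 : O'.valuation (uz3_j B n (algebraMap R (Localization.AtPrime n) a * x))
          = O'.valuation (uz3_j B n (P * y)) := by rw [hy]
      rw [map_mul, map_mul, map_mul, map_mul, uz3_j_base, hvR a ha, one_mul] at h1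
      rw [h1]
      exact lt_of_le_of_lt (mul_le_of_le_one_right' (hv1 y)) hvP
    -- the elements outside the kernel are units of `O'`
    have hF2' : ∀ y : Localization.AtPrime n, y ∉ RingHom.ker (uz3_rho B n ρ hρn) →
        (uz3_j B n y)⁻¹ ∈ O' := by
      intro y hy
      have hr : uz3_rho B n ρ hρn y ≠ 0 := fun h => hy (RingHom.mem_ker.mpr h)
      have hw : y - algebraMap R _ (uz3_rho B n ρ hρn y) ∈ RingHom.ker (uz3_rho B n ρ hρn) := by
        rw [RingHom.mem_ker, map_sub, hρA, sub_self]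
      have h1 := hvker _ hw
      rw [map_sub, uz3_j_base] at h1
      have h2 : O'.valuation (uz3_j B n y) = 1 := by
        have h3 : uz3_j B n y = (uz3_j B n y - algebraMap R F (uz3_rho B n ρ hρn y))
            + algebraMap R F (uz3_rho B n ρ hρn y) := by ring
        rw [h3, Valuation.map_add_eq_of_lt_right]
        · exact hvR _ hr
        · rw [hvR _ hr]
          exact h1
      rw [← O'.valuation_le_one_iff, map_inv₀, h2, inv_one]
    ext x
    by_cases hx0 : x = 0
    · subst hx0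
      exact ⟨fun _ => O.zero_mem, fun _ => O'.zero_mem⟩
    obtain ⟨y, y', hy', hxy⟩ := hfr x
    have hy0' : y ≠ 0 := hy0 x y y' hx0 hy' hxy
    obtain ⟨i, u, hu, e⟩ := hdec y hy0'
    obtain ⟨i', u', hu', e'⟩ := hdec y' hy'
    have h1 : x ∈ O ↔ i' ≤ i :=
      uz3_mem_iff (uz3_j B n) hj O _ hF1 hF2 P _ hα hPO x y y' u u' i i' hy' hxy hu hu' e e'
    have h2 : x ∈ O' ↔ i' ≤ i :=
      uz3_mem_iff (uz3_j B n) hj O' _ hF1' hF2' P _ hα hPO' x y y' u u' i i' hy' hxy hu hu' e e'
    rw [h1, h2]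

end UZ

/-! ## 5. The theorem -/

section Main

variable {R K F : Type*} [CommRing R] [IsDomain R] [IsDiscreteValuationRing R] [Field K]
  [Field F] [Algebra R K] [IsFractionRing R K] [Algebra R F] [Algebra K F] [IsScalarTower R K F]

omit [IsDomain R] [IsDiscreteValuationRing R] in
/-- a chart with fraction field `F` which is integrally closed in `F` is an integrally closed
domain. -/
theorem uz3_isIntegrallyClosed (B : Subalgebra R F)
    (hfrac : ∀ x : F, ∃ a ∈ B, ∃ b ∈ B, b ≠ 0 ∧ x * b = a)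
    (hint : ∀ x : F, IsIntegral B x → x ∈ B) : IsIntegrallyClosed B := by
  have hfs : FaithfulSMul B F :=
    (faithfulSMul_iff_algebraMap_injective B F).mpr Subtype.val_injective
  have hFr : IsFractionRing B F := by
    refine IsFractionRing.of_field B F ?_
    intro x
    obtain ⟨a, ha, b, hb, hb0, hx⟩ := hfrac x
    refine ⟨⟨a, ha⟩, ⟨b, hb⟩, ?_⟩
    show x = a / b
    rw [eq_div_iff hb0]
    exact hx
  rw [isIntegrallyClosed_iff F]
  intro x hx
  exact ⟨⟨x, hint x hx⟩, rfl⟩

/-- **(UZ) from the weak local structure (LS′).**  For a noetherian chart `B` with fraction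
field `F`, integrally closed in `F`, the weak local structure `s34i47d_LocStrW π B P₁ P₂`
(no exact node equation) implies the unique-zero property `s34i47_UniqueZero K π B`. -/
theorem s34f3_uz_of_LSW (π : R) (hπ : Irreducible π) (B : Subalgebra R F)
    (hB : IsNoetherianRing B) (hfrac : ∀ x : F, ∃ a ∈ B, ∃ b ∈ B, b ≠ 0 ∧ x * b = a)
    (hint : ∀ x : F, IsIntegral B x → x ∈ B)
    (P₁ P₂ : Ideal B) (hP₁ : P₁.IsPrime) (hP₂ : P₂.IsPrime)
    (hπ₁ : algebraMap R B π ∈ P₁) (hπ₂ : algebraMap R B π ∈ P₂)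
    (hLS : s34i47d_LocStrW π B P₁ P₂) : s34i47_UniqueZero K π B := by
  intro n hn hπn O hO hthr hrat
  have hnp : n.IsPrime := hn.isPrime
  have hic : IsIntegrallyClosed B := uz3_isIntegrallyClosed B hfrac hint
  obtain ⟨ρ, -, hker, hρn⟩ := pi72_through_rho (K := K) hπ B n hn.ne_top hπn O hO hthr hrat
  obtain ⟨z, z', hz, hz', hgen, hcase⟩ := hLS n hn hπn
  refine uz3_of_LE π hπ B hfrac n O hO hthr ρ hker hρn ?_
  rcases hcase with rfl | ⟨h₁n, h₂n, hz₁, hz₂, hz'₂, hz'₁, c, hc⟩
  · exact uz3_LE_smooth B n ρ hρn π hπ z hz hπn hgen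
  · exact uz3_LE_node B n ρ hρn π hπ P₁ P₂ hπ₁ hπ₂ h₁n h₂n z z' hz hz' hπn hgen hz₁ hz₂ hz'₂
      hz'₁ c hc

end Main

end Fermat.Agent.S34
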