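import Mathlib
import Fermat.Agent.S34.PkgUZ3
import Fermat.Agent.S34.CoreAsmUZ57

/-!
# S34 lab (helper3): FRAME-UZ from FRAME-SAT + FRAME-LS′ (route without exact node equations)

* `uz3_chart_closed` : the charts `pk15_chart R s` are integrally closed in `F`.
* `s34f3_frameUZ` / `s34f3_pkg_frameUZ` : `s34i47c_Pkg_FrameSat → s34i47d_Pkg_FrameLSW →
  cau57_Pkg_FrameUZ` — the unique-zero property (UZ) of the two affine charts of every admissible
  Hauptmodul from the WEAK local structure (LS′) of `Iface47d` (P3 (3a) + (3b) only: no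
  `U V = q^12`, no node-loop termination, no "cusps are not nodes"), via `s34f3_uz_of_LSW`.
* `s34f3_assembly` : the packages (LP), (KR), (LD), FrameSat, FrameGal, FrameLS′, Fin, FieldDef
  give `lc52_U p q N` (= `hU` of `s34e60_main`), through `cau57_assembly` (helper57).
-/

set_option autoImplicit false

open ModularCurve AlgebraicCurve

namespace Fermat.Agent.S34

open Fermat.Agent.S18

/-- The charts are integrally closed in `F`. -/
theorem uz3_chart_closed {R : Type*} [CommRing R] {F : Type*} [Field F] [Algebra R F]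
    (s : Set F) (x : F) (hx : IsIntegral (pk15_chart R s) x) : x ∈ pk15_chart R s := by
  rw [pk15_mem_chart]
  have h1 : IsIntegral (integralClosure (Algebra.adjoin R s) F) x := hx
  exact isIntegral_trans x h1

/-- **FRAME-UZ from FRAME-SAT and FRAME-LS′** at level `M' * q`. -/
theorem s34f3_frameUZ (M' q : ℕ) [NeZero M'] [NeZero q] (hq : q.Prime) (hM' : ¬ q ∣ M')
    (hSat : s34i47c_FrameSat M' q hq hM') (hLSW : s34i47d_FrameLSW M' q) :
    cau57_FrameUZ M' q := by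
  intro R K _ _ _ _ _ _ _ _ _ _ π hπ hunit hqR h hh
  obtain ⟨-, hN₁, hN₂, hfrac₁, hfrac₂⟩ :=
    cau57_chart_facts M' q hq hM' hSat R K π hπ hunit hqR h hh
  obtain ⟨⟨P₁, P₂, hP₁, hP₂, hπ₁, hπ₂, hLS₁⟩, ⟨Q₁, Q₂, hQ₁, hQ₂, hπQ₁, hπQ₂, hLS₂⟩⟩ :=
    hLSW R K π hπ hunit hqR h hh
  exact ⟨s34f3_uz_of_LSW π hπ _ hN₁ hfrac₁ (uz3_chart_closed _) P₁ P₂ hP₁ hP₂ hπ₁ hπ₂ hLS₁,
    s34f3_uz_of_LSW π hπ _ hN₂ hfrac₂ (uz3_chart_closed _) Q₁ Q₂ hQ₁ hQ₂ hπQ₁ hπQ₂ hLS₂⟩

/-- **Package: FRAME-SAT + FRAME-LS′ ⟹ FRAME-UZ.** -/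
theorem s34f3_pkg_frameUZ (hSat : s34i47c_Pkg_FrameSat) (hLSW : s34i47d_Pkg_FrameLSW) :
    cau57_Pkg_FrameUZ := by
  intro M' q _ _ hq hM'
  exact s34f3_frameUZ M' q hq hM' (hSat M' q hq hM') (hLSW M' q hq hM')

/-- **ASSEMBLY over the weak local structure**: `(U)` at every level `N` with `q ∥ N`, `p ≠ q`,
in the literal shape of the hypothesis `hU` of `s34e60_main`, from (LP), (KR), (LD), FrameSat,
FrameGal, FrameLS′ (no exact node equation), Fin and the field of definition. -/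
theorem s34f3_assembly (hLP : s34i47_Pkg_LP) (hKr : s34i47_Pkg_Krull) (hLD : s34i47_Pkg_LD)
    (hSat : s34i47c_Pkg_FrameSat) (hGal : s34i47c_Pkg_FrameGal)
    (hLSW : s34i47d_Pkg_FrameLSW) (hFin : s34i47_Pkg_Fin) (hFD : s34i47_Pkg_FieldDef)
    {p q N : ℕ} [NeZero N] (hp : p.Prime) (hq : q.Prime) (hqp : q ≠ p) (hqN : q ∣ N)
    (hq2 : ¬ q ^ 2 ∣ N) : lc52_U p q N :=
  cau57_assembly hLP hKr hLD hSat hGal (s34f3_pkg_frameUZ hSat hLSW) hFin hFD hp hq hqp hqN hq2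

end Fermat.Agent.S34
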