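import Fermat.Agent.S37.GaussA41
import Fermat.Agent.S37.KroneckerFrob50

/-!
# S34 lab, row P3b-insep (helper50): the Frobenius congruence for the Gauss rings

`A` a valuation subring of a field `L` whose residue field `κ` is perfect of characteristic `q`,
`N` a level with `(N : κ) ≠ 0`.  The Gauss ring of `F(N)_L = L(j(Q^d) : d ∣ N) ⊆ L((Q))` consists of
the `f` with `s * f = t` for two `A`-integral series `s`, `t`, `red s ≠ 0`; its reduction is
`red t / red s ∈ κ((Q))`.

* `ins50_pow_comb`, `ins50_pow_aeval` : `q`-th powers of the normal-form numerators and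
  denominators over `κ` are their Frobenius twists evaluated at `Q^q`.
* `ins50_frob` : **for every `f` in the Gauss ring of `F(N)_L` there is `f₁` in the Gauss ring of
  `F(N)_L` with `red(f₁)^q = red(f)(Q^q)`** (cross-multiplied form).
* `ins50_frob_cong` : hence `f(Q^q) - f₁^q` lies in the maximal ideal of the Gauss ring of `L((Q))`:
  `S * (f(Q^q) - f₁^q) = T` with `red S ≠ 0`, `red T = 0`.
* `ins50_node_sum` : the abstract Nakayama step of (3b): in a noetherian local ring with maximal
  ideal `n`, ideals `P, Q ≤ n`, `n ≤ (z) + P` and `z ∈ n² + Q` imply `n = P + Q`.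
-/

set_option autoImplicit false
set_option linter.unusedSectionVars false
set_option linter.style.haveILetI false

open ModularCurve IntermediateField

namespace Fermat.Agent.S34

open Fermat.Agent.S18 Fermat.Agent.S28 Fermat.Agent.S37

section Frob

variable {κ : Type} [Field κ] (N q : ℕ) [NeZero q]

/-- Every polynomial over a field with surjective Frobenius is a Frobenius twist. -/
theorem ins50_exists_untwist [ExpChar κ q] (hperf : ∀ c : κ, ∃ d : κ, d ^ q = c)
    (P : Polynomial κ) : ∃ P₁ : Polynomial κ, P₁.map (frobenius κ q) = P := by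
  have hsurj : Function.Surjective (frobenius κ q) := by
    intro c
    obtain ⟨d, hd⟩ := hperf c
    exact ⟨d, by rw [frobenius_def]; exact hd⟩
  exact Polynomial.map_surjective _ hsurj P

/-- `q`-th powers of `κ[j]`-combinations of the integral basis expressions. -/
theorem ins50_pow_comb [ExpChar κ q] {n : ℕ} (b : Fin n → MvPolynomial N.divisors ℤ)
    (p : Fin n → Polynomial κ) :
    (ga41_comb N κ b p) ^ q =
      qExpand κ q (ga41_comb N κ b (fun i => (p i).map (frobenius κ q))) := by
  rw [kr50_pow_char q, ga41_coeffMap_comb]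

/-- `q`-th powers of polynomials in `j` over `κ`. -/
theorem ins50_pow_aeval [ExpChar κ q] (p : Polynomial κ) :
    (Polynomial.aeval (jqModC κ) p) ^ q =
      qExpand κ q (Polynomial.aeval (jqModC κ) (p.map (frobenius κ q))) := by
  rw [kr50_pow_char q, rm90_coeffMap_aeval]

end Frob

section Main

variable {L : Type} [Field L] (A : ValuationSubring L) (N q : ℕ) [NeZero N] [NeZero q]

/-- **Frobenius congruence for the Gauss ring, reduction form.**  For `f` in the Gauss ring of
`F(N)_L` (witnessed by `s * f = t`, `red s ≠ 0`) there is `f₁` in the Gauss ring of `F(N)_L`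
(witnessed by `s₁ * f₁ = t₁`, `red s₁ ≠ 0`) with `red(f₁)^q = red(f)(Q^q)`, i.e.
`(red t₁)^q * (red s)(Q^q) = (red t)(Q^q) * (red s₁)^q`. -/
theorem ins50_frob (hq : q.Prime) (hchar : (q : IsLocalRing.ResidueField A) = 0)
    (hperf : ∀ c : IsLocalRing.ResidueField A, ∃ d : IsLocalRing.ResidueField A, d ^ q = c)
    (hN : (N : IsLocalRing.ResidueField A) ≠ 0)
    (f : LaurentSeries L) (hf : f ∈ modularFunctionFieldFullC L N)
    (s t : LaurentSeries A) (hs : coeffMap (IsLocalRing.residue A) s ≠ 0)
    (hst : coeffMap A.subtype s * f = coeffMap A.subtype t) :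
    ∃ (f₁ : LaurentSeries L) (s₁ t₁ : LaurentSeries A),
      f₁ ∈ modularFunctionFieldFullC L N ∧
      coeffMap (IsLocalRing.residue A) s₁ ≠ 0 ∧
      coeffMap A.subtype s₁ * f₁ = coeffMap A.subtype t₁ ∧
      (coeffMap (IsLocalRing.residue A) t₁) ^ q *
          qExpand (IsLocalRing.ResidueField A) q (coeffMap (IsLocalRing.residue A) s) =
        qExpand (IsLocalRing.ResidueField A) q (coeffMap (IsLocalRing.residue A) t) *
          (coeffMap (IsLocalRing.residue A) s₁) ^ q := by
  classical
  haveI hcharP : CharP (IsLocalRing.ResidueField A) q :=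
    (CharP.charP_iff_prime_eq_zero hq).mpr hchar
  haveI hprime : Fact q.Prime := ⟨hq⟩
  haveI hexp : ExpChar (IsLocalRing.ResidueField A) q := ExpChar.prime hq
  obtain ⟨b, hb⟩ := vs_exists_independent (IsLocalRing.ResidueField A) N hN
  obtain ⟨p0, p, hp0, hsp⟩ := ga41_span A N b hb f hf
  obtain ⟨c, P', hc, hP', i₁, hi₁⟩ := ga41_scale A
    (fun o : Option (Fin (dedekindPsi N)) => o.elim p0 p) ⟨none, hp0⟩
  have hp0' : p0 = Polynomial.C c * (P' none).map A.subtype := hP' none
  have hp' : p = fun i => Polynomial.C c * (P' (some i)).map A.subtype :=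
    funext fun i => hP' (some i)
  have hcL : algebraMap L (LaurentSeries L) c ≠ 0 := by
    rw [algebraMap_laurentSeries_eq_single]
    exact HahnSeries.single_ne_zero hc
  -- the normal form over `L`
  have h1 : Polynomial.aeval (jqModC L) ((P' none).map A.subtype) * f =
      ga41_comb N L b (fun i => (P' (some i)).map A.subtype) := by
    rw [hp0', hp', ga41_comb_C_mul, map_mul, Polynomial.aeval_C, mul_assoc] at hsp
    exact mul_left_cancel₀ hcL hsp
  -- the normal form over `A`, multiplied by the denominator `s`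
  have h2 : Polynomial.aeval (jqModC A) (P' none) * t =
      s * ga41_comb N A b (fun i => P' (some i)) := by
    apply rm90_coeffMap_injective A.subtype Subtype.val_injective
    rw [map_mul, map_mul, rm90_coeffMap_aeval, ga41_coeffMap_comb, ← hst, ← h1]
    ring
  -- its reduction
  have h3 : Polynomial.aeval (jqModC (IsLocalRing.ResidueField A))
        ((P' none).map (IsLocalRing.residue A)) * coeffMap (IsLocalRing.residue A) t =
      coeffMap (IsLocalRing.residue A) s *
        ga41_comb N (IsLocalRing.ResidueField A) b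
          (fun i => (P' (some i)).map (IsLocalRing.residue A)) := by
    have h := congrArg (coeffMap (IsLocalRing.residue A)) h2
    rwa [map_mul, map_mul, rm90_coeffMap_aeval, ga41_coeffMap_comb] at h
  -- the denominator of the normal form has nonzero reduction
  have hs'0 : (P' none).map (IsLocalRing.residue A) ≠ 0 := by
    intro h0
    rw [h0, map_zero, zero_mul] at h3
    have hcomb : ga41_comb N (IsLocalRing.ResidueField A) b
        (fun i => (P' (some i)).map (IsLocalRing.residue A)) = 0 :=
      (mul_eq_zero.mp h3.symm).resolve_left hs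
    have hall := ga41_indep_res N b hb _ hcomb
    cases i₁ with
    | none => exact hi₁ h0
    | some i => exact hi₁ (hall i)
  -- Frobenius untwisting of the coefficients
  have hunt : ∀ o : Option (Fin (dedekindPsi N)), ∃ P₁ : Polynomial A,
      ((P₁.map (IsLocalRing.residue A)).map (frobenius (IsLocalRing.ResidueField A) q)) =
        (P' o).map (IsLocalRing.residue A) := by
    intro o
    obtain ⟨Q₁, hQ₁⟩ := ins50_exists_untwist q hperf ((P' o).map (IsLocalRing.residue A))
    obtain ⟨P₁, hP₁⟩ := Polynomial.map_surjective (IsLocalRing.residue A)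
      IsLocalRing.residue_surjective Q₁
    exact ⟨P₁, by rw [hP₁, hQ₁]⟩
  choose P₁ hP₁ using hunt
  set s₁ : LaurentSeries A := Polynomial.aeval (jqModC A) (P₁ none) with hs₁
  set t₁ : LaurentSeries A := ga41_comb N A b (fun i => P₁ (some i)) with ht₁
  have hs₁red : coeffMap (IsLocalRing.residue A) s₁ =
      Polynomial.aeval (jqModC (IsLocalRing.ResidueField A))
        ((P₁ none).map (IsLocalRing.residue A)) := by
    rw [hs₁, rm90_coeffMap_aeval]
  have ht₁red : coeffMap (IsLocalRing.residue A) t₁ =
      ga41_comb N (IsLocalRing.ResidueField A) b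
        (fun i => (P₁ (some i)).map (IsLocalRing.residue A)) := by
    rw [ht₁, ga41_coeffMap_comb]
  have hP₁0 : (P₁ none).map (IsLocalRing.residue A) ≠ 0 := by
    intro h0
    apply hs'0
    rw [← hP₁ none, h0, Polynomial.map_zero]
  have hs₁0 : coeffMap (IsLocalRing.residue A) s₁ ≠ 0 := by
    rw [hs₁red]
    exact fun h => hP₁0
      (transcendental_iff.mp (rm90_transcendental (IsLocalRing.ResidueField A)) _ h)
  have hs₁L : coeffMap A.subtype s₁ ≠ 0 := by
    intro h0
    apply hs₁0
    have : s₁ = 0 := rm90_coeffMap_injective A.subtype Subtype.val_injective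
      (by rw [h0, map_zero])
    rw [this, map_zero]
  refine ⟨coeffMap A.subtype t₁ / coeffMap A.subtype s₁, s₁, t₁, ?_, hs₁0, ?_, ?_⟩
  · rw [ht₁, hs₁, ga41_coeffMap_comb, rm90_coeffMap_aeval]
    exact div_mem (ga41_comb_mem N L b _) (rm90_aeval_mem N L _)
  · rw [mul_div_cancel₀ _ hs₁L]
  · -- the Frobenius identity
    have e1 : (coeffMap (IsLocalRing.residue A) t₁) ^ q =
        qExpand (IsLocalRing.ResidueField A) q
          (ga41_comb N (IsLocalRing.ResidueField A) b
            (fun i => (P' (some i)).map (IsLocalRing.residue A))) := by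
      rw [ht₁red, ins50_pow_comb]
      congr 2
      funext i
      exact hP₁ (some i)
    have e2 : (coeffMap (IsLocalRing.residue A) s₁) ^ q =
        qExpand (IsLocalRing.ResidueField A) q
          (Polynomial.aeval (jqModC (IsLocalRing.ResidueField A))
            ((P' none).map (IsLocalRing.residue A))) := by
      rw [hs₁red, ins50_pow_aeval, hP₁ none]
    rw [e1, e2, ← map_mul, ← map_mul, mul_comm, ← h3, mul_comm]

/-- **Frobenius congruence for the Gauss ring, congruence form.**  For `f` in the Gauss ring of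
`F(N)_L` there is `f₁` in the Gauss ring of `F(N)_L` such that `f(Q^q) - f₁^q` lies in the maximal
ideal of the Gauss ring: `S * (f(Q^q) - f₁^q) = T` with `A`-integral `S`, `T`, `red S ≠ 0`,
`red T = 0`. -/
theorem ins50_frob_cong (hq : q.Prime) (hchar : (q : IsLocalRing.ResidueField A) = 0)
    (hperf : ∀ c : IsLocalRing.ResidueField A, ∃ d : IsLocalRing.ResidueField A, d ^ q = c)
    (hN : (N : IsLocalRing.ResidueField A) ≠ 0)
    (f : LaurentSeries L) (hf : f ∈ modularFunctionFieldFullC L N)
    (s t : LaurentSeries A) (hs : coeffMap (IsLocalRing.residue A) s ≠ 0)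
    (hst : coeffMap A.subtype s * f = coeffMap A.subtype t) :
    ∃ (f₁ : LaurentSeries L) (s₁ t₁ : LaurentSeries A),
      f₁ ∈ modularFunctionFieldFullC L N ∧
      coeffMap (IsLocalRing.residue A) s₁ ≠ 0 ∧
      coeffMap A.subtype s₁ * f₁ = coeffMap A.subtype t₁ ∧
      ∃ S T : LaurentSeries A, coeffMap (IsLocalRing.residue A) S ≠ 0 ∧
        coeffMap (IsLocalRing.residue A) T = 0 ∧
        coeffMap A.subtype S * (qExpand L q f - f₁ ^ q) = coeffMap A.subtype T := by
  obtain ⟨f₁, s₁, t₁, hf₁, hs₁, hst₁, hid⟩ := ins50_frob A N q hq hchar hperf hN f hf s t hs hst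
  refine ⟨f₁, s₁, t₁, hf₁, hs₁, hst₁, s₁ ^ q * qExpand A q s,
    s₁ ^ q * qExpand A q t - qExpand A q s * t₁ ^ q, ?_, ?_, ?_⟩
  · rw [map_mul, map_pow, kr50_coeffMap_qExpand]
    refine mul_ne_zero (pow_ne_zero _ hs₁) ?_
    intro h0
    exact hs (qExpand_injective (R := IsLocalRing.ResidueField A) q (by rw [h0, map_zero]))
  · rw [map_sub, map_mul, map_mul, map_pow, map_pow, kr50_coeffMap_qExpand,
      kr50_coeffMap_qExpand, sub_eq_zero]
    rw [mul_comm, ← hid, mul_comm]
  · have hE : qExpand L q (coeffMap A.subtype t) =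
        qExpand L q (coeffMap A.subtype s) * qExpand L q f := by
      rw [← map_mul, hst]
    simp only [map_sub, map_mul, map_pow, kr50_coeffMap_qExpand]
    rw [hE, ← hst₁, mul_pow]
    ring

end Main

section Nakayama

open IsLocalRing

/-- **Step (3b), abstract (one relation).**  In a noetherian local ring with two ideals `P`, `Q`
inside the maximal ideal `n`: if `z` generates `n` modulo `P` and `z ∈ n² + Q`, then `n = P + Q`. -/
theorem ins50_node_sum {B : Type*} [CommRing B] [IsLocalRing B] [IsNoetherianRing B]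
    (P Q : Ideal B) (hP : P ≤ maximalIdeal B) (hQ : Q ≤ maximalIdeal B) (z : B)
    (hz : maximalIdeal B ≤ Ideal.span {z} ⊔ P)
    (hzQ : z ∈ maximalIdeal B ^ 2 ⊔ Q) :
    maximalIdeal B = P ⊔ Q := by
  apply le_antisymm _ (sup_le hP hQ)
  have hfg : (maximalIdeal B).FG := IsNoetherian.noetherian _
  have hjac : maximalIdeal B ≤ Ideal.jacobson ⊥ := by
    rw [IsLocalRing.jacobson_eq_maximalIdeal ⊥ bot_ne_top]
  refine Submodule.le_of_le_smul_of_le_jacobson_bot hfg hjac ?_
  refine hz.trans (sup_le ?_ (le_sup_left.trans le_sup_left))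
  rw [Ideal.span_singleton_le_iff_mem]
  have h2 : maximalIdeal B ^ 2 ⊔ Q ≤ P ⊔ Q ⊔ maximalIdeal B • maximalIdeal B := by
    refine sup_le ?_ (le_sup_right.trans le_sup_left)
    rw [pow_two, smul_eq_mul]
    exact le_sup_right
  exact h2 hzQ

end Nakayama

end Fermat.Agent.S34
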