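import Fermat.Agent.S37.GaussA41
import Fermat.Agent.S37.FrobL66
import Fermat.Agent.S18.GaussVal85

/-!
# S34 lab, row P3b-insep (helper66, twin): pure inseparability of `β^*` on the `∞`-branch

`R` a valuation ring with fraction field `K`, `res : R →+* κ` a surjective ring hom onto a
perfect field of characteristic `q`, `N` a level with `(N : κ) ≠ 0`.  `F = F(N)_K ⊆ K((Q))`,
Gauss ring `V' = {f | ∃ s t ∈ R((Q)), res s ≠ 0, s f = t}` (`gv85_V`).

* `fi66_normal_form` : every `f ∈ V'` is `comb(b, P) / P₀(j)` with `P₀, P` over `R`, `res P₀ ≠ 0`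
  (`b` a family of integral polynomial expressions in the `j(Q^d)` independent over `κ(j)`).
* `fi66_frob` : **(F)** for every `f ∈ V'` there is `f₁ ∈ V'` with
  `red(f₁)^q = red(f)(Q^q)` (series form: `t̄₁^q · s̄(Q^q) = t̄(Q^q) · s̄₁^q`).
* `fi66_frob_max` : hence `f(Q^q) - f₁^q` is killed by reduction:
  `S · (f(Q^q) - f₁^q) = T` with `res S ≠ 0`, `res T = 0`.
* `fi66_frob_V` : the same in terms of the Gauss valuation subrings `gv85_V` of level `N` and
  `N * q`: `β f - (α f₁)^q ∈ m_{V_∞}` (`α` = inclusion, `β` = `Q ↦ Q^q`).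

No discreteness and no hypothesis on the kernel of `res` is used.
-/

set_option autoImplicit false

open ModularCurve IntermediateField

namespace Fermat.Agent.S34

open Fermat.Agent.S18 Fermat.Agent.S28 Fermat.Agent.S37

section fi66_generic

variable {R K κ : Type} [CommRing R] [IsDomain R] [ValuationRing R] [Field K] [Algebra R K]
  [IsFractionRing R K] [Field κ] (res : R →+* κ)

/-- Scaling a finite family of polynomials over the fraction field of a valuation ring: a nonzero
family is `c` times a family over `R` one of whose members has nonzero reduction. -/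
theorem fi66_scale {ι : Type*} [Fintype ι] (p : ι → Polynomial K) (hp : ∃ i, p i ≠ 0) :
    ∃ (c : K) (p' : ι → Polynomial R), c ≠ 0 ∧
      (∀ i, p i = Polynomial.C c * (p' i).map (algebraMap R K)) ∧
      ∃ i, (p' i).map res ≠ 0 := by
  classical
  obtain ⟨i₀, hi₀⟩ := hp
  set v := ValuationRing.valuation R K with hv
  set T : Finset (Σ _ : ι, ℕ) := Finset.univ.sigma (fun i => (p i).support) with hT
  have hTne : T.Nonempty := by
    obtain ⟨m, hm⟩ := Polynomial.support_nonempty.mpr hi₀
    exact ⟨⟨i₀, m⟩, Finset.mem_sigma.mpr ⟨Finset.mem_univ _, hm⟩⟩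
  obtain ⟨x₀, hx₀T, hx₀⟩ :=
    Finset.exists_max_image T (fun x => v ((p x.1).coeff x.2)) hTne
  set c := (p x₀.1).coeff x₀.2 with hc
  have hc0 : c ≠ 0 := Polynomial.mem_support_iff.mp (Finset.mem_sigma.mp hx₀T).2
  have hvc : 0 < v c := zero_lt_iff.mpr ((Valuation.ne_zero_iff _).mpr hc0)
  have hmem : ∀ i m, ∃ r : R, algebraMap R K r = (p i).coeff m / c := by
    intro i m
    rw [← ValuationRing.mem_integer_iff, Valuation.mem_integer_iff]
    by_cases h0 : (p i).coeff m = 0
    · rw [h0, zero_div, map_zero]; exact zero_le_one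
    · have hx : (⟨i, m⟩ : Σ _ : ι, ℕ) ∈ T :=
        Finset.mem_sigma.mpr ⟨Finset.mem_univ _, Polynomial.mem_support_iff.mpr h0⟩
      have hle := hx₀ ⟨i, m⟩ hx
      rw [map_div₀]
      exact (div_le_one₀ hvc).mpr hle
  have hlift : ∀ i, Polynomial.C c⁻¹ * p i ∈ Polynomial.lifts (algebraMap R K) := by
    intro i
    rw [Polynomial.lifts_iff_coeff_lifts]
    intro m
    rw [Polynomial.coeff_C_mul]
    obtain ⟨r, hr⟩ := hmem i m
    exact ⟨r, by rw [hr, div_eq_inv_mul]⟩
  choose p' hp' using fun i => (Polynomial.mem_lifts _).mp (hlift i)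
  refine ⟨c, p', hc0, fun i => ?_, x₀.1, ?_⟩
  · rw [hp' i, ← mul_assoc, ← Polynomial.C_mul, mul_inv_cancel₀ hc0, Polynomial.C_1, one_mul]
  · intro h0
    have h1 := congrArg (fun q => q.coeff x₀.2) h0
    simp only [Polynomial.coeff_map, Polynomial.coeff_zero] at h1
    have h2 : algebraMap R K ((p' x₀.1).coeff x₀.2) = 1 := by
      have h := congrArg (fun q => q.coeff x₀.2) (hp' x₀.1)
      simp only [Polynomial.coeff_map, Polynomial.coeff_C_mul] at h
      rw [h, inv_mul_cancel₀ hc0]
    have h3 : (p' x₀.1).coeff x₀.2 = 1 :=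
      IsFractionRing.injective R K (by rw [h2, map_one])
    rw [h3, map_one] at h1
    exact one_ne_zero h1


variable (N : ℕ) [NeZero N]

omit [NeZero N] in
include res in
/-- **Independence over `K(j)`** (polynomial form) of a family that is independent over
`κ(j)`. -/
theorem fi66_indep {n : ℕ} (b : Fin n → MvPolynomial N.divisors ℤ)
    (hb : LinearIndependent (IntermediateField.adjoin κ {jqModC κ})
      (fun i => MvPolynomial.eval₂ (Int.castRingHom (LaurentSeries κ))
        (fun d : N.divisors => JdC κ d.1) (b i)))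
    (p : Fin n → Polynomial K) (hp : ga41_comb N K b p = 0) : ∀ i, p i = 0 := by
  by_contra hcon
  push Not at hcon
  obtain ⟨c, p', hc, hpp', i₁, hi₁⟩ := fi66_scale res p hcon
  have e : p = fun i => Polynomial.C c * (p' i).map (algebraMap R K) := funext hpp'
  rw [e, ga41_comb_C_mul] at hp
  have hcL : algebraMap K (LaurentSeries K) c ≠ 0 := by
    rw [algebraMap_laurentSeries_eq_single]
    exact HahnSeries.single_ne_zero hc
  have h1 : ga41_comb N K b (fun i => (p' i).map (algebraMap R K)) = 0 :=
    (mul_eq_zero.mp hp).resolve_left hcL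
  rw [← ga41_coeffMap_comb N (algebraMap R K) b p'] at h1
  have h2 : ga41_comb N R b p' = 0 :=
    rm90_coeffMap_injective (algebraMap R K) (IsFractionRing.injective R K)
      (by rw [h1, map_zero])
  have h3 : ga41_comb N κ b (fun i => (p' i).map res) = 0 := by
    rw [← ga41_coeffMap_comb N res b p', h2, map_zero]
  exact hi₁ (ga41_indep_res N b hb _ h3 i₁)

include res in
/-- **Spanning over `K(j)`** (polynomial form): `ψ(N)` expressions independent over `κ(j)` span
`F_K` over `K(j)`. -/
theorem fi66_span (b : Fin (dedekindPsi N) → MvPolynomial N.divisors ℤ)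
    (hb : LinearIndependent (IntermediateField.adjoin κ {jqModC κ})
      (fun i => MvPolynomial.eval₂ (Int.castRingHom (LaurentSeries κ))
        (fun d : N.divisors => JdC κ d.1) (b i)))
    (f : LaurentSeries K) (hf : f ∈ modularFunctionFieldFullC K N) :
    ∃ (s : Polynomial K) (p : Fin (dedekindPsi N) → Polynomial K), s ≠ 0 ∧
      Polynomial.aeval (jqModC K) s * f = ga41_comb N K b p := by
  classical
  set c' : Fin (dedekindPsi N + 1) → LaurentSeries K :=
    Fin.cons f (fun i => MvPolynomial.eval₂ (Int.castRingHom (LaurentSeries K))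
      (fun d : N.divisors => JdC K d.1) (b i)) with hc'
  have hc'mem : ∀ i, c' i ∈ modularFunctionFieldFullC K N := by
    intro i
    refine Fin.cases ?_ (fun i => ?_) i
    · exact hf
    · show MvPolynomial.eval₂ (Int.castRingHom (LaurentSeries K))
        (fun d : N.divisors => JdC K d.1) (b i) ∈ modularFunctionFieldFullC K N
      rw [← rm90_coe_bF]
      exact (rm90_bF K N (b i)).2
  have hnot : ¬ LinearIndependent (IntermediateField.adjoin K {jqModC K}) c' := by
    intro hli
    have := vs_card_le N K _ c' hc'mem hli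
    omega
  obtain ⟨g, hg, i₁, hi₁⟩ := Fintype.not_linearIndependent_iff.mp hnot
  obtain ⟨S, G, hS, hG⟩ := ga41_clear (jqModC K) g
  have hrel : ∑ i, Polynomial.aeval (jqModC K) (G i) * c' i = 0 := by
    have h1 : ∑ i, Polynomial.aeval (jqModC K) (G i) * c' i =
        Polynomial.aeval (jqModC K) S * ∑ i, g i • c' i := by
      rw [Finset.mul_sum]
      refine Finset.sum_congr rfl fun i _ => ?_
      rw [← hG i, IntermediateField.smul_def, smul_eq_mul]
      ring
    rw [h1, hg, mul_zero]
  rw [Fin.sum_univ_succ] at hrel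
  have hG0 : G 0 ≠ 0 := by
    intro h0
    rw [h0, map_zero, zero_mul, zero_add] at hrel
    have hall : ∀ i : Fin (dedekindPsi N), G i.succ = 0 :=
      fi66_indep res N b hb (fun i => G i.succ) hrel
    have hGi : G i₁ = 0 := by
      refine Fin.cases ?_ (fun i => ?_) i₁
      · exact h0
      · exact hall i
    have h2 := hG i₁
    rw [hGi, map_zero] at h2
    rcases mul_eq_zero.mp h2 with h3 | h3
    · exact hi₁ (Subtype.ext h3)
    · exact hS h3
  refine ⟨G 0, fun i => -G i.succ, hG0, ?_⟩
  have h3 : ga41_comb N K b (fun i => -G i.succ) =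
      -∑ i : Fin (dedekindPsi N), Polynomial.aeval (jqModC K) (G i.succ) * c' i.succ := by
    unfold ga41_comb
    rw [← Finset.sum_neg_distrib]
    refine Finset.sum_congr rfl fun i _ => ?_
    rw [map_neg, neg_mul]
    rfl
  rw [h3]
  have h4 : c' 0 = f := rfl
  rw [h4] at hrel
  exact eq_neg_of_add_eq_zero_left hrel

/-- **Normal form** of an element of the Gauss ring: `P₀(j) · f = comb(b, P)` with `P₀, P` over
`R` and `res P₀ ≠ 0`; in series form `P₀(j) · t = s · comb(b, P)` over `R`. -/
theorem fi66_normal_form (hN : (N : κ) ≠ 0) (f : LaurentSeries K)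
    (hf : f ∈ modularFunctionFieldFullC K N) (s t : LaurentSeries R)
    (hs : coeffMap res s ≠ 0)
    (hst : coeffMap (algebraMap R K) s * f = coeffMap (algebraMap R K) t) :
    ∃ (b : Fin (dedekindPsi N) → MvPolynomial N.divisors ℤ) (P₀ : Polynomial R)
      (P : Fin (dedekindPsi N) → Polynomial R), P₀.map res ≠ 0 ∧
      Polynomial.aeval (jqModC R) P₀ * t = s * ga41_comb N R b P := by
  obtain ⟨b, hb⟩ := vs_exists_independent κ N hN
  obtain ⟨S, p, hS, hSp⟩ := fi66_span res N b hb f hf
  obtain ⟨c, P', hc, hP', i₁, hi₁⟩ := fi66_scale res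
    (fun o : Option (Fin (dedekindPsi N)) => o.elim S p) ⟨none, hS⟩
  have hS' : S = Polynomial.C c * (P' none).map (algebraMap R K) := hP' none
  have hp' : p = fun i => Polynomial.C c * (P' (some i)).map (algebraMap R K) :=
    funext fun i => hP' (some i)
  have hcL : algebraMap K (LaurentSeries K) c ≠ 0 := by
    rw [algebraMap_laurentSeries_eq_single]
    exact HahnSeries.single_ne_zero hc
  have h1 : Polynomial.aeval (jqModC K) ((P' none).map (algebraMap R K)) * f =
      ga41_comb N K b (fun i => (P' (some i)).map (algebraMap R K)) := by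
    rw [hS', hp', ga41_comb_C_mul, map_mul, Polynomial.aeval_C, mul_assoc] at hSp
    exact mul_left_cancel₀ hcL hSp
  have h2 : Polynomial.aeval (jqModC R) (P' none) * t =
      s * ga41_comb N R b (fun i => P' (some i)) := by
    apply rm90_coeffMap_injective (algebraMap R K) (IsFractionRing.injective R K)
    rw [map_mul, map_mul, rm90_coeffMap_aeval, ga41_coeffMap_comb, ← hst, ← h1]
    ring
  refine ⟨b, P' none, fun i => P' (some i), ?_, h2⟩
  intro h0
  have h3 : Polynomial.aeval (jqModC κ) ((P' none).map res) * coeffMap res t =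
      coeffMap res s * ga41_comb N κ b (fun i => (P' (some i)).map res) := by
    have h := congrArg (coeffMap res) h2
    rwa [map_mul, map_mul, rm90_coeffMap_aeval, ga41_coeffMap_comb] at h
  rw [h0, map_zero, zero_mul] at h3
  have h4 : ga41_comb N κ b (fun i => (P' (some i)).map res) = 0 :=
    (mul_eq_zero.mp h3.symm).resolve_left hs
  have hall := ga41_indep_res N b hb _ h4
  cases i₁ with
  | none => exact hi₁ h0
  | some i => exact hi₁ (hall i)


omit [IsDomain R] [ValuationRing R] [IsFractionRing R K] [NeZero N] in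
/-- In characteristic `q`, over a perfect field: the `q`-th power of a combination with
inverse-Frobenius-twisted coefficients is `Q ↦ Q^q` of the combination. -/
theorem fi66_comb_pow (q : ℕ) [NeZero q] [ExpChar κ q] [PerfectRing κ q] {n : ℕ}
    (b : Fin n → MvPolynomial N.divisors ℤ) (P : Fin n → Polynomial κ) :
    ga41_comb N κ b (fun i => (P i).map ((frobeniusEquiv κ q).symm : κ →+* κ)) ^ q =
      qExpand κ q (ga41_comb N κ b P) := by
  rw [fr66_pow_expChar κ q, ga41_coeffMap_comb]
  congr 2
  funext i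
  rw [Polynomial.map_map]
  have : (frobenius κ q).comp ((frobeniusEquiv κ q).symm : κ →+* κ) = RingHom.id κ :=
    RingHom.ext fun x => by simp
  rw [this, Polynomial.map_id]

omit [IsDomain R] [ValuationRing R] [IsFractionRing R K] in
theorem fi66_aeval_pow (q : ℕ) [NeZero q] [ExpChar κ q] [PerfectRing κ q]
    (P : Polynomial κ) :
    Polynomial.aeval (jqModC κ) (P.map ((frobeniusEquiv κ q).symm : κ →+* κ)) ^ q =
      qExpand κ q (Polynomial.aeval (jqModC κ) P) := by
  rw [fr66_pow_expChar κ q, rm90_coeffMap_aeval, Polynomial.map_map]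
  have : (frobenius κ q).comp ((frobeniusEquiv κ q).symm : κ →+* κ) = RingHom.id κ :=
    RingHom.ext fun x => by simp
  rw [this, Polynomial.map_id]

/-- **(F), series form.** `κ` perfect of characteristic `q`, `(N : κ) ≠ 0`, `res` surjective.
For every `f` in the Gauss ring of `F(N)_K` (`s · f = t`, `res s ≠ 0`) there is `f₁` in the
Gauss ring (`s₁ · f₁ = t₁`, `res s₁ ≠ 0`) with `red(f₁)^q = red(f)(Q^q)`, i.e.
`t̄₁^q · s̄(Q^q) = t̄(Q^q) · s̄₁^q`. -/
theorem fi66_frob (hres : Function.Surjective res) (q : ℕ) [NeZero q] [ExpChar κ q]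
    [PerfectRing κ q] (hN : (N : κ) ≠ 0) (f : LaurentSeries K)
    (hf : f ∈ modularFunctionFieldFullC K N) (s t : LaurentSeries R)
    (hs : coeffMap res s ≠ 0)
    (hst : coeffMap (algebraMap R K) s * f = coeffMap (algebraMap R K) t) :
    ∃ (f₁ : LaurentSeries K) (s₁ t₁ : LaurentSeries R),
      f₁ ∈ modularFunctionFieldFullC K N ∧ coeffMap res s₁ ≠ 0 ∧
      coeffMap (algebraMap R K) s₁ * f₁ = coeffMap (algebraMap R K) t₁ ∧
      coeffMap res t₁ ^ q * qExpand κ q (coeffMap res s) =
        qExpand κ q (coeffMap res t) * coeffMap res s₁ ^ q := by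
  obtain ⟨b, P₀, P, hP₀, hnf⟩ := fi66_normal_form res N hN f hf s t hs hst
  -- the reduced normal form
  have hred : Polynomial.aeval (jqModC κ) (P₀.map res) * coeffMap res t =
      coeffMap res s * ga41_comb N κ b (fun i => (P i).map res) := by
    have h := congrArg (coeffMap res) hnf
    rwa [map_mul, map_mul, rm90_coeffMap_aeval, ga41_coeffMap_comb] at h
  -- lifts of the inverse-Frobenius twists
  set φ : κ →+* κ := ((frobeniusEquiv κ q).symm : κ →+* κ) with hφ
  obtain ⟨Q₀, hQ₀⟩ := Polynomial.map_surjective res hres ((P₀.map res).map φ)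
  choose Q hQ using fun i => Polynomial.map_surjective res hres (((P i).map res).map φ)
  have hQ₀res : Q₀.map res ≠ 0 := by
    rw [hQ₀]
    exact (Polynomial.map_ne_zero_iff φ.injective).mpr hP₀
  have hQ₀0 : Q₀ ≠ 0 := fun h => hQ₀res (by rw [h, Polynomial.map_zero])
  have hQ₀K : Q₀.map (algebraMap R K) ≠ 0 :=
    (Polynomial.map_ne_zero_iff (IsFractionRing.injective R K)).mpr hQ₀0
  have hneK : Polynomial.aeval (jqModC K) (Q₀.map (algebraMap R K)) ≠ 0 := fun h =>
    hQ₀K (transcendental_iff.mp (rm90_transcendental K) _ h)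
  have hneκ : Polynomial.aeval (jqModC κ) (Q₀.map res) ≠ 0 := fun h =>
    hQ₀res (transcendental_iff.mp (rm90_transcendental κ) _ h)
  refine ⟨ga41_comb N K b (fun i => (Q i).map (algebraMap R K)) /
      Polynomial.aeval (jqModC K) (Q₀.map (algebraMap R K)),
    Polynomial.aeval (jqModC R) Q₀, ga41_comb N R b Q,
    div_mem (ga41_comb_mem N K b _) (rm90_aeval_mem N K _), ?_, ?_, ?_⟩
  · rw [rm90_coeffMap_aeval]; exact hneκ
  · rw [rm90_coeffMap_aeval, ga41_coeffMap_comb, mul_div_cancel₀ _ hneK]
  · rw [rm90_coeffMap_aeval, ga41_coeffMap_comb, hQ₀]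
    have e : (fun i => (Q i).map res) = fun i => ((P i).map res).map φ := funext hQ
    rw [e, fi66_comb_pow N q b, fi66_aeval_pow q, ← map_mul, ← map_mul, mul_comm, ← hred,
      mul_comm]

/-- **(F), maximal-ideal form**: `f(Q^q) - f₁^q` is killed by the reduction: there are
`S, T ∈ R((Q))` with `res S ≠ 0`, `res T = 0` and `S · (f(Q^q) - f₁^q) = T`. -/
theorem fi66_frob_max (hres : Function.Surjective res) (q : ℕ) [NeZero q] [ExpChar κ q]
    [PerfectRing κ q] (hN : (N : κ) ≠ 0) (f : LaurentSeries K)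
    (hf : f ∈ modularFunctionFieldFullC K N) (s t : LaurentSeries R)
    (hs : coeffMap res s ≠ 0)
    (hst : coeffMap (algebraMap R K) s * f = coeffMap (algebraMap R K) t) :
    ∃ (f₁ : LaurentSeries K) (s₁ t₁ : LaurentSeries R),
      f₁ ∈ modularFunctionFieldFullC K N ∧ coeffMap res s₁ ≠ 0 ∧
      coeffMap (algebraMap R K) s₁ * f₁ = coeffMap (algebraMap R K) t₁ ∧
      ∃ S T : LaurentSeries R, coeffMap res S ≠ 0 ∧ coeffMap res T = 0 ∧
        coeffMap (algebraMap R K) S * (qExpand K q f - f₁ ^ q) = coeffMap (algebraMap R K) T := by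
  obtain ⟨f₁, s₁, t₁, hf₁, hs₁, hst₁, hrel⟩ := fi66_frob res N hres q hN f hf s t hs hst
  refine ⟨f₁, s₁, t₁, hf₁, hs₁, hst₁, qExpand R q s * s₁ ^ q,
    qExpand R q t * s₁ ^ q - t₁ ^ q * qExpand R q s, ?_, ?_, ?_⟩
  · rw [map_mul, map_pow, coeffMap_qExpand]
    exact mul_ne_zero (fun h => hs (qExpand_injective q (by rw [h, map_zero]))) (pow_ne_zero _ hs₁)
  · rw [map_sub, map_mul, map_mul, map_pow, map_pow, coeffMap_qExpand, coeffMap_qExpand, hrel,
      sub_self]
  · simp only [map_sub, map_mul, map_pow, coeffMap_qExpand]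
    rw [← hst, ← hst₁, map_mul, mul_pow]
    ring


omit [NeZero N] in
/-- A series identity `S · x = T` with `res S ≠ 0`, `res T = 0` puts `x` into the maximal ideal
of the Gauss valuation ring. -/
theorem fi66_mem_nonunits (F : IntermediateField K (LaurentSeries K)) (hF : gv85_HF res F)
    (x : F) (S T : LaurentSeries R) (hS : coeffMap res S ≠ 0) (hT : coeffMap res T = 0)
    (hST : coeffMap (algebraMap R K) S * (x : LaurentSeries K) = coeffMap (algebraMap R K) T) :
    x ∈ (gv85_V res F hF).nonunits := by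
  have hx : x ∈ gv85_V res F hF := ⟨S, T, hS, hST⟩
  rw [ValuationSubring.mem_nonunits_iff]
  refine lt_of_le_of_ne ((ValuationSubring.valuation_le_one_iff _ _).mpr hx) fun h1 => ?_
  have hx0 : x ≠ 0 := fun h => by rw [h, map_zero] at h1; exact zero_ne_one h1
  have hxinv : x⁻¹ ∈ gv85_V res F hF := by
    rw [← ValuationSubring.valuation_le_one_iff, map_inv₀, h1, inv_one]
  obtain ⟨s', t', hs', hst'⟩ := hxinv
  have hxL : (x : LaurentSeries K) ≠ 0 := fun h => hx0 (Subtype.ext h)
  have h2 : ((x⁻¹ : F) : LaurentSeries K) = (x : LaurentSeries K)⁻¹ := rfl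
  rw [h2] at hst'
  have h3 : coeffMap (algebraMap R K) (S * s') = coeffMap (algebraMap R K) (t' * T) := by
    rw [map_mul, map_mul, ← hST, ← hst']
    field_simp
  have h4 := rm90_coeffMap_injective (algebraMap R K) (IsFractionRing.injective R K) h3
  have h5 : coeffMap res S * coeffMap res s' = 0 := by
    rw [← map_mul, h4, map_mul, hT, mul_zero]
  exact (mul_ne_zero hS hs') h5

/-- **(F) for the Gauss valuation rings** (`α` = inclusion, `β` = `Q ↦ Q^q`): for every `f` in
the Gauss ring `V'` of `F(N)_K` there is `f₁ ∈ V'` such that `β f - (α f₁)^q` lies in the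
maximal ideal of the Gauss ring `V_∞` of `F(M)_K`, for every level `M` whose function field
contains this element (e.g. `N * q ∣ M`). -/
theorem fi66_frob_V (hres : Function.Surjective res) (q : ℕ) [NeZero q] [ExpChar κ q]
    [PerfectRing κ q] (hN : (N : κ) ≠ 0)
    (hF' : gv85_HF res (modularFunctionFieldFullC K N))
    (f : ↥(modularFunctionFieldFullC K N)) (hf : f ∈ gv85_V res _ hF') :
    ∃ f₁ : ↥(modularFunctionFieldFullC K N), f₁ ∈ gv85_V res _ hF' ∧
      ∀ (M : ℕ) [NeZero M] (hF : gv85_HF res (modularFunctionFieldFullC K M))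
        (x : ↥(modularFunctionFieldFullC K M)),
        (x : LaurentSeries K) = qExpand K q (f : LaurentSeries K) - (f₁ : LaurentSeries K) ^ q →
        x ∈ (gv85_V res _ hF).nonunits := by
  obtain ⟨s, t, hs, hst⟩ := hf
  obtain ⟨f₁, s₁, t₁, hf₁, hs₁, hst₁, S, T, hS, hT, hST⟩ :=
    fi66_frob_max res N hres q hN (f : LaurentSeries K) f.2 s t hs hst
  refine ⟨⟨f₁, hf₁⟩, ⟨s₁, t₁, hs₁, hst₁⟩, fun M _ hF x hx => ?_⟩
  exact fi66_mem_nonunits res _ hF x S T hS hT (by rw [hx]; exact hST)


omit [NeZero N] in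
/-- The maximal ideal of the Gauss ring is `π V` when `ker res = (π)`: an element of the
maximal ideal is `π` times an element of `V`. -/
theorem fi66_pi_inv_mul_mem (π : R) (hresπ : ∀ r, res r = 0 ↔ π ∣ r) (hπ0 : π ≠ 0)
    (F : IntermediateField K (LaurentSeries K)) (hF : gv85_HF res F) (x : F)
    (hx : x ∈ (gv85_V res F hF).nonunits) :
    (algebraMap K F (algebraMap R K π))⁻¹ * x ∈ gv85_V res F hF := by
  rcases (ValuationSubring.mem_nonunits_iff_or _).mp hx with h0 | h1
  · rw [h0, mul_zero]; exact (gv85_V res F hF).zero_mem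
  · have hxV : x ∈ gv85_V res F hF := by
      rw [← ValuationSubring.valuation_le_one_iff]
      exact ((ValuationSubring.mem_nonunits_iff _).mp hx).le
    exact gv85_hmax res π hresπ hπ0 F hF x hxV h1

end fi66_generic

section fi66_dvr

variable {R K : Type} [CommRing R] [IsDomain R] [IsDiscreteValuationRing R] [Field K]
  [Algebra R K] [IsFractionRing R K]

/-- The residue field of a discrete valuation ring whose maximal ideal contains the prime `q`
has characteristic `q`. -/
theorem fi66_expChar_residue {q : ℕ} (hq : q.Prime)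
    (hqR : (q : R) ∈ IsLocalRing.maximalIdeal R) : ExpChar (IsLocalRing.ResidueField R) q := by
  have h0 : ((q : ℕ) : IsLocalRing.ResidueField R) = 0 := by
    have h := (IsLocalRing.residue_eq_zero_iff (q : R)).mpr hqR
    simpa using h
  have : CharP (IsLocalRing.ResidueField R) q := (CharP.charP_iff_prime_eq_zero hq).mpr h0
  exact ExpChar.prime hq

/-- **(F) over a discrete valuation ring with finite residue field of characteristic `q ∤ N`**,
for the Gauss valuation rings `V' = gv85_V` of level `N` and `V_∞ = gv85_V` of any level `M`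
(`hF'`, `hF` are `pk85_HF K N hπ`, `pk85_HF K M hπ` in the S18 chart package; `cm85_Vinf`):
for every `f ∈ V'` there is `f₁ ∈ V'` with `f(Q^q) - f₁^q ∈ m_{V_∞}`. -/
theorem fi66_frob_dvr [Finite (IsLocalRing.ResidueField R)] (N : ℕ) [NeZero N] (q : ℕ)
    [NeZero q] (hq : q.Prime) (hqR : (q : R) ∈ IsLocalRing.maximalIdeal R) (hqN : ¬ q ∣ N)
    (hF' : gv85_HF (IsLocalRing.residue R) (modularFunctionFieldFullC K N))
    (f : ↥(modularFunctionFieldFullC K N)) (hf : f ∈ gv85_V (IsLocalRing.residue R) _ hF') :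
    ∃ f₁ : ↥(modularFunctionFieldFullC K N), f₁ ∈ gv85_V (IsLocalRing.residue R) _ hF' ∧
      ∀ (M : ℕ) [NeZero M]
        (hF : gv85_HF (IsLocalRing.residue R) (modularFunctionFieldFullC K M))
        (x : ↥(modularFunctionFieldFullC K M)),
        (x : LaurentSeries K) = qExpand K q (f : LaurentSeries K) - (f₁ : LaurentSeries K) ^ q →
        x ∈ (gv85_V (IsLocalRing.residue R) _ hF).nonunits := by
  have := fi66_expChar_residue (R := R) hq hqR
  have : CharP (IsLocalRing.ResidueField R) q := by
    have h0 : ((q : ℕ) : IsLocalRing.ResidueField R) = 0 := by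
      have h := (IsLocalRing.residue_eq_zero_iff (q : R)).mpr hqR
      simpa using h
    exact (CharP.charP_iff_prime_eq_zero hq).mpr h0
  have hN : (N : IsLocalRing.ResidueField R) ≠ 0 := fun h =>
    hqN ((CharP.cast_eq_zero_iff (IsLocalRing.ResidueField R) q N).mp h)
  exact fi66_frob_V (IsLocalRing.residue R) N IsLocalRing.residue_surjective q hN hF' f hf

end fi66_dvr

end Fermat.Agent.S34
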