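import Mathlib
import Fermat.Prelude.Def_ModularCurve_ArithmeticGalois

/-!
# S34 lab (helper45): the top glue of `(U)` at a level `M`

Prelude + Mathlib only.  All names are prefixed `tg45_`.

* `tg45_abs`: for a function field `F / K` with two semilinear automorphisms `g, h`, an exponent
  `m > 0` and a class `x : Pic0 K F` killed by `m`: if for every Kummer function `f`
  (`f ≠ 0`, `m ∣ ord_v f` for all places `v`) the double difference
  `(g • h • f) * f / ((g • f) * (h • f))` is an `m`-th power in `F`, then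
  `g • h • x - g • x - h • x + x = 0`.
* `tg45_StarBar M m s t`: the `ℚ̄`-level Kummer statement for the double difference at level `M`.
* `tg45_U_of_starBar`: `tg45_StarBar M m s t` implies `s • t • x - s • x - t • x + x = 0` for every
  `x : JZero M` with `m • x = 0`  (for `s = t` this is the literal shape of the hypothesis `hU`
  of the S34 endgame, at level `M`).
-/

set_option autoImplicit false

namespace Fermat.Agent.S34

open AlgebraicCurve ModularCurve

section Abstract

variable {K F : Type*} [Field K] [Field F] [Algebra K F]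

/-- `ord` of a translate: `v.ord (g • f) = (g⁻¹ • v).ord f`. -/
theorem tg45_ord_smul (g : SemilinearAut K F) (v : Place K F) (f : F) :
    v.ord (g • f) = (g⁻¹ • v).ord f := by
  have h := SemilinearAut.ord_smul g (g⁻¹ • v) f
  rwa [smul_inv_smul] at h

/-- **Abstract top glue.**  If the double difference of every Kummer function for the exponent `m`
is an `m`-th power, then the double difference operator `(g - 1)(h - 1)` kills the `m`-torsion of
`Pic0`. -/
theorem tg45_abs (g h : SemilinearAut K F) (m : ℕ) (hm : 0 < m)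
    (hstar : ∀ f : F, f ≠ 0 → (∀ v : Place K F, (m : ℤ) ∣ v.ord f) →
      ∃ w : F, w ^ m = (g • h • f) * f / ((g • f) * (h • f)))
    (x : Pic0 K F) (hx : m • x = 0) :
    g • h • x - g • x - h • x + x = 0 := by
  obtain ⟨D, rfl⟩ := Pic0.mk_surjective x
  -- `m • D` is principal
  have h1 : (m • D : Divisor.degZero (K := K) (F := F)) ∈
      (Divisor.principal (K := K) (F := F)).addSubgroupOf (Divisor.degZero (K := K) (F := F)) := by
    have h2 : Pic0.mk (m • D) = 0 := by
      rw [← hx]; rfl
    exact (QuotientAddGroup.eq_zero_iff _).mp h2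
  rw [AddSubgroup.mem_addSubgroupOf] at h1
  obtain ⟨f, hf, hfD⟩ := h1
  have hfD' : ∀ v : Place K F, (m : ℤ) * (D : Divisor K F) v = v.ord f := by
    intro v
    rw [← hfD v]
    simp
  obtain ⟨w, hw⟩ := hstar f hf (fun v => ⟨(D : Divisor K F) v, (hfD' v).symm⟩)
  have hgf : g • f ≠ 0 := by rwa [Ne, smul_eq_zero_iff_eq]
  have hhf : h • f ≠ 0 := by rwa [Ne, smul_eq_zero_iff_eq]
  have hghf : g • h • f ≠ 0 := by rwa [Ne, smul_eq_zero_iff_eq]
  have hu0 : (g • h • f) * f / ((g • f) * (h • f)) ≠ 0 :=
    div_ne_zero (mul_ne_zero hghf hf) (mul_ne_zero hgf hhf)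
  have hw0 : w ≠ 0 := by
    rintro rfl
    rw [zero_pow hm.ne'] at hw
    exact hu0 hw.symm
  -- the double difference divisor
  set E : Divisor.degZero (K := K) (F := F) :=
    SemilinearAut.degZeroSMulHom g (SemilinearAut.degZeroSMulHom h D)
      - SemilinearAut.degZeroSMulHom g D - SemilinearAut.degZeroSMulHom h D + D with hE
  have hEmk : g • h • Pic0.mk D - g • Pic0.mk D - h • Pic0.mk D + Pic0.mk D = Pic0.mk E := by
    rw [SemilinearAut.pic0_smul_mk, SemilinearAut.pic0_smul_mk, SemilinearAut.pic0_smul_mk]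
    rfl
  rw [hEmk]
  refine (QuotientAddGroup.eq_zero_iff _).mpr ?_
  rw [AddSubgroup.mem_addSubgroupOf]
  refine ⟨w, hw0, fun v => ?_⟩
  have hEv : (E : Divisor K F) v = (D : Divisor K F) (h⁻¹ • g⁻¹ • v) - (D : Divisor K F) (g⁻¹ • v)
      - (D : Divisor K F) (h⁻¹ • v) + (D : Divisor K F) v := by
    simp only [hE, AddSubgroup.coe_add, AddSubgroup.coe_sub, SemilinearAut.coe_degZeroSMulHom,
      Finsupp.add_apply, Finsupp.sub_apply, SemilinearAut.divisor_smul_apply]
  have hordw : (m : ℤ) * v.ord w = v.ord ((g • h • f) * f / ((g • f) * (h • f))) := by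
    rw [← hw, ← zpow_natCast, Place.ord_zpow]
  have hordu : v.ord ((g • h • f) * f / ((g • f) * (h • f))) =
      (m : ℤ) * ((D : Divisor K F) (h⁻¹ • g⁻¹ • v) - (D : Divisor K F) (g⁻¹ • v)
        - (D : Divisor K F) (h⁻¹ • v) + (D : Divisor K F) v) := by
    rw [div_eq_mul_inv, Place.ord_mul v (mul_ne_zero hghf hf) (inv_ne_zero (mul_ne_zero hgf hhf)),
      Place.ord_inv, Place.ord_mul v hghf hf, Place.ord_mul v hgf hhf,
      tg45_ord_smul g v (h • f), tg45_ord_smul h (g⁻¹ • v) f, tg45_ord_smul g v f,
      tg45_ord_smul h v f, ← hfD', ← hfD', ← hfD', ← hfD']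
    ring
  have hm0 : (m : ℤ) ≠ 0 := by exact_mod_cast hm.ne'
  rw [hEv]
  exact (mul_left_cancel₀ hm0 (hordw.trans hordu)).symm

end Abstract

section Modular

local notation "Q̄" => AlgebraicClosure ℚ

/-- The `ℚ̄`-level Kummer statement for the double difference at level `M`, exponent `m` and the
two Galois automorphisms `s, t`: for every Kummer function `f` of the function field of `X₀(M)`
over `ℚ̄` (all orders divisible by `m`), `(s t f) f / ((s f) (t f))` is an `m`-th power. -/
def tg45_StarBar (M m : ℕ) (s t : Q̄ ≃ₐ[ℚ] Q̄) : Prop :=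
  ∀ f : modularFunctionFieldBar M, f ≠ 0 →
    (∀ P : Place Q̄ (modularFunctionFieldBar M), (m : ℤ) ∣ P.ord f) →
    ∃ w : modularFunctionFieldBar M,
      w ^ m = (arithmeticGalois (modularFunctionFieldFull M) s •
          arithmeticGalois (modularFunctionFieldFull M) t • f) * f /
        ((arithmeticGalois (modularFunctionFieldFull M) s • f) *
          (arithmeticGalois (modularFunctionFieldFull M) t • f))

/-- **`(U)` at level `M` from the Kummer statement.** -/
theorem tg45_U_of_starBar (M m : ℕ) (hm : 0 < m) (s t : Q̄ ≃ₐ[ℚ] Q̄)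
    (h : tg45_StarBar M m s t) (x : JZero M) (hx : m • x = 0) :
    s • t • x - s • x - t • x + x = 0 :=
  tg45_abs (arithmeticGalois (modularFunctionFieldFull M) s)
    (arithmeticGalois (modularFunctionFieldFull M) t) m hm h x hx

/-- The special case `s = t` in the literal shape of the hypothesis `hU` of the S34 endgame. -/
theorem tg45_hU_of_starBar (M m : ℕ) (hm : 0 < m) (t : Q̄ ≃ₐ[ℚ] Q̄)
    (h : tg45_StarBar M m t t) (x : JZero M) (hx : m • x = 0) :
    t • t • x - t • x - t • x + x = 0 :=
  tg45_U_of_starBar M m hm t t h x hx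

end Modular

end Fermat.Agent.S34
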