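import Mathlib
import Fermat.Agent.S18.FieldDef27
import Fermat.Agent.S34.TopGlue45
import Fermat.Agent.S34.GalGlue25
import Fermat.Agent.S34.RatSupp88

/-!
# S34 lab, package P9 (helper94, twin of the `(U)_M` glue): descent `ℚ̄ → L` of the target

The single target of the chart work of the S34 lab is the `ℚ̄`-level Kummer statement
`tg45_StarBar M m s t` (equivalently the hypothesis `hfun` of `gg25_U_of_fun`): for every Kummer
function `f` of level `M` over `ℚ̄` the double difference `s(t f) · f / (s f · t f)` is an `m`-th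
power.  This file reduces it to a statement over a number field, which is the literal output
shape of the nodal two-chart lemma (`gu94_star_abs`: `f₀ ^ m * u = c` with `c` a constant):

* `gu94_coeffHom φ M` : the coefficientwise map `F(M)_K → F(M)_K'` of a ring homomorphism
  `φ : K →+* K'`, with `gu94_coeffHom_coe`, `gu94_coeffHom_algebraMap`,
  `gu94_iota_coeffHom` (`ι' ∘ coeffHom φ = ι` when `φ' ∘ φ = φ`-compatible);
* `gu94_res s L` : the restriction of `s : ℚ̄ ≃ₐ[ℚ] ℚ̄` to a normal intermediate field `L`, as a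
  ring automorphism of `F(M)_L` (`gu94_act`), and `gu94_iota_act` :
  `ι (s_L x) = s • ι x` (from `rs88_iota_restrict`);
* `gu94_pow_of_descent` : abstract descent (any field `K → ℚ̄`, any two endomorphisms of `F(M)_K`
  compatible with `s`, `t`): `f₀ ^ m * u_K = c` with `f₀ ≠ 0` ⟹ the double difference of `ι f_K`
  is an `m`-th power in `F(M)_ℚ̄`;
* `gu94_starBar_of_fields` : `tg45_StarBar M m s t` from the number-field statement for every
  Kummer function;
* `gu94_fun_of_starBar` : the shape `hfun` of `gg25_U_of_fun` from `tg45_StarBar`.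

All names are prefixed `gu94_`.
-/

set_option autoImplicit false

open ModularCurve AlgebraicCurve IntermediateField

namespace Fermat.Agent.S34

open Fermat.Agent.S18

local notation "Q̄" => AlgebraicClosure ℚ

section coeff

variable {K K' : Type*} [Field K] [Field K']

/-- The coefficientwise map `F(M)_K → F(M)_K'` of a ring homomorphism `K →+* K'`. -/
noncomputable def gu94_coeffHom (φ : K →+* K') (M : ℕ) :
    ↥(modularFunctionFieldFullC K M) →+* ↥(modularFunctionFieldFullC K' M) :=
  ((coeffMap φ).comp (modularFunctionFieldFullC K M).toSubring.subtype).codRestrict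
    (modularFunctionFieldFullC K' M).toSubring fun x => fd27_coeffMap_mem φ M x.2

@[simp]
theorem gu94_coeffHom_coe (φ : K →+* K') (M : ℕ) (x : ↥(modularFunctionFieldFullC K M)) :
    ((gu94_coeffHom φ M x : ↥(modularFunctionFieldFullC K' M)) : LaurentSeries K') =
      coeffMap φ (x : LaurentSeries K) := rfl

theorem gu94_coeffHom_algebraMap (φ : K →+* K') (M : ℕ) (c : K) :
    gu94_coeffHom φ M (algebraMap K ↥(modularFunctionFieldFullC K M) c) =
      algebraMap K' ↥(modularFunctionFieldFullC K' M) (φ c) := by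
  apply Subtype.ext
  rw [gu94_coeffHom_coe]
  exact fd27_coeffMap_algebraMap φ c

theorem gu94_coeffHom_injective (φ : K →+* K') (M : ℕ) :
    Function.Injective (gu94_coeffHom φ M) :=
  (gu94_coeffHom φ M).injective

end coeff

section res

variable (M : ℕ)

/-- The action of `s : ℚ̄ ≃ₐ[ℚ] ℚ̄` on the function field `F(M)_L` over a normal intermediate
field `L`, through the coefficients. -/
noncomputable def gu94_act (L : IntermediateField ℚ Q̄) [Normal ℚ L] (s : Q̄ ≃ₐ[ℚ] Q̄) :
    ↥(modularFunctionFieldFullC L M) →+* ↥(modularFunctionFieldFullC L M) :=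
  gu94_coeffHom ((s.restrictNormal L : L ≃ₐ[ℚ] L) : L →+* L) M

theorem gu94_act_coe (L : IntermediateField ℚ Q̄) [Normal ℚ L] (s : Q̄ ≃ₐ[ℚ] Q̄)
    (x : ↥(modularFunctionFieldFullC L M)) :
    ((gu94_act M L s x : ↥(modularFunctionFieldFullC L M)) : LaurentSeries L) =
      coeffMap ((s.restrictNormal L : L ≃ₐ[ℚ] L) : L →+* L) (x : LaurentSeries L) := rfl

theorem gu94_act_algebraMap (L : IntermediateField ℚ Q̄) [Normal ℚ L] (s : Q̄ ≃ₐ[ℚ] Q̄) (c : L) :
    gu94_act M L s (algebraMap L ↥(modularFunctionFieldFullC L M) c) =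
      algebraMap L ↥(modularFunctionFieldFullC L M) (s.restrictNormal L c) :=
  gu94_coeffHom_algebraMap _ M c

/-- `ι (s_L x) = s • ι x`. -/
theorem gu94_iota_act (L : IntermediateField ℚ Q̄) [Normal ℚ L] (s : Q̄ ≃ₐ[ℚ] Q̄)
    (x : ↥(modularFunctionFieldFullC L M)) :
    fd27_iota (algebraMap L Q̄) M (gu94_act M L s x) =
      arithmeticGalois (modularFunctionFieldFull M) s • fd27_iota (algebraMap L Q̄) M x :=
  rs88_iota_restrict M L s x

end res

section descent

variable (M : ℕ)

/-- **Abstract descent.**  `K` any field with `φ : K →+* ℚ̄`, `σ, τ` endomorphisms of `F(M)_K`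
compatible with the arithmetic action of `s, t` on `F(M)_ℚ̄`.  If `f₀ ^ m * u_K = c` with
`f₀ ≠ 0`, `c ∈ K` and `u_K = σ(τ f_K) f_K / (σ f_K · τ f_K)`, then the double difference of
`ι f_K` is an `m`-th power in `F(M)_ℚ̄`. -/
theorem gu94_pow_of_descent (m : ℕ) (hm : 0 < m) (s t : Q̄ ≃ₐ[ℚ] Q̄)
    {K : Type*} [Field K] (φ : K →+* Q̄)
    (σ τ : ↥(modularFunctionFieldFullC K M) →+* ↥(modularFunctionFieldFullC K M))
    (hσ : ∀ x, fd27_iota φ M (σ x) =
      arithmeticGalois (modularFunctionFieldFull M) s • fd27_iota φ M x)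
    (hτ : ∀ x, fd27_iota φ M (τ x) =
      arithmeticGalois (modularFunctionFieldFull M) t • fd27_iota φ M x)
    (fK f₀ : ↥(modularFunctionFieldFullC K M)) (c : K) (hf₀ : f₀ ≠ 0)
    (h : f₀ ^ m * (σ (τ fK) * fK / (σ fK * τ fK)) =
      algebraMap K ↥(modularFunctionFieldFullC K M) c) :
    ∃ w : ↥(modularFunctionFieldBar M),
      w ^ m = (arithmeticGalois (modularFunctionFieldFull M) s •
          arithmeticGalois (modularFunctionFieldFull M) t • fd27_iota φ M fK) *
            fd27_iota φ M fK /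
        ((arithmeticGalois (modularFunctionFieldFull M) s • fd27_iota φ M fK) *
          (arithmeticGalois (modularFunctionFieldFull M) t • fd27_iota φ M fK)) := by
  have hι := congrArg (fd27_iota φ M) h
  rw [map_mul, map_pow, map_div₀, map_mul, map_mul, hσ, hτ, hσ, fd27_iota_algebraMap] at hι
  obtain ⟨γ, hγ⟩ := IsAlgClosed.exists_pow_nat_eq (φ c) hm
  have hf0' : fd27_iota φ M f₀ ≠ 0 :=
    (map_ne_zero_iff _ (fd27_iota_injective φ M)).mpr hf₀
  refine ⟨algebraMap Q̄ ↥(modularFunctionFieldBar M) γ * (fd27_iota φ M f₀)⁻¹, ?_⟩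
  rw [mul_pow, ← map_pow, hγ, ← hι, inv_pow, mul_comm, ← mul_assoc,
    inv_mul_cancel₀ (pow_ne_zero m hf0'), one_mul]

/-- **`tg45_StarBar` from the number-field statement.**  If every Kummer function `f` of level
`M` over `ℚ̄` descends to a normal intermediate field `L` over which the double difference of
`f_L` (for the coefficientwise actions of `s`, `t`) is `c · f₀^(-m)` with `c ∈ L`, then the
`ℚ̄`-level Kummer statement holds. -/
theorem gu94_starBar_of_fields (m : ℕ) (hm : 0 < m) (s t : Q̄ ≃ₐ[ℚ] Q̄)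
    (H : ∀ f : ↥(modularFunctionFieldBar M), f ≠ 0 →
      (∀ P : Place Q̄ ↥(modularFunctionFieldBar M), (m : ℤ) ∣ P.ord f) →
      ∃ (L : IntermediateField ℚ Q̄) (_ : Normal ℚ L)
        (fL f₀ : ↥(modularFunctionFieldFullC L M)) (c : L),
        fd27_iota (algebraMap L Q̄) M fL = f ∧ f₀ ≠ 0 ∧
        f₀ ^ m * (gu94_act M L s (gu94_act M L t fL) * fL /
            (gu94_act M L s fL * gu94_act M L t fL)) =
          algebraMap L ↥(modularFunctionFieldFullC L M) c) :
    tg45_StarBar M m s t := by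
  intro f hf hP
  obtain ⟨L, hL, fL, f₀, c, hfL, hf₀, h⟩ := H f hf hP
  obtain ⟨w, hw⟩ := gu94_pow_of_descent M m hm s t (algebraMap L Q̄) (gu94_act M L s)
    (gu94_act M L t) (gu94_iota_act M L s) (gu94_iota_act M L t) fL f₀ c hf₀ h
  rw [hfL] at hw
  exact ⟨w, hw⟩

/-- The hypothesis `hfun` of `gg25_U_of_fun` from `tg45_StarBar`. -/
theorem gu94_fun_of_starBar (m : ℕ) (s t : Q̄ ≃ₐ[ℚ] Q̄) (h : tg45_StarBar M m s t)
    (f : ↥(modularFunctionFieldBar M)) (hf : f ≠ 0)
    (hP : ∀ v : Place Q̄ ↥(modularFunctionFieldBar M), (m : ℤ) ∣ v.ord f) :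
    ∃ w : ↥(modularFunctionFieldBar M),
      arithmeticGalois (modularFunctionFieldFull M) (s * t) • f * f =
        w ^ m * (arithmeticGalois (modularFunctionFieldFull M) s • f *
          arithmeticGalois (modularFunctionFieldFull M) t • f) := by
  obtain ⟨w, hw⟩ := h f hf hP
  refine ⟨w, ?_⟩
  have hs : arithmeticGalois (modularFunctionFieldFull M) s • f ≠ 0 :=
    (smul_ne_zero_iff_ne _).mpr hf
  have ht : arithmeticGalois (modularFunctionFieldFull M) t • f ≠ 0 :=
    (smul_ne_zero_iff_ne _).mpr hf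
  rw [hw, map_mul, mul_smul, div_mul_cancel₀ _ (mul_ne_zero hs ht)]

end descent

end Fermat.Agent.S34
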