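import Fermat.Agent.S34.Unip60
import Fermat.Agent.S34.LevelChange52
import Fermat.Agent.S34.TopGlue45

/-!
# S34 lab, package P9 (helper94, twin of the `(U)_M` glue): the top of the chain

`gu94_top` : the conclusion of S34 (unipotent inertia at `q ‖ N`, `q ≠ p`) from the `ℚ̄`-level
Kummer statement `tg45_StarBar M (p ^ n) t t` at the auxiliary levels `M` (`M = N` or `N p₀`,
`p₀ ∈ {2, 3}`, `p₀ ≠ q`, `p₀ ∣ M`, `q ‖ M`) for every inertia element `t` at `q`.

It composes, without any new mathematics, the three bridges already on main: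
`tg45_hU_of_starBar` (Kummer statement ⟹ `(U)_M`), `lc52_main` (level change `M → N`) and
`s34e60_main` (the endgame in the `hU` form).  So the single remaining target of the lab is
`tg45_StarBar` at level `M`.

All names are prefixed `gu94_`.
-/

set_option autoImplicit false

namespace Fermat.Agent.S34

open ModularCurve

local notation "Q̄" => AlgebraicClosure ℚ

/-- `(U)` at level `M` (the statement `lc52_U`) from the Kummer statement at level `M`. -/
theorem gu94_U_of_starBar (p q M : ℕ) (hp : p.Prime)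
    (h : ∀ (n : ℕ) (P : ValuationSubring Q̄), P.LiesOverPrime q →
      ∀ t ∈ P.inertiaSubgroupIn ℚ, tg45_StarBar M (p ^ n) t t) :
    lc52_U p q M :=
  fun n P hP t ht x hx =>
    tg45_hU_of_starBar M (p ^ n) (pow_pos hp.pos n) t (h n P hP t ht) x hx

/-- **The top of the S34 chain**: unipotent inertia at `q ‖ N`, `q ≠ p`, from the Kummer
statements `tg45_StarBar M (p ^ n) t t` at the auxiliary levels. -/
theorem gu94_top {p : ℕ} {N : ℕ} [NeZero N] {S : Finset ℕ}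
    {𝒪 : Type} [CommRing 𝒪] [IsDomain 𝒪] [IsDiscreteValuationRing 𝒪]
    [IsAdicComplete (IsLocalRing.maximalIdeal 𝒪) 𝒪]
    {θ : CuspForm.heckeAlgebra N 2 (↑S : Set ℕ) →+* IsLocalRing.ResidueField 𝒪}
    {T : Type} [CommRing T] [IsLocalRing T] [IsNoetherianRing T]
    [IsAdicComplete (IsLocalRing.maximalIdeal T) T] [Algebra 𝒪 T] [IsLocalHom (algebraMap 𝒪 T)]
    [Module.Finite 𝒪 T] [Module.Free 𝒪 T]
    (hp : p.Prime) (hp𝒪 : (p : 𝒪) ∈ IsLocalRing.maximalIdeal 𝒪) (hpS : p ∈ S)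
    (hNS : ∀ q : ℕ, q.Prime → q ∣ N → q ∈ S)
    (H : CuspForm.HeckeGaloisRepDatum N (↑S : Set ℕ) 𝒪 θ T)
    (q : ℕ) (hq : q.Prime) (hqp : q ≠ p) (hqN : q ∣ N) (hq2 : ¬ q ^ 2 ∣ N)
    (hstar : ∀ M p0 : ℕ, M ≠ 0 → (p0 = 2 ∨ p0 = 3) → p0 ≠ q → p0 ∣ M → N ∣ M → q ∣ M →
      ¬ q ^ 2 ∣ M → (M = N ∨ M = N * p0) →
      ∀ (n : ℕ) (P : ValuationSubring Q̄), P.LiesOverPrime q →
        ∀ t ∈ P.inertiaSubgroupIn ℚ, tg45_StarBar M (p ^ n) t t) :
    H.ρ.IsUnipotentOnInertiaAt q :=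
  s34e60_main hp hp𝒪 hpS hNS H q hq hqp
    (lc52_main hp hq hqp hqN hq2 fun M p0 hM0 h23 hp0q hp0M hNM hqM hq2M hMN =>
      gu94_U_of_starBar p q M hp (hstar M p0 hM0 h23 hp0q hp0M hNM hqM hq2M hMN))

end Fermat.Agent.S34
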