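import Mathlib

/-!
# S34, P3a-0 (i): integrality of `β^* h` over `R[h]` — abstract part (helper95)

Let `h` be the Hauptmodul of level `e ∈ {2, 3}` and `hq = β^* h = h(q τ)`, `q ≠ e` a prime.
We show `hq` is integral over `R[h]` and `hq⁻¹` is integral over `R[h⁻¹]` **without** a modular
equation for `h`: only the modular equation `Φ_q` of `j` is used, twice (for the pairs
`(j(qτ), j(τ))` and `(j(eqτ), j(eτ))`), through its Newton polygon at infinity.

* `hi95_newton` : if `Φ(x; y) = 0`, `Φ` has the shape of the modular polynomial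
  (monic of degree `q + 1` in `X`, the coefficient of `X^a`, `1 ≤ a ≤ q`, has `Y`-degree `≤ q`,
  unit coefficient at `X^q Y^q`, and the coefficient of `X^0` has degree `≤ q + 1` with unit
  coefficient at `Y^(q+1)`) and `1 < v y`, then `v x = v y ^ q` or `v x ^ q = v y`.
* `hi95_profile_two`, `hi95_profile_three` : valuations of `j`, `j(eτ)` in terms of `v h`.
* `hi95_val` : the valuative statement `v h ≤ 1 → v hq ≤ 1` and `1 ≤ v h → 1 ≤ v hq`.
* `hi95_main_two`, `hi95_main_three` : the integrality statements (valuative criterion).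

Mathlib only.
-/

set_option autoImplicit false

namespace Fermat.Agent.S34

open Polynomial

section valuation

variable {F : Type*} [Field F] {Γ : Type*} [LinearOrderedCommGroupWithZero Γ] (v : Valuation F Γ)

theorem hi95_natCast_le_one (n : ℕ) : v (n : F) ≤ 1 := by
  induction n with
  | zero => simp
  | succ k ih =>
    rw [Nat.cast_succ]
    exact (v.map_add _ _).trans (max_le ih (by simp))

theorem hi95_intCast_le_one (n : ℤ) : v (n : F) ≤ 1 := by
  rcases Int.eq_nat_or_neg n with ⟨k, rfl | rfl⟩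
  · simpa using hi95_natCast_le_one v k
  · simpa using hi95_natCast_le_one v k

/-- an integer polynomial of degree `≤ d` at `y` with `1 ≤ v y`. -/
theorem hi95_aeval_le (P : Polynomial ℤ) (y : F) (d : ℕ) (hd : P.natDegree ≤ d) (hy : 1 ≤ v y) :
    v (Polynomial.aeval y P) ≤ v y ^ d := by
  rw [Polynomial.aeval_eq_sum_range]
  refine v.map_sum_le fun i hi => ?_
  rw [Finset.mem_range] at hi
  have h1 : v (P.coeff i • y ^ i) ≤ v y ^ i := by
    rw [Algebra.smul_def, eq_intCast, map_mul, map_pow]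
    calc v ((P.coeff i : ℤ) : F) * v y ^ i ≤ 1 * v y ^ i :=
          mul_le_mul' (hi95_intCast_le_one v _) le_rfl
      _ = v y ^ i := one_mul _
  exact h1.trans (pow_le_pow_right₀ hy (by omega))

/-- an integer polynomial at `y` with `v y ≤ 1`. -/
theorem hi95_aeval_le_one (P : Polynomial ℤ) (y : F) (hy : v y ≤ 1) :
    v (Polynomial.aeval y P) ≤ 1 := by
  rw [Polynomial.aeval_eq_sum_range]
  refine v.map_sum_le fun i _ => ?_
  rw [Algebra.smul_def, eq_intCast, map_mul, map_pow]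
  calc v ((P.coeff i : ℤ) : F) * v y ^ i ≤ 1 * 1 :=
        mul_le_mul' (hi95_intCast_le_one v _) (pow_le_one₀ zero_le hy)
    _ = 1 := one_mul _

/-- an integer polynomial of degree `≤ d` with unit coefficient at `Y^d`, at `y` with
`1 < v y`. -/
theorem hi95_aeval_eq (P : Polynomial ℤ) (y : F) (d : ℕ) (hd : P.natDegree ≤ d)
    (hc : v ((P.coeff d : ℤ) : F) = 1) (hy : 1 < v y) : v (Polynomial.aeval y P) = v y ^ d := by
  have hy0 : v y ≠ 0 := (zero_lt_one.trans hy).ne'
  rw [Polynomial.aeval_eq_sum_range' (Nat.lt_succ_of_le hd), Finset.sum_range_succ]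
  have hlast : v (P.coeff d • y ^ d) = v y ^ d := by
    rw [Algebra.smul_def, eq_intCast, map_mul, map_pow, hc, one_mul]
  have hlow : v (∑ i ∈ Finset.range d, P.coeff i • y ^ i) < v y ^ d := by
    refine v.map_sum_lt (pow_ne_zero _ hy0) fun i hi => ?_
    rw [Finset.mem_range] at hi
    have h1 : v (P.coeff i • y ^ i) ≤ v y ^ i := by
      rw [Algebra.smul_def, eq_intCast, map_mul, map_pow]
      calc v ((P.coeff i : ℤ) : F) * v y ^ i ≤ 1 * v y ^ i :=
            mul_le_mul' (hi95_intCast_le_one v _) le_rfl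
        _ = v y ^ i := one_mul _
    exact h1.trans_lt (pow_lt_pow_right₀ hy hi)
  rw [← hlast] at hlow ⊢
  exact v.map_add_eq_of_lt_right hlow

/-- a finite sum with a strictly dominant nonzero term is not zero. -/
theorem hi95_dominant {ι : Type*} [DecidableEq ι] (s : Finset ι) (T : ι → F) (k : ι)
    (hk : k ∈ s) (h0 : v (T k) ≠ 0) (hdom : ∀ i ∈ s, i ≠ k → v (T i) < v (T k))
    (hsum : ∑ i ∈ s, T i = 0) : False := by
  have h1 : v (∑ i ∈ s.erase k, T i) < v (T k) :=
    v.map_sum_lt h0 fun i hi => hdom i (Finset.mem_of_mem_erase hi) (Finset.ne_of_mem_erase hi)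
  have h2 : ∑ i ∈ s.erase k, T i = -T k := by
    have := Finset.add_sum_erase s T hk
    rw [hsum] at this
    exact eq_neg_of_add_eq_zero_right this
  rw [h2, Valuation.map_neg] at h1
  exact lt_irrefl _ h1

/-- **Newton polygon at infinity of a modular-type polynomial.** -/
theorem hi95_newton (q : ℕ) (hq : 1 ≤ q) (Φ : Polynomial (Polynomial ℤ))
    (hmon : Φ.Monic) (hdeg : Φ.natDegree = q + 1)
    (hmid : ∀ a, 1 ≤ a → a ≤ q → (Φ.coeff a).natDegree ≤ q)
    (hzero : (Φ.coeff 0).natDegree ≤ q + 1)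
    (hc0 : v (((Φ.coeff 0).coeff (q + 1) : ℤ) : F) = 1)
    (hcq : v (((Φ.coeff q).coeff q : ℤ) : F) = 1)
    (x y : F)
    (hxy : Φ.eval₂ ((Polynomial.aeval y : Polynomial ℤ →ₐ[ℤ] F) : Polynomial ℤ →+* F) x = 0)
    (hy : 1 < v y) : v x = v y ^ q ∨ v x ^ q = v y := by
  classical
  have ht0 : (0 : Γ) < v y := zero_lt_one.trans hy
  rw [Polynomial.eval₂_eq_sum_range, hdeg] at hxy
  set T : ℕ → F := fun a => (Polynomial.aeval y (Φ.coeff a)) * x ^ a with hT
  have hsum : ∑ a ∈ Finset.range (q + 1 + 1), T a = 0 := hxy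
  have hTtop : v (T (q + 1)) = v x ^ (q + 1) := by
    have h1 : Φ.coeff (q + 1) = 1 := by rw [← hdeg]; exact hmon.coeff_natDegree
    simp [hT, h1]
  have hT0 : v (T 0) = v y ^ (q + 1) := by
    simp only [hT, pow_zero, mul_one]
    exact hi95_aeval_eq v _ y (q + 1) hzero hc0 hy
  have hTq : v (T q) = v y ^ q * v x ^ q := by
    simp only [hT, map_mul, map_pow]
    rw [hi95_aeval_eq v _ y q (hmid q hq le_rfl) hcq hy]
  have hTmid : ∀ a, 1 ≤ a → a ≤ q → v (T a) ≤ v y ^ q * v x ^ a := by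
    intro a h1 h2
    simp only [hT, map_mul, map_pow]
    exact mul_le_mul' (hi95_aeval_le v _ y q (hmid a h1 h2) hy.le) le_rfl
  have htq0 : (0 : Γ) < v y ^ q := pow_pos ht0 q
  by_contra hne
  obtain ⟨hne1, hne2⟩ := not_or.mp hne
  rcases lt_trichotomy (v x) (v y ^ q) with h1 | h1 | h1
  · rcases lt_trichotomy (v x ^ q) (v y) with h2 | h2 | h2
    · -- `T 0` dominates
      have hxt : v x < v y := by
        rcases le_or_gt (v x) 1 with hx1 | hx1
        · exact hx1.trans_lt hy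
        · exact (le_self_pow₀ hx1.le (by omega)).trans_lt h2
      refine hi95_dominant v (Finset.range (q + 1 + 1)) T 0 (by simp) ?_ ?_ hsum
      · rw [hT0]; exact (pow_pos ht0 _).ne'
      · intro i hi hi0
        rw [Finset.mem_range] at hi
        rw [hT0]
        rcases Nat.lt_or_ge i (q + 1) with hiq | hiq
        · have hxi : v x ^ i < v y := by
            rcases le_or_gt (v x) 1 with hx1 | hx1
            · exact (pow_le_one₀ zero_le hx1).trans_lt hy
            · exact (pow_le_pow_right₀ hx1.le (by omega)).trans_lt h2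
          calc v (T i) ≤ v y ^ q * v x ^ i := hTmid i (by omega) (by omega)
            _ < v y ^ q * v y := mul_lt_mul_of_pos_left hxi htq0
            _ = v y ^ (q + 1) := (pow_succ _ _).symm
        · have hi' : i = q + 1 := by omega
          subst hi'
          rw [hTtop]
          exact pow_lt_pow_left₀ hxt zero_le (by omega)
    · exact hne2 h2
    · -- `T q` dominates
      have hx1 : 1 < v x := by
        by_contra hx
        rw [not_lt] at hx
        exact absurd ((pow_le_one₀ zero_le hx).trans_lt hy) (not_lt.mpr h2.le)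
      have hx0 : (0 : Γ) < v x := zero_lt_one.trans hx1
      refine hi95_dominant v (Finset.range (q + 1 + 1)) T q (by simp) ?_ ?_ hsum
      · rw [hTq]; exact (mul_pos htq0 (pow_pos hx0 _)).ne'
      · intro i hi hiq
        rw [Finset.mem_range] at hi
        rw [hTq]
        rcases Nat.eq_zero_or_pos i with hi0 | hi0
        · subst hi0
          rw [hT0, pow_succ]
          exact mul_lt_mul_of_pos_left h2 htq0
        · rcases Nat.lt_or_ge i q with hlt | hge
          · calc v (T i) ≤ v y ^ q * v x ^ i := hTmid i hi0 hlt.le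
              _ < v y ^ q * v x ^ q := mul_lt_mul_of_pos_left (pow_lt_pow_right₀ hx1 hlt) htq0
          · have hi' : i = q + 1 := by omega
            subst hi'
            rw [hTtop, pow_succ, mul_comm]
            exact mul_lt_mul_of_pos_right h1 (pow_pos hx0 _)
  · exact hne1 h1
  · -- `T (q+1)` dominates
    have hx1 : 1 < v x := (one_le_pow₀ hy.le).trans_lt h1
    have hx0 : (0 : Γ) < v x := zero_lt_one.trans hx1
    have hyx : v y < v x := (le_self_pow₀ hy.le (by omega)).trans_lt h1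
    refine hi95_dominant v (Finset.range (q + 1 + 1)) T (q + 1) (by simp) ?_ ?_ hsum
    · rw [hTtop]; exact (pow_pos hx0 _).ne'
    · intro i hi hiq
      rw [Finset.mem_range] at hi
      rw [hTtop]
      rcases Nat.eq_zero_or_pos i with hi0 | hi0
      · subst hi0
        rw [hT0]
        exact pow_lt_pow_left₀ hyx zero_le (by omega)
      · calc v (T i) ≤ v y ^ q * v x ^ i := hTmid i hi0 (by omega)
          _ < v x * v x ^ i := mul_lt_mul_of_pos_right h1 (pow_pos hx0 _)
          _ = v x ^ (i + 1) := (pow_succ' _ _).symm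
          _ ≤ v x ^ (q + 1) := pow_le_pow_right₀ hx1.le (by omega)

/-- a root of a monic polynomial over `ℤ[y]`, `v y ≤ 1`, has `v x ≤ 1`. -/
theorem hi95_le_one_of_monic (Φ : Polynomial (Polynomial ℤ)) (hmon : Φ.Monic) (x y : F)
    (hxy : Φ.eval₂ ((Polynomial.aeval y : Polynomial ℤ →ₐ[ℤ] F) : Polynomial ℤ →+* F) x = 0)
    (hy : v y ≤ 1) : v x ≤ 1 := by
  classical
  by_contra hx
  rw [not_le] at hx
  have hx0 : (0 : Γ) < v x := zero_lt_one.trans hx
  rw [Polynomial.eval₂_eq_sum_range] at hxy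
  set T : ℕ → F := fun a => (Polynomial.aeval y (Φ.coeff a)) * x ^ a with hT
  have hsum : ∑ a ∈ Finset.range (Φ.natDegree + 1), T a = 0 := hxy
  have hTtop : v (T Φ.natDegree) = v x ^ Φ.natDegree := by
    have h1 : Φ.coeff Φ.natDegree = 1 := hmon.coeff_natDegree
    simp [hT, h1]
  refine hi95_dominant v (Finset.range (Φ.natDegree + 1)) T Φ.natDegree (by simp) ?_ ?_ hsum
  · rw [hTtop]; exact (pow_pos hx0 _).ne'
  · intro i hi hin
    rw [Finset.mem_range] at hi
    rw [hTtop]
    have hlt : i < Φ.natDegree := by omega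
    calc v (T i) = v (Polynomial.aeval y (Φ.coeff i)) * v x ^ i := by
          simp only [hT, map_mul, map_pow]
      _ ≤ 1 * v x ^ i := mul_le_mul' (hi95_aeval_le_one v _ y hy) le_rfl
      _ = v x ^ i := one_mul _
      _ < v x ^ Φ.natDegree := pow_lt_pow_right₀ hx hlt

/-! ### Valuation profile of a Hauptmodul -/

/-- The valuation profile of a Hauptmodul `h` of level `e` with respect to `j = j(τ)` and
`j1 = j(e τ)`: a simple zero of `h` is a pole of order `e` of `j` and a simple pole of `j1`;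
a simple pole of `h` is a simple pole of `j` and a pole of order `e` of `j1`. -/
def hi95_Profile (e : ℕ) (h j j1 : F) : Prop :=
  (v h < 1 → v j * v h ^ e = 1 ∧ v j1 * v h = 1) ∧
  (1 < v h → v j = v h ∧ v j1 = v h ^ e) ∧ (v h = 1 → v j ≤ 1)

theorem hi95_pow_eq_one_of_eq_one {a : F} (ha : v a = 1) (n : ℕ) : v (a ^ n) = 1 := by
  rw [map_pow, ha, one_pow]

/-- level 2: `j h² = (h + 256)³`, `j1 h = (h + 16)³`. -/
theorem hi95_profile_two (h2 : v (2 : F) = 1) (h j j1 : F)
    (r1 : j * h ^ 2 = (h + 256) ^ 3) (r2 : j1 * h = (h + 16) ^ 3) : hi95_Profile v 2 h j j1 := by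
  have h256 : v (256 : F) = 1 := by
    have : (256 : F) = 2 ^ 8 := by norm_num
    rw [this]; exact hi95_pow_eq_one_of_eq_one v h2 8
  have h16 : v (16 : F) = 1 := by
    have : (16 : F) = 2 ^ 4 := by norm_num
    rw [this]; exact hi95_pow_eq_one_of_eq_one v h2 4
  have e1 := congrArg v r1
  have e2 := congrArg v r2
  simp only [map_mul, map_pow] at e1 e2
  refine ⟨fun hlt => ?_, fun hgt => ?_, fun heq => ?_⟩
  · have a1 : v (h + 256) = 1 := by
      rw [v.map_add_eq_of_lt_right (by rw [h256]; exact hlt), h256]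
    have a2 : v (h + 16) = 1 := by
      rw [v.map_add_eq_of_lt_right (by rw [h16]; exact hlt), h16]
    rw [a1, one_pow] at e1
    rw [a2, one_pow] at e2
    exact ⟨e1, e2⟩
  · have hh0 : v h ≠ 0 := (zero_lt_one.trans hgt).ne'
    have a1 : v (h + 256) = v h := v.map_add_eq_of_lt_left (by rw [h256]; exact hgt)
    have a2 : v (h + 16) = v h := v.map_add_eq_of_lt_left (by rw [h16]; exact hgt)
    rw [a1] at e1
    rw [a2] at e2
    refine ⟨?_, ?_⟩
    · have : v j * v h ^ 2 = v h * v h ^ 2 := by rw [e1]; exact pow_succ' (v h) 2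
      exact mul_right_cancel₀ (pow_ne_zero 2 hh0) this
    · have : v j1 * v h = v h ^ 2 * v h := by rw [e2]; exact pow_succ (v h) 2
      exact mul_right_cancel₀ hh0 this
  · have a1 : v (h + 256) ≤ 1 := (v.map_add _ _).trans (max_le heq.le h256.le)
    rw [heq, one_pow, mul_one] at e1
    rw [e1]
    exact pow_le_one₀ zero_le a1

/-- level 3: `j h³ = (h + 27)(h + 243)³`, `j1 h = (h + 27)(h + 3)³`. -/
theorem hi95_profile_three (h3 : v (3 : F) = 1) (h j j1 : F)
    (r1 : j * h ^ 3 = (h + 27) * (h + 243) ^ 3) (r2 : j1 * h = (h + 27) * (h + 3) ^ 3) :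
    hi95_Profile v 3 h j j1 := by
  have h27 : v (27 : F) = 1 := by
    have : (27 : F) = 3 ^ 3 := by norm_num
    rw [this]; exact hi95_pow_eq_one_of_eq_one v h3 3
  have h243 : v (243 : F) = 1 := by
    have : (243 : F) = 3 ^ 5 := by norm_num
    rw [this]; exact hi95_pow_eq_one_of_eq_one v h3 5
  have e1 := congrArg v r1
  have e2 := congrArg v r2
  simp only [map_mul, map_pow] at e1 e2
  refine ⟨fun hlt => ?_, fun hgt => ?_, fun heq => ?_⟩
  · have a1 : v (h + 27) = 1 := by
      rw [v.map_add_eq_of_lt_right (by rw [h27]; exact hlt), h27]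
    have a2 : v (h + 243) = 1 := by
      rw [v.map_add_eq_of_lt_right (by rw [h243]; exact hlt), h243]
    have a3 : v (h + 3) = 1 := by
      rw [v.map_add_eq_of_lt_right (by rw [h3]; exact hlt), h3]
    rw [a1, a2, one_pow, one_mul] at e1
    rw [a1, a3, one_pow, one_mul] at e2
    exact ⟨e1, e2⟩
  · have hh0 : v h ≠ 0 := (zero_lt_one.trans hgt).ne'
    have a1 : v (h + 27) = v h := v.map_add_eq_of_lt_left (by rw [h27]; exact hgt)
    have a2 : v (h + 243) = v h := v.map_add_eq_of_lt_left (by rw [h243]; exact hgt)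
    have a3 : v (h + 3) = v h := v.map_add_eq_of_lt_left (by rw [h3]; exact hgt)
    rw [a1, a2] at e1
    rw [a1, a3] at e2
    refine ⟨?_, ?_⟩
    · have : v j * v h ^ 3 = v h * v h ^ 3 := by rw [e1]
      exact mul_right_cancel₀ (pow_ne_zero 3 hh0) this
    · have : v j1 * v h = v h ^ 3 * v h := by rw [e2]; exact mul_comm _ _
      exact mul_right_cancel₀ hh0 this
  · have a1 : v (h + 27) ≤ 1 := (v.map_add _ _).trans (max_le heq.le h27.le)
    have a2 : v (h + 243) ≤ 1 := (v.map_add _ _).trans (max_le heq.le h243.le)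
    rw [heq, one_pow, mul_one] at e1
    rw [e1]
    calc v (h + 27) * v (h + 243) ^ 3 ≤ 1 * 1 := mul_le_mul' a1 (pow_le_one₀ zero_le a2)
      _ = 1 := one_mul _

/-! ### The arithmetic of the two Newton conditions -/

theorem hi95_arith {Γ' : Type*} [LinearOrderedCommGroupWithZero Γ'] (a b : Γ') (e q : ℕ)
    (he : 2 ≤ e) (hq : 1 ≤ q) (heq : e ≠ q) (ha0 : a ≠ 0) (ha : a < 1)
    (h1 : b * a ^ (e * q) = 1 ∨ b ^ q * a ^ e = 1)
    (h2 : b ^ e * a ^ q = 1 ∨ b ^ (e * q) * a = 1) : False := by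
  have hinj : ∀ m n : ℕ, a ^ m = a ^ n → m = n := fun m n hmn =>
    pow_right_injective₀ (pos_of_ne_zero ha0) ha.ne hmn
  have hb0 : b ≠ 0 := by
    rcases h1 with h | h
    · intro hb; rw [hb, zero_mul] at h; exact zero_ne_one h
    · intro hb; rw [hb, zero_pow (by omega), zero_mul] at h; exact zero_ne_one h
  have key : b ^ q * a ^ e = 1 → b ^ (e * q) * a ^ (e * e) = 1 := by
    intro h
    have h3 : (b ^ q * a ^ e) ^ e = 1 := by rw [h, one_pow]
    rw [mul_pow, ← pow_mul, ← pow_mul, mul_comm q e] at h3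
    exact h3
  rcases h1 with h1 | h1 <;> rcases h2 with h2 | h2
  · have h3 : b ^ e * a ^ (e * q * e) = 1 := by
      rw [pow_mul a, ← mul_pow, h1, one_pow]
    have h4 : a ^ (e * q * e) = a ^ q :=
      mul_left_cancel₀ (pow_ne_zero e hb0) (h3.trans h2.symm)
    have h5 := hinj _ _ h4
    have h6 : 2 * q * 2 ≤ e * q * e := Nat.mul_le_mul (Nat.mul_le_mul he le_rfl) he
    omega
  · have h3 : b ^ (e * q) * a ^ (e * q * (e * q)) = 1 := by
      rw [pow_mul a, ← mul_pow, h1, one_pow]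
    have h4 : a ^ (e * q * (e * q)) = a ^ 1 := by
      rw [pow_one]
      exact mul_left_cancel₀ (pow_ne_zero _ hb0) (h3.trans h2.symm)
    have h5 := hinj _ _ h4
    have h6 : 2 * 1 ≤ e * q := Nat.mul_le_mul he hq
    have h7 : 2 * 1 * (2 * 1) ≤ e * q * (e * q) := Nat.mul_le_mul h6 h6
    omega
  · have h3 := key h1
    have h3' : b ^ (e * q) * a ^ (q * q) = 1 := by
      have h6 : (b ^ e * a ^ q) ^ q = 1 := by rw [h2, one_pow]
      rw [mul_pow, ← pow_mul, ← pow_mul] at h6
      exact h6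
    have h4 : a ^ (e * e) = a ^ (q * q) :=
      mul_left_cancel₀ (pow_ne_zero _ hb0) (h3.trans h3'.symm)
    have h5 := hinj _ _ h4
    exact heq (Nat.mul_self_inj.mp h5)
  · have h3 := key h1
    have h4 : a ^ (e * e) = a ^ 1 := by
      rw [pow_one]
      exact mul_left_cancel₀ (pow_ne_zero _ hb0) (h3.trans h2.symm)
    have h5 := hinj _ _ h4
    have h6 : 2 * 2 ≤ e * e := Nat.mul_le_mul he he
    omega

/-! ### The valuative statement -/

theorem hi95_lt_of_mul_eq_one {a b : Γ} (hab : a * b = 1) (hb : b < 1) : 1 < a := by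
  by_contra ha
  rw [not_lt] at ha
  have : a * b < 1 := by
    calc a * b ≤ 1 * b := mul_le_mul' ha le_rfl
      _ = b := one_mul _
      _ < 1 := hb
  exact this.ne hab

/-- **Valuative form.** If `h`, `hq` have the valuation profile of Hauptmoduln of level `e`
with respect to `(j, j1)`, `(jq, jq1)`, the pairs `(jq; j)` and `(jq1; j1)` satisfy the Newton
dichotomy of the modular equation of level `q ≠ e`, and `jq` is integral over `ℤ[j]`, then
`hq` is regular where `h` is, and `hq⁻¹` is regular where `h⁻¹` is. -/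
theorem hi95_val (e q : ℕ) (he : 2 ≤ e) (hq : 1 ≤ q) (heq : e ≠ q)
    (h j j1 hq' jq jq1 : F) (hh0 : h ≠ 0) (hhq0 : hq' ≠ 0)
    (P1 : hi95_Profile v e h j j1) (P2 : hi95_Profile v e hq' jq jq1)
    (N1 : 1 < v j → v jq = v j ^ q ∨ v jq ^ q = v j)
    (N2 : 1 < v j1 → v jq1 = v j1 ^ q ∨ v jq1 ^ q = v j1)
    (C : v j ≤ 1 → v jq ≤ 1) :
    (v h ≤ 1 → v hq' ≤ 1) ∧ (1 ≤ v h → 1 ≤ v hq') := by
  have hvh0 : v h ≠ 0 := (Valuation.ne_zero_iff v).mpr hh0
  have hvhq0 : v hq' ≠ 0 := (Valuation.ne_zero_iff v).mpr hhq0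
  -- `v jq ≤ 1` forces `v hq' = 1`
  have K : v jq ≤ 1 → v hq' = 1 := by
    intro hjq
    rcases lt_trichotomy (v hq') 1 with hlt | heq1 | hgt
    · have h1 := (P2.1 hlt).1
      have h2 : 1 < v jq :=
        hi95_lt_of_mul_eq_one h1 (pow_lt_one₀ zero_le hlt (by omega))
      exact absurd hjq (not_le.mpr h2)
    · exact heq1
    · have h1 := (P2.2.1 hgt).1
      rw [h1] at hjq
      exact absurd hjq (not_le.mpr hgt)
  have K1 : v h = 1 → v hq' = 1 := fun h1 => K (C (P1.2.2 h1))
  refine ⟨fun hle => ?_, fun hge => ?_⟩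
  · rcases hle.lt_or_eq with hlt | heq1
    · by_contra hcon
      rw [not_le] at hcon
      obtain ⟨hj, hj1⟩ := P1.1 hlt
      obtain ⟨hjq, hjq1⟩ := P2.2.1 hcon
      have hjgt : 1 < v j := hi95_lt_of_mul_eq_one hj (pow_lt_one₀ zero_le hlt (by omega))
      have hj1gt : 1 < v j1 := hi95_lt_of_mul_eq_one hj1 hlt
      refine hi95_arith (v h) (v hq') e q he hq heq hvh0 hlt ?_ ?_
      · rcases N1 hjgt with n | n
        · left
          rw [← hjq, n, pow_mul, ← mul_pow, hj, one_pow]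
        · right
          rw [← hjq, n, hj]
      · rcases N2 hj1gt with n | n
        · left
          rw [← hjq1, n, ← mul_pow, hj1, one_pow]
        · right
          rw [pow_mul, ← hjq1, n, hj1]
    · exact (K1 heq1).le
  · rcases hge.lt_or_eq with hgt | heq1
    · by_contra hcon
      rw [not_le] at hcon
      obtain ⟨hj, hj1⟩ := P1.2.1 hgt
      obtain ⟨hjq, hjq1⟩ := P2.1 hcon
      have hj1gt : 1 < v j1 := by rw [hj1]; exact one_lt_pow₀ hgt (by omega)
      have hjgt : 1 < v j := by rw [hj]; exact hgt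
      refine hi95_arith (v hq') (v h) e q he hq heq hvhq0 hcon ?_ ?_
      · rcases N1 hjgt with n | n
        · right
          rw [← hj, ← n, hjq]
        · left
          rw [← hj, ← n, pow_mul, ← mul_pow, hjq, one_pow]
      · rcases N2 hj1gt with n | n
        · right
          rw [pow_mul, ← hj1, ← n, hjq1]
        · left
          rw [← hj1, ← n, ← mul_pow, hjq1, one_pow]
    · exact (K1 heq1.symm).ge

end valuation

/-! ### Integrality -/

section main

variable {R F : Type*} [CommRing R] [Field F] [Algebra R F]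

/-- valuative criterion of integrality over a subalgebra of a field. -/
theorem hi95_isIntegral_of_forall (S : Subalgebra R F) (x : F)
    (H : ∀ V : ValuationSubring F, (∀ y ∈ S, y ∈ V) → x ∈ V) : IsIntegral S x := by
  by_contra hx
  have hxC : x ∉ (integralClosure S F).toSubring := hx
  obtain ⟨V, hCV, hxV⟩ := Subring.exists_le_valuationSubring_of_isIntegrallyClosedIn hxC
  refine hxV (H V fun y hy => hCV ?_)
  show IsIntegral S y
  exact isIntegral_algebraMap (R := S) (x := ⟨y, hy⟩)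

theorem hi95_adjoin_le (V : ValuationSubring F) (hRV : ∀ r : R, algebraMap R F r ∈ V) (g : F)
    (hg : g ∈ V) : ∀ y ∈ Algebra.adjoin R ({g} : Set F), y ∈ V := by
  intro y hy
  induction hy using Algebra.adjoin_induction with
  | mem y hy =>
    rw [Set.mem_singleton_iff] at hy
    rw [hy]
    exact hg
  | algebraMap r => exact hRV r
  | add x y _ _ hx hy => exact V.add_mem _ _ hx hy
  | mul x y _ _ hx hy => exact V.mul_mem _ _ hx hy

theorem hi95_val_eq_one_of_mul (V : ValuationSubring F) (hRV : ∀ r : R, algebraMap R F r ∈ V)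
    (c : F) (hc : c ∈ V) (h : ∃ r : R, algebraMap R F r * c = 1) : V.valuation c = 1 := by
  obtain ⟨r, hr⟩ := h
  have h1 : V.valuation (algebraMap R F r) ≤ 1 := (V.valuation_le_one_iff _).mpr (hRV r)
  have h2 : V.valuation c ≤ 1 := (V.valuation_le_one_iff _).mpr hc
  have h3 : V.valuation (algebraMap R F r) * V.valuation c = 1 := by
    rw [← map_mul, hr, map_one]
  by_contra hne
  have hlt : V.valuation c < 1 := lt_of_le_of_ne h2 hne
  have h4 : V.valuation (algebraMap R F r) * V.valuation c < 1 := by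
    calc V.valuation (algebraMap R F r) * V.valuation c ≤ 1 * V.valuation c :=
          mul_le_mul' h1 le_rfl
      _ = V.valuation c := one_mul _
      _ < 1 := hlt
  exact h4.ne h3

/-- **Integrality of `β^* h`, generic level.** -/
theorem hi95_main_aux (e q : ℕ) (he : 2 ≤ e) (hq1 : 1 ≤ q) (hqe : e ≠ q)
    (Φ : Polynomial (Polynomial ℤ)) (hmon : Φ.Monic) (hdeg : Φ.natDegree = q + 1)
    (hmid : ∀ a, 1 ≤ a → a ≤ q → (Φ.coeff a).natDegree ≤ q)
    (hzero : (Φ.coeff 0).natDegree ≤ q + 1)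
    (hc0 : IsUnit ((Φ.coeff 0).coeff (q + 1)))
    (hcq : ∃ r : R, algebraMap R F r * (((Φ.coeff q).coeff q : ℤ) : F) = 1)
    (h hq j jq j1 jq1 : F) (hh0 : h ≠ 0) (hhq0 : hq ≠ 0)
    (hP : ∀ V : ValuationSubring F, (∀ r : R, algebraMap R F r ∈ V) →
      hi95_Profile V.valuation e h j j1 ∧ hi95_Profile V.valuation e hq jq jq1)
    (e1 : Φ.eval₂ ((Polynomial.aeval j : Polynomial ℤ →ₐ[ℤ] F) : Polynomial ℤ →+* F) jq = 0)
    (e2 : Φ.eval₂ ((Polynomial.aeval j1 : Polynomial ℤ →ₐ[ℤ] F) : Polynomial ℤ →+* F) jq1 = 0) :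
    IsIntegral (Algebra.adjoin R ({h} : Set F)) hq ∧
      IsIntegral (Algebra.adjoin R ({h⁻¹} : Set F)) hq⁻¹ := by
  have hV : ∀ V : ValuationSubring F, (∀ r : R, algebraMap R F r ∈ V) →
      (V.valuation h ≤ 1 → V.valuation hq ≤ 1) ∧ (1 ≤ V.valuation h → 1 ≤ V.valuation hq) := by
    intro V hRV
    obtain ⟨P1, P2⟩ := hP V hRV
    have hc0' : V.valuation ((((Φ.coeff 0).coeff (q + 1) : ℤ)) : F) = 1 := by
      rcases Int.isUnit_iff.mp hc0 with hc | hc
      · rw [hc]; simp
      · rw [hc]; simp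
    have hcq' : V.valuation ((((Φ.coeff q).coeff q : ℤ)) : F) = 1 :=
      hi95_val_eq_one_of_mul V hRV _ (intCast_mem V _) hcq
    exact hi95_val V.valuation e q he hq1 hqe h j j1 hq jq jq1 hh0 hhq0 P1 P2
      (fun hy => hi95_newton V.valuation q hq1 Φ hmon hdeg hmid hzero hc0' hcq' jq j e1 hy)
      (fun hy => hi95_newton V.valuation q hq1 Φ hmon hdeg hmid hzero hc0' hcq' jq1 j1 e2 hy)
      (fun hy => hi95_le_one_of_monic V.valuation Φ hmon jq j e1 hy)
  constructor
  · refine hi95_isIntegral_of_forall _ _ fun V hSV => ?_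
    have hRV : ∀ r : R, algebraMap R F r ∈ V := fun r =>
      hSV _ (Subalgebra.algebraMap_mem _ r)
    have hhV : h ∈ V := hSV _ (Algebra.subset_adjoin rfl)
    exact (V.valuation_le_one_iff _).mp
      ((hV V hRV).1 ((V.valuation_le_one_iff _).mpr hhV))
  · refine hi95_isIntegral_of_forall _ _ fun V hSV => ?_
    have hRV : ∀ r : R, algebraMap R F r ∈ V := fun r =>
      hSV _ (Subalgebra.algebraMap_mem _ r)
    have hhV : h⁻¹ ∈ V := hSV _ (Algebra.subset_adjoin rfl)
    have h1 : V.valuation h⁻¹ ≤ 1 := (V.valuation_le_one_iff _).mpr hhV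
    have h2 : V.valuation h * V.valuation h⁻¹ = 1 := by
      rw [← map_mul, mul_inv_cancel₀ hh0, map_one]
    have h3 : 1 ≤ V.valuation h := by
      calc (1 : _) = V.valuation h * V.valuation h⁻¹ := h2.symm
        _ ≤ V.valuation h * 1 := mul_le_mul' le_rfl h1
        _ = V.valuation h := mul_one _
    have h4 : 1 ≤ V.valuation hq := (hV V hRV).2 h3
    have h5 : V.valuation hq * V.valuation hq⁻¹ = 1 := by
      rw [← map_mul, mul_inv_cancel₀ hhq0, map_one]
    rw [← V.valuation_le_one_iff]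
    by_contra hcon
    rw [not_le] at hcon
    have h6 : 1 < V.valuation hq * V.valuation hq⁻¹ := by
      calc (1 : _) < V.valuation hq⁻¹ := hcon
        _ = 1 * V.valuation hq⁻¹ := (one_mul _).symm
        _ ≤ V.valuation hq * V.valuation hq⁻¹ := mul_le_mul' h4 le_rfl
    exact h6.ne' h5

/-- **Integrality of `β^* h`, level 2**: `h` the Hauptmodul of level 2
(`j h² = (h + 256)³`, `j(2τ) h = (h + 16)³`), `hq = h(qτ)`, `q ≠ 2`, `2` a unit of `R`. -/
theorem hi95_main_two (q : ℕ) (hq1 : 1 ≤ q) (hq2 : q ≠ 2)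
    (Φ : Polynomial (Polynomial ℤ)) (hmon : Φ.Monic) (hdeg : Φ.natDegree = q + 1)
    (hmid : ∀ a, 1 ≤ a → a ≤ q → (Φ.coeff a).natDegree ≤ q)
    (hzero : (Φ.coeff 0).natDegree ≤ q + 1)
    (hc0 : IsUnit ((Φ.coeff 0).coeff (q + 1)))
    (hcq : ∃ r : R, algebraMap R F r * (((Φ.coeff q).coeff q : ℤ) : F) = 1)
    (h2 : ∃ r : R, algebraMap R F r * 2 = 1)
    (h hq j jq j1 jq1 : F) (hh0 : h ≠ 0) (hhq0 : hq ≠ 0)
    (r1 : j * h ^ 2 = (h + 256) ^ 3) (r2 : j1 * h = (h + 16) ^ 3)
    (r3 : jq * hq ^ 2 = (hq + 256) ^ 3) (r4 : jq1 * hq = (hq + 16) ^ 3)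
    (e1 : Φ.eval₂ ((Polynomial.aeval j : Polynomial ℤ →ₐ[ℤ] F) : Polynomial ℤ →+* F) jq = 0)
    (e2 : Φ.eval₂ ((Polynomial.aeval j1 : Polynomial ℤ →ₐ[ℤ] F) : Polynomial ℤ →+* F) jq1 = 0) :
    IsIntegral (Algebra.adjoin R ({h} : Set F)) hq ∧
      IsIntegral (Algebra.adjoin R ({h⁻¹} : Set F)) hq⁻¹ := by
  refine hi95_main_aux 2 q le_rfl hq1 (fun h => hq2 h.symm) Φ hmon hdeg hmid hzero hc0 hcq
    h hq j jq j1 jq1 hh0 hhq0 (fun V hRV => ?_) e1 e2
  have hv2 : V.valuation (2 : F) = 1 :=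
    hi95_val_eq_one_of_mul V hRV _ (ofNat_mem V 2) h2
  exact ⟨hi95_profile_two V.valuation hv2 h j j1 r1 r2,
    hi95_profile_two V.valuation hv2 hq jq jq1 r3 r4⟩

/-- **Integrality of `β^* h`, level 3**: `h` the Hauptmodul of level 3
(`j h³ = (h + 27)(h + 243)³`, `j(3τ) h = (h + 27)(h + 3)³`), `hq = h(qτ)`, `q ≠ 3`, `3` a unit
of `R`. -/
theorem hi95_main_three (q : ℕ) (hq1 : 1 ≤ q) (hq3 : q ≠ 3)
    (Φ : Polynomial (Polynomial ℤ)) (hmon : Φ.Monic) (hdeg : Φ.natDegree = q + 1)
    (hmid : ∀ a, 1 ≤ a → a ≤ q → (Φ.coeff a).natDegree ≤ q)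
    (hzero : (Φ.coeff 0).natDegree ≤ q + 1)
    (hc0 : IsUnit ((Φ.coeff 0).coeff (q + 1)))
    (hcq : ∃ r : R, algebraMap R F r * (((Φ.coeff q).coeff q : ℤ) : F) = 1)
    (h3 : ∃ r : R, algebraMap R F r * 3 = 1)
    (h hq j jq j1 jq1 : F) (hh0 : h ≠ 0) (hhq0 : hq ≠ 0)
    (r1 : j * h ^ 3 = (h + 27) * (h + 243) ^ 3) (r2 : j1 * h = (h + 27) * (h + 3) ^ 3)
    (r3 : jq * hq ^ 3 = (hq + 27) * (hq + 243) ^ 3) (r4 : jq1 * hq = (hq + 27) * (hq + 3) ^ 3)
    (e1 : Φ.eval₂ ((Polynomial.aeval j : Polynomial ℤ →ₐ[ℤ] F) : Polynomial ℤ →+* F) jq = 0)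
    (e2 : Φ.eval₂ ((Polynomial.aeval j1 : Polynomial ℤ →ₐ[ℤ] F) : Polynomial ℤ →+* F) jq1 = 0) :
    IsIntegral (Algebra.adjoin R ({h} : Set F)) hq ∧
      IsIntegral (Algebra.adjoin R ({h⁻¹} : Set F)) hq⁻¹ := by
  refine hi95_main_aux 3 q (by norm_num) hq1 (fun h => hq3 h.symm) Φ hmon hdeg hmid hzero hc0 hcq
    h hq j jq j1 jq1 hh0 hhq0 (fun V hRV => ?_) e1 e2
  have hv3 : V.valuation (3 : F) = 1 :=
    hi95_val_eq_one_of_mul V hRV _ (ofNat_mem V 3) h3
  exact ⟨hi95_profile_three V.valuation hv3 h j j1 r1 r2,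
    hi95_profile_three V.valuation hv3 hq jq jq1 r3 r4⟩

end main

end Fermat.Agent.S34
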