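import Fermat.Agent.S34.StarU36
import Fermat.Agent.S18.NormDescent

/-!
# S34 lab (helper36): norm descent of the function-field core `(★)`

`su36_star_descent` : `su36_Star N' m s t → su36_Star N m s t` for `N ∣ N'` with `ψ(N')/ψ(N)`
prime to `m` (the Galois action is coefficientwise, hence commutes with the inclusion of levels;
the `m`-th root descends by the norm, `nd38_descent`).

`su36_star_of_aux` : for a prime power `m = p ^ a` and a prime `q ≠ p`, `(★)` at the auxiliary
levels `lcm(N, p₀)`, `p₀ ∈ {2, 3}`, `p₀ ≠ q`, gives `(★)` at level `N`.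

`su36_U_of_aux` : the resulting statement `(U)` at level `N`.
-/

set_option autoImplicit false
set_option synthInstance.maxHeartbeats 400000

open AlgebraicCurve ModularCurve IntermediateField

namespace Fermat.Agent.S34

open Fermat.Agent.S18

local notation "Q̄" => AlgebraicClosure ℚ

/-- The arithmetic Galois action commutes with the inclusion of levels. -/
theorem su36_inclusion_smul {N N' : ℕ} (h : N ∣ N') (s : Q̄ ≃ₐ[ℚ] Q̄)
    (f : modularFunctionFieldBar N) :
    IntermediateField.inclusion (nd38_bar_le h)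
        (arithmeticGalois (modularFunctionFieldFull N) s • f) =
      arithmeticGalois (modularFunctionFieldFull N') s •
        IntermediateField.inclusion (nd38_bar_le h) f := by
  apply Subtype.ext
  rw [IntermediateField.coe_inclusion, coe_arithmeticGalois_smul, coe_arithmeticGalois_smul,
    IntermediateField.coe_inclusion]

/-- The underlying `q`-series of the double-difference quotient. -/
theorem su36_coe_quot (N : ℕ) (s t : Q̄ ≃ₐ[ℚ] Q̄) (f : modularFunctionFieldBar N) :
    (((arithmeticGalois (modularFunctionFieldFull N) (s * t) • f) * f /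
      ((arithmeticGalois (modularFunctionFieldFull N) s • f) *
        (arithmeticGalois (modularFunctionFieldFull N) t • f)) : modularFunctionFieldBar N) :
          LaurentSeries Q̄) =
      coeffMap ((s * t : Q̄ ≃ₐ[ℚ] Q̄) : Q̄ →+* Q̄) (f : LaurentSeries Q̄) * (f : LaurentSeries Q̄) /
        (coeffMap (s : Q̄ →+* Q̄) (f : LaurentSeries Q̄) *
          coeffMap (t : Q̄ →+* Q̄) (f : LaurentSeries Q̄)) := by
  rw [IntermediateField.coe_div, IntermediateField.coe_mul, IntermediateField.coe_mul,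
    coe_arithmeticGalois_smul, coe_arithmeticGalois_smul, coe_arithmeticGalois_smul]

/-- **Norm descent of `(★)`** from level `N'` to level `N ∣ N'` when `ψ(N') / ψ(N)` is prime
to `m`. -/
theorem su36_star_descent {N N' : ℕ} [NeZero N] [NeZero N'] (h : N ∣ N') (m : ℕ)
    (hcop : Nat.Coprime (dedekindPsi N' / dedekindPsi N) m) (s t : Q̄ ≃ₐ[ℚ] Q̄)
    (hS : su36_Star N' m s t) : su36_Star N m s t := by
  intro f hf hP
  have hf' : IntermediateField.inclusion (nd38_bar_le h) f ≠ 0 :=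
    (map_ne_zero (IntermediateField.inclusion (nd38_bar_le h))).mpr hf
  obtain ⟨v', hv'⟩ := hS (IntermediateField.inclusion (nd38_bar_le h) f) hf'
    (fun P' => nd38_ord_dvd h (m : ℤ) f hP P')
  have h1 : (v' : LaurentSeries Q̄) ^ m =
      coeffMap ((s * t : Q̄ ≃ₐ[ℚ] Q̄) : Q̄ →+* Q̄) (f : LaurentSeries Q̄) * (f : LaurentSeries Q̄) /
        (coeffMap (s : Q̄ →+* Q̄) (f : LaurentSeries Q̄) *
          coeffMap (t : Q̄ →+* Q̄) (f : LaurentSeries Q̄)) := by
    have h3 := congrArg Subtype.val hv'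
    rw [su36_coe_quot N' s t, IntermediateField.coe_inclusion] at h3
    rw [← h3]
    exact (SubmonoidClass.coe_pow v' m).symm
  have hu : coeffMap ((s * t : Q̄ ≃ₐ[ℚ] Q̄) : Q̄ →+* Q̄) (f : LaurentSeries Q̄) *
      (f : LaurentSeries Q̄) / (coeffMap (s : Q̄ →+* Q̄) (f : LaurentSeries Q̄) *
          coeffMap (t : Q̄ →+* Q̄) (f : LaurentSeries Q̄)) ∈ modularFunctionFieldBar N := by
    rw [← su36_coe_quot N s t f]
    exact Subtype.property _
  obtain ⟨w, hw, hwm⟩ := nd38_descent h m hcop _ v' hu v'.2 h1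
  refine ⟨⟨w, hw⟩, Subtype.ext ?_⟩
  rw [su36_coe_quot N s t f]
  exact (SubmonoidClass.coe_pow (⟨w, hw⟩ : modularFunctionFieldBar N) m).trans hwm

/-- **Assembly form.** For a prime `p ≠ q`: `(★)` at the auxiliary levels `lcm(N, p₀)`,
`p₀ ∈ {2, 3}`, `p₀ ≠ q`, for the exponent `p ^ a` gives `(★)` at level `N`. -/
theorem su36_star_of_aux (N : ℕ) [NeZero N] (q p a : ℕ) (hp : p.Prime) (hne : p ≠ q)
    (s t : Q̄ ≃ₐ[ℚ] Q̄)
    (hS : ∀ p₀ : ℕ, (p₀ = 2 ∨ p₀ = 3) → p₀ ≠ q → su36_Star (Nat.lcm N p₀) (p ^ a) s t) :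
    su36_Star N (p ^ a) s t := by
  obtain ⟨p₀, hp₀, hp₀q, hcop⟩ := nd38_aux_level N q p hp hne
  have hp₀0 : p₀ ≠ 0 := by rcases hp₀ with rfl | rfl <;> norm_num
  have : NeZero (Nat.lcm N p₀) := ⟨Nat.lcm_ne_zero (NeZero.ne N) hp₀0⟩
  exact su36_star_descent (Nat.dvd_lcm_left N p₀) (p ^ a) (hcop a) s t (hS p₀ hp₀ hp₀q)

/-- **`(U)` at level `N` from `(★)` at the auxiliary levels.** -/
theorem su36_U_of_aux (N : ℕ) [NeZero N] (q p a : ℕ) (hp : p.Prime) (hne : p ≠ q)
    (s t : Q̄ ≃ₐ[ℚ] Q̄)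
    (hS : ∀ p₀ : ℕ, (p₀ = 2 ∨ p₀ = 3) → p₀ ≠ q → su36_Star (Nat.lcm N p₀) (p ^ a) s t)
    (x : JZero N) (hx : (p ^ a) • x = 0) : s • t • x - s • x - t • x + x = 0 :=
  su36_U_of_star N (p ^ a) (pow_ne_zero a hp.ne_zero) s t
    (su36_star_of_aux N q p a hp hne s t hS) x hx

end Fermat.Agent.S34
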