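import Fermat.Agent.S34.Iface47
import Fermat.Agent.S34.StarDescent36

/-!
# S34 lab (helper36): the interface packages `s34i47_Pkg_Level` and `s34i47_Pkg_Pic`, literally

* `su36_dd_eq` / `su36_FFU_iff` : `s34i47_FFU N q m` is `su36_Star N m t t` for every inertia
  element `t` at `q` (shape only).
* `su36_pkg_level : s34i47_Pkg_Level` : norm descent of FFU from the auxiliary levels
  `lcm(N, p₀)` to `N` (`su36_star_of_aux`, i.e. `nd38_descent` + `nd38_aux_level` of S18).
* `su36_pkg_pic : s34i47_Pkg_Pic` : FFU for all `p ^ n` gives `(U)` (`su36_U_diag`).  The literal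
  `Prop` has no hypothesis on `p`; the degenerate case `p = 0` is handled by
  `su36_eq_one_of_const`: FFU for the exponent `0` forces every inertia element to be trivial.
-/

set_option autoImplicit false

open AlgebraicCurve ModularCurve IntermediateField

namespace Fermat.Agent.S34

open Fermat.Agent.S18

local notation "Q̄" => AlgebraicClosure ℚ

/-- The double difference of the interface is the quotient used in `su36_Star`. -/
theorem su36_dd_eq (N : ℕ) (t : Q̄ ≃ₐ[ℚ] Q̄) (f : modularFunctionFieldBar N) :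
    s34i47_dd (arithmeticRingAut (modularFunctionFieldFull N) t)
        (arithmeticRingAut (modularFunctionFieldFull N) t) f =
      (arithmeticGalois (modularFunctionFieldFull N) (t * t) • f) * f /
        ((arithmeticGalois (modularFunctionFieldFull N) t • f) *
          (arithmeticGalois (modularFunctionFieldFull N) t • f)) := by
  rw [map_mul, mul_smul]
  rfl

/-- `s34i47_FFU` in terms of `su36_Star`. -/
theorem su36_FFU_iff (N q m : ℕ) :
    s34i47_FFU N q m ↔ ∀ A : ValuationSubring Q̄, A.LiesOverPrime q →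
      ∀ t ∈ A.inertiaSubgroupIn ℚ, su36_Star N m t t := by
  constructor
  · intro h A hA t ht f hf hP
    obtain ⟨g, hg⟩ := h A hA t ht f hf hP
    exact ⟨g, by rw [hg, su36_dd_eq]⟩
  · intro h A hA t ht f hf hP
    obtain ⟨g, hg⟩ := h A hA t ht f hf hP
    exact ⟨g, by rw [hg, su36_dd_eq]⟩

/-- **P0, literally**: level change by norm descent. -/
theorem su36_pkg_level : s34i47_Pkg_Level := by
  intro N q p hN hq hp hpq h n
  have : NeZero N := hN
  rw [su36_FFU_iff]
  intro A hA t ht
  exact su36_star_of_aux N q p n hp hpq t t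
    (fun p₀ hp₀ hp₀q => (su36_FFU_iff _ q (p ^ n)).mp (h p₀ hp₀ hp₀q n) A hA t ht)

/-- An automorphism `σ` of `ℚ̄` with `σ(σ c) c = σ(c)^2` for all `c ≠ 0` is trivial. -/
theorem su36_eq_one_of_const (σ : Q̄ ≃ₐ[ℚ] Q̄)
    (h : ∀ c : Q̄, c ≠ 0 → σ (σ c) * c = σ c * σ c) : σ = 1 := by
  -- additive form
  have hadd : ∀ c : Q̄, σ (σ c) + c = 2 * σ c := by
    intro c
    rcases eq_or_ne c 0 with rfl | hc0
    · simp
    rcases eq_or_ne (c + 1) 0 with hc1 | hc1
    · have hc : c = -1 := by linear_combination hc1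
      rw [hc]; simp; norm_num
    have h1 := h c hc0
    have h2 := h (c + 1) hc1
    simp only [map_add, map_one] at h2
    linear_combination h2 - h1
  -- iterates
  have hiter : ∀ (k : ℕ) (c : Q̄), (σ ^ k) c = c + (k : Q̄) * (σ c - c) := by
    intro k
    induction k with
    | zero => intro c; simp
    | succ k ih =>
      intro c
      rw [pow_succ', AlgEquiv.mul_apply, ih c, map_add, map_mul, map_natCast, map_sub]
      push_cast
      linear_combination (k : Q̄) * hadd c
  ext c
  show σ c = c
  -- the orbit of `c` lies in the finite root set of its minimal polynomial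
  have halg : Algebra.IsAlgebraic ℚ Q̄ := AlgebraicClosure.isAlgebraic ℚ
  have hint : IsIntegral ℚ c := (halg.isAlgebraic c).isIntegral
  have hroot : ∀ k : ℕ, (σ ^ k) c ∈ (minpoly ℚ c).rootSet Q̄ := by
    intro k
    rw [Polynomial.mem_rootSet]
    refine ⟨minpoly.ne_zero hint, ?_⟩
    have h5 := Polynomial.aeval_algHom_apply ((σ ^ k : Q̄ ≃ₐ[ℚ] Q̄) : Q̄ →ₐ[ℚ] Q̄) c (minpoly ℚ c)
    rw [minpoly.aeval, map_zero] at h5
    exact h5
  obtain ⟨i, j, hij, heq⟩ := Finite.exists_ne_map_eq_of_infinite
    (fun k : ℕ => (⟨(σ ^ k) c, hroot k⟩ : (minpoly ℚ c).rootSet Q̄))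
  have heq' : (σ ^ i) c = (σ ^ j) c := congrArg Subtype.val heq
  rw [hiter, hiter] at heq'
  have h3 : ((i : Q̄) - (j : Q̄)) * (σ c - c) = 0 := by linear_combination heq'
  rcases mul_eq_zero.mp h3 with h4 | h4
  · exfalso
    apply hij
    have : (i : Q̄) = (j : Q̄) := by linear_combination h4
    exact_mod_cast this
  · linear_combination h4

/-- The order of a constant is `0`. -/
theorem su36_ord_algebraMap {K F : Type*} [Field K] [Field F] [Algebra K F] (v : Place K F)
    (c : K) : v.ord (algebraMap K F c) = 0 := by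
  rcases eq_or_ne c 0 with rfl | hc
  · simp
  have hu : IsUnit (algebraMap K v.toValuationSubring c) := (Ne.isUnit hc).map _
  have := v.ord_coe_unit hu.unit
  rwa [IsUnit.unit_spec, v.coe_algebraMap] at this

/-- FFU for the exponent `0` forces every inertia element at `q` to be trivial. -/
theorem su36_trivial_of_FFU_zero (N q : ℕ) (h : s34i47_FFU N q 0)
    (A : ValuationSubring Q̄) (hA : A.LiesOverPrime q) (t : Q̄ ≃ₐ[ℚ] Q̄)
    (ht : t ∈ A.inertiaSubgroupIn ℚ) : t = 1 := by
  apply su36_eq_one_of_const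
  intro c hc
  have hf : algebraMap Q̄ (modularFunctionFieldBar N) c ≠ 0 :=
    (map_ne_zero (algebraMap Q̄ (modularFunctionFieldBar N))).mpr hc
  obtain ⟨g, hg⟩ := h A hA t ht (algebraMap Q̄ (modularFunctionFieldBar N) c) hf
    (fun v => by rw [su36_ord_algebraMap]; exact dvd_zero _)
  rw [pow_zero] at hg
  unfold s34i47_dd at hg
  rw [arithmeticRingAut_algebraMap, arithmeticRingAut_algebraMap, ← map_mul, ← map_mul,
    ← map_div₀] at hg
  have h1 : (1 : Q̄) = t (t c) * c / (t c * t c) := by
    apply (algebraMap Q̄ (modularFunctionFieldBar N)).injective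
    rw [map_one]
    exact hg
  have htc : t c ≠ 0 := (map_ne_zero t).mpr hc
  field_simp at h1
  linear_combination -h1

/-- **P9a, literally**: FFU for all `p ^ n` gives `(U)`. -/
theorem su36_pkg_pic : s34i47_Pkg_Pic := by
  intro N q p _ h n P hP t ht x hx
  rcases eq_or_ne (p ^ n) 0 with h0 | h0
  · -- degenerate case: `p = 0`, `n ≥ 1`
    have ht1 : t = 1 := su36_trivial_of_FFU_zero N q (h0 ▸ h n) P hP t ht
    rw [ht1]
    simp only [one_smul]
    abel
  · exact su36_U_diag N (p ^ n) h0 t ((su36_FFU_iff N q (p ^ n)).mp (h n) P hP t ht) x hx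

end Fermat.Agent.S34
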