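import Fermat.Agent.S34.FrameGlue15
import Fermat.Agent.S34.HauptIntInst95
import Fermat.Agent.S34.Iface47c
import Fermat.Agent.S37.KroneckerFrob50

/-!
# S34 lab (helper15): the two vertical primes of the charts are INCOMPARABLE

Canonical frame data at level `M' * q` (`q` prime, `q ∤ M'`): `V_∞ = cm85_Vinf (M' * q) hπ`,
`w = al97L_w φ M' q hq hqM`, `V_0 = cm15_V0 φ M' q hq hqM hπ = V_∞.comap w`
(`= s34i47c_V0 M' q hq hqM hπ` for `φ = algebraMap K ℚ̄`), `h` the Hauptmodul of level `2` or `3`,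
`B` one of the charts `pk15_chart R {h}`, `pk15_chart R {h⁻¹}`.

The two vertical primes `P_∞ = {x ∈ B | π⁻¹ x ∈ V_∞}`, `P_0 = {x ∈ B | π⁻¹ x ∈ V_0}` of `B` are
incomparable: there are EXPLICIT elements

* `x₁ = w h - h ^ q ∈ B` with `π⁻¹ x₁ ∈ V_∞`, `π⁻¹ x₁ ∉ V_0`   (`x₁ ∈ P_∞ ∖ P_0`),
* `x₂ = h - (w h) ^ q ∈ B` with `π⁻¹ x₂ ∈ V_0`, `π⁻¹ x₂ ∉ V_∞`   (`x₂ ∈ P_0 ∖ P_∞`),

and the same with `h⁻¹` for the chart at infinity.  This is what the clauses `z ∉ P₂`, `z' ∉ P₁`
of `s34i47d_LocStrW` (second route) need beyond (3a) + (3b): they do NOT follow from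
Smooth × 2 + Transv + saturation.  No `U`, `V`, no `P4′`: only the Frobenius congruence
`h(Q^q) ≡ h(Q)^q mod q`, `w ∘ w = id`, and `h̄ ∉ κ((Q^q))` (from `j h² = (h + 256)³` resp.
`j h³ = (h + 27)(h + 243)³` and the `Q⁻¹`-coefficient of `j`).

Main statements: `inc15_core` (generic), `inc15_level2`, `inc15_level3` (`cm15_V0 φ`),
`inc15_Incomp` + `inc15_haupt` (canonical `s34i47c_V0`, every admissible Hauptmodul, binder block
of `s34i47c_FrameLS` / `s34i47d_FrameLSW`).

All names are prefixed `inc15_`.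
-/

set_option autoImplicit false
set_option linter.unusedSectionVars false
set_option linter.style.haveILetI false

open ModularCurve IntermediateField Polynomial

namespace Fermat.Agent.S34

open Fermat.Agent.S18 Fermat.Agent.S24 Fermat.Agent.S28

local notation "Q̄" => AlgebraicClosure ℚ

/-! ### Series over a field of characteristic `q` -/

section series

variable (κ : Type*) [Field κ] (q : ℕ) [NeZero q]

/-- the `j`-series is not a series in `Q^q`. -/
theorem inc15_j_not_range (hq : q.Prime) (Z : LaurentSeries κ) : qExpand κ q Z ≠ jqModC κ := by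
  intro h
  have h1 := ModularCurve.coeff_jqModC_neg_one κ
  rw [← h, qExpand_coeff_of_not_dvd] at h1
  · exact zero_ne_one h1
  · intro hd
    have h2 : (q : ℤ) ∣ 1 := (dvd_neg).mp hd
    have h3 : q ∣ 1 := by exact_mod_cast h2
    exact hq.one_lt.ne' (Nat.dvd_one.mp h3)

theorem inc15_ofNat_ne_zero (n : ℕ) [n.AtLeastTwo] (hn : (OfNat.ofNat n : κ) ≠ 0) :
    (OfNat.ofNat n : LaurentSeries κ) ≠ 0 := by
  intro h0
  apply hn
  apply (algebraMap κ (LaurentSeries κ)).injective
  rw [map_ofNat, map_zero]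
  exact h0

/-- the level-2 Hauptmodul is not a series in `Q^q` (`2 ≠ 0` in `κ`). -/
theorem inc15_h2_not_range (hq : q.Prime) (h2 : (2 : κ) ≠ 0) (Z : LaurentSeries κ) :
    qExpand κ q Z ≠ h70_h2 κ := by
  intro h
  have H := h70_j_mul_h2_sq κ
  rw [← h] at H
  have h2' := inc15_ofNat_ne_zero κ 2 h2
  have h256 : (256 : LaurentSeries κ) ≠ 0 := by
    have : (256 : LaurentSeries κ) = 2 ^ 8 := by norm_num
    rw [this]
    exact pow_ne_zero _ h2'
  have hZ : Z ≠ 0 := by
    rintro rfl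
    rw [map_zero, zero_add, zero_pow two_ne_zero, mul_zero] at H
    exact pow_ne_zero 3 h256 H.symm
  have hqZ : qExpand κ q Z ≠ 0 := (_root_.map_ne_zero _).mpr hZ
  refine inc15_j_not_range κ q hq ((Z + 256) ^ 3 / Z ^ 2) ?_
  rw [map_div₀, map_pow, map_pow, map_add, map_ofNat, div_eq_iff (pow_ne_zero 2 hqZ)]
  exact H.symm

/-- the level-3 Hauptmodul is not a series in `Q^q` (`3 ≠ 0` in `κ`). -/
theorem inc15_h3_not_range (hq : q.Prime) (h3 : (3 : κ) ≠ 0) (Z : LaurentSeries κ) :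
    qExpand κ q Z ≠ h34_h3R κ := by
  intro h
  have H := h34_h3R_j κ
  rw [← h] at H
  have h3' := inc15_ofNat_ne_zero κ 3 h3
  have h27 : (27 : LaurentSeries κ) ≠ 0 := by
    have : (27 : LaurentSeries κ) = 3 ^ 3 := by norm_num
    rw [this]
    exact pow_ne_zero _ h3'
  have h243 : (243 : LaurentSeries κ) ≠ 0 := by
    have : (243 : LaurentSeries κ) = 3 ^ 5 := by norm_num
    rw [this]
    exact pow_ne_zero _ h3'
  have hZ : Z ≠ 0 := by
    rintro rfl
    rw [map_zero, zero_add, zero_add, zero_pow three_ne_zero, mul_zero] at H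
    exact mul_ne_zero h27 (pow_ne_zero 3 h243) H.symm
  have hqZ : qExpand κ q Z ≠ 0 := (_root_.map_ne_zero _).mpr hZ
  refine inc15_j_not_range κ q hq ((Z + 27) * (Z + 243) ^ 3 / Z ^ 3) ?_
  rw [map_div₀, map_mul, map_pow, map_pow, map_add, map_add, map_ofNat, map_ofNat,
    div_eq_iff (pow_ne_zero 3 hqZ)]
  exact H.symm

/-- the inverse of a series which is not a series in `Q^q` is not a series in `Q^q`. -/
theorem inc15_inv_not_range {H H' : LaurentSeries κ} (hHH' : H * H' = 1)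
    (hH : ∀ Z : LaurentSeries κ, qExpand κ q Z ≠ H) (Z : LaurentSeries κ) :
    qExpand κ q Z ≠ H' := by
  intro h
  refine hH Z⁻¹ ?_
  rw [map_inv₀, h]
  exact (eq_inv_of_mul_eq_one_left hHH').symm

/-- Frobenius: a series fixed by the coefficientwise Frobenius has `H ^ q = H(Q^q)`. -/
theorem inc15_pow_of_fixed (hq : q.Prime) (hchar : (q : κ) = 0) (H : LaurentSeries κ)
    (hfix : ∀ f : κ →+* κ, coeffMap f H = H) : H ^ q = qExpand κ q H := by
  have : Fact q.Prime := ⟨hq⟩
  have : CharP κ q := (CharP.charP_iff_prime_eq_zero hq).mpr hchar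
  rw [Fermat.Agent.S37.kr50_pow_char q H, hfix]

end series

/-! ### The generic statement -/

section core

variable {R K : Type} [CommRing R] [IsDomain R] [IsDiscreteValuationRing R] [Field K] [CharZero K]
  [Algebra R K] [IsFractionRing R K] (φ : K →+* Q̄)
  (M' q : ℕ) [NeZero M'] [NeZero q] (hq : q.Prime) (hqM : ¬ q ∣ M')
  [Algebra R ↥(modularFunctionFieldFullC K (M' * q))]
  [IsScalarTower R K ↥(modularFunctionFieldFullC K (M' * q))]

/-- `w` exchanges `π⁻¹ (X - (w X) ^ q)` and `π⁻¹ (w X - X ^ q)`. -/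
theorem inc15_w_swap (π : R) (X : ↥(modularFunctionFieldFullC K (M' * q))) :
    al97L_w φ M' q hq hqM ((algebraMap R ↥(modularFunctionFieldFullC K (M' * q)) π)⁻¹ *
        (X - (al97L_w φ M' q hq hqM X) ^ q)) =
      (algebraMap R ↥(modularFunctionFieldFullC K (M' * q)) π)⁻¹ *
        (al97L_w φ M' q hq hqM X - X ^ q) := by
  rw [map_mul, map_inv₀, cm15_w_algebraMap, map_sub, map_pow, al97L_w_w]

theorem inc15_w_swap' (π : R) (X : ↥(modularFunctionFieldFullC K (M' * q))) :
    al97L_w φ M' q hq hqM ((algebraMap R ↥(modularFunctionFieldFullC K (M' * q)) π)⁻¹ *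
        (al97L_w φ M' q hq hqM X - X ^ q)) =
      (algebraMap R ↥(modularFunctionFieldFullC K (M' * q)) π)⁻¹ *
        (X - (al97L_w φ M' q hq hqM X) ^ q) := by
  rw [map_mul, map_inv₀, cm15_w_algebraMap, map_sub, map_pow, al97L_w_w]

/-- **Generic incomparability.**  `X ∈ F_K(M' q)` of level `M'` with `R`-integral expansion `y`
such that the reduction `ȳ` satisfies `ȳ ^ q = ȳ(Q^q)` and is not a series in `Q^q`.  Then
`x₁ = w X - X ^ q` lies in `π V_∞` but not in `π V_0`, and `x₂ = X - (w X) ^ q` lies in `π V_0`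
but not in `π V_∞`. -/
theorem inc15_core {π : R} (hπ : Irreducible π)
    (x : ↥(modularFunctionFieldFullC K M')) (X : ↥(modularFunctionFieldFullC K (M' * q)))
    (hX : (X : LaurentSeries K) = (x : LaurentSeries K)) (y : LaurentSeries R)
    (hy : (x : LaurentSeries K) = coeffMap (algebraMap R K) y)
    (hpow : coeffMap (IsLocalRing.residue R) y ^ q =
      qExpand (IsLocalRing.ResidueField R) q (coeffMap (IsLocalRing.residue R) y))
    (hnr : ∀ Z : LaurentSeries (IsLocalRing.ResidueField R),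
      qExpand (IsLocalRing.ResidueField R) q Z ≠ coeffMap (IsLocalRing.residue R) y) :
    ((algebraMap R ↥(modularFunctionFieldFullC K (M' * q)) π)⁻¹ *
          (al97L_w φ M' q hq hqM X - X ^ q) ∈ cm85_Vinf (K := K) (M' * q) hπ ∧
        (algebraMap R ↥(modularFunctionFieldFullC K (M' * q)) π)⁻¹ *
          (al97L_w φ M' q hq hqM X - X ^ q) ∉ cm15_V0 φ M' q hq hqM hπ) ∧
      ((algebraMap R ↥(modularFunctionFieldFullC K (M' * q)) π)⁻¹ *
          (X - (al97L_w φ M' q hq hqM X) ^ q) ∈ cm15_V0 φ M' q hq hqM hπ ∧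
        (algebraMap R ↥(modularFunctionFieldFullC K (M' * q)) π)⁻¹ *
          (X - (al97L_w φ M' q hq hqM X) ^ q) ∉ cm85_Vinf (K := K) (M' * q) hπ) := by
  have hw : ((al97L_w φ M' q hq hqM X : ↥(modularFunctionFieldFullC K (M' * q))) :
      LaurentSeries K) = coeffMap (algebraMap R K) (qExpand R q y) := by
    rw [al97L_w_alpha φ M' q hq hqM x X hX, hy, coeffMap_qExpand]
  have hXy : (X : LaurentSeries K) = coeffMap (algebraMap R K) y := hX.trans hy
  -- (1) the Frobenius congruence on `V_∞`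
  have h1 : (algebraMap R ↥(modularFunctionFieldFullC K (M' * q)) π)⁻¹ *
      (al97L_w φ M' q hq hqM X - X ^ q) ∈ cm85_Vinf (K := K) (M' * q) hπ := by
    rw [IsScalarTower.algebraMap_apply R K ↥(modularFunctionFieldFullC K (M' * q))]
    refine (gv85_gauss (IsLocalRing.residue R) π (pk85_res_iff hπ) hπ.ne_zero _ _ _
      (qExpand R q y - y ^ q) ?_).mpr ?_
    · show ((al97L_w φ M' q hq hqM X : ↥(modularFunctionFieldFullC K (M' * q))) :
        LaurentSeries K) - (X : LaurentSeries K) ^ q = _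
      rw [hw, hXy, map_sub, map_pow]
    · rw [map_sub, map_pow, coeffMap_qExpand, hpow, sub_self]
  -- (2) `x₂ ∉ π V_∞`
  have h2 : (algebraMap R ↥(modularFunctionFieldFullC K (M' * q)) π)⁻¹ *
      (X - (al97L_w φ M' q hq hqM X) ^ q) ∉ cm85_Vinf (K := K) (M' * q) hπ := by
    intro hmem
    rw [IsScalarTower.algebraMap_apply R K ↥(modularFunctionFieldFullC K (M' * q))] at hmem
    have hcoe : ((X - (al97L_w φ M' q hq hqM X) ^ q : ↥(modularFunctionFieldFullC K (M' * q))) :
        LaurentSeries K) = coeffMap (algebraMap R K) (y - qExpand R q y ^ q) := by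
      show (X : LaurentSeries K) - ((al97L_w φ M' q hq hqM X :
        ↥(modularFunctionFieldFullC K (M' * q))) : LaurentSeries K) ^ q = _
      rw [hw, hXy, map_sub, map_pow]
    have h0 := (gv85_gauss (IsLocalRing.residue R) π (pk85_res_iff hπ) hπ.ne_zero _ _ _
      (y - qExpand R q y ^ q) hcoe).mp hmem
    rw [map_sub, map_pow, coeffMap_qExpand, ← map_pow] at h0
    exact hnr _ (sub_eq_zero.mp h0).symm
  refine ⟨⟨h1, ?_⟩, ?_, h2⟩
  · rw [cm15_mem_V0, inc15_w_swap']
    exact h2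
  · rw [cm15_mem_V0, inc15_w_swap]
    exact h1

end core

/-! ### Incomparability of the two vertical primes of a chart -/

/-- **Incomparability** of the vertical primes `{x ∈ B | π⁻¹ x ∈ V₁}`, `{x ∈ B | π⁻¹ x ∈ V₂}` of
a chart `B`: each contains an element of `B` which the other does not contain. -/
def inc15_Incomp {R F : Type*} [CommRing R] [Field F] [Algebra R F] (π : R) (B : Subalgebra R F)
    (V₁ V₂ : Subring F) : Prop :=
  (∃ x ∈ B, (algebraMap R F π)⁻¹ * x ∈ V₁ ∧ (algebraMap R F π)⁻¹ * x ∉ V₂) ∧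
  (∃ x ∈ B, (algebraMap R F π)⁻¹ * x ∈ V₂ ∧ (algebraMap R F π)⁻¹ * x ∉ V₁)

/-- Ideal form: a prime-like set `n` of `B` which contains both vertical primes is not one of
them (consumer form: `z ∈ n` generating `n` modulo one branch cannot lie in that branch). -/
theorem inc15_Incomp.exists_left {R F : Type*} [CommRing R] [Field F] [Algebra R F] {π : R}
    {B : Subalgebra R F} {V₁ V₂ : Subring F} (h : inc15_Incomp π B V₁ V₂) :
    ∃ x : B, (algebraMap R F π)⁻¹ * (x : F) ∈ V₁ ∧ (algebraMap R F π)⁻¹ * (x : F) ∉ V₂ := by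
  obtain ⟨⟨x, hxB, hx⟩, -⟩ := h
  exact ⟨⟨x, hxB⟩, hx⟩

theorem inc15_Incomp.exists_right {R F : Type*} [CommRing R] [Field F] [Algebra R F] {π : R}
    {B : Subalgebra R F} {V₁ V₂ : Subring F} (h : inc15_Incomp π B V₁ V₂) :
    ∃ x : B, (algebraMap R F π)⁻¹ * (x : F) ∈ V₂ ∧ (algebraMap R F π)⁻¹ * (x : F) ∉ V₁ := by
  obtain ⟨-, ⟨x, hxB, hx⟩⟩ := h
  exact ⟨⟨x, hxB⟩, hx⟩

section inst

variable {R K : Type} [CommRing R] [IsDomain R] [IsDiscreteValuationRing R] [Field K] [CharZero K]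
  [Algebra R K] [IsFractionRing R K] (φ : K →+* Q̄)
  (M' q : ℕ) [NeZero M'] [NeZero q] (hq : q.Prime) (hqM : ¬ q ∣ M')
  [Algebra R ↥(modularFunctionFieldFullC K (M' * q))]
  [IsScalarTower R K ↥(modularFunctionFieldFullC K (M' * q))]

theorem inc15_residue_q (hqR : ¬ IsUnit (q : R)) : (q : IsLocalRing.ResidueField R) = 0 := by
  have h := (IsLocalRing.residue_eq_zero_iff (q : R)).mpr
    ((IsLocalRing.mem_maximalIdeal (q : R)).mpr hqR)
  simpa using h

theorem inc15_residue_ne (n : ℕ) (hn : IsUnit (n : R)) :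
    (n : IsLocalRing.ResidueField R) ≠ 0 := by
  have h := (hn.map (IsLocalRing.residue R)).ne_zero
  simpa using h

/-- the core statement repackaged for the two charts of an element `X` of level `M'` whose
expansion `y` is an `R`-integral unit `y * y' = 1`. -/
theorem inc15_charts {π : R} (hπ : Irreducible π)
    (x : ↥(modularFunctionFieldFullC K M')) (X : ↥(modularFunctionFieldFullC K (M' * q)))
    (hX : (X : LaurentSeries K) = (x : LaurentSeries K)) (y y' : LaurentSeries R)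
    (hy : (x : LaurentSeries K) = coeffMap (algebraMap R K) y) (hyy' : y * y' = 1)
    (hpow : coeffMap (IsLocalRing.residue R) y ^ q =
      qExpand (IsLocalRing.ResidueField R) q (coeffMap (IsLocalRing.residue R) y))
    (hpow' : coeffMap (IsLocalRing.residue R) y' ^ q =
      qExpand (IsLocalRing.ResidueField R) q (coeffMap (IsLocalRing.residue R) y'))
    (hnr : ∀ Z : LaurentSeries (IsLocalRing.ResidueField R),
      qExpand (IsLocalRing.ResidueField R) q Z ≠ coeffMap (IsLocalRing.residue R) y)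
    (hwB : al97L_w φ M' q hq hqM X ∈
      pk15_chart R ({X} : Set ↥(modularFunctionFieldFullC K (M' * q))))
    (hwB' : (al97L_w φ M' q hq hqM X)⁻¹ ∈
      pk15_chart R ({X⁻¹} : Set ↥(modularFunctionFieldFullC K (M' * q)))) :
    inc15_Incomp π (pk15_chart R ({X} : Set ↥(modularFunctionFieldFullC K (M' * q))))
        (cm85_Vinf (K := K) (M' * q) hπ).toSubring (cm15_V0 φ M' q hq hqM hπ).toSubring ∧
      inc15_Incomp π (pk15_chart R ({X⁻¹} : Set ↥(modularFunctionFieldFullC K (M' * q))))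
        (cm85_Vinf (K := K) (M' * q) hπ).toSubring (cm15_V0 φ M' q hq hqM hπ).toSubring := by
  have c1 := inc15_core φ M' q hq hqM hπ x X hX y hy hpow hnr
  have hy' : ((x⁻¹ : ↥(modularFunctionFieldFullC K M')) : LaurentSeries K) =
      coeffMap (algebraMap R K) y' := by
    have h1 : (x : LaurentSeries K) * coeffMap (algebraMap R K) y' = 1 := by
      rw [hy, ← map_mul, hyy', map_one]
    have h2 : ((x⁻¹ : ↥(modularFunctionFieldFullC K M')) : LaurentSeries K) =
        (x : LaurentSeries K)⁻¹ := rfl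
    rw [h2]
    exact inv_eq_of_mul_eq_one_right h1
  have hX' : ((X⁻¹ : ↥(modularFunctionFieldFullC K (M' * q))) : LaurentSeries K) =
      ((x⁻¹ : ↥(modularFunctionFieldFullC K M')) : LaurentSeries K) := by
    have h1 : ((X⁻¹ : ↥(modularFunctionFieldFullC K (M' * q))) : LaurentSeries K) =
        (X : LaurentSeries K)⁻¹ := rfl
    have h2 : ((x⁻¹ : ↥(modularFunctionFieldFullC K M')) : LaurentSeries K) =
        (x : LaurentSeries K)⁻¹ := rfl
    rw [h1, h2, hX]
  have hnr' : ∀ Z : LaurentSeries (IsLocalRing.ResidueField R),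
      qExpand (IsLocalRing.ResidueField R) q Z ≠ coeffMap (IsLocalRing.residue R) y' := by
    refine inc15_inv_not_range _ q (H := coeffMap (IsLocalRing.residue R) y) ?_ hnr
    rw [← map_mul, hyy', map_one]
  have c2 := inc15_core φ M' q hq hqM hπ x⁻¹ X⁻¹ hX' y' hy' hpow' hnr'
  rw [map_inv₀] at c2
  have hXB : X ∈ pk15_chart R ({X} : Set ↥(modularFunctionFieldFullC K (M' * q))) :=
    pk15_subset_chart _ (Set.mem_singleton X)
  have hXB' : X⁻¹ ∈ pk15_chart R ({X⁻¹} : Set ↥(modularFunctionFieldFullC K (M' * q))) :=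
    pk15_subset_chart _ (Set.mem_singleton X⁻¹)
  exact ⟨⟨⟨_, Subalgebra.sub_mem _ hwB (Subalgebra.pow_mem _ hXB q), c1.1⟩,
      ⟨_, Subalgebra.sub_mem _ hXB (Subalgebra.pow_mem _ hwB q), c1.2⟩⟩,
    ⟨⟨_, Subalgebra.sub_mem _ hwB' (Subalgebra.pow_mem _ hXB' q), c2.1⟩,
      ⟨_, Subalgebra.sub_mem _ hXB' (Subalgebra.pow_mem _ hwB' q), c2.2⟩⟩⟩

/-- **Incomparability, level 2**: both charts of the level-2 Hauptmodul at level `M' * q`. -/
theorem inc15_level2 {π : R} (hπ : Irreducible π) (h2 : 2 ∣ M') (hq2 : q ≠ 2)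
    (h2R : IsUnit ((2 : ℕ) : R)) (hqR : ¬ IsUnit (q : R)) :
    inc15_Incomp π (pk15_chart R ({pk85_h2 K (M' * q) (h2.trans (dvd_mul_right M' q))} :
          Set ↥(modularFunctionFieldFullC K (M' * q))))
        (cm85_Vinf (K := K) (M' * q) hπ).toSubring (cm15_V0 φ M' q hq hqM hπ).toSubring ∧
      inc15_Incomp π (pk15_chart R ({(pk85_h2 K (M' * q) (h2.trans (dvd_mul_right M' q)))⁻¹} :
          Set ↥(modularFunctionFieldFullC K (M' * q))))
        (cm85_Vinf (K := K) (M' * q) hπ).toSubring (cm15_V0 φ M' q hq hqM hπ).toSubring := by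
  have hchar := inc15_residue_q (R := R) q hqR
  have h2κ : (2 : IsLocalRing.ResidueField R) ≠ 0 := by
    have := inc15_residue_ne (R := R) 2 h2R
    simpa using this
  have hw : ((al97L_w φ M' q hq hqM (pk85_h2 K (M' * q) (h2.trans (dvd_mul_right M' q))) :
      ↥(modularFunctionFieldFullC K (M' * q))) : LaurentSeries K) = qE K q (h70_h2 K) := by
    rw [qE_of_neZero]
    exact al97L_w_alpha φ M' q hq hqM (pk85_h2 K M' h2) _ rfl
  obtain ⟨hwB, hwB'⟩ := hi95_beta_two R K (M' * q) q hq hq2 (Nat.mul_dvd_mul_right h2 q) h2R hqR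
    (pk85_h2 K (M' * q) (h2.trans (dvd_mul_right M' q)))
    (al97L_w φ M' q hq hqM (pk85_h2 K (M' * q) (h2.trans (dvd_mul_right M' q)))) rfl hw
  refine inc15_charts φ M' q hq hqM hπ (pk85_h2 K M' h2) _ rfl (h70_h2 R) (h70_h2inv R)
    (h70_coeffMap_h2 (algebraMap R K)).symm (h70_h2_mul_h2inv R) ?_ ?_ ?_ hwB hwB'
  · rw [h70_coeffMap_h2]
    exact inc15_pow_of_fixed _ q hq hchar _ (fun f => h70_coeffMap_h2 f)
  · rw [h70_coeffMap_h2inv]
    exact inc15_pow_of_fixed _ q hq hchar _ (fun f => h70_coeffMap_h2inv f)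
  · rw [h70_coeffMap_h2]
    exact inc15_h2_not_range _ q hq h2κ

/-- **Incomparability, level 3**: both charts of the level-3 Hauptmodul at level `M' * q`. -/
theorem inc15_level3 {π : R} (hπ : Irreducible π) (h3 : 3 ∣ M') (hq3 : q ≠ 3)
    (h3R : IsUnit ((3 : ℕ) : R)) (hqR : ¬ IsUnit (q : R)) :
    inc15_Incomp π (pk15_chart R ({pk85_h3 K (M' * q) (h3.trans (dvd_mul_right M' q))} :
          Set ↥(modularFunctionFieldFullC K (M' * q))))
        (cm85_Vinf (K := K) (M' * q) hπ).toSubring (cm15_V0 φ M' q hq hqM hπ).toSubring ∧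
      inc15_Incomp π (pk15_chart R ({(pk85_h3 K (M' * q) (h3.trans (dvd_mul_right M' q)))⁻¹} :
          Set ↥(modularFunctionFieldFullC K (M' * q))))
        (cm85_Vinf (K := K) (M' * q) hπ).toSubring (cm15_V0 φ M' q hq hqM hπ).toSubring := by
  have hchar := inc15_residue_q (R := R) q hqR
  have h3κ : (3 : IsLocalRing.ResidueField R) ≠ 0 := by
    have := inc15_residue_ne (R := R) 3 h3R
    simpa using this
  have hw : ((al97L_w φ M' q hq hqM (pk85_h3 K (M' * q) (h3.trans (dvd_mul_right M' q))) :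
      ↥(modularFunctionFieldFullC K (M' * q))) : LaurentSeries K) = qE K q (h34_h3R K) := by
    rw [qE_of_neZero]
    exact al97L_w_alpha φ M' q hq hqM (pk85_h3 K M' h3) _ rfl
  obtain ⟨hwB, hwB'⟩ := hi95_beta_three R K (M' * q) q hq hq3 (Nat.mul_dvd_mul_right h3 q) h3R hqR
    (pk85_h3 K (M' * q) (h3.trans (dvd_mul_right M' q)))
    (al97L_w φ M' q hq hqM (pk85_h3 K (M' * q) (h3.trans (dvd_mul_right M' q)))) rfl hw
  refine inc15_charts φ M' q hq hqM hπ (pk85_h3 K M' h3) _ rfl (h34_h3R R) (h34_h3Rinv R)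
    (h34_coeffMap_h3R (algebraMap R K)).symm (h34_h3R_mul_inv R) ?_ ?_ ?_ hwB hwB'
  · rw [h34_coeffMap_h3R]
    exact inc15_pow_of_fixed _ q hq hchar _ (fun f => h34_coeffMap_h3R f)
  · rw [h34_coeffMap_h3Rinv]
    exact inc15_pow_of_fixed _ q hq hchar _ (fun f => h34_coeffMap_h3Rinv f)
  · rw [h34_coeffMap_h3R]
    exact inc15_h3_not_range _ q hq h3κ

end inst

/-! ### The canonical frame data of `Iface47c` -/

/-- The `V_0` of FrameGlue15 for the structure map `K → ℚ̄` is the canonical `V_0`. -/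
theorem inc15_V0_eq {R K : Type} [CommRing R] [IsDomain R] [IsDiscreteValuationRing R] [Field K]
    [CharZero K] [Algebra R K] [IsFractionRing R K] [Algebra K Q̄]
    (M' q : ℕ) [NeZero M'] [NeZero q] (hq : q.Prime) (hM' : ¬ q ∣ M') {π : R}
    (hπ : Irreducible π) :
    cm15_V0 (algebraMap K Q̄) M' q hq hM' hπ = s34i47c_V0 (K := K) M' q hq hM' hπ := by
  ext x
  exact Iff.rfl

/-- **Incomparability on the canonical frame data** (binder block of `s34i47c_FrameLS` /
`s34i47d_FrameLSW`): for every admissible Hauptmodul `h` and both affine charts, the vertical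
primes of `V_∞ = cm85_Vinf (M' * q) hπ` and `V_0 = s34i47c_V0 M' q hq hM' hπ` are
incomparable. -/
theorem inc15_haupt (M' q : ℕ) [NeZero M'] [NeZero q] (hq : q.Prime) (hM' : ¬ q ∣ M')
    (R K : Type) [CommRing R] [IsDomain R] [IsDiscreteValuationRing R] [Field K] [NumberField K]
    [Algebra K Q̄] [Algebra R K] [IsFractionRing R K]
    [Algebra R ↥(modularFunctionFieldFullC K (M' * q))]
    [IsScalarTower R K ↥(modularFunctionFieldFullC K (M' * q))] (π : R) (hπ : Irreducible π)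
    (hunit : ∀ n : ℕ, Nat.Coprime n q → IsUnit (n : R)) (hqR : ¬ IsUnit (q : R))
    (h : ↥(modularFunctionFieldFullC K (M' * q))) (hh : s34i47c_IsHaupt K (M' * q) q h) :
    inc15_Incomp π (pk15_chart R ({h} : Set ↥(modularFunctionFieldFullC K (M' * q))))
        (cm85_Vinf (K := K) (M' * q) hπ).toSubring
        (s34i47c_V0 (K := K) M' q hq hM' hπ).toSubring ∧
      inc15_Incomp π (pk15_chart R ({h⁻¹} : Set ↥(modularFunctionFieldFullC K (M' * q))))
        (cm85_Vinf (K := K) (M' * q) hπ).toSubring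
        (s34i47c_V0 (K := K) M' q hq hM' hπ).toSubring := by
  rw [← inc15_V0_eq]
  rcases hh with ⟨hq2, h2, rfl⟩ | ⟨hq3, h3, rfl⟩
  · have h2' : 2 ∣ M' := by
      rcases (Nat.Prime.dvd_mul Nat.prime_two).mp h2 with h | h
      · exact h
      · exact absurd ((Nat.prime_dvd_prime_iff_eq Nat.prime_two hq).mp h).symm hq2
    have h2R : IsUnit ((2 : ℕ) : R) :=
      hunit 2 ((Nat.coprime_primes Nat.prime_two hq).mpr (Ne.symm hq2))
    exact inc15_level2 (algebraMap K Q̄) M' q hq hM' hπ h2' hq2 h2R hqR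
  · have h3' : 3 ∣ M' := by
      rcases (Nat.Prime.dvd_mul Nat.prime_three).mp h3 with h | h
      · exact h
      · exact absurd ((Nat.prime_dvd_prime_iff_eq Nat.prime_three hq).mp h).symm hq3
    have h3R : IsUnit ((3 : ℕ) : R) :=
      hunit 3 ((Nat.coprime_primes Nat.prime_three hq).mpr (Ne.symm hq3))
    exact inc15_level3 (algebraMap K Q̄) M' q hq hM' hπ h3' hq3 h3R hqR

end Fermat.Agent.S34
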