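import Mathlib
import Fermat.Prelude.Def_FLTPrelim_Ramification
import Fermat.Agent.S18.NumFieldDVR23

/-!
# S34 lab, row P1c-NT (helper98, twin): number-field core of the `L / K₀` bookkeeping — tools

Tools for `Fermat.Agent.S34.if98_main` (file `InertiaField98.lean`):

* `if98_inertia`: elements of `A.inertiaSubgroupIn K` preserve `A` and move its elements by
  nonunits;
* `if98_star`, `if98_indep`: the elementary "totally ramified" calculus in a valuation subring:
  if `q` generates the nonunits of `A ∩ S` and `π ^ e = q * unit`, a combination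
  `∑_{i<e} c i * π ^ i` with coefficients in `S` lies in `A` only if every `c i` does, and vanishes
  only if every `c i` does;
* `if98_nf_core`: for a Galois number field `K`, a prime `P` of `𝓞 K` over `q` and the inertia
  field `E` of `P`: `[K : E] = e(P | q)`, `e(P ∩ E | q) = 1`, `f(P | P ∩ E) = 1`
  (Mathlib: `Ideal.card_inertia_eq_ramificationIdxIn`,
  `Ideal.card_stabilizer_eq_card_inertia_mul_finrank`, `Ideal.ramificationIdx_tower`);
* `if98_intValuation_natCast`, `if98_residue_surj`, `if98_exists_val`: translation to valuations.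
-/

set_option autoImplicit false

open scoped Pointwise NumberField
open IsDedekindDomain

namespace Fermat.Agent.S34

section Generic

variable {F : Type*} [Field F] (A : ValuationSubring F)

theorem if98_nonunits_add {x y : F} (hx : x ∈ A.nonunits) (hy : y ∈ A.nonunits) :
    x + y ∈ A.nonunits := by
  rw [ValuationSubring.mem_nonunits_iff] at *
  exact lt_of_le_of_lt (A.valuation.map_add x y) (max_lt hx hy)

theorem if98_nonunits_mul {x y : F} (hx : x ∈ A) (hy : y ∈ A.nonunits) :
    x * y ∈ A.nonunits := by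
  rw [ValuationSubring.mem_nonunits_iff] at *
  rw [map_mul, mul_comm]
  exact mul_lt_one_of_lt_of_le hy ((A.valuation_le_one_iff x).mpr hx)

/-- The key elementary lemma: if `q` generates the nonunits of `A ∩ S` and `π ^ e = q * unit`,
then a combination `∑_{i<e} c i * π ^ i` with coefficients in `S` is in `A` only if all `c i` are. -/
theorem if98_star (S : Subfield F) {q π u : F} {e : ℕ}
    (hb : ∀ x ∈ S, x ∈ A.nonunits → ∃ y ∈ A, x = q * y)
    (hπ : π ∈ A.nonunits) (hπ0 : π ≠ 0) (hu : u ∈ A) (hu' : u⁻¹ ∈ A) (hπe : π ^ e = q * u)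
    (c : Fin e → F) (hc : ∀ i, c i ∈ S) (hsum : ∑ i, c i * π ^ (i : ℕ) ∈ A) :
    ∀ i, c i ∈ A := by
  classical
  set w := A.valuation with hwdef
  have hw : w π < 1 := (ValuationSubring.mem_nonunits_iff A).mp hπ
  have hw0 : 0 < w π := (Valuation.pos_iff _).mpr hπ0
  have hu0 : u ≠ 0 := by
    rintro rfl
    rw [mul_zero] at hπe
    have he : e ≠ 0 := by
      rintro rfl
      rw [pow_zero] at hπe
      exact one_ne_zero hπe
    exact hπ0 ((pow_eq_zero_iff he).mp hπe)
  have hwu : w u = 1 := by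
    have h1 : w u ≤ 1 := (A.valuation_le_one_iff u).mpr hu
    have h2 : w u⁻¹ ≤ 1 := (A.valuation_le_one_iff _).mpr hu'
    rw [map_inv₀] at h2
    have h3 : 0 < w u := (Valuation.pos_iff _).mpr hu0
    exact le_antisymm h1 ((inv_le_one₀ h3).mp h2)
  have hwq : w q = w π ^ e := by
    have := congrArg w hπe
    rw [map_pow, map_mul, hwu, mul_one] at this
    exact this.symm
  have key1 : ∀ x ∈ S, w x < 1 → w x ≤ w π ^ e := by
    intro x hx hlt
    obtain ⟨y, hy, rfl⟩ := hb x hx hlt
    rw [map_mul, hwq]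
    exact mul_le_of_le_one_right' ((A.valuation_le_one_iff y).mpr hy)
  have key2 : ∀ k, k < e → w π ^ e < w π ^ k := fun k hk =>
    pow_lt_pow_right_of_lt_one₀ hw0 hw hk
  -- Step 1
  have step1 : ∀ i j : Fin e, i < j → c i ≠ 0 → c j ≠ 0 →
      w (c i * π ^ (i : ℕ)) ≠ w (c j * π ^ (j : ℕ)) := by
    intro i j hij hci hcj heq
    have hij' : (i : ℕ) < (j : ℕ) := hij
    have hd : c i / c j ∈ S := S.div_mem (hc i) (hc j)
    have hval : w (c i / c j) = w π ^ ((j : ℕ) - (i : ℕ)) := by
      rw [map_div₀, div_eq_iff ((Valuation.ne_zero_iff _).mpr hcj)]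
      rw [map_mul, map_mul, map_pow, map_pow] at heq
      have hsplit : w π ^ (j : ℕ) = w π ^ ((j : ℕ) - (i : ℕ)) * w π ^ (i : ℕ) := by
        rw [← pow_add]
        congr 1
        omega
      rw [hsplit, ← mul_assoc] at heq
      have := mul_right_cancel₀ (pow_ne_zero _ hw0.ne') heq
      rw [this, mul_comm]
    have hlt : w (c i / c j) < 1 := by
      rw [hval]
      exact pow_lt_one₀ hw0.le hw (by omega)
    have h3 := key1 _ hd hlt
    rw [hval] at h3
    exact absurd h3 (not_le.mpr (key2 _ (by omega)))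
  have step1' : ∀ i j : Fin e, i ≠ j → c i ≠ 0 → c j ≠ 0 →
      w (c i * π ^ (i : ℕ)) ≠ w (c j * π ^ (j : ℕ)) := by
    intro i j hij hci hcj
    rcases lt_or_gt_of_ne hij with h | h
    · exact step1 i j h hci hcj
    · exact (step1 j i h hcj hci).symm
  -- Step 2
  have step2 : ∀ i, w (c i * π ^ (i : ℕ)) ≤ 1 := by
    by_contra hcon
    push Not at hcon
    obtain ⟨i₀, hi₀⟩ := hcon
    obtain ⟨j, -, hj⟩ := Finset.exists_max_image Finset.univ
      (fun i : Fin e => w (c i * π ^ (i : ℕ))) ⟨i₀, Finset.mem_univ _⟩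
    have hj1 : 1 < w (c j * π ^ (j : ℕ)) := lt_of_lt_of_le hi₀ (hj i₀ (Finset.mem_univ _))
    have hj0 : w (c j * π ^ (j : ℕ)) ≠ 0 := (lt_trans zero_lt_one hj1).ne'
    have hcj : c j ≠ 0 := by
      rintro h
      rw [h, zero_mul, map_zero] at hj0
      exact hj0 rfl
    have hlt : ∀ i ∈ Finset.univ.erase j, w (c i * π ^ (i : ℕ)) < w (c j * π ^ (j : ℕ)) := by
      intro i hi
      have hne : i ≠ j := Finset.ne_of_mem_erase hi
      refine lt_of_le_of_ne (hj i (Finset.mem_univ _)) ?_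
      by_cases hci : c i = 0
      · rw [hci, zero_mul, map_zero]
        exact fun h => hj0 h.symm
      · exact step1' i j hne hci hcj
    have hrest : w (∑ i ∈ Finset.univ.erase j, c i * π ^ (i : ℕ)) < w (c j * π ^ (j : ℕ)) :=
      Valuation.map_sum_lt w hj0 hlt
    have htot : w (∑ i, c i * π ^ (i : ℕ)) = w (c j * π ^ (j : ℕ)) := by
      rw [← Finset.add_sum_erase Finset.univ _ (Finset.mem_univ j)]
      exact Valuation.map_add_eq_of_lt_left w hrest
    have : w (∑ i, c i * π ^ (i : ℕ)) ≤ 1 := (A.valuation_le_one_iff _).mpr hsum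
    rw [htot] at this
    exact absurd this (not_le.mpr hj1)
  -- Step 3
  intro i
  by_contra hci
  have hci1 : 1 < w (c i) := by
    rw [← not_le]
    exact fun h => hci ((A.valuation_le_one_iff _).mp h)
  have hci0 : c i ≠ 0 := by
    rintro h
    rw [h, map_zero] at hci1
    exact absurd hci1 (not_lt.mpr zero_le_one)
  have hinvlt : w (c i)⁻¹ < 1 := by
    rw [map_inv₀]
    exact inv_lt_one_of_one_lt₀ hci1
  have h4 := key1 _ (S.inv_mem (hc i)) hinvlt
  have h5 := step2 i
  rw [map_mul, map_pow] at h5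
  rw [map_inv₀] at h4
  have h6 : w π ^ (i : ℕ) ≤ (w (c i))⁻¹ := by
    have := (le_inv_mul_iff₀ (b := 1) (lt_trans zero_lt_one hci1)).mpr h5
    exact le_of_le_of_eq this (mul_one _)
  exact absurd (le_trans h6 h4) (not_le.mpr (key2 _ i.2))

theorem if98_indep (S : Subfield F) {q π u : F} {e : ℕ}
    (hb : ∀ x ∈ S, x ∈ A.nonunits → ∃ y ∈ A, x = q * y)
    (hπ : π ∈ A.nonunits) (hπ0 : π ≠ 0) (hu : u ∈ A) (hu' : u⁻¹ ∈ A) (hπe : π ^ e = q * u)
    (hqS : q ∈ S) (hq : q ∈ A.nonunits)
    (c : Fin e → F) (hc : ∀ i, c i ∈ S) (hsum : ∑ i, c i * π ^ (i : ℕ) = 0) :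
    ∀ i, c i = 0 := by
  by_contra hcon
  push Not at hcon
  obtain ⟨j, hj⟩ := hcon
  have hq0 : q ≠ 0 := by
    rintro rfl
    rw [zero_mul] at hπe
    have he : e ≠ 0 := by
      rintro rfl
      rw [pow_zero] at hπe
      exact one_ne_zero hπe
    exact hπ0 ((pow_eq_zero_iff he).mp hπe)
  have h1 := if98_star A S hb hπ hπ0 hu hu' hπe (fun i => (q * c j)⁻¹ * c i)
    (fun i => S.mul_mem (S.inv_mem (S.mul_mem hqS (hc j))) (hc i)) (by
      have : ∑ i, (q * c j)⁻¹ * c i * π ^ (i : ℕ) = (q * c j)⁻¹ * ∑ i, c i * π ^ (i : ℕ) := by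
        rw [Finset.mul_sum]
        exact Finset.sum_congr rfl fun i _ => by ring
      rw [this, hsum, mul_zero]
      exact A.zero_mem) j
  have h2 : (q * c j)⁻¹ * c j = q⁻¹ := by
    field_simp
  rw [h2] at h1
  rcases (ValuationSubring.mem_nonunits_iff_or A).mp hq with h | h
  · exact hq0 h
  · exact h h1

end Generic

section Inertia

variable {L : Type*} [Field L] {K : Type*} [Field K] [Algebra K L] (A : ValuationSubring L)

/-- Elements of the inertia subgroup preserve `A` and move its elements by nonunits. -/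
theorem if98_inertia {σ : L ≃ₐ[K] L} (hσ : σ ∈ A.inertiaSubgroupIn K) {x : L} (hx : x ∈ A) :
    σ x ∈ A ∧ σ x - x ∈ A.nonunits := by
  obtain ⟨τ, hτ, rfl⟩ := Subgroup.mem_map.mp hσ
  have h1 : MulSemiringAction.toRingAut (A.decompositionSubgroup K)
      (IsLocalRing.ResidueField A) τ = 1 := MonoidHom.mem_ker.mp hτ
  have h2 : τ • (IsLocalRing.residue A ⟨x, hx⟩) = IsLocalRing.residue A ⟨x, hx⟩ := by
    have := congrArg (fun f => f (IsLocalRing.residue A ⟨x, hx⟩)) h1
    simpa using this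
  rw [← IsLocalRing.ResidueField.residue_smul] at h2
  have h3 : IsLocalRing.residue A (τ • (⟨x, hx⟩ : A) - ⟨x, hx⟩) = 0 := by
    rw [map_sub, h2, sub_self]
  rw [IsLocalRing.residue_eq_zero_iff] at h3
  have h4 : (A.decompositionSubgroup K).subtype τ x - x ∈ A.nonunits :=
    ValuationSubring.coe_mem_nonunits_iff.mpr h3
  refine ⟨?_, h4⟩
  have := A.add_mem _ _ (ValuationSubring.nonunits_subset h4) hx
  rwa [sub_add_cancel] at this

end Inertia

section Dedekind

variable {S : Type*} [CommRing S] [IsDedekindDomain S] [CharZero S]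

/-- The valuation of a rational prime is given by the ramification index. -/
theorem if98_intValuation_natCast (v : HeightOneSpectrum S) {q : ℕ} (hq : q.Prime)
    (hqv : (q : S) ∈ v.asIdeal) :
    v.intValuation (q : S) = WithZero.exp (-(v.asIdeal.ramificationIdx ℤ : ℤ)) := by
  have hpZ : Prime (q : ℤ) := Nat.prime_iff_prime_int.mp hq
  have hlies : v.asIdeal.LiesOver (Ideal.span {(q : ℤ)}) :=
    (Ideal.liesOver_span_iff Ideal.IsPrime.ne_top' hpZ).mpr (by simpa using hqv)
  have hq0 : (q : S) ≠ 0 := Nat.cast_ne_zero.mpr hq.ne_zero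
  have hmap : (Ideal.span {(q : ℤ)}).map (algebraMap ℤ S) = Ideal.span {(q : S)} := by
    rw [Ideal.map_span, Set.image_singleton]
    simp
  have hne : (Ideal.span {(q : ℤ)}).map (algebraMap ℤ S) ≠ ⊥ := by
    rw [hmap]
    simpa using hq0
  rw [v.intValuation_eq_exp_neg_multiplicity hq0,
    Ideal.IsDedekindDomain.ramificationIdx_eq_multiplicity (Ideal.span {(q : ℤ)}) v.asIdeal hne,
    hmap]

end Dedekind

section Residue

variable {R S : Type*} [CommRing R] [CommRing S] [Algebra R S]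

/-- Inertia degree one means that the residue fields coincide. -/
theorem if98_residue_surj (p : Ideal R) (P : Ideal S) [P.LiesOver p] [p.IsMaximal] [P.IsMaximal]
    (hf : P.inertiaDeg R = 1) (a : S) : ∃ b : R, a - algebraMap R S b ∈ P := by
  rw [Ideal.inertiaDeg_eq_of_isMaximal p P] at hf
  let : Field (R ⧸ p) := Ideal.Quotient.field p
  let : Field (S ⧸ P) := Ideal.Quotient.field P
  have h1 : (⊥ : Subalgebra (R ⧸ p) (S ⧸ P)) = ⊤ := Subalgebra.bot_eq_top_of_finrank_eq_one hf
  have h2 : Ideal.Quotient.mk P a ∈ (⊥ : Subalgebra (R ⧸ p) (S ⧸ P)) := by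
    rw [h1]
    exact Algebra.mem_top
  obtain ⟨b, hb⟩ := Algebra.mem_bot.mp h2
  obtain ⟨b, rfl⟩ := Ideal.Quotient.mk_surjective b
  refine ⟨b, ?_⟩
  rw [← Ideal.Quotient.eq, ← hb]
  rfl

end Residue

section ZM0

open WithZero

theorem if98_le_exp_neg_one {z : ℤᵐ⁰} (hz : z < 1) : z ≤ exp (-1 : ℤ) := by
  by_cases h0 : z = 0
  · rw [h0]
    exact zero_le
  · rw [← exp_log h0] at hz ⊢
    rw [← exp_zero, exp_lt_exp] at hz
    rw [exp_le_exp]
    omega

theorem if98_exp_neg_one_lt_one : exp (-1 : ℤ) < (1 : ℤᵐ⁰) := by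
  rw [← exp_zero, exp_lt_exp]
  omega

theorem if98_exp_neg_one_pow (e : ℕ) : (exp (-1 : ℤ) : ℤᵐ⁰) ^ e = exp (-(e : ℤ)) := by
  rw [← exp_nsmul]
  congr 1
  simp

end ZM0

section Val

variable {K F : Type*} [Field K] [NumberField K] [Field F] (f : K →+* F) (A : ValuationSubring F)

/-- The valuation subring `A ∩ K` of a number field is the valuation ring of a height one prime
of its ring of integers. -/
theorem if98_exists_val {q : ℕ} (hq : q.Prime) (hA : (q : F) ∈ A.nonunits) :
    ∃ v : HeightOneSpectrum (𝓞 K),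
      (∀ x : K, f x ∈ A ↔ v.valuation K x ≤ 1) ∧
      (∀ x : K, f x ∈ A.nonunits ↔ v.valuation K x < 1) ∧
      (∀ d : 𝓞 K, d ∈ v.asIdeal ↔ f (d : K) ∈ A.nonunits) := by
  have hV : A.comap f ≠ ⊤ :=
    Fermat.Agent.S18.nf23_comap_ne_top f A (x := (q : K)) (Nat.cast_ne_zero.mpr hq.ne_zero)
      (by rwa [map_natCast])
  have hDV : ∀ d : 𝓞 K, algebraMap (𝓞 K) K d ∈ A.comap f := by
    intro d
    have h1 : IsIntegral ℤ (algebraMap (𝓞 K) K d) := NumberField.RingOfIntegers.isIntegral_coe d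
    have h2 : IsIntegral (A.comap f) (algebraMap (𝓞 K) K d) := h1.tower_top
    obtain ⟨y, hy⟩ := (IsIntegrallyClosed.isIntegral_iff (R := A.comap f) (K := K)).mp h2
    rw [← hy]
    exact y.2
  obtain ⟨v, hv, hmem⟩ := Fermat.Agent.S18.nf23_exists_heightOneSpectrum (A.comap f) hDV hV
  have hle : ∀ x : K, f x ∈ A ↔ v.valuation K x ≤ 1 := by
    intro x
    rw [← ValuationSubring.mem_comap, hv, Valuation.mem_valuationSubring_iff]
  refine ⟨v, hle, ?_, ?_⟩
  · intro x
    rw [ValuationSubring.mem_nonunits_iff_or, ← map_inv₀, hle, map_inv₀, map_eq_zero]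
    constructor
    · rintro (h | h)
      · rw [h, map_zero]
        exact zero_lt_one
      · by_contra hcon
        rw [not_lt] at hcon
        exact h (inv_le_one_of_one_le₀ hcon)
    · intro h
      by_cases hx : x = 0
      · exact Or.inl hx
      · refine Or.inr fun hcon => ?_
        have hpos : 0 < v.valuation K x := (Valuation.pos_iff _).mpr hx
        exact absurd ((inv_le_one₀ hpos).mp hcon) (not_le.mpr h)
  · intro d
    rw [hmem, Fermat.Agent.S18.nf23_mem_nonunits_comap]

end Val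

section NFCore

variable {K : Type*} [Field K] [NumberField K] [IsGalois ℚ K]

theorem if98_nf_core (P : Ideal (𝓞 K)) [P.IsPrime] (q : ℕ) (hq : q.Prime)
    (hqP : (q : 𝓞 K) ∈ P) (E : IntermediateField ℚ K)
    (hE : E = IntermediateField.fixedField (Ideal.inertia (K ≃ₐ[ℚ] K) P)) :
    Module.finrank E K = P.ramificationIdx ℤ ∧ 0 < P.ramificationIdx ℤ ∧
      (P.under (𝓞 E)).ramificationIdx ℤ = 1 ∧ P.inertiaDeg (𝓞 E) = 1 := by
  have hpZ : Prime (q : ℤ) := Nat.prime_iff_prime_int.mp hq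
  have hprime : (Ideal.span {(q : ℤ)}).IsPrime :=
    (Ideal.span_singleton_prime hpZ.ne_zero).mpr hpZ
  have hlies : P.LiesOver (Ideal.span {(q : ℤ)}) :=
    (Ideal.liesOver_span_iff Ideal.IsPrime.ne_top' hpZ).mpr (by simpa using hqP)
  -- the inertia group over ℚ
  have h1 := Ideal.card_inertia_eq_ramificationIdxIn (G := K ≃ₐ[ℚ] K) (Ideal.span {(q : ℤ)}) P
  have h2 := Ideal.ramificationIdxIn_eq_ramificationIdx (Ideal.span {(q : ℤ)}) P (K ≃ₐ[ℚ] K)
  -- the degree
  have h3 : Module.finrank E K = Nat.card (Ideal.inertia (K ≃ₐ[ℚ] K) P) := by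
    subst hE
    exact IntermediateField.finrank_fixedField_eq_card _
  have hPEne : P.under (𝓞 E) ≠ ⊥ := by
    intro h
    have hmem : (q : 𝓞 E) ∈ P.under (𝓞 E) := by
      rw [Ideal.mem_comap, map_natCast]
      exact hqP
    rw [h, Ideal.mem_bot] at hmem
    exact hq.ne_zero (by exact_mod_cast hmem)
  have hfin : Finite (𝓞 E ⧸ P.under (𝓞 E)) := Ring.HasFiniteQuotients.finiteQuotient hPEne
  -- inertia over E is everything
  have htop : Ideal.inertia (K ≃ₐ[E] K) P = ⊤ := by
    rw [eq_top_iff]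
    intro σ _
    have hτ : σ.restrictScalars ℚ ∈ Ideal.inertia (K ≃ₐ[ℚ] K) P := by
      have : σ.restrictScalars ℚ ∈ E.fixingSubgroup := by
        rw [IntermediateField.mem_fixingSubgroup_iff]
        intro x hx
        exact σ.commutes ⟨x, hx⟩
      have hfix : E.fixingSubgroup = Ideal.inertia (K ≃ₐ[ℚ] K) P := by
        rw [hE, IntermediateField.fixingSubgroup_fixedField]
      rw [← hfix]
      exact this
    intro x
    exact hτ x
  have h4 := Ideal.card_inertia_eq_ramificationIdxIn (G := K ≃ₐ[E] K) (P.under (𝓞 E)) P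
  have h5 := Ideal.ramificationIdxIn_eq_ramificationIdx (P.under (𝓞 E)) P (K ≃ₐ[E] K)
  have h6 := Ideal.card_stabilizer_eq_card_inertia_mul_finrank (G := K ≃ₐ[E] K) (P.under (𝓞 E)) P
  have h7 := Ideal.ramificationIdx_tower (R := ℤ) (P.under (𝓞 E)) P
  have hstab : MulAction.stabilizer (K ≃ₐ[E] K) P = ⊤ :=
    top_le_iff.mp (htop ▸ Ideal.inertia_le_stabilizer P)
  have hcard : Nat.card (K ≃ₐ[E] K) = Module.finrank E K := IsGalois.card_aut_eq_finrank E K
  have hpos : 0 < Module.finrank E K := Module.finrank_pos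
  rw [htop, Nat.card_congr (Subgroup.topEquiv (G := K ≃ₐ[E] K)).toEquiv, hcard] at h4
  rw [hstab, htop, Nat.card_congr (Subgroup.topEquiv (G := K ≃ₐ[E] K)).toEquiv, hcard] at h6
  have e1 : Module.finrank E K = P.ramificationIdx ℤ := by rw [h3, h1, h2]
  have e2 : Module.finrank E K = P.ramificationIdx (𝓞 E) := by rw [h4, h5]
  refine ⟨e1, e1 ▸ hpos, ?_, ?_⟩
  · rw [← e1, ← e2] at h7
    exact Nat.eq_of_mul_eq_mul_right hpos (by rw [one_mul]; exact h7.symm)
  · exact Nat.eq_of_mul_eq_mul_left hpos (by rw [mul_one]; exact h6.symm)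
end NFCore

end Fermat.Agent.S34
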