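/-
S34 / row 480 "P1c-NT" (helper8): the number-field core of the `L / K0` bookkeeping.

`A` is a valuation subring of `ℚ̄` above the prime `q`, and `L ⊆ ℚ̄` is a number field.

* `if8_inertia_congr`, `if8_inertia_mem`, `if8_map_mem_of_normal` : an element `σ` of the inertia
  group of `A` maps `A` to `A`, is trivial modulo the maximal ideal, and preserves normal `L`;
* `if8_unifL` : a uniformizer `π` of `A ∩ L` with `π ^ e = q * unit` (no Galois hypothesis);
* `if8_unifL_inertia` : the same together with `σ x - x ∈ π (A ∩ L)` for inertia `σ` (`L` normal);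
* `if8_abc` : for `L / ℚ` Galois, the inertia field `K0 ≤ L` (fixed field of Mathlib's
  `Ideal.inertia` at `P = m_A ∩ 𝓞 L`): (a) inertia fixes `K0` pointwise, (b) `q` is a uniformizer
  of `A ∩ K0`, (c) `A ∩ L` and `A ∩ K0` have the same residue field.

The abstract layer (`if8_fix`, `if8_unif`, `if8_res`, `if8_val_L`, `if8_val_q`, ...) is stated for
a height one prime `v` of `𝓞 L` and is reused by the follow-up file with the decomposition
`L = ⊕_{i<e} K0 π^i`.
-/
import Mathlib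
import Fermat.Agent.S18.NumFieldDVR23

set_option autoImplicit false
set_option linter.unusedSectionVars false
set_option linter.style.haveILetI false
open NumberField IsDedekindDomain
open scoped Pointwise

namespace Fermat.Agent.S34

section gen

variable {S G : Type*} [CommRing S] [Group G] [MulSemiringAction G S] (P : Ideal S)

theorem if8_inertia_eq_top (h : ∀ (g : G) (x : S), g • x - x ∈ P) : Ideal.inertia G P = ⊤ :=
  eq_top_iff.mpr fun g _ => h g

theorem if8_stabilizer_eq_top (h : ∀ (g : G) (x : S), g • x - x ∈ P) :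
    MulAction.stabilizer G P = ⊤ :=
  eq_top_iff.mpr ((if8_inertia_eq_top P h).symm.le.trans (Ideal.inertia_le_stabilizer P))

end gen

section ded

variable (L : Type*) [Field L] [NumberField L] [IsGalois ℚ L]
variable (P : Ideal (𝓞 L)) [P.IsPrime]

/-- The inertia group of `P` in `Gal(L/ℚ)`. -/
abbrev if8_H : Subgroup (L ≃ₐ[ℚ] L) := Ideal.inertia (L ≃ₐ[ℚ] L) P

/-- The inertia field of `P`. -/
abbrev if8_E : IntermediateField ℚ L := FixedPoints.intermediateField (if8_H L P)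

theorem if8_isGaloisGroup : IsGaloisGroup (if8_H L P) (𝓞 (if8_E L P)) (𝓞 L) :=
  IsGaloisGroup.of_isFractionRing _ _ _ (if8_E L P) L

theorem if8_H_spec (g : if8_H L P) (x : 𝓞 L) : g • x - x ∈ P := g.2 x

theorem if8_under_ne_bot (hP : P ≠ ⊥) : P.under (𝓞 (if8_E L P)) ≠ ⊥ := by
  intro h
  exact hP (Ideal.eq_bot_of_comap_eq_bot h)

theorem if8_inertiaDeg_eq_one (hP : P ≠ ⊥) : P.inertiaDeg (𝓞 (if8_E L P)) = 1 := by
  haveI := if8_isGaloisGroup L P
  have hpE := if8_under_ne_bot L P hP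
  haveI : (P.under (𝓞 (if8_E L P))).IsMaximal := Ideal.IsPrime.isMaximal inferInstance hpE
  haveI : Finite (𝓞 (if8_E L P) ⧸ P.under (𝓞 (if8_E L P))) :=
    Ring.HasFiniteQuotients.finiteQuotient hpE
  have h := Ideal.card_stabilizer_eq_card_inertia_mul_finrank (G := if8_H L P)
    (P.under (𝓞 (if8_E L P))) P
  rw [if8_stabilizer_eq_top P (if8_H_spec L P), if8_inertia_eq_top P (if8_H_spec L P)] at h
  have hpos : 0 < Nat.card (⊤ : Subgroup (if8_H L P)) := Nat.card_pos
  exact (Nat.eq_of_mul_eq_mul_left hpos (by rw [mul_one]; exact h)).symm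

theorem if8_ramificationIdx_eq (hP : P ≠ ⊥) :
    P.ramificationIdx (𝓞 (if8_E L P)) = Nat.card (if8_H L P) := by
  haveI := if8_isGaloisGroup L P
  have hpE := if8_under_ne_bot L P hP
  haveI : (P.under (𝓞 (if8_E L P))).IsMaximal := Ideal.IsPrime.isMaximal inferInstance hpE
  haveI : Finite (𝓞 (if8_E L P) ⧸ P.under (𝓞 (if8_E L P))) :=
    Ring.HasFiniteQuotients.finiteQuotient hpE
  have h := Ideal.card_inertia_eq_ramificationIdxIn (G := if8_H L P)
    (P.under (𝓞 (if8_E L P))) P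
  rw [if8_inertia_eq_top P (if8_H_spec L P),
    Ideal.ramificationIdxIn_eq_ramificationIdx _ P (if8_H L P)] at h
  rw [← h]
  exact (Nat.card_congr (Subgroup.topEquiv).toEquiv)

theorem if8_ramificationIdx_int (hP : P ≠ ⊥) :
    P.ramificationIdx ℤ = Nat.card (if8_H L P) := by
  haveI : IsGaloisGroup (L ≃ₐ[ℚ] L) ℤ (𝓞 L) := IsGaloisGroup.of_isFractionRing _ _ _ ℚ L
  have hp : P.under ℤ ≠ ⊥ := fun h => hP (Ideal.eq_bot_of_comap_eq_bot h)
  haveI : (P.under ℤ).IsMaximal := Ideal.IsPrime.isMaximal inferInstance hp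
  haveI : Finite (ℤ ⧸ P.under ℤ) := Ring.HasFiniteQuotients.finiteQuotient hp
  have h := Ideal.card_inertia_eq_ramificationIdxIn (G := L ≃ₐ[ℚ] L) (P.under ℤ) P
  rw [Ideal.ramificationIdxIn_eq_ramificationIdx _ P (L ≃ₐ[ℚ] L)] at h
  exact h.symm

theorem if8_ramificationIdx_under (hP : P ≠ ⊥) :
    (P.under (𝓞 (if8_E L P))).ramificationIdx ℤ = 1 := by
  have h1 := Ideal.ramificationIdx_tower (R := ℤ) (P.under (𝓞 (if8_E L P))) P
  rw [if8_ramificationIdx_int L P hP, if8_ramificationIdx_eq L P hP] at h1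
  have hpos : 0 < Nat.card (if8_H L P) := Nat.card_pos
  exact (Nat.eq_of_mul_eq_mul_right hpos (by rw [one_mul]; exact h1)).symm

theorem if8_finrank : Module.finrank (if8_E L P) L = Nat.card (if8_H L P) :=
  (IsGaloisGroup.card_eq_finrank (if8_H L P) (if8_E L P) L).symm

end ded

section val

variable (L : Type*) [Field L] [NumberField L] [IsGalois ℚ L] (v : HeightOneSpectrum (𝓞 L))

/-- The prime of the inertia field below `v`. -/
noncomputable def if8_vE : HeightOneSpectrum (𝓞 (if8_E L v.asIdeal)) :=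
  ⟨v.asIdeal.under _, inferInstance, if8_under_ne_bot L v.asIdeal v.ne_bot⟩

instance if8_liesOver : v.asIdeal.LiesOver (if8_vE L v).asIdeal := ⟨rfl⟩

theorem if8_residue (b : 𝓞 L) :
    ∃ a : 𝓞 (if8_E L v.asIdeal), b - algebraMap _ (𝓞 L) a ∈ v.asIdeal := by
  haveI : v.asIdeal.IsMaximal := v.isMaximal
  haveI : (if8_vE L v).asIdeal.IsMaximal := (if8_vE L v).isMaximal
  have h1 : Module.finrank (𝓞 (if8_E L v.asIdeal) ⧸ (if8_vE L v).asIdeal) (𝓞 L ⧸ v.asIdeal) = 1 := by
    rw [← Ideal.inertiaDeg_eq_of_isMaximal]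
    exact if8_inertiaDeg_eq_one L v.asIdeal v.ne_bot
  letI : Field (𝓞 (if8_E L v.asIdeal) ⧸ (if8_vE L v).asIdeal) := Ideal.Quotient.field _
  letI : Field (𝓞 L ⧸ v.asIdeal) := Ideal.Quotient.field _
  have h2 := (Algebra.finrank_eq_one_iff_bijective_algebraMap.mp h1).2
  obtain ⟨a', ha'⟩ := h2 (Ideal.Quotient.mk v.asIdeal b)
  obtain ⟨a, rfl⟩ := Ideal.Quotient.mk_surjective a'
  refine ⟨a, ?_⟩
  rw [← Ideal.Quotient.eq_zero_iff_mem, map_sub, ← ha', sub_eq_zero]
  rfl

theorem if8_val_L (x : if8_E L v.asIdeal) :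
    v.valuation L (algebraMap _ L x) =
      ((if8_vE L v).valuation _ x) ^ (Module.finrank (if8_E L v.asIdeal) L) := by
  have h := HeightOneSpectrum.valuation_liesOver L (if8_vE L v) v x
  rw [← h, Ideal.ramificationIdx'_eq_ramificationIdx _ _ (if8_vE L v).ne_bot]
  congr 1
  rw [if8_finrank]
  exact if8_ramificationIdx_eq L v.asIdeal v.ne_bot

theorem if8_val_q {q : ℕ} (hq : q.Prime) (hqv : (q : 𝓞 L) ∈ v.asIdeal) :
    (if8_vE L v).valuation (if8_E L v.asIdeal) (q : if8_E L v.asIdeal) = WithZero.exp (-1) := by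
  have hqZ : Prime (q : ℤ) := Nat.prime_iff_prime_int.mp hq
  let vq : HeightOneSpectrum ℤ :=
    ⟨Ideal.span {(q : ℤ)}, (Ideal.span_singleton_prime hqZ.ne_zero).mpr hqZ,
      by rw [Ne, Ideal.span_singleton_eq_bot]; exact hqZ.ne_zero⟩
  haveI hmax : (Ideal.span {(q : ℤ)}).IsMaximal := vq.isMaximal
  have hunder : (if8_vE L v).asIdeal.under ℤ = Ideal.span {(q : ℤ)} := by
    refine (hmax.eq_of_le (Ideal.IsPrime.ne_top inferInstance) ?_).symm
    rw [Ideal.span_singleton_le_iff_mem]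
    show algebraMap ℤ (𝓞 (if8_E L v.asIdeal)) (q : ℤ) ∈ (if8_vE L v).asIdeal
    show algebraMap (𝓞 (if8_E L v.asIdeal)) (𝓞 L) (algebraMap ℤ (𝓞 (if8_E L v.asIdeal)) (q : ℤ))
      ∈ v.asIdeal
    rw [← IsScalarTower.algebraMap_apply]
    simpa using hqv
  haveI : (if8_vE L v).asIdeal.LiesOver vq.asIdeal := ⟨hunder.symm⟩
  have h := HeightOneSpectrum.valuation_liesOver (if8_E L v.asIdeal) vq (if8_vE L v) (q : ℚ)
  rw [Ideal.ramificationIdx'_eq_ramificationIdx _ _ vq.ne_bot] at h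
  have h1 : (if8_vE L v).asIdeal.ramificationIdx ℤ = 1 :=
    if8_ramificationIdx_under L v.asIdeal v.ne_bot
  rw [h1, pow_one] at h
  have h2 : vq.valuation ℚ (q : ℚ) = WithZero.exp (-1) := by
    have : (q : ℚ) = algebraMap ℤ ℚ (q : ℤ) := by simp
    rw [this, HeightOneSpectrum.valuation_of_algebraMap]
    exact vq.intValuation_singleton hqZ.ne_zero rfl
  rw [h2] at h
  rw [h]
  simp

end val


section inertia

variable {K M : Type*} [Field K] [Field M] [Algebra K M]

/-- Inertia acts trivially on the residue field. -/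
theorem if8_inertia_congr (A : ValuationSubring M) {σ : M ≃ₐ[K] M}
    (hσ : σ ∈ A.inertiaSubgroupIn K) (x : M) (hx : x ∈ A) : σ x - x ∈ A.nonunits := by
  obtain ⟨τ, hτ, rfl⟩ := Subgroup.mem_map.mp hσ
  have h1 : MulSemiringAction.toRingAut (A.decompositionSubgroup K)
      (IsLocalRing.ResidueField A) τ = 1 := MonoidHom.mem_ker.mp hτ
  have h2 : τ • (IsLocalRing.residue A ⟨x, hx⟩) = IsLocalRing.residue A ⟨x, hx⟩ := by
    have := congrArg (fun f => f (IsLocalRing.residue A ⟨x, hx⟩)) h1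
    simpa using this
  rw [← IsLocalRing.ResidueField.residue_smul] at h2
  have h3 : IsLocalRing.residue A (τ • (⟨x, hx⟩ : A) - ⟨x, hx⟩) = 0 := by
    rw [map_sub, h2, sub_self]
  rw [IsLocalRing.residue_eq_zero_iff] at h3
  exact ValuationSubring.coe_mem_nonunits_iff.mpr h3

theorem if8_inertia_mem (A : ValuationSubring M) {σ : M ≃ₐ[K] M}
    (hσ : σ ∈ A.inertiaSubgroupIn K) (x : M) (hx : x ∈ A) : σ x ∈ A := by
  have h := if8_inertia_congr A hσ x hx
  have h2 : σ x = (σ x - x) + x := by ring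
  rw [h2]
  exact A.add_mem _ _ (ValuationSubring.nonunits_subset h) hx

theorem if8_map_mem_of_normal {M : Type*} [Field M] [Algebra ℚ M] (L : IntermediateField ℚ M)
    [Normal ℚ L] (σ : M ≃ₐ[ℚ] M) (x : M) (hx : x ∈ L) : σ x ∈ L := by
  have h := AlgEquiv.restrictNormal_commutes σ L ⟨x, hx⟩
  have h2 : σ x = algebraMap L M (σ.restrictNormal L ⟨x, hx⟩) := h.symm
  rw [h2]
  exact (σ.restrictNormal L ⟨x, hx⟩).2

end inertia

section unif

local notation "Qb" => AlgebraicClosure ℚ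

variable (A : ValuationSubring Qb)
variable (L : Type*) [Field L] [NumberField L] [Algebra L Qb]
variable (v : HeightOneSpectrum (𝓞 L))

theorem if8_mem_iff (hv : A.comap (algebraMap L Qb) = (v.valuation L).valuationSubring) (x : L) :
    algebraMap L Qb x ∈ A ↔ v.valuation L x ≤ 1 := by
  rw [← Valuation.mem_valuationSubring_iff, ← hv, ValuationSubring.mem_comap]

theorem if8_nonunits_iff (hv : A.comap (algebraMap L Qb) = (v.valuation L).valuationSubring)
    (x : L) : algebraMap L Qb x ∈ A.nonunits ↔ v.valuation L x < 1 := by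
  rw [← Fermat.Agent.S18.nf23_mem_nonunits_comap, hv, ValuationSubring.mem_nonunits_iff_or]
  by_cases hx : x = 0
  · subst hx
    simp
  · rw [Valuation.mem_valuationSubring_iff, map_inv₀, not_le, one_lt_inv₀
      (zero_lt_iff.mpr ((Valuation.ne_zero_iff _).mpr hx))]
    simp [hx]

/-- A uniformizer `π` of `A ∩ L`, with `π ^ e = q * unit` as soon as `v q = exp (-e)`. -/
theorem if8_unif_of_val (hv : A.comap (algebraMap L Qb) = (v.valuation L).valuationSubring)
    {q e : ℕ} (hq : q ≠ 0) (he : v.valuation L (q : L) = WithZero.exp (-(e : ℤ))) :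
    ∃ π : L, v.valuation L π = WithZero.exp (-1 : ℤ) ∧ algebraMap L Qb π ∈ A.nonunits ∧
      (∀ x : L, algebraMap L Qb x ∈ A.nonunits →
        ∃ y : L, algebraMap L Qb y ∈ A ∧ x = π * y) ∧
      ∃ u : L, algebraMap L Qb u ∈ A ∧ algebraMap L Qb u⁻¹ ∈ A ∧ π ^ e = (q : L) * u := by
  obtain ⟨π, hπ⟩ := v.valuation_exists_uniformizer L
  have hπ0 : π ≠ 0 := by
    intro h
    rw [h, map_zero] at hπ
    exact WithZero.exp_ne_zero hπ.symm
  have hq0 : (q : L) ≠ 0 := Nat.cast_ne_zero.mpr hq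
  have hlt : WithZero.exp (-1 : ℤ) < (1 : WithZero (Multiplicative ℤ)) := by
    rw [← WithZero.exp_zero, WithZero.exp_lt_exp]
    omega
  refine ⟨π, hπ, ?_, ?_, π ^ e / q, ?_, ?_, ?_⟩
  · rw [if8_nonunits_iff A L v hv, hπ]
    exact hlt
  · intro x hx
    rw [if8_nonunits_iff A L v hv] at hx
    refine ⟨x / π, ?_, by field_simp⟩
    rw [if8_mem_iff A L v hv, map_div₀, hπ, div_le_one₀ WithZero.exp_pos]
    by_cases hx0 : v.valuation L x = 0
    · rw [hx0]
      exact zero_le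
    · rw [← WithZero.log_le_iff_le_exp hx0]
      have h1 : WithZero.log (v.valuation L x) < 0 := by
        rw [WithZero.log_lt_iff_lt_exp hx0, WithZero.exp_zero]
        exact hx
      omega
  · have h1 : v.valuation L (π ^ e / q) = 1 := by
      rw [map_div₀, map_pow, hπ, he, ← WithZero.exp_nsmul]
      simp
    rw [if8_mem_iff A L v hv, h1]
  · have h1 : v.valuation L (π ^ e / q)⁻¹ = 1 := by
      rw [map_inv₀, map_div₀, map_pow, hπ, he, ← WithZero.exp_nsmul]
      simp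
    rw [if8_mem_iff A L v hv, h1]
  · field_simp

/-- The valuation of a natural number in the maximal ideal is `exp (-e)` with `0 < e`. -/
theorem if8_exists_e {q : ℕ} (hq : q ≠ 0) (hqv : v.valuation L (q : L) < 1) :
    ∃ e : ℕ, 0 < e ∧ v.valuation L (q : L) = WithZero.exp (-(e : ℤ)) := by
  have hq0 : v.valuation L (q : L) ≠ 0 := (Valuation.ne_zero_iff _).mpr (Nat.cast_ne_zero.mpr hq)
  have h1 : WithZero.log (v.valuation L (q : L)) < 0 := by
    rw [WithZero.log_lt_iff_lt_exp hq0, WithZero.exp_zero]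
    exact hqv
  refine ⟨(-WithZero.log (v.valuation L (q : L))).toNat, by omega, ?_⟩
  have h2 : (((-WithZero.log (v.valuation L (q : L))).toNat : ℕ) : ℤ) =
      -WithZero.log (v.valuation L (q : L)) := Int.toNat_of_nonneg (by omega)
  rw [h2, neg_neg, WithZero.exp_log hq0]

end unif

section bridge

local notation "Qb" => AlgebraicClosure ℚ

variable (A : ValuationSubring Qb)
variable (L : Type*) [Field L] [NumberField L] [IsGalois ℚ L] [Algebra L Qb]
variable (v : HeightOneSpectrum (𝓞 L))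

theorem if8_finrank_ne_zero : Module.finrank (if8_E L v.asIdeal) L ≠ 0 :=
  Module.finrank_pos.ne'

theorem if8_mem_iff_E (hv : A.comap (algebraMap L Qb) = (v.valuation L).valuationSubring)
    (x : if8_E L v.asIdeal) :
    algebraMap L Qb (x : L) ∈ A ↔ (if8_vE L v).valuation _ x ≤ 1 := by
  rw [if8_mem_iff A L v hv]
  have h := if8_val_L L v x
  rw [show (algebraMap (if8_E L v.asIdeal) L x) = (x : L) from rfl] at h
  rw [h, pow_le_one_iff (if8_finrank_ne_zero L v)]

theorem if8_nonunits_iff_E (hv : A.comap (algebraMap L Qb) = (v.valuation L).valuationSubring)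
    (x : if8_E L v.asIdeal) :
    algebraMap L Qb (x : L) ∈ A.nonunits ↔ (if8_vE L v).valuation _ x < 1 := by
  rw [if8_nonunits_iff A L v hv]
  have h := if8_val_L L v x
  rw [show (algebraMap (if8_E L v.asIdeal) L x) = (x : L) from rfl] at h
  rw [h, pow_lt_one_iff (if8_finrank_ne_zero L v)]

/-- (a): inertia fixes the inertia field. -/
theorem if8_fix (hv : A.comap (algebraMap L Qb) = (v.valuation L).valuationSubring)
    (hvmem : ∀ d : 𝓞 L, d ∈ v.asIdeal ↔
      algebraMap (𝓞 L) L d ∈ (A.comap (algebraMap L Qb)).nonunits)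
    {σ : Qb ≃ₐ[ℚ] Qb} (hσ : σ ∈ A.inertiaSubgroupIn ℚ) (x : if8_E L v.asIdeal) :
    σ (algebraMap L Qb (x : L)) = algebraMap L Qb (x : L) := by
  have hτ : σ.restrictNormal L ∈ if8_H L v.asIdeal := by
    intro d
    show σ.restrictNormal L • d - d ∈ v.asIdeal
    rw [hvmem, Fermat.Agent.S18.nf23_mem_nonunits_comap]
    have hd : algebraMap L Qb (algebraMap (𝓞 L) L d) ∈ A := by
      rw [if8_mem_iff A L v hv]
      exact v.valuation_le_one d
    have h := if8_inertia_congr A hσ _ hd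
    have h2 : algebraMap L Qb (algebraMap (𝓞 L) L (σ.restrictNormal L • d - d)) =
        σ (algebraMap L Qb (algebraMap (𝓞 L) L d)) - algebraMap L Qb (algebraMap (𝓞 L) L d) := by
      rw [map_sub, map_sub, ← AlgEquiv.restrictNormal_commutes]
      rfl
    rw [h2]
    exact h
  have hx := x.2
  rw [FixedPoints.mem_intermediateField_iff] at hx
  have h3 : σ.restrictNormal L (x : L) = (x : L) := hx ⟨_, hτ⟩
  rw [← AlgEquiv.restrictNormal_commutes, h3]

theorem if8_q_mem (hvmem : ∀ d : 𝓞 L, d ∈ v.asIdeal ↔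
      algebraMap (𝓞 L) L d ∈ (A.comap (algebraMap L Qb)).nonunits)
    {q : ℕ} (hA : A.LiesOverPrime q) : (q : 𝓞 L) ∈ v.asIdeal := by
  rw [hvmem, Fermat.Agent.S18.nf23_mem_nonunits_comap]
  have h : algebraMap L Qb (algebraMap (𝓞 L) L (q : 𝓞 L)) = (q : Qb) := by simp
  rw [h]
  exact hA

/-- An element of `ℤᵐ⁰` which is `< 1` is `≤ exp (-1)`. -/
theorem if8_le_exp_neg_one {a : WithZero (Multiplicative ℤ)} (h : a < 1) :
    a ≤ WithZero.exp (-1) := by
  by_cases ha : a = 0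
  · rw [ha]
    exact zero_le
  · rw [← WithZero.log_le_iff_le_exp ha]
    have h1 : WithZero.log a < 0 := by
      rw [WithZero.log_lt_iff_lt_exp ha, WithZero.exp_zero]
      exact h
    omega

/-- (b): `q` is a uniformizer of the inertia field. -/
theorem if8_unif (hv : A.comap (algebraMap L Qb) = (v.valuation L).valuationSubring)
    (hvmem : ∀ d : 𝓞 L, d ∈ v.asIdeal ↔
      algebraMap (𝓞 L) L d ∈ (A.comap (algebraMap L Qb)).nonunits)
    {q : ℕ} (hq : q.Prime) (hA : A.LiesOverPrime q) (x : if8_E L v.asIdeal)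
    (hx : algebraMap L Qb (x : L) ∈ A.nonunits) :
    ∃ y : if8_E L v.asIdeal, algebraMap L Qb (y : L) ∈ A ∧ x = (q : if8_E L v.asIdeal) * y := by
  have hvq := if8_val_q L v hq (if8_q_mem A L v hvmem hA)
  have hq0 : (q : if8_E L v.asIdeal) ≠ 0 := Nat.cast_ne_zero.mpr hq.ne_zero
  refine ⟨x / q, ?_, by field_simp⟩
  rw [if8_mem_iff_E A L v hv, map_div₀, hvq, div_le_one₀ WithZero.exp_pos]
  rw [if8_nonunits_iff_E A L v hv] at hx
  exact if8_le_exp_neg_one hx

/-- (c): the residue fields of `L` and of the inertia field agree. -/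
theorem if8_res (hv : A.comap (algebraMap L Qb) = (v.valuation L).valuationSubring)
    (x : L) (hx : algebraMap L Qb x ∈ A) :
    ∃ y : if8_E L v.asIdeal, algebraMap L Qb (y : L) ∈ A ∧
      algebraMap L Qb x - algebraMap L Qb (y : L) ∈ A.nonunits := by
  rw [if8_mem_iff A L v hv] at hx
  obtain ⟨n, d, hnd⟩ := v.exists_primeCompl_mul_eq_of_integer x hx
  obtain ⟨an, han⟩ := if8_residue L v n
  obtain ⟨ad, had⟩ := if8_residue L v (d : 𝓞 L)
  have hdP : (d : 𝓞 L) ∉ v.asIdeal := d.2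
  have hadP : algebraMap (𝓞 (if8_E L v.asIdeal)) (𝓞 L) ad ∉ v.asIdeal := by
    intro h
    apply hdP
    have h2 : (d : 𝓞 L) = ((d : 𝓞 L) - algebraMap _ (𝓞 L) ad) + algebraMap _ (𝓞 L) ad := by ring
    rw [h2]
    exact v.asIdeal.add_mem had h
  -- valuations in `L`
  have hv_ad : v.valuation L (algebraMap (𝓞 L) L (algebraMap _ (𝓞 L) ad)) = 1 :=
    v.valuation_eq_one_iff_notMem.mpr hadP
  have hv_an : v.valuation L (algebraMap (𝓞 L) L (algebraMap _ (𝓞 L) an)) ≤ 1 :=
    v.valuation_le_one _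
  have hv_n : v.valuation L (algebraMap (𝓞 L) L (n - algebraMap _ (𝓞 L) an)) < 1 :=
    (v.valuation_lt_one_iff_mem _).mpr han
  have hv_d : v.valuation L (algebraMap (𝓞 L) L ((d : 𝓞 L) - algebraMap _ (𝓞 L) ad)) < 1 :=
    (v.valuation_lt_one_iff_mem _).mpr had
  have had0 : (algebraMap (𝓞 L) L (algebraMap _ (𝓞 L) ad)) ≠ 0 := by
    intro h
    rw [h, map_zero] at hv_ad
    exact zero_ne_one hv_ad
  -- the element of the inertia field
  set yn : if8_E L v.asIdeal := algebraMap (𝓞 (if8_E L v.asIdeal)) (if8_E L v.asIdeal) an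
    with hyn
  set yd : if8_E L v.asIdeal := algebraMap (𝓞 (if8_E L v.asIdeal)) (if8_E L v.asIdeal) ad
    with hyd
  have hynL : (yn : L) = algebraMap (𝓞 L) L (algebraMap _ (𝓞 L) an) := rfl
  have hydL : (yd : L) = algebraMap (𝓞 L) L (algebraMap _ (𝓞 L) ad) := rfl
  have hval : v.valuation L (((yn / yd : if8_E L v.asIdeal) : L)) ≤ 1 := by
    have : ((yn / yd : if8_E L v.asIdeal) : L) = (yn : L) / (yd : L) := by push_cast; rfl
    rw [this, map_div₀, hynL, hydL, hv_ad, div_one]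
    exact hv_an
  have hval2 : v.valuation L (x - ((yn / yd : if8_E L v.asIdeal) : L)) < 1 := by
    have h1 : x - ((yn / yd : if8_E L v.asIdeal) : L) =
        (algebraMap (𝓞 L) L (n - algebraMap _ (𝓞 L) an) -
          x * algebraMap (𝓞 L) L ((d : 𝓞 L) - algebraMap _ (𝓞 L) ad)) / (yd : L) := by
      have : ((yn / yd : if8_E L v.asIdeal) : L) = (yn : L) / (yd : L) := by push_cast; rfl
      rw [this, hynL, hydL, eq_div_iff had0, map_sub, map_sub, mul_sub, hnd, sub_mul,
        div_mul_cancel₀ _ had0]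
      ring
    rw [h1, map_div₀, hydL, hv_ad, div_one]
    refine lt_of_le_of_lt (Valuation.map_sub _ _ _) (max_lt hv_n ?_)
    rw [map_mul]
    exact lt_of_le_of_lt (mul_le_of_le_one_left' hx) hv_d
  refine ⟨yn / yd, (if8_mem_iff A L v hv _).mpr hval, ?_⟩
  rw [← map_sub, if8_nonunits_iff A L v hv]
  exact hval2

end bridge

section final

local notation "Qb" => AlgebraicClosure ℚ

/-- The valuation of `𝓞 L` cut out by a valuation subring of `ℚ̄` above `q`. -/
theorem if8_exists_v (A : ValuationSubring Qb) {q : ℕ} (hq : q.Prime) (hA : A.LiesOverPrime q)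
    (L : Type*) [Field L] [NumberField L] [Algebra L Qb] :
    ∃ v : HeightOneSpectrum (𝓞 L),
      A.comap (algebraMap L Qb) = (v.valuation L).valuationSubring ∧
      ∀ d : 𝓞 L, d ∈ v.asIdeal ↔
        algebraMap (𝓞 L) L d ∈ (A.comap (algebraMap L Qb)).nonunits := by
  have hDV : ∀ d : 𝓞 L, algebraMap (𝓞 L) L d ∈ A.comap (algebraMap L Qb) := by
    intro d
    have h1 : IsIntegral ℤ (algebraMap (𝓞 L) L d) := NumberField.RingOfIntegers.isIntegral_coe d
    have h2 : IsIntegral (A.comap (algebraMap L Qb)) (algebraMap (𝓞 L) L d) := h1.tower_top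
    obtain ⟨y, hy⟩ :=
      (IsIntegrallyClosed.isIntegral_iff (R := A.comap (algebraMap L Qb)) (K := L)).mp h2
    rw [← hy]
    exact y.2
  have hV : A.comap (algebraMap L Qb) ≠ ⊤ :=
    Fermat.Agent.S18.nf23_comap_ne_top (algebraMap L Qb) A (x := (q : L))
      (Nat.cast_ne_zero.mpr hq.ne_zero) (by rw [map_natCast]; exact hA)
  exact Fermat.Agent.S18.nf23_exists_heightOneSpectrum (D := 𝓞 L) _ hDV hV

/-- **The inertia field**, parts (a), (b), (c). -/
theorem if8_abc (A : ValuationSubring Qb) {q : ℕ} (hq : q.Prime) (hA : A.LiesOverPrime q)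
    (L : IntermediateField ℚ Qb) [FiniteDimensional ℚ L] [IsGalois ℚ L] :
    ∃ K0 : IntermediateField ℚ Qb, K0 ≤ L ∧
      (∀ σ ∈ A.inertiaSubgroupIn ℚ, ∀ x ∈ K0, σ x = x) ∧
      (∀ x ∈ K0, x ∈ A.nonunits → ∃ y ∈ K0, y ∈ A ∧ x = q * y) ∧
      (∀ x ∈ L, x ∈ A → ∃ y ∈ K0, y ∈ A ∧ x - y ∈ A.nonunits) := by
  haveI : NumberField L := { to_charZero := inferInstance, to_finiteDimensional := inferInstance }
  obtain ⟨v, hv, hvmem⟩ := if8_exists_v A hq hA L
  refine ⟨IntermediateField.lift (if8_E L v.asIdeal), IntermediateField.lift_le _, ?_, ?_, ?_⟩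
  · rintro σ hσ _ ⟨x, hx, rfl⟩
    exact if8_fix A L v hv hvmem hσ ⟨x, hx⟩
  · rintro _ ⟨x, hx, rfl⟩ hxA
    obtain ⟨y, hyA, hxy⟩ := if8_unif A L v hv hvmem hq hA ⟨x, hx⟩ hxA
    refine ⟨algebraMap L Qb (y : L), ⟨(y : L), y.2, rfl⟩, hyA, ?_⟩
    have h := congrArg (fun z : if8_E L v.asIdeal => algebraMap L Qb (z : L)) hxy
    simpa using h
  · intro x hx hxA
    obtain ⟨y, hyA, hxy⟩ := if8_res A L v hv ⟨x, hx⟩ hxA
    exact ⟨algebraMap L Qb (y : L), ⟨(y : L), y.2, rfl⟩, hyA, hxy⟩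

/-- **A uniformizer of `A ∩ L`** for any number field `L ⊆ ℚ̄` (no Galois hypothesis):
`π ^ e = q * unit`. -/
theorem if8_unifL (A : ValuationSubring Qb) {q : ℕ} (hq : q.Prime) (hA : A.LiesOverPrime q)
    (L : IntermediateField ℚ Qb) [FiniteDimensional ℚ L] :
    ∃ (e : ℕ) (π : Qb), 0 < e ∧ π ∈ L ∧ π ∈ A.nonunits ∧
      (∀ x ∈ L, x ∈ A.nonunits → ∃ y ∈ L, y ∈ A ∧ x = π * y) ∧
      ∃ u ∈ L, u ∈ A ∧ u⁻¹ ∈ A ∧ π ^ e = q * u := by
  haveI : NumberField L := { to_charZero := inferInstance, to_finiteDimensional := inferInstance }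
  obtain ⟨v, hv, hvmem⟩ := if8_exists_v A hq hA L
  have hqv : v.valuation L (q : L) < 1 := by
    rw [← if8_nonunits_iff A L v hv, map_natCast]
    exact hA
  obtain ⟨e, he0, he⟩ := if8_exists_e L v hq.ne_zero hqv
  obtain ⟨π, -, hπA, hπ, u, huA, huA', hu⟩ := if8_unif_of_val A L v hv hq.ne_zero he
  refine ⟨e, algebraMap L Qb π, he0, π.2, hπA, ?_, algebraMap L Qb u, u.2, huA, ?_, ?_⟩
  · intro x hx hxA
    obtain ⟨y, hyA, hxy⟩ := hπ ⟨x, hx⟩ hxA
    refine ⟨algebraMap L Qb y, y.2, hyA, ?_⟩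
    have h := congrArg (algebraMap L Qb) hxy
    simpa using h
  · rw [← map_inv₀]
    exact huA'
  · have h := congrArg (algebraMap L Qb) hu
    simpa using h

/-- **Chain B package**: a uniformizer `π` of `A ∩ L` with `π ^ e = q * unit`, and inertia acts
on `A ∩ L` trivially modulo `π`. -/
theorem if8_unifL_inertia (A : ValuationSubring Qb) {q : ℕ} (hq : q.Prime)
    (hA : A.LiesOverPrime q) (L : IntermediateField ℚ Qb) [FiniteDimensional ℚ L]
    [Normal ℚ L] :
    ∃ (e : ℕ) (π : Qb), 0 < e ∧ π ∈ L ∧ π ∈ A.nonunits ∧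
      (∀ x ∈ L, x ∈ A.nonunits → ∃ y ∈ L, y ∈ A ∧ x = π * y) ∧
      (∃ u ∈ L, u ∈ A ∧ u⁻¹ ∈ A ∧ π ^ e = q * u) ∧
      ∀ σ ∈ A.inertiaSubgroupIn ℚ, ∀ x ∈ L, x ∈ A →
        σ x ∈ L ∧ σ x ∈ A ∧ ∃ y ∈ L, y ∈ A ∧ σ x - x = π * y := by
  obtain ⟨e, π, he, hπL, hπA, hπ, hu⟩ := if8_unifL A hq hA L
  refine ⟨e, π, he, hπL, hπA, hπ, hu, ?_⟩
  intro σ hσ x hxL hxA
  have h1 := if8_map_mem_of_normal L σ x hxL
  exact ⟨h1, if8_inertia_mem A hσ x hxA,
    hπ _ (L.sub_mem h1 hxL) (if8_inertia_congr A hσ x hxA)⟩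

end final

end Fermat.Agent.S34
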