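import Mathlib
import Fermat.Prelude.Def_FLTPrelim_Ramification
import Fermat.Agent.S34.InertiaCore98

/-!
# S34 lab, row P1c-NT (helper98, twin of helper8): number-field core of the `L / K₀` bookkeeping

`A` is a valuation subring of `ℚ̄` over the prime `q`, `L ⊆ ℚ̄` a finite Galois extension of `ℚ`.
`if98_main` produces the inertia field `K₀ ⊆ L` of `A ∩ L` with

* (a) the absolute inertia group `A.inertiaSubgroupIn ℚ` fixes `K₀` pointwise;
* (b) `q` is a uniformizer of `A ∩ K₀`;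
* (c) `A ∩ L` and `A ∩ K₀` have the same residue field;
* (d) a uniformizer `π` of `A ∩ L` with `π ^ e = q * unit`, such that `1, π, …, π ^ (e - 1)` is a
  basis of `L` over `K₀` and of `A ∩ L` over `A ∩ K₀`.

General facts: `if98_inertia` (file `InertiaCore98.lean`; `σ ∈ A.inertiaSubgroupIn K`, `x ∈ A`
imply `σ x ∈ A` and `σ x - x ∈ A.nonunits`) and `if98_map_mem` (`x ∈ L` implies `σ x ∈ L`).

`if98_core`, `if98_core_full` are the same statements for an abstract Galois number field `K`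
with an embedding `f : K →+* F` into any field `F` carrying the valuation subring `A`.
-/

set_option autoImplicit false

open scoped Pointwise NumberField
open IsDedekindDomain

namespace Fermat.Agent.S34

section Core

variable {K F : Type*} [Field K] [NumberField K] [IsGalois ℚ K] [Field F] (f : K →+* F)
  (A : ValuationSubring F)

theorem if98_core {q : ℕ} (hq : q.Prime) (hA : (q : F) ∈ A.nonunits) :
    ∃ E : IntermediateField ℚ K,
      (∀ τ : K ≃ₐ[ℚ] K, (∀ x : K, f x ∈ A → f (τ x) - f x ∈ A.nonunits) → ∀ y ∈ E, τ y = y) ∧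
      (∀ y ∈ E, f y ∈ A.nonunits → ∃ z ∈ E, f z ∈ A ∧ y = q * z) ∧
      (∀ x : K, f x ∈ A → ∃ y ∈ E, f y ∈ A ∧ f x - f y ∈ A.nonunits) ∧
      ∃ (e : ℕ) (π : K), 0 < e ∧ Module.finrank E K = e ∧ π ≠ 0 ∧ f π ∈ A.nonunits ∧
        (∀ x : K, f x ∈ A.nonunits → ∃ y : K, f y ∈ A ∧ x = π * y) ∧
        (∃ u : K, f u ∈ A ∧ f u⁻¹ ∈ A ∧ π ^ e = q * u) := by
  obtain ⟨v, hvle, hvlt, hvmem⟩ := if98_exists_val f A hq hA
  have hq0K : (q : K) ≠ 0 := Nat.cast_ne_zero.mpr hq.ne_zero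
  have hqP : (q : 𝓞 K) ∈ v.asIdeal := by
    rw [hvmem]
    simpa using hA
  obtain ⟨h1, h2, h3, h4⟩ := if98_nf_core v.asIdeal q hq hqP
    (IntermediateField.fixedField (Ideal.inertia (K ≃ₐ[ℚ] K) v.asIdeal)) rfl
  set E : IntermediateField ℚ K :=
    IntermediateField.fixedField (Ideal.inertia (K ≃ₐ[ℚ] K) v.asIdeal) with hE
  -- the valuation of `E`
  obtain ⟨vE, hEle, hElt, hEmem⟩ := if98_exists_val (f.comp (algebraMap E K)) A hq hA
  have htower : ∀ d : 𝓞 E, algebraMap (𝓞 K) K (algebraMap (𝓞 E) (𝓞 K) d) =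
      algebraMap E K (algebraMap (𝓞 E) E d) := by
    intro d
    rw [← IsScalarTower.algebraMap_apply, ← IsScalarTower.algebraMap_apply]
  have hunder : vE.asIdeal = v.asIdeal.under (𝓞 E) := by
    ext d
    rw [hEmem, Ideal.under_def, Ideal.mem_comap, hvmem, RingHom.comp_apply]
    exact iff_of_eq (congrArg (fun t => f t ∈ A.nonunits) (htower d).symm)
  have hqPE : (q : 𝓞 E) ∈ vE.asIdeal := by
    rw [hEmem]
    simpa using hA
  -- the valuations of `q`
  have hvq : v.valuation K (q : K) =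
      WithZero.exp (-((v.asIdeal.ramificationIdx ℤ : ℕ) : ℤ)) := by
    have h5 := if98_intValuation_natCast v hq hqP
    have e1 : algebraMap (𝓞 K) K (q : 𝓞 K) = (q : K) := map_natCast _ q
    rw [← e1, v.valuation_of_algebraMap]
    exact h5
  have hvEq : vE.valuation E (q : E) = WithZero.exp (-1 : ℤ) := by
    have h5 := if98_intValuation_natCast vE hq hqPE
    rw [hunder, h3] at h5
    have e1 : algebraMap (𝓞 E) E (q : 𝓞 E) = (q : E) := map_natCast _ q
    rw [← e1, vE.valuation_of_algebraMap]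
    exact h5
  have hq0E : (q : E) ≠ 0 := Nat.cast_ne_zero.mpr hq.ne_zero
  refine ⟨E, ?_, ?_, ?_, ?_⟩
  · -- (a)
    intro τ hτ y hy
    have hτI : τ ∈ Ideal.inertia (K ≃ₐ[ℚ] K) v.asIdeal := by
      intro z
      change τ • z - z ∈ v.asIdeal
      rw [hvmem]
      have h5 := hτ (z : K) ((hvle _).mpr (v.valuation_le_one z))
      have e1 : f ((τ • z - z : 𝓞 K) : K) = f (τ (z : K)) - f (z : K) := by
        rw [← map_sub]
        rfl
      rw [e1]
      exact h5
    exact (IntermediateField.mem_fixedField_iff _ y).mp hy τ hτI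
  · -- (b)
    intro y hy hyn
    have h5 : vE.valuation E ⟨y, hy⟩ < 1 := (hElt ⟨y, hy⟩).mp hyn
    have h6 := if98_le_exp_neg_one h5
    have h7 : vE.valuation E ((⟨y, hy⟩ : E) / (q : E)) ≤ 1 := by
      rw [map_div₀, hvEq]
      exact (div_le_one₀ WithZero.exp_pos).mpr h6
    refine ⟨(((⟨y, hy⟩ : E) / (q : E) : E) : K), SetLike.coe_mem _, (hEle _).mpr h7, ?_⟩
    have h8 : (⟨y, hy⟩ : E) = (q : E) * ((⟨y, hy⟩ : E) / (q : E)) := by
      field_simp
    have h9 := congrArg (algebraMap E K) h8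
    rw [map_mul, map_natCast] at h9
    exact h9
  · -- (c)
    intro x hx
    obtain ⟨n, d, hnd⟩ := v.exists_primeCompl_mul_eq_of_integer x ((hvle x).mp hx)
    have hmaxE : (v.asIdeal.under (𝓞 E)).IsMaximal := hunder ▸ vE.isMaximal
    have hmaxK : v.asIdeal.IsMaximal := v.isMaximal
    obtain ⟨n₀, hn₀⟩ := if98_residue_surj (v.asIdeal.under (𝓞 E)) v.asIdeal h4 n
    obtain ⟨d₀, hd₀⟩ := if98_residue_surj (v.asIdeal.under (𝓞 E)) v.asIdeal h4 (d : 𝓞 K)
    rw [hvmem] at hn₀ hd₀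
    have e1 : ∀ (a : 𝓞 K) (b : 𝓞 E), f ((a - algebraMap (𝓞 E) (𝓞 K) b : 𝓞 K) : K) =
        f (a : K) - f (algebraMap E K (algebraMap (𝓞 E) E b)) := by
      intro a b
      rw [← map_sub, ← htower]
      rfl
    rw [e1] at hn₀ hd₀
    have hNA : f (n : K) ∈ A := (hvle _).mpr (v.valuation_le_one n)
    have hDA : f ((d : 𝓞 K) : K) ∈ A := (hvle _).mpr (v.valuation_le_one d)
    have hN₀A : f (algebraMap E K (algebraMap (𝓞 E) E n₀)) ∈ A :=
      (hEle _).mpr (vE.valuation_le_one n₀)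
    have hD₀A : f (algebraMap E K (algebraMap (𝓞 E) E d₀)) ∈ A :=
      (hEle _).mpr (vE.valuation_le_one d₀)
    have hDnu : f ((d : 𝓞 K) : K) ∉ A.nonunits := by
      rw [← hvmem]
      exact d.2
    have hD₀nu : f (algebraMap E K (algebraMap (𝓞 E) E d₀)) ∉ A.nonunits := by
      intro h
      apply hDnu
      have := if98_nonunits_add A hd₀ h
      rwa [sub_add_cancel] at this
    have hDinv : (f ((d : 𝓞 K) : K))⁻¹ ∈ A := by
      rw [ValuationSubring.mem_nonunits_iff_or] at hDnu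
      push Not at hDnu
      exact hDnu.2
    have hD₀inv : (f (algebraMap E K (algebraMap (𝓞 E) E d₀)))⁻¹ ∈ A := by
      rw [ValuationSubring.mem_nonunits_iff_or] at hD₀nu
      push Not at hD₀nu
      exact hD₀nu.2
    have hD0 : f ((d : 𝓞 K) : K) ≠ 0 := by
      rw [ValuationSubring.mem_nonunits_iff_or] at hDnu
      push Not at hDnu
      exact hDnu.1
    have hD₀0 : f (algebraMap E K (algebraMap (𝓞 E) E d₀)) ≠ 0 := by
      rw [ValuationSubring.mem_nonunits_iff_or] at hD₀nu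
      push Not at hD₀nu
      exact hD₀nu.1
    have hxd : f x * f ((d : 𝓞 K) : K) = f (n : K) := by
      rw [← map_mul]
      exact congrArg f hnd
    refine ⟨algebraMap E K (algebraMap (𝓞 E) E n₀) / algebraMap E K (algebraMap (𝓞 E) E d₀),
      E.div_mem (SetLike.coe_mem _) (SetLike.coe_mem _), ?_, ?_⟩
    · rw [map_div₀, div_eq_mul_inv]
      exact A.mul_mem _ _ hN₀A hD₀inv
    · have key : f x - f (algebraMap E K (algebraMap (𝓞 E) E n₀) /
          algebraMap E K (algebraMap (𝓞 E) E d₀)) =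
          ((f ((d : 𝓞 K) : K))⁻¹ * (f (algebraMap E K (algebraMap (𝓞 E) E d₀)))⁻¹) *
          (f (algebraMap E K (algebraMap (𝓞 E) E d₀)) *
            (f (n : K) - f (algebraMap E K (algebraMap (𝓞 E) E n₀))) +
          (-f (algebraMap E K (algebraMap (𝓞 E) E n₀))) *
            (f ((d : 𝓞 K) : K) - f (algebraMap E K (algebraMap (𝓞 E) E d₀)))) := by
        rw [map_div₀, ← hxd]
        field_simp
        ring
      rw [key]
      exact if98_nonunits_mul A (A.mul_mem _ _ hDinv hD₀inv)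
        (if98_nonunits_add A (if98_nonunits_mul A hD₀A hn₀)
          (if98_nonunits_mul A (A.neg_mem _ hN₀A) hd₀))
  · -- (d)
    obtain ⟨π, hπ⟩ := v.valuation_exists_uniformizer K
    have hπ0 : π ≠ 0 := by
      rintro rfl
      rw [map_zero] at hπ
      exact WithZero.exp_ne_zero hπ.symm
    refine ⟨v.asIdeal.ramificationIdx ℤ, π, h2, h1, hπ0, ?_, ?_, ?_⟩
    · rw [hvlt, hπ]
      exact if98_exp_neg_one_lt_one
    · intro x hx
      have h5 := if98_le_exp_neg_one ((hvlt x).mp hx)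
      refine ⟨x / π, (hvle _).mpr ?_, by field_simp⟩
      rw [map_div₀, hπ]
      exact (div_le_one₀ WithZero.exp_pos).mpr h5
    · have hvu : v.valuation K (π ^ (v.asIdeal.ramificationIdx ℤ) / (q : K)) = 1 := by
        rw [map_div₀, map_pow, hπ, hvq, if98_exp_neg_one_pow]
        exact div_self WithZero.exp_ne_zero
      refine ⟨π ^ (v.asIdeal.ramificationIdx ℤ) / (q : K), (hvle _).mpr hvu.le,
        (hvle _).mpr ?_, by field_simp⟩
      rw [map_inv₀, hvu, inv_one]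

/-- The full number-field statement: `if98_core` plus the basis `1, π, …, π ^ (e - 1)` of `K`
over the inertia field `E`, which is also a basis of `A ∩ K` over `A ∩ E`. -/
theorem if98_core_full {q : ℕ} (hq : q.Prime) (hA : (q : F) ∈ A.nonunits) :
    ∃ E : IntermediateField ℚ K,
      (∀ τ : K ≃ₐ[ℚ] K, (∀ x : K, f x ∈ A → f (τ x) - f x ∈ A.nonunits) → ∀ y ∈ E, τ y = y) ∧
      (∀ y ∈ E, f y ∈ A.nonunits → ∃ z ∈ E, f z ∈ A ∧ y = q * z) ∧
      (∀ x : K, f x ∈ A → ∃ y ∈ E, f y ∈ A ∧ f x - f y ∈ A.nonunits) ∧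
      ∃ (e : ℕ) (π : K), 0 < e ∧ π ≠ 0 ∧ f π ∈ A.nonunits ∧
        (∀ x : K, f x ∈ A.nonunits → ∃ y : K, f y ∈ A ∧ x = π * y) ∧
        (∃ u : K, f u ∈ A ∧ f u⁻¹ ∈ A ∧ π ^ e = q * u) ∧
        (∀ x : K, ∃ c : Fin e → K, (∀ i, c i ∈ E) ∧ x = ∑ i, c i * π ^ (i : ℕ) ∧
          (f x ∈ A → ∀ i, f (c i) ∈ A)) ∧
        (∀ c : Fin e → K, (∀ i, c i ∈ E) → ∑ i, c i * π ^ (i : ℕ) = 0 → ∀ i, c i = 0) := by
  obtain ⟨E, ha, hb, hc, e, π, he, hrank, hπ0, hπ, hd1, u, hu, hu', hπe⟩ := if98_core f A hq hA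
  have hbS : ∀ x ∈ E.toSubfield.map f, x ∈ A.nonunits → ∃ y ∈ A, x = (q : F) * y := by
    intro x hx hxn
    obtain ⟨y, hy, rfl⟩ := Subfield.mem_map.mp hx
    obtain ⟨z, hz, hzA, rfl⟩ := hb y hy hxn
    exact ⟨f z, hzA, by rw [map_mul, map_natCast]⟩
  have hqS : (q : F) ∈ E.toSubfield.map f :=
    Subfield.mem_map.mpr ⟨(q : K), natCast_mem E q, map_natCast f q⟩
  have hfπ0 : f π ≠ 0 := (map_ne_zero f).mpr hπ0
  have hfu' : (f u)⁻¹ ∈ A := by
    rw [← map_inv₀]
    exact hu'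
  have hfπe : f π ^ e = (q : F) * f u := by
    rw [← map_pow, hπe, map_mul, map_natCast]
  have hd4 : ∀ c : Fin e → K, (∀ i, c i ∈ E) → ∑ i, c i * π ^ (i : ℕ) = 0 → ∀ i, c i = 0 := by
    intro c hcE hsum i
    have h1 := if98_indep A (E.toSubfield.map f) hbS hπ hfπ0 hu hfu' hfπe hqS hA
      (fun i => f (c i)) (fun i => Subfield.mem_map.mpr ⟨c i, hcE i, rfl⟩)
      (by
        have h2 := congrArg f hsum
        rw [map_sum, map_zero] at h2
        simpa only [map_mul, map_pow] using h2) i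
    exact (map_eq_zero f).mp h1
  have hli : LinearIndependent E (fun i : Fin e => π ^ (i : ℕ)) := by
    rw [Fintype.linearIndependent_iff]
    intro g hg i
    have h1 := hd4 (fun i => (g i : K)) (fun i => (g i).2) (by
      rw [← hg]
      exact Finset.sum_congr rfl fun i _ => rfl) i
    exact Subtype.ext h1
  have hspan := hli.span_eq_top_of_card_eq_finrank' (by rw [Fintype.card_fin, hrank])
  refine ⟨E, ha, hb, hc, e, π, he, hπ0, hπ, hd1, ⟨u, hu, hu', hπe⟩, ?_, hd4⟩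
  intro x
  have hx : x ∈ Submodule.span E (Set.range fun i : Fin e => π ^ (i : ℕ)) := by
    rw [hspan]
    trivial
  obtain ⟨g, hg⟩ := (Submodule.mem_span_range_iff_exists_fun E).mp hx
  have hxsum : x = ∑ i, (g i : K) * π ^ (i : ℕ) := by
    rw [← hg]
    exact Finset.sum_congr rfl fun i _ => rfl
  refine ⟨fun i => (g i : K), fun i => (g i).2, hxsum, ?_⟩
  intro hxA
  refine if98_star A (E.toSubfield.map f) hbS hπ hfπ0 hu hfu' hfπe (fun i => f (g i : K))
    (fun i => Subfield.mem_map.mpr ⟨_, (g i).2, rfl⟩) ?_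
  have h2 := congrArg f hxsum
  rw [map_sum] at h2
  simp only [map_mul, map_pow] at h2
  rw [← h2]
  exact hxA

end Core

section Main

local notation "Qb" => AlgebraicClosure ℚ

/-- The image of a normal subfield under an automorphism. -/
theorem if98_map_mem (L : IntermediateField ℚ Qb) [Normal ℚ L] (σ : Qb ≃ₐ[ℚ] Qb) {x : Qb}
    (hx : x ∈ L) : σ x ∈ L := by
  have h := AlgEquiv.restrictNormal_commutes σ L ⟨x, hx⟩
  have h2 : σ x = ((σ.restrictNormal L ⟨x, hx⟩ : L) : Qb) := h.symm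
  rw [h2]
  exact SetLike.coe_mem _

/-- **Row P1c-NT (number-field core of the `L / K₀` bookkeeping).**  `K₀` is the inertia field
of `A ∩ L` in the finite Galois extension `L / ℚ`. -/
theorem if98_main (A : ValuationSubring Qb) {q : ℕ} (hq : q.Prime) (hA : A.LiesOverPrime q)
    (L : IntermediateField ℚ Qb) [FiniteDimensional ℚ L] [IsGalois ℚ L] :
    ∃ K0 : IntermediateField ℚ Qb, K0 ≤ L ∧
      (∀ σ ∈ A.inertiaSubgroupIn ℚ, ∀ x ∈ K0, σ x = x) ∧
      (∀ x ∈ K0, x ∈ A.nonunits → ∃ y ∈ K0, y ∈ A ∧ x = q * y) ∧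
      (∀ x ∈ L, x ∈ A → ∃ y ∈ K0, y ∈ A ∧ x - y ∈ A.nonunits) ∧
      ∃ (e : ℕ) (π : Qb), 0 < e ∧ π ∈ L ∧ π ∈ A.nonunits ∧
        (∀ x ∈ L, x ∈ A.nonunits → ∃ y ∈ L, y ∈ A ∧ x = π * y) ∧
        (∃ u ∈ L, u ∈ A ∧ u⁻¹ ∈ A ∧ π ^ e = q * u) ∧
        (∀ x ∈ L, ∃ c : Fin e → Qb, (∀ i, c i ∈ K0) ∧ x = ∑ i, c i * π ^ (i : ℕ) ∧
          (x ∈ A → ∀ i, c i ∈ A)) ∧
        (∀ c : Fin e → Qb, (∀ i, c i ∈ K0) → ∑ i, c i * π ^ (i : ℕ) = 0 → ∀ i, c i = 0) := by
  have : NumberField L := { to_charZero := inferInstance, to_finiteDimensional := inferInstance }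
  obtain ⟨E, ha, hb, hc, e, π, he, hπ0, hπ, hd1, ⟨u, hu, hu', hπe⟩, hd3, hd4⟩ :=
    if98_core_full (algebraMap L Qb) A hq hA
  have hmem : ∀ x : Qb, x ∈ IntermediateField.lift E ↔ ∃ y : L, y ∈ E ∧ (y : Qb) = x :=
    fun x => Iff.rfl
  refine ⟨IntermediateField.lift E, IntermediateField.lift_le E, ?_, ?_, ?_, e, (π : Qb), he,
    π.2, hπ, ?_, ?_, ?_, ?_⟩
  · -- (a)
    intro σ hσ x hx
    obtain ⟨y, hy, rfl⟩ := (hmem x).mp hx
    have h1 := ha (σ.restrictNormal L) (fun z hz => by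
      rw [AlgEquiv.restrictNormal_commutes]
      exact (if98_inertia A hσ hz).2) y hy
    have h2 := AlgEquiv.restrictNormal_commutes σ L y
    rw [h1] at h2
    exact h2.symm
  · -- (b)
    intro x hx hxn
    obtain ⟨y, hy, rfl⟩ := (hmem x).mp hx
    obtain ⟨z, hz, hzA, rfl⟩ := hb y hy hxn
    exact ⟨(z : Qb), (hmem _).mpr ⟨z, hz, rfl⟩, hzA, by push_cast; rfl⟩
  · -- (c)
    intro x hx hxA
    obtain ⟨y, hy, hyA, hxy⟩ := hc ⟨x, hx⟩ hxA
    exact ⟨(y : Qb), (hmem _).mpr ⟨y, hy, rfl⟩, hyA, hxy⟩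
  · -- (d1)
    intro x hx hxn
    obtain ⟨y, hyA, hxy⟩ := hd1 ⟨x, hx⟩ hxn
    exact ⟨(y : Qb), y.2, hyA, congrArg (algebraMap L Qb) hxy⟩
  · -- (d2)
    refine ⟨(u : Qb), u.2, hu, ?_, ?_⟩
    · have h1 : ((u⁻¹ : L) : Qb) = (u : Qb)⁻¹ := by push_cast; rfl
      rw [← h1]
      exact hu'
    · have h1 := congrArg (algebraMap L Qb) hπe
      rw [map_pow, map_mul, map_natCast] at h1
      exact h1
  · -- (d3)
    intro x hx
    obtain ⟨c, hcE, hsum, hint⟩ := hd3 ⟨x, hx⟩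
    refine ⟨fun i => (c i : Qb), fun i => (hmem _).mpr ⟨c i, hcE i, rfl⟩, ?_, hint⟩
    have h1 := congrArg (algebraMap L Qb) hsum
    rw [map_sum] at h1
    simp only [map_mul, map_pow] at h1
    exact h1
  · -- (d4)
    intro c hcK hsum i
    choose c' hc'E hc' using fun i => (hmem (c i)).mp (hcK i)
    have h1 := hd4 c' hc'E (by
      apply (algebraMap L Qb).injective
      rw [map_sum, map_zero, ← hsum]
      refine Finset.sum_congr rfl fun i _ => ?_
      rw [map_mul, map_pow, ← hc' i]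
      rfl) i
    rw [← hc' i, h1]
    rfl

end Main

end Fermat.Agent.S34
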