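/-
S34 / row 480 "P1c-NT", part 2 (helper8): the decomposition `L = ⊕_{i<e} K0 π^i` over the inertia
field `K0` and its integral form `A ∩ L = ⊕_{i<e} (A ∩ K0) π^i`.

* `if8b_val_term`, `if8b_exists_max` : the monomials `c_i π^i` (`c_i ∈ K0`, `i < e = [L : K0]`)
  have pairwise distinct valuations, so the valuation of a sum is the largest one;
* `if8b_indep`, `if8b_span`, `if8b_integral` : uniqueness, existence and integrality of the
  coefficients (abstract form, for a height one prime `v` of `𝓞 L`);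
* `if8_main` : the whole package (a)-(d) for a valuation subring `A` of `ℚ̄` above `q` and a finite
  Galois `L ⊆ ℚ̄`, with one and the same `K0`.
-/
import Mathlib
import Fermat.Agent.S34.InertiaField8

set_option autoImplicit false
set_option linter.unusedSectionVars false
set_option linter.style.haveILetI false
open NumberField IsDedekindDomain
open scoped Pointwise

namespace Fermat.Agent.S34

section basis

variable (L : Type*) [Field L] [NumberField L] [IsGalois ℚ L] (v : HeightOneSpectrum (𝓞 L))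

/-- The valuation of a monomial `c π^i`, `c` in the inertia field. -/
theorem if8b_val_term {π : L} (hπ : v.valuation L π = WithZero.exp (-1 : ℤ))
    (c : if8_E L v.asIdeal) (hc : c ≠ 0) (i : ℕ) :
    v.valuation L ((c : L) * π ^ i) =
      WithZero.exp ((Module.finrank (if8_E L v.asIdeal) L : ℤ) *
        WithZero.log ((if8_vE L v).valuation _ c) - i) := by
  have hne : (if8_vE L v).valuation _ c ≠ 0 := (Valuation.ne_zero_iff _).mpr hc
  have h := if8_val_L L v c
  rw [show (algebraMap (if8_E L v.asIdeal) L c) = (c : L) from rfl] at h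
  rw [map_mul, map_pow, h, hπ]
  conv_lhs => rw [← WithZero.exp_log hne]
  rw [← WithZero.exp_nsmul, ← WithZero.exp_nsmul, ← WithZero.exp_add]
  congr 1
  simp only [nsmul_eq_mul]
  ring

/-- The monomials `c_i π^i`, `i < e`, have pairwise distinct valuations; hence the valuation of
their sum is the largest one. -/
theorem if8b_exists_max {π : L} (hπ : v.valuation L π = WithZero.exp (-1 : ℤ))
    (c : Fin (Module.finrank (if8_E L v.asIdeal) L) → if8_E L v.asIdeal) (hc : ∃ i, c i ≠ 0) :
    ∃ j, c j ≠ 0 ∧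
      v.valuation L (∑ i, (c i : L) * π ^ (i : ℕ)) = v.valuation L ((c j : L) * π ^ (j : ℕ)) ∧
      ∀ i, v.valuation L ((c i : L) * π ^ (i : ℕ)) ≤ v.valuation L ((c j : L) * π ^ (j : ℕ)) := by
  classical
  set S : Finset (Fin (Module.finrank (if8_E L v.asIdeal) L)) :=
    Finset.univ.filter (fun i => c i ≠ 0) with hS
  have hSne : S.Nonempty := by
    obtain ⟨i, hi⟩ := hc
    exact ⟨i, by simp [hS, hi]⟩
  obtain ⟨j, hjS, hj⟩ := Finset.exists_max_image S
    (fun i => v.valuation L ((c i : L) * π ^ (i : ℕ))) hSne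
  have hcj : c j ≠ 0 := by simpa [hS] using hjS
  have hvj : v.valuation L ((c j : L) * π ^ (j : ℕ)) ≠ 0 := by
    rw [if8b_val_term L v hπ _ hcj]
    exact WithZero.exp_ne_zero
  have hlt : ∀ i, i ≠ j → v.valuation L ((c i : L) * π ^ (i : ℕ)) <
      v.valuation L ((c j : L) * π ^ (j : ℕ)) := by
    intro i hij
    by_cases hci : c i = 0
    · rw [hci]
      simp only [ZeroMemClass.coe_zero, zero_mul, map_zero]
      exact zero_lt_iff.mpr hvj
    · have hle := hj i (by simp [hS, hci])
      refine lt_of_le_of_ne hle ?_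
      intro heq
      rw [if8b_val_term L v hπ _ hci, if8b_val_term L v hπ _ hcj, WithZero.exp_inj] at heq
      apply hij
      have hdvd : (Module.finrank (if8_E L v.asIdeal) L : ℤ) ∣ ((i : ℕ) : ℤ) - ((j : ℕ) : ℤ) :=
        ⟨WithZero.log ((if8_vE L v).valuation _ (c i)) -
          WithZero.log ((if8_vE L v).valuation _ (c j)), by linarith⟩
      have habs : |((i : ℕ) : ℤ) - ((j : ℕ) : ℤ)| < (Module.finrank (if8_E L v.asIdeal) L : ℤ) := by
        have hi := i.2
        have hj' := j.2
        rw [abs_lt]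
        constructor <;> omega
      have h0 := Int.eq_zero_of_abs_lt_dvd hdvd habs
      exact Fin.ext (by omega)
  refine ⟨j, hcj, ?_, ?_⟩
  · exact Valuation.map_sum_eq_of_lt _ (Finset.mem_univ j)
      (fun i hi => hlt i (by simpa using hi))
  · intro i
    by_cases hij : i = j
    · rw [hij]
    · exact (hlt i hij).le

/-- Uniqueness: the powers `π^i`, `i < e`, are linearly independent over the inertia field. -/
theorem if8b_indep {π : L} (hπ : v.valuation L π = WithZero.exp (-1 : ℤ))
    (c : Fin (Module.finrank (if8_E L v.asIdeal) L) → if8_E L v.asIdeal)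
    (h : ∑ i, (c i : L) * π ^ (i : ℕ) = 0) : ∀ i, c i = 0 := by
  by_contra hne
  push Not at hne
  obtain ⟨j, hcj, hsum, -⟩ := if8b_exists_max L v hπ c hne
  rw [h, map_zero, if8b_val_term L v hπ _ hcj] at hsum
  exact WithZero.exp_ne_zero hsum.symm

/-- Existence: every element of `L` is a combination of the `π^i`, `i < e`, with coefficients in
the inertia field. -/
theorem if8b_span {π : L} (hπ : v.valuation L π = WithZero.exp (-1 : ℤ)) (x : L) :
    ∃ c : Fin (Module.finrank (if8_E L v.asIdeal) L) → if8_E L v.asIdeal,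
      x = ∑ i, (c i : L) * π ^ (i : ℕ) := by
  have hli : LinearIndependent (if8_E L v.asIdeal)
      (fun i : Fin (Module.finrank (if8_E L v.asIdeal) L) => π ^ (i : ℕ)) := by
    rw [Fintype.linearIndependent_iff]
    intro g hg
    exact if8b_indep L v hπ g (by simpa [Algebra.smul_def] using hg)
  have htop := hli.span_eq_top_of_card_eq_finrank' (by simp)
  have hx : x ∈ Submodule.span (if8_E L v.asIdeal)
      (Set.range (fun i : Fin (Module.finrank (if8_E L v.asIdeal) L) => π ^ (i : ℕ))) := by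
    rw [htop]
    exact Submodule.mem_top
  obtain ⟨c, hc⟩ := (Submodule.mem_span_range_iff_exists_fun _).mp hx
  refine ⟨c, ?_⟩
  rw [← hc]
  simp [Algebra.smul_def]

/-- Integrality: if the combination is integral at `v`, so are all coefficients. -/
theorem if8b_integral {π : L} (hπ : v.valuation L π = WithZero.exp (-1 : ℤ))
    (c : Fin (Module.finrank (if8_E L v.asIdeal) L) → if8_E L v.asIdeal)
    (h : v.valuation L (∑ i, (c i : L) * π ^ (i : ℕ)) ≤ 1) (i : Fin (Module.finrank (if8_E L v.asIdeal) L)) :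
    (if8_vE L v).valuation _ (c i) ≤ 1 := by
  by_cases hci : c i = 0
  · rw [hci, map_zero]
    exact zero_le
  obtain ⟨j, hcj, hsum, hmax⟩ := if8b_exists_max L v hπ c ⟨i, hci⟩
  have h1 : v.valuation L ((c i : L) * π ^ (i : ℕ)) ≤ 1 := (hmax i).trans (hsum ▸ h)
  rw [if8b_val_term L v hπ _ hci, ← WithZero.exp_zero, WithZero.exp_le_exp] at h1
  have hne : (if8_vE L v).valuation _ (c i) ≠ 0 := (Valuation.ne_zero_iff _).mpr hci
  rw [← WithZero.exp_log hne, ← WithZero.exp_zero, WithZero.exp_le_exp]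
  by_contra hpos
  push Not at hpos
  have hi := i.2
  have h2 : (Module.finrank (if8_E L v.asIdeal) L : ℤ) * 1 ≤
      (Module.finrank (if8_E L v.asIdeal) L : ℤ) *
        WithZero.log ((if8_vE L v).valuation _ (c i)) :=
    mul_le_mul_of_nonneg_left (by omega) (by positivity)
  omega

end basis

section final

local notation "Qb" => AlgebraicClosure ℚ

/-- **The inertia field package** (row 480, all parts with the same `K0`). -/
theorem if8_main (A : ValuationSubring Qb) {q : ℕ} (hq : q.Prime) (hA : A.LiesOverPrime q)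
    (L : IntermediateField ℚ Qb) [FiniteDimensional ℚ L] [IsGalois ℚ L] :
    ∃ K0 : IntermediateField ℚ Qb, K0 ≤ L ∧
      (∀ σ ∈ A.inertiaSubgroupIn ℚ, ∀ x ∈ K0, σ x = x) ∧
      (∀ x ∈ K0, x ∈ A.nonunits → ∃ y ∈ K0, y ∈ A ∧ x = q * y) ∧
      (∀ x ∈ L, x ∈ A → ∃ y ∈ K0, y ∈ A ∧ x - y ∈ A.nonunits) ∧
      ∃ (e : ℕ) (π : Qb), 0 < e ∧ π ∈ L ∧ π ∈ A.nonunits ∧
        (∀ x ∈ L, x ∈ A.nonunits → ∃ y ∈ L, y ∈ A ∧ x = π * y) ∧
        (∃ u ∈ L, u ∈ A ∧ u⁻¹ ∈ A ∧ π ^ e = q * u) ∧
        (∀ x ∈ L, ∃ c : Fin e → Qb, (∀ i, c i ∈ K0) ∧ x = ∑ i, c i * π ^ (i : ℕ) ∧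
          (x ∈ A → ∀ i, c i ∈ A)) ∧
        (∀ c : Fin e → Qb, (∀ i, c i ∈ K0) → ∑ i, c i * π ^ (i : ℕ) = 0 → ∀ i, c i = 0) := by
  haveI : NumberField L := { to_charZero := inferInstance, to_finiteDimensional := inferInstance }
  obtain ⟨v, hv, hvmem⟩ := if8_exists_v A hq hA L
  have he : v.valuation L (q : L) =
      WithZero.exp (-(Module.finrank (if8_E L v.asIdeal) L : ℤ)) := by
    have h := if8_val_L L v (q : if8_E L v.asIdeal)
    rw [if8_val_q L v hq (if8_q_mem A L v hvmem hA)] at h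
    have h2 : algebraMap (if8_E L v.asIdeal) L (q : if8_E L v.asIdeal) = (q : L) := by simp
    rw [h2] at h
    rw [h, ← WithZero.exp_nsmul]
    congr 1
    simp
  obtain ⟨π, hπv, hπA, hπ, u, huA, huA', hu⟩ := if8_unif_of_val A L v hv hq.ne_zero he
  refine ⟨IntermediateField.lift (if8_E L v.asIdeal), IntermediateField.lift_le _, ?_, ?_, ?_,
    Module.finrank (if8_E L v.asIdeal) L, algebraMap L Qb π, Module.finrank_pos, π.2, hπA, ?_,
    ⟨algebraMap L Qb u, u.2, huA, ?_, ?_⟩, ?_, ?_⟩
  · rintro σ hσ _ ⟨x, hx, rfl⟩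
    exact if8_fix A L v hv hvmem hσ ⟨x, hx⟩
  · rintro _ ⟨x, hx, rfl⟩ hxA
    obtain ⟨y, hyA, hxy⟩ := if8_unif A L v hv hvmem hq hA ⟨x, hx⟩ hxA
    refine ⟨algebraMap L Qb (y : L), ⟨(y : L), y.2, rfl⟩, hyA, ?_⟩
    have h := congrArg (fun z : if8_E L v.asIdeal => algebraMap L Qb (z : L)) hxy
    simpa using h
  · intro x hx hxA
    obtain ⟨y, hyA, hxy⟩ := if8_res A L v hv ⟨x, hx⟩ hxA
    exact ⟨algebraMap L Qb (y : L), ⟨(y : L), y.2, rfl⟩, hyA, hxy⟩
  · intro x hx hxA
    obtain ⟨y, hyA, hxy⟩ := hπ ⟨x, hx⟩ hxA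
    refine ⟨algebraMap L Qb y, y.2, hyA, ?_⟩
    have h := congrArg (algebraMap L Qb) hxy
    simpa using h
  · rw [← map_inv₀]
    exact huA'
  · have h := congrArg (algebraMap L Qb) hu
    simpa using h
  · intro x hx
    obtain ⟨c, hc⟩ := if8b_span L v hπv ⟨x, hx⟩
    refine ⟨fun i => algebraMap L Qb (c i : L), fun i => ⟨(c i : L), (c i).2, rfl⟩, ?_, ?_⟩
    · have h := congrArg (algebraMap L Qb) hc
      simpa using h
    · intro hxA i
      rw [if8_mem_iff_E A L v hv]
      apply if8b_integral L v hπv c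
      rw [← hc, ← if8_mem_iff A L v hv]
      exact hxA
  · intro c hc hsum
    choose c' hc'E hc' using hc
    have h0 : ∑ i, (((⟨c' i, hc'E i⟩ : if8_E L v.asIdeal) : L)) * π ^ (i : ℕ) = 0 := by
      apply (algebraMap L Qb).injective
      rw [map_sum, map_zero, ← hsum]
      refine Finset.sum_congr rfl fun i _ => ?_
      rw [map_mul, map_pow, ← hc' i]
      rfl
    have h1 := if8b_indep L v hπv (fun i => ⟨c' i, hc'E i⟩) h0
    intro i
    have h2 := congrArg (fun z : if8_E L v.asIdeal => algebraMap L Qb (z : L)) (h1 i)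
    rw [← hc' i]
    simpa using h2

end final

end Fermat.Agent.S34
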