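import Mathlib
import Fermat.Agent.S34.Iface47
import Fermat.Agent.S34.Hartogs19

/-!
# S34 lab (helper30): the Krull property of the charts — twin proof of `s34i47_Pkg_Krull`

`kt30_Pkg_Krull : s34i47_Pkg_Krull` (P5c of `Iface47`), by an elementary route which uses neither
Dedekind domains nor the function field `K(h)`:

* `kt30_pir` / `kt30_pir_of_locPrin`: the localisation of a Noetherian integrally closed domain at
  a locally principal prime, as a valuation subring of the fraction field, is a principal ideal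
  ring (every nonzero element is a unit times a power of the local generator, `hg19_decomp`);
* `kt30_krull_core`: `A` Noetherian integrally closed with fraction field `F`, `π ≠ 0`, `n` a
  prime: if `x` lies in every discrete valuation subring `O ⊇ A` with `π⁻¹ ∈ O` centred inside
  `n`, then `π ^ k * x` is regular at `n` for some `k` (local Hartogs `hg19_mem_localization`;
  the finitely many minimal primes of `π` are absorbed by the power of `π`);
* `kt30_krull_subalgebra`: the chart form `s34i47_Krull π B`;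
* `kt30_chart_closed`, `kt30_chart_inv_frac`: the charts `pk15_chart R s` are integrally closed in
  `F`; the fraction field of the chart at `h⁻¹` is `F` as soon as that of the chart at `h` is.

All names are prefixed `kt30_`.  Mathlib + `Iface47` + `Hartogs19` only.
-/

set_option autoImplicit false

namespace Fermat.Agent.S34

open Fermat.Agent.S18 Polynomial

section PIR

variable {F : Type*} [Field F]

/-- A valuation subring in which every nonzero element is a unit times a power of a fixed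
element `ϖ` is a principal ideal ring. -/
theorem kt30_pir (V : ValuationSubring F) (ϖ : F) (hϖ : ϖ ∈ V)
    (h : ∀ v ∈ V, v ≠ 0 → ∃ k : ℕ, ∃ u : F, u ∈ V ∧ u⁻¹ ∈ V ∧ v = u * ϖ ^ k) :
    IsPrincipalIdealRing V := by
  classical
  refine ⟨fun I => ?_⟩
  by_cases hI : I = ⊥
  · exact ⟨0, by rw [hI]; simp⟩
  obtain ⟨v₀, hv₀I, hv₀0⟩ := Submodule.exists_mem_ne_zero_of_ne_bot hI
  have hv₀F : (v₀ : F) ≠ 0 := fun h0 => hv₀0 (Subtype.ext h0)
  -- the set of exponents occurring in `I`
  have hex : ∃ k : ℕ, ∃ v : V, v ∈ I ∧ (v : F) ≠ 0 ∧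
      ∃ u : F, u ∈ V ∧ u⁻¹ ∈ V ∧ (v : F) = u * ϖ ^ k := by
    obtain ⟨k, u, hu, hu', hvu⟩ := h v₀ v₀.2 hv₀F
    exact ⟨k, v₀, hv₀I, hv₀F, u, hu, hu', hvu⟩
  have hmin : ∀ k : ℕ, (∃ v : V, v ∈ I ∧ (v : F) ≠ 0 ∧
      ∃ u : F, u ∈ V ∧ u⁻¹ ∈ V ∧ (v : F) = u * ϖ ^ k) → Nat.find hex ≤ k :=
    fun k hk => Nat.find_min' hex hk
  obtain ⟨w, hwI, hw0, u, hu, hu', hwu⟩ := Nat.find_spec hex
  have hu0 : u ≠ 0 := by
    rintro rfl
    exact hw0 (by rw [hwu, zero_mul])
  have hϖk : ϖ ^ Nat.find hex ∈ V := V.pow_mem hϖ _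
  -- the generator lies in `I`
  have hgen : (⟨ϖ ^ Nat.find hex, hϖk⟩ : V) ∈ I := by
    have : (⟨ϖ ^ Nat.find hex, hϖk⟩ : V) = (⟨u⁻¹, hu'⟩ : V) * w := by
      apply Subtype.ext
      show ϖ ^ Nat.find hex = u⁻¹ * (w : F)
      rw [hwu, ← mul_assoc, inv_mul_cancel₀ hu0, one_mul]
    rw [this]
    exact I.mul_mem_left _ hwI
  refine ⟨⟨⟨ϖ ^ Nat.find hex, hϖk⟩, ?_⟩⟩
  refine le_antisymm ?_ ?_
  · intro v hv
    by_cases hv0 : (v : F) = 0
    · have : v = 0 := Subtype.ext hv0
      rw [this]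
      exact Submodule.zero_mem _
    obtain ⟨k, u₁, hu₁, hu₁', hvu₁⟩ := h v v.2 hv0
    have hle : Nat.find hex ≤ k := hmin k ⟨v, hv, hv0, u₁, hu₁, hu₁', hvu₁⟩
    obtain ⟨d, hd⟩ := Nat.exists_eq_add_of_le hle
    have hmem : u₁ * ϖ ^ d ∈ V := V.mul_mem _ _ hu₁ (V.pow_mem hϖ _)
    have hveq : v = (⟨u₁ * ϖ ^ d, hmem⟩ : V) * (⟨ϖ ^ Nat.find hex, hϖk⟩ : V) := by
      apply Subtype.ext
      show (v : F) = u₁ * ϖ ^ d * ϖ ^ Nat.find hex
      rw [hvu₁, hd, pow_add]; ring
    rw [hveq]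
    exact Submodule.smul_mem _ _ (Submodule.subset_span (Set.mem_singleton _))
  · rw [Submodule.span_singleton_le_iff_mem]
    exact hgen

end PIR

section Core

variable {A : Type*} [CommRing A] [IsDomain A] [IsNoetherianRing A] [IsIntegrallyClosed A]
  {F : Type*} [Field F] [Algebra A F] [IsFractionRing A F]

omit [IsIntegrallyClosed A] in
/-- The localisation at a locally principal prime of a Noetherian integrally closed domain, as a
valuation subring of the fraction field, is a principal ideal ring. -/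
theorem kt30_pir_of_locPrin (P : Ideal A) [hP : P.IsPrime]
    (hprin : ∃ ϖ ∈ P, ∃ s, s ∉ P ∧ ∀ y ∈ P, ∃ r, s * y = r * ϖ)
    (V : ValuationSubring F)
    (hV : ∀ x : F, x ∈ V ↔ ∃ s, s ∉ P ∧ ∃ a : A, algebraMap A F s * x = algebraMap A F a) :
    IsPrincipalIdealRing V := by
  obtain ⟨ϖ, hϖ, s₀, hs₀, hprin⟩ := hprin
  have hinj := IsFractionRing.injective A F
  have h1 : (1 : A) ∉ P := (Ideal.ne_top_iff_one P).mp hP.ne_top
  have hmul : ∀ u v : A, u ∉ P → v ∉ P → u * v ∉ P := by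
    intro u v hu hv hmem
    rcases hP.mem_or_mem hmem with h2 | h2
    · exact hu h2
    · exact hv h2
  have hne : ∀ a : A, a ∉ P → algebraMap A F a ≠ 0 := by
    intro a ha h0
    exact ha ((hinj (by rw [h0, map_zero]) : a = 0) ▸ P.zero_mem)
  refine kt30_pir V (algebraMap A F ϖ) ((hV _).2 ⟨1, h1, ϖ, by rw [map_one, one_mul]⟩) ?_
  intro v hv hv0
  obtain ⟨s, hs, a, ha⟩ := (hV v).1 hv
  have hsF := hne s hs
  have ha0 : a ≠ 0 := by
    rintro rfl
    rw [map_zero] at ha
    rcases mul_eq_zero.mp ha with h2 | h2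
    · exact hsF h2
    · exact hv0 h2
  obtain ⟨k, s₁, r, hs₁, hr, hdec⟩ := hg19_decomp P ϖ s₀ hs₀ hprin hϖ a ha0
  have hs₁F := hne s₁ hs₁
  have hrF := hne r hr
  have hdecF : algebraMap A F s₁ * algebraMap A F a = algebraMap A F r * algebraMap A F ϖ ^ k := by
    rw [← map_mul, hdec, map_mul, map_pow]
  refine ⟨k, algebraMap A F r / (algebraMap A F s * algebraMap A F s₁), ?_, ?_, ?_⟩
  · refine (hV _).2 ⟨s * s₁, hmul _ _ hs hs₁, r, ?_⟩
    rw [map_mul]
    field_simp
  · refine (hV _).2 ⟨r, hr, s * s₁, ?_⟩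
    rw [map_mul, inv_div]
    field_simp
  · have hv' : v = algebraMap A F a / algebraMap A F s := by
      rw [eq_div_iff hsF, mul_comm]; exact ha
    have ha' : algebraMap A F a = algebraMap A F r * algebraMap A F ϖ ^ k / algebraMap A F s₁ := by
      rw [eq_div_iff hs₁F, mul_comm]; exact hdecF
    rw [hv', ha']
    field_simp

/-- **Krull property, core form.**  If `x` lies in every discrete valuation subring `O ⊇ A` of
`F` with `π⁻¹ ∈ O` in which the elements outside the prime `n` are units, then `π ^ k * x` is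
regular at `n` for some `k`. -/
theorem kt30_krull_core (π : A) (hπ0 : π ≠ 0) (n : Ideal A) [hn : n.IsPrime] (x : F)
    (h : ∀ O : ValuationSubring F, O ≠ ⊤ → IsPrincipalIdealRing O →
      (∀ a : A, algebraMap A F a ∈ O) → (algebraMap A F π)⁻¹ ∈ O →
      (∀ a : A, a ∉ n → (algebraMap A F a)⁻¹ ∈ O) → x ∈ O) :
    ∃ s, s ∉ n ∧ ∃ (k : ℕ) (a : A),
      algebraMap A F s * (algebraMap A F π ^ k * x) = algebraMap A F a := by
  classical
  have hinj := IsFractionRing.injective A F
  have hπF : algebraMap A F π ≠ 0 := fun h0 => hπ0 (hinj (by rw [h0, map_zero]))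
  -- regularity of `π ^ k * x` at `P` is monotone in `k`
  have hmono : ∀ (P : Ideal A) (k k' : ℕ), k ≤ k' →
      (∃ s, s ∉ P ∧ ∃ a : A, algebraMap A F s * (algebraMap A F π ^ k * x) = algebraMap A F a) →
      ∃ s, s ∉ P ∧ ∃ a : A, algebraMap A F s * (algebraMap A F π ^ k' * x) = algebraMap A F a := by
    rintro P k k' hkk' ⟨s, hs, a, ha⟩
    obtain ⟨d, rfl⟩ := Nat.exists_eq_add_of_le hkk'
    refine ⟨s, hs, π ^ d * a, ?_⟩
    rw [map_mul, map_pow, ← ha, pow_add]; ring
  -- step 1: at every locally principal nonzero prime inside `n` some `π ^ k * x` is regular,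
  -- and `k = 0` works when `π ∉ P`
  have hstep : ∀ P : Ideal A, P.IsPrime → P ≤ n → P ≠ ⊥ →
      (∃ ϖ ∈ P, ∃ s, s ∉ P ∧ ∀ y ∈ P, ∃ r, s * y = r * ϖ) →
      ∃ k : ℕ, (π ∉ P → k = 0) ∧
        ∃ s, s ∉ P ∧ ∃ a : A, algebraMap A F s * (algebraMap A F π ^ k * x) = algebraMap A F a := by
    intro P hP hPn hP0 hprin
    have h1 : (1 : A) ∉ P := (Ideal.ne_top_iff_one P).mp hP.ne_top
    by_cases hπP : π ∈ P
    · -- vertical prime: a power of `π` kills the denominator
      obtain ⟨ϖ, hϖ, s₀, hs₀, hprin'⟩ := hprin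
      obtain ⟨a, b, hb, rfl⟩ := IsFractionRing.div_surjective (A := A) x
      have hb0 : b ≠ 0 := nonZeroDivisors.ne_zero hb
      have hbF : algebraMap A F b ≠ 0 := fun h0 => hb0 (hinj (by rw [h0, map_zero]))
      obtain ⟨j, s, r, hs, hr, hdb⟩ := hg19_decomp P ϖ s₀ hs₀ hprin' hϖ b hb0
      obtain ⟨e, s', r', hs', hr', hdπ⟩ := hg19_decomp P ϖ s₀ hs₀ hprin' hϖ π hπ0
      have he : e ≠ 0 := by
        rintro rfl
        rw [pow_zero, mul_one] at hdπ
        exact hr' (hdπ ▸ P.mul_mem_left _ hπP)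
      obtain ⟨e', rfl⟩ := Nat.exists_eq_succ_of_ne_zero he
      have hmulP : ∀ u v : A, u ∉ P → v ∉ P → u * v ∉ P := by
        intro u v hu hv hmem
        rcases hP.mem_or_mem hmem with h2 | h2
        · exact hu h2
        · exact hv h2
      have hpowP : ∀ (u : A) (i : ℕ), u ∉ P → u ^ i ∉ P := fun u i hu hmem =>
        hu (hP.mem_of_pow_mem _ hmem)
      refine ⟨j, fun hc => absurd hπP hc, r * s' ^ j, hmulP _ _ hr (hpowP _ _ hs'),
        a * s * r' ^ j * ϖ ^ (e' * j), ?_⟩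
      -- the identity in `A`
      have key : r * s' ^ j * π ^ j * a = a * s * r' ^ j * ϖ ^ (e' * j) * b := by
        have h2 : s' ^ j * π ^ j = r' ^ j * ϖ ^ (e' * j) * ϖ ^ j := by
          rw [← mul_pow, hdπ, mul_pow, ← pow_mul, Nat.succ_mul, pow_add]; ring
        calc r * s' ^ j * π ^ j * a = r * (s' ^ j * π ^ j) * a := by ring
          _ = r * (r' ^ j * ϖ ^ (e' * j) * ϖ ^ j) * a := by rw [h2]
          _ = a * r' ^ j * ϖ ^ (e' * j) * (r * ϖ ^ j) := by ring
          _ = a * r' ^ j * ϖ ^ (e' * j) * (s * b) := by rw [hdb]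
          _ = a * s * r' ^ j * ϖ ^ (e' * j) * b := by ring
      have keyF := congrArg (algebraMap A F) key
      simp only [map_mul, map_pow] at keyF
      simp only [map_mul, map_pow]
      field_simp
      linear_combination keyF
    · -- horizontal prime: the localisation is a discrete valuation subring through `n`
      refine ⟨0, fun _ => rfl, ?_⟩
      obtain ⟨V, hV⟩ := @hg19_exists_valuationSubring A _ _ _ F _ _ _ P hP hprin
      have hxV : x ∈ V := by
        apply h V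
        · intro htop
          obtain ⟨y, hyP, hy0⟩ := Submodule.exists_mem_ne_zero_of_ne_bot hP0
          have hyF : algebraMap A F y ≠ 0 := fun h0 => hy0 (hinj (by rw [h0, map_zero]))
          have hmem : (algebraMap A F y)⁻¹ ∈ V := by rw [htop]; trivial
          rw [hV] at hmem
          obtain ⟨s, hs, a, ha⟩ := hmem
          apply hs
          have : s = a * y := by
            apply hinj
            rw [map_mul, ← ha, inv_mul_cancel_right₀ hyF]
          rw [this]
          exact P.mul_mem_left _ hyP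
        · exact kt30_pir_of_locPrin P hprin V hV
        · intro a
          rw [hV]
          exact ⟨1, h1, a, by rw [map_one, one_mul]⟩
        · rw [hV]
          exact ⟨π, hπP, 1, by rw [mul_inv_cancel₀ hπF, map_one]⟩
        · intro a ha
          have haP : a ∉ P := fun h' => ha (hPn h')
          have ha0 : algebraMap A F a ≠ 0 := fun h0 =>
            haP ((hinj (by rw [h0, map_zero]) : a = 0) ▸ P.zero_mem)
          rw [hV]
          exact ⟨a, haP, 1, by rw [mul_inv_cancel₀ ha0, map_one]⟩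
      obtain ⟨s, hs, a, ha⟩ := (hV x).1 hxV
      exact ⟨s, hs, a, by rw [pow_zero, one_mul]; exact ha⟩
  -- step 2: a uniform exponent
  have hstep' : ∀ P : Ideal A, ∃ k : ℕ, P.IsPrime → P ≤ n → P ≠ ⊥ →
      (∃ ϖ ∈ P, ∃ s, s ∉ P ∧ ∀ y ∈ P, ∃ r, s * y = r * ϖ) →
      (π ∉ P → k = 0) ∧
        ∃ s, s ∉ P ∧ ∃ a : A, algebraMap A F s * (algebraMap A F π ^ k * x) = algebraMap A F a := by
    intro P
    by_cases hc : P.IsPrime ∧ P ≤ n ∧ P ≠ ⊥ ∧
        (∃ ϖ ∈ P, ∃ s, s ∉ P ∧ ∀ y ∈ P, ∃ r, s * y = r * ϖ)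
    · obtain ⟨k, hk⟩ := hstep P hc.1 hc.2.1 hc.2.2.1 hc.2.2.2
      exact ⟨k, fun _ _ _ _ => hk⟩
    · exact ⟨0, fun h1 h2 h3 h4 => absurd ⟨h1, h2, h3, h4⟩ hc⟩
  choose f hf using hstep'
  have hfin : (Ideal.span ({π} : Set A)).minimalPrimes.Finite :=
    Ideal.finite_minimalPrimes_of_isNoetherianRing A _
  set k := hfin.toFinset.sup f with hk
  obtain ⟨s, hs, a, ha⟩ := hg19_mem_localization n (algebraMap A F π ^ k * x) (by
    intro P hP hPn hP0 hprin
    obtain ⟨hzero, hreg⟩ := hf P hP hPn hP0 hprin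
    by_cases hπP : π ∈ P
    · -- `P` is a minimal prime of `π`
      have hmem : P ∈ (Ideal.span ({π} : Set A)).minimalPrimes := by
        refine ⟨⟨hP, (Ideal.span_singleton_le_iff_mem P).mpr hπP⟩, ?_⟩
        rintro Q ⟨hQ, hQπ⟩ hQP
        have hQ0 : Q ≠ ⊥ := by
          intro h0
          have : π ∈ (⊥ : Ideal A) := h0 ▸ (Ideal.span_singleton_le_iff_mem Q).mp hQπ
          exact hπ0 (by simpa using this)
        exact (@hg19_eq_of_le A _ _ _ P hP hprin Q hQ hQ0 hQP).ge
      have hle : f P ≤ k := Finset.le_sup (f := f) (hfin.mem_toFinset.mpr hmem)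
      exact hmono P (f P) k hle hreg
    · have h0 : f P = 0 := hzero hπP
      rw [h0] at hreg
      exact hmono P 0 k (Nat.zero_le _) hreg)
  exact ⟨s, hs, k, a, ha⟩

end Core

section Chart

variable {R F : Type*} [CommRing R] [Field F] [Algebra R F]

/-- The chart `pk15_chart R s` is integrally closed in `F`. -/
theorem kt30_chart_closed (s : Set F) (x : F) (hx : IsIntegral (pk15_chart R s) x) :
    x ∈ pk15_chart R s := by
  rw [pk15_mem_chart]
  obtain ⟨p, hp, hpx⟩ := hx
  let ι : pk15_chart R s →+* integralClosure (Algebra.adjoin R s) F :=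
    { toFun := fun y => ⟨y.1, y.2⟩
      map_one' := rfl
      map_mul' := fun _ _ => rfl
      map_zero' := rfl
      map_add' := fun _ _ => rfl }
  have hint : IsIntegral (integralClosure (Algebra.adjoin R s) F) x := by
    refine ⟨p.map ι, hp.map _, ?_⟩
    rw [eval₂_map]
    exact hpx
  exact isIntegral_trans x hint

/-- The fraction field of the chart at `h⁻¹` is `F` as soon as that of the chart at `h` is. -/
theorem kt30_chart_inv_frac (h : F) (hh0 : h ≠ 0)
    (hfrac : ∀ x : F, ∃ a ∈ pk15_chart R ({h} : Set F), ∃ b ∈ pk15_chart R ({h} : Set F),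
      b ≠ 0 ∧ x * b = a) :
    ∀ x : F, ∃ a ∈ pk15_chart R ({h⁻¹} : Set F), ∃ b ∈ pk15_chart R ({h⁻¹} : Set F),
      b ≠ 0 ∧ x * b = a := by
  intro x
  obtain ⟨a, ha, b, hb, hb0, hab⟩ := hfrac x
  have hle : pk15_chart R ({h} : Set F) ≤ pk15_chart R ({h, h⁻¹} : Set F) :=
    pk15_chart_mono (by simp)
  obtain ⟨k₁, hk₁⟩ := pk15_chart_loc' (R := R) h hh0 a (hle ha)
  obtain ⟨k₂, hk₂⟩ := pk15_chart_loc' (R := R) h hh0 b (hle hb)
  have hinv : h⁻¹ ∈ pk15_chart R ({h⁻¹} : Set F) := pk15_subset_chart _ (Set.mem_singleton _)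
  refine ⟨h⁻¹ ^ k₂ * (h⁻¹ ^ k₁ * a), Subalgebra.mul_mem _ (Subalgebra.pow_mem _ hinv _) hk₁,
    h⁻¹ ^ k₁ * (h⁻¹ ^ k₂ * b), Subalgebra.mul_mem _ (Subalgebra.pow_mem _ hinv _) hk₂, ?_, ?_⟩
  · exact mul_ne_zero (pow_ne_zero _ (inv_ne_zero hh0))
      (mul_ne_zero (pow_ne_zero _ (inv_ne_zero hh0)) hb0)
  · rw [← hab]; ring

/-- **Krull property of a Noetherian subalgebra which is integrally closed in its fraction
field `F`**, in the chart form of `Iface47`. -/
theorem kt30_krull_subalgebra (π : R) (hπ0 : algebraMap R F π ≠ 0) (B : Subalgebra R F)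
    [IsNoetherianRing B] (hBcl : ∀ x : F, IsIntegral B x → x ∈ B)
    (hfrac : ∀ x : F, ∃ a ∈ B, ∃ b ∈ B, b ≠ 0 ∧ x * b = a) :
    s34i47_Krull π B := by
  have : IsFractionRing B F := IsFractionRing.of_field B F (fun z => by
    obtain ⟨a, ha, b, hb, hb0, hab⟩ := hfrac z
    refine ⟨⟨a, ha⟩, ⟨b, hb⟩, ?_⟩
    show z = a / b
    rw [eq_div_iff hb0]; exact hab)
  have : IsIntegrallyClosed B := (isIntegrallyClosed_iff F).mpr (fun {x} hx =>
    ⟨⟨x, hBcl x hx⟩, rfl⟩)
  intro n hn hπn x hx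
  have : n.IsPrime := hn.isPrime
  have hπB0 : algebraMap R B π ≠ 0 := by
    intro h0
    apply hπ0
    have : algebraMap R F π = ((algebraMap R B π : B) : F) := rfl
    rw [this, h0]; rfl
  obtain ⟨s, hs, k, a, ha⟩ := kt30_krull_core (A := B) (F := F) (algebraMap R B π) hπB0 n x (by
    intro O hO hPIR hBO hπO hnO
    refine hx O ⟨hO, hPIR, fun r => ?_, hπO⟩ ⟨fun y hy => hBO ⟨y, hy⟩, fun y hy => hnO y hy⟩
    exact hBO (algebraMap R B r))
  refine ⟨s, hs, k, ?_⟩
  have e : algebraMap R F π ^ k * ((s : F) * x) = (a : F) := by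
    have ha' : (s : F) * (algebraMap R F π ^ k * x) = (a : F) := ha
    rw [← ha']; ring
  rw [e]
  exact a.2

end Chart

/-- **P5c** (`s34i47_Pkg_Krull` of `Iface47`, twin proof). -/
theorem kt30_Pkg_Krull : s34i47_Pkg_Krull := by
  intro R K F _ _ _ _ _ _ _ _ _ _ _ π hπ h hh hN₁ hN₂ _hfin hfrac
  have hπ0 : algebraMap R F π ≠ 0 := by
    rw [IsScalarTower.algebraMap_apply R K F]
    intro h0
    have h1 : algebraMap R K π = 0 := by
      have := (algebraMap K F).injective (a₁ := algebraMap R K π) (a₂ := 0) (by rw [h0, map_zero])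
      exact this
    exact hπ.ne_zero ((map_eq_zero_iff _ (IsFractionRing.injective R K)).mp h1)
  have hh0 : h ≠ 0 := by
    rintro rfl
    exact hh isAlgebraic_zero
  have := hN₁
  have := hN₂
  exact ⟨kt30_krull_subalgebra π hπ0 _ (kt30_chart_closed _) hfrac,
    kt30_krull_subalgebra π hπ0 _ (kt30_chart_closed _) (kt30_chart_inv_frac h hh0 hfrac)⟩

end Fermat.Agent.S34
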