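import Fermat.Agent.S34.LevelChange52
import Fermat.Agent.S34.TopGlue45
import Fermat.Agent.S34.Unip60

/-!
# S34 lab, package P0 (twin, helper52), part b: the top of the assembly

The frozen statement S34 from the function-field statement `tg45_StarBar` (helper45) at the
auxiliary levels, through the `Pic⁰`-level change of level `lc52_main2` and the endgame
`s34e60_main` (helper60):

* `lc52_U2_of_starBar` : `(U)` (two-variable form) at level `M` from `tg45_StarBar M (p ^ n) s t`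
  for all inertia elements `s`, `t` at `q` and all `n`.
* `lc52_Star p q M` : that family of Kummer statements, as one `Prop`.
* `lc52_U_of_star` : `(U)` at level `N` (the hypothesis `hU` of `s34e60_main`) for `q ‖ N`,
  `p ≠ q`, from `lc52_Star p q M` at the levels `M ∈ {N, N p₀}` with `p₀ ∈ {2, 3}`, `p₀ ≠ q`,
  `p₀ ∣ M`, `q ‖ M`.
* `lc52_unip_of_star` : the conclusion of S34, `H.ρ.IsUnipotentOnInertiaAt q`, from the same
  hypothesis.  So the chart work has to deliver exactly `lc52_Star p q M` for those `M`.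
-/

set_option autoImplicit false
set_option linter.style.haveILetI false

namespace Fermat.Agent.S34

open ModularCurve AlgebraicCurve

local notation "Qb" => AlgebraicClosure ℚ

/-- The Kummer statement at level `M` for all pairs of inertia elements at `q` and all powers of
`p`: for `s`, `t` in an inertia group at `q` and every function `f ≠ 0` of `X₀(M)` over `ℚ̄` all
of whose orders are divisible by `p ^ n`, the double difference `(s t f) f / ((s f) (t f))` is a
`p ^ n`-th power. -/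
def lc52_Star (p q M : ℕ) : Prop :=
  ∀ (n : ℕ) (P : ValuationSubring Qb), P.LiesOverPrime q →
    ∀ s ∈ P.inertiaSubgroupIn ℚ, ∀ t ∈ P.inertiaSubgroupIn ℚ, tg45_StarBar M (p ^ n) s t

/-- `(U)` at level `M`, two-variable form, from the Kummer statements. -/
theorem lc52_U2_of_starBar {p q M : ℕ} (hp : 0 < p) (h : lc52_Star p q M) : lc52_U2 p q M :=
  fun n P hP s hs t ht x hx =>
    tg45_U_of_starBar M (p ^ n) (pow_pos hp n) s t (h n P hP s hs t ht) x hx

/-- `(U)` at level `N` (the hypothesis `hU` of `s34e60_main`), for `q ‖ N` and `p ≠ q`, from the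
Kummer statements at the auxiliary levels `M`. -/
theorem lc52_U_of_star {p q N : ℕ} [NeZero N] (hp : p.Prime) (hq : q.Prime) (hqp : q ≠ p)
    (hqN : q ∣ N) (hq2 : ¬ q ^ 2 ∣ N)
    (hM : ∀ M p0 : ℕ, M ≠ 0 → (p0 = 2 ∨ p0 = 3) → p0 ≠ q → p0 ∣ M → N ∣ M → q ∣ M →
      ¬ q ^ 2 ∣ M → (M = N ∨ M = N * p0) → lc52_Star p q M) :
    lc52_U p q N :=
  lc52_U_of_U2 (lc52_main2 hp hq hqp hqN hq2
    (fun M p0 hM0 h23 hp0q hp0M hNM hqM hq2M hMN =>
      lc52_U2_of_starBar hp.pos (hM M p0 hM0 h23 hp0q hp0M hNM hqM hq2M hMN)))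

section Main

variable {p : ℕ} {N : ℕ} [NeZero N] {S : Finset ℕ}
  {𝒪 : Type} [CommRing 𝒪] [IsDomain 𝒪] [IsDiscreteValuationRing 𝒪]
  [IsAdicComplete (IsLocalRing.maximalIdeal 𝒪) 𝒪]
  {θ : CuspForm.heckeAlgebra N 2 (↑S : Set ℕ) →+* IsLocalRing.ResidueField 𝒪}
  {T : Type} [CommRing T] [IsLocalRing T] [IsNoetherianRing T]
  [IsAdicComplete (IsLocalRing.maximalIdeal T) T] [Algebra 𝒪 T] [IsLocalHom (algebraMap 𝒪 T)]
  [Module.Finite 𝒪 T] [Module.Free 𝒪 T]

/-- **S34 from the Kummer statements at the auxiliary levels.**  A Hecke-Galois datum of level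
`N` has unipotent inertia at every prime `q ≠ p` with `q ‖ N`, provided `lc52_Star p q M` holds
at the levels `M ∈ {N, N p₀}` with `p₀ ∈ {2, 3}`, `p₀ ≠ q`, `p₀ ∣ M` and `q ‖ M`. -/
theorem lc52_unip_of_star (hp : p.Prime)
    (hp𝒪 : (p : 𝒪) ∈ IsLocalRing.maximalIdeal 𝒪) (hpS : p ∈ S)
    (hNS : ∀ q : ℕ, q.Prime → q ∣ N → q ∈ S)
    (H : CuspForm.HeckeGaloisRepDatum N (↑S : Set ℕ) 𝒪 θ T)
    (q : ℕ) (hq : q.Prime) (hqp : q ≠ p) (hqN : q ∣ N) (hq2 : ¬ q ^ 2 ∣ N)
    (hM : ∀ M p0 : ℕ, M ≠ 0 → (p0 = 2 ∨ p0 = 3) → p0 ≠ q → p0 ∣ M → N ∣ M → q ∣ M →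
      ¬ q ^ 2 ∣ M → (M = N ∨ M = N * p0) → lc52_Star p q M) :
    H.ρ.IsUnipotentOnInertiaAt q :=
  s34e60_main hp hp𝒪 hpS hNS H q hq hqp (lc52_U_of_star hp hq hqp hqN hq2 hM)

end Main

end Fermat.Agent.S34
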