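import Fermat.Agent.S34.Iface47
import Fermat.Agent.S34.LevelChange52

/-!
# S34 lab, package P0 (twin, helper52), part c: the interface package `s34i47_Pkg_Level`

* `lc52_FFU_of_dvd` : for `N ∣ M` with `ψ(M) / ψ(N)` prime to `m`, the function-field statement
  `s34i47_FFU M q m` implies `s34i47_FFU N q m`  (norm descent along `F(N) ⊆ F(M)`:
  if `g ^ m = u` in `F(M)` with `u ∈ F(N)`, then `N(g) ^ m = u ^ d`, `d = [F(M) : F(N)]`, and
  `u = (N(g) ^ a u ^ b) ^ m` for `a d + b m = 1`).
* `lc52_exists_p0` : for primes `p ≠ q` and every level `N` there is `p₀ ∈ {2, 3}`, `p₀ ≠ q`,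
  with `p ∤ ψ(lcm(N, p₀)) / ψ(N)`.
* `lc52_Pkg_Level : s34i47_Pkg_Level` — the package **P0** of the interface, literally.
* `lc52_U_eq` : `lc52_U p q N` and `s34i47_U N q p` are the same proposition.
-/

set_option autoImplicit false
set_option linter.style.haveILetI false

namespace Fermat.Agent.S34

open ModularCurve AlgebraicCurve Fermat.Agent.S37

local notation "Qb" => AlgebraicClosure ℚ

/-- The `Pic⁰`-level statement of `LevelChange52` is the interface statement `(U)`. -/
theorem lc52_U_eq (p q N : ℕ) : lc52_U p q N = s34i47_U N q p := rfl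

/-! ### Abstract root extraction -/

/-- In a field: if `G ^ m = u ^ d` with `m`, `d` coprime, then `u` is an `m`-th power. -/
theorem lc52_root_of_coprime {F : Type*} [Field F] {m d : ℕ} (hcop : Nat.Coprime m d)
    {G u : F} (hu : u ≠ 0) (hG : G ^ m = u ^ d) : ∃ g : F, g ^ m = u := by
  have hbez : (m : ℤ) * Nat.gcdA m d + (d : ℤ) * Nat.gcdB m d = 1 := by
    have := Nat.gcd_eq_gcd_ab m d
    rw [Nat.Coprime.gcd_eq_one hcop] at this
    exact_mod_cast this.symm
  refine ⟨G ^ (Nat.gcdB m d) * u ^ (Nat.gcdA m d), ?_⟩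
  have h1 : (G ^ (Nat.gcdB m d)) ^ m = u ^ ((d : ℤ) * Nat.gcdB m d) := by
    rw [← zpow_natCast (G ^ (Nat.gcdB m d)) m, ← zpow_mul, mul_comm, zpow_mul, zpow_natCast, hG,
      ← zpow_natCast u d, ← zpow_mul]
  have h2 : (u ^ (Nat.gcdA m d)) ^ m = u ^ ((m : ℤ) * Nat.gcdA m d) := by
    rw [← zpow_natCast (u ^ (Nat.gcdA m d)) m, ← zpow_mul, mul_comm]
  rw [mul_pow, h1, h2, ← zpow_add₀ hu, add_comm, hbez, zpow_one]

/-! ### Norm descent of the function-field statement -/

section Descend

/-- The inclusion of levels commutes with the coefficientwise Galois action. -/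
theorem lc52_iota_arith {N M : ℕ} (h : N ∣ M) (t : Qb ≃ₐ[ℚ] Qb) (x : ↥(modularFunctionFieldBar N)) :
    arithmeticRingAut (modularFunctionFieldFull M) t (tv1_iota h x)
      = tv1_iota h (arithmeticRingAut (modularFunctionFieldFull N) t x) := by
  apply Subtype.ext
  rw [coe_arithmeticRingAut_apply, tv1_coe_iota, tv1_coe_iota, coe_arithmeticRingAut_apply]

/-- The inclusion of levels commutes with the double difference. -/
theorem lc52_iota_dd {N M : ℕ} (h : N ∣ M) (t : Qb ≃ₐ[ℚ] Qb) (f : ↥(modularFunctionFieldBar N)) :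
    s34i47_dd (arithmeticRingAut (modularFunctionFieldFull M) t)
        (arithmeticRingAut (modularFunctionFieldFull M) t) (tv1_iota h f)
      = tv1_iota h (s34i47_dd (arithmeticRingAut (modularFunctionFieldFull N) t)
        (arithmeticRingAut (modularFunctionFieldFull N) t) f) := by
  unfold s34i47_dd
  rw [map_div₀, map_mul, map_mul, lc52_iota_arith, lc52_iota_arith]

/-- **Norm descent of `FFU`** from level `M` to level `N ∣ M`, for `m` prime to the degree
`ψ(M) / ψ(N)`. -/
theorem lc52_FFU_of_dvd {N M : ℕ} [NeZero N] [NeZero M] (h : N ∣ M) {q m : ℕ}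
    (hcop : Nat.Coprime m (dedekindPsi M / dedekindPsi N))
    (hM : s34i47_FFU M q m) : s34i47_FFU N q m := by
  intro A hA t ht f hf hord
  haveI := hi63_hasPrincipalDivisors_bar M
  letI := algebraAlong (tv1_iota h)
  haveI := isScalarTower_along (tv1_iota h)
  haveI := isIntegral_along (tv1_iota h) (tv1_iota_integral h)
  haveI : Module.Finite ↥(modularFunctionFieldBar N) ↥(modularFunctionFieldBar M) :=
    tv1_iota_finite h
  have hιf : tv1_iota h f ≠ 0 := (map_ne_zero (tv1_iota h)).mpr hf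
  have hordM : ∀ w : Place Qb ↥(modularFunctionFieldBar M), (m : ℤ) ∣ w.ord (tv1_iota h f) := by
    intro w
    rw [Place.ord_restrictAlong (tv1_iota h) (tv1_iota_integral h) w f]
    exact Dvd.dvd.mul_left (hord _) _
  obtain ⟨g, hg⟩ := hM A hA t ht (tv1_iota h f) hιf hordM
  rw [lc52_iota_dd h t f] at hg
  set u : ↥(modularFunctionFieldBar N) :=
    s34i47_dd (arithmeticRingAut (modularFunctionFieldFull N) t)
      (arithmeticRingAut (modularFunctionFieldFull N) t) f with hu_def
  have hu : u ≠ 0 := by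
    rw [hu_def]
    unfold s34i47_dd
    have h1 : arithmeticRingAut (modularFunctionFieldFull N) t f ≠ 0 :=
      (map_ne_zero (arithmeticRingAut (modularFunctionFieldFull N) t)).mpr hf
    have h2 : arithmeticRingAut (modularFunctionFieldFull N) t
        (arithmeticRingAut (modularFunctionFieldFull N) t f) ≠ 0 :=
      (map_ne_zero (arithmeticRingAut (modularFunctionFieldFull N) t)).mpr h1
    exact div_ne_zero (mul_ne_zero h2 hf) (mul_ne_zero h1 h1)
  have hfr : Module.finrank ↥(modularFunctionFieldBar N) ↥(modularFunctionFieldBar M)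
      = dedekindPsi M / dedekindPsi N := tv1_finrank h
  haveI : Module.Free ↥(modularFunctionFieldBar N) ↥(modularFunctionFieldBar M) :=
    Module.Free.of_divisionRing _ _
  have hnorm : (Algebra.norm ↥(modularFunctionFieldBar N) g) ^ m
      = u ^ (dedekindPsi M / dedekindPsi N) := by
    rw [← map_pow, hg, ← hfr]
    exact Algebra.norm_algebraMap u
  exact lc52_root_of_coprime hcop hu hnorm

end Descend

/-! ### The auxiliary prime -/

/-- `ψ(lcm(N, p₀)) / ψ(N)` for a prime `p₀`: `1` if `p₀ ∣ N`, `p₀ + 1` otherwise. -/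
theorem lc52_psi_lcm_prime {N p0 : ℕ} [NeZero N] (hp0 : p0.Prime) :
    dedekindPsi (Nat.lcm N p0) / dedekindPsi N = if p0 ∣ N then 1 else p0 + 1 := by
  have hpsi : 0 < dedekindPsi N := Fermat.Agent.S18.nd38_psi_pos N
  split_ifs with hd
  · rw [Nat.lcm_eq_left hd, Nat.div_self hpsi]
  · have hc : Nat.Coprime N p0 := Nat.Coprime.symm ((Nat.Prime.coprime_iff_not_dvd hp0).mpr hd)
    rw [Nat.Coprime.lcm_eq_mul hc, lc52_psi_mul_prime hp0 hd]

/-- For primes `p ≠ q` and every level `N` there is an auxiliary prime `p₀ ∈ {2, 3}`, `p₀ ≠ q`,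
such that the degree `ψ(lcm(N, p₀)) / ψ(N)` is prime to `p`. -/
theorem lc52_exists_p0 {p q : ℕ} (N : ℕ) [NeZero N] (hp : p.Prime) (hpq : p ≠ q) :
    ∃ p0 : ℕ, (p0 = 2 ∨ p0 = 3) ∧ p0 ≠ q ∧
      ¬ p ∣ dedekindPsi (Nat.lcm N p0) / dedekindPsi N := by
  have hone : ¬ p ∣ 1 := fun h1 => hp.one_lt.ne' (Nat.dvd_one.mp h1)
  have key : ∀ p0 : ℕ, p0.Prime → (¬ p0 ∣ N → ¬ p ∣ p0 + 1) →
      ¬ p ∣ dedekindPsi (Nat.lcm N p0) / dedekindPsi N := by
    intro p0 hp0 hdeg
    rw [lc52_psi_lcm_prime hp0]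
    split_ifs with hd
    · exact hone
    · exact hdeg hd
  by_cases hq2 : q = 2
  · refine ⟨3, Or.inr rfl, by omega, key 3 Nat.prime_three (fun _ hdv => ?_)⟩
    have h4 : p ∣ 2 ^ 2 := by simpa using hdv
    have h2 : p = 2 := (Nat.prime_dvd_prime_iff_eq hp Nat.prime_two).mp (hp.dvd_of_dvd_pow h4)
    exact hpq (h2.trans hq2.symm)
  · by_cases hcase : 2 ∣ N ∨ p ≠ 3
    · refine ⟨2, Or.inl rfl, Ne.symm hq2, key 2 Nat.prime_two (fun h2N hdv => ?_)⟩
      have hp3 : p = 3 := (Nat.prime_dvd_prime_iff_eq hp Nat.prime_three).mp (by simpa using hdv)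
      rcases hcase with h | h
      · exact h2N h
      · exact h hp3
    · have hp3 : p = 3 := by
        by_contra hne
        exact hcase (Or.inr hne)
      refine ⟨3, Or.inr rfl, fun h3 => hpq (hp3.trans h3), key 3 Nat.prime_three (fun _ hdv => ?_)⟩
      rw [hp3] at hdv
      omega

/-! ### The interface package -/

/-- **P0** of the interface `Iface47`: the level change for the function-field statement. -/
theorem lc52_Pkg_Level : s34i47_Pkg_Level := by
  intro N q p hN hq hp hpq hFFU n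
  haveI : NeZero N := hN
  obtain ⟨p0, h23, hp0q, hpd⟩ := lc52_exists_p0 (q := q) N hp hpq
  have hp0 : p0.Prime := by
    rcases h23 with rfl | rfl
    · exact Nat.prime_two
    · exact Nat.prime_three
  haveI : NeZero (Nat.lcm N p0) := ⟨Nat.lcm_ne_zero (NeZero.ne N) hp0.ne_zero⟩
  exact lc52_FFU_of_dvd (Nat.dvd_lcm_left N p0)
    (Nat.Coprime.pow_left n ((Nat.Prime.coprime_iff_not_dvd hp).mpr hpd)) (hFFU p0 h23 hp0q n)

end Fermat.Agent.S34
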