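import Mathlib
import Fermat.Agent.S34.Iface47d
import Fermat.Agent.S34.LocPrin9

/-!
# S34 lab, second route (helper9): `(UZ′) + Ord + Rat + Fin + (ST) ⟹ (LP′)`

The literal interface statement `s34i47d_Pkg_LPD` of `Iface47d` (abstract, Mathlib only).

Fix a closed point `n` of the special fibre of the chart `B` and the set `Dp` of deep points
provided by `(UZ′)`.  Let `T` be the finite set of horizontal valuation rings `O ∉ Dp` through
`n` at which `f` is not a unit, and `c := ∏_{O ∈ T} p_O ^ k_O` as in `lp9_Pkg_LP`.  Put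
`f' := f / c ^ m`.

* (A) `f'` is a unit of every horizontal `O ∉ Dp` through `n`.
* (B) If `O ∈ Dp`, then `σ O = O`, hence `σ y / y` is a unit of `O` for every `y ≠ 0`
  (`O` is a discrete valuation ring), and the double difference of any `y ≠ 0` is a unit of `O`.
* (C) If `O ∉ Dp`, then `O.comap σ`, `O.comap τ`, `(O.comap σ).comap τ` are horizontal
  (`σ R ⊆ R` and `Frac R ⊆ O`), pass through `n` (`σ ≡ id mod π B`) and are not in `Dp`
  (the members of `Dp` are invariant).  By (A) `σ f'`, `τ f'`, `σ (τ f')` are units of `O`.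
-/

set_option autoImplicit false

namespace Fermat.Agent.S34

section Comap

variable {F : Type*} [Field F]

theorem lpd9_mem_comap (O : ValuationSubring F) (σ : F ≃+* F) (x : F) :
    x ∈ O.comap (σ : F →+* F) ↔ σ x ∈ O := Iff.rfl

/-- Units of `O.comap σ` are the elements whose image under `σ` is a unit of `O`. -/
theorem lpd9_IsU_comap (O : ValuationSubring F) (σ : F ≃+* F) (x : F) :
    lp9_IsU (O.comap (σ : F →+* F)) x ↔ lp9_IsU O (σ x) := by
  unfold lp9_IsU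
  rw [lpd9_mem_comap, lpd9_mem_comap, map_inv₀]

/-- `O.comap σ` is again principal. -/
theorem lpd9_pir_comap (O : ValuationSubring F) (σ : F ≃+* F) (hPIR : IsPrincipalIdealRing O) :
    IsPrincipalIdealRing (O.comap (σ : F →+* F)) := by
  let φ : O →+* (O.comap (σ : F →+* F)) :=
    ((σ.symm : F →+* F).comp O.subtype).codRestrict (O.comap (σ : F →+* F)) (fun x => by
      show σ (σ.symm (x : F)) ∈ O
      rw [RingEquiv.apply_symm_apply]
      exact x.2)
  have hφ : Function.Surjective φ := by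
    intro y
    refine ⟨⟨σ (y : F), y.2⟩, ?_⟩
    apply Subtype.ext
    show σ.symm (σ (y : F)) = (y : F)
    exact RingEquiv.symm_apply_apply σ _
  exact IsPrincipalIdealRing.of_surjective φ hφ

/-- The members of an invariant family: if `O.comap σ` is `σ`-invariant then `O.comap σ = O`. -/
theorem lpd9_comap_notMem (Dp : Set (ValuationSubring F)) (σ : F ≃+* F)
    (hinv : ∀ O ∈ Dp, ∀ x : F, x ∈ O ↔ σ x ∈ O) (O : ValuationSubring F) (hO : O ∉ Dp) :
    O.comap (σ : F →+* F) ∉ Dp := by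
  intro h
  have h1 := hinv _ h
  have h2 : ∀ y : F, y ∈ O ↔ σ y ∈ O := by
    intro y
    have h3 := h1 (σ.symm y)
    rw [lpd9_mem_comap, lpd9_mem_comap, RingEquiv.apply_symm_apply] at h3
    exact h3
  have h4 : O.comap (σ : F →+* F) = O := by
    ext x
    rw [lpd9_mem_comap]
    exact (h2 x).symm
  rw [h4] at h
  exact hO h

end Comap

section Unif

variable {F : Type*} [Field F]

/-- A principal valuation subring which is not the whole field has a uniformiser. -/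
theorem lpd9_exists_unif (O : ValuationSubring F) (hne : O ≠ ⊤) (hPIR : IsPrincipalIdealRing O) :
    ∃ p : F, p ≠ 0 ∧ p ∈ O ∧ p⁻¹ ∉ O ∧ ∀ x ∈ O, x⁻¹ ∉ O → x * p⁻¹ ∈ O := by
  obtain ⟨a, ha⟩ := (IsPrincipalIdealRing.principal (IsLocalRing.maximalIdeal O)).principal
  have hspan : IsLocalRing.maximalIdeal O = Ideal.span {a} := ha
  -- membership in the maximal ideal
  have hmem : ∀ x : F, ∀ hx : x ∈ O, x⁻¹ ∉ O → (⟨x, hx⟩ : O) ∈ IsLocalRing.maximalIdeal O := by
    intro x hx hxinv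
    rw [IsLocalRing.mem_maximalIdeal, mem_nonunits_iff]
    intro hu
    obtain ⟨u, hu⟩ := hu
    apply hxinv
    have h1 : (u : O) * ((u⁻¹ : Oˣ) : O) = 1 := Units.mul_inv u
    have h2 : x * (((u⁻¹ : Oˣ) : O) : F) = 1 := by
      have h3 := congrArg (fun y : O => (y : F)) h1
      rw [hu] at h3
      exact h3
    rw [inv_eq_of_mul_eq_one_right h2]
    exact (((u⁻¹ : Oˣ) : O)).2
  have hgenO : ∀ x : F, x ∈ O → x⁻¹ ∉ O → ∃ b : O, x = (b : F) * (a : F) := by
    intro x hx hxinv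
    have h1 := hmem x hx hxinv
    rw [hspan] at h1
    obtain ⟨b, hb⟩ := Ideal.mem_span_singleton'.mp h1
    exact ⟨b, (congrArg (fun y : O => (y : F)) hb).symm⟩
  -- `a ≠ 0`
  have ha0 : (a : F) ≠ 0 := by
    intro h0
    apply hne
    rw [eq_top_iff]
    intro x _
    by_contra hx
    have hxinv : x⁻¹ ∈ O := (O.mem_or_inv_mem x).resolve_left hx
    have hx0 : x ≠ 0 := by
      rintro rfl
      exact hx O.zero_mem
    obtain ⟨b, hb⟩ := hgenO x⁻¹ hxinv (by rw [inv_inv]; exact hx)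
    rw [h0, mul_zero] at hb
    exact inv_ne_zero hx0 hb
  have hainv : (a : F)⁻¹ ∉ O := by
    intro h
    have hamem : a ∈ IsLocalRing.maximalIdeal O := by
      rw [hspan]; exact Ideal.mem_span_singleton_self a
    rw [IsLocalRing.mem_maximalIdeal, mem_nonunits_iff] at hamem
    apply hamem
    refine isUnit_iff_exists_inv.mpr ⟨⟨(a : F)⁻¹, h⟩, ?_⟩
    apply Subtype.ext
    show (a : F) * (a : F)⁻¹ = 1
    exact mul_inv_cancel₀ ha0
  refine ⟨(a : F), ha0, a.2, hainv, ?_⟩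
  intro x hx hxinv
  obtain ⟨b, hb⟩ := hgenO x hx hxinv
  rw [hb, mul_assoc, mul_inv_cancel₀ ha0, mul_one]
  exact b.2

/-- If `σ` preserves the discrete valuation ring `O`, then `σ y / y` is a unit of `O` for every
`y ≠ 0`. -/
theorem lpd9_inv_unit (O : ValuationSubring F) (hne : O ≠ ⊤) (hPIR : IsPrincipalIdealRing O)
    (σ : F ≃+* F) (hinv : ∀ x : F, x ∈ O ↔ σ x ∈ O) (y : F) (hy : y ≠ 0) :
    lp9_IsU O (σ y / y) := by
  obtain ⟨p, hp0, hpO, hpinv, hgen⟩ := lpd9_exists_unif O hne hPIR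
  have hsymm : ∀ x : F, x ∈ O ↔ σ.symm x ∈ O := by
    intro x
    have h := hinv (σ.symm x)
    rw [RingEquiv.apply_symm_apply] at h
    exact h.symm
  have hU : ∀ u : F, lp9_IsU O u → lp9_IsU O (σ u) := by
    intro u hu
    refine ⟨(hinv u).mp hu.1, ?_⟩
    rw [← map_inv₀]
    exact (hinv _).mp hu.2
  -- `σ p / p` is a unit
  have h1 : σ p * p⁻¹ ∈ O := by
    refine hgen _ ((hinv p).mp hpO) ?_
    intro h
    rw [← map_inv₀] at h
    exact hpinv ((hinv _).mpr h)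
  have h2 : σ.symm p * p⁻¹ ∈ O := by
    refine hgen _ ((hsymm p).mp hpO) ?_
    intro h
    rw [← map_inv₀] at h
    exact hpinv ((hsymm _).mpr h)
  have h3 : p * (σ p)⁻¹ ∈ O := by
    have h4 := (hinv _).mp h2
    rw [map_mul, RingEquiv.apply_symm_apply, map_inv₀] at h4
    exact h4
  have hpU : lp9_IsU O (σ p / p) := by
    refine ⟨by rw [div_eq_mul_inv]; exact h1, ?_⟩
    rw [inv_div, div_eq_mul_inv]
    exact h3
  obtain ⟨k, hk⟩ := lp9_exists_zpow O hPIR p hp0 hpO hpinv hgen y hy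
  have hσp0 : σ p ≠ 0 := (map_ne_zero_iff _ σ.injective).mpr hp0
  have he : σ y / y = σ (y / p ^ k) * (y / p ^ k)⁻¹ * (σ p / p) ^ k := by
    rw [map_div₀, map_zpow₀, div_zpow, inv_div]
    have hpk : p ^ k ≠ 0 := zpow_ne_zero k hp0
    have hσpk : σ p ^ k ≠ 0 := zpow_ne_zero k hσp0
    field_simp
  rw [he]
  exact lp9_IsU_mul (lp9_IsU_mul (hU _ hk) (lp9_IsU_inv hk)) (lp9_IsU_zpow hpU k)

/-- The double difference of `y ≠ 0` is a unit of every `σ`-invariant discrete valuation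
ring. -/
theorem lpd9_dd_mem_of_inv (O : ValuationSubring F) (hne : O ≠ ⊤) (hPIR : IsPrincipalIdealRing O)
    (σ τ : F ≃+* F) (hinv : ∀ x : F, x ∈ O ↔ σ x ∈ O) (y : F) (hy : y ≠ 0) :
    s34i47_dd σ τ y ∈ O := by
  have hτy : τ y ≠ 0 := (map_ne_zero_iff _ τ.injective).mpr hy
  have h1 := lpd9_inv_unit O hne hPIR σ hinv (τ y) hτy
  have h2 := lpd9_inv_unit O hne hPIR σ hinv y hy
  have he : s34i47_dd σ τ y = σ (τ y) / τ y * (σ y / y)⁻¹ := by
    unfold s34i47_dd
    rw [inv_div, div_mul_div_comm, mul_comm (τ y) (σ y)]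
  rw [he]
  exact (lp9_IsU_mul h1 (lp9_IsU_inv h2)).1

end Unif

section Horiz

theorem lpd9_algebraMap_ne_zero {R F : Type*} (K : Type*) [CommRing R] [Field K] [Field F]
    [Algebra R K] [IsFractionRing R K] [Algebra R F] [Algebra K F] [IsScalarTower R K F]
    (r : R) (hr : r ≠ 0) : algebraMap R F r ≠ 0 := by
  rw [IsScalarTower.algebraMap_apply R K F]
  intro h0
  have h1 : algebraMap R K r = 0 := (map_eq_zero (algebraMap K F)).mp h0
  exact hr ((map_eq_zero_iff _ (IsFractionRing.injective R K)).mp h1)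

/-- A horizontal valuation ring contains the inverses of the nonzero elements of `R`. -/
theorem lpd9_inv_algebraMap_mem {R F : Type*} [CommRing R] [IsDomain R]
    [IsDiscreteValuationRing R] [Field F] [Algebra R F] (π : R) (hπ : Irreducible π)
    (O : ValuationSubring F) (hO : s34i47_IsHoriz π O) (r : R) (hr : r ≠ 0) :
    (algebraMap R F r)⁻¹ ∈ O := by
  obtain ⟨k, u, rfl⟩ := IsDiscreteValuationRing.eq_unit_mul_pow_irreducible hr hπ
  have h1 : algebraMap R F (u : R) * algebraMap R F ((u⁻¹ : Rˣ) : R) = 1 := by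
    rw [← map_mul, Units.mul_inv, map_one]
  have h2 : (algebraMap R F ((u : R) * π ^ k))⁻¹ =
      algebraMap R F ((u⁻¹ : Rˣ) : R) * ((algebraMap R F π)⁻¹) ^ k := by
    rw [map_mul, map_pow, mul_inv, inv_pow, inv_eq_of_mul_eq_one_right h1]
  rw [h2]
  exact O.mul_mem _ _ (hO.2.2.1 _) (pow_mem hO.2.2.2 k)

/-- `O.comap σ` is horizontal if `O` is and `σ R ⊆ R`. -/
theorem lpd9_horiz_comap {R F : Type*} (K : Type*) [CommRing R] [IsDomain R]
    [IsDiscreteValuationRing R] [Field K] [Field F] [Algebra R K] [IsFractionRing R K]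
    [Algebra R F] [Algebra K F] [IsScalarTower R K F] (π : R) (hπ : Irreducible π) (σ : F ≃+* F)
    (hσR : ∀ r : R, ∃ r' : R, σ (algebraMap R F r) = algebraMap R F r')
    (O : ValuationSubring F) (hO : s34i47_IsHoriz π O) :
    s34i47_IsHoriz π (O.comap (σ : F →+* F)) := by
  refine ⟨?_, lpd9_pir_comap O σ hO.2.1, ?_, ?_⟩
  · intro h
    apply hO.1
    rw [eq_top_iff]
    intro x _
    have h1 : σ.symm x ∈ O.comap (σ : F →+* F) := by rw [h]; trivial
    rw [lpd9_mem_comap, RingEquiv.apply_symm_apply] at h1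
    exact h1
  · intro r
    obtain ⟨r', hr'⟩ := hσR r
    rw [lpd9_mem_comap, hr']
    exact hO.2.2.1 r'
  · obtain ⟨r', hr'⟩ := hσR π
    rw [lpd9_mem_comap, map_inv₀, hr']
    refine lpd9_inv_algebraMap_mem π hπ O hO r' ?_
    rintro rfl
    rw [map_zero] at hr'
    have h0 : algebraMap R F π = 0 := (map_eq_zero_iff _ σ.injective).mp hr'
    exact lpd9_algebraMap_ne_zero K π hπ.ne_zero h0

/-- `O.comap σ` passes through `n` if `O` does, `σ B ⊆ B` and `σ ≡ id mod π B`. -/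
theorem lpd9_through_comap {R F : Type*} [CommRing R] [Field F] [Algebra R F]
    (π : R) (B : Subalgebra R F) (σ : F ≃+* F)
    (hσB : ∀ x ∈ B, σ x ∈ B) (hσπ : ∀ x ∈ B, (algebraMap R F π)⁻¹ * (σ x - x) ∈ B)
    (hπ0 : algebraMap R F π ≠ 0) (n : Ideal B) (hπn : algebraMap R B π ∈ n)
    (O : ValuationSubring F) (hOn : s34i47_Through B n O) :
    s34i47_Through B n (O.comap (σ : F →+* F)) := by
  refine ⟨fun x hx => hOn.1 _ (hσB x hx), ?_⟩
  intro x hxn
  rw [lpd9_mem_comap, map_inv₀]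
  have hy : (⟨σ (x : F), hσB _ x.2⟩ : B) ∉ n := by
    intro hy
    apply hxn
    have hd : (⟨σ (x : F), hσB _ x.2⟩ : B) - x =
        algebraMap R B π * ⟨(algebraMap R F π)⁻¹ * (σ (x : F) - (x : F)), hσπ _ x.2⟩ := by
      apply Subtype.ext
      show σ (x : F) - (x : F) =
        algebraMap R F π * ((algebraMap R F π)⁻¹ * (σ (x : F) - (x : F)))
      rw [← mul_assoc, mul_inv_cancel₀ hπ0, one_mul]
    have hmem : (⟨σ (x : F), hσB _ x.2⟩ : B) - x ∈ n := by
      rw [hd]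
      exact n.mul_mem_right _ hπn
    have hx : x = (⟨σ (x : F), hσB _ x.2⟩ : B) - ((⟨σ (x : F), hσB _ x.2⟩ : B) - x) := by ring
    rw [hx]
    exact n.sub_mem hy hmem
  exact hOn.2 _ hy

end Horiz

/-- The local factor at one horizontal valuation ring `O` with the unique-zero property. -/
theorem lpd9_local_core {R F : Type*} [CommRing R] [Field F] [Algebra R F]
    (π : R) (B : Subalgebra R F) (m : ℕ) (hm : 0 < m) (f : F) (hf : f ≠ 0)
    (hOrd : s34i47_Ord π m f) (n : Ideal B) (O : ValuationSubring F) (hO : s34i47_IsHoriz π O)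
    (hp : ∃ p : F, p ≠ 0 ∧ p ∈ O ∧ p⁻¹ ∉ O ∧ (∀ x ∈ O, x⁻¹ ∉ O → x * p⁻¹ ∈ O) ∧
      ∀ O' : ValuationSubring F, s34i47_IsHoriz π O' → s34i47_Through B n O' → O' ≠ O →
        p ∈ O' ∧ p⁻¹ ∈ O') :
    ∃ g : F, g ≠ 0 ∧ lp9_IsU O (f / g ^ m) ∧
      ∀ O' : ValuationSubring F, s34i47_IsHoriz π O' → s34i47_Through B n O' → O' ≠ O →
        lp9_IsU O' g := by
  obtain ⟨p, hp0, hpO, hpinv, hgen, hother⟩ := hp
  obtain ⟨ε, w, hε, hεinv, hfw⟩ := hOrd O hO
  have hw : w ≠ 0 := by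
    rintro rfl
    apply hf
    rw [hfw, zero_pow (by omega), mul_zero]
  obtain ⟨k, hk⟩ := lp9_exists_zpow O hO.2.1 p hp0 hpO hpinv hgen w hw
  refine ⟨p ^ k, zpow_ne_zero k hp0, ?_, ?_⟩
  · have he : f / (p ^ k) ^ m = ε * (w / p ^ k) ^ m := by
      rw [hfw, div_pow, mul_div_assoc]
    rw [he]
    exact lp9_IsU_mul ⟨hε, hεinv⟩ (lp9_IsU_pow hk m)
  · intro O' hO' hOn' hne
    exact lp9_IsU_zpow (hother O' hO' hOn' hne) k

/-- **LP′ from UZ′** (second route): `(UZ′)` + orders divisible by `m` + rational zeros and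
poles + finiteness + `(ST)` ⟹ `(LP′)`. -/
theorem lpd9_Pkg_LPD : s34i47d_Pkg_LPD := by
  intro R K F _ _ _ _ _ _ _ _ _ _ π hπ B m hm σ τ f hf hσ hτ hUZ hOrd hRat hFin n hn hπn
  classical
  obtain ⟨hσR, -, hσB, -, hσπ⟩ := hσ
  obtain ⟨hτR, -, hτB, -, hτπ⟩ := hτ
  obtain ⟨Dp, hDp, hUZn⟩ := hUZ n hn hπn
  have hπ0 : algebraMap R F π ≠ 0 := lpd9_algebraMap_ne_zero K π hπ.ne_zero
  have hfin : {O : ValuationSubring F | s34i47_IsHoriz π O ∧ s34i47_Through B n O ∧
      ¬ (f ∈ O ∧ f⁻¹ ∈ O) ∧ O ∉ Dp}.Finite :=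
    hFin.subset fun O hO => ⟨hO.1, hO.2.2.1⟩
  set T : Finset (ValuationSubring F) := hfin.toFinset with hT
  have hmemT : ∀ O : ValuationSubring F, O ∈ T ↔
      s34i47_IsHoriz π O ∧ s34i47_Through B n O ∧ ¬ (f ∈ O ∧ f⁻¹ ∈ O) ∧ O ∉ Dp := by
    intro O
    rw [hT, Set.Finite.mem_toFinset]
    rfl
  have hex : ∀ O ∈ T, ∃ g : F, g ≠ 0 ∧ lp9_IsU O (f / g ^ m) ∧
      ∀ O' : ValuationSubring F, s34i47_IsHoriz π O' → s34i47_Through B n O' → O' ≠ O →
        lp9_IsU O' g := by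
    intro O hO
    rw [hmemT] at hO
    have hrat : s34i47_IsRat K O := (hRat O hO.1).resolve_left hO.2.2.1
    exact lpd9_local_core π B m hm f hf hOrd n O hO.1 (hUZn O hO.1 hO.2.1 hrat hO.2.2.2)
  choose! g hg0 hgU hgother using hex
  have hc0 : ∏ O ∈ T, g O ≠ 0 := Finset.prod_ne_zero_iff.mpr hg0
  -- (A) `f / c ^ m` is a unit of every horizontal `O ∉ Dp` through `n`
  have hA : ∀ O : ValuationSubring F, s34i47_IsHoriz π O → s34i47_Through B n O → O ∉ Dp →
      lp9_IsU O (f / (∏ O' ∈ T, g O') ^ m) := by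
    intro O hO hOn hOD
    by_cases hOT : O ∈ T
    · have hsplit : ∏ O' ∈ T, g O' = g O * ∏ O' ∈ T.erase O, g O' :=
        (Finset.mul_prod_erase T g hOT).symm
      have hrest : lp9_IsU O (∏ O' ∈ T.erase O, g O') := by
        apply lp9_IsU_prod
        intro O' hO'
        have h := Finset.mem_erase.mp hO'
        exact hgother O' h.2 O hO hOn (Ne.symm h.1)
      have he : f / (∏ O' ∈ T, g O') ^ m =
          (f / g O ^ m) * ((∏ O' ∈ T.erase O, g O') ^ m)⁻¹ := by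
        rw [hsplit, mul_pow, div_mul_eq_div_div, div_eq_mul_inv (f / g O ^ m)]
      rw [he]
      exact lp9_IsU_mul (hgU O hOT) (lp9_IsU_inv (lp9_IsU_pow hrest m))
    · have hfU : lp9_IsU O f := by
        by_contra h
        exact hOT ((hmemT O).mpr ⟨hO, hOn, h, hOD⟩)
      have hcU : lp9_IsU O (∏ O' ∈ T, g O') := by
        apply lp9_IsU_prod
        intro O' hO'
        exact hgother O' hO' O hO hOn (by rintro rfl; exact hOT hO')
      rw [div_eq_mul_inv]
      exact lp9_IsU_mul hfU (lp9_IsU_inv (lp9_IsU_pow hcU m))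
  refine ⟨∏ O ∈ T, g O, hc0, ?_⟩
  intro O hO hOn
  have hf'0 : f / (∏ O' ∈ T, g O') ^ m ≠ 0 := div_ne_zero hf (pow_ne_zero m hc0)
  by_cases hOD : O ∈ Dp
  · -- (B) deep points
    exact lpd9_dd_mem_of_inv O hO.1 hO.2.1 σ τ (hDp O hOD).1 _ hf'0
  · -- (C) the other points
    have hσinv : ∀ O ∈ Dp, ∀ x : F, x ∈ O ↔ σ x ∈ O := fun O hO => (hDp O hO).1
    have hτinv : ∀ O ∈ Dp, ∀ x : F, x ∈ O ↔ τ x ∈ O := fun O hO => (hDp O hO).2
    -- the three translates
    have hO1 : s34i47_IsHoriz π (O.comap (σ : F →+* F)) := lpd9_horiz_comap K π hπ σ hσR O hO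
    have hOn1 : s34i47_Through B n (O.comap (σ : F →+* F)) :=
      lpd9_through_comap π B σ hσB hσπ hπ0 n hπn O hOn
    have hOD1 : O.comap (σ : F →+* F) ∉ Dp := lpd9_comap_notMem Dp σ hσinv O hOD
    have hO2 : s34i47_IsHoriz π (O.comap (τ : F →+* F)) := lpd9_horiz_comap K π hπ τ hτR O hO
    have hOn2 : s34i47_Through B n (O.comap (τ : F →+* F)) :=
      lpd9_through_comap π B τ hτB hτπ hπ0 n hπn O hOn
    have hOD2 : O.comap (τ : F →+* F) ∉ Dp := lpd9_comap_notMem Dp τ hτinv O hOD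
    have hO3 : s34i47_IsHoriz π ((O.comap (σ : F →+* F)).comap (τ : F →+* F)) :=
      lpd9_horiz_comap K π hπ τ hτR _ hO1
    have hOn3 : s34i47_Through B n ((O.comap (σ : F →+* F)).comap (τ : F →+* F)) :=
      lpd9_through_comap π B τ hτB hτπ hπ0 n hπn _ hOn1
    have hOD3 : (O.comap (σ : F →+* F)).comap (τ : F →+* F) ∉ Dp :=
      lpd9_comap_notMem Dp τ hτinv _ hOD1
    have u0 := hA O hO hOn hOD
    have u1 := (lpd9_IsU_comap O σ _).mp (hA _ hO1 hOn1 hOD1)
    have u2 := (lpd9_IsU_comap O τ _).mp (hA _ hO2 hOn2 hOD2)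
    have u3 := (lpd9_IsU_comap O σ _).mp ((lpd9_IsU_comap _ τ _).mp (hA _ hO3 hOn3 hOD3))
    have he : s34i47_dd σ τ (f / (∏ O' ∈ T, g O') ^ m) =
        σ (τ (f / (∏ O' ∈ T, g O') ^ m)) * (f / (∏ O' ∈ T, g O') ^ m) *
          ((σ (f / (∏ O' ∈ T, g O') ^ m))⁻¹ * (τ (f / (∏ O' ∈ T, g O') ^ m))⁻¹) := by
      unfold s34i47_dd
      rw [div_eq_mul_inv, mul_inv]
    rw [he]
    exact O.mul_mem _ _ (O.mul_mem _ _ u3.1 u0.1) (O.mul_mem _ _ u1.2 u2.2)

end Fermat.Agent.S34
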