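import Mathlib
import Fermat.Agent.S34.Iface47
import Fermat.Agent.S34.NodeLemma71

/-!
# S34 lab, frame package, row Frame-LS-abs (helper49): `(LS)` from branch data

Abstract adapter between the concrete sub-rows of the frame (P3a-inf, P3a-0, P3b, P4') and the
literal interface proposition `s34i47_LocStr π B` of `Iface47`, for one chart `B`.

`B` is a noetherian chart inside two valuation subrings `V₁`, `V₂` of `F` (the two Gauss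
valuation rings), both with maximal ideal generated by `p = algebraMap R F π`, and `B` is
`p`-saturated in `V₁ ⊓ V₂`.  Write `P_i = {x ∈ B | p⁻¹ x ∈ V_i}` (the two branches of the special
fibre).

* `ls49_loc` : the localisation `B_n` as a subring of `F`.
* `ls49_smooth` : at a closed point lying on one branch only, a local generator of the branch
  together with `p` generates the maximal ideal (smooth clause of `(LS)`).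
* `ls49_node` : at a closed point lying on both branches, from local generators of the two
  branches, the decomposition `n B_n = P₁ B_n + P₂ B_n` and two functions `U`, `V` of `B_n` with
  `U V = p ^ e · unit`, `U` a unit of `V₁`, `V` a unit of `V₂`: coordinates `z z' = p ^ κ · unit`
  (node clause of `(LS)`, through `nl71_main`).
* `ls49_locStr` : the literal `s34i47_LocStr π B`.

All names are prefixed `ls49_`.
-/

set_option autoImplicit false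

namespace Fermat.Agent.S34

section

variable {R F : Type*} [CommRing R] [Field F] [Algebra R F]

/-- The localisation `B_n` of the chart `B` at the prime `n`, as a subring of `F`. -/
def ls49_loc (B : Subalgebra R F) (n : Ideal B) [hn : n.IsPrime] : Subring F where
  carrier := {x | ∃ s : B, s ∉ n ∧ (s : F) * x ∈ B}
  mul_mem' := by
    rintro x y ⟨s, hs, hx⟩ ⟨t, ht, hy⟩
    refine ⟨s * t, fun h => (hn.mem_or_mem h).elim hs ht, ?_⟩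
    have : ((s * t : B) : F) * (x * y) = ((s : F) * x) * ((t : F) * y) := by
      push_cast; ring
    rw [this]; exact B.mul_mem hx hy
  one_mem' := ⟨1, fun h => hn.ne_top ((Ideal.eq_top_iff_one n).mpr h), by
    simp⟩
  add_mem' := by
    rintro x y ⟨s, hs, hx⟩ ⟨t, ht, hy⟩
    refine ⟨s * t, fun h => (hn.mem_or_mem h).elim hs ht, ?_⟩
    have : ((s * t : B) : F) * (x + y) = (t : F) * ((s : F) * x) + (s : F) * ((t : F) * y) := by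
      push_cast; ring
    rw [this]; exact B.add_mem (B.mul_mem t.2 hx) (B.mul_mem s.2 hy)
  zero_mem' := ⟨1, fun h => hn.ne_top ((Ideal.eq_top_iff_one n).mpr h), by
    simp⟩
  neg_mem' := by
    rintro x ⟨s, hs, hx⟩
    exact ⟨s, hs, by rw [mul_neg]; exact B.neg_mem hx⟩

theorem ls49_mem_loc (B : Subalgebra R F) (n : Ideal B) [n.IsPrime] (x : F) :
    x ∈ ls49_loc B n ↔ ∃ s : B, s ∉ n ∧ (s : F) * x ∈ B := Iff.rfl

theorem ls49_le_loc (B : Subalgebra R F) (n : Ideal B) [hn : n.IsPrime] {x : F} (hx : x ∈ B) :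
    x ∈ ls49_loc B n :=
  ⟨1, fun h => hn.ne_top ((Ideal.eq_top_iff_one n).mpr h), by simpa using hx⟩

theorem ls49_coe_ne_zero (B : Subalgebra R F) (n : Ideal B) {s : B} (hs : s ∉ n) :
    (s : F) ≠ 0 := by
  intro h
  apply hs
  have : s = 0 := Subtype.ext h
  rw [this]; exact n.zero_mem

theorem ls49_inv_mem_loc (B : Subalgebra R F) (n : Ideal B) [n.IsPrime] {s : B} (hs : s ∉ n) :
    (s : F)⁻¹ ∈ ls49_loc B n :=
  ⟨s, hs, by rw [mul_inv_cancel₀ (ls49_coe_ne_zero B n hs)]; exact B.one_mem⟩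

/-- In a valuation ring whose maximal ideal is generated by `p`, an element which is not
divisible by `p` is a unit. -/
theorem ls49_inv_mem {V : ValuationSubring F} {p x : F}
    (hmax : ∀ x ∈ V, x⁻¹ ∉ V → p⁻¹ * x ∈ V) (hx : x ∈ V) (hpx : p⁻¹ * x ∉ V) : x⁻¹ ∈ V := by
  by_contra h
  exact hpx (hmax x hx h)

/-- **Smooth clause.**  At a prime `n` which does not contain the second branch (`y ∉ n`,
`p⁻¹ y ∈ V₂`), a local generator `t` of `n` modulo the first branch generates `n B_n` together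
with `p`. -/
theorem ls49_smooth (B : Subalgebra R F) (ϖ : B) (hϖ0 : (ϖ : F) ≠ 0) (n : Ideal B)
    [hn : n.IsPrime] (V₁ V₂ : ValuationSubring F)
    (hB₁ : ∀ x ∈ B, x ∈ V₁) (hB₂ : ∀ x ∈ B, x ∈ V₂)
    (hsat : ∀ x ∈ B, (ϖ : F)⁻¹ * x ∈ V₁ → (ϖ : F)⁻¹ * x ∈ V₂ → (ϖ : F)⁻¹ * x ∈ B)
    (y : B) (hy : y ∉ n) (hy₂ : (ϖ : F)⁻¹ * (y : F) ∈ V₂)
    (t : B) (ht : ∀ x ∈ n, ∃ s : B, s ∉ n ∧ ∃ a : B,
      (ϖ : F)⁻¹ * ((s : F) * x - a * t) ∈ V₁) :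
    ∀ x ∈ n, ∃ s : B, s ∉ n ∧ ∃ a b c : B, s * x = a * t + b * ϖ + c * ϖ := by
  intro x hx
  obtain ⟨s, hs, a, ha⟩ := ht x hx
  have hwB : (y : F) * ((s : F) * x - a * t) ∈ B :=
    B.mul_mem y.2 (B.sub_mem (B.mul_mem s.2 x.2) (B.mul_mem a.2 t.2))
  have hw₁ : (ϖ : F)⁻¹ * ((y : F) * ((s : F) * x - a * t)) ∈ V₁ := by
    have : (ϖ : F)⁻¹ * ((y : F) * ((s : F) * x - a * t))
        = (y : F) * ((ϖ : F)⁻¹ * ((s : F) * x - a * t)) := by ring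
    rw [this]; exact V₁.mul_mem _ _ (hB₁ _ y.2) ha
  have hw₂ : (ϖ : F)⁻¹ * ((y : F) * ((s : F) * x - a * t)) ∈ V₂ := by
    have : (ϖ : F)⁻¹ * ((y : F) * ((s : F) * x - a * t))
        = ((ϖ : F)⁻¹ * (y : F)) * ((s : F) * x - a * t) := by ring
    rw [this]
    exact V₂.mul_mem _ _ hy₂ (hB₂ _ (B.sub_mem (B.mul_mem s.2 x.2) (B.mul_mem a.2 t.2)))
  have hc := hsat _ hwB hw₁ hw₂
  refine ⟨y * s, fun h => (hn.mem_or_mem h).elim hy hs, y * a, 0, ⟨_, hc⟩, ?_⟩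
  apply Subtype.ext
  push_cast
  field_simp
  ring

theorem ls49_inv_mul_mem_loc (B : Subalgebra R F) (n : Ideal B) [hn : n.IsPrime] {s t : B}
    (hs : s ∉ n) (ht : t ∉ n) : ((s : F) * (t : F))⁻¹ ∈ ls49_loc B n := by
  have h := ls49_inv_mem_loc B n (s := s * t) (fun h => (hn.mem_or_mem h).elim hs ht)
  simpa using h

/-- Replacing a local generator `t` of `n` modulo the first branch by the second-branch part
`x₂` of a decomposition `s₀ t = x₁ + x₂`. -/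
theorem ls49_regen (B : Subalgebra R F) (ϖ : B) (n : Ideal B) [hn : n.IsPrime]
    (V₁ : ValuationSubring F) (hB₁ : ∀ x ∈ B, x ∈ V₁)
    (t : B) (ht : ∀ x ∈ n, ∃ s : B, s ∉ n ∧ ∃ a : B,
      (ϖ : F)⁻¹ * ((s : F) * x - a * t) ∈ V₁)
    (s₀ x₁ x₂ : B) (hs₀ : s₀ ∉ n) (hx₁ : (ϖ : F)⁻¹ * (x₁ : F) ∈ V₁)
    (h : s₀ * t = x₁ + x₂) :
    ∀ x ∈ n, ∃ s : B, s ∉ n ∧ ∃ a : B, (ϖ : F)⁻¹ * ((s : F) * x - a * x₂) ∈ V₁ := by
  intro x hx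
  obtain ⟨s, hs, a, ha⟩ := ht x hx
  refine ⟨s₀ * s, fun h => (hn.mem_or_mem h).elim hs₀ hs, a, ?_⟩
  have h' : (s₀ : F) * (t : F) = (x₁ : F) + (x₂ : F) := by
    have := congrArg (Subtype.val : B → F) h
    simpa using this
  have e : (ϖ : F)⁻¹ * (((s₀ * s : B) : F) * x - a * x₂)
      = (s₀ : F) * ((ϖ : F)⁻¹ * ((s : F) * x - a * t)) + (a : F) * ((ϖ : F)⁻¹ * (x₁ : F)) := by
    push_cast
    linear_combination ((ϖ : F)⁻¹ * (a : F)) * h'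
  rw [e]
  exact V₁.add_mem _ _ (V₁.mul_mem _ _ (hB₁ _ s₀.2) ha) (V₁.mul_mem _ _ (hB₁ _ a.2) hx₁)

/-- Generation of `n B_n` by `z`, `z'`, `p` at a point lying on both branches. -/
theorem ls49_node_gen (B : Subalgebra R F) (ϖ : B) (hϖ0 : (ϖ : F) ≠ 0) (n : Ideal B)
    [hn : n.IsPrime] (V₁ V₂ : ValuationSubring F)
    (hB₁ : ∀ x ∈ B, x ∈ V₁) (hB₂ : ∀ x ∈ B, x ∈ V₂)
    (hsat : ∀ x ∈ B, (ϖ : F)⁻¹ * x ∈ V₁ → (ϖ : F)⁻¹ * x ∈ V₂ → (ϖ : F)⁻¹ * x ∈ B)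
    (z z' : B) (hz₂ : (ϖ : F)⁻¹ * (z : F) ∈ V₂) (hz'₁ : (ϖ : F)⁻¹ * (z' : F) ∈ V₁)
    (hP₁ : ∀ x : B, (ϖ : F)⁻¹ * (x : F) ∈ V₁ → x ∈ n)
    (hP₂ : ∀ x : B, (ϖ : F)⁻¹ * (x : F) ∈ V₂ → x ∈ n)
    (hgz : ∀ x ∈ n, ∃ s : B, s ∉ n ∧ ∃ a : B, (ϖ : F)⁻¹ * ((s : F) * x - a * z) ∈ V₁)
    (hgz' : ∀ x ∈ n, ∃ s : B, s ∉ n ∧ ∃ a : B, (ϖ : F)⁻¹ * ((s : F) * x - a * z') ∈ V₂)
    (hNd : ∀ x ∈ n, ∃ s : B, s ∉ n ∧ ∃ x₁ x₂ : B, (ϖ : F)⁻¹ * (x₁ : F) ∈ V₁ ∧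
      (ϖ : F)⁻¹ * (x₂ : F) ∈ V₂ ∧ s * x = x₁ + x₂) :
    ∀ x ∈ n, ∃ s : B, s ∉ n ∧ ∃ a b c : B, s * x = a * z + b * z' + c * ϖ := by
  intro x hx
  obtain ⟨s, hs, x₁, x₂, hx₁, hx₂, hsx⟩ := hNd x hx
  obtain ⟨s₂, hs₂, a₂, ha₂⟩ := hgz x₂ (hP₂ x₂ hx₂)
  obtain ⟨s₁, hs₁, a₁, ha₁⟩ := hgz' x₁ (hP₁ x₁ hx₁)
  have hw₂B : (s₂ : F) * x₂ - a₂ * z ∈ B := B.sub_mem (B.mul_mem s₂.2 x₂.2) (B.mul_mem a₂.2 z.2)
  have hw₁B : (s₁ : F) * x₁ - a₁ * z' ∈ B :=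
    B.sub_mem (B.mul_mem s₁.2 x₁.2) (B.mul_mem a₁.2 z'.2)
  have hc₂ : (ϖ : F)⁻¹ * ((s₂ : F) * x₂ - a₂ * z) ∈ B := by
    apply hsat _ hw₂B ha₂
    have e : (ϖ : F)⁻¹ * ((s₂ : F) * x₂ - a₂ * z)
        = (s₂ : F) * ((ϖ : F)⁻¹ * (x₂ : F)) - (a₂ : F) * ((ϖ : F)⁻¹ * (z : F)) := by ring
    rw [e]
    exact V₂.sub_mem (V₂.mul_mem _ _ (hB₂ _ s₂.2) hx₂) (V₂.mul_mem _ _ (hB₂ _ a₂.2) hz₂)
  have hc₁ : (ϖ : F)⁻¹ * ((s₁ : F) * x₁ - a₁ * z') ∈ B := by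
    refine hsat _ hw₁B ?_ ha₁
    have e : (ϖ : F)⁻¹ * ((s₁ : F) * x₁ - a₁ * z')
        = (s₁ : F) * ((ϖ : F)⁻¹ * (x₁ : F)) - (a₁ : F) * ((ϖ : F)⁻¹ * (z' : F)) := by ring
    rw [e]
    exact V₁.sub_mem (V₁.mul_mem _ _ (hB₁ _ s₁.2) hx₁) (V₁.mul_mem _ _ (hB₁ _ a₁.2) hz'₁)
  refine ⟨s₁ * s₂ * s, fun h => (hn.mem_or_mem h).elim
    (fun h => (hn.mem_or_mem h).elim hs₁ hs₂) hs, s₁ * a₂, s₂ * a₁,
    s₂ * ⟨_, hc₁⟩ + s₁ * ⟨_, hc₂⟩, ?_⟩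
  have hsx' : (s : F) * (x : F) = (x₁ : F) + (x₂ : F) := by
    have := congrArg (Subtype.val : B → F) hsx
    simpa using this
  have e₁ : (ϖ : F)⁻¹ * ((s₁ : F) * x₁ - a₁ * z') * (ϖ : F) = (s₁ : F) * x₁ - a₁ * z' := by
    field_simp
  have e₂ : (ϖ : F)⁻¹ * ((s₂ : F) * x₂ - a₂ * z) * (ϖ : F) = (s₂ : F) * x₂ - a₂ * z := by
    field_simp
  apply Subtype.ext
  push_cast
  linear_combination ((s₁ : F) * s₂) * hsx' - (s₂ : F) * e₁ - (s₁ : F) * e₂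

/-- The branch `{x ∈ B | p⁻¹ x ∈ V}` of the special fibre, as an ideal of `B`. -/
def ls49_branch (B : Subalgebra R F) (p : F) (V : ValuationSubring F)
    (hB : ∀ x ∈ B, x ∈ V) : Ideal B where
  carrier := {x | p⁻¹ * (x : F) ∈ V}
  add_mem' := by
    intro a b ha hb
    show p⁻¹ * ((a + b : B) : F) ∈ V
    push_cast
    rw [mul_add]
    exact V.add_mem _ _ ha hb
  zero_mem' := by
    show p⁻¹ * ((0 : B) : F) ∈ V
    simp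
  smul_mem' := by
    intro c x hx
    show p⁻¹ * ((c • x : B) : F) ∈ V
    rw [smul_eq_mul]
    push_cast
    rw [mul_left_comm]
    exact V.mul_mem _ _ (hB _ c.2) hx

theorem ls49_mem_branch (B : Subalgebra R F) (p : F) (V : ValuationSubring F)
    (hB : ∀ x ∈ B, x ∈ V) (x : B) : x ∈ ls49_branch B p V hB ↔ p⁻¹ * (x : F) ∈ V := Iff.rfl

theorem ls49_branch_isPrime (B : Subalgebra R F) (p : F) (V : ValuationSubring F)
    (hB : ∀ x ∈ B, x ∈ V) (hp : p⁻¹ ∉ V) (hmax : ∀ x ∈ V, x⁻¹ ∉ V → p⁻¹ * x ∈ V) :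
    (ls49_branch B p V hB).IsPrime := by
  rw [Ideal.isPrime_iff]
  refine ⟨?_, ?_⟩
  · intro h
    have h1 : (1 : B) ∈ ls49_branch B p V hB := by rw [h]; trivial
    rw [ls49_mem_branch] at h1
    apply hp
    simpa using h1
  · intro x y hxy
    rw [ls49_mem_branch] at hxy
    by_contra hcon
    rw [not_or] at hcon
    obtain ⟨hx, hy⟩ := hcon
    rw [ls49_mem_branch] at hx hy
    have hx0 : (x : F) ≠ 0 := by
      intro h0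
      apply hx
      rw [h0, mul_zero]
      exact V.zero_mem
    have hxi : (x : F)⁻¹ ∈ V := ls49_inv_mem hmax (hB _ x.2) hx
    apply hy
    have e : p⁻¹ * (y : F) = (x : F)⁻¹ * (p⁻¹ * ((x * y : B) : F)) := by
      push_cast
      field_simp
    rw [e]
    exact V.mul_mem _ _ hxi hxy

/-- **Unit form on a branch.**  If `n` is locally generated by `z` modulo the branch `P` of `V₁`
and `u ∈ B` does not lie on that branch, then `s u ≡ a z ^ k` modulo `P` with `s, a ∉ n`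
(Krull's intersection theorem in the noetherian domain `B / P`). -/
theorem ls49_unit_form (B : Subalgebra R F) [IsNoetherianRing B] (ϖ : B) (n : Ideal B)
    (hn : n.IsMaximal) (V₁ : ValuationSubring F) (hB₁ : ∀ x ∈ B, x ∈ V₁)
    (hp₁ : (ϖ : F)⁻¹ ∉ V₁) (hmax₁ : ∀ x ∈ V₁, x⁻¹ ∉ V₁ → (ϖ : F)⁻¹ * x ∈ V₁)
    (hP₁ : ∀ x : B, (ϖ : F)⁻¹ * (x : F) ∈ V₁ → x ∈ n)
    (z : B) (hzn : z ∈ n)
    (hgz : ∀ x ∈ n, ∃ s : B, s ∉ n ∧ ∃ a : B, (ϖ : F)⁻¹ * ((s : F) * x - a * z) ∈ V₁)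
    (u : B) (hu : (ϖ : F)⁻¹ * (u : F) ∉ V₁) :
    ∃ (k : ℕ) (s a : B), s ∉ n ∧ a ∉ n ∧ (ϖ : F)⁻¹ * ((s : F) * u - a * z ^ k) ∈ V₁ := by
  classical
  haveI hnp : n.IsPrime := hn.isPrime
  haveI : n.IsMaximal := hn
  set P : Ideal B := ls49_branch B (ϖ : F) V₁ hB₁ with hPdef
  haveI hPprime : P.IsPrime := ls49_branch_isPrime B (ϖ : F) V₁ hB₁ hp₁ hmax₁
  have hPn : P ≤ n := fun x hx => hP₁ x hx
  by_contra hcon
  push Not at hcon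
  -- weak form for every `k`
  have hG : ∀ k : ℕ, ∃ s : B, s ∉ n ∧ ∃ a : B,
      (ϖ : F)⁻¹ * ((s : F) * u - a * z ^ k) ∈ V₁ := by
    intro k
    induction k with
    | zero =>
      refine ⟨1, fun h => hnp.ne_top ((Ideal.eq_top_iff_one n).mpr h), u, ?_⟩
      simp
    | succ k ih =>
      obtain ⟨s, hs, a, ha⟩ := ih
      have han : a ∈ n := by
        by_contra h
        exact hcon k s a hs h ha
      obtain ⟨s', hs', a', ha'⟩ := hgz a han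
      refine ⟨s' * s, fun h => (hnp.mem_or_mem h).elim hs' hs, a', ?_⟩
      have e : (ϖ : F)⁻¹ * (((s' * s : B) : F) * u - a' * (z : F) ^ (k + 1))
          = (s' : F) * ((ϖ : F)⁻¹ * ((s : F) * u - a * (z : F) ^ k))
            + (z : F) ^ k * ((ϖ : F)⁻¹ * ((s' : F) * a - a' * z)) := by
        push_cast
        ring
      rw [e]
      exact V₁.add_mem _ _ (V₁.mul_mem _ _ (hB₁ _ s'.2) ha)
        (V₁.mul_mem _ _ (V₁.pow_mem (hB₁ _ z.2) k) ha')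
  -- hence `u` lies in every power of `n` modulo `P`
  have hmem : ∀ k : ℕ, Ideal.Quotient.mk P u ∈ (n.map (Ideal.Quotient.mk P)) ^ k := by
    intro k
    obtain ⟨s, hs, a, ha⟩ := hG k
    have hw : s * u - a * z ^ k ∈ P := by
      rw [hPdef, ls49_mem_branch]
      push_cast
      exact ha
    have h1 : Ideal.Quotient.mk P (s * u) ∈ (n.map (Ideal.Quotient.mk P)) ^ k := by
      have e : Ideal.Quotient.mk P (s * u) = Ideal.Quotient.mk P (a * z ^ k) :=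
        Ideal.Quotient.eq.mpr hw
      rw [e, map_mul, map_pow]
      exact Ideal.mul_mem_left _ _ (Ideal.pow_mem_pow (Ideal.mem_map_of_mem _ hzn) k)
    obtain ⟨r, i, hi, hri⟩ := Ideal.IsMaximal.exists_inv_pow n hs k
    have h2 : Ideal.Quotient.mk P i ∈ (n.map (Ideal.Quotient.mk P)) ^ k := by
      rw [← Ideal.map_pow]
      exact Ideal.mem_map_of_mem _ hi
    have e : Ideal.Quotient.mk P u
        = Ideal.Quotient.mk P r * Ideal.Quotient.mk P (s * u)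
          + Ideal.Quotient.mk P u * Ideal.Quotient.mk P i := by
      rw [← map_mul, ← map_mul, ← map_add]
      congr 1
      linear_combination (-u) * hri
    rw [e]
    exact Ideal.add_mem _ (Ideal.mul_mem_left _ _ h1) (Ideal.mul_mem_left _ _ h2)
  have hne : n.map (Ideal.Quotient.mk P) ≠ ⊤ := by
    intro h
    have h1 : Ideal.Quotient.mk P (1 : B) ∈ n.map (Ideal.Quotient.mk P) := by
      rw [h]; trivial
    rw [Ideal.mem_quotient_iff_mem_sup, sup_eq_left.mpr hPn] at h1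
    exact hnp.ne_top ((Ideal.eq_top_iff_one n).mpr h1)
  have hbot := Ideal.iInf_pow_eq_bot_of_isDomain (n.map (Ideal.Quotient.mk P)) hne
  have hu0 : Ideal.Quotient.mk P u = 0 := by
    have : Ideal.Quotient.mk P u ∈ (⨅ i : ℕ, (n.map (Ideal.Quotient.mk P)) ^ i) := by
      rw [Ideal.mem_iInf]
      exact hmem
    rw [hbot] at this
    exact this
  rw [Ideal.Quotient.eq_zero_iff_mem] at hu0
  exact hu hu0

/-- **Node clause.**  At a maximal ideal `n ∋ p` containing both branches: from local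
generators `t₁`, `t₂` of `n` modulo the two branches, the decomposition
`n B_n = P₁ B_n + P₂ B_n` and `U, V ∈ B_n` with `c U V = p ^ e d` (`c, d ∉ n`), `U` a unit of
`V₁`, `V` a unit of `V₂`, there are `z, z' ∈ n` generating `n B_n` with `p`, and
`s z z' = p ^ κ s'` with `s, s' ∉ n`. -/
theorem ls49_node (B : Subalgebra R F) [IsNoetherianRing B] (ϖ : B) (hϖ0 : (ϖ : F) ≠ 0)
    (n : Ideal B) (hn : n.IsMaximal) (hϖn : ϖ ∈ n)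
    (V₁ V₂ : ValuationSubring F) (hB₁ : ∀ x ∈ B, x ∈ V₁) (hB₂ : ∀ x ∈ B, x ∈ V₂)
    (hp₁ : (ϖ : F)⁻¹ ∉ V₁) (hp₂ : (ϖ : F)⁻¹ ∉ V₂)
    (hmax₁ : ∀ x ∈ V₁, x⁻¹ ∉ V₁ → (ϖ : F)⁻¹ * x ∈ V₁)
    (hmax₂ : ∀ x ∈ V₂, x⁻¹ ∉ V₂ → (ϖ : F)⁻¹ * x ∈ V₂)
    (hsat : ∀ x ∈ B, (ϖ : F)⁻¹ * x ∈ V₁ → (ϖ : F)⁻¹ * x ∈ V₂ → (ϖ : F)⁻¹ * x ∈ B)
    (hP₁ : ∀ x : B, (ϖ : F)⁻¹ * (x : F) ∈ V₁ → x ∈ n)
    (hP₂ : ∀ x : B, (ϖ : F)⁻¹ * (x : F) ∈ V₂ → x ∈ n)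
    (t₁ : B) (ht₁n : t₁ ∈ n)
    (ht₁ : ∀ x ∈ n, ∃ s : B, s ∉ n ∧ ∃ a : B, (ϖ : F)⁻¹ * ((s : F) * x - a * t₁) ∈ V₁)
    (t₂ : B) (ht₂n : t₂ ∈ n)
    (ht₂ : ∀ x ∈ n, ∃ s : B, s ∉ n ∧ ∃ a : B, (ϖ : F)⁻¹ * ((s : F) * x - a * t₂) ∈ V₂)
    (hNd : ∀ x ∈ n, ∃ s : B, s ∉ n ∧ ∃ x₁ x₂ : B, (ϖ : F)⁻¹ * (x₁ : F) ∈ V₁ ∧
      (ϖ : F)⁻¹ * (x₂ : F) ∈ V₂ ∧ s * x = x₁ + x₂)
    (U V : F) (e : ℕ) (he : 1 ≤ e) (sU sV c d : B) (hsU : sU ∉ n) (hsV : sV ∉ n)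
    (hc : c ∉ n) (hd : d ∉ n) (hU : (sU : F) * U ∈ B) (hV : (sV : F) * V ∈ B)
    (hUV : (c : F) * (U * V) = (ϖ : F) ^ e * d)
    (hU₁ : (ϖ : F)⁻¹ * U ∉ V₁) (hV₂ : (ϖ : F)⁻¹ * V ∉ V₂) :
    ∃ z z' : B, z ∈ n ∧ z' ∈ n ∧
      (∀ x ∈ n, ∃ s : B, s ∉ n ∧ ∃ a b c : B, s * x = a * z + b * z' + c * ϖ) ∧
      ∃ (κ : ℕ) (s s' : B), s ∉ n ∧ s' ∉ n ∧ s * z * z' = ϖ ^ κ * s' := by
  classical
  haveI hnp : n.IsPrime := hn.isPrime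
  -- elements outside `n` are units of both valuation rings
  have hu₁ : ∀ s : B, s ∉ n → (s : F)⁻¹ ∈ V₁ := fun s hs =>
    ls49_inv_mem hmax₁ (hB₁ _ s.2) (fun h => hs (hP₁ s h))
  have hu₂ : ∀ s : B, s ∉ n → (s : F)⁻¹ ∈ V₂ := fun s hs =>
    ls49_inv_mem hmax₂ (hB₂ _ s.2) (fun h => hs (hP₂ s h))
  have hne : ∀ s : B, s ∉ n → (s : F) ≠ 0 := fun s hs => ls49_coe_ne_zero B n hs
  -- generators lying on the other branch
  obtain ⟨s₀, hs₀, x₁, z, hx₁, hz₂, hsx⟩ := hNd t₁ ht₁n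
  obtain ⟨s₀', hs₀', z', y₂, hz'₁, hy₂, hsy⟩ := hNd t₂ ht₂n
  have hgz := ls49_regen B ϖ n V₁ hB₁ t₁ ht₁ s₀ x₁ z hs₀ hx₁ hsx
  have hgz' := ls49_regen B ϖ n V₂ hB₂ t₂ ht₂ s₀' y₂ z' hs₀' hy₂ (by rw [hsy, add_comm])
  have hzn : z ∈ n := hP₂ z hz₂
  have hz'n : z' ∈ n := hP₁ z' hz'₁
  have hgen := ls49_node_gen B ϖ hϖ0 n V₁ V₂ hB₁ hB₂ hsat z z' hz₂ hz'₁ hP₁ hP₂ hgz hgz' hNd
  -- the local ring `A = B_n`
  have hA₁ : ls49_loc B n ≤ V₁.toSubring := by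
    rintro x ⟨s, hs, hx⟩
    have e : x = (s : F)⁻¹ * ((s : F) * x) := by
      rw [← mul_assoc, inv_mul_cancel₀ (hne s hs), one_mul]
    rw [e]
    exact V₁.mul_mem _ _ (hu₁ s hs) (hB₁ _ hx)
  have hA₂ : ls49_loc B n ≤ V₂.toSubring := by
    rintro x ⟨s, hs, hx⟩
    have e : x = (s : F)⁻¹ * ((s : F) * x) := by
      rw [← mul_assoc, inv_mul_cancel₀ (hne s hs), one_mul]
    rw [e]
    exact V₂.mul_mem _ _ (hu₂ s hs) (hB₂ _ hx)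
  have hϖA : (ϖ : F) ∈ ls49_loc B n := ls49_le_loc B n ϖ.2
  have hsatA : ∀ x ∈ ls49_loc B n, (ϖ : F)⁻¹ * x ∈ V₁.toSubring →
      (ϖ : F)⁻¹ * x ∈ V₂.toSubring → (ϖ : F)⁻¹ * x ∈ ls49_loc B n := by
    rintro x ⟨s, hs, hx⟩ h1 h2
    refine ⟨s, hs, ?_⟩
    have e1 : (s : F) * ((ϖ : F)⁻¹ * x) = (ϖ : F)⁻¹ * ((s : F) * x) := by ring
    rw [e1]
    apply hsat _ hx
    · rw [← e1]; exact V₁.mul_mem _ _ (hB₁ _ s.2) h1
    · rw [← e1]; exact V₂.mul_mem _ _ (hB₂ _ s.2) h2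
  have hV₁' : ∀ x ∈ V₁.toSubring, (ϖ : F)⁻¹ * x ∉ V₁.toSubring → x⁻¹ ∈ V₁.toSubring :=
    fun x hx h => ls49_inv_mem hmax₁ hx h
  have hV₂' : ∀ x ∈ V₂.toSubring, (ϖ : F)⁻¹ * x ∉ V₂.toSubring → x⁻¹ ∈ V₂.toSubring :=
    fun x hx h => ls49_inv_mem hmax₂ hx h
  have hloc : ∀ c ∈ ls49_loc B n, (∃ d ∈ ls49_loc B n, c * d = 1) ∨
      ∃ c' ∈ ls49_loc B n, ∃ a ∈ ls49_loc B n, ∃ b ∈ ls49_loc B n,
        c = (ϖ : F) * c' + a * (z : F) + b * (z' : F) := by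
    rintro c₀ ⟨s, hs, hc₀⟩
    by_cases hcn : (⟨(s : F) * c₀, hc₀⟩ : B) ∈ n
    · right
      obtain ⟨s', hs', a, b, c', h⟩ := hgen _ hcn
      have h' : (s' : F) * ((s : F) * c₀) = (a : F) * z + b * z' + c' * ϖ := by
        have := congrArg (Subtype.val : B → F) h
        simpa using this
      have hinv := ls49_inv_mul_mem_loc B n hs' hs
      refine ⟨((s' : F) * s)⁻¹ * c', (ls49_loc B n).mul_mem hinv (ls49_le_loc B n c'.2),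
        ((s' : F) * s)⁻¹ * a, (ls49_loc B n).mul_mem hinv (ls49_le_loc B n a.2),
        ((s' : F) * s)⁻¹ * b, (ls49_loc B n).mul_mem hinv (ls49_le_loc B n b.2), ?_⟩
      have hss : (s' : F) * (s : F) ≠ 0 := mul_ne_zero (hne s' hs') (hne s hs)
      calc c₀ = ((s' : F) * s)⁻¹ * ((s' : F) * ((s : F) * c₀)) := by
            rw [← mul_assoc (s' : F), inv_mul_cancel_left₀ hss]
        _ = ((s' : F) * s)⁻¹ * ((a : F) * z + b * z' + c' * ϖ) := by rw [h']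
        _ = (ϖ : F) * (((s' : F) * s)⁻¹ * c') + ((s' : F) * s)⁻¹ * a * (z : F)
              + ((s' : F) * s)⁻¹ * b * (z' : F) := by ring
    · left
      have hsc0 : (s : F) * c₀ ≠ 0 := ls49_coe_ne_zero B n hcn
      have hc00 : c₀ ≠ 0 := right_ne_zero_of_mul hsc0
      refine ⟨(s : F) * ((s : F) * c₀)⁻¹, (ls49_loc B n).mul_mem (ls49_le_loc B n s.2)
        (ls49_inv_mem_loc B n hcn), ?_⟩
      have hs0 := hne s hs
      field_simp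
  have hprop : ∀ c' ∈ ls49_loc B n, ∀ a ∈ ls49_loc B n, ∀ b ∈ ls49_loc B n,
      (ϖ : F) * c' + a * (z : F) + b * (z' : F) ≠ 1 := by
    rintro c' ⟨s₁, hs₁, hc'⟩ a ⟨s₂, hs₂, ha⟩ b ⟨s₃, hs₃, hb⟩ h
    have hmem : (s₁ * s₂ * s₃ : B) ∈ n := by
      have e : (s₁ * s₂ * s₃ : B) = ϖ * (s₂ * s₃ * ⟨_, hc'⟩) + (s₁ * s₃ * ⟨_, ha⟩) * z
          + (s₁ * s₂ * ⟨_, hb⟩) * z' := by
        apply Subtype.ext
        push_cast
        linear_combination (-((s₁ : F) * s₂ * s₃)) * h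
      rw [e]
      exact n.add_mem (n.add_mem (n.mul_mem_right _ hϖn) (n.mul_mem_left _ hzn))
        (n.mul_mem_left _ hz'n)
    exact (hnp.mem_or_mem hmem).elim (fun h => (hnp.mem_or_mem h).elim hs₁ hs₂) hs₃
  -- `U`, `V` in `A`
  have hUA : U ∈ ls49_loc B n := ⟨sU, hsU, hU⟩
  have hVA : V ∈ ls49_loc B n := ⟨sV, hsV, hV⟩
  have hU0 : U ≠ 0 := by
    rintro rfl
    apply hU₁
    rw [mul_zero]
    exact V₁.zero_mem
  have hUinv : U⁻¹ ∈ V₁ := ls49_inv_mem hmax₁ (hA₁ hUA) hU₁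
  have hϖV₁ : (ϖ : F) ∈ V₁ := hB₁ _ ϖ.2
  -- `p⁻¹ V ∈ V₁`
  have hV₁ : (ϖ : F)⁻¹ * V ∈ V₁ := by
    obtain ⟨e', rfl⟩ : ∃ e', e = e' + 1 := ⟨e - 1, by omega⟩
    have hc0 := hne c hc
    have e1 : (ϖ : F)⁻¹ * V = (ϖ : F) ^ e' * (d : F) * (c : F)⁻¹ * U⁻¹ := by
      have h2 : V = (ϖ : F) ^ (e' + 1) * (d : F) * (c : F)⁻¹ * U⁻¹ := by
        field_simp
        linear_combination hUV
      rw [h2, pow_succ]
      field_simp
    rw [e1]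
    exact V₁.mul_mem _ _ (V₁.mul_mem _ _ (V₁.mul_mem _ _ (V₁.pow_mem hϖV₁ e') (hB₁ _ d.2))
      (hu₁ c hc)) hUinv
  -- `z'` is not on the second branch
  have hz'₂ : (ϖ : F)⁻¹ * (z' : F) ∉ V₂.toSubring := by
    intro h
    have hvn : (⟨(sV : F) * V, hV⟩ : B) ∈ n := by
      apply hP₁
      have e1 : (ϖ : F)⁻¹ * ((sV : F) * V) = (sV : F) * ((ϖ : F)⁻¹ * V) := by ring
      show (ϖ : F)⁻¹ * ((sV : F) * V) ∈ V₁
      rw [e1]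
      exact V₁.mul_mem _ _ (hB₁ _ sV.2) hV₁
    obtain ⟨s, hs, a, ha⟩ := hgz' _ hvn
    apply hV₂
    have hs0 := hne s hs
    have hsV0 := hne sV hsV
    have e2 : (ϖ : F)⁻¹ * V = (s : F)⁻¹ * (sV : F)⁻¹ *
        ((ϖ : F)⁻¹ * ((s : F) * ((sV : F) * V) - a * z') + (a : F) * ((ϖ : F)⁻¹ * (z' : F))) := by
      field_simp
      ring
    rw [e2]
    exact V₂.mul_mem _ _ (V₂.mul_mem _ _ (hu₂ s hs) (hu₂ sV hsV))
      (V₂.add_mem _ _ ha (V₂.mul_mem _ _ (hB₂ _ a.2) h))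
  -- `U = ε z ^ μ` on the first branch
  have hUμ : ∃ (μ : ℕ) (ε δ : F), ε ∈ ls49_loc B n ∧ δ ∈ ls49_loc B n ∧ ε * δ = 1 ∧
      (ϖ : F)⁻¹ * (U - ε * (z : F) ^ μ) ∈ V₁.toSubring := by
    have hu : (ϖ : F)⁻¹ * ((⟨(sU : F) * U, hU⟩ : B) : F) ∉ V₁ := by
      intro h
      apply hU₁
      have hsU0 := hne sU hsU
      have e1 : (ϖ : F)⁻¹ * U = (sU : F)⁻¹ * ((ϖ : F)⁻¹ * ((sU : F) * U)) := by
        field_simp
      rw [e1]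
      exact V₁.mul_mem _ _ (hu₁ sU hsU) h
    obtain ⟨k, s, a, hs, ha, h⟩ := ls49_unit_form B ϖ n hn V₁ hB₁ hp₁ hmax₁ hP₁ z hzn hgz _ hu
    have hs0 := hne s hs
    have hsU0 := hne sU hsU
    have ha0 := hne a ha
    refine ⟨k, ((s : F) * sU)⁻¹ * a, (a : F)⁻¹ * ((s : F) * sU),
      (ls49_loc B n).mul_mem (ls49_inv_mul_mem_loc B n hs hsU) (ls49_le_loc B n a.2),
      (ls49_loc B n).mul_mem (ls49_inv_mem_loc B n ha)
        (ls49_le_loc B n (B.mul_mem s.2 sU.2)), ?_, ?_⟩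
    · field_simp
    · have e1 : (ϖ : F)⁻¹ * (U - ((s : F) * sU)⁻¹ * a * (z : F) ^ k)
          = (s : F)⁻¹ * (sU : F)⁻¹ *
            ((ϖ : F)⁻¹ * ((s : F) * ((sU : F) * U) - a * (z : F) ^ k)) := by
        field_simp
      rw [e1]
      exact V₁.mul_mem _ _ (V₁.mul_mem _ _ (hu₁ s hs) (hu₁ sU hsU)) h
  -- normalise `V`
  have hc0 := hne c hc
  have hd0 := hne d hd
  have hV'A : (c : F) * (d : F)⁻¹ * V ∈ ls49_loc B n :=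
    (ls49_loc B n).mul_mem ((ls49_loc B n).mul_mem (ls49_le_loc B n c.2)
      (ls49_inv_mem_loc B n hd)) hVA
  have hUV' : U * ((c : F) * (d : F)⁻¹ * V) = (ϖ : F) ^ e := by
    field_simp
    linear_combination hUV
  have hV'₂ : (ϖ : F)⁻¹ * ((c : F) * (d : F)⁻¹ * V) ∉ V₂.toSubring := by
    intro h
    apply hV₂
    have e1 : (ϖ : F)⁻¹ * V = (c : F)⁻¹ * (d : F) * ((ϖ : F)⁻¹ * ((c : F) * (d : F)⁻¹ * V)) := by
      field_simp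
    rw [e1]
    exact V₂.mul_mem _ _ (V₂.mul_mem _ _ (hu₂ c hc) (hB₂ _ d.2)) h
  obtain ⟨κ, z₁, z₁', c₁, d₁, -, -, hz₁, hz₁', hc₁, hd₁, hcd, hzz, hzz1, hzz1'⟩ :=
    nl71_main (ls49_loc B n) V₁.toSubring V₂.toSubring (ϖ : F) hϖ0 hϖA hA₁ hA₂ hp₁ hp₂
      hV₁' hV₂' hsatA (z : F) (z' : F) (ls49_le_loc B n z.2) (ls49_le_loc B n z'.2)
      hz₂ hz'₁ hz'₂ hloc hprop U ((c : F) * (d : F)⁻¹ * V) hUA hV'A e he hUV' hU₁ hV'₂ hUμ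
  -- back to elements of `B`
  obtain ⟨σ₁, hσ₁, hw₁⟩ := hzz1
  obtain ⟨σ₂, hσ₂, hw₂⟩ := hzz1'
  obtain ⟨σ₃, hσ₃, hc₀⟩ := hc₁
  obtain ⟨σ₄, hσ₄, hd₀⟩ := hd₁
  have hc₀n : (⟨(σ₃ : F) * c₁, hc₀⟩ : B) ∉ n := by
    intro h
    have h1 : (⟨(σ₃ : F) * c₁, hc₀⟩ : B) * ⟨(σ₄ : F) * d₁, hd₀⟩ ∈ n := n.mul_mem_right _ h
    have e1 : (⟨(σ₃ : F) * c₁, hc₀⟩ : B) * ⟨(σ₄ : F) * d₁, hd₀⟩ = σ₃ * σ₄ := by
      apply Subtype.ext
      push_cast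
      linear_combination ((σ₃ : F) * σ₄) * hcd
    rw [e1] at h1
    exact (hnp.mem_or_mem h1).elim hσ₃ hσ₄
  refine ⟨σ₁ * z + ϖ * ⟨_, hw₁⟩, σ₂ * z' + ϖ * ⟨_, hw₂⟩,
    n.add_mem (n.mul_mem_left _ hzn) (n.mul_mem_right _ hϖn),
    n.add_mem (n.mul_mem_left _ hz'n) (n.mul_mem_right _ hϖn), ?_, κ, σ₃,
    σ₁ * σ₂ * ⟨_, hc₀⟩, hσ₃,
    fun h => (hnp.mem_or_mem h).elim (fun h => (hnp.mem_or_mem h).elim hσ₁ hσ₂) hc₀n, ?_⟩
  · intro x hx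
    obtain ⟨s, hs, a, b, c', h⟩ := hgen x hx
    refine ⟨σ₁ * σ₂ * s, fun h => (hnp.mem_or_mem h).elim
      (fun h => (hnp.mem_or_mem h).elim hσ₁ hσ₂) hs, a * σ₂, b * σ₁,
      c' * σ₁ * σ₂ - a * σ₂ * ⟨_, hw₁⟩ - b * σ₁ * ⟨_, hw₂⟩, ?_⟩
    linear_combination (σ₁ * σ₂) * h
  · apply Subtype.ext
    push_cast
    have e1 : (σ₁ : F) * (z : F) + (ϖ : F) * ((σ₁ : F) * ((ϖ : F)⁻¹ * (z₁ - (z : F))))
        = (σ₁ : F) * z₁ := by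
      field_simp
      ring
    have e2 : (σ₂ : F) * (z' : F) + (ϖ : F) * ((σ₂ : F) * ((ϖ : F)⁻¹ * (z₁' - (z' : F))))
        = (σ₂ : F) * z₁' := by
      field_simp
      ring
    rw [e1, e2]
    linear_combination ((σ₃ : F) * σ₁ * σ₂) * hzz

/-- **`(LS)` from branch data.**  The literal interface proposition `s34i47_LocStr π B` for a
noetherian chart `B` inside two valuation rings `V₁`, `V₂` with maximal ideals generated by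
`p = algebraMap R F π`, saturated in `V₁ ⊓ V₂`, from

* `hBr₁`, `hBr₂` : at every maximal `n ∋ π` containing the branch `P_i = {x ∈ B | p⁻¹ x ∈ V_i}`
  the ideal `n` is locally generated by one element modulo `P_i`
  (`(B / P_i)_n` has principal maximal ideal);
* `hNode` : at every maximal `n ∋ π` containing both branches, `n B_n = P₁ B_n + P₂ B_n` and
  there are `U, V ∈ B_n`, `c U V = p ^ e d` with `c, d ∉ n`, `1 ≤ e`, `U` a unit of `V₁` and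
  `V` a unit of `V₂`. -/
theorem ls49_locStr (π : R) (hp0 : algebraMap R F π ≠ 0) (B : Subalgebra R F)
    [IsNoetherianRing B] (V₁ V₂ : ValuationSubring F)
    (hB₁ : ∀ x ∈ B, x ∈ V₁) (hB₂ : ∀ x ∈ B, x ∈ V₂)
    (hp₁ : (algebraMap R F π)⁻¹ ∉ V₁) (hp₂ : (algebraMap R F π)⁻¹ ∉ V₂)
    (hmax₁ : ∀ x ∈ V₁, x⁻¹ ∉ V₁ → (algebraMap R F π)⁻¹ * x ∈ V₁)
    (hmax₂ : ∀ x ∈ V₂, x⁻¹ ∉ V₂ → (algebraMap R F π)⁻¹ * x ∈ V₂)
    (hsat : ∀ x ∈ B, (algebraMap R F π)⁻¹ * x ∈ V₁ → (algebraMap R F π)⁻¹ * x ∈ V₂ →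
      (algebraMap R F π)⁻¹ * x ∈ B)
    (hBr₁ : ∀ n : Ideal B, n.IsMaximal → algebraMap R B π ∈ n →
      (∀ x : B, (algebraMap R F π)⁻¹ * (x : F) ∈ V₁ → x ∈ n) →
      ∃ t : B, t ∈ n ∧ ∀ x ∈ n, ∃ s : B, s ∉ n ∧ ∃ a : B,
        (algebraMap R F π)⁻¹ * ((s : F) * x - a * t) ∈ V₁)
    (hBr₂ : ∀ n : Ideal B, n.IsMaximal → algebraMap R B π ∈ n →
      (∀ x : B, (algebraMap R F π)⁻¹ * (x : F) ∈ V₂ → x ∈ n) →
      ∃ t : B, t ∈ n ∧ ∀ x ∈ n, ∃ s : B, s ∉ n ∧ ∃ a : B,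
        (algebraMap R F π)⁻¹ * ((s : F) * x - a * t) ∈ V₂)
    (hNode : ∀ n : Ideal B, n.IsMaximal → algebraMap R B π ∈ n →
      (∀ x : B, (algebraMap R F π)⁻¹ * (x : F) ∈ V₁ → x ∈ n) →
      (∀ x : B, (algebraMap R F π)⁻¹ * (x : F) ∈ V₂ → x ∈ n) →
      (∀ x ∈ n, ∃ s : B, s ∉ n ∧ ∃ x₁ x₂ : B, (algebraMap R F π)⁻¹ * (x₁ : F) ∈ V₁ ∧
        (algebraMap R F π)⁻¹ * (x₂ : F) ∈ V₂ ∧ s * x = x₁ + x₂) ∧
      ∃ (U V : F) (e : ℕ) (sU sV c d : B), 1 ≤ e ∧ sU ∉ n ∧ sV ∉ n ∧ c ∉ n ∧ d ∉ n ∧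
        (sU : F) * U ∈ B ∧ (sV : F) * V ∈ B ∧
        (c : F) * (U * V) = algebraMap R F π ^ e * (d : F) ∧
        (algebraMap R F π)⁻¹ * U ∉ V₁ ∧ (algebraMap R F π)⁻¹ * V ∉ V₂) :
    s34i47_LocStr π B := by
  intro n hn hπn
  haveI hnp : n.IsPrime := hn.isPrime
  by_cases h1 : ∀ x : B, (algebraMap R F π)⁻¹ * (x : F) ∈ V₁ → x ∈ n
  · by_cases h2 : ∀ x : B, (algebraMap R F π)⁻¹ * (x : F) ∈ V₂ → x ∈ n
    · -- a point on both branches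
      obtain ⟨t₁, ht₁n, ht₁⟩ := hBr₁ n hn hπn h1
      obtain ⟨t₂, ht₂n, ht₂⟩ := hBr₂ n hn hπn h2
      obtain ⟨hNd, U, V, e, sU, sV, c, d, he, hsU, hsV, hc, hd, hU, hV, hUV, hU₁, hV₂⟩ :=
        hNode n hn hπn h1 h2
      obtain ⟨z, z', hz, hz', hgen, κ, s, s', hs, hs', hzz⟩ :=
        ls49_node B (algebraMap R B π) hp0 n hn hπn V₁ V₂ hB₁ hB₂ hp₁ hp₂ hmax₁ hmax₂ hsat
          h1 h2 t₁ ht₁n ht₁ t₂ ht₂n ht₂ hNd U V e he sU sV c d hsU hsV hc hd hU hV hUV hU₁ hV₂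
      exact ⟨z, z', hz, hz', hgen, Or.inr ⟨κ, s, s', hs, hs', hzz⟩⟩
    · -- only the first branch passes through `n`
      push Not at h2
      obtain ⟨y, hy₂, hy⟩ := h2
      obtain ⟨t, htn, ht⟩ := hBr₁ n hn hπn h1
      exact ⟨t, algebraMap R B π, htn, hπn,
        ls49_smooth B (algebraMap R B π) hp0 n V₁ V₂ hB₁ hB₂ hsat y hy hy₂ t ht, Or.inl rfl⟩
  · -- the first branch does not pass through `n`: then the second does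
    push Not at h1
    obtain ⟨y, hy₁, hy⟩ := h1
    have h2 : ∀ x : B, (algebraMap R F π)⁻¹ * (x : F) ∈ V₂ → x ∈ n := by
      intro x hx
      have hB' : (y : F) * (x : F) ∈ B := B.mul_mem y.2 x.2
      have hc := hsat _ hB'
        (by rw [← mul_assoc]; exact V₁.mul_mem _ _ hy₁ (hB₁ _ x.2))
        (by rw [mul_left_comm]; exact V₂.mul_mem _ _ (hB₂ _ y.2) hx)
      have e : y * x = algebraMap R B π * ⟨_, hc⟩ := by
        apply Subtype.ext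
        show (y : F) * (x : F) = algebraMap R F π * ((algebraMap R F π)⁻¹ * ((y : F) * (x : F)))
        rw [mul_inv_cancel_left₀ hp0]
      have hmem : y * x ∈ n := by rw [e]; exact n.mul_mem_right _ hπn
      exact (hnp.mem_or_mem hmem).resolve_left hy
    obtain ⟨t, htn, ht⟩ := hBr₂ n hn hπn h2
    exact ⟨t, algebraMap R B π, htn, hπn,
      ls49_smooth B (algebraMap R B π) hp0 n V₂ V₁ hB₂ hB₁
        (fun x hx h2 h1 => hsat x hx h1 h2) y hy hy₁ t ht, Or.inl rfl⟩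

end

end Fermat.Agent.S34
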