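import Mathlib
import Fermat.Agent.S34.LocStrW58

/-!
# S34 lab (helper58): `(LS′)` assembly, part b — the node hypothesis in its weakest form, and
non-maximality of the branches of a chart

`lsw58_locStrW` (LocStrW58) asks for `P₁ ⊄ P₂`, `P₂ ⊄ P₁`.  At the instance this is most easily
obtained from "the branches are not maximal ideals", which this file supplies abstractly.

* `lsw58b_locStrW` : `(LS′)` with the node hypothesis `n ≠ P₁`, `n ≠ P₂` at every maximal `n`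
  on both branches (implied by `P₁ ⊄ P₂ ∧ P₂ ⊄ P₁`, and by `¬ P₁.IsMaximal ∧ ¬ P₂.IsMaximal`);
* `lsw58b_not_unit_mod` : if `y` is integral over `R[g]` and the reduction of `g` modulo `π V`
  satisfies no polynomial relation with constant term `1` (hypothesis `hT`, a weak form of
  "`ḡ` is transcendental over the residue field of `R`"), then `g y ≢ 1` modulo `π V`;
* `lsw58b_branch_not_isMaximal` : hence the branch `B ∩ π V` of a chart `B` integral over
  `R[g]` is not a maximal ideal;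
* `lsw58b_exists_locStrW` : the conjunct of `s34i47d_FrameLSW` for one chart, valuation form,
  with the transcendence hypotheses `hT₁`, `hT₂` in place of the witnesses of
  `lsw58_exists_locStrW`.
-/

set_option autoImplicit false

namespace Fermat.Agent.S34

section ideal

variable {R F : Type*} [CommRing R] [Field F] [Algebra R F]

/-- **Assembly of `(LS′)`, ideal form, weakest node hypothesis.** -/
theorem lsw58b_locStrW (π : R) (B : Subalgebra R F) (P₁ P₂ : Ideal B)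
    [hP₁ : P₁.IsPrime] [hP₂ : P₂.IsPrime]
    (hcap : ∀ x : B, x ∈ P₁ → x ∈ P₂ → ∃ c : B, x = algebraMap R B π * c)
    (hnode : ∀ n : Ideal B, n.IsMaximal → P₁ ≤ n → P₂ ≤ n → n ≠ P₁ ∧ n ≠ P₂)
    (hu₁ : ∀ n : Ideal B, n.IsMaximal → P₁ ≤ n →
      ∃ z ∈ n, ∀ x ∈ n, ∃ s : B, s ∉ n ∧ ∃ a : B, s * x - a * z ∈ P₁)
    (hu₂ : ∀ n : Ideal B, n.IsMaximal → P₂ ≤ n →
      ∃ z ∈ n, ∀ x ∈ n, ∃ s : B, s ∉ n ∧ ∃ a : B, s * x - a * z ∈ P₂)
    (htr : ∀ n : Ideal B, n.IsMaximal → P₁ ≤ n → P₂ ≤ n →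
      ∀ x ∈ n, ∃ s : B, s ∉ n ∧ ∃ y ∈ P₁, ∃ y' ∈ P₂, s * x = y + y') :
    s34i47d_LocStrW π B P₁ P₂ := by
  intro n hn hπn
  have hnp : n.IsPrime := hn.isPrime
  have one : ∀ (P P' : Ideal B),
      (∀ x : B, x ∈ P → x ∈ P' → ∃ c : B, x = algebraMap R B π * c) →
      (∃ z ∈ n, ∀ x ∈ n, ∃ s : B, s ∉ n ∧ ∃ a : B, s * x - a * z ∈ P) → ¬ P' ≤ n →
      ∃ z z' : B, z ∈ n ∧ z' ∈ n ∧
        (∀ x ∈ n, ∃ s : B, s ∉ n ∧ ∃ a b c : B,
          s * x = a * z + b * z' + c * algebraMap R B π) ∧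
        z' = algebraMap R B π := by
    intro P P' hc hu hP'
    obtain ⟨y, hyP', hyn⟩ := Set.not_subset.mp hP'
    obtain ⟨z, hz, hunif⟩ := hu
    refine ⟨z, algebraMap R B π, hz, hπn, ?_, rfl⟩
    intro x hx
    obtain ⟨s, hs, a, ha⟩ := hunif x hx
    obtain ⟨c, hc'⟩ := hc (y * (s * x - a * z)) (P.mul_mem_left _ ha) (P'.mul_mem_right _ hyP')
    refine ⟨y * s, fun h => (hnp.mem_or_mem h).elim hyn hs, y * a, 0, c, ?_⟩
    linear_combination hc'
  by_cases h1 : P₁ ≤ n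
  · by_cases h2 : P₂ ≤ n
    · obtain ⟨hnP₁, hnP₂⟩ := hnode n hn h1 h2
      obtain ⟨z₀, hz₀, hun₂⟩ := hu₂ n hn h2
      obtain ⟨s₀, hs₀, y₀, hy₀, y₀', hy₀', e₀⟩ := htr n hn h1 h2 z₀ hz₀
      have hzu : ∀ x ∈ n, ∃ s : B, s ∉ n ∧ ∃ a : B, s * x - a * y₀ ∈ P₂ := by
        intro x hx
        obtain ⟨s, hs, a, ha⟩ := hun₂ x hx
        refine ⟨s₀ * s, fun h => (hnp.mem_or_mem h).elim hs₀ hs, a, ?_⟩
        have e : s₀ * s * x - a * y₀ = s₀ * (s * x - a * z₀) + a * y₀' := by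
          linear_combination a * e₀
        rw [e]
        exact P₂.add_mem (P₂.mul_mem_left _ ha) (P₂.mul_mem_left _ hy₀')
      obtain ⟨z₁, hz₁, hun₁⟩ := hu₁ n hn h1
      obtain ⟨s₁, hs₁, y₁, hy₁, y₁', hy₁', e₁⟩ := htr n hn h1 h2 z₁ hz₁
      have hzu' : ∀ x ∈ n, ∃ s : B, s ∉ n ∧ ∃ a : B, s * x - a * y₁' ∈ P₁ := by
        intro x hx
        obtain ⟨s, hs, a, ha⟩ := hun₁ x hx
        refine ⟨s₁ * s, fun h => (hnp.mem_or_mem h).elim hs₁ hs, a, ?_⟩
        have e : s₁ * s * x - a * y₁' = s₁ * (s * x - a * z₁) + a * y₁ := by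
          linear_combination a * e₁
        rw [e]
        exact P₁.add_mem (P₁.mul_mem_left _ ha) (P₁.mul_mem_left _ hy₁)
      refine ⟨y₀, y₁', h1 hy₀, h2 hy₁', ?_, Or.inr ⟨h1, h2, hy₀, ?_, hy₁', ?_, ?_⟩⟩
      · intro x hx
        obtain ⟨s, hs, y, hy, y', hy', e⟩ := htr n hn h1 h2 x hx
        obtain ⟨t, ht, a, ha⟩ := hzu y (h1 hy)
        obtain ⟨t', ht', a', ha'⟩ := hzu' y' (h2 hy')
        obtain ⟨c, hc⟩ := hcap (t * y - a * y₀)
          (P₁.sub_mem (P₁.mul_mem_left _ hy) (P₁.mul_mem_left _ hy₀)) ha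
        obtain ⟨c', hc'⟩ := hcap (t' * y' - a' * y₁') ha'
          (P₂.sub_mem (P₂.mul_mem_left _ hy') (P₂.mul_mem_left _ hy₁'))
        refine ⟨t * t' * s, fun h => (hnp.mem_or_mem h).elim
          (fun h' => (hnp.mem_or_mem h').elim ht ht') hs, t' * a, t * a', t' * c + t * c', ?_⟩
        linear_combination t * t' * e + t' * hc + t * hc'
      · intro hz
        apply hnP₂
        refine le_antisymm ?_ h2
        intro x hx
        obtain ⟨s, hs, a, ha⟩ := hzu x hx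
        have h3 : s * x ∈ P₂ := by
          have e : s * x = (s * x - a * y₀) + a * y₀ := by ring
          rw [e]
          exact P₂.add_mem ha (P₂.mul_mem_left _ hz)
        exact (hP₂.mem_or_mem h3).resolve_left fun hs' => hs (h2 hs')
      · intro hz
        apply hnP₁
        refine le_antisymm ?_ h1
        intro x hx
        obtain ⟨s, hs, a, ha⟩ := hzu' x hx
        have h3 : s * x ∈ P₁ := by
          have e : s * x = (s * x - a * y₁') + a * y₁' := by ring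
          rw [e]
          exact P₁.add_mem ha (P₁.mul_mem_left _ hz)
        exact (hP₁.mem_or_mem h3).resolve_left fun hs' => hs (h1 hs')
      · exact hcap (y₀ * y₁') (P₁.mul_mem_right _ hy₀) (P₂.mul_mem_left _ hy₁')
    · obtain ⟨z, z', hz, hz', hgen, hzπ⟩ := one P₁ P₂ hcap (hu₁ n hn h1) h2
      exact ⟨z, z', hz, hz', hgen, Or.inl hzπ⟩
  · have h2 : P₂ ≤ n := by
      by_contra h2
      obtain ⟨y₁, hy₁, hy₁n⟩ := Set.not_subset.mp h1
      obtain ⟨y₂, hy₂, hy₂n⟩ := Set.not_subset.mp h2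
      obtain ⟨c, hc⟩ := hcap (y₁ * y₂) (P₁.mul_mem_right _ hy₁) (P₂.mul_mem_left _ hy₂)
      have h3 : y₁ * y₂ ∈ n := by
        rw [hc]
        exact n.mul_mem_right _ hπn
      exact (hnp.mem_or_mem h3).elim hy₁n hy₂n
    obtain ⟨z, z', hz, hz', hgen, hzπ⟩ :=
      one P₂ P₁ (fun x hx₂ hx₁ => hcap x hx₁ hx₂) (hu₂ n hn h2) h1
    exact ⟨z, z', hz, hz', hgen, Or.inl hzπ⟩

/-! ### The branches of a chart are not maximal ideals -/

/-- Polynomials in `g` with coefficients in `R` lie in `V`. -/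
theorem lsw58b_aeval_mem (V : Subring F) (hRV : ∀ r : R, algebraMap R F r ∈ V) (g : F)
    (hgV : g ∈ V) (P : Polynomial R) : Polynomial.aeval g P ∈ V := by
  rw [Polynomial.aeval_eq_sum_range]
  refine V.sum_mem fun i _ => ?_
  rw [Algebra.smul_def]
  exact V.mul_mem (hRV _) (V.pow_mem hgV i)

/-- If `y` is integral over `R[g]` and the reduction of `g` modulo `π V` satisfies no polynomial
relation over `R` with constant term `1`, then `g y ≢ 1` modulo `π V`. -/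
theorem lsw58b_not_unit_mod (π : R) (hπ : ¬ IsUnit π) (V : Subring F)
    (hRV : ∀ r : R, algebraMap R F r ∈ V) (g : F) (hgV : g ∈ V)
    (hT : ∀ P : Polynomial R, (algebraMap R F π)⁻¹ * Polynomial.aeval g P ∈ V → π ∣ P.coeff 0)
    (y : F) (hyV : y ∈ V) (hy : IsIntegral (Algebra.adjoin R ({g} : Set F)) y) :
    (algebraMap R F π)⁻¹ * (g * y - 1) ∉ V := by
  intro hcon
  obtain ⟨p, hpm, hpy⟩ := hy
  set n := p.natDegree with hn
  -- the coefficients as polynomials in `g`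
  have key : ∀ x : F, x ∈ Algebra.adjoin R ({g} : Set F) →
      ∃ a : Polynomial R, Polynomial.aeval g a = x := by
    intro x hx
    rw [Algebra.adjoin_singleton_eq_range_aeval] at hx
    exact hx
  have hc : ∀ i : ℕ, ∃ a : Polynomial R, Polynomial.aeval g a = ((p.coeff i : Algebra.adjoin R
      ({g} : Set F)) : F) := fun i => key _ (p.coeff i).2
  choose a ha using hc
  set t : F := g * y with ht
  have htV : t ∈ V := V.mul_mem hgV hyV
  -- `t ^ i ≡ 1`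
  have hpow : ∀ i : ℕ, (algebraMap R F π)⁻¹ * (t ^ i - 1) ∈ V := by
    intro i
    induction i with
    | zero => simp [V.zero_mem]
    | succ i ih =>
      have e : (algebraMap R F π)⁻¹ * (t ^ (i + 1) - 1) =
          t * ((algebraMap R F π)⁻¹ * (t ^ i - 1)) + (algebraMap R F π)⁻¹ * (t - 1) := by
        ring
      rw [e]
      exact V.add_mem (V.mul_mem htV ih) hcon
  -- the relation, multiplied by `g ^ n`
  have hrel : t ^ n + ∑ i ∈ Finset.range n, Polynomial.aeval g (a i) * g ^ (n - i) * t ^ i = 0 := by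
    have h1 : Polynomial.eval₂ (algebraMap (Algebra.adjoin R ({g} : Set F)) F) y p = 0 := hpy
    rw [Polynomial.eval₂_eq_sum_range, Finset.sum_range_succ] at h1
    have h2 : ((p.coeff n : Algebra.adjoin R ({g} : Set F)) : F) = 1 := by
      have : p.coeff n = 1 := hpm
      rw [this]
      rfl
    have h3 : (algebraMap (Algebra.adjoin R ({g} : Set F)) F) (p.coeff p.natDegree) = 1 := h2
    rw [h3, one_mul] at h1
    have h4 : t ^ n + ∑ i ∈ Finset.range n, Polynomial.aeval g (a i) * g ^ (n - i) * t ^ i =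
        g ^ n * (∑ i ∈ Finset.range n,
          (algebraMap (Algebra.adjoin R ({g} : Set F)) F) (p.coeff i) * y ^ i + y ^ n) := by
      rw [mul_add, Finset.mul_sum, ht, mul_pow, add_comm]
      congr 1
      refine Finset.sum_congr rfl fun i hi => ?_
      rw [Finset.mem_range] at hi
      rw [ha i, mul_pow]
      have e : g ^ n = g ^ (n - i) * g ^ i := by
        rw [← pow_add, Nat.sub_add_cancel hi.le]
      rw [e]
      show _ = _ * (((p.coeff i : Algebra.adjoin R ({g} : Set F)) : F) * y ^ i)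
      ring
    rw [h4, h1, mul_zero]
  -- the polynomial `P = 1 + ∑ a_i X ^ (n - i)`
  set P : Polynomial R := 1 + ∑ i ∈ Finset.range n, a i * Polynomial.X ^ (n - i) with hP
  have hPeval : Polynomial.aeval g P =
      1 + ∑ i ∈ Finset.range n, Polynomial.aeval g (a i) * g ^ (n - i) := by
    rw [hP, map_add, map_one, map_sum]
    congr 1
    refine Finset.sum_congr rfl fun i _ => ?_
    rw [map_mul, map_pow, Polynomial.aeval_X]
  have hPcoeff : P.coeff 0 = 1 := by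
    rw [hP, Polynomial.coeff_add, Polynomial.coeff_one_zero, Polynomial.finsetSum_coeff]
    rw [Finset.sum_eq_zero, add_zero]
    intro i hi
    rw [Finset.mem_range] at hi
    rw [Polynomial.coeff_mul_X_pow']
    rw [if_neg (by omega)]
  have hPV : (algebraMap R F π)⁻¹ * Polynomial.aeval g P ∈ V := by
    have e : (algebraMap R F π)⁻¹ * Polynomial.aeval g P =
        -((algebraMap R F π)⁻¹ * (t ^ n - 1) +
          ∑ i ∈ Finset.range n, Polynomial.aeval g (a i) * g ^ (n - i) *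
            ((algebraMap R F π)⁻¹ * (t ^ i - 1))) := by
      rw [hPeval]
      have e1 : ∑ i ∈ Finset.range n, Polynomial.aeval g (a i) * g ^ (n - i) *
            ((algebraMap R F π)⁻¹ * (t ^ i - 1)) =
          (algebraMap R F π)⁻¹ * (∑ i ∈ Finset.range n,
              Polynomial.aeval g (a i) * g ^ (n - i) * t ^ i -
            ∑ i ∈ Finset.range n, Polynomial.aeval g (a i) * g ^ (n - i)) := by
        rw [← Finset.sum_sub_distrib, Finset.mul_sum]
        refine Finset.sum_congr rfl fun i _ => ?_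
        ring
      rw [e1]
      have e2 : ∑ i ∈ Finset.range n, Polynomial.aeval g (a i) * g ^ (n - i) * t ^ i = -t ^ n := by
        linear_combination hrel
      rw [e2]
      ring
    rw [e]
    refine V.neg_mem (V.add_mem (hpow n) (V.sum_mem fun i _ => ?_))
    exact V.mul_mem (V.mul_mem (lsw58b_aeval_mem V hRV g hgV (a i)) (V.pow_mem hgV _)) (hpow i)
  have hdvd := hT P hPV
  rw [hPcoeff] at hdvd
  exact hπ (isUnit_of_dvd_one hdvd)

/-- The branch `B ∩ π V` of a chart `B` integral over `R[g]` (`g` a unit of `V` whose reduction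
satisfies `hT`) is not a maximal ideal. -/
theorem lsw58b_branch_not_isMaximal (π : R) (hπ : ¬ IsUnit π) (B : Subalgebra R F)
    (V : Subring F) (hBV : ∀ x ∈ B, x ∈ V) (hπV : (algebraMap R F π)⁻¹ ∉ V)
    (g : F) (hg0 : g ≠ 0) (hgB : g ∈ B) (hginv : g⁻¹ ∈ V)
    (hint : ∀ y ∈ B, IsIntegral (Algebra.adjoin R ({g} : Set F)) y)
    (hT : ∀ P : Polynomial R, (algebraMap R F π)⁻¹ * Polynomial.aeval g P ∈ V → π ∣ P.coeff 0) :
    ¬ (lsw58_branch π B V hBV).IsMaximal := by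
  intro hmax
  have hRV : ∀ r : R, algebraMap R F r ∈ V := fun r => hBV _ (B.algebraMap_mem r)
  have hgnot : (⟨g, hgB⟩ : B) ∉ lsw58_branch π B V hBV := by
    intro hmem
    have h1 : (algebraMap R F π)⁻¹ * g ∈ V := hmem
    apply hπV
    have e : (algebraMap R F π)⁻¹ = (algebraMap R F π)⁻¹ * g * g⁻¹ := by
      rw [mul_assoc, mul_inv_cancel₀ hg0, mul_one]
    rw [e]
    exact V.mul_mem h1 hginv
  obtain ⟨y, i, hi, hyi⟩ := hmax.exists_inv hgnot
  have h2 : (algebraMap R F π)⁻¹ * ((i : B) : F) ∈ V := hi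
  have h3 : ((y * ⟨g, hgB⟩ + i : B) : F) = 1 := by rw [hyi]; rfl
  have h4 : g * (y : F) - 1 = -((i : B) : F) := by
    have : (y : F) * g + (i : F) = 1 := by simpa using h3
    linear_combination this
  apply lsw58b_not_unit_mod π hπ V hRV g (hBV _ hgB) hT (y : F) (hBV _ y.2) (hint _ y.2)
  rw [h4, mul_neg]
  exact V.neg_mem h2

/-- **The conjunct of `s34i47d_FrameLSW` for one chart**, valuation form, with the branches
known to be non-maximal through the chart coordinate `g` (`B` integral over `R[g]`, `g` a unit of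
`V₁` and `V₂` whose reductions satisfy `hT₁`, `hT₂`). -/
theorem lsw58b_exists_locStrW (π : R) (hπ0 : algebraMap R F π ≠ 0) (hπ : ¬ IsUnit π)
    (B : Subalgebra R F)
    (V₁ V₂ : Subring F) (hB₁ : ∀ x ∈ B, x ∈ V₁) (hB₂ : ∀ x ∈ B, x ∈ V₂)
    (hπV₁ : (algebraMap R F π)⁻¹ ∉ V₁) (hπV₂ : (algebraMap R F π)⁻¹ ∉ V₂)
    (hV₁ : ∀ x ∈ V₁, (algebraMap R F π)⁻¹ * x ∉ V₁ → x⁻¹ ∈ V₁)
    (hV₂ : ∀ x ∈ V₂, (algebraMap R F π)⁻¹ * x ∉ V₂ → x⁻¹ ∈ V₂)
    (hsat : ∀ x ∈ B, (algebraMap R F π)⁻¹ * x ∈ V₁ → (algebraMap R F π)⁻¹ * x ∈ V₂ →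
      (algebraMap R F π)⁻¹ * x ∈ B)
    (g : F) (hg0 : g ≠ 0) (hgB : g ∈ B) (hg₁ : g⁻¹ ∈ V₁) (hg₂ : g⁻¹ ∈ V₂)
    (hint : ∀ y ∈ B, IsIntegral (Algebra.adjoin R ({g} : Set F)) y)
    (hT₁ : ∀ P : Polynomial R,
      (algebraMap R F π)⁻¹ * Polynomial.aeval g P ∈ V₁ → π ∣ P.coeff 0)
    (hT₂ : ∀ P : Polynomial R,
      (algebraMap R F π)⁻¹ * Polynomial.aeval g P ∈ V₂ → π ∣ P.coeff 0)
    (hu₁ : ∀ n : Ideal B, n.IsMaximal → algebraMap R B π ∈ n →
      (∀ x : B, (algebraMap R F π)⁻¹ * (x : F) ∈ V₁ → x ∈ n) →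
      ∃ z : B, z ∈ n ∧ ∀ x ∈ n, ∃ s : B, s ∉ n ∧ ∃ a : B,
        (algebraMap R F π)⁻¹ * ((s * x - a * z : B) : F) ∈ V₁)
    (hu₂ : ∀ n : Ideal B, n.IsMaximal → algebraMap R B π ∈ n →
      (∀ x : B, (algebraMap R F π)⁻¹ * (x : F) ∈ V₂ → x ∈ n) →
      ∃ z : B, z ∈ n ∧ ∀ x ∈ n, ∃ s : B, s ∉ n ∧ ∃ a : B,
        (algebraMap R F π)⁻¹ * ((s * x - a * z : B) : F) ∈ V₂)
    (htr : ∀ n : Ideal B, n.IsMaximal → algebraMap R B π ∈ n →
      (∀ x : B, (algebraMap R F π)⁻¹ * (x : F) ∈ V₁ → x ∈ n) →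
      (∀ x : B, (algebraMap R F π)⁻¹ * (x : F) ∈ V₂ → x ∈ n) →
      ∀ x ∈ n, ∃ s : B, s ∉ n ∧ ∃ y y' : B, s * x = y + y' ∧
        (algebraMap R F π)⁻¹ * (y : F) ∈ V₁ ∧ (algebraMap R F π)⁻¹ * (y' : F) ∈ V₂) :
    ∃ P₁ P₂ : Ideal B, P₁.IsPrime ∧ P₂.IsPrime ∧ algebraMap R B π ∈ P₁ ∧
      algebraMap R B π ∈ P₂ ∧ s34i47d_LocStrW π B P₁ P₂ := by
  have hp₁ := lsw58_branch_isPrime π B V₁ hB₁ hπV₁ hV₁
  have hp₂ := lsw58_branch_isPrime π B V₂ hB₂ hπV₂ hV₂
  have hπ₁ := lsw58_pi_mem_branch π hπ0 B V₁ hB₁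
  have hπ₂ := lsw58_pi_mem_branch π hπ0 B V₂ hB₂
  have hnm₁ := lsw58b_branch_not_isMaximal π hπ B V₁ hB₁ hπV₁ g hg0 hgB hg₁ hint hT₁
  have hnm₂ := lsw58b_branch_not_isMaximal π hπ B V₂ hB₂ hπV₂ g hg0 hgB hg₂ hint hT₂
  refine ⟨lsw58_branch π B V₁ hB₁, lsw58_branch π B V₂ hB₂, hp₁, hp₂, hπ₁, hπ₂, ?_⟩
  refine lsw58b_locStrW π B _ _ ?_ ?_ ?_ ?_ ?_
  · intro x hx₁ hx₂
    have h3 := hsat _ x.2 hx₁ hx₂
    refine ⟨⟨_, h3⟩, ?_⟩
    apply Subtype.ext
    show (x : F) = algebraMap R F π * ((algebraMap R F π)⁻¹ * (x : F))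
    rw [mul_inv_cancel_left₀ hπ0]
  · intro n hn _ _
    exact ⟨fun h => hnm₁ (h ▸ hn), fun h => hnm₂ (h ▸ hn)⟩
  · intro n hn hle
    exact hu₁ n hn (hle hπ₁) fun x hx => hle hx
  · intro n hn hle
    exact hu₂ n hn (hle hπ₂) fun x hx => hle hx
  · intro n hn hle₁ hle₂ x hx
    obtain ⟨s, hs, y, y', e, hy, hy'⟩ :=
      htr n hn (hle₁ hπ₁) (fun x hx => hle₁ hx) (fun x hx => hle₂ hx) x hx
    exact ⟨s, hs, y, hy, y', hy', e⟩

end ideal

end Fermat.Agent.S34
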