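import Mathlib
import Fermat.Agent.S34.Iface47d

/-!
# S34 lab (helper77, TWIN of row 516): the weak local structure `(LS′)` of a chart from its
two branches

`s34i47d_LocStrW π B P₁ P₂` (Iface47d, helper47; the second route, without exact node
equations) asks, at every maximal ideal `n ∋ π` of the chart `B`, for `z z' ∈ n` with
`n B_n = (z, z', π)` and EITHER `z' = π` OR [`P₁, P₂ ≤ n`, `z ∈ P₁ ∖ P₂`, `z' ∈ P₂ ∖ P₁`,
`z z' ∈ π B`].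

This file proves it (Mathlib + Iface47d only) from the branch data, all elementwise and
denominator-free (no localisation type):

* `hcap` : saturation, `P₁ ⊓ P₂ ⊆ π B`;
* `hu₁`, `hu₂` : a uniformiser of each branch at every closed point of that branch (output of
  (3a): the branch `B ⧸ Pᵢ` is a Dedekind domain);
* `htr`  : transversality at the points on both branches, `n B_n = P₁ B_n + P₂ B_n` (output of
  (3b));
* the two branches are different at the nodes (`¬ P₁ ≤ P₂`, `¬ P₂ ≤ P₁`; or `P₁`, `P₂` are not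
  maximal; or pointwise `n ≠ Pᵢ`).

Contents:

* Part I (any commutative ring): `lsw77_smooth`, `lsw77_node`, `lsw77_point`,
  `lsw77_le_or_le`, `lsw77_unif_of_dedekind`.
* Part II (literal Iface47d): `lsw77_locStrW_core` (pointwise `n ≠ Pᵢ` form),
  `lsw77_locStrW` (the statement of row 516, hypotheses `¬ P₁ ≤ P₂`, `¬ P₂ ≤ P₁`),
  `lsw77_locStrW_of_not_max`, `lsw77_locStrW_of_dedekind`.
* Part III (V-form: `Pᵢ = {x ∈ B | π⁻¹ x ∈ Vᵢ}` for two valuation-like overrings `V₁ V₂` of `B`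
  in `F`, with `B` saturated in `V₁ ⊓ V₂`): `lsw77_branch` (the branch ideal),
  `lsw77_branch_isPrime`, `lsw77_pi_mem_branch`, `lsw77_cap`, and `lsw77_chart` =
  ONE conjunct of `s34i47d_FrameLSW` literally
  (`∃ P₁ P₂, P₁.IsPrime ∧ P₂.IsPrime ∧ π ∈ P₁ ∧ π ∈ P₂ ∧ s34i47d_LocStrW π B P₁ P₂`);
  `lsw77_chart_of_dedekind` (branch uniformisers from Dedekind quotients).

All names are prefixed `lsw77_`.
-/

set_option autoImplicit false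

namespace Fermat.Agent.S34

/-! ## Part I: a commutative ring with two branches -/

section lsw77_ring

variable {B : Type*} [CommRing B]

/-- A prime containing `p` contains one of two ideals whose intersection lies in `(p)`. -/
theorem lsw77_le_or_le (p : B) (P₁ P₂ : Ideal B)
    (hcap : ∀ x, x ∈ P₁ → x ∈ P₂ → ∃ c, x = p * c)
    (n : Ideal B) [hn : n.IsPrime] (hpn : p ∈ n) : P₁ ≤ n ∨ P₂ ≤ n := by
  by_contra hcon
  rw [not_or] at hcon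
  obtain ⟨h1, h2⟩ := hcon
  obtain ⟨t₁, ht₁, ht₁n⟩ := SetLike.not_le_iff_exists.mp h1
  obtain ⟨t₂, ht₂, ht₂n⟩ := SetLike.not_le_iff_exists.mp h2
  obtain ⟨c, hc⟩ := hcap (t₁ * t₂) (P₁.mul_mem_right _ ht₁) (P₂.mul_mem_left _ ht₂)
  have h3 : t₁ * t₂ ∈ n := by rw [hc]; exact n.mul_mem_right _ hpn
  exact (hn.mem_or_mem h3).elim ht₁n ht₂n

/-- **One-branch points**: at a prime `n` off the branch `Q` (witness `t ∈ Q ∖ n`), a
uniformiser `z` of the branch `P` at `n` and `p` generate `n B_n`. -/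
theorem lsw77_smooth (p : B) (P Q : Ideal B)
    (hcap : ∀ x, x ∈ P → x ∈ Q → ∃ c, x = p * c)
    (n : Ideal B) [hn : n.IsPrime] (t : B) (htQ : t ∈ Q) (htn : t ∉ n) (z : B)
    (hu : ∀ x ∈ n, ∃ s : B, s ∉ n ∧ ∃ a : B, s * x - a * z ∈ P) :
    ∀ x ∈ n, ∃ s : B, s ∉ n ∧ ∃ a b c : B, s * x = a * z + b * p + c * p := by
  intro x hx
  obtain ⟨s, hs, a, ha⟩ := hu x hx
  obtain ⟨c, hc⟩ := hcap (t * (s * x - a * z)) (P.mul_mem_left _ ha) (Q.mul_mem_right _ htQ)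
  refine ⟨t * s, fun h => (hn.mem_or_mem h).elim htn hs, t * a, 0, c, ?_⟩
  linear_combination hc

/-- **Two-branch points**: at a prime `n` on both branches, from a uniformiser of each branch at
`n` and transversality `n B_n = P₁ B_n + P₂ B_n` one gets coordinates `z ∈ P₁ ∖ P₂`,
`z' ∈ P₂ ∖ P₁` with `n B_n = (z, z', p)` and `z z' ∈ p B`. -/
theorem lsw77_node (p : B) (P₁ P₂ : Ideal B) [h₁ : P₁.IsPrime] [h₂ : P₂.IsPrime]
    (hcap : ∀ x, x ∈ P₁ → x ∈ P₂ → ∃ c, x = p * c)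
    (n : Ideal B) [hn : n.IsPrime] (hP₁ : P₁ ≤ n) (hP₂ : P₂ ≤ n)
    (hu₁ : ∃ z ∈ n, ∀ x ∈ n, ∃ s : B, s ∉ n ∧ ∃ a : B, s * x - a * z ∈ P₁)
    (hu₂ : ∃ z ∈ n, ∀ x ∈ n, ∃ s : B, s ∉ n ∧ ∃ a : B, s * x - a * z ∈ P₂)
    (htr : ∀ x ∈ n, ∃ s : B, s ∉ n ∧ ∃ y ∈ P₁, ∃ y' ∈ P₂, s * x = y + y')
    (hn₁ : P₁ ≠ n) (hn₂ : P₂ ≠ n) :
    ∃ z z' : B, z ∈ n ∧ z' ∈ n ∧
      (∀ x ∈ n, ∃ s : B, s ∉ n ∧ ∃ a b c : B, s * x = a * z + b * z' + c * p) ∧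
      (P₁ ≤ n ∧ P₂ ≤ n ∧ z ∈ P₁ ∧ z ∉ P₂ ∧ z' ∈ P₂ ∧ z' ∉ P₁ ∧ ∃ c : B, z * z' = p * c) := by
  obtain ⟨w', hw', hu₁⟩ := hu₁
  obtain ⟨w, hw, hu₂⟩ := hu₂
  -- split the two uniformisers along `n B_n = P₁ B_n + P₂ B_n`
  obtain ⟨s₀, hs₀, z, hz, y', hy', e₀⟩ := htr w hw
  obtain ⟨s₀', hs₀', y, hy, z', hz', e₀'⟩ := htr w' hw'
  -- `z ∈ P₁` is a uniformiser of the branch `P₂`
  have hz2 : ∀ x ∈ n, ∃ s : B, s ∉ n ∧ ∃ a : B, s * x - a * z ∈ P₂ := by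
    intro x hx
    obtain ⟨s, hs, a, ha⟩ := hu₂ x hx
    refine ⟨s₀ * s, fun h => (hn.mem_or_mem h).elim hs₀ hs, a, ?_⟩
    have e : s₀ * s * x - a * z = s₀ * (s * x - a * w) + a * y' := by
      linear_combination a * e₀
    rw [e]
    exact P₂.add_mem (P₂.mul_mem_left _ ha) (P₂.mul_mem_left _ hy')
  -- `z' ∈ P₂` is a uniformiser of the branch `P₁`
  have hz1 : ∀ x ∈ n, ∃ s : B, s ∉ n ∧ ∃ a : B, s * x - a * z' ∈ P₁ := by
    intro x hx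
    obtain ⟨s, hs, a, ha⟩ := hu₁ x hx
    refine ⟨s₀' * s, fun h => (hn.mem_or_mem h).elim hs₀' hs, a, ?_⟩
    have e : s₀' * s * x - a * z' = s₀' * (s * x - a * w') + a * y := by
      linear_combination a * e₀'
    rw [e]
    exact P₁.add_mem (P₁.mul_mem_left _ ha) (P₁.mul_mem_left _ hy)
  refine ⟨z, z', hP₁ hz, hP₂ hz', ?_, hP₁, hP₂, hz, ?_, hz', ?_, ?_⟩
  · -- generation
    intro x hx
    obtain ⟨s, hs, y₁, hy₁, y₂, hy₂, e⟩ := htr x hx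
    obtain ⟨s₂, hs₂, a₂, ha₂⟩ := hz2 y₁ (hP₁ hy₁)
    obtain ⟨s₁, hs₁, a₁, ha₁⟩ := hz1 y₂ (hP₂ hy₂)
    obtain ⟨c₂, hc₂⟩ := hcap (s₂ * y₁ - a₂ * z)
      (P₁.sub_mem (P₁.mul_mem_left _ hy₁) (P₁.mul_mem_left _ hz)) ha₂
    obtain ⟨c₁, hc₁⟩ := hcap (s₁ * y₂ - a₁ * z') ha₁
      (P₂.sub_mem (P₂.mul_mem_left _ hy₂) (P₂.mul_mem_left _ hz'))
    refine ⟨s₁ * s₂ * s, fun h => (hn.mem_or_mem h).elim
      (fun h => (hn.mem_or_mem h).elim hs₁ hs₂) hs, s₁ * a₂, s₂ * a₁, s₁ * c₂ + s₂ * c₁, ?_⟩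
    linear_combination (s₁ * s₂) * e + s₁ * hc₂ + s₂ * hc₁
  · -- `z ∉ P₂`, otherwise `n = P₂`
    intro hzP
    apply hn₂
    refine le_antisymm hP₂ fun x hx => ?_
    obtain ⟨s, hs, a, ha⟩ := hz2 x hx
    have h3 : s * x ∈ P₂ := by
      have := P₂.add_mem ha (P₂.mul_mem_left a hzP)
      simpa using this
    exact (h₂.mem_or_mem h3).resolve_left fun h => hs (hP₂ h)
  · -- `z' ∉ P₁`, otherwise `n = P₁`
    intro hzP
    apply hn₁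
    refine le_antisymm hP₁ fun x hx => ?_
    obtain ⟨s, hs, a, ha⟩ := hz1 x hx
    have h3 : s * x ∈ P₁ := by
      have := P₁.add_mem ha (P₁.mul_mem_left a hzP)
      simpa using this
    exact (h₁.mem_or_mem h3).resolve_left fun h => hs (hP₁ h)
  · exact hcap (z * z') (P₁.mul_mem_right _ hz) (P₂.mul_mem_left _ hz')

/-- **The weak local structure at one closed point** `n ∋ p`. -/
theorem lsw77_point (p : B) (P₁ P₂ : Ideal B) [h₁ : P₁.IsPrime] [h₂ : P₂.IsPrime]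
    (hcap : ∀ x, x ∈ P₁ → x ∈ P₂ → ∃ c, x = p * c)
    (n : Ideal B) [hn : n.IsPrime] (hpn : p ∈ n)
    (hu₁ : P₁ ≤ n → ∃ z ∈ n, ∀ x ∈ n, ∃ s : B, s ∉ n ∧ ∃ a : B, s * x - a * z ∈ P₁)
    (hu₂ : P₂ ≤ n → ∃ z ∈ n, ∀ x ∈ n, ∃ s : B, s ∉ n ∧ ∃ a : B, s * x - a * z ∈ P₂)
    (htr : P₁ ≤ n → P₂ ≤ n → ∀ x ∈ n, ∃ s : B, s ∉ n ∧ ∃ y ∈ P₁, ∃ y' ∈ P₂, s * x = y + y')
    (hnd : P₁ ≤ n → P₂ ≤ n → P₁ ≠ n ∧ P₂ ≠ n) :
    ∃ z z' : B, z ∈ n ∧ z' ∈ n ∧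
      (∀ x ∈ n, ∃ s : B, s ∉ n ∧ ∃ a b c : B, s * x = a * z + b * z' + c * p) ∧
      (z' = p ∨ (P₁ ≤ n ∧ P₂ ≤ n ∧ z ∈ P₁ ∧ z ∉ P₂ ∧ z' ∈ P₂ ∧ z' ∉ P₁ ∧
        ∃ c : B, z * z' = p * c)) := by
  by_cases hP₁ : P₁ ≤ n
  · by_cases hP₂ : P₂ ≤ n
    · obtain ⟨z, z', hz, hz', hgen, hnode⟩ := lsw77_node p P₁ P₂ hcap n hP₁ hP₂ (hu₁ hP₁)
        (hu₂ hP₂) (htr hP₁ hP₂) (hnd hP₁ hP₂).1 (hnd hP₁ hP₂).2
      exact ⟨z, z', hz, hz', hgen, Or.inr hnode⟩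
    · obtain ⟨t, ht, htn⟩ := SetLike.not_le_iff_exists.mp hP₂
      obtain ⟨z, hz, hu⟩ := hu₁ hP₁
      exact ⟨z, p, hz, hpn, lsw77_smooth p P₁ P₂ hcap n t ht htn z hu, Or.inl rfl⟩
  · have hP₂ : P₂ ≤ n := (lsw77_le_or_le p P₁ P₂ hcap n hpn).resolve_left hP₁
    obtain ⟨t, ht, htn⟩ := SetLike.not_le_iff_exists.mp hP₁
    obtain ⟨z, hz, hu⟩ := hu₂ hP₂
    exact ⟨z, p, hz, hpn,
      lsw77_smooth p P₂ P₁ (fun x hx₂ hx₁ => hcap x hx₁ hx₂) n t ht htn z hu, Or.inl rfl⟩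

/-- A Dedekind quotient `B ⧸ P` has a uniformiser at every prime `n ⊇ P`, in the elementwise,
denominator-free form: `∃ z ∈ n, ∀ x ∈ n, ∃ s ∉ n, ∃ a, s x - a z ∈ P`. -/
theorem lsw77_unif_of_dedekind (P : Ideal B) [IsDedekindDomain (B ⧸ P)]
    (n : Ideal B) [hn : n.IsPrime] (hPn : P ≤ n) :
    ∃ z ∈ n, ∀ x ∈ n, ∃ s : B, s ∉ n ∧ ∃ a : B, s * x - a * z ∈ P := by
  classical
  set f := Ideal.Quotient.mk P with hf
  have hsurj : Function.Surjective f := Ideal.Quotient.mk_surjective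
  -- `x ∈ n ↔ f x ∈ n.map f`
  have hmem : ∀ x : B, f x ∈ n.map f ↔ x ∈ n := by
    intro x
    refine ⟨fun hx => ?_, fun hx => Ideal.mem_map_of_mem _ hx⟩
    obtain ⟨y, hy, hyx⟩ := (Ideal.mem_map_iff_of_surjective f hsurj).mp hx
    have h1 : x - y ∈ P := by
      rw [← Ideal.Quotient.eq_zero_iff_mem, map_sub]
      exact sub_eq_zero.mpr hyx.symm
    have h2 : x = (x - y) + y := by ring
    rw [h2]
    exact n.add_mem (hPn h1) hy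
  have hprime : (n.map f).IsPrime := by
    refine Ideal.map_isPrime_of_surjective hsurj ?_
    rw [hf, Ideal.mk_ker]
    exact hPn
  by_cases hbot : n.map f = ⊥
  · -- `n = P`: the uniformiser is `0`
    refine ⟨0, n.zero_mem, fun x hx => ⟨1, fun h => hn.ne_top ((Ideal.eq_top_iff_one _).mpr h),
      0, ?_⟩⟩
    have hx0 : f x = 0 := by
      have h1 : f x ∈ n.map f := (hmem x).mpr hx
      rw [hbot] at h1
      exact h1
    have h2 : x ∈ P := Ideal.Quotient.eq_zero_iff_mem.mp hx0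
    simpa using h2
  · -- an element of `n.map f` outside its square
    have hlt : (n.map f) ^ 2 < n.map f :=
      Ideal.pow_lt_self (n.map f) hbot hprime.ne_top 2 le_rfl
    obtain ⟨zbar, hz1, hz2⟩ := SetLike.exists_of_lt hlt
    obtain ⟨z, rfl⟩ := hsurj zbar
    -- `(f z) = n.map f * I` with `I` not contained in `n.map f`
    obtain ⟨I, hI⟩ : n.map f ∣ Ideal.span {f z} :=
      Ideal.dvd_iff_le.mpr ((Ideal.span_singleton_le_iff_mem _).mpr hz1)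
    have hInot : ¬ I ≤ n.map f := by
      intro hle
      apply hz2
      have h1 : f z ∈ Ideal.span {f z} := Ideal.mem_span_singleton_self _
      rw [hI] at h1
      rw [pow_two]
      exact Ideal.mul_mono_right hle h1
    obtain ⟨sbar, hsI, hsn⟩ := SetLike.not_le_iff_exists.mp hInot
    obtain ⟨s, rfl⟩ := hsurj sbar
    refine ⟨z, (hmem z).mp hz1, fun x hx => ⟨s, fun h => hsn ((hmem s).mpr h), ?_⟩⟩
    have hsx : f s * f x ∈ Ideal.span {f z} := by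
      rw [hI, mul_comm (f s)]
      exact Ideal.mul_mem_mul ((hmem x).mpr hx) hsI
    obtain ⟨abar, ha⟩ := Ideal.mem_span_singleton'.mp hsx
    obtain ⟨a, rfl⟩ := hsurj abar
    refine ⟨a, ?_⟩
    rw [← Ideal.Quotient.eq_zero_iff_mem]
    show f (s * x - a * z) = 0
    rw [map_sub, map_mul, map_mul, ha, sub_self]

end lsw77_ring

/-! ## Part II: the literal `s34i47d_LocStrW` -/

section lsw77_iface

variable {R F : Type*} [CommRing R] [Field F] [Algebra R F]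

/-- **(LS′) from branch data**, pointwise form of the non-degeneracy (`Pᵢ ≠ n` at the points on
both branches). -/
theorem lsw77_locStrW_core (π : R) (B : Subalgebra R F) (P₁ P₂ : Ideal B)
    [P₁.IsPrime] [P₂.IsPrime]
    (hcap : ∀ x, x ∈ P₁ → x ∈ P₂ → ∃ c, x = algebraMap R B π * c)
    (hu₁ : ∀ n : Ideal B, n.IsMaximal → P₁ ≤ n →
      ∃ z ∈ n, ∀ x ∈ n, ∃ s : B, s ∉ n ∧ ∃ a : B, s * x - a * z ∈ P₁)
    (hu₂ : ∀ n : Ideal B, n.IsMaximal → P₂ ≤ n →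
      ∃ z ∈ n, ∀ x ∈ n, ∃ s : B, s ∉ n ∧ ∃ a : B, s * x - a * z ∈ P₂)
    (htr : ∀ n : Ideal B, n.IsMaximal → P₁ ≤ n → P₂ ≤ n →
      ∀ x ∈ n, ∃ s : B, s ∉ n ∧ ∃ y ∈ P₁, ∃ y' ∈ P₂, s * x = y + y')
    (hnd : ∀ n : Ideal B, n.IsMaximal → P₁ ≤ n → P₂ ≤ n → P₁ ≠ n ∧ P₂ ≠ n) :
    s34i47d_LocStrW π B P₁ P₂ := by
  intro n hn hπn
  have := hn.isPrime
  exact lsw77_point (algebraMap R B π) P₁ P₂ hcap n hπn (hu₁ n hn) (hu₂ n hn) (htr n hn)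
    (hnd n hn)

/-- **(LS′) from branch data** (the statement of row 516): saturation `P₁ ⊓ P₂ ⊆ π B`, the two
branches are incomparable, a uniformiser of each branch at each of its closed points, and
transversality at the points on both branches. -/
theorem lsw77_locStrW (π : R) (B : Subalgebra R F) (P₁ P₂ : Ideal B)
    [P₁.IsPrime] [P₂.IsPrime]
    (hcap : ∀ x, x ∈ P₁ → x ∈ P₂ → ∃ c, x = algebraMap R B π * c)
    (hne12 : ¬ P₁ ≤ P₂) (hne21 : ¬ P₂ ≤ P₁)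
    (hu₁ : ∀ n : Ideal B, n.IsMaximal → P₁ ≤ n →
      ∃ z ∈ n, ∀ x ∈ n, ∃ s : B, s ∉ n ∧ ∃ a : B, s * x - a * z ∈ P₁)
    (hu₂ : ∀ n : Ideal B, n.IsMaximal → P₂ ≤ n →
      ∃ z ∈ n, ∀ x ∈ n, ∃ s : B, s ∉ n ∧ ∃ a : B, s * x - a * z ∈ P₂)
    (htr : ∀ n : Ideal B, n.IsMaximal → P₁ ≤ n → P₂ ≤ n →
      ∀ x ∈ n, ∃ s : B, s ∉ n ∧ ∃ y ∈ P₁, ∃ y' ∈ P₂, s * x = y + y') :
    s34i47d_LocStrW π B P₁ P₂ := by
  refine lsw77_locStrW_core π B P₁ P₂ hcap hu₁ hu₂ htr ?_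
  intro n _ hP₁ hP₂
  refine ⟨?_, ?_⟩
  · rintro rfl
    exact hne21 hP₂
  · rintro rfl
    exact hne12 hP₁

/-- **(LS′) from branch data**, with "the branches are not closed points" instead of
incomparability. -/
theorem lsw77_locStrW_of_not_max (π : R) (B : Subalgebra R F) (P₁ P₂ : Ideal B)
    [P₁.IsPrime] [P₂.IsPrime]
    (hcap : ∀ x, x ∈ P₁ → x ∈ P₂ → ∃ c, x = algebraMap R B π * c)
    (hmax₁ : ¬ P₁.IsMaximal) (hmax₂ : ¬ P₂.IsMaximal)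
    (hu₁ : ∀ n : Ideal B, n.IsMaximal → P₁ ≤ n →
      ∃ z ∈ n, ∀ x ∈ n, ∃ s : B, s ∉ n ∧ ∃ a : B, s * x - a * z ∈ P₁)
    (hu₂ : ∀ n : Ideal B, n.IsMaximal → P₂ ≤ n →
      ∃ z ∈ n, ∀ x ∈ n, ∃ s : B, s ∉ n ∧ ∃ a : B, s * x - a * z ∈ P₂)
    (htr : ∀ n : Ideal B, n.IsMaximal → P₁ ≤ n → P₂ ≤ n →
      ∀ x ∈ n, ∃ s : B, s ∉ n ∧ ∃ y ∈ P₁, ∃ y' ∈ P₂, s * x = y + y') :
    s34i47d_LocStrW π B P₁ P₂ := by
  refine lsw77_locStrW_core π B P₁ P₂ hcap hu₁ hu₂ htr ?_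
  intro n hn _ _
  refine ⟨?_, ?_⟩
  · rintro rfl
    exact hmax₁ hn
  · rintro rfl
    exact hmax₂ hn

/-- **(LS′), Dedekind form**: both branches have Dedekind quotients (output of (3a)). -/
theorem lsw77_locStrW_of_dedekind (π : R) (B : Subalgebra R F) (P₁ P₂ : Ideal B)
    [IsDedekindDomain (B ⧸ P₁)] [IsDedekindDomain (B ⧸ P₂)]
    (hcap : ∀ x, x ∈ P₁ → x ∈ P₂ → ∃ c, x = algebraMap R B π * c)
    (hne12 : ¬ P₁ ≤ P₂) (hne21 : ¬ P₂ ≤ P₁)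
    (htr : ∀ n : Ideal B, n.IsMaximal → P₁ ≤ n → P₂ ≤ n →
      ∀ x ∈ n, ∃ s : B, s ∉ n ∧ ∃ y ∈ P₁, ∃ y' ∈ P₂, s * x = y + y') :
    s34i47d_LocStrW π B P₁ P₂ := by
  have hp₁ : P₁.IsPrime := (Ideal.Quotient.isDomain_iff_prime P₁).mp inferInstance
  have hp₂ : P₂.IsPrime := (Ideal.Quotient.isDomain_iff_prime P₂).mp inferInstance
  refine lsw77_locStrW π B P₁ P₂ hcap hne12 hne21 ?_ ?_ htr
  · intro n hn hP
    have := hn.isPrime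
    exact lsw77_unif_of_dedekind P₁ n hP
  · intro n hn hP
    have := hn.isPrime
    exact lsw77_unif_of_dedekind P₂ n hP

end lsw77_iface

/-! ## Part III: the V-form -/

section lsw77_vform

variable {R F : Type*} [CommRing R] [Field F] [Algebra R F]

/-- The branch ideal `{x ∈ B | π⁻¹ x ∈ V}` of an overring `V ⊇ B`. -/
def lsw77_branch (π : R) (B : Subalgebra R F) (V : Subring F) (hBV : ∀ x ∈ B, x ∈ V) :
    Ideal B where
  carrier := {x : B | (algebraMap R F π)⁻¹ * (x : F) ∈ V}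
  add_mem' := by
    intro x y hx hy
    have e : (algebraMap R F π)⁻¹ * ((x + y : B) : F) =
        (algebraMap R F π)⁻¹ * (x : F) + (algebraMap R F π)⁻¹ * (y : F) := by
      push_cast; ring
    show (algebraMap R F π)⁻¹ * ((x + y : B) : F) ∈ V
    rw [e]
    exact V.add_mem hx hy
  zero_mem' := by
    show (algebraMap R F π)⁻¹ * ((0 : B) : F) ∈ V
    simp
  smul_mem' := by
    intro c x hx
    have e : (algebraMap R F π)⁻¹ * ((c • x : B) : F) =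
        (c : F) * ((algebraMap R F π)⁻¹ * (x : F)) := by
      rw [smul_eq_mul]; push_cast; ring
    show (algebraMap R F π)⁻¹ * ((c • x : B) : F) ∈ V
    rw [e]
    exact V.mul_mem (hBV _ c.2) hx

theorem lsw77_mem_branch (π : R) (B : Subalgebra R F) (V : Subring F)
    (hBV : ∀ x ∈ B, x ∈ V) (x : B) :
    x ∈ lsw77_branch π B V hBV ↔ (algebraMap R F π)⁻¹ * (x : F) ∈ V :=
  Iff.rfl

/-- `π` lies in the branch ideal. -/
theorem lsw77_pi_mem_branch (π : R) (hπ0 : algebraMap R F π ≠ 0) (B : Subalgebra R F)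
    (V : Subring F) (hBV : ∀ x ∈ B, x ∈ V) :
    algebraMap R B π ∈ lsw77_branch π B V hBV := by
  rw [lsw77_mem_branch]
  have e : (algebraMap R F π)⁻¹ * ((algebraMap R B π : B) : F) = 1 := by
    have : ((algebraMap R B π : B) : F) = algebraMap R F π := rfl
    rw [this, inv_mul_cancel₀ hπ0]
  rw [e]
  exact V.one_mem

/-- The branch ideal of a valuation-like overring (`π⁻¹ ∉ V`, and every `x ∈ V ∖ π V` is a unit
of `V`) is prime. -/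
theorem lsw77_branch_isPrime (π : R) (B : Subalgebra R F) (V : Subring F)
    (hBV : ∀ x ∈ B, x ∈ V) (hπV : (algebraMap R F π)⁻¹ ∉ V)
    (hV : ∀ x ∈ V, (algebraMap R F π)⁻¹ * x ∉ V → x⁻¹ ∈ V) :
    (lsw77_branch π B V hBV).IsPrime := by
  refine Ideal.isPrime_iff.mpr ⟨?_, ?_⟩
  · intro h
    have h1 : (1 : B) ∈ lsw77_branch π B V hBV := by rw [h]; trivial
    rw [lsw77_mem_branch] at h1
    apply hπV
    simpa using h1
  · intro x y hxy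
    by_contra hcon
    rw [not_or] at hcon
    obtain ⟨hx, hy⟩ := hcon
    rw [lsw77_mem_branch] at hx hy hxy
    have hxinv := hV x (hBV x x.2) hx
    apply hy
    have hx0 : (x : F) ≠ 0 := by
      intro h0
      apply hx
      rw [h0, mul_zero]
      exact V.zero_mem
    have h3 : (algebraMap R F π)⁻¹ * (y : F) =
        (x : F)⁻¹ * ((algebraMap R F π)⁻¹ * ((x * y : B) : F)) := by
      push_cast
      field_simp
    rw [h3]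
    exact V.mul_mem hxinv hxy

/-- Saturation of `B` in `V₁ ⊓ V₂`: the two branch ideals meet in `π B`. -/
theorem lsw77_cap (π : R) (hπ0 : algebraMap R F π ≠ 0) (B : Subalgebra R F) (V₁ V₂ : Subring F)
    (hsat : ∀ x ∈ B, (algebraMap R F π)⁻¹ * x ∈ V₁ → (algebraMap R F π)⁻¹ * x ∈ V₂ →
      (algebraMap R F π)⁻¹ * x ∈ B)
    (P₁ P₂ : Ideal B)
    (hP₁ : ∀ x : B, x ∈ P₁ ↔ (algebraMap R F π)⁻¹ * (x : F) ∈ V₁)
    (hP₂ : ∀ x : B, x ∈ P₂ ↔ (algebraMap R F π)⁻¹ * (x : F) ∈ V₂) :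
    ∀ x, x ∈ P₁ → x ∈ P₂ → ∃ c, x = algebraMap R B π * c := by
  intro x hx₁ hx₂
  refine ⟨⟨_, hsat x x.2 ((hP₁ x).mp hx₁) ((hP₂ x).mp hx₂)⟩, ?_⟩
  apply Subtype.ext
  show (x : F) = algebraMap R F π * ((algebraMap R F π)⁻¹ * (x : F))
  field_simp

/-- **One conjunct of `s34i47d_FrameLSW`, V-form.**  `B` a chart saturated in `V₁ ⊓ V₂`, both
`Vᵢ` valuation-like with uniformiser `π`; the branches `Pᵢ = {x ∈ B | π⁻¹ x ∈ Vᵢ}` are
incomparable (witnesses `y₁ ∈ P₁ ∖ P₂`, `y₂ ∈ P₂ ∖ P₁`), each has a uniformiser at each of its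
closed points, and they are transversal at the closed points on both. -/
theorem lsw77_chart (π : R) (hπ0 : algebraMap R F π ≠ 0) (B : Subalgebra R F)
    (V₁ V₂ : Subring F) (hB₁ : ∀ x ∈ B, x ∈ V₁) (hB₂ : ∀ x ∈ B, x ∈ V₂)
    (hπ₁ : (algebraMap R F π)⁻¹ ∉ V₁) (hπ₂ : (algebraMap R F π)⁻¹ ∉ V₂)
    (hV₁ : ∀ x ∈ V₁, (algebraMap R F π)⁻¹ * x ∉ V₁ → x⁻¹ ∈ V₁)
    (hV₂ : ∀ x ∈ V₂, (algebraMap R F π)⁻¹ * x ∉ V₂ → x⁻¹ ∈ V₂)
    (hsat : ∀ x ∈ B, (algebraMap R F π)⁻¹ * x ∈ V₁ → (algebraMap R F π)⁻¹ * x ∈ V₂ →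
      (algebraMap R F π)⁻¹ * x ∈ B)
    (hne12 : ∃ y : B, (algebraMap R F π)⁻¹ * (y : F) ∈ V₁ ∧
      (algebraMap R F π)⁻¹ * (y : F) ∉ V₂)
    (hne21 : ∃ y : B, (algebraMap R F π)⁻¹ * (y : F) ∈ V₂ ∧
      (algebraMap R F π)⁻¹ * (y : F) ∉ V₁)
    (hu₁ : ∀ n : Ideal B, n.IsMaximal →
      (∀ y : B, (algebraMap R F π)⁻¹ * (y : F) ∈ V₁ → y ∈ n) →
      ∃ z ∈ n, ∀ x ∈ n, ∃ s : B, s ∉ n ∧ ∃ a : B,
        (algebraMap R F π)⁻¹ * ((s : F) * (x : F) - (a : F) * (z : F)) ∈ V₁)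
    (hu₂ : ∀ n : Ideal B, n.IsMaximal →
      (∀ y : B, (algebraMap R F π)⁻¹ * (y : F) ∈ V₂ → y ∈ n) →
      ∃ z ∈ n, ∀ x ∈ n, ∃ s : B, s ∉ n ∧ ∃ a : B,
        (algebraMap R F π)⁻¹ * ((s : F) * (x : F) - (a : F) * (z : F)) ∈ V₂)
    (htr : ∀ n : Ideal B, n.IsMaximal →
      (∀ y : B, (algebraMap R F π)⁻¹ * (y : F) ∈ V₁ → y ∈ n) →
      (∀ y : B, (algebraMap R F π)⁻¹ * (y : F) ∈ V₂ → y ∈ n) →
      ∀ x ∈ n, ∃ s : B, s ∉ n ∧ ∃ y y' : B, (algebraMap R F π)⁻¹ * (y : F) ∈ V₁ ∧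
        (algebraMap R F π)⁻¹ * (y' : F) ∈ V₂ ∧ s * x = y + y') :
    ∃ P₁ P₂ : Ideal B, P₁.IsPrime ∧ P₂.IsPrime ∧ algebraMap R B π ∈ P₁ ∧
      algebraMap R B π ∈ P₂ ∧ s34i47d_LocStrW π B P₁ P₂ := by
  have hp₁ := lsw77_branch_isPrime π B V₁ hB₁ hπ₁ hV₁
  have hp₂ := lsw77_branch_isPrime π B V₂ hB₂ hπ₂ hV₂
  refine ⟨lsw77_branch π B V₁ hB₁, lsw77_branch π B V₂ hB₂, hp₁, hp₂,
    lsw77_pi_mem_branch π hπ0 B V₁ hB₁, lsw77_pi_mem_branch π hπ0 B V₂ hB₂, ?_⟩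
  refine lsw77_locStrW π B _ _
    (lsw77_cap π hπ0 B V₁ V₂ hsat _ _ (fun _ => Iff.rfl) (fun _ => Iff.rfl)) ?_ ?_ ?_ ?_ ?_
  · obtain ⟨y, hy₁, hy₂⟩ := hne12
    exact fun hle => hy₂ (hle (show y ∈ lsw77_branch π B V₁ hB₁ from hy₁))
  · obtain ⟨y, hy₂, hy₁⟩ := hne21
    exact fun hle => hy₁ (hle (show y ∈ lsw77_branch π B V₂ hB₂ from hy₂))
  · intro n hn hP
    obtain ⟨z, hz, hu⟩ := hu₁ n hn (fun y hy => hP hy)
    refine ⟨z, hz, fun x hx => ?_⟩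
    obtain ⟨s, hs, a, ha⟩ := hu x hx
    refine ⟨s, hs, a, ?_⟩
    show (algebraMap R F π)⁻¹ * ((s * x - a * z : B) : F) ∈ V₁
    have e : ((s * x - a * z : B) : F) = (s : F) * (x : F) - (a : F) * (z : F) := by
      push_cast; ring
    rw [e]
    exact ha
  · intro n hn hP
    obtain ⟨z, hz, hu⟩ := hu₂ n hn (fun y hy => hP hy)
    refine ⟨z, hz, fun x hx => ?_⟩
    obtain ⟨s, hs, a, ha⟩ := hu x hx
    refine ⟨s, hs, a, ?_⟩
    show (algebraMap R F π)⁻¹ * ((s * x - a * z : B) : F) ∈ V₂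
    have e : ((s * x - a * z : B) : F) = (s : F) * (x : F) - (a : F) * (z : F) := by
      push_cast; ring
    rw [e]
    exact ha
  · intro n hn hP₁ hP₂ x hx
    obtain ⟨s, hs, y, y', hy, hy', e⟩ := htr n hn (fun y hy => hP₁ hy) (fun y hy => hP₂ hy) x hx
    exact ⟨s, hs, y, hy, y', hy', e⟩

/-- **One conjunct of `s34i47d_FrameLSW`, ideal form with Dedekind branches.**  The branch
ideals are given by their membership (`hP₁`, `hP₂`), their quotients are Dedekind domains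
(output of (3a)), they are incomparable and transversal at the closed points on both. -/
theorem lsw77_chart_of_dedekind (π : R) (hπ0 : algebraMap R F π ≠ 0) (B : Subalgebra R F)
    (V₁ V₂ : Subring F)
    (hsat : ∀ x ∈ B, (algebraMap R F π)⁻¹ * x ∈ V₁ → (algebraMap R F π)⁻¹ * x ∈ V₂ →
      (algebraMap R F π)⁻¹ * x ∈ B)
    (P₁ P₂ : Ideal B)
    (hP₁ : ∀ x : B, x ∈ P₁ ↔ (algebraMap R F π)⁻¹ * (x : F) ∈ V₁)
    (hP₂ : ∀ x : B, x ∈ P₂ ↔ (algebraMap R F π)⁻¹ * (x : F) ∈ V₂)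
    [IsDedekindDomain (B ⧸ P₁)] [IsDedekindDomain (B ⧸ P₂)]
    (hne12 : ¬ P₁ ≤ P₂) (hne21 : ¬ P₂ ≤ P₁)
    (htr : ∀ n : Ideal B, n.IsMaximal → P₁ ≤ n → P₂ ≤ n →
      ∀ x ∈ n, ∃ s : B, s ∉ n ∧ ∃ y ∈ P₁, ∃ y' ∈ P₂, s * x = y + y') :
    ∃ P₁ P₂ : Ideal B, P₁.IsPrime ∧ P₂.IsPrime ∧ algebraMap R B π ∈ P₁ ∧
      algebraMap R B π ∈ P₂ ∧ s34i47d_LocStrW π B P₁ P₂ := by
  have hp₁ : P₁.IsPrime := (Ideal.Quotient.isDomain_iff_prime P₁).mp inferInstance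
  have hp₂ : P₂.IsPrime := (Ideal.Quotient.isDomain_iff_prime P₂).mp inferInstance
  have hπmem : ∀ V : Subring F, (algebraMap R F π)⁻¹ * ((algebraMap R B π : B) : F) ∈ V := by
    intro V
    have e : (algebraMap R F π)⁻¹ * ((algebraMap R B π : B) : F) = 1 := by
      have : ((algebraMap R B π : B) : F) = algebraMap R F π := rfl
      rw [this, inv_mul_cancel₀ hπ0]
    rw [e]
    exact V.one_mem
  exact ⟨P₁, P₂, hp₁, hp₂, (hP₁ _).mpr (hπmem V₁), (hP₂ _).mpr (hπmem V₂),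
    lsw77_locStrW_of_dedekind π B P₁ P₂ (lsw77_cap π hπ0 B V₁ V₂ hsat P₁ P₂ hP₁ hP₂)
      hne12 hne21 htr⟩

end lsw77_vform

end Fermat.Agent.S34
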