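import Mathlib

/-!
# S34 lab, row 489 / P3a-0 (helper13): the shape of the modular equation, Mathlib only

Abstract core of the cusp bookkeeping behind `w_q`-symmetry of the Hauptmodul charts.
For `Φ ∈ ℤ[Y][X]` write `bz13_c Φ i k` for the coefficient of `X ^ i * Y ^ k`.

* `bz13_exists_ge`, `bz13_two_lt`, `bz13_U` : the ultrametric principle for a vanishing finite
  sum / a vanishing value `Φ(x, y) = 0`.
* `bz13_shape` : if `Φ` is monic of degree `q + 1` in `X`, `Φ(b, a) = 0 = Φ(a, b)` and `v` is a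
  valuation, trivial on the nonzero integers, with `v a > 1`, `v b = v a ^ q`,
  `v (b - a ^ q) < v a ^ q` (the leading terms of the `q`-expansions of `a = j`, `b = j(q τ)`),
  then `Φ = X^(q+1) + Y^(q+1) - X^q Y^q + ∑_{i, k ≤ q, (i,k) ≠ (q,q)} c_{ik} X^i Y^k`.
  No product formula is needed: the input is exactly S28 `exists_modular_equation`.
* `bz13_dichotomy` : for `Φ` of that shape and ANY valuation `v` with `v a > 1`, `v b > 1`
  (a cusp), `v b = v a ^ q` or `v a = v b ^ q`.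
* `bz13_monic_le_one` : `v a ≤ 1 → v b ≤ 1` for `Φ` monic in `X`.

All names are prefixed `bz13_`.
-/

set_option autoImplicit false

namespace Fermat.Agent.S34

open Polynomial

section bz13_abs

variable {F Γ₀ : Type*} [Field F] [LinearOrderedCommGroupWithZero Γ₀] (v : Valuation F Γ₀)

theorem bz13_natCast_le_one (n : ℕ) : v (n : F) ≤ 1 := by
  induction n with
  | zero => simp
  | succ n ih =>
    rw [Nat.cast_succ]
    exact (v.map_add _ _).trans (max_le ih (by simp))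

theorem bz13_intCast_le_one (n : ℤ) : v (n : F) ≤ 1 := by
  obtain ⟨m, rfl | rfl⟩ := n.eq_nat_or_neg
  · simpa using bz13_natCast_le_one v m
  · simpa [Valuation.map_neg] using bz13_natCast_le_one v m

/-- ultrametric principle: in a vanishing finite sum no term strictly dominates the others. -/
theorem bz13_exists_ge {ι : Type*} [DecidableEq ι] (S : Finset ι) (t : ι → F)
    (hsum : ∑ s ∈ S, t s = 0) (s₀ : ι) (hs₀ : s₀ ∈ S) (ht : t s₀ ≠ 0) :
    ∃ s ∈ S, s ≠ s₀ ∧ v (t s₀) ≤ v (t s) := by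
  by_contra hcon
  push Not at hcon
  have h1 : v (∑ s ∈ S.erase s₀, t s) < v (t s₀) :=
    Valuation.map_sum_lt v ((Valuation.ne_zero_iff v).2 ht)
      (fun s hs => hcon s (Finset.mem_of_mem_erase hs) (Finset.ne_of_mem_erase hs))
  have h2 : ∑ s ∈ S.erase s₀, t s = -t s₀ := by
    have := Finset.add_sum_erase S t hs₀
    rw [hsum] at this
    exact (neg_eq_of_add_eq_zero_right this).symm
  rw [h2, Valuation.map_neg] at h1
  exact lt_irrefl _ h1

/-- two dominant terms of a vanishing sum cancel up to lower order. -/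
theorem bz13_two_lt {ι : Type*} [DecidableEq ι] (S : Finset ι) (t : ι → F)
    (hsum : ∑ s ∈ S, t s = 0) (s₀ s₁ : ι) (hs₀ : s₀ ∈ S) (hs₁ : s₁ ∈ S) (h01 : s₀ ≠ s₁)
    (g : Γ₀) (hg : g ≠ 0) (hlt : ∀ s ∈ S, s ≠ s₀ → s ≠ s₁ → v (t s) < g) :
    v (t s₀ + t s₁) < g := by
  have hs₁' : s₁ ∈ S.erase s₀ := Finset.mem_erase.2 ⟨h01.symm, hs₁⟩
  have h1 : v (∑ s ∈ (S.erase s₀).erase s₁, t s) < g :=
    Valuation.map_sum_lt v hg (fun s hs => by
      have hs' := Finset.mem_erase.1 hs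
      have hs'' := Finset.mem_erase.1 hs'.2
      exact hlt s hs''.2 hs''.1 hs'.1)
  have h2 : t s₀ + t s₁ = -∑ s ∈ (S.erase s₀).erase s₁, t s := by
    have e1 := Finset.add_sum_erase S t hs₀
    have e2 := Finset.add_sum_erase (S.erase s₀) t hs₁'
    rw [hsum] at e1
    rw [← e2] at e1
    linear_combination e1
  rw [h2, Valuation.map_neg]; exact h1

end bz13_abs

section bz13_poly

/-- the integer coefficient of `X ^ i * Y ^ k` of `Φ ∈ ℤ[Y][X]`. -/
noncomputable def bz13_c (Φ : Polynomial (Polynomial ℤ)) (i k : ℕ) : ℤ := (Φ.coeff i).coeff k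

/-- a bound for the `Y`-degrees of the coefficients of `Φ`. -/
noncomputable def bz13_D (Φ : Polynomial (Polynomial ℤ)) : ℕ :=
  (Finset.range (Φ.natDegree + 1)).sup fun i => (Φ.coeff i).natDegree

theorem bz13_mem_of_c_ne_zero (Φ : Polynomial (Polynomial ℤ)) (i k : ℕ)
    (h : bz13_c Φ i k ≠ 0) :
    (i, k) ∈ Finset.range (Φ.natDegree + 1) ×ˢ Finset.range (bz13_D Φ + 1) := by
  have hi : i ≤ Φ.natDegree := by
    by_contra hlt
    push Not at hlt
    exact h (by simp [bz13_c, Polynomial.coeff_eq_zero_of_natDegree_lt hlt])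
  have hk : k ≤ (Φ.coeff i).natDegree := by
    by_contra hlt
    push Not at hlt
    exact h (Polynomial.coeff_eq_zero_of_natDegree_lt hlt)
  simp only [Finset.mem_product, Finset.mem_range]
  exact ⟨Nat.lt_succ_of_le hi, Nat.lt_succ_of_le (hk.trans
    (Finset.le_sup (f := fun i => (Φ.coeff i).natDegree)
      (Finset.mem_range.2 (Nat.lt_succ_of_le hi))))⟩

variable {F : Type*} [Field F]

theorem bz13_eval₂_eq_sum (Φ : Polynomial (Polynomial ℤ)) (x y : F) :
    Φ.eval₂ (eval₂RingHom (Int.castRingHom F) y) x =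
      ∑ p ∈ Finset.range (Φ.natDegree + 1) ×ˢ Finset.range (bz13_D Φ + 1),
        (bz13_c Φ p.1 p.2 : F) * y ^ p.2 * x ^ p.1 := by
  rw [Polynomial.eval₂_eq_sum_range, Finset.sum_product]
  refine Finset.sum_congr rfl fun i hi => ?_
  rw [coe_eval₂RingHom, Polynomial.eval₂_eq_sum_range' (Int.castRingHom F)
    (n := bz13_D Φ + 1) (Nat.lt_succ_of_le
      (Finset.le_sup (f := fun i => (Φ.coeff i).natDegree) hi)) y, Finset.sum_mul]
  rfl

variable {Γ₀ : Type*} [LinearOrderedCommGroupWithZero Γ₀] (v : Valuation F Γ₀)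

/-- the ultrametric principle for a vanishing value of `Φ`. -/
theorem bz13_U (Φ : Polynomial (Polynomial ℤ)) (x y : F)
    (h : Φ.eval₂ (eval₂RingHom (Int.castRingHom F) y) x = 0)
    (i₀ k₀ : ℕ) (ht : (bz13_c Φ i₀ k₀ : F) * y ^ k₀ * x ^ i₀ ≠ 0) :
    ∃ i k, (i, k) ≠ (i₀, k₀) ∧ bz13_c Φ i k ≠ 0 ∧
      v ((bz13_c Φ i₀ k₀ : F) * y ^ k₀ * x ^ i₀) ≤ v ((bz13_c Φ i k : F) * y ^ k * x ^ i) := by
  classical
  rw [bz13_eval₂_eq_sum] at h
  have hc : bz13_c Φ i₀ k₀ ≠ 0 := by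
    intro h0
    apply ht
    rw [h0]; simp
  obtain ⟨⟨i, k⟩, -, hne, hle⟩ := bz13_exists_ge v _
    (fun p : ℕ × ℕ => (bz13_c Φ p.1 p.2 : F) * y ^ p.2 * x ^ p.1) h (i₀, k₀)
    (bz13_mem_of_c_ne_zero Φ i₀ k₀ hc) ht
  refine ⟨i, k, hne, ?_, hle⟩
  intro h0
  have h1 : v ((bz13_c Φ i₀ k₀ : F) * y ^ k₀ * x ^ i₀) ≠ 0 := (Valuation.ne_zero_iff v).2 ht
  apply h1
  have h2 : v ((bz13_c Φ i k : F) * y ^ k * x ^ i) = 0 := by
    simp only at *
    rw [h0]; simp
  exact le_antisymm (h2 ▸ hle) zero_le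

end bz13_poly

/-- the combinatorial core of the shape of the modular equation. -/
theorem bz13_comb (q : ℕ) (hq : 2 ≤ q) (Sp : ℕ → ℕ → Prop) (D : ℕ)
    (hfin : ∀ i k, Sp i k → i ≤ q + 1 ∧ k ≤ D)
    (htop : Sp (q + 1) 0) (htop' : ∀ k, Sp (q + 1) k → k = 0)
    (U1 : ∀ i₀ k₀, Sp i₀ k₀ → ∃ i k, (i, k) ≠ (i₀, k₀) ∧ Sp i k ∧ k₀ + q * i₀ ≤ k + q * i)
    (U2 : ∀ i₀ k₀, Sp i₀ k₀ → ∃ i k, (i, k) ≠ (i₀, k₀) ∧ Sp i k ∧ q * k₀ + i₀ ≤ q * k + i) :
    (∀ i k, Sp i k → q * k + i ≤ q * (q + 1)) ∧ Sp 0 (q + 1) ∧ Sp q q := by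
  classical
  have hqq : 2 * q ≤ q * q := Nat.mul_le_mul_right q hq
  have hq1 : q * (q + 1) = q * q + q := by ring
  let T : Finset (ℕ × ℕ) :=
    ((Finset.range (q + 2)) ×ˢ (Finset.range (D + 1))).filter (fun p => Sp p.1 p.2)
  have hT : ∀ i k, Sp i k ↔ (i, k) ∈ T := by
    intro i k
    simp only [T, Finset.mem_filter, Finset.mem_product, Finset.mem_range]
    constructor
    · intro h
      have h1 := (hfin i k h).1
      have h2 := (hfin i k h).2
      exact ⟨⟨by omega, by omega⟩, h⟩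
    · exact fun h => h.2
  obtain ⟨⟨i₁, k₁⟩, hmem, hmax⟩ := T.exists_max_image (fun p => q * p.2 + p.1)
    ⟨(q + 1, 0), (hT _ _).1 htop⟩
  have hS1 : Sp i₁ k₁ := (hT _ _).2 hmem
  have hmax' : ∀ i k, Sp i k → q * k + i ≤ q * k₁ + i₁ :=
    fun i k h => hmax (i, k) ((hT _ _).1 h)
  obtain ⟨i₂, k₂, hne, hS2, hle⟩ := U2 i₁ k₁ hS1
  have heq : q * k₂ + i₂ = q * k₁ + i₁ := le_antisymm (hmax' _ _ hS2) hle
  obtain ⟨iu, ku, il, kl, hSu, hSl, hwu, hlt, hwl⟩ : ∃ iu ku il kl, Sp iu ku ∧ Sp il kl ∧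
      q * ku + iu = q * k₁ + i₁ ∧ kl < ku ∧ q * kl + il = q * k₁ + i₁ := by
    rcases lt_trichotomy k₁ k₂ with h | h | h
    · exact ⟨i₂, k₂, i₁, k₁, hS2, hS1, heq, h, rfl⟩
    · exfalso
      subst h
      apply hne
      have : i₂ = i₁ := by omega
      rw [this]
    · exact ⟨i₁, k₁, i₂, k₂, hS1, hS2, rfl, h, heq⟩
  have hil : il ≤ q + 1 := (hfin _ _ hSl).1
  have hku : ku = kl + 1 := by
    by_contra hne'
    have h2 : kl + 2 ≤ ku := by omega
    have h3 : q * (kl + 2) ≤ q * ku := Nat.mul_le_mul_left q h2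
    have h4 : q * (kl + 2) = q * kl + 2 * q := by ring
    omega
  subst hku
  have h5 : q * (kl + 1) = q * kl + q := by ring
  have hil' : il = iu + q := by omega
  have hW : q * k₁ + i₁ = q * kl + il := hwl.symm
  rw [hW] at hmax'
  -- the pair `(q + 1, 0)`
  obtain ⟨i, k, hneA, hSA, hleA⟩ := U1 (q + 1) 0 htop
  have hbA := hmax' i k hSA
  have hiA : i ≤ q := by
    have h1 := (hfin i k hSA).1
    by_contra hcon
    have h2 : i = q + 1 := by omega
    subst h2
    have h3 := htop' k hSA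
    subst h3
    exact hneA rfl
  have hqiA : q * i ≤ q * q := Nat.mul_le_mul_left q hiA
  rcases Nat.eq_zero_or_pos iu with hiu | hiu
  · -- `iu = 0`, `il = q`
    subst hiu
    have hilq : il = q := by omega
    subst hilq
    -- `q ≤ kl`
    have hkl1 : il ≤ kl := by
      by_contra hcon
      have hcon' : kl + 1 ≤ il := by omega
      have h6 : il * k ≤ il * (kl + 1) := by omega
      have h7 : k ≤ kl + 1 := Nat.le_of_mul_le_mul_left h6 (by omega)
      have h8 : il * il ≤ il * i := by omega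
      have h9 : il ≤ i := Nat.le_of_mul_le_mul_left h8 (by omega)
      have h10 : i = il := le_antisymm hiA h9
      subst h10
      have h11 : k = i := by omega
      subst h11
      have h12 : kl + 1 = k := by omega
      subst h12
      omega
    -- `kl ≤ q`
    obtain ⟨i', k', hneB, hSB, hleB⟩ := U1 il kl hSl
    have hbB := hmax' i' k' hSB
    have hiB := (hfin i' k' hSB).1
    have hkl2 : kl ≤ il := by
      by_cases h1 : i' = il + 1
      · subst h1
        have h2 := htop' k' hSB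
        subst h2
        have h3 : il * (il + 1) = il * il + il := by ring
        omega
      · by_cases h2 : i' = il
        · subst h2
          exfalso
          have h3 : i' * k' ≤ i' * kl := by omega
          have h4 : k' ≤ kl := Nat.le_of_mul_le_mul_left h3 (by omega)
          have h5' : k' = kl := by omega
          subst h5'
          exact hneB rfl
        · exfalso
          have h3 : i' + 1 ≤ il := by omega
          have h4 : il * (i' + 1) ≤ il * il := Nat.mul_le_mul_left il h3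
          have h5' : il * (i' + 1) = il * i' + il := by ring
          have h6 : il * k' ≤ il * (kl + 1) := by omega
          have h7 : k' ≤ kl + 1 := Nat.le_of_mul_le_mul_left h6 (by omega)
          omega
    have hkl : kl = il := le_antisymm hkl2 hkl1
    subst hkl
    refine ⟨fun i k h => ?_, hSu, hSl⟩
    have := hmax' i k h
    omega
  · -- `iu = 1`, `il = q + 1`: impossible
    exfalso
    have hiu1 : iu = 1 := by omega
    subst hiu1
    have hilq : il = q + 1 := by omega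
    subst hilq
    have hkl0 := htop' kl hSl
    subst hkl0
    have hk1 : k ≤ 1 := by
      by_contra hcon
      have h2 : 2 ≤ k := by omega
      have h3 : q * 2 ≤ q * k := Nat.mul_le_mul_left q h2
      omega
    interval_cases k
    · omega
    · have h1 : i ≤ 1 := by omega
      have h2 : q * i ≤ q * 1 := Nat.mul_le_mul_left q h1
      omega

section bz13_shape

variable {F Γ₀ : Type*} [Field F] [LinearOrderedCommGroupWithZero Γ₀] (v : Valuation F Γ₀)

theorem bz13_c_top (q : ℕ) (Φ : Polynomial (Polynomial ℤ)) (hmon : Φ.Monic)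
    (hdeg : Φ.natDegree = q + 1) :
    bz13_c Φ (q + 1) 0 = 1 ∧ (∀ k, bz13_c Φ (q + 1) k ≠ 0 → k = 0) ∧
      (∀ i k, bz13_c Φ i k ≠ 0 → i ≤ q + 1) := by
  have h1 : Φ.coeff (q + 1) = 1 := by
    rw [← hdeg]; exact hmon.coeff_natDegree
  refine ⟨by simp [bz13_c, h1], fun k hk => ?_, fun i k hk => ?_⟩
  · by_contra hk0
    apply hk
    simp only [bz13_c, h1]
    rw [Polynomial.coeff_one, if_neg hk0]
  · by_contra hlt
    push Not at hlt
    apply hk
    simp [bz13_c, Polynomial.coeff_eq_zero_of_natDegree_lt (hdeg ▸ hlt)]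

/-- **The shape of the modular equation** from the two root relations and the leading terms of
the `q`-expansions (`v` = the valuation at the cusp `∞`). -/
theorem bz13_shape (hv : ∀ n : ℤ, n ≠ 0 → v (n : F) = 1) (q : ℕ) (hq : 2 ≤ q)
    (Φ : Polynomial (Polynomial ℤ)) (hmon : Φ.Monic) (hdeg : Φ.natDegree = q + 1)
    (a b : F) (ha : 1 < v a) (hb : v b = v a ^ q) (hab : v (b - a ^ q) < v a ^ q)
    (h1 : Φ.eval₂ (eval₂RingHom (Int.castRingHom F) a) b = 0)
    (h2 : Φ.eval₂ (eval₂RingHom (Int.castRingHom F) b) a = 0) :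
    (∀ i k, bz13_c Φ i k ≠ 0 →
      (i = q + 1 ∧ k = 0) ∨ (i = 0 ∧ k = q + 1) ∨ (i ≤ q ∧ k ≤ q)) ∧
    bz13_c Φ (q + 1) 0 = 1 ∧ bz13_c Φ 0 (q + 1) = 1 ∧ bz13_c Φ q q = -1 := by
  classical
  obtain ⟨hc10, hctop, hci⟩ := bz13_c_top q Φ hmon hdeg
  have hγ0 : v a ≠ 0 := ne_zero_of_lt ha
  have ha0 : a ≠ 0 := (Valuation.ne_zero_iff v).1 hγ0
  have hb0 : b ≠ 0 := by
    apply (Valuation.ne_zero_iff v).1
    rw [hb]; exact pow_ne_zero _ hγ0
  have hcF : ∀ n : ℤ, n ≠ 0 → (n : F) ≠ 0 := by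
    intro n hn h0
    have := hv n hn
    rw [h0, Valuation.map_zero] at this
    exact zero_ne_one this
  have hval1 : ∀ i k, bz13_c Φ i k ≠ 0 →
      v ((bz13_c Φ i k : F) * a ^ k * b ^ i) = v a ^ (k + q * i) := by
    intro i k hc
    rw [map_mul, map_mul, map_pow, map_pow, hv _ hc, hb, one_mul, ← pow_mul, ← pow_add]
  have hval2 : ∀ i k, bz13_c Φ i k ≠ 0 →
      v ((bz13_c Φ i k : F) * b ^ k * a ^ i) = v a ^ (q * k + i) := by
    intro i k hc
    rw [map_mul, map_mul, map_pow, map_pow, hv _ hc, hb, one_mul, ← pow_mul, ← pow_add]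
  have hne1 : ∀ i k, bz13_c Φ i k ≠ 0 → (bz13_c Φ i k : F) * a ^ k * b ^ i ≠ 0 :=
    fun i k hc => mul_ne_zero (mul_ne_zero (hcF _ hc) (pow_ne_zero _ ha0)) (pow_ne_zero _ hb0)
  have hne2 : ∀ i k, bz13_c Φ i k ≠ 0 → (bz13_c Φ i k : F) * b ^ k * a ^ i ≠ 0 :=
    fun i k hc => mul_ne_zero (mul_ne_zero (hcF _ hc) (pow_ne_zero _ hb0)) (pow_ne_zero _ ha0)
  have U1 : ∀ i₀ k₀, bz13_c Φ i₀ k₀ ≠ 0 → ∃ i k, (i, k) ≠ (i₀, k₀) ∧ bz13_c Φ i k ≠ 0 ∧
      k₀ + q * i₀ ≤ k + q * i := by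
    intro i₀ k₀ hc
    obtain ⟨i, k, hne, hc', hle⟩ := bz13_U v Φ b a h1 i₀ k₀ (hne1 i₀ k₀ hc)
    rw [hval1 _ _ hc, hval1 _ _ hc'] at hle
    exact ⟨i, k, hne, hc', (pow_le_pow_iff_right₀ ha).1 hle⟩
  have U2 : ∀ i₀ k₀, bz13_c Φ i₀ k₀ ≠ 0 → ∃ i k, (i, k) ≠ (i₀, k₀) ∧ bz13_c Φ i k ≠ 0 ∧
      q * k₀ + i₀ ≤ q * k + i := by
    intro i₀ k₀ hc
    obtain ⟨i, k, hne, hc', hle⟩ := bz13_U v Φ a b h2 i₀ k₀ (hne2 i₀ k₀ hc)
    rw [hval2 _ _ hc, hval2 _ _ hc'] at hle
    exact ⟨i, k, hne, hc', (pow_le_pow_iff_right₀ ha).1 hle⟩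
  obtain ⟨hmaxB, hS0, hSq⟩ := bz13_comb q hq (fun i k => bz13_c Φ i k ≠ 0) (bz13_D Φ)
    (fun i k h => ⟨hci i k h, by
      have := bz13_mem_of_c_ne_zero Φ i k h
      simp only [Finset.mem_product, Finset.mem_range] at this
      omega⟩)
    (by rw [hc10]; exact one_ne_zero) hctop U1 U2
  have hq1 : q * (q + 1) = q * q + q := by ring
  have hshape : ∀ i k, bz13_c Φ i k ≠ 0 →
      (i = q + 1 ∧ k = 0) ∨ (i = 0 ∧ k = q + 1) ∨ (i ≤ q ∧ k ≤ q) := by
    intro i k hc
    have h3 := hmaxB i k hc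
    by_cases hi : i = q + 1
    · exact Or.inl ⟨hi, hctop k (hi ▸ hc)⟩
    · have hi' : i ≤ q := by have := hci i k hc; omega
      by_cases hk : k ≤ q
      · exact Or.inr (Or.inr ⟨hi', hk⟩)
      · have h4 : q * (q + 1) ≤ q * k := Nat.mul_le_mul_left q (by omega)
        have h5 : q * k = q * (q + 1) := by omega
        have h6 : k = q + 1 := Nat.eq_of_mul_eq_mul_left (by omega) h5
        exact Or.inr (Or.inl ⟨by omega, h6⟩)
  have hg0 : v a ^ (q * q + q) ≠ 0 := pow_ne_zero _ hγ0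
  have hrest : v (b ^ q * (b - a ^ q)) < v a ^ (q * q + q) := by
    rw [map_mul, map_pow, hb, ← pow_mul, pow_add]
    exact (mul_lt_mul_iff_of_pos_left (zero_lt_iff.2 (pow_ne_zero _ hγ0))).mpr hab
  have hbpow : v (b ^ (q + 1)) = v a ^ (q * q + q) := by
    rw [map_pow, hb, ← pow_mul, hq1]
  -- the coefficient of `X^q Y^q`
  have hcqq : bz13_c Φ q q = -1 := by
    by_contra hcon
    have hsum := h1
    rw [bz13_eval₂_eq_sum] at hsum
    have h3 := bz13_two_lt v _ (fun p : ℕ × ℕ => (bz13_c Φ p.1 p.2 : F) * a ^ p.2 * b ^ p.1)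
      hsum (q + 1, 0) (q, q)
      (bz13_mem_of_c_ne_zero Φ _ _ (by rw [hc10]; exact one_ne_zero))
      (bz13_mem_of_c_ne_zero Φ _ _ hSq) (by simp) (v a ^ (q * q + q)) hg0
      (by
        rintro ⟨i, k⟩ - hne0 hne1'
        by_cases hc : bz13_c Φ i k = 0
        · simp only [hc, Int.cast_zero, zero_mul, map_zero]
          exact zero_lt_iff.2 hg0
        · simp only
          rw [hval1 i k hc]
          apply pow_lt_pow_right₀ ha
          rcases hshape i k hc with ⟨rfl, rfl⟩ | ⟨rfl, rfl⟩ | ⟨hi, hk⟩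
          · exact absurd rfl hne0
          · have : 2 * q ≤ q * q := Nat.mul_le_mul_right q hq
            omega
          · by_cases hi' : i = q
            · subst hi'
              have : k ≠ i := fun h => hne1' (by rw [h])
              omega
            · have h4 : q * (i + 1) ≤ q * q := Nat.mul_le_mul_left q (by omega)
              have h5 : q * (i + 1) = q * i + q := by ring
              omega)
    simp only [hc10, Int.cast_one, pow_zero, mul_one, one_mul] at h3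
    have h4 : ((1 + bz13_c Φ q q : ℤ) : F) * b ^ (q + 1) =
        (b ^ (q + 1) + (bz13_c Φ q q : F) * a ^ q * b ^ q) +
          (bz13_c Φ q q : F) * (b ^ q * (b - a ^ q)) := by
      push_cast; ring
    have h5 : v ((bz13_c Φ q q : F) * (b ^ q * (b - a ^ q))) < v a ^ (q * q + q) := by
      rw [map_mul]
      exact lt_of_le_of_lt (mul_le_of_le_one_left' (bz13_intCast_le_one v _)) hrest
    have h6 := v.map_add_lt h3 h5
    rw [← h4, map_mul, hbpow, hv _ (by intro h0; apply hcon; omega), one_mul] at h6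
    exact lt_irrefl _ h6
  have hc0 : bz13_c Φ 0 (q + 1) = 1 := by
    by_contra hcon
    have hsum := h2
    rw [bz13_eval₂_eq_sum] at hsum
    have h3 := bz13_two_lt v _ (fun p : ℕ × ℕ => (bz13_c Φ p.1 p.2 : F) * b ^ p.2 * a ^ p.1)
      hsum (0, q + 1) (q, q)
      (bz13_mem_of_c_ne_zero Φ _ _ hS0)
      (bz13_mem_of_c_ne_zero Φ _ _ hSq) (by simp) (v a ^ (q * q + q)) hg0
      (by
        rintro ⟨i, k⟩ - hne0 hne1'
        by_cases hc : bz13_c Φ i k = 0
        · simp only [hc, Int.cast_zero, zero_mul, map_zero]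
          exact zero_lt_iff.2 hg0
        · simp only
          rw [hval2 i k hc]
          apply pow_lt_pow_right₀ ha
          rcases hshape i k hc with ⟨rfl, rfl⟩ | ⟨rfl, rfl⟩ | ⟨hi, hk⟩
          · have : 2 * q ≤ q * q := Nat.mul_le_mul_right q hq
            omega
          · exact absurd rfl hne0
          · by_cases hk' : k = q
            · subst hk'
              have : i ≠ k := fun h => hne1' (by rw [h])
              omega
            · have h4 : q * (k + 1) ≤ q * q := Nat.mul_le_mul_left q (by omega)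
              have h5 : q * (k + 1) = q * k + q := by ring
              omega)
    simp only [hcqq, Int.cast_neg, Int.cast_one, pow_zero, mul_one] at h3
    have h4 : ((bz13_c Φ 0 (q + 1) - 1 : ℤ) : F) * b ^ (q + 1) =
        ((bz13_c Φ 0 (q + 1) : F) * b ^ (q + 1) + -1 * b ^ q * a ^ q) +
          -(b ^ q * (b - a ^ q)) := by
      push_cast; ring
    have h5 : v (-(b ^ q * (b - a ^ q))) < v a ^ (q * q + q) := by
      rw [Valuation.map_neg]; exact hrest
    have h6 := v.map_add_lt h3 h5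
    rw [← h4, map_mul, hbpow, hv _ (by intro h0; apply hcon; omega), one_mul] at h6
    exact lt_irrefl _ h6
  exact ⟨hshape, hc10, hc0, hcqq⟩

end bz13_shape

section bz13_dich

variable {F Γ₀ : Type*} [Field F] [LinearOrderedCommGroupWithZero Γ₀] (v : Valuation F Γ₀)

/-- bound for the valuation of a monomial term. -/
theorem bz13_term_le (Φ : Polynomial (Polynomial ℤ)) (x y : F) (i k : ℕ) :
    v ((bz13_c Φ i k : F) * y ^ k * x ^ i) ≤ v y ^ k * v x ^ i := by
  rw [map_mul, map_mul, map_pow, map_pow]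
  exact mul_le_mul' (mul_le_of_le_one_left' (bz13_intCast_le_one v _)) le_rfl

/-- **Newton dichotomy at a cusp**: at a valuation where both `a = j` and `b = j_q` have a
pole, `v b = v a ^ q` or `v a = v b ^ q`. -/
theorem bz13_dichotomy (q : ℕ) (hq : 2 ≤ q) (Φ : Polynomial (Polynomial ℤ))
    (hshape : ∀ i k, bz13_c Φ i k ≠ 0 →
      (i = q + 1 ∧ k = 0) ∨ (i = 0 ∧ k = q + 1) ∨ (i ≤ q ∧ k ≤ q))
    (h10 : bz13_c Φ (q + 1) 0 = 1) (h01 : bz13_c Φ 0 (q + 1) = 1) (hqq : bz13_c Φ q q = -1)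
    (a b : F) (ha : 1 < v a) (hb : 1 < v b)
    (h1 : Φ.eval₂ (eval₂RingHom (Int.castRingHom F) a) b = 0) :
    v b = v a ^ q ∨ v a = v b ^ q := by
  have hα0 : v a ≠ 0 := ne_zero_of_lt ha
  have hβ0 : v b ≠ 0 := ne_zero_of_lt hb
  have ha0 : a ≠ 0 := (Valuation.ne_zero_iff v).1 hα0
  have hb0 : b ≠ 0 := (Valuation.ne_zero_iff v).1 hβ0
  have hαp : ∀ n : ℕ, 0 < v a ^ n := fun n => zero_lt_iff.2 (pow_ne_zero _ hα0)
  have hβp : ∀ n : ℕ, 0 < v b ^ n := fun n => zero_lt_iff.2 (pow_ne_zero _ hβ0)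
  have hq0 : q ≠ 0 := by omega
  -- the three special terms
  have hvqq : v ((bz13_c Φ q q : F) * a ^ q * b ^ q) = v a ^ q * v b ^ q := by
    rw [hqq]; simp
  have hv10 : v ((bz13_c Φ (q + 1) 0 : F) * a ^ 0 * b ^ (q + 1)) = v b ^ (q + 1) := by
    rw [h10]; simp
  have hv01 : v ((bz13_c Φ 0 (q + 1) : F) * a ^ (q + 1) * b ^ 0) = v a ^ (q + 1) := by
    rw [h01]; simp
  have hneqq : (bz13_c Φ q q : F) * a ^ q * b ^ q ≠ 0 := by
    rw [hqq]; simp [ha0, hb0]
  have hne10 : (bz13_c Φ (q + 1) 0 : F) * a ^ 0 * b ^ (q + 1) ≠ 0 := by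
    rw [h10]; simp [hb0]
  have hne01 : (bz13_c Φ 0 (q + 1) : F) * a ^ (q + 1) * b ^ 0 ≠ 0 := by
    rw [h01]; simp [ha0]
  -- generic terms are strictly smaller than the mixed term
  have hgen : ∀ i k, i ≤ q → k ≤ q → (i, k) ≠ (q, q) →
      v a ^ k * v b ^ i < v a ^ q * v b ^ q := by
    intro i k hi hk hne
    by_cases hi' : i = q
    · subst hi'
      have hk' : k < i := lt_of_le_of_ne hk (fun h => hne (by rw [h]))
      exact mul_lt_mul_of_pos_right (pow_lt_pow_right₀ ha hk') (hβp _)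
    · have hi'' : i < q := lt_of_le_of_ne hi hi'
      calc v a ^ k * v b ^ i ≤ v a ^ q * v b ^ i :=
            mul_le_mul' (pow_le_pow_right₀ ha.le hk) le_rfl
        _ < v a ^ q * v b ^ q :=
            (mul_lt_mul_iff_of_pos_left (hαp _)).mpr (pow_lt_pow_right₀ hb hi'')
  obtain ⟨i, k, hne, hc, hle⟩ := bz13_U v Φ b a h1 q q hneqq
  rw [hvqq] at hle
  have hle' := hle.trans (bz13_term_le v Φ b a i k)
  rcases hshape i k hc with ⟨rfl, rfl⟩ | ⟨rfl, rfl⟩ | ⟨hi, hk⟩
  · -- `v a ^ q ≤ v b`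
    left
    have h3 : v a ^ q ≤ v b := by
      rw [pow_zero, one_mul, pow_succ] at hle'
      rw [mul_comm] at hle'
      exact le_of_mul_le_mul_left hle' (hβp _)
    refine le_antisymm ?_ h3
    obtain ⟨i', k', hne', hc', hle2⟩ := bz13_U v Φ b a h1 (q + 1) 0 hne10
    rw [hv10] at hle2
    have hle2' := hle2.trans (bz13_term_le v Φ b a i' k')
    rcases hshape i' k' hc' with ⟨rfl, rfl⟩ | ⟨rfl, rfl⟩ | ⟨hi', hk'⟩
    · exact absurd rfl hne'
    · exfalso
      rw [pow_zero, mul_one] at hle2'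
      have h4 : v b ≤ v a := (pow_le_pow_iff_left₀ zero_le zero_le (by omega)).1 hle2'
      have h5 : v a < v a ^ q := by
        calc v a = v a ^ 1 := (pow_one _).symm
          _ < v a ^ q := pow_lt_pow_right₀ ha (by omega)
      exact lt_irrefl _ (lt_of_lt_of_le h5 (h3.trans h4))
    · have h4 : v a ^ k' ≤ v b := (pow_le_pow_right₀ ha.le hk').trans h3
      have h5 : v b ^ (q + 1) ≤ v b ^ (i' + 1) := by
        calc v b ^ (q + 1) ≤ v a ^ k' * v b ^ i' := hle2'
          _ ≤ v b * v b ^ i' := mul_le_mul' h4 le_rfl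
          _ = v b ^ (i' + 1) := by rw [pow_succ, mul_comm]
      have h6 : q + 1 ≤ i' + 1 := (pow_le_pow_iff_right₀ hb).1 h5
      have h7 : i' = q := by omega
      subst h7
      rw [pow_succ, mul_comm (v a ^ k')] at hle2'
      exact (le_of_mul_le_mul_left hle2' (hβp _)).trans (pow_le_pow_right₀ ha.le hk')
  · -- `v b ^ q ≤ v a`
    right
    have h3 : v b ^ q ≤ v a := by
      rw [pow_zero, mul_one, pow_succ] at hle'
      exact le_of_mul_le_mul_left hle' (hαp _)
    refine le_antisymm ?_ h3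
    obtain ⟨i', k', hne', hc', hle2⟩ := bz13_U v Φ b a h1 0 (q + 1) hne01
    rw [hv01] at hle2
    have hle2' := hle2.trans (bz13_term_le v Φ b a i' k')
    rcases hshape i' k' hc' with ⟨rfl, rfl⟩ | ⟨rfl, rfl⟩ | ⟨hi', hk'⟩
    · exfalso
      rw [pow_zero, one_mul] at hle2'
      have h4 : v a ≤ v b := (pow_le_pow_iff_left₀ zero_le zero_le (by omega)).1 hle2'
      have h5 : v b < v b ^ q := by
        calc v b = v b ^ 1 := (pow_one _).symm
          _ < v b ^ q := pow_lt_pow_right₀ hb (by omega)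
      exact lt_irrefl _ (lt_of_lt_of_le h5 (h3.trans h4))
    · exact absurd rfl hne'
    · have h4 : v b ^ i' ≤ v a := (pow_le_pow_right₀ hb.le hi').trans h3
      have h5 : v a ^ (q + 1) ≤ v a ^ (k' + 1) := by
        calc v a ^ (q + 1) ≤ v a ^ k' * v b ^ i' := hle2'
          _ ≤ v a ^ k' * v a := mul_le_mul' le_rfl h4
          _ = v a ^ (k' + 1) := by rw [pow_succ]
      have h6 : q + 1 ≤ k' + 1 := (pow_le_pow_iff_right₀ ha).1 h5
      have h7 : k' = q := by omega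
      subst h7
      rw [pow_succ] at hle2'
      exact (le_of_mul_le_mul_left hle2' (hαp _)).trans (pow_le_pow_right₀ hb.le hi')
  · exact absurd hle' (not_le.2 (hgen i k hi hk hne))

/-- a root of a polynomial monic in `X` is integral at every valuation where the parameter
is. -/
theorem bz13_monic_le_one (q : ℕ) (Φ : Polynomial (Polynomial ℤ)) (hmon : Φ.Monic)
    (hdeg : Φ.natDegree = q + 1) (a b : F) (ha : v a ≤ 1)
    (h1 : Φ.eval₂ (eval₂RingHom (Int.castRingHom F) a) b = 0) : v b ≤ 1 := by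
  obtain ⟨hc10, hctop, hci⟩ := bz13_c_top q Φ hmon hdeg
  by_contra hcon
  push Not at hcon
  have hβ0 : v b ≠ 0 := ne_zero_of_lt hcon
  have hb0 : b ≠ 0 := (Valuation.ne_zero_iff v).1 hβ0
  have hne10 : (bz13_c Φ (q + 1) 0 : F) * a ^ 0 * b ^ (q + 1) ≠ 0 := by
    rw [hc10]; simp [hb0]
  have hv10 : v ((bz13_c Φ (q + 1) 0 : F) * a ^ 0 * b ^ (q + 1)) = v b ^ (q + 1) := by
    rw [hc10]; simp
  obtain ⟨i, k, hne, hc, hle⟩ := bz13_U v Φ b a h1 (q + 1) 0 hne10
  rw [hv10] at hle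
  have hle' : v b ^ (q + 1) ≤ v b ^ i := by
    calc v b ^ (q + 1) ≤ v a ^ k * v b ^ i := hle.trans (bz13_term_le v Φ b a i k)
      _ ≤ 1 * v b ^ i := mul_le_mul' (pow_le_one' ha k) le_rfl
      _ = v b ^ i := one_mul _
  have h3 : q + 1 ≤ i := (pow_le_pow_iff_right₀ hcon).1 hle'
  have h4 : i = q + 1 := le_antisymm (hci i k hc) h3
  subst h4
  have h5 := hctop k hc
  subst h5
  exact hne rfl

end bz13_dich

end Fermat.Agent.S34
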