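import Fermat.Agent.S37.Kronecker87

/-!
# S34 lab, row P3c-core (helper90): the modular equation of prime level with its total degree

The modular equation `Φ ∈ ℤ[Y][X]` of prime level `p` (the `Φ` of `kc87_exists`, helper87, built
by `h93_family`, S28) has all its monomials `X^a Y^b` of total degree `a + b ≤ 2 p`: the
coefficient of `X^a` is, up to sign, an elementary symmetric function of
`J(w^(p^2)), J(ζ^b w)` (`b < p`), of pole order `≤ p^2 + p - a` in `w`, and a polynomial of degree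
`d` in `J(w^p)` has pole order exactly `p d`.

* `mpd90_PoleLE x A` : the coefficients of the Laurent series `x` vanish below `-A`.
* `mpd90_exists` : `kc87_exists` with the additional clause
  `∀ a b, (Φ.coeff a).coeff b ≠ 0 → a + b ≤ 2 * p`.
* `mpd90_rel` : the data `S`, `c` consumed by `cs90_main` (CuspSep90.lean), with the relation
  `∑ c(a,b) y^a j^b = 0` for `j = J`, `y = J(q^p)` in any commutative ring mapping injectively to
  a ring of Laurent series; `mpd90_rel_fullC` : the same inside `modularFunctionFieldFullC K M`.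
-/

set_option autoImplicit false
set_option linter.style.haveILetI false

open ModularCurve

namespace Fermat.Agent.S34

open Fermat.Agent.S28 Fermat.Agent.S37

noncomputable section

/-! ### Pole orders -/

section Pole

variable {R : Type*} [CommRing R]

/-- The coefficients of `x` vanish below `-A` ("pole order at most `A`"). -/
def mpd90_PoleLE (x : LaurentSeries R) (A : ℤ) : Prop := ((-A : ℤ) : WithTop ℤ) ≤ x.orderTop

theorem mpd90_poleLE_iff (x : LaurentSeries R) (A : ℤ) :
    mpd90_PoleLE x A ↔ ∀ n : ℤ, n < -A → x.coeff n = 0 := by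
  unfold mpd90_PoleLE
  rw [HahnSeries.le_orderTop_iff_forall]
  constructor
  · intro h n hn
    exact h n (by exact_mod_cast hn)
  · intro h n hn
    exact h n (by exact_mod_cast hn)

theorem mpd90_poleLE_mono {x : LaurentSeries R} {A B : ℤ} (h : A ≤ B) (hx : mpd90_PoleLE x A) :
    mpd90_PoleLE x B := by
  rw [mpd90_poleLE_iff] at hx ⊢
  intro n hn
  exact hx n (by omega)

theorem mpd90_poleLE_zero (A : ℤ) : mpd90_PoleLE (0 : LaurentSeries R) A := by
  rw [mpd90_poleLE_iff]
  intro n _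
  rfl

theorem mpd90_poleLE_one : mpd90_PoleLE (1 : LaurentSeries R) 0 := by
  rw [mpd90_poleLE_iff]
  intro n hn
  rw [HahnSeries.coeff_one, if_neg (by omega)]

theorem mpd90_poleLE_add {x y : LaurentSeries R} {A : ℤ} (hx : mpd90_PoleLE x A)
    (hy : mpd90_PoleLE y A) : mpd90_PoleLE (x + y) A :=
  le_trans (le_min hx hy) HahnSeries.min_orderTop_le_orderTop_add

theorem mpd90_poleLE_neg {x : LaurentSeries R} {A : ℤ} (hx : mpd90_PoleLE x A) :
    mpd90_PoleLE (-x) A := by
  unfold mpd90_PoleLE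
  rw [HahnSeries.orderTop_neg]
  exact hx

theorem mpd90_poleLE_sub {x y : LaurentSeries R} {A : ℤ} (hx : mpd90_PoleLE x A)
    (hy : mpd90_PoleLE y A) : mpd90_PoleLE (x - y) A := by
  rw [sub_eq_add_neg]
  exact mpd90_poleLE_add hx (mpd90_poleLE_neg hy)

theorem mpd90_poleLE_mul {x y : LaurentSeries R} {A B : ℤ} (hx : mpd90_PoleLE x A)
    (hy : mpd90_PoleLE y B) : mpd90_PoleLE (x * y) (A + B) := by
  unfold mpd90_PoleLE at hx hy ⊢
  refine le_trans ?_ HahnSeries.orderTop_add_le_mul
  have h : ((-(A + B) : ℤ) : WithTop ℤ) = ((-A : ℤ) : WithTop ℤ) + ((-B : ℤ) : WithTop ℤ) := by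
    rw [← WithTop.coe_add]
    congr 1
    ring
  rw [h]
  exact add_le_add hx hy

/-- The coefficient of `X^k` in `∏_{i ∈ s} (X - r i)` has pole order at most `#s - k` when the
`r i` have pole order at most `1`. -/
theorem mpd90_prod_coeff {ι : Type*} (s : Finset ι) (r : ι → LaurentSeries R)
    (hr : ∀ i ∈ s, mpd90_PoleLE (r i) 1) (k : ℕ) :
    mpd90_PoleLE ((∏ i ∈ s, (Polynomial.X - Polynomial.C (r i))).coeff k)
      ((s.card : ℤ) - k) := by
  classical
  induction s using Finset.induction_on generalizing k with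
  | empty =>
    rw [Finset.prod_empty, Finset.card_empty, Polynomial.coeff_one]
    split_ifs with h
    · subst h
      simpa using (mpd90_poleLE_one (R := R))
    · exact mpd90_poleLE_zero _
  | insert a s ha ih =>
    rw [Finset.prod_insert ha, Finset.card_insert_of_notMem ha]
    have hra := hr a (Finset.mem_insert_self a s)
    have ih' := fun k => ih (fun i hi => hr i (Finset.mem_insert_of_mem hi)) k
    rw [sub_mul, Polynomial.coeff_sub, Polynomial.coeff_C_mul]
    cases k with
    | zero =>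
      rw [Polynomial.coeff_X_mul_zero, zero_sub]
      refine mpd90_poleLE_neg (mpd90_poleLE_mono ?_ (mpd90_poleLE_mul hra (ih' 0)))
      push_cast
      omega
    | succ k =>
      rw [Polynomial.coeff_X_mul]
      refine mpd90_poleLE_sub (mpd90_poleLE_mono ?_ (ih' k))
        (mpd90_poleLE_mono ?_ (mpd90_poleLE_mul hra (ih' (k + 1))))
      · push_cast
        omega
      · push_cast
        omega

end Pole

/-! ### The pole orders of the coefficients of the modular equation -/

theorem mpd90_poleLE_twist (ξ : ℂˣ) : mpd90_PoleLE (twist ξ (jqModC ℂ)) 1 := by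
  rw [mpd90_poleLE_iff]
  intro n hn
  rw [twist_coeff, coeff_jqModC_of_lt ℂ hn, mul_zero]

theorem mpd90_poleLE_root (p : ℕ) [NeZero p] :
    mpd90_PoleLE (qExpand ℂ p (qExpand ℂ p (jqModC ℂ))) ((p : ℤ) ^ 2) := by
  rw [mpd90_poleLE_iff]
  intro n hn
  have hp : (0 : ℤ) < p := by exact_mod_cast Nat.pos_of_ne_zero (NeZero.ne p)
  by_cases h1 : (p : ℤ) ∣ n
  · obtain ⟨m, rfl⟩ := h1
    rw [qExpand_coeff_mul]
    by_cases h2 : (p : ℤ) ∣ m
    · obtain ⟨m', rfl⟩ := h2
      rw [qExpand_coeff_mul]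
      apply coeff_jqModC_of_lt
      nlinarith
    · exact qExpand_coeff_of_not_dvd p _ h2
  · exact qExpand_coeff_of_not_dvd p _ h1

/-- The coefficient of `X^a` in `(X - J(w^(p^2))) ∏_b (X - J(ζ^b w))` has pole order at most
`p^2 + p - a`. -/
theorem mpd90_Phi_coeff (p : ℕ) [NeZero p] (ζ : ℂˣ) (a : ℕ) :
    mpd90_PoleLE ((h82_Phi ℂ p ζ).coeff a) ((p : ℤ) ^ 2 + p - a) := by
  have hp : (1 : ℤ) ≤ p := by exact_mod_cast Nat.pos_of_ne_zero (NeZero.ne p)
  have hP := fun k => mpd90_prod_coeff (Finset.univ : Finset (Fin p))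
    (fun b => twist (ζ ^ (b : ℕ)) (jqModC ℂ)) (fun b _ => mpd90_poleLE_twist _) k
  rw [Finset.card_univ, Fintype.card_fin] at hP
  unfold h82_Phi
  rw [sub_mul, Polynomial.coeff_sub, Polynomial.coeff_C_mul]
  cases a with
  | zero =>
    rw [Polynomial.coeff_X_mul_zero, zero_sub]
    refine mpd90_poleLE_neg (mpd90_poleLE_mono ?_ (mpd90_poleLE_mul (mpd90_poleLE_root p) (hP 0)))
    push_cast
    omega
  | succ a =>
    rw [Polynomial.coeff_X_mul]
    refine mpd90_poleLE_sub (mpd90_poleLE_mono ?_ (hP a))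
      (mpd90_poleLE_mono ?_ (mpd90_poleLE_mul (mpd90_poleLE_root p) (hP (a + 1))))
    · push_cast
      nlinarith
    · push_cast
      omega

/-- `Θ c = c(J(w^p))`. -/
theorem mpd90_Theta_eq (p : ℕ) [NeZero p] (c : Polynomial ℤ) :
    kc87_Theta ℂ p c =
      c.eval₂ (Int.castRingHom (LaurentSeries ℂ)) (qExpand ℂ p (jqModC ℂ)) := by
  unfold kc87_Theta evJ
  rw [RingHom.comp_apply, Polynomial.coe_eval₂RingHom, Polynomial.hom_eval₂]
  congr 1
  exact RingHom.ext_int _ _

/-- The coefficient of `w^(-p d)` in `c(J(w^p))`, `d = deg c`, is the leading coefficient. -/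
theorem mpd90_Theta_coeff (p : ℕ) [NeZero p] (c : Polynomial ℤ) :
    (kc87_Theta ℂ p c).coeff (-((p : ℤ) * c.natDegree)) = (c.leadingCoeff : ℂ) := by
  have hp : (0 : ℤ) < p := by exact_mod_cast Nat.pos_of_ne_zero (NeZero.ne p)
  rw [mpd90_Theta_eq, Polynomial.eval₂_eq_sum_range, HahnSeries.coeff_sum, Finset.sum_range_succ]
  have hterm : ∀ i : ℕ, (Int.castRingHom (LaurentSeries ℂ) (c.coeff i) *
      qExpand ℂ p (jqModC ℂ) ^ i).coeff (-((p : ℤ) * c.natDegree)) =
      (c.coeff i : ℂ) * (qExpand ℂ p (jqModC ℂ) ^ i).coeff (-((p : ℤ) * c.natDegree)) := by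
    intro i
    have h1 : Int.castRingHom (LaurentSeries ℂ) (c.coeff i) = HahnSeries.C ((c.coeff i : ℤ) : ℂ) := by
      rw [eq_intCast, map_intCast]
    rw [h1, HahnSeries.C_mul_eq_smul, HahnSeries.coeff_smul, smul_eq_mul]
  rw [hterm, h93_jpow_coeff_self, mul_one, Finset.sum_eq_zero, zero_add]
  · rfl
  · intro i hi
    rw [hterm, h93_jpow_coeff_of_lt, mul_zero]
    have hi' : (i : ℤ) < c.natDegree := by exact_mod_cast Finset.mem_range.mp hi
    nlinarith

/-- A nonzero polynomial `c` with `c(J(w^p))` of pole order at most `A` has `p · deg c ≤ A`. -/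
theorem mpd90_natDegree_le (p : ℕ) [NeZero p] (c : Polynomial ℤ) (hc : c ≠ 0) (A : ℤ)
    (h : mpd90_PoleLE (kc87_Theta ℂ p c) A) : (p : ℤ) * c.natDegree ≤ A := by
  by_contra hlt
  rw [not_le] at hlt
  have h0 := (mpd90_poleLE_iff _ _).mp h (-((p : ℤ) * c.natDegree)) (by linarith)
  rw [mpd90_Theta_coeff] at h0
  exact Polynomial.leadingCoeff_ne_zero.mpr hc (by exact_mod_cast h0)

/-- The total degree bound from the product formula. -/
theorem mpd90_total_degree (p : ℕ) [NeZero p] (hp : 2 ≤ p) (ζ : ℂˣ)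
    (Φ : Polynomial (Polynomial ℤ)) (hmon : Φ.Monic) (hdeg : Φ.natDegree = p + 1)
    (hmap : Φ.map (kc87_Theta ℂ p) = h82_Phi ℂ p ζ) (a b : ℕ)
    (hab : (Φ.coeff a).coeff b ≠ 0) : a + b ≤ 2 * p := by
  have hc : Φ.coeff a ≠ 0 := by
    intro h0
    rw [h0, Polynomial.coeff_zero] at hab
    exact hab rfl
  have ha : a ≤ p + 1 := by
    rw [← hdeg]
    exact Polynomial.le_natDegree_of_ne_zero hc
  have hb : b ≤ (Φ.coeff a).natDegree := Polynomial.le_natDegree_of_ne_zero hab
  rcases Nat.eq_or_lt_of_le ha with rfl | ha'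
  · -- the leading coefficient is `1`
    have h1 : Φ.coeff (p + 1) = 1 := by
      have := hmon.coeff_natDegree
      rwa [hdeg] at this
    rw [h1, Polynomial.coeff_one] at hab
    have hb0 : b = 0 := by
      by_contra hne
      exact hab (if_neg hne)
    omega
  · have hpole : mpd90_PoleLE (kc87_Theta ℂ p (Φ.coeff a)) ((p : ℤ) ^ 2 + p - a) := by
      rw [← Polynomial.coeff_map, hmap]
      exact mpd90_Phi_coeff p ζ a
    have h2 := mpd90_natDegree_le p (Φ.coeff a) hc _ hpole
    have h3 : (p : ℤ) * b ≤ (p : ℤ) ^ 2 + p - a := by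
      have hb' : (b : ℤ) ≤ (Φ.coeff a).natDegree := by exact_mod_cast hb
      have hp0 : (0 : ℤ) ≤ p := by positivity
      nlinarith
    have hpZ : (2 : ℤ) ≤ p := by exact_mod_cast hp
    rcases Nat.eq_zero_or_pos a with rfl | hapos
    · -- `a = 0`: `b ≤ p + 1`
      have hb1 : (b : ℤ) ≤ p + 1 := by
        by_contra hcon
        rw [not_le] at hcon
        push_cast at h3
        nlinarith
      have : b ≤ p + 1 := by exact_mod_cast hb1
      omega
    · -- `1 ≤ a ≤ p`: `b ≤ p`
      have hb1 : (b : ℤ) ≤ p := by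
        by_contra hcon
        rw [not_le] at hcon
        have ha1 : (1 : ℤ) ≤ a := by exact_mod_cast hapos
        nlinarith
      have : b ≤ p := by exact_mod_cast hb1
      omega

/-! ### The modular equation with its total degree -/

/-- **The modular equation of prime level `p`**: `kc87_exists` (helper87) with the additional
clause that every monomial `X^a Y^b` of `Φ` has `a + b ≤ 2 p`.  (The proof of the first clauses
is the proof of `kc87_exists`.) -/
theorem mpd90_exists (p : ℕ) (hp : p.Prime) :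
    ∃ Φ : Polynomial (Polynomial ℤ), Φ.Monic ∧ Φ.natDegree = p + 1 ∧
      Φ.eval₂ (evJ ℤ) (JdC ℤ p) = 0 ∧ Φ.eval₂ (evJd ℤ p) (jqModC ℤ) = 0 ∧
      (∃ Ψ : Polynomial (Polynomial ℤ),
        Φ = (Polynomial.X - Polynomial.C (Polynomial.X ^ p)) *
            (Polynomial.X ^ p - Polynomial.C Polynomial.X) +
          Polynomial.C (Polynomial.C (p : ℤ)) * Ψ) ∧
      ∀ a b : ℕ, (Φ.coeff a).coeff b ≠ 0 → a + b ≤ 2 * p := by
  haveI : NeZero p := ⟨hp.ne_zero⟩
  haveI : Fact p.Prime := ⟨hp⟩
  have hζ : IsPrimitiveRoot (h93_zeta p) p := by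
    rw [← IsPrimitiveRoot.coe_units_iff]
    exact h93_zeta_isPrimitiveRoot p
  have hprod : (∏ i, (Polynomial.X - Polynomial.C (h93_L p i)) : Polynomial (LaurentSeries ℂ)) =
      h82_Phi ℂ p (h93_zeta p) := by
    rw [Fintype.prod_option]
    rfl
  obtain ⟨Φ, hmon, hdeg, hmap⟩ := h93_family (N := p) (Int.castRingHom ℂ) Int.cast_injective
    (h93_F p) (h93_L p) (h93_hasWExp p) (h93_perm p hp)
    (fun k => by rw [hprod]; exact modEq_descent p hp (h93_zeta p) hζ k)
  have hΘ : (coeffMap (Int.castRingHom ℂ)).comp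
      ((qExpand ℤ p).comp (Polynomial.aeval (jqModC ℤ)).toRingHom) = kc87_Theta ℂ p := by
    apply Polynomial.ringHom_ext
    · intro a
      simp [kc87_Theta, evJ]
    · simp [kc87_Theta, evJ, coeffMap_qExpand, coeffMap_jqModC]
  rw [hΘ, hprod] at hmap
  have hcard : Fintype.card (Option (Fin p)) = p + 1 := by
    rw [Fintype.card_option, Fintype.card_fin]
  have hinjC : Function.Injective (coeffMap (Int.castRingHom ℂ)) :=
    h82_coeffMap_injective _ Int.cast_injective
  have hdeg' : Φ.natDegree = p + 1 := by rw [hdeg, hcard]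
  refine ⟨Φ, hmon, hdeg', ?_, ?_, ?_,
    fun a b hab => mpd90_total_degree p hp.two_le (h93_zeta p) Φ hmon hdeg' hmap a b hab⟩
  · -- the root `J(q^(p^2))`
    have hinj : Function.Injective ((coeffMap (Int.castRingHom ℂ)).comp (qExpand ℤ p)) :=
      hinjC.comp (qExpand_injective p)
    apply hinj
    have hψ : ((coeffMap (Int.castRingHom ℂ)).comp (qExpand ℤ p)).comp (evJ ℤ) =
        kc87_Theta ℂ p := by
      rw [RingHom.comp_assoc]
      exact kc87_coeffMap_Theta (Int.castRingHom ℂ) p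
    have hroot : ((coeffMap (Int.castRingHom ℂ)).comp (qExpand ℤ p)) (JdC ℤ p) =
        qExpand ℂ p (qExpand ℂ p (jqModC ℂ)) := by
      show coeffMap _ (qExpand ℤ p (JdC ℤ p)) = qExpand ℂ p (qExpand ℂ p (jqModC ℂ))
      rw [JdC_of_neZero, coeffMap_qExpand, coeffMap_qExpand, coeffMap_jqModC]
    rw [map_zero, Polynomial.hom_eval₂, hψ, ← Polynomial.eval_map, hmap, hroot]
    unfold h82_Phi
    rw [Polynomial.eval_mul]
    simp
  · -- the root `J`
    apply hinjC
    have hψ : (coeffMap (Int.castRingHom ℂ)).comp (evJd ℤ p) = kc87_Theta ℂ p := by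
      rw [kc87_evJd_eq]
      exact kc87_coeffMap_Theta (Int.castRingHom ℂ) p
    rw [map_zero, Polynomial.hom_eval₂, hψ, ← Polynomial.eval_map, hmap, coeffMap_jqModC]
    unfold h82_Phi
    rw [Polynomial.eval_mul, Polynomial.eval_prod]
    apply mul_eq_zero_of_right
    exact Finset.prod_eq_zero (Finset.mem_univ (⟨0, NeZero.pos p⟩ : Fin p))
      (by simp [twist_one])
  · -- the congruence
    obtain ⟨ζ0, hζ0, hζ0p⟩ := kc87_exists_unit p (h93_zeta p) hζ
    obtain ⟨𝔓, hmax, hchar⟩ := kc87_exists_residue p hp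
    letI : Field (h82_Abar ⧸ 𝔓) := Ideal.Quotient.field 𝔓
    have hA : Φ.map (kc87_Theta h82_Abar p) = h82_Phi h82_Abar p ζ0 := by
      apply Polynomial.map_injective _
        (h82_coeffMap_injective (h82_Abar).subtype Subtype.val_injective)
      rw [Polynomial.map_map, kc87_coeffMap_Theta, hmap, h82_Phi_map, hζ0]
    have hκ : Φ.map (kc87_Theta (h82_Abar ⧸ 𝔓) p) =
        h82_Phi (h82_Abar ⧸ 𝔓) p
          (Units.map ((Ideal.Quotient.mk 𝔓 : h82_Abar →+* _) : h82_Abar →* _) ζ0) := by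
      rw [← h82_Phi_map, ← hA, Polynomial.map_map, kc87_coeffMap_Theta]
    rw [kc87_Phi_char _ p _ (by rw [← map_pow, hζ0p, map_one])] at hκ
    have hGκ : ((Polynomial.X - Polynomial.C (Polynomial.X ^ p)) *
        (Polynomial.X ^ p - Polynomial.C Polynomial.X) : Polynomial (Polynomial ℤ)).map
          (kc87_Theta (h82_Abar ⧸ 𝔓) p) = Φ.map (kc87_Theta (h82_Abar ⧸ 𝔓) p) := by
      rw [hκ]
      simp only [Polynomial.map_mul, Polynomial.map_sub, Polynomial.map_X, Polynomial.map_C,
        Polynomial.map_pow, map_pow, kc87_Theta_X]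
    have hdvd : Polynomial.C (Polynomial.C (p : ℤ)) ∣
        Φ - (Polynomial.X - Polynomial.C (Polynomial.X ^ p)) *
          (Polynomial.X ^ p - Polynomial.C Polynomial.X) := by
      rw [Polynomial.C_dvd_iff_dvd_coeff]
      intro k
      apply kc87_Theta_eq_zero (h82_Abar ⧸ 𝔓) p
      rw [← Polynomial.coeff_map, Polynomial.map_sub, hGκ, sub_self, Polynomial.coeff_zero]
    obtain ⟨Ψ, hΨ⟩ := hdvd
    exact ⟨Ψ, by rw [← hΨ]; ring⟩

/-! ### The relation in the shape consumed by `cs90_main` -/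

/-- The coefficients of `(X - Y^q)(X^q - Y)` in total degree `2 q`. -/
theorem mpd90_kron_coeff (q a b : ℕ) (hq : 2 ≤ q) (hab : a + b = 2 * q) :
    (((Polynomial.X - Polynomial.C (Polynomial.X ^ q)) *
      (Polynomial.X ^ q - Polynomial.C Polynomial.X) :
        Polynomial (Polynomial ℤ)).coeff a).coeff b = if a = q then -1 else 0 := by
  have h : ((Polynomial.X - Polynomial.C (Polynomial.X ^ q)) *
      (Polynomial.X ^ q - Polynomial.C Polynomial.X) : Polynomial (Polynomial ℤ)) =
      Polynomial.X ^ (q + 1) - Polynomial.C Polynomial.X * Polynomial.X -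
        Polynomial.C (Polynomial.X ^ q) * Polynomial.X ^ q +
        Polynomial.C (Polynomial.X ^ (q + 1)) := by
    rw [pow_succ (Polynomial.X : Polynomial ℤ) q, Polynomial.C_mul]
    ring
  rw [h]
  simp only [Polynomial.coeff_add, Polynomial.coeff_sub, Polynomial.coeff_X_pow,
    Polynomial.coeff_C_mul, Polynomial.coeff_X, Polynomial.coeff_C]
  by_cases h1 : a = q
  · subst h1
    have hb : b = a := by omega
    subst hb
    have e2 : (1 : ℕ) ≠ b := by omega
    have e3 : b ≠ 0 := by omega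
    simp [e2, e3, Polynomial.coeff_X_pow]
  · by_cases h2 : a = q + 1
    · subst h2
      have e4 : b ≠ 0 := by omega
      have e5 : q ≠ 0 := by omega
      simp [e4, e5, Polynomial.coeff_one]
    · by_cases h3 : a = 1
      · subst h3
        have e2 : (1 : ℕ) ≠ q := by omega
        have e4 : (1 : ℕ) ≠ b := by omega
        have e5 : q ≠ 0 := by omega
        simp [e2, e4, e5, Polynomial.coeff_X]
      · by_cases h4 : a = 0
        · subst h4
          have e2 : (0 : ℕ) ≠ q := by omega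
          have e4 : b ≠ q + 1 := by omega
          simp [e2, e4, Polynomial.coeff_X_pow]
        · have e3 : (1 : ℕ) ≠ a := fun h => h3 h.symm
          simp [h1, h2, e3, h4]

/-- Evaluation of a two-variable integer polynomial as a double sum. -/
theorem mpd90_eval₂_double {A : Type*} [CommRing A] (Φ : Polynomial (Polynomial ℤ)) (j y : A)
    (n m : ℕ) (hn : Φ.natDegree < n) (hm : ∀ a, (Φ.coeff a).natDegree < m) :
    Φ.eval₂ (Polynomial.eval₂RingHom (Int.castRingHom A) j) y =
      ∑ p ∈ Finset.range n ×ˢ Finset.range m,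
        (((Φ.coeff p.1).coeff p.2 : ℤ) : A) * y ^ p.1 * j ^ p.2 := by
  rw [Polynomial.eval₂_eq_sum_range' _ hn, Finset.sum_product]
  refine Finset.sum_congr rfl (fun a _ => ?_)
  rw [Polynomial.coe_eval₂RingHom, Polynomial.eval₂_eq_sum_range' _ (hm a), Finset.sum_mul]
  refine Finset.sum_congr rfl (fun b _ => ?_)
  rw [eq_intCast]
  ring

/-- **The modular relation between `j = J` and `y = J(q^p)`** with the degree and congruence
data of `cs90_main`, in any commutative ring `A` mapping injectively to Laurent series. -/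
theorem mpd90_rel (q : ℕ) (hq : q.Prime) :
    ∃ (S : Finset (ℕ × ℕ)) (c : ℕ × ℕ → ℤ),
      (∀ p ∈ S, p.1 ≤ q + 1) ∧ (∀ p ∈ S, p.1 + p.2 ≤ 2 * q) ∧ (q, q) ∈ S ∧
      ((q : ℤ) ∣ c (q, q) + 1) ∧
      (∀ p ∈ S, p.1 + p.2 = 2 * q → p ≠ (q, q) → (q : ℤ) ∣ c p) ∧
      ∀ (R : Type) [CommRing R] (A : Type) [CommRing A] (ι : A →+* LaurentSeries R),
        Function.Injective ι → ∀ j y : A, ι j = jqModC R → ι y = JdC R q →
          ∑ p ∈ S, (c p : A) * y ^ p.1 * j ^ p.2 = 0 := by
  classical
  obtain ⟨Φ, hmon, hdeg, hroot, -, ⟨Ψ, hΨ⟩, htot⟩ := mpd90_exists q hq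
  have hq2 : 2 ≤ q := hq.two_le
  have hcoeff : ∀ a b : ℕ, (Φ.coeff a).coeff b =
      (((Polynomial.X - Polynomial.C (Polynomial.X ^ q)) *
        (Polynomial.X ^ q - Polynomial.C Polynomial.X) :
          Polynomial (Polynomial ℤ)).coeff a).coeff b + (q : ℤ) * (Ψ.coeff a).coeff b := by
    intro a b
    conv_lhs => rw [hΨ]
    rw [Polynomial.coeff_add, Polynomial.coeff_C_mul, Polynomial.coeff_add, Polynomial.coeff_C_mul]
  refine ⟨(Finset.range (q + 2) ×ˢ Finset.range (2 * q + 1)).filter (fun p => p.1 + p.2 ≤ 2 * q),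
    fun p => (Φ.coeff p.1).coeff p.2, ?_, ?_, ?_, ?_, ?_, ?_⟩
  · intro p hp
    have h1 := (Finset.mem_product.mp (Finset.mem_filter.mp hp).1).1
    have h2 := Finset.mem_range.mp h1
    omega
  · intro p hp
    exact (Finset.mem_filter.mp hp).2
  · refine Finset.mem_filter.mpr ⟨Finset.mem_product.mpr ⟨Finset.mem_range.mpr (by omega),
      Finset.mem_range.mpr (by omega)⟩, ?_⟩
    show q + q ≤ 2 * q
    omega
  · show (q : ℤ) ∣ (Φ.coeff q).coeff q + 1
    rw [hcoeff, mpd90_kron_coeff q q q hq2 (by omega), if_pos rfl]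
    exact ⟨(Ψ.coeff q).coeff q, by ring⟩
  · intro p hp hsum hne
    show (q : ℤ) ∣ (Φ.coeff p.1).coeff p.2
    have hp1 : p.1 ≠ q := by
      intro h1
      apply hne
      have h2 : p.2 = q := by omega
      exact Prod.ext h1 h2
    rw [hcoeff, mpd90_kron_coeff q p.1 p.2 hq2 hsum, if_neg hp1, zero_add]
    exact ⟨_, rfl⟩
  · intro R _ A _ ι hι j y hj hy
    have hn : Φ.natDegree < q + 2 := by omega
    have hm : ∀ a, (Φ.coeff a).natDegree < 2 * q + 1 := by
      intro a
      by_contra hcon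
      rw [not_lt] at hcon
      have hne : Φ.coeff a ≠ 0 := by
        intro h0
        rw [h0, Polynomial.natDegree_zero] at hcon
        omega
      have h1 : (Φ.coeff a).coeff (Φ.coeff a).natDegree ≠ 0 :=
        Polynomial.leadingCoeff_ne_zero.mpr hne
      have h2 := htot a _ h1
      omega
    have hE : Φ.eval₂ (Polynomial.eval₂RingHom (Int.castRingHom A) j) y = 0 := by
      apply hι
      rw [map_zero, Polynomial.hom_eval₂, hy]
      have h1 : ι.comp (Polynomial.eval₂RingHom (Int.castRingHom A) j) = evJ R := by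
        refine Polynomial.ringHom_ext (fun a => ?_) ?_
        · simp [evJ]
        · simp [evJ, hj]
      rw [h1]
      have h2 := congrArg (coeffMap (Int.castRingHom R)) hroot
      rw [map_zero, Polynomial.hom_eval₂, coeffMap_JdC] at h2
      have h3 : (coeffMap (Int.castRingHom R)).comp (evJ ℤ) = evJ R := by
        refine Polynomial.ringHom_ext (fun a => ?_) ?_
        · simp [evJ]
        · simp [evJ, coeffMap_jqModC]
      rw [h3] at h2
      exact h2
    rw [mpd90_eval₂_double Φ j y (q + 2) (2 * q + 1) hn hm] at hE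
    rw [Finset.sum_filter_of_ne]
    · exact hE
    · intro p _ hne
      by_contra hcon
      apply hne
      have h0 : (Φ.coeff p.1).coeff p.2 = 0 := by
        by_contra h1
        exact hcon (htot p.1 p.2 h1)
      show (((Φ.coeff p.1).coeff p.2 : ℤ) : A) * y ^ p.1 * j ^ p.2 = 0
      rw [h0, Int.cast_zero, zero_mul, zero_mul]

/-- The modular relation inside the function field `F_K(M)`: for `j, y ∈ F_K(M)` with expansions
`J` and `J(q^p)`. -/
theorem mpd90_rel_fullC (q : ℕ) (hq : q.Prime) :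
    ∃ (S : Finset (ℕ × ℕ)) (c : ℕ × ℕ → ℤ),
      (∀ p ∈ S, p.1 ≤ q + 1) ∧ (∀ p ∈ S, p.1 + p.2 ≤ 2 * q) ∧ (q, q) ∈ S ∧
      ((q : ℤ) ∣ c (q, q) + 1) ∧
      (∀ p ∈ S, p.1 + p.2 = 2 * q → p ≠ (q, q) → (q : ℤ) ∣ c p) ∧
      ∀ (K : Type) [Field K] (M : ℕ) (j y : ↥(modularFunctionFieldFullC K M)),
        (j : LaurentSeries K) = jqModC K → (y : LaurentSeries K) = JdC K q →
          ∑ p ∈ S, (c p : ↥(modularFunctionFieldFullC K M)) * y ^ p.1 * j ^ p.2 = 0 := by
  obtain ⟨S, c, h1, h2, h3, h4, h5, h6⟩ := mpd90_rel q hq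
  refine ⟨S, c, h1, h2, h3, h4, h5, ?_⟩
  intro K _ M j y hj hy
  exact h6 K ↥(modularFunctionFieldFullC K M) (modularFunctionFieldFullC K M).val.toRingHom
    Subtype.val_injective j y hj hy

end

end Fermat.Agent.S34
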