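import Fermat.Agent.S34.ModPolyDeg78

/-!
# S34 lab (helper78): the modular equation of prime level in the literal consumer shapes

Adapter file on top of `ModPolyDeg78` (`mps78_modEq`).

* `mps78_hi95 q hq` : ONE polynomial `Φ ∈ ℤ[Y][X]` with the degree data of `hi95_main_two` /
  `hi95_main_three` (HauptInt95) — the shape requested in registry row 489: monic of degree
  `q + 1`, `Φ(J(Q^q); J) = 0`, `deg_Y (coeff a) ≤ q` for `1 ≤ a ≤ q`, `deg_Y (coeff 0) ≤ q + 1`,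
  the coefficient of `Y ^ (q + 1)` in `coeff 0` is a unit of `ℤ`, the coefficient of `X ^ q Y ^ q`
  is `≡ -1 mod q`.
* `mps78_haupt q hq` : the same `Φ` with, in addition, the congruence
  `(Φ.coeff 0).coeff (q + 1) ≡ 1 mod q` (hypothesis `hlead` of `kb96_main`, BetaLocal96) and the
  swapped relation `Φ(J; J(Q^q)) = 0`.
* `mps78_rel_fullC` / `mps78_rel_fullC_swap` (and the general `mps78_rel_of_emb`,
  `mps78_rel_of_emb_swap`): from the relation over `ℤ` to the relations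
  `Φ(J(Q^(d q)); J(Q^d)) = 0 = Φ(J(Q^d); J(Q^(d q)))` inside every `modularFunctionFieldFullC K M`
  (resp. every ring embedded in `K((Q))`), `d ≠ 0`, in the `Polynomial.aeval` form of the
  hypotheses `e1`, `e2` of `hi95_main_two` and `hrel` of `kb96_main`; stated for an ARBITRARY
  instance `Algebra ℤ F`, so that they unify with whatever instance the consumer's goal carries.
-/

set_option autoImplicit false

open ModularCurve Polynomial Polynomial.Bivariate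

namespace Fermat.Agent.S34

open Fermat.Agent.S28 Fermat.Agent.S37

/-- **Kronecker congruence, coefficient of `X ^ 0 Y ^ (q + 1)`**: it is `≡ 1 mod q`. -/
theorem mps78_coeff_zero_top (q : ℕ) (hq : 1 ≤ q) (Φ Ψ : Polynomial (Polynomial ℤ))
    (hΦ : Φ = (X - C (X ^ q)) * (X ^ q - C X) + C (C (q : ℤ)) * Ψ) :
    (Φ.coeff 0).coeff (q + 1) = 1 + (q : ℤ) * (Ψ.coeff 0).coeff (q + 1) := by
  have h1 : Φ = X ^ (q + 1) - C X * X - C (X ^ q) * X ^ q + C (X ^ (q + 1))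
      + C (C (q : ℤ)) * Ψ := by
    rw [hΦ]
    have : (C (X ^ (q + 1)) : Polynomial (Polynomial ℤ)) = C (X ^ q) * C X := by
      rw [← C_mul, pow_succ]
    rw [this]; ring
  have hq0 : (0 : ℕ) ≠ q := by omega
  have hq1 : (0 : ℕ) ≠ q + 1 := by omega
  have hX : ((X : Polynomial (Polynomial ℤ)).coeff 0) = 0 := coeff_X_zero
  rw [h1]
  simp only [coeff_add, coeff_sub, coeff_X_pow, coeff_C_mul, coeff_C, hX,
    if_neg hq0, if_neg hq1, if_true, mul_zero, sub_zero, zero_add]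

/-- The ring homomorphism underlying `aeval j` on `ℤ[Y]` does not depend on the `ℤ`-algebra
instance and commutes with ring homomorphisms. -/
theorem mps78_comp_aeval {F L : Type*} [CommRing F] [CommRing L] [Algebra ℤ F] [Algebra ℤ L]
    (ψ : F →+* L) (j : F) :
    ψ.comp ((Polynomial.aeval j : Polynomial ℤ →ₐ[ℤ] F) : Polynomial ℤ →+* F) =
      ((Polynomial.aeval (ψ j) : Polynomial ℤ →ₐ[ℤ] L) : Polynomial ℤ →+* L) := by
  refine Polynomial.ringHom_ext' (RingHom.ext_int _ _) ?_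
  simp

/-- Pull a bivariate relation back along an injective ring homomorphism. -/
theorem mps78_eval_of_injective {F L : Type*} [CommRing F] [CommRing L] [Algebra ℤ F]
    [Algebra ℤ L] (ι : F →+* L)
    (hι : Function.Injective ι) (Φ : Polynomial (Polynomial ℤ)) (j y : F)
    (h : Φ.eval₂ ((Polynomial.aeval (ι j) : Polynomial ℤ →ₐ[ℤ] L) : Polynomial ℤ →+* L)
      (ι y) = 0) :
    Φ.eval₂ ((Polynomial.aeval j : Polynomial ℤ →ₐ[ℤ] F) : Polynomial ℤ →+* F) y = 0 := by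
  apply hι
  rw [Polynomial.hom_eval₂, map_zero, mps78_comp_aeval]
  exact h

/-- Push a bivariate relation forward along a ring homomorphism. -/
theorem mps78_eval_map {F L : Type*} [CommRing F] [CommRing L] [Algebra ℤ L] (ψ : F →+* L)
    (Φ : Polynomial (Polynomial ℤ)) (f : Polynomial ℤ →+* F) (y : F)
    (h : Φ.eval₂ f y = 0) :
    Φ.eval₂ ((Polynomial.aeval (ψ (f X)) : Polynomial ℤ →ₐ[ℤ] L) : Polynomial ℤ →+* L)
      (ψ y) = 0 := by
  have h1 := congrArg ψ h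
  rw [Polynomial.hom_eval₂, map_zero] at h1
  have h2 : ψ.comp f =
      ((Polynomial.aeval (ψ (f X)) : Polynomial ℤ →ₐ[ℤ] L) : Polynomial ℤ →+* L) := by
    refine Polynomial.ringHom_ext' (RingHom.ext_int _ _) ?_
    simp
  rw [h2] at h1
  exact h1

/-- the substitution `Q ↦ Q ^ d` after base change `ℤ → R`. -/
noncomputable def mps78_psi (R : Type*) [CommRing R] (d : ℕ) :
    LaurentSeries ℤ →+* LaurentSeries R :=
  (qE R d).comp (coeffMap (Int.castRingHom R))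

theorem mps78_psi_J (R : Type*) [CommRing R] (d : ℕ) :
    mps78_psi R d (jqModC ℤ) = JdC R d := by
  show qE R d (coeffMap (Int.castRingHom R) (jqModC ℤ)) = _
  rw [coeffMap_jqModC]
  rfl

theorem mps78_psi_Jd (R : Type*) [CommRing R] (d q : ℕ) (hd : d ≠ 0) (hq : q ≠ 0) :
    mps78_psi R d (JdC ℤ q) = JdC R (d * q) := by
  show qE R d (coeffMap (Int.castRingHom R) (JdC ℤ q)) = _
  rw [coeffMap_JdC]
  unfold JdC
  rw [qE_qE R hd hq]

/-- `Φ(J(Q^q); J) = 0` over `ℤ` gives `Φ(J(Q^(d q)); J(Q^d)) = 0` over every ring. -/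
theorem mps78_evJ_map (R : Type*) [CommRing R] [Algebra ℤ (LaurentSeries R)] (d q : ℕ)
    (hd : d ≠ 0) (hq : q ≠ 0)
    (Φ : Polynomial (Polynomial ℤ)) (h : Φ.eval₂ (evJ ℤ) (JdC ℤ q) = 0) :
    Φ.eval₂ ((Polynomial.aeval (JdC R d) : Polynomial ℤ →ₐ[ℤ] LaurentSeries R) :
      Polynomial ℤ →+* LaurentSeries R) (JdC R (d * q)) = 0 := by
  have h1 := mps78_eval_map (mps78_psi R d) Φ (evJ ℤ) (JdC ℤ q) h
  have h2 : evJ ℤ X = jqModC ℤ := by simp [evJ]
  rw [h2, mps78_psi_J, mps78_psi_Jd R d q hd hq] at h1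
  exact h1

/-- `Φ(J; J(Q^q)) = 0` over `ℤ` gives `Φ(J(Q^d); J(Q^(d q))) = 0` over every ring. -/
theorem mps78_evJd_map (R : Type*) [CommRing R] [Algebra ℤ (LaurentSeries R)] (d q : ℕ)
    (hd : d ≠ 0) (hq : q ≠ 0)
    (Φ : Polynomial (Polynomial ℤ)) (h : Φ.eval₂ (evJd ℤ q) (jqModC ℤ) = 0) :
    Φ.eval₂ ((Polynomial.aeval (JdC R (d * q)) : Polynomial ℤ →ₐ[ℤ] LaurentSeries R) :
      Polynomial ℤ →+* LaurentSeries R) (JdC R d) = 0 := by
  have h1 := mps78_eval_map (mps78_psi R d) Φ (evJd ℤ q) (jqModC ℤ) h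
  have h2 : evJd ℤ q X = JdC ℤ q := by simp [evJd]
  rw [h2, mps78_psi_J, mps78_psi_Jd R d q hd hq] at h1
  exact h1

/-- **The relation `Φ(y; j) = 0` in a ring `F` embedded in `K((Q))`**, for `j = J(Q^d)`,
`y = J(Q^(d q))`, from the relation over `ℤ` (any `ℤ`-algebra instance on `F`). -/
theorem mps78_rel_of_emb (q : ℕ) (hq : q ≠ 0) (Φ : Polynomial (Polynomial ℤ))
    (h : Φ.eval₂ (evJ ℤ) (JdC ℤ q) = 0) {K F : Type*} [CommRing K] [CommRing F] [Algebra ℤ F]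
    (ι : F →+* LaurentSeries K) (hι : Function.Injective ι) (d : ℕ) (hd : d ≠ 0) (j y : F)
    (hj : ι j = JdC K d) (hy : ι y = JdC K (d * q)) :
    Φ.eval₂ ((Polynomial.aeval j : Polynomial ℤ →ₐ[ℤ] F) : Polynomial ℤ →+* F) y = 0 := by
  refine mps78_eval_of_injective ι hι Φ j y ?_
  rw [hj, hy]
  exact mps78_evJ_map K d q hd hq Φ h

/-- **The swapped relation `Φ(j; y) = 0` in a ring `F` embedded in `K((Q))`**. -/
theorem mps78_rel_of_emb_swap (q : ℕ) (hq : q ≠ 0) (Φ : Polynomial (Polynomial ℤ))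
    (h : Φ.eval₂ (evJd ℤ q) (jqModC ℤ) = 0) {K F : Type*} [CommRing K] [CommRing F]
    [Algebra ℤ F]
    (ι : F →+* LaurentSeries K) (hι : Function.Injective ι) (d : ℕ) (hd : d ≠ 0) (j y : F)
    (hj : ι j = JdC K d) (hy : ι y = JdC K (d * q)) :
    Φ.eval₂ ((Polynomial.aeval y : Polynomial ℤ →ₐ[ℤ] F) : Polynomial ℤ →+* F) j = 0 := by
  refine mps78_eval_of_injective ι hι Φ y j ?_
  rw [hj, hy]
  exact mps78_evJd_map K d q hd hq Φ h

/-- **The relation inside `modularFunctionFieldFullC K M`** (hypotheses `e1`, `e2` of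
`hi95_main_two`: `d = 1` for `(j(qτ); j(τ))`, `d = e` for `(j(e q τ); j(e τ))`). -/
theorem mps78_rel_fullC (q : ℕ) (hq : q ≠ 0) (Φ : Polynomial (Polynomial ℤ))
    (h : Φ.eval₂ (evJ ℤ) (JdC ℤ q) = 0) (K : Type*) [Field K] (M d : ℕ) (hd : d ≠ 0)
    [Algebra ℤ ↥(modularFunctionFieldFullC K M)] (j y : ↥(modularFunctionFieldFullC K M))
    (hj : (j : LaurentSeries K) = JdC K d) (hy : (y : LaurentSeries K) = JdC K (d * q)) :
    Φ.eval₂ ((Polynomial.aeval j : Polynomial ℤ →ₐ[ℤ] ↥(modularFunctionFieldFullC K M)) :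
      Polynomial ℤ →+* ↥(modularFunctionFieldFullC K M)) y = 0 :=
  mps78_rel_of_emb q hq Φ h (modularFunctionFieldFullC K M).val.toRingHom
    Subtype.val_injective d hd j y hj hy

/-- **The swapped relation inside `modularFunctionFieldFullC K M`.** -/
theorem mps78_rel_fullC_swap (q : ℕ) (hq : q ≠ 0) (Φ : Polynomial (Polynomial ℤ))
    (h : Φ.eval₂ (evJd ℤ q) (jqModC ℤ) = 0) (K : Type*) [Field K] (M d : ℕ) (hd : d ≠ 0)
    [Algebra ℤ ↥(modularFunctionFieldFullC K M)] (j y : ↥(modularFunctionFieldFullC K M))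
    (hj : (j : LaurentSeries K) = JdC K d) (hy : (y : LaurentSeries K) = JdC K (d * q)) :
    Φ.eval₂ ((Polynomial.aeval y : Polynomial ℤ →ₐ[ℤ] ↥(modularFunctionFieldFullC K M)) :
      Polynomial ℤ →+* ↥(modularFunctionFieldFullC K M)) j = 0 :=
  mps78_rel_of_emb_swap q hq Φ h (modularFunctionFieldFullC K M).val.toRingHom
    Subtype.val_injective d hd j y hj hy

/-- **The modular equation of prime level `q` with all consumer data.** -/
theorem mps78_haupt (q : ℕ) (hq : q.Prime) :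
    ∃ Φ : Polynomial (Polynomial ℤ), Φ.Monic ∧ Φ.natDegree = q + 1 ∧
      Φ.eval₂ (evJ ℤ) (JdC ℤ q) = 0 ∧
      (∀ a, 1 ≤ a → a ≤ q → (Φ.coeff a).natDegree ≤ q) ∧
      (Φ.coeff 0).natDegree ≤ q + 1 ∧ IsUnit ((Φ.coeff 0).coeff (q + 1)) ∧
      ((q : ℤ) ∣ (Φ.coeff q).coeff q + 1) ∧
      (∃ c : ℤ, (Φ.coeff 0).coeff (q + 1) = 1 + q * c) ∧
      Φ.eval₂ (evJd ℤ q) (jqModC ℤ) = 0 := by
  obtain ⟨Φ, Ψ, hm, hd, h1, h2, hΨ, hsw, hshape, -, -, hqq⟩ := mps78_modEq q hq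
  refine ⟨Φ, hm, hd, h1, ?_, ?_, ?_, ?_, ?_, h2⟩
  · intro a ha1 _
    rw [Polynomial.natDegree_le_iff_coeff_eq_zero]
    intro N hN
    by_contra hne
    obtain ⟨-, hb, -, htop⟩ := hshape a N hne
    have : N ≠ q + 1 := fun h => by have := htop h; omega
    omega
  · rw [Polynomial.natDegree_le_iff_coeff_eq_zero]
    intro N hN
    by_contra hne
    have := (hshape 0 N hne).2.1
    omega
  · have h1' : Φ.coeff (q + 1) = 1 := by rw [← hd]; exact hm.coeff_natDegree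
    have h0 : (Φ.coeff (q + 1)).coeff 0 = 1 := by rw [h1', coeff_one_zero]
    rcases mps78_coeff_symm Φ hsw (q + 1) 0 with h | h
    · rw [h, h0]; exact isUnit_one
    · rw [h, h0]; exact isUnit_one.neg
  · refine ⟨(Ψ.coeff q).coeff q, ?_⟩
    rw [hqq]; ring
  · exact ⟨(Ψ.coeff 0).coeff (q + 1), mps78_coeff_zero_top q hq.one_lt.le Φ Ψ hΨ⟩

/-- **The shape requested for `hi95_main_two` / `hi95_main_three`** (registry row 489). -/
theorem mps78_hi95 (q : ℕ) (hq : q.Prime) :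
    ∃ Φ : Polynomial (Polynomial ℤ), Φ.Monic ∧ Φ.natDegree = q + 1 ∧
      Φ.eval₂ (evJ ℤ) (JdC ℤ q) = 0 ∧
      (∀ a, 1 ≤ a → a ≤ q → (Φ.coeff a).natDegree ≤ q) ∧
      (Φ.coeff 0).natDegree ≤ q + 1 ∧ IsUnit ((Φ.coeff 0).coeff (q + 1)) ∧
      (q : ℤ) ∣ (Φ.coeff q).coeff q + 1 := by
  obtain ⟨Φ, h1, h2, h3, h4, h5, h6, h7, -⟩ := mps78_haupt q hq
  exact ⟨Φ, h1, h2, h3, h4, h5, h6, h7⟩

end Fermat.Agent.S34
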