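import Mathlib

/-!
# S34 lab, row 486 part (B), twin (helper78): swap symmetry of a modular equation

Abstract, Mathlib-only.  Let `Φ ∈ ℤ[X][Y]` be monic of degree `q + 1` in the outer variable and
let `j, y` be elements of a commutative ring `A` with

* `Φ(j, y) = 0` and `Φ(y, j) = 0`          (`aevalAeval j y Φ = 0`, `aevalAeval y j Φ = 0`),
* `1, y, …, y ^ q` are independent over `ℤ[j]`, `j` transcendental: every `P ∈ ℤ[X][Y]` of outer
  degree `≤ q` with `P(j, y) = 0` is `0`.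

Then `swap Φ = Φ` or `swap Φ = -Φ` (`mps78_swap`): divide `swap Φ` by the monic `Φ`; the
remainder vanishes by independence, and the degrees of `swap Φ = Φ * C`, `Φ = swap Φ * swap C`
force `C = ±1`.  Consequences (`mps78_shape`): every monomial `X ^ b Y ^ a` of `Φ` has
`a, b ≤ q + 1`, `a = q + 1` only for `b = 0`, `b = q + 1` only for `a = 0`; hence `a + b ≤ 2 q`
(for `1 ≤ q`), with equality only for `a = b = q` (for `2 ≤ q`).  With the Kronecker congruence
`Φ = (Y - X ^ q) (Y ^ q - X) + q Ψ` the coefficient of `X ^ q Y ^ q` is `≡ -1 mod q`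
(`mps78_coeff_qq`).

All names are prefixed `mps78_`.
-/

set_option autoImplicit false

namespace Fermat.Agent.S34

open Polynomial Polynomial.Bivariate

/-- coefficients of `swap P`. -/
theorem mps78_coeff_swap {R : Type*} [CommSemiring R] (P : Polynomial (Polynomial R))
    (a b : ℕ) : ((swap P).coeff b).coeff a = (P.coeff a).coeff b := by
  induction P using Polynomial.induction_on' with
  | add p r hp hr => simp only [map_add, coeff_add, hp, hr]
  | monomial n f =>
    induction f using Polynomial.induction_on' with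
    | add f g hf hg =>
      simp only [map_add, coeff_add] at hf hg ⊢
      rw [hf, hg]
    | monomial m r =>
      rw [swap_monomial_monomial]
      simp only [coeff_monomial]
      by_cases h1 : m = b <;> by_cases h2 : n = a <;> simp [h1, h2, coeff_monomial]

/-- **Swap symmetry of a modular equation.** -/
theorem mps78_swap (q : ℕ) (Φ : Polynomial (Polynomial ℤ)) (hmon : Φ.Monic)
    (hdeg : Φ.natDegree = q + 1)
    {A : Type*} [CommRing A] (j y : A)
    (hG : aevalAeval j y Φ = 0) (hH : aevalAeval y j Φ = 0)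
    (hindep : ∀ P : Polynomial (Polynomial ℤ), P.natDegree ≤ q → aevalAeval j y P = 0 → P = 0) :
    swap Φ = Φ ∨ swap Φ = -Φ := by
  have hΦ0 : Φ ≠ 0 := hmon.ne_zero
  have hΦ1 : Φ ≠ 1 := by
    intro h; rw [h, natDegree_one] at hdeg; omega
  set S : Polynomial (Polynomial ℤ) := swap Φ with hS
  have hS0 : S ≠ 0 := by
    intro h
    apply hΦ0
    have : swap Φ = swap 0 := by rw [← hS, h, map_zero]
    exact (swap (R := ℤ)).injective this
  have hSev : aevalAeval j y S = 0 := by rw [hS, aevalAeval_swap]; exact hH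
  -- the remainder vanishes
  have hdiv : S %ₘ Φ + Φ * (S /ₘ Φ) = S := modByMonic_add_div S Φ
  have hrem : S %ₘ Φ = 0 := by
    apply hindep
    · have := natDegree_modByMonic_lt S hmon hΦ1
      omega
    · have h1 : aevalAeval j y (S %ₘ Φ + Φ * (S /ₘ Φ)) = 0 := by rw [hdiv]; exact hSev
      rw [map_add, map_mul, hG, zero_mul, add_zero] at h1
      exact h1
  set C₁ : Polynomial (Polynomial ℤ) := S /ₘ Φ with hC₁
  have hSC : S = Φ * C₁ := by rw [← hdiv, hrem, zero_add]
  have hC0 : C₁ ≠ 0 := by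
    intro h; apply hS0; rw [hSC, h, mul_zero]
  have hd1 : S.natDegree = Φ.natDegree + C₁.natDegree := by
    rw [hSC]; exact natDegree_mul hΦ0 hC0
  have hswS : swap S = Φ := by rw [hS]; exact swap_swap_apply Φ
  have hΦC : Φ = S * swap C₁ := by
    have h := congrArg (swap (R := ℤ)) hSC
    rw [hswS, map_mul] at h
    rw [h]
  have hsC0 : swap C₁ ≠ 0 := by
    intro h; apply hΦ0; rw [hΦC, h, mul_zero]
  have hd2 : Φ.natDegree = S.natDegree + (swap C₁).natDegree := by
    conv_lhs => rw [hΦC]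
    exact natDegree_mul hS0 hsC0
  have hC₁deg : C₁.natDegree = 0 := by omega
  have hsC₁deg : (swap C₁).natDegree = 0 := by omega
  obtain ⟨c₀, hc₀⟩ : ∃ c₀ : Polynomial ℤ, C₁ = C c₀ := ⟨_, eq_C_of_natDegree_eq_zero hC₁deg⟩
  have hc₀deg : c₀.natDegree = 0 := by
    rw [hc₀, swap_C] at hsC₁deg
    rwa [natDegree_map_eq_of_injective C_injective] at hsC₁deg
  obtain ⟨c, hc⟩ : ∃ c : ℤ, c₀ = C c := ⟨_, eq_C_of_natDegree_eq_zero hc₀deg⟩
  have hC₁ : C₁ = C (C c) := by rw [hc₀, hc]
  have hsC₁ : swap C₁ = C (C c) := by rw [hC₁, swap_C_C]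
  have hkey : Φ * (1 - C (C (c * c))) = 0 := by
    have h1 : Φ = Φ * C (C c) * C (C c) := by
      conv_lhs => rw [hΦC, hsC₁, hSC, hC₁]
    have h2 : (C (C (c * c)) : Polynomial (Polynomial ℤ)) = C (C c) * C (C c) := by
      rw [← C_mul, ← C_mul]
    rw [h2, mul_sub, mul_one, ← mul_assoc, ← h1, sub_self]
  have hcc : c * c = 1 := by
    rcases mul_eq_zero.mp hkey with h | h
    · exact absurd h hΦ0
    · have h3 : (C (C (c * c)) : Polynomial (Polynomial ℤ)) = C (C 1) := by
        rw [C_1, C_1]; exact (sub_eq_zero.mp h).symm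
      exact C_injective (C_injective h3)
  rcases mul_self_eq_one_iff.mp hcc with h | h
  · left; rw [hSC, hC₁, h, C_1, C_1, mul_one]
  · right
    rw [hSC, hC₁, h, C_neg, C_neg, C_1, C_1]
    ring

/-- the symmetric relation between the coefficients. -/
theorem mps78_coeff_symm (Φ : Polynomial (Polynomial ℤ))
    (hsw : swap Φ = Φ ∨ swap Φ = -Φ) (a b : ℕ) :
    (Φ.coeff b).coeff a = (Φ.coeff a).coeff b ∨ (Φ.coeff b).coeff a = -(Φ.coeff a).coeff b := by
  have h := mps78_coeff_swap Φ a b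
  rcases hsw with hs | hs
  · left; rw [hs] at h; exact h
  · right
    rw [hs, coeff_neg, coeff_neg] at h
    rw [← h, neg_neg]

/-- **Shape of a swap-symmetric monic bivariate polynomial**: every monomial `X ^ b Y ^ a`
(coefficient `(Φ.coeff a).coeff b ≠ 0`) has `a, b ≤ q + 1`, with `a = q + 1` only for `b = 0` and
`b = q + 1` only for `a = 0`. -/
theorem mps78_shape (q : ℕ) (Φ : Polynomial (Polynomial ℤ)) (hmon : Φ.Monic)
    (hdeg : Φ.natDegree = q + 1) (hsw : swap Φ = Φ ∨ swap Φ = -Φ) (a b : ℕ)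
    (hab : (Φ.coeff a).coeff b ≠ 0) :
    a ≤ q + 1 ∧ b ≤ q + 1 ∧ (a = q + 1 → b = 0) ∧ (b = q + 1 → a = 0) := by
  have hle : ∀ a b : ℕ, (Φ.coeff a).coeff b ≠ 0 → a ≤ q + 1 := by
    intro a b h
    by_contra hlt
    apply h
    have h0 : Φ.coeff a = 0 := coeff_eq_zero_of_natDegree_lt (by rw [hdeg]; omega)
    rw [h0, coeff_zero]
  have htop : ∀ a b : ℕ, (Φ.coeff a).coeff b ≠ 0 → a = q + 1 → b = 0 := by
    intro a b h ha
    by_contra hb
    apply h
    have h1 : Φ.coeff (q + 1) = 1 := by rw [← hdeg]; exact hmon.coeff_natDegree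
    rw [ha, h1, coeff_one, if_neg hb]
  have hba : (Φ.coeff b).coeff a ≠ 0 := by
    rcases mps78_coeff_symm Φ hsw a b with h | h
    · rw [h]; exact hab
    · rw [h]; exact neg_ne_zero.mpr hab
  exact ⟨hle a b hab, hle b a hba, htop a b hab, htop b a hba⟩

/-- total degree `≤ 2 q`. -/
theorem mps78_total (q : ℕ) (hq : 1 ≤ q) (Φ : Polynomial (Polynomial ℤ)) (hmon : Φ.Monic)
    (hdeg : Φ.natDegree = q + 1) (hsw : swap Φ = Φ ∨ swap Φ = -Φ) (a b : ℕ)
    (hab : (Φ.coeff a).coeff b ≠ 0) : a + b ≤ 2 * q := by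
  obtain ⟨h1, h2, h3, h4⟩ := mps78_shape q Φ hmon hdeg hsw a b hab
  by_cases ha : a = q + 1
  · have := h3 ha; omega
  by_cases hb : b = q + 1
  · have := h4 hb; omega
  omega

/-- the only monomial of total degree `2 q` is `X ^ q Y ^ q` (for `2 ≤ q`). -/
theorem mps78_total_eq (q : ℕ) (hq : 2 ≤ q) (Φ : Polynomial (Polynomial ℤ)) (hmon : Φ.Monic)
    (hdeg : Φ.natDegree = q + 1) (hsw : swap Φ = Φ ∨ swap Φ = -Φ) (a b : ℕ)
    (hab : (Φ.coeff a).coeff b ≠ 0) (h : a + b = 2 * q) : a = q ∧ b = q := by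
  obtain ⟨h1, h2, h3, h4⟩ := mps78_shape q Φ hmon hdeg hsw a b hab
  by_cases ha : a = q + 1
  · have := h3 ha; omega
  by_cases hb : b = q + 1
  · have := h4 hb; omega
  omega

/-- **Kronecker congruence, coefficient of `X ^ q Y ^ q`**: it is `≡ -1 mod q`. -/
theorem mps78_coeff_qq (q : ℕ) (hq : 2 ≤ q) (Φ Ψ : Polynomial (Polynomial ℤ))
    (hΦ : Φ = (X - C (X ^ q)) * (X ^ q - C X) + C (C (q : ℤ)) * Ψ) :
    (Φ.coeff q).coeff q = -1 + (q : ℤ) * (Ψ.coeff q).coeff q := by
  have h1 : Φ = X ^ (q + 1) - C X * X - C (X ^ q) * X ^ q + C (X ^ (q + 1))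
      + C (C (q : ℤ)) * Ψ := by
    rw [hΦ]
    have : (C (X ^ (q + 1)) : Polynomial (Polynomial ℤ)) = C (X ^ q) * C X := by
      rw [← C_mul, pow_succ]
    rw [this]; ring
  have hq1 : (1 : ℕ) ≠ q := by omega
  have hq0 : q ≠ 0 := by omega
  have hqq : q ≠ q + 1 := by omega
  rw [h1]
  simp only [coeff_add, coeff_sub, coeff_X_pow, coeff_C_mul, coeff_C, coeff_X,
    if_neg hq0, if_neg hqq, if_neg hq1, if_true, zero_sub, add_zero, mul_one, coeff_neg,
    mul_zero, sub_zero]

end Fermat.Agent.S34
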