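import Fermat.Agent.S34.NodalTwoChart47
import Fermat.Agent.S34.WAbs5
import Fermat.Agent.S18.Pack15

/-!
# S34 lab, package P2/P9 (helper85): the nodal statement (**) for the chart package

`cm85_nstar` is the nodal analogue of `pk15_star` (S18/Pack15.lean): the three charts are the
integral closures `pk15_chart R {h}`, `pk15_chart R {h⁻¹}`, `pk15_chart R {h, h⁻¹}`; the Gauss
valuation ring `V` of `pk15_star` is replaced by a subring `W` of `F` with the properties used by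
`ntc47_main`, and the Dedekind special fibres + divisibility of all orders are replaced by the
local datum `hLD` at the maximal ideals over `π` of the two affine charts.  All structural
hypotheses of `ntc47_main` that hold for integral closures in general are discharged here, and
`pk15_chart_cap` turns the conclusion into `u = c · f₀^(-m)` with `c ∈ R`.

`cm85_nstar_two` is the special case `W = wa5_W V₁ V₂ = V₁ ⊓ V₂` of two valuation subrings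
containing `R`, `h`, `h⁻¹`, with `π` in both maximal ideals.

All names are prefixed `cm85_`.
-/

set_option autoImplicit false

namespace Fermat.Agent.S34

open Fermat.Agent.S18

section cm85_nstar

variable {R K F : Type*} [CommRing R] [IsDomain R] [IsDiscreteValuationRing R]
  [Field K] [Algebra R K] [IsFractionRing R K]
  [Field F] [Algebra R F] [Algebra K F] [IsScalarTower R K F]

/-- **Nodal statement (**)** for the chart package, for an abstract subring `W`. -/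
theorem cm85_nstar (π : R) (m : ℕ) (hm0 : 0 < m) (hm : IsUnit (m : R))
    (hK : ∀ y : F, IsAlgebraic K y → ∃ c : K, y = algebraMap K F c)
    (h : F) (hh : Transcendental K h)
    (W : Subring F) (hRW : ∀ r : R, algebraMap R F r ∈ W)
    (hπ0 : algebraMap R F π ≠ 0) (hπW : (algebraMap R F π)⁻¹ ∉ W)
    (hWroot : ∀ x : F, x ^ m ∈ W → x ∈ W)
    (hWunit : ∀ x ∈ W, (1 + algebraMap R F π * x)⁻¹ ∈ W)
    (h12W : ∀ x ∈ pk15_chart R ({h, h⁻¹} : Set F), x ∈ W)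
    (hsat₁ : ∀ x ∈ pk15_chart R ({h} : Set F), (algebraMap R F π)⁻¹ * x ∈ W →
      (algebraMap R F π)⁻¹ * x ∈ pk15_chart R ({h} : Set F))
    (hsat₂ : ∀ x ∈ pk15_chart R ({h⁻¹} : Set F), (algebraMap R F π)⁻¹ * x ∈ W →
      (algebraMap R F π)⁻¹ * x ∈ pk15_chart R ({h⁻¹} : Set F))
    (hsat₁₂ : ∀ x ∈ pk15_chart R ({h, h⁻¹} : Set F), (algebraMap R F π)⁻¹ * x ∈ W →
      (algebraMap R F π)⁻¹ * x ∈ pk15_chart R ({h, h⁻¹} : Set F))
    (hfin : ∃ G : Finset F, ∀ x ∈ pk15_chart R ({h} : Set F),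
      x ∈ Submodule.span (Algebra.adjoin R ({h} : Set F)) (G : Set F))
    (hfrac : ∀ x : F, ∃ a ∈ pk15_chart R ({h} : Set F), ∃ b ∈ pk15_chart R ({h} : Set F),
      b ≠ 0 ∧ x * b = a)
    (u : F) (hu : (algebraMap R F π)⁻¹ * (u - 1) ∈ W)
    (hLD₁ : ∀ n : Ideal (pk15_chart R ({h} : Set F)), n.IsMaximal →
      algebraMap R (pk15_chart R ({h} : Set F)) π ∈ n →
      ∃ φ : F, (algebraMap R F π)⁻¹ * (φ - 1) ∈ W ∧
        ∃ s : pk15_chart R ({h} : Set F), s ∉ n ∧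
          (s : F) * (φ ^ m * u) ∈ pk15_chart R ({h} : Set F))
    (hLD₂ : ∀ n : Ideal (pk15_chart R ({h⁻¹} : Set F)), n.IsMaximal →
      algebraMap R (pk15_chart R ({h⁻¹} : Set F)) π ∈ n →
      ∃ φ : F, (algebraMap R F π)⁻¹ * (φ - 1) ∈ W ∧
        ∃ s : pk15_chart R ({h⁻¹} : Set F), s ∉ n ∧
          (s : F) * (φ ^ m * u) ∈ pk15_chart R ({h⁻¹} : Set F)) :
    ∃ (f₀ : F) (c : R), f₀ ≠ 0 ∧ f₀ ^ m * u = algebraMap R F c ∧
      (algebraMap R F π)⁻¹ * (f₀ - 1) ∈ W := by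
  have hh0 : h ≠ 0 := cap87_ne_zero h hh
  have hu0 : u ≠ 0 := ntc47_ne_zero_of_cong_one W _ hπ0 hπW u hu
  have hfrac' : ∃ a ∈ pk15_chart R ({h} : Set F), ∃ b ∈ pk15_chart R ({h} : Set F),
      a ≠ 0 ∧ u * b = a := by
    obtain ⟨a, ha, b, hb, hb0, hab⟩ := hfrac u
    exact ⟨a, ha, b, hb, by rw [← hab]; exact mul_ne_zero hu0 hb0, hab⟩
  obtain ⟨f₀, hf₁, hf₂, hf₀⟩ := ntc47_main π m hm0 hm W hRW hπ0 hπW hWroot hWunit
    (pk15_chart R ({h} : Set F)) (pk15_chart R ({h⁻¹} : Set F))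
    (pk15_chart R ({h, h⁻¹} : Set F))
    (pk15_chart_mono (by simp)) (pk15_chart_mono (by simp)) h12W
    hsat₁ hsat₂ hsat₁₂
    (fun x hx => pk15_chart_root _ m hm0 x hx) (fun x hx => pk15_chart_root _ m hm0 x hx)
    u hu hLD₁ hLD₂ h hh0 (pk15_subset_chart _ (Set.mem_singleton h))
    (pk15_subset_chart _ (Set.mem_singleton h⁻¹))
    (pk15_chart_loc h hh0) (pk15_chart_loc' h hh0) hfin hfrac'
  obtain ⟨c, hc⟩ := pk15_chart_cap (K := K) hK h hh _ hf₁ hf₂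
  exact ⟨f₀, c, ntc47_ne_zero_of_cong_one W _ hπ0 hπW f₀ hf₀, hc, hf₀⟩

/-- **Nodal statement (**)** for `W = V₁ ⊓ V₂`, two valuation subrings of `F` containing `R`,
`h`, `h⁻¹`, with `π` a non-unit of both. -/
theorem cm85_nstar_two (π : R) (m : ℕ) (hm0 : 0 < m) (hm : IsUnit (m : R))
    (hK : ∀ y : F, IsAlgebraic K y → ∃ c : K, y = algebraMap K F c)
    (h : F) (hh : Transcendental K h)
    (V₁ V₂ : ValuationSubring F)
    (hRV₁ : ∀ r : R, algebraMap R F r ∈ V₁) (hRV₂ : ∀ r : R, algebraMap R F r ∈ V₂)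
    (hπ0 : algebraMap R F π ≠ 0)
    (hπV₁ : (algebraMap R F π)⁻¹ ∉ V₁) (hπV₂ : (algebraMap R F π)⁻¹ ∉ V₂)
    (hhV₁ : h ∈ V₁) (hhV₁' : h⁻¹ ∈ V₁) (hhV₂ : h ∈ V₂) (hhV₂' : h⁻¹ ∈ V₂)
    (hsat₁ : ∀ x ∈ pk15_chart R ({h} : Set F), (algebraMap R F π)⁻¹ * x ∈ wa5_W V₁ V₂ →
      (algebraMap R F π)⁻¹ * x ∈ pk15_chart R ({h} : Set F))
    (hsat₂ : ∀ x ∈ pk15_chart R ({h⁻¹} : Set F), (algebraMap R F π)⁻¹ * x ∈ wa5_W V₁ V₂ →
      (algebraMap R F π)⁻¹ * x ∈ pk15_chart R ({h⁻¹} : Set F))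
    (hsat₁₂ : ∀ x ∈ pk15_chart R ({h, h⁻¹} : Set F), (algebraMap R F π)⁻¹ * x ∈ wa5_W V₁ V₂ →
      (algebraMap R F π)⁻¹ * x ∈ pk15_chart R ({h, h⁻¹} : Set F))
    (hfin : ∃ G : Finset F, ∀ x ∈ pk15_chart R ({h} : Set F),
      x ∈ Submodule.span (Algebra.adjoin R ({h} : Set F)) (G : Set F))
    (hfrac : ∀ x : F, ∃ a ∈ pk15_chart R ({h} : Set F), ∃ b ∈ pk15_chart R ({h} : Set F),
      b ≠ 0 ∧ x * b = a)
    (u : F) (hu : (algebraMap R F π)⁻¹ * (u - 1) ∈ wa5_W V₁ V₂)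
    (hLD₁ : ∀ n : Ideal (pk15_chart R ({h} : Set F)), n.IsMaximal →
      algebraMap R (pk15_chart R ({h} : Set F)) π ∈ n →
      ∃ φ : F, (algebraMap R F π)⁻¹ * (φ - 1) ∈ wa5_W V₁ V₂ ∧
        ∃ s : pk15_chart R ({h} : Set F), s ∉ n ∧
          (s : F) * (φ ^ m * u) ∈ pk15_chart R ({h} : Set F))
    (hLD₂ : ∀ n : Ideal (pk15_chart R ({h⁻¹} : Set F)), n.IsMaximal →
      algebraMap R (pk15_chart R ({h⁻¹} : Set F)) π ∈ n →
      ∃ φ : F, (algebraMap R F π)⁻¹ * (φ - 1) ∈ wa5_W V₁ V₂ ∧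
        ∃ s : pk15_chart R ({h⁻¹} : Set F), s ∉ n ∧
          (s : F) * (φ ^ m * u) ∈ pk15_chart R ({h⁻¹} : Set F)) :
    ∃ (f₀ : F) (c : R), f₀ ≠ 0 ∧ f₀ ^ m * u = algebraMap R F c ∧
      (algebraMap R F π)⁻¹ * (f₀ - 1) ∈ wa5_W V₁ V₂ := by
  obtain ⟨hRW, hπW, hWroot, hWunit⟩ := wa5_ntc_hyps V₁ V₂ hRV₁ hRV₂ π hπV₁ hπV₂ m hm0.ne'
  have hgen : ∀ (V : ValuationSubring F), h ∈ V → h⁻¹ ∈ V →
      ∀ g ∈ ({h, h⁻¹} : Set F), g ∈ V := by
    intro V h1 h2 g hg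
    rcases hg with rfl | hg
    · exact h1
    · rw [Set.mem_singleton_iff] at hg; rw [hg]; exact h2
  have h12W : ∀ x ∈ pk15_chart R ({h, h⁻¹} : Set F), x ∈ wa5_W V₁ V₂ := fun x hx =>
    (wa5_mem_W V₁ V₂ x).mpr
      ⟨pk15_chart_le_V V₁ hRV₁ _ (hgen V₁ hhV₁ hhV₁') x hx,
       pk15_chart_le_V V₂ hRV₂ _ (hgen V₂ hhV₂ hhV₂') x hx⟩
  exact cm85_nstar π m hm0 hm hK h hh (wa5_W V₁ V₂) hRW hπ0 hπW hWroot hWunit h12W
    hsat₁ hsat₂ hsat₁₂ hfin hfrac u hu hLD₁ hLD₂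

end cm85_nstar

end Fermat.Agent.S34
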