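import Mathlib
import Fermat.Agent.S34.DeepNode3
import Fermat.Agent.S34.Hartogs19

/-!
# S34 lab (helper89): a NORMAL node has NO deep points

Complement to `DeepNode3` (helper3).  `A` is the local ring of a chart at a two-branch closed
point, `R` the base discrete valuation ring with uniformiser `π`, `𝔭`, `𝔭'` the two vertical
primes, `z ∈ 𝔭 \ 𝔭'`, `z' ∈ 𝔭' \ 𝔭`, `𝔪 = (π, z, z')`, `π ∣ z z'` (NO thickness bound, NO exact
coordinates).

* `nd89_val`, `nd89_rel` (no-double-point lemma): if `x, y` generate the kernel of an `R`-point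
  `ρ`, `(π, x) = 𝔭`, `(π, y) = 𝔭'` and `x y ∈ π ^ k A`, then every relation `g₁ x + g₂ y = 0`
  has `π ^ k ∣ ρ g₁` and `π ^ k ∣ ρ g₂`.
* `nd89_sq`: hence, if `ker ρ` is locally principal (denominator `s ∉ ker ρ`), `π ^ k ∣ (ρ s) ^ 2`.
* `nd89_not_deep_of_prin`: a point whose kernel is locally principal is not deep.
* `nd89_eq_of_le` (Krull's principal ideal theorem): at a node there is no prime strictly
  between `0` and a prime `P ∌ π`.
* `nd89_prin`: if `A` is moreover integrally closed, every nonzero prime `P ∌ π` is locally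
  principal (shape of `Hartogs19`).
* `nd89_not_deep`, `nd89_main`: on a normal node NO `R`-point is deep, so EVERY `R`-point `ρ`
  has a local equation `H ∈ ker ρ`, `a * ker ρ ⊆ H A` with `0 ≠ a ∈ R` (`dn3_main` without its
  hypothesis `hnd`).
-/

set_option autoImplicit false

namespace Fermat.Agent.S34

open IsLocalRing

section NoDoublePoint

variable {R A : Type*} [CommRing R] [CommRing A] [Algebra R A] [IsDomain A]

/-- The valuation induction behind the no-double-point lemma: along the branch `𝔭 = (π, x)`,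
on which `y` is a unit, a constant `r` with `r - γ y ∈ 𝔭 ^ (i)` (symbolic power) is divisible
by `π ^ i`, as long as `i ≤ k` where `x y ∈ π ^ k A`. -/
theorem nd89_val (π : R) (ρ : A →+* R) (hρ : ∀ r : R, ρ (algebraMap R A r) = r)
    (hp0 : algebraMap R A π ≠ 0) (𝔭 : Ideal A) [h𝔭p : 𝔭.IsPrime] (x y ψ : A) (k : ℕ)
    (h𝔭 : 𝔭 = Ideal.span ({algebraMap R A π, x} : Set A)) (hy : y ∉ 𝔭)
    (hx0 : ρ x = 0) (hy0 : ρ y = 0) (hxy : x * y = algebraMap R A π ^ k * ψ) :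
    ∀ i : ℕ, i ≤ k → ∀ (r : R) (γ d : A), d ∉ 𝔭 →
      algebraMap R A π ^ i ∣ d * (algebraMap R A r - γ * y) → π ^ i ∣ r := by
  intro i
  induction i with
  | zero =>
    intro _ r γ d _ _
    rw [pow_zero]
    exact one_dvd r
  | succ i ih =>
    intro hik r γ d hd hdiv
    have hp𝔭 : algebraMap R A π ∈ 𝔭 := by rw [h𝔭]; exact Ideal.subset_span (by simp)
    have hx𝔭 : x ∈ 𝔭 := by rw [h𝔭]; exact Ideal.subset_span (by simp)
    have h1 : d * (algebraMap R A r - γ * y) ∈ 𝔭 := by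
      obtain ⟨w, hw⟩ := hdiv
      rw [hw, pow_succ]
      exact Ideal.mul_mem_right _ _ (Ideal.mul_mem_left _ _ hp𝔭)
    have h2 : algebraMap R A r - γ * y ∈ 𝔭 := (h𝔭p.mem_or_mem h1).resolve_left hd
    rw [h𝔭, Ideal.mem_span_pair] at h2
    obtain ⟨e, f, hef⟩ := h2
    have hr : r = π * ρ e := by
      have h := congrArg ρ hef
      rw [map_add, map_mul, map_mul, map_sub, map_mul, hρ, hρ, hx0, hy0] at h
      linear_combination -h
    have h3 : γ * y ∈ 𝔭 := by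
      have e1 : γ * y = algebraMap R A π * algebraMap R A (ρ e) -
          (e * algebraMap R A π + f * x) := by
        rw [hef, hr, map_mul]; ring
      rw [e1]
      exact Ideal.sub_mem _ (Ideal.mul_mem_right _ _ hp𝔭)
        (Ideal.add_mem _ (Ideal.mul_mem_left _ _ hp𝔭) (Ideal.mul_mem_left _ _ hx𝔭))
    have h4 : γ ∈ 𝔭 := (h𝔭p.mem_or_mem h3).resolve_right hy
    rw [h𝔭, Ideal.mem_span_pair] at h4
    obtain ⟨γ₁, γ₂, hγ⟩ := h4
    obtain ⟨k', rfl⟩ : ∃ k', k = k' + 1 := ⟨k - 1, by omega⟩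
    have h5 : algebraMap R A r - γ * y = algebraMap R A π *
        (algebraMap R A (ρ e) - γ₁ * y - algebraMap R A π ^ k' * (γ₂ * ψ)) := by
      rw [hr, map_mul, ← hγ]
      linear_combination (-γ₂) * hxy
    obtain ⟨w, hw⟩ := hdiv
    have h6 : d * (algebraMap R A (ρ e) - γ₁ * y - algebraMap R A π ^ k' * (γ₂ * ψ)) =
        algebraMap R A π ^ i * w := by
      apply mul_left_cancel₀ hp0
      rw [h5] at hw
      linear_combination hw
    have h7 : algebraMap R A π ^ i ∣ d * (algebraMap R A (ρ e) - γ₁ * y) := by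
      obtain ⟨j, hj⟩ : ∃ j, k' = i + j := ⟨k' - i, by omega⟩
      refine ⟨w + d * algebraMap R A π ^ j * (γ₂ * ψ), ?_⟩
      rw [hj] at h6
      linear_combination h6
    have h8 : π ^ i ∣ ρ e := ih (by omega) (ρ e) γ₁ d hd h7
    rw [hr, pow_succ, mul_comm]
    exact mul_dvd_mul_left π h8

/-- **No-double-point lemma.**  If `x, y` generate `ker ρ`, `(π, x) = 𝔭`, `(π, y) = 𝔭'` are
the two vertical primes and `x y ∈ π ^ k A`, then the coefficients of every relation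
`g₁ x + g₂ y = 0` take values divisible by `π ^ k`. -/
theorem nd89_rel (π : R) (ρ : A →+* R) (hρ : ∀ r : R, ρ (algebraMap R A r) = r)
    (hp0 : algebraMap R A π ≠ 0) (𝔭 𝔭' : Ideal A) [h𝔭p : 𝔭.IsPrime] [h𝔭p' : 𝔭'.IsPrime]
    (x y ψ : A) (k : ℕ)
    (h𝔭 : 𝔭 = Ideal.span ({algebraMap R A π, x} : Set A))
    (h𝔭' : 𝔭' = Ideal.span ({algebraMap R A π, y} : Set A))
    (hy : y ∉ 𝔭) (hx : x ∉ 𝔭')
    (hker : RingHom.ker ρ = Ideal.span ({x, y} : Set A))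
    (hxy : x * y = algebraMap R A π ^ k * ψ)
    (g₁ g₂ : A) (hrel : g₁ * x + g₂ * y = 0) : π ^ k ∣ ρ g₁ ∧ π ^ k ∣ ρ g₂ := by
  have hx0 : ρ x = 0 := by
    rw [← RingHom.mem_ker, hker]; exact Ideal.subset_span (by simp)
  have hy0 : ρ y = 0 := by
    rw [← RingHom.mem_ker, hker]; exact Ideal.subset_span (by simp)
  have hdec : ∀ g : A, ∃ e f : A, g = algebraMap R A (ρ g) + e * x + f * y := by
    intro g
    have hg : g - algebraMap R A (ρ g) ∈ RingHom.ker ρ := by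
      rw [RingHom.mem_ker, map_sub, hρ, sub_self]
    rw [hker, Ideal.mem_span_pair] at hg
    obtain ⟨e, f, hef⟩ := hg
    exact ⟨e, f, by linear_combination -hef⟩
  obtain ⟨e₁, f₁, hg₁⟩ := hdec g₁
  obtain ⟨e₂, f₂, hg₂⟩ := hdec g₂
  have hyx : y * x = algebraMap R A π ^ k * ψ := by rw [mul_comm, hxy]
  constructor
  · -- along `𝔭'`, where `x` is a unit
    refine nd89_val π ρ hρ hp0 𝔭' y x ψ k h𝔭' hx hy0 hx0 hyx k le_rfl (ρ g₁) (-e₁) (x * x)
      (fun h => hx ((h𝔭p'.mem_or_mem h).elim id id)) ⟨-(ψ * (g₂ + f₁ * x)), ?_⟩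
    have h1 : algebraMap R A (ρ g₁) = g₁ - e₁ * x - f₁ * y := by linear_combination -hg₁
    rw [h1]
    linear_combination x * hrel - (g₂ + f₁ * x) * hxy
  · -- along `𝔭`, where `y` is a unit
    refine nd89_val π ρ hρ hp0 𝔭 x y ψ k h𝔭 hy hx0 hy0 hxy k le_rfl (ρ g₂) (-f₂) (y * y)
      (fun h => hy ((h𝔭p.mem_or_mem h).elim id id)) ⟨-(ψ * (g₁ + e₂ * y)), ?_⟩
    have h2 : algebraMap R A (ρ g₂) = g₂ - e₂ * x - f₂ * y := by linear_combination -hg₂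
    rw [h2]
    linear_combination y * hrel - (g₁ + e₂ * y) * hxy

/-- If moreover `ker ρ` is locally principal with denominator `s`, then `π ^ k ∣ (ρ s) ^ 2`. -/
theorem nd89_sq (π : R) (ρ : A →+* R) (hρ : ∀ r : R, ρ (algebraMap R A r) = r)
    (hp0 : algebraMap R A π ≠ 0) (𝔭 𝔭' : Ideal A) [h𝔭p : 𝔭.IsPrime] [h𝔭p' : 𝔭'.IsPrime]
    (x y ψ : A) (k : ℕ)
    (h𝔭 : 𝔭 = Ideal.span ({algebraMap R A π, x} : Set A))
    (h𝔭' : 𝔭' = Ideal.span ({algebraMap R A π, y} : Set A))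
    (hy : y ∉ 𝔭) (hx : x ∉ 𝔭')
    (hker : RingHom.ker ρ = Ideal.span ({x, y} : Set A))
    (hxy : x * y = algebraMap R A π ^ k * ψ)
    (ϖ s : A) (hϖ : ϖ ∈ RingHom.ker ρ)
    (hprin : ∀ w ∈ RingHom.ker ρ, ∃ r : A, s * w = r * ϖ) : π ^ k ∣ ρ s ^ 2 := by
  have hxk : x ∈ RingHom.ker ρ := by rw [hker]; exact Ideal.subset_span (by simp)
  have hyk : y ∈ RingHom.ker ρ := by rw [hker]; exact Ideal.subset_span (by simp)
  obtain ⟨α, hα⟩ := hprin x hxk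
  obtain ⟨β, hβ⟩ := hprin y hyk
  rw [hker, Ideal.mem_span_pair] at hϖ
  obtain ⟨l, m, hlm⟩ := hϖ
  have rel1 : (s - α * l) * x + (-(α * m)) * y = 0 := by
    linear_combination hα - α * hlm
  have rel2 : (-(β * l)) * x + (s - β * m) * y = 0 := by
    linear_combination hβ - β * hlm
  obtain ⟨h1, h2⟩ := nd89_rel π ρ hρ hp0 𝔭 𝔭' x y ψ k h𝔭 h𝔭' hy hx hker hxy _ _ rel1
  obtain ⟨h3, h4⟩ := nd89_rel π ρ hρ hp0 𝔭 𝔭' x y ψ k h𝔭 h𝔭' hy hx hker hxy _ _ rel2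
  rw [map_sub, map_mul] at h1 h4
  rw [map_neg, map_mul, dvd_neg] at h2 h3
  have e : ρ s ^ 2 = (ρ s - ρ α * ρ l) * ρ s + ρ α * ρ l * (ρ s - ρ β * ρ m) +
      (ρ α * ρ m) * (ρ β * ρ l) := by ring
  rw [e]
  exact dvd_add (dvd_add (h1.mul_right _) (h4.mul_left _)) (h2.mul_right _)

end NoDoublePoint

section NotDeepOfPrin

variable {R A : Type*} [CommRing R] [CommRing A] [Algebra R A]
  [IsDomain R] [IsDiscreteValuationRing R] [IsDomain A] [IsLocalRing A] [IsNoetherianRing A]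

/-- **A point with locally principal kernel is not deep.** -/
theorem nd89_not_deep_of_prin (π : R) (hπ : Irreducible π) (𝔭 𝔭' : Ideal A)
    [h𝔭p : 𝔭.IsPrime] [h𝔭p' : 𝔭'.IsPrime]
    (hπ𝔭 : algebraMap R A π ∈ 𝔭) (hπ𝔭' : algebraMap R A π ∈ 𝔭')
    (z z' : A) (hz : z ∈ 𝔭) (hz' : z' ∈ 𝔭') (hzn : z ∉ 𝔭') (hzn' : z' ∉ 𝔭)
    (hmax : maximalIdeal A = Ideal.span ({algebraMap R A π, z, z'} : Set A))
    (hzz : algebraMap R A π ∣ z * z')
    (ρ : A →+* R) (hρ : ∀ r : R, ρ (algebraMap R A r) = r)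
    (hprin : ∃ ϖ ∈ RingHom.ker ρ, ∃ s, s ∉ RingHom.ker ρ ∧
      ∀ w ∈ RingHom.ker ρ, ∃ r : A, s * w = r * ϖ) :
    ¬ dn3_Deep 𝔭 𝔭' π ρ := by
  intro hdeep
  obtain ⟨ϖ, hϖ, s, hs, hprin⟩ := hprin
  have hπR : maximalIdeal R = Ideal.span {π} := hπ.maximalIdeal_eq
  have hπ0 : π ≠ 0 := hπ.ne_zero
  set p : A := algebraMap R A π with hp
  have hp0 : p ≠ 0 := by
    intro h
    have := congrArg ρ h
    rw [hp, hρ, map_zero] at this
    exact hπ0 this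
  have key : ∀ N : ℕ, π ^ (N + 1) ∣ ρ s ^ 2 := by
    intro N
    rcases dn3_loop p z z' hmax hzz N with
      ⟨κ, hκ1, -, z₁, z₁', ε, hε, hzz₁, ⟨d, hd⟩, ⟨d', hd'⟩⟩ | ⟨z₁, z₁', c, hc, ⟨d, hd⟩, ⟨d', hd'⟩⟩
    · -- exact coordinates: no deep point at all
      exfalso
      have hz₁ : z₁ = z + p * d := by linear_combination hd
      have hz₁' : z₁' = z' + p * d' := by linear_combination hd'
      refine dn3_not_deep_exact π hπ 𝔭 𝔭' z₁ z₁' ε ?_ ?_ κ hκ1 hε hzz₁ ρ hρ hdeep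
      · intro h
        apply hzn
        have : z = z₁ - p * d := by rw [hz₁]; ring
        rw [this]
        exact Ideal.sub_mem _ h (Ideal.mul_mem_right _ _ hπ𝔭')
      · intro h
        apply hzn'
        have : z' = z₁' - p * d' := by rw [hz₁']; ring
        rw [this]
        exact Ideal.sub_mem _ h (Ideal.mul_mem_right _ _ hπ𝔭)
    · -- approximate coordinates of order `N + 1`
      have hz₁ : z₁ = z + p * d := by linear_combination hd
      have hz₁' : z₁' = z' + p * d' := by linear_combination hd'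
      have hz₁𝔭 : z₁ ∈ 𝔭 := by
        rw [hz₁]; exact Ideal.add_mem _ hz (Ideal.mul_mem_right _ _ hπ𝔭)
      have hz₁'𝔭' : z₁' ∈ 𝔭' := by
        rw [hz₁']; exact Ideal.add_mem _ hz' (Ideal.mul_mem_right _ _ hπ𝔭')
      have hz₁n : z₁ ∉ 𝔭' := by
        intro h
        apply hzn
        have : z = z₁ - p * d := by rw [hz₁]; ring
        rw [this]
        exact Ideal.sub_mem _ h (Ideal.mul_mem_right _ _ hπ𝔭')
      have hz₁'n : z₁' ∉ 𝔭 := by
        intro h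
        apply hzn'
        have : z' = z₁' - p * d' := by rw [hz₁']; ring
        rw [this]
        exact Ideal.sub_mem _ h (Ideal.mul_mem_right _ _ hπ𝔭)
      -- the values are deep
      obtain ⟨a', ha'⟩ := (hdeep N).1 z₁ ⟨z₁', hz₁'n, c, by rw [mul_comm, hc]⟩
      obtain ⟨b', hb'⟩ := (hdeep N).2 z₁' ⟨z₁, hz₁n, c, hc⟩
      set x : A := z₁ - algebraMap R A (ρ z₁) with hx
      set y : A := z₁' - algebraMap R A (ρ z₁') with hy
      have hax : algebraMap R A (ρ z₁) = p ^ (N + 1) * algebraMap R A a' := by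
        rw [ha', map_mul, map_pow]
      have hby : algebraMap R A (ρ z₁') = p ^ (N + 1) * algebraMap R A b' := by
        rw [hb', map_mul, map_pow]
      have hxy : x * y = p ^ (N + 1) * (c - z₁ * algebraMap R A b' - algebraMap R A a' * z₁' +
          p ^ (N + 1) * (algebraMap R A a' * algebraMap R A b')) := by
        rw [hx, hy, hax, hby]
        linear_combination hc
      have hpx : p ∣ x - z := ⟨d - p ^ N * algebraMap R A a', by
        rw [hx, hax, hz₁]; ring⟩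
      have hpy : p ∣ y - z' := ⟨d' - p ^ N * algebraMap R A b', by
        rw [hy, hby, hz₁']; ring⟩
      have hmax₁ : maximalIdeal A = Ideal.span ({p, z₁, z₁'} : Set A) := by
        rw [hmax, dn3_span_congr p z z' z₁ z₁' ⟨d, hd⟩ ⟨d', hd'⟩]
      have hmaxx : maximalIdeal A = Ideal.span ({p, x, y} : Set A) := by
        rw [hmax, dn3_span_congr p z z' x y hpx hpy]
      have hmaxy : maximalIdeal A = Ideal.span ({p, y, x} : Set A) := by
        rw [hmaxx]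
        congr 1
        ext t
        simp only [Set.mem_insert_iff, Set.mem_singleton_iff]
        tauto
      have hx𝔭 : x ∈ 𝔭 := by
        rw [hx, hax]
        exact Ideal.sub_mem _ hz₁𝔭 (Ideal.mul_mem_right _ _ (Ideal.pow_mem_of_mem _ hπ𝔭 _ (by omega)))
      have hy𝔭' : y ∈ 𝔭' := by
        rw [hy, hby]
        exact Ideal.sub_mem _ hz₁'𝔭'
          (Ideal.mul_mem_right _ _ (Ideal.pow_mem_of_mem _ hπ𝔭' _ (by omega)))
      have hxn : x ∉ 𝔭' := by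
        intro h
        apply hz₁n
        have : z₁ = x + p ^ (N + 1) * algebraMap R A a' := by rw [hx, hax]; ring
        rw [this]
        exact Ideal.add_mem _ h
          (Ideal.mul_mem_right _ _ (Ideal.pow_mem_of_mem _ hπ𝔭' _ (by omega)))
      have hyn : y ∉ 𝔭 := by
        intro h
        apply hz₁'n
        have : z₁' = y + p ^ (N + 1) * algebraMap R A b' := by rw [hy, hby]; ring
        rw [this]
        exact Ideal.add_mem _ h
          (Ideal.mul_mem_right _ _ (Ideal.pow_mem_of_mem _ hπ𝔭 _ (by omega)))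
      have h𝔭 : 𝔭 = Ideal.span ({p, x} : Set A) := dn3_prime_eq 𝔭 p x y hπ𝔭 hx𝔭 hyn hmaxx
      have h𝔭' : 𝔭' = Ideal.span ({p, y} : Set A) := dn3_prime_eq 𝔭' p y x hπ𝔭' hy𝔭' hxn hmaxy
      have hker : RingHom.ker ρ = Ideal.span ({x, y} : Set A) :=
        dn3_ker π hπ0 hπR z₁ z₁' hmax₁ ρ hρ
      exact nd89_sq π ρ hρ hp0 𝔭 𝔭' x y _ (N + 1) h𝔭 h𝔭' hyn hxn hker hxy ϖ s hϖ hprin
  have h0 : ρ s ^ 2 = 0 := dn3_eq_zero_of_forall_dvd π hπ _ key
  exact hs ((RingHom.mem_ker).mpr ((pow_eq_zero_iff (two_ne_zero)).mp h0))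

end NotDeepOfPrin

section Height

variable {A : Type*} [CommRing A] [IsDomain A] [IsLocalRing A] [IsNoetherianRing A]

omit [IsDomain A] in
/-- the primes of a node containing `p` are the two branches and the closed point. -/
theorem nd89_primes_over (𝔭 𝔭' : Ideal A) [h𝔭p : 𝔭.IsPrime] [h𝔭p' : 𝔭'.IsPrime] (p z z' : A)
    (hp𝔭 : p ∈ 𝔭) (hp𝔭' : p ∈ 𝔭') (hz : z ∈ 𝔭) (hz' : z' ∈ 𝔭') (hzn : z ∉ 𝔭') (hzn' : z' ∉ 𝔭)
    (hmax : maximalIdeal A = Ideal.span ({p, z, z'} : Set A)) (hzz : p ∣ z * z')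
    (𝔯 : Ideal A) [h𝔯 : 𝔯.IsPrime] (hp𝔯 : p ∈ 𝔯) :
    𝔯 = 𝔭 ∨ 𝔯 = 𝔭' ∨ 𝔯 = maximalIdeal A := by
  have hmax' : maximalIdeal A = Ideal.span ({p, z', z} : Set A) := by
    rw [hmax]
    congr 1
    ext t
    simp only [Set.mem_insert_iff, Set.mem_singleton_iff]
    tauto
  have hzz𝔯 : z * z' ∈ 𝔯 := by
    obtain ⟨c, hc⟩ := hzz
    rw [hc]
    exact Ideal.mul_mem_right _ _ hp𝔯
  by_cases h1 : z ∈ 𝔯
  · by_cases h2 : z' ∈ 𝔯
    · right; right
      refine le_antisymm (le_maximalIdeal h𝔯.ne_top) ?_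
      rw [hmax, Ideal.span_le]
      intro t ht
      rcases ht with rfl | rfl | rfl
      · exact hp𝔯
      · exact h1
      · exact h2
    · left
      rw [dn3_prime_eq 𝔯 p z z' hp𝔯 h1 h2 hmax, dn3_prime_eq 𝔭 p z z' hp𝔭 hz hzn' hmax]
  · have h2 : z' ∈ 𝔯 := (h𝔯.mem_or_mem hzz𝔯).resolve_left h1
    right; left
    rw [dn3_prime_eq 𝔯 p z' z hp𝔯 h2 h1 hmax', dn3_prime_eq 𝔭' p z' z hp𝔭' hz' hzn hmax']

omit [IsDomain A] in
/-- a branch of a node has height at most one (Krull's principal ideal theorem). -/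
theorem nd89_branch_height (𝔭 𝔭' : Ideal A) [h𝔭p : 𝔭.IsPrime] [h𝔭p' : 𝔭'.IsPrime] (p z z' : A)
    (hp𝔭 : p ∈ 𝔭) (hp𝔭' : p ∈ 𝔭') (hz : z ∈ 𝔭) (hz' : z' ∈ 𝔭') (hzn : z ∉ 𝔭') (hzn' : z' ∉ 𝔭)
    (hmax : maximalIdeal A = Ideal.span ({p, z, z'} : Set A)) (hzz : p ∣ z * z') :
    𝔭.height ≤ 1 := by
  have : (Ideal.span ({p} : Set A)).IsPrincipal := ⟨⟨p, rfl⟩⟩
  refine Ideal.height_le_one_of_isPrincipal_of_mem_minimalPrimes (Ideal.span ({p} : Set A)) 𝔭 ?_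
  refine ⟨⟨h𝔭p, (Ideal.span_singleton_le_iff_mem _).mpr hp𝔭⟩, ?_⟩
  rintro 𝔯 ⟨h𝔯, h𝔯le⟩ h𝔯𝔭
  have hp𝔯 : p ∈ 𝔯 := (Ideal.span_singleton_le_iff_mem _).mp h𝔯le
  rcases nd89_primes_over 𝔭 𝔭' p z z' hp𝔭 hp𝔭' hz hz' hzn hzn' hmax hzz 𝔯 hp𝔯 with h | h | h
  · exact h.ge
  · exact absurd (h𝔯𝔭 (h ▸ hz')) hzn'
  · have : z' ∈ maximalIdeal A := by rw [hmax]; exact Ideal.subset_span (by simp)
    exact absurd (h𝔯𝔭 (h ▸ this)) hzn'

/-- **No prime strictly between `0` and a horizontal prime** at a node. -/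
theorem nd89_eq_of_le (𝔭 𝔭' : Ideal A) [h𝔭p : 𝔭.IsPrime] [h𝔭p' : 𝔭'.IsPrime] (p z z' : A)
    (hp𝔭 : p ∈ 𝔭) (hp𝔭' : p ∈ 𝔭') (hz : z ∈ 𝔭) (hz' : z' ∈ 𝔭') (hzn : z ∉ 𝔭') (hzn' : z' ∉ 𝔭)
    (hmax : maximalIdeal A = Ideal.span ({p, z, z'} : Set A)) (hzz : p ∣ z * z')
    (P : Ideal A) [hP : P.IsPrime] (hpP : p ∉ P)
    (Q : Ideal A) [hQ : Q.IsPrime] (hQ0 : Q ≠ ⊥) (hQP : Q ≤ P) : Q = P := by
  have hpm : p ∈ maximalIdeal A := by rw [hmax]; exact Ideal.subset_span (by simp)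
  have hmax' : maximalIdeal A = Ideal.span ({p, z', z} : Set A) := by
    rw [hmax]
    congr 1
    ext t
    simp only [Set.mem_insert_iff, Set.mem_singleton_iff]
    tauto
  have hzz' : p ∣ z' * z := by rw [mul_comm]; exact hzz
  have hpQ : p ∉ Q := fun h => hpP (hQP h)
  have hne : Q ⊔ Ideal.span ({p} : Set A) ≠ ⊤ := by
    intro h
    have hle : Q ⊔ Ideal.span ({p} : Set A) ≤ maximalIdeal A :=
      sup_le (le_maximalIdeal hQ.ne_top) ((Ideal.span_singleton_le_iff_mem _).mpr hpm)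
    rw [h] at hle
    exact (Ideal.IsPrime.ne_top inferInstance : maximalIdeal A ≠ ⊤) (top_le_iff.mp hle)
  obtain ⟨𝔯, h𝔯⟩ := Ideal.nonempty_minimalPrimes hne
  have h𝔯p : 𝔯.IsPrime := h𝔯.1.1
  have hQ𝔯 : Q ≤ 𝔯 := le_sup_left.trans h𝔯.1.2
  have hp𝔯 : p ∈ 𝔯 := h𝔯.1.2 (Ideal.mem_sup_right (Ideal.mem_span_singleton_self p))
  -- a nonzero prime strictly inside a branch is impossible
  have branch : ∀ (𝔮 : Ideal A) [𝔮.IsPrime], 𝔮.height ≤ 1 → p ∈ 𝔮 → Q ≤ 𝔮 → False := by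
    intro 𝔮 _ h𝔮 hp𝔮 hQ𝔮
    have hlt : Q < 𝔮 := lt_of_le_of_ne hQ𝔮 (fun h => hpQ (h ▸ hp𝔮))
    have h1 : Q.height < 1 := Ideal.height_le_iff.mp (by exact_mod_cast h𝔮) Q hQ hlt
    have h2 : Q.height = 0 := Order.lt_one_iff.mp h1
    exact hQ0 (Ideal.height_eq_zero_iff_eq_bot.mp h2)
  rcases nd89_primes_over 𝔭 𝔭' p z z' hp𝔭 hp𝔭' hz hz' hzn hzn' hmax hzz 𝔯 hp𝔯 with h | h | h
  · exact absurd (branch 𝔭
      (nd89_branch_height 𝔭 𝔭' p z z' hp𝔭 hp𝔭' hz hz' hzn hzn' hmax hzz) hp𝔭 (h ▸ hQ𝔯)) id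
  · exact absurd (branch 𝔭'
      (nd89_branch_height 𝔭' 𝔭 p z' z hp𝔭' hp𝔭 hz' hz hzn' hzn hmax' hzz') hp𝔭' (h ▸ hQ𝔯)) id
  · -- the closed point is minimal over `Q + (p)`: its image in `A ⧸ Q` has height `≤ 1`
    rw [h] at h𝔯
    have hht : ((maximalIdeal A).map (Ideal.Quotient.mk Q)).height ≤ 1 :=
      Ideal.map_height_le_one_of_mem_minimalPrimes h𝔯
    have hsurj : Function.Surjective (Ideal.Quotient.mk Q) := Ideal.Quotient.mk_surjective
    have hkerP : RingHom.ker (Ideal.Quotient.mk Q) ≤ P := by rw [Ideal.mk_ker]; exact hQP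
    have hkerm : RingHom.ker (Ideal.Quotient.mk Q) ≤ maximalIdeal A := by
      rw [Ideal.mk_ker]; exact le_maximalIdeal hQ.ne_top
    have hPm : (P.map (Ideal.Quotient.mk Q)).IsPrime :=
      Ideal.map_isPrime_of_surjective hsurj hkerP
    have hmm : ((maximalIdeal A).map (Ideal.Quotient.mk Q)).IsPrime :=
      Ideal.map_isPrime_of_surjective hsurj hkerm
    have hlt : P.map (Ideal.Quotient.mk Q) < (maximalIdeal A).map (Ideal.Quotient.mk Q) := by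
      refine lt_of_le_of_ne (Ideal.map_mono (le_maximalIdeal hP.ne_top)) ?_
      intro heq
      have h1 := congrArg (Ideal.comap (Ideal.Quotient.mk Q)) heq
      rw [Ideal.comap_map_of_surjective _ hsurj, Ideal.comap_map_of_surjective _ hsurj,
        ← RingHom.ker_eq_comap_bot, sup_eq_left.mpr hkerP, sup_eq_left.mpr hkerm] at h1
      exact hpP (h1 ▸ hpm)
    have h1 : (P.map (Ideal.Quotient.mk Q)).height < 1 :=
      Ideal.height_le_iff.mp (by exact_mod_cast hht) _ hPm hlt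
    have h2 : (P.map (Ideal.Quotient.mk Q)).height = 0 := Order.lt_one_iff.mp h1
    have h3 : P.map (Ideal.Quotient.mk Q) = ⊥ := Ideal.height_eq_zero_iff_eq_bot.mp h2
    have h4 : P ≤ Q := by
      have := (Ideal.map_eq_bot_iff_le_ker (Ideal.Quotient.mk Q)).mp h3
      rwa [Ideal.mk_ker] at this
    exact le_antisymm hQP h4

variable [IsIntegrallyClosed A]

/-- **Horizontal primes of a normal node are locally principal** (shape of `Hartogs19`). -/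
theorem nd89_prin (𝔭 𝔭' : Ideal A) [h𝔭p : 𝔭.IsPrime] [h𝔭p' : 𝔭'.IsPrime] (p z z' : A)
    (hp𝔭 : p ∈ 𝔭) (hp𝔭' : p ∈ 𝔭') (hz : z ∈ 𝔭) (hz' : z' ∈ 𝔭') (hzn : z ∉ 𝔭') (hzn' : z' ∉ 𝔭)
    (hmax : maximalIdeal A = Ideal.span ({p, z, z'} : Set A)) (hzz : p ∣ z * z')
    (P : Ideal A) [hP : P.IsPrime] (hpP : p ∉ P) (hP0 : P ≠ ⊥) :
    ∃ ϖ ∈ P, ∃ s, s ∉ P ∧ ∀ y ∈ P, ∃ r, s * y = r * ϖ := by
  by_contra hnot
  obtain ⟨x₀, hx₀P, hx₀⟩ := Submodule.exists_mem_ne_zero_of_ne_bot hP0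
  have hinj := IsFractionRing.injective A (FractionRing A)
  have hx₀F : algebraMap A (FractionRing A) x₀ ≠ 0 := fun h0 =>
    hx₀ (hinj (by rw [h0, map_zero]))
  obtain ⟨s, hs, a, ha⟩ := hg19_mem_localization (F := FractionRing A) P
    (algebraMap A (FractionRing A) x₀)⁻¹ (by
      intro Q hQ hQP hQ0 hQprin
      exfalso
      have := hQ
      have hQeq : Q = P :=
        nd89_eq_of_le 𝔭 𝔭' p z z' hp𝔭 hp𝔭' hz hz' hzn hzn' hmax hzz P hpP Q hQ0 hQP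
      exact hnot (hQeq ▸ hQprin))
  apply hs
  have h1 : algebraMap A (FractionRing A) s = algebraMap A (FractionRing A) (a * x₀) := by
    rw [map_mul, ← ha]
    field_simp
  rw [hinj h1]
  exact P.mul_mem_left _ hx₀P

end Height

section Main

variable {R A : Type*} [CommRing R] [CommRing A] [Algebra R A]
  [IsDomain R] [IsDiscreteValuationRing R] [IsDomain A] [IsLocalRing A] [IsNoetherianRing A]
  [IsIntegrallyClosed A]

/-- **A normal node has no deep points.** -/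
theorem nd89_not_deep (π : R) (hπ : Irreducible π) (𝔭 𝔭' : Ideal A)
    [h𝔭p : 𝔭.IsPrime] [h𝔭p' : 𝔭'.IsPrime]
    (hπ𝔭 : algebraMap R A π ∈ 𝔭) (hπ𝔭' : algebraMap R A π ∈ 𝔭')
    (z z' : A) (hz : z ∈ 𝔭) (hz' : z' ∈ 𝔭') (hzn : z ∉ 𝔭') (hzn' : z' ∉ 𝔭)
    (hmax : maximalIdeal A = Ideal.span ({algebraMap R A π, z, z'} : Set A))
    (hzz : algebraMap R A π ∣ z * z')
    (ρ : A →+* R) (hρ : ∀ r : R, ρ (algebraMap R A r) = r) : ¬ dn3_Deep 𝔭 𝔭' π ρ := by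
  have hsurj : Function.Surjective ρ := fun r => ⟨algebraMap R A r, hρ r⟩
  have hker : (RingHom.ker ρ).IsPrime := RingHom.ker_isPrime ρ
  have hπker : algebraMap R A π ∉ RingHom.ker ρ := by
    rw [RingHom.mem_ker, hρ]
    exact hπ.ne_zero
  have hzm : z ∈ maximalIdeal A := by rw [hmax]; exact Ideal.subset_span (by simp)
  have hz'm : z' ∈ maximalIdeal A := by rw [hmax]; exact Ideal.subset_span (by simp)
  have hker0 : RingHom.ker ρ ≠ ⊥ := by
    intro h0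
    -- then `z = ρ z` and `z' = ρ z'` lie in `(π)`, so `z ∈ 𝔭'`
    have h1 : z - algebraMap R A (ρ z) ∈ RingHom.ker ρ := by
      rw [RingHom.mem_ker, map_sub, hρ, sub_self]
    rw [h0, Ideal.mem_bot, sub_eq_zero] at h1
    have h2 : ρ z ∈ maximalIdeal R := dn3_rho_mem ρ hρ z hzm
    rw [hπ.maximalIdeal_eq, Ideal.mem_span_singleton'] at h2
    obtain ⟨c, hc⟩ := h2
    apply hzn
    rw [h1, ← hc, map_mul]
    exact Ideal.mul_mem_left _ _ hπ𝔭'
  exact nd89_not_deep_of_prin π hπ 𝔭 𝔭' hπ𝔭 hπ𝔭' z z' hz hz' hzn hzn' hmax hzz ρ hρ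
    (nd89_prin 𝔭 𝔭' (algebraMap R A π) z z' hπ𝔭 hπ𝔭' hz hz' hzn hzn' hmax hzz
      (RingHom.ker ρ) hπker hker0)

/-- **Every `R`-point of a normal node has a local equation**: `H ∈ ker ρ` with
`a * ker ρ ⊆ H A` for some `0 ≠ a ∈ R`.  No thickness bound, no exact coordinates. -/
theorem nd89_main (π : R) (hπ : Irreducible π) (𝔭 𝔭' : Ideal A)
    [h𝔭p : 𝔭.IsPrime] [h𝔭p' : 𝔭'.IsPrime]
    (hπ𝔭 : algebraMap R A π ∈ 𝔭) (hπ𝔭' : algebraMap R A π ∈ 𝔭')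
    (z z' : A) (hz : z ∈ 𝔭) (hz' : z' ∈ 𝔭') (hzn : z ∉ 𝔭') (hzn' : z' ∉ 𝔭)
    (hmax : maximalIdeal A = Ideal.span ({algebraMap R A π, z, z'} : Set A))
    (hzz : algebraMap R A π ∣ z * z')
    (ρ : A →+* R) (hρ : ∀ r : R, ρ (algebraMap R A r) = r) :
    ∃ H ∈ RingHom.ker ρ, ∃ a : R, a ≠ 0 ∧
      ∀ x ∈ RingHom.ker ρ, ∃ y : A, algebraMap R A a * x = H * y :=
  dn3_main π hπ 𝔭 𝔭' hπ𝔭 hπ𝔭' z z' hz hz' hzn hzn' hmax hzz ρ hρ
    (nd89_not_deep π hπ 𝔭 𝔭' hπ𝔭 hπ𝔭' z z' hz hz' hzn hzn' hmax hzz ρ hρ)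

end Main

end Fermat.Agent.S34
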