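import Mathlib
import Fermat.Agent.S34.Hartogs19

/-!
# S34 lab, chain B of the local datum at a node (helper62)

Abstract, Mathlib + `Hartogs19` only.  All names are prefixed `nl62_`.

Setting: `R` a discrete valuation ring with uniformizer `π` and fraction field `K`, `F` a field
over `K`, `B : Subalgebra R F` a chart (noetherian, integrally closed in `F`, `Frac B = F`),
`W : Subring F` (`= V_∞ ⊓ V_0`) with `B ⊆ W` and `B` `π`-saturated in `W`, `n` a prime of `B`
containing `π`, `s t : F ≃+* F` (inertia) acting trivially on `W / π W`.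

* `nl62_dd s t : F →*₀ F` is the double difference `x ↦ s (t x) * x / (s x * t x)`;
  `nl62_dd_cong`: it is `≡ 1 mod π W` for EVERY `x ≠ 0`.
* `nl62_regular`: an element of `W` lying in every horizontal PID valuation subring centred
  at `n` is regular at `n` (normality + saturation; no node structure).
* `nl62_hLD_of_LP`: if `f / g ^ m` is a unit of every horizontal PID valuation subring centred
  at `n`, then the local datum `hLD` of `ntc47_main` holds at `n` for `u = nl62_dd s t f`,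
  with `φ = (nl62_dd s t g)⁻¹`.
The node part (`nl62_node_LP`, `nl62_node_hLD`: at a node `n B_n = (π, z, z')`,
`z z' = π ^ κ * unit`, with `K`-rational bad places, `g = ∏ (z - z(P)) ^ (ord_P f / m)`) is in
`NodalNode62.lean`.
-/

set_option autoImplicit false

namespace Fermat.Agent.S34

section Units

variable {F : Type*} [Field F]

/-- `x` is a unit of the valuation subring `O`. -/
def nl62_U (O : ValuationSubring F) (x : F) : Prop := x ∈ O ∧ x⁻¹ ∈ O

theorem nl62_U_one (O : ValuationSubring F) : nl62_U O 1 :=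
  ⟨O.one_mem, by rw [inv_one]; exact O.one_mem⟩

theorem nl62_U_mul {O : ValuationSubring F} {x y : F} (hx : nl62_U O x) (hy : nl62_U O y) :
    nl62_U O (x * y) :=
  ⟨O.mul_mem _ _ hx.1 hy.1, by rw [mul_inv]; exact O.mul_mem _ _ hx.2 hy.2⟩

theorem nl62_U_inv {O : ValuationSubring F} {x : F} (hx : nl62_U O x) : nl62_U O x⁻¹ :=
  ⟨hx.2, by rw [inv_inv]; exact hx.1⟩

theorem nl62_U_div {O : ValuationSubring F} {x y : F} (hx : nl62_U O x) (hy : nl62_U O y) :
    nl62_U O (x / y) := by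
  rw [div_eq_mul_inv]; exact nl62_U_mul hx (nl62_U_inv hy)

theorem nl62_U_pow {O : ValuationSubring F} {x : F} (hx : nl62_U O x) (k : ℕ) :
    nl62_U O (x ^ k) := by
  induction k with
  | zero => rw [pow_zero]; exact nl62_U_one O
  | succ k ih => rw [pow_succ]; exact nl62_U_mul ih hx

theorem nl62_U_zpow {O : ValuationSubring F} {x : F} (hx : nl62_U O x) (k : ℤ) :
    nl62_U O (x ^ k) := by
  cases k with
  | ofNat k => rw [Int.ofNat_eq_natCast, zpow_natCast]; exact nl62_U_pow hx k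
  | negSucc k => rw [zpow_negSucc]; exact nl62_U_inv (nl62_U_pow hx _)

theorem nl62_U_prod {O : ValuationSubring F} {ι : Type*} (S : Finset ι) (c : ι → F)
    (h : ∀ i ∈ S, nl62_U O (c i)) : nl62_U O (∏ i ∈ S, c i) := by
  classical
  induction S using Finset.induction_on with
  | empty => rw [Finset.prod_empty]; exact nl62_U_one O
  | insert a S ha ih =>
    rw [Finset.prod_insert ha]
    exact nl62_U_mul (h a (Finset.mem_insert_self a S))
      (ih (fun i hi => h i (Finset.mem_insert_of_mem hi)))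

end Units

section DoubleDifference

variable {F : Type*} [Field F]

/-- The double difference `x ↦ s (t x) * x / (s x * t x)`, a multiplicative map. -/
def nl62_dd (s t : F ≃+* F) : F →*₀ F where
  toFun x := s (t x) * x / (s x * t x)
  map_zero' := by simp
  map_one' := by simp
  map_mul' x y := by
    simp only [map_mul]
    rw [div_mul_div_comm]
    congr 1 <;> ring

theorem nl62_dd_apply (s t : F ≃+* F) (x : F) :
    nl62_dd s t x = s (t x) * x / (s x * t x) := rfl

/-- **The δ-trick.**  If `t` preserves `W`-valuations (`t x / x` is a unit of `W`) and `s` is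
trivial on `W / p W`, the double difference of EVERY `x ≠ 0` is `≡ 1 mod p W`. -/
theorem nl62_dd_cong (W : Subring F) (p : F) (s t : F ≃+* F)
    (hs1 : ∀ y ∈ W, p⁻¹ * (s y - y) ∈ W)
    (htW : ∀ x : F, x ≠ 0 → t x / x ∈ W ∧ x / t x ∈ W) (x : F) (hx : x ≠ 0) :
    p⁻¹ * (nl62_dd s t x - 1) ∈ W := by
  obtain ⟨h1, h2⟩ := htW x hx
  have htx : t x ≠ 0 := (map_ne_zero t).mpr hx
  have hsx : s x ≠ 0 := (map_ne_zero s).mpr hx
  have key : p⁻¹ * (nl62_dd s t x - 1) = p⁻¹ * (s (t x / x) - t x / x) * (x / t x) := by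
    rw [mul_assoc]
    congr 1
    rw [nl62_dd_apply, map_div₀]
    field_simp
  rw [key]
  exact W.mul_mem (hs1 _ h1) h2

/-- `y ≡ 1 mod p W` implies `y⁻¹ ≡ 1 mod p W` when `1 + p W ⊆ Wˣ`. -/
theorem nl62_inv_cong (W : Subring F) (p : F) (hp0 : p ≠ 0)
    (hWunit : ∀ x ∈ W, (1 + p * x)⁻¹ ∈ W) (y : F) (hy : p⁻¹ * (y - 1) ∈ W) :
    p⁻¹ * (y⁻¹ - 1) ∈ W := by
  by_cases hy0 : y = 0
  · rw [hy0, inv_zero]; rw [hy0] at hy; exact hy
  have h1 : y = 1 + p * (p⁻¹ * (y - 1)) := by field_simp; ring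
  have h2 : y⁻¹ ∈ W := by
    have := hWunit _ hy
    rwa [← h1] at this
  have h3 : p⁻¹ * (y⁻¹ - 1) = -(p⁻¹ * (y - 1)) * y⁻¹ := by field_simp; ring
  rw [h3]
  exact W.mul_mem (W.neg_mem hy) h2

theorem nl62_mem_of_cong (W : Subring F) (p : F) (hp0 : p ≠ 0) (hpW : p ∈ W) (y : F)
    (hy : p⁻¹ * (y - 1) ∈ W) : y ∈ W := by
  have h1 : y = 1 + p * (p⁻¹ * (y - 1)) := by field_simp; ring
  rw [h1]
  exact W.add_mem W.one_mem (W.mul_mem hpW hy)

end DoubleDifference

section Regular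

variable {F : Type*} [Field F]

/-- A valuation subring in which every nonzero element is a unit times a power of a fixed
non-unit `ϖ` is a principal ideal ring. -/
theorem nl62_pid_of_decomp (V : ValuationSubring F) (ϖ : F) (hϖV : ϖ ∈ V)
    (hdec : ∀ x ∈ V, x ≠ 0 → ∃ (k : ℕ) (u : F), u ∈ V ∧ u⁻¹ ∈ V ∧ x = u * ϖ ^ k) :
    IsPrincipalIdealRing V := by
  classical
  refine ⟨fun I => ?_⟩
  by_cases hI : I = ⊥
  · exact ⟨0, by rw [hI]; simp⟩
  obtain ⟨x, hxI, hx0⟩ : ∃ x ∈ I, x ≠ 0 := Submodule.exists_mem_ne_zero_of_ne_bot hI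
  have hpow : ∀ y : V, y ∈ I → y ≠ 0 → ∃ k : ℕ, (⟨ϖ, hϖV⟩ : V) ^ k ∈ I ∧
      ∃ e : V, y = (⟨ϖ, hϖV⟩ : V) ^ k * e := by
    intro y hyI hy0
    have hy0' : (y : F) ≠ 0 := fun h => hy0 (Subtype.ext h)
    obtain ⟨k, u, hu, hu', hyu⟩ := hdec (y : F) y.2 hy0'
    have hu0 : u ≠ 0 := by
      rintro rfl
      exact hy0' (by rw [hyu, zero_mul])
    refine ⟨k, ?_, ⟨u, hu⟩, ?_⟩
    · have : (⟨ϖ, hϖV⟩ : V) ^ k = (⟨u⁻¹, hu'⟩ : V) * y := by
        apply Subtype.ext
        simp only [SubmonoidClass.coe_pow, MulMemClass.coe_mul]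
        rw [hyu]; field_simp
      rw [this]
      exact I.mul_mem_left _ hyI
    · apply Subtype.ext
      simp only [SubmonoidClass.coe_pow, MulMemClass.coe_mul]
      rw [hyu, mul_comm]
  have hex : ∃ k : ℕ, (⟨ϖ, hϖV⟩ : V) ^ k ∈ I := by
    obtain ⟨k, hk, -⟩ := hpow x hxI hx0
    exact ⟨k, hk⟩
  refine ⟨(⟨ϖ, hϖV⟩ : V) ^ Nat.find hex, le_antisymm ?_ ?_⟩
  · intro y hyI
    by_cases hy0 : y = 0
    · rw [hy0]; exact Submodule.zero_mem _
    obtain ⟨k, hk, e, hye⟩ := hpow y hyI hy0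
    have hle : Nat.find hex ≤ k := Nat.find_min' hex hk
    rw [Submodule.mem_span_singleton]
    refine ⟨(⟨ϖ, hϖV⟩ : V) ^ (k - Nat.find hex) * e, ?_⟩
    rw [smul_eq_mul, hye, mul_right_comm, ← pow_add, Nat.sub_add_cancel hle]
  · rw [Submodule.span_singleton_le_iff_mem]
    exact Nat.find_spec hex

variable {R : Type*} [CommRing R] [Algebra R F]

/-- The horizontal PID valuation subrings centred at the prime `n` of the chart `B`. -/
def nl62_Hor (B : Subalgebra R F) (n : Ideal B) (p : F) (O : ValuationSubring F) : Prop :=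
  O ≠ ⊤ ∧ IsPrincipalIdealRing O ∧ (∀ x ∈ B, x ∈ O) ∧ p⁻¹ ∈ O ∧
    ∀ x : B, x ∉ n → (x : F)⁻¹ ∈ O

theorem nl62_isFractionRing (B : Subalgebra R F)
    (hfrac : ∀ x : F, ∃ a ∈ B, ∃ b ∈ B, b ≠ 0 ∧ x * b = a) : IsFractionRing B F := by
  have : FaithfulSMul B F := (faithfulSMul_iff_algebraMap_injective B F).mpr Subtype.val_injective
  refine IsFractionRing.of_field B F (fun z => ?_)
  obtain ⟨a, ha, b, hb, hb0, hab⟩ := hfrac z
  refine ⟨⟨a, ha⟩, ⟨b, hb⟩, ?_⟩
  show z = a / b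
  rw [← hab]; field_simp

/-- **(K), normality form.**  `B` noetherian, integrally closed in `F = Frac B`, `π`-saturated in
`W`.  An element `y ∈ W` lying in every horizontal PID valuation subring centred at `n` is regular
at `n`. -/
theorem nl62_regular (B : Subalgebra R F) [IsNoetherianRing B]
    (hBic : ∀ x : F, IsIntegral B x → x ∈ B)
    (hfrac : ∀ x : F, ∃ a ∈ B, ∃ b ∈ B, b ≠ 0 ∧ x * b = a)
    (W : Subring F) (hBW : ∀ x ∈ B, x ∈ W) (p : F) (hpB : p ∈ B) (hp0 : p ≠ 0)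
    (hsat : ∀ x ∈ B, p⁻¹ * x ∈ W → p⁻¹ * x ∈ B)
    (n : Ideal B) [hn : n.IsPrime] (y : F) (hyW : y ∈ W)
    (hhor : ∀ O : ValuationSubring F, nl62_Hor B n p O → y ∈ O) :
    ∃ s : B, s ∉ n ∧ (s : F) * y ∈ B := by
  classical
  have : IsFractionRing B F := nl62_isFractionRing B hfrac
  have : IsIntegrallyClosed B :=
    (isIntegrallyClosed_iff F).mpr (fun {x} hx => ⟨⟨x, hBic x hx⟩, rfl⟩)
  have hmain : ∃ s, s ∉ n ∧ ∃ a : B, algebraMap B F s * y = algebraMap B F a := by
    refine hg19_mem_localization (A := B) (F := F) n y ?_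
    intro P hP hPn hP0 hprin
    have h1P : (1 : B) ∉ P := (Ideal.ne_top_iff_one P).mp hP.ne_top
    have hmulP : ∀ u v : B, u ∉ P → v ∉ P → u * v ∉ P := by
      intro u v hu hv hmem
      rcases hP.mem_or_mem hmem with h | h
      · exact hu h
      · exact hv h
    have hpowP : ∀ (u : B) (k : ℕ), u ∉ P → u ^ k ∉ P := by
      intro u k hu hmem
      exact hu (hP.mem_of_pow_mem _ hmem)
    by_cases hy0 : y = 0
    · exact ⟨1, h1P, 0, by rw [hy0, mul_zero, map_zero]⟩
    obtain ⟨ϖ, hϖ, s₀, hs₀, hprin'⟩ := hprin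
    have hϖ0 : ϖ ≠ 0 := by
      rintro rfl
      apply hP0
      rw [eq_bot_iff]
      intro x hx
      obtain ⟨r, hr⟩ := hprin' x hx
      rw [mul_zero] at hr
      rcases mul_eq_zero.mp hr with h | h
      · exact absurd (h ▸ P.zero_mem) hs₀
      · rw [h]; exact Submodule.zero_mem _
    by_cases hpP : (⟨p, hpB⟩ : B) ∈ P
    · -- vertical prime: saturation
      obtain ⟨a, ha, b, hb, hb0, hab⟩ := hfrac y
      have ha0 : a ≠ 0 := by rw [← hab]; exact mul_ne_zero hy0 hb0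
      have ha0' : (⟨a, ha⟩ : B) ≠ 0 := fun h => ha0 (congrArg Subtype.val h)
      have hb0' : (⟨b, hb⟩ : B) ≠ 0 := fun h => hb0 (congrArg Subtype.val h)
      rcases hg19_dichotomy P ϖ s₀ hs₀ hprin' hϖ ⟨a, ha⟩ ⟨b, hb⟩ ha0' hb0' with
        ⟨s, hs, c, hc⟩ | ⟨s, hs, y₁, hy₁, hsy⟩
      · refine ⟨s, hs, c, ?_⟩
        have h2 : (s : F) * a = b * (c : F) := congrArg Subtype.val hc
        show (s : F) * y = (c : F)
        rw [← hab] at h2
        have : b * ((s : F) * y) = b * (c : F) := by rw [← h2]; ring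
        exact mul_left_cancel₀ hb0 this
      · exfalso
        have h2 : (s : F) * b = (y₁ : F) * a := congrArg Subtype.val hsy
        have hsF : (s : F) = (y₁ : F) * y := by
          rw [← hab] at h2
          have : b * (s : F) = b * ((y₁ : F) * y) := by rw [mul_comm, h2]; ring
          exact mul_left_cancel₀ hb0 this
        have hs0 : s ≠ 0 := fun h => hs (h ▸ P.zero_mem)
        have hy₁0 : y₁ ≠ 0 := by
          rintro rfl
          apply hs0
          apply Subtype.ext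
          rw [hsF]; simp
        have hp0' : (⟨p, hpB⟩ : B) ≠ 0 := fun h => hp0 (congrArg Subtype.val h)
        obtain ⟨e, sπ, rπ, hsπ, hrπ, heq⟩ :=
          hg19_decomp P ϖ s₀ hs₀ hprin' hϖ ⟨p, hpB⟩ hp0'
        obtain ⟨j, s₁, r₁, hs₁, hr₁, heq₁⟩ := hg19_decomp P ϖ s₀ hs₀ hprin' hϖ y₁ hy₁0
        have hj : j ≠ 0 := by
          rintro rfl
          rw [pow_zero, mul_one] at heq₁
          exact hr₁ (heq₁ ▸ P.mul_mem_left _ hy₁)
        obtain ⟨j', rfl⟩ := Nat.exists_eq_succ_of_ne_zero hj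
        set T : B := rπ ^ (j' + 1) * s₁ ^ e * s ^ e with hT
        have hTP : T ∉ P :=
          hmulP _ _ (hmulP _ _ (hpowP _ _ hrπ) (hpowP _ _ hs₁)) (hpowP _ _ hs)
        have heqF : (sπ : F) * p = (rπ : F) * (ϖ : F) ^ e := by
          have := congrArg Subtype.val heq
          simpa using this
        have heq₁F : (s₁ : F) * (y₁ : F) = (r₁ : F) * (ϖ : F) ^ (j' + 1) := by
          have := congrArg Subtype.val heq₁
          simpa using this
        have hTF : (T : F) = p * (((r₁ : F) ^ e * (sπ : F) ^ (j' + 1) * p ^ j') * y ^ e) := by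
          have h3 : (T : F) = (rπ : F) ^ (j' + 1) * (s₁ : F) ^ e * (s : F) ^ e := by
            rw [hT]; simp
          rw [h3, hsF]
          calc (rπ : F) ^ (j' + 1) * (s₁ : F) ^ e * ((y₁ : F) * y) ^ e
              = (rπ : F) ^ (j' + 1) * ((s₁ : F) * (y₁ : F)) ^ e * y ^ e := by ring
            _ = (r₁ : F) ^ e * ((rπ : F) * (ϖ : F) ^ e) ^ (j' + 1) * y ^ e := by
                rw [heq₁F]; ring
            _ = (r₁ : F) ^ e * ((sπ : F) * p) ^ (j' + 1) * y ^ e := by rw [heqF]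
            _ = p * (((r₁ : F) ^ e * (sπ : F) ^ (j' + 1) * p ^ j') * y ^ e) := by ring
        have hmemW : p⁻¹ * (T : F) ∈ W := by
          rw [hTF, ← mul_assoc, inv_mul_cancel₀ hp0, one_mul]
          refine W.mul_mem (hBW _ ?_) (W.pow_mem hyW _)
          exact B.mul_mem (B.mul_mem (B.pow_mem r₁.2 _) (B.pow_mem sπ.2 _)) (B.pow_mem hpB _)
        have hmemB := hsat (T : F) T.2 hmemW
        apply hTP
        have : T = ⟨p, hpB⟩ * ⟨p⁻¹ * (T : F), hmemB⟩ := by
          apply Subtype.ext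
          show (T : F) = p * (p⁻¹ * (T : F))
          rw [← mul_assoc, mul_inv_cancel₀ hp0, one_mul]
        rw [this]
        exact P.mul_mem_right _ hpP
    · -- horizontal prime: its localisation is a PID valuation subring centred at `n`
      obtain ⟨V, hV⟩ := hg19_exists_valuationSubring (A := B) (F := F) P ⟨ϖ, hϖ, s₀, hs₀, hprin'⟩
      rw [← hV]
      have hunit : ∀ x : B, x ∉ P → (x : F)⁻¹ ∈ V := by
        intro x hx
        rw [hV]
        have hx0 : (x : F) ≠ 0 := fun h => hx (by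
          have : x = 0 := Subtype.ext h
          rw [this]; exact P.zero_mem)
        exact ⟨x, hx, 1, by
          show (x : F) * (x : F)⁻¹ = ((1 : B) : F)
          rw [mul_inv_cancel₀ hx0]; rfl⟩
      have hBV : ∀ x ∈ B, x ∈ V := by
        intro x hx
        rw [hV]
        exact ⟨1, h1P, ⟨x, hx⟩, by rw [map_one, one_mul]; rfl⟩
      have hϖF : (ϖ : F) ≠ 0 := fun h => hϖ0 (Subtype.ext h)
      have hϖinv : (ϖ : F)⁻¹ ∉ V := by
        rw [hV]
        rintro ⟨s, hs, a, ha⟩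
        apply hs
        have h2 : (s : F) * (ϖ : F)⁻¹ = (a : F) := ha
        have : s = a * ϖ := by
          apply Subtype.ext
          show (s : F) = (a : F) * (ϖ : F)
          rw [← h2]; field_simp
        rw [this]; exact P.mul_mem_left _ hϖ
      apply hhor V
      refine ⟨?_, ?_, hBV, ?_, ?_⟩
      · intro htop
        apply hϖinv
        rw [htop]; exact ValuationSubring.mem_top _
      · refine nl62_pid_of_decomp V (ϖ : F) (hBV _ ϖ.2) ?_
        intro x hxV hx0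
        obtain ⟨a, ha, b, hb, hb0, hab⟩ := hfrac x
        have ha0 : a ≠ 0 := by rw [← hab]; exact mul_ne_zero hx0 hb0
        have ha0' : (⟨a, ha⟩ : B) ≠ 0 := fun h => ha0 (congrArg Subtype.val h)
        have hb0' : (⟨b, hb⟩ : B) ≠ 0 := fun h => hb0 (congrArg Subtype.val h)
        obtain ⟨i, s, r, hs, hr, h⟩ := hg19_decomp P ϖ s₀ hs₀ hprin' hϖ ⟨a, ha⟩ ha0'
        obtain ⟨j, s', r', hs', hr', h'⟩ := hg19_decomp P ϖ s₀ hs₀ hprin' hϖ ⟨b, hb⟩ hb0'
        have hF : (s : F) * a = (r : F) * (ϖ : F) ^ i := by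
          have := congrArg Subtype.val h
          simpa using this
        have hF' : (s' : F) * b = (r' : F) * (ϖ : F) ^ j := by
          have := congrArg Subtype.val h'
          simpa using this
        have hne : ∀ x : B, x ∉ P → (x : F) ≠ 0 := fun x hx h => hx (by
          have : x = 0 := Subtype.ext h
          rw [this]; exact P.zero_mem)
        have hs0 := hne s hs
        have hr0 := hne r hr
        have hs'0 := hne s' hs'
        have hr'0 := hne r' hr'
        set u : F := (r : F) * (s' : F) * ((s : F)⁻¹ * (r' : F)⁻¹) with hu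
        have huV : u ∈ V :=
          V.mul_mem _ _ (V.mul_mem _ _ (hBV _ r.2) (hBV _ s'.2))
            (V.mul_mem _ _ (hunit s hs) (hunit r' hr'))
        have huV' : u⁻¹ ∈ V := by
          have : u⁻¹ = (s : F) * (r' : F) * ((r : F)⁻¹ * (s' : F)⁻¹) := by
            rw [hu]; field_simp
          rw [this]
          exact V.mul_mem _ _ (V.mul_mem _ _ (hBV _ s.2) (hBV _ r'.2))
            (V.mul_mem _ _ (hunit r hr) (hunit s' hs'))
        have hxu : x * (ϖ : F) ^ j = u * (ϖ : F) ^ i := by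
          have hx' : x = a / b := by rw [← hab]; field_simp
          have ha' : a = (s : F)⁻¹ * ((r : F) * (ϖ : F) ^ i) := by
            rw [← hF]; field_simp
          have hb' : b = (s' : F)⁻¹ * ((r' : F) * (ϖ : F) ^ j) := by
            rw [← hF']; field_simp
          rw [hx', hu]
          rw [div_mul_eq_mul_div, div_eq_iff hb0]
          conv_lhs => rw [ha']
          conv_rhs => rw [hb']
          field_simp
        rcases le_or_gt j i with hji | hij
        · refine ⟨i - j, u, huV, huV', ?_⟩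
          have : (ϖ : F) ^ i = (ϖ : F) ^ (i - j) * (ϖ : F) ^ j := by
            rw [← pow_add, Nat.sub_add_cancel hji]
          rw [this, ← mul_assoc] at hxu
          exact mul_right_cancel₀ (pow_ne_zero _ hϖF) hxu
        · exfalso
          apply hϖinv
          obtain ⟨d, rfl⟩ : ∃ d, j = i + d + 1 := ⟨j - i - 1, by omega⟩
          have h4 : x * (ϖ : F) ^ (d + 1) = u := by
            have : (ϖ : F) ^ (i + d + 1) = (ϖ : F) ^ (d + 1) * (ϖ : F) ^ i := by
              rw [← pow_add]; congr 1; omega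
            rw [this, ← mul_assoc] at hxu
            exact mul_right_cancel₀ (pow_ne_zero _ hϖF) hxu
          have h5 : (ϖ : F)⁻¹ = x * (ϖ : F) ^ d * u⁻¹ := by
            have hu0 : u ≠ 0 := by
              rw [← h4]; exact mul_ne_zero hx0 (pow_ne_zero _ hϖF)
            rw [← h4]; field_simp; ring
          rw [h5]
          exact V.mul_mem _ _ (V.mul_mem _ _ hxV (V.pow_mem (hBV _ ϖ.2) _)) huV'
      · rw [hV]
        exact ⟨⟨p, hpB⟩, hpP, 1, by
          show p * p⁻¹ = ((1 : B) : F)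
          rw [mul_inv_cancel₀ hp0]; rfl⟩
      · intro x hx
        exact hunit x (fun h => hx (hPn h))
  obtain ⟨s, hs, a, ha⟩ := hmain
  refine ⟨s, hs, ?_⟩
  have : (s : F) * y = (a : F) := ha
  rw [this]; exact a.2

end Regular

section LocalDatum

variable {R F : Type*} [CommRing R] [Field F] [Algebra R F]

/-- An automorphism that is trivial on `W / p W` maps `B ∖ n` into itself (`p ∈ n`, `B` saturated
in `W`). -/
theorem nl62_not_mem_of_triv (B : Subalgebra R F) (W : Subring F) (hBW : ∀ x ∈ B, x ∈ W)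
    (p : F) (hpB : p ∈ B) (hp0 : p ≠ 0)
    (hsat : ∀ x ∈ B, p⁻¹ * x ∈ W → p⁻¹ * x ∈ B)
    (n : Ideal B) (hpn : (⟨p, hpB⟩ : B) ∈ n)
    (σ : F ≃+* F) (hσB : ∀ x ∈ B, σ x ∈ B) (hσ1 : ∀ y ∈ W, p⁻¹ * (σ y - y) ∈ W)
    (x : B) (hx : x ∉ n) : (⟨σ x, hσB x x.2⟩ : B) ∉ n := by
  intro h
  apply hx
  have h1 : p⁻¹ * (σ x - x) ∈ B := hsat _ (B.sub_mem (hσB x x.2) x.2) (hσ1 x (hBW x x.2))
  have : x = ⟨σ x, hσB x x.2⟩ - ⟨p, hpB⟩ * ⟨p⁻¹ * (σ x - x), h1⟩ := by
    apply Subtype.ext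
    show (x : F) = σ x - p * (p⁻¹ * (σ x - x))
    field_simp
    ring
  rw [this]
  exact n.sub_mem h (n.mul_mem_right _ hpn)

/-- The horizontal PID valuation subrings centred at `n` are permuted by an automorphism that
preserves `B`, `B ∖ n` and `p` up to a unit of `B`. -/
theorem nl62_Hor_comap (B : Subalgebra R F) (n : Ideal B) (p : F) (hp0 : p ≠ 0)
    (σ : F ≃+* F) (hσB : ∀ x ∈ B, σ x ∈ B)
    (hσn : ∀ x : B, x ∉ n → (⟨σ x, hσB x x.2⟩ : B) ∉ n)
    (hσp : ∃ ε ∈ B, p = ε * σ p) (O : ValuationSubring F) (h : nl62_Hor B n p O) :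
    nl62_Hor B n p (O.comap (σ : F →+* F)) := by
  obtain ⟨htop, hpid, hBO, hpO, hcen⟩ := h
  refine ⟨?_, ?_, ?_, ?_, ?_⟩
  · intro h'
    apply htop
    rw [eq_top_iff]
    intro x _
    have h2 : σ.symm x ∈ O.comap (σ : F →+* F) := by rw [h']; exact ValuationSubring.mem_top _
    rw [ValuationSubring.mem_comap] at h2
    simpa using h2
  · have hmap : ∀ x ∈ O, (σ.symm : F →+* F) x ∈ O.comap (σ : F →+* F) := by
      intro x hx
      rw [ValuationSubring.mem_comap]
      simpa using hx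
    have := hpid
    refine IsPrincipalIdealRing.of_surjective
      ((σ.symm : F →+* F).restrict O (O.comap (σ : F →+* F)) hmap) ?_
    rintro ⟨y, hy⟩
    have hy' : σ y ∈ O := ValuationSubring.mem_comap.mp hy
    refine ⟨⟨σ y, hy'⟩, Subtype.ext ?_⟩
    show σ.symm (σ y) = y
    simp
  · intro x hx
    rw [ValuationSubring.mem_comap]
    exact hBO _ (hσB x hx)
  · rw [ValuationSubring.mem_comap]
    obtain ⟨ε, hε, hεp⟩ := hσp
    have hε0 : ε ≠ 0 := by
      rintro rfl
      rw [zero_mul] at hεp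
      exact hp0 hεp
    have h2 : (σ p)⁻¹ = ε * p⁻¹ := by
      have h3 : p⁻¹ = (ε * σ p)⁻¹ := congrArg Inv.inv hεp
      rw [h3, mul_inv, ← mul_assoc, mul_inv_cancel₀ hε0, one_mul]
    show σ p⁻¹ ∈ O
    rw [map_inv₀, h2]
    exact O.mul_mem _ _ (hBO _ hε) hpO
  · intro x hx
    rw [ValuationSubring.mem_comap]
    show σ (x : F)⁻¹ ∈ O
    rw [map_inv₀]
    exact hcen ⟨σ x, hσB x x.2⟩ (hσn x hx)

/-- **The local datum from `(LP)`.**  If `f / g ^ m` is a unit of every horizontal PID valuation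
subring centred at `n`, then `φ := (nl62_dd s t g)⁻¹` is `≡ 1 mod π W` and `φ ^ m * u` is regular
at `n`, for `u = s (t f) * f / (s f * t f)`: the clause `hLD` of `ntc47_main` at `n`. -/
theorem nl62_hLD_of_LP (π : R) (hπ0 : algebraMap R F π ≠ 0)
    (W : Subring F) (hWunit : ∀ x ∈ W, (1 + algebraMap R F π * x)⁻¹ ∈ W)
    (B : Subalgebra R F) [IsNoetherianRing B]
    (hBic : ∀ x : F, IsIntegral B x → x ∈ B)
    (hfrac : ∀ x : F, ∃ a ∈ B, ∃ b ∈ B, b ≠ 0 ∧ x * b = a)
    (hBW : ∀ x ∈ B, x ∈ W)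
    (hsat : ∀ x ∈ B, (algebraMap R F π)⁻¹ * x ∈ W → (algebraMap R F π)⁻¹ * x ∈ B)
    (n : Ideal B) [n.IsPrime] (hπn : algebraMap R B π ∈ n)
    (s t : F ≃+* F) (hsB : ∀ x ∈ B, s x ∈ B) (htB : ∀ x ∈ B, t x ∈ B)
    (hsπ : ∃ ε : R, algebraMap R F π = algebraMap R F ε * s (algebraMap R F π))
    (htπ : ∃ ε : R, algebraMap R F π = algebraMap R F ε * t (algebraMap R F π))
    (hs1 : ∀ y ∈ W, (algebraMap R F π)⁻¹ * (s y - y) ∈ W)
    (ht1 : ∀ y ∈ W, (algebraMap R F π)⁻¹ * (t y - y) ∈ W)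
    (htW : ∀ x : F, x ≠ 0 → t x / x ∈ W ∧ x / t x ∈ W)
    (m : ℕ) (f g : F) (hf0 : f ≠ 0) (hg0 : g ≠ 0)
    (hLP : ∀ O : ValuationSubring F, nl62_Hor B n (algebraMap R F π) O →
      nl62_U O (f / g ^ m)) :
    ∃ φ : F, (algebraMap R F π)⁻¹ * (φ - 1) ∈ W ∧
      ∃ s₀ : B, s₀ ∉ n ∧ (s₀ : F) * (φ ^ m * (s (t f) * f / (s f * t f))) ∈ B := by
  set p : F := algebraMap R F π with hp
  have hpB : p ∈ B := B.algebraMap_mem π
  have hpW : p ∈ W := hBW p hpB
  have hpn : (⟨p, hpB⟩ : B) ∈ n := hπn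
  refine ⟨(nl62_dd s t g)⁻¹,
    nl62_inv_cong W p hπ0 hWunit _ (nl62_dd_cong W p s t hs1 htW g hg0), ?_⟩
  have hω0 : f / g ^ m ≠ 0 := div_ne_zero hf0 (pow_ne_zero _ hg0)
  have hkey : (nl62_dd s t g)⁻¹ ^ m * (s (t f) * f / (s f * t f)) =
      nl62_dd s t (f / g ^ m) := by
    rw [map_div₀, map_pow, ← nl62_dd_apply, inv_pow, div_eq_mul_inv, mul_comm]
  rw [hkey]
  have hsn := nl62_not_mem_of_triv B W hBW p hpB hπ0 hsat n hpn s hsB hs1
  have htn := nl62_not_mem_of_triv B W hBW p hpB hπ0 hsat n hpn t htB ht1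
  have hsp : ∃ ε ∈ B, p = ε * s p := by
    obtain ⟨ε, hε⟩ := hsπ
    exact ⟨algebraMap R F ε, B.algebraMap_mem ε, hε⟩
  have htp : ∃ ε ∈ B, p = ε * t p := by
    obtain ⟨ε, hε⟩ := htπ
    exact ⟨algebraMap R F ε, B.algebraMap_mem ε, hε⟩
  refine nl62_regular B hBic hfrac W hBW p hpB hπ0 hsat n _
    (nl62_mem_of_cong W p hπ0 hpW _ (nl62_dd_cong W p s t hs1 htW _ hω0)) ?_
  intro O hO
  have hOs := nl62_Hor_comap B n p hπ0 s hsB hsn hsp O hO
  have hOt := nl62_Hor_comap B n p hπ0 t htB htn htp O hO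
  have hOst := nl62_Hor_comap B n p hπ0 t htB htn htp _ hOs
  have h1 := hLP O hO
  have h2 : nl62_U O (s (f / g ^ m)) := by
    obtain ⟨a, b⟩ := hLP _ hOs
    rw [ValuationSubring.mem_comap] at a b
    refine ⟨a, ?_⟩
    rw [← map_inv₀]; exact b
  have h3 : nl62_U O (t (f / g ^ m)) := by
    obtain ⟨a, b⟩ := hLP _ hOt
    rw [ValuationSubring.mem_comap] at a b
    refine ⟨a, ?_⟩
    rw [← map_inv₀]; exact b
  have h4 : nl62_U O (s (t (f / g ^ m))) := by
    obtain ⟨a, b⟩ := hLP _ hOst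
    rw [ValuationSubring.mem_comap, ValuationSubring.mem_comap] at a b
    refine ⟨a, ?_⟩
    rw [← map_inv₀, ← map_inv₀]; exact b
  rw [nl62_dd_apply]
  exact (nl62_U_div (nl62_U_mul h4 h1) (nl62_U_mul h2 h3)).1

end LocalDatum

end Fermat.Agent.S34
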