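import Mathlib
import Fermat.Agent.S24.PlacesBasicCore
import Fermat.Agent.S34.HorizUnit69

/-!
# S34 lab (helper69): the local datum at a closed point from PLACE data

Bridge between the Prelude `Place` form of the divisor of a Kummer function `f` and the chart
form `hLD` of the nodal two-chart lemma (`ntc47_main`), in the style of chain B (the `δ`-trick):
`δ g = σ (τ g) * g / (σ g * τ g)`.

* `pd69_local_eq` : **local equations in Place form.**  `A` a subring of `F` with fraction field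
  `F`, `P` a place, `c ∈ A` vanishing at `P`, such that the centre `𝔭 = A ∩ m_P` is locally
  generated by `c` (`hb`) and is the only centre, among the places of a class `Cn`, through which
  `c` vanishes (`ha`).  Then `ord_P c = 1` and `ord_P' c = 0` for every other place of the class.
* `pd69_local_product` : from local equations `c P` at the finitely many places `P ∈ S` of the
  class where `f` has a zero or pole, `Pn = ∏ c P ^ (ord_P f / m)` satisfies
  `ord_P f = m * ord_P Pn` at every place of the class.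
* `pd69_node_datum` : **(P_n) ⟹ hLD at `n`.**  `B` a chart (integrally closed in `F`,
  `π`-saturated in `W`), `n` a prime of `B`, `σ τ` automorphisms of `F` preserving the constants,
  `B` and `B ∖ n`, with `δ g ≡ 1 mod π W` for all `g ≠ 0`.  If `ord_P f = m * ord_P Pn` at every
  place `P` centred inside `n`, then `φ = (δ Pn)⁻¹` is `≡ 1 mod π W` and `φ ^ m * δ f` is regular
  at `n`: this is the local datum `hLD` of `ntc47_main` at `n`, literally.
* `pd69_node_datum_of_local_eq` : the two combined.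

All names are prefixed `pd69_`.
-/

set_option autoImplicit false

namespace Fermat.Agent.S34

open AlgebraicCurve Fermat.Agent.S24

section ord

variable {K F : Type*} [Field K] [Field F] [Algebra K F]

theorem pd69_ord_eq_zero_iff (P : Place K F) (x : F) :
    P.ord x = 0 ↔ 0 ≤ P.ord x ∧ 0 ≤ P.ord x⁻¹ := by
  rw [P.ord_inv]
  constructor
  · intro h; rw [h]; simp
  · rintro ⟨h1, h2⟩; omega

theorem pd69_unit_of_ord_eq_zero (P : Place K F) {x : F} (h : P.ord x = 0) :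
    x ∈ P.toValuationSubring ∧ x⁻¹ ∈ P.toValuationSubring := by
  rw [wp1_mem_iff_ord_nonneg, wp1_mem_iff_ord_nonneg]
  exact (pd69_ord_eq_zero_iff P x).mp h

theorem pd69_ord_eq_zero_of_unit (P : Place K F) {x : F} (hx : x ∈ P.toValuationSubring)
    (hx' : x⁻¹ ∈ P.toValuationSubring) : P.ord x = 0 := by
  rw [wp1_mem_iff_ord_nonneg] at hx hx'
  exact (pd69_ord_eq_zero_iff P x).mpr ⟨hx, hx'⟩

theorem pd69_ord_pos_of_not_mem (P : Place K F) {x : F} (hx : x⁻¹ ∉ P.toValuationSubring) :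
    0 < P.ord x := by
  rw [wp1_mem_iff_ord_nonneg, P.ord_inv] at hx
  omega

theorem pd69_ord_pow (P : Place K F) (x : F) (k : ℕ) : P.ord (x ^ k) = k * P.ord x := by
  have := P.ord_zpow x k
  rwa [zpow_natCast] at this

theorem pd69_ord_prod_zpow (P : Place K F) {ι : Type*} (S : Finset ι) (c : ι → F)
    (hc : ∀ i ∈ S, c i ≠ 0) (e : ι → ℤ) :
    P.ord (∏ i ∈ S, c i ^ e i) = ∑ i ∈ S, e i * P.ord (c i) := by
  classical
  induction S using Finset.induction_on with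
  | empty => simp
  | insert a S ha ih =>
    rw [Finset.prod_insert ha, Finset.sum_insert ha,
      P.ord_mul (zpow_ne_zero _ (hc a (Finset.mem_insert_self a S)))
        (Finset.prod_ne_zero_iff.mpr fun i hi =>
          zpow_ne_zero _ (hc i (Finset.mem_insert_of_mem hi))),
      P.ord_zpow, ih (fun i hi => hc i (Finset.mem_insert_of_mem hi))]

/-- order of an element written as `s * x = t * c ^ i` with `s`, `t` units at the place. -/
theorem pd69_ord_of_decomp (Q : Place K F) {x s t c : F} {i : ℕ}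
    (hs : s ∈ Q.toValuationSubring) (hs' : s⁻¹ ∈ Q.toValuationSubring)
    (ht : t ∈ Q.toValuationSubring) (ht' : t⁻¹ ∈ Q.toValuationSubring)
    (hs0 : s ≠ 0) (ht0 : t ≠ 0) (hx0 : x ≠ 0) (hc0 : c ≠ 0) (h : s * x = t * c ^ i) :
    Q.ord x = i * Q.ord c := by
  have h1 := congrArg Q.ord h
  rw [Q.ord_mul hs0 hx0, Q.ord_mul ht0 (pow_ne_zero _ hc0), pd69_ord_pow,
    pd69_ord_eq_zero_of_unit Q hs hs', pd69_ord_eq_zero_of_unit Q ht ht'] at h1
  linarith

end ord

section localEq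

variable {K F : Type*} [Field K] [Field F] [Algebra K F]

/-- Every nonzero element of `A` is `(t / s) * c ^ i` with `s, t ∈ A` units at `P`, when the
centre of `P` on `A` is locally generated by `c`. -/
theorem pd69_decomp (A : Subring F) (P : Place K F) (hAP : ∀ x ∈ A, x ∈ P.toValuationSubring)
    (c : F) (hc0 : c ≠ 0) (hcP : c⁻¹ ∉ P.toValuationSubring)
    (hb : ∀ x ∈ A, x ≠ 0 → x⁻¹ ∉ P.toValuationSubring →
      ∃ s ∈ A, s ≠ 0 ∧ s⁻¹ ∈ P.toValuationSubring ∧ ∃ b ∈ A, s * x = b * c) :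
    ∀ x ∈ A, x ≠ 0 → ∃ (i : ℕ) (s t : F), s ∈ A ∧ t ∈ A ∧ s ≠ 0 ∧ t ≠ 0 ∧
      s⁻¹ ∈ P.toValuationSubring ∧ t⁻¹ ∈ P.toValuationSubring ∧ s * x = t * c ^ i := by
  have hcpos : 0 < P.ord c := pd69_ord_pos_of_not_mem P hcP
  have key : ∀ k : ℕ, ∀ x ∈ A, x ≠ 0 → P.ord x ≤ k →
      ∃ (i : ℕ) (s t : F), s ∈ A ∧ t ∈ A ∧ s ≠ 0 ∧ t ≠ 0 ∧
        s⁻¹ ∈ P.toValuationSubring ∧ t⁻¹ ∈ P.toValuationSubring ∧ s * x = t * c ^ i := by
    intro k
    induction k with
    | zero =>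
      intro x hxA hx0 hk
      by_cases hx : x⁻¹ ∈ P.toValuationSubring
      · exact ⟨0, 1, x, A.one_mem, hxA, one_ne_zero, hx0, by rw [inv_one]; exact Subring.one_mem _,
          hx, by rw [pow_zero, one_mul, mul_one]⟩
      · have := pd69_ord_pos_of_not_mem P hx
        omega
    | succ k ih =>
      intro x hxA hx0 hk
      by_cases hx : x⁻¹ ∈ P.toValuationSubring
      · exact ⟨0, 1, x, A.one_mem, hxA, one_ne_zero, hx0, by rw [inv_one]; exact Subring.one_mem _,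
          hx, by rw [pow_zero, one_mul, mul_one]⟩
      · obtain ⟨s, hsA, hs0, hs', b, hbA, hsb⟩ := hb x hxA hx0 hx
        have hb0 : b ≠ 0 := by
          rintro rfl
          rw [zero_mul] at hsb
          exact mul_ne_zero hs0 hx0 hsb
        have hordb : P.ord b ≤ k := by
          have h1 := congrArg P.ord hsb
          rw [P.ord_mul hs0 hx0, P.ord_mul hb0 hc0,
            pd69_ord_eq_zero_of_unit P (hAP s hsA) hs'] at h1
          omega
        obtain ⟨i, s₁, t₁, hs₁A, ht₁A, hs₁0, ht₁0, hs₁', ht₁', h₁⟩ := ih b hbA hb0 hordb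
        refine ⟨i + 1, s₁ * s, t₁, A.mul_mem hs₁A hsA, ht₁A, mul_ne_zero hs₁0 hs0, ht₁0, ?_, ht₁', ?_⟩
        · rw [mul_inv]; exact P.toValuationSubring.mul_mem _ _ hs₁' hs'
        · rw [mul_assoc, hsb, ← mul_assoc, h₁, pow_succ]; ring
  intro x hxA hx0
  have hnn : 0 ≤ P.ord x := (wp1_mem_iff_ord_nonneg P x).mp (hAP x hxA)
  exact key (P.ord x).toNat x hxA hx0 (by omega)

/-- **Local equations in Place form.**  `A` a subring of `F` with fraction field `F`; `Cn` a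
class of places whose valuation rings contain `A`; `P` a place of the class and `c ∈ A` a
function vanishing at `P` such that

* `hb` : the centre of `P` on `A` is locally generated by `c`;
* `ha` : if `c` vanishes at a place `P'` of the class, the centre of `P'` on `A` is contained in
  the centre of `P`.

Then `ord_P c = 1` and `c` is a unit at every other place of the class. -/
theorem pd69_local_eq (A : Subring F) (hfrac : ∀ x : F, ∃ a ∈ A, ∃ b ∈ A, b ≠ 0 ∧ x * b = a)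
    (Cn : Place K F → Prop) (hA : ∀ P : Place K F, Cn P → ∀ x ∈ A, x ∈ P.toValuationSubring)
    (P : Place K F) (hP : Cn P) (c : F) (hcA : c ∈ A) (hc0 : c ≠ 0)
    (hcP : c⁻¹ ∉ P.toValuationSubring)
    (ha : ∀ P' : Place K F, Cn P' → c⁻¹ ∉ P'.toValuationSubring →
      ∀ x ∈ A, x ≠ 0 → x⁻¹ ∈ P.toValuationSubring → x⁻¹ ∈ P'.toValuationSubring)
    (hb : ∀ x ∈ A, x ≠ 0 → x⁻¹ ∉ P.toValuationSubring →
      ∃ s ∈ A, s ≠ 0 ∧ s⁻¹ ∈ P.toValuationSubring ∧ ∃ b ∈ A, s * x = b * c) :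
    P.ord c = 1 ∧ ∀ P' : Place K F, Cn P' → P' ≠ P → P'.ord c = 0 := by
  have hAP := hA P hP
  have hdec := pd69_decomp A P hAP c hc0 hcP hb
  have hcpos : 0 < P.ord c := pd69_ord_pos_of_not_mem P hcP
  -- every `x ≠ 0` has order `(i - i') * ord c` at `P` and at every `P'` through which `c` vanishes
  have hgen : ∀ x : F, x ≠ 0 → ∃ j : ℤ, P.ord x = j * P.ord c ∧
      ∀ P' : Place K F, Cn P' → c⁻¹ ∉ P'.toValuationSubring → P'.ord x = j * P'.ord c := by
    intro x hx0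
    obtain ⟨a, haA, b, hbA, hb0, hxb⟩ := hfrac x
    have ha0 : a ≠ 0 := by rw [← hxb]; exact mul_ne_zero hx0 hb0
    obtain ⟨i, s, t, hsA, htA, hs0, ht0, hs', ht', h⟩ := hdec a haA ha0
    obtain ⟨i', s₁, t₁, hs₁A, ht₁A, hs₁0, ht₁0, hs₁', ht₁', h₁⟩ := hdec b hbA hb0
    refine ⟨(i : ℤ) - i', ?_, ?_⟩
    · have e1 := pd69_ord_of_decomp P (hAP s hsA) hs' (hAP t htA) ht' hs0 ht0 ha0 hc0 h
      have e2 := pd69_ord_of_decomp P (hAP s₁ hs₁A) hs₁' (hAP t₁ ht₁A) ht₁' hs₁0 ht₁0 hb0 hc0 h₁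
      have e3 := congrArg P.ord hxb
      rw [P.ord_mul hx0 hb0] at e3
      rw [sub_mul]; linarith
    · intro P' hP' hcP'
      have hAP' := hA P' hP'
      have e1 := pd69_ord_of_decomp P' (hAP' s hsA) (ha P' hP' hcP' s hsA hs0 hs')
        (hAP' t htA) (ha P' hP' hcP' t htA ht0 ht') hs0 ht0 ha0 hc0 h
      have e2 := pd69_ord_of_decomp P' (hAP' s₁ hs₁A) (ha P' hP' hcP' s₁ hs₁A hs₁0 hs₁')
        (hAP' t₁ ht₁A) (ha P' hP' hcP' t₁ ht₁A ht₁0 ht₁') hs₁0 ht₁0 hb0 hc0 h₁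
      have e3 := congrArg P'.ord hxb
      rw [P'.ord_mul hx0 hb0] at e3
      rw [sub_mul]; linarith
  constructor
  · obtain ⟨ϖ, hϖ⟩ := IsDiscreteValuationRing.exists_irreducible P.toValuationSubring
    have hϖ1 : P.ord (ϖ : F) = 1 := P.ord_coe_irreducible hϖ
    have hϖ0 : (ϖ : F) ≠ 0 := by
      intro h0
      rw [h0, Place.ord_zero] at hϖ1
      exact zero_ne_one hϖ1
    obtain ⟨j, hj, -⟩ := hgen (ϖ : F) hϖ0
    rw [hϖ1] at hj
    exact Int.eq_one_of_mul_eq_one_left hcpos.le hj.symm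
  · intro P' hP' hne
    by_contra hord
    apply hne
    have hcP' : c⁻¹ ∉ P'.toValuationSubring := by
      intro hmem
      exact hord (pd69_ord_eq_zero_of_unit P' (hA P' hP' c hcA) hmem)
    have hcpos' : 0 < P'.ord c := pd69_ord_pos_of_not_mem P' hcP'
    apply Place.ext
    ext x
    rcases eq_or_ne x 0 with rfl | hx0
    · exact ⟨fun _ => zero_mem _, fun _ => zero_mem _⟩
    obtain ⟨j, hj, hj'⟩ := hgen x hx0
    have hj'' := hj' P' hP' hcP'
    rw [wp1_mem_iff_ord_nonneg, wp1_mem_iff_ord_nonneg, hj, hj'']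
    constructor
    · intro h
      have : 0 ≤ j := by
        by_contra hneg
        have hneg' : j < 0 := not_le.mp hneg
        nlinarith
      positivity
    · intro h
      have : 0 ≤ j := by
        by_contra hneg
        have hneg' : j < 0 := not_le.mp hneg
        nlinarith
      positivity

/-- **The local product.**  From local equations `c P` at the finitely many places `P ∈ S` of the
class `Cn` where `f` has a zero or a pole: `Pn = ∏ c P ^ (ord_P f / m)` has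
`ord_P f = m * ord_P Pn` at every place of the class. -/
theorem pd69_local_product (Cn : Place K F → Prop) (m : ℕ) (f : F)
    (S : Finset (Place K F))
    (hS : ∀ P : Place K F, Cn P → P ∉ S → P.ord f = 0)
    (hm : ∀ P ∈ S, (m : ℤ) ∣ P.ord f)
    (c : Place K F → F) (hc0 : ∀ P ∈ S, c P ≠ 0) (hc1 : ∀ P ∈ S, P.ord (c P) = 1)
    (hc : ∀ P ∈ S, ∀ P' : Place K F, Cn P' → P' ≠ P → P'.ord (c P) = 0) :
    (∏ P ∈ S, c P ^ (P.ord f / m)) ≠ 0 ∧
      ∀ P' : Place K F, Cn P' → P'.ord f = m * P'.ord (∏ P ∈ S, c P ^ (P.ord f / m)) := by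
  classical
  refine ⟨Finset.prod_ne_zero_iff.mpr fun P hP => zpow_ne_zero _ (hc0 P hP), ?_⟩
  intro P' hP'
  rw [pd69_ord_prod_zpow P' S c hc0]
  by_cases hmem : P' ∈ S
  · rw [Finset.sum_eq_single_of_mem P' hmem, hc1 P' hmem, mul_one]
    · exact (Int.mul_ediv_cancel' (hm P' hmem)).symm
    · intro P hPS hne
      rw [hc P hPS P' hP' (Ne.symm hne), mul_zero]
  · rw [hS P' hP' hmem, Finset.sum_eq_zero, mul_zero]
    intro P hPS
    have hne : P' ≠ P := fun h => hmem (h ▸ hPS)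
    rw [hc P hPS P' hP' hne, mul_zero]

end localEq

section datum

variable {F : Type*} [Field F]

/-- The double-difference operator `x ↦ σ (τ x) * x / (σ x * τ x)`. -/
noncomputable def pd69_D (σ τ : F ≃+* F) : F →*₀ F where
  toFun x := σ (τ x) * x / (σ x * τ x)
  map_zero' := by simp
  map_one' := by simp
  map_mul' x y := by
    simp only [map_mul]
    rw [mul_mul_mul_comm (σ x) (σ y), mul_mul_mul_comm (σ (τ x)) (σ (τ y)), mul_div_mul_comm]

theorem pd69_D_apply (σ τ : F ≃+* F) (x : F) : pd69_D σ τ x = σ (τ x) * x / (σ x * τ x) := rfl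

/-- `K ⊆ O` for a valuation subring containing `R` and `π⁻¹`. -/
theorem pd69_K_mem {R K : Type*} [CommRing R] [IsDomain R] [IsDiscreteValuationRing R] [Field K]
    [Algebra R K] [IsFractionRing R K] [Algebra R F] [Algebra K F] [IsScalarTower R K F]
    (π : R) (hπ : Irreducible π) (O : ValuationSubring F)
    (hR : ∀ r : R, algebraMap R F r ∈ O) (hπO : (algebraMap R F π)⁻¹ ∈ O) (a : K) :
    algebraMap K F a ∈ O := by
  obtain ⟨r, s, hs, rfl⟩ := IsFractionRing.div_surjective (A := R) a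
  have hs0 : s ≠ 0 := nonZeroDivisors.ne_zero hs
  obtain ⟨k, e, rfl⟩ := IsDiscreteValuationRing.eq_unit_mul_pow_irreducible hs0 hπ
  have h1 : algebraMap K F (algebraMap R K r / algebraMap R K (↑e * π ^ k)) =
      algebraMap R F r * (algebraMap R F ((e⁻¹ : Rˣ) : R) * ((algebraMap R F π)⁻¹) ^ k) := by
    rw [map_div₀, ← IsScalarTower.algebraMap_apply, ← IsScalarTower.algebraMap_apply, map_mul,
      map_pow]
    have he : algebraMap R F (e : R) * algebraMap R F ((e⁻¹ : Rˣ) : R) = 1 := by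
      rw [← map_mul, Units.mul_inv, map_one]
    rw [eq_inv_of_mul_eq_one_right he, div_eq_mul_inv, mul_inv, inv_pow]
  rw [h1]
  exact O.mul_mem _ _ (hR r) (O.mul_mem _ _ (hR _) (pow_mem hπO k))

/-- `φ = (δ Pn)⁻¹` is `≡ 1 mod p W` when `δ Pn` is. -/
theorem pd69_inv_cong (W : Subring F) (p : F) (hp0 : p ≠ 0)
    (hWunit : ∀ x ∈ W, (1 + p * x)⁻¹ ∈ W) {x : F} (hx : p⁻¹ * (x - 1) ∈ W) :
    p⁻¹ * (x⁻¹ - 1) ∈ W := by
  have hx' : x = 1 + p * (p⁻¹ * (x - 1)) := by field_simp; ring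
  have hxinv : x⁻¹ ∈ W := by rw [hx']; exact hWunit _ hx
  by_cases hx0 : x = 0
  · rw [hx0, inv_zero]; rw [hx0] at hx; exact hx
  have : p⁻¹ * (x⁻¹ - 1) = -(p⁻¹ * (x - 1)) * x⁻¹ := by field_simp; ring
  rw [this]; exact W.mul_mem (W.neg_mem hx) hxinv

variable {R K : Type*} [CommRing R] [IsDomain R] [IsDiscreteValuationRing R] [Field K]
  [Algebra R K] [IsFractionRing R K] [Algebra R F] [Algebra K F] [IsScalarTower R K F]

/-- **(P_n) ⟹ the local datum `hLD` of `ntc47_main` at `n`.**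

`R` a discrete valuation ring with uniformiser `π` and fraction field `K`; `F ⊇ K` a field all
of whose proper valuation subrings containing `K` are discrete (`hdvr`); `B` a chart, integrally
closed in `F` and `π`-saturated in the subring `W ⊇ B`; `n` a prime of `B`; `σ τ` automorphisms
of `F` preserving the constants, `B` and `B ∖ n`, such that the double difference
`δ g = σ (τ g) * g / (σ g * τ g)` is `≡ 1 mod π W` for every `g ≠ 0`.

If `Pn ≠ 0` satisfies `ord_P f = m * ord_P Pn` at every place `P` of `F / K` centred inside `n`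
(`B ⊆ O_P` and the elements of `B ∖ n` are units of `O_P`), then `φ = (δ Pn)⁻¹` is `≡ 1 mod π W`
and `φ ^ m * δ f` is regular at `n`. -/
theorem pd69_node_datum (π : R) (hπ : Irreducible π) (hπ0 : algebraMap R F π ≠ 0)
    (hdvr : ∀ O : ValuationSubring F, O ≠ ⊤ → (∀ a : K, algebraMap K F a ∈ O) →
      IsPrincipalIdealRing O)
    (W : Subring F) (hWunit : ∀ x ∈ W, (1 + algebraMap R F π * x)⁻¹ ∈ W)
    (B : Subalgebra R F) (hBW : ∀ x ∈ B, x ∈ W)
    (hBint : ∀ x : F, IsIntegral B x → x ∈ B)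
    (hsat : ∀ x ∈ B, (algebraMap R F π)⁻¹ * x ∈ W → (algebraMap R F π)⁻¹ * x ∈ B)
    (n : Ideal B) [hn : n.IsPrime]
    (σ τ : F ≃+* F)
    (hσK : ∀ a : K, ∃ b : K, σ (algebraMap K F a) = algebraMap K F b)
    (hτK : ∀ a : K, ∃ b : K, τ (algebraMap K F a) = algebraMap K F b)
    (hσB : ∀ x ∈ B, σ x ∈ B) (hτB : ∀ x ∈ B, τ x ∈ B)
    (hσn : ∀ s : B, s ∉ n → (⟨σ s, hσB s s.2⟩ : B) ∉ n)
    (hτn : ∀ s : B, s ∉ n → (⟨τ s, hτB s s.2⟩ : B) ∉ n)
    (hδ : ∀ g : F, g ≠ 0 →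
      (algebraMap R F π)⁻¹ * (σ (τ g) * g / (σ g * τ g) - 1) ∈ W)
    (m : ℕ) (f Pn : F) (hf0 : f ≠ 0) (hPn0 : Pn ≠ 0)
    (hPn : ∀ P : Place K F, (∀ x ∈ B, x ∈ P.toValuationSubring) →
      (∀ x : B, x ∉ n → (x : F)⁻¹ ∈ P.toValuationSubring) → P.ord f = m * P.ord Pn) :
    ∃ φ : F, (algebraMap R F π)⁻¹ * (φ - 1) ∈ W ∧
      ∃ s : B, s ∉ n ∧ (s : F) * (φ ^ m * (σ (τ f) * f / (σ f * τ f))) ∈ B := by
  set p : F := algebraMap R F π with hp
  have hpB : p ∈ B := B.algebraMap_mem π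
  have hpW : p ∈ W := hBW p hpB
  set θ : F := f / Pn ^ m with hθ
  have hθ0 : θ ≠ 0 := div_ne_zero hf0 (pow_ne_zero _ hPn0)
  -- `θ` is a unit of every valuation subring centred inside `n`
  have key : ∀ O : ValuationSubring F, (∀ x ∈ B, x ∈ O) → p⁻¹ ∈ O →
      (∀ x : B, x ∉ n → (x : F)⁻¹ ∈ O) → θ ∈ O ∧ θ⁻¹ ∈ O := by
    intro O hBO hpO hnO
    by_cases hO : O = ⊤
    · subst hO; exact ⟨trivial, trivial⟩
    have hKO : ∀ a : K, algebraMap K F a ∈ O :=
      pd69_K_mem π hπ O (fun r => hBO _ (B.algebraMap_mem r)) hpO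
    let P : Place K F := ⟨O, hKO, hO, hdvr O hO hKO⟩
    have h1 : P.ord f = m * P.ord Pn := hPn P hBO hnO
    have h2 : P.ord θ = 0 := by
      rw [hθ, div_eq_mul_inv, P.ord_mul hf0 (inv_ne_zero (pow_ne_zero _ hPn0)), P.ord_inv,
        pd69_ord_pow, h1]
      ring
    exact pd69_unit_of_ord_eq_zero P h2
  -- transport along an automorphism preserving `K`, `B`, `B ∖ n`
  have transport : ∀ (ρ : F ≃+* F), (∀ a : K, ∃ b : K, ρ (algebraMap K F a) = algebraMap K F b) →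
      ∀ (hρB : ∀ x ∈ B, ρ x ∈ B), (∀ s : B, s ∉ n → (⟨ρ s, hρB s s.2⟩ : B) ∉ n) →
      ∀ g : F, (∀ O : ValuationSubring F, (∀ x ∈ B, x ∈ O) → p⁻¹ ∈ O →
        (∀ x : B, x ∉ n → (x : F)⁻¹ ∈ O) → g ∈ O ∧ g⁻¹ ∈ O) →
      ∀ O : ValuationSubring F, (∀ x ∈ B, x ∈ O) → p⁻¹ ∈ O →
        (∀ x : B, x ∉ n → (x : F)⁻¹ ∈ O) → ρ g ∈ O ∧ (ρ g)⁻¹ ∈ O := by
    intro ρ hρK hρB hρn g hg O hBO hpO hnO
    have hKO : ∀ a : K, algebraMap K F a ∈ O :=
      pd69_K_mem π hπ O (fun r => hBO _ (B.algebraMap_mem r)) hpO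
    have h := hg (O.comap (ρ : F →+* F)) (fun x hx => by
        rw [ValuationSubring.mem_comap]; exact hBO _ (hρB x hx))
      (by
        rw [ValuationSubring.mem_comap]
        have hpK : p = algebraMap K F (algebraMap R K π) := by
          rw [hp, IsScalarTower.algebraMap_apply R K F]
        obtain ⟨b, hb⟩ := hρK (algebraMap R K π)⁻¹
        have : (ρ : F →+* F) p⁻¹ = algebraMap K F b := by
          rw [← hb, map_inv₀ (algebraMap K F), ← hpK]; rfl
        rw [this]; exact hKO b)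
      (fun x hx => by
        rw [ValuationSubring.mem_comap]
        have := hnO ⟨ρ x, hρB x x.2⟩ (hρn x hx)
        rw [show (ρ : F →+* F) ((x : F)⁻¹) = (ρ (x : F))⁻¹ from map_inv₀ ρ _]
        exact this)
    rw [ValuationSubring.mem_comap, ValuationSubring.mem_comap] at h
    refine ⟨h.1, ?_⟩
    have h2 := h.2
    rw [show (ρ : F →+* F) (g⁻¹) = (ρ g)⁻¹ from map_inv₀ ρ _] at h2
    exact h2
  have keyτ := transport τ hτK hτB hτn θ key
  have keyσ := transport σ hσK hσB hσn θ key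
  have keyστ := transport σ hσK hσB hσn (τ θ) keyτ
  -- the double difference of `θ` lies in every such `O`
  have hDθ : ∀ O : ValuationSubring F, (∀ x ∈ (B.toSubring), x ∈ O) → p⁻¹ ∈ O →
      (∀ x : B.toSubring, x ∉ n → (x : F)⁻¹ ∈ O) → pd69_D σ τ θ ∈ O := by
    intro O hBO hpO hnO
    have h1 := key O hBO hpO hnO
    have h2 := keyτ O hBO hpO hnO
    have h3 := keyσ O hBO hpO hnO
    have h4 := keyστ O hBO hpO hnO
    rw [pd69_D_apply, div_eq_mul_inv, mul_inv]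
    exact O.mul_mem _ _ (O.mul_mem _ _ h4.1 h1.1) (O.mul_mem _ _ h3.2 h2.2)
  have hDθW : pd69_D σ τ θ ∈ W := by
    have h1 := hδ θ hθ0
    have h2 : pd69_D σ τ θ = 1 + p * (p⁻¹ * (σ (τ θ) * θ / (σ θ * τ θ) - 1)) := by
      rw [pd69_D_apply]; field_simp; ring
    rw [h2]; exact W.add_mem W.one_mem (W.mul_mem hpW h1)
  obtain ⟨s, hs, hsB⟩ := hu69_sat B.toSubring W (fun x hx => hBW x hx) hBint p hpB hπ0 hsat n
    (pd69_D σ τ θ) hDθW hDθ
  -- the datum
  have hDPn0 : pd69_D σ τ Pn ≠ 0 := by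
    rw [pd69_D_apply]
    have h1 : σ (τ Pn) ≠ 0 := by simpa using hPn0
    have h2 : σ Pn ≠ 0 := by simpa using hPn0
    have h3 : τ Pn ≠ 0 := by simpa using hPn0
    exact div_ne_zero (mul_ne_zero h1 hPn0) (mul_ne_zero h2 h3)
  refine ⟨(pd69_D σ τ Pn)⁻¹, pd69_inv_cong W p hπ0 hWunit (hδ Pn hPn0), s, hs, ?_⟩
  have hf : f = θ * Pn ^ m := by rw [hθ]; field_simp
  have hkey : (pd69_D σ τ Pn)⁻¹ ^ m * (σ (τ f) * f / (σ f * τ f)) = pd69_D σ τ θ := by
    rw [← pd69_D_apply, hf, map_mul, map_pow, inv_pow]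
    field_simp
  rw [hkey]
  exact hsB

/-- **Local equations ⟹ the local datum `hLD` of `ntc47_main` at `n`.**

Same setting as `pd69_node_datum`.  If `f` has finitely many zeros and poles, all of its orders
are divisible by `m`, and every zero or pole `P` of `f` centred inside `n` has a local equation
(a function `c` with `ord_P c = 1` which is a unit at every other place centred inside `n`), then
there is `φ ≡ 1 mod π W` with `φ ^ m * δ f` regular at `n`. -/
theorem pd69_node_datum_of_local_eq (π : R) (hπ : Irreducible π)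
    (hπ0 : algebraMap R F π ≠ 0)
    (hdvr : ∀ O : ValuationSubring F, O ≠ ⊤ → (∀ a : K, algebraMap K F a ∈ O) →
      IsPrincipalIdealRing O)
    (W : Subring F) (hWunit : ∀ x ∈ W, (1 + algebraMap R F π * x)⁻¹ ∈ W)
    (B : Subalgebra R F) (hBW : ∀ x ∈ B, x ∈ W)
    (hBint : ∀ x : F, IsIntegral B x → x ∈ B)
    (hsat : ∀ x ∈ B, (algebraMap R F π)⁻¹ * x ∈ W → (algebraMap R F π)⁻¹ * x ∈ B)
    (n : Ideal B) [hn : n.IsPrime]
    (σ τ : F ≃+* F)
    (hσK : ∀ a : K, ∃ b : K, σ (algebraMap K F a) = algebraMap K F b)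
    (hτK : ∀ a : K, ∃ b : K, τ (algebraMap K F a) = algebraMap K F b)
    (hσB : ∀ x ∈ B, σ x ∈ B) (hτB : ∀ x ∈ B, τ x ∈ B)
    (hσn : ∀ s : B, s ∉ n → (⟨σ s, hσB s s.2⟩ : B) ∉ n)
    (hτn : ∀ s : B, s ∉ n → (⟨τ s, hτB s s.2⟩ : B) ∉ n)
    (hδ : ∀ g : F, g ≠ 0 →
      (algebraMap R F π)⁻¹ * (σ (τ g) * g / (σ g * τ g) - 1) ∈ W)
    (m : ℕ) (f : F) (hf0 : f ≠ 0)
    (hfin : {P : Place K F | P.ord f ≠ 0}.Finite)
    (hm : ∀ P : Place K F, (m : ℤ) ∣ P.ord f)
    (hloc : ∀ P : Place K F, (∀ x ∈ B, x ∈ P.toValuationSubring) →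
      (∀ x : B, x ∉ n → (x : F)⁻¹ ∈ P.toValuationSubring) → P.ord f ≠ 0 →
      ∃ c : F, c ≠ 0 ∧ P.ord c = 1 ∧
        ∀ P' : Place K F, (∀ x ∈ B, x ∈ P'.toValuationSubring) →
          (∀ x : B, x ∉ n → (x : F)⁻¹ ∈ P'.toValuationSubring) → P' ≠ P → P'.ord c = 0) :
    ∃ φ : F, (algebraMap R F π)⁻¹ * (φ - 1) ∈ W ∧
      ∃ s : B, s ∉ n ∧ (s : F) * (φ ^ m * (σ (τ f) * f / (σ f * τ f))) ∈ B := by
  classical
  set Cn : Place K F → Prop := fun P => (∀ x ∈ B, x ∈ P.toValuationSubring) ∧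
    (∀ x : B, x ∉ n → (x : F)⁻¹ ∈ P.toValuationSubring) with hCn
  set S : Finset (Place K F) := hfin.toFinset.filter Cn with hS
  have hSmem : ∀ P : Place K F, P ∈ S ↔ P.ord f ≠ 0 ∧ Cn P := by
    intro P
    rw [hS, Finset.mem_filter, Set.Finite.mem_toFinset]
    rfl
  have hex : ∀ P : Place K F, ∃ c : F, P ∈ S → (c ≠ 0 ∧ P.ord c = 1 ∧
      ∀ P' : Place K F, Cn P' → P' ≠ P → P'.ord c = 0) := by
    intro P
    by_cases hP : P ∈ S
    · obtain ⟨h1, h2⟩ := (hSmem P).mp hP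
      obtain ⟨c, hc0, hc1, hc⟩ := hloc P h2.1 h2.2 h1
      exact ⟨c, fun _ => ⟨hc0, hc1, fun P' hP' hne => hc P' hP'.1 hP'.2 hne⟩⟩
    · exact ⟨1, fun h => absurd h hP⟩
  choose c hc using hex
  obtain ⟨hPn0, hPn⟩ := pd69_local_product Cn m f S
    (fun P hP hPS => by
      by_contra h0
      exact hPS ((hSmem P).mpr ⟨h0, hP⟩))
    (fun P _ => hm P) c (fun P hP => (hc P hP).1) (fun P hP => (hc P hP).2.1)
    (fun P hP => (hc P hP).2.2)
  exact pd69_node_datum π hπ hπ0 hdvr W hWunit B hBW hBint hsat n σ τ hσK hτK hσB hτB hσn hτn hδ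
    m f _ hf0 hPn0 (fun P h1 h2 => hPn P ⟨h1, h2⟩)

end datum

end Fermat.Agent.S34
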