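import Mathlib
import Fermat.Agent.S34.PlaceDatum69
import Fermat.Agent.S34.PointsAbs91

/-!
# S34 lab (helper69): local equations at a node, in Place form, and the node datum

`A` is the local ring of a chart at a node (`𝔪_A = (ϖ, z, z')`, `z z' = q₀ ε`, `ε` a unit), as an
abstract Noetherian local ring with fraction field `F`; `P` a place of `F / K` with `A ⊆ O_P`
which is an `R`-point: `ρ : A →ₐ[R] R` with `ker ρ = A ∩ m_P`.

* `pd69_point_local_eq` : core: `c ∈ ker ρ` with `a * ker ρ ⊆ (c)` (`a ≠ 0` constant) and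
  `ker ρ` the only prime without `ϖ` through `c`  ⟹  `c ≠ 0`, `ord_P c = 1`, `ord_P' c = 0` at
  every other place `P'` with `A ⊆ O_P'`.
* `pd69_node_local_eq` : `c = z - ρ z` is a local equation of `P` at a node
  (`pt91_node_smul_ker_le` + `pt91_prime_eq_ker_node` + `pd69_local_eq`).
* `pd69_regular_local_eq` : the same at a regular point (`𝔪_A = (ϖ, ξ)`, `c = ξ - ρ ξ`).
* `pd69_point_hLD`, `pd69_node_hLD` : **the local datum `hLD` of `ntc47_main` at a point / a node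
  `n`** from: the node structure of `A = B_n`, rationality of the zeros and poles of `f` centred
  inside `n` (`ρ_P : A →ₐ[R] R`, `ker ρ_P = A ∩ m_P`), and the `δ`-trick.

All names are prefixed `pd69_`.
-/

set_option autoImplicit false
set_option linter.unusedSectionVars false

namespace Fermat.Agent.S34

open AlgebraicCurve Fermat.Agent.S24 IsLocalRing

section nonunits

variable {F : Type*} [Field F]

theorem pd69_mem_nonunits_iff (O : ValuationSubring F) (x : F) :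
    x ∈ O.nonunits ↔ x = 0 ∨ x⁻¹ ∉ O := by
  rw [ValuationSubring.mem_nonunits_iff]
  rcases eq_or_ne x 0 with rfl | hx
  · simp
  · rw [← ValuationSubring.valuation_le_one_iff, map_inv₀, not_le]
    have hv : O.valuation x ≠ 0 := (Valuation.ne_zero_iff _).mpr hx
    constructor
    · intro h
      right
      exact (one_lt_inv₀ (zero_lt_iff.mpr hv)).mpr h
    · rintro (h | h)
      · exact absurd h hx
      · exact (one_lt_inv₀ (zero_lt_iff.mpr hv)).mp h

theorem pd69_inv_mem_of_not_mem_nonunits (O : ValuationSubring F) {x : F}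
    (hx : x ∉ O.nonunits) : x⁻¹ ∈ O := by
  by_contra h
  exact hx ((pd69_mem_nonunits_iff O x).mpr (Or.inr h))

end nonunits

section node

variable {R K F A : Type*} [CommRing R] [IsDomain R] [IsDiscreteValuationRing R]
  [Field K] [Field F] [Algebra K F] [Algebra R K] [IsFractionRing R K] [Algebra R F]
  [IsScalarTower R K F]
  [CommRing A] [IsLocalRing A] [IsNoetherianRing A] [Algebra R A] [Algebra A F]
  [IsScalarTower R A F] [IsFractionRing A F]

/-- nonzero constants of `R` are units at every place. -/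
theorem pd69_const_unit (P : Place K F) {r : R} (hr : r ≠ 0) :
    algebraMap R F r ≠ 0 ∧ algebraMap R F r ∈ P.toValuationSubring ∧
      (algebraMap R F r)⁻¹ ∈ P.toValuationSubring ∧
      algebraMap R F r ∉ P.toValuationSubring.nonunits := by
  have hrK : algebraMap R K r ≠ 0 := by
    intro h0
    exact hr ((map_eq_zero_iff _ (IsFractionRing.injective R K)).mp h0)
  have e : algebraMap R F r = algebraMap K F (algebraMap R K r) :=
    IsScalarTower.algebraMap_apply R K F r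
  have h0 : algebraMap R F r ≠ 0 := by
    rw [e]; exact (map_ne_zero (algebraMap K F)).mpr hrK
  have h1 : algebraMap R F r ∈ P.toValuationSubring := by
    rw [e]; exact P.algebraMap_mem' _
  have h2 : (algebraMap R F r)⁻¹ ∈ P.toValuationSubring := by
    rw [e, ← map_inv₀]; exact P.algebraMap_mem' _
  refine ⟨h0, h1, h2, fun hmem => ?_⟩
  rcases (pd69_mem_nonunits_iff _ _).mp hmem with h | h
  · exact h0 h
  · exact h h2

/-- The centre of a place on `A`, as a prime ideal. -/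
theorem pd69_exists_centre (P : Place K F)
    (hAP : ∀ x : A, algebraMap A F x ∈ P.toValuationSubring) :
    ∃ 𝔮 : Ideal A, 𝔮.IsPrime ∧ ∀ x : A, x ∈ 𝔮 ↔ algebraMap A F x ∈ P.toValuationSubring.nonunits := by
  let φ : A →+* P.toValuationSubring :=
    (algebraMap A F).codRestrict P.toValuationSubring.toSubring hAP
  refine ⟨Ideal.comap φ (maximalIdeal P.toValuationSubring), Ideal.comap_isPrime φ _, fun x => ?_⟩
  rw [Ideal.mem_comap, ← ValuationSubring.coe_mem_nonunits_iff]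
  rfl

/-- **Local equation of an `R`-point, Place form (core).**  `ρ : A →ₐ[R] R` with
`ker ρ = A ∩ m_P`; `c ∈ ker ρ` with `a * ker ρ ⊆ (c)` for a constant `a ≠ 0`, and `ker ρ` is the
only prime of `A` not containing `ϖ` which contains `c`.  Then `c ≠ 0`, `ord_P c = 1`, and
`ord_P' c = 0` at every other place `P'` with `A ⊆ O_P'`. -/
theorem pd69_point_local_eq (ϖ : R) (hϖ0 : ϖ ≠ 0)
    (P : Place K F) (hAP : ∀ x : A, algebraMap A F x ∈ P.toValuationSubring)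
    (ρ : A →ₐ[R] R)
    (hρ : ∀ x : A, ρ x = 0 ↔ algebraMap A F x ∈ P.toValuationSubring.nonunits)
    (c : A) (hcker : ρ c = 0) (a : R) (ha : a ≠ 0)
    (hsmul : ∀ x : A, ρ x = 0 → algebraMap R A a * x ∈ Ideal.span {c})
    (hprime : ∀ 𝔮 : Ideal A, 𝔮.IsPrime → algebraMap R A ϖ ∉ 𝔮 → c ∈ 𝔮 →
      𝔮 = RingHom.ker (ρ : A →+* R)) :
    algebraMap A F c ≠ 0 ∧ P.ord (algebraMap A F c) = 1 ∧
      ∀ P' : Place K F, (∀ x : A, algebraMap A F x ∈ P'.toValuationSubring) → P' ≠ P →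
        P'.ord (algebraMap A F c) = 0 := by
  have hinj : Function.Injective (algebraMap A F) := IsFractionRing.injective A F
  have hdom : IsDomain A := Function.Injective.isDomain (algebraMap A F) hinj
  have haA : algebraMap A F (algebraMap R A a) = algebraMap R F a :=
    (IsScalarTower.algebraMap_apply R A F a).symm
  -- the kernel is not zero
  obtain ⟨x₀, hx₀0, hx₀⟩ : ∃ x₀ : A, x₀ ≠ 0 ∧ ρ x₀ = 0 := by
    by_contra hcon
    apply P.ne_top'
    rw [eq_top_iff]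
    intro y _
    obtain ⟨a₁, b₁, hb₁, rfl⟩ := IsFractionRing.div_surjective (A := A) y
    have hb₁0 : b₁ ≠ 0 := nonZeroDivisors.ne_zero hb₁
    have hρb : ρ b₁ ≠ 0 := fun h => hcon ⟨b₁, hb₁0, h⟩
    have hnon : algebraMap A F b₁ ∉ P.toValuationSubring.nonunits := fun h => hρb ((hρ b₁).mpr h)
    rw [div_eq_mul_inv]
    exact P.toValuationSubring.mul_mem _ _ (hAP a₁) (pd69_inv_mem_of_not_mem_nonunits _ hnon)
  have hc0 : c ≠ 0 := by
    intro h0
    have h1 := hsmul x₀ hx₀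
    rw [h0, Ideal.span_singleton_eq_bot.mpr rfl, Ideal.mem_bot] at h1
    rcases mul_eq_zero.mp h1 with h2 | h2
    · have h3 : algebraMap R F a = 0 := by rw [← haA, h2, map_zero]
      exact (pd69_const_unit (K := K) P ha).1 h3
    · exact hx₀0 h2
  have hcF0 : algebraMap A F c ≠ 0 := fun h => hc0 (hinj (by rw [h, map_zero]))
  refine ⟨hcF0, ?_⟩
  have hcP : (algebraMap A F c)⁻¹ ∉ P.toValuationSubring := by
    have h1 := (hρ c).mp hcker
    rcases (pd69_mem_nonunits_iff _ _).mp h1 with h | h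
    · exact absurd h hcF0
    · exact h
  exact pd69_local_eq (K := K) (algebraMap A F).range
    (fun x => by
      obtain ⟨a₁, b₁, hb₁, rfl⟩ := IsFractionRing.div_surjective (A := A) x
      have hb₁0 : algebraMap A F b₁ ≠ 0 := fun h =>
        nonZeroDivisors.ne_zero hb₁ (hinj (by rw [h, map_zero]))
      exact ⟨_, ⟨a₁, rfl⟩, _, ⟨b₁, rfl⟩, hb₁0, div_mul_cancel₀ _ hb₁0⟩)
    (fun P' => ∀ x : A, algebraMap A F x ∈ P'.toValuationSubring)
    (fun P' hP' x hx => by obtain ⟨y, rfl⟩ := hx; exact hP' y)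
    P hAP (algebraMap A F c) ⟨c, rfl⟩ hcF0 hcP
    (fun P' hP' hcP' x hx hx0 hxP => by
      obtain ⟨y, rfl⟩ := hx
      obtain ⟨𝔮, h𝔮, hmem⟩ := pd69_exists_centre P' hP'
      have hϖ𝔮 : algebraMap R A ϖ ∉ 𝔮 := by
        rw [hmem, ← IsScalarTower.algebraMap_apply R A F]
        exact (pd69_const_unit P' hϖ0).2.2.2
      have hc𝔮 : c ∈ 𝔮 := by
        rw [hmem]
        exact (pd69_mem_nonunits_iff _ _).mpr (Or.inr hcP')
      have heq := hprime 𝔮 h𝔮 hϖ𝔮 hc𝔮
      have hy : algebraMap A F y ∉ P.toValuationSubring.nonunits := by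
        intro h
        rcases (pd69_mem_nonunits_iff _ _).mp h with h | h
        · exact hx0 h
        · exact h hxP
      have hy' : y ∉ 𝔮 := by
        rw [heq, RingHom.mem_ker]
        exact fun h => hy ((hρ y).mp h)
      rw [hmem] at hy'
      exact pd69_inv_mem_of_not_mem_nonunits _ hy')
    (fun x hx hx0 hxP => by
      obtain ⟨y, rfl⟩ := hx
      have hyker : ρ y = 0 := (hρ y).mpr ((pd69_mem_nonunits_iff _ _).mpr (Or.inr hxP))
      obtain ⟨r, hr⟩ := Ideal.mem_span_singleton'.mp (hsmul y hyker)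
      refine ⟨algebraMap A F (algebraMap R A a), ⟨_, rfl⟩, ?_, ?_, algebraMap A F r, ⟨r, rfl⟩, ?_⟩
      · rw [haA]; exact (pd69_const_unit (K := K) P ha).1
      · rw [haA]; exact (pd69_const_unit (K := K) P ha).2.2.1
      · rw [← map_mul, ← map_mul, hr])

/-- **Local equation at a node, Place form.**  `𝔪_A = (ϖ, z, z')`, `z z' = q₀ ε`, `q₀ ≠ 0`,
`ε` a unit: `c = z - ρ z` is a local equation of the point `P`. -/
theorem pd69_node_local_eq (ϖ : R) (hϖ : Irreducible ϖ) (z z' ε : A) (q₀ : R) (hq₀ : q₀ ≠ 0)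
    (hm : maximalIdeal A = Ideal.span {algebraMap R A ϖ, z, z'})
    (hzz : z * z' = algebraMap R A q₀ * ε) (hε : IsUnit ε)
    (P : Place K F) (hAP : ∀ x : A, algebraMap A F x ∈ P.toValuationSubring)
    (ρ : A →ₐ[R] R)
    (hρ : ∀ x : A, ρ x = 0 ↔ algebraMap A F x ∈ P.toValuationSubring.nonunits) :
    algebraMap A F (z - algebraMap R A (ρ z)) ≠ 0 ∧
      P.ord (algebraMap A F (z - algebraMap R A (ρ z))) = 1 ∧
      ∀ P' : Place K F, (∀ x : A, algebraMap A F x ∈ P'.toValuationSubring) → P' ≠ P →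
        P'.ord (algebraMap A F (z - algebraMap R A (ρ z))) = 0 := by
  have ha : ρ z ≠ 0 := by
    intro h0
    have h1 : ρ z * ρ z' = q₀ * ρ ε := by
      have := congrArg ρ hzz
      simpa [map_mul] using this
    rw [h0, zero_mul] at h1
    exact (mul_ne_zero hq₀ (hε.map ρ).ne_zero) h1.symm
  refine pd69_point_local_eq ϖ hϖ.ne_zero P hAP ρ hρ (z - algebraMap R A (ρ z)) ?_ (ρ z) ha ?_ ?_
  · have := pt91_sub_mem_ker ρ z
    rwa [RingHom.mem_ker] at this
  · intro x hx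
    exact pt91_node_smul_ker_le ρ hϖ z z' ε q₀ hm hzz hε x (by rw [RingHom.mem_ker]; exact hx)
  · intro 𝔮 h𝔮 hϖ𝔮 hc𝔮
    exact pt91_prime_eq_ker_node ρ hϖ z z' ε q₀ hm hzz hε ha 𝔮 hϖ𝔮 hc𝔮

/-- **Local equation at a regular point, Place form.**  `𝔪_A = (ϖ, ξ)`: `c = ξ - ρ ξ` is a
local equation of the point `P`. -/
theorem pd69_regular_local_eq (ϖ : R) (hϖ : Irreducible ϖ) (ξ : A)
    (hξ : maximalIdeal A = Ideal.span {algebraMap R A ϖ, ξ})
    (P : Place K F) (hAP : ∀ x : A, algebraMap A F x ∈ P.toValuationSubring)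
    (ρ : A →ₐ[R] R)
    (hρ : ∀ x : A, ρ x = 0 ↔ algebraMap A F x ∈ P.toValuationSubring.nonunits) :
    algebraMap A F (ξ - algebraMap R A (ρ ξ)) ≠ 0 ∧
      P.ord (algebraMap A F (ξ - algebraMap R A (ρ ξ))) = 1 ∧
      ∀ P' : Place K F, (∀ x : A, algebraMap A F x ∈ P'.toValuationSubring) → P' ≠ P →
        P'.ord (algebraMap A F (ξ - algebraMap R A (ρ ξ))) = 0 := by
  refine pd69_point_local_eq ϖ hϖ.ne_zero P hAP ρ hρ (ξ - algebraMap R A (ρ ξ)) ?_ 1 one_ne_zero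
    ?_ ?_
  · have := pt91_sub_mem_ker ρ ξ
    rwa [RingHom.mem_ker] at this
  · intro x hx
    rw [map_one, one_mul, ← pt91_ker_regular ρ hϖ ξ hξ, RingHom.mem_ker]
    exact hx
  · intro 𝔮 h𝔮 hϖ𝔮 hc𝔮
    exact pt91_prime_eq_ker_regular ρ hϖ ξ hξ 𝔮 hϖ𝔮 hc𝔮

/-- **The local datum `hLD` of `ntc47_main` at a point `n` of a chart `B`**, from local equations
given through the local ring `A = B_n`:  every zero or pole `P` of `f` centred inside `n` is an
`R`-point of `A` (`ρ : A →ₐ[R] R`, `ker ρ = A ∩ m_P`) and has a function `c ∈ ker ρ` with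
`a * ker ρ ⊆ (c)` (`a ≠ 0` a constant) such that `ker ρ` is the only prime of `A` not containing
`π` which contains `c`. -/
theorem pd69_point_hLD (π : R) (hπ : Irreducible π) (hπ0 : algebraMap R F π ≠ 0)
    (hdvr : ∀ O : ValuationSubring F, O ≠ ⊤ → (∀ a : K, algebraMap K F a ∈ O) →
      IsPrincipalIdealRing O)
    (W : Subring F) (hWunit : ∀ x ∈ W, (1 + algebraMap R F π * x)⁻¹ ∈ W)
    (B : Subalgebra R F) (hBW : ∀ x ∈ B, x ∈ W)
    (hBint : ∀ x : F, IsIntegral B x → x ∈ B)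
    (hsat : ∀ x ∈ B, (algebraMap R F π)⁻¹ * x ∈ W → (algebraMap R F π)⁻¹ * x ∈ B)
    (n : Ideal B) [hn : n.IsPrime]
    (σ τ : F ≃+* F)
    (hσK : ∀ a : K, ∃ b : K, σ (algebraMap K F a) = algebraMap K F b)
    (hτK : ∀ a : K, ∃ b : K, τ (algebraMap K F a) = algebraMap K F b)
    (hσB : ∀ x ∈ B, σ x ∈ B) (hτB : ∀ x ∈ B, τ x ∈ B)
    (hσn : ∀ s : B, s ∉ n → (⟨σ s, hσB s s.2⟩ : B) ∉ n)
    (hτn : ∀ s : B, s ∉ n → (⟨τ s, hτB s s.2⟩ : B) ∉ n)
    (hδ : ∀ g : F, g ≠ 0 →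
      (algebraMap R F π)⁻¹ * (σ (τ g) * g / (σ g * τ g) - 1) ∈ W)
    (m : ℕ) (f : F) (hf0 : f ≠ 0)
    (hfin : {P : Place K F | P.ord f ≠ 0}.Finite)
    (hm : ∀ P : Place K F, (m : ℤ) ∣ P.ord f)
    (hAn : ∀ P : Place K F, (∀ x ∈ B, x ∈ P.toValuationSubring) →
      (∀ x : B, x ∉ n → (x : F)⁻¹ ∈ P.toValuationSubring) →
      ∀ x : A, algebraMap A F x ∈ P.toValuationSubring)
    (hrat : ∀ P : Place K F, (∀ x ∈ B, x ∈ P.toValuationSubring) →
      (∀ x : B, x ∉ n → (x : F)⁻¹ ∈ P.toValuationSubring) → P.ord f ≠ 0 →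
      ∃ ρ : A →ₐ[R] R, (∀ x : A, ρ x = 0 ↔ algebraMap A F x ∈ P.toValuationSubring.nonunits) ∧
        ∃ c : A, ρ c = 0 ∧ ∃ a : R, a ≠ 0 ∧
          (∀ x : A, ρ x = 0 → algebraMap R A a * x ∈ Ideal.span {c}) ∧
          ∀ 𝔮 : Ideal A, 𝔮.IsPrime → algebraMap R A π ∉ 𝔮 → c ∈ 𝔮 →
            𝔮 = RingHom.ker (ρ : A →+* R)) :
    ∃ φ : F, (algebraMap R F π)⁻¹ * (φ - 1) ∈ W ∧
      ∃ s : B, s ∉ n ∧ (s : F) * (φ ^ m * (σ (τ f) * f / (σ f * τ f))) ∈ B := by
  refine pd69_node_datum_of_local_eq π hπ hπ0 hdvr W hWunit B hBW hBint hsat n σ τ hσK hτK hσB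
    hτB hσn hτn hδ m f hf0 hfin hm ?_
  intro P hP1 hP2 hPf
  obtain ⟨ρ, hρ, c, hc, a, ha, hsmul, hprime⟩ := hrat P hP1 hP2 hPf
  obtain ⟨h1, h2, h3⟩ := pd69_point_local_eq π hπ.ne_zero P (hAn P hP1 hP2) ρ hρ c hc a ha hsmul
    hprime
  exact ⟨algebraMap A F c, h1, h2, fun P' hP'1 hP'2 hne => h3 P' (hAn P' hP'1 hP'2) hne⟩

/-- **The local datum `hLD` of `ntc47_main` at a NODE `n` of a chart `B`.**

`A = B_n` is the local ring at `n` (an abstract Noetherian local `R`-algebra with fraction field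
`F`, contained in the valuation ring of every place centred inside `n`), with node structure
`𝔪_A = (π, z, z')`, `z z' = q₀ ε`, `q₀ ≠ 0`, `ε` a unit.  If every zero or pole `P` of `f`
centred inside `n` is an `R`-point of `A` (`ρ : A →ₐ[R] R` with `ker ρ = A ∩ m_P`), then there is
`φ ≡ 1 mod π W` with `φ ^ m * δ f` regular at `n`. -/
theorem pd69_node_hLD (π : R) (hπ : Irreducible π) (hπ0 : algebraMap R F π ≠ 0)
    (hdvr : ∀ O : ValuationSubring F, O ≠ ⊤ → (∀ a : K, algebraMap K F a ∈ O) →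
      IsPrincipalIdealRing O)
    (W : Subring F) (hWunit : ∀ x ∈ W, (1 + algebraMap R F π * x)⁻¹ ∈ W)
    (B : Subalgebra R F) (hBW : ∀ x ∈ B, x ∈ W)
    (hBint : ∀ x : F, IsIntegral B x → x ∈ B)
    (hsat : ∀ x ∈ B, (algebraMap R F π)⁻¹ * x ∈ W → (algebraMap R F π)⁻¹ * x ∈ B)
    (n : Ideal B) [hn : n.IsPrime]
    (σ τ : F ≃+* F)
    (hσK : ∀ a : K, ∃ b : K, σ (algebraMap K F a) = algebraMap K F b)
    (hτK : ∀ a : K, ∃ b : K, τ (algebraMap K F a) = algebraMap K F b)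
    (hσB : ∀ x ∈ B, σ x ∈ B) (hτB : ∀ x ∈ B, τ x ∈ B)
    (hσn : ∀ s : B, s ∉ n → (⟨σ s, hσB s s.2⟩ : B) ∉ n)
    (hτn : ∀ s : B, s ∉ n → (⟨τ s, hτB s s.2⟩ : B) ∉ n)
    (hδ : ∀ g : F, g ≠ 0 →
      (algebraMap R F π)⁻¹ * (σ (τ g) * g / (σ g * τ g) - 1) ∈ W)
    (m : ℕ) (f : F) (hf0 : f ≠ 0)
    (hfin : {P : Place K F | P.ord f ≠ 0}.Finite)
    (hm : ∀ P : Place K F, (m : ℤ) ∣ P.ord f)
    (hAn : ∀ P : Place K F, (∀ x ∈ B, x ∈ P.toValuationSubring) →
      (∀ x : B, x ∉ n → (x : F)⁻¹ ∈ P.toValuationSubring) →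
      ∀ x : A, algebraMap A F x ∈ P.toValuationSubring)
    (z z' ε : A) (q₀ : R) (hq₀ : q₀ ≠ 0)
    (hnode : maximalIdeal A = Ideal.span {algebraMap R A π, z, z'})
    (hzz : z * z' = algebraMap R A q₀ * ε) (hε : IsUnit ε)
    (hrat : ∀ P : Place K F, (∀ x ∈ B, x ∈ P.toValuationSubring) →
      (∀ x : B, x ∉ n → (x : F)⁻¹ ∈ P.toValuationSubring) → P.ord f ≠ 0 →
      ∃ ρ : A →ₐ[R] R, ∀ x : A, ρ x = 0 ↔ algebraMap A F x ∈ P.toValuationSubring.nonunits) :
    ∃ φ : F, (algebraMap R F π)⁻¹ * (φ - 1) ∈ W ∧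
      ∃ s : B, s ∉ n ∧ (s : F) * (φ ^ m * (σ (τ f) * f / (σ f * τ f))) ∈ B := by
  refine pd69_node_datum_of_local_eq π hπ hπ0 hdvr W hWunit B hBW hBint hsat n σ τ hσK hτK hσB
    hτB hσn hτn hδ m f hf0 hfin hm ?_
  intro P hP1 hP2 hPf
  obtain ⟨ρ, hρ⟩ := hrat P hP1 hP2 hPf
  obtain ⟨h1, h2, h3⟩ := pd69_node_local_eq π hπ z z' ε q₀ hq₀ hnode hzz hε P (hAn P hP1 hP2) ρ hρ
  exact ⟨_, h1, h2, fun P' hP'1 hP'2 hne => h3 P' (hAn P' hP'1 hP'2) hne⟩

end node

end Fermat.Agent.S34
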