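import Mathlib

/-!
# S34 lab, package P5 (twin, helper58): points of a chart at a closed point — abstract part

Mathlib-only commutative algebra behind step 5 of the proof of (U).

* `np58_injective_of_principal` : a ring homomorphism from a Noetherian local ring whose maximal
  ideal is generated by one non-unit `ϖ` to a domain, not killing `ϖ`, is injective.
* `np58_ker_eq_span` : `B` Noetherian local, `ρ : B →+* R'` (a domain), maximal ideal contained in
  `(ϖ, S)` with `S ⊆ ker ρ` and `ρ ϖ ≠ 0`: then `ker ρ = (S)`.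
* `np58_ker_regular` (5a) : `𝔪 = (ξ, π)`  ⟹  `ker ρ = (ξ - ρ ξ)`.
* `np58_ker_node` (5b) : `𝔪 = (z, z', π)`  ⟹  `ker ρ = (z - ρ z, z' - ρ z')`.
* `np58_node_mul_mem` (5b) : if moreover `z z' = Q ε` with `ε` a unit, then
  `ρ z * (z' - ρ z') ∈ (z - ρ z)`: after inverting `π` the point is cut out by `z - ρ z` alone.
* `np58_node_ker_mul_le`, `np58_node_prime` : consequences (`ρ z * ker ρ ⊆ (z - ρ z)`; a prime
  containing `z - ρ z` but not `ρ z` contains `ker ρ`).
* `np58_horizontal` : `A` a commutative ring, `n` a prime, `π : A`, `θ` in an `A`-algebra `F`: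
  if `θ` is regular at every prime `𝔭 ≤ n` with `π ∉ 𝔭`, then `π ^ k * s * θ ∈ A` for some
  `s ∉ n` ("`θ` is regular at `n` on the generic fibre").

All names are prefixed `np58_`.
-/

set_option autoImplicit false

namespace Fermat.Agent.S34

open IsLocalRing

section inj

variable {C : Type*} [CommRing C] [IsNoetherianRing C] [IsLocalRing C]
variable {R' : Type*} [CommRing R'] [IsDomain R']

/-- A ring homomorphism from a Noetherian local ring with principal maximal ideal `(ϖ)` to a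
domain which does not kill `ϖ` is injective. -/
theorem np58_injective_of_principal (ψ : C →+* R') (ϖ : C) (hϖ : ¬ IsUnit ϖ)
    (hle : maximalIdeal C ≤ Ideal.span {ϖ}) (hψ : ψ ϖ ≠ 0) : Function.Injective ψ := by
  classical
  rw [injective_iff_map_eq_zero]
  intro x hx
  by_contra hx0
  have hK : (⨅ i : ℕ, maximalIdeal C ^ i) = ⊥ :=
    Ideal.iInf_pow_eq_bot_of_isLocalRing _ (IsLocalRing.maximalIdeal.isMaximal C).ne_top
  have hex : ∃ k : ℕ, x ∉ maximalIdeal C ^ k := by
    by_contra hall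
    push Not at hall
    have hmem : x ∈ (⨅ i : ℕ, maximalIdeal C ^ i) := by
      rw [Ideal.mem_iInf]; exact hall
    rw [hK, Ideal.mem_bot] at hmem
    exact hx0 hmem
  have hk : x ∉ maximalIdeal C ^ (Nat.find hex) := Nat.find_spec hex
  have hk0 : Nat.find hex ≠ 0 := by
    intro h0
    rw [h0, pow_zero, Ideal.one_eq_top] at hk
    exact hk trivial
  obtain ⟨j, hj⟩ : ∃ j, Nat.find hex = j + 1 := ⟨Nat.find hex - 1, by omega⟩
  have hxj : x ∈ maximalIdeal C ^ j := by
    by_contra h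
    exact Nat.find_min hex (by omega : j < Nat.find hex) h
  have hxj' : x ∈ Ideal.span {ϖ ^ j} := by
    rw [← Ideal.span_singleton_pow]
    exact Ideal.pow_right_mono hle j hxj
  obtain ⟨y, rfl⟩ := Ideal.mem_span_singleton.mp hxj'
  have hy : IsUnit y := by
    by_contra hy
    apply hk
    rw [hj, pow_succ]
    exact Ideal.mul_mem_mul (Ideal.pow_mem_pow ((mem_maximalIdeal ϖ).mpr hϖ) j)
      ((mem_maximalIdeal y).mpr hy)
  rw [map_mul, map_pow] at hx
  rcases mul_eq_zero.mp hx with h | h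
  · exact pow_ne_zero j hψ h
  · exact (hy.map ψ).ne_zero h

end inj

section ker

variable {B : Type*} [CommRing B] [IsNoetherianRing B] [IsLocalRing B]
variable {R' : Type*} [CommRing R'] [IsDomain R']

/-- If the maximal ideal of the Noetherian local ring `B` is generated by `ϖ` and a set `S` killed
by `ρ`, and `ρ ϖ ≠ 0` in the domain `R'`, then `ker ρ` is generated by `S`. -/
theorem np58_ker_eq_span (ρ : B →+* R') (S : Set B) (ϖ : B) (hϖ : ¬ IsUnit ϖ)
    (hmax : maximalIdeal B ≤ Ideal.span (insert ϖ S)) (hS : ∀ s ∈ S, ρ s = 0)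
    (hρ : ρ ϖ ≠ 0) : RingHom.ker ρ = Ideal.span S := by
  classical
  set I : Ideal B := Ideal.span S with hI
  have hIker : I ≤ RingHom.ker ρ := by
    rw [hI, Ideal.span_le]
    intro s hs
    exact (RingHom.mem_ker).mpr (hS s hs)
  have hItop : I ≠ ⊤ := by
    intro h
    have h1 : (1 : B) ∈ RingHom.ker ρ := hIker (h ▸ Submodule.mem_top)
    rw [RingHom.mem_ker, map_one] at h1
    exact one_ne_zero h1
  have hIm : I ≤ maximalIdeal B := le_maximalIdeal hItop
  have : Nontrivial (B ⧸ I) := Ideal.Quotient.nontrivial_iff.mpr hItop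
  have : IsLocalRing (B ⧸ I) :=
    IsLocalRing.of_surjective' (Ideal.Quotient.mk I) Ideal.Quotient.mk_surjective
  let ψ : B ⧸ I →+* R' := Ideal.Quotient.lift I ρ (fun a ha => RingHom.mem_ker.mp (hIker ha))
  -- `mk ϖ` is not a unit
  have hϖ' : ¬ IsUnit (Ideal.Quotient.mk I ϖ) := by
    intro hu
    obtain ⟨c, hc⟩ := hu.exists_right_inv
    obtain ⟨c, rfl⟩ := Ideal.Quotient.mk_surjective c
    rw [← map_mul, ← map_one (Ideal.Quotient.mk I), Ideal.Quotient.eq] at hc
    have h1 : ϖ * c - 1 ∈ maximalIdeal B := hIm hc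
    have h2 : ϖ * c ∈ maximalIdeal B :=
      Ideal.mul_mem_right _ _ ((mem_maximalIdeal ϖ).mpr hϖ)
    have h3 : (1 : B) ∈ maximalIdeal B := by
      have h4 := Ideal.sub_mem _ h2 h1
      rwa [sub_sub_cancel] at h4
    exact (Ideal.ne_top_iff_one _).mp (IsLocalRing.maximalIdeal.isMaximal B).ne_top h3
  have hle' : maximalIdeal (B ⧸ I) ≤ Ideal.span {Ideal.Quotient.mk I ϖ} := by
    intro x hx
    obtain ⟨b, rfl⟩ := Ideal.Quotient.mk_surjective x
    have hb : b ∈ maximalIdeal B := by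
      rw [mem_maximalIdeal, mem_nonunits_iff] at hx ⊢
      exact fun hbu => hx (hbu.map _)
    have hb' := hmax hb
    have hmap : (Ideal.span (insert ϖ S)).map (Ideal.Quotient.mk I)
        ≤ Ideal.span {Ideal.Quotient.mk I ϖ} := by
      rw [Ideal.map_span, Ideal.span_le]
      rintro _ ⟨a, ha, rfl⟩
      rcases ha with rfl | ha
      · exact Ideal.subset_span rfl
      · have : Ideal.Quotient.mk I a = 0 :=
          Ideal.Quotient.eq_zero_iff_mem.mpr (Ideal.subset_span ha)
        rw [this]; exact Ideal.zero_mem _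
    exact hmap (Ideal.mem_map_of_mem _ hb')
  have hinj : Function.Injective ψ :=
    np58_injective_of_principal ψ (Ideal.Quotient.mk I ϖ) hϖ' hle'
      (by simpa [ψ] using hρ)
  refine le_antisymm ?_ hIker
  intro x hx
  have hψx : ψ (Ideal.Quotient.mk I x) = 0 := by
    simpa [ψ] using RingHom.mem_ker.mp hx
  have : Ideal.Quotient.mk I x = 0 := hinj (by rw [hψx, map_zero])
  exact Ideal.Quotient.eq_zero_iff_mem.mp this

end ker

section points

variable {R : Type*} [CommRing R] [IsDomain R]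
variable {B : Type*} [CommRing B] [IsNoetherianRing B] [IsLocalRing B] [Algebra R B]

/-- (5a) Regular closed point: if `𝔪_B = (ξ, π)` and `ρ : B → R` is an `R`-point with `π ∣ ρ ξ`,
then `ker ρ = (ξ - ρ ξ)`. -/
theorem np58_ker_regular (ρ : B →ₐ[R] R) (π : R) (hπ0 : π ≠ 0)
    (hπ : ¬ IsUnit (algebraMap R B π)) (ξ : B)
    (hmax : maximalIdeal B ≤ Ideal.span {ξ, algebraMap R B π}) (hc : π ∣ ρ ξ) :
    RingHom.ker (ρ : B →+* R) = Ideal.span {ξ - algebraMap R B (ρ ξ)} := by
  refine np58_ker_eq_span (ρ : B →+* R) {ξ - algebraMap R B (ρ ξ)} (algebraMap R B π) hπ ?_ ?_ ?_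
  · refine hmax.trans ?_
    rw [Ideal.span_le]
    rintro x (rfl | rfl)
    · obtain ⟨c, hc⟩ := hc
      have : x = (x - algebraMap R B (ρ x)) + algebraMap R B c * algebraMap R B π := by
        rw [hc, map_mul]; ring
      rw [this]
      exact Ideal.add_mem _ (Ideal.subset_span (by simp))
        (Ideal.mul_mem_left _ _ (Ideal.subset_span (by simp)))
    · exact Ideal.subset_span (by simp)
  · rintro s rfl
    simp
  · simpa using hπ0

/-- (5b) Node: if `𝔪_B = (z, z', π)` and `ρ : B → R` is an `R`-point with `π ∣ ρ z`, `π ∣ ρ z'`,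
then `ker ρ = (z - ρ z, z' - ρ z')`. -/
theorem np58_ker_node (ρ : B →ₐ[R] R) (π : R) (hπ0 : π ≠ 0)
    (hπ : ¬ IsUnit (algebraMap R B π)) (z z' : B)
    (hmax : maximalIdeal B ≤ Ideal.span {z, z', algebraMap R B π})
    (ha : π ∣ ρ z) (hb : π ∣ ρ z') :
    RingHom.ker (ρ : B →+* R)
      = Ideal.span {z - algebraMap R B (ρ z), z' - algebraMap R B (ρ z')} := by
  refine np58_ker_eq_span (ρ : B →+* R) {z - algebraMap R B (ρ z), z' - algebraMap R B (ρ z')}
    (algebraMap R B π) hπ ?_ ?_ ?_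
  · refine hmax.trans ?_
    rw [Ideal.span_le]
    have key : ∀ x : B, π ∣ ρ x → x - algebraMap R B (ρ x) ∈
        Ideal.span (insert (algebraMap R B π)
          ({z - algebraMap R B (ρ z), z' - algebraMap R B (ρ z')} : Set B)) →
        x ∈ Ideal.span (insert (algebraMap R B π)
          ({z - algebraMap R B (ρ z), z' - algebraMap R B (ρ z')} : Set B)) := by
      intro x hx hmem
      obtain ⟨c, hc⟩ := hx
      have : x = (x - algebraMap R B (ρ x)) + algebraMap R B c * algebraMap R B π := by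
        rw [hc, map_mul]; ring
      rw [this]
      exact Ideal.add_mem _ hmem (Ideal.mul_mem_left _ _ (Ideal.subset_span (by simp)))
    rintro x (rfl | rfl | rfl)
    · exact key _ ha (Ideal.subset_span (by simp))
    · exact key _ hb (Ideal.subset_span (by simp))
    · exact Ideal.subset_span (by simp)
  · rintro s (rfl | rfl) <;> simp
  · simpa using hπ0

/-- (5b) Node with `z z' = Q ε`, `ε` a unit, `Q ∈ R`: then `ρ z * (z' - ρ z') ∈ (z - ρ z)`. -/
theorem np58_node_mul_mem (ρ : B →ₐ[R] R) (π : R) (hπ0 : π ≠ 0)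
    (hπ : ¬ IsUnit (algebraMap R B π)) (z z' : B)
    (hmax : maximalIdeal B ≤ Ideal.span {z, z', algebraMap R B π})
    (ha : π ∣ ρ z) (hb : π ∣ ρ z') (Q : R) (ε : B) (hε : IsUnit ε)
    (hzz : z * z' = algebraMap R B Q * ε) :
    algebraMap R B (ρ z) * (z' - algebraMap R B (ρ z')) ∈
      Ideal.span {z - algebraMap R B (ρ z)} := by
  have hker := np58_ker_node ρ π hπ0 hπ z z' hmax ha hb
  -- `ρ ε` is a unit of `R`
  have hεR : IsUnit (ρ ε) := hε.map ρ
  obtain ⟨e', he'⟩ := hεR.exists_right_inv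
  -- `ρ z * ρ z' = Q ρ(ε)`
  have hab : ρ z * ρ z' = Q * ρ ε := by
    have h := congrArg ρ hzz
    rw [map_mul, map_mul, AlgHom.commutes] at h
    simpa using h
  have hQ : Q = ρ z * ρ z' * e' := by
    calc Q = Q * (ρ ε * e') := by rw [he', mul_one]
      _ = (Q * ρ ε) * e' := by ring
      _ = ρ z * ρ z' * e' := by rw [hab]
  -- `ε - ρ ε ∈ ker ρ`
  have hεker : ε - algebraMap R B (ρ ε) ∈ RingHom.ker (ρ : B →+* R) := by
    rw [RingHom.mem_ker]; simp
  rw [hker, Ideal.mem_span_pair] at hεker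
  obtain ⟨r₁, r₂, hr⟩ := hεker
  -- the unit `1 - b e' r₂`
  have hbm : algebraMap R B (ρ z') ∈ maximalIdeal B := by
    obtain ⟨c, hc⟩ := hb
    rw [hc, map_mul]
    exact Ideal.mul_mem_right _ _ ((mem_maximalIdeal _).mpr hπ)
  have hunit : IsUnit (1 - algebraMap R B (ρ z') * algebraMap R B e' * r₂) := by
    have hmem : algebraMap R B (ρ z') * algebraMap R B e' * r₂ ∈ maximalIdeal B :=
      Ideal.mul_mem_right _ _ (Ideal.mul_mem_right _ _ hbm)
    by_contra hnu
    have h1 : (1 - algebraMap R B (ρ z') * algebraMap R B e' * r₂) ∈ maximalIdeal B :=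
      (mem_maximalIdeal _).mpr hnu
    have h2 : (1 : B) ∈ maximalIdeal B := by
      have h3 := Ideal.add_mem _ h1 hmem
      rwa [sub_add_cancel] at h3
    exact (Ideal.ne_top_iff_one _).mp (IsLocalRing.maximalIdeal.isMaximal B).ne_top h2
  obtain ⟨w, hw⟩ := hunit.exists_left_inv
  -- the identity
  have hQ' : algebraMap R B Q
      = algebraMap R B (ρ z) * algebraMap R B (ρ z') * algebraMap R B e' := by
    rw [← (algebraMap R B).map_mul, ← (algebraMap R B).map_mul, ← hQ]
  have hab' : algebraMap R B (ρ z) * algebraMap R B (ρ z')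
      = algebraMap R B Q * algebraMap R B (ρ ε) := by
    rw [← (algebraMap R B).map_mul, ← (algebraMap R B).map_mul, hab]
  have hid : (1 - algebraMap R B (ρ z') * algebraMap R B e' * r₂) *
      (algebraMap R B (ρ z) * (z' - algebraMap R B (ρ z')))
      = (algebraMap R B Q * r₁ - z') * (z - algebraMap R B (ρ z)) := by
    linear_combination hzz - hab' + (r₂ * (z' - algebraMap R B (ρ z'))) * hQ'
      - (algebraMap R B Q) * hr
  have hfin : algebraMap R B (ρ z) * (z' - algebraMap R B (ρ z'))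
      = w * ((algebraMap R B Q * r₁ - z') * (z - algebraMap R B (ρ z))) := by
    rw [← hid, ← mul_assoc, hw, one_mul]
  rw [hfin]
  exact Ideal.mul_mem_left _ _ (Ideal.mul_mem_left _ _ (Ideal.subset_span rfl))

/-- (5b) `ρ z * ker ρ ⊆ (z - ρ z)`: after inverting `ρ z` the point is cut out by `z - ρ z`. -/
theorem np58_node_ker_mul_le (ρ : B →ₐ[R] R) (π : R) (hπ0 : π ≠ 0)
    (hπ : ¬ IsUnit (algebraMap R B π)) (z z' : B)
    (hmax : maximalIdeal B ≤ Ideal.span {z, z', algebraMap R B π})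
    (ha : π ∣ ρ z) (hb : π ∣ ρ z') (Q : R) (ε : B) (hε : IsUnit ε)
    (hzz : z * z' = algebraMap R B Q * ε) (x : B) (hx : ρ x = 0) :
    algebraMap R B (ρ z) * x ∈ Ideal.span {z - algebraMap R B (ρ z)} := by
  have hker := np58_ker_node ρ π hπ0 hπ z z' hmax ha hb
  have hx' : x ∈ RingHom.ker (ρ : B →+* R) := RingHom.mem_ker.mpr hx
  rw [hker, Ideal.mem_span_pair] at hx'
  obtain ⟨r₁, r₂, rfl⟩ := hx'
  have h1 := np58_node_mul_mem ρ π hπ0 hπ z z' hmax ha hb Q ε hε hzz
  have : algebraMap R B (ρ z) * (r₁ * (z - algebraMap R B (ρ z)) + r₂ * (z' - algebraMap R B (ρ z')))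
      = (algebraMap R B (ρ z) * r₁) * (z - algebraMap R B (ρ z))
        + r₂ * (algebraMap R B (ρ z) * (z' - algebraMap R B (ρ z'))) := by ring
  rw [this]
  exact Ideal.add_mem _ (Ideal.mul_mem_left _ _ (Ideal.subset_span rfl))
    (Ideal.mul_mem_left _ _ h1)

/-- (5b) A prime containing `z - ρ z` but not `ρ z` contains `ker ρ`: the point `ρ` is the only
"horizontal" prime through `z - ρ z`. -/
theorem np58_node_prime (ρ : B →ₐ[R] R) (π : R) (hπ0 : π ≠ 0)
    (hπ : ¬ IsUnit (algebraMap R B π)) (z z' : B)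
    (hmax : maximalIdeal B ≤ Ideal.span {z, z', algebraMap R B π})
    (ha : π ∣ ρ z) (hb : π ∣ ρ z') (Q : R) (ε : B) (hε : IsUnit ε)
    (hzz : z * z' = algebraMap R B Q * ε) (𝔭 : Ideal B) [𝔭.IsPrime]
    (ha𝔭 : algebraMap R B (ρ z) ∉ 𝔭) (hz : z - algebraMap R B (ρ z) ∈ 𝔭) :
    RingHom.ker (ρ : B →+* R) ≤ 𝔭 := by
  intro x hx
  have h1 := np58_node_ker_mul_le ρ π hπ0 hπ z z' hmax ha hb Q ε hε hzz x (RingHom.mem_ker.mp hx)
  have h2 : algebraMap R B (ρ z) * x ∈ 𝔭 :=
    ((Ideal.span_singleton_le_iff_mem 𝔭).mpr hz) h1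
  exact (Ideal.IsPrime.mem_or_mem inferInstance h2).resolve_left ha𝔭

end points

section horizontal

variable {A : Type*} [CommRing A] {F : Type*} [CommRing F] [Algebra A F]

/-- Regularity on the generic fibre at `n`: if `θ` is regular at every prime `𝔭 ≤ n` not
containing `π`, then `π ^ k * s * θ ∈ A` for some `k` and some `s ∉ n`. -/
theorem np58_horizontal (n : Ideal A) [n.IsPrime] (π : A) (θ : F)
    (h : ∀ 𝔭 : Ideal A, 𝔭.IsPrime → 𝔭 ≤ n → π ∉ 𝔭 →
      ∃ s : A, s ∉ 𝔭 ∧ ∃ a : A, algebraMap A F s * θ = algebraMap A F a) :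
    ∃ s : A, s ∉ n ∧ ∃ k : ℕ, ∃ a : A, algebraMap A F (π ^ k * s) * θ = algebraMap A F a := by
  classical
  let 𝔞 : Ideal A :=
    { carrier := {x | ∃ k : ℕ, ∃ a : A, algebraMap A F (π ^ k * x) * θ = algebraMap A F a}
      add_mem' := by
        rintro x y ⟨k, a, hk⟩ ⟨l, b, hl⟩
        refine ⟨k + l, π ^ l * a + π ^ k * b, ?_⟩
        have : algebraMap A F (π ^ (k + l) * (x + y)) * θ
            = algebraMap A F (π ^ l) * (algebraMap A F (π ^ k * x) * θ)
              + algebraMap A F (π ^ k) * (algebraMap A F (π ^ l * y) * θ) := by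
          simp only [map_mul, map_add, map_pow]; ring
        rw [this, hk, hl]
        simp only [map_mul, map_add, map_pow]
      zero_mem' := ⟨0, 0, by simp⟩
      smul_mem' := by
        rintro c x ⟨k, a, hk⟩
        refine ⟨k, c * a, ?_⟩
        have : algebraMap A F (π ^ k * (c • x)) * θ
            = algebraMap A F c * (algebraMap A F (π ^ k * x) * θ) := by
          simp only [smul_eq_mul, map_mul, map_pow]; ring
        rw [this, hk, map_mul] }
  by_contra hcon
  push Not at hcon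
  have hle : 𝔞 ≤ n := by
    intro x hx
    by_contra hxn
    obtain ⟨k, a, hk⟩ := hx
    exact hcon x hxn k a hk
  obtain ⟨𝔭, h𝔭min, h𝔭n⟩ := Ideal.exists_minimalPrimes_le hle
  have : 𝔭.IsPrime := h𝔭min.1.1
  have hπ𝔭 : π ∉ 𝔭 := by
    intro hπ
    obtain ⟨y, hy, hπy⟩ := Ideal.exists_mul_mem_of_mem_minimalPrimes h𝔭min hπ
    apply hy
    obtain ⟨k, a, hk⟩ := hπy
    refine ⟨k + 1, a, ?_⟩
    rw [← hk]
    congr 2
    ring
  obtain ⟨s, hs, a, hsa⟩ := h 𝔭 inferInstance h𝔭n hπ𝔭
  apply hs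
  apply h𝔭min.1.2
  exact ⟨0, a, by simpa using hsa⟩

end horizontal

end Fermat.Agent.S34
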