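import Mathlib
import Fermat.Agent.S18.LPGlue7
import Fermat.Agent.S18.LocalGen
import Fermat.Agent.S18.TwoChart

/-!
# S34 lab (helper63): one-branch points of a reduced special fibre

Setting of `ntc47_main` (helper47, `NodalTwoChart47.lean`): a chart `B` inside a subring `W`
of `F` (in the application `W = V_∞ ⊓ V_0`).  This file depends on Mathlib and S18 only.

* `ob63_exists_one` : the J-argument of `ntc47_exists_one` for the RELAXED local datum
  `∃ φ, ∃ σ ∈ B ∖ n, π⁻¹ σ (φ - 1) ∈ W ∧ σ φ^m u ∈ B`.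
* `ob63_local_subring` : at a ONE-BRANCH point `n` (a maximal ideal through which only the
  component of the valuation `V` passes: local saturation `hsatn` and `hWn`), the relaxed local
  datum exists for EVERY `u ≡ 1 mod π V` all of whose horizontal orders are divisible by `m`
  (`hord`), provided the fibre at `n` is a valuation ring (`hval`).  The proof runs the local
  generator lemma `lg33_local` of S18 on the localisation `lp7_loc B n` and normalises the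
  generator by the valuation property.
* `ob63_local_two` : the same with `W = V ⊓ V'`, the one-branch condition being an element
  `y ∈ B ∖ n` with `π⁻¹ y ∈ V'`.
* `ob63_val_of_dedekind` : `hval` from a Dedekind quotient `B ⧸ P`, `P ≤ n`.
* `ob63_main` (in `OneBranchMain63.lean`) : `ntc47_main` with the relaxed local datum.

All names are prefixed `ob63_`.
-/

set_option autoImplicit false

namespace Fermat.Agent.S34

open Fermat.Agent.S18

section relaxed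

variable {R : Type*} [CommRing R] {F : Type*} [Field F] [Algebra R F]

/-- The J-argument for the relaxed local datum. -/
theorem ob63_exists_one (m : ℕ) (hm0 : 0 < m) (W : Subring F) (p : F)
    (B : Subalgebra R F) (hpB : p ∈ B) (hBW : ∀ x ∈ B, x ∈ W)
    (hroot : ∀ x : F, x ^ m ∈ B → x ∈ B)
    (u : F)
    (hLD : ∀ n : Ideal B, n.IsMaximal → (⟨p, hpB⟩ : B) ∈ n →
      ∃ φ : F, ∃ σ : B, σ ∉ n ∧ p⁻¹ * ((σ : F) * (φ - 1)) ∈ W ∧ (σ : F) * (φ ^ m * u) ∈ B) :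
    ∃ f : F, f ^ m * u ∈ B ∧ p⁻¹ * (f - 1) ∈ W := by
  classical
  let J : Ideal B :=
    { carrier := {b | ∃ f : F, f ^ m * u ∈ B ∧ p⁻¹ * (f - (b : F)) ∈ W}
      add_mem' := by
        rintro a b ⟨f, hf, hfa⟩ ⟨g, hg, hgb⟩
        refine ⟨f + g, tcI_add m u B hroot f g hf hg, ?_⟩
        have : p⁻¹ * (f + g - ((a + b : B) : F)) = p⁻¹ * (f - a) + p⁻¹ * (g - b) := by
          push_cast; ring
        rw [this]; exact W.add_mem hfa hgb
      zero_mem' := ⟨0, tcI_zero m hm0 u B, by simp [W.zero_mem]⟩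
      smul_mem' := by
        rintro c b ⟨f, hf, hfb⟩
        refine ⟨c * f, tcI_mul m u B c f c.2 hf, ?_⟩
        have : p⁻¹ * ((c : F) * f - ((c • b : B) : F)) = c * (p⁻¹ * (f - b)) := by
          simp only [smul_eq_mul, MulMemClass.coe_mul]; ring
        rw [this]; exact W.mul_mem (hBW c c.2) hfb }
  have hJ : J = ⊤ := by
    by_contra hne
    obtain ⟨n, hn, hJn⟩ := Ideal.exists_le_maximal J hne
    have hpn : (⟨p, hpB⟩ : B) ∈ n := by
      apply hJn
      refine ⟨0, tcI_zero m hm0 u B, ?_⟩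
      show p⁻¹ * (0 - p) ∈ W
      by_cases hp0 : p = 0
      · rw [hp0]; simp [W.zero_mem]
      · have : p⁻¹ * (0 - p) = -1 := by rw [zero_sub, mul_neg, inv_mul_cancel₀ hp0]
        rw [this]; exact W.neg_mem W.one_mem
    obtain ⟨φ, σ, hσ, hσφ, hσu⟩ := hLD n hn hpn
    apply hσ
    apply hJn
    refine ⟨σ * φ, ?_, ?_⟩
    · obtain ⟨d, rfl⟩ : ∃ d, m = d + 1 := ⟨m - 1, by omega⟩
      have : ((σ : F) * φ) ^ (d + 1) * u = (σ : F) ^ d * ((σ : F) * (φ ^ (d + 1) * u)) := by ring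
      rw [this]
      exact B.mul_mem (B.pow_mem σ.2 d) hσu
    · have : p⁻¹ * ((σ : F) * φ - (σ : F)) = p⁻¹ * ((σ : F) * (φ - 1)) := by ring
      rw [this]; exact hσφ
  have h1 : (1 : B) ∈ J := by rw [hJ]; trivial
  obtain ⟨f, hf, hf1⟩ := h1
  exact ⟨f, hf, by simpa using hf1⟩

end relaxed

section local_datum

variable {F : Type*} [Field F]

/-- **One-branch points.**  `B` a noetherian `m`-root-closed subring of `F` with `Frac B = F`,
inside the valuation ring `V` with `m_V = π V`; `n` a prime of `B` containing `π` such that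
* `hsatn` : `B ∩ π V ⊆ π B_n`  (locally at `n` the fibre is the `V`-component only),
* `hWn`   : every element of `V` is moved into `W` by some `σ ∈ B ∖ n`,
* `hval`  : the fibre at `n` is a valuation ring (modulo `π V`).
Then for every `u ≡ 1 mod π V` with `m ∣ ord_O u` at all horizontal discrete valuation rings
`O ⊇ B[1/π]` there are `φ` and `σ ∈ B ∖ n` with `σ (φ - 1) ∈ π W` and `σ φ^m u ∈ B`. -/
theorem ob63_local_subring (B : Subring F) [IsNoetherianRing B]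
    (W : Subring F) (hBW : ∀ x ∈ B, x ∈ W)
    (V : ValuationSubring F) (hBV : ∀ x ∈ B, x ∈ V)
    (π : F) (hπB : π ∈ B) (hπ0 : π ≠ 0)
    (hmax : ∀ x ∈ V, x⁻¹ ∉ V → ∃ y ∈ V, x = π * y) (hπV : π⁻¹ ∉ V)
    (m : ℕ) (hm : 0 < m) (hroot : ∀ x : F, x ^ m ∈ B → x ∈ B)
    (hfrac : ∀ x : F, ∃ a ∈ B, ∃ b ∈ B, b ≠ 0 ∧ x * b = a)
    (n : Ideal B) [hn : n.IsPrime] (hπn : (⟨π, hπB⟩ : B) ∈ n)
    (hsatn : ∀ x ∈ B, (∃ y ∈ V, x = π * y) → ∃ σ : B, σ ∉ n ∧ ∃ z ∈ B, (σ : F) * x = π * z)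
    (hWn : ∀ x ∈ V, ∃ σ : B, σ ∉ n ∧ (σ : F) * x ∈ W)
    (hval : ∀ x ∈ B, ∀ y ∈ B, ∃ s : B, s ∉ n ∧
      ((∃ a ∈ B, ∃ v ∈ V, (s : F) * x = y * a + π * v) ∨
        (∃ a ∈ B, ∃ v ∈ V, (s : F) * y = x * a + π * v)))
    (u : F) (hu : ∃ v ∈ V, u = 1 + π * v)
    (hord : ∀ O : ValuationSubring F, O ≠ ⊤ → IsPrincipalIdealRing O → (∀ x ∈ B, x ∈ O) →
      π⁻¹ ∈ O → ∃ ε w : F, ε ∈ O ∧ ε⁻¹ ∈ O ∧ u = ε * w ^ m) :
    ∃ φ : F, ∃ σ : B, σ ∉ n ∧ (∃ w ∈ W, (σ : F) * (φ - 1) = π * w) ∧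
      (σ : F) * (φ ^ m * u) ∈ B := by
  classical
  have hnoeth : IsNoetherianRing (lp7_loc B n) := lp7_loc_isNoetherianRing B n
  have hπD : π ∈ lp7_loc B n := lp7_le_loc B n π hπB
  have hπVmem : π ∈ V := hBV π hπB
  -- elements of `B` outside `n` are units of `V`
  have hunitV : ∀ s : B, s ∉ n → (s : F)⁻¹ ∈ V := by
    intro s hs
    by_contra hcon
    obtain ⟨σ, hσ, z, hz, hσz⟩ := hsatn s s.2 (hmax s (hBV s s.2) hcon)
    have hmem : σ * s ∈ n := by
      have : σ * s = ⟨π, hπB⟩ * ⟨z, hz⟩ := Subtype.ext (by push_cast; exact hσz)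
      rw [this]; exact n.mul_mem_right _ hπn
    exact (hn.mem_or_mem hmem).elim hσ hs
  have hDV : ∀ x ∈ lp7_loc B n, x ∈ V := by
    rintro x ⟨s, hs, hsx⟩
    have hs0 := lp7_ne_zero_of_not_mem B n s hs
    have : x = (s : F)⁻¹ * ((s : F) * x) := by field_simp
    rw [this]; exact V.mul_mem _ _ (hunitV s hs) (hBV _ hsx)
  have hsatD : ∀ x ∈ lp7_loc B n, (∃ y ∈ V, x = π * y) → ∃ y ∈ lp7_loc B n, x = π * y := by
    rintro x ⟨s, hs, hsx⟩ ⟨y, hyV, rfl⟩
    have hs0 := lp7_ne_zero_of_not_mem B n s hs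
    obtain ⟨σ, hσ, z, hz, hσz⟩ := hsatn _ hsx
      ⟨(s : F) * y, V.mul_mem _ _ (hBV s s.2) hyV, by ring⟩
    have hσ0 := lp7_ne_zero_of_not_mem B n σ hσ
    refine ⟨(σ : F)⁻¹ * (s : F)⁻¹ * z, (lp7_loc B n).mul_mem ((lp7_loc B n).mul_mem
      (lp7_inv_mem_loc B n σ hσ) (lp7_inv_mem_loc B n s hs)) (lp7_le_loc B n z hz), ?_⟩
    have : π * ((σ : F)⁻¹ * (s : F)⁻¹ * z) = (σ : F)⁻¹ * (s : F)⁻¹ * (π * z) := by ring
    rw [this, ← hσz]; field_simp
  have hvalD : ∀ x ∈ lp7_loc B n, ∀ y ∈ lp7_loc B n,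
      (∃ a ∈ lp7_loc B n, ∃ b ∈ lp7_loc B n, x = y * a + π * b) ∨
      (∃ a ∈ lp7_loc B n, ∃ b ∈ lp7_loc B n, y = x * a + π * b) := by
    -- one direction, to be used twice
    have aux : ∀ (x y : F) (sx sy s : B), sx ∉ n → sy ∉ n → s ∉ n →
        (sx : F) * x ∈ B → (sy : F) * y ∈ B →
        (∃ a ∈ B, ∃ v ∈ V, (s : F) * ((sx : F) * x) = (sy : F) * y * a + π * v) →
        ∃ a ∈ lp7_loc B n, ∃ b ∈ lp7_loc B n, x = y * a + π * b := by
      rintro x y sx sy s hsx hsy hs hx hy ⟨a, ha, v, hv, hav⟩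
      have hs0 := lp7_ne_zero_of_not_mem B n s hs
      have hsx0 := lp7_ne_zero_of_not_mem B n sx hsx
      obtain ⟨z, hz, hz'⟩ := hsatD ((s : F) * ((sx : F) * x) - (sy : F) * y * a)
        ((lp7_loc B n).sub_mem (lp7_le_loc B n _ (B.mul_mem s.2 hx))
          (lp7_le_loc B n _ (B.mul_mem hy ha))) ⟨v, hv, by rw [hav]; ring⟩
      refine ⟨(s : F)⁻¹ * (sx : F)⁻¹ * ((sy : F) * a), ?_, (s : F)⁻¹ * (sx : F)⁻¹ * z, ?_, ?_⟩
      · exact (lp7_loc B n).mul_mem ((lp7_loc B n).mul_mem (lp7_inv_mem_loc B n s hs)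
          (lp7_inv_mem_loc B n sx hsx)) (lp7_le_loc B n _ (B.mul_mem sy.2 ha))
      · exact (lp7_loc B n).mul_mem ((lp7_loc B n).mul_mem (lp7_inv_mem_loc B n s hs)
          (lp7_inv_mem_loc B n sx hsx)) hz
      · have h1 : (s : F) * ((sx : F) * x) = (sy : F) * y * a + π * z := by
          linear_combination hz'
        have h2 : x = (s : F)⁻¹ * (sx : F)⁻¹ * ((s : F) * ((sx : F) * x)) := by field_simp
        rw [h2, h1]; ring
    rintro x ⟨sx, hsx, hx⟩ y ⟨sy, hsy, hy⟩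
    obtain ⟨s, hs, h | h⟩ := hval _ hx _ hy
    · exact Or.inl (aux x y sx sy s hsx hsy hs hx hy h)
    · exact Or.inr (aux y x sy sx s hsy hsx hs hy hx h)
  have hfracD : ∀ x : F, ∃ a ∈ lp7_loc B n, ∃ b ∈ lp7_loc B n, b ≠ 0 ∧ x * b = a := by
    intro x
    obtain ⟨a, ha, b, hb, hb0, hab⟩ := hfrac x
    exact ⟨a, lp7_le_loc B n a ha, b, lp7_le_loc B n b hb, hb0, hab⟩
  have hjacD := lp7_loc_jac B n π hπB hπn
  have hrootD := lp7_loc_root B n m hm hroot
  -- `u` is a unit of `V`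
  obtain ⟨v, hvV, huv⟩ := hu
  have huV : u ∈ V := by rw [huv]; exact V.add_mem _ _ V.one_mem (V.mul_mem _ _ hπVmem hvV)
  have huV' : u⁻¹ ∈ V := by
    by_contra hcon
    obtain ⟨y, hy, huy⟩ := hmax u huV hcon
    apply hπV
    have h1 : π * (y - v) = 1 := by rw [mul_sub, ← huy, huv]; ring
    rw [← eq_inv_of_mul_eq_one_right h1]; exact V.toSubring.sub_mem hy hvV
  have hu0 : u ≠ 0 := by
    rintro rfl
    apply hπV
    have h1 : π * (-v) = 1 := by linear_combination huv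
    rw [← eq_inv_of_mul_eq_one_right h1]; exact V.neg_mem _ hvV
  obtain ⟨a0, ha0, b0, hb0, hb00, hab0⟩ := hfrac u
  -- the local generator
  obtain ⟨g, hgD, d, hdD, hgd⟩ := lg33_local (lp7_loc B n) V hDV π hπD hπ0 hjacD hmax hπV hsatD
    m hm hrootD hvalD u hu0 huV huV' a0 b0 (lp7_le_loc B n a0 ha0) (lp7_le_loc B n b0 hb0)
    hb00 hab0 (lp7_loc_V1 B n π hπB m hm u hu0 hfrac hord)
  have hg0 : g ≠ 0 := by
    rintro rfl
    rw [zero_pow hm.ne', zero_mul, zero_mul] at hgd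
    exact zero_ne_one hgd
  have hgV : g ∈ V := by
    apply tc_mem_of_pow_mem V m hm
    have : g ^ m = g ^ m * u * u⁻¹ := by field_simp
    rw [this]; exact V.mul_mem _ _ (hDV _ hgD) huV'
  have hgV' : g⁻¹ ∈ V := by
    apply tc_mem_of_pow_mem V m hm
    have : g⁻¹ ^ m = u * d := by
      rw [inv_pow]
      exact inv_eq_of_mul_eq_one_right (by linear_combination hgd)
    rw [this]; exact V.mul_mem _ _ huV (hDV d hdD)
  -- it suffices to find `φ` in the local ring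
  suffices hφ : ∃ φ : F, (∃ w ∈ V, φ - 1 = π * w) ∧ φ ^ m * u ∈ lp7_loc B n by
    obtain ⟨φ, ⟨w, hwV, hφw⟩, ⟨s, hs, hsφ⟩⟩ := hφ
    obtain ⟨σ, hσ, hσw⟩ := hWn w hwV
    refine ⟨φ, σ * s, fun h => (hn.mem_or_mem h).elim hσ hs, ⟨(s : F) * ((σ : F) * w),
      W.mul_mem (hBW s s.2) hσw, ?_⟩, ?_⟩
    · push_cast; rw [hφw]; ring
    · have : ((σ * s : B) : F) * (φ ^ m * u) = (σ : F) * ((s : F) * (φ ^ m * u)) := by
        push_cast; ring
      rw [this]; exact B.mul_mem σ.2 hsφ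
  -- write `g = a / b` with `b` a unit of `V`
  obtain ⟨a, haD, b, hbD, hbinv, hb0', -, hgb⟩ :=
    lp7_V_eq_loc (lp7_loc B n) π hπD V hDV hmax hπV hsatD hfracD g hgV
  have hbV : b ∈ V := hDV b hbD
  rcases hvalD a haD b hbD with ⟨c, hcD, z, hzD, hc⟩ | ⟨c, hcD, z, hzD, hc⟩
  · -- `a = b c + π z`: `g ≡ c`, and `c` is a unit of the local ring
    have hgc : g - c = π * (z * b⁻¹) := by
      have h1 : (g - c) * b = π * z := by linear_combination hgb + hc
      rw [← mul_assoc]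
      exact (eq_mul_inv_iff_mul_eq₀ hb0').mpr h1
    have hcV : c ∈ V := hDV c hcD
    have hzbV : z * b⁻¹ ∈ V := V.mul_mem _ _ (hDV z hzD) hbinv
    -- `c ^ m - g ^ m * u ∈ π V ∩ D = π D`
    have h1 : ∃ y ∈ V, c ^ m - g ^ m * u = π * y := by
      have hpw : π⁻¹ * (g ^ m - c ^ m) ∈ V := by
        apply tc_pow_sub_pow_mem V π g c hgV hcV
        rw [hgc, ← mul_assoc, inv_mul_cancel₀ hπ0, one_mul]; exact hzbV
      refine ⟨-(π⁻¹ * (g ^ m - c ^ m)) - g ^ m * v,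
        V.toSubring.sub_mem (V.neg_mem _ hpw) (V.mul_mem _ _ (V.pow_mem hgV m) hvV), ?_⟩
      rw [huv, mul_sub, mul_neg, ← mul_assoc, mul_inv_cancel₀ hπ0, one_mul]; ring
    obtain ⟨z', hz'D, hz'⟩ := hsatD _ ((lp7_loc B n).sub_mem ((lp7_loc B n).pow_mem hcD m) hgD) h1
    obtain ⟨y, hyD, hy⟩ := hjacD (z' * d) ((lp7_loc B n).mul_mem hz'D hdD)
    obtain ⟨k, rfl⟩ : ∃ k, m = k + 1 := ⟨m - 1, by omega⟩
    have hcunit : c * (c ^ k * d * y) = 1 := by
      have h2 : c ^ (k + 1) * d = 1 + π * (z' * d) := by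
        have : c ^ (k + 1) = g ^ (k + 1) * u + π * z' := by linear_combination hz'
        rw [this, add_mul, hgd]; ring
      calc c * (c ^ k * d * y) = (c ^ (k + 1) * d) * y := by ring
        _ = 1 := by rw [h2, hy]
    have hc0 : c ≠ 0 := by
      rintro rfl
      rw [zero_mul] at hcunit
      exact zero_ne_one hcunit
    have hcinv : c⁻¹ = c ^ k * d * y := (eq_inv_of_mul_eq_one_right hcunit).symm
    have hcinvD : c⁻¹ ∈ lp7_loc B n := by
      rw [hcinv]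
      exact (lp7_loc B n).mul_mem ((lp7_loc B n).mul_mem ((lp7_loc B n).pow_mem hcD k) hdD) hyD
    refine ⟨g * c⁻¹, ⟨z * b⁻¹ * c⁻¹, V.mul_mem _ _ hzbV (hDV _ hcinvD), ?_⟩, ?_⟩
    · have : g * c⁻¹ - 1 = (g - c) * c⁻¹ := by field_simp
      rw [this, hgc]; ring
    · have : (g * c⁻¹) ^ (k + 1) * u = g ^ (k + 1) * u * c⁻¹ ^ (k + 1) := by ring
      rw [this]
      exact (lp7_loc B n).mul_mem hgD ((lp7_loc B n).pow_mem hcinvD _)
  · -- `b = a c + π z`: `g c ≡ 1`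
    have hgc : g * c - 1 = π * (-(z * b⁻¹)) := by
      have h1 : (g * c - 1) * b = -(π * z) := by linear_combination c * hgb - hc
      have h2 : g * c - 1 = -(π * z) * b⁻¹ := (eq_mul_inv_iff_mul_eq₀ hb0').mpr h1
      rw [h2]; ring
    refine ⟨g * c, ⟨-(z * b⁻¹), V.neg_mem _ (V.mul_mem _ _ (hDV z hzD) hbinv), hgc⟩, ?_⟩
    have : (g * c) ^ m * u = g ^ m * u * c ^ m := by ring
    rw [this]
    exact (lp7_loc B n).mul_mem hgD ((lp7_loc B n).pow_mem hcD _)

/-- The valuation property of the fibre at a prime `n ⊇ P` when `B ⧸ P` is a Dedekind domain. -/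
theorem ob63_val_of_dedekind {B : Type*} [CommRing B] (P : Ideal B) [IsDedekindDomain (B ⧸ P)]
    (n : Ideal B) [hn : n.IsPrime] (hPn : P ≤ n) (x y : B) :
    ∃ s : B, s ∉ n ∧ ((∃ a : B, s * x - y * a ∈ P) ∨ (∃ a : B, s * y - x * a ∈ P)) := by
  classical
  have hsurj : Function.Surjective (Ideal.Quotient.mk P) := Ideal.Quotient.mk_surjective
  have hker : RingHom.ker (Ideal.Quotient.mk P) ≤ n := by rw [Ideal.mk_ker]; exact hPn
  have hprime : (n.map (Ideal.Quotient.mk P)).IsPrime := Ideal.map_isPrime_of_surjective hsurj hker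
  have key : ∀ s a x y : B, Ideal.Quotient.mk P (s * x) = Ideal.Quotient.mk P (y * a) →
      s * x - y * a ∈ P := fun s a x y h => Ideal.Quotient.eq.mp h
  by_cases hbot : n.map (Ideal.Quotient.mk P) = ⊥
  · by_cases hxn : x ∈ n
    · have hx0 : Ideal.Quotient.mk P x = 0 := by
        have : Ideal.Quotient.mk P x ∈ n.map (Ideal.Quotient.mk P) := Ideal.mem_map_of_mem _ hxn
        rw [hbot] at this
        exact this
      refine ⟨1, (Ideal.ne_top_iff_one n).mp hn.ne_top, Or.inl ⟨0, key 1 0 x y ?_⟩⟩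
      rw [one_mul, hx0, mul_zero, map_zero]
    · exact ⟨x, hxn, Or.inr ⟨y, key x y y x (by rw [mul_comm])⟩⟩
  · have hdvr : IsDiscreteValuationRing (Localization.AtPrime (n.map (Ideal.Quotient.mk P))) :=
      IsLocalization.AtPrime.isDiscreteValuationRing_of_dedekind_domain (B ⧸ P) hbot _
    have hinj : Function.Injective (algebraMap (B ⧸ P)
        (Localization.AtPrime (n.map (Ideal.Quotient.mk P)))) :=
      IsLocalization.injective (R := B ⧸ P) (M := (n.map (Ideal.Quotient.mk P)).primeCompl)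
        (Localization.AtPrime (n.map (Ideal.Quotient.mk P)))
        (Ideal.primeCompl_le_nonZeroDivisors _)
    have hvr : ValuationRing (Localization.AtPrime (n.map (Ideal.Quotient.mk P))) :=
      inferInstance
    obtain ⟨c, hc⟩ := hvr.toPreValuationRing.cond
      (algebraMap (B ⧸ P) (Localization.AtPrime (n.map (Ideal.Quotient.mk P)))
        (Ideal.Quotient.mk P x))
      (algebraMap (B ⧸ P) (Localization.AtPrime (n.map (Ideal.Quotient.mk P)))
        (Ideal.Quotient.mk P y))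
    obtain ⟨⟨abar, sbar⟩, hc'⟩ := IsLocalization.surj (n.map (Ideal.Quotient.mk P)).primeCompl c
    obtain ⟨a, rfl⟩ := hsurj abar
    obtain ⟨s, hs⟩ := hsurj sbar.1
    have hsn : s ∉ n := by
      intro h
      have : Ideal.Quotient.mk P s ∈ n.map (Ideal.Quotient.mk P) := Ideal.mem_map_of_mem _ h
      rw [hs] at this
      exact sbar.2 this
    simp only at hc'
    refine ⟨s, hsn, ?_⟩
    rcases hc with hc | hc
    · right
      refine ⟨a, key s a y x ?_⟩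
      apply hinj
      rw [map_mul, map_mul, map_mul, map_mul, hs, ← hc, ← hc']
      ring
    · left
      refine ⟨a, key s a x y ?_⟩
      apply hinj
      rw [map_mul, map_mul, map_mul, map_mul, hs, ← hc, ← hc']
      ring

end local_datum

section two_valuations

variable {R : Type*} [CommRing R] {F : Type*} [Field F] [Algebra R F]

/-- **One-branch points for `W = V ⊓ V'`.**  `n` is a maximal ideal of the chart `B` containing
`π` through which the `V'`-component does not pass: there is `y ∈ B ∖ n` with `π⁻¹ y ∈ V'`.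
`hsat` is the saturation of `B` in `V ⊓ V'`, `harch` says that `V'` has rank one over `π`,
`hval` that the `V`-fibre of `B` at `n` is a valuation ring.  Then every `u ≡ 1 mod π V` with
`m ∣ ord_O u` at the horizontal discrete valuation rings has a relaxed local datum at `n`. -/
theorem ob63_local_two (π : R) (B : Subalgebra R F) [IsNoetherianRing B]
    (V V' : ValuationSubring F) (hBV : ∀ x ∈ B, x ∈ V) (hBV' : ∀ x ∈ B, x ∈ V')
    (hπ0 : algebraMap R F π ≠ 0) (hπV : (algebraMap R F π)⁻¹ ∉ V)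
    (hmax : ∀ x ∈ V, x⁻¹ ∉ V → (algebraMap R F π)⁻¹ * x ∈ V)
    (harch : ∀ x : F, ∃ k : ℕ, (algebraMap R F π) ^ k * x ∈ V')
    (hsat : ∀ x ∈ B, (algebraMap R F π)⁻¹ * x ∈ V → (algebraMap R F π)⁻¹ * x ∈ V' →
      (algebraMap R F π)⁻¹ * x ∈ B)
    (m : ℕ) (hm : 0 < m) (hroot : ∀ x : F, x ^ m ∈ B → x ∈ B)
    (hfrac : ∀ x : F, ∃ a ∈ B, ∃ b ∈ B, b ≠ 0 ∧ x * b = a)
    (n : Ideal B) (hn : n.IsMaximal) (hπn : algebraMap R B π ∈ n)
    (y : B) (hyn : y ∉ n) (hyV' : (algebraMap R F π)⁻¹ * (y : F) ∈ V')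
    (hval : ∀ x ∈ B, ∀ z ∈ B, ∃ s : B, s ∉ n ∧
      ((∃ a ∈ B, (algebraMap R F π)⁻¹ * ((s : F) * x - z * a) ∈ V) ∨
        (∃ a ∈ B, (algebraMap R F π)⁻¹ * ((s : F) * z - x * a) ∈ V)))
    (u : F) (hu : (algebraMap R F π)⁻¹ * (u - 1) ∈ V)
    (hord : ∀ O : ValuationSubring F, O ≠ ⊤ → IsPrincipalIdealRing O → (∀ x ∈ B, x ∈ O) →
      (algebraMap R F π)⁻¹ ∈ O → ∃ ε w : F, ε ∈ O ∧ ε⁻¹ ∈ O ∧ u = ε * w ^ m) :
    ∃ φ : F, ∃ σ : B, σ ∉ n ∧
      (algebraMap R F π)⁻¹ * ((σ : F) * (φ - 1)) ∈ V.toSubring ⊓ V'.toSubring ∧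
      (σ : F) * (φ ^ m * u) ∈ B := by
  classical
  set p : F := algebraMap R F π with hp
  have hpB : p ∈ B.toSubring := B.algebraMap_mem π
  have hprime : (show Ideal B.toSubring from n).IsPrime := hn.isPrime
  have hmax' : ∀ x ∈ V, x⁻¹ ∉ V → ∃ z ∈ V, x = p * z :=
    fun x hx hx' => ⟨_, hmax x hx hx', by field_simp⟩
  have hsatn : ∀ x ∈ B.toSubring, (∃ z ∈ V, x = p * z) →
      ∃ σ : B.toSubring, σ ∉ (show Ideal B.toSubring from n) ∧
        ∃ z ∈ B.toSubring, (σ : F) * x = p * z := by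
    rintro x hx ⟨v, hv, rfl⟩
    refine ⟨y, hyn, p⁻¹ * ((y : F) * (p * v)), ?_, by field_simp⟩
    apply hsat _ (B.mul_mem y.2 hx)
    · have : p⁻¹ * ((y : F) * (p * v)) = (y : F) * v := by field_simp
      rw [this]; exact V.mul_mem _ _ (hBV y y.2) hv
    · have : p⁻¹ * ((y : F) * (p * v)) = p⁻¹ * (y : F) * (p * v) := by ring
      rw [this]; exact V'.mul_mem _ _ hyV' (hBV' _ hx)
  have hWn : ∀ x ∈ V, ∃ σ : B.toSubring, σ ∉ (show Ideal B.toSubring from n) ∧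
      (σ : F) * x ∈ V.toSubring ⊓ V'.toSubring := by
    intro x hx
    obtain ⟨k, hk⟩ := harch x
    refine ⟨y ^ k, fun h => hyn (hprime.mem_of_pow_mem k h), ?_⟩
    rw [Subring.mem_inf]
    constructor
    · exact V.mul_mem _ _ (hBV _ (y ^ k).2) hx
    · have : ((y ^ k : B) : F) * x = (p⁻¹ * (y : F)) ^ k * (p ^ k * x) := by
        push_cast; rw [mul_pow, inv_pow]; field_simp
      show ((y ^ k : B) : F) * x ∈ V'
      rw [this]; exact V'.mul_mem _ _ (V'.pow_mem hyV' k) hk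
  have hval' : ∀ x ∈ B.toSubring, ∀ z ∈ B.toSubring, ∃ s : B.toSubring,
      s ∉ (show Ideal B.toSubring from n) ∧
      ((∃ a ∈ B.toSubring, ∃ v ∈ V, (s : F) * x = z * a + p * v) ∨
        (∃ a ∈ B.toSubring, ∃ v ∈ V, (s : F) * z = x * a + p * v)) := by
    intro x hx z hz
    obtain ⟨s, hs, h | h⟩ := hval x hx z hz
    · obtain ⟨a, ha, hav⟩ := h
      exact ⟨s, hs, Or.inl ⟨a, ha, _, hav, by field_simp; ring⟩⟩
    · obtain ⟨a, ha, hav⟩ := h
      exact ⟨s, hs, Or.inr ⟨a, ha, _, hav, by field_simp; ring⟩⟩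
  have hBW : ∀ x ∈ B.toSubring, x ∈ V.toSubring ⊓ V'.toSubring := fun x hx =>
    Subring.mem_inf.mpr ⟨hBV x hx, hBV' x hx⟩
  obtain ⟨φ, σ, hσ, ⟨w, hw, hσw⟩, hσu⟩ := @ob63_local_subring F _ B.toSubring
    ‹IsNoetherianRing B› (V.toSubring ⊓ V'.toSubring) hBW V hBV p hpB hπ0 hmax' hπV m hm hroot
    hfrac n hprime hπn hsatn hWn hval' u ⟨p⁻¹ * (u - 1), hu, by field_simp; ring⟩ hord
  refine ⟨φ, σ, hσ, ?_, hσu⟩
  have : p⁻¹ * ((σ : F) * (φ - 1)) = w := by rw [hσw]; field_simp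
  rw [this]; exact hw

end two_valuations

end Fermat.Agent.S34
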