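import Mathlib
import Fermat.Agent.S34.OneBranch63
import Fermat.Agent.S34.NodalTwoChart47

/-!
# S34 lab (helper63): the nodal two-chart lemma with the relaxed local datum

`ob63_main` is `ntc47_main` (helper47) with the local datum at a maximal ideal `n ∋ π` of a chart
relaxed to: `φ` and `σ ∈ B ∖ n` with `σ (φ - 1) ∈ π W` and `σ φ^m u ∈ B`
(the output of `ob63_local_two` at one-branch points; the strict datum of `ntc47_main` is the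
case `σ = s`).
-/

set_option autoImplicit false

namespace Fermat.Agent.S34

open Fermat.Agent.S18

section main

variable {R : Type*} [CommRing R] {F : Type*} [Field F] [Algebra R F]

/-- **The nodal two-chart lemma with the relaxed local datum**: `ntc47_main` (helper47) with,
at every maximal ideal `n ∋ π` of a chart, `φ` and `σ ∈ B ∖ n` such that `σ (φ - 1) ∈ π W` and
`σ φ^m u ∈ B`. -/
theorem ob63_main [IsNoetherianRing R]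
    (π : R) (m : ℕ) (hm0 : 0 < m) (hm : IsUnit (m : R))
    (W : Subring F) (hRW : ∀ r : R, algebraMap R F r ∈ W)
    (hπ0 : algebraMap R F π ≠ 0) (hπW : (algebraMap R F π)⁻¹ ∉ W)
    (hWroot : ∀ x : F, x ^ m ∈ W → x ∈ W)
    (hWunit : ∀ x ∈ W, (1 + algebraMap R F π * x)⁻¹ ∈ W)
    (B₁ B₂ B₁₂ : Subalgebra R F) (h112 : B₁ ≤ B₁₂) (h212 : B₂ ≤ B₁₂)
    (h12W : ∀ x ∈ B₁₂, x ∈ W)
    (hsat₁ : ∀ x ∈ B₁, (algebraMap R F π)⁻¹ * x ∈ W → (algebraMap R F π)⁻¹ * x ∈ B₁)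
    (hsat₂ : ∀ x ∈ B₂, (algebraMap R F π)⁻¹ * x ∈ W → (algebraMap R F π)⁻¹ * x ∈ B₂)
    (hsat₁₂ : ∀ x ∈ B₁₂, (algebraMap R F π)⁻¹ * x ∈ W → (algebraMap R F π)⁻¹ * x ∈ B₁₂)
    (hroot₁ : ∀ x : F, x ^ m ∈ B₁ → x ∈ B₁) (hroot₂ : ∀ x : F, x ^ m ∈ B₂ → x ∈ B₂)
    (u : F) (hu : (algebraMap R F π)⁻¹ * (u - 1) ∈ W)
    (hLD₁ : ∀ n : Ideal B₁, n.IsMaximal → algebraMap R B₁ π ∈ n →
      ∃ φ : F, ∃ σ : B₁, σ ∉ n ∧ (algebraMap R F π)⁻¹ * ((σ : F) * (φ - 1)) ∈ W ∧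
        (σ : F) * (φ ^ m * u) ∈ B₁)
    (hLD₂ : ∀ n : Ideal B₂, n.IsMaximal → algebraMap R B₂ π ∈ n →
      ∃ φ : F, ∃ σ : B₂, σ ∉ n ∧ (algebraMap R F π)⁻¹ * ((σ : F) * (φ - 1)) ∈ W ∧
        (σ : F) * (φ ^ m * u) ∈ B₂)
    (h : F) (hh0 : h ≠ 0) (hh₁ : h ∈ B₁) (hh₂ : h⁻¹ ∈ B₂)
    (hloc₁ : ∀ x ∈ B₁₂, ∃ k : ℕ, h ^ k * x ∈ B₁)
    (hloc₂ : ∀ x ∈ B₁₂, ∃ k : ℕ, h⁻¹ ^ k * x ∈ B₂)
    (hfin : ∃ G : Finset F, ∀ x ∈ B₁,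
      x ∈ Submodule.span (Algebra.adjoin R ({h} : Set F)) (G : Set F))
    (hfrac : ∃ a ∈ B₁, ∃ b ∈ B₁, a ≠ 0 ∧ u * b = a) :
    ∃ f₀ : F, f₀ ^ m * u ∈ B₁ ∧ f₀ ^ m * u ∈ B₂ ∧ (algebraMap R F π)⁻¹ * (f₀ - 1) ∈ W := by
  have h1W : ∀ x ∈ B₁, x ∈ W := fun x hx => h12W x (h112 hx)
  have h2W : ∀ x ∈ B₂, x ∈ W := fun x hx => h12W x (h212 hx)
  obtain ⟨f₁, hf₁, hf₁1⟩ := ob63_exists_one m hm0 W _ B₁ (B₁.algebraMap_mem π) h1W hroot₁ u hLD₁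
  obtain ⟨f₂, hf₂, hf₂1⟩ := ob63_exists_one m hm0 W _ B₂ (B₂.algebraMap_mem π) h2W hroot₂ u hLD₂
  refine ntc47_main π m hm0 hm W hRW hπ0 hπW hWroot hWunit B₁ B₂ B₁₂ h112 h212 h12W hsat₁ hsat₂
    hsat₁₂ hroot₁ hroot₂ u hu ?_ ?_ h hh0 hh₁ hh₂ hloc₁ hloc₂ hfin hfrac
  · intro n hn _
    exact ⟨f₁, hf₁1, 1, (Ideal.ne_top_iff_one n).mp hn.ne_top, by simpa using hf₁⟩
  · intro n hn _
    exact ⟨f₂, hf₂1, 1, (Ideal.ne_top_iff_one n).mp hn.ne_top, by simpa using hf₂⟩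

end main

end Fermat.Agent.S34
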