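import Mathlib

/-!
# S34 lab, row P1a-abs (helper10, twin): the only extensions of a discrete valuation

Abstract, Mathlib-only.  `K ⊆ L` a finite field extension of degree `≤ q + 1`, `V'` a discrete
valuation subring of `K` with uniformizer `π` (elementary shape), `V1 ≠ V2` valuation subrings of
`L` over `V'`, and a Kummer-shape witness that the residue field of `V2` contains a `q`-th root of
a non-`q`-th power.  Then `V1`, `V2` are the only valuation subrings over `V'`, `V1 ⊓ V2` is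
integral over `V'`, both are unramified (`π` is a uniformizer), the residue degree of `V1` is `1`
and the residue field of `V2` is generated by the witness.

The proof is elementary (no Dedekind domains): approximation for two incomparable valuation
rings plus a direct linear-independence argument (fundamental inequality).
-/

set_option autoImplicit false

namespace Fermat.Agent.S34

/-- `V'` is a discrete valuation subring of `K` with uniformizer `π` (S18 elementary shape). -/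
structure oe10_DVR {K : Type*} [Field K] (V' : ValuationSubring K) (π : K) : Prop where
  mem : π ∈ V'
  inv_not_mem : π⁻¹ ∉ V'
  hmax : ∀ x ∈ V', x⁻¹ ∉ V' → π⁻¹ * x ∈ V'
  harch : ∀ x : K, x ≠ 0 → ∃ n : ℕ, (π ^ n)⁻¹ * x ∉ V'

/-- `V` is a valuation subring of `L` lying over `V'`. -/
structure oe10_Over {K L : Type*} [Field K] [Field L] [Algebra K L] (V' : ValuationSubring K)
    (π : K) (V : ValuationSubring L) : Prop where
  le : ∀ x ∈ V', algebraMap K L x ∈ V
  inv_not_mem : (algebraMap K L π)⁻¹ ∉ V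

section one

variable {K L : Type*} [Field K] [Field L] [Algebra K L]
variable {V' : ValuationSubring K} {π : K} {V : ValuationSubring L}

theorem oe10_pi_ne_zero (hD : oe10_DVR V' π) : π ≠ 0 := by
  rintro rfl
  exact hD.inv_not_mem (by simp)

theorem oe10_val_pi_ne_zero (hD : oe10_DVR V' π) : V.valuation (algebraMap K L π) ≠ 0 := by
  rw [Valuation.ne_zero_iff]
  exact (_root_.map_ne_zero _).2 (oe10_pi_ne_zero hD)

theorem oe10_val_pi_pos (hD : oe10_DVR V' π) : 0 < V.valuation (algebraMap K L π) :=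
  zero_lt_iff.2 (oe10_val_pi_ne_zero hD)

theorem oe10_val_pi_lt_one (hD : oe10_DVR V' π) (hV : oe10_Over V' π V) :
    V.valuation (algebraMap K L π) < 1 := by
  have h1 : V.valuation (algebraMap K L π) ≤ 1 := (V.valuation_le_one_iff _).2 (hV.le π hD.mem)
  rcases lt_or_eq_of_le h1 with h | h
  · exact h
  · exfalso
    apply hV.inv_not_mem
    rw [← V.valuation_le_one_iff, map_inv₀, h, inv_one]

theorem oe10_pi_inv_mul_mem_iff (hD : oe10_DVR V' π) (x : L) :
    (algebraMap K L π)⁻¹ * x ∈ V ↔ V.valuation x ≤ V.valuation (algebraMap K L π) := by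
  rw [← V.valuation_le_one_iff, map_mul, map_inv₀, inv_mul_le_iff₀ (oe10_val_pi_pos hD), mul_one]

theorem oe10_mem_of_map_mem (hD : oe10_DVR V' π) (hV : oe10_Over V' π V) {x : K}
    (hx : algebraMap K L x ∈ V) : x ∈ V' := by
  by_contra hx'
  have hx0 : x ≠ 0 := by rintro rfl; exact hx' V'.zero_mem
  have hinv : x⁻¹ ∈ V' := (V'.mem_or_inv_mem x).resolve_left hx'
  have h2 : π⁻¹ * x⁻¹ ∈ V' := hD.hmax _ hinv (by rwa [inv_inv])
  apply hV.inv_not_mem
  have h3 : (algebraMap K L π)⁻¹ = algebraMap K L (π⁻¹ * x⁻¹) * algebraMap K L x := by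
    rw [← map_mul, ← map_inv₀]
    congr 1
    field_simp
  rw [h3]
  exact V.mul_mem _ _ (hV.le _ h2) hx

theorem oe10_pi_inv_mul_mem_of_map (hD : oe10_DVR V' π) (hV : oe10_Over V' π V) {c : K}
    (hc : (algebraMap K L π)⁻¹ * algebraMap K L c ∈ V) : π⁻¹ * c ∈ V' := by
  apply oe10_mem_of_map_mem hD hV
  rwa [map_mul, map_inv₀]

theorem oe10_val_unit (hV : oe10_Over V' π V) {ε : K} (h1 : ε ∈ V') (h2 : ε⁻¹ ∈ V')
    (h0 : ε ≠ 0) : V.valuation (algebraMap K L ε) = 1 := by
  have a := (V.valuation_le_one_iff _).2 (hV.le _ h1)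
  have b := (V.valuation_le_one_iff _).2 (hV.le _ h2)
  rw [map_inv₀, map_inv₀] at b
  have hpos : 0 < V.valuation (algebraMap K L ε) :=
    zero_lt_iff.2 ((Valuation.ne_zero_iff _).2 ((_root_.map_ne_zero _).2 h0))
  exact le_antisymm a ((inv_le_one₀ hpos).1 b)

theorem oe10_val_of_mem (hD : oe10_DVR V' π) (hV : oe10_Over V' π V) {r : K} (hr : r ∈ V')
    (h0 : r ≠ 0) :
    ∃ l : ℕ, V.valuation (algebraMap K L r) = V.valuation (algebraMap K L π) ^ l := by
  classical
  have hπ0 := oe10_pi_ne_zero hD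
  have hP : ∃ n : ℕ, (π ^ n)⁻¹ * r ∉ V' := hD.harch r h0
  have hm1 : (π ^ Nat.find hP)⁻¹ * r ∉ V' := Nat.find_spec hP
  have hm0 : Nat.find hP ≠ 0 := by
    intro h
    rw [h] at hm1
    exact hm1 (by simpa using hr)
  obtain ⟨l, hl⟩ := Nat.exists_eq_succ_of_ne_zero hm0
  have hε : (π ^ l)⁻¹ * r ∈ V' := by
    by_contra h
    exact Nat.find_min hP (by omega : l < Nat.find hP) h
  have hεinv : ((π ^ l)⁻¹ * r)⁻¹ ∈ V' := by
    by_contra h
    have h4 := hD.hmax _ hε h
    apply hm1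
    rw [hl]
    have h5 : (π ^ (l + 1))⁻¹ * r = π⁻¹ * ((π ^ l)⁻¹ * r) := by
      rw [pow_succ, mul_inv]
      ring
    rw [Nat.succ_eq_add_one, h5]
    exact h4
  refine ⟨l, ?_⟩
  have hε0 : (π ^ l)⁻¹ * r ≠ 0 := mul_ne_zero (inv_ne_zero (pow_ne_zero _ hπ0)) h0
  have hr' : r = π ^ l * ((π ^ l)⁻¹ * r) := by
    field_simp
  conv_lhs => rw [hr']
  rw [map_mul, map_mul, map_pow, map_pow, oe10_val_unit hV hε hεinv hε0, mul_one]

theorem oe10_val_of_ne_zero (hD : oe10_DVR V' π) (hV : oe10_Over V' π V) {r : K}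
    (h0 : r ≠ 0) :
    ∃ k l : ℕ, V.valuation (algebraMap K L r) * V.valuation (algebraMap K L π) ^ k
      = V.valuation (algebraMap K L π) ^ l := by
  rcases V'.mem_or_inv_mem r with hr | hr
  · obtain ⟨l, hl⟩ := oe10_val_of_mem hD hV hr h0
    exact ⟨0, l, by rw [pow_zero, mul_one, hl]⟩
  · obtain ⟨k, hk⟩ := oe10_val_of_mem hD hV hr (inv_ne_zero h0)
    refine ⟨k, 0, ?_⟩
    rw [← hk, map_inv₀, map_inv₀, pow_zero]
    exact mul_inv_cancel₀ ((Valuation.ne_zero_iff _).2 ((_root_.map_ne_zero _).2 h0))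

end one

section two

/-- In a vanishing finite sum with a nonzero term, the maximal valuation is attained twice. -/
theorem oe10_two_max {L Γ : Type*} [Field L] [LinearOrderedCommGroupWithZero Γ]
    (v : Valuation L Γ) {ι : Type*} [DecidableEq ι] (s : Finset ι) (f : ι → L)
    (hs : ∑ i ∈ s, f i = 0) (i₀ : ι) (hi₀ : i₀ ∈ s) (hne : f i₀ ≠ 0) :
    ∃ i ∈ s, ∃ j ∈ s, i ≠ j ∧ f i ≠ 0 ∧ v (f i) = v (f j) := by
  obtain ⟨i, hi, hmax⟩ := Finset.exists_max_image s (fun i => v (f i)) ⟨i₀, hi₀⟩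
  have hfi : v (f i) ≠ 0 := by
    intro h
    have h1 := hmax i₀ hi₀
    rw [h] at h1
    exact hne ((Valuation.zero_iff v).1 (le_antisymm h1 zero_le))
  by_contra hcon
  push Not at hcon
  have hlt : ∀ j ∈ s.erase i, v (f j) < v (f i) := by
    intro j hj
    rw [Finset.mem_erase] at hj
    exact lt_of_le_of_ne (hmax j hj.2)
      (fun h => hcon i hi j hj.2 (Ne.symm hj.1) ((Valuation.ne_zero_iff v).1 hfi) h.symm)
  have h1 := Valuation.map_sum_lt v hfi hlt
  rw [← Finset.add_sum_erase s f hi] at hs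
  have h2 : f i = - ∑ j ∈ s.erase i, f j := eq_neg_of_add_eq_zero_left hs
  have h3 : v (f i) = v (∑ j ∈ s.erase i, f j) := by
    conv_lhs => rw [h2]
    rw [Valuation.map_neg]
  rw [h3] at h1
  exact lt_irrefl _ h1

variable {K L : Type*} [Field K] [Field L] [Algebra K L] [FiniteDimensional K L]
variable {V' : ValuationSubring K} {π : K} {V : ValuationSubring L}

omit [FiniteDimensional K L] in
theorem oe10_val_rel_aux (hD : oe10_DVR V' π) (hV : oe10_Over V' π V) {x : L} (hx : x ≠ 0)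
    {ci cj : K} (hci : ci ≠ 0) (hcj : cj ≠ 0) {i j : ℕ} (hij : i < j)
    (h : V.valuation (algebraMap K L ci * x ^ i) = V.valuation (algebraMap K L cj * x ^ j)) :
    ∃ d k l : ℕ, 0 < d ∧ V.valuation x ^ d * V.valuation (algebraMap K L π) ^ k
      = V.valuation (algebraMap K L π) ^ l := by
  obtain ⟨ki, li, hli⟩ := oe10_val_of_ne_zero hD hV hci
  obtain ⟨kj, lj, hlj⟩ := oe10_val_of_ne_zero hD hV hcj
  obtain ⟨d, rfl⟩ := Nat.exists_eq_add_of_lt hij
  have hx0 : V.valuation x ≠ 0 := (Valuation.ne_zero_iff _).2 hx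
  rw [map_mul, map_mul, map_pow, map_pow] at h
  have h' : V.valuation (algebraMap K L ci)
      = V.valuation (algebraMap K L cj) * V.valuation x ^ (d + 1) := by
    apply mul_right_cancel₀ (pow_ne_zero i hx0)
    rw [h, mul_assoc, ← pow_add]
    congr 2
    omega
  refine ⟨d + 1, lj + ki, li + kj, Nat.succ_pos d, ?_⟩
  rw [pow_add _ lj ki, pow_add _ li kj, ← hli, ← hlj, h']
  simp only [mul_comm, mul_left_comm, mul_assoc]

/-- Every nonzero element has valuation commensurable with that of the uniformizer. -/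
theorem oe10_val_rel (hD : oe10_DVR V' π) (hV : oe10_Over V' π V) {x : L} (hx : x ≠ 0) :
    ∃ d k l : ℕ, 0 < d ∧ V.valuation x ^ d * V.valuation (algebraMap K L π) ^ k
      = V.valuation (algebraMap K L π) ^ l := by
  classical
  obtain ⟨p, hp0, hpx⟩ := (Algebra.IsAlgebraic.isAlgebraic x : IsAlgebraic K x)
  rw [Polynomial.aeval_def, Polynomial.eval₂_eq_sum, Polynomial.sum_def] at hpx
  have hdeg : p.natDegree ∈ p.support := Polynomial.natDegree_mem_support_of_nonzero hp0
  have hne : algebraMap K L (p.coeff p.natDegree) * x ^ p.natDegree ≠ 0 :=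
    mul_ne_zero ((_root_.map_ne_zero _).2 (Polynomial.mem_support_iff.1 hdeg)) (pow_ne_zero _ hx)
  obtain ⟨i, hi, j, hj, hij, -, hv⟩ :=
    oe10_two_max V.valuation p.support (fun n => algebraMap K L (p.coeff n) * x ^ n) hpx
      p.natDegree hdeg hne
  have hci := Polynomial.mem_support_iff.1 hi
  have hcj := Polynomial.mem_support_iff.1 hj
  rcases Nat.lt_or_gt_of_ne hij with h | h
  · exact oe10_val_rel_aux hD hV hx hci hcj h hv
  · exact oe10_val_rel_aux hD hV hx hcj hci h hv.symm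

theorem oe10_pow_le_pi (hD : oe10_DVR V' π) (hV : oe10_Over V' π V) {x : L}
    (hx : V.valuation x < 1) :
    ∃ b : ℕ, 0 < b ∧ V.valuation x ^ b ≤ V.valuation (algebraMap K L π) := by
  by_cases hx0 : x = 0
  · exact ⟨1, Nat.one_pos, by simp [hx0]⟩
  obtain ⟨d, k, l, hd, h⟩ := oe10_val_rel hD hV hx0
  have hγ0 := oe10_val_pi_ne_zero (V := V) hD
  have hγ1 := oe10_val_pi_lt_one hD hV
  have hxd : V.valuation x ^ d < 1 := pow_lt_one₀ zero_le hx (Nat.pos_iff_ne_zero.1 hd)
  have hlt : V.valuation (algebraMap K L π) ^ l < V.valuation (algebraMap K L π) ^ k := by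
    rw [← h]
    exact mul_lt_of_lt_one_left (zero_lt_iff.2 (pow_ne_zero k hγ0)) hxd
  have hkl : k < l := by
    by_contra hkl
    exact absurd hlt (not_lt.2 (pow_le_pow_of_le_one zero_le hγ1.le (not_lt.1 hkl)))
  obtain ⟨m, rfl⟩ := Nat.exists_eq_add_of_lt hkl
  refine ⟨d, hd, ?_⟩
  have h2 : V.valuation x ^ d = V.valuation (algebraMap K L π) ^ (m + 1) := by
    apply mul_right_cancel₀ (pow_ne_zero k hγ0)
    rw [h, ← pow_add]
    congr 1
    omega
  rw [h2]
  calc V.valuation (algebraMap K L π) ^ (m + 1) ≤ V.valuation (algebraMap K L π) ^ 1 :=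
        pow_le_pow_of_le_one zero_le hγ1.le (Nat.succ_le_succ (Nat.zero_le m))
    _ = V.valuation (algebraMap K L π) := pow_one _

theorem oe10_pow_mul_le_pi (hD : oe10_DVR V' π) (hV : oe10_Over V' π V) {x : L}
    (hx : V.valuation x < 1) (z : L) :
    ∃ a₀ : ℕ, ∀ a, a₀ ≤ a →
      V.valuation x ^ a * V.valuation z ≤ V.valuation (algebraMap K L π) := by
  by_cases hz0 : z = 0
  · exact ⟨0, fun a _ => by simp [hz0]⟩
  obtain ⟨d, k, l, hd, h⟩ := oe10_val_rel hD hV hz0
  have hγ0 := oe10_val_pi_ne_zero (V := V) hD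
  have hγ1 := oe10_val_pi_lt_one hD hV
  have hzk : V.valuation z * V.valuation (algebraMap K L π) ^ k ≤ 1 := by
    by_contra hcon
    have h1 : 1 < V.valuation z * V.valuation (algebraMap K L π) ^ k := not_le.1 hcon
    have h2 : 1 < (V.valuation z * V.valuation (algebraMap K L π) ^ k) ^ d :=
      one_lt_pow₀ h1 (Nat.pos_iff_ne_zero.1 hd)
    obtain ⟨d', rfl⟩ := Nat.exists_eq_succ_of_ne_zero (Nat.pos_iff_ne_zero.1 hd)
    have h3 : (V.valuation z * V.valuation (algebraMap K L π) ^ k) ^ (d' + 1)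
        = V.valuation (algebraMap K L π) ^ l * (V.valuation (algebraMap K L π) ^ k) ^ d' := by
      rw [← h, mul_pow, pow_succ (V.valuation (algebraMap K L π) ^ k) d']
      simp only [mul_comm, mul_assoc]
    rw [Nat.succ_eq_add_one, h3] at h2
    have h4 : V.valuation (algebraMap K L π) ^ l * (V.valuation (algebraMap K L π) ^ k) ^ d'
        ≤ 1 :=
      mul_le_one' (pow_le_one₀ zero_le hγ1.le) (pow_le_one₀ zero_le (pow_le_one₀ zero_le hγ1.le))
    exact absurd h2 (not_lt.2 h4)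
  obtain ⟨b, hb0, hb⟩ := oe10_pow_le_pi hD hV hx
  refine ⟨b * (k + 1), fun a ha => ?_⟩
  have h1 : V.valuation x ^ a ≤ V.valuation (algebraMap K L π) ^ (k + 1) := by
    calc V.valuation x ^ a ≤ V.valuation x ^ (b * (k + 1)) :=
          pow_le_pow_of_le_one zero_le hx.le ha
      _ = (V.valuation x ^ b) ^ (k + 1) := pow_mul _ _ _
      _ ≤ V.valuation (algebraMap K L π) ^ (k + 1) := pow_le_pow_left₀ zero_le hb _
  calc V.valuation x ^ a * V.valuation z
      ≤ V.valuation (algebraMap K L π) ^ (k + 1) * V.valuation z := mul_le_mul_left h1 _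
    _ = V.valuation (algebraMap K L π) * (V.valuation z * V.valuation (algebraMap K L π) ^ k) := by
        rw [pow_succ]
        simp only [mul_comm, mul_left_comm]
    _ ≤ V.valuation (algebraMap K L π) * 1 := mul_le_mul_right hzk _
    _ = V.valuation (algebraMap K L π) := mul_one _

variable {V1 V2 : ValuationSubring L}

/-- Two valuation subrings over `V'` are equal as soon as they are comparable. -/
theorem oe10_eq_of_le (hD : oe10_DVR V' π) (hV1 : oe10_Over V' π V1) (hV2 : oe10_Over V' π V2)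
    (hle : V1 ≤ V2) : V1 = V2 := by
  refine le_antisymm hle ?_
  intro x hx2
  by_contra hx1
  have hx0 : x ≠ 0 := by rintro rfl; exact hx1 V1.zero_mem
  have hgt : 1 < V1.valuation x := lt_of_not_ge (fun h => hx1 ((V1.valuation_le_one_iff x).1 h))
  have hlt : V1.valuation x⁻¹ < 1 := by
    rw [map_inv₀]
    exact inv_lt_one_of_one_lt₀ hgt
  obtain ⟨b, -, hb⟩ := oe10_pow_le_pi hD hV1 hlt
  have h3 : (algebraMap K L π)⁻¹ * x⁻¹ ^ b ∈ V1 :=
    (oe10_pi_inv_mul_mem_iff hD _).2 (by rwa [map_pow])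
  apply hV2.inv_not_mem
  have h4 : (algebraMap K L π)⁻¹ = (algebraMap K L π)⁻¹ * x⁻¹ ^ b * x ^ b := by
    rw [mul_assoc, inv_pow, inv_mul_cancel₀ (pow_ne_zero b hx0), mul_one]
  rw [h4]
  exact V2.mul_mem _ _ (hle h3) (pow_mem hx2 b)

theorem oe10_exists_sep (hD : oe10_DVR V' π) (hV1 : oe10_Over V' π V1) (hV2 : oe10_Over V' π V2)
    (hne : V1 ≠ V2) : ∃ t : L, t ≠ 0 ∧ V1.valuation t < 1 ∧ V2.valuation t⁻¹ < 1 := by
  have h12 : ¬ V1 ≤ V2 := fun h => hne (oe10_eq_of_le hD hV1 hV2 h)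
  have h21 : ¬ V2 ≤ V1 := fun h => hne (oe10_eq_of_le hD hV2 hV1 h).symm
  obtain ⟨a, ha1, ha2⟩ := SetLike.not_le_iff_exists.1 h12
  obtain ⟨b, hb2, hb1⟩ := SetLike.not_le_iff_exists.1 h21
  have ha0 : a ≠ 0 := by rintro rfl; exact ha2 V2.zero_mem
  have hb0 : b ≠ 0 := by rintro rfl; exact hb1 V1.zero_mem
  have hb1' : V1.valuation b⁻¹ < 1 := by
    rw [map_inv₀]
    exact inv_lt_one_of_one_lt₀ (lt_of_not_ge (fun h => hb1 ((V1.valuation_le_one_iff b).1 h)))
  have ha2' : V2.valuation a⁻¹ < 1 := by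
    rw [map_inv₀]
    exact inv_lt_one_of_one_lt₀ (lt_of_not_ge (fun h => ha2 ((V2.valuation_le_one_iff a).1 h)))
  refine ⟨a * b⁻¹, mul_ne_zero ha0 (inv_ne_zero hb0), ?_, ?_⟩
  · rw [map_mul]
    exact mul_lt_one_of_nonneg_of_lt_one_right ((V1.valuation_le_one_iff a).2 ha1) zero_le hb1'
  · rw [mul_inv, inv_inv, mul_comm, map_mul]
    exact mul_lt_one_of_nonneg_of_lt_one_right ((V2.valuation_le_one_iff b).2 hb2) zero_le ha2'

/-- Approximation: an element close to `1` at `V1` and killing a finite set modulo `π` at `V2`. -/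
theorem oe10_approx (hD : oe10_DVR V' π) (hV1 : oe10_Over V' π V1) (hV2 : oe10_Over V' π V2)
    (hne : V1 ≠ V2) (Z : Finset L) :
    ∃ s : L, V1.valuation (s - 1) ≤ V1.valuation (algebraMap K L π) ∧
      ∀ z ∈ Z, V2.valuation (s * z) ≤ V2.valuation (algebraMap K L π) := by
  obtain ⟨t, ht0, ht1, ht2⟩ := oe10_exists_sep hD hV1 hV2 hne
  have h1t1 : V1.valuation (1 + t) = 1 := Valuation.map_one_add_of_lt _ ht1
  have h1t : 1 + t ≠ 0 := by
    intro h
    rw [h, map_zero] at h1t1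
    exact zero_ne_one h1t1
  have h1ti2 : V2.valuation (1 + t⁻¹) = 1 := Valuation.map_one_add_of_lt _ ht2
  have h1ti : 1 + t⁻¹ ≠ 0 := by
    intro h
    rw [h, map_zero] at h1ti2
    exact zero_ne_one h1ti2
  have hu1v : V1.valuation (1 + t)⁻¹ = 1 := by rw [map_inv₀, h1t1, inv_one]
  have hu1 : V1.valuation ((1 + t)⁻¹ - 1) < 1 := by
    have e : (1 + t)⁻¹ - 1 = -(t * (1 + t)⁻¹) := by
      field_simp
      ring
    rw [e, Valuation.map_neg, map_mul, hu1v, mul_one]
    exact ht1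
  have hu2 : V2.valuation (1 + t)⁻¹ < 1 := by
    have e : (1 + t)⁻¹ = t⁻¹ * (1 + t⁻¹)⁻¹ := by
      rw [← mul_inv, mul_add, mul_one, mul_inv_cancel₀ ht0, add_comm]
    rw [e, map_mul, map_inv₀ _ (1 + t⁻¹), h1ti2, inv_one, mul_one]
    exact ht2
  obtain ⟨b, -, hb⟩ := oe10_pow_le_pi hD hV1 hu1
  choose a₀ ha₀ using fun z : L => oe10_pow_mul_le_pi hD hV2 hu2 z
  set u : L := (1 + t)⁻¹ with hu
  set g : L := u ^ Z.sup a₀ with hg
  have hg1 : V1.valuation (1 - g) ≤ V1.valuation (u - 1) := by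
    have e : 1 - g = (1 - u) * ∑ i ∈ Finset.range (Z.sup a₀), u ^ i :=
      (mul_neg_geom_sum u _).symm
    rw [e, map_mul, Valuation.map_sub_swap]
    have h2 : V1.valuation (∑ i ∈ Finset.range (Z.sup a₀), u ^ i) ≤ 1 :=
      Valuation.map_sum_le _ (fun i _ => by rw [map_pow, hu1v, one_pow])
    calc V1.valuation (u - 1) * V1.valuation (∑ i ∈ Finset.range (Z.sup a₀), u ^ i)
        ≤ V1.valuation (u - 1) * 1 := mul_le_mul_right h2 _
      _ = V1.valuation (u - 1) := mul_one _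
  have hg2 : V2.valuation g ≤ 1 := by
    rw [hg, map_pow]
    exact pow_le_one₀ zero_le hu2.le
  have hg2' : V2.valuation (1 - g) ≤ 1 :=
    Valuation.map_sub_le _ (by rw [map_one]) hg2
  refine ⟨1 - (1 - g) ^ b, ?_, ?_⟩
  · have e : 1 - (1 - g) ^ b - 1 = -(1 - g) ^ b := by ring
    rw [e, Valuation.map_neg, map_pow]
    exact le_trans (pow_le_pow_left₀ zero_le hg1 b) hb
  · intro z hz
    have e : 1 - (1 - g) ^ b = g * ∑ i ∈ Finset.range b, (1 - g) ^ i := by
      rw [← mul_neg_geom_sum (1 - g) b]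
      ring
    have h2 : V2.valuation (∑ i ∈ Finset.range b, (1 - g) ^ i) ≤ 1 :=
      Valuation.map_sum_le _ (fun i _ => by
        rw [map_pow]
        exact pow_le_one₀ zero_le hg2')
    have h3 : V2.valuation u ^ Z.sup a₀ * V2.valuation z ≤ V2.valuation (algebraMap K L π) :=
      ha₀ z _ (Finset.le_sup hz)
    rw [e, map_mul, map_mul, hg, map_pow]
    calc V2.valuation u ^ Z.sup a₀ * V2.valuation (∑ i ∈ Finset.range b, (1 - g) ^ i)
          * V2.valuation z
        ≤ V2.valuation u ^ Z.sup a₀ * 1 * V2.valuation z :=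
          mul_le_mul_left (mul_le_mul_right h2 _) _
      _ = V2.valuation u ^ Z.sup a₀ * V2.valuation z := by rw [mul_one]
      _ ≤ V2.valuation (algebraMap K L π) := h3

end two

section three

variable {K L : Type*} [Field K] [Field L] [Algebra K L]

/-- A finite family of elements of `V` whose residues are linearly independent over the residue
field of `V'` (weak form: tested modulo `π`). -/
def oe10_Ind (V' : ValuationSubring K) (π : K) (V : ValuationSubring L) {ι : Type*} [Fintype ι]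
    (z : ι → L) : Prop :=
  (∀ i, z i ∈ V) ∧ ∀ c : ι → K, (∀ i, c i ∈ V') →
    (algebraMap K L π)⁻¹ * ∑ i, algebraMap K L (c i) * z i ∈ V → ∀ i, π⁻¹ * c i ∈ V'

variable {V' : ValuationSubring K} {π : K} {V : ValuationSubring L}

theorem oe10_combine_aux (hD : oe10_DVR V' π) (hV : oe10_Over V' π V) {ι₁ ι₂ : Type*}
    [Fintype ι₁] [Fintype ι₂] (z1 : ι₁ → L) (h1 : oe10_Ind V' π V z1) (s₁ : L)
    (hs₁ : V.valuation (s₁ - 1) ≤ V.valuation (algebraMap K L π)) (w : ι₂ → L)
    (hw : ∀ j, V.valuation (w j) ≤ V.valuation (algebraMap K L π)) (c₁ : ι₁ → K) (c₂ : ι₂ → K)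
    (hc₁ : ∀ i, c₁ i ∈ V') (hc₂ : ∀ j, c₂ j ∈ V')
    (hsum : V.valuation (∑ i, algebraMap K L (c₁ i) * (s₁ * z1 i)
      + ∑ j, algebraMap K L (c₂ j) * w j) ≤ V.valuation (algebraMap K L π)) :
    ∀ i, π⁻¹ * c₁ i ∈ V' := by
  apply h1.2 c₁ hc₁
  rw [oe10_pi_inv_mul_mem_iff hD]
  have hS2 : V.valuation (∑ j, algebraMap K L (c₂ j) * w j) ≤ V.valuation (algebraMap K L π) := by
    apply Valuation.map_sum_le
    intro j _
    rw [map_mul]
    calc V.valuation (algebraMap K L (c₂ j)) * V.valuation (w j)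
        ≤ 1 * V.valuation (w j) :=
          mul_le_mul_left ((V.valuation_le_one_iff _).2 (hV.le _ (hc₂ j))) _
      _ = V.valuation (w j) := one_mul _
      _ ≤ _ := hw j
  have hS3 : V.valuation (∑ i, algebraMap K L (c₁ i) * ((s₁ - 1) * z1 i))
      ≤ V.valuation (algebraMap K L π) := by
    apply Valuation.map_sum_le
    intro i _
    rw [map_mul, map_mul]
    calc V.valuation (algebraMap K L (c₁ i)) * (V.valuation (s₁ - 1) * V.valuation (z1 i))
        ≤ 1 * (V.valuation (s₁ - 1) * 1) :=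
          mul_le_mul' ((V.valuation_le_one_iff _).2 (hV.le _ (hc₁ i)))
            (mul_le_mul_right ((V.valuation_le_one_iff _).2 (h1.1 i)) _)
      _ = V.valuation (s₁ - 1) := by rw [one_mul, mul_one]
      _ ≤ _ := hs₁
  have e : ∑ i, algebraMap K L (c₁ i) * z1 i
      = (∑ i, algebraMap K L (c₁ i) * (s₁ * z1 i) + ∑ j, algebraMap K L (c₂ j) * w j)
        - ∑ j, algebraMap K L (c₂ j) * w j
        - ∑ i, algebraMap K L (c₁ i) * ((s₁ - 1) * z1 i) := by
    rw [add_sub_cancel_right, ← Finset.sum_sub_distrib]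
    apply Finset.sum_congr rfl
    intro i _
    ring
  rw [e]
  exact Valuation.map_sub_le _ (Valuation.map_sub_le _ hsum hS2) hS3

variable [FiniteDimensional K L] {V1 V2 : ValuationSubring L}

/-- Gluing independent families at `V1` and `V2` into one family of `V1 ⊓ V2`. -/
theorem oe10_combine (hD : oe10_DVR V' π) (hV1 : oe10_Over V' π V1) (hV2 : oe10_Over V' π V2)
    (hne : V1 ≠ V2) {ι₁ ι₂ : Type*} [Fintype ι₁] [Fintype ι₂] (z1 : ι₁ → L) (z2 : ι₂ → L)
    (h1 : oe10_Ind V' π V1 z1) (h2 : oe10_Ind V' π V2 z2) :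
    ∃ e : ι₁ ⊕ ι₂ → L, (∀ i, e i ∈ V1 ∧ e i ∈ V2) ∧
      ∀ c : ι₁ ⊕ ι₂ → K, (∀ i, c i ∈ V') →
        (algebraMap K L π)⁻¹ * ∑ i, algebraMap K L (c i) * e i ∈ V1 →
        (algebraMap K L π)⁻¹ * ∑ i, algebraMap K L (c i) * e i ∈ V2 →
        ∀ i, π⁻¹ * c i ∈ V' := by
  classical
  obtain ⟨s₁, hs₁, hs₁'⟩ := oe10_approx hD hV1 hV2 hne (Finset.univ.image z1)
  obtain ⟨s₂, hs₂, hs₂'⟩ := oe10_approx hD hV2 hV1 hne.symm (Finset.univ.image z2)
  have hγ1 := (oe10_val_pi_lt_one hD hV1).le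
  have hγ2 := (oe10_val_pi_lt_one hD hV2).le
  have hw1 : ∀ i, V2.valuation (s₁ * z1 i) ≤ V2.valuation (algebraMap K L π) :=
    fun i => hs₁' _ (Finset.mem_image_of_mem _ (Finset.mem_univ i))
  have hw2 : ∀ j, V1.valuation (s₂ * z2 j) ≤ V1.valuation (algebraMap K L π) :=
    fun j => hs₂' _ (Finset.mem_image_of_mem _ (Finset.mem_univ j))
  have hs₁m : s₁ ∈ V1 := by
    have h : s₁ - 1 ∈ V1 := (V1.valuation_le_one_iff _).1 (le_trans hs₁ hγ1)
    have := V1.add_mem _ _ h V1.one_mem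
    rwa [sub_add_cancel] at this
  have hs₂m : s₂ ∈ V2 := by
    have h : s₂ - 1 ∈ V2 := (V2.valuation_le_one_iff _).1 (le_trans hs₂ hγ2)
    have := V2.add_mem _ _ h V2.one_mem
    rwa [sub_add_cancel] at this
  refine ⟨Sum.elim (fun i => s₁ * z1 i) (fun j => s₂ * z2 j), ?_, ?_⟩
  · rintro (i | j)
    · exact ⟨V1.mul_mem _ _ hs₁m (h1.1 i), (V2.valuation_le_one_iff _).1 (le_trans (hw1 i) hγ2)⟩
    · exact ⟨(V1.valuation_le_one_iff _).1 (le_trans (hw2 j) hγ1), V2.mul_mem _ _ hs₂m (h2.1 j)⟩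
  · intro c hc hc1 hc2
    rw [Fintype.sum_sum_type] at hc1 hc2
    simp only [Sum.elim_inl, Sum.elim_inr] at hc1 hc2
    rw [oe10_pi_inv_mul_mem_iff hD] at hc1 hc2
    have r1 := oe10_combine_aux hD hV1 z1 h1 s₁ hs₁ (fun j => s₂ * z2 j) hw2
      (fun i => c (Sum.inl i)) (fun j => c (Sum.inr j)) (fun i => hc _) (fun j => hc _) hc1
    rw [add_comm] at hc2
    have r2 := oe10_combine_aux hD hV2 z2 h2 s₂ hs₂ (fun i => s₁ * z1 i) hw1
      (fun j => c (Sum.inr j)) (fun i => c (Sum.inl i)) (fun j => hc _) (fun i => hc _) hc2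
    rintro (i | j)
    · exact r1 i
    · exact r2 j

omit [FiniteDimensional K L] in
/-- A family which is independent modulo `π` is linearly independent. -/
theorem oe10_linInd (hD : oe10_DVR V' π) {κ : Type*} [Fintype κ] (e : κ → L)
    (he : ∀ c : κ → K, (∀ i, c i ∈ V') → ∑ i, algebraMap K L (c i) * e i = 0 →
      ∀ i, π⁻¹ * c i ∈ V') : LinearIndependent K e := by
  classical
  rw [Fintype.linearIndependent_iff]
  intro g hg
  by_contra hcon
  push Not at hcon
  obtain ⟨i₁, hi₁⟩ := hcon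
  obtain ⟨i₀, -, hmax⟩ := Finset.exists_max_image Finset.univ (fun i => V'.valuation (g i))
    ⟨i₁, Finset.mem_univ _⟩
  have hg0 : g i₀ ≠ 0 := by
    intro h
    have h1 := hmax i₁ (Finset.mem_univ _)
    rw [h, map_zero] at h1
    exact hi₁ ((Valuation.zero_iff _).1 (le_antisymm h1 zero_le))
  have hv0 : V'.valuation (g i₀) ≠ 0 := (Valuation.ne_zero_iff _).2 hg0
  have hc : ∀ i, (g i₀)⁻¹ * g i ∈ V' := by
    intro i
    rw [← V'.valuation_le_one_iff, map_mul, map_inv₀, inv_mul_le_iff₀ (zero_lt_iff.2 hv0), mul_one]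
    exact hmax i (Finset.mem_univ _)
  have hsum : ∑ i, algebraMap K L ((g i₀)⁻¹ * g i) * e i = 0 := by
    have : ∑ i, algebraMap K L ((g i₀)⁻¹ * g i) * e i
        = algebraMap K L (g i₀)⁻¹ * ∑ i, g i • e i := by
      rw [Finset.mul_sum]
      apply Finset.sum_congr rfl
      intro i _
      rw [map_mul, Algebra.smul_def, mul_assoc]
    rw [this, hg, mul_zero]
  have h := he _ hc hsum i₀
  rw [inv_mul_cancel₀ hg0, mul_one] at h
  exact hD.inv_not_mem h

/-- The fundamental inequality in the shape needed here. -/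
theorem oe10_card_le (hD : oe10_DVR V' π) (hV1 : oe10_Over V' π V1) (hV2 : oe10_Over V' π V2)
    (hne : V1 ≠ V2) {ι₁ ι₂ : Type*} [Fintype ι₁] [Fintype ι₂] (z1 : ι₁ → L) (z2 : ι₂ → L)
    (h1 : oe10_Ind V' π V1 z1) (h2 : oe10_Ind V' π V2 z2) :
    Fintype.card ι₁ + Fintype.card ι₂ ≤ Module.finrank K L := by
  obtain ⟨e, -, he⟩ := oe10_combine hD hV1 hV2 hne z1 z2 h1 h2
  have hli : LinearIndependent K e := by
    apply oe10_linInd hD e
    intro c hc hsum
    apply he c hc
    · rw [hsum, mul_zero]; exact V1.zero_mem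
    · rw [hsum, mul_zero]; exact V2.zero_mem
  have := hli.fintype_card_le_finrank
  rwa [Fintype.card_sum] at this

omit [FiniteDimensional K L] in
/-- Coordinates of elements of `V1 ⊓ V2` in a basis independent modulo `π` lie in `V'`. -/
theorem oe10_repr_mem (hD : oe10_DVR V' π) (hV1 : oe10_Over V' π V1) (hV2 : oe10_Over V' π V2)
    {κ : Type*} [Fintype κ] (b : Module.Basis κ K L)
    (he : ∀ c : κ → K, (∀ i, c i ∈ V') →
        (algebraMap K L π)⁻¹ * ∑ i, algebraMap K L (c i) * b i ∈ V1 →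
        (algebraMap K L π)⁻¹ * ∑ i, algebraMap K L (c i) * b i ∈ V2 →
        ∀ i, π⁻¹ * c i ∈ V') {x : L} (hx1 : x ∈ V1) (hx2 : x ∈ V2) (i : κ) :
    b.repr x i ∈ V' := by
  classical
  by_contra hcon
  obtain ⟨i₀, -, hmax⟩ := Finset.exists_max_image Finset.univ
    (fun i => V'.valuation (b.repr x i)) ⟨i, Finset.mem_univ _⟩
  have hi₀ : b.repr x i₀ ∉ V' := by
    intro h
    apply hcon
    rw [← V'.valuation_le_one_iff] at h ⊢
    exact le_trans (hmax i (Finset.mem_univ _)) h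
  have hg0 : b.repr x i₀ ≠ 0 := by
    intro h
    rw [h] at hi₀
    exact hi₀ V'.zero_mem
  have hv0 : V'.valuation (b.repr x i₀) ≠ 0 := (Valuation.ne_zero_iff _).2 hg0
  have hc : ∀ j, (b.repr x i₀)⁻¹ * b.repr x j ∈ V' := by
    intro j
    rw [← V'.valuation_le_one_iff, map_mul, map_inv₀, inv_mul_le_iff₀ (zero_lt_iff.2 hv0), mul_one]
    exact hmax j (Finset.mem_univ _)
  have hsum : ∑ j, algebraMap K L ((b.repr x i₀)⁻¹ * b.repr x j) * b j
      = algebraMap K L (b.repr x i₀)⁻¹ * x := by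
    have hx : ∑ j, b.repr x j • b j = x := b.sum_repr x
    calc ∑ j, algebraMap K L ((b.repr x i₀)⁻¹ * b.repr x j) * b j
        = algebraMap K L (b.repr x i₀)⁻¹ * ∑ j, b.repr x j • b j := by
          rw [Finset.mul_sum]
          apply Finset.sum_congr rfl
          intro j _
          rw [map_mul, Algebra.smul_def, mul_assoc]
      _ = _ := by rw [hx]
  have hinv : (b.repr x i₀)⁻¹ ∈ V' := (V'.mem_or_inv_mem _).resolve_left hi₀
  have hπr : π⁻¹ * (b.repr x i₀)⁻¹ ∈ V' := hD.hmax _ hinv (by rwa [inv_inv])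
  have hkey : (algebraMap K L π)⁻¹ * ∑ j, algebraMap K L ((b.repr x i₀)⁻¹ * b.repr x j) * b j
      = algebraMap K L (π⁻¹ * (b.repr x i₀)⁻¹) * x := by
    rw [hsum]
    simp only [map_mul, map_inv₀, mul_assoc]
  have h := he _ hc (by rw [hkey]; exact V1.mul_mem _ _ (hV1.le _ hπr) hx1)
    (by rw [hkey]; exact V2.mul_mem _ _ (hV2.le _ hπr) hx2) i₀
  rw [inv_mul_cancel₀ hg0, mul_one] at h
  exact hD.inv_not_mem h

end three

section four

variable {K L : Type*} [Field K] [Field L] [Algebra K L]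

/-- Strong form of independence: tested modulo the maximal ideal of `V`. -/
def oe10_SInd (V' : ValuationSubring K) (π : K) (V : ValuationSubring L) {ι : Type*} [Fintype ι]
    (z : ι → L) : Prop :=
  (∀ i, z i ∈ V) ∧ ∀ c : ι → K, (∀ i, c i ∈ V') →
    V.valuation (∑ i, algebraMap K L (c i) * z i) < 1 → ∀ i, π⁻¹ * c i ∈ V'

variable {V' : ValuationSubring K} {π : K} {V : ValuationSubring L}

theorem oe10_dvd_iff (hD : oe10_DVR V' π) (hV : oe10_Over V' π V) {x : K} (hx : x ∈ V') :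
    π⁻¹ * x ∈ V' ↔ V.valuation (algebraMap K L x) < 1 := by
  constructor
  · intro h
    have e : algebraMap K L x = algebraMap K L π * algebraMap K L (π⁻¹ * x) := by
      rw [← map_mul, mul_inv_cancel_left₀ (oe10_pi_ne_zero hD)]
    rw [e, map_mul]
    calc V.valuation (algebraMap K L π) * V.valuation (algebraMap K L (π⁻¹ * x))
        ≤ V.valuation (algebraMap K L π) * 1 :=
          mul_le_mul_right ((V.valuation_le_one_iff _).2 (hV.le _ h)) _
      _ = V.valuation (algebraMap K L π) := mul_one _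
      _ < 1 := oe10_val_pi_lt_one hD hV
  · intro h
    by_cases hx0 : x = 0
    · rw [hx0, mul_zero]; exact V'.zero_mem
    · apply hD.hmax x hx
      intro hinv
      rw [oe10_val_unit hV hx hinv hx0] at h
      exact lt_irrefl _ h

theorem oe10_dvd_iff_self (hD : oe10_DVR V' π) {x : K} (hx : x ∈ V') :
    π⁻¹ * x ∈ V' ↔ V'.valuation x < 1 := by
  constructor
  · intro h
    have hπ1 : V'.valuation π < 1 := by
      have h1 : V'.valuation π ≤ 1 := (V'.valuation_le_one_iff _).2 hD.mem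
      rcases lt_or_eq_of_le h1 with h2 | h2
      · exact h2
      · exfalso
        apply hD.inv_not_mem
        rw [← V'.valuation_le_one_iff, map_inv₀, h2, inv_one]
    have e : x = π * (π⁻¹ * x) := by rw [mul_inv_cancel_left₀ (oe10_pi_ne_zero hD)]
    rw [e, map_mul]
    calc V'.valuation π * V'.valuation (π⁻¹ * x)
        ≤ V'.valuation π * 1 := mul_le_mul_right ((V'.valuation_le_one_iff _).2 h) _
      _ = V'.valuation π := mul_one _
      _ < 1 := hπ1
  · intro h
    by_cases hx0 : x = 0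
    · rw [hx0, mul_zero]; exact V'.zero_mem
    · apply hD.hmax x hx
      intro hinv
      have h1 : V'.valuation x⁻¹ ≤ 1 := (V'.valuation_le_one_iff _).2 hinv
      rw [map_inv₀] at h1
      have hpos : 0 < V'.valuation x := zero_lt_iff.2 ((Valuation.ne_zero_iff _).2 hx0)
      exact absurd h (not_lt.2 ((inv_le_one₀ hpos).1 h1))

theorem oe10_val_le_of_dvd (hD : oe10_DVR V' π) (hV : oe10_Over V' π V) {r : K}
    (h : π⁻¹ * r ∈ V') : V.valuation (algebraMap K L r) ≤ V.valuation (algebraMap K L π) := by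
  rw [← oe10_pi_inv_mul_mem_iff hD, ← map_inv₀, ← map_mul]
  exact hV.le _ h

theorem oe10_val_sum_le (hD : oe10_DVR V' π) (hV : oe10_Over V' π V) {ι : Type*} [Fintype ι]
    (z : ι → L) (hz : ∀ i, z i ∈ V) (c : ι → K) (hc : ∀ i, π⁻¹ * c i ∈ V') :
    V.valuation (∑ i, algebraMap K L (c i) * z i) ≤ V.valuation (algebraMap K L π) := by
  apply Valuation.map_sum_le
  intro i _
  rw [map_mul]
  calc V.valuation (algebraMap K L (c i)) * V.valuation (z i)
      ≤ V.valuation (algebraMap K L π) * 1 :=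
        mul_le_mul' (oe10_val_le_of_dvd hD hV (hc i)) ((V.valuation_le_one_iff _).2 (hz i))
    _ = V.valuation (algebraMap K L π) := mul_one _

theorem oe10_ind_of_sind (hD : oe10_DVR V' π) (hV : oe10_Over V' π V) {ι : Type*} [Fintype ι]
    {z : ι → L} (h : oe10_SInd V' π V z) : oe10_Ind V' π V z :=
  ⟨h.1, fun c hc hmem => h.2 c hc
    (lt_of_le_of_lt ((oe10_pi_inv_mul_mem_iff hD _).1 hmem) (oe10_val_pi_lt_one hD hV))⟩

theorem oe10_sind_one (hD : oe10_DVR V' π) (hV : oe10_Over V' π V) :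
    oe10_SInd V' π V (fun _ : Unit => (1 : L)) := by
  refine ⟨fun _ => V.one_mem, ?_⟩
  intro c hc hlt i
  rw [Finset.univ_unique, Finset.sum_singleton, mul_one] at hlt
  cases i
  exact (oe10_dvd_iff hD hV (hc _)).2 hlt

/-- Adding one element to a strongly independent family: either a non-unit which is not
divisible by `π`, or an element whose residue is not in the span of the family. -/
theorem oe10_ind_extend (hD : oe10_DVR V' π) (hV : oe10_Over V' π V) {ι : Type*} [Fintype ι]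
    (z : ι → L) (hz : oe10_SInd V' π V z) (x : L) (hx : x ∈ V)
    (hAB : (V.valuation x < 1 ∧ V.valuation (algebraMap K L π) < V.valuation x) ∨
      (∀ c : ι → K, (∀ i, c i ∈ V') →
        V.valuation (algebraMap K L π) < V.valuation (x - ∑ i, algebraMap K L (c i) * z i))) :
    oe10_Ind V' π V (Sum.elim z (fun _ : Unit => x)) := by
  refine ⟨?_, ?_⟩
  · rintro (i | u)
    · exact hz.1 i
    · exact hx
  intro c hc hmem
  rw [oe10_pi_inv_mul_mem_iff hD, Fintype.sum_sum_type] at hmem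
  simp only [Sum.elim_inl, Sum.elim_inr, Finset.univ_unique, Finset.sum_singleton] at hmem
  have hγ1 := oe10_val_pi_lt_one hD hV
  have hc'm : c (Sum.inr default) ∈ V' := hc _
  have key : π⁻¹ * c (Sum.inr default) ∈ V' := by
    by_cases hc0 : c (Sum.inr default) = 0
    · rw [hc0, mul_zero]; exact V'.zero_mem
    by_cases hu : (c (Sum.inr default))⁻¹ ∈ V'
    · exfalso
      have hv1 : V.valuation (algebraMap K L (c (Sum.inr default))) = 1 :=
        oe10_val_unit hV hc'm hu hc0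
      rcases hAB with ⟨hA1, hA2⟩ | hB
      · have h1 : V.valuation (algebraMap K L (c (Sum.inr default)) * x) < 1 := by
          rw [map_mul, hv1, one_mul]; exact hA1
        have h2 : V.valuation (∑ i, algebraMap K L (c (Sum.inl i)) * z i) < 1 := by
          have e : ∑ i, algebraMap K L (c (Sum.inl i)) * z i
              = (∑ i, algebraMap K L (c (Sum.inl i)) * z i
                  + algebraMap K L (c (Sum.inr default)) * x)
                - algebraMap K L (c (Sum.inr default)) * x := by ring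
          rw [e]
          exact Valuation.map_sub_lt _ (lt_of_le_of_lt hmem hγ1) h1
        have h3 := hz.2 _ (fun i => hc (Sum.inl i)) h2
        have h4 := oe10_val_sum_le hD hV z hz.1 _ h3
        have h5 : V.valuation (algebraMap K L (c (Sum.inr default)) * x)
            ≤ V.valuation (algebraMap K L π) := by
          have e : algebraMap K L (c (Sum.inr default)) * x
              = (∑ i, algebraMap K L (c (Sum.inl i)) * z i
                  + algebraMap K L (c (Sum.inr default)) * x)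
                - ∑ i, algebraMap K L (c (Sum.inl i)) * z i := by ring
          rw [e]
          exact Valuation.map_sub_le _ hmem h4
        rw [map_mul, hv1, one_mul] at h5
        exact absurd hA2 (not_lt.2 h5)
      · have h1 := hB (fun i => -((c (Sum.inr default))⁻¹ * c (Sum.inl i)))
          (fun i => V'.neg_mem _ (V'.mul_mem _ _ hu (hc _)))
        have hne : algebraMap K L (c (Sum.inr default)) ≠ 0 := (_root_.map_ne_zero _).2 hc0
        have e : ∑ i, algebraMap K L (c (Sum.inl i)) * z i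
              + algebraMap K L (c (Sum.inr default)) * x
            = algebraMap K L (c (Sum.inr default)) * (x - ∑ i,
                algebraMap K L (-((c (Sum.inr default))⁻¹ * c (Sum.inl i))) * z i) := by
          rw [mul_sub, Finset.mul_sum, add_comm, sub_eq_add_neg, ← Finset.sum_neg_distrib]
          congr 1
          apply Finset.sum_congr rfl
          intro i _
          rw [map_neg, map_mul, map_inv₀]
          field_simp
        rw [e, map_mul, hv1, one_mul] at hmem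
        exact absurd h1 (not_lt.2 hmem)
    · exact hD.hmax _ hc'm hu
  have h5 : V.valuation (algebraMap K L (c (Sum.inr default)) * x)
      ≤ V.valuation (algebraMap K L π) := by
    rw [map_mul]
    calc V.valuation (algebraMap K L (c (Sum.inr default))) * V.valuation x
        ≤ V.valuation (algebraMap K L π) * 1 :=
          mul_le_mul' (oe10_val_le_of_dvd hD hV key) ((V.valuation_le_one_iff _).2 hx)
      _ = V.valuation (algebraMap K L π) := mul_one _
  have h6 : V.valuation (∑ i, algebraMap K L (c (Sum.inl i)) * z i) < 1 := by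
    have e : ∑ i, algebraMap K L (c (Sum.inl i)) * z i
        = (∑ i, algebraMap K L (c (Sum.inl i)) * z i
            + algebraMap K L (c (Sum.inr default)) * x)
          - algebraMap K L (c (Sum.inr default)) * x := by ring
    rw [e]
    exact lt_of_le_of_lt (Valuation.map_sub_le _ hmem h5) hγ1
  have h7 := hz.2 _ (fun i => hc (Sum.inl i)) h6
  rintro (i | u)
  · exact h7 i
  · exact key

open Polynomial in
/-- Kummer-shape witness: the powers `1, y, …, y ^ (q - 1)` are strongly independent. -/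
theorem oe10_sind_pow (hD : oe10_DVR V' π) (hV : oe10_Over V' π V) {q : ℕ} (hq : q.Prime)
    {y : L} (hy : y ∈ V) {a : K} (ha : a ∈ V')
    (hya : (algebraMap K L π)⁻¹ * (y ^ q - algebraMap K L a) ∈ V)
    (hnp : ∀ b ∈ V', π⁻¹ * (b ^ q - a) ∉ V') :
    oe10_SInd V' π V (fun i : Fin q => y ^ (i : ℕ)) := by
  classical
  refine ⟨fun i => pow_mem hy _, ?_⟩
  intro c hc hlt
  let f : ↥V' →+* ↥V :=
    ((algebraMap K L).comp V'.subtype).codRestrict V (fun x => hV.le x x.2)
  have hf : ∀ x : ↥V', ((f x : ↥V) : L) = algebraMap K L (x : K) := fun x => rfl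
  let φ : ↥V' →+* IsLocalRing.ResidueField ↥V := (IsLocalRing.residue ↥V).comp f
  have hφ : ∀ x : ↥V', φ x = 0 ↔ π⁻¹ * (x : K) ∈ V' := by
    intro x
    show IsLocalRing.residue ↥V (f x) = 0 ↔ _
    rw [IsLocalRing.residue_eq_zero_iff, ValuationSubring.valuation_lt_one_iff, hf,
      oe10_dvd_iff hD hV x.2]
  have : IsLocalHom φ := by
    refine ⟨fun x hx => ?_⟩
    by_contra hnu
    have h1 : x ∈ IsLocalRing.maximalIdeal ↥V' := (IsLocalRing.mem_maximalIdeal x).2 hnu
    rw [ValuationSubring.valuation_lt_one_iff, ← oe10_dvd_iff_self hD x.2, ← hφ] at h1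
    rw [h1] at hx
    exact not_isUnit_zero hx
  let ψ : IsLocalRing.ResidueField ↥V' →+* IsLocalRing.ResidueField ↥V :=
    IsLocalRing.ResidueField.lift φ
  have hψ : ∀ x : ↥V', ψ (IsLocalRing.residue ↥V' x) = φ x := fun x => rfl
  have hres' : ∀ x : ↥V', IsLocalRing.residue ↥V' x = 0 ↔ π⁻¹ * (x : K) ∈ V' := by
    intro x
    rw [IsLocalRing.residue_eq_zero_iff, ValuationSubring.valuation_lt_one_iff,
      oe10_dvd_iff_self hD x.2]
  have hirr : Irreducible
      (X ^ q - C (IsLocalRing.residue ↥V' ⟨a, ha⟩) : (IsLocalRing.ResidueField ↥V')[X]) := by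
    apply X_pow_sub_C_irreducible_of_prime hq
    intro b hb
    obtain ⟨b', rfl⟩ := IsLocalRing.residue_surjective b
    have h0 : IsLocalRing.residue ↥V' (b' ^ q - ⟨a, ha⟩) = 0 := by
      rw [map_sub, map_pow, hb, sub_self]
    rw [hres'] at h0
    exact hnp (b' : K) b'.2 h0
  have hroot : eval₂ ψ (IsLocalRing.residue ↥V ⟨y, hy⟩)
      (X ^ q - C (IsLocalRing.residue ↥V' ⟨a, ha⟩)) = 0 := by
    rw [eval₂_sub, eval₂_pow, eval₂_X, eval₂_C, hψ]
    show IsLocalRing.residue ↥V ⟨y, hy⟩ ^ q - IsLocalRing.residue ↥V (f ⟨a, ha⟩) = 0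
    rw [← map_pow, ← map_sub, IsLocalRing.residue_eq_zero_iff,
      ValuationSubring.valuation_lt_one_iff]
    have e : ((⟨y, hy⟩ ^ q - f ⟨a, ha⟩ : ↥V) : L) = y ^ q - algebraMap K L a := rfl
    rw [e]
    exact lt_of_le_of_lt ((oe10_pi_inv_mul_mem_iff hD _).1 hya) (oe10_val_pi_lt_one hD hV)
  set P : (IsLocalRing.ResidueField ↥V')[X] :=
    ∑ i : Fin q, C (IsLocalRing.residue ↥V' ⟨c i, hc i⟩) * X ^ (i : ℕ) with hP
  have hPev : eval₂ ψ (IsLocalRing.residue ↥V ⟨y, hy⟩) P = 0 := by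
    rw [hP, eval₂_finsetSum]
    simp only [eval₂_mul, eval₂_C, eval₂_pow, eval₂_X, hψ]
    show ∑ i : Fin q, IsLocalRing.residue ↥V (f ⟨c i, hc i⟩)
      * IsLocalRing.residue ↥V ⟨y, hy⟩ ^ (i : ℕ) = 0
    simp only [← map_pow, ← map_mul, ← map_sum]
    rw [IsLocalRing.residue_eq_zero_iff, ValuationSubring.valuation_lt_one_iff]
    have e : ((∑ i : Fin q, f ⟨c i, hc i⟩ * ⟨y, hy⟩ ^ (i : ℕ) : ↥V) : L)
        = ∑ i : Fin q, algebraMap K L (c i) * y ^ (i : ℕ) :=
      (map_sum V.subtype _ _).trans (Finset.sum_congr rfl (fun i _ => rfl))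
    rw [e]
    exact hlt
  have hdvd : (X ^ q - C (IsLocalRing.residue ↥V' ⟨a, ha⟩)) ∣ P := by
    rcases dvd_or_isCoprime _ P hirr with hd | hcop
    · exact hd
    · exfalso
      obtain ⟨u, w, huw⟩ := hcop
      have h1 := congrArg (eval₂ ψ (IsLocalRing.residue ↥V ⟨y, hy⟩)) huw
      rw [eval₂_add, eval₂_mul, eval₂_mul, hroot, hPev, mul_zero, mul_zero, add_zero,
        eval₂_one] at h1
      exact zero_ne_one h1
  have hP0 : P = 0 := by
    apply Polynomial.eq_zero_of_dvd_of_degree_lt hdvd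
    rw [degree_X_pow_sub_C hq.pos]
    exact degree_sum_fin_lt _
  intro i
  have hcoeff : P.coeff (i : ℕ) = IsLocalRing.residue ↥V' ⟨c i, hc i⟩ := by
    rw [hP, finsetSum_coeff, Finset.sum_eq_single i]
    · rw [coeff_C_mul, coeff_X_pow, if_pos rfl, mul_one]
    · intro j _ hji
      rw [coeff_C_mul, coeff_X_pow, if_neg, mul_zero]
      exact fun h => hji (Fin.ext h.symm)
    · intro h
      exact absurd (Finset.mem_univ i) h
  rw [hP0, coeff_zero] at hcoeff
  exact (hres' ⟨c i, hc i⟩).1 hcoeff.symm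

end four

section five

variable {K L : Type*} [Field K] [Field L] [Algebra K L]

/-- The whole setting of row P1a-abs, bundled. -/
structure oe10_Setting (q : ℕ) (V' : ValuationSubring K) (π : K) (V1 V2 : ValuationSubring L)
    (y : L) (a : K) : Prop where
  hq : q.Prime
  hdeg : Module.finrank K L ≤ q + 1
  hD : oe10_DVR V' π
  hV1 : oe10_Over V' π V1
  hV2 : oe10_Over V' π V2
  hne : V1 ≠ V2
  hy : y ∈ V2
  ha : a ∈ V'
  hya : (algebraMap K L π)⁻¹ * (y ^ q - algebraMap K L a) ∈ V2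
  hnp : ∀ b ∈ V', π⁻¹ * (b ^ q - a) ∉ V'

theorem oe10_val_lt_one_of {V : ValuationSubring L} {x : L} (hx : x ∈ V) (hxi : x⁻¹ ∉ V) :
    V.valuation x < 1 :=
  lt_of_le_of_ne ((V.valuation_le_one_iff x).2 hx)
    (fun h1 => hxi ((V.valuation_le_one_iff _).1 (by rw [map_inv₀, h1, inv_one])))

/-- An element integral over `V'` lies in every valuation subring containing `V'`. -/
theorem oe10_mem_of_isIntegralElem {V' : ValuationSubring K} {V : ValuationSubring L}
    (hle : ∀ x ∈ V', algebraMap K L x ∈ V) {x : L}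
    (hx : ((algebraMap K L).comp V'.subtype).IsIntegralElem x) : x ∈ V := by
  obtain ⟨p, hp, hpx⟩ := hx
  let f3 : ↥V' →+* ↥V :=
    ((algebraMap K L).comp V'.subtype).codRestrict V (fun x => hle x x.2)
  have e : (algebraMap ↥V L).comp f3 = (algebraMap K L).comp V'.subtype :=
    RingHom.ext (fun _ => rfl)
  have hint : IsIntegral ↥V x := by
    refine ⟨p.map f3, hp.map f3, ?_⟩
    rw [Polynomial.eval₂_map, e]
    exact hpx
  obtain ⟨w, hw⟩ := IsIntegrallyClosed.isIntegral_iff.1 hint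
  rw [← hw]
  exact w.2

variable [FiniteDimensional K L] {q : ℕ} {V' : ValuationSubring K} {π : K}
  {V1 V2 : ValuationSubring L} {y : L} {a : K}

omit [FiniteDimensional K L] in
theorem oe10_sind2 (h : oe10_Setting q V' π V1 V2 y a) :
    oe10_SInd V' π V2 (fun i : Fin q => y ^ (i : ℕ)) :=
  oe10_sind_pow h.hD h.hV2 h.hq h.hy h.ha h.hya h.hnp

/-- The degree is exactly `q + 1`. -/
theorem oe10_finrank (h : oe10_Setting q V' π V1 V2 y a) : Module.finrank K L = q + 1 := by
  have h1 := oe10_card_le h.hD h.hV1 h.hV2 h.hne _ _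
    (oe10_ind_of_sind h.hD h.hV1 (oe10_sind_one h.hD h.hV1))
    (oe10_ind_of_sind h.hD h.hV2 (oe10_sind2 h))
  rw [Fintype.card_unit, Fintype.card_fin] at h1
  have := h.hdeg
  omega

/-- `e(V1) = 1`: `π` is a uniformizer of `V1`. -/
theorem oe10_hmax1 (h : oe10_Setting q V' π V1 V2 y a) :
    ∀ x ∈ V1, x⁻¹ ∉ V1 → (algebraMap K L π)⁻¹ * x ∈ V1 := by
  intro x hx hxi
  by_contra hcon
  have hA2 : V1.valuation (algebraMap K L π) < V1.valuation x := by
    rw [oe10_pi_inv_mul_mem_iff h.hD] at hcon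
    exact not_le.1 hcon
  have hI := oe10_ind_extend h.hD h.hV1 _ (oe10_sind_one h.hD h.hV1) x hx
    (Or.inl ⟨oe10_val_lt_one_of hx hxi, hA2⟩)
  have h1 := oe10_card_le h.hD h.hV1 h.hV2 h.hne _ _ hI
    (oe10_ind_of_sind h.hD h.hV2 (oe10_sind2 h))
  rw [Fintype.card_sum, Fintype.card_unit, Fintype.card_fin] at h1
  have := h.hdeg
  omega

/-- `e(V2) = 1`: `π` is a uniformizer of `V2`. -/
theorem oe10_hmax2 (h : oe10_Setting q V' π V1 V2 y a) :
    ∀ x ∈ V2, x⁻¹ ∉ V2 → (algebraMap K L π)⁻¹ * x ∈ V2 := by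
  intro x hx hxi
  by_contra hcon
  have hA2 : V2.valuation (algebraMap K L π) < V2.valuation x := by
    rw [oe10_pi_inv_mul_mem_iff h.hD] at hcon
    exact not_le.1 hcon
  have hI := oe10_ind_extend h.hD h.hV2 _ (oe10_sind2 h) x hx
    (Or.inl ⟨oe10_val_lt_one_of hx hxi, hA2⟩)
  have h1 := oe10_card_le h.hD h.hV1 h.hV2 h.hne _ _
    (oe10_ind_of_sind h.hD h.hV1 (oe10_sind_one h.hD h.hV1)) hI
  rw [Fintype.card_sum, Fintype.card_unit, Fintype.card_fin] at h1
  have := h.hdeg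
  omega

/-- `f(V1) = 1`: the residue field of `V1` is that of `V'`. -/
theorem oe10_res1 (h : oe10_Setting q V' π V1 V2 y a) :
    ∀ x ∈ V1, ∃ b ∈ V', (algebraMap K L π)⁻¹ * (x - algebraMap K L b) ∈ V1 := by
  intro x hx
  by_contra hcon
  push Not at hcon
  have hB : ∀ c : Unit → K, (∀ i, c i ∈ V') → V1.valuation (algebraMap K L π)
      < V1.valuation (x - ∑ i, algebraMap K L (c i) * (1 : L)) := by
    intro c hc
    rw [Finset.univ_unique, Finset.sum_singleton, mul_one]
    have h1 := hcon (c default) (hc _)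
    rw [oe10_pi_inv_mul_mem_iff h.hD] at h1
    exact not_le.1 h1
  have hI := oe10_ind_extend h.hD h.hV1 _ (oe10_sind_one h.hD h.hV1) x hx (Or.inr hB)
  have h1 := oe10_card_le h.hD h.hV1 h.hV2 h.hne _ _ hI
    (oe10_ind_of_sind h.hD h.hV2 (oe10_sind2 h))
  rw [Fintype.card_sum, Fintype.card_unit, Fintype.card_fin] at h1
  have := h.hdeg
  omega

/-- `f(V2) = q`: the residue field of `V2` is generated by the residue of `y`. -/
theorem oe10_res2 (h : oe10_Setting q V' π V1 V2 y a) :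
    ∀ x ∈ V2, ∃ c : Fin q → K, (∀ i, c i ∈ V') ∧
      (algebraMap K L π)⁻¹ * (x - ∑ i, algebraMap K L (c i) * y ^ (i : ℕ)) ∈ V2 := by
  intro x hx
  by_contra hcon
  push Not at hcon
  have hB : ∀ c : Fin q → K, (∀ i, c i ∈ V') → V2.valuation (algebraMap K L π)
      < V2.valuation (x - ∑ i, algebraMap K L (c i) * y ^ (i : ℕ)) := by
    intro c hc
    have h1 := hcon c hc
    rw [oe10_pi_inv_mul_mem_iff h.hD] at h1
    exact not_le.1 h1
  have hI := oe10_ind_extend h.hD h.hV2 _ (oe10_sind2 h) x hx (Or.inr hB)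
  have h1 := oe10_card_le h.hD h.hV1 h.hV2 h.hne _ _
    (oe10_ind_of_sind h.hD h.hV1 (oe10_sind_one h.hD h.hV1)) hI
  rw [Fintype.card_sum, Fintype.card_unit, Fintype.card_fin] at h1
  have := h.hdeg
  omega

/-- `V1 ⊓ V2` is a free `V'`-module of rank `q + 1`: a `K`-basis of `L` inside `V1 ⊓ V2` in which
every element of `V1 ⊓ V2` has coordinates in `V'`. -/
theorem oe10_exists_basis (h : oe10_Setting q V' π V1 V2 y a) :
    ∃ b : Module.Basis (Unit ⊕ Fin q) K L, (∀ i, b i ∈ V1 ∧ b i ∈ V2) ∧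
      ∀ x : L, x ∈ V1 → x ∈ V2 → ∀ i, b.repr x i ∈ V' := by
  obtain ⟨e, hmem, he⟩ := oe10_combine h.hD h.hV1 h.hV2 h.hne _ _
    (oe10_ind_of_sind h.hD h.hV1 (oe10_sind_one h.hD h.hV1))
    (oe10_ind_of_sind h.hD h.hV2 (oe10_sind2 h))
  have hli : LinearIndependent K e := by
    apply oe10_linInd h.hD e
    intro c hc hsum
    apply he c hc
    · rw [hsum, mul_zero]; exact V1.zero_mem
    · rw [hsum, mul_zero]; exact V2.zero_mem
  have hcard : Fintype.card (Unit ⊕ Fin q) = Module.finrank K L := by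
    rw [oe10_finrank h, Fintype.card_sum, Fintype.card_unit, Fintype.card_fin, add_comm]
  refine ⟨basisOfLinearIndependentOfCardEqFinrank hli hcard, ?_, ?_⟩
  · intro i
    rw [coe_basisOfLinearIndependentOfCardEqFinrank]
    exact hmem i
  · intro x hx1 hx2 i
    apply oe10_repr_mem h.hD h.hV1 h.hV2 _ _ hx1 hx2
    intro c hc h1 h2
    simp only [coe_basisOfLinearIndependentOfCardEqFinrank] at h1 h2
    exact he c hc h1 h2

/-- Every element of `V1 ⊓ V2` is integral over `V'`. -/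
theorem oe10_integral (h : oe10_Setting q V' π V1 V2 y a) {x : L} (hx1 : x ∈ V1)
    (hx2 : x ∈ V2) : ((algebraMap K L).comp V'.subtype).IsIntegralElem x := by
  classical
  obtain ⟨b, hb, hrepr⟩ := oe10_exists_basis h
  have hM : ∀ i j, Algebra.leftMulMatrix b x i j ∈ V' := by
    intro i j
    rw [Algebra.leftMulMatrix_eq_repr_mul]
    exact hrepr _ (V1.mul_mem _ _ hx1 (hb j).1) (V2.mul_mem _ _ hx2 (hb j).2) i
  let N : Matrix (Unit ⊕ Fin q) (Unit ⊕ Fin q) ↥V' :=
    fun i j => ⟨Algebra.leftMulMatrix b x i j, hM i j⟩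
  have hN : N.map V'.subtype = Algebra.leftMulMatrix b x := by
    ext i j
    rfl
  refine ⟨N.charpoly, Matrix.charpoly_monic N, ?_⟩
  rw [← Polynomial.eval₂_map, ← Matrix.charpoly_map, hN]
  apply Algebra.leftMulMatrix_injective b
  rw [map_zero, ← Polynomial.aeval_def, ← Polynomial.aeval_algHom_apply]
  exact Matrix.aeval_self_charpoly _

/-- `V1 ⊓ V2` is contained in every valuation subring over `V'`. -/
theorem oe10_inter_le (h : oe10_Setting q V' π V1 V2 y a) {V3 : ValuationSubring L}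
    (hV3 : ∀ x ∈ V', algebraMap K L x ∈ V3) {x : L} (hx1 : x ∈ V1) (hx2 : x ∈ V2) : x ∈ V3 :=
  oe10_mem_of_isIntegralElem hV3 (oe10_integral h hx1 hx2)

/-- `V1` and `V2` are the only valuation subrings of `L` over `V'`. -/
theorem oe10_only (h : oe10_Setting q V' π V1 V2 y a) (V3 : ValuationSubring L)
    (hV3 : oe10_Over V' π V3) : V3 = V1 ∨ V3 = V2 := by
  classical
  by_contra hcon
  push Not at hcon
  obtain ⟨h31, h32⟩ := hcon
  have n13 : ¬ V1 ≤ V3 := fun hle => h31 (oe10_eq_of_le h.hD h.hV1 hV3 hle).symm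
  have n23 : ¬ V2 ≤ V3 := fun hle => h32 (oe10_eq_of_le h.hD h.hV2 hV3 hle).symm
  obtain ⟨a₁, ha₁, ha₁'⟩ := SetLike.not_le_iff_exists.1 n13
  obtain ⟨a₂, ha₂, ha₂'⟩ := SetLike.not_le_iff_exists.1 n23
  obtain ⟨d₁, hd₁, hd₁'⟩ := oe10_approx h.hD h.hV1 h.hV2 h.hne {1, a₁}
  obtain ⟨d₂, hd₂, hd₂'⟩ := oe10_approx h.hD h.hV2 h.hV1 h.hne.symm {1, a₂}
  have hγ1 := oe10_val_pi_lt_one h.hD h.hV1
  have hγ2 := oe10_val_pi_lt_one h.hD h.hV2
  have e11 : V1.valuation d₁ = 1 := by
    have e : d₁ = 1 + (d₁ - 1) := by ring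
    rw [e]
    exact Valuation.map_one_add_of_lt _ (lt_of_le_of_lt hd₁ hγ1)
  have e12 : V2.valuation d₁ < 1 := by
    have h1 := hd₁' 1 (by simp)
    rw [mul_one] at h1
    exact lt_of_le_of_lt h1 hγ2
  have e12a : V2.valuation (d₁ * a₁) < 1 := lt_of_le_of_lt (hd₁' a₁ (by simp)) hγ2
  have e22 : V2.valuation d₂ = 1 := by
    have e : d₂ = 1 + (d₂ - 1) := by ring
    rw [e]
    exact Valuation.map_one_add_of_lt _ (lt_of_le_of_lt hd₂ hγ2)
  have e21 : V1.valuation d₂ < 1 := by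
    have h1 := hd₂' 1 (by simp)
    rw [mul_one] at h1
    exact lt_of_le_of_lt h1 hγ1
  have e21a : V1.valuation (d₂ * a₂) < 1 := lt_of_le_of_lt (hd₂' a₂ (by simp)) hγ1
  have m1 : d₁ ∈ V3 := oe10_inter_le h hV3.le ((V1.valuation_le_one_iff _).1 e11.le)
    ((V2.valuation_le_one_iff _).1 e12.le)
  have m1a : d₁ * a₁ ∈ V3 := oe10_inter_le h hV3.le
    (V1.mul_mem _ _ ((V1.valuation_le_one_iff _).1 e11.le) ha₁)
    ((V2.valuation_le_one_iff _).1 e12a.le)
  have m2 : d₂ ∈ V3 := oe10_inter_le h hV3.le ((V1.valuation_le_one_iff _).1 e21.le)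
    ((V2.valuation_le_one_iff _).1 e22.le)
  have m2a : d₂ * a₂ ∈ V3 := oe10_inter_le h hV3.le
    ((V1.valuation_le_one_iff _).1 e21a.le)
    (V2.mul_mem _ _ ((V2.valuation_le_one_iff _).1 e22.le) ha₂)
  have f1 : V3.valuation d₁ < 1 := by
    by_contra hge
    have h1 : V3.valuation d₁ = 1 :=
      le_antisymm ((V3.valuation_le_one_iff _).2 m1) (not_lt.1 hge)
    apply ha₁'
    rw [← V3.valuation_le_one_iff]
    have h2 := (V3.valuation_le_one_iff _).2 m1a
    rwa [map_mul, h1, one_mul] at h2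
  have f2 : V3.valuation d₂ < 1 := by
    by_contra hge
    have h1 : V3.valuation d₂ = 1 :=
      le_antisymm ((V3.valuation_le_one_iff _).2 m2) (not_lt.1 hge)
    apply ha₂'
    rw [← V3.valuation_le_one_iff]
    have h2 := (V3.valuation_le_one_iff _).2 m2a
    rwa [map_mul, h1, one_mul] at h2
  have f3 : V3.valuation (d₁ + d₂) < 1 := Valuation.map_add_lt _ f1 f2
  have g1 : V1.valuation (d₁ + d₂) = 1 := by
    rw [Valuation.map_add_eq_of_lt_left _ (by rw [e11]; exact e21), e11]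
  have g2 : V2.valuation (d₁ + d₂) = 1 := by
    rw [Valuation.map_add_eq_of_lt_right _ (by rw [e22]; exact e12), e22]
  have m3 : (d₁ + d₂)⁻¹ ∈ V3 := oe10_inter_le h hV3.le
    ((V1.valuation_le_one_iff _).1 (by rw [map_inv₀, g1, inv_one]))
    ((V2.valuation_le_one_iff _).1 (by rw [map_inv₀, g2, inv_one]))
  have g3 := (V3.valuation_le_one_iff _).2 m3
  rw [map_inv₀] at g3
  have hd0 : d₁ + d₂ ≠ 0 := by
    intro h0
    rw [h0, map_zero] at g1
    exact zero_ne_one g1
  have hpos : 0 < V3.valuation (d₁ + d₂) := zero_lt_iff.2 ((Valuation.ne_zero_iff _).2 hd0)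
  exact absurd f3 (not_lt.2 ((inv_le_one₀ hpos).1 g3))

end five

/-- **Row P1a-abs (helper10 twin), spec-literal form.**  `L / K` finite of degree `≤ q + 1`,
`V'` a discrete valuation subring of `K` with uniformizer `π` (elementary shape), `V1 ≠ V2`
valuation subrings of `L` over `V'`, Kummer-shape residue witness `y` at `V2`.  Then:
(1) `V1`, `V2` are the only valuation subrings of `L` over `V'`;
(2) every element of `V1 ⊓ V2` is integral over `V'`;
(3) `π` is a uniformizer of `V1` and of `V2`;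
(4) the residue field of `V1` is that of `V'`;
(5) the residue field of `V2` is generated by the residue of `y`;
(6) the degree is exactly `q + 1`. -/
theorem oe10_main {K L : Type*} [Field K] [Field L] [Algebra K L] [FiniteDimensional K L]
    (q : ℕ) (hq : q.Prime) (hdeg : Module.finrank K L ≤ q + 1)
    (V' : ValuationSubring K) (π : K) (hπ : π ∈ V') (hπ' : π⁻¹ ∉ V')
    (hmax : ∀ x ∈ V', x⁻¹ ∉ V' → π⁻¹ * x ∈ V')
    (harch : ∀ x : K, x ≠ 0 → ∃ n : ℕ, (π ^ n)⁻¹ * x ∉ V')
    (V1 V2 : ValuationSubring L) (h12 : V1 ≠ V2)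
    (h1 : ∀ x ∈ V', algebraMap K L x ∈ V1) (h1' : (algebraMap K L π)⁻¹ ∉ V1)
    (h2 : ∀ x ∈ V', algebraMap K L x ∈ V2) (h2' : (algebraMap K L π)⁻¹ ∉ V2)
    (y : L) (hy : y ∈ V2) (a : K) (ha : a ∈ V')
    (hya : (algebraMap K L π)⁻¹ * (y ^ q - algebraMap K L a) ∈ V2)
    (hnp : ∀ b ∈ V', π⁻¹ * (b ^ q - a) ∉ V') :
    (∀ V : ValuationSubring L, (∀ x ∈ V', algebraMap K L x ∈ V) →
      (algebraMap K L π)⁻¹ ∉ V → V = V1 ∨ V = V2) ∧
    (∀ x : L, x ∈ V1 → x ∈ V2 → ((algebraMap K L).comp V'.subtype).IsIntegralElem x) ∧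
    (∀ x ∈ V1, x⁻¹ ∉ V1 → (algebraMap K L π)⁻¹ * x ∈ V1) ∧
    (∀ x ∈ V2, x⁻¹ ∉ V2 → (algebraMap K L π)⁻¹ * x ∈ V2) ∧
    (∀ x ∈ V1, ∃ b ∈ V', (algebraMap K L π)⁻¹ * (x - algebraMap K L b) ∈ V1) ∧
    (∀ x ∈ V2, ∃ c : Fin q → K, (∀ i, c i ∈ V') ∧
      (algebraMap K L π)⁻¹ * (x - ∑ i, algebraMap K L (c i) * y ^ (i : ℕ)) ∈ V2) ∧
    Module.finrank K L = q + 1 := by
  have h : oe10_Setting q V' π V1 V2 y a :=
    ⟨hq, hdeg, ⟨hπ, hπ', hmax, harch⟩, ⟨h1, h1'⟩, ⟨h2, h2'⟩, h12, hy, ha, hya, hnp⟩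
  exact ⟨fun V hV hV' => oe10_only h V ⟨hV, hV'⟩, fun x hx1 hx2 => oe10_integral h hx1 hx2,
    oe10_hmax1 h, oe10_hmax2 h, oe10_res1 h, oe10_res2 h, oe10_finrank h⟩

/-- Integrality in polynomial form: a monic polynomial over `K` with coefficients in `V'`. -/
theorem oe10_integral_poly {K L : Type*} [Field K] [Field L] [Algebra K L]
    {V' : ValuationSubring K} {x : L}
    (hx : ((algebraMap K L).comp V'.subtype).IsIntegralElem x) :
    ∃ p : Polynomial K, p.Monic ∧ (∀ n, p.coeff n ∈ V') ∧ Polynomial.aeval x p = 0 := by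
  obtain ⟨p, hp, hpx⟩ := hx
  refine ⟨p.map V'.subtype, hp.map _, fun n => ?_, ?_⟩
  · rw [Polynomial.coeff_map]
    exact (p.coeff n).2
  · rw [Polynomial.aeval_def, Polynomial.eval₂_map]
    exact hpx

end Fermat.Agent.S34
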