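import Fermat.Agent.S34.SmoothCanon73
import Fermat.Agent.S34.Iface47e

/-!
# S34 lab (helper73): the interface package FRAME-SMOOTH of `Iface47e`, literally

`sc73_pkg_frameSmooth : s34i47e_Pkg_FrameSmooth` — `sf79_Smooth π B V_∞` for both affine charts of
every admissible Hauptmodul on the canonical frame (from `sc73_smooth_Vinf`, i.e. helper93's
`bi93_level2/3` with the residue-degree-one input `sc73_F1` supplied by `alv73_main`).
-/

set_option autoImplicit false

open ModularCurve

namespace Fermat.Agent.S34

open Fermat.Agent.S18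

/-- **FRAME-SMOOTH** (the literal package `Prop` of `Iface47e`). -/
theorem sc73_pkg_frameSmooth : s34i47e_Pkg_FrameSmooth := by
  intro M' q _ _ hq hM' R K _ _ _ _ _ _ _ _ _ _ π hπ hunit hqR h hh
  exact sc73_smooth_Vinf (R := R) (K := K) M' q hq hM' hπ hunit hqR h hh

end Fermat.Agent.S34
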