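import Fermat.Agent.S34.TransvInst66
import Fermat.Agent.S34.SmoothCanon73
import Fermat.Agent.S34.FrameSat85
import Fermat.Agent.S34.Iface47e

/-!
# S34 lab, row 490 (P3b), helper66: the LITERAL package `s34i47e_Pkg_FrameTransv`

`tv66_pkg_frameTransv : s34i47e_Pkg_FrameTransv` — transversality (3b) of the two branches
`V_∞ = cm85_Vinf (M' * q) hπ`, `V_0 = s34i47c_V0 M' q hq hM' hπ` on both affine charts of every
admissible Hauptmodul, with NO hypothesis beyond the binder block of `s34i47c_FrameLS`.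

Inputs plugged in: `tv66_transv_haupt`, `tv66_transv_haupt_inv` (TransvInst66),
saturation of the charts from `fs85_pkg_frameSat` (helper85), smoothness of the `0`-branch
`sc73_smooth_V0` (helper73 / helper13), the coordinate of the `∞`-branch coming from level `M'`
from `bi93_level2/3` (helper93) with residue degree one `sc73_F1` (helper73).
-/

set_option autoImplicit false
set_option linter.unusedSectionVars false
set_option linter.style.haveILetI false

open ModularCurve AlgebraicCurve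

namespace Fermat.Agent.S34

open Fermat.Agent.S18

local notation "Q̄" => AlgebraicClosure ℚ

section tv66pkg

variable {R K : Type} [CommRing R] [IsDomain R] [IsDiscreteValuationRing R] [Field K] [CharZero K]
  [Algebra R K] [IsFractionRing R K] [Algebra K Q̄]
  (M' q : ℕ) [NeZero M'] [NeZero q] (hq : q.Prime) (hM' : ¬ q ∣ M')
  [Algebra R ↥(modularFunctionFieldFullC K (M' * q))]
  [IsScalarTower R K ↥(modularFunctionFieldFullC K (M' * q))] {π : R} (hπ : Irreducible π)

/-- From the literal output of `bi93_Unif` (helper93) to the input `hSF` of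
`tv66_transv_haupt`: the coordinate of the `∞`-branch at `n` is `α z'` with `z'` in the Gauss
ring of level `M'`. -/
theorem tv66_from_unif (B : Subalgebra R ↥(modularFunctionFieldFullC K (M' * q)))
    (hBV : ∀ x ∈ B, x ∈ cm85_Vinf (K := K) (M' * q) hπ) (n : Ideal B)
    (z' : ↥(modularFunctionFieldFullC K M')) (z : B) (hzn : z ∈ n)
    (heq : (z : ↥(modularFunctionFieldFullC K (M' * q))) =
      cm15_incl K M' (M' * q) (dvd_mul_right M' q) z')
    (hx : ∀ x ∈ n, ∃ s₀ : B, s₀ ∉ n ∧ ∃ a : B,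
      (algebraMap R ↥(modularFunctionFieldFullC K (M' * q)) π)⁻¹ *
        ((s₀ : ↥(modularFunctionFieldFullC K (M' * q))) *
            (x : ↥(modularFunctionFieldFullC K (M' * q))) -
          (a : ↥(modularFunctionFieldFullC K (M' * q))) *
            (z : ↥(modularFunctionFieldFullC K (M' * q)))) ∈
        cm85_Vinf (K := K) (M' * q) hπ) :
    ∃ z'' : ↥(modularFunctionFieldFullC K M'), z'' ∈ cm85_Vinf (K := K) M' hπ ∧
      ∃ hz : al97L_alpha K M' q z'' ∈ B,
        sf79_Unif π B (cm85_Vinf (K := K) (M' * q) hπ).toSubring n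
          ⟨al97L_alpha K M' q z'', hz⟩ := by
  have heq' : (z : ↥(modularFunctionFieldFullC K (M' * q))) = al97L_alpha K M' q z' := heq
  have hz : al97L_alpha K M' q z' ∈ B := by
    rw [← heq']
    exact z.2
  have hzz : (⟨al97L_alpha K M' q z', hz⟩ : B) = z := Subtype.ext heq'.symm
  refine ⟨z', (al97C_alpha_mem_Vinf M' q hπ z').mp (hBV _ hz), hz, ?_⟩
  rw [hzz]
  exact ⟨hzn, hx⟩

end tv66pkg

/-- **FRAME-TRANSV, the literal package of `Iface47e`** (the last open Prop of route 1):
at the closed points lying on both branches of the two affine charts of every admissible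
Hauptmodul, `n B_n = p_∞ B_n + p_0 B_n`. -/
theorem tv66_pkg_frameTransv : s34i47e_Pkg_FrameTransv := by
  intro M' q _ _ hq hM' R K _ _ _ _ _ _ _ _ _ _ π hπ hunit hqR h hh
  obtain ⟨-, hC⟩ := fs85_pkg_frameSat M' q hq hM' R K π hπ hunit hqR
  obtain ⟨-, h12W, hsat₁, hsat₂, -, -, -, -, -⟩ := hC h hh
  obtain ⟨hS₁0, hS₂0⟩ := sc73_smooth_V0 (R := R) (K := K) M' q hq hM' hπ hunit hqR h hh
  have hBV : ∀ (s : Set ↥(modularFunctionFieldFullC K (M' * q))), s ⊆ {h, h⁻¹} →
      ∀ x ∈ pk15_chart R s, x ∈ cm85_Vinf (K := K) (M' * q) hπ := fun s hs x hx =>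
    ((s34i47c_mem_W M' q hq hM' hπ x).mp (h12W x (pk15_chart_mono hs hx))).1
  -- the coordinates of the ∞-branch coming from level `M'`
  haveI : Algebra.IsAlgebraic K Q̄ := cx_isAlgebraic_closure K
  letI : Algebra R ↥(modularFunctionFieldFullC K M') :=
    ((algebraMap K ↥(modularFunctionFieldFullC K M')).comp (algebraMap R K)).toAlgebra
  haveI : IsScalarTower R K ↥(modularFunctionFieldFullC K M') :=
    IsScalarTower.of_algebraMap_eq (fun _ => rfl)
  have hMu : IsUnit (M' : R) :=
    hunit M' (Nat.Coprime.symm ((Nat.Prime.coprime_iff_not_dvd hq).mpr hM'))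
  have hf1 := sc73_F1 (R := R) (K := K) M' q hq hM' hπ hqR
  have hSF : (∀ n : Ideal (pk15_chart R ({h} : Set ↥(modularFunctionFieldFullC K (M' * q)))),
      n.IsMaximal → algebraMap R _ π ∈ n →
      sf79_OnBr π (pk15_chart R ({h} : Set ↥(modularFunctionFieldFullC K (M' * q))))
        (cm85_Vinf (K := K) (M' * q) hπ).toSubring n →
      sf79_OnBr π (pk15_chart R ({h} : Set ↥(modularFunctionFieldFullC K (M' * q))))
        (s34i47c_V0 (K := K) M' q hq hM' hπ).toSubring n →
      ∃ z' : ↥(modularFunctionFieldFullC K M'), z' ∈ cm85_Vinf (K := K) M' hπ ∧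
        ∃ hz : al97L_alpha K M' q z' ∈
            pk15_chart R ({h} : Set ↥(modularFunctionFieldFullC K (M' * q))),
          sf79_Unif π (pk15_chart R ({h} : Set ↥(modularFunctionFieldFullC K (M' * q))))
            (cm85_Vinf (K := K) (M' * q) hπ).toSubring n ⟨al97L_alpha K M' q z', hz⟩) ∧
      (∀ n : Ideal (pk15_chart R ({h⁻¹} : Set ↥(modularFunctionFieldFullC K (M' * q)))),
      n.IsMaximal → algebraMap R _ π ∈ n →
      sf79_OnBr π (pk15_chart R ({h⁻¹} : Set ↥(modularFunctionFieldFullC K (M' * q))))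
        (cm85_Vinf (K := K) (M' * q) hπ).toSubring n →
      sf79_OnBr π (pk15_chart R ({h⁻¹} : Set ↥(modularFunctionFieldFullC K (M' * q))))
        (s34i47c_V0 (K := K) M' q hq hM' hπ).toSubring n →
      ∃ z' : ↥(modularFunctionFieldFullC K M'), z' ∈ cm85_Vinf (K := K) M' hπ ∧
        ∃ hz : al97L_alpha K M' q z' ∈
            pk15_chart R ({h⁻¹} : Set ↥(modularFunctionFieldFullC K (M' * q))),
          sf79_Unif π (pk15_chart R ({h⁻¹} : Set ↥(modularFunctionFieldFullC K (M' * q))))
            (cm85_Vinf (K := K) (M' * q) hπ).toSubring n ⟨al97L_alpha K M' q z', hz⟩) := by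
    have hB₁ := hBV {h} (by simp)
    have hB₂ := hBV {h⁻¹} (by simp)
    rcases hh with ⟨hq2, h2, rfl⟩ | ⟨hq3, h3, rfl⟩
    · have hcop : Nat.Coprime 2 q := (Nat.coprime_primes Nat.prime_two hq).mpr (Ne.symm hq2)
      have h2' : 2 ∣ M' := hcop.dvd_of_dvd_mul_right h2
      obtain ⟨⟨-, hU₁⟩, ⟨-, hU₂⟩⟩ := bi93_level2 (R := R) (K := K) M' (M' * q)
        (dvd_mul_right M' q) hπ h2' hMu hf1
      constructor
      · intro n hn _ hbr _
        obtain ⟨z', -, z, hzn, heq, hx⟩ := hU₁ n hn.isPrime hbr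
        exact tv66_from_unif M' q hπ _ hB₁ n z' z hzn heq hx
      · intro n hn _ hbr _
        obtain ⟨z', -, z, hzn, heq, hx⟩ := hU₂ n hn.isPrime hbr
        exact tv66_from_unif M' q hπ _ hB₂ n z' z hzn heq hx
    · have hcop : Nat.Coprime 3 q := (Nat.coprime_primes Nat.prime_three hq).mpr (Ne.symm hq3)
      have h3' : 3 ∣ M' := hcop.dvd_of_dvd_mul_right h3
      obtain ⟨⟨-, hU₁⟩, ⟨-, hU₂⟩⟩ := bi93_level3 (R := R) (K := K) M' (M' * q)
        (dvd_mul_right M' q) hπ h3' hMu hf1
      constructor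
      · intro n hn _ hbr _
        obtain ⟨z', -, z, hzn, heq, hx⟩ := hU₁ n hn.isPrime hbr
        exact tv66_from_unif M' q hπ _ hB₁ n z' z hzn heq hx
      · intro n hn _ hbr _
        obtain ⟨z', -, z, hzn, heq, hx⟩ := hU₂ n hn.isPrime hbr
        exact tv66_from_unif M' q hπ _ hB₂ n z' z hzn heq hx
  constructor
  · exact tv66_transv_haupt M' q hq hM' hπ hunit hqR h hh
      (fun x hx h1 h2 => hsat₁ x hx ((s34i47c_mem_W M' q hq hM' hπ _).mpr ⟨h1, h2⟩)) hS₁0 hSF.1
  · exact tv66_transv_haupt_inv M' q hq hM' hπ hunit hqR h hh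
      (fun x hx h1 h2 => hsat₂ x hx ((s34i47c_mem_W M' q hq hM' hπ _).mpr ⟨h1, h2⟩)) hS₂0 hSF.2

end Fermat.Agent.S34
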