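import Fermat.Agent.S34.SmoothCanon73
import Fermat.Agent.S34.Iface47e
import Fermat.Agent.S34.TransvChart50
import Fermat.Agent.S34.FrobInsepDVR50

/-!
# S34 lab (helper73): the interface package FRAME-TRANSV of `Iface47e`, literally

`tvc73_pkg_frameTransv : s34i47e_Pkg_FrameTransv` — `sf79_Transv π B V_∞ V_0` for both affine
charts of every admissible Hauptmodul on the canonical frame of `Iface47c`.

Proof = helper50's abstract `tr50_transv` / `tr50_hins` / `tr50_frac_of_sat` fed with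

* (3a) on both branches: `sc73_smooth` (SmoothCanon73);
* (3a)-surjectivity `B = α(B') + (B ∩ π V_∞)`: `bi93_level2/3` (helper93) with `sc73_F1`;
* pure inseparability at `V_0`: `ins50_frob_Vzero` + `ins50_perfect` (helper50);
* `β(B') ⊆ B`: `bz13_charts_stable` (helper13) and `w ∘ α = β` (`al97L_w_alpha_apply`, helper97);
* fractions of the Gauss ring of level `M'` in the chart `B'`: saturation at the good level
  (`cm15_base_sat_level2/3`, helper15), `wi18_arch` (helper18), `cm85_facts_level2/3` (helper85).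

All names are prefixed `tvc73_`.
-/

set_option autoImplicit false
set_option linter.unusedSectionVars false
set_option linter.style.haveILetI false

open ModularCurve

namespace Fermat.Agent.S34

open Fermat.Agent.S18

local notation "Q̄" => AlgebraicClosure ℚ

section tvc73_abs

variable {R F' F : Type*} [CommRing R] [Field F'] [Field F] [Algebra R F'] [Algebra R F]

/-- A ring homomorphism over `R` maps the chart of `g'` into the chart of its image. -/
theorem tvc73_chart_map (α : F' →+* F) (hα : ∀ r : R, α (algebraMap R F' r) = algebraMap R F r)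
    (g' : F') (x : F') (hx : x ∈ pk15_chart R ({g'} : Set F')) :
    α x ∈ pk15_chart R ({α g'} : Set F) := by
  let ι : F' →ₐ[R] F := { α with commutes' := hα }
  have h1 : ι x ∈ pk15_chart R (ι '' ({g'} : Set F')) := by
    rw [cm15_mem_chart_image]
    obtain ⟨p, hp, hpx⟩ := (pk15_mem_chart ({g'} : Set F') x).mp hx
    refine ⟨p, hp, ?_⟩
    have h2 := Polynomial.hom_eval₂ p (algebraMap (Algebra.adjoin R ({g'} : Set F')) F')
      (ι : F' →+* F) x
    rw [hpx, map_zero] at h2
    exact h2.symm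
  rw [Set.image_singleton] at h1
  exact h1

end tvc73_abs

section tvc73

variable {R K : Type} [CommRing R] [IsDomain R] [IsDiscreteValuationRing R] [Field K]
  [NumberField K] [Algebra R K] [IsFractionRing R K] [Algebra K Q̄]
  (M' q : ℕ) [NeZero M'] [NeZero q] (hq : q.Prime) (hM' : ¬ q ∣ M')
  [Algebra R ↥(modularFunctionFieldFullC K M')]
  [IsScalarTower R K ↥(modularFunctionFieldFullC K M')]
  [Algebra R ↥(modularFunctionFieldFullC K (M' * q))]
  [IsScalarTower R K ↥(modularFunctionFieldFullC K (M' * q))] {π : R} (hπ : Irreducible π)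

/-- **(3b) for one chart of the canonical frame**, from the chart `pk15_chart R {g'}` of the good
level `M'` (`g = α g'`). -/
theorem tvc73_transv_of (hqR : ¬ IsUnit (q : R))
    (g' : ↥(modularFunctionFieldFullC K M'))
    (hg'V : g' ∈ cm85_Vinf (K := K) M' hπ)
    (hsat' : cm15_Sat R π ({g'} : Set ↥(modularFunctionFieldFullC K M'))
      (cm85_Vinf (K := K) M' hπ).toSubring)
    (hfrac' : ∀ x : ↥(modularFunctionFieldFullC K M'),
      ∃ a ∈ pk15_chart R ({g'} : Set ↥(modularFunctionFieldFullC K M')),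
      ∃ b ∈ pk15_chart R ({g'} : Set ↥(modularFunctionFieldFullC K M')), b ≠ 0 ∧ x * b = a)
    (hN : IsNoetherianRing (pk15_chart R ({al97L_alpha K M' q g'} :
      Set ↥(modularFunctionFieldFullC K (M' * q)))))
    (hwB : ∀ z : ↥(modularFunctionFieldFullC K (M' * q)),
      al97L_w (algebraMap K Q̄) M' q hq hM' z ∈ pk15_chart R ({al97L_alpha K M' q g'} :
          Set ↥(modularFunctionFieldFullC K (M' * q))) ↔
        z ∈ pk15_chart R ({al97L_alpha K M' q g'} :
          Set ↥(modularFunctionFieldFullC K (M' * q))))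
    (hsurj : bi93_Surj (K := K) M' (M' * q) (dvd_mul_right M' q) hπ {g'}
      {al97L_alpha K M' q g'})
    (hS₁ : sf79_Smooth π (pk15_chart R ({al97L_alpha K M' q g'} :
        Set ↥(modularFunctionFieldFullC K (M' * q))))
      (cm85_Vinf (K := K) (M' * q) hπ).toSubring)
    (hS₂ : sf79_Smooth π (pk15_chart R ({al97L_alpha K M' q g'} :
        Set ↥(modularFunctionFieldFullC K (M' * q))))
      (s34i47c_V0 (K := K) M' q hq hM' hπ).toSubring) :
    sf79_Transv π (pk15_chart R ({al97L_alpha K M' q g'} :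
        Set ↥(modularFunctionFieldFullC K (M' * q))))
      (cm85_Vinf (K := K) (M' * q) hπ).toSubring
      (s34i47c_V0 (K := K) M' q hq hM' hπ).toSubring := by
  haveI := hN
  -- abbreviations
  have hπeq : algebraMap R ↥(modularFunctionFieldFullC K (M' * q)) π =
      alv73_pi K (M' * q) π := alv73_pi_eq (M' * q) π
  have hπeq' : algebraMap R ↥(modularFunctionFieldFullC K M') π = alv73_pi K M' π :=
    alv73_pi_eq M' π
  have hαR : ∀ r : R, (al97L_alpha K M' q : ↥(modularFunctionFieldFullC K M') →+*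
      ↥(modularFunctionFieldFullC K (M' * q)))
      (algebraMap R ↥(modularFunctionFieldFullC K M') r) =
      algebraMap R ↥(modularFunctionFieldFullC K (M' * q)) r := by
    intro r
    rw [IsScalarTower.algebraMap_apply R K ↥(modularFunctionFieldFullC K M'),
      IsScalarTower.algebraMap_apply R K ↥(modularFunctionFieldFullC K (M' * q))]
    exact (al97L_alpha K M' q).commutes _
  -- the two valuation rings contain the chart
  have hgV₁ : al97L_alpha K M' q g' ∈ cm85_Vinf (K := K) (M' * q) hπ :=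
    (alv73_alpha_mem_Vinf_iff M' q hπ g').mpr hg'V
  have hgV₂ : al97L_alpha K M' q g' ∈ s34i47c_V0 (K := K) M' q hq hM' hπ :=
    (alv73_alpha_mem_V0_iff (algebraMap K Q̄) M' q hq hM' hπ g').mpr hg'V
  have hB₁ : ∀ x ∈ pk15_chart R ({al97L_alpha K M' q g'} :
      Set ↥(modularFunctionFieldFullC K (M' * q))),
      x ∈ (cm85_Vinf (K := K) (M' * q) hπ).toSubring :=
    pk15_chart_le_V (cm85_Vinf (K := K) (M' * q) hπ) (pk85_hRV (M' * q) hπ) _
      (fun g hg => by rw [Set.mem_singleton_iff.mp hg]; exact hgV₁)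
  have hB₂ : ∀ x ∈ pk15_chart R ({al97L_alpha K M' q g'} :
      Set ↥(modularFunctionFieldFullC K (M' * q))),
      x ∈ (s34i47c_V0 (K := K) M' q hq hM' hπ).toSubring :=
    pk15_chart_le_V (s34i47c_V0 (K := K) M' q hq hM' hπ)
      (alv73_algebraMap_mem (algebraMap K Q̄) M' q hq hM' hπ) _
      (fun g hg => by rw [Set.mem_singleton_iff.mp hg]; exact hgV₂)
  have hπ₂ : (algebraMap R ↥(modularFunctionFieldFullC K (M' * q)) π)⁻¹ ∉
      (s34i47c_V0 (K := K) M' q hq hM' hπ).toSubring :=
    alv73_pi_inv_not_mem (algebraMap K Q̄) M' q hq hM' hπ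
  have hV₂ : ∀ x ∈ (s34i47c_V0 (K := K) M' q hq hM' hπ).toSubring,
      (algebraMap R ↥(modularFunctionFieldFullC K (M' * q)) π)⁻¹ * x ∉
        (s34i47c_V0 (K := K) M' q hq hM' hπ).toSubring →
      x⁻¹ ∈ (s34i47c_V0 (K := K) M' q hq hM' hπ).toSubring := by
    intro x hx hnot
    by_contra hinv
    exact hnot (alv73_hmax (algebraMap K Q̄) M' q hq hM' hπ x hx hinv)
  -- the chart of the good level
  have hB'V' : ∀ x ∈ pk15_chart R ({g'} : Set ↥(modularFunctionFieldFullC K M')),
      x ∈ cm85_Vinf (K := K) M' hπ :=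
    pk15_chart_le_V (cm85_Vinf (K := K) M' hπ) (pk85_hRV M' hπ) _
      (fun g hg => by rw [Set.mem_singleton_iff.mp hg]; exact hg'V)
  have hfrac : ∀ x ∈ (cm85_Vinf (K := K) M' hπ).toSubring,
      ∃ a ∈ (pk15_chart R ({g'} : Set ↥(modularFunctionFieldFullC K M'))).toSubring,
      ∃ c ∈ (pk15_chart R ({g'} : Set ↥(modularFunctionFieldFullC K M'))).toSubring,
        c⁻¹ ∈ (cm85_Vinf (K := K) M' hπ).toSubring ∧ c ≠ 0 ∧ c * x = a := by
    refine tr50_frac_of_sat (algebraMap R ↥(modularFunctionFieldFullC K M') π)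
      (pk15_chart R ({g'} : Set ↥(modularFunctionFieldFullC K M'))).toSubring
      (cm85_Vinf (K := K) M' hπ).toSubring hB'V' ?_ hsat' (wi18_arch M' hπ) hfrac'
    intro x hx hx'
    rw [hπeq']
    exact alv73_hmax_Vinf M' hπ x hx hx'
  -- perfect residue field
  obtain ⟨hchar, hperf⟩ := ins50_perfect (R := R) (K := K) (IsFractionRing.injective R K) hq hqR
  -- the Frobenius hypothesis
  have hins := tr50_hins π (pk15_chart R ({al97L_alpha K M' q g'} :
      Set ↥(modularFunctionFieldFullC K (M' * q))))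
    (cm85_Vinf (K := K) (M' * q) hπ).toSubring
    (s34i47c_V0 (K := K) M' q hq hM' hπ).toSubring hB₂ hπ₂
    (al97L_alpha K M' q : ↥(modularFunctionFieldFullC K M') →+*
      ↥(modularFunctionFieldFullC K (M' * q)))
    (al97L_beta K M' q : ↥(modularFunctionFieldFullC K M') →+*
      ↥(modularFunctionFieldFullC K (M' * q)))
    (pk15_chart R ({g'} : Set ↥(modularFunctionFieldFullC K M'))).toSubring
    (cm85_Vinf (K := K) M' hπ).toSubring
    ((pk15_chart R ({g'} : Set ↥(modularFunctionFieldFullC K M'))).toSubring :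
      Set ↥(modularFunctionFieldFullC K M'))
    (fun x hx => tvc73_chart_map _ hαR g' x hx) hB'V'
    (fun x hx => by
      have h1 : (al97L_beta K M' q : ↥(modularFunctionFieldFullC K M') →+*
          ↥(modularFunctionFieldFullC K (M' * q))) x =
          al97L_w (algebraMap K Q̄) M' q hq hM' (al97L_alpha K M' q x) :=
        (al97L_w_alpha_apply (algebraMap K Q̄) M' q hq hM' x).symm
      rw [h1]
      exact (hwB _).mpr (tvc73_chart_map _ hαR g' x hx))
    (fun x hx => (alv73_beta_mem_V0_iff (algebraMap K Q̄) M' q hq hM' hπ x).mpr hx) q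
    (fun x => by
      obtain ⟨x', hx', h⟩ := hsurj x x.2
      exact ⟨x', hx', h⟩)
    (fun x hx => by
      obtain ⟨x₁, hx₁, h⟩ := ins50_frob_Vzero M' q (algebraMap K Q̄) hπ hq hM' hchar hperf x hx
      refine ⟨x₁, hx₁, ?_⟩
      rw [hπeq]
      exact h)
    hfrac
  exact tr50_transv π _ _ _ hB₁ hB₂ hπ₂ hV₂ hS₁ hS₂ q hq.two_le hins

end tvc73

/-- **FRAME-TRANSV** (the literal package `Prop` of `Iface47e`): transversality (3b) of the two
branches on both affine charts of every admissible Hauptmodul of the canonical frame. -/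
theorem tvc73_pkg_frameTransv : s34i47e_Pkg_FrameTransv := by
  intro M' q _ _ hq hM' R K _ _ _ _ _ _ _ _ _ _ π hπ hunit hqR h hh
  haveI : Algebra.IsAlgebraic K Q̄ := cx_isAlgebraic_closure K
  letI : Algebra R ↥(modularFunctionFieldFullC K M') :=
    ((algebraMap K ↥(modularFunctionFieldFullC K M')).comp (algebraMap R K)).toAlgebra
  haveI : IsScalarTower R K ↥(modularFunctionFieldFullC K M') :=
    IsScalarTower.of_algebraMap_eq (fun _ => rfl)
  have hMu : IsUnit (M' : R) :=
    hunit M' (Nat.Coprime.symm ((Nat.Prime.coprime_iff_not_dvd hq).mpr hM'))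
  obtain ⟨⟨hS₁, hS₁0⟩, ⟨hS₂, hS₂0⟩⟩ :=
    sc73_smooth (R := R) (K := K) M' q hq hM' hπ hunit hqR h hh
  obtain ⟨hwB₁, hwB₂, -⟩ := bz13_charts_stable (R := R) (K := K) M' q hq hM' hunit h hh
  have hf1 := sc73_F1 (R := R) (K := K) M' q hq hM' hπ hqR
  rcases hh with ⟨hq2, h2, rfl⟩ | ⟨hq3, h3, rfl⟩
  · have hcop : Nat.Coprime 2 q := (Nat.coprime_primes Nat.prime_two hq).mpr (Ne.symm hq2)
    have h2' : 2 ∣ M' := hcop.dvd_of_dvd_mul_right h2
    obtain ⟨-, -, -, -, hhV, hhV', -, -, -, -, hfrac₁, hfrac₂, -⟩ :=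
      cm85_facts_level2 (R := R) (K := K) M' hπ h2'
    obtain ⟨-, -, -, -, -, -, hN₁, hN₂, -⟩ :=
      cm85_facts_level2 (R := R) (K := K) (M' * q) hπ h2
    obtain ⟨hs₁, hs₂, -⟩ := cm15_base_sat_level2 (R := R) (K := K) M' hπ h2' hMu
    obtain ⟨⟨hSurj₁, -⟩, ⟨hSurj₂, -⟩⟩ := bi93_level2 (R := R) (K := K) M' (M' * q)
      (dvd_mul_right M' q) hπ h2' hMu hf1
    have e : al97L_alpha K M' q (pk85_h2 K M' h2') = pk85_h2 K (M' * q) h2 :=
      Subtype.ext (by rw [al97L_alpha_coe, pk85_h2_coe, pk85_h2_coe])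
    have e' : al97L_alpha K M' q (pk85_h2 K M' h2')⁻¹ = (pk85_h2 K (M' * q) h2)⁻¹ := by
      rw [map_inv₀, e]
    constructor
    · have key := tvc73_transv_of (R := R) (K := K) M' q hq hM' hπ hqR (pk85_h2 K M' h2') hhV
        hs₁ hfrac₁ (by rw [e]; exact hN₁) (by rw [e]; exact hwB₁) (by rw [e]; exact hSurj₁)
        (by rw [e]; exact hS₁) (by rw [e]; exact hS₁0)
      rwa [e] at key
    · have key := tvc73_transv_of (R := R) (K := K) M' q hq hM' hπ hqR (pk85_h2 K M' h2')⁻¹ hhV'
        hs₂ hfrac₂ (by rw [e']; exact hN₂) (by rw [e']; exact hwB₂) (by rw [e']; exact hSurj₂)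
        (by rw [e']; exact hS₂) (by rw [e']; exact hS₂0)
      rwa [e'] at key
  · have hcop : Nat.Coprime 3 q := (Nat.coprime_primes Nat.prime_three hq).mpr (Ne.symm hq3)
    have h3' : 3 ∣ M' := hcop.dvd_of_dvd_mul_right h3
    obtain ⟨-, -, -, -, hhV, hhV', -, -, -, -, hfrac₁, hfrac₂, -⟩ :=
      cm85_facts_level3 (R := R) (K := K) M' hπ h3'
    obtain ⟨-, -, -, -, -, -, hN₁, hN₂, -⟩ :=
      cm85_facts_level3 (R := R) (K := K) (M' * q) hπ h3
    obtain ⟨hs₁, hs₂, -⟩ := cm15_base_sat_level3 (R := R) (K := K) M' hπ h3' hMu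
    obtain ⟨⟨hSurj₁, -⟩, ⟨hSurj₂, -⟩⟩ := bi93_level3 (R := R) (K := K) M' (M' * q)
      (dvd_mul_right M' q) hπ h3' hMu hf1
    have e : al97L_alpha K M' q (pk85_h3 K M' h3') = pk85_h3 K (M' * q) h3 :=
      Subtype.ext (by rw [al97L_alpha_coe, pk85_h3_coe, pk85_h3_coe])
    have e' : al97L_alpha K M' q (pk85_h3 K M' h3')⁻¹ = (pk85_h3 K (M' * q) h3)⁻¹ := by
      rw [map_inv₀, e]
    constructor
    · have key := tvc73_transv_of (R := R) (K := K) M' q hq hM' hπ hqR (pk85_h3 K M' h3') hhV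
        hs₁ hfrac₁ (by rw [e]; exact hN₁) (by rw [e]; exact hwB₁) (by rw [e]; exact hSurj₁)
        (by rw [e]; exact hS₁) (by rw [e]; exact hS₁0)
      rwa [e] at key
    · have key := tvc73_transv_of (R := R) (K := K) M' q hq hM' hπ hqR (pk85_h3 K M' h3')⁻¹ hhV'
        hs₂ hfrac₂ (by rw [e']; exact hN₂) (by rw [e']; exact hwB₂) (by rw [e']; exact hSurj₂)
        (by rw [e']; exact hS₂) (by rw [e']; exact hS₂0)
      rwa [e'] at key

end Fermat.Agent.S34
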