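import Mathlib
import Fermat.Agent.S34.Iface47b
import Fermat.Agent.S34.PkgLD32

/-!
# S34 lab (helper32): the interface package `s34i47b_Pkg_LDb` (P6b, abstract), twin copy

`pldb32_Pkg_LDb : s34i47b_Pkg_LDb` — (LP′) + (KR) + (G) for `σ`, `τ` + saturation ⟹ the local
datum (LD) for the double difference `u = σ(τ f) f / (σ f · τ f)`.

Proof.  At a closed point `n` let `c ≠ 0` be given by (LP′): the double difference of
`θ = f / c ^ m` is regular along every horizontal valuation ring through `n`.  Put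
`φ := σ c · τ c / (σ(τ c) · c)` (the inverse of the double difference of `c`); then
`φ ≡ 1 mod π W` (`ld32_const_cong`), `φ ^ m · u` is the double difference of `θ`, it lies in `W`
by (G1), (G2), and (KR) + saturation (`ld32_sat_pow`) give `s ∉ n` with `s · φ ^ m · u ∈ B`.

Also `pldb32_LD_of_LDa` : with any proof of `s34i47b_Pkg_LDa` this gives `s34i47_Pkg_LD` again.

All names are prefixed `pldb32_`.
-/

set_option autoImplicit false

namespace Fermat.Agent.S34

/-- **Package P6b** of the S34 interface (`Iface47b`): (LP′) + (KR) + (G) + saturation ⟹ (LD). -/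
theorem pldb32_Pkg_LDb : s34i47b_Pkg_LDb := by
  intro R K F _ _ _ _ _ _ _ _ _ _ π hπ m _hm W B σ τ f hf hRW hBW hsat hGσ hGτ hKr hLP
    n hn hπn
  obtain ⟨_hσR, _hσW, hσ1⟩ := hGσ
  obtain ⟨_hτR, hτW, _hτ1⟩ := hGτ
  -- `π ≠ 0` in `F`
  have hp0 : algebraMap R F π ≠ 0 := by
    rw [IsScalarTower.algebraMap_apply R K F]
    intro h0
    have h1 : algebraMap R K π = 0 := by
      have := (algebraMap K F).injective (a₁ := algebraMap R K π) (a₂ := 0) (by rw [h0, map_zero])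
      exact this
    exact hπ.ne_zero ((IsFractionRing.injective R K) (by rw [h1, map_zero]))
  have hpW : algebraMap R F π ∈ W := hRW π
  obtain ⟨c, hc0, hc⟩ := hLP n hn hπn
  have hDc0 : ld32_D σ τ c ≠ 0 := by
    rw [ld32_D_apply]
    have h1 : σ (τ c) ≠ 0 := by simpa using hc0
    have h2 : σ c ≠ 0 := by simpa using hc0
    have h3 : τ c ≠ 0 := by simpa using hc0
    exact div_ne_zero (mul_ne_zero h1 hc0) (mul_ne_zero h2 h3)
  refine ⟨(ld32_D σ τ c)⁻¹, ?_, ?_⟩
  · rw [ld32_D_inv]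
    exact ld32_const_cong W _ hp0 σ τ hτW hσ1 c hc0
  -- `θ = f / c ^ m`
  obtain ⟨θ, hθ⟩ : ∃ θ : F, θ = f / c ^ m := ⟨_, rfl⟩
  have hθ0 : θ ≠ 0 := by rw [hθ]; exact div_ne_zero hf (pow_ne_zero m hc0)
  have hkey : ((ld32_D σ τ c)⁻¹) ^ m * s34i47_dd σ τ f = ld32_D σ τ θ := by
    have hf' : f = θ * c ^ m := by rw [hθ]; field_simp
    have h1 : s34i47_dd σ τ f = ld32_D σ τ f := rfl
    rw [h1]
    conv_lhs => rw [hf']
    rw [map_mul, map_pow, inv_pow, mul_left_comm, inv_mul_cancel₀ (pow_ne_zero m hDc0), mul_one]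
  rw [hkey]
  -- `Φ θ ∈ W`
  have hη : τ θ / θ ∈ W := hτW θ hθ0
  have hη' : θ / τ θ ∈ W := by
    have := hτW θ⁻¹ (inv_ne_zero hθ0)
    rwa [map_inv₀, inv_div_inv] at this
  have hση : σ (τ θ / θ) ∈ W := by
    have h1 := hσ1 _ hη
    have h2 : σ (τ θ / θ) = τ θ / θ
        + algebraMap R F π * ((algebraMap R F π)⁻¹ * (σ (τ θ / θ) - τ θ / θ)) := by
      field_simp; ring
    rw [h2]; exact W.add_mem hη (W.mul_mem hpW h1)
  have hΘW : ld32_D σ τ θ ∈ W := by
    rw [pld32_D_eq1 σ τ θ hθ0]; exact W.mul_mem hση hη'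
  -- `Φ θ` lies in every horizontal valuation ring through `n`: this is (LP′)
  have hΘO : ∀ O : ValuationSubring F, s34i47_IsHoriz π O → s34i47_Through B n O →
      ld32_D σ τ θ ∈ O := by
    intro O hO hOn
    have h1 : s34i47_dd σ τ (f / c ^ m) ∈ O := hc O hO hOn
    have h2 : s34i47_dd σ τ (f / c ^ m) = ld32_D σ τ θ := by rw [hθ]; rfl
    rwa [h2] at h1
  obtain ⟨s, hs, k, hk⟩ := hKr n hn hπn (ld32_D σ τ θ) hΘO
  exact ⟨s, hs, ld32_sat_pow W _ hp0 hpW B hsat k _ (W.mul_mem (hBW _ s.2) hΘW) hk⟩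

/-- (LD) again, from any proof of the first half (LP) ⟹ (LP′). -/
theorem pldb32_LD_of_LDa (ha : s34i47b_Pkg_LDa) : s34i47_Pkg_LD :=
  s34i47b_LD_of ha pldb32_Pkg_LDb

end Fermat.Agent.S34
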