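import Mathlib
import Fermat.Agent.S34.Iface47

/-!
# S34 lab (helper32): the interface package `s34i47_Pkg_LP` (P5b, abstract)

`plp32_Pkg_LP : s34i47_Pkg_LP` — (UZ) + orders divisible by `m` (Ord) + rational zeros and poles
(Rat) + finiteness (Fin) ⟹ (LP): at every closed point `n` of the special fibre there is
`c ≠ 0` with `f / c ^ m` a unit of every horizontal valuation ring through `n`.

Proof.  Let `S` be the finite set of horizontal valuation rings at which `f` is not a unit.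
For `O ∈ S` through `n`: `O` is rational (Rat), so (UZ) gives a uniformiser `p_O` which is a
unit of every other horizontal `O'` through `n`; by (Ord) `f = ε w ^ m` with `ε ∈ Oˣ`, and
`w = unit · p_O ^ k_O` (`O` is a discrete valuation ring: Krull intersection).  Then
`c := ∏_{O ∈ S, through n} p_O ^ k_O` works.

All names are prefixed `plp32_`.
-/

set_option autoImplicit false

namespace Fermat.Agent.S34

section units

variable {F : Type*} [Field F]

/-- `x` is a unit of the valuation ring `O`. -/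
def plp32_U (O : ValuationSubring F) (x : F) : Prop := x ∈ O ∧ x⁻¹ ∈ O

theorem plp32_U_one (O : ValuationSubring F) : plp32_U O 1 :=
  ⟨O.one_mem, by rw [inv_one]; exact O.one_mem⟩

theorem plp32_U_mul {O : ValuationSubring F} {x y : F} (hx : plp32_U O x) (hy : plp32_U O y) :
    plp32_U O (x * y) :=
  ⟨O.mul_mem _ _ hx.1 hy.1, by rw [mul_inv]; exact O.mul_mem _ _ hx.2 hy.2⟩

theorem plp32_U_inv {O : ValuationSubring F} {x : F} (hx : plp32_U O x) : plp32_U O x⁻¹ :=
  ⟨hx.2, by rw [inv_inv]; exact hx.1⟩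

theorem plp32_U_pow {O : ValuationSubring F} {x : F} (hx : plp32_U O x) (k : ℕ) :
    plp32_U O (x ^ k) :=
  ⟨pow_mem hx.1 k, by rw [← inv_pow]; exact pow_mem hx.2 k⟩

theorem plp32_U_zpow {O : ValuationSubring F} {x : F} (hx : plp32_U O x) (k : ℤ) :
    plp32_U O (x ^ k) := by
  obtain ⟨j, rfl | rfl⟩ := Int.eq_nat_or_neg k
  · rw [zpow_natCast]; exact plp32_U_pow hx j
  · rw [zpow_neg, zpow_natCast]; exact plp32_U_inv (plp32_U_pow hx j)

theorem plp32_U_prod {O : ValuationSubring F} {ι : Type*} (s : Finset ι) (x : ι → F)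
    (h : ∀ j ∈ s, plp32_U O (x j)) : plp32_U O (∏ j ∈ s, x j) := by
  classical
  induction s using Finset.induction_on with
  | empty => rw [Finset.prod_empty]; exact plp32_U_one O
  | insert j s hj ih =>
    rw [Finset.prod_insert hj]
    exact plp32_U_mul (h j (Finset.mem_insert_self j s))
      (ih fun i hi => h i (Finset.mem_insert_of_mem hi))

/-- In a principal valuation ring with uniformiser `p`, every nonzero element of the ring is a
unit times a power of `p`. -/
theorem plp32_exists_pow (O : ValuationSubring F) (hpir : IsPrincipalIdealRing O) (p : F)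
    (hpO : p ∈ O) (hpinv : p⁻¹ ∉ O) (hdiv : ∀ x ∈ O, x⁻¹ ∉ O → x * p⁻¹ ∈ O)
    (w : F) (hw : w ≠ 0) (hwO : w ∈ O) : ∃ k : ℕ, plp32_U O (w / p ^ k) := by
  by_contra hcon
  have hall : ∀ k : ℕ, w / p ^ k ∈ O := by
    intro k
    induction k with
    | zero => simpa using hwO
    | succ k ih =>
      have hnu : (w / p ^ k)⁻¹ ∉ O := fun h => hcon ⟨k, ih, h⟩
      have h1 := hdiv _ ih hnu
      have h2 : w / p ^ (k + 1) = w / p ^ k * p⁻¹ := by
        rw [pow_succ, ← div_div, div_eq_mul_inv (w / p ^ k) p]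
      rw [h2]; exact h1
  have hI : Ideal.span {(⟨p, hpO⟩ : O)} ≠ ⊤ := by
    intro h
    rw [Ideal.span_singleton_eq_top] at h
    obtain ⟨u, hu⟩ := h
    apply hpinv
    have h1 : ((u⁻¹ : Oˣ) : O) * (⟨p, hpO⟩ : O) = 1 := by rw [← hu]; exact Units.inv_mul u
    have h2 : (((u⁻¹ : Oˣ) : O) : F) * p = 1 := by
      have := congrArg (Subtype.val : O → F) h1
      simpa using this
    rw [← eq_inv_of_mul_eq_one_left h2]
    exact ((u⁻¹ : Oˣ) : O).2
  have hinf := Ideal.iInf_pow_eq_bot_of_isDomain (Ideal.span {(⟨p, hpO⟩ : O)}) hI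
  have hmem : (⟨w, hwO⟩ : O) ∈ ⨅ i : ℕ, Ideal.span {(⟨p, hpO⟩ : O)} ^ i := by
    rw [Ideal.mem_iInf]
    intro k
    rw [Ideal.span_singleton_pow, Ideal.mem_span_singleton]
    refine ⟨⟨w / p ^ k, hall k⟩, ?_⟩
    apply Subtype.ext
    have hp0 : p ≠ 0 := by
      rintro rfl
      exact hpinv (by rw [inv_zero]; exact O.zero_mem)
    show w = p ^ k * (w / p ^ k)
    field_simp
  rw [hinf] at hmem
  exact hw (congrArg (Subtype.val : O → F) hmem)

/-- The same for every nonzero element of the field, with an integer exponent. -/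
theorem plp32_exists_zpow (O : ValuationSubring F) (hpir : IsPrincipalIdealRing O) (p : F)
    (hpO : p ∈ O) (hpinv : p⁻¹ ∉ O) (hdiv : ∀ x ∈ O, x⁻¹ ∉ O → x * p⁻¹ ∈ O)
    (w : F) (hw : w ≠ 0) : ∃ k : ℤ, plp32_U O (w / p ^ k) := by
  rcases O.mem_or_inv_mem w with hwO | hwO
  · obtain ⟨k, hk⟩ := plp32_exists_pow O hpir p hpO hpinv hdiv w hw hwO
    exact ⟨k, by rw [zpow_natCast]; exact hk⟩
  · obtain ⟨k, hk⟩ := plp32_exists_pow O hpir p hpO hpinv hdiv w⁻¹ (inv_ne_zero hw) hwO
    refine ⟨-(k : ℤ), ?_⟩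
    have : w / p ^ (-(k : ℤ)) = (w⁻¹ / p ^ k)⁻¹ := by
      rw [zpow_neg, zpow_natCast, inv_div, div_inv_eq_mul, div_inv_eq_mul, mul_comm]
    rw [this]; exact plp32_U_inv hk

end units

/-- **Package P5b** of the S34 interface: (UZ) + (Ord) + (Rat) + (Fin) ⟹ (LP). -/
theorem plp32_Pkg_LP : s34i47_Pkg_LP := by
  intro R K F _ _ _ _ _ _ _ _ _ _ π _hπ B m hm f hf hUZ hOrd hRat hFin0 n hn hπn
  classical
  have hFin : {O : ValuationSubring F | s34i47_IsHoriz π O ∧ ¬ (f ∈ O ∧ f⁻¹ ∈ O)}.Finite :=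
    hFin0
  -- the zeros and poles of `f` through `n`
  let act : ValuationSubring F → Prop := fun O =>
    s34i47_IsHoriz π O ∧ ¬ (f ∈ O ∧ f⁻¹ ∈ O) ∧ s34i47_Through B n O
  have key : ∀ O : ValuationSubring F, ∃ (p : F) (k : ℤ), p ≠ 0 ∧
      (act O → plp32_U O (f / p ^ ((m : ℤ) * k)) ∧
        ∀ O' : ValuationSubring F, s34i47_IsHoriz π O' → s34i47_Through B n O' → O' ≠ O →
          plp32_U O' p) ∧
      (¬ act O → p = 1) := by
    intro O
    by_cases hactO : act O
    · obtain ⟨hO, hfO, hOn⟩ := hactO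
      have hrat : s34i47_IsRat K O := (hRat O hO).resolve_left hfO
      obtain ⟨p, hp0, hpO, hpinv, hdiv, hother⟩ := hUZ n hn hπn O hO hOn hrat
      obtain ⟨ε, w, hε, hε', hfw⟩ := hOrd O hO
      have hw0 : w ≠ 0 := by
        rintro rfl
        rw [zero_pow hm.ne', mul_zero] at hfw
        exact hf hfw
      obtain ⟨k, hk⟩ := plp32_exists_zpow O hO.2.1 p hpO hpinv hdiv w hw0
      refine ⟨p, k, hp0, fun _ => ⟨?_, fun O' hO' hO'n hne => hother O' hO' hO'n hne⟩,
        fun h => absurd ⟨hO, hfO, hOn⟩ h⟩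
      have : f / p ^ ((m : ℤ) * k) = ε * (w / p ^ k) ^ m := by
        rw [hfw, div_pow, ← zpow_natCast (p ^ k) m, ← zpow_mul, mul_comm k, mul_div_assoc]
      rw [this]; exact plp32_U_mul ⟨hε, hε'⟩ (plp32_U_pow hk m)
    · exact ⟨1, 0, one_ne_zero, fun h => absurd h hactO, fun _ => rfl⟩
  choose p k hp0 hact hnact using key
  refine ⟨∏ O ∈ hFin.toFinset, p O ^ k O, ?_, ?_⟩
  · exact Finset.prod_ne_zero_iff.mpr fun O _ => zpow_ne_zero _ (hp0 O)
  intro O' hO' hO'n
  have hfactor : ∀ O ∈ hFin.toFinset, O ≠ O' → plp32_U O' (p O ^ k O) := by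
    intro O _ hne
    apply plp32_U_zpow
    by_cases h : act O
    · exact (hact O h).2 O' hO' hO'n (Ne.symm hne)
    · rw [hnact O h]; exact plp32_U_one O'
  suffices h : plp32_U O' (f / (∏ O ∈ hFin.toFinset, p O ^ k O) ^ m) by
    refine ⟨h.1, ?_⟩
    have h2 := h.2
    rwa [inv_div] at h2
  by_cases hfO' : f ∈ O' ∧ f⁻¹ ∈ O'
  · have hO'S : O' ∉ hFin.toFinset := by
      rw [Set.Finite.mem_toFinset]
      exact fun h => h.2 hfO'
    have hc : plp32_U O' (∏ O ∈ hFin.toFinset, p O ^ k O) :=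
      plp32_U_prod _ _ fun O hO => hfactor O hO (fun h => hO'S (h ▸ hO))
    rw [div_eq_mul_inv]
    exact plp32_U_mul hfO' (plp32_U_inv (plp32_U_pow hc m))
  · have hO'S : O' ∈ hFin.toFinset := by
      rw [Set.Finite.mem_toFinset]
      exact ⟨hO', hfO'⟩
    have hactO' : act O' := ⟨hO', hfO', hO'n⟩
    rw [← Finset.mul_prod_erase _ _ hO'S, mul_pow, ← div_div]
    have h1 : plp32_U O' (f / (p O' ^ k O') ^ m) := by
      have h := (hact O' hactO').1
      have he : (p O' ^ k O') ^ m = p O' ^ ((m : ℤ) * k O') := by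
        rw [← zpow_natCast (p O' ^ k O') m, ← zpow_mul, mul_comm]
      rwa [he]
    have h2 : plp32_U O' (∏ O ∈ hFin.toFinset.erase O', p O ^ k O) :=
      plp32_U_prod _ _ fun O hO =>
        hfactor O (Finset.mem_of_mem_erase hO) (Finset.ne_of_mem_erase hO)
    rw [div_eq_mul_inv]
    exact plp32_U_mul h1 (plp32_U_inv (plp32_U_pow h2 m))

end Fermat.Agent.S34
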