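import Fermat.Agent.S34.Iface47
import Fermat.Agent.S34.NStar85

/-!
# S34 lab, package P7b (helper85): `s34i47_Pkg_Main`

The interface package **P7b** of `Iface47.lean`: for a discrete valuation ring `R` with
uniformiser `π` and fraction field `K`, a field `F ⊇ K` in which `K` is algebraically closed, a
subring `W` with the properties (W), a Hauptmodul `h` with the chart properties (C), and
`u ≡ 1 mod π W` with the local datum (LD) on both affine charts: `f₀ ^ m * u = c` with `c ∈ R`.

Proof: `cm85_nstar` (NStar85.lean: `ntc47_main` + the general chart lemmas of `pk15_*` +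
`pk15_chart_cap`).

`cm85_pkg_main : s34i47_Pkg_Main`.
-/

set_option autoImplicit false

namespace Fermat.Agent.S34

open Fermat.Agent.S18

/-- **P7b**: the interface package `s34i47_Pkg_Main`. -/
theorem cm85_pkg_main : s34i47_Pkg_Main := by
  intro R K F _ _ _ _ _ _ _ _ _ _ π hπ m hm0 hm hK W h hW hC u hu hLD₁ hLD₂
  obtain ⟨hRW, hπW, hWroot, hWunit⟩ := hW
  obtain ⟨hh, h12W, hsat₁, hsat₂, hsat₁₂, -, -, hfin, hfrac⟩ := hC
  have hπ0 : algebraMap R F π ≠ 0 := by
    rw [IsScalarTower.algebraMap_apply R K F]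
    exact (map_ne_zero _).mpr
      ((map_ne_zero_iff _ (IsFractionRing.injective R K)).mpr hπ.ne_zero)
  obtain ⟨f₀, c, hf₀, hc, -⟩ := cm85_nstar (K := K) π m hm0 hm hK h hh W hRW hπ0 hπW
    (hWroot m hm0) hWunit h12W hsat₁ hsat₂ hsat₁₂ hfin hfrac u hu hLD₁ hLD₂
  exact ⟨f₀, c, hf₀, hc⟩

end Fermat.Agent.S34
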