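import Mathlib
import Fermat.Agent.S34.Iface47
import Fermat.Agent.S34.NoDeep89

/-!
# S34 lab (helper89): the unique-zero property (UZ) from a WEAK local structure

`s34i47_LocStr` (Iface47) asks for exact coordinates `z z' = π ^ κ · unit` at the nodes of the
special fibre; these need the thickness bound (`U V = q ^ 12`), the node lemma and "cusps are not
nodes".  Here the node clause is weakened to

* `s34w89_LocStrW` : `n B_n = (z, z', π)`, `z z' ∈ π B_n`, and two primes `p₁ ∋ z`, `p₂ ∋ z'` of
  `B` inside `n` containing `π`, with `z ∉ p₂`, `z' ∉ p₁` (the two branches of the special fibre),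

which is what the special-fibre analysis (two smooth branches meeting transversally) gives
directly.  For a Noetherian chart `B` which is integrally closed in `F = Frac B`:

* `s34w89_UZ` : `s34w89_LocStrW π B → s34i47_UniqueZero K π B` (the LITERAL `Prop` of Iface47).

The input is `nd89_main` (NoDeep89): every `R`-point of a normal node has a local equation.
-/

set_option autoImplicit false
set_option linter.style.haveILetI false

namespace Fermat.Agent.S34

open IsLocalRing

/-! ## 1. Valuation-subring bookkeeping -/

section Val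

variable {F : Type*} [Field F]

theorem wz89_lt_one_iff (O : ValuationSubring F) (x : F) :
    O.valuation x < 1 ↔ (x = 0 ∨ x⁻¹ ∉ O) := by
  by_cases hx : x = 0
  · simp [hx]
  · have hpos : 0 < O.valuation x := zero_lt_iff.mpr ((map_ne_zero _).mpr hx)
    rw [← O.valuation_le_one_iff, map_inv₀, not_le, one_lt_inv₀ hpos]
    simp [hx]

theorem wz89_inv_mem (O : ValuationSubring F) (x : F) (hx : ¬ O.valuation x < 1) : x⁻¹ ∈ O := by
  by_contra h
  exact hx ((wz89_lt_one_iff O x).mpr (Or.inr h))

theorem wz89_eq_one (O : ValuationSubring F) (x : F) (hx0 : x ≠ 0) (hx : x ∈ O) (hx' : x⁻¹ ∈ O) :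
    O.valuation x = 1 := by
  refine le_antisymm ((O.valuation_le_one_iff x).mpr hx) ?_
  by_contra h
  rw [not_le] at h
  rcases (wz89_lt_one_iff O x).mp h with h0 | h0
  · exact hx0 h0
  · exact h0 hx'

theorem wz89_mul_lt (O : ValuationSubring F) (x y : F) (hx : x ∈ O) (hy : O.valuation y < 1) :
    O.valuation (x * y) < 1 := by
  rw [map_mul]
  have h1 : O.valuation x ≤ 1 := (O.valuation_le_one_iff x).mpr hx
  calc O.valuation x * O.valuation y ≤ 1 * O.valuation y := mul_le_mul' h1 le_rfl
    _ = O.valuation y := one_mul _
    _ < 1 := hy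

theorem wz89_sub_lt (O : ValuationSubring F) (x y : F) (hx : O.valuation x < 1)
    (hy : O.valuation y < 1) : O.valuation (x - y) < 1 :=
  lt_of_le_of_lt (Valuation.map_sub _ x y) (max_lt hx hy)

theorem wz89_add_lt (O : ValuationSubring F) (x y : F) (hx : O.valuation x < 1)
    (hy : O.valuation y < 1) : O.valuation (x + y) < 1 :=
  lt_of_le_of_lt (Valuation.map_add _ x y) (max_lt hx hy)

end Val

section Const

variable {R F : Type*} [CommRing R] [IsDomain R] [IsDiscreteValuationRing R] [Field F]
  [Algebra R F]

/-- nonzero constants are units of every horizontal valuation subring. -/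
theorem wz89_const_inv (π : R) (hπ : Irreducible π) (O : ValuationSubring F)
    (hRO : ∀ r : R, algebraMap R F r ∈ O) (hπO : (algebraMap R F π)⁻¹ ∈ O) (r : R) (hr : r ≠ 0) :
    (algebraMap R F r)⁻¹ ∈ O := by
  obtain ⟨k, u, rfl⟩ := IsDiscreteValuationRing.eq_unit_mul_pow_irreducible hr hπ
  have he : algebraMap R F (u : R) * algebraMap R F ((u⁻¹ : Rˣ) : R) = 1 := by
    rw [← map_mul, Units.mul_inv, map_one]
  have h1 : (algebraMap R F (↑u * π ^ k))⁻¹ =
      algebraMap R F ((u⁻¹ : Rˣ) : R) * ((algebraMap R F π)⁻¹) ^ k := by
    rw [map_mul, map_pow, mul_inv, eq_inv_of_mul_eq_one_right he, inv_pow]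
  rw [h1]
  exact O.mul_mem _ _ (hRO _) (pow_mem hπO k)

end Const

/-! ## 2. The local statement -/

section Local

variable {R K F A : Type*} [CommRing R] [IsDomain R] [IsDiscreteValuationRing R]
  [Field K] [Field F] [Algebra R K] [IsFractionRing R K] [Algebra R F] [Algebra K F]
  [IsScalarTower R K F]
  [CommRing A] [IsDomain A] [IsLocalRing A] [IsNoetherianRing A] [IsIntegrallyClosed A]
  [Algebra R A] [Algebra A F] [IsScalarTower R A F] [IsFractionRing A F]

omit [IsIntegrallyClosed A] in
/-- **(UZ), local form.**  `A` a normal Noetherian local domain with fraction field `F`, over the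
discrete valuation ring `R`, in which every `R`-point has a local equation (`hstr`).  Then every
`K`-rational valuation subring `O ⊇ A[1/π]`, `O ≠ ⊤`, has a uniformiser which is a unit of every
other valuation subring `O' ⊇ A[1/π]`. -/
theorem wz89_local (π : R) (hπ : Irreducible π)
    (hπm : algebraMap R A π ∈ maximalIdeal A)
    (hstr : ∀ ρ : A →+* R, (∀ r : R, ρ (algebraMap R A r) = r) →
      ∃ H ∈ RingHom.ker ρ, ∃ a : R, a ≠ 0 ∧
        ∀ x ∈ RingHom.ker ρ, ∃ y : A, algebraMap R A a * x = H * y)
    (O : ValuationSubring F) (hOtop : O ≠ ⊤) (hAO : ∀ a : A, algebraMap A F a ∈ O)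
    (hπO : (algebraMap R F π)⁻¹ ∈ O) (hRat : s34i47_IsRat K O) :
    ∃ p : F, p ≠ 0 ∧ p ∈ O ∧ p⁻¹ ∉ O ∧ (∀ x ∈ O, x⁻¹ ∉ O → x * p⁻¹ ∈ O) ∧
      ∀ O' : ValuationSubring F, (∀ a : A, algebraMap A F a ∈ O') →
        (algebraMap R F π)⁻¹ ∈ O' → O' ≠ O → p ∈ O' ∧ p⁻¹ ∈ O' := by
  classical
  have hinjA : Function.Injective (algebraMap A F) := IsFractionRing.injective A F
  have hinjRK : Function.Injective (algebraMap R K) := IsFractionRing.injective R K
  have hinjRF : Function.Injective (algebraMap R F) := by
    rw [IsScalarTower.algebraMap_eq R K F]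
    exact (algebraMap K F).injective.comp hinjRK
  have hRA : ∀ r : R, algebraMap A F (algebraMap R A r) = algebraMap R F r := fun r =>
    (IsScalarTower.algebraMap_apply R A F r).symm
  -- constants in a valuation subring containing `A` and `π⁻¹`
  have hconst : ∀ V : ValuationSubring F, (∀ a : A, algebraMap A F a ∈ V) →
      (algebraMap R F π)⁻¹ ∈ V → ∀ r : R, r ≠ 0 → V.valuation (algebraMap R F r) = 1 := by
    intro V hAV hπV r hr
    have hRV : ∀ r : R, algebraMap R F r ∈ V := fun r => by rw [← hRA]; exact hAV _
    exact wz89_eq_one V _ (fun h0 => hr (hinjRF (by rw [h0, map_zero]))) (hRV r)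
      (wz89_const_inv π hπ V hRV hπV r hr)
  have hRO : ∀ r : R, algebraMap R F r ∈ O := fun r => by rw [← hRA]; exact hAO _
  -- units of `A` are units of `O`
  have hunitA : ∀ (V : ValuationSubring F), (∀ a : A, algebraMap A F a ∈ V) → ∀ a : A, IsUnit a →
      ¬ V.valuation (algebraMap A F a) < 1 := by
    intro V hAV a ha hlt
    obtain ⟨b, hb⟩ := ha.exists_right_inv
    have h1 : algebraMap A F a * algebraMap A F b = 1 := by rw [← map_mul, hb, map_one]
    have h2 := wz89_mul_lt V (algebraMap A F b) (algebraMap A F a) (hAV b) hlt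
    rw [mul_comm, h1, map_one] at h2
    exact lt_irrefl _ h2
  -- the residue map
  have hex : ∀ a : A, ∃ r : R, O.valuation (algebraMap A F a - algebraMap R F r) < 1 := by
    intro a
    obtain ⟨c, hc⟩ := hRat (algebraMap A F a) (hAO a)
    have hc' : O.valuation (algebraMap A F a - algebraMap K F c) < 1 := by
      rw [wz89_lt_one_iff]
      rcases hc with hc | hc
      · left; rw [hc, sub_self]
      · right; exact hc
    rcases ValuationRing.isInteger_or_isInteger R c with ⟨r, hr⟩ | ⟨t, ht⟩
    · refine ⟨r, ?_⟩
      rw [IsScalarTower.algebraMap_apply R K F, hr]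
      exact hc'
    · by_cases hc0 : c = 0
      · refine ⟨0, ?_⟩
        rw [map_zero]
        rw [hc0, map_zero] at hc'
        exact hc'
      by_cases htu : IsUnit t
      · obtain ⟨t', ht'⟩ := htu.exists_right_inv
        refine ⟨t', ?_⟩
        have h1 : algebraMap R K t' = c := by
          have h2 : algebraMap R K t * algebraMap R K t' = 1 := by
            rw [← map_mul, ht', map_one]
          rw [ht] at h2
          exact (eq_inv_of_mul_eq_one_right h2).trans (inv_inv c)
        rw [IsScalarTower.algebraMap_apply R K F, h1]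
        exact hc'
      · exfalso
        -- `t = c⁻¹` is a non-unit: then `t a - 1` is a unit of `A` of valuation `< 1`
        have htm : t ∈ maximalIdeal R := (mem_maximalIdeal t).mpr htu
        rw [hπ.maximalIdeal_eq, Ideal.mem_span_singleton'] at htm
        obtain ⟨t', ht'⟩ := htm
        have htA : algebraMap R A t ∈ maximalIdeal A := by
          rw [← ht', map_mul]
          exact Ideal.mul_mem_left _ _ hπm
        have hu : IsUnit (algebraMap R A t * a - 1) := by
          have h1 : algebraMap R A t * a ∈ maximalIdeal A := Ideal.mul_mem_right _ _ htA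
          have h2 : ¬ (algebraMap R A t * a - 1) ∈ maximalIdeal A := by
            intro h3
            have h4 : (1 : A) ∈ maximalIdeal A := by
              have : (1 : A) = algebraMap R A t * a - (algebraMap R A t * a - 1) := by ring
              rw [this]
              exact Ideal.sub_mem _ h1 h3
            exact (Ideal.ne_top_iff_one _).mp (Ideal.IsPrime.ne_top inferInstance) h4
          by_contra h5
          exact h2 ((mem_maximalIdeal _).mpr h5)
        apply hunitA O hAO _ hu
        have htc : algebraMap R F t * algebraMap K F c = 1 := by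
          rw [IsScalarTower.algebraMap_apply R K F, ht, ← map_mul, inv_mul_cancel₀ hc0, map_one]
        have h6 : algebraMap A F (algebraMap R A t * a - 1) =
            algebraMap R F t * (algebraMap A F a - algebraMap K F c) := by
          rw [map_sub, map_mul, map_one, hRA, mul_sub, htc]
        rw [h6]
        exact wz89_mul_lt O _ _ (hRO t) hc'
  choose ρf hρf using hex
  have huniq : ∀ (a : A) (r : R), O.valuation (algebraMap A F a - algebraMap R F r) < 1 →
      ρf a = r := by
    intro a r hr
    by_contra hne
    have h1 : O.valuation (algebraMap R F (ρf a - r)) < 1 := by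
      have h2 : algebraMap R F (ρf a - r) =
          (algebraMap A F a - algebraMap R F r) - (algebraMap A F a - algebraMap R F (ρf a)) := by
        rw [map_sub]; ring
      rw [h2]
      exact wz89_sub_lt O _ _ hr (hρf a)
    rw [hconst O hAO hπO _ (sub_ne_zero.mpr hne)] at h1
    exact lt_irrefl _ h1
  let ρ : A →+* R :=
    { toFun := ρf
      map_one' := huniq 1 1 (by rw [map_one, map_one, sub_self, map_zero]; exact zero_lt_one)
      map_mul' := fun a b => huniq (a * b) (ρf a * ρf b) (by
        have h1 : algebraMap A F (a * b) - algebraMap R F (ρf a * ρf b) =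
            algebraMap A F a * (algebraMap A F b - algebraMap R F (ρf b)) +
              algebraMap R F (ρf b) * (algebraMap A F a - algebraMap R F (ρf a)) := by
          rw [map_mul, map_mul]; ring
        rw [h1]
        exact wz89_add_lt O _ _ (wz89_mul_lt O _ _ (hAO a) (hρf b))
          (wz89_mul_lt O _ _ (hRO _) (hρf a)))
      map_zero' := huniq 0 0 (by rw [map_zero, map_zero, sub_self, map_zero]; exact zero_lt_one)
      map_add' := fun a b => huniq (a + b) (ρf a + ρf b) (by
        have h1 : algebraMap A F (a + b) - algebraMap R F (ρf a + ρf b) =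
            (algebraMap A F a - algebraMap R F (ρf a)) +
              (algebraMap A F b - algebraMap R F (ρf b)) := by
          rw [map_add, map_add]; ring
        rw [h1]
        exact wz89_add_lt O _ _ (hρf a) (hρf b)) }
  have hρapp : ∀ a : A, ρ a = ρf a := fun _ => rfl
  have hρ : ∀ r : R, ρ (algebraMap R A r) = r := fun r =>
    huniq _ r (by rw [hRA, sub_self, map_zero]; exact zero_lt_one)
  have hker : ∀ a : A, a ∈ RingHom.ker ρ ↔ O.valuation (algebraMap A F a) < 1 := by
    intro a
    rw [RingHom.mem_ker, hρapp]
    constructor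
    · intro h0
      have := hρf a
      rwa [h0, map_zero, sub_zero] at this
    · intro h
      exact huniq a 0 (by rwa [map_zero, sub_zero])
  haveI hkerP : (RingHom.ker ρ).IsPrime := RingHom.ker_isPrime ρ
  obtain ⟨H, hH, a₀, ha₀, hHa⟩ := hstr ρ hρ
  have ha₀ker : algebraMap R A a₀ ∉ RingHom.ker ρ := by
    rw [RingHom.mem_ker, hρ]; exact ha₀
  have ha₀F : algebraMap R F a₀ ≠ 0 := fun h0 => ha₀ (hinjRF (by rw [h0, map_zero]))
  have hprin : ∃ ϖ ∈ RingHom.ker ρ, ∃ s, s ∉ RingHom.ker ρ ∧
      ∀ y ∈ RingHom.ker ρ, ∃ r, s * y = r * ϖ :=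
    ⟨H, hH, algebraMap R A a₀, ha₀ker, fun y hy => by
      obtain ⟨w, hw⟩ := hHa y hy
      exact ⟨w, by rw [hw, mul_comm]⟩⟩
  -- a valuation subring containing `A` whose centre on `A` is `ker ρ` is the localisation
  have reg : ∀ V : ValuationSubring F, (∀ a : A, algebraMap A F a ∈ V) →
      (∀ a : A, a ∈ RingHom.ker ρ ↔ V.valuation (algebraMap A F a) < 1) →
      ∀ x ∈ V, ∃ s, s ∉ RingHom.ker ρ ∧ ∃ a : A, algebraMap A F s * x = algebraMap A F a := by
    intro V hAV hVker x hx
    refine hg19_mem_of_valuation (RingHom.ker ρ) hprin V ?_ ?_ x hx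
    · intro a ha
      exact wz89_inv_mem V _ (fun h => ha ((hVker a).mpr h))
    · intro a ha ha0 hinv
      rcases (wz89_lt_one_iff V _).mp ((hVker a).mp ha) with h | h
      · exact ha0 (hinjA (by rw [h, map_zero]))
      · exact h hinv
  have hsF : ∀ V : ValuationSubring F, (∀ a : A, algebraMap A F a ∈ V) →
      (∀ a : A, a ∈ RingHom.ker ρ ↔ V.valuation (algebraMap A F a) < 1) →
      ∀ s : A, s ∉ RingHom.ker ρ → (algebraMap A F s)⁻¹ ∈ V := fun V _ hVker s hs =>
    wz89_inv_mem V _ (fun h => hs ((hVker s).mpr h))
  -- `H ≠ 0`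
  have hH0 : H ≠ 0 := by
    obtain ⟨y₀, hy₀⟩ : ∃ y₀ : F, y₀ ∉ O := by
      by_contra hall
      exact hOtop (eq_top_iff.mpr fun x _ => by
        by_contra hx
        exact hall ⟨x, hx⟩)
    have hy₀0 : y₀ ≠ 0 := fun h0 => hy₀ (h0 ▸ O.zero_mem)
    have hlt : O.valuation y₀⁻¹ < 1 := by
      rw [wz89_lt_one_iff]; right; rwa [inv_inv]
    obtain ⟨a, b, hb, hab⟩ := IsFractionRing.div_surjective (A := A) y₀⁻¹
    have hb0 : b ≠ 0 := nonZeroDivisors.ne_zero hb
    have hbF : algebraMap A F b ≠ 0 := fun h0 => hb0 (hinjA (by rw [h0, map_zero]))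
    have haF : algebraMap A F a = algebraMap A F b * y₀⁻¹ := by
      rw [← hab]; field_simp
    have haker : a ∈ RingHom.ker ρ := by
      rw [hker, haF]
      exact wz89_mul_lt O _ _ (hAO b) hlt
    have ha0 : a ≠ 0 := by
      intro h0
      rw [h0, map_zero] at haF
      exact (mul_ne_zero hbF (inv_ne_zero hy₀0)) haF.symm
    obtain ⟨w, hw⟩ := hHa a haker
    intro hH0
    rw [hH0, zero_mul] at hw
    rcases mul_eq_zero.mp hw with h | h
    · exact ha₀ker (by rw [h]; exact Ideal.zero_mem _)
    · exact ha0 h
  have hpF : algebraMap A F H ≠ 0 := fun h0 => hH0 (hinjA (by rw [h0, map_zero]))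
  have hpO : O.valuation (algebraMap A F H) < 1 := (hker H).mp hH
  refine ⟨algebraMap A F H, hpF, hAO H, ?_, ?_, ?_⟩
  · intro hinv
    rcases (wz89_lt_one_iff O _).mp hpO with h | h
    · exact hpF h
    · exact h hinv
  · -- uniformiser
    intro x hx hxinv
    have hxlt : O.valuation x < 1 := (wz89_lt_one_iff O x).mpr (Or.inr hxinv)
    obtain ⟨s, hs, a, hsa⟩ := reg O hAO hker x hx
    have haker : a ∈ RingHom.ker ρ := by
      rw [hker, ← hsa]
      exact wz89_mul_lt O _ _ (hAO s) hxlt
    obtain ⟨w, hw⟩ := hHa a haker
    have hsF0 : algebraMap A F s ≠ 0 := fun h0 =>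
      hs (by rw [hinjA (by rw [h0, map_zero] : algebraMap A F s = algebraMap A F 0)];
             exact Ideal.zero_mem _)
    have h1 : algebraMap R F a₀ * (algebraMap A F s * x) =
        algebraMap A F H * algebraMap A F w := by
      rw [hsa, ← hRA, ← map_mul, hw, map_mul]
    have h2 : x * (algebraMap A F H)⁻¹ =
        algebraMap A F w * (algebraMap R F a₀)⁻¹ * (algebraMap A F s)⁻¹ := by
      field_simp
      linear_combination h1
    rw [h2]
    exact O.mul_mem _ _ (O.mul_mem _ _ (hAO w) (wz89_const_inv π hπ O hRO hπO a₀ ha₀))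
      (hsF O hAO hker s hs)
  · -- uniqueness
    intro O' hAO' hπO' hne
    refine ⟨hAO' H, ?_⟩
    by_contra hinv'
    have hpO' : O'.valuation (algebraMap A F H) < 1 := (wz89_lt_one_iff O' _).mpr (Or.inr hinv')
    have hRO' : ∀ r : R, algebraMap R F r ∈ O' := fun r => by rw [← hRA]; exact hAO' _
    have hker' : ∀ a : A, a ∈ RingHom.ker ρ ↔ O'.valuation (algebraMap A F a) < 1 := by
      intro a
      constructor
      · intro ha
        obtain ⟨w, hw⟩ := hHa a ha
        have h1 : algebraMap R F a₀ * algebraMap A F a = algebraMap A F w * algebraMap A F H := by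
          rw [← hRA, ← map_mul, hw, map_mul, mul_comm]
        have h2 := wz89_mul_lt O' _ _ (hAO' w) hpO'
        rw [← h1, map_mul, hconst O' hAO' hπO' a₀ ha₀, one_mul] at h2
        exact h2
      · intro ha
        have h1 : a - algebraMap R A (ρ a) ∈ RingHom.ker ρ := by
          rw [RingHom.mem_ker, map_sub, hρ, sub_self]
        obtain ⟨w, hw⟩ := hHa _ h1
        have h2 : O'.valuation (algebraMap A F (a - algebraMap R A (ρ a))) < 1 := by
          have h3 : algebraMap R F a₀ * algebraMap A F (a - algebraMap R A (ρ a)) =
              algebraMap A F w * algebraMap A F H := by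
            rw [← hRA, ← map_mul, hw, map_mul, mul_comm]
          have h4 := wz89_mul_lt O' _ _ (hAO' w) hpO'
          rw [← h3, map_mul, hconst O' hAO' hπO' a₀ ha₀, one_mul] at h4
          exact h4
        have h5 : O'.valuation (algebraMap R F (ρ a)) < 1 := by
          have h6 : algebraMap R F (ρ a) =
              algebraMap A F a - algebraMap A F (a - algebraMap R A (ρ a)) := by
            rw [map_sub, hRA]; ring
          rw [h6]
          exact wz89_sub_lt O' _ _ ha h2
        rw [RingHom.mem_ker]
        by_contra hρa
        rw [hconst O' hAO' hπO' _ hρa] at h5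
        exact lt_irrefl _ h5
    apply hne
    ext x
    constructor
    · intro hx
      obtain ⟨s, hs, a, hsa⟩ := reg O' hAO' hker' x hx
      have hsF0 : algebraMap A F s ≠ 0 := fun h0 =>
        hs (by rw [hinjA (by rw [h0, map_zero] : algebraMap A F s = algebraMap A F 0)];
               exact Ideal.zero_mem _)
      have h1 : x = algebraMap A F a * (algebraMap A F s)⁻¹ := by
        rw [← hsa]; field_simp
      rw [h1]
      exact O.mul_mem _ _ (hAO a) (hsF O hAO hker s hs)
    · intro hx
      obtain ⟨s, hs, a, hsa⟩ := reg O hAO hker x hx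
      have hsF0 : algebraMap A F s ≠ 0 := fun h0 =>
        hs (by rw [hinjA (by rw [h0, map_zero] : algebraMap A F s = algebraMap A F 0)];
               exact Ideal.zero_mem _)
      have h1 : x = algebraMap A F a * (algebraMap A F s)⁻¹ := by
        rw [← hsa]; field_simp
      rw [h1]
      exact O'.mul_mem _ _ (hAO' a) (hsF O' hAO' hker' s hs)

end Local

/-! ## 3. The chart statement -/

section Chart

variable {R K F : Type*} [CommRing R] [IsDomain R] [IsDiscreteValuationRing R]
  [Field K] [Field F] [Algebra R K] [IsFractionRing R K] [Algebra R F] [Algebra K F]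
  [IsScalarTower R K F]

/-- **(LSW)** Weak local structure of the chart `B` at the closed points of its special fibre:
at every maximal ideal `n ∋ π` the maximal ideal of `B_n` is `(z, z', π)` with `z, z' ∈ B`, and
EITHER `z' = π` (a smooth point of the special fibre)
OR `z z' ∈ π B_n` and there are two primes `p₁ ∋ z`, `p₂ ∋ z'` of `B` inside `n`, both containing
`π`, with `z ∉ p₂` and `z' ∉ p₁` (a two-branch point; NO exact coordinates, NO thickness). -/
def s34w89_LocStrW (π : R) (B : Subalgebra R F) : Prop :=
  ∀ n : Ideal B, n.IsMaximal → algebraMap R B π ∈ n →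
    ∃ z z' : B, z ∈ n ∧ z' ∈ n ∧
      (∀ x ∈ n, ∃ s : B, s ∉ n ∧ ∃ a b c : B, s * x = a * z + b * z' + c * algebraMap R B π) ∧
      (z' = algebraMap R B π ∨
        ∃ p₁ p₂ : Ideal B, p₁.IsPrime ∧ p₂.IsPrime ∧ p₁ ≤ n ∧ p₂ ≤ n ∧
          algebraMap R B π ∈ p₁ ∧ algebraMap R B π ∈ p₂ ∧ z ∈ p₁ ∧ z' ∈ p₂ ∧ z ∉ p₂ ∧ z' ∉ p₁ ∧
          ∃ s c : B, s ∉ n ∧ s * z * z' = algebraMap R B π * c)

/-- **(LSW) ⟹ (UZ)** for a Noetherian chart which is integrally closed in its fraction field
`F`: the LITERAL `s34i47_UniqueZero` of Iface47 from the weak local structure. -/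
theorem s34w89_UZ (π : R) (hπ : Irreducible π) (B : Subalgebra R F) [IsNoetherianRing B]
    (hclosed : ∀ x : F, IsIntegral B x → x ∈ B)
    (hfrac : ∀ x : F, ∃ a ∈ B, ∃ b ∈ B, b ≠ 0 ∧ x * b = a)
    (hLS : s34w89_LocStrW π B) : s34i47_UniqueZero K π B := by
  classical
  intro n hn hπn O hO hThr hRat
  obtain ⟨hOtop, -, -, hπO⟩ := hO
  obtain ⟨hBO, hunitO⟩ := hThr
  haveI hnP : n.IsPrime := hn.isPrime
  haveI hFR : IsFractionRing B F := by
    refine IsFractionRing.of_field B F fun z => ?_
    obtain ⟨a, ha, b, hb, hb0, hab⟩ := hfrac z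
    refine ⟨⟨a, ha⟩, ⟨b, hb⟩, ?_⟩
    show z = a / b
    rw [eq_div_iff hb0]
    exact hab
  haveI hIC : IsIntegrallyClosed B :=
    (isIntegrallyClosed_iff F).mpr fun {y} hy => ⟨⟨y, hclosed y hy⟩, rfl⟩
  have hinjB : Function.Injective (algebraMap B F) := IsFractionRing.injective B F
  let M : Submonoid B := n.primeCompl
  have hMne : ∀ y ∈ M, y ≠ 0 := fun y hy h0 => hy (h0 ▸ n.zero_mem)
  have hM : M ≤ nonZeroDivisors B := fun y hy => mem_nonZeroDivisors_of_ne_zero (hMne y hy)
  haveI : IsDomain (Localization M) := IsLocalization.isDomain_localization hM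
  haveI : IsNoetherianRing (Localization M) :=
    IsLocalization.isNoetherianRing M (Localization M) inferInstance
  haveI : IsIntegrallyClosed (Localization M) :=
    isIntegrallyClosed_of_isLocalization (Localization M) M hM
  haveI : IsLocalRing (Localization M) := IsLocalization.AtPrime.isLocalRing (Localization M) n
  have hunit : ∀ y : M, IsUnit (algebraMap B F y) := fun y =>
    IsUnit.mk0 _ (fun h0 => hMne y y.2 (hinjB (by rw [h0, map_zero])))
  letI : Algebra (Localization M) F :=
    (IsLocalization.lift (M := M) (g := algebraMap B F) hunit).toAlgebra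
  haveI : @IsScalarTower B (Localization M) F Algebra.toSMul Algebra.toSMul Algebra.toSMul :=
    IsScalarTower.of_algebraMap_eq fun y => (IsLocalization.lift_eq hunit y).symm
  haveI : IsFractionRing (Localization M) F :=
    IsFractionRing.isFractionRing_of_isDomain_of_isLocalization M (Localization M) F
  haveI : @IsScalarTower R (Localization M) F Algebra.toSMul Algebra.toSMul Algebra.toSMul :=
    IsScalarTower.of_algebraMap_eq fun r => by
      rw [IsScalarTower.algebraMap_apply R B (Localization M),
        ← IsScalarTower.algebraMap_apply B (Localization M) F]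
      rfl
  -- abbreviations
  have hBA : ∀ b : B, algebraMap (Localization M) F (algebraMap B (Localization M) b) = (b : F) :=
    fun b => (IsScalarTower.algebraMap_apply B (Localization M) F b).symm
  have hmem : ∀ b : B, algebraMap B (Localization M) b ∈ maximalIdeal (Localization M) ↔ b ∈ n :=
    fun b => IsLocalization.AtPrime.to_map_mem_maximal_iff (Localization M) n b
  have hπA : algebraMap R (Localization M) π = algebraMap B (Localization M) (algebraMap R B π) :=
    IsScalarTower.algebraMap_apply R B (Localization M) π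
  have hπm : algebraMap R (Localization M) π ∈ maximalIdeal (Localization M) := by
    rw [hπA, hmem]; exact hπn
  -- a valuation subring through `n` contains `B_n`
  have hthrough : ∀ V : ValuationSubring F, s34i47_Through B n V →
      ∀ a : Localization M, algebraMap (Localization M) F a ∈ V := by
    intro V hV a
    obtain ⟨⟨b, s⟩, hbs⟩ := IsLocalization.surj M a
    have h1 := congrArg (algebraMap (Localization M) F) hbs
    rw [map_mul, hBA, hBA] at h1
    have hs0 : ((s : B) : F) ≠ 0 := fun h0 => hMne s s.2 (Subtype.ext h0)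
    have h2 : algebraMap (Localization M) F a = (b : F) * ((s : B) : F)⁻¹ := by
      rw [← h1]; field_simp
    rw [h2]
    exact V.mul_mem _ _ (hV.1 _ b.2) (hV.2 s s.2)
  -- the local equations
  have hstr : ∀ ρ : Localization M →+* R, (∀ r : R, ρ (algebraMap R (Localization M) r) = r) →
      ∃ H ∈ RingHom.ker ρ, ∃ a : R, a ≠ 0 ∧
        ∀ x ∈ RingHom.ker ρ, ∃ y : Localization M,
          algebraMap R (Localization M) a * x = H * y := by
    intro ρ hρ
    obtain ⟨z, z', hzn, hz'n, hgen, hcase⟩ := hLS n hn hπn
    have hmaxA : maximalIdeal (Localization M) =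
        Ideal.span ({algebraMap R (Localization M) π, algebraMap B (Localization M) z,
          algebraMap B (Localization M) z'} : Set (Localization M)) := by
      apply le_antisymm
      · intro x hx
        obtain ⟨⟨b, t⟩, hbt⟩ := IsLocalization.surj M x
        have hbn : b ∈ n := by
          rw [← hmem, ← hbt]
          exact Ideal.mul_mem_right _ _ hx
        obtain ⟨s, hs, a, b', c, habc⟩ := hgen b hbn
        have hu : IsUnit (algebraMap B (Localization M) (s * (t : B))) := by
          rw [map_mul]
          exact (IsLocalization.map_units (Localization M) (⟨s, hs⟩ : M)).mul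
            (IsLocalization.map_units (Localization M) t)
        obtain ⟨u, hu'⟩ := hu.exists_left_inv
        have h1 : x = u * (algebraMap B (Localization M) a * algebraMap B (Localization M) z +
            algebraMap B (Localization M) b' * algebraMap B (Localization M) z' +
            algebraMap B (Localization M) c * algebraMap R (Localization M) π) := by
          have h2 : algebraMap B (Localization M) (s * (t : B)) * x =
              algebraMap B (Localization M) a * algebraMap B (Localization M) z +
              algebraMap B (Localization M) b' * algebraMap B (Localization M) z' +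
              algebraMap B (Localization M) c * algebraMap R (Localization M) π := by
            have h3 := congrArg (algebraMap B (Localization M)) habc
            rw [map_mul, map_add, map_add, map_mul, map_mul, map_mul, ← hπA] at h3
            rw [map_mul]
            linear_combination (algebraMap B (Localization M) s) * hbt + h3
          rw [← h2, ← mul_assoc, hu', one_mul]
        rw [h1]
        refine Ideal.mul_mem_left _ _ (Ideal.add_mem _ (Ideal.add_mem _ ?_ ?_) ?_)
        · exact Ideal.mul_mem_left _ _ (Ideal.subset_span (by simp))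
        · exact Ideal.mul_mem_left _ _ (Ideal.subset_span (by simp))
        · exact Ideal.mul_mem_left _ _ (Ideal.subset_span (by simp))
      · rw [Ideal.span_le]
        intro x hx
        rcases hx with rfl | rfl | rfl
        · exact hπm
        · exact (hmem z).mpr hzn
        · exact (hmem z').mpr hz'n
    rcases hcase with hsm | ⟨p₁, p₂, hp₁, hp₂, hp₁n, hp₂n, hπp₁, hπp₂, hzp₁, hz'p₂, hzp₂, hz'p₁,
      s, c, hs, hszz⟩
    · -- smooth point: `ker ρ = (z - ρ z)`
      have hz'A : algebraMap B (Localization M) z' = algebraMap R (Localization M) π := by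
        rw [hsm, hπA]
      have hker := dn3_ker π hπ.ne_zero hπ.maximalIdeal_eq (algebraMap B (Localization M) z)
        (algebraMap B (Localization M) z') hmaxA ρ hρ
      refine ⟨algebraMap B (Localization M) z -
          algebraMap R (Localization M) (ρ (algebraMap B (Localization M) z)), ?_, 1, one_ne_zero,
        ?_⟩
      · rw [RingHom.mem_ker, map_sub, hρ, sub_self]
      · intro x hx
        rw [hker, Ideal.mem_span_pair] at hx
        obtain ⟨a, b, hab⟩ := hx
        refine ⟨a, ?_⟩
        rw [map_one, one_mul, ← hab, hz'A, hρ, sub_self, mul_zero, add_zero, mul_comm]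
    · -- two-branch point: `nd89_main`
      have hd₁ : Disjoint (M : Set B) (p₁ : Set B) :=
        Set.disjoint_left.mpr fun x hxM hxp => hxM (hp₁n hxp)
      have hd₂ : Disjoint (M : Set B) (p₂ : Set B) :=
        Set.disjoint_left.mpr fun x hxM hxp => hxM (hp₂n hxp)
      haveI h𝔭 : (p₁.map (algebraMap B (Localization M))).IsPrime :=
        IsLocalization.isPrime_of_isPrime_disjoint M (Localization M) p₁ hp₁ hd₁
      haveI h𝔭' : (p₂.map (algebraMap B (Localization M))).IsPrime :=
        IsLocalization.isPrime_of_isPrime_disjoint M (Localization M) p₂ hp₂ hd₂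
      have hc₁ : ∀ b : B, algebraMap B (Localization M) b ∈ p₁.map (algebraMap B (Localization M))
          ↔ b ∈ p₁ := by
        intro b
        constructor
        · intro h
          have h2 : b ∈ (p₁.map (algebraMap B (Localization M))).under B := h
          rwa [IsLocalization.under_map_of_isPrime_disjoint M (Localization M) hp₁ hd₁] at h2
        · intro h
          exact Ideal.mem_map_of_mem _ h
      have hc₂ : ∀ b : B, algebraMap B (Localization M) b ∈ p₂.map (algebraMap B (Localization M))
          ↔ b ∈ p₂ := by
        intro b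
        constructor
        · intro h
          have h2 : b ∈ (p₂.map (algebraMap B (Localization M))).under B := h
          rwa [IsLocalization.under_map_of_isPrime_disjoint M (Localization M) hp₂ hd₂] at h2
        · intro h
          exact Ideal.mem_map_of_mem _ h
      have hzz : algebraMap R (Localization M) π ∣
          algebraMap B (Localization M) z * algebraMap B (Localization M) z' := by
        obtain ⟨u, hu⟩ := (IsLocalization.map_units (Localization M) (⟨s, hs⟩ : M)).exists_left_inv
        refine ⟨u * algebraMap B (Localization M) c, ?_⟩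
        have h1 := congrArg (algebraMap B (Localization M)) hszz
        rw [map_mul, map_mul, map_mul, ← hπA] at h1
        have hu' : u * algebraMap B (Localization M) s = 1 := hu
        calc algebraMap B (Localization M) z * algebraMap B (Localization M) z'
            = (u * algebraMap B (Localization M) s) *
                (algebraMap B (Localization M) z * algebraMap B (Localization M) z') := by
              rw [hu', one_mul]
          _ = u * (algebraMap B (Localization M) s * algebraMap B (Localization M) z *
                algebraMap B (Localization M) z') := by ring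
          _ = algebraMap R (Localization M) π * (u * algebraMap B (Localization M) c) := by
              rw [h1]; ring
      exact nd89_main π hπ (p₁.map (algebraMap B (Localization M)))
        (p₂.map (algebraMap B (Localization M)))
        (by rw [hπA, hc₁]; exact hπp₁) (by rw [hπA, hc₂]; exact hπp₂)
        (algebraMap B (Localization M) z) (algebraMap B (Localization M) z')
        ((hc₁ z).mpr hzp₁) ((hc₂ z').mpr hz'p₂) (fun h => hzp₂ ((hc₂ z).mp h))
        (fun h => hz'p₁ ((hc₁ z').mp h)) hmaxA hzz ρ hρ
  obtain ⟨p, hp0, hpO, hpinv, hpunif, hpuniq⟩ :=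
    wz89_local (K := K) π hπ hπm hstr O hOtop (hthrough O ⟨hBO, hunitO⟩) hπO hRat
  refine ⟨p, hp0, hpO, hpinv, hpunif, ?_⟩
  intro O' hO' hThr' hne
  exact hpuniq O' (hthrough O' hThr') hO'.2.2.2 hne

/-- **(LSW) ⟹ (UZ)** for the charts `pk15_chart R s` (integral closures, hence integrally
closed in `F`). -/
theorem s34w89_UZ_chart (π : R) (hπ : Irreducible π) (s : Set F)
    [IsNoetherianRing (Fermat.Agent.S18.pk15_chart R s)]
    (hfrac : ∀ x : F, ∃ a ∈ Fermat.Agent.S18.pk15_chart R s,
      ∃ b ∈ Fermat.Agent.S18.pk15_chart R s, b ≠ 0 ∧ x * b = a)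
    (hLS : s34w89_LocStrW π (Fermat.Agent.S18.pk15_chart R s)) :
    s34i47_UniqueZero K π (Fermat.Agent.S18.pk15_chart R s) := by
  refine s34w89_UZ π hπ _ (fun x hx => ?_) hfrac hLS
  rw [Fermat.Agent.S18.pk15_mem_chart]
  have h1 : IsIntegral (integralClosure (Algebra.adjoin R s) F) x := hx
  exact isIntegral_trans x h1

end Chart

end Fermat.Agent.S34
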