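import Mathlib
import Fermat.Agent.S34.WeakUZ89
import Fermat.Agent.S34.AsmUZW96

/-!
# S34 lab (helper89): the package `s34r96_Pkg_UZW` of the THIRD route, literally

`s34r96_Pkg_UZW` (helper96, `AsmUZW96.lean`): on a Noetherian chart `B` with fraction field `F`,
integrally closed in `F`, the weak local structure `s34i47d_LocStrW π B P₁ P₂` (Iface47d; two
prime ideals `P₁`, `P₂ ∋ π`, NO exact node equation) gives the literal `s34i47_UniqueZero K π B`.

* `s34w89_locStrW_of` : `s34i47d_LocStrW π B P₁ P₂ → s34w89_LocStrW π B`.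
* `s34w89_Pkg_UZW` : `s34r96_Pkg_UZW` (via `s34w89_UZ`, i.e. `nd89_main`: a normal node has no
  deep points).
* `s34w89_route3` : `s34r96_assembly` with this package plugged in.
-/

set_option autoImplicit false

namespace Fermat.Agent.S34

/-- the weak local structure of Iface47d gives the weak local structure of `WeakUZ89`. -/
theorem s34w89_locStrW_of {R F : Type*} [CommRing R] [Field F] [Algebra R F] (π : R)
    (B : Subalgebra R F) (P₁ P₂ : Ideal B) (hP₁ : P₁.IsPrime) (hP₂ : P₂.IsPrime)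
    (hπ₁ : algebraMap R B π ∈ P₁) (hπ₂ : algebraMap R B π ∈ P₂)
    (h : s34i47d_LocStrW π B P₁ P₂) : s34w89_LocStrW π B := by
  intro n hn hπn
  obtain ⟨z, z', hz, hz', hgen, hcase⟩ := h n hn hπn
  refine ⟨z, z', hz, hz', hgen, ?_⟩
  rcases hcase with hsm | ⟨h₁n, h₂n, hz₁, hz₂, hz'₂, hz'₁, c, hc⟩
  · exact Or.inl hsm
  · refine Or.inr ⟨P₁, P₂, hP₁, hP₂, h₁n, h₂n, hπ₁, hπ₂, hz₁, hz'₂, hz₂, hz'₁, 1, c, ?_, ?_⟩
    · exact fun h1 => hn.ne_top ((Ideal.eq_top_iff_one n).mpr h1)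
    · rw [one_mul, hc]

/-- **`s34r96_Pkg_UZW` holds**: weak local structure ⟹ literal (UZ) on a normal chart. -/
theorem s34w89_Pkg_UZW : s34r96_Pkg_UZW := by
  intro R K F _ _ _ _ _ _ _ _ _ _ π hπ B hN hfrac hcl P₁ P₂ hP₁ hP₂ hπ₁ hπ₂ hLS
  exact s34w89_UZ π hπ B hcl hfrac (s34w89_locStrW_of π B P₁ P₂ hP₁ hP₂ hπ₁ hπ₂ hLS)

/-- **Third route, with the package (UZW) discharged**: `(U)` at every level `N` with `q ∥ N`,
`p ≠ q` (literally the hypothesis `hU` of `s34e60_main`) from the packages (LP), (KR), (LD),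
FRAME-SAT, FRAME-GAL, FRAME-LS′ (weak: P3 (3a) + (3b) only), FIN and field of definition. -/
theorem s34w89_route3 (hLP : s34i47_Pkg_LP) (hKr : s34i47_Pkg_Krull) (hLD : s34i47_Pkg_LD)
    (hSat : s34i47c_Pkg_FrameSat) (hGal : s34i47c_Pkg_FrameGal)
    (hLSW : s34i47d_Pkg_FrameLSW) (hFin : s34i47_Pkg_Fin) (hFD : s34i47_Pkg_FieldDef)
    {p q N : ℕ} [NeZero N] (hp : p.Prime) (hq : q.Prime) (hqp : q ≠ p) (hqN : q ∣ N)
    (hq2 : ¬ q ^ 2 ∣ N) : lc52_U p q N :=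
  s34r96_assembly s34w89_Pkg_UZW hLP hKr hLD hSat hGal hLSW hFin hFD hp hq hqp hqN hq2

end Fermat.Agent.S34
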