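import Mathlib
import Fermat.Agent.S18.HorizDescent94
import Fermat.Agent.S18.HorizGeom94
import Fermat.Agent.S18.ConstExtModular25
import Fermat.Agent.S24.PlacesBasic
import Fermat.Agent.S34.PlaceDatum69

/-!
# S34 lab (helper69): the Place-form local datum on the modular function field over a number field

Instance of `PlaceDatum69` at `F = modularFunctionFieldFullC K M` (`K` any field of characteristic
zero with an `Algebra K ℚ̄` structure, e.g. a number field inside `ℚ̄`):

* `pdi69_hdvr` : every proper valuation subring of `F` containing `K` is a principal ideal ring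
  (hence a Prelude `Place`);
* `pdi69_finite_ord` : a nonzero function has finitely many zeros and poles among the places of
  `F / K`;
* `pdi69_dvd` : divisibility of all orders over `ℚ̄` descends to `K` (for the canonical `cx_iota`);
* `pdi69_node_datum`, `pdi69_node_datum_of_local_eq` : `pd69_node_datum`,
  `pd69_node_datum_of_local_eq` with `hdvr` and `hfin` discharged.

All names are prefixed `pdi69_`.
-/

set_option autoImplicit false
set_option linter.style.haveILetI false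

namespace Fermat.Agent.S34

open AlgebraicCurve ModularCurve Fermat.Agent.S18 Fermat.Agent.S24

section field

variable (K : Type) [Field K] [CharZero K] [Algebra K (AlgebraicClosure ℚ)] (M : ℕ) [NeZero M]

/-- Every proper valuation subring of `F(M)_K` containing the constants is a principal ideal
ring. -/
theorem pdi69_hdvr (O : ValuationSubring ↥(modularFunctionFieldFullC K M)) (hO : O ≠ ⊤)
    (hK : ∀ a : K, algebraMap K ↥(modularFunctionFieldFullC K M) a ∈ O) :
    IsPrincipalIdealRing O := by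
  haveI := cx_isAlgebraic_closure K
  haveI := g94_finite M
  exact hd94_isPrincipalIdealRing (cx_iota K M) (fun a => by
      apply Subtype.ext
      rw [cx_iota_coe]
      exact cx_coeffMap_algebraMap _ a) _ (g94_transcendental M) O hK hO

/-- A nonzero element of `F(M)_K` has finitely many zeros and poles among the places of
`F(M)_K / K`. -/
theorem pdi69_finite_ord (f : ↥(modularFunctionFieldFullC K M)) (hf : f ≠ 0) :
    {P : Place K ↥(modularFunctionFieldFullC K M) | P.ord f ≠ 0}.Finite := by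
  classical
  have hex := fun P : Place K ↥(modularFunctionFieldFullC K M) =>
    cx_modular_place_exists (cx_iota K M) (cx_iota_coe K M) P
  choose Φ hΦ using hex
  have hinj : Function.Injective Φ := by
    intro P1 P2 h
    apply Place.ext
    ext x
    rw [wp1_mem_iff_ord_nonneg, wp1_mem_iff_ord_nonneg, ← hΦ P1 x, ← hΦ P2 x, h]
  haveI := g94_finite M
  have hfin := wp1_finite_ord_ne_zero _ (g94_transcendental M) (cx_iota K M f)
    ((map_ne_zero _).mpr hf)
  refine Set.Finite.of_finite_image (f := Φ) (hfin.subset ?_) hinj.injOn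
  rintro _ ⟨P, hP, rfl⟩
  show (Φ P).ord (cx_iota K M f) ≠ 0
  rw [hΦ]
  exact hP

/-- Divisibility of all orders over `ℚ̄` descends to `K`. -/
theorem pdi69_dvd (m : ℤ) (f : ↥(modularFunctionFieldFullC K M))
    (h : ∀ P' : Place (AlgebraicClosure ℚ) ↥(modularFunctionFieldBar M),
      m ∣ P'.ord (cx_iota K M f))
    (P : Place K ↥(modularFunctionFieldFullC K M)) : m ∣ P.ord f :=
  cx_modular_place_dvd (cx_iota K M) (cx_iota_coe K M) m f h P

end field

section datum

variable {R K : Type} [CommRing R] [IsDomain R] [IsDiscreteValuationRing R] [Field K]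
  [CharZero K] [Algebra K (AlgebraicClosure ℚ)] [Algebra R K] [IsFractionRing R K]
  {M : ℕ} [NeZero M] [Algebra R ↥(modularFunctionFieldFullC K M)]
  [IsScalarTower R K ↥(modularFunctionFieldFullC K M)]

/-- `pd69_node_datum` on `F(M)_K`: **(P_n) ⟹ the local datum `hLD` of `ntc47_main` at `n`.** -/
theorem pdi69_node_datum (π : R) (hπ : Irreducible π) (hπ0 : algebraMap R ↥(modularFunctionFieldFullC K M) π ≠ 0)
    (W : Subring ↥(modularFunctionFieldFullC K M)) (hWunit : ∀ x ∈ W, (1 + algebraMap R ↥(modularFunctionFieldFullC K M) π * x)⁻¹ ∈ W)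
    (B : Subalgebra R ↥(modularFunctionFieldFullC K M)) (hBW : ∀ x ∈ B, x ∈ W)
    (hBint : ∀ x : ↥(modularFunctionFieldFullC K M), IsIntegral B x → x ∈ B)
    (hsat : ∀ x ∈ B, (algebraMap R ↥(modularFunctionFieldFullC K M) π)⁻¹ * x ∈ W → (algebraMap R ↥(modularFunctionFieldFullC K M) π)⁻¹ * x ∈ B)
    (n : Ideal B) [hn : n.IsPrime]
    (σ τ : ↥(modularFunctionFieldFullC K M) ≃+* ↥(modularFunctionFieldFullC K M))
    (hσK : ∀ a : K, ∃ b : K, σ (algebraMap K ↥(modularFunctionFieldFullC K M) a) = algebraMap K ↥(modularFunctionFieldFullC K M) b)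
    (hτK : ∀ a : K, ∃ b : K, τ (algebraMap K ↥(modularFunctionFieldFullC K M) a) = algebraMap K ↥(modularFunctionFieldFullC K M) b)
    (hσB : ∀ x ∈ B, σ x ∈ B) (hτB : ∀ x ∈ B, τ x ∈ B)
    (hσn : ∀ s : B, s ∉ n → (⟨σ s, hσB s s.2⟩ : B) ∉ n)
    (hτn : ∀ s : B, s ∉ n → (⟨τ s, hτB s s.2⟩ : B) ∉ n)
    (hδ : ∀ g : ↥(modularFunctionFieldFullC K M), g ≠ 0 →
      (algebraMap R ↥(modularFunctionFieldFullC K M) π)⁻¹ * (σ (τ g) * g / (σ g * τ g) - 1) ∈ W)
    (m : ℕ) (f Pn : ↥(modularFunctionFieldFullC K M)) (hf0 : f ≠ 0) (hPn0 : Pn ≠ 0)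
    (hPn : ∀ P : Place K ↥(modularFunctionFieldFullC K M), (∀ x ∈ B, x ∈ P.toValuationSubring) →
      (∀ x : B, x ∉ n → (x : ↥(modularFunctionFieldFullC K M))⁻¹ ∈ P.toValuationSubring) → P.ord f = m * P.ord Pn) :
    ∃ φ : ↥(modularFunctionFieldFullC K M), (algebraMap R ↥(modularFunctionFieldFullC K M) π)⁻¹ * (φ - 1) ∈ W ∧
      ∃ s : B, s ∉ n ∧ (s : ↥(modularFunctionFieldFullC K M)) * (φ ^ m * (σ (τ f) * f / (σ f * τ f))) ∈ B :=
  pd69_node_datum π hπ hπ0 (fun O hO hK => pdi69_hdvr K M O hO hK) W hWunit B hBW hBint hsat n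
    σ τ hσK hτK hσB hτB hσn hτn hδ m f Pn hf0 hPn0 hPn

/-- `pd69_node_datum_of_local_eq` on `F(M)_K`: **local equations at the zeros and poles of `f`
centred inside `n` ⟹ the local datum `hLD` of `ntc47_main` at `n`.** -/
theorem pdi69_node_datum_of_local_eq (π : R) (hπ : Irreducible π)
    (hπ0 : algebraMap R ↥(modularFunctionFieldFullC K M) π ≠ 0)
    (W : Subring ↥(modularFunctionFieldFullC K M)) (hWunit : ∀ x ∈ W, (1 + algebraMap R ↥(modularFunctionFieldFullC K M) π * x)⁻¹ ∈ W)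
    (B : Subalgebra R ↥(modularFunctionFieldFullC K M)) (hBW : ∀ x ∈ B, x ∈ W)
    (hBint : ∀ x : ↥(modularFunctionFieldFullC K M), IsIntegral B x → x ∈ B)
    (hsat : ∀ x ∈ B, (algebraMap R ↥(modularFunctionFieldFullC K M) π)⁻¹ * x ∈ W → (algebraMap R ↥(modularFunctionFieldFullC K M) π)⁻¹ * x ∈ B)
    (n : Ideal B) [hn : n.IsPrime]
    (σ τ : ↥(modularFunctionFieldFullC K M) ≃+* ↥(modularFunctionFieldFullC K M))
    (hσK : ∀ a : K, ∃ b : K, σ (algebraMap K ↥(modularFunctionFieldFullC K M) a) = algebraMap K ↥(modularFunctionFieldFullC K M) b)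
    (hτK : ∀ a : K, ∃ b : K, τ (algebraMap K ↥(modularFunctionFieldFullC K M) a) = algebraMap K ↥(modularFunctionFieldFullC K M) b)
    (hσB : ∀ x ∈ B, σ x ∈ B) (hτB : ∀ x ∈ B, τ x ∈ B)
    (hσn : ∀ s : B, s ∉ n → (⟨σ s, hσB s s.2⟩ : B) ∉ n)
    (hτn : ∀ s : B, s ∉ n → (⟨τ s, hτB s s.2⟩ : B) ∉ n)
    (hδ : ∀ g : ↥(modularFunctionFieldFullC K M), g ≠ 0 →
      (algebraMap R ↥(modularFunctionFieldFullC K M) π)⁻¹ * (σ (τ g) * g / (σ g * τ g) - 1) ∈ W)
    (m : ℕ) (f : ↥(modularFunctionFieldFullC K M)) (hf0 : f ≠ 0)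
    (hm : ∀ P : Place K ↥(modularFunctionFieldFullC K M), (m : ℤ) ∣ P.ord f)
    (hloc : ∀ P : Place K ↥(modularFunctionFieldFullC K M), (∀ x ∈ B, x ∈ P.toValuationSubring) →
      (∀ x : B, x ∉ n → (x : ↥(modularFunctionFieldFullC K M))⁻¹ ∈ P.toValuationSubring) → P.ord f ≠ 0 →
      ∃ c : ↥(modularFunctionFieldFullC K M), c ≠ 0 ∧ P.ord c = 1 ∧
        ∀ P' : Place K ↥(modularFunctionFieldFullC K M), (∀ x ∈ B, x ∈ P'.toValuationSubring) →
          (∀ x : B, x ∉ n → (x : ↥(modularFunctionFieldFullC K M))⁻¹ ∈ P'.toValuationSubring) → P' ≠ P → P'.ord c = 0) :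
    ∃ φ : ↥(modularFunctionFieldFullC K M), (algebraMap R ↥(modularFunctionFieldFullC K M) π)⁻¹ * (φ - 1) ∈ W ∧
      ∃ s : B, s ∉ n ∧ (s : ↥(modularFunctionFieldFullC K M)) * (φ ^ m * (σ (τ f) * f / (σ f * τ f))) ∈ B :=
  pd69_node_datum_of_local_eq π hπ hπ0 (fun O hO hK => pdi69_hdvr K M O hO hK) W hWunit B hBW
    hBint hsat n σ τ hσK hτK hσB hτB hσn hτn hδ m f hf0 (pdi69_finite_ord K M f hf0) hm hloc

end datum

end Fermat.Agent.S34
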