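import Mathlib

/-!
# S34 lab, package P5i (twin, helper48): rational points of a local chart, abstract core

Mathlib-only.  `A` is a Noetherian local domain (the local ring `B_n` of a chart at a closed point
`n` of the special fibre), `R` a discrete valuation ring with uniformizer `ϖ` and fraction field
`K` (`R = R_L`, `K = L`), `F ⊇ A` the function field.  A *horizontal place centred at `n`* is a
valuation subring `O` of `F` with `A ⊆ O` and `ϖ⁻¹ ∈ O`.

* `pi48_factor` : if `r • 𝔮 ⊆ (t)` with `t ∈ 𝔮`, `r ∉ 𝔮` (`𝔮` a prime of a Noetherian domain),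
  then every `a ≠ 0` is `t ^ k * a' / s` with `a', s ∉ 𝔮` (the localisation at `𝔮` is a discrete
  valuation ring with uniformizer `t`).
* `pi48_exists_ev` : a horizontal place `O` which is `K`-rational in evaluation form
  (`∀ a, ∃ c : K, a - c ∈ 𝔪_O`) carries an evaluation map `ρ : A →ₐ[R] R` (the values are
  automatically integral because `O` is centred at the closed point).
* `pi48_mem_iff`, `pi48_unif` : a local equation `c` of the point (`r • ker ρ ⊆ (c)`, `r ≠ 0` in
  `R`) is a uniformizer of `O`, and `O` is determined by `ρ`.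
* `pi48_bad_place` : the package at one place.
* `pi48_exists_psi` : **(P_n)**: if the horizontal places centred at `n` at which `f` is not a
  unit are finitely many and `K`-rational, all orders of `f` there are divisible by `m`, and every
  `R`-point of `A` has a local equation, then there is `ψ ≠ 0` with `f / ψ ^ m` a unit at every
  horizontal place centred at `n`.

All names are prefixed `pi48_`.
-/

set_option autoImplicit false

namespace Fermat.Agent.S34

open IsLocalRing

section pi48_factor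

variable {A : Type*} [CommRing A] [IsDomain A] [IsNoetherianRing A]

/-- If `r • 𝔮 ⊆ (t)` with `t ∈ 𝔮` and `r ∉ 𝔮`, then every nonzero `a` is of the form
`t ^ k * a' / s` with `a', s ∉ 𝔮`. -/
theorem pi48_factor (𝔮 : Ideal A) [𝔮.IsPrime] (t r : A) (ht : t ∈ 𝔮) (hr : r ∉ 𝔮)
    (hle : ∀ x ∈ 𝔮, r * x ∈ Ideal.span {t}) (a : A) (ha : a ≠ 0) :
    ∃ (k : ℕ) (a' s : A), a' ∉ 𝔮 ∧ s ∉ 𝔮 ∧ s * a = t ^ k * a' := by
  classical
  let S := Localization.AtPrime 𝔮
  have : IsNoetherianRing S := IsLocalization.isNoetherianRing 𝔮.primeCompl S inferInstance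
  have hinj : Function.Injective (algebraMap A S) :=
    IsLocalization.injective S 𝔮.primeCompl_le_nonZeroDivisors
  have hunit : IsUnit (algebraMap A S r) :=
    IsLocalization.map_units S (⟨r, hr⟩ : 𝔮.primeCompl)
  obtain ⟨u, hu⟩ := hunit.exists_left_inv
  have hmax : maximalIdeal S = Ideal.span {algebraMap A S t} := by
    rw [← Localization.AtPrime.map_eq_maximalIdeal]
    apply le_antisymm
    · rw [Ideal.map_le_iff_le_comap]
      intro x hx
      rw [Ideal.mem_comap, Ideal.mem_span_singleton']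
      obtain ⟨y, hy⟩ := Ideal.mem_span_singleton'.mp (hle x hx)
      refine ⟨u * algebraMap A S y, ?_⟩
      have h1 : algebraMap A S y * algebraMap A S t = algebraMap A S r * algebraMap A S x := by
        rw [← map_mul, ← map_mul, hy]
      linear_combination u * h1 + algebraMap A S x * hu
    · rw [Ideal.span_singleton_le_iff_mem]
      exact Ideal.mem_map_of_mem _ ht
  have hkrull : ⨅ i : ℕ, maximalIdeal S ^ i = ⊥ :=
    Ideal.iInf_pow_eq_bot_of_isLocalRing _ (IsLocalRing.maximalIdeal.isMaximal S).ne_top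
  have ha' : algebraMap A S a ≠ 0 := fun h => ha (hinj (by rw [h, map_zero]))
  have hex : ∃ k : ℕ, algebraMap A S a ∉ maximalIdeal S ^ k := by
    by_contra hcon
    apply ha'
    have hmem : algebraMap A S a ∈ ⨅ i : ℕ, maximalIdeal S ^ i := by
      rw [Ideal.mem_iInf]
      intro i
      by_contra hi
      exact hcon ⟨i, hi⟩
    rw [hkrull] at hmem
    exact hmem
  obtain ⟨k, hk1, hk2⟩ : ∃ k : ℕ, algebraMap A S a ∈ maximalIdeal S ^ k ∧
      algebraMap A S a ∉ maximalIdeal S ^ (k + 1) := by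
    have h0 : Nat.find hex ≠ 0 := by
      intro h0
      have h1 := Nat.find_spec hex
      rw [h0, pow_zero, Ideal.one_eq_top] at h1
      exact h1 Submodule.mem_top
    obtain ⟨k, hk⟩ := Nat.exists_eq_succ_of_ne_zero h0
    refine ⟨k, ?_, ?_⟩
    · by_contra hcon
      exact Nat.find_min hex (by omega : k < Nat.find hex) hcon
    · have h1 := Nat.find_spec hex
      rw [hk] at h1
      exact h1
  rw [hmax, Ideal.span_singleton_pow] at hk1 hk2
  obtain ⟨y, hy⟩ := Ideal.mem_span_singleton'.mp hk1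
  obtain ⟨⟨a', s⟩, hmk⟩ := IsLocalization.mk'_surjective 𝔮.primeCompl y
  have hspec : y * algebraMap A S (s : A) = algebraMap A S a' := by
    rw [← hmk]; exact IsLocalization.mk'_spec S a' s
  refine ⟨k, a', s, ?_, s.2, ?_⟩
  · intro ha'q
    apply hk2
    have hy𝔪 : y ∈ maximalIdeal S := by
      rw [← hmk]
      exact (IsLocalization.AtPrime.mk'_mem_maximal_iff S 𝔮 a' s).mpr ha'q
    rw [hmax] at hy𝔪
    obtain ⟨w, hw⟩ := Ideal.mem_span_singleton'.mp hy𝔪
    rw [Ideal.mem_span_singleton']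
    refine ⟨w, ?_⟩
    rw [← hy, ← hw, pow_succ]
    ring
  · apply hinj
    rw [map_mul, map_mul, map_pow, ← hspec, ← hy]
    ring

end pi48_factor

section pi48_val

variable {F : Type*} [Field F]

/-- A unit of a valuation subring has valuation one. -/
theorem pi48_val_eq_one (O : ValuationSubring F) {x y : F} (hx : x ∈ O) (hy : y ∈ O)
    (hxy : x * y = 1) : O.valuation x = 1 := by
  have h1 : O.valuation x ≤ 1 := (O.valuation_le_one_iff x).mpr hx
  have h2 : O.valuation y ≤ 1 := (O.valuation_le_one_iff y).mpr hy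
  have h3 : O.valuation x * O.valuation y = 1 := by rw [← map_mul, hxy, map_one]
  by_contra hne
  have h4 : O.valuation x < 1 := lt_of_le_of_ne h1 hne
  have h5 : O.valuation x * O.valuation y < 1 := Left.mul_lt_one_of_lt_of_le h4 h2
  rw [h3] at h5
  exact lt_irrefl _ h5

/-- Valuation one means: a unit of the valuation subring. -/
theorem pi48_val_eq_one_iff (O : ValuationSubring F) (x : F) :
    O.valuation x = 1 ↔ x ≠ 0 ∧ x ∈ O ∧ x⁻¹ ∈ O := by
  constructor
  · intro h
    have hx0 : x ≠ 0 := by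
      rintro rfl
      rw [map_zero] at h
      exact zero_ne_one h
    refine ⟨hx0, (O.valuation_le_one_iff x).mp h.le, (O.valuation_le_one_iff _).mp ?_⟩
    rw [map_inv₀, h, inv_one]
  · rintro ⟨hx0, hx, hxi⟩
    exact pi48_val_eq_one O hx hxi (mul_inv_cancel₀ hx0)

/-- Valuation `< 1` means: zero or the inverse is not in the valuation subring. -/
theorem pi48_val_lt_one_iff (O : ValuationSubring F) (x : F) :
    O.valuation x < 1 ↔ x = 0 ∨ x⁻¹ ∉ O := by
  constructor
  · intro h
    by_cases hx : x = 0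
    · exact Or.inl hx
    · right
      intro hinv
      have h1 : O.valuation x⁻¹ ≤ 1 := (O.valuation_le_one_iff _).mpr hinv
      have h3 : O.valuation x * O.valuation x⁻¹ = 1 := by
        rw [← map_mul, mul_inv_cancel₀ hx, map_one]
      have h5 : O.valuation x * O.valuation x⁻¹ < 1 := Left.mul_lt_one_of_lt_of_le h h1
      rw [h3] at h5
      exact lt_irrefl _ h5
  · rintro (rfl | h)
    · rw [map_zero]; exact zero_lt_one
    · by_contra hcon
      apply h
      rcases O.mem_or_inv_mem x⁻¹ with h1 | h1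
      · exact h1
      · rw [inv_inv] at h1
        have h2 : O.valuation x ≤ 1 := (O.valuation_le_one_iff x).mpr h1
        have h3 : O.valuation x = 1 := le_antisymm h2 (not_lt.mp hcon)
        exact ((pi48_val_eq_one_iff O x).mp h3).2.2

end pi48_val

section pi48_ev

variable {R K A F : Type*} [CommRing R] [IsDomain R] [IsDiscreteValuationRing R]
  [Field K] [Algebra R K] [IsFractionRing R K]
  [CommRing A] [IsLocalRing A] [Algebra R A]
  [Field F] [Algebra A F] [Algebra R F] [Algebra K F] [IsScalarTower R A F] [IsScalarTower R K F]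

omit [IsLocalRing A] in
/-- Nonzero constants of `R` are units at a horizontal place. -/
theorem pi48_val_R (K : Type*) [Field K] [Algebra R K] [IsFractionRing R K] [Algebra K F]
    [IsScalarTower R K F] (O : ValuationSubring F) (hAO : ∀ a : A, algebraMap A F a ∈ O)
    {ϖ : R} (hϖ : Irreducible ϖ) (hϖO : (algebraMap R F ϖ)⁻¹ ∈ O) {r : R} (hr : r ≠ 0) :
    O.valuation (algebraMap R F r) = 1 := by
  have hRO : ∀ r : R, algebraMap R F r ∈ O := fun r => by
    rw [IsScalarTower.algebraMap_apply R A F]; exact hAO _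
  have hinjR : Function.Injective (algebraMap R F) := by
    rw [IsScalarTower.algebraMap_eq R K F]
    exact (algebraMap K F).injective.comp (IsFractionRing.injective R K)
  obtain ⟨n, u, rfl⟩ := IsDiscreteValuationRing.eq_unit_mul_pow_irreducible hr hϖ
  have hϖ0 : algebraMap R F ϖ ≠ 0 := fun h => hϖ.ne_zero (hinjR (by rw [h, map_zero]))
  refine pi48_val_eq_one O (hRO _)
    (y := algebraMap R F ((u⁻¹ : Rˣ) : R) * ((algebraMap R F ϖ)⁻¹) ^ n)
    (O.mul_mem _ _ (hRO _) (O.pow_mem hϖO n)) ?_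
  have h1 : algebraMap R F (u : R) * algebraMap R F ((u⁻¹ : Rˣ) : R) = 1 := by
    rw [← map_mul, Units.mul_inv, map_one]
  have h2 : algebraMap R F ϖ ^ n * ((algebraMap R F ϖ)⁻¹) ^ n = 1 := by
    rw [← mul_pow, mul_inv_cancel₀ hϖ0, one_pow]
  rw [map_mul, map_pow]
  linear_combination (algebraMap R F ϖ ^ n * ((algebraMap R F ϖ)⁻¹) ^ n) * h1 + h2

omit [IsLocalRing A] in
/-- Nonzero constants of `K` are units at a horizontal place. -/
theorem pi48_val_K (O : ValuationSubring F) (hAO : ∀ a : A, algebraMap A F a ∈ O)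
    {ϖ : R} (hϖ : Irreducible ϖ) (hϖO : (algebraMap R F ϖ)⁻¹ ∈ O) {c : K} (hc : c ≠ 0) :
    O.valuation (algebraMap K F c) = 1 := by
  obtain ⟨x, y, hy, rfl⟩ := IsFractionRing.div_surjective R c
  have hy0 : y ≠ 0 := nonZeroDivisors.ne_zero hy
  have hx0 : x ≠ 0 := by
    rintro rfl
    simp at hc
  rw [map_div₀, ← IsScalarTower.algebraMap_apply R K F, ← IsScalarTower.algebraMap_apply R K F,
    map_div₀, pi48_val_R K O hAO hϖ hϖO hx0, pi48_val_R K O hAO hϖ hϖO hy0, div_one]

/-- **Evaluation map.** A horizontal place `O` centred at the closed point of `A` which is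
`K`-rational in evaluation form carries an evaluation map `ρ : A →ₐ[R] R`. -/
theorem pi48_exists_ev (O : ValuationSubring F) (hAO : ∀ a : A, algebraMap A F a ∈ O)
    {ϖ : R} (hϖ : Irreducible ϖ) (hϖO : (algebraMap R F ϖ)⁻¹ ∈ O)
    (hϖA : algebraMap R A ϖ ∈ maximalIdeal A)
    (hrat : ∀ a : A, ∃ c : K, O.valuation (algebraMap A F a - algebraMap K F c) < 1) :
    ∃ ρ : A →ₐ[R] R, ∀ a : A, O.valuation (algebraMap A F a - algebraMap R F (ρ a)) < 1 := by
  classical
  have hRO : ∀ r : R, algebraMap R F r ∈ O := fun r => by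
    rw [IsScalarTower.algebraMap_apply R A F]; exact hAO _
  have hint : ∀ a : A, ∃ r : R, O.valuation (algebraMap A F a - algebraMap R F r) < 1 := by
    intro a
    obtain ⟨c, hc⟩ := hrat a
    by_cases hc0 : c = 0
    · refine ⟨0, ?_⟩
      rw [hc0] at hc
      simpa using hc
    rcases ValuationRing.isInteger_or_isInteger R c with ⟨r, hr⟩ | ⟨r, hr⟩
    · refine ⟨r, ?_⟩
      rw [IsScalarTower.algebraMap_apply R K F, hr]; exact hc
    · by_cases hru : IsUnit r
      · obtain ⟨r', hr'⟩ := hru.exists_right_inv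
        refine ⟨r', ?_⟩
        have hcr : algebraMap R K r' = c := by
          have h1 : algebraMap R K r * algebraMap R K r' = 1 := by rw [← map_mul, hr', map_one]
          rw [hr] at h1
          have h2 : c * (c⁻¹ * algebraMap R K r') = c * 1 := by rw [h1]
          rw [← mul_assoc, mul_inv_cancel₀ hc0, one_mul, mul_one] at h2
          exact h2
        rw [IsScalarTower.algebraMap_apply R K F, hcr]; exact hc
      · exfalso
        have hrm : r ∈ maximalIdeal R := (mem_maximalIdeal r).mpr (mem_nonunits_iff.mpr hru)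
        rw [hϖ.maximalIdeal_eq, Ideal.mem_span_singleton] at hrm
        obtain ⟨r', rfl⟩ := hrm
        have hmem : algebraMap R A (ϖ * r') * a ∈ maximalIdeal A := by
          rw [map_mul]; exact Ideal.mul_mem_right _ _ (Ideal.mul_mem_right _ _ hϖA)
        have hu : IsUnit (1 - algebraMap R A (ϖ * r') * a) :=
          isUnit_one_sub_self_of_mem_nonunits _ ((mem_maximalIdeal _).mp hmem)
        obtain ⟨w, hw⟩ := hu.exists_right_inv
        have hv1 : O.valuation (algebraMap A F (1 - algebraMap R A (ϖ * r') * a)) = 1 :=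
          pi48_val_eq_one O (hAO _) (hAO w) (by rw [← map_mul, hw, map_one])
        have hcF : algebraMap K F c ≠ 0 := fun h =>
          hc0 ((algebraMap K F).injective (by rw [h, map_zero]))
        have he : algebraMap A F (1 - algebraMap R A (ϖ * r') * a) =
            - (algebraMap K F c)⁻¹ * (algebraMap A F a - algebraMap K F c) := by
          rw [map_sub, map_one, map_mul, ← IsScalarTower.algebraMap_apply R A F,
            IsScalarTower.algebraMap_apply R K F, hr, map_inv₀]
          field_simp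
          ring
        rw [he, map_mul, Valuation.map_neg, map_inv₀, pi48_val_K O hAO hϖ hϖO hc0, inv_one,
          one_mul] at hv1
        exact absurd hv1 (ne_of_lt hc)
  choose ρ₀ hρ₀ using hint
  have huniq : ∀ (a : A) (r : R), O.valuation (algebraMap A F a - algebraMap R F r) < 1 →
      ρ₀ a = r := by
    intro a r h
    by_contra hne
    have h1 : O.valuation (algebraMap R F (r - ρ₀ a)) = 1 :=
      pi48_val_R K O hAO hϖ hϖO (sub_ne_zero.mpr (Ne.symm hne))
    have h2 : algebraMap R F (r - ρ₀ a) =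
        (algebraMap A F a - algebraMap R F (ρ₀ a)) - (algebraMap A F a - algebraMap R F r) := by
      rw [map_sub]; ring
    rw [h2] at h1
    exact absurd h1 (ne_of_lt (O.valuation.map_sub_lt (hρ₀ a) h))
  have hle1 : ∀ a : A, O.valuation (algebraMap A F a) ≤ 1 := fun a =>
    (O.valuation_le_one_iff _).mpr (hAO a)
  have hle2 : ∀ r : R, O.valuation (algebraMap R F r) ≤ 1 := fun r =>
    (O.valuation_le_one_iff _).mpr (hRO r)
  refine ⟨{ toFun := ρ₀, map_one' := ?_, map_mul' := ?_, map_zero' := ?_, map_add' := ?_,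
            commutes' := ?_ }, hρ₀⟩
  · apply huniq
    rw [map_one, map_one, sub_self, map_zero]; exact zero_lt_one
  · intro a b
    apply huniq
    have e : algebraMap A F (a * b) - algebraMap R F (ρ₀ a * ρ₀ b) =
        algebraMap A F a * (algebraMap A F b - algebraMap R F (ρ₀ b)) +
          algebraMap R F (ρ₀ b) * (algebraMap A F a - algebraMap R F (ρ₀ a)) := by
      rw [map_mul, map_mul]; ring
    rw [e]
    refine O.valuation.map_add_lt ?_ ?_
    · rw [map_mul]; exact Right.mul_lt_one_of_le_of_lt (hle1 a) (hρ₀ b)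
    · rw [map_mul]; exact Right.mul_lt_one_of_le_of_lt (hle2 _) (hρ₀ a)
  · apply huniq
    rw [map_zero, map_zero, sub_self, map_zero]; exact zero_lt_one
  · intro a b
    apply huniq
    have e : algebraMap A F (a + b) - algebraMap R F (ρ₀ a + ρ₀ b) =
        (algebraMap A F a - algebraMap R F (ρ₀ a)) +
          (algebraMap A F b - algebraMap R F (ρ₀ b)) := by
      rw [map_add, map_add]; ring
    rw [e]
    exact O.valuation.map_add_lt (hρ₀ a) (hρ₀ b)
  · intro r
    apply huniq
    show O.valuation (algebraMap A F (algebraMap R A r) - algebraMap R F r) < 1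
    rw [← IsScalarTower.algebraMap_apply R A F, sub_self, map_zero]; exact zero_lt_one

end pi48_ev

section pi48_main

variable {R K A F : Type*} [CommRing R] [IsDomain R] [IsDiscreteValuationRing R]
  [Field K] [Algebra R K] [IsFractionRing R K]
  [CommRing A] [IsDomain A] [IsLocalRing A] [IsNoetherianRing A] [Algebra R A]
  [Field F] [Algebra A F] [Algebra R F] [Algebra K F] [IsScalarTower R A F] [IsScalarTower R K F]

omit [IsDomain A] [IsLocalRing A] [IsNoetherianRing A] in
/-- The kernel of the evaluation map is the centre of the place. -/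
theorem pi48_ev_eq_zero_iff (K : Type*) [Field K] [Algebra R K] [IsFractionRing R K] [Algebra K F]
    [IsScalarTower R K F] (O : ValuationSubring F) (hAO : ∀ a : A, algebraMap A F a ∈ O)
    {ϖ : R} (hϖ : Irreducible ϖ) (hϖO : (algebraMap R F ϖ)⁻¹ ∈ O) (ρ : A →ₐ[R] R)
    (hρ : ∀ a : A, O.valuation (algebraMap A F a - algebraMap R F (ρ a)) < 1) (a : A) :
    ρ a = 0 ↔ O.valuation (algebraMap A F a) < 1 := by
  constructor
  · intro h
    have h1 := hρ a
    rwa [h, map_zero, sub_zero] at h1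
  · intro h
    by_contra hne
    have h1 : O.valuation (algebraMap R F (ρ a)) = 1 := pi48_val_R K O hAO hϖ hϖO hne
    have h2 : algebraMap R F (ρ a) =
        algebraMap A F a - (algebraMap A F a - algebraMap R F (ρ a)) := by ring
    rw [h2] at h1
    exact absurd h1 (ne_of_lt (O.valuation.map_sub_lt h (hρ a)))

omit [IsDomain A] [IsLocalRing A] [IsNoetherianRing A] in
/-- A function not vanishing at the point is a unit of the place. -/
theorem pi48_ev_ne_zero (K : Type*) [Field K] [Algebra R K] [IsFractionRing R K] [Algebra K F]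
    [IsScalarTower R K F] (O : ValuationSubring F) (hAO : ∀ a : A, algebraMap A F a ∈ O)
    {ϖ : R} (hϖ : Irreducible ϖ) (hϖO : (algebraMap R F ϖ)⁻¹ ∈ O) (ρ : A →ₐ[R] R)
    (hρ : ∀ a : A, O.valuation (algebraMap A F a - algebraMap R F (ρ a)) < 1) (a : A)
    (ha : ρ a ≠ 0) : O.valuation (algebraMap A F a) = 1 :=
  le_antisymm ((O.valuation_le_one_iff _).mpr (hAO a))
    (not_lt.mp (fun h => ha ((pi48_ev_eq_zero_iff K O hAO hϖ hϖO ρ hρ a).mpr h)))

omit [IsDiscreteValuationRing R] [IsLocalRing A] [Algebra R F] [IsScalarTower R A F] in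
/-- Every nonzero function is `c ^ k * (a' / s)` or `c ^ (-k) * (a' / s)` with `a'`, `s` not
vanishing at the point, `c` a local equation of the point. -/
theorem pi48_decomp (hfrac : ∀ x : F, ∃ a b : A, b ≠ 0 ∧ x * algebraMap A F b = algebraMap A F a)
    (hinj : Function.Injective (algebraMap A F)) (ρ : A →ₐ[R] R) (c : A) (hc0 : c ≠ 0) (r : R)
    (hr : r ≠ 0) (hc : ρ c = 0)
    (hle : ∀ x : A, ρ x = 0 → algebraMap R A r * x ∈ Ideal.span {c}) (x : F) (hx : x ≠ 0) :
    ∃ (k : ℕ) (a' s : A), ρ a' ≠ 0 ∧ ρ s ≠ 0 ∧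
      (x * algebraMap A F s = algebraMap A F c ^ k * algebraMap A F a' ∨
        x * algebraMap A F s * algebraMap A F c ^ k = algebraMap A F a') := by
  obtain ⟨a, b, hb, hxab⟩ := hfrac x
  have ha : a ≠ 0 := by
    rintro rfl
    rw [map_zero] at hxab
    rcases mul_eq_zero.mp hxab with h | h
    · exact hx h
    · exact hb (hinj (by rw [h, map_zero]))
  have hprime : (RingHom.ker (ρ : A →+* R)).IsPrime := RingHom.ker_isPrime _
  have hr𝔮 : algebraMap R A r ∉ RingHom.ker (ρ : A →+* R) := by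
    rw [RingHom.mem_ker]
    simpa using hr
  have hle' : ∀ x ∈ RingHom.ker (ρ : A →+* R), algebraMap R A r * x ∈ Ideal.span {c} :=
    fun x hx => hle x hx
  obtain ⟨ka, a', sa, ha', hsa, hea⟩ :=
    pi48_factor (RingHom.ker (ρ : A →+* R)) c (algebraMap R A r) hc hr𝔮 hle' a ha
  obtain ⟨kb, b', sb, hb', hsb, heb⟩ :=
    pi48_factor (RingHom.ker (ρ : A →+* R)) c (algebraMap R A r) hc hr𝔮 hle' b hb
  have hea' : algebraMap A F sa * algebraMap A F a =
      algebraMap A F c ^ ka * algebraMap A F a' := by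
    rw [← map_mul, hea, map_mul, map_pow]
  have heb' : algebraMap A F sb * algebraMap A F b =
      algebraMap A F c ^ kb * algebraMap A F b' := by
    rw [← map_mul, heb, map_mul, map_pow]
  have hcF : algebraMap A F c ≠ 0 := fun h => hc0 (hinj (by rw [h, map_zero]))
  have hmain : x * algebraMap A F (sa * b') * algebraMap A F c ^ kb =
      algebraMap A F c ^ ka * algebraMap A F (sb * a') := by
    rw [map_mul, map_mul]
    linear_combination (-(x * algebraMap A F sa)) * heb' +
      (algebraMap A F sa * algebraMap A F sb) * hxab + algebraMap A F sb * hea'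
  have hρ1 : ρ (sb * a') ≠ 0 := by
    rw [map_mul]; exact mul_ne_zero hsb ha'
  have hρ2 : ρ (sa * b') ≠ 0 := by
    rw [map_mul]; exact mul_ne_zero hsa hb'
  rcases le_total kb ka with hk | hk
  · refine ⟨ka - kb, sb * a', sa * b', hρ1, hρ2, Or.inl ?_⟩
    obtain ⟨d, rfl⟩ := Nat.exists_eq_add_of_le hk
    rw [Nat.add_sub_cancel_left]
    have h1 : (x * algebraMap A F (sa * b')) * algebraMap A F c ^ kb =
        (algebraMap A F c ^ d * algebraMap A F (sb * a')) * algebraMap A F c ^ kb := by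
      rw [hmain, pow_add]; ring
    exact mul_right_cancel₀ (pow_ne_zero _ hcF) h1
  · refine ⟨kb - ka, sb * a', sa * b', hρ1, hρ2, Or.inr ?_⟩
    obtain ⟨d, rfl⟩ := Nat.exists_eq_add_of_le hk
    rw [Nat.add_sub_cancel_left]
    have h1 : (x * algebraMap A F (sa * b') * algebraMap A F c ^ d) * algebraMap A F c ^ ka =
        algebraMap A F (sb * a') * algebraMap A F c ^ ka := by
      rw [pow_add] at hmain
      linear_combination hmain
    exact mul_right_cancel₀ (pow_ne_zero _ hcF) h1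

omit [IsLocalRing A] in
/-- **The place is determined by its evaluation map**: `x ∈ O` iff `x = c ^ k * a' / s` with
`a'`, `s` not vanishing at the point. -/
theorem pi48_mem_iff (hfrac : ∀ x : F, ∃ a b : A, b ≠ 0 ∧ x * algebraMap A F b = algebraMap A F a)
    (hinj : Function.Injective (algebraMap A F)) (K : Type*) [Field K] [Algebra R K]
    [IsFractionRing R K] [Algebra K F] [IsScalarTower R K F]
    (O : ValuationSubring F) (hAO : ∀ a : A, algebraMap A F a ∈ O)
    {ϖ : R} (hϖ : Irreducible ϖ) (hϖO : (algebraMap R F ϖ)⁻¹ ∈ O) (ρ : A →ₐ[R] R)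
    (hρ : ∀ a : A, O.valuation (algebraMap A F a - algebraMap R F (ρ a)) < 1)
    (c : A) (hc0 : c ≠ 0) (r : R) (hr : r ≠ 0) (hc : ρ c = 0)
    (hle : ∀ x : A, ρ x = 0 → algebraMap R A r * x ∈ Ideal.span {c}) (x : F) :
    x ∈ O ↔ x = 0 ∨ ∃ (k : ℕ) (a' s : A), ρ a' ≠ 0 ∧ ρ s ≠ 0 ∧
      x * algebraMap A F s = algebraMap A F c ^ k * algebraMap A F a' := by
  have hvc : O.valuation (algebraMap A F c) < 1 :=
    (pi48_ev_eq_zero_iff K O hAO hϖ hϖO ρ hρ c).mp hc
  have hpow : ∀ k : ℕ, O.valuation (algebraMap A F c) ^ k ≤ 1 := by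
    intro k
    induction k with
    | zero => rw [pow_zero]
    | succ k ih => rw [pow_succ]; exact Left.mul_le_one ih hvc.le
  constructor
  · intro hxO
    by_cases hx : x = 0
    · exact Or.inl hx
    right
    obtain ⟨k, a', s, ha', hs, h | h⟩ := pi48_decomp hfrac hinj ρ c hc0 r hr hc hle x hx
    · exact ⟨k, a', s, ha', hs, h⟩
    · have hv := congrArg O.valuation h
      rw [map_mul, map_mul, map_pow, pi48_ev_ne_zero K O hAO hϖ hϖO ρ hρ s hs,
        pi48_ev_ne_zero K O hAO hϖ hϖO ρ hρ a' ha', mul_one] at hv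
      have hvx : O.valuation x ≤ 1 := (O.valuation_le_one_iff x).mpr hxO
      rcases Nat.eq_zero_or_pos k with rfl | hk
      · refine ⟨0, a', s, ha', hs, ?_⟩
        rw [pow_zero, mul_one] at h
        rw [pow_zero, one_mul]
        exact h
      · exfalso
        obtain ⟨k', rfl⟩ := Nat.exists_eq_succ_of_ne_zero hk.ne'
        have h1 : O.valuation (algebraMap A F c) ^ (k' + 1) < 1 := by
          rw [pow_succ]
          exact Right.mul_lt_one_of_le_of_lt (hpow k') hvc
        have h2 := Right.mul_lt_one_of_le_of_lt hvx h1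
        rw [hv] at h2
        exact lt_irrefl _ h2
  · rintro (rfl | ⟨k, a', s, ha', hs, h⟩)
    · exact O.zero_mem
    · have hv := congrArg O.valuation h
      rw [map_mul, map_mul, map_pow, pi48_ev_ne_zero K O hAO hϖ hϖO ρ hρ s hs,
        pi48_ev_ne_zero K O hAO hϖ hϖO ρ hρ a' ha', mul_one, mul_one] at hv
      rw [← O.valuation_le_one_iff, hv]
      exact hpow k

omit [IsLocalRing A] in
/-- **A local equation of the point is a uniformizer of the place.** -/
theorem pi48_unif (hfrac : ∀ x : F, ∃ a b : A, b ≠ 0 ∧ x * algebraMap A F b = algebraMap A F a)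
    (hinj : Function.Injective (algebraMap A F)) (K : Type*) [Field K] [Algebra R K]
    [IsFractionRing R K] [Algebra K F] [IsScalarTower R K F]
    (O : ValuationSubring F) (hAO : ∀ a : A, algebraMap A F a ∈ O)
    {ϖ : R} (hϖ : Irreducible ϖ) (hϖO : (algebraMap R F ϖ)⁻¹ ∈ O) (ρ : A →ₐ[R] R)
    (hρ : ∀ a : A, O.valuation (algebraMap A F a - algebraMap R F (ρ a)) < 1)
    (c : A) (hc0 : c ≠ 0) (r : R) (hr : r ≠ 0) (hc : ρ c = 0)
    (hle : ∀ x : A, ρ x = 0 → algebraMap R A r * x ∈ Ideal.span {c}) (x : F) (hx : x ∈ O)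
    (hxi : x⁻¹ ∉ O) : x / algebraMap A F c ∈ O := by
  have hx0 : x ≠ 0 := by
    rintro rfl
    exact hxi (by rw [inv_zero]; exact O.zero_mem)
  have hvx : O.valuation x < 1 := (pi48_val_lt_one_iff O x).mpr (Or.inr hxi)
  have hcF : algebraMap A F c ≠ 0 := fun h => hc0 (hinj (by rw [h, map_zero]))
  rcases (pi48_mem_iff hfrac hinj K O hAO hϖ hϖO ρ hρ c hc0 r hr hc hle x).mp hx with
    h | ⟨k, a', s, ha', hs, h⟩
  · exact absurd h hx0
  · rcases Nat.eq_zero_or_pos k with rfl | hk
    · exfalso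
      have hv := congrArg O.valuation h
      rw [pow_zero, one_mul, map_mul, pi48_ev_ne_zero K O hAO hϖ hϖO ρ hρ s hs,
        pi48_ev_ne_zero K O hAO hϖ hϖO ρ hρ a' ha', mul_one] at hv
      rw [hv] at hvx
      exact lt_irrefl _ hvx
    · obtain ⟨k', rfl⟩ := Nat.exists_eq_succ_of_ne_zero hk.ne'
      apply (pi48_mem_iff hfrac hinj K O hAO hϖ hϖO ρ hρ c hc0 r hr hc hle _).mpr
      right
      refine ⟨k', a', s, ha', hs, ?_⟩
      rw [div_mul_eq_mul_div, h, pow_succ]
      field_simp

/-- **The package at one place.**  A horizontal place `O` centred at the closed point of `A` at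
which `f` is not a unit, `K`-rational in evaluation form, with `ord_O f` divisible by `m`:
there are a local equation `c ∈ A` and `k : ℤ` with `f / c ^ (m k)` a unit of `O`, and `c` is a
unit at every other horizontal place centred at the closed point. -/
theorem pi48_bad_place
    (hfrac : ∀ x : F, ∃ a b : A, b ≠ 0 ∧ x * algebraMap A F b = algebraMap A F a)
    (hinj : Function.Injective (algebraMap A F)) (K : Type*) [Field K] [Algebra R K]
    [IsFractionRing R K] [Algebra K F] [IsScalarTower R K F]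
    {ϖ : R} (hϖ : Irreducible ϖ) (hϖA : algebraMap R A ϖ ∈ maximalIdeal A)
    (hLE : ∀ ρ : A →ₐ[R] R, ∃ (c : A) (r : R), r ≠ 0 ∧ ρ c = 0 ∧
      ∀ x : A, ρ x = 0 → algebraMap R A r * x ∈ Ideal.span {c})
    (m : ℕ) (f : F) (O : ValuationSubring F) (hAO : ∀ a : A, algebraMap A F a ∈ O)
    (hϖO : (algebraMap R F ϖ)⁻¹ ∈ O) (hbad : ¬ (f ∈ O ∧ f⁻¹ ∈ O))
    (hrat : ∀ a : A, ∃ c : K, algebraMap A F a = algebraMap K F c ∨
      (algebraMap A F a - algebraMap K F c)⁻¹ ∉ O)
    (hord : ∀ t : F, t ∈ O → t⁻¹ ∉ O → (∀ x ∈ O, x⁻¹ ∉ O → x / t ∈ O) →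
      ∃ k : ℤ, f / t ^ ((m : ℤ) * k) ∈ O ∧ (f / t ^ ((m : ℤ) * k))⁻¹ ∈ O) :
    ∃ (c : A) (k : ℤ), c ≠ 0 ∧
      (f / algebraMap A F c ^ ((m : ℤ) * k) ∈ O ∧
        (f / algebraMap A F c ^ ((m : ℤ) * k))⁻¹ ∈ O) ∧
      ∀ O' : ValuationSubring F, (∀ a : A, algebraMap A F a ∈ O') →
        (algebraMap R F ϖ)⁻¹ ∈ O' → O' ≠ O → (algebraMap A F c)⁻¹ ∈ O' := by
  have hrat' : ∀ a : A, ∃ c : K, O.valuation (algebraMap A F a - algebraMap K F c) < 1 := by
    intro a
    obtain ⟨c, hc⟩ := hrat a
    refine ⟨c, (pi48_val_lt_one_iff O _).mpr ?_⟩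
    rcases hc with hc | hc
    · exact Or.inl (sub_eq_zero.mpr hc)
    · exact Or.inr hc
  obtain ⟨ρ, hρ⟩ := pi48_exists_ev O hAO hϖ hϖO hϖA hrat'
  obtain ⟨c, r, hr, hc, hle⟩ := hLE ρ
  have hrA : algebraMap R A r ≠ 0 := by
    intro h
    apply hr
    have h1 : ρ (algebraMap R A r) = r := by simp
    rw [h, map_zero] at h1
    exact h1.symm
  have hc0 : c ≠ 0 := by
    rintro rfl
    have hker : ∀ a : A, ρ a = 0 → a = 0 := by
      intro a ha
      have h1 := hle a ha
      rw [Ideal.mem_span_singleton'] at h1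
      obtain ⟨y, hy⟩ := h1
      rw [mul_zero] at hy
      rcases mul_eq_zero.mp hy.symm with h | h
      · exact absurd h hrA
      · exact h
    have hall : ∀ x : F, x ∈ O := by
      intro x
      by_cases hx : x = 0
      · rw [hx]; exact O.zero_mem
      obtain ⟨a, b, hb, hxab⟩ := hfrac x
      have ha : a ≠ 0 := by
        rintro rfl
        rw [map_zero] at hxab
        rcases mul_eq_zero.mp hxab with h | h
        · exact hx h
        · exact hb (hinj (by rw [h, map_zero]))
      have hva := pi48_ev_ne_zero K O hAO hϖ hϖO ρ hρ a (fun h => ha (hker a h))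
      have hvb := pi48_ev_ne_zero K O hAO hϖ hϖO ρ hρ b (fun h => hb (hker b h))
      have hv := congrArg O.valuation hxab
      rw [map_mul, hva, hvb, mul_one] at hv
      exact (O.valuation_le_one_iff x).mp hv.le
    exact hbad ⟨hall _, hall _⟩
  have hcF : algebraMap A F c ≠ 0 := fun h => hc0 (hinj (by rw [h, map_zero]))
  have hvc : O.valuation (algebraMap A F c) < 1 :=
    (pi48_ev_eq_zero_iff K O hAO hϖ hϖO ρ hρ c).mp hc
  have hti : (algebraMap A F c)⁻¹ ∉ O := by
    rcases (pi48_val_lt_one_iff O _).mp hvc with h | h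
    · exact absurd h hcF
    · exact h
  obtain ⟨k, hk⟩ := hord (algebraMap A F c) (hAO c) hti
    (pi48_unif hfrac hinj K O hAO hϖ hϖO ρ hρ c hc0 r hr hc hle)
  refine ⟨c, k, hc0, hk, ?_⟩
  intro O' hAO' hϖO' hne
  by_contra hcon
  apply hne
  have hvc' : O'.valuation (algebraMap A F c) < 1 :=
    (pi48_val_lt_one_iff O' _).mpr (Or.inr hcon)
  have hρ' : ∀ a : A, O'.valuation (algebraMap A F a - algebraMap R F (ρ a)) < 1 := by
    intro a
    have hk0 : ρ (a - algebraMap R A (ρ a)) = 0 := by simp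
    obtain ⟨y, hy⟩ := Ideal.mem_span_singleton'.mp (hle _ hk0)
    have hv : O'.valuation (algebraMap A F (y * c)) =
        O'.valuation (algebraMap A F (algebraMap R A r * (a - algebraMap R A (ρ a)))) := by
      rw [hy]
    rw [map_mul, map_mul, map_mul, map_mul, ← IsScalarTower.algebraMap_apply R A F,
      pi48_val_R K O' hAO' hϖ hϖO' hr, one_mul, map_sub,
      ← IsScalarTower.algebraMap_apply R A F] at hv
    rw [← hv]
    exact Right.mul_lt_one_of_le_of_lt ((O'.valuation_le_one_iff _).mpr (hAO' y)) hvc'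
  apply ValuationSubring.ext
  intro x
  rw [pi48_mem_iff hfrac hinj K O' hAO' hϖ hϖO' ρ hρ' c hc0 r hr hc hle x,
    pi48_mem_iff hfrac hinj K O hAO hϖ hϖO ρ hρ c hc0 r hr hc hle x]

/-- **(P_n) from rational points.**  `A` a Noetherian local domain with fraction field `F`, over
the discrete valuation ring `R` (uniformizer `ϖ`, fraction field `K`).  Suppose every `R`-point
`ρ` of `A` has a local equation (`c ∈ ker ρ` with `r • ker ρ ⊆ (c)`, `0 ≠ r ∈ R`).  Let `f ≠ 0`
be a function such that the horizontal places `O ⊇ A`, `ϖ⁻¹ ∈ O`, at which `f` is not a unit are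
finitely many, `K`-rational in evaluation form, and `ord_O f ∈ m ℤ`.  Then there is `ψ ≠ 0` with
`f / ψ ^ m` a unit at every horizontal place centred at the closed point of `A`. -/
theorem pi48_exists_psi
    (hfrac : ∀ x : F, ∃ a b : A, b ≠ 0 ∧ x * algebraMap A F b = algebraMap A F a)
    (hinj : Function.Injective (algebraMap A F)) (K : Type*) [Field K] [Algebra R K]
    [IsFractionRing R K] [Algebra K F] [IsScalarTower R K F]
    {ϖ : R} (hϖ : Irreducible ϖ) (hϖA : algebraMap R A ϖ ∈ maximalIdeal A)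
    (hLE : ∀ ρ : A →ₐ[R] R, ∃ (c : A) (r : R), r ≠ 0 ∧ ρ c = 0 ∧
      ∀ x : A, ρ x = 0 → algebraMap R A r * x ∈ Ideal.span {c})
    (m : ℕ) (f : F) (hf : f ≠ 0)
    (hfin : {O : ValuationSubring F | (∀ a : A, algebraMap A F a ∈ O) ∧
      (algebraMap R F ϖ)⁻¹ ∈ O ∧ ¬ (f ∈ O ∧ f⁻¹ ∈ O)}.Finite)
    (hrat : ∀ O : ValuationSubring F, (∀ a : A, algebraMap A F a ∈ O) →
      (algebraMap R F ϖ)⁻¹ ∈ O → ¬ (f ∈ O ∧ f⁻¹ ∈ O) →
      ∀ a : A, ∃ c : K, algebraMap A F a = algebraMap K F c ∨
        (algebraMap A F a - algebraMap K F c)⁻¹ ∉ O)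
    (hord : ∀ O : ValuationSubring F, (∀ a : A, algebraMap A F a ∈ O) →
      (algebraMap R F ϖ)⁻¹ ∈ O → ¬ (f ∈ O ∧ f⁻¹ ∈ O) →
      ∀ t : F, t ∈ O → t⁻¹ ∉ O → (∀ x ∈ O, x⁻¹ ∉ O → x / t ∈ O) →
      ∃ k : ℤ, f / t ^ ((m : ℤ) * k) ∈ O ∧ (f / t ^ ((m : ℤ) * k))⁻¹ ∈ O) :
    ∃ ψ : F, ψ ≠ 0 ∧ ∀ O : ValuationSubring F, (∀ a : A, algebraMap A F a ∈ O) →
      (algebraMap R F ϖ)⁻¹ ∈ O → f / ψ ^ m ∈ O ∧ (f / ψ ^ m)⁻¹ ∈ O := by
  classical
  have hplace : ∀ O : ValuationSubring F, ∃ (c : A) (k : ℤ),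
      ((∀ a : A, algebraMap A F a ∈ O) ∧ (algebraMap R F ϖ)⁻¹ ∈ O ∧ ¬ (f ∈ O ∧ f⁻¹ ∈ O)) →
      c ≠ 0 ∧
      (f / algebraMap A F c ^ ((m : ℤ) * k) ∈ O ∧
        (f / algebraMap A F c ^ ((m : ℤ) * k))⁻¹ ∈ O) ∧
      ∀ O' : ValuationSubring F, (∀ a : A, algebraMap A F a ∈ O') →
        (algebraMap R F ϖ)⁻¹ ∈ O' → O' ≠ O → (algebraMap A F c)⁻¹ ∈ O' := by
    intro O
    by_cases hO : (∀ a : A, algebraMap A F a ∈ O) ∧ (algebraMap R F ϖ)⁻¹ ∈ O ∧
        ¬ (f ∈ O ∧ f⁻¹ ∈ O)
    · obtain ⟨c, k, h⟩ := pi48_bad_place hfrac hinj K hϖ hϖA hLE m f O hO.1 hO.2.1 hO.2.2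
        (hrat O hO.1 hO.2.1 hO.2.2) (hord O hO.1 hO.2.1 hO.2.2)
      exact ⟨c, k, fun _ => h⟩
    · exact ⟨0, 0, fun h => absurd h hO⟩
  choose c k hck using hplace
  set S : Finset (ValuationSubring F) := hfin.toFinset with hS
  have hmemS : ∀ O : ValuationSubring F, O ∈ S ↔ ((∀ a : A, algebraMap A F a ∈ O) ∧
      (algebraMap R F ϖ)⁻¹ ∈ O ∧ ¬ (f ∈ O ∧ f⁻¹ ∈ O)) := by
    intro O
    rw [hS, Set.Finite.mem_toFinset]
    rfl
  have hcF : ∀ O ∈ S, algebraMap A F (c O) ≠ 0 := by
    intro O hO h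
    exact (hck O ((hmemS O).mp hO)).1 (hinj (by rw [h, map_zero]))
  refine ⟨∏ O ∈ S, algebraMap A F (c O) ^ (k O), ?_, ?_⟩
  · rw [Finset.prod_ne_zero_iff]
    intro O hO
    exact zpow_ne_zero _ (hcF O hO)
  · intro O' hAO' hϖO'
    have hpow : (∏ O ∈ S, algebraMap A F (c O) ^ (k O)) ^ m =
        ∏ O ∈ S, algebraMap A F (c O) ^ ((m : ℤ) * k O) := by
      rw [← Finset.prod_pow]
      refine Finset.prod_congr rfl fun O _ => ?_
      rw [← zpow_natCast, ← zpow_mul, mul_comm]
    -- valuations of the factors at `O'`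
    have hother : ∀ O ∈ S, O ≠ O' →
        O'.valuation (algebraMap A F (c O) ^ ((m : ℤ) * k O)) = 1 := by
      intro O hO hne
      have h1 := (hck O ((hmemS O).mp hO)).2.2 O' hAO' hϖO' (Ne.symm hne)
      have h2 : O'.valuation (algebraMap A F (c O)) = 1 :=
        (pi48_val_eq_one_iff O' _).mpr ⟨hcF O hO, hAO' _, h1⟩
      rw [map_zpow₀, h2, one_zpow]
    have hval : O'.valuation (f / (∏ O ∈ S, algebraMap A F (c O) ^ (k O)) ^ m) = 1 := by
      rw [hpow, map_div₀, map_prod]
      by_cases hO' : O' ∈ S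
      · rw [Finset.prod_eq_single_of_mem O' hO' (fun O hO hne => hother O hO hne), ← map_div₀]
        have h1 := (hck O' ((hmemS O').mp hO')).2.1
        refine (pi48_val_eq_one_iff O' _).mpr ⟨?_, h1.1, h1.2⟩
        exact div_ne_zero hf (zpow_ne_zero _ (hcF O' hO'))
      · rw [Finset.prod_eq_one (fun O hO => hother O hO (fun h => hO' (h ▸ hO))), div_one]
        have h1 : f ∈ O' ∧ f⁻¹ ∈ O' := by
          by_contra hcon
          exact hO' ((hmemS O').mpr ⟨hAO', hϖO', hcon⟩)
        exact (pi48_val_eq_one_iff O' _).mpr ⟨hf, h1.1, h1.2⟩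
    exact ((pi48_val_eq_one_iff O' _).mp hval).2

end pi48_main

end Fermat.Agent.S34
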