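import Mathlib

/-!
# S34 lab, row P1c (twin, helper14): totally ramified constant extensions, abstract part

Mathlib only.  Everything is stated with elementary hypotheses on a valuation subring `V` and an
element `π` (`π ∈ V`, `π⁻¹ ∉ V`, `hmax : x ∈ V → x⁻¹ ∉ V → π⁻¹ * x ∈ V`, i.e. `m_V = π V`, and
`harch`, separatedness); `rg14_of_dvr` produces them from `[IsDiscreteValuationRing V]` and an
irreducible element.

## Part A: expansions `∑_{i<e} a_i π^i` (function-field level, `F₀ ⊆ F`)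

* `rg14_coeff_mem` : `V` a valuation subring of `F`, `π` a non-unit, and `e` such that every
  element of `F₀` which is a non-unit of `V` lies in `π ^ e V` (e.g. `π₀ = π ^ e * unit` is a
  uniformiser of `V ∩ F₀`).  If `∑_{i<e} a_i π^i ∈ V` with `a_i ∈ F₀`, every `a_i` lies in `V`.
* `rg14_coeff_unique` : the expansion is unique.
* `rg14_coeff_mem_pi` : if the sum lies in `π V`, then `a_0 ∈ π V`.
* `rg14_inertia_triv` : if moreover `F = ∑_{i<e} F₀ π^i`, every ring endomorphism `σ` of `F`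
  which is the identity on `F₀` and has `σ π ∈ π V` maps `V` into `V` and is trivial
  modulo `π V`.

## Part C: the fixed field of an inertia group (number-field level)

* `rg14_fixed_decomp` : `V` a discrete valuation ring of `L` with uniformiser `π` and perfect
  residue field of characteristic `p`, `G` a finite group of automorphisms of `L` acting
  trivially on `V / π V`.  Then there are `e ≥ 1` and a fixed `π₀ = π ^ e * unit` which is a
  uniformiser of `V ∩ L^G`; the residue fields of `V ∩ L^G` and `V` coincide;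
  `V = ∑_{i<e} (V ∩ L^G) π^i` and `L = ∑_{i<e} L^G π^i`.
  Ingredients: `rg14_residue_pow_fixed` (norm polynomial), `rg14_residue_fixed`,
  `rg14_fixed_val` (value group), `rg14_approx`, `rg14_span` (integral closure is finite +
  Nakayama).
* `rg14_perf_of_finite` : the perfectness hypothesis for a finite residue field.
-/

set_option autoImplicit false

namespace Fermat.Agent.S34

open scoped BigOperators

section PartA

variable {F₀ F : Type*} [Field F₀] [Field F] [Algebra F₀ F]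

theorem rg14_val_pi_lt_one (V : ValuationSubring F) (π : F) (hπ' : π⁻¹ ∉ V) :
    V.valuation π < 1 := by
  have h : ¬ V.valuation π⁻¹ ≤ 1 := fun h => hπ' ((V.valuation_le_one_iff _).1 h)
  rw [map_inv₀, not_le] at h
  by_contra hc
  rw [not_lt] at hc
  exact absurd (inv_le_one_of_one_le₀ hc) (not_le.2 h)

theorem rg14_val_pi_ne_zero (V : ValuationSubring F) (π : F) (hπ' : π⁻¹ ∉ V) :
    V.valuation π ≠ 0 := by
  intro h
  rw [map_eq_zero] at h
  exact hπ' (by rw [h, inv_zero]; exact V.zero_mem)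

/-- Non-units of `V` coming from `F₀` have valuation at most `v(π)^e`. -/
theorem rg14_val_le_pow (V : ValuationSubring F) (π : F) (hπ' : π⁻¹ ∉ V) (e : ℕ)
    (he : ∀ x : F₀, algebraMap F₀ F x ∈ V → (algebraMap F₀ F x)⁻¹ ∉ V →
      (π ^ e)⁻¹ * algebraMap F₀ F x ∈ V)
    (x : F₀) (hx : V.valuation (algebraMap F₀ F x) < 1) :
    V.valuation (algebraMap F₀ F x) ≤ V.valuation π ^ e := by
  by_cases h0 : algebraMap F₀ F x = 0
  · rw [h0, map_zero]; exact zero_le
  have hxV : algebraMap F₀ F x ∈ V := (V.valuation_le_one_iff _).1 hx.le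
  have hx' : (algebraMap F₀ F x)⁻¹ ∉ V := by
    intro h
    have h1 := (V.valuation_le_one_iff _).2 h
    rw [map_inv₀] at h1
    have h2 : V.valuation (algebraMap F₀ F x) ≠ 0 := by
      rwa [Ne, map_eq_zero]
    have h3 : 1 ≤ V.valuation (algebraMap F₀ F x) := by
      rwa [inv_le_one₀ (zero_lt_iff.2 h2)] at h1
    exact absurd hx (not_lt.2 h3)
  have h := (V.valuation_le_one_iff _).2 (he x hxV hx')
  rw [map_mul, map_inv₀, map_pow] at h
  have hpos : 0 < V.valuation π ^ e :=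
    pow_pos (zero_lt_iff.2 (rg14_val_pi_ne_zero V π hπ')) e
  rwa [inv_mul_le_iff₀ hpos, mul_one] at h

/-- **Coefficients of a `π`-adic expansion over `F₀` of an element of `V` lie in `V`.** -/
theorem rg14_coeff_mem (V : ValuationSubring F) (π : F) (hπ' : π⁻¹ ∉ V) (e : ℕ)
    (he : ∀ x : F₀, algebraMap F₀ F x ∈ V → (algebraMap F₀ F x)⁻¹ ∉ V →
      (π ^ e)⁻¹ * algebraMap F₀ F x ∈ V)
    (a : Fin e → F₀) (h : ∑ i, algebraMap F₀ F (a i) * π ^ (i : ℕ) ∈ V) :
    ∀ i, algebraMap F₀ F (a i) ∈ V := by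
  classical
  set v := V.valuation with hv
  have hπ1 : v π < 1 := rg14_val_pi_lt_one V π hπ'
  have hπ0 : v π ≠ 0 := rg14_val_pi_ne_zero V π hπ'
  by_contra hcon
  rw [not_forall] at hcon
  obtain ⟨i₀, hi₀⟩ := hcon
  have hi₀' : 1 < v (algebraMap F₀ F (a i₀)) := by
    rw [← not_le]; exact fun h => hi₀ ((V.valuation_le_one_iff _).1 h)
  -- an index of maximal valuation
  obtain ⟨j₁, -, hj₁⟩ := Finset.exists_max_image Finset.univ
    (fun i => v (algebraMap F₀ F (a i))) ⟨i₀, Finset.mem_univ _⟩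
  -- the smallest index of maximal valuation
  set S : Finset (Fin e) := Finset.univ.filter
    (fun i => v (algebraMap F₀ F (a i)) = v (algebraMap F₀ F (a j₁))) with hS
  have hSne : S.Nonempty := ⟨j₁, by simp [hS]⟩
  set j := S.min' hSne with hj
  have hjS : j ∈ S := Finset.min'_mem S hSne
  have hjv : v (algebraMap F₀ F (a j)) = v (algebraMap F₀ F (a j₁)) := by
    have := hjS; rw [hS, Finset.mem_filter] at this; exact this.2
  have hjmax : ∀ i, v (algebraMap F₀ F (a i)) ≤ v (algebraMap F₀ F (a j)) := fun i => by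
    rw [hjv]; exact hj₁ i (Finset.mem_univ _)
  have hjlt : ∀ i, i < j → v (algebraMap F₀ F (a i)) < v (algebraMap F₀ F (a j)) := by
    intro i hij
    refine lt_of_le_of_ne (hjmax i) fun heq => ?_
    have : i ∈ S := by rw [hS, Finset.mem_filter]; exact ⟨Finset.mem_univ _, heq.trans hjv⟩
    exact absurd (Finset.min'_le S i this) (not_le.2 hij)
  have hj1 : 1 < v (algebraMap F₀ F (a j)) := lt_of_lt_of_le hi₀' (hjmax i₀)
  have hj0 : v (algebraMap F₀ F (a j)) ≠ 0 := (lt_trans zero_lt_one hj1).ne'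
  have haj0 : algebraMap F₀ F (a j) ≠ 0 := by rwa [Ne, ← map_eq_zero v]
  -- normalise
  set c : F := (algebraMap F₀ F (a j))⁻¹ with hc
  have hcv : v c < 1 := by
    rw [hc, map_inv₀]; exact inv_lt_one_of_one_lt₀ hj1
  have hc' : c = algebraMap F₀ F (a j)⁻¹ := by rw [hc, map_inv₀]
  have hce : v c ≤ v π ^ e := by
    rw [hc'] at hcv ⊢
    exact rg14_val_le_pow V π hπ' e he _ hcv
  have hje : (j : ℕ) + 1 ≤ e := j.2
  have hpow : v π ^ e ≤ v π ^ ((j : ℕ) + 1) := pow_le_pow_of_le_one zero_le hπ1.le hje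
  -- the normalised sum
  have hsum : v (c * ∑ i, algebraMap F₀ F (a i) * π ^ (i : ℕ)) ≤ v π ^ ((j : ℕ) + 1) := by
    rw [map_mul]
    calc v c * v (∑ i, algebraMap F₀ F (a i) * π ^ (i : ℕ)) ≤ v π ^ e * 1 :=
          mul_le_mul' hce ((V.valuation_le_one_iff _).2 h)
      _ = v π ^ e := mul_one _
      _ ≤ _ := hpow
  have hsplit : c * ∑ i, algebraMap F₀ F (a i) * π ^ (i : ℕ) =
      π ^ (j : ℕ) + ∑ i ∈ Finset.univ.erase j, c * (algebraMap F₀ F (a i) * π ^ (i : ℕ)) := by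
    rw [Finset.mul_sum, ← Finset.add_sum_erase _ _ (Finset.mem_univ j)]
    congr 1
    rw [hc, ← mul_assoc, inv_mul_cancel₀ haj0, one_mul]
  have hrest : v (∑ i ∈ Finset.univ.erase j, c * (algebraMap F₀ F (a i) * π ^ (i : ℕ))) ≤
      v π ^ ((j : ℕ) + 1) := by
    refine Valuation.map_sum_le _ fun i hi => ?_
    have hij : i ≠ j := Finset.ne_of_mem_erase hi
    rw [← mul_assoc, map_mul, map_pow]
    rcases lt_or_gt_of_ne hij with hlt | hgt
    · -- i < j : the coefficient is a non-unit from F₀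
      have h1 : v (c * algebraMap F₀ F (a i)) < 1 := by
        rw [hc, map_mul, map_inv₀, inv_mul_lt_iff₀ (zero_lt_iff.2 hj0), mul_one]
        exact hjlt i hlt
      have h2 : c * algebraMap F₀ F (a i) = algebraMap F₀ F ((a j)⁻¹ * a i) := by
        rw [map_mul, hc']
      rw [h2] at h1 ⊢
      calc v (algebraMap F₀ F ((a j)⁻¹ * a i)) * v π ^ (i : ℕ) ≤ v π ^ e * 1 :=
            mul_le_mul' (rg14_val_le_pow V π hπ' e he _ h1) (pow_le_one₀ zero_le hπ1.le)
        _ = v π ^ e := mul_one _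
        _ ≤ _ := hpow
    · -- j < i
      have h1 : v (c * algebraMap F₀ F (a i)) ≤ 1 := by
        rw [hc, map_mul, map_inv₀, inv_mul_le_iff₀ (zero_lt_iff.2 hj0), mul_one]
        exact hjmax i
      calc v (c * algebraMap F₀ F (a i)) * v π ^ (i : ℕ) ≤ 1 * v π ^ ((j : ℕ) + 1) :=
            mul_le_mul' h1 (pow_le_pow_of_le_one zero_le hπ1.le (Nat.succ_le_of_lt hgt))
        _ = _ := one_mul _
  have hfin : v (π ^ (j : ℕ)) ≤ v π ^ ((j : ℕ) + 1) := by
    have : π ^ (j : ℕ) = c * ∑ i, algebraMap F₀ F (a i) * π ^ (i : ℕ) -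
        ∑ i ∈ Finset.univ.erase j, c * (algebraMap F₀ F (a i) * π ^ (i : ℕ)) := by
      rw [hsplit]; ring
    rw [this]
    exact Valuation.map_sub_le v hsum hrest
  rw [map_pow, pow_succ] at hfin
  have hpj : 0 < v π ^ (j : ℕ) := pow_pos (zero_lt_iff.2 hπ0) _
  have : v π ^ (j : ℕ) * 1 ≤ v π ^ (j : ℕ) * v π := by rwa [mul_one]
  have h1 : (1 : V.ValueGroup) ≤ v π := le_of_mul_le_mul_left this hpj
  exact absurd hπ1 (not_lt.2 h1)

/-- **Uniqueness of the expansion** (the powers `π^i`, `i < e`, are linearly independent over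
`F₀`), as soon as `F₀` contains a nonzero non-unit of `V`. -/
theorem rg14_coeff_unique (V : ValuationSubring F) (π : F) (hπ' : π⁻¹ ∉ V) (e : ℕ)
    (he : ∀ x : F₀, algebraMap F₀ F x ∈ V → (algebraMap F₀ F x)⁻¹ ∉ V →
      (π ^ e)⁻¹ * algebraMap F₀ F x ∈ V)
    (t : F₀) (ht : (algebraMap F₀ F t)⁻¹ ∉ V)
    (a : Fin e → F₀) (h : ∑ i, algebraMap F₀ F (a i) * π ^ (i : ℕ) = 0) :
    ∀ i, a i = 0 := by
  intro i
  by_contra hi
  have ht0 : t ≠ 0 := fun h0 => ht (by rw [h0, map_zero, inv_zero]; exact V.zero_mem)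
  have hsum : ∑ k, algebraMap F₀ F ((a i)⁻¹ * t⁻¹ * a k) * π ^ (k : ℕ) ∈ V := by
    have : ∑ k, algebraMap F₀ F ((a i)⁻¹ * t⁻¹ * a k) * π ^ (k : ℕ) =
        algebraMap F₀ F ((a i)⁻¹ * t⁻¹) * ∑ k, algebraMap F₀ F (a k) * π ^ (k : ℕ) := by
      rw [Finset.mul_sum]
      refine Finset.sum_congr rfl fun k _ => ?_
      rw [map_mul, mul_assoc]
    rw [this, h, mul_zero]; exact V.zero_mem
  have h1 := rg14_coeff_mem V π hπ' e he _ hsum i
  apply ht
  have h2 : (a i)⁻¹ * t⁻¹ * a i = t⁻¹ := by field_simp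
  rw [h2, map_inv₀] at h1
  exact h1

/-- The tail `∑_{i ≥ 1} a_i π^i` of an expansion with coefficients in `V` lies in `π V`. -/
theorem rg14_tail_mem (V : ValuationSubring F) (π : F) (hπ : π ∈ V) (hπ' : π⁻¹ ∉ V) (e : ℕ)
    (b : Fin e → F) (hb : ∀ i, b i ∈ V) (w : Fin e → F) (hw : ∀ i, w i ∈ V)
    (hw0 : ∀ i : Fin e, (i : ℕ) = 0 → w i = 0) :
    π⁻¹ * ∑ i : Fin e, b i * (π ^ (i : ℕ) * w i) ∈ V := by
  have hπ0 : π ≠ 0 := fun h => hπ' (by rw [h, inv_zero]; exact V.zero_mem)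
  rw [Finset.mul_sum]
  refine sum_mem fun i _ => ?_
  by_cases hi : (i : ℕ) = 0
  · rw [hw0 i hi, mul_zero, mul_zero, mul_zero]; exact V.zero_mem
  · obtain ⟨k, hk⟩ := Nat.exists_eq_succ_of_ne_zero hi
    have : π⁻¹ * (b i * (π ^ (i : ℕ) * w i)) = b i * (π ^ k * w i) := by
      rw [hk, pow_succ]; field_simp
    rw [this]
    exact mul_mem (hb i) (mul_mem (pow_mem hπ k) (hw i))

/-- If `∑_{i<e} a_i π^i ∈ π V` then the constant coefficient lies in `π V`. -/
theorem rg14_coeff_mem_pi (V : ValuationSubring F) (π : F) (hπ : π ∈ V) (hπ' : π⁻¹ ∉ V) (e : ℕ)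
    (he : ∀ x : F₀, algebraMap F₀ F x ∈ V → (algebraMap F₀ F x)⁻¹ ∉ V →
      (π ^ e)⁻¹ * algebraMap F₀ F x ∈ V)
    (a : Fin e → F₀) (h : π⁻¹ * ∑ i, algebraMap F₀ F (a i) * π ^ (i : ℕ) ∈ V)
    (i₀ : Fin e) (hi₀ : (i₀ : ℕ) = 0) :
    π⁻¹ * algebraMap F₀ F (a i₀) ∈ V := by
  classical
  have hπ0 : π ≠ 0 := fun h => hπ' (by rw [h, inv_zero]; exact V.zero_mem)
  have hsumV : ∑ i, algebraMap F₀ F (a i) * π ^ (i : ℕ) ∈ V := by
    have := mul_mem hπ h
    rwa [← mul_assoc, mul_inv_cancel₀ hπ0, one_mul] at this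
  have hall := rg14_coeff_mem V π hπ' e he a hsumV
  have htail := rg14_tail_mem V π hπ hπ' e (fun i => algebraMap F₀ F (a i)) hall
    (fun i => if (i : ℕ) = 0 then 0 else 1)
    (fun i => by split_ifs; exacts [V.zero_mem, V.one_mem]) (fun i hi => by simp [hi])
  have hsplit : π⁻¹ * algebraMap F₀ F (a i₀) =
      π⁻¹ * ∑ i, algebraMap F₀ F (a i) * π ^ (i : ℕ) -
      π⁻¹ * ∑ i : Fin e, algebraMap F₀ F (a i) *
        (π ^ (i : ℕ) * (if (i : ℕ) = 0 then (0 : F) else 1)) := by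
    rw [← mul_sub, ← Finset.sum_sub_distrib]
    congr 1
    rw [Finset.sum_eq_single i₀]
    · simp [hi₀]
    · intro i _ hi
      have : (i : ℕ) ≠ 0 := fun h0 => hi (Fin.ext (h0.trans hi₀.symm))
      simp [this]
    · intro h; exact absurd (Finset.mem_univ _) h
  rw [hsplit]
  exact sub_mem h htail

/-- **Inertia is trivial modulo `π`.**  If `F = ∑_{i<e} F₀ π^i`, a ring endomorphism of `F` which
fixes `F₀` pointwise and maps `π` into `π V` maps `V` into itself and induces the identity on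
`V / π V`. -/
theorem rg14_inertia_triv (V : ValuationSubring F) (π : F) (hπ : π ∈ V) (hπ' : π⁻¹ ∉ V) (e : ℕ)
    (he : ∀ x : F₀, algebraMap F₀ F x ∈ V → (algebraMap F₀ F x)⁻¹ ∉ V →
      (π ^ e)⁻¹ * algebraMap F₀ F x ∈ V)
    (hspan : ∀ x : F, ∃ a : Fin e → F₀, x = ∑ i, algebraMap F₀ F (a i) * π ^ (i : ℕ))
    (σ : F →+* F) (hσ₀ : ∀ x : F₀, σ (algebraMap F₀ F x) = algebraMap F₀ F x)
    (hσπ : π⁻¹ * σ π ∈ V) (x : F) (hx : x ∈ V) :
    σ x ∈ V ∧ π⁻¹ * (σ x - x) ∈ V := by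
  have hπ0 : π ≠ 0 := fun h => hπ' (by rw [h, inv_zero]; exact V.zero_mem)
  obtain ⟨a, rfl⟩ := hspan x
  have hall := rg14_coeff_mem V π hπ' e he a hx
  set w : F := π⁻¹ * σ π with hw
  have hσπ' : σ π = π * w := by rw [hw, ← mul_assoc, mul_inv_cancel₀ hπ0, one_mul]
  have hdiff : σ (∑ i, algebraMap F₀ F (a i) * π ^ (i : ℕ)) -
      ∑ i, algebraMap F₀ F (a i) * π ^ (i : ℕ) =
      ∑ i : Fin e, algebraMap F₀ F (a i) * (π ^ (i : ℕ) * (w ^ (i : ℕ) - 1)) := by
    rw [map_sum, ← Finset.sum_sub_distrib]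
    refine Finset.sum_congr rfl fun i _ => ?_
    rw [map_mul, map_pow, hσ₀, hσπ']; ring
  have hkey : π⁻¹ * (σ (∑ i, algebraMap F₀ F (a i) * π ^ (i : ℕ)) -
      ∑ i, algebraMap F₀ F (a i) * π ^ (i : ℕ)) ∈ V := by
    rw [hdiff]
    refine rg14_tail_mem V π hπ hπ' e _ hall _
      (fun i => sub_mem (pow_mem hσπ _) V.one_mem) (fun i hi => by rw [hi, pow_zero, sub_self])
  refine ⟨?_, hkey⟩
  have := add_mem hx (mul_mem hπ hkey)
  rwa [← mul_assoc, mul_inv_cancel₀ hπ0, one_mul, add_sub_cancel] at this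

end PartA

section Unif

variable {L : Type*} [Field L]

/-- `m_V = π V` in terms of the valuation. -/
theorem rg14_val_le_pi (V : ValuationSubring L) (π : L)
    (hmax : ∀ x ∈ V, x⁻¹ ∉ V → π⁻¹ * x ∈ V) (hπ' : π⁻¹ ∉ V) (x : L)
    (hx : V.valuation x < 1) : V.valuation x ≤ V.valuation π := by
  by_cases h0 : x = 0
  · rw [h0, map_zero]; exact zero_le
  have hxV : x ∈ V := (V.valuation_le_one_iff _).1 hx.le
  have hx' : x⁻¹ ∉ V := by
    intro h
    have h1 := (V.valuation_le_one_iff _).2 h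
    rw [map_inv₀] at h1
    have h2 : V.valuation x ≠ 0 := by rwa [Ne, map_eq_zero]
    have h3 : 1 ≤ V.valuation x := by rwa [inv_le_one₀ (zero_lt_iff.2 h2)] at h1
    exact absurd hx (not_lt.2 h3)
  have h := (V.valuation_le_one_iff _).2 (hmax x hxV hx')
  rw [map_mul, map_inv₀] at h
  have hpos : 0 < V.valuation π := zero_lt_iff.2 (rg14_val_pi_ne_zero V π hπ')
  rwa [inv_mul_le_iff₀ hpos, mul_one] at h

/-- Normal form in a discrete valuation ring: every nonzero element of `V` has the valuation of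
a power of `π`. -/
theorem rg14_normal_form (V : ValuationSubring L) (π : L)
    (hmax : ∀ x ∈ V, x⁻¹ ∉ V → π⁻¹ * x ∈ V) (hπ' : π⁻¹ ∉ V)
    (harch : ∀ x ∈ V, x ≠ 0 → ∃ n : ℕ, (π ^ n)⁻¹ * x ∉ V)
    (x : L) (hx : x ∈ V) (hx0 : x ≠ 0) :
    ∃ k : ℕ, V.valuation x = V.valuation π ^ k := by
  classical
  have hπ0 : V.valuation π ≠ 0 := rg14_val_pi_ne_zero V π hπ'
  have hex := harch x hx hx0
  set n := Nat.find hex with hn
  have hn1 : (π ^ n)⁻¹ * x ∉ V := Nat.find_spec hex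
  have hn0 : n ≠ 0 := by
    intro h0
    rw [h0, pow_zero, inv_one, one_mul] at hn1
    exact hn1 hx
  obtain ⟨k, hk⟩ := Nat.exists_eq_succ_of_ne_zero hn0
  have hk1 : (π ^ k)⁻¹ * x ∈ V := by
    have := Nat.find_min hex (m := k) (by rw [← hn, hk]; exact Nat.lt_succ_self k)
    exact not_not.1 this
  refine ⟨k, ?_⟩
  have hle : V.valuation ((π ^ k)⁻¹ * x) ≤ 1 := (V.valuation_le_one_iff _).2 hk1
  have hge : ¬ V.valuation ((π ^ k)⁻¹ * x) < 1 := by
    intro hlt
    have h1 := rg14_val_le_pi V π hmax hπ' _ hlt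
    apply hn1
    rw [← V.valuation_le_one_iff, hk, pow_succ, mul_inv, mul_assoc, mul_comm, mul_assoc,
      map_mul]
    rw [mul_comm] at h1
    calc V.valuation π⁻¹ * V.valuation (x * (π ^ k)⁻¹) ≤ V.valuation π⁻¹ * V.valuation π :=
          mul_le_mul' le_rfl h1
      _ = 1 := by rw [map_inv₀, inv_mul_cancel₀ hπ0]
  have heq : V.valuation ((π ^ k)⁻¹ * x) = 1 := le_antisymm hle (not_lt.1 hge)
  rw [map_mul, map_inv₀, map_pow] at heq
  have hpos : V.valuation π ^ k ≠ 0 := pow_ne_zero _ hπ0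
  rw [inv_mul_eq_one₀ hpos] at heq
  exact heq.symm

/-- The elementary hypotheses on `(V, π)` used in this file hold for a valuation subring which
is a discrete valuation ring, with `π` any irreducible element. -/
theorem rg14_of_dvr (V : ValuationSubring L) [IsDiscreteValuationRing V] (ϖ : V)
    (hϖ : Irreducible ϖ) :
    (ϖ : L) ∈ V ∧ (ϖ : L)⁻¹ ∉ V ∧ (∀ x ∈ V, x⁻¹ ∉ V → (ϖ : L)⁻¹ * x ∈ V) ∧
      (∀ x ∈ V, x ≠ 0 → ∃ n : ℕ, ((ϖ : L) ^ n)⁻¹ * x ∉ V) := by
  have hϖ0 : (ϖ : L) ≠ 0 := fun h => hϖ.ne_zero (Subtype.ext h)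
  have hinv : (ϖ : L)⁻¹ ∉ V := by
    intro h
    exact hϖ.not_isUnit (isUnit_iff_exists_inv.2 ⟨⟨_, h⟩, Subtype.ext (mul_inv_cancel₀ hϖ0)⟩)
  refine ⟨ϖ.2, hinv, ?_, ?_⟩
  · intro x hx hx'
    have hnu : ¬ IsUnit (⟨x, hx⟩ : V) := by
      intro hu
      obtain ⟨w, hw⟩ := isUnit_iff_exists_inv.1 hu
      have h1 : x * (w : L) = 1 := congrArg (fun t : V => (t : L)) hw
      apply hx'
      rw [← eq_inv_of_mul_eq_one_right h1]
      exact w.2
    have hmem : (⟨x, hx⟩ : V) ∈ IsLocalRing.maximalIdeal V :=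
      (IsLocalRing.mem_maximalIdeal _).2 hnu
    rw [hϖ.maximalIdeal_eq, Ideal.mem_span_singleton] at hmem
    obtain ⟨y, hy⟩ := hmem
    have h1 : x = (ϖ : L) * (y : L) := congrArg (fun t : V => (t : L)) hy
    rw [h1, ← mul_assoc, inv_mul_cancel₀ hϖ0, one_mul]
    exact y.2
  · intro x hx hx0
    have hx0' : (⟨x, hx⟩ : V) ≠ 0 := fun h => hx0 (congrArg (fun t : V => (t : L)) h)
    obtain ⟨n, u, hu⟩ := IsDiscreteValuationRing.eq_unit_mul_pow_irreducible hx0' hϖ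
    refine ⟨n + 1, fun hmem => ?_⟩
    have h1 : x = ((u : V) : L) * (ϖ : L) ^ n := congrArg (fun t : V => (t : L)) hu
    have h2 : ((ϖ : L) ^ (n + 1))⁻¹ * x = (ϖ : L)⁻¹ * ((u : V) : L) := by
      rw [h1, pow_succ]
      field_simp
    rw [h2] at hmem
    -- then `ϖ⁻¹ = (ϖ⁻¹ u) u⁻¹ ∈ V`
    apply hinv
    have h3 : (ϖ : L)⁻¹ = (ϖ : L)⁻¹ * ((u : V) : L) * (((u⁻¹ : Vˣ) : V) : L) := by
      have h4 : ((u : V) : L) * (((u⁻¹ : Vˣ) : V) : L) = 1 :=
        congrArg (fun t : V => (t : L)) (Units.mul_inv u)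
      rw [mul_assoc, h4, mul_one]
    rw [h3]
    exact mul_mem hmem (((u⁻¹ : Vˣ) : V)).2

/-- A finite residue field of characteristic `p` is perfect: the hypothesis `hperf` of
`rg14_fixed_decomp`. -/
theorem rg14_perf_of_finite (V : ValuationSubring L) (π : L)
    (hmax : ∀ x ∈ V, x⁻¹ ∉ V → π⁻¹ * x ∈ V) (hπ' : π⁻¹ ∉ V)
    [Finite (IsLocalRing.ResidueField V)] (p : ℕ) (hp : p.Prime) (hpV : π⁻¹ * (p : L) ∈ V)
    (x : L) (hx : x ∈ V) : ∃ y ∈ V, π⁻¹ * (x - y ^ p) ∈ V := by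
  have hv0 : V.valuation π ≠ 0 := rg14_val_pi_ne_zero V π hπ'
  have hres0 : ∀ z : V, IsLocalRing.residue V z = 0 ↔ π⁻¹ * (z : L) ∈ V := by
    intro z
    rw [IsLocalRing.residue_eq_zero_iff, ValuationSubring.valuation_lt_one_iff]
    constructor
    · intro h
      have h1 := rg14_val_le_pi V π hmax hπ' _ h
      rw [← V.valuation_le_one_iff, map_mul, map_inv₀, inv_mul_le_iff₀ (zero_lt_iff.2 hv0),
        mul_one]
      exact h1
    · intro h
      rw [← V.valuation_le_one_iff, map_mul, map_inv₀, inv_mul_le_iff₀ (zero_lt_iff.2 hv0),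
        mul_one] at h
      exact lt_of_le_of_lt h (rg14_val_pi_lt_one V π hπ')
  have : Fact p.Prime := ⟨hp⟩
  have hpk : ((p : ℕ) : IsLocalRing.ResidueField V) = 0 := by
    have h1 : IsLocalRing.residue V ((p : ℕ) : V) = 0 := by
      rw [hres0]
      simpa using hpV
    simpa using h1
  have : CharP (IsLocalRing.ResidueField V) p := by
    have hdvd : ringChar (IsLocalRing.ResidueField V) ∣ p :=
      (ringChar.spec (IsLocalRing.ResidueField V) p).1 hpk
    have h1 : ringChar (IsLocalRing.ResidueField V) ≠ 1 := CharP.ringChar_ne_one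
    have heq : ringChar (IsLocalRing.ResidueField V) = p :=
      (Nat.dvd_prime hp).1 hdvd |>.resolve_left h1
    exact ringChar.of_eq heq
  have hsurj : Function.Surjective (frobenius (IsLocalRing.ResidueField V) p) :=
    Finite.surjective_of_injective (frobenius_inj (IsLocalRing.ResidueField V) p)
  obtain ⟨c, hc⟩ := hsurj (IsLocalRing.residue V ⟨x, hx⟩)
  obtain ⟨y, rfl⟩ := IsLocalRing.residue_surjective c
  refine ⟨y, y.2, ?_⟩
  have h2 : IsLocalRing.residue V (⟨x, hx⟩ - y ^ p) = 0 := by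
    rw [map_sub, map_pow, ← hc, frobenius_def, sub_self]
  exact (hres0 _).1 h2

end Unif

section PartC

open Polynomial

variable {L : Type*} [Field L] {G : Type*} [Group G] [MulSemiringAction G L]

/-- The group preserves `V`. -/
theorem rg14_smul_mem (V : ValuationSubring L) (π : L) (hπ : π ∈ V) (hπ' : π⁻¹ ∉ V)
    (hG : ∀ g : G, ∀ x ∈ V, π⁻¹ * (g • x - x) ∈ V) (g : G) (x : L) (hx : x ∈ V) :
    g • x ∈ V := by
  have hπ0 : π ≠ 0 := fun h => hπ' (by rw [h, inv_zero]; exact V.zero_mem)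
  have := add_mem hx (mul_mem hπ (hG g x hx))
  rwa [← mul_assoc, mul_inv_cancel₀ hπ0, one_mul, add_sub_cancel] at this

theorem rg14_val_smul_pi_le (V : ValuationSubring L) (π : L) (hπ : π ∈ V) (hπ' : π⁻¹ ∉ V)
    (hG : ∀ g : G, ∀ x ∈ V, π⁻¹ * (g • x - x) ∈ V) (g : G) :
    π⁻¹ * g • π ∈ V := by
  have hπ0 : π ≠ 0 := fun h => hπ' (by rw [h, inv_zero]; exact V.zero_mem)
  have := add_mem (hG g π hπ) V.one_mem
  rwa [mul_sub, inv_mul_cancel₀ hπ0, sub_add_cancel] at this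

/-- `g • π` is `π` times a unit. -/
theorem rg14_val_smul_pi (V : ValuationSubring L) (π : L) (hπ : π ∈ V) (hπ' : π⁻¹ ∉ V)
    (hG : ∀ g : G, ∀ x ∈ V, π⁻¹ * (g • x - x) ∈ V) (g : G) :
    V.valuation (g • π) = V.valuation π := by
  have hπ0 : π ≠ 0 := fun h => hπ' (by rw [h, inv_zero]; exact V.zero_mem)
  have hv0 : V.valuation π ≠ 0 := rg14_val_pi_ne_zero V π hπ'
  have hgπ0 : g • π ≠ 0 := by
    intro h
    apply hπ0
    have := congrArg (fun y => g⁻¹ • y) h
    simpa using this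
  refine le_antisymm ?_ ?_
  · have h := (V.valuation_le_one_iff _).2 (rg14_val_smul_pi_le V π hπ hπ' hG g)
    rwa [map_mul, map_inv₀, inv_mul_le_iff₀ (zero_lt_iff.2 hv0), mul_one] at h
  · have h1 := rg14_smul_mem V π hπ hπ' hG g _ (rg14_val_smul_pi_le V π hπ hπ' hG g⁻¹)
    rw [smul_mul', smul_inv'', smul_inv_smul] at h1
    have h := (V.valuation_le_one_iff _).2 h1
    have hv1 : V.valuation (g • π) ≠ 0 := by rwa [Ne, map_eq_zero]
    rwa [map_mul, map_inv₀, inv_mul_le_iff₀ (zero_lt_iff.2 hv1), mul_one] at h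

/-- The norm of `π` is fixed and has valuation `v(π)^|G|`. -/
theorem rg14_norm (V : ValuationSubring L) (π : L) (hπ : π ∈ V) (hπ' : π⁻¹ ∉ V)
    (hG : ∀ g : G, ∀ x ∈ V, π⁻¹ * (g • x - x) ∈ V) [Fintype G] :
    (∀ g : G, g • (∏ h : G, h • π) = ∏ h : G, h • π) ∧
      V.valuation (∏ h : G, h • π) = V.valuation π ^ Fintype.card G := by
  refine ⟨fun g => Finset.smul_prod_perm π g, ?_⟩
  rw [map_prod, Finset.prod_congr rfl (fun h _ => rg14_val_smul_pi V π hπ hπ' hG h),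
    Finset.prod_const, Finset.card_univ]

/-- **Value group of the fixed field**: if `e` is the least positive exponent with
`v(π)^e` a value of a fixed element, all fixed elements of `V` have valuation in `v(π)^(eℕ)`. -/
theorem rg14_fixed_val (V : ValuationSubring L) (π : L)
    (hmax : ∀ x ∈ V, x⁻¹ ∉ V → π⁻¹ * x ∈ V) (hπ' : π⁻¹ ∉ V)
    (harch : ∀ x ∈ V, x ≠ 0 → ∃ n : ℕ, (π ^ n)⁻¹ * x ∉ V)
    (e : ℕ) (he : 0 < e) (π₀ : L) (hπ₀ : ∀ g : G, g • π₀ = π₀)
    (hvπ₀ : V.valuation π₀ = V.valuation π ^ e)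
    (hmin : ∀ d : ℕ, 0 < d → d < e →
      ¬ ∃ y : L, (∀ g : G, g • y = y) ∧ V.valuation y = V.valuation π ^ d)
    (x : L) (hxG : ∀ g : G, g • x = x) (hx : x ∈ V) (hx0 : x ≠ 0) :
    ∃ k : ℕ, V.valuation x = V.valuation π ^ (e * k) := by
  have hv0 : V.valuation π ≠ 0 := rg14_val_pi_ne_zero V π hπ'
  obtain ⟨j, hj⟩ := rg14_normal_form V π hmax hπ' harch x hx hx0
  refine ⟨j / e, ?_⟩
  by_cases hr : j % e = 0
  · rw [hj, Nat.mul_div_cancel' (Nat.dvd_of_mod_eq_zero hr)]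
  exfalso
  refine hmin (j % e) (Nat.pos_of_ne_zero hr) (Nat.mod_lt _ he) ⟨x * (π₀ ^ (j / e))⁻¹, ?_, ?_⟩
  · intro g
    rw [smul_mul', smul_inv'', smul_pow', hxG, hπ₀]
  · rw [map_mul, map_inv₀, map_pow, hvπ₀, hj, ← pow_mul]
    have hpos : V.valuation π ^ (e * (j / e)) ≠ 0 := pow_ne_zero _ hv0
    rw [mul_inv_eq_iff_eq_mul₀ hpos, ← pow_add, Nat.mod_add_div]

/-- The residue map of `V` kills exactly `π V`. -/
theorem rg14_residue_eq_zero_iff (V : ValuationSubring L) (π : L)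
    (hmax : ∀ x ∈ V, x⁻¹ ∉ V → π⁻¹ * x ∈ V) (hπ' : π⁻¹ ∉ V) (x : V) :
    IsLocalRing.residue V x = 0 ↔ π⁻¹ * (x : L) ∈ V := by
  have hv0 : V.valuation π ≠ 0 := rg14_val_pi_ne_zero V π hπ'
  rw [IsLocalRing.residue_eq_zero_iff, ValuationSubring.valuation_lt_one_iff]
  constructor
  · intro h
    have h1 := rg14_val_le_pi V π hmax hπ' _ h
    rw [← V.valuation_le_one_iff, map_mul, map_inv₀, inv_mul_le_iff₀ (zero_lt_iff.2 hv0),
      mul_one]
    exact h1
  · intro h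
    rw [← V.valuation_le_one_iff, map_mul, map_inv₀, inv_mul_le_iff₀ (zero_lt_iff.2 hv0),
      mul_one] at h
    exact lt_of_le_of_lt h (rg14_val_pi_lt_one V π hπ')

theorem rg14_residue_eq_iff (V : ValuationSubring L) (π : L)
    (hmax : ∀ x ∈ V, x⁻¹ ∉ V → π⁻¹ * x ∈ V) (hπ' : π⁻¹ ∉ V) (x y : V) :
    IsLocalRing.residue V x = IsLocalRing.residue V y ↔ π⁻¹ * ((x : L) - y) ∈ V := by
  rw [← sub_eq_zero, ← map_sub, rg14_residue_eq_zero_iff V π hmax hπ']
  rfl

/-- **Norm-polynomial argument.**  If `|G| = p^a m` with `p ∤ m`, `p` the residue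
characteristic, and `G` acts trivially on the residue field, then every `p^a`-th power in the
residue field is the residue of a fixed element. -/
theorem rg14_residue_pow_fixed (V : ValuationSubring L) (π : L) (hπ : π ∈ V)
    (hmax : ∀ x ∈ V, x⁻¹ ∉ V → π⁻¹ * x ∈ V) (hπ' : π⁻¹ ∉ V)
    (hG : ∀ g : G, ∀ x ∈ V, π⁻¹ * (g • x - x) ∈ V) [Fintype G]
    (p : ℕ) (hp : p.Prime) (hpV : π⁻¹ * (p : L) ∈ V)
    (a m : ℕ) (hcard : Fintype.card G = p ^ a * m) (hm : ¬ p ∣ m) (x : V) :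
    ∃ y : V, (∀ g : G, g • (y : L) = y) ∧
      IsLocalRing.residue V y = (IsLocalRing.residue V x) ^ (p ^ a) := by
  classical
  have : Fact p.Prime := ⟨hp⟩
  set k := IsLocalRing.ResidueField V
  set ρ : V →+* k := IsLocalRing.residue V with hρ
  have hpk : ((p : ℕ) : k) = 0 := by
    have h1 : ρ ((p : ℕ) : V) = 0 := by
      rw [hρ, rg14_residue_eq_zero_iff V π hmax hπ']
      simpa using hpV
    simpa using h1
  have : CharP k p := by
    have hdvd : ringChar k ∣ p := (ringChar.spec k p).1 hpk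
    have h1 : ringChar k ≠ 1 := CharP.ringChar_ne_one
    have heq : ringChar k = p := (Nat.dvd_prime hp).1 hdvd |>.resolve_left h1
    exact ringChar.of_eq heq
  have hm0 : m ≠ 0 := fun h => hm (h ▸ dvd_zero p)
  -- the polynomial over `V`
  have hmem : ∀ g : G, g • (x : L) ∈ V := fun g => rg14_smul_mem V π hπ hπ' hG g _ x.2
  set PV : V[X] := ∏ g : G, (X - C (⟨g • (x : L), hmem g⟩ : V)) with hPV
  have h1 : PV.map V.subtype = MulSemiringAction.charpoly G (x : L) := by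
    rw [hPV, Polynomial.map_prod, MulSemiringAction.charpoly_eq]
    refine Finset.prod_congr rfl fun g _ => ?_
    rw [Polynomial.map_sub, Polynomial.map_X, Polynomial.map_C]
    rfl
  set c : k := ρ x with hc
  have hres : ∀ g : G, ρ (⟨g • (x : L), hmem g⟩ : V) = c := by
    intro g
    rw [hc, hρ, rg14_residue_eq_iff V π hmax hπ']
    exact hG g _ x.2
  have h2 : PV.map ρ = (X - C c) ^ (p ^ a * m) := by
    rw [hPV, Polynomial.map_prod, ← hcard, ← Finset.card_univ, ← Finset.prod_const]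
    refine Finset.prod_congr rfl fun g _ => ?_
    rw [Polynomial.map_sub, Polynomial.map_X, Polynomial.map_C, hres g]
  have h3 : (X - C c : k[X]) ^ (p ^ a * m) =
      Polynomial.expand k (p ^ a) ((X - C (c ^ (p ^ a))) ^ m) := by
    rw [pow_mul, sub_pow_char_pow, map_pow, map_sub, Polynomial.expand_X, Polynomial.expand_C,
      ← C_pow]
  have h4 : ((X - C c : k[X]) ^ (p ^ a * m)).coeff (p ^ a * (m - 1)) =
      -(c ^ (p ^ a)) * (m : k) := by
    rw [h3, Polynomial.coeff_expand_mul' (pow_pos hp.pos a), sub_eq_add_neg, ← C_neg,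
      Polynomial.coeff_X_add_C_pow]
    have : m - (m - 1) = 1 := by omega
    rw [this, pow_one]
    congr 1
    have h10 : m.choose (m - 1) = m := by
      obtain ⟨m₁, rfl⟩ := Nat.exists_eq_succ_of_ne_zero hm0
      simp
    rw [h10]
  -- the inverse of `m` modulo `p`
  have hcop : Nat.Coprime m p := (Nat.Coprime.symm ((Nat.Prime.coprime_iff_not_dvd hp).2 hm))
  obtain ⟨m', -, hm'⟩ := Nat.exists_mul_mod_eq_one_of_coprime hcop hp.one_lt
  have hmm' : ((m : k)) * (m' : k) = 1 := by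
    have h5 : m * m' = p * (m * m' / p) + 1 := by
      conv_lhs => rw [← Nat.div_add_mod (m * m') p, hm']
    have h6 : ((m * m' : ℕ) : k) = 1 := by
      rw [h5, Nat.cast_add, Nat.cast_mul, hpk, zero_mul, zero_add, Nat.cast_one]
    rw [← Nat.cast_mul]; exact h6
  refine ⟨-((m' : ℕ) : V) * PV.coeff (p ^ a * (m - 1)), ?_, ?_⟩
  · intro g
    have h7 : ((PV.coeff (p ^ a * (m - 1)) : V) : L) =
        (MulSemiringAction.charpoly G (x : L)).coeff (p ^ a * (m - 1)) := by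
      rw [← h1, Polynomial.coeff_map]; rfl
    have h8 : ((-((m' : ℕ) : V) * PV.coeff (p ^ a * (m - 1)) : V) : L) =
        -(m' : L) * (MulSemiringAction.charpoly G (x : L)).coeff (p ^ a * (m - 1)) := by
      rw [← h7]; push_cast; rfl
    rw [h8, smul_mul', MulSemiringAction.smul_coeff_charpoly, smul_neg]
    congr 2
    exact map_natCast (MulSemiringAction.toRingHom G L g) m'
  · have h9 : ρ (PV.coeff (p ^ a * (m - 1))) = -(c ^ (p ^ a)) * (m : k) := by
      rw [← h4, ← h2, Polynomial.coeff_map]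
    rw [map_mul, map_neg, map_natCast, h9]
    calc -(m' : k) * (-(c ^ (p ^ a)) * (m : k)) = ((m : k) * (m' : k)) * c ^ (p ^ a) := by ring
      _ = c ^ (p ^ a) := by rw [hmm', one_mul]

/-- **The residue fields of `V` and of `V ∩ L^G` coincide** when the residue field is perfect
of characteristic `p` and `G` acts trivially on it. -/
theorem rg14_residue_fixed [Finite G] (V : ValuationSubring L) (π : L) (hπ : π ∈ V)
    (hmax : ∀ x ∈ V, x⁻¹ ∉ V → π⁻¹ * x ∈ V) (hπ' : π⁻¹ ∉ V)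
    (hG : ∀ g : G, ∀ x ∈ V, π⁻¹ * (g • x - x) ∈ V)
    (p : ℕ) (hp : p.Prime) (hpV : π⁻¹ * (p : L) ∈ V)
    (hperf : ∀ x ∈ V, ∃ y ∈ V, π⁻¹ * (x - y ^ p) ∈ V)
    (x : L) (hx : x ∈ V) :
    ∃ y ∈ V, (∀ g : G, g • y = y) ∧ π⁻¹ * (x - y) ∈ V := by
  classical
  cases nonempty_fintype G
  obtain ⟨a, m, hm, hcard⟩ := Nat.exists_eq_pow_mul_and_not_dvd
    (Fintype.card_ne_zero (α := G)) p hp.ne_one
  have hperf' : ∀ x : V, ∃ z : V, IsLocalRing.residue V x = (IsLocalRing.residue V z) ^ p := by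
    intro x
    obtain ⟨y, hy, hxy⟩ := hperf x x.2
    refine ⟨⟨y, hy⟩, ?_⟩
    rw [← map_pow, rg14_residue_eq_iff V π hmax hπ']
    exact hxy
  have hiter : ∀ (b : ℕ) (x : V), ∃ z : V,
      IsLocalRing.residue V x = (IsLocalRing.residue V z) ^ (p ^ b) := by
    intro b
    induction b with
    | zero => intro x; exact ⟨x, by rw [pow_zero, pow_one]⟩
    | succ b ih =>
      intro x
      obtain ⟨z, hz⟩ := hperf' x
      obtain ⟨z', hz'⟩ := ih z
      exact ⟨z', by rw [hz, hz', ← pow_mul, ← pow_succ]⟩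
  obtain ⟨z, hz⟩ := hiter a ⟨x, hx⟩
  obtain ⟨y, hyG, hy⟩ := rg14_residue_pow_fixed V π hπ hmax hπ' hG p hp hpV a m hcard hm z
  refine ⟨y, y.2, hyG, ?_⟩
  have := (rg14_residue_eq_iff V π hmax hπ' ⟨x, hx⟩ y).1 (by rw [hz, hy])
  exact this

/-- **Successive approximation** by fixed elements. -/
theorem rg14_approx (V : ValuationSubring L) (π : L) (hπ' : π⁻¹ ∉ V)
    (hRF : ∀ x ∈ V, ∃ y ∈ V, (∀ g : G, g • y = y) ∧ π⁻¹ * (x - y) ∈ V) (N : ℕ) :
    ∀ x ∈ V, ∃ a : ℕ → L, (∀ i, a i ∈ V ∧ ∀ g : G, g • a i = a i) ∧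
      (π ^ N)⁻¹ * (x - ∑ i ∈ Finset.range N, a i * π ^ i) ∈ V := by
  have hπ0 : π ≠ 0 := fun h => hπ' (by rw [h, inv_zero]; exact V.zero_mem)
  induction N with
  | zero =>
    intro x hx
    exact ⟨fun _ => 0, fun _ => ⟨V.zero_mem, fun g => smul_zero g⟩, by simpa using hx⟩
  | succ N ih =>
    intro x hx
    obtain ⟨y, hy, hyG, hxy⟩ := hRF x hx
    obtain ⟨b, hb, hb'⟩ := ih _ hxy
    refine ⟨fun i => Nat.casesOn i y b, ?_, ?_⟩
    · intro i
      cases i with
      | zero => exact ⟨hy, hyG⟩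
      | succ i => exact hb i
    · rw [Finset.sum_range_succ']
      have : (π ^ (N + 1))⁻¹ * (x - (∑ i ∈ Finset.range N, b i * π ^ (i + 1) + y * π ^ 0)) =
          (π ^ N)⁻¹ * (π⁻¹ * (x - y) - ∑ i ∈ Finset.range N, b i * π ^ i) := by
        rw [mul_sub (π ^ N)⁻¹, Finset.mul_sum, mul_sub, mul_add, Finset.mul_sum, pow_succ]
        have h1 : ∀ i ∈ Finset.range N, (π ^ N * π)⁻¹ * (b i * π ^ (i + 1)) =
            (π ^ N)⁻¹ * (b i * π ^ i) := by
          intro i _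
          rw [pow_succ]; field_simp
        rw [Finset.sum_congr rfl h1]
        field_simp
        ring
      exact this ▸ hb'

/-- **Nakayama step**: `V = ∑_{i<e} (V ∩ L^G) π^i`. -/
theorem rg14_span [Finite G] (V : ValuationSubring L) (π : L) (hπ : π ∈ V) (hπ' : π⁻¹ ∉ V)
    (hG' : ∀ g : G, ∀ x ∈ V, g • x ∈ V)
    (e : ℕ) (he : 0 < e) (π₀ : L) (hπ₀ : ∀ g : G, g • π₀ = π₀)
    (hvπ₀ : V.valuation π₀ = V.valuation π ^ e)
    (hval : ∀ x : L, (∀ g : G, g • x = x) → x ∈ V → x ≠ 0 →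
      ∃ k : ℕ, V.valuation x = V.valuation π ^ (e * k))
    (happrox : ∀ x ∈ V, ∃ a : ℕ → L, (∀ i, a i ∈ V ∧ ∀ g : G, g • a i = a i) ∧
      (π ^ e)⁻¹ * (x - ∑ i ∈ Finset.range e, a i * π ^ i) ∈ V)
    (x : L) (hx : x ∈ V) :
    ∃ a : Fin e → L, (∀ i, a i ∈ V ∧ ∀ g : G, g • a i = a i) ∧
      x = ∑ i, a i * π ^ (i : ℕ) := by
  classical
  cases nonempty_fintype G
  have hv0 : V.valuation π ≠ 0 := rg14_val_pi_ne_zero V π hπ'
  have hv1 : V.valuation π < 1 := rg14_val_pi_lt_one V π hπ'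
  set K₀ := FixedPoints.subfield G L with hK₀
  set V₀ : ValuationSubring K₀ := V.comap (algebraMap K₀ L) with hV₀
  have hmemV₀ : ∀ z : K₀, z ∈ V₀ ↔ (z : L) ∈ V := fun z => ValuationSubring.mem_comap
  -- unit criterion
  have hunit : ∀ z : V₀, V.valuation ((z : K₀) : L) = 1 → IsUnit z := by
    intro z hz
    have hz0 : (z : K₀) ≠ 0 := by
      intro h
      rw [h] at hz
      simp at hz
    have hinv : ((z : K₀)⁻¹ : K₀) ∈ V₀ := by
      rw [hmemV₀, Subfield.coe_inv, ← V.valuation_le_one_iff, map_inv₀, hz, inv_one]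
    exact isUnit_iff_exists_inv.2 ⟨⟨_, hinv⟩, Subtype.ext (mul_inv_cancel₀ hz0)⟩
  have hval' : ∀ z : V₀, z ≠ 0 →
      ∃ k : ℕ, V.valuation ((z : K₀) : L) = V.valuation π ^ (e * k) := by
    intro z hz
    refine hval _ (fun g => (z : K₀).2 g) ((hmemV₀ _).1 z.2) ?_
    intro h
    apply hz
    apply Subtype.ext
    apply Subtype.ext
    exact h
  -- `π₀` as an element of `V₀`
  have hπ₀V : π₀ ∈ V := by
    rw [← V.valuation_le_one_iff, hvπ₀]; exact pow_le_one₀ zero_le hv1.le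
  set ϖ : V₀ := ⟨⟨π₀, hπ₀⟩, (hmemV₀ _).2 hπ₀V⟩ with hϖ
  have hϖ_nu : ¬ IsUnit ϖ := by
    intro hu
    obtain ⟨w, hw⟩ := isUnit_iff_exists_inv.1 hu
    have h1 : π₀ * ((w : K₀) : L) = 1 := by
      have := congrArg (fun t : V₀ => ((t : K₀) : L)) hw
      simpa using this
    have h2 := congrArg V.valuation h1
    rw [map_mul, map_one, hvπ₀] at h2
    have h3 : V.valuation ((w : K₀) : L) ≤ 1 :=
      (V.valuation_le_one_iff _).2 ((hmemV₀ _).1 w.2)
    have h4 : V.valuation π ^ e < 1 := pow_lt_one₀ zero_le hv1 he.ne'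
    have : V.valuation π ^ e * V.valuation ((w : K₀) : L) < 1 :=
      calc _ ≤ V.valuation π ^ e * 1 := mul_le_mul' le_rfl h3
        _ = _ := mul_one _
        _ < 1 := h4
    exact absurd h2 this.ne
  have hϖ0 : ϖ ≠ 0 := by
    intro h
    have h1 : π₀ = 0 := congrArg (fun t : V₀ => ((t : K₀) : L)) h
    rw [h1, map_zero] at hvπ₀
    exact pow_ne_zero _ hv0 hvπ₀.symm
  have : IsDiscreteValuationRing V₀ := by
    refine IsDiscreteValuationRing.ofHasUnitMulPowIrreducibleFactorization ⟨ϖ, ?_, ?_⟩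
    · rw [irreducible_iff]
      refine ⟨hϖ_nu, fun a b hab => ?_⟩
      have ha0 : a ≠ 0 := by rintro rfl; exact hϖ0 (by rw [hab, zero_mul])
      have hb0 : b ≠ 0 := by rintro rfl; exact hϖ0 (by rw [hab, mul_zero])
      obtain ⟨k₁, hk₁⟩ := hval' a ha0
      obtain ⟨k₂, hk₂⟩ := hval' b hb0
      have h1 : V.valuation π ^ e = V.valuation π ^ (e * k₁ + e * k₂) := by
        rw [pow_add, ← hk₁, ← hk₂, ← map_mul, ← hvπ₀]
        congr 1
        exact congrArg (fun t : V₀ => ((t : K₀) : L)) hab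
      have h2 : e = e * k₁ + e * k₂ :=
        pow_right_injective₀ (zero_lt_iff.2 hv0) hv1.ne h1
      have h3 : k₁ = 0 ∨ k₂ = 0 := by
        by_contra hcon
        rw [not_or] at hcon
        have h4 : 1 ≤ k₁ := Nat.one_le_iff_ne_zero.2 hcon.1
        have h5 : 1 ≤ k₂ := Nat.one_le_iff_ne_zero.2 hcon.2
        nlinarith
      rcases h3 with h | h
      · left; apply hunit; rw [hk₁, h, mul_zero, pow_zero]
      · right; apply hunit; rw [hk₂, h, mul_zero, pow_zero]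
    · intro z hz
      obtain ⟨k, hk⟩ := hval' z hz
      refine ⟨k, ?_⟩
      have hϖk0 : ((ϖ : K₀) ^ k) ≠ 0 := pow_ne_zero _ (fun h => hϖ0 (Subtype.ext h))
      have huval : V.valuation ((((z : K₀) * ((ϖ : K₀) ^ k)⁻¹ : K₀)) : L) = 1 := by
        have : ((((z : K₀) * ((ϖ : K₀) ^ k)⁻¹ : K₀)) : L) = ((z : K₀) : L) * (π₀ ^ k)⁻¹ := by
          simp [hϖ]
        rw [this, map_mul, map_inv₀, map_pow, hk, hvπ₀, ← pow_mul,
          mul_inv_cancel₀ (pow_ne_zero _ hv0)]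
      have humem : ((z : K₀) * ((ϖ : K₀) ^ k)⁻¹ : K₀) ∈ V₀ := by
        rw [hmemV₀, ← V.valuation_le_one_iff, huval]
      have hu := hunit ⟨_, humem⟩ huval
      refine ⟨hu.unit, ?_⟩
      rw [IsUnit.unit_spec]
      apply Subtype.ext
      show (ϖ : K₀) ^ k * ((z : K₀) * ((ϖ : K₀) ^ k)⁻¹) = (z : K₀)
      rw [mul_comm, mul_assoc, inv_mul_cancel₀ hϖk0, mul_one]
  -- `V` is the integral closure of `V₀`
  let φ : V₀ →+* V :=
    { toFun := fun z => ⟨((z : K₀) : L), (hmemV₀ _).1 z.2⟩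
      map_one' := rfl
      map_mul' := fun _ _ => rfl
      map_zero' := rfl
      map_add' := fun _ _ => rfl }
  let _ : Algebra V₀ V := φ.toAlgebra
  have : IsScalarTower V₀ V L := IsScalarTower.of_algebraMap_eq (fun _ => rfl)
  have : IsIntegralClosure V V₀ L := by
    refine ⟨Subtype.val_injective, ?_⟩
    intro y
    constructor
    · intro hy
      have h1 : IsIntegral V y := hy.tower_top
      exact IsIntegrallyClosed.isIntegral_iff.1 h1
    · rintro ⟨y, rfl⟩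
      have hlift : MulSemiringAction.charpoly G (y : L) ∈
          Polynomial.lifts (algebraMap V₀ L) := by
        rw [Polynomial.lifts_iff_coeff_lifts]
        intro n
        have hfix : ∀ g : G, g • (MulSemiringAction.charpoly G (y : L)).coeff n =
            (MulSemiringAction.charpoly G (y : L)).coeff n :=
          fun g => MulSemiringAction.smul_coeff_charpoly _ n g
        have hV : (MulSemiringAction.charpoly G (y : L)).coeff n ∈ V := by
          have h2 : MulSemiringAction.charpoly G (y : L) ∈ Polynomial.lifts V.subtype := by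
            rw [MulSemiringAction.charpoly_eq, Polynomial.lifts_iff_liftsRing]
            refine Subring.prod_mem _ fun g _ => ?_
            refine Subring.sub_mem _ ?_ ?_
            · rw [← Polynomial.lifts_iff_liftsRing]; exact Polynomial.X_mem_lifts _
            · rw [← Polynomial.lifts_iff_liftsRing]
              exact Polynomial.C_mem_lifts V.subtype ⟨g • (y : L), hG' g _ y.2⟩
          obtain ⟨c, hc⟩ := (Polynomial.lifts_iff_coeff_lifts _).1 h2 n
          rw [← hc]; exact c.2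
        exact ⟨⟨⟨_, hfix⟩, (hmemV₀ _).2 hV⟩, rfl⟩
      obtain ⟨q, hq, -, hqm⟩ := Polynomial.lifts_and_degree_eq_and_monic hlift
        (MulSemiringAction.monic_charpoly G _)
      refine ⟨q, hqm, ?_⟩
      rw [Polynomial.eval₂_eq_eval_map, hq]
      exact MulSemiringAction.eval_charpoly G _
  have hfin : Module.Finite V₀ V := IsIntegralClosure.finite V₀ K₀ L V
  -- Nakayama
  set ϖV : V := ⟨π, hπ⟩ with hϖV
  set N : Submodule V₀ V := Submodule.span V₀ (Set.range (fun i : Fin e => ϖV ^ (i : ℕ)))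
    with hN
  have hsmul : ∀ (c : V₀) (m : V), ((c • m : V) : L) = ((c : K₀) : L) * (m : L) :=
    fun c m => rfl
  have htop : (⊤ : Submodule V₀ V) ≤ N := by
    refine Submodule.le_of_le_smul_of_le_jacobson_bot (I := Ideal.span {ϖ})
      Module.Finite.fg_top ?_ ?_
    · rw [IsLocalRing.jacobson_eq_maximalIdeal ⊥ bot_ne_top, Ideal.span_le,
        Set.singleton_subset_iff]
      exact (IsLocalRing.mem_maximalIdeal _).2 hϖ_nu
    · intro y _
      obtain ⟨a, ha, har⟩ := happrox y y.2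
      have hπ₀0 : π₀ ≠ 0 := fun h => hϖ0 (Subtype.ext (Subtype.ext h))
      have hπ0 : π ≠ 0 := fun h => hπ' (by rw [h, inv_zero]; exact V.zero_mem)
      have hu' : π ^ e * π₀⁻¹ ∈ V := by
        rw [← V.valuation_le_one_iff, map_mul, map_inv₀, map_pow, hvπ₀,
          mul_inv_cancel₀ (pow_ne_zero _ hv0)]
      have hy : y = (∑ i : Fin e,
          (⟨⟨a i, (ha i).2⟩, (hmemV₀ _).2 (ha i).1⟩ : V₀) • ϖV ^ (i : ℕ)) +
          ϖ • (⟨(π ^ e * π₀⁻¹) * ((π ^ e)⁻¹ * ((y : L) - ∑ i ∈ Finset.range e, a i * π ^ i)),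
            mul_mem hu' har⟩ : V) := by
        apply Subtype.ext
        rw [AddMemClass.coe_add, AddSubmonoidClass.coe_finsetSum, hsmul]
        simp only [hsmul, SubmonoidClass.coe_pow]
        rw [Finset.sum_range (fun i => a i * π ^ i)]
        show (y : L) = ∑ i : Fin e, a i * π ^ (i : ℕ) +
          π₀ * ((π ^ e * π₀⁻¹) * ((π ^ e)⁻¹ * ((y : L) - ∑ i : Fin e, a i * π ^ (i : ℕ))))
        field_simp
        ring
      rw [hy]
      exact Submodule.add_mem_sup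
        (Submodule.sum_mem _ fun i _ => Submodule.smul_mem _ _ (Submodule.subset_span ⟨i, rfl⟩))
        (Submodule.smul_mem_smul (Ideal.mem_span_singleton_self _) Submodule.mem_top)
  have hxN : (⟨x, hx⟩ : V) ∈ N := htop Submodule.mem_top
  rw [hN, Submodule.mem_span_range_iff_exists_fun] at hxN
  obtain ⟨c, hc⟩ := hxN
  refine ⟨fun i => ((c i : K₀) : L), fun i => ⟨(hmemV₀ _).1 (c i).2, (c i : K₀).2⟩, ?_⟩
  have h1 := congrArg (fun t : V => (t : L)) hc
  simp only [AddSubmonoidClass.coe_finsetSum, hsmul, SubmonoidClass.coe_pow] at h1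
  exact h1.symm

/-- **Row P1c, abstract bookkeeping (C).**  `V` a discrete valuation ring of `L` with uniformiser
`π` and perfect residue field of characteristic `p`; `G` a finite group of automorphisms of `L`
acting trivially on `V / π V` (an inertia group).  Then there are `e ≥ 1` and a `G`-fixed
`π₀ = π ^ e * unit` such that

* `π₀` is a uniformiser of `V ∩ L^G`;
* `V ∩ L^G` and `V` have the same residue field;
* `V = ∑_{i<e} (V ∩ L^G) π^i` and `L = ∑_{i<e} L^G π^i`. -/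
theorem rg14_fixed_decomp [Finite G] (V : ValuationSubring L) (π : L) (hπ : π ∈ V)
    (hπ' : π⁻¹ ∉ V) (hmax : ∀ x ∈ V, x⁻¹ ∉ V → π⁻¹ * x ∈ V)
    (harch : ∀ x ∈ V, x ≠ 0 → ∃ n : ℕ, (π ^ n)⁻¹ * x ∉ V)
    (hG : ∀ g : G, ∀ x ∈ V, π⁻¹ * (g • x - x) ∈ V)
    (p : ℕ) (hp : p.Prime) (hpV : π⁻¹ * (p : L) ∈ V)
    (hperf : ∀ x ∈ V, ∃ y ∈ V, π⁻¹ * (x - y ^ p) ∈ V) :
    ∃ (e : ℕ) (π₀ : L), 0 < e ∧ (∀ g : G, g • π₀ = π₀) ∧
      π₀ * (π ^ e)⁻¹ ∈ V ∧ π ^ e * π₀⁻¹ ∈ V ∧
      (∀ x : L, (∀ g : G, g • x = x) → x ∈ V → x⁻¹ ∉ V → π₀⁻¹ * x ∈ V) ∧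
      (∀ x ∈ V, ∃ y ∈ V, (∀ g : G, g • y = y) ∧ π⁻¹ * (x - y) ∈ V) ∧
      (∀ x ∈ V, ∃ a : Fin e → L, (∀ i, a i ∈ V ∧ ∀ g : G, g • a i = a i) ∧
        x = ∑ i, a i * π ^ (i : ℕ)) ∧
      (∀ x : L, ∃ a : Fin e → L, (∀ i, ∀ g : G, g • a i = a i) ∧
        x = ∑ i, a i * π ^ (i : ℕ)) := by
  classical
  cases nonempty_fintype G
  have hv0 : V.valuation π ≠ 0 := rg14_val_pi_ne_zero V π hπ'
  have hv1 : V.valuation π < 1 := rg14_val_pi_lt_one V π hπ'
  have hG' : ∀ g : G, ∀ x ∈ V, g • x ∈ V := fun g x hx => rg14_smul_mem V π hπ hπ' hG g x hx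
  obtain ⟨hNfix, hNval⟩ := rg14_norm V π hπ hπ' hG
  have hex : ∃ d : ℕ, 0 < d ∧ ∃ y : L, (∀ g : G, g • y = y) ∧
      V.valuation y = V.valuation π ^ d :=
    ⟨Fintype.card G, Fintype.card_pos, _, hNfix, hNval⟩
  obtain ⟨he, π₀, hπ₀, hvπ₀⟩ := Nat.find_spec hex
  set e := Nat.find hex with he_def
  have hmin : ∀ d : ℕ, 0 < d → d < e →
      ¬ ∃ y : L, (∀ g : G, g • y = y) ∧ V.valuation y = V.valuation π ^ d :=
    fun d hd hde h => Nat.find_min hex hde ⟨hd, h⟩
  have hval := rg14_fixed_val (G := G) V π hmax hπ' harch e he π₀ hπ₀ hvπ₀ hmin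
  have hRF := rg14_residue_fixed (G := G) V π hπ hmax hπ' hG p hp hpV hperf
  have happrox := fun x hx => rg14_approx (G := G) V π hπ' hRF e x hx
  have hspan := rg14_span V π hπ hπ' hG' e he π₀ hπ₀ hvπ₀ hval happrox
  have hπ₀0 : π₀ ≠ 0 := by
    intro h
    rw [h, map_zero] at hvπ₀
    exact pow_ne_zero _ hv0 hvπ₀.symm
  refine ⟨e, π₀, he, hπ₀, ?_, ?_, ?_, hRF, hspan, ?_⟩
  · rw [← V.valuation_le_one_iff, map_mul, map_inv₀, map_pow, hvπ₀,
      mul_inv_cancel₀ (pow_ne_zero _ hv0)]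
  · rw [← V.valuation_le_one_iff, map_mul, map_inv₀, map_pow, hvπ₀,
      mul_inv_cancel₀ (pow_ne_zero _ hv0)]
  · intro x hxG hx hx'
    have hx0 : x ≠ 0 := fun h => hx' (by rw [h, inv_zero]; exact V.zero_mem)
    obtain ⟨k, hk⟩ := hval x hxG hx hx0
    have hk0 : k ≠ 0 := by
      intro h
      rw [h, mul_zero, pow_zero] at hk
      apply hx'
      rw [← V.valuation_le_one_iff, map_inv₀, hk, inv_one]
    have hle : V.valuation x ≤ V.valuation π ^ e := by
      rw [hk]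
      exact pow_le_pow_of_le_one zero_le hv1.le
        (Nat.le_mul_of_pos_right e (Nat.pos_of_ne_zero hk0))
    rw [← V.valuation_le_one_iff, map_mul, map_inv₀, hvπ₀,
      inv_mul_le_iff₀ (zero_lt_iff.2 (pow_ne_zero _ hv0)), mul_one]
    exact hle
  · intro x
    by_cases hx : x ∈ V
    · obtain ⟨a, ha, hxa⟩ := hspan x hx
      exact ⟨a, fun i => (ha i).2, hxa⟩
    · have hx0 : x ≠ 0 := fun h => hx (h ▸ V.zero_mem)
      have hxinv : x⁻¹ ∈ V := (V.mem_or_inv_mem x).resolve_left hx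
      obtain ⟨j, hj⟩ := rg14_normal_form V π hmax hπ' harch x⁻¹ hxinv (inv_ne_zero hx0)
      rw [map_inv₀] at hj
      have hxv : V.valuation x = (V.valuation π ^ j)⁻¹ := by rw [← hj, inv_inv]
      have hmem : π₀ ^ j * x ∈ V := by
        rw [← V.valuation_le_one_iff, map_mul, map_pow, hvπ₀, hxv, ← pow_mul, mul_comm,
          inv_mul_le_iff₀ (zero_lt_iff.2 (pow_ne_zero _ hv0)), mul_one]
        exact pow_le_pow_of_le_one zero_le hv1.le (Nat.le_mul_of_pos_left j he)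
      obtain ⟨a, ha, hxa⟩ := hspan _ hmem
      refine ⟨fun i => (π₀ ^ j)⁻¹ * a i, fun i g => ?_, ?_⟩
      · rw [smul_mul', smul_inv'', smul_pow', hπ₀, (ha i).2]
      · have h1 : x = (π₀ ^ j)⁻¹ * (π₀ ^ j * x) := by
          rw [← mul_assoc, inv_mul_cancel₀ (pow_ne_zero _ hπ₀0), one_mul]
        rw [h1, hxa, Finset.mul_sum]
        refine Finset.sum_congr rfl fun i _ => ?_
        rw [mul_assoc]

end PartC

end Fermat.Agent.S34

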