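import Mathlib
import Fermat.Agent.S18.ConstExtModular25
import Fermat.Agent.S18.FieldDef27

/-!
# S34 lab, instance bridge (helper26): the number field over which the points of `div f`
are rational

Input of step 0 of the proof of (U): "`L` = number field, Galois over `ℚ`, over which `f` and
the points of `D` are rational".

* `rp26_exists_mem_not_mem` : two distinct places of a function field are separated by a function
  (`g ∈ O_P`, `g ∉ O_{P'}`).
* `rp26_exists_sep_finset` : for a finite set `S` of places there is a finite set `T` of functions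
  such that every semilinear automorphism fixing `T` and mapping `P ∈ S` into `S` fixes `P`.
* `rp26_exists_const_bar` : values at the places of `F(M)_{ℚ̄}`.
* `rp26_value_mem` : if the place `P` of `F(M)_{ℚ̄}` is fixed by `Gal(ℚ̄ / K)`, then the value at
  `P` of a function defined over `K` lies in `K`.
* `rp26_rational` : consumer form at a place `Q` of `F(M)_K / K` below a stable place.
* `rp26_main` : for `f ≠ 0` in `F(M)_{ℚ̄}` with finite support of `ord` (automatic for Kummer
  functions), finitely many algebraic numbers `T` and finitely many functions `E`: there is a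
  number field `K₀ ⊆ ℚ̄`, normal over `ℚ`, containing `T`, over which `f` and `E` are defined, such
  that for EVERY intermediate field `K ⊇ K₀` every place `Q` of `F(M)_K / K` with `ord_Q f ≠ 0` is
  `K`-rational: every `x ∈ O_Q` has a value `c ∈ K` (`x = c` or `ord_Q (x - c) > 0`).
-/

set_option autoImplicit false

open ModularCurve AlgebraicCurve IntermediateField

namespace Fermat.Agent.S34

open Fermat.Agent.S18 Fermat.Agent.S24

local notation "Qb" => AlgebraicClosure ℚ

section Generic

variable {K F : Type*} [Field K] [Field F] [Algebra K F]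

theorem rp26_zpow_mem (A : ValuationSubring F) {x : F} (hx : x ∈ A) (hx' : x⁻¹ ∈ A) (n : ℤ) :
    x ^ n ∈ A := by
  rcases Int.eq_nat_or_neg n with ⟨k, rfl | rfl⟩
  · rw [zpow_natCast]
    exact pow_mem hx k
  · rw [zpow_neg, zpow_natCast, ← inv_pow]
    exact pow_mem hx' k

/-- Two distinct places are separated by a function. -/
theorem rp26_exists_mem_not_mem (P P' : Place K F) (h : P ≠ P') :
    ∃ g : F, g ∈ P.toValuationSubring ∧ g ∉ P'.toValuationSubring := by
  by_contra hcon
  push Not at hcon
  have hle : ∀ g : F, g ∈ P.toValuationSubring → g ∈ P'.toValuationSubring := hcon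
  obtain ⟨ϖ, hϖ⟩ := IsDiscreteValuationRing.exists_irreducible P.toValuationSubring
  have hϖ0 : (ϖ : F) ≠ 0 := by
    simpa [ne_eq, ZeroMemClass.coe_eq_zero] using hϖ.ne_zero
  by_cases hinv : (ϖ : F)⁻¹ ∈ P'.toValuationSubring
  · apply P'.ne_top'
    refine SetLike.ext fun x => ⟨fun _ => ValuationSubring.mem_top x, fun _ => ?_⟩
    rcases eq_or_ne x 0 with rfl | hx
    · exact zero_mem _
    obtain ⟨u, hu⟩ := P.exists_unit_mul_zpow hx hϖ
    rw [hu]
    exact mul_mem (hle _ (u : P.toValuationSubring).2)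
      (rp26_zpow_mem _ (hle _ ϖ.2) hinv _)
  · apply h
    apply Place.ext
    refine le_antisymm (fun g hg => hle g hg) ?_
    intro x hx
    by_contra hxP
    have hx0 : x ≠ 0 := fun h0 => hxP (h0 ▸ zero_mem _)
    obtain ⟨u, hu⟩ := P.exists_unit_mul_zpow hx0 hϖ
    have hneg : P.ord x < 0 := by
      by_contra hge
      push Not at hge
      exact hxP ((wp1_mem_iff_ord_nonneg P x).mpr hge)
    have hu0 : ((u : P.toValuationSubring) : F) ≠ 0 := by
      simp [ne_eq, ZeroMemClass.coe_eq_zero]
    -- `ϖ ^ (ord x) = u⁻¹ * x ∈ O_{P'}`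
    have h1 : (ϖ : F) ^ (P.ord x) ∈ P'.toValuationSubring := by
      have h2 : (ϖ : F) ^ (P.ord x) = (((u⁻¹ : (P.toValuationSubring)ˣ) :
          P.toValuationSubring) : F) * x := by
        have h3 : (((u⁻¹ : (P.toValuationSubring)ˣ) : P.toValuationSubring) : F) *
            ((u : P.toValuationSubring) : F) = 1 := by
          rw [← MulMemClass.coe_mul, Units.inv_mul, OneMemClass.coe_one]
        conv_rhs => rw [hu]
        rw [← mul_assoc, h3, one_mul]
      rw [h2]
      exact mul_mem (hle _ ((u⁻¹ : (P.toValuationSubring)ˣ) : P.toValuationSubring).2) hx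
    apply hinv
    have h5 : (ϖ : F)⁻¹ = (ϖ : F) ^ (P.ord x) * (ϖ : F) ^ ((-P.ord x - 1).toNat) := by
      rw [← zpow_natCast, Int.toNat_of_nonneg (by omega), ← zpow_add₀ hϖ0]
      rw [show P.ord x + (-P.ord x - 1) = -1 by ring, zpow_neg_one]
    rw [h5]
    exact mul_mem h1 (pow_mem (hle _ ϖ.2) _)

/-- A finite set of places is separated by a finite set of functions: every semilinear
automorphism fixing these functions and mapping `P ∈ S` into `S` fixes `P`. -/
theorem rp26_exists_sep_finset (S : Finset (Place K F)) :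
    ∃ T : Finset F, ∀ g : SemilinearAut K F, (∀ x ∈ T, g • x = x) →
      ∀ P ∈ S, g • P ∈ S → g • P = P := by
  classical
  have hsep : ∀ P P' : Place K F, ∃ x : F, P ≠ P' →
      x ∈ P.toValuationSubring ∧ x ∉ P'.toValuationSubring := by
    intro P P'
    by_cases h : P = P'
    · exact ⟨0, fun h' => absurd h h'⟩
    · obtain ⟨x, hx⟩ := rp26_exists_mem_not_mem P P' h
      exact ⟨x, fun _ => hx⟩
  choose sep hsep using hsep
  refine ⟨(S ×ˢ S).image (fun p => sep p.1 p.2), ?_⟩
  intro g hg P hP hgP
  by_contra hne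
  obtain ⟨h1, h2⟩ := hsep P (g • P) (fun h => hne h.symm)
  have hfix : g • sep P (g • P) = sep P (g • P) :=
    hg _ (Finset.mem_image.mpr ⟨(P, g • P), Finset.mem_product.mpr ⟨hP, hgP⟩, rfl⟩)
  apply h2
  rw [← hfix, SemilinearAut.smul_toValuationSubring]
  exact ValuationSubring.smul_mem_pointwise_smul g _ _ h1

/-- The value of a function at a place is unique. -/
theorem rp26_const_unique (P : Place K F) (X : F) (c d : K)
    (h1 : 0 < P.ord (X - algebraMap K F c)) (h2 : 0 < P.ord (X - algebraMap K F d)) : c = d := by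
  by_contra hne
  have hA : X - algebraMap K F c ≠ 0 := by
    intro h0
    rw [h0] at h1
    simp at h1
  have hB : X - algebraMap K F d ≠ 0 := by
    intro h0
    rw [h0] at h2
    simp at h2
  have hB' : -(X - algebraMap K F d) ≠ 0 := neg_ne_zero.mpr hB
  have hd : algebraMap K F (d - c) = (X - algebraMap K F c) + -(X - algebraMap K F d) := by
    rw [map_sub]; ring
  have hne' : algebraMap K F (d - c) ≠ 0 := by
    intro h0
    exact hne (sub_eq_zero.mp ((algebraMap K F).injective (h0.trans (map_zero _).symm))).symm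
  have hne'' : (X - algebraMap K F c) + -(X - algebraMap K F d) ≠ 0 := by
    rw [← hd]
    exact hne'
  have h3 := wp1_ord_add P _ _ hne'' hA hB'
  rw [← hd, wp1_ord_algebraMap] at h3
  have h4 : P.ord (-(X - algebraMap K F d)) = P.ord (X - algebraMap K F d) := by
    have h6 : -(X - algebraMap K F d) = algebraMap K F (-1) * (X - algebraMap K F d) := by
      rw [map_neg, map_one]; ring
    have h7 : algebraMap K F (-1) ≠ 0 := by
      intro h0
      have h8 := (algebraMap K F).injective (h0.trans (map_zero _).symm)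
      exact one_ne_zero (neg_eq_zero.mp h8)
    rw [h6, P.ord_mul h7 hB, wp1_ord_algebraMap, zero_add]
  rw [h4] at h3
  have h5 := lt_min h1 h2
  omega

/-- A place at which every regular function has a value in `K` has degree one. -/
theorem rp26_deg_eq_one_of_values (Q : Place K F)
    (hQ : ∀ x : F, x ∈ Q.toValuationSubring →
      ∃ c : K, x = algebraMap K F c ∨ 0 < Q.ord (x - algebraMap K F c)) : Q.deg = 1 := by
  have hsurj : ∀ z : Q.ResidueField, ∃ c : K, algebraMap K Q.ResidueField c = z := by
    intro z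
    obtain ⟨x, rfl⟩ := IsLocalRing.residue_surjective z
    obtain ⟨c, hc⟩ := hQ (x : F) x.2
    refine ⟨c, ?_⟩
    have hsub : x - algebraMap K Q.toValuationSubring c ∈
        IsLocalRing.maximalIdeal Q.toValuationSubring := by
      rw [IsLocalRing.mem_maximalIdeal, mem_nonunits_iff]
      intro hu
      have h1 : Q.adicValuation (((x - algebraMap K Q.toValuationSubring c :
          Q.toValuationSubring)) : F) = 1 := (Q.adicValuation_coe_eq_one_iff _).mpr hu
      have hcoe : (((x - algebraMap K Q.toValuationSubring c : Q.toValuationSubring)) : F) =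
          (x : F) - algebraMap K F c := rfl
      rw [hcoe] at h1
      rcases hc with hc | hc
      · rw [hc, sub_self, map_zero] at h1
        exact zero_ne_one h1
      · have hne : (x : F) - algebraMap K F c ≠ 0 := by
          intro h0
          rw [h0] at hc
          simp at hc
        have h2 := (wp1b_ord_pos_iff Q hne).mp hc
        rw [h1] at h2
        exact lt_irrefl _ h2
    have h3 : IsLocalRing.residue Q.toValuationSubring (x - algebraMap K Q.toValuationSubring c)
        = 0 := (IsLocalRing.residue_eq_zero_iff _).mpr hsub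
    rw [map_sub, sub_eq_zero] at h3
    rw [h3]
    rfl
  unfold Place.deg
  rw [finrank_eq_one_iff']
  refine ⟨1, one_ne_zero, fun w => ?_⟩
  obtain ⟨c, hc⟩ := hsurj w
  exact ⟨c, by rw [Algebra.smul_def, mul_one, hc]⟩

end Generic

/-- `ℚ̄ / ℚ` is Galois, for the algebra structure used by the frozen statements. -/
theorem rp26_isGalois : IsGalois ℚ Qb :=
  have : Algebra.IsAlgebraic ℚ Qb := AlgebraicClosure.isAlgebraic ℚ
  have : IsAlgClosure ℚ Qb := ⟨inferInstance, inferInstance⟩
  IsGalois.mk

section Modular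

variable (M : ℕ) [NeZero M]

/-- Values at the places of `F(M)_{ℚ̄}`. -/
theorem rp26_exists_const_bar (P : Place Qb ↥(modularFunctionFieldBar M))
    (f : ↥(modularFunctionFieldBar M)) (hf : f ∈ P.toValuationSubring) :
    ∃ c : Qb, f = algebraMap Qb ↥(modularFunctionFieldBar M) c ∨
      0 < P.ord (f - algebraMap Qb ↥(modularFunctionFieldBar M) c) := by
  have key : ∀ S : IntermediateField Qb (LaurentSeries Qb), S = modularFunctionFieldFullC Qb M →
      ∀ (P : Place Qb ↥S) (f : ↥S), f ∈ P.toValuationSubring →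
        ∃ c : Qb, f = algebraMap Qb ↥S c ∨ 0 < P.ord (f - algebraMap Qb ↥S c) := by
    rintro S rfl P f hf
    have := relimc_finite Qb M
    exact wp1_exists_const (relimc_J Qb M) (relimc_J_transcendental Qb M) P f hf
  exact key _ (fd27_bar_eq M) P f hf

omit [NeZero M] in
/-- The image of `F(M)_K` in `F(M)_{ℚ̄}` is fixed by the automorphisms of `ℚ̄` fixing `K`. -/
theorem rp26_smul_iota {K : Type*} [Field K] (φ : K →+* Qb) (σ : Qb ≃ₐ[ℚ] Qb)
    (hσ : ∀ a : K, σ (φ a) = φ a) (y : ↥(modularFunctionFieldFullC K M)) :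
    arithmeticGalois (modularFunctionFieldFull M) σ • (fd27_iota φ M y) = fd27_iota φ M y := by
  apply Subtype.ext
  rw [coe_arithmeticGalois_smul, fd27_iota_coe, coeffMap_coeffMap]
  exact coeffMap_congr (RingHom.ext fun a => hσ a) _

/-- If the place `P` of `F(M)_{ℚ̄}` is fixed by `Gal(ℚ̄ / K)`, the value at `P` of a function
defined over `K` lies in `K`.  (`K` abstract with image `K₁ ⊆ ℚ̄`.) -/
theorem rp26_value_mem {K : Type} [Field K] [Algebra K Qb] (K₁ : IntermediateField ℚ Qb)
    (hK₁ : ∀ a : K, algebraMap K Qb a ∈ K₁) (hK₁' : ∀ x ∈ K₁, ∃ a : K, algebraMap K Qb a = x)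
    (P : Place Qb ↥(modularFunctionFieldBar M))
    (hP : ∀ σ : Qb ≃ₐ[ℚ] Qb, (∀ a ∈ K₁, σ a = a) →
      arithmeticGalois (modularFunctionFieldFull M) σ • P = P)
    (y : ↥(modularFunctionFieldFullC K M))
    (hy : fd27_iota (algebraMap K Qb) M y ∈ P.toValuationSubring) :
    ∃ c : K, y = algebraMap K ↥(modularFunctionFieldFullC K M) c ∨
      0 < P.ord (fd27_iota (algebraMap K Qb) M
        (y - algebraMap K ↥(modularFunctionFieldFullC K M) c)) := by
  obtain ⟨c', hc'⟩ := rp26_exists_const_bar M P _ hy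
  -- `c'` is fixed by `Gal(ℚ̄ / K)`
  have hfix : ∀ σ : Qb ≃ₐ[ℚ] Qb, (∀ a ∈ K₁, σ a = a) → σ c' = c' := by
    intro σ hσ
    have hιy : arithmeticGalois (modularFunctionFieldFull M) σ • (fd27_iota (algebraMap K Qb) M y)
        = fd27_iota (algebraMap K Qb) M y :=
      rp26_smul_iota M (algebraMap K Qb) σ (fun a => hσ _ (hK₁ a)) y
    have hconst : arithmeticGalois (modularFunctionFieldFull M) σ •
        (algebraMap Qb ↥(modularFunctionFieldBar M) c') =
        algebraMap Qb ↥(modularFunctionFieldBar M) (σ c') :=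
      SemilinearAut.smul_algebraMap _ c'
    rcases hc' with hc' | hc'
    · have h1 := hιy
      rw [hc', hconst] at h1
      exact (algebraMap Qb ↥(modularFunctionFieldBar M)).injective h1
    · have h1 := SemilinearAut.ord_smul (arithmeticGalois (modularFunctionFieldFull M) σ) P
        (fd27_iota (algebraMap K Qb) M y - algebraMap Qb ↥(modularFunctionFieldBar M) c')
      rw [hP σ hσ, smul_sub, hιy, hconst] at h1
      have h2 : 0 < P.ord (fd27_iota (algebraMap K Qb) M y -
          algebraMap Qb ↥(modularFunctionFieldBar M) (σ c')) := by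
        rw [h1]
        exact hc'
      exact rp26_const_unique P _ _ _ h2 hc'
  -- hence `c' ∈ K₁`
  have hmem : c' ∈ K₁ := by
    have h1 : c' ∈ IntermediateField.fixedField K₁.fixingSubgroup := by
      rw [IntermediateField.mem_fixedField_iff]
      intro σ hσ
      exact hfix σ (fun a ha => (IntermediateField.mem_fixingSubgroup_iff K₁ σ).mp hσ a ha)
    have := rp26_isGalois
    rwa [InfiniteGalois.fixedField_fixingSubgroup] at h1
  obtain ⟨c, hc⟩ := hK₁' c' hmem
  refine ⟨c, ?_⟩
  have hι : fd27_iota (algebraMap K Qb) M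
      (algebraMap K ↥(modularFunctionFieldFullC K M) c) =
      algebraMap Qb ↥(modularFunctionFieldBar M) c' := by
    rw [fd27_iota_algebraMap (algebraMap K Qb) M c, hc]
  rcases hc' with hc' | hc'
  · left
    apply fd27_iota_injective (algebraMap K Qb) M
    rw [hι, hc']
  · right
    rw [map_sub, hι]
    exact hc'

/-- Consumer form: a place `Q` of `F(M)_K / K` lying under a place `P` of `F(M)_{ℚ̄}` which is
fixed by `Gal(ℚ̄ / K)` is `K`-rational. -/
theorem rp26_rational {K : Type} [Field K] [Algebra K Qb] (K₁ : IntermediateField ℚ Qb)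
    (hK₁ : ∀ a : K, algebraMap K Qb a ∈ K₁) (hK₁' : ∀ x ∈ K₁, ∃ a : K, algebraMap K Qb a = x)
    (Q : Place K ↥(modularFunctionFieldFullC K M))
    (P : Place Qb ↥(modularFunctionFieldBar M))
    (hPQ : ∀ g : ↥(modularFunctionFieldFullC K M),
      P.ord (fd27_iota (algebraMap K Qb) M g) = Q.ord g)
    (hP : ∀ σ : Qb ≃ₐ[ℚ] Qb, (∀ a ∈ K₁, σ a = a) →
      arithmeticGalois (modularFunctionFieldFull M) σ • P = P)
    (x : ↥(modularFunctionFieldFullC K M)) (hx : x ∈ Q.toValuationSubring) :
    ∃ c : K, x = algebraMap K ↥(modularFunctionFieldFullC K M) c ∨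
      0 < Q.ord (x - algebraMap K ↥(modularFunctionFieldFullC K M) c) := by
  have h1 : fd27_iota (algebraMap K Qb) M x ∈ P.toValuationSubring := by
    rw [wp1_mem_iff_ord_nonneg, hPQ]
    exact (wp1_mem_iff_ord_nonneg Q x).mp hx
  obtain ⟨c, hc⟩ := rp26_value_mem M K₁ hK₁ hK₁' P hP x h1
  refine ⟨c, hc.imp id fun h => ?_⟩
  rwa [hPQ] at h

/-- Every zero and pole of `f` (a place of `F(M)_{ℚ̄}`) is fixed by `Gal(ℚ̄ / K₁)`. -/
def rp26_StableAt (f : ↥(modularFunctionFieldBar M)) (K₁ : IntermediateField ℚ Qb) : Prop :=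
  ∀ σ : Qb ≃ₐ[ℚ] Qb, (∀ a ∈ K₁, σ a = a) →
    ∀ P : Place Qb ↥(modularFunctionFieldBar M), P.ord f ≠ 0 →
      arithmeticGalois (modularFunctionFieldFull M) σ • P = P

/-- Every zero and pole of `f` on `F(M)_K / K` is a `K`-rational place: every function regular
at it has a value in `K`. -/
def rp26_RatAt (f : ↥(modularFunctionFieldBar M)) (K : Type) [Field K] [Algebra K Qb] : Prop :=
  ∀ y : ↥(modularFunctionFieldFullC K M), fd27_iota (algebraMap K Qb) M y = f →
    ∀ Q : Place K ↥(modularFunctionFieldFullC K M), Q.ord y ≠ 0 →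
      ∀ x : ↥(modularFunctionFieldFullC K M), x ∈ Q.toValuationSubring →
        ∃ c : K, x = algebraMap K ↥(modularFunctionFieldFullC K M) c ∨
          0 < Q.ord (x - algebraMap K ↥(modularFunctionFieldFullC K M) c)

omit [NeZero M] in
theorem rp26_stableAt_mono {f : ↥(modularFunctionFieldBar M)} {K₀ K₁ : IntermediateField ℚ Qb}
    (h : K₀ ≤ K₁) (hf : rp26_StableAt M f K₀) : rp26_StableAt M f K₁ :=
  fun σ hσ P hP => hf σ (fun a ha => hσ a (h ha)) P hP

/-- Stability of the support under `Gal(ℚ̄ / K)` gives rationality over `K`. -/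
theorem rp26_ratAt_of_stableAt {f : ↥(modularFunctionFieldBar M)}
    {K : Type} [Field K] [CharZero K] [Algebra K Qb] (K₁ : IntermediateField ℚ Qb)
    (hK₁ : ∀ a : K, algebraMap K Qb a ∈ K₁) (hK₁' : ∀ x ∈ K₁, ∃ a : K, algebraMap K Qb a = x)
    (hf : rp26_StableAt M f K₁) : rp26_RatAt M f K := by
  intro y hy Q hQ x hx
  obtain ⟨P, hP⟩ := cx_modular_place_exists (K0 := K) (M := M) (fd27_iota (algebraMap K Qb) M)
    (fun g => fd27_iota_coe (algebraMap K Qb) M g) Q
  refine rp26_rational M K₁ hK₁ hK₁' Q P hP (fun σ hσ => hf σ hσ P ?_) x hx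
  rw [← hy, hP]
  exact hQ

omit [NeZero M] in
/-- An element of `F(M)_{ℚ̄}` defined over `K₁` is fixed by `Gal(ℚ̄ / K₁)`. -/
theorem rp26_smul_of_defined (K₁ : IntermediateField ℚ Qb) (σ : Qb ≃ₐ[ℚ] Qb)
    (hσ : ∀ a ∈ K₁, σ a = a) (x : ↥(modularFunctionFieldBar M))
    (hx : ∃ y : LaurentSeries K₁, coeffMap (algebraMap K₁ Qb) y = (x : LaurentSeries Qb)) :
    arithmeticGalois (modularFunctionFieldFull M) σ • x = x := by
  obtain ⟨y, hy⟩ := hx
  apply Subtype.ext
  rw [coe_arithmeticGalois_smul, ← hy, coeffMap_coeffMap]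
  exact coeffMap_congr (RingHom.ext fun a => hσ _ a.2) _

omit [NeZero M] in
/-- **The number field of rationality.**  For `f ∈ F(M)_{ℚ̄}` whose zeros and poles lie in a
finite set `S` of places, finitely many algebraic numbers `T` and finitely many functions `E`,
there is a number field `K₀ ⊆ ℚ̄`, normal over `ℚ`, containing `T`, over which `f` and the
elements of `E` are defined, such that every zero and pole of `f` is fixed by `Gal(ℚ̄ / K₀)`. -/
theorem rp26_main (f : ↥(modularFunctionFieldBar M))
    (S : Finset (Place Qb ↥(modularFunctionFieldBar M)))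
    (hS : ∀ P : Place Qb ↥(modularFunctionFieldBar M), P.ord f ≠ 0 → P ∈ S)
    (T : Finset Qb) (E : Finset (LaurentSeries Qb)) (hE : ∀ x ∈ E, x ∈ modularFunctionFieldBar M) :
    ∃ K₀ : IntermediateField ℚ Qb, FiniteDimensional ℚ K₀ ∧ Normal ℚ K₀ ∧ (∀ t ∈ T, t ∈ K₀) ∧
      (∀ x ∈ E, ∃ y : LaurentSeries K₀, y ∈ modularFunctionFieldFullC K₀ M ∧
        coeffMap (algebraMap K₀ Qb) y = x) ∧
      (∃ y : LaurentSeries K₀, y ∈ modularFunctionFieldFullC K₀ M ∧
        coeffMap (algebraMap K₀ Qb) y = (f : LaurentSeries Qb)) ∧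
      rp26_StableAt M f K₀ := by
  classical
  set S' : Finset (Place Qb ↥(modularFunctionFieldBar M)) := S.filter (fun P => P.ord f ≠ 0)
    with hS'
  obtain ⟨Tsep, hTsep⟩ := rp26_exists_sep_finset S'
  obtain ⟨K₁, hK₁fin, hT, hdef⟩ := fd27_exists M
    (insert (f : LaurentSeries Qb) (E ∪ Tsep.image
      (fun g : ↥(modularFunctionFieldBar M) => (g : LaurentSeries Qb))))
    (by
      intro x hx
      rcases Finset.mem_insert.mp hx with rfl | hx
      · exact f.2
      rcases Finset.mem_union.mp hx with hx | hx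
      · exact hE x hx
      · obtain ⟨g, -, rfl⟩ := Finset.mem_image.mp hx
        exact g.2) T
  have := hK₁fin
  have hnorm : Normal ℚ Qb := rp26_isGalois.to_normal
  have hle : K₁ ≤ IntermediateField.normalClosure ℚ K₁ Qb := IntermediateField.le_normalClosure K₁
  have hlift : ∀ x : LaurentSeries Qb,
      (∃ y : LaurentSeries K₁, y ∈ modularFunctionFieldFullC K₁ M ∧
        coeffMap (algebraMap K₁ Qb) y = x) →
      ∃ y : LaurentSeries (IntermediateField.normalClosure ℚ K₁ Qb),
        y ∈ modularFunctionFieldFullC (IntermediateField.normalClosure ℚ K₁ Qb) M ∧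
        coeffMap (algebraMap (IntermediateField.normalClosure ℚ K₁ Qb) Qb) y = x := by
    rintro x ⟨y, hy, rfl⟩
    exact fd27_lift hle M y hy
  refine ⟨IntermediateField.normalClosure ℚ K₁ Qb, normalClosure.is_finiteDimensional ℚ K₁ Qb,
    normalClosure.normal ℚ K₁ Qb, fun t ht => hle (hT t ht), ?_, ?_, ?_⟩
  · intro x hx
    exact hlift x (hdef x (Finset.mem_insert_of_mem (Finset.mem_union_left _ hx)))
  · exact hlift _ (hdef _ (Finset.mem_insert_self _ _))
  · intro σ hσ P hP
    have hσ₁ : ∀ a ∈ K₁, σ a = a := fun a ha => hσ a (hle ha)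
    have hfixf : arithmeticGalois (modularFunctionFieldFull M) σ • f = f := by
      obtain ⟨y, -, hy⟩ := hdef _ (Finset.mem_insert_self _ _)
      exact rp26_smul_of_defined M K₁ σ hσ₁ f ⟨y, hy⟩
    have hfixT : ∀ x ∈ Tsep, arithmeticGalois (modularFunctionFieldFull M) σ • x = x := by
      intro x hx
      obtain ⟨y, -, hy⟩ := hdef _ (Finset.mem_insert_of_mem (Finset.mem_union_right _
        (Finset.mem_image_of_mem (fun g : ↥(modularFunctionFieldBar M) =>
          (g : LaurentSeries Qb)) hx)))
      exact rp26_smul_of_defined M K₁ σ hσ₁ x ⟨y, hy⟩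
    have hPS' : P ∈ S' := Finset.mem_filter.mpr ⟨hS P hP, hP⟩
    have hord : (arithmeticGalois (modularFunctionFieldFull M) σ • P).ord f = P.ord f := by
      have h1 := SemilinearAut.ord_smul (arithmeticGalois (modularFunctionFieldFull M) σ) P f
      rwa [hfixf] at h1
    have hgPS' : arithmeticGalois (modularFunctionFieldFull M) σ • P ∈ S' :=
      Finset.mem_filter.mpr ⟨hS _ (by rw [hord]; exact hP), by rw [hord]; exact hP⟩
    exact hTsep _ hfixT P hPS' hgPS'

/-- **Rational points, consumer form.**  With `K₀` as in `rp26_main`: for every intermediate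
field `K ⊇ K₀` of `ℚ̄ / ℚ`, every zero and pole of `f` on `F(M)_K` is a `K`-rational place. -/
theorem rp26_ratAt_of_le {f : ↥(modularFunctionFieldBar M)} {K₀ : IntermediateField ℚ Qb}
    (hf : rp26_StableAt M f K₀) (K : IntermediateField ℚ Qb) (hK : K₀ ≤ K) :
    rp26_RatAt M f K :=
  rp26_ratAt_of_stableAt M K (fun a => a.2) (fun x hx => ⟨⟨x, hx⟩, rfl⟩)
    (rp26_stableAt_mono M hK hf)

omit [NeZero M] in
/-- Degree-one form of `rp26_RatAt`. -/
theorem rp26_deg_eq_one {f : ↥(modularFunctionFieldBar M)} {K : Type} [Field K] [Algebra K Qb]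
    (hf : rp26_RatAt M f K) (y : ↥(modularFunctionFieldFullC K M))
    (hy : fd27_iota (algebraMap K Qb) M y = f)
    (Q : Place K ↥(modularFunctionFieldFullC K M)) (hQ : Q.ord y ≠ 0) : Q.deg = 1 :=
  rp26_deg_eq_one_of_values Q (hf y hy Q hQ)

end Modular

end Fermat.Agent.S34
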