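import Fermat.Agent.S34.WIntInst18
import Fermat.Agent.S34.FrameSat85
import Fermat.Agent.S34.BranchInf93
import Fermat.Agent.S34.AtkinLehnerCanon97

/-!
# S34 lab, P3-F1 instance, twin (helper34): residue degree one on the canonical frame data

Canonical data of `Iface47c` at level `M' * q` (`q` prime, `q ∤ M'`): `V_∞ = cm85_Vinf (M' * q)`,
`V_0 = s34i47c_V0` (`= V_∞.comap w`), `V' = cm85_Vinf M'` (Gauss valuation ring of the good
level), `α = al97L_alpha`, `β = al97L_beta : F(M')_K → F(M' q)_K`.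

* `rd34_ne`   : `V_∞ ≠ V_0` (witness `π⁻¹ (β j - α j ^ q)`: it lies in `V_∞` by the Frobenius
                congruence, and not in `V_0` because `j` is not congruent to `j ^ (q²)`);
* `rd34_F1`   : `bi93_F1 M' (M' * q) _ hπ`, i.e. `∀ x ∈ V_∞, ∃ b ∈ V', π⁻¹ (x - ι b) ∈ V_∞`
                (fourth clause of `wi18_main`, with `V₀ := s34i47c_V0`, `y := β j`, `a := j`);
* `rd34_res1` : the same with `α` in place of `ι = cm15_incl` (`hres₁` of `bsf99_locStr_of_base`);
* `rd34_res2` : `∀ x ∈ V_0, ∃ b ∈ V', π⁻¹ (x - β b) ∈ V_0` (`hres₂`; transport by `w`).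
-/

set_option autoImplicit false
set_option linter.unusedSectionVars false

open ModularCurve IntermediateField Polynomial

namespace Fermat.Agent.S34

open Fermat.Agent.S18 Fermat.Agent.S24 Fermat.Agent.S37

local notation "Q̄" => AlgebraicClosure ℚ

section rd34

variable {R K : Type} [CommRing R] [IsDomain R] [IsDiscreteValuationRing R] [Field K] [CharZero K]
  [Algebra R K] [IsFractionRing R K] [Algebra K Q̄] (M' q : ℕ) [NeZero M'] [NeZero q]

/-- `j ∈ V'`. -/
theorem rd34_j_mem {π : R} (hπ : Irreducible π) :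
    relimc_J K M' ∈ cm85_Vinf (K := K) M' hπ :=
  gv85_mem_V_of_integral _ _ _ _ (jqModC R) (by rw [relimc_J_coe, coeffMap_jqModC])

/-- **`V_∞ ≠ V_0`.** -/
theorem rd34_ne (hq : q.Prime) (hM' : ¬ q ∣ M') {π : R} (hπ : Irreducible π)
    (hqR : ¬ IsUnit (q : R)) :
    cm85_Vinf (K := K) (M' * q) hπ ≠ s34i47c_V0 (K := K) M' q hq hM' hπ := by
  intro heq
  have hJV' := rd34_j_mem (K := K) M' hπ
  have hAV : al97L_alpha K M' q (relimc_J K M') ∈ cm85_Vinf (K := K) (M' * q) hπ :=
    (al97C_alpha_mem_Vinf M' q hπ _).mpr hJV'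
  have hBV : al97L_beta K M' q (relimc_J K M') ∈ cm85_Vinf (K := K) (M' * q) hπ :=
    (al97C_beta_mem_Vinf M' q hπ _).mpr hJV'
  have h1 : (algebraMap K ↥(modularFunctionFieldFullC K (M' * q)) (algebraMap R K π))⁻¹ *
      (al97L_beta K M' q (relimc_J K M') - al97L_alpha K M' q (relimc_J K M') ^ q) ∈
        cm85_Vinf (K := K) (M' * q) hπ := by
    have h0 := fs85_frob (K := K) M' q hq hπ hqR
    rwa [map_pow] at h0
  have h2 : (algebraMap K ↥(modularFunctionFieldFullC K (M' * q)) (algebraMap R K π))⁻¹ *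
      (al97L_alpha K M' q (relimc_J K M') - al97L_beta K M' q (relimc_J K M') ^ q) ∈
        cm85_Vinf (K := K) (M' * q) hπ := by
    have h3 : (algebraMap K ↥(modularFunctionFieldFullC K (M' * q)) (algebraMap R K π))⁻¹ *
        (al97L_beta K M' q (relimc_J K M') - al97L_alpha K M' q (relimc_J K M') ^ q) ∈
          s34i47c_V0 (K := K) M' q hq hM' hπ := by
      rw [← heq]; exact h1
    rw [s34i47c_mem_V0, map_mul, map_inv₀, map_sub, map_pow, AlgEquiv.commutes,
      al97L_w_beta_apply, al97L_w_alpha_apply] at h3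
    exact h3
  obtain ⟨k, hk⟩ := sub_dvd_pow_sub_pow
    (⟨al97L_beta K M' q (relimc_J K M'), hBV⟩ : ↥(cm85_Vinf (K := K) (M' * q) hπ))
    ⟨al97L_alpha K M' q (relimc_J K M') ^ q, pow_mem hAV q⟩ q
  have hk' : al97L_beta K M' q (relimc_J K M') ^ q -
      (al97L_alpha K M' q (relimc_J K M') ^ q) ^ q =
      (al97L_beta K M' q (relimc_J K M') - al97L_alpha K M' q (relimc_J K M') ^ q) *
        (k : ↥(modularFunctionFieldFullC K (M' * q))) := by
    have h0 := congrArg (fun t : ↥(cm85_Vinf (K := K) (M' * q) hπ) =>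
      (t : ↥(modularFunctionFieldFullC K (M' * q)))) hk
    simpa using h0
  have h4 : (algebraMap K ↥(modularFunctionFieldFullC K (M' * q)) (algebraMap R K π))⁻¹ *
      (al97L_alpha K M' q (relimc_J K M') - al97L_alpha K M' q (relimc_J K M') ^ (q ^ 2)) ∈
        cm85_Vinf (K := K) (M' * q) hπ := by
    have e : (algebraMap K ↥(modularFunctionFieldFullC K (M' * q)) (algebraMap R K π))⁻¹ *
        (al97L_alpha K M' q (relimc_J K M') - al97L_alpha K M' q (relimc_J K M') ^ (q ^ 2)) =
        (algebraMap K ↥(modularFunctionFieldFullC K (M' * q)) (algebraMap R K π))⁻¹ *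
          (al97L_alpha K M' q (relimc_J K M') - al97L_beta K M' q (relimc_J K M') ^ q) +
        (algebraMap K ↥(modularFunctionFieldFullC K (M' * q)) (algebraMap R K π))⁻¹ *
          (al97L_beta K M' q (relimc_J K M') - al97L_alpha K M' q (relimc_J K M') ^ q) *
            (k : ↥(modularFunctionFieldFullC K (M' * q))) := by
      have e2 : al97L_alpha K M' q (relimc_J K M') ^ (q ^ 2) =
          (al97L_alpha K M' q (relimc_J K M') ^ q) ^ q := by rw [← pow_mul, sq]
      rw [e2]
      linear_combination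
        (algebraMap K ↥(modularFunctionFieldFullC K (M' * q)) (algebraMap R K π))⁻¹ * hk'
    rw [e]
    exact add_mem h2 (mul_mem h1 k.2)
  have h5 : (algebraMap K ↥(modularFunctionFieldFullC K (M' * q)) (algebraMap R K π))⁻¹ *
      (al97L_alpha K M' q (relimc_J K M') - al97L_alpha K M' q (relimc_J K M') ^ (q ^ 2)) =
      al97L_alpha K M' q
        ((algebraMap K ↥(modularFunctionFieldFullC K M') (algebraMap R K π))⁻¹ *
          (relimc_J K M' - relimc_J K M' ^ (q ^ 2))) := by
    rw [map_mul, map_inv₀, map_sub, map_pow, AlgHom.commutes]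
  rw [h5, al97C_alpha_mem_Vinf] at h4
  have h6 := fs85_hpow (K := K) M' hπ (q ^ 2) (by nlinarith [hq.two_le]) (relimc_J K M') hJV'
  apply h6
  have e : (algebraMap K ↥(modularFunctionFieldFullC K M') (algebraMap R K π))⁻¹ *
      (relimc_J K M' ^ q ^ 2 - relimc_J K M') =
      -((algebraMap K ↥(modularFunctionFieldFullC K M') (algebraMap R K π))⁻¹ *
        (relimc_J K M' - relimc_J K M' ^ (q ^ 2))) := by ring
  rw [e]
  exact neg_mem h4

variable [Algebra R ↥(modularFunctionFieldFullC K M')]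
  [IsScalarTower R K ↥(modularFunctionFieldFullC K M')]
  [Algebra R ↥(modularFunctionFieldFullC K (M' * q))]
  [IsScalarTower R K ↥(modularFunctionFieldFullC K (M' * q))]

/-- **Residue degree one** of `V_∞` (level `M' q`) over `V'` (level `M'`), in the literal
shape `bi93_F1` (helper93) = fourth clause of `wi18_main` (helper18). -/
theorem rd34_F1 (hq : q.Prime) (hM' : ¬ q ∣ M') {π : R} (hπ : Irreducible π)
    (hqR : ¬ IsUnit (q : R)) :
    bi93_F1 (K := K) M' (M' * q) (dvd_mul_right M' q) hπ := by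
  have hK : ((M' * q : ℕ) : K) ≠ 0 := Nat.cast_ne_zero.mpr (NeZero.ne _)
  have hdeg := Fermat.Agent.S42.gi41_relfinrank_prime K M' q hq hM' hK
  have hconv : algebraMap R ↥(modularFunctionFieldFullC K (M' * q)) π =
      algebraMap K ↥(modularFunctionFieldFullC K (M' * q)) (algebraMap R K π) :=
    IsScalarTower.algebraMap_apply R K ↥(modularFunctionFieldFullC K (M' * q)) π
  have hconv' : algebraMap R ↥(modularFunctionFieldFullC K M') π =
      algebraMap K ↥(modularFunctionFieldFullC K M') (algebraMap R K π) :=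
    IsScalarTower.algebraMap_apply R K ↥(modularFunctionFieldFullC K M') π
  have hJV' := rd34_j_mem (K := K) M' hπ
  have hy : al97L_beta K M' q (relimc_J K M') ∈ s34i47c_V0 (K := K) M' q hq hM' hπ :=
    (al97C_beta_mem_V0 M' q hq hM' hπ _).mpr hJV'
  have hya : (algebraMap R ↥(modularFunctionFieldFullC K (M' * q)) π)⁻¹ *
      (al97L_beta K M' q (relimc_J K M') ^ q -
        cm15_incl K M' (M' * q) (dvd_mul_right M' q) (relimc_J K M')) ∈
        s34i47c_V0 (K := K) M' q hq hM' hπ := by
    have hincl : cm15_incl K M' (M' * q) (dvd_mul_right M' q) (relimc_J K M') =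
        al97L_alpha K M' q (relimc_J K M') := rfl
    rw [hincl, hconv, s34i47c_mem_V0, map_mul, map_inv₀, map_sub, map_pow, AlgEquiv.commutes,
      al97L_w_beta_apply, al97L_w_alpha_apply]
    have h2 := (cm85_Vinf (K := K) (M' * q) hπ).neg_mem _ (fs85_frob (K := K) M' q hq hπ hqR)
    have h3 : (algebraMap K ↥(modularFunctionFieldFullC K (M' * q)) (algebraMap R K π))⁻¹ *
        (al97L_alpha K M' q (relimc_J K M') ^ q - al97L_beta K M' q (relimc_J K M')) =
        -((algebraMap K ↥(modularFunctionFieldFullC K (M' * q)) (algebraMap R K π))⁻¹ *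
          (al97L_beta K M' q (relimc_J K M') - al97L_alpha K M' q (relimc_J K M' ^ q))) := by
      rw [map_pow]; ring
    rw [h3]
    exact h2
  exact (wi18_main M' (M' * q) (dvd_mul_right M' q) hπ q hq hdeg
    (s34i47c_V0 (K := K) M' q hq hM' hπ)
    (fun a ha => (al97C_alpha_mem_V0 M' q hq hM' hπ a).mpr ha)
    (al97C_pi_inv_not_mem_V0 M' q hq hM' hπ) (rd34_ne M' q hq hM' hπ hqR)
    (al97L_beta K M' q (relimc_J K M')) hy (relimc_J K M') hJV' hya
    (fun b hb => by rw [hconv']; exact fs85_hpow M' hπ q hq.two_le b hb)).2.2.2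

end rd34

section rd34_res

variable {R K : Type} [CommRing R] [IsDomain R] [IsDiscreteValuationRing R] [Field K] [CharZero K]
  [Algebra R K] [IsFractionRing R K] [Algebra K Q̄] (M' q : ℕ) [NeZero M'] [NeZero q]
  [Algebra R ↥(modularFunctionFieldFullC K (M' * q))]
  [IsScalarTower R K ↥(modularFunctionFieldFullC K (M' * q))]

/-- Residue degree one of `V_∞` over `α(V')` (`hres₁` of `bsf99_locStr_of_base`); no `R`-algebra
structure at level `M'` is needed in the statement. -/
theorem rd34_res1 (hq : q.Prime) (hM' : ¬ q ∣ M') {π : R} (hπ : Irreducible π)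
    (hqR : ¬ IsUnit (q : R)) :
    ∀ x ∈ cm85_Vinf (K := K) (M' * q) hπ, ∃ b ∈ cm85_Vinf (K := K) M' hπ,
      (algebraMap R ↥(modularFunctionFieldFullC K (M' * q)) π)⁻¹ *
        (x - al97L_alpha K M' q b) ∈ cm85_Vinf (K := K) (M' * q) hπ := by
  letI : Algebra R ↥(modularFunctionFieldFullC K M') :=
    ((algebraMap K ↥(modularFunctionFieldFullC K M')).comp (algebraMap R K)).toAlgebra
  have : IsScalarTower R K ↥(modularFunctionFieldFullC K M') :=
    IsScalarTower.of_algebraMap_eq (fun _ => rfl)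
  exact rd34_F1 M' q hq hM' hπ hqR

/-- Residue degree one of `V_0` over `β(V')` (`hres₂` of `bsf99_locStr_of_base`). -/
theorem rd34_res2 (hq : q.Prime) (hM' : ¬ q ∣ M') {π : R} (hπ : Irreducible π)
    (hqR : ¬ IsUnit (q : R)) :
    ∀ x ∈ s34i47c_V0 (K := K) M' q hq hM' hπ, ∃ b ∈ cm85_Vinf (K := K) M' hπ,
      (algebraMap R ↥(modularFunctionFieldFullC K (M' * q)) π)⁻¹ *
        (x - al97L_beta K M' q b) ∈ s34i47c_V0 (K := K) M' q hq hM' hπ := by
  intro x hx
  rw [s34i47c_mem_V0] at hx
  obtain ⟨b, hb, hxb⟩ := rd34_res1 M' q hq hM' hπ hqR _ hx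
  refine ⟨b, hb, ?_⟩
  rw [s34i47c_mem_V0, map_mul, map_inv₀, map_sub, al97L_w_beta_apply,
    IsScalarTower.algebraMap_apply R K ↥(modularFunctionFieldFullC K (M' * q)),
    AlgEquiv.commutes,
    ← IsScalarTower.algebraMap_apply R K ↥(modularFunctionFieldFullC K (M' * q))]
  exact hxb

end rd34_res


end Fermat.Agent.S34
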