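import Fermat.Agent.S34.FrameSat85

/-!
# S34 lab, FRAME-LS input (helper85): residue degree one of the two branches on `W`

Canonical frame data of `Iface47c` at level `M' * q`: `V_∞ = cm85_Vinf (M' * q) hπ`,
`V_0 = s34i47c_V0`, `W = s34i47c_W = V_∞ ⊓ V_0`, `V' = cm85_Vinf M' hπ` (Gauss ring of the good
level), `α = al97L_alpha K M' q`, `β = al97L_beta K M' q`.

* `ro85_res_alpha` : every `x ∈ W` is congruent modulo `π V_∞` to `α b` for some `b ∈ V'`;
* `ro85_res_beta`  : every `x ∈ W` is congruent modulo `π V_0` to `β b` for some `b ∈ V'`;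
* `ro85_w_mem_W`   : `W` is stable under the Atkin–Lehner involution;
* `ro85_hres_alpha`, `ro85_hres_beta` : the same in the literal shape `hres₁`, `hres₂` of
  `bsf99_locStr_of_base` (helper99), for every subalgebra `B ⊆ W`.

(`tv2_main`, clause 3, for the Kummer data of `FrameSat85`; the `β`-statement by transport
along `w`.)  All names are prefixed `ro85_`.
-/

set_option autoImplicit false
set_option linter.unusedSectionVars false
set_option linter.style.haveILetI false

open ModularCurve IntermediateField Polynomial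

namespace Fermat.Agent.S34

open Fermat.Agent.S18 Fermat.Agent.S24 Fermat.Agent.S37

local notation "Q̄" => AlgebraicClosure ℚ

section ro85

variable {R K : Type} [CommRing R] [IsDomain R] [IsDiscreteValuationRing R] [Field K] [CharZero K]
  [Algebra R K] [IsFractionRing R K] [Algebra K Q̄] (M' q : ℕ) [NeZero M'] [NeZero q]

set_option maxHeartbeats 1000000 in
/-- **Residue degree one of `V_∞` over `α V'` on `W`.** -/
theorem ro85_res_alpha (hq : q.Prime) (hM' : ¬ q ∣ M') {π : R} (hπ : Irreducible π)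
    (hqR : ¬ IsUnit (q : R)) (x : ↥(modularFunctionFieldFullC K (M' * q)))
    (hx : x ∈ s34i47c_W (K := K) M' q hq hM' hπ) :
    ∃ b ∈ cm85_Vinf (K := K) M' hπ,
      (algebraMap K ↥(modularFunctionFieldFullC K (M' * q)) (algebraMap R K π))⁻¹ *
        (x - al97L_alpha K M' q b) ∈ cm85_Vinf (K := K) (M' * q) hπ := by
  letI alg : Algebra ↥(modularFunctionFieldFullC K M') ↥(modularFunctionFieldFullC K (M' * q)) :=
    (al97L_alpha K M' q).toRingHom.toAlgebra
  have hfr := fs85_finrank K M' q hq hM'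
  haveI : FiniteDimensional ↥(modularFunctionFieldFullC K M')
      ↥(modularFunctionFieldFullC K (M' * q)) :=
    Module.finite_of_finrank_pos (by rw [hfr]; omega)
  have hπEF : algebraMap ↥(modularFunctionFieldFullC K M') ↥(modularFunctionFieldFullC K (M' * q))
      (algebraMap K ↥(modularFunctionFieldFullC K M') (algebraMap R K π)) =
      algebraMap K ↥(modularFunctionFieldFullC K (M' * q)) (algebraMap R K π) :=
    (al97L_alpha K M' q).commutes _
  have hπV' : algebraMap K ↥(modularFunctionFieldFullC K M') (algebraMap R K π) ∈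
      cm85_Vinf (K := K) M' hπ :=
    gv85_mem_V_of_integral _ _ _ _ (HahnSeries.C π) (by rw [gv85_coe_algebraMap, gv85_coeffMap_C])
  have hmax : ∀ x ∈ cm85_Vinf (K := K) M' hπ, x⁻¹ ∉ cm85_Vinf (K := K) M' hπ →
      (algebraMap K ↥(modularFunctionFieldFullC K M') (algebraMap R K π))⁻¹ * x ∈
        cm85_Vinf (K := K) M' hπ := fun x hx hx' =>
    gv85_hmax (IsLocalRing.residue R) π (pk85_res_iff hπ) hπ.ne_zero _ _ x hx hx'
  have harch := fs85_harch (K := K) M' hπ
  have hV₁ : ∀ c ∈ cm85_Vinf (K := K) M' hπ,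
      algebraMap ↥(modularFunctionFieldFullC K M') ↥(modularFunctionFieldFullC K (M' * q)) c ∈
        cm85_Vinf (K := K) (M' * q) hπ := fun c hc =>
    (al97V_alpha_mem_Vinf M' q hπ c).mpr hc
  have hV₂ : ∀ c ∈ cm85_Vinf (K := K) M' hπ,
      algebraMap ↥(modularFunctionFieldFullC K M') ↥(modularFunctionFieldFullC K (M' * q)) c ∈
        s34i47c_V0 (K := K) M' q hq hM' hπ := fun c hc =>
    (al97V_alpha_mem_V0 (algebraMap K Q̄) M' q hq hM' hπ c).mpr hc
  have hπ₁ : (algebraMap ↥(modularFunctionFieldFullC K M') ↥(modularFunctionFieldFullC K (M' * q))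
      (algebraMap K ↥(modularFunctionFieldFullC K M') (algebraMap R K π)))⁻¹ ∉
        cm85_Vinf (K := K) (M' * q) hπ := by
    rw [hπEF]
    exact gv85_pi_inv_not_mem (IsLocalRing.residue R) π (pk85_res_iff hπ) hπ.ne_zero _ _
  have hπ₂ : (algebraMap ↥(modularFunctionFieldFullC K M') ↥(modularFunctionFieldFullC K (M' * q))
      (algebraMap K ↥(modularFunctionFieldFullC K M') (algebraMap R K π)))⁻¹ ∉
        s34i47c_V0 (K := K) M' q hq hM' hπ := by
    rw [hπEF, s34i47c_mem_V0, map_inv₀, AlgEquiv.commutes]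
    exact gv85_pi_inv_not_mem (IsLocalRing.residue R) π (pk85_res_iff hπ) hπ.ne_zero _ _
  have hJV' : relimc_J K M' ∈ cm85_Vinf (K := K) M' hπ :=
    gv85_mem_V_of_integral _ _ _ _ (jqModC R) (by rw [relimc_J_coe, coeffMap_jqModC])
  have hy₁ : (algebraMap ↥(modularFunctionFieldFullC K M') ↥(modularFunctionFieldFullC K (M' * q))
      (algebraMap K ↥(modularFunctionFieldFullC K M') (algebraMap R K π)))⁻¹ *
      (al97L_beta K M' q (relimc_J K M') -
        algebraMap ↥(modularFunctionFieldFullC K M') ↥(modularFunctionFieldFullC K (M' * q))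
          ((⟨relimc_J K M' ^ q, pow_mem hJV' q⟩ : ↥(cm85_Vinf (K := K) M' hπ)) :
            ↥(modularFunctionFieldFullC K M'))) ∈ cm85_Vinf (K := K) (M' * q) hπ := by
    rw [hπEF]
    exact fs85_frob M' q hq hπ hqR
  have hy₂ : (algebraMap ↥(modularFunctionFieldFullC K M') ↥(modularFunctionFieldFullC K (M' * q))
      (algebraMap K ↥(modularFunctionFieldFullC K M') (algebraMap R K π)))⁻¹ *
      (al97L_beta K M' q (relimc_J K M') ^ q -
        algebraMap ↥(modularFunctionFieldFullC K M') ↥(modularFunctionFieldFullC K (M' * q))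
          ((⟨relimc_J K M', hJV'⟩ : ↥(cm85_Vinf (K := K) M' hπ)) :
            ↥(modularFunctionFieldFullC K M'))) ∈ s34i47c_V0 (K := K) M' q hq hM' hπ := by
    rw [hπEF, s34i47c_mem_V0, map_mul, map_inv₀, AlgEquiv.commutes, map_sub, map_pow,
      al97L_w_beta_apply]
    have h1 : al97L_w (algebraMap K Q̄) M' q hq hM'
        (algebraMap ↥(modularFunctionFieldFullC K M') ↥(modularFunctionFieldFullC K (M' * q))
          (relimc_J K M')) = al97L_beta K M' q (relimc_J K M') :=
      al97L_w_alpha_apply (algebraMap K Q̄) M' q hq hM' (relimc_J K M')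
    rw [h1]
    have h2 := (cm85_Vinf (K := K) (M' * q) hπ).neg_mem _ (fs85_frob (K := K) M' q hq hπ hqR)
    have h3 : (algebraMap K ↥(modularFunctionFieldFullC K (M' * q)) (algebraMap R K π))⁻¹ *
        (al97L_alpha K M' q (relimc_J K M') ^ q - al97L_beta K M' q (relimc_J K M')) =
        -((algebraMap K ↥(modularFunctionFieldFullC K (M' * q)) (algebraMap R K π))⁻¹ *
          (al97L_beta K M' q (relimc_J K M') - al97L_alpha K M' q (relimc_J K M' ^ q))) := by
      rw [map_pow]; ring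
    rw [h3]
    exact h2
  have hpow : ∀ b ∈ cm85_Vinf (K := K) M' hπ,
      (algebraMap K ↥(modularFunctionFieldFullC K M') (algebraMap R K π))⁻¹ *
        (b ^ q - ((⟨relimc_J K M', hJV'⟩ : ↥(cm85_Vinf (K := K) M' hπ)) :
          ↥(modularFunctionFieldFullC K M'))) ∉ cm85_Vinf (K := K) M' hπ := fun b hb =>
    fs85_hpow M' hπ q hq.two_le b hb
  obtain ⟨hx₁, hx₂⟩ := (wa5_mem_W _ _ x).mp hx
  obtain ⟨H, hdeg⟩ := tv2_kummer (cm85_Vinf (K := K) M' hπ)
    (algebraMap K ↥(modularFunctionFieldFullC K M') (algebraMap R K π)) hπV' hmax harch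
    (cm85_Vinf (K := K) (M' * q) hπ) (s34i47c_V0 (K := K) M' q hq hM' hπ) hV₁ hV₂ hπ₁ hπ₂ q hq
    (al97L_beta K M' q (relimc_J K M')) ⟨relimc_J K M' ^ q, pow_mem hJV' q⟩
    ⟨relimc_J K M', hJV'⟩ hy₁ hy₂ hpow
  have hspan := tv2_DK_span H (q + 1) hdeg.ge hfr.le x
  obtain ⟨P, -, hP⟩ := tv2_DK_exists_poly H (q + 1) hdeg.ge x hspan hx₁ hx₂
  have hres := tv2_res_one (cm85_Vinf (K := K) M' hπ)
    (algebraMap K ↥(modularFunctionFieldFullC K M') (algebraMap R K π))
    (cm85_Vinf (K := K) (M' * q) hπ) hV₁ (al97L_beta K M' q (relimc_J K M')) H.hy₁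
    ⟨relimc_J K M' ^ q, pow_mem hJV' q⟩ hy₁ P
  rw [hP, hπEF] at hres
  exact ⟨_, (P.eval (⟨relimc_J K M' ^ q, pow_mem hJV' q⟩ : ↥(cm85_Vinf (K := K) M' hπ))).2, hres⟩

/-- `W` is stable under the Atkin–Lehner involution. -/
theorem ro85_w_mem_W (hq : q.Prime) (hM' : ¬ q ∣ M') {π : R} (hπ : Irreducible π)
    (x : ↥(modularFunctionFieldFullC K (M' * q)))
    (hx : x ∈ s34i47c_W (K := K) M' q hq hM' hπ) :
    al97L_w (algebraMap K Q̄) M' q hq hM' x ∈ s34i47c_W (K := K) M' q hq hM' hπ := by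
  obtain ⟨hx₁, hx₂⟩ := (s34i47c_mem_W M' q hq hM' hπ x).mp hx
  refine (s34i47c_mem_W M' q hq hM' hπ _).mpr ⟨hx₂, ?_⟩
  rw [al97L_w_w]
  exact hx₁

/-- **Residue degree one of `V_0` over `β V'` on `W`.** -/
theorem ro85_res_beta (hq : q.Prime) (hM' : ¬ q ∣ M') {π : R} (hπ : Irreducible π)
    (hqR : ¬ IsUnit (q : R)) (x : ↥(modularFunctionFieldFullC K (M' * q)))
    (hx : x ∈ s34i47c_W (K := K) M' q hq hM' hπ) :
    ∃ b ∈ cm85_Vinf (K := K) M' hπ,
      (algebraMap K ↥(modularFunctionFieldFullC K (M' * q)) (algebraMap R K π))⁻¹ *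
        (x - al97L_beta K M' q b) ∈ s34i47c_V0 (K := K) M' q hq hM' hπ := by
  obtain ⟨b, hb, hbx⟩ := ro85_res_alpha M' q hq hM' hπ hqR _ (ro85_w_mem_W M' q hq hM' hπ x hx)
  refine ⟨b, hb, ?_⟩
  rw [s34i47c_mem_V0, map_mul, map_inv₀, AlgEquiv.commutes, map_sub, al97L_w_beta_apply]
  exact hbx

variable [Algebra R ↥(modularFunctionFieldFullC K (M' * q))]
  [IsScalarTower R K ↥(modularFunctionFieldFullC K (M' * q))]

/-- `hres₁` of `bsf99_locStr_of_base` (literal shape) for every subalgebra `B ⊆ W`. -/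
theorem ro85_hres_alpha (hq : q.Prime) (hM' : ¬ q ∣ M') {π : R} (hπ : Irreducible π)
    (hqR : ¬ IsUnit (q : R))
    (B : Subalgebra R ↥(modularFunctionFieldFullC K (M' * q)))
    (hBW : ∀ x ∈ B, x ∈ s34i47c_W (K := K) M' q hq hM' hπ) :
    ∀ x ∈ B, ∃ b ∈ (cm85_Vinf (K := K) M' hπ).toSubring,
      (algebraMap R ↥(modularFunctionFieldFullC K (M' * q)) π)⁻¹ *
        (x - al97L_alpha K M' q b) ∈ (cm85_Vinf (K := K) (M' * q) hπ).toSubring := by
  intro x hx
  rw [IsScalarTower.algebraMap_apply R K ↥(modularFunctionFieldFullC K (M' * q))]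
  exact ro85_res_alpha M' q hq hM' hπ hqR x (hBW x hx)

/-- `hres₂` of `bsf99_locStr_of_base` (literal shape) for every subalgebra `B ⊆ W`. -/
theorem ro85_hres_beta (hq : q.Prime) (hM' : ¬ q ∣ M') {π : R} (hπ : Irreducible π)
    (hqR : ¬ IsUnit (q : R))
    (B : Subalgebra R ↥(modularFunctionFieldFullC K (M' * q)))
    (hBW : ∀ x ∈ B, x ∈ s34i47c_W (K := K) M' q hq hM' hπ) :
    ∀ x ∈ B, ∃ b ∈ (cm85_Vinf (K := K) M' hπ).toSubring,
      (algebraMap R ↥(modularFunctionFieldFullC K (M' * q)) π)⁻¹ *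
        (x - al97L_beta K M' q b) ∈ (s34i47c_V0 (K := K) M' q hq hM' hπ).toSubring := by
  intro x hx
  rw [IsScalarTower.algebraMap_apply R K ↥(modularFunctionFieldFullC K (M' * q))]
  exact ro85_res_beta M' q hq hM' hπ hqR x (hBW x hx)

end ro85

end Fermat.Agent.S34
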