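import Mathlib
import Fermat.Agent.S34.AsmUZW96
import Fermat.Agent.S34.WeakUZ89
import Fermat.Agent.S34.LocPrin9
import Fermat.Agent.S34.Krull65
import Fermat.Agent.S34.PkgLD32
import Fermat.Agent.S34.FrameSat85
import Fermat.Agent.S34.FrameGal87
import Fermat.Agent.S34.FinSupp29
import Fermat.Agent.S34.FieldDef45
import Fermat.Agent.S34.Unip60

/-!
# S34 lab (helper96): the THIRD route CLOSED up to ONE package — `s34i47d_Pkg_FrameLSW`

`AsmUZW96.lean` reduces `(U)` to the packages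
`s34r96_Pkg_UZW`, (LP), (KR), (LD), FRAME-SAT, FRAME-GAL, FRAME-LS′, FIN, FieldDef.
All of them except FRAME-LS′ are proved on main:

* `s34r96_pkg_UZW : s34r96_Pkg_UZW` — from `s34w89_UZ` (helper89, `WeakUZ89.lean`: a normal
  two-branch point has no deep points);
* `lp9_Pkg_LP` (helper9), `kr65_Pkg_Krull` (helper65), `pld32_Pkg_LD` (helper32),
  `fs85_pkg_frameSat` (helper85), `in87g_pkg_frameGal` (helper87), `fs29_Pkg_Fin` (helper29),
  `fd45_pkg_fieldDef` (helper45).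

Hence

* `s34r96_U_of_LSW : s34i47d_Pkg_FrameLSW → lc52_U p q N` (`q ∥ N`, `q ≠ p`), and
* `s34r96_result_of_LSW : s34i47d_Pkg_FrameLSW →` the frozen statement S34
  (`H.ρ.IsUnipotentOnInertiaAt q`), via `s34e60_main` (helper60).

So the ONLY open statement of the third route is the weak frame package
`s34i47d_Pkg_FrameLSW` (P3 (3a) + (3b): two smooth branches meeting transversally).
-/

set_option autoImplicit false

open ModularCurve AlgebraicCurve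

namespace Fermat.Agent.S34

open Fermat.Agent.S18

local notation "Q̄" => AlgebraicClosure ℚ

/-- The weak local structure of Iface47d (two fixed prime ideals `P₁`, `P₂ ∋ π`) gives the weak
local structure of `WeakUZ89` (two primes at every two-branch point). -/
theorem s34r96_weak_of_LocStrW {R F : Type*} [CommRing R] [Field F] [Algebra R F] (π : R)
    (B : Subalgebra R F) (P₁ P₂ : Ideal B) (hP₁ : P₁.IsPrime) (hP₂ : P₂.IsPrime)
    (hπ₁ : algebraMap R B π ∈ P₁) (hπ₂ : algebraMap R B π ∈ P₂)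
    (h : s34i47d_LocStrW π B P₁ P₂) : s34w89_LocStrW π B := by
  intro n hn hπn
  obtain ⟨z, z', hz, hz', hgen, hcase⟩ := h n hn hπn
  refine ⟨z, z', hz, hz', hgen, ?_⟩
  rcases hcase with h1 | ⟨h1n, h2n, hz1, hz2, hz'2, hz'1, c, hc⟩
  · exact Or.inl h1
  · refine Or.inr ⟨P₁, P₂, hP₁, hP₂, h1n, h2n, hπ₁, hπ₂, hz1, hz'2, hz2, hz'1, 1, c, ?_, ?_⟩
    · exact (Ideal.ne_top_iff_one n).mp hn.ne_top
    · rw [one_mul, hc]

/-- **The package `s34r96_Pkg_UZW` holds** (helper89's `s34w89_UZ`). -/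
theorem s34r96_pkg_UZW : s34r96_Pkg_UZW := by
  intro R K F _ _ _ _ _ _ _ _ _ _ π hπ B hN hfrac hcl P₁ P₂ hP₁ hP₂ hπ₁ hπ₂ hLSW
  exact s34w89_UZ (K := K) π hπ B hcl hfrac
    (s34r96_weak_of_LocStrW π B P₁ P₂ hP₁ hP₂ hπ₁ hπ₂ hLSW)

/-- **`(U)` from the weak frame package alone**: for `q ∥ N`, `q ≠ p`, the hypothesis `hU` of
`s34e60_main`, given only `s34i47d_Pkg_FrameLSW`. -/
theorem s34r96_U_of_LSW (hLSW : s34i47d_Pkg_FrameLSW)
    {p q N : ℕ} [NeZero N] (hp : p.Prime) (hq : q.Prime) (hqp : q ≠ p) (hqN : q ∣ N)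
    (hq2 : ¬ q ^ 2 ∣ N) : lc52_U p q N :=
  s34r96_assembly s34r96_pkg_UZW lp9_Pkg_LP kr65_Pkg_Krull pld32_Pkg_LD fs85_pkg_frameSat
    in87g_pkg_frameGal hLSW fs29_Pkg_Fin fd45_pkg_fieldDef hp hq hqp hqN hq2

open IsLocalRing CuspForm CuspForm.HeckeGaloisRepDatum in
/-- **S34 from the weak frame package alone.** -/
theorem s34r96_result_of_LSW (hLSW : s34i47d_Pkg_FrameLSW)
    {𝒪 : Type} [CommRing 𝒪] [IsDomain 𝒪] [IsDiscreteValuationRing 𝒪]
    [IsAdicComplete (maximalIdeal 𝒪) 𝒪] [Finite (ResidueField 𝒪)] [CharZero 𝒪]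
    {p : ℕ} (hp : p.Prime) (hp𝒪 : (p : 𝒪) ∈ maximalIdeal 𝒪)
    {N : ℕ} [NeZero N] {S : Finset ℕ} (hpS : p ∈ S) (hNS : ∀ q : ℕ, q.Prime → q ∣ N → q ∈ S)
    {θ : CuspForm.heckeAlgebra N 2 (↑S : Set ℕ) →+* ResidueField 𝒪}
    {T : Type} [CommRing T] [IsLocalRing T] [IsNoetherianRing T]
    [IsAdicComplete (maximalIdeal T) T] [Algebra 𝒪 T] [IsLocalHom (algebraMap 𝒪 T)]
    [Module.Finite 𝒪 T] [Module.Free 𝒪 T]
    (H : CuspForm.HeckeGaloisRepDatum N (↑S : Set ℕ) 𝒪 θ T)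
    (q : ℕ) (hq : q.Prime) (hqp : q ≠ p) (hqN : q ∣ N) (hq2 : ¬ q ^ 2 ∣ N) :
    H.ρ.IsUnipotentOnInertiaAt q :=
  s34e60_main hp hp𝒪 hpS hNS H q hq hqp (s34r96_U_of_LSW hLSW hp hq hqp hqN hq2)

end Fermat.Agent.S34
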