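import Mathlib
import Fermat.Agent.S34.Gate51
import Fermat.Agent.S34.CoreAsmUZ57
import Fermat.Agent.S34.WeakUZ89
import Fermat.Agent.S34.Iface47d

/-!
# S34 lab (helper18): the THIRD route — from `s34i47d_Pkg_FrameLSW` ALONE

The second route of `Iface47d` needs two closed `Prop`s: `s34i47d_Pkg_FrameLSW` (the weak local
structure (LS′) of the two charts of the canonical frame) and `s34i47d_Pkg_UZD` (unique zero away
from the deep points).  By helper89 / helper3 a NORMAL weak node has no deep points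
(`nd89_main`, `dn3b_main`), and `s34w89_UZ_chart` (WeakUZ89) gives the LITERAL unique-zero property
`s34i47_UniqueZero` of a noetherian chart from its weak local structure.  helper57's assembly
`cau57_assembly` (CoreAsmUZ57) runs the first-route chain `(UZ) ⟹ (LP) ⟹ (LD) ⟹ CORE` from (UZ) on
the two charts.  This file plugs the three together:

* `r3g18_locStrW` : `s34i47d_LocStrW π B P₁ P₂` (two primes containing `π`) gives
  `s34w89_LocStrW π B`;
* `r3g18_frameUZ` : FrameSat + FrameLSW at level `M' * q` give `cau57_FrameUZ M' q`;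
* `r3g18_pkg_frameUZ` : `s34i47c_Pkg_FrameSat → s34i47d_Pkg_FrameLSW → cau57_Pkg_FrameUZ`;
* `r3g18_U` : `s34i47d_Pkg_FrameLSW → lc52_U p q N` (every other package is plugged in);
* `r3g18_result` : the frozen statement S34 from `s34i47d_Pkg_FrameLSW` ALONE.

So `s34i47d_Pkg_UZD` is NOT needed: the only open `Prop` of the lab is `s34i47d_Pkg_FrameLSW`.
All names are prefixed `r3g18_`.
-/

set_option autoImplicit false

open ModularCurve AlgebraicCurve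

namespace Fermat.Agent.S34

open Fermat.Agent.S18

local notation "Q̄" => AlgebraicClosure ℚ

section r3g18_abs

variable {R F : Type*} [CommRing R] [Field F] [Algebra R F]

/-- The weak local structure (LS′) of `Iface47d` with respect to two prime ideals containing `π`
gives the weak local structure of `WeakUZ89` (the node clause with `s = 1`). -/
theorem r3g18_locStrW (π : R) (B : Subalgebra R F) (P₁ P₂ : Ideal B) (hP₁ : P₁.IsPrime)
    (hP₂ : P₂.IsPrime) (hπ₁ : algebraMap R B π ∈ P₁) (hπ₂ : algebraMap R B π ∈ P₂)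
    (h : s34i47d_LocStrW π B P₁ P₂) : s34w89_LocStrW π B := by
  intro n hn hπn
  obtain ⟨z, z', hz, hz', hgen, halt⟩ := h n hn hπn
  refine ⟨z, z', hz, hz', hgen, ?_⟩
  rcases halt with h1 | ⟨h1, h2, hz1, hz2, hz'2, hz'1, c, hc⟩
  · exact Or.inl h1
  · refine Or.inr ⟨P₁, P₂, hP₁, hP₂, h1, h2, hπ₁, hπ₂, hz1, hz'2, hz2, hz'1, 1, c, ?_, ?_⟩
    · exact (Ideal.ne_top_iff_one n).mp hn.ne_top
    · rw [one_mul]
      exact hc

end r3g18_abs

/-- FrameSat + FrameLSW at level `M' * q` give (UZ) on the two charts of every admissible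
Hauptmodul. -/
theorem r3g18_frameUZ (M' q : ℕ) [NeZero M'] [NeZero q] (hq : q.Prime) (hM' : ¬ q ∣ M')
    (hSat : s34i47c_FrameSat M' q hq hM') (hLSW : s34i47d_FrameLSW M' q) :
    cau57_FrameUZ M' q := by
  intro R K _ _ _ _ _ _ _ _ _ _ π hπ hunit hqR h hh
  obtain ⟨-, hN₁, hN₂, hfrac₁, hfrac₂⟩ :=
    cau57_chart_facts M' q hq hM' hSat R K π hπ hunit hqR h hh
  obtain ⟨⟨P₁, P₂, hP₁, hP₂, hπ₁, hπ₂, hL⟩, ⟨P₁', P₂', hP₁', hP₂', hπ₁', hπ₂', hL'⟩⟩ :=
    hLSW R K π hπ hunit hqR h hh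
  exact ⟨s34w89_UZ_chart (K := K) π hπ _ hfrac₁ (r3g18_locStrW π _ P₁ P₂ hP₁ hP₂ hπ₁ hπ₂ hL),
    s34w89_UZ_chart (K := K) π hπ _ hfrac₂ (r3g18_locStrW π _ P₁' P₂' hP₁' hP₂' hπ₁' hπ₂' hL')⟩

/-- `s34i47c_Pkg_FrameSat → s34i47d_Pkg_FrameLSW → cau57_Pkg_FrameUZ`. -/
theorem r3g18_pkg_frameUZ (hSat : s34i47c_Pkg_FrameSat) (hLSW : s34i47d_Pkg_FrameLSW) :
    cau57_Pkg_FrameUZ := by
  intro M' q _ _ hq hM'
  exact r3g18_frameUZ M' q hq hM' (hSat M' q hq hM') (hLSW M' q hq hM')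

/-- Third route: `(U)` from `s34i47d_Pkg_FrameLSW` alone. -/
theorem r3g18_U (hLSW : s34i47d_Pkg_FrameLSW) {p q N : ℕ} [NeZero N] (hp : p.Prime)
    (hq : q.Prime) (hqp : q ≠ p) (hqN : q ∣ N) (hq2 : ¬ q ^ 2 ∣ N) : lc52_U p q N :=
  cau57_assembly lp9_Pkg_LP kr65_Pkg_Krull pld32_Pkg_LD fs85_pkg_frameSat in87g_pkg_frameGal
    (r3g18_pkg_frameUZ fs85_pkg_frameSat hLSW) fs29_Pkg_Fin fd45_pkg_fieldDef hp hq hqp hqN hq2

section r3g18_Result

variable {𝒪 : Type} [CommRing 𝒪] [IsDomain 𝒪] [IsDiscreteValuationRing 𝒪]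
  [IsAdicComplete (IsLocalRing.maximalIdeal 𝒪) 𝒪]
  {p : ℕ} {N : ℕ} [NeZero N] {S : Finset ℕ}
  {θ : CuspForm.heckeAlgebra N 2 (↑S : Set ℕ) →+* IsLocalRing.ResidueField 𝒪}
  {T : Type} [CommRing T] [IsLocalRing T] [IsNoetherianRing T]
  [IsAdicComplete (IsLocalRing.maximalIdeal T) T] [Algebra 𝒪 T] [IsLocalHom (algebraMap 𝒪 T)]
  [Module.Finite 𝒪 T] [Module.Free 𝒪 T]

/-- **S34 after the third route**: the frozen statement from `s34i47d_Pkg_FrameLSW` ALONE. -/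
theorem r3g18_result (hLSW : s34i47d_Pkg_FrameLSW)
    (hp : p.Prime) (hp𝒪 : (p : 𝒪) ∈ IsLocalRing.maximalIdeal 𝒪) (hpS : p ∈ S)
    (hNS : ∀ q : ℕ, q.Prime → q ∣ N → q ∈ S)
    (H : CuspForm.HeckeGaloisRepDatum N (↑S : Set ℕ) 𝒪 θ T)
    (q : ℕ) (hq : q.Prime) (hqp : q ≠ p) (hqN : q ∣ N) (hq2 : ¬ q ^ 2 ∣ N) :
    H.ρ.IsUnipotentOnInertiaAt q :=
  s34e60_main hp hp𝒪 hpS hNS H q hq hqp (r3g18_U hLSW hp hq hqp hqN hq2)

end r3g18_Result

end Fermat.Agent.S34
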