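import Mathlib
import Fermat.Agent.S18.Pack15

/-!
# S34 lab, package P2 (helper85, twin): saturation of the charts at level `q M'` — abstract part

The S18 saturation (`sat23_*`) needs the level to be a unit of `R`.  At level `M = q M'` the charts
are saturated with respect to `W = V_∞ ⊓ V_0`; this file proves the abstract transfer
(Mathlib + the chart definition `pk15_chart` only):

* `cm85_minpoly_coeff_mem` : `A ⊆ E` integrally closed in the field `E`, `y ∈ F ⊇ E` integral over
  `A`: the coefficients of `minpoly E y` lie in `A` (no `IsFractionRing` hypothesis).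
* `cm85_sat_abs` : `B'`, `V'` subrings of `E`, integrally closed in `E`, `B'` saturated in `V'`
  w.r.t. `p`; if `y ∈ F` is integral over `V'` and `p y` is integral over `B'`, then `y` is
  integral over `B'`.
* `cm85_isIntegral_of_range_le` : integrality only depends on the range of the structure map.
* `cm85_sat_transfer` : `E ⊆ F` fields over `R`, the chart `pk15_chart R s'` of `E` saturated in a
  valuation subring `V'` of `E`, `W` a subring of `F` all of whose elements are integral over
  `V'`  ⟹  the chart `pk15_chart R (s' viewed in F)` of `F` is saturated in `W` — the literal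
  `hsat` shape of `ntc47_main`.

In the application `E = F(M')`, `F = F(q M')`, `V'` the Gauss valuation ring of `E` and
`W = V_∞ ⊓ V_0` (integral over `V'` because `V_∞`, `V_0` are the only extensions of `V'`).

All names are prefixed `cm85_`.
-/

set_option autoImplicit false

open Polynomial

namespace Fermat.Agent.S34

open Fermat.Agent.S18

section cm85_satabs

variable {E F : Type*} [Field E] [Field F] [Algebra E F]

theorem cm85_minpoly_coeff_mem (A : Subring E) (hAcl : ∀ c : E, IsIntegral A c → c ∈ A)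
    (y : F) (hy : IsIntegral A y) (i : ℕ) : (minpoly E y).coeff i ∈ A := by
  obtain ⟨f, hf, hfy⟩ := hy
  have hyE : IsIntegral E y := by
    refine ⟨f.map (algebraMap A E), hf.map _, ?_⟩
    rw [eval₂_map, ← IsScalarTower.algebraMap_eq A E F]
    exact hfy
  have hd : minpoly E y ∣ f.map (algebraMap A E) := by
    apply minpoly.dvd
    rw [aeval_def, eval₂_map, ← IsScalarTower.algebraMap_eq A E F]
    exact hfy
  have hl := integralClosure.mem_lifts_of_monic_of_dvd_map E hf (minpoly.monic hyE) hd
  rw [lifts_iff_coeff_lifts] at hl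
  obtain ⟨c, hc⟩ := hl i
  rw [← hc]
  exact hAcl _ c.2

/-- iterated saturation. -/
theorem cm85_sat_pow (B' V' : Subring E) (p : E) (hp0 : p ≠ 0) (hpV : p ∈ V')
    (hsat' : ∀ c ∈ B', p⁻¹ * c ∈ V' → p⁻¹ * c ∈ B') (k : ℕ) (c : E) (hcV : c ∈ V')
    (hc : c * p ^ k ∈ B') : c ∈ B' := by
  induction k with
  | zero => simpa using hc
  | succ k ih =>
    apply ih
    have h1 : c * p ^ k = p⁻¹ * (c * p ^ (k + 1)) := by
      rw [pow_succ]; field_simp
    rw [h1]
    apply hsat' _ hc
    rw [← h1]
    exact V'.mul_mem hcV (V'.pow_mem hpV k)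

/-- **Abstract saturation.**  `E ⊆ F` fields, `B'`, `V'` subrings of `E`, both integrally closed
in `E`, `B'` saturated in `V'` with respect to `p`.  If `y ∈ F` is integral over `V'` and `p y` is
integral over `B'`, then `y` is integral over `B'`. -/
theorem cm85_sat_abs (B' V' : Subring E)
    (hB'cl : ∀ c : E, IsIntegral B' c → c ∈ B')
    (hV'cl : ∀ c : E, IsIntegral V' c → c ∈ V')
    (p : E) (hp0 : p ≠ 0) (hpV : p ∈ V')
    (hsat' : ∀ c ∈ B', p⁻¹ * c ∈ V' → p⁻¹ * c ∈ B')
    (y : F) (hyV : IsIntegral V' y) (hyB : IsIntegral B' (p • y)) :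
    IsIntegral B' y := by
  have hyE : IsIntegral E y := hyV.tower_top
  have hsm : minpoly E (p • y) = (minpoly E y).scaleRoots p :=
    IsIntegrallyClosed.minpoly_smul hp0 hyE
  have hcoeff : ∀ i, (minpoly E y).coeff i ∈ B' := by
    intro i
    have h1 : (minpoly E y).coeff i ∈ V' := cm85_minpoly_coeff_mem V' hV'cl y hyV i
    have h2 : (minpoly E (p • y)).coeff i ∈ B' := cm85_minpoly_coeff_mem B' hB'cl (p • y) hyB i
    rw [hsm, coeff_scaleRoots] at h2
    exact cm85_sat_pow B' V' p hp0 hpV hsat' _ _ h1 h2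
  have hlift : minpoly E y ∈ lifts (algebraMap B' E) := by
    rw [lifts_iff_coeff_lifts]
    intro i
    exact ⟨⟨_, hcoeff i⟩, rfl⟩
  obtain ⟨g, hg, -, hgm⟩ := lifts_and_natDegree_eq_and_monic hlift (minpoly.monic hyE)
  refine ⟨g, hgm, ?_⟩
  have h3 : eval₂ (algebraMap E F) y (g.map (algebraMap B' E)) = 0 := by
    rw [hg]; exact minpoly.aeval E y
  rw [eval₂_map, ← IsScalarTower.algebraMap_eq B' E F] at h3
  exact h3

end cm85_satabs


section cm85_range

/-- integrality only depends on the range of the structure map. -/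
theorem cm85_isIntegral_of_range_le {A₁ A₂ F : Type*} [CommRing A₁] [CommRing A₂] [CommRing F]
    [Algebra A₁ F] [Algebra A₂ F]
    (hle : ∀ a : A₁, ∃ b : A₂, algebraMap A₂ F b = algebraMap A₁ F a) {x : F}
    (hx : IsIntegral A₁ x) : IsIntegral A₂ x := by
  obtain ⟨f, hf, hfx⟩ := hx
  have hl : f.map (algebraMap A₁ F) ∈ lifts (algebraMap A₂ F) := by
    rw [lifts_iff_coeff_lifts]
    intro i
    rw [coeff_map]
    obtain ⟨b, hb⟩ := hle (f.coeff i)
    exact ⟨b, hb⟩
  obtain ⟨g, hg, -, hgm⟩ := lifts_and_natDegree_eq_and_monic hl (hf.map _)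
  refine ⟨g, hgm, ?_⟩
  have h1 : eval₂ (algebraMap A₂ F) x g = eval x (g.map (algebraMap A₂ F)) := (eval_map _ _).symm
  rw [h1, hg, eval_map]
  exact hfx

end cm85_range


section cm85_transfer

variable {R E F : Type*} [CommRing R] [Field E] [Field F] [Algebra R E] [Algebra R F]
  [Algebra E F] [IsScalarTower R E F]

/-- the image chart is integral over the image of the chart. -/
theorem cm85_adjoin_image (s' : Set E) (a : F)
    (ha : a ∈ Algebra.adjoin R (algebraMap E F '' s')) :
    ∃ b ∈ Algebra.adjoin R s', algebraMap E F b = a := by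
  have h1 : Algebra.adjoin R (algebraMap E F '' s')
      = (Algebra.adjoin R s').map (IsScalarTower.toAlgHom R E F) := by
    rw [AlgHom.map_adjoin]
    rfl
  rw [h1] at ha
  obtain ⟨b, hb, rfl⟩ := ha
  exact ⟨b, hb, rfl⟩

theorem cm85_image_adjoin (s' : Set E) (b : E) (hb : b ∈ Algebra.adjoin R s') :
    algebraMap E F b ∈ Algebra.adjoin R (algebraMap E F '' s') := by
  have h1 : Algebra.adjoin R (algebraMap E F '' s')
      = (Algebra.adjoin R s').map (IsScalarTower.toAlgHom R E F) := by
    rw [AlgHom.map_adjoin]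
    rfl
  rw [h1]
  exact ⟨b, hb, rfl⟩

/-- the image of an element of the chart lies in the image chart. -/
theorem cm85_image_chart (s' : Set E) (b : E) (hb : b ∈ pk15_chart R s') :
    algebraMap E F b ∈ pk15_chart R (algebraMap E F '' s') := by
  rw [pk15_mem_chart] at hb ⊢
  obtain ⟨f, hf, hfb⟩ := hb
  -- the polynomial over `F`
  have hl : (f.map (algebraMap (Algebra.adjoin R s') E)).map (algebraMap E F) ∈
      lifts (algebraMap (Algebra.adjoin R (algebraMap E F '' s')) F) := by
    rw [lifts_iff_coeff_lifts]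
    intro i
    rw [coeff_map, coeff_map]
    exact ⟨⟨_, cm85_image_adjoin s' _ (f.coeff i).2⟩, rfl⟩
  obtain ⟨g, hg, -, hgm⟩ := lifts_and_natDegree_eq_and_monic hl ((hf.map _).map _)
  refine ⟨g, hgm, ?_⟩
  have h1 : eval₂ (algebraMap (Algebra.adjoin R (algebraMap E F '' s')) F) (algebraMap E F b) g
      = eval (algebraMap E F b)
        (g.map (algebraMap (Algebra.adjoin R (algebraMap E F '' s')) F)) := (eval_map _ _).symm
  rw [h1, hg, eval_map, eval₂_hom, eval_map, hfb, map_zero]

/-- core of the transfer, for subrings with explicit membership. -/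
theorem cm85_sat_transfer_core (s' : Set E) (B' V'S : Subring E)
    (hmemB' : ∀ c : E, c ∈ B' ↔ c ∈ pk15_chart R s')
    (hV'cl : ∀ c : E, IsIntegral V'S c → c ∈ V'S)
    (π : R) (hπ0 : algebraMap R E π ≠ 0) (hπV : algebraMap R E π ∈ V'S)
    (hsat' : ∀ x ∈ B', (algebraMap R E π)⁻¹ * x ∈ V'S → (algebraMap R E π)⁻¹ * x ∈ B')
    (y : F) (hyV : IsIntegral V'S y)
    (hx : algebraMap R F π * y ∈ pk15_chart R (algebraMap E F '' s')) :
    y ∈ pk15_chart R (algebraMap E F '' s') := by
  -- `B'` is integrally closed in `E`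
  have hB'cl : ∀ c : E, IsIntegral B' c → c ∈ B' := by
    intro c hc
    have h1 : IsIntegral (integralClosure (Algebra.adjoin R s') E) c :=
      cm85_isIntegral_of_range_le (fun a => ⟨⟨a.1, (hmemB' a.1).mp a.2⟩, rfl⟩) hc
    exact (hmemB' c).mpr (isIntegral_trans c h1)
  have hxy : algebraMap R E π • y = algebraMap R F π * y := by
    rw [Algebra.smul_def, ← IsScalarTower.algebraMap_apply R E F]
  have hyB : IsIntegral B' (algebraMap R E π • y) := by
    rw [hxy]
    rw [pk15_mem_chart] at hx
    refine cm85_isIntegral_of_range_le (fun a => ?_) hx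
    obtain ⟨b, hb, hba⟩ := cm85_adjoin_image s' a.1 a.2
    refine ⟨⟨b, ?_⟩, hba⟩
    rw [hmemB', pk15_mem_chart]
    exact isIntegral_algebraMap (R := Algebra.adjoin R s') (x := ⟨b, hb⟩)
  have hyB' : IsIntegral B' y :=
    cm85_sat_abs B' V'S hB'cl hV'cl (algebraMap R E π) hπ0 hπV hsat' y hyV hyB
  -- back to the chart in `F`
  have h2 : IsIntegral (integralClosure (Algebra.adjoin R (algebraMap E F '' s')) F) y := by
    refine cm85_isIntegral_of_range_le (fun a => ?_) hyB'
    have h3 : IsIntegral (Algebra.adjoin R (algebraMap E F '' s')) (algebraMap E F a.1) :=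
      (pk15_mem_chart _ _).mp (cm85_image_chart s' a.1 ((hmemB' a.1).mp a.2))
    refine ⟨⟨algebraMap E F a.1, h3⟩, ?_⟩
    rw [IsScalarTower.algebraMap_apply B' E F]
    rfl
  rw [pk15_mem_chart]
  exact isIntegral_trans y h2

/-- **Transfer of saturation along a field extension.**  `E ⊆ F` fields over `R`, `s' ⊆ E`,
`V'` a valuation subring of `E` containing `π`; the chart `pk15_chart R s'` (in `E`) is saturated
with respect to `V'`.  If `W` is a subring of `F` all of whose elements are integral over `V'`,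
then the chart `pk15_chart R (s' viewed in F)` is saturated with respect to `W`. -/
theorem cm85_sat_transfer (s' : Set E) (V' : ValuationSubring E) (π : R)
    (hπ0 : algebraMap R E π ≠ 0) (hπV : algebraMap R E π ∈ V')
    (hsat' : ∀ x ∈ pk15_chart R s', (algebraMap R E π)⁻¹ * x ∈ V' →
      (algebraMap R E π)⁻¹ * x ∈ pk15_chart R s')
    (W : Subring F) (hINT : ∀ y ∈ W, IsIntegral V'.toSubring y) :
    ∀ x ∈ pk15_chart R (algebraMap E F '' s'), (algebraMap R F π)⁻¹ * x ∈ W →
      (algebraMap R F π)⁻¹ * x ∈ pk15_chart R (algebraMap E F '' s') := by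
  intro x hx hxW
  have hπ0F : algebraMap R F π ≠ 0 := by
    rw [IsScalarTower.algebraMap_apply R E F]
    exact (_root_.map_ne_zero _).mpr hπ0
  -- `V'` is integrally closed in `E`
  have hV'cl : ∀ c : E, IsIntegral V'.toSubring c → c ∈ V'.toSubring := by
    intro c hc
    have h1 : IsIntegral V' c := cm85_isIntegral_of_range_le (fun a => ⟨⟨a.1, a.2⟩, rfl⟩) hc
    obtain ⟨y, hy⟩ := IsIntegrallyClosed.isIntegral_iff.mp h1
    rw [← hy]
    exact y.2
  refine cm85_sat_transfer_core s' (pk15_chart R s').toSubring V'.toSubring (fun _ => Iff.rfl)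
    hV'cl π hπ0 hπV (fun c hc hcV => hsat' c hc hcV) _ (hINT _ hxW) ?_
  rw [← mul_assoc, mul_inv_cancel₀ hπ0F, one_mul]
  exact hx

end cm85_transfer


end Fermat.Agent.S34
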