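import Mathlib
import Fermat.Agent.S34.SpecFibre79
import Fermat.Agent.S34.NodeAbs99
import Fermat.Agent.S34.NodeChart99

/-!
# S34 lab, P3 (3a)-inf (helper25, instance twin): the branch of `V_∞` is the good fibre of the
lower level — abstract reduction

`ι : F' → F` an inclusion of function fields (`F' = F(M')`, `F = F(M' q)`), `B' ⊆ F'`, `B ⊆ F`
charts with `ι B' ⊆ B` and `B` integral over `ι B'`, `V' ⊆ F'`, `V ⊆ F` the Gauss valuation rings
(`V ∩ F' = V'`).  If

* the special fibre `B' ⧸ π` is a Dedekind domain and `B'` is saturated in `V'`,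
* `V'` is the localisation of `B'` (fraction form `si25_frac`), and
* the residue field of `V` is that of `V'` on `B` (`hres`, "`f = 1`"),

then `B' → B ⧸ p_V` is onto (`si25_surj`) and at every maximal `n ⊇ p_V` of `B` there is a local
coordinate of the branch coming from `B'` (`si25_smoothFrom`), in the literal shape `sf79_Unif`
of `SpecFibre79`; `si25_smooth` is the shape `sf79_Smooth π B V`.

All names are prefixed `si25_`.
-/

set_option autoImplicit false
set_option linter.style.haveILetI false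
set_option linter.unusedSectionVars false

namespace Fermat.Agent.S34

open Polynomial

section Abstract

variable {R F' F : Type*} [CommRing R] [Field F'] [Field F] [Algebra R F'] [Algebra R F]

/-- **Fractions with a unit denominator**: if `B'` is saturated in `V'`, has fraction field `F'`
and `V'` is archimedean with respect to `π`, then every element of `V'` is a fraction of
elements of `B'` whose denominator is a unit of `V'` (not divisible by `π`). -/
theorem si25_frac (π : R) (B' : Subalgebra R F') (V' : Subring F')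
    (hB'V' : ∀ x ∈ B', x ∈ V')
    (hsat' : ∀ x ∈ B', (algebraMap R F' π)⁻¹ * x ∈ V' → (algebraMap R F' π)⁻¹ * x ∈ B')
    (hfrac0 : ∀ x : F', ∃ a ∈ B', ∃ b ∈ B', b ≠ 0 ∧ x * b = a)
    (harch : ∀ x : F', x ≠ 0 → ∃ k : ℕ, (algebraMap R F' π ^ k)⁻¹ * x ∉ V')
    (c : F') (hc : c ∈ V') :
    ∃ a0 ∈ B', ∃ a1 ∈ B', (algebraMap R F' π)⁻¹ * a1 ∉ V' ∧ c * a1 = a0 := by
  classical
  obtain ⟨a, ha, b, hb, hb0, hab⟩ := hfrac0 c
  have hex := harch b hb0
  set n0 := Nat.find hex with hn0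
  have hn0spec : (algebraMap R F' π ^ n0)⁻¹ * b ∉ V' := Nat.find_spec hex
  have hn0pos : n0 ≠ 0 := by
    intro h0
    apply hn0spec
    rw [h0, pow_zero, inv_one, one_mul]
    exact hB'V' b hb
  obtain ⟨k, hk⟩ := Nat.exists_eq_succ_of_ne_zero hn0pos
  have hmin : ∀ j : ℕ, j ≤ k → (algebraMap R F' π ^ j)⁻¹ * b ∈ V' := by
    intro j hj
    by_contra hcon
    have := Nat.find_min' hex hcon
    omega
  have hstep : ∀ j : ℕ, j ≤ k →
      (algebraMap R F' π ^ j)⁻¹ * b ∈ B' ∧ (algebraMap R F' π ^ j)⁻¹ * a ∈ B' := by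
    intro j
    induction j with
    | zero =>
      intro _
      simpa using And.intro hb ha
    | succ j ih =>
      intro hj
      obtain ⟨ihb, iha⟩ := ih (by omega)
      have e1 : (algebraMap R F' π ^ (j + 1))⁻¹ * b =
          (algebraMap R F' π)⁻¹ * ((algebraMap R F' π ^ j)⁻¹ * b) := by
        rw [pow_succ, mul_inv]; ring
      have e2 : (algebraMap R F' π ^ (j + 1))⁻¹ * a =
          (algebraMap R F' π)⁻¹ * ((algebraMap R F' π ^ j)⁻¹ * a) := by
        rw [pow_succ, mul_inv]; ring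
      have hb' : (algebraMap R F' π ^ (j + 1))⁻¹ * b ∈ B' := by
        rw [e1]
        apply hsat' _ ihb
        rw [← e1]
        exact hmin (j + 1) hj
      refine ⟨hb', ?_⟩
      rw [e2]
      apply hsat' _ iha
      rw [← e2]
      have e3 : (algebraMap R F' π ^ (j + 1))⁻¹ * a =
          c * ((algebraMap R F' π ^ (j + 1))⁻¹ * b) := by
        rw [← hab]; ring
      rw [e3]
      exact V'.mul_mem hc (hB'V' _ hb')
  obtain ⟨hbk, hak⟩ := hstep k le_rfl
  refine ⟨_, hak, _, hbk, ?_, ?_⟩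
  · have e1 : (algebraMap R F' π)⁻¹ * ((algebraMap R F' π ^ k)⁻¹ * b) =
        (algebraMap R F' π ^ n0)⁻¹ * b := by
      rw [hk, pow_succ, mul_inv]; ring
    rw [e1]
    exact hn0spec
  · rw [← hab]; ring

variable (ι : F' →ₐ[R] F) (π : R) (B' : Subalgebra R F') (B : Subalgebra R F)
  (V' : Subring F') (V : Subring F)

/-- The restriction `B' → B` of `ι`. -/
noncomputable def si25_res (hιB : ∀ x ∈ B', ι x ∈ B) : B' →ₐ[R] B :=
  (ι.comp B'.val).codRestrict B (fun x => hιB x x.2)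

@[simp]
theorem si25_res_coe (hιB : ∀ x ∈ B', ι x ∈ B) (x : B') :
    ((si25_res ι B' B hιB x : B) : F) = ι (x : F') := rfl

/-- **(3a), surjectivity**: `B' → B ⧸ p_V` is onto. -/
theorem si25_surj (hιB : ∀ x ∈ B', ι x ∈ B)
    (hint : ∀ x ∈ B, ((ι : F' →+* F).comp (algebraMap B' F')).IsIntegralElem x)
    [hD : IsDedekindDomain (B' ⧸ Ideal.span {algebraMap R B' π})]
    (hB'V' : ∀ x ∈ B', x ∈ V') (hBV : ∀ x ∈ B, x ∈ V)
    (hsat' : ∀ x ∈ B', (algebraMap R F' π)⁻¹ * x ∈ V' → (algebraMap R F' π)⁻¹ * x ∈ B')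
    (hfrac' : ∀ c ∈ V', ∃ a0 ∈ B', ∃ a1 ∈ B', (algebraMap R F' π)⁻¹ * a1 ∉ V' ∧ c * a1 = a0)
    (hιV : ∀ y : F', ι y ∈ V → y ∈ V')
    (hπV : (algebraMap R F π)⁻¹ ∉ V)
    (hV : ∀ x ∈ V, (algebraMap R F π)⁻¹ * x ∉ V → x⁻¹ ∈ V)
    (hres : ∀ x ∈ B, ∃ c ∈ V', (algebraMap R F π)⁻¹ * (x - ι c) ∈ V) (b : B) :
    ∃ a : B', (algebraMap R F π)⁻¹ * ((b : F) - ι (a : F')) ∈ V := by
  classical
  set f : B' →ₐ[R] B := si25_res ι B' B hιB with hf
  set I : Ideal B' := Ideal.span {algebraMap R B' π} with hIdef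
  haveI : IsDomain (B' ⧸ I) := hD.toIsDomain
  haveI hI : I.IsPrime := (Ideal.Quotient.isDomain_iff_prime I).mp inferInstance
  haveI : IsIntegrallyClosed (B' ⧸ I) := inferInstance
  have hπF : algebraMap R F π ≠ 0 := by
    intro h0
    apply hπV
    rw [h0, inv_zero]
    exact V.zero_mem
  have hιπ : ι (algebraMap R F' π) = algebraMap R F π := ι.commutes π
  have hπF' : algebraMap R F' π ≠ 0 := by
    intro h0
    apply hπF
    rw [← hιπ, h0, map_zero]
  haveI hp : (sf79_br π B V hBV).IsPrime := sf79_br_isPrime π B V hBV hπV hV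
  -- the branch lies over `π B'`
  have hcomap : (sf79_br π B V hBV).comap (f : B' →+* B) = I := by
    ext x
    rw [Ideal.mem_comap, sf79_mem_br]
    show (algebraMap R F π)⁻¹ * ι (x : F') ∈ V ↔ x ∈ I
    constructor
    · intro hx
      have e1 : (algebraMap R F π)⁻¹ * ι (x : F') = ι ((algebraMap R F' π)⁻¹ * (x : F')) := by
        rw [map_mul, map_inv₀, hιπ]
      rw [e1] at hx
      have h1 := hsat' _ x.2 (hιV _ hx)
      rw [hIdef, Ideal.mem_span_singleton']
      refine ⟨⟨_, h1⟩, ?_⟩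
      apply Subtype.ext
      show (algebraMap R F' π)⁻¹ * (x : F') * algebraMap R F' π = (x : F')
      field_simp
    · intro hx
      rw [hIdef, Ideal.mem_span_singleton'] at hx
      obtain ⟨a, ha⟩ := hx
      have e1 : (x : F') = (a : F') * algebraMap R F' π := by
        rw [← ha]; rfl
      rw [e1, map_mul, hιπ]
      have e2 : (algebraMap R F π)⁻¹ * (ι (a : F') * algebraMap R F π) = ι (a : F') := by
        field_simp
      rw [e2]
      exact hBV _ (hιB _ a.2)
  -- integrality of `f`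
  have hfint : (f : B' →+* B).IsIntegral := by
    intro y
    obtain ⟨P, hPm, hP⟩ := hint y y.2
    refine ⟨P, hPm, ?_⟩
    apply Subtype.ext
    have h1 : ((Polynomial.eval₂ (f : B' →+* B) y P : B) : F) =
        Polynomial.eval₂ (((B.val : B →+* F)).comp (f : B' →+* B)) (y : F) P :=
      Polynomial.hom_eval₂ P (f : B' →+* B) (B.val : B →+* F) y
    rw [h1]
    exact hP
  -- fractions
  have hfracB : ∀ y : B, ∃ a a' : B', a' ∉ I ∧
      (f : B' →+* B) a' * y - (f : B' →+* B) a ∈ sf79_br π B V hBV := by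
    intro y
    obtain ⟨c, hc, hcy⟩ := hres y y.2
    obtain ⟨a0, ha0, a1, ha1, ha1V, hca⟩ := hfrac' c hc
    refine ⟨⟨a0, ha0⟩, ⟨a1, ha1⟩, ?_, ?_⟩
    · intro hmem
      rw [hIdef, Ideal.mem_span_singleton'] at hmem
      obtain ⟨u, hu⟩ := hmem
      apply ha1V
      have e1 : a1 = (u : F') * algebraMap R F' π := by
        have := congrArg (fun t : B' => (t : F')) hu
        exact this.symm
      rw [e1]
      have e2 : (algebraMap R F' π)⁻¹ * ((u : F') * algebraMap R F' π) = (u : F') := by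
        field_simp
      rw [e2]
      exact hB'V' _ u.2
    · rw [sf79_mem_br]
      show (algebraMap R F π)⁻¹ * (ι a1 * (y : F) - ι a0) ∈ V
      have e1 : (algebraMap R F π)⁻¹ * (ι a1 * (y : F) - ι a0) =
          ι a1 * ((algebraMap R F π)⁻¹ * ((y : F) - ι c)) := by
        rw [← hca, map_mul]; ring
      rw [e1]
      exact V.mul_mem (hBV _ (hιB _ ha1)) hcy
  obtain ⟨a, ha⟩ := na99_surj_of_integral (f : B' →+* B) hfint I (sf79_br π B V hBV) hcomap
    hfracB b
  exact ⟨a, ha⟩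

/-- **(3a), local coordinates from the lower level** (`SmoothFrom`): at every maximal ideal `n`
of `B` containing the branch of `V` there is `z ∈ B'` such that `ι z` is a local coordinate of
the branch at `n`. -/
theorem si25_smoothFrom (hιB : ∀ x ∈ B', ι x ∈ B)
    (hint : ∀ x ∈ B, ((ι : F' →+* F).comp (algebraMap B' F')).IsIntegralElem x)
    [hD : IsDedekindDomain (B' ⧸ Ideal.span {algebraMap R B' π})]
    (hB'V' : ∀ x ∈ B', x ∈ V') (hBV : ∀ x ∈ B, x ∈ V)
    (hsat' : ∀ x ∈ B', (algebraMap R F' π)⁻¹ * x ∈ V' → (algebraMap R F' π)⁻¹ * x ∈ B')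
    (hfrac' : ∀ c ∈ V', ∃ a0 ∈ B', ∃ a1 ∈ B', (algebraMap R F' π)⁻¹ * a1 ∉ V' ∧ c * a1 = a0)
    (hιV : ∀ y : F', ι y ∈ V → y ∈ V')
    (hπV : (algebraMap R F π)⁻¹ ∉ V)
    (hV : ∀ x ∈ V, (algebraMap R F π)⁻¹ * x ∉ V → x⁻¹ ∈ V)
    (hres : ∀ x ∈ B, ∃ c ∈ V', (algebraMap R F π)⁻¹ * (x - ι c) ∈ V)
    (n : Ideal B) (hn : n.IsMaximal) (hπn : algebraMap R B π ∈ n) (hOn : sf79_OnBr π B V n) :
    ∃ z : B', sf79_Unif π B V n (si25_res ι B' B hιB z) := by
  classical
  set f : B' →ₐ[R] B := si25_res ι B' B hιB with hf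
  set I : Ideal B' := Ideal.span {algebraMap R B' π} with hIdef
  haveI : IsDomain (B' ⧸ I) := hD.toIsDomain
  haveI hI : I.IsPrime := (Ideal.Quotient.isDomain_iff_prime I).mp inferInstance
  have hπF : algebraMap R F π ≠ 0 := by
    intro h0
    apply hπV
    rw [h0, inv_zero]
    exact V.zero_mem
  have hιπ : ι (algebraMap R F' π) = algebraMap R F π := ι.commutes π
  haveI hnp : n.IsPrime := hn.isPrime
  set n' : Ideal B' := n.comap (f : B' →+* B) with hn'
  haveI hn'p : n'.IsPrime := Ideal.comap_isPrime (f : B' →+* B) n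
  have hIn' : I ≤ n' := by
    rw [hIdef, Ideal.span_le, Set.singleton_subset_iff]
    show (f : B' →+* B) (algebraMap R B' π) ∈ n
    have e : (f : B' →+* B) (algebraMap R B' π) = algebraMap R B π := f.commutes π
    rw [e]; exact hπn
  obtain ⟨z, hz⟩ := nc99_exists_unif I n' hIn'
  refine ⟨z, hz.1, ?_⟩
  intro x hx
  obtain ⟨a, ha⟩ := si25_surj ι π B' B V' V hιB hint hB'V' hBV hsat' hfrac' hιV hπV hV hres x
  -- `f a ∈ n`
  have hfa : (f : B' →+* B) a ∈ n := by
    have h1 : x - (f : B' →+* B) a ∈ n := hOn _ ha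
    have h2 : (f : B' →+* B) a = x - (x - (f : B' →+* B) a) := by ring
    rw [h2]; exact n.sub_mem hx h1
  obtain ⟨s', b', hs', hsb⟩ := nc99_unif_gen I n' hIn' z hz a hfa
  rw [hIdef, Ideal.mem_span_singleton'] at hsb
  obtain ⟨y, hy⟩ := hsb
  refine ⟨(f : B' →+* B) s', hs', (f : B' →+* B) b', ?_⟩
  have hy' : (y : F') * algebraMap R F' π = (s' : F') * (a : F') - (b' : F') * (z : F') := by
    have := congrArg (fun t : B' => (t : F')) hy
    exact this
  have e1 : (algebraMap R F π)⁻¹ *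
      ((((f : B' →+* B) s' : B) : F) * (x : F) -
        (((f : B' →+* B) b' : B) : F) * ((si25_res ι B' B hιB z : B) : F)) =
      ι (s' : F') * ((algebraMap R F π)⁻¹ * ((x : F) - ι (a : F'))) + ι (y : F') := by
    have h3 : ι (y : F') * algebraMap R F π =
        ι (s' : F') * ι (a : F') - ι (b' : F') * ι (z : F') := by
      rw [← hιπ, ← map_mul, hy', map_sub, map_mul, map_mul]
    show (algebraMap R F π)⁻¹ * (ι (s' : F') * (x : F) - ι (b' : F') * ι (z : F')) = _
    have h4 : ι (b' : F') * ι (z : F') = ι (s' : F') * ι (a : F') - ι (y : F') * algebraMap R F π := by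
      rw [h3]; ring
    rw [h4]
    field_simp
    ring
  rw [e1]
  exact V.add_mem (V.mul_mem (hBV _ (hιB _ s'.2)) ha) (hBV _ (hιB _ y.2))

/-- **(3a)** in the literal shape `sf79_Smooth π B V`. -/
theorem si25_smooth (hιB : ∀ x ∈ B', ι x ∈ B)
    (hint : ∀ x ∈ B, ((ι : F' →+* F).comp (algebraMap B' F')).IsIntegralElem x)
    [hD : IsDedekindDomain (B' ⧸ Ideal.span {algebraMap R B' π})]
    (hB'V' : ∀ x ∈ B', x ∈ V') (hBV : ∀ x ∈ B, x ∈ V)
    (hsat' : ∀ x ∈ B', (algebraMap R F' π)⁻¹ * x ∈ V' → (algebraMap R F' π)⁻¹ * x ∈ B')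
    (hfrac' : ∀ c ∈ V', ∃ a0 ∈ B', ∃ a1 ∈ B', (algebraMap R F' π)⁻¹ * a1 ∉ V' ∧ c * a1 = a0)
    (hιV : ∀ y : F', ι y ∈ V → y ∈ V')
    (hπV : (algebraMap R F π)⁻¹ ∉ V)
    (hV : ∀ x ∈ V, (algebraMap R F π)⁻¹ * x ∉ V → x⁻¹ ∈ V)
    (hres : ∀ x ∈ B, ∃ c ∈ V', (algebraMap R F π)⁻¹ * (x - ι c) ∈ V) :
    sf79_Smooth π B V := by
  intro n hn hπn hOn
  obtain ⟨z, hz⟩ := si25_smoothFrom ι π B' B V' V hιB hint hB'V' hBV hsat' hfrac' hιV hπV hV hres
    n hn hπn hOn
  exact ⟨_, hz⟩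

end Abstract

end Fermat.Agent.S34
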