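import Mathlib
import Fermat.Agent.S18.ConstExtModular25
import Fermat.Agent.S34.RatSupp88
import Fermat.Agent.S34.GalGlue25

/-!
# S34 lab (helper88), row P9b (second file): `(FUN)_M` over `ℚ̄` from ONE number-field statement

The glue `ℚ̄ → L` of the S34 plan, independent of the chart interface (the analogue of
`c1t55_star_aux` of S18).

* `sd88_act M φ` : the coefficientwise action of a ring endomorphism `φ` of the constant field
  `K` on `F(M)_K = modularFunctionFieldFullC K M` (`sd88_act_coe`: it is `coeffMap φ`).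
* `sd88_NF M m s t : Prop` : **the number-field statement** which the chart work has to deliver.
  For every finite Galois `L / ℚ` inside `ℚ̄` and every `f_L ≠ 0` in `F(M)_L` such that
  (a) all orders of `f_L` at the places of `F(M)_L / L` are divisible by `m`, and
  (b) RATIONAL SUPPORT: every place of `F(M)_L / L` in the support of a Galois conjugate
      `ρ(f_L)` is an `L`-rational point (value shape of `wp1_exists_const`, values in `L`),
  there are `f₀ ≠ 0` in `F(M)_L` and a constant `c ∈ L` with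
  `f₀ ^ m * (s(t(f_L)) * f_L) = c * (s(f_L) * t(f_L))`  (`s, t` restricted to `L`, acting
  coefficientwise).
* `sd88_fun_of_nf` : `sd88_NF M m s t` implies `(FUN)_M`, in the literal shape of the hypothesis
  `hfun` of `gg25_U_of_fun` (GalGlue25): field of definition + rational support (`rs88_main`),
  descent of the divisibility of orders (`cx_modular_place_dvd`), an `m`-th root of `c` in `ℚ̄`.
* `sd88_U_of_nf`, `sd88_U_of_nf_sq` : hence `(s - 1)(t - 1) = 0` on `J₀(M)[m]` (the shape of
  `hU` of `s34e60_main` for `s = t`).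
-/

set_option autoImplicit false
set_option linter.style.haveILetI false

open ModularCurve AlgebraicCurve IntermediateField

namespace Fermat.Agent.S34

open Fermat.Agent.S18 Fermat.Agent.S24 Fermat.Agent.S37 Fermat.Agent.S42

/-- The coefficientwise action of a ring endomorphism of the constants on `F(M)_K`. -/
noncomputable def sd88_act {K : Type*} [Field K] (M : ℕ) (φ : K →+* K) :
    ↥(modularFunctionFieldFullC K M) →+* ↥(modularFunctionFieldFullC K M) :=
  ((coeffMap φ).comp (modularFunctionFieldFullC K M).toSubring.subtype).codRestrict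
    (modularFunctionFieldFullC K M).toSubring fun x => fd27_coeffMap_mem φ M x.2

@[simp]
theorem sd88_act_coe {K : Type*} [Field K] (M : ℕ) (φ : K →+* K)
    (x : ↥(modularFunctionFieldFullC K M)) :
    ((sd88_act M φ x : ↥(modularFunctionFieldFullC K M)) : LaurentSeries K) =
      coeffMap φ (x : LaurentSeries K) := rfl

theorem sd88_act_algebraMap {K : Type*} [Field K] (M : ℕ) (φ : K →+* K) (c : K) :
    sd88_act M φ (algebraMap K ↥(modularFunctionFieldFullC K M) c) =
      algebraMap K ↥(modularFunctionFieldFullC K M) (φ c) := by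
  apply Subtype.ext
  rw [sd88_act_coe]
  exact fd27_coeffMap_algebraMap φ c

section Modular

local notation "Q̄" => AlgebraicClosure ℚ

/-- **The number-field statement** to be delivered by the chart work (for `s, t` in an inertia
group at `q`, `q ∥ M`, `q ∤ m`). -/
def sd88_NF (M m : ℕ) (s t : Q̄ ≃ₐ[ℚ] Q̄) : Prop :=
  ∀ (L : IntermediateField ℚ Q̄) [FiniteDimensional ℚ L] [IsGalois ℚ L]
    (fL : ↥(modularFunctionFieldFullC L M)), fL ≠ 0 →
    (∀ P : Place L ↥(modularFunctionFieldFullC L M), (m : ℤ) ∣ P.ord fL) →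
    (∀ (ρ : Q̄ ≃ₐ[ℚ] Q̄) (P : Place L ↥(modularFunctionFieldFullC L M)),
      P.ord (sd88_act M ((ρ.restrictNormal L : L ≃ₐ[ℚ] L) : L →+* L) fL) ≠ 0 →
      ∀ x ∈ P.toValuationSubring, ∃ c : L,
        x = algebraMap L ↥(modularFunctionFieldFullC L M) c ∨
          0 < P.ord (x - algebraMap L ↥(modularFunctionFieldFullC L M) c)) →
    ∃ (f₀ : ↥(modularFunctionFieldFullC L M)) (c : L), f₀ ≠ 0 ∧
      f₀ ^ m * (sd88_act M ((s.restrictNormal L : L ≃ₐ[ℚ] L) : L →+* L)
          (sd88_act M ((t.restrictNormal L : L ≃ₐ[ℚ] L) : L →+* L) fL) * fL)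
        = algebraMap L ↥(modularFunctionFieldFullC L M) c *
          (sd88_act M ((s.restrictNormal L : L ≃ₐ[ℚ] L) : L →+* L) fL *
            sd88_act M ((t.restrictNormal L : L ≃ₐ[ℚ] L) : L →+* L) fL)

/-- `ι ∘ (coefficientwise action of ρ|L) = (arithmetic action of ρ) ∘ ι`. -/
theorem sd88_iota_act (M : ℕ) (L : IntermediateField ℚ Q̄) [Normal ℚ L] (ρ : Q̄ ≃ₐ[ℚ] Q̄)
    (g : ↥(modularFunctionFieldFullC L M)) :
    fd27_iota (algebraMap L Q̄) M (sd88_act M ((ρ.restrictNormal L : L ≃ₐ[ℚ] L) : L →+* L) g)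
      = arithmeticGalois (modularFunctionFieldFull M) ρ • fd27_iota (algebraMap L Q̄) M g :=
  rs88_iota_restrict M L ρ g

/-- **`(FUN)_M` from the number-field statement.** -/
theorem sd88_fun_of_nf (M : ℕ) [NeZero M] (m : ℕ) (hm : 0 < m) (s t : Q̄ ≃ₐ[ℚ] Q̄)
    (hNF : sd88_NF M m s t) :
    ∀ f : ↥(modularFunctionFieldBar M), f ≠ 0 →
      (∀ v : Place Q̄ ↥(modularFunctionFieldBar M), (m : ℤ) ∣ v.ord f) →
      ∃ w : ↥(modularFunctionFieldBar M),
        arithmeticGalois (modularFunctionFieldFull M) (s * t) • f * f =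
          w ^ m * (arithmeticGalois (modularFunctionFieldFull M) s • f *
            arithmeticGalois (modularFunctionFieldFull M) t • f) := by
  intro f hf hdiv
  obtain ⟨L, hfd, hgal, -, ⟨fL, hfL⟩, hrat⟩ := rs88_main M f hf ∅
  haveI := hfd
  haveI := hgal
  have hιcoe : ∀ g : ↥(modularFunctionFieldFullC L M),
      ((fd27_iota (algebraMap L Q̄) M g : ↥(modularFunctionFieldBar M)) : LaurentSeries Q̄) =
        coeffMap (algebraMap L Q̄) (g : LaurentSeries L) := fun g => fd27_iota_coe _ _ g
  have hfL0 : fL ≠ 0 := by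
    rintro rfl
    exact hf (by rw [← hfL, map_zero])
  have hord : ∀ P : Place L ↥(modularFunctionFieldFullC L M), (m : ℤ) ∣ P.ord fL := fun P =>
    cx_modular_place_dvd (K0 := L) (fd27_iota (algebraMap L Q̄) M) hιcoe (m : ℤ) fL
      (fun P' => by rw [hfL]; exact hdiv P') P
  have hRS : ∀ (ρ : Q̄ ≃ₐ[ℚ] Q̄) (P : Place L ↥(modularFunctionFieldFullC L M)),
      P.ord (sd88_act M ((ρ.restrictNormal L : L ≃ₐ[ℚ] L) : L →+* L) fL) ≠ 0 →
      ∀ x ∈ P.toValuationSubring, ∃ c : L,
        x = algebraMap L ↥(modularFunctionFieldFullC L M) c ∨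
          0 < P.ord (x - algebraMap L ↥(modularFunctionFieldFullC L M) c) := by
    intro ρ P hP x hx
    obtain ⟨P', hP'⟩ := cx_modular_place_exists (K0 := L) (fd27_iota (algebraMap L Q̄) M) hιcoe P
    have h1 : P'.ord (arithmeticGalois (modularFunctionFieldFull M) ρ • f) ≠ 0 := by
      rw [← hfL, ← sd88_iota_act, hP']
      exact hP
    have h2 : ((arithmeticGalois (modularFunctionFieldFull M) ρ)⁻¹ • P').ord f ≠ 0 := by
      have h := SemilinearAut.ord_smul (arithmeticGalois (modularFunctionFieldFull M) ρ)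
        ((arithmeticGalois (modularFunctionFieldFull M) ρ)⁻¹ • P') f
      rw [smul_inv_smul] at h
      rw [← h]
      exact h1
    have hx' : fd27_iota (algebraMap L Q̄) M x ∈
        (arithmeticGalois (modularFunctionFieldFull M) ρ •
          ((arithmeticGalois (modularFunctionFieldFull M) ρ)⁻¹ • P')).toValuationSubring := by
      rw [smul_inv_smul, wp1_mem_iff_ord_nonneg, hP']
      exact (wp1_mem_iff_ord_nonneg P x).mp hx
    obtain ⟨c, hc⟩ := hrat _ h2 ρ x hx'
    rw [smul_inv_smul] at hc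
    have hcι : fd27_iota (algebraMap L Q̄) M (algebraMap L ↥(modularFunctionFieldFullC L M) c)
        = algebraMap Q̄ ↥(modularFunctionFieldBar M) (c : Q̄) :=
      fd27_iota_algebraMap (algebraMap L Q̄) M c
    refine ⟨c, ?_⟩
    rcases hc with hc | hc
    · left
      apply fd27_iota_injective (algebraMap L Q̄) M
      rw [hcι]
      exact hc
    · right
      rw [← hP', map_sub, hcι]
      exact hc
  obtain ⟨f₀, c, hf₀, hfc⟩ := hNF L fL hfL0 hord hRS
  have h3 := congrArg (fd27_iota (algebraMap L Q̄) M) hfc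
  rw [map_mul, map_pow, map_mul, map_mul, map_mul] at h3
  simp only [sd88_iota_act] at h3
  rw [hfL, fd27_iota_algebraMap] at h3
  obtain ⟨γ, hγ⟩ := IsAlgClosed.exists_pow_nat_eq (algebraMap L Q̄ c) hm
  have hf₀' : fd27_iota (algebraMap L Q̄) M f₀ ≠ 0 :=
    (map_ne_zero_iff _ (fd27_iota_injective (algebraMap L Q̄) M)).mpr hf₀
  refine ⟨algebraMap Q̄ ↥(modularFunctionFieldBar M) γ * (fd27_iota (algebraMap L Q̄) M f₀)⁻¹, ?_⟩
  rw [map_mul, mul_smul, mul_pow, ← map_pow, hγ, inv_pow]
  have hp : (fd27_iota (algebraMap L Q̄) M f₀) ^ m ≠ 0 := pow_ne_zero m hf₀'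
  calc arithmeticGalois (modularFunctionFieldFull M) s •
          arithmeticGalois (modularFunctionFieldFull M) t • f * f
      = ((fd27_iota (algebraMap L Q̄) M f₀) ^ m)⁻¹ *
          ((fd27_iota (algebraMap L Q̄) M f₀) ^ m *
            (arithmeticGalois (modularFunctionFieldFull M) s •
              arithmeticGalois (modularFunctionFieldFull M) t • f * f)) := by
        rw [← mul_assoc, inv_mul_cancel₀ hp, one_mul]
    _ = ((fd27_iota (algebraMap L Q̄) M f₀) ^ m)⁻¹ *
          (algebraMap Q̄ ↥(modularFunctionFieldBar M) (algebraMap L Q̄ c) *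
            (arithmeticGalois (modularFunctionFieldFull M) s • f *
              arithmeticGalois (modularFunctionFieldFull M) t • f)) := by rw [h3]
    _ = _ := by ring

/-- **`(U)_M` from the number-field statement**: `(s - 1)(t - 1)` kills `J₀(M)[m]`. -/
theorem sd88_U_of_nf (M : ℕ) [NeZero M] (m : ℕ) (hm : 0 < m) (s t : Q̄ ≃ₐ[ℚ] Q̄)
    (hNF : sd88_NF M m s t) (x : JZero M) (hx : m • x = 0) :
    s • t • x - s • x - t • x + x = 0 :=
  gg25_U_of_fun M m hm s t (sd88_fun_of_nf M m hm s t hNF) x hx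

/-- The diagonal case: the shape of the hypothesis `hU` of `s34e60_main`. -/
theorem sd88_U_of_nf_sq (M : ℕ) [NeZero M] (m : ℕ) (hm : 0 < m) (t : Q̄ ≃ₐ[ℚ] Q̄)
    (hNF : sd88_NF M m t t) (x : JZero M) (hx : m • x = 0) :
    t • t • x - t • x - t • x + x = 0 :=
  sd88_U_of_nf M m hm t t hNF x hx

end Modular

end Fermat.Agent.S34
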