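import Mathlib
import Fermat.Prelude.Def_ModularCurve_ArithmeticGalois

/-!
# S34 lab (helper36): from the function-field core `(★)` to `(U)`

`su36_abs` : for a curve `F / K` and two semilinear automorphisms `g`, `h`: if for every Kummer
function `f` (all orders divisible by `m`) the double-difference quotient
`((g h) f) f / ((g f) (h f))` is an `m`-th power, then `(g - 1)(h - 1)` kills the `m`-torsion of
`Pic⁰`, in the shape `(g * h) • x - g • x - h • x + x = 0`.

`su36_Star N m s t` : the function-field core at level `N` for the arithmetic Galois action of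
`s t : Gal(ℚ̄/ℚ)` on `modularFunctionFieldBar N` (coefficientwise on `q`-expansions).

`su36_U_of_star` : `su36_Star N m s t → ∀ x : JZero N, m • x = 0 → s • t • x - s • x - t • x + x = 0`.
-/

set_option autoImplicit false

open AlgebraicCurve ModularCurve

namespace Fermat.Agent.S34

section Abs

variable {K F : Type*} [Field K] [Field F] [Algebra K F]

/-- `P.ord (g • f) = (g⁻¹ • P).ord f`. -/
theorem su36_ord_smul (g : SemilinearAut K F) (P : Place K F) (f : F) :
    P.ord (g • f) = (g⁻¹ • P).ord f := by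
  have h := SemilinearAut.ord_smul g (g⁻¹ • P) f
  rwa [smul_inv_smul] at h

/-- **Abstract step.** -/
theorem su36_abs (g h : SemilinearAut K F) (m : ℕ) (hm0 : m ≠ 0)
    (hstar : ∀ f : F, f ≠ 0 → (∀ P : Place K F, (m : ℤ) ∣ P.ord f) →
      ∃ v : F, v ^ m = ((g * h) • f) * f / ((g • f) * (h • f)))
    (x : Pic0 K F) (hx : m • x = 0) :
    (g * h) • x - g • x - h • x + x = 0 := by
  obtain ⟨D, rfl⟩ := Pic0.mk_surjective x
  -- `m • D` is principal
  have hmD : (m • (D : Divisor K F)) ∈ Divisor.principal (K := K) (F := F) := by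
    have h1 : Pic0.mk (m • D) = 0 := by
      have : Pic0.mk (m • D) = m • Pic0.mk D := map_nsmul (QuotientAddGroup.mk' _) m D
      rw [this, hx]
    have h2 := (QuotientAddGroup.eq_zero_iff _).mp h1
    rw [AddSubgroup.mem_addSubgroupOf] at h2
    simpa using h2
  obtain ⟨f, hf0, hf⟩ := hmD
  have hfD : ∀ P : Place K F, P.ord f = (m : ℤ) * (D : Divisor K F) P := by
    intro P
    rw [← hf P, Finsupp.smul_apply, nsmul_eq_mul]
  obtain ⟨v, hv⟩ := hstar f hf0 (fun P => ⟨_, hfD P⟩)
  have hgf : ∀ k : SemilinearAut K F, k • f ≠ 0 := fun k => by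
    rw [SemilinearAut.smul_def]; simpa using hf0
  have hu0 : ((g * h) • f) * f / ((g • f) * (h • f)) ≠ 0 :=
    div_ne_zero (mul_ne_zero (hgf _) hf0) (mul_ne_zero (hgf _) (hgf _))
  have hv0 : v ≠ 0 := by
    rintro rfl
    rw [zero_pow hm0] at hv
    exact hu0 hv.symm
  -- the divisor `E = (g h) D - g D - h D + D`
  set E : Divisor.degZero (K := K) (F := F) :=
    SemilinearAut.degZeroSMulHom (g * h) D - SemilinearAut.degZeroSMulHom g D
      - SemilinearAut.degZeroSMulHom h D + D with hE
  have hmk : (g * h) • Pic0.mk D - g • Pic0.mk D - h • Pic0.mk D + Pic0.mk D = Pic0.mk E := by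
    rw [SemilinearAut.pic0_smul_mk, SemilinearAut.pic0_smul_mk, SemilinearAut.pic0_smul_mk]
    rfl
  rw [hmk]
  refine (QuotientAddGroup.eq_zero_iff _).mpr ?_
  rw [AddSubgroup.mem_addSubgroupOf]
  refine ⟨v, hv0, fun P => ?_⟩
  have hEP : (E : Divisor K F) P = (D : Divisor K F) ((g * h)⁻¹ • P) - (D : Divisor K F) (g⁻¹ • P)
      - (D : Divisor K F) (h⁻¹ • P) + (D : Divisor K F) P := by
    rw [hE]
    simp only [AddSubgroup.coe_add, AddSubgroup.coe_sub, SemilinearAut.coe_degZeroSMulHom,
      Finsupp.add_apply, Finsupp.sub_apply, SemilinearAut.divisor_smul_apply]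
  have hord : P.ord (v ^ m) = (m : ℤ) * P.ord v := by
    have := P.ord_zpow v (m : ℤ)
    simpa using this
  have hordu : P.ord (((g * h) • f) * f / ((g • f) * (h • f)))
      = P.ord ((g * h) • f) + P.ord f - (P.ord (g • f) + P.ord (h • f)) := by
    rw [div_eq_mul_inv, P.ord_mul (mul_ne_zero (hgf _) hf0)
      (inv_ne_zero (mul_ne_zero (hgf _) (hgf _))), P.ord_mul (hgf _) hf0, P.ord_inv,
      P.ord_mul (hgf _) (hgf _)]
    ring
  have hkey : (m : ℤ) * P.ord v = (m : ℤ) * (E : Divisor K F) P := by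
    rw [← hord, hv, hordu, su36_ord_smul, su36_ord_smul, su36_ord_smul, hfD, hfD, hfD, hfD, hEP]
    ring
  have hm' : (m : ℤ) ≠ 0 := by exact_mod_cast hm0
  exact (mul_left_cancel₀ hm' hkey).symm

end Abs

section Modular

local notation "Q̄" => AlgebraicClosure ℚ

/-- **The function-field core `(★)` of S34 at level `N`** for the exponent `m` and two elements
`s`, `t` of `Gal(ℚ̄/ℚ)` acting coefficientwise on `q`-expansions. -/
def su36_Star (N m : ℕ) (s t : Q̄ ≃ₐ[ℚ] Q̄) : Prop :=
  ∀ f : modularFunctionFieldBar N, f ≠ 0 →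
    (∀ P : Place Q̄ (modularFunctionFieldBar N), (m : ℤ) ∣ P.ord f) →
    ∃ v : modularFunctionFieldBar N,
      v ^ m = (arithmeticGalois (modularFunctionFieldFull N) (s * t) • f) * f /
        ((arithmeticGalois (modularFunctionFieldFull N) s • f) *
          (arithmeticGalois (modularFunctionFieldFull N) t • f))

/-- **`(U)` from `(★)`**: the double difference `(s - 1)(t - 1)` kills `J₀(N)[m]`. -/
theorem su36_U_of_star (N m : ℕ) (hm0 : m ≠ 0) (s t : Q̄ ≃ₐ[ℚ] Q̄) (hstar : su36_Star N m s t)
    (x : JZero N) (hx : m • x = 0) : s • t • x - s • x - t • x + x = 0 := by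
  have h := su36_abs (arithmeticGalois (modularFunctionFieldFull N) s)
    (arithmeticGalois (modularFunctionFieldFull N) t) m hm0
    (fun f hf hP => by
      obtain ⟨v, hv⟩ := hstar f hf hP
      exact ⟨v, by rw [hv, map_mul]⟩) x hx
  rw [← mul_smul s t x]
  simpa only [galois_smul_pic0_def, map_mul] using h

/-- The diagonal case `s = t`, in the literal shape of the hypothesis of the S34 endgame. -/
theorem su36_U_diag (N m : ℕ) (hm0 : m ≠ 0) (t : Q̄ ≃ₐ[ℚ] Q̄) (hstar : su36_Star N m t t)
    (x : JZero N) (hx : m • x = 0) : t • t • x - t • x - t • x + x = 0 :=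
  su36_U_of_star N m hm0 t t hstar x hx

end Modular

end Fermat.Agent.S34
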