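import Mathlib
import Fermat.Agent.S34.Final47
import Fermat.Agent.S34.TransvInst50

/-!
# S34 lab (helper47, architect): FRAME-TRANSV on the canonical frame, and S34

* `s34t47_pkg_frameTransv : s34i47e_Pkg_FrameTransv` — (3b) for both affine charts of every
  admissible Hauptmodul: helper50's `tri50_transv_haupt` fed with helper73's `sc73_smooth`
  ((3a) on both branches) and helper93's (3a)-surjectivity `bi93_level2/3` (with `sc73_F1`).
* `s34t47_pkg_frameLS : s34i47c_Pkg_FrameLS`.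
* `s34t47_U : lc52_U p q N` (the hypothesis `hU` of `s34e60_main`), unconditionally.
* `s34t47_result` : hypotheses and conclusion of the frozen statement S34.
-/

set_option autoImplicit false
set_option linter.style.haveILetI false

open ModularCurve AlgebraicCurve

namespace Fermat.Agent.S34

open Fermat.Agent.S18

local notation "Q̄" => AlgebraicClosure ℚ

/-- **FRAME-TRANSV** ((3b) on the canonical frame data of `Iface47c`). -/
theorem s34t47_pkg_frameTransv : s34i47e_Pkg_FrameTransv := by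
  intro M' q _ _ hq hM' R K _ _ _ _ _ _ _ _ _ _ π hπ hunit hqR h hh
  obtain ⟨⟨hS₁, hS₁0⟩, ⟨hS₂, hS₂0⟩⟩ :=
    sc73_smooth (R := R) (K := K) M' q hq hM' hπ hunit hqR h hh
  obtain ⟨hT₁, hT₂⟩ := tri50_transv_haupt (R := R) (K := K) M' q hq hM' hπ hunit hqR h hh
  haveI : Algebra.IsAlgebraic K Q̄ := cx_isAlgebraic_closure K
  letI : Algebra R ↥(modularFunctionFieldFullC K M') :=
    ((algebraMap K ↥(modularFunctionFieldFullC K M')).comp (algebraMap R K)).toAlgebra
  haveI : IsScalarTower R K ↥(modularFunctionFieldFullC K M') :=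
    IsScalarTower.of_algebraMap_eq (fun _ => rfl)
  have hMu : IsUnit (M' : R) :=
    hunit M' (Nat.Coprime.symm ((Nat.Prime.coprime_iff_not_dvd hq).mpr hM'))
  have hf1 := sc73_F1 (R := R) (K := K) M' q hq hM' hπ hqR
  have hαR : ∀ r : R, (al97L_alpha K M' q : ↥(modularFunctionFieldFullC K M') →+*
      ↥(modularFunctionFieldFullC K (M' * q))) (algebraMap R ↥(modularFunctionFieldFullC K M') r) =
      algebraMap R ↥(modularFunctionFieldFullC K (M' * q)) r := by
    intro r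
    rw [IsScalarTower.algebraMap_apply R K ↥(modularFunctionFieldFullC K M'),
      IsScalarTower.algebraMap_apply R K ↥(modularFunctionFieldFullC K (M' * q))]
    exact (al97L_alpha K M' q).commutes _
  -- `α` maps a chart of level `M'` into the chart of level `M' q` generated by the image
  have hmap : ∀ (g' : ↥(modularFunctionFieldFullC K M'))
      (g : ↥(modularFunctionFieldFullC K (M' * q))), al97L_alpha K M' q g' = g →
      ∀ x ∈ pk15_chart R ({g'} : Set ↥(modularFunctionFieldFullC K M')),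
        al97L_alpha K M' q x ∈
          pk15_chart R ({g} : Set ↥(modularFunctionFieldFullC K (M' * q))) := by
    intro g' g hg
    refine tri50_map_chart (al97L_alpha K M' q : ↥(modularFunctionFieldFullC K M') →+*
      ↥(modularFunctionFieldFullC K (M' * q))) hαR _ _ (tri50_chart_closed _) ?_
    intro y hy
    rw [Set.mem_singleton_iff] at hy
    rw [hy]
    show al97L_alpha K M' q g' ∈ _
    rw [hg]
    exact pk15_subset_chart _ (Set.mem_singleton g)
  -- (3a)-surjectivity in the shape of `tri50_transv_haupt` from `bi93_Surj`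
  have hsurj : ∀ (g' : ↥(modularFunctionFieldFullC K M'))
      (g : ↥(modularFunctionFieldFullC K (M' * q))), al97L_alpha K M' q g' = g →
      bi93_Surj (K := K) M' (M' * q) (dvd_mul_right M' q) hπ {g'} {g} →
      ∀ x ∈ pk15_chart R ({g} : Set ↥(modularFunctionFieldFullC K (M' * q))),
        ∃ x' : ↥(modularFunctionFieldFullC K M'),
          al97L_alpha K M' q x' ∈
            pk15_chart R ({g} : Set ↥(modularFunctionFieldFullC K (M' * q))) ∧
          (algebraMap R ↥(modularFunctionFieldFullC K (M' * q)) π)⁻¹ *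
            (x - al97L_alpha K M' q x') ∈ cm85_Vinf (K := K) (M' * q) hπ := by
    intro g' g hg hS x hx
    obtain ⟨x', hx', hxx'⟩ := hS x hx
    exact ⟨x', hmap g' g hg x' hx', hxx'⟩
  rcases hh with ⟨hq2, h2, rfl⟩ | ⟨hq3, h3, rfl⟩
  · have hcop : Nat.Coprime 2 q := (Nat.coprime_primes Nat.prime_two hq).mpr (Ne.symm hq2)
    have h2' : 2 ∣ M' := hcop.dvd_of_dvd_mul_right h2
    obtain ⟨⟨hSu₁, -⟩, ⟨hSu₂, -⟩⟩ := bi93_level2 (R := R) (K := K) M' (M' * q)
      (dvd_mul_right M' q) hπ h2' hMu hf1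
    have hα : al97L_alpha K M' q (pk85_h2 K M' h2') = pk85_h2 K (M' * q) h2 :=
      Subtype.ext (by rw [al97L_alpha_coe, pk85_h2_coe, pk85_h2_coe])
    have hα' : al97L_alpha K M' q (pk85_h2 K M' h2')⁻¹ = (pk85_h2 K (M' * q) h2)⁻¹ := by
      rw [map_inv₀, hα]
    exact ⟨hT₁ hS₁ hS₁0 (hsurj _ _ hα hSu₁), hT₂ hS₂ hS₂0 (hsurj _ _ hα' hSu₂)⟩
  · have hcop : Nat.Coprime 3 q := (Nat.coprime_primes Nat.prime_three hq).mpr (Ne.symm hq3)
    have h3' : 3 ∣ M' := hcop.dvd_of_dvd_mul_right h3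
    obtain ⟨⟨hSu₁, -⟩, ⟨hSu₂, -⟩⟩ := bi93_level3 (R := R) (K := K) M' (M' * q)
      (dvd_mul_right M' q) hπ h3' hMu hf1
    have hα : al97L_alpha K M' q (pk85_h3 K M' h3') = pk85_h3 K (M' * q) h3 :=
      Subtype.ext (by rw [al97L_alpha_coe, pk85_h3_coe, pk85_h3_coe])
    have hα' : al97L_alpha K M' q (pk85_h3 K M' h3')⁻¹ = (pk85_h3 K (M' * q) h3)⁻¹ := by
      rw [map_inv₀, hα]
    exact ⟨hT₁ hS₁ hS₁0 (hsurj _ _ hα hSu₁), hT₂ hS₂ hS₂0 (hsurj _ _ hα' hSu₂)⟩

/-- **FRAME-LS** of `Iface47c`, unconditionally. -/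
theorem s34t47_pkg_frameLS : s34i47c_Pkg_FrameLS :=
  s34f47_frameLS s34t47_pkg_frameTransv

/-- `(U)` at every level `N` with `q ∥ N`, `p ≠ q`: the hypothesis `hU` of `s34e60_main`. -/
theorem s34t47_U {p q N : ℕ} [NeZero N] (hp : p.Prime) (hq : q.Prime) (hqp : q ≠ p)
    (hqN : q ∣ N) (hq2 : ¬ q ^ 2 ∣ N) : lc52_U p q N :=
  s34f47_U s34t47_pkg_frameTransv hp hq hqp hqN hq2

section Result

variable {𝒪 : Type} [CommRing 𝒪] [IsDomain 𝒪] [IsDiscreteValuationRing 𝒪]
  [IsAdicComplete (IsLocalRing.maximalIdeal 𝒪) 𝒪]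
  {p : ℕ} {N : ℕ} [NeZero N] {S : Finset ℕ}
  {θ : CuspForm.heckeAlgebra N 2 (↑S : Set ℕ) →+* IsLocalRing.ResidueField 𝒪}
  {T : Type} [CommRing T] [IsLocalRing T] [IsNoetherianRing T]
  [IsAdicComplete (IsLocalRing.maximalIdeal T) T] [Algebra 𝒪 T] [IsLocalHom (algebraMap 𝒪 T)]
  [Module.Finite 𝒪 T] [Module.Free 𝒪 T]

/-- **S34**: hypotheses and conclusion of the frozen statement. -/
theorem s34t47_result
    (hp : p.Prime) (hp𝒪 : (p : 𝒪) ∈ IsLocalRing.maximalIdeal 𝒪) (hpS : p ∈ S)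
    (hNS : ∀ q : ℕ, q.Prime → q ∣ N → q ∈ S)
    (H : CuspForm.HeckeGaloisRepDatum N (↑S : Set ℕ) 𝒪 θ T)
    (q : ℕ) (hq : q.Prime) (hqp : q ≠ p) (hqN : q ∣ N) (hq2 : ¬ q ^ 2 ∣ N) :
    H.ρ.IsUnipotentOnInertiaAt q :=
  s34f47_result s34t47_pkg_frameTransv hp hp𝒪 hpS hNS H q hq hqp hqN hq2

end Result

end Fermat.Agent.S34
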