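import Mathlib
import Fermat.Agent.S34.Transv66
import Fermat.Agent.S34.AtkinLehnerCanon97
import Fermat.Agent.S34.FrobInsepDVR50
import Fermat.Agent.S34.HauptIntInst95
import Fermat.Agent.S34.WIntInst18
import Fermat.Agent.S37.FrobL66
import Fermat.Agent.S34.FrobInsep66

/-!
# S34 lab, row 490 (P3b), helper66 (twin): `sf79_Transv` on the canonical frame data

Canonical data of `Iface47c` at level `M' * q`: `V_∞ = cm85_Vinf (M' * q) hπ`,
`V_0 = s34i47c_V0 M' q hq hM' hπ`, charts `pk15_chart R {h}`, `pk15_chart R {h⁻¹}`.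
-/

set_option autoImplicit false
set_option linter.unusedSectionVars false
set_option linter.style.haveILetI false

namespace Fermat.Agent.S34

open ModularCurve AlgebraicCurve IntermediateField
open Fermat.Agent.S24 Fermat.Agent.S37 Fermat.Agent.S18 Fermat.Agent.S28

local notation "Q̄" => AlgebraicClosure ℚ

/-- The level-2 Hauptmodul has a simple pole with leading coefficient `1`. -/
theorem tv66_h2_coeff (κ : Type*) [CommRing κ] : (h70_h2 κ).coeff (-1) = 1 := by
  rw [h70_h2_eq_pole]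
  have h := HahnSeries.coeff_single_mul_add (r := (1 : κ))
    (x := HahnSeries.ofPowerSeries ℤ κ (h70_u2.map (Int.castRingHom κ))) (a := 0) (b := -1)
  rw [zero_add] at h
  rw [h, one_mul]
  have h2 := HahnSeries.ofPowerSeries_apply_coeff (Γ := ℤ) (R := κ)
    (h70_u2.map (Int.castRingHom κ)) 0
  rw [Nat.cast_zero] at h2
  rw [h2, PowerSeries.coeff_map, PowerSeries.coeff_zero_eq_constantCoeff_apply,
    h70_constantCoeff_u2, map_one]

/-- The level-3 Hauptmodul has a simple pole with leading coefficient `1`. -/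
theorem tv66_h3_coeff (κ : Type*) [CommRing κ] : (h34_h3R κ).coeff (-1) = 1 := by
  rw [h34_h3R]
  have h := HahnSeries.coeff_single_mul_add (r := (1 : κ))
    (x := h34_iotaR κ h34_u) (a := 0) (b := -1)
  rw [zero_add] at h
  rw [h, one_mul]
  have h2 := h34_iotaR_coeff_nat κ h34_u 0
  rw [Nat.cast_zero] at h2
  rw [h2, PowerSeries.coeff_zero_eq_constantCoeff_apply, h34_constantCoeff_u, Int.cast_one]

section TV66Canon

variable {R K : Type} [CommRing R] [IsDomain R] [IsDiscreteValuationRing R] [Field K]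
  [CharZero K] [Algebra R K] [IsFractionRing R K] [Algebra K Q̄]
  (M' q : ℕ) [NeZero M'] [NeZero q] (hq : q.Prime) (hM' : ¬ q ∣ M')
  {π : R} (hπ : Irreducible π)
  [Algebra R ↥(modularFunctionFieldFullC K (M' * q))]
  [IsScalarTower R K ↥(modularFunctionFieldFullC K (M' * q))]

/-- `V_0` is closed under inverses of elements that are units along it (shape `hV₂` of
`sf79_locStr`). -/
theorem tv66_hV_V0 (x : ↥(modularFunctionFieldFullC K (M' * q)))
    (hx : x ∈ s34i47c_V0 (K := K) M' q hq hM' hπ)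
    (hx' : (algebraMap R ↥(modularFunctionFieldFullC K (M' * q)) π)⁻¹ * x ∉
      s34i47c_V0 (K := K) M' q hq hM' hπ) :
    x⁻¹ ∈ s34i47c_V0 (K := K) M' q hq hM' hπ := by
  by_contra h
  exact hx' (al97C_hmax_V0 M' q hq hM' hπ x hx h)

/-- `w` commutes with multiplication by `π⁻¹`. -/
theorem tv66_w_pi_inv_mul (x : ↥(modularFunctionFieldFullC K (M' * q))) :
    al97L_w (algebraMap K Q̄) M' q hq hM'
        ((algebraMap R ↥(modularFunctionFieldFullC K (M' * q)) π)⁻¹ * x) =
      (algebraMap R ↥(modularFunctionFieldFullC K (M' * q)) π)⁻¹ *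
        al97L_w (algebraMap K Q̄) M' q hq hM' x := by
  rw [map_mul, map_inv₀, IsScalarTower.algebraMap_apply R K
    ↥(modularFunctionFieldFullC K (M' * q)), AlgEquiv.commutes]

/-- `w` commutes with multiplication by `(π ^ k)⁻¹`. -/
theorem tv66_w_pi_pow_inv_mul (k : ℕ) (x : ↥(modularFunctionFieldFullC K (M' * q))) :
    al97L_w (algebraMap K Q̄) M' q hq hM'
        ((algebraMap R ↥(modularFunctionFieldFullC K (M' * q)) π ^ k)⁻¹ * x) =
      (algebraMap R ↥(modularFunctionFieldFullC K (M' * q)) π ^ k)⁻¹ *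
        al97L_w (algebraMap K Q̄) M' q hq hM' x := by
  rw [map_mul, map_inv₀, map_pow, IsScalarTower.algebraMap_apply R K
    ↥(modularFunctionFieldFullC K (M' * q)), AlgEquiv.commutes]

/-- **Discreteness of `V_0`** (shape `harch` of `tv66_transv'`). -/
theorem tv66_arch_V0 (x : ↥(modularFunctionFieldFullC K (M' * q))) (hx : x ≠ 0) :
    ∃ k : ℕ, (algebraMap R ↥(modularFunctionFieldFullC K (M' * q)) π ^ k)⁻¹ * x ∉
      s34i47c_V0 (K := K) M' q hq hM' hπ := by
  have hwx : al97L_w (algebraMap K Q̄) M' q hq hM' x ≠ 0 := by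
    intro h0
    exact hx ((map_eq_zero _).mp h0)
  obtain ⟨k, hk⟩ := wi18_arch (M' * q) hπ _ hwx
  refine ⟨k, fun hmem => hk ?_⟩
  have h1 := (al97C_mem_V0 M' q hq hM' hπ _).mp hmem
  rwa [tv66_w_pi_pow_inv_mul] at h1

/-- **Kronecker at `V_∞`**: for `x'` of level `M'` with `R`-integral expansion `s` whose
reduction is Frobenius-invariant, `β x' ≡ (α x')^q` modulo `π V_∞`. -/
theorem tv66_c_mem_Vinf (x' : ↥(modularFunctionFieldFullC K M')) (s : LaurentSeries R)
    (hs : (x' : LaurentSeries K) = coeffMap (algebraMap R K) s)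
    (hfrob : (coeffMap (IsLocalRing.residue R) s) ^ q =
      qExpand (IsLocalRing.ResidueField R) q (coeffMap (IsLocalRing.residue R) s)) :
    (algebraMap R ↥(modularFunctionFieldFullC K (M' * q)) π)⁻¹ *
        (al97L_beta K M' q x' - (al97L_alpha K M' q x') ^ q) ∈
      cm85_Vinf (K := K) (M' * q) hπ := by
  have hxy : ((al97L_beta K M' q x' - (al97L_alpha K M' q x') ^ q :
      ↥(modularFunctionFieldFullC K (M' * q))) : LaurentSeries K) =
      coeffMap (algebraMap R K) (qExpand R q s - s ^ q) := by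
    rw [map_sub, map_pow, coeffMap_qExpand, ← hs]
    show qExpand K q (x' : LaurentSeries K) -
      ((al97L_alpha K M' q x' : ↥(modularFunctionFieldFullC K (M' * q))) : LaurentSeries K) ^ q
        = _
    rw [al97L_alpha_coe]
  refine (pk85_gauss (M' * q) hπ _ _ hxy).2.mpr ?_
  rw [map_sub, map_pow, coeffMap_qExpand, hfrob, sub_self]

/-- **`β x' - (α x')^q` is a unit along `V_0`**: for `x'` of level `M'` with `R`-integral
expansion `s` whose reduction has a nonzero coefficient at an exponent prime to `q`. -/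
theorem tv66_c_not_mem_V0 (x' : ↥(modularFunctionFieldFullC K M')) (s : LaurentSeries R)
    (hs : (x' : LaurentSeries K) = coeffMap (algebraMap R K) s)
    (k : ℤ) (hk : ¬ (q : ℤ) ∣ k) (hsk : (coeffMap (IsLocalRing.residue R) s).coeff k ≠ 0) :
    (algebraMap R ↥(modularFunctionFieldFullC K (M' * q)) π)⁻¹ *
        (al97L_beta K M' q x' - (al97L_alpha K M' q x') ^ q) ∉
      s34i47c_V0 (K := K) M' q hq hM' hπ := by
  intro hmem
  have h1 := (al97C_mem_V0 M' q hq hM' hπ _).mp hmem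
  rw [tv66_w_pi_inv_mul, map_sub, map_pow, al97L_w_beta_apply, al97L_w_alpha_apply] at h1
  have hxy : ((al97L_alpha K M' q x' - (al97L_beta K M' q x') ^ q :
      ↥(modularFunctionFieldFullC K (M' * q))) : LaurentSeries K) =
      coeffMap (algebraMap R K) (s - (qExpand R q s) ^ q) := by
    rw [map_sub, map_pow, coeffMap_qExpand, ← hs]
    show ((al97L_alpha K M' q x' : ↥(modularFunctionFieldFullC K (M' * q))) : LaurentSeries K) -
      (qExpand K q (x' : LaurentSeries K)) ^ q = _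
    rw [al97L_alpha_coe]
  have h2 := (pk85_gauss (M' * q) hπ _ _ hxy).2.mp h1
  rw [map_sub, map_pow, coeffMap_qExpand, sub_eq_zero, ← map_pow] at h2
  apply hsk
  rw [h2]
  exact qExpand_coeff_of_not_dvd q _ hk

/-- **(3b) on the canonical frame data**, for any noetherian chart `B ⊆ W` saturated in
`V_∞ ⊓ V_0` with `F = Frac B` and one element `c ∈ p_∞ ∖ p_0`: the branch `V_0` smooth
(row 489) and, at the points of both branches, a local coordinate of the branch `V_∞` coming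
from level `M'` (row 488) give the literal `sf79_Transv`. -/
theorem tv66_transv_canon [Algebra.IsAlgebraic ℚ K] (hqR : ¬ IsUnit (q : R))
    (B : Subalgebra R ↥(modularFunctionFieldFullC K (M' * q))) [IsNoetherianRing B]
    (hBW : ∀ x ∈ B, x ∈ s34i47c_W (K := K) M' q hq hM' hπ)
    (hsat : ∀ x ∈ B,
      (algebraMap R ↥(modularFunctionFieldFullC K (M' * q)) π)⁻¹ * x ∈
        (cm85_Vinf (K := K) (M' * q) hπ).toSubring →
      (algebraMap R ↥(modularFunctionFieldFullC K (M' * q)) π)⁻¹ * x ∈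
        (s34i47c_V0 (K := K) M' q hq hM' hπ).toSubring →
      (algebraMap R ↥(modularFunctionFieldFullC K (M' * q)) π)⁻¹ * x ∈ B)
    (hFrac : ∀ x : ↥(modularFunctionFieldFullC K (M' * q)), ∃ a ∈ B, ∃ b ∈ B, b ≠ 0 ∧ x * b = a)
    (c : B)
    (hc₁ : (algebraMap R ↥(modularFunctionFieldFullC K (M' * q)) π)⁻¹ *
      (c : ↥(modularFunctionFieldFullC K (M' * q))) ∈ cm85_Vinf (K := K) (M' * q) hπ)
    (hc₂ : (algebraMap R ↥(modularFunctionFieldFullC K (M' * q)) π)⁻¹ *
      (c : ↥(modularFunctionFieldFullC K (M' * q))) ∉ s34i47c_V0 (K := K) M' q hq hM' hπ)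
    (hS₂ : sf79_Smooth π B (s34i47c_V0 (K := K) M' q hq hM' hπ).toSubring)
    (hSF : ∀ n : Ideal B, n.IsMaximal → algebraMap R B π ∈ n →
      sf79_OnBr π B (cm85_Vinf (K := K) (M' * q) hπ).toSubring n →
      sf79_OnBr π B (s34i47c_V0 (K := K) M' q hq hM' hπ).toSubring n →
      ∃ z' : ↥(modularFunctionFieldFullC K M'), z' ∈ cm85_Vinf (K := K) M' hπ ∧
        ∃ hz : al97L_alpha K M' q z' ∈ B,
          sf79_Unif π B (cm85_Vinf (K := K) (M' * q) hπ).toSubring n
            ⟨al97L_alpha K M' q z', hz⟩) :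
    sf79_Transv π B (cm85_Vinf (K := K) (M' * q) hπ).toSubring
      (s34i47c_V0 (K := K) M' q hq hM' hπ).toSubring := by
  obtain ⟨hchar, hperf⟩ := ins50_perfect (R := R) (K := K) (IsFractionRing.injective R K) hq hqR
  refine tv66_transv' π B _ _
    (fun x hx => ((s34i47c_mem_W M' q hq hM' hπ x).mp (hBW x hx)).1)
    (fun x hx => ((s34i47c_mem_W M' q hq hM' hπ x).mp (hBW x hx)).2)
    (al97C_pi_inv_not_mem_V0 M' q hq hM' hπ)
    (fun x hx hx' => tv66_hV_V0 M' q hq hM' hπ x hx hx')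
    hsat hFrac
    (fun x _ hx0 => tv66_arch_V0 M' q hq hM' hπ x hx0)
    c hc₁ hc₂ hS₂ q hq.two_le ?_
  intro n hn hπn h1 h2
  obtain ⟨z', hz'V, hz, hunif⟩ := hSF n hn hπn h1 h2
  obtain ⟨x₁, hx₁, hx⟩ :=
    ins50_frob_Vzero M' q (algebraMap K Q̄) hπ hq hM' hchar hperf z' hz'V
  refine ⟨⟨_, hz⟩, hunif, al97L_beta K M' q x₁,
    (al97C_beta_mem_V0 M' q hq hM' hπ x₁).mpr hx₁, ?_⟩
  rw [IsScalarTower.algebraMap_apply R K ↥(modularFunctionFieldFullC K (M' * q))]
  exact hx

/-- The element `c = β h' - (α h')^q` and its companion `c' = (β h')⁻¹ - ((α h')⁻¹)^q` for the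
chart `{h⁻¹}`: both vanish along `V_∞` and are units along `V_0`. -/
theorem tv66_c_inv (h' : ↥(modularFunctionFieldFullC K M')) (s s' : LaurentSeries R)
    (hs : (h' : LaurentSeries K) = coeffMap (algebraMap R K) s) (hss' : s * s' = 1)
    (hfrob : (coeffMap (IsLocalRing.residue R) s) ^ q =
      qExpand (IsLocalRing.ResidueField R) q (coeffMap (IsLocalRing.residue R) s))
    (k : ℤ) (hk : ¬ (q : ℤ) ∣ k) (hsk : (coeffMap (IsLocalRing.residue R) s).coeff k ≠ 0) :
    (algebraMap R ↥(modularFunctionFieldFullC K (M' * q)) π)⁻¹ *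
        ((al97L_beta K M' q h')⁻¹ - ((al97L_alpha K M' q h')⁻¹) ^ q) ∈
      cm85_Vinf (K := K) (M' * q) hπ ∧
    (algebraMap R ↥(modularFunctionFieldFullC K (M' * q)) π)⁻¹ *
        ((al97L_beta K M' q h')⁻¹ - ((al97L_alpha K M' q h')⁻¹) ^ q) ∉
      s34i47c_V0 (K := K) M' q hq hM' hπ := by
  have hcK : coeffMap (algebraMap R K) s * coeffMap (algebraMap R K) s' = 1 := by
    rw [← map_mul, hss', map_one]
  have hh'0 : h' ≠ 0 := by
    intro h0
    rw [h0] at hs
    have h1 : (0 : LaurentSeries K) * coeffMap (algebraMap R K) s' = 1 := by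
      rw [← hcK, ← hs]
      rfl
    rw [zero_mul] at h1
    exact zero_ne_one h1
  have hinv : ((h'⁻¹ : ↥(modularFunctionFieldFullC K M')) : LaurentSeries K) =
      coeffMap (algebraMap R K) s' := by
    have h2 : ((h'⁻¹ : ↥(modularFunctionFieldFullC K M')) : LaurentSeries K) =
        ((h' : ↥(modularFunctionFieldFullC K M')) : LaurentSeries K)⁻¹ := rfl
    rw [h2, hs]
    exact inv_eq_of_mul_eq_one_right hcK
  have hV' : h' ∈ cm85_Vinf (K := K) M' hπ := gv85_mem_V_of_integral _ _ _ h' s hs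
  have hV'inv : h'⁻¹ ∈ cm85_Vinf (K := K) M' hπ := gv85_mem_V_of_integral _ _ _ h'⁻¹ s' hinv
  set a := al97L_alpha K M' q h' with ha
  set b := al97L_beta K M' q h' with hb
  have ha0 : a ≠ 0 := fun h0 => hh'0 ((map_eq_zero _).mp h0)
  have hb0 : b ≠ 0 := fun h0 => hh'0 ((map_eq_zero _).mp h0)
  have hA0 : a ^ q ≠ 0 := pow_ne_zero q ha0
  have e1 : (algebraMap R ↥(modularFunctionFieldFullC K (M' * q)) π)⁻¹ *
      (b⁻¹ - (a⁻¹) ^ q) =
      -((algebraMap R ↥(modularFunctionFieldFullC K (M' * q)) π)⁻¹ * (b - a ^ q)) *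
        (b⁻¹ * (a⁻¹) ^ q) := by
    rw [inv_pow]
    field_simp
    ring
  have e2 : (algebraMap R ↥(modularFunctionFieldFullC K (M' * q)) π)⁻¹ * (b - a ^ q) =
      -((algebraMap R ↥(modularFunctionFieldFullC K (M' * q)) π)⁻¹ *
        (b⁻¹ - (a⁻¹) ^ q)) * (b * a ^ q) := by
    rw [inv_pow]
    field_simp
    ring
  constructor
  · rw [e1]
    refine mul_mem (neg_mem (tv66_c_mem_Vinf M' q hπ h' s hs hfrob)) (mul_mem ?_ (pow_mem ?_ q))
    · rw [hb, ← map_inv₀]
      exact (al97C_beta_mem_Vinf M' q hπ _).mpr hV'inv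
    · rw [ha, ← map_inv₀]
      exact (al97C_alpha_mem_Vinf M' q hπ _).mpr hV'inv
  · intro hmem
    apply tv66_c_not_mem_V0 M' q hq hM' hπ h' s hs k hk hsk
    rw [← ha, ← hb, e2]
    refine mul_mem (neg_mem hmem) (mul_mem ?_ (pow_mem ?_ q))
    · exact (al97C_beta_mem_V0 M' q hq hM' hπ _).mpr hV'
    · exact (al97C_alpha_mem_V0 M' q hq hM' hπ _).mpr hV'

include hq in
/-- **The data of an admissible Hauptmodul `h`** of level `M' * q`: it comes from level `M'`
(`h = α h'`), has an `R`-integral, invertible, Frobenius-invariant expansion with a simple pole,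
and `β h'` lies in the chart `R[h]~`, `(β h')⁻¹` in the chart `R[h⁻¹]~` (`hi95_beta2/3_mem_chart`). -/
theorem tv66_haupt_data (hunit : ∀ n : ℕ, Nat.Coprime n q → IsUnit (n : R))
    (hqR : ¬ IsUnit (q : R)) (h : ↥(modularFunctionFieldFullC K (M' * q)))
    (hh : s34i47c_IsHaupt K (M' * q) q h) :
    ∃ (h' : ↥(modularFunctionFieldFullC K M')) (s s' : LaurentSeries R),
      h = al97L_alpha K M' q h' ∧ (h' : LaurentSeries K) = coeffMap (algebraMap R K) s ∧
      s * s' = 1 ∧
      (coeffMap (IsLocalRing.residue R) s) ^ q =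
        qExpand (IsLocalRing.ResidueField R) q (coeffMap (IsLocalRing.residue R) s) ∧
      (coeffMap (IsLocalRing.residue R) s).coeff (-1) ≠ 0 ∧
      al97L_beta K M' q h' ∈
        pk15_chart R ({h} : Set ↥(modularFunctionFieldFullC K (M' * q))) ∧
      (al97L_beta K M' q h')⁻¹ ∈
        pk15_chart R ({h⁻¹} : Set ↥(modularFunctionFieldFullC K (M' * q))) := by
  haveI : ExpChar (IsLocalRing.ResidueField R) q :=
    fi66_expChar_residue hq ((IsLocalRing.mem_maximalIdeal _).mpr hqR)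
  rcases hh with ⟨hq2, h2, rfl⟩ | ⟨hq3, h3, rfl⟩
  · have h2' : 2 ∣ M' := by
      rcases (Nat.Prime.dvd_mul Nat.prime_two).mp h2 with h | h
      · exact h
      · exact absurd ((Nat.prime_dvd_prime_iff_eq Nat.prime_two hq).mp h).symm hq2
    have h2qM : 2 * q ∣ M' * q := Nat.mul_dvd_mul_right h2' q
    have h2R : IsUnit ((2 : ℕ) : R) :=
      hunit 2 ((Nat.coprime_primes Nat.prime_two hq).mpr (Ne.symm hq2))
    have hβ : al97L_beta K M' q (pk85_h2 K M' h2') = hi95_beta2 K (M' * q) q hq.ne_zero h2qM :=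
      Subtype.ext (by rw [al97L_beta_coe, hi95_beta2_coe, qE_of_neZero, pk85_h2_coe])
    have hchart := hi95_beta2_mem_chart R K (M' * q) q hq hq2 h2qM h2R hqR
      (pk85_h2 K (M' * q) h2) (pk85_h2_coe K (M' * q) h2)
    refine ⟨pk85_h2 K M' h2', h70_h2 R, h70_h2inv R, ?_, ?_, h70_h2_mul_h2inv R, ?_, ?_, ?_, ?_⟩
    · apply Subtype.ext
      rw [al97L_alpha_coe, pk85_h2_coe, pk85_h2_coe]
    · rw [pk85_h2_coe, h70_coeffMap_h2]
    · rw [h70_coeffMap_h2, fr66_pow_expChar (IsLocalRing.ResidueField R) q, h70_coeffMap_h2]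
    · rw [h70_coeffMap_h2, tv66_h2_coeff]
      exact one_ne_zero
    · rw [hβ]
      exact hchart.1
    · rw [hβ]
      exact hchart.2
  · have h3' : 3 ∣ M' := by
      rcases (Nat.Prime.dvd_mul Nat.prime_three).mp h3 with h | h
      · exact h
      · exact absurd ((Nat.prime_dvd_prime_iff_eq Nat.prime_three hq).mp h).symm hq3
    have h3qM : 3 * q ∣ M' * q := Nat.mul_dvd_mul_right h3' q
    have h3R : IsUnit ((3 : ℕ) : R) :=
      hunit 3 ((Nat.coprime_primes Nat.prime_three hq).mpr (Ne.symm hq3))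
    have hβ : al97L_beta K M' q (pk85_h3 K M' h3') = hi95_beta3 K (M' * q) q hq.ne_zero h3qM :=
      Subtype.ext (by rw [al97L_beta_coe, hi95_beta3_coe, qE_of_neZero, pk85_h3_coe])
    have hchart := hi95_beta3_mem_chart R K (M' * q) q hq hq3 h3qM h3R hqR
      (pk85_h3 K (M' * q) h3) (pk85_h3_coe K (M' * q) h3)
    refine ⟨pk85_h3 K M' h3', h34_h3R R, h34_h3Rinv R, ?_, ?_, h34_h3R_mul_inv R, ?_, ?_, ?_, ?_⟩
    · apply Subtype.ext
      rw [al97L_alpha_coe, pk85_h3_coe, pk85_h3_coe]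
    · rw [pk85_h3_coe, h34_coeffMap_h3R]
    · rw [h34_coeffMap_h3R, fr66_pow_expChar (IsLocalRing.ResidueField R) q, h34_coeffMap_h3R]
    · rw [h34_coeffMap_h3R, tv66_h3_coeff]
      exact one_ne_zero
    · rw [hβ]
      exact hchart.1
    · rw [hβ]
      exact hchart.2

include hq in
theorem tv66_not_dvd_neg_one : ¬ ((q : ℕ) : ℤ) ∣ (-1 : ℤ) := by
  intro hd
  have h1 : ((q : ℕ) : ℤ) ∣ ((1 : ℕ) : ℤ) := by
    rw [Nat.cast_one]
    exact (dvd_neg).mp hd
  exact hq.one_lt.ne' (Nat.dvd_one.mp (Int.natCast_dvd_natCast.mp h1))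

/-- The level-free chart facts for an admissible Hauptmodul. -/
theorem tv66_facts (h : ↥(modularFunctionFieldFullC K (M' * q)))
    (hh : s34i47c_IsHaupt K (M' * q) q h) :
    cm85_Facts R K (M' * q) π h (cm85_Vinf (K := K) (M' * q) hπ) := by
  rcases hh with ⟨-, h2, rfl⟩ | ⟨-, h3, rfl⟩
  · exact cm85_facts_level2 (M' * q) hπ h2
  · exact cm85_facts_level3 (M' * q) hπ h3

/-- **(3b) = `sf79_Transv` for the chart `R[h]~` on the canonical frame data.**  Inputs:
saturation of the chart in `V_∞ ⊓ V_0` (FrameSat), smoothness of the branch `V_0` (row 489) and,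
at the points of both branches, a local coordinate of the branch `V_∞` coming from level `M'`
(row 488). -/
theorem tv66_transv_haupt [Algebra.IsAlgebraic ℚ K]
    (hunit : ∀ n : ℕ, Nat.Coprime n q → IsUnit (n : R)) (hqR : ¬ IsUnit (q : R))
    (h : ↥(modularFunctionFieldFullC K (M' * q))) (hh : s34i47c_IsHaupt K (M' * q) q h)
    (hsat : ∀ x ∈ pk15_chart R ({h} : Set ↥(modularFunctionFieldFullC K (M' * q))),
      (algebraMap R ↥(modularFunctionFieldFullC K (M' * q)) π)⁻¹ * x ∈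
        (cm85_Vinf (K := K) (M' * q) hπ).toSubring →
      (algebraMap R ↥(modularFunctionFieldFullC K (M' * q)) π)⁻¹ * x ∈
        (s34i47c_V0 (K := K) M' q hq hM' hπ).toSubring →
      (algebraMap R ↥(modularFunctionFieldFullC K (M' * q)) π)⁻¹ * x ∈
        pk15_chart R ({h} : Set ↥(modularFunctionFieldFullC K (M' * q))))
    (hS₂ : sf79_Smooth π (pk15_chart R ({h} : Set ↥(modularFunctionFieldFullC K (M' * q))))
      (s34i47c_V0 (K := K) M' q hq hM' hπ).toSubring)
    (hSF : ∀ n : Ideal (pk15_chart R ({h} : Set ↥(modularFunctionFieldFullC K (M' * q)))),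
      n.IsMaximal → algebraMap R _ π ∈ n →
      sf79_OnBr π (pk15_chart R ({h} : Set ↥(modularFunctionFieldFullC K (M' * q))))
        (cm85_Vinf (K := K) (M' * q) hπ).toSubring n →
      sf79_OnBr π (pk15_chart R ({h} : Set ↥(modularFunctionFieldFullC K (M' * q))))
        (s34i47c_V0 (K := K) M' q hq hM' hπ).toSubring n →
      ∃ z' : ↥(modularFunctionFieldFullC K M'), z' ∈ cm85_Vinf (K := K) M' hπ ∧
        ∃ hz : al97L_alpha K M' q z' ∈
            pk15_chart R ({h} : Set ↥(modularFunctionFieldFullC K (M' * q))),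
          sf79_Unif π (pk15_chart R ({h} : Set ↥(modularFunctionFieldFullC K (M' * q))))
            (cm85_Vinf (K := K) (M' * q) hπ).toSubring n ⟨al97L_alpha K M' q z', hz⟩) :
    sf79_Transv π (pk15_chart R ({h} : Set ↥(modularFunctionFieldFullC K (M' * q))))
      (cm85_Vinf (K := K) (M' * q) hπ).toSubring
      (s34i47c_V0 (K := K) M' q hq hM' hπ).toSubring := by
  obtain ⟨-, -, -, -, -, -, hN₁, -, -, -, hfrac₁, -, -⟩ := tv66_facts M' q hπ h hh
  have hBW := al97C_chart_le_W M' q hq hM' hπ h hh {h} (by simp)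
  obtain ⟨h', s, s', hhα, hs, hss', hfrob, hsk, hβ, -⟩ :=
    tv66_haupt_data M' q hq hunit hqR h hh
  haveI := hN₁
  have hcB : al97L_beta K M' q h' - (al97L_alpha K M' q h') ^ q ∈
      pk15_chart R ({h} : Set ↥(modularFunctionFieldFullC K (M' * q))) := by
    rw [← hhα]
    exact sub_mem hβ (pow_mem (pk15_subset_chart {h} rfl) q)
  exact tv66_transv_canon M' q hq hM' hπ hqR _ hBW hsat hfrac₁ ⟨_, hcB⟩
    (tv66_c_mem_Vinf M' q hπ h' s hs hfrob)
    (tv66_c_not_mem_V0 M' q hq hM' hπ h' s hs (-1) (tv66_not_dvd_neg_one q hq) hsk) hS₂ hSF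

/-- **(3b) = `sf79_Transv` for the chart `R[h⁻¹]~` on the canonical frame data.** -/
theorem tv66_transv_haupt_inv [Algebra.IsAlgebraic ℚ K]
    (hunit : ∀ n : ℕ, Nat.Coprime n q → IsUnit (n : R)) (hqR : ¬ IsUnit (q : R))
    (h : ↥(modularFunctionFieldFullC K (M' * q))) (hh : s34i47c_IsHaupt K (M' * q) q h)
    (hsat : ∀ x ∈ pk15_chart R ({h⁻¹} : Set ↥(modularFunctionFieldFullC K (M' * q))),
      (algebraMap R ↥(modularFunctionFieldFullC K (M' * q)) π)⁻¹ * x ∈
        (cm85_Vinf (K := K) (M' * q) hπ).toSubring →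
      (algebraMap R ↥(modularFunctionFieldFullC K (M' * q)) π)⁻¹ * x ∈
        (s34i47c_V0 (K := K) M' q hq hM' hπ).toSubring →
      (algebraMap R ↥(modularFunctionFieldFullC K (M' * q)) π)⁻¹ * x ∈
        pk15_chart R ({h⁻¹} : Set ↥(modularFunctionFieldFullC K (M' * q))))
    (hS₂ : sf79_Smooth π (pk15_chart R ({h⁻¹} : Set ↥(modularFunctionFieldFullC K (M' * q))))
      (s34i47c_V0 (K := K) M' q hq hM' hπ).toSubring)
    (hSF : ∀ n : Ideal (pk15_chart R ({h⁻¹} : Set ↥(modularFunctionFieldFullC K (M' * q)))),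
      n.IsMaximal → algebraMap R _ π ∈ n →
      sf79_OnBr π (pk15_chart R ({h⁻¹} : Set ↥(modularFunctionFieldFullC K (M' * q))))
        (cm85_Vinf (K := K) (M' * q) hπ).toSubring n →
      sf79_OnBr π (pk15_chart R ({h⁻¹} : Set ↥(modularFunctionFieldFullC K (M' * q))))
        (s34i47c_V0 (K := K) M' q hq hM' hπ).toSubring n →
      ∃ z' : ↥(modularFunctionFieldFullC K M'), z' ∈ cm85_Vinf (K := K) M' hπ ∧
        ∃ hz : al97L_alpha K M' q z' ∈
            pk15_chart R ({h⁻¹} : Set ↥(modularFunctionFieldFullC K (M' * q))),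
          sf79_Unif π (pk15_chart R ({h⁻¹} : Set ↥(modularFunctionFieldFullC K (M' * q))))
            (cm85_Vinf (K := K) (M' * q) hπ).toSubring n ⟨al97L_alpha K M' q z', hz⟩) :
    sf79_Transv π (pk15_chart R ({h⁻¹} : Set ↥(modularFunctionFieldFullC K (M' * q))))
      (cm85_Vinf (K := K) (M' * q) hπ).toSubring
      (s34i47c_V0 (K := K) M' q hq hM' hπ).toSubring := by
  obtain ⟨-, -, -, -, -, -, -, hN₂, -, -, -, hfrac₂, -⟩ := tv66_facts M' q hπ h hh
  have hBW := al97C_chart_le_W M' q hq hM' hπ h hh {h⁻¹} (by simp)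
  obtain ⟨h', s, s', hhα, hs, hss', hfrob, hsk, -, hβ⟩ :=
    tv66_haupt_data M' q hq hunit hqR h hh
  haveI := hN₂
  have hcB : (al97L_beta K M' q h')⁻¹ - ((al97L_alpha K M' q h')⁻¹) ^ q ∈
      pk15_chart R ({h⁻¹} : Set ↥(modularFunctionFieldFullC K (M' * q))) := by
    rw [← hhα]
    exact sub_mem hβ (pow_mem (pk15_subset_chart {h⁻¹} rfl) q)
  obtain ⟨hc₁, hc₂⟩ := tv66_c_inv M' q hq hM' hπ h' s s' hs hss' hfrob (-1)
    (tv66_not_dvd_neg_one q hq) hsk
  exact tv66_transv_canon M' q hq hM' hπ hqR _ hBW hsat hfrac₂ ⟨_, hcB⟩ hc₁ hc₂ hS₂ hSF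

end TV66Canon

end Fermat.Agent.S34
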