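import Mathlib
import Fermat.Agent.S34.TransvInst50
import Fermat.Agent.S34.SmoothCanon73

/-!
# S34 lab, row P3b-insep (helper50), part 6: (3b) on the canonical frame, hypothesis-free

* `tri50_surj` : (3a)-surjectivity `B = α(B') + p_∞` in the shape consumed by `tri50_transv_haupt`,
  for both affine charts of every admissible Hauptmodul (from helper93's `bi93_level2/3` and
  helper73's `sc73_F1`).
* `tri50_transv` : `sf79_Transv π B V_∞ V_0` for both affine charts of every admissible
  Hauptmodul, with no hypothesis beyond the binder block of `s34i47c_FrameLS`.  This is the body of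
  the package Props `s34i47e_Pkg_FrameTransv` (Iface47e) and `s34g51_Pkg_Transv` (FrameLSGate51);
  the literal packages are in `TransvGate50.lean`.
-/

set_option autoImplicit false
set_option linter.unusedSectionVars false
set_option linter.style.haveILetI false

open ModularCurve AlgebraicCurve IntermediateField

namespace Fermat.Agent.S34

open Fermat.Agent.S18 Fermat.Agent.S24 Fermat.Agent.S28 Fermat.Agent.S37

local notation "Q̄" => AlgebraicClosure ℚ

section Pkg

variable {R K : Type} [CommRing R] [IsDomain R] [IsDiscreteValuationRing R] [Field K]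
  [NumberField K] [Algebra R K] [IsFractionRing R K] [Algebra K Q̄]
  (M' q : ℕ) [NeZero M'] [NeZero q] (hq : q.Prime) (hM' : ¬ q ∣ M')
  {π : R} (hπ : Irreducible π)

section Both

variable [Algebra R ↥(modularFunctionFieldFullC K M')]
  [IsScalarTower R K ↥(modularFunctionFieldFullC K M')]
  [Algebra R ↥(modularFunctionFieldFullC K (M' * q))]
  [IsScalarTower R K ↥(modularFunctionFieldFullC K (M' * q))]

/-- helper93's `bi93_Surj` in the shape of `tri50_transv_haupt`. -/
theorem tri50_surj_of_bi93 (s' : Set ↥(modularFunctionFieldFullC K M'))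
    (s : Set ↥(modularFunctionFieldFullC K (M' * q)))
    (hαs : ∀ g ∈ s', al97L_alpha K M' q g ∈ pk15_chart R s)
    (hS : bi93_Surj (R := R) (K := K) M' (M' * q) (dvd_mul_right M' q) hπ s' s) :
    ∀ x ∈ pk15_chart R s, ∃ x' : ↥(modularFunctionFieldFullC K M'),
      al97L_alpha K M' q x' ∈ pk15_chart R s ∧
      (algebraMap R ↥(modularFunctionFieldFullC K (M' * q)) π)⁻¹ * (x - al97L_alpha K M' q x') ∈
        cm85_Vinf (K := K) (M' * q) hπ := by
  have hαR : ∀ r : R, (al97L_alpha K M' q : ↥(modularFunctionFieldFullC K M') →+*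
      ↥(modularFunctionFieldFullC K (M' * q))) (algebraMap R ↥(modularFunctionFieldFullC K M') r) =
      algebraMap R ↥(modularFunctionFieldFullC K (M' * q)) r := by
    intro r
    rw [IsScalarTower.algebraMap_apply R K ↥(modularFunctionFieldFullC K M'),
      IsScalarTower.algebraMap_apply R K ↥(modularFunctionFieldFullC K (M' * q))]
    exact (al97L_alpha K M' q).commutes _
  intro x hx
  obtain ⟨x', hx', hmem⟩ := hS x hx
  exact ⟨x', tri50_map_chart (al97L_alpha K M' q : ↥(modularFunctionFieldFullC K M') →+*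
      ↥(modularFunctionFieldFullC K (M' * q))) hαR s' (pk15_chart R s) (tri50_chart_closed s) hαs
      x' hx', hmem⟩

end Both

variable [Algebra R ↥(modularFunctionFieldFullC K (M' * q))]
  [IsScalarTower R K ↥(modularFunctionFieldFullC K (M' * q))]

include hq hM' in
/-- **(3a)-surjectivity on the canonical frame**, both affine charts of every admissible
Hauptmodul: `B = α(B ∩ α⁻¹ B) + p_∞`. -/
theorem tri50_surj (hunit : ∀ n : ℕ, Nat.Coprime n q → IsUnit (n : R)) (hqR : ¬ IsUnit (q : R))
    (h : ↥(modularFunctionFieldFullC K (M' * q))) (hh : s34i47c_IsHaupt K (M' * q) q h) :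
    (∀ x ∈ pk15_chart R ({h} : Set ↥(modularFunctionFieldFullC K (M' * q))),
      ∃ x' : ↥(modularFunctionFieldFullC K M'),
        al97L_alpha K M' q x' ∈ pk15_chart R ({h} : Set ↥(modularFunctionFieldFullC K (M' * q))) ∧
        (algebraMap R ↥(modularFunctionFieldFullC K (M' * q)) π)⁻¹ *
          (x - al97L_alpha K M' q x') ∈ cm85_Vinf (K := K) (M' * q) hπ) ∧
    (∀ x ∈ pk15_chart R ({h⁻¹} : Set ↥(modularFunctionFieldFullC K (M' * q))),
      ∃ x' : ↥(modularFunctionFieldFullC K M'),
        al97L_alpha K M' q x' ∈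
          pk15_chart R ({h⁻¹} : Set ↥(modularFunctionFieldFullC K (M' * q))) ∧
        (algebraMap R ↥(modularFunctionFieldFullC K (M' * q)) π)⁻¹ *
          (x - al97L_alpha K M' q x') ∈ cm85_Vinf (K := K) (M' * q) hπ) := by
  haveI : Algebra.IsAlgebraic K Q̄ := cx_isAlgebraic_closure K
  letI : Algebra R ↥(modularFunctionFieldFullC K M') :=
    ((algebraMap K ↥(modularFunctionFieldFullC K M')).comp (algebraMap R K)).toAlgebra
  haveI : IsScalarTower R K ↥(modularFunctionFieldFullC K M') :=
    IsScalarTower.of_algebraMap_eq (fun _ => rfl)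
  have hMu : IsUnit (M' : R) :=
    hunit M' (Nat.Coprime.symm ((Nat.Prime.coprime_iff_not_dvd hq).mpr hM'))
  have hf1 := sc73_F1 (R := R) (K := K) M' q hq hM' hπ hqR
  rcases hh with ⟨hq2, h2, rfl⟩ | ⟨hq3, h3, rfl⟩
  · have hcop : Nat.Coprime 2 q := (Nat.coprime_primes Nat.prime_two hq).mpr (Ne.symm hq2)
    have h2' : 2 ∣ M' := hcop.dvd_of_dvd_mul_right h2
    obtain ⟨⟨hU₁, -⟩, ⟨hU₂, -⟩⟩ := bi93_level2 (R := R) (K := K) M' (M' * q)
      (dvd_mul_right M' q) hπ h2' hMu hf1
    have hαh : al97L_alpha K M' q (pk85_h2 K M' h2') = pk85_h2 K (M' * q) h2 := by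
      apply Subtype.ext
      rw [al97L_alpha_coe, pk85_h2_coe, pk85_h2_coe]
    constructor
    · refine tri50_surj_of_bi93 M' q hπ {pk85_h2 K M' h2'} _ ?_ hU₁
      intro g hg
      rw [Set.mem_singleton_iff.mp hg, hαh]
      exact pk15_subset_chart _ (Set.mem_singleton _)
    · refine tri50_surj_of_bi93 M' q hπ {(pk85_h2 K M' h2')⁻¹} _ ?_ hU₂
      intro g hg
      rw [Set.mem_singleton_iff.mp hg, map_inv₀, hαh]
      exact pk15_subset_chart _ (Set.mem_singleton _)
  · have hcop : Nat.Coprime 3 q := (Nat.coprime_primes Nat.prime_three hq).mpr (Ne.symm hq3)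
    have h3' : 3 ∣ M' := hcop.dvd_of_dvd_mul_right h3
    obtain ⟨⟨hU₁, -⟩, ⟨hU₂, -⟩⟩ := bi93_level3 (R := R) (K := K) M' (M' * q)
      (dvd_mul_right M' q) hπ h3' hMu hf1
    have hαh : al97L_alpha K M' q (pk85_h3 K M' h3') = pk85_h3 K (M' * q) h3 := by
      apply Subtype.ext
      rw [al97L_alpha_coe, pk85_h3_coe, pk85_h3_coe]
    constructor
    · refine tri50_surj_of_bi93 M' q hπ {pk85_h3 K M' h3'} _ ?_ hU₁
      intro g hg
      rw [Set.mem_singleton_iff.mp hg, hαh]
      exact pk15_subset_chart _ (Set.mem_singleton _)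
    · refine tri50_surj_of_bi93 M' q hπ {(pk85_h3 K M' h3')⁻¹} _ ?_ hU₂
      intro g hg
      rw [Set.mem_singleton_iff.mp hg, map_inv₀, hαh]
      exact pk15_subset_chart _ (Set.mem_singleton _)

/-- **(3b) on the canonical frame**: `sf79_Transv π B V_∞ V_0` for both affine charts of every
admissible Hauptmodul, with no hypothesis beyond the binder block of `s34i47c_FrameLS`. -/
theorem tri50_transv (hunit : ∀ n : ℕ, Nat.Coprime n q → IsUnit (n : R)) (hqR : ¬ IsUnit (q : R))
    (h : ↥(modularFunctionFieldFullC K (M' * q))) (hh : s34i47c_IsHaupt K (M' * q) q h) :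
    sf79_Transv π (pk15_chart R ({h} : Set ↥(modularFunctionFieldFullC K (M' * q))))
        (cm85_Vinf (K := K) (M' * q) hπ).toSubring
        (s34i47c_V0 (K := K) M' q hq hM' hπ).toSubring ∧
      sf79_Transv π (pk15_chart R ({h⁻¹} : Set ↥(modularFunctionFieldFullC K (M' * q))))
        (cm85_Vinf (K := K) (M' * q) hπ).toSubring
        (s34i47c_V0 (K := K) M' q hq hM' hπ).toSubring := by
  obtain ⟨⟨hS₁, hS₁0⟩, ⟨hS₂, hS₂0⟩⟩ :=
    sc73_smooth (R := R) (K := K) M' q hq hM' hπ hunit hqR h hh
  obtain ⟨hsurj₁, hsurj₂⟩ := tri50_surj (R := R) (K := K) M' q hq hM' hπ hunit hqR h hh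
  obtain ⟨hT₁, hT₂⟩ := tri50_transv_haupt (R := R) (K := K) M' q hq hM' hπ hunit hqR h hh
  exact ⟨hT₁ hS₁ hS₁0 hsurj₁, hT₂ hS₂ hS₂0 hsurj₂⟩

end Pkg

end Fermat.Agent.S34
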