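import Mathlib

/-!
# S34 lab, package P1a, abstract part (helper55): two valuation rings exhaust a degree `q + 1`
extension

`V'` a discrete valuation ring of a field `F'` (given as a valuation subring with uniformiser `π`
and the archimedean property), `F / F'` finite separable of degree `≤ q + 1`, `V₁ ≠ V₂` two
valuation subrings of `F` above `V'` such that the residue field of `V₂` contains a `q`-th root of
an element of the residue field of `V'` which is not a `q`-th power there.  Then `V₁` and `V₂` are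
the only valuation rings of `F` above `V'`, in the form:

`tv55_integral_of_two` : every `x ∈ V₁ ⊓ V₂` is integral over `V'`.

The proof is the fundamental identity `∑ e f = [F : F']` for the integral closure of `V'` in `F`
(Mathlib: `Ideal.sum_ramification_inertia_eq_finrank`).  Mathlib only.
-/

set_option autoImplicit false
set_option linter.style.haveILetI false
set_option linter.overlappingInstances false
set_option linter.deprecated false

open Polynomial

namespace Fermat.Agent.S34

section Dichotomy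

variable {C F : Type*} [CommRing C] [IsDomain C] [IsDedekindDomain C] [Field F] [Algebra C F]
  [IsFractionRing C F]

/-- In a Dedekind domain `C` with fraction field `F` and a nonzero prime `P`: every `y ∈ F` is
either of the form `a / s` with `s ∉ P`, or `y⁻¹ = a / s` with `a ∈ P`, `s ∉ P`. -/
theorem tv55_dichotomy (P : Ideal C) [P.IsPrime] (hP : P ≠ ⊥) (y : F) :
    (∃ a s : C, s ∉ P ∧ y * algebraMap C F s = algebraMap C F a) ∨
      (∃ a s : C, a ∈ P ∧ s ∉ P ∧ y * algebraMap C F a = algebraMap C F s) := by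
  classical
  let D := Localization.subalgebra.ofField F P.primeCompl P.primeCompl_le_nonZeroDivisors
  haveI : IsLocalization.AtPrime D P :=
    Localization.subalgebra.isLocalization_ofField F P.primeCompl P.primeCompl_le_nonZeroDivisors
  haveI : IsDiscreteValuationRing D :=
    IsLocalization.AtPrime.isDiscreteValuationRing_of_dedekind_domain C hP D
  have hinj : Function.Injective (algebraMap C F) := IsFractionRing.injective C F
  have key : ∀ z : F, z ∈ D → ∃ a s : C, s ∉ P ∧ z * algebraMap C F s = algebraMap C F a := by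
    rintro z ⟨a, s, hs, rfl⟩
    refine ⟨a, s, hs, ?_⟩
    have hs0 : algebraMap C F s ≠ 0 := by
      intro h0
      apply hs
      have : s = 0 := hinj (by rw [h0, map_zero])
      rw [this]
      exact P.zero_mem
    rw [mul_assoc, inv_mul_cancel₀ hs0, mul_one]
  rcases ValuationRing.isInteger_or_isInteger D y with ⟨d, hd⟩ | ⟨d, hd⟩
  · left
    apply key
    rw [← hd]
    exact d.2
  · by_cases hy : y = 0
    · left
      refine ⟨0, 1, ?_, by rw [hy, zero_mul, map_zero]⟩
      intro h1
      exact (Ideal.IsPrime.ne_top ‹P.IsPrime›) ((Ideal.eq_top_iff_one P).mpr h1)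
    obtain ⟨a, s, hs, has⟩ := key y⁻¹ (by rw [← hd]; exact d.2)
    have has' : algebraMap C F s = y * algebraMap C F a := by
      rw [← has, ← mul_assoc, mul_inv_cancel₀ hy, one_mul]
    by_cases ha : a ∈ P
    · right
      exact ⟨a, s, ha, hs, has'.symm⟩
    · left
      exact ⟨s, a, ha, has'.symm⟩

end Dichotomy

section DVR

variable {F : Type*} [Field F]

theorem tv55_isUnit_of_inv_mem (V : ValuationSubring F) (x : V) (hx0 : (x : F) ≠ 0)
    (hx : (x : F)⁻¹ ∈ V) : IsUnit x :=
  ⟨⟨x, ⟨_, hx⟩, Subtype.ext (mul_inv_cancel₀ hx0), Subtype.ext (inv_mul_cancel₀ hx0)⟩, rfl⟩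

theorem tv55_inv_mem_of_isUnit (V : ValuationSubring F) (x : V) (hx : IsUnit x) :
    (x : F)⁻¹ ∈ V := by
  obtain ⟨u, rfl⟩ := hx
  have h1 : ((u : V) : F) * ((u⁻¹ : Vˣ) : V) = 1 := by
    have h0 : ((u : V) * ((u⁻¹ : Vˣ) : V) : V) = 1 := u.mul_inv
    have := congrArg (Subtype.val) h0
    exact this
  have h2 : ((u : V) : F)⁻¹ = (((u⁻¹ : Vˣ) : V) : F) := by
    rw [inv_eq_of_mul_eq_one_right h1]
  rw [h2]
  exact ((u⁻¹ : Vˣ) : V).2

/-- A valuation subring whose maximal ideal is generated by `π` and in which no nonzero element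
is divisible by all powers of `π` is a discrete valuation ring. -/
theorem tv55_isDVR (V : ValuationSubring F) (π : F) (hπ : π ∈ V) (hπ' : π⁻¹ ∉ V)
    (hmax : ∀ x ∈ V, x⁻¹ ∉ V → π⁻¹ * x ∈ V)
    (harch : ∀ x ∈ V, x ≠ 0 → ∃ n : ℕ, (π ^ n)⁻¹ * x ∉ V) :
    IsDiscreteValuationRing V := by
  classical
  have hπ0 : π ≠ 0 := by
    rintro rfl
    apply hπ'
    rw [inv_zero]
    exact V.zero_mem
  -- every nonzero element is a unit times a power of `π`
  have key : ∀ x ∈ V, x ≠ 0 → ∃ n : ℕ, (π ^ n)⁻¹ * x ∈ V ∧ ((π ^ n)⁻¹ * x)⁻¹ ∈ V := by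
    intro x hx hx0
    obtain ⟨N, hN⟩ := harch x hx hx0
    have hex : ∃ n : ℕ, (π ^ (n + 1))⁻¹ * x ∉ V := by
      cases N with
      | zero => exact absurd (by simpa using hx) hN
      | succ n => exact ⟨n, hN⟩
    have hn : (π ^ (Nat.find hex + 1))⁻¹ * x ∉ V := Nat.find_spec hex
    have hn' : (π ^ (Nat.find hex))⁻¹ * x ∈ V := by
      rcases Nat.eq_zero_or_pos (Nat.find hex) with h0 | hpos
      · rw [h0]; simpa using hx
      · have h1 := Nat.find_min hex (m := Nat.find hex - 1) (by omega)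
        rw [not_not] at h1
        rwa [Nat.sub_add_cancel hpos] at h1
    refine ⟨Nat.find hex, hn', ?_⟩
    by_contra hinv
    apply hn
    have h2 := hmax _ hn' hinv
    rwa [pow_succ, mul_inv, mul_comm (π ^ Nat.find hex)⁻¹ π⁻¹, mul_assoc]
  apply IsDiscreteValuationRing.ofHasUnitMulPowIrreducibleFactorization
  have hassoc : ∀ x : V, x ≠ 0 → ∃ n : ℕ, ∃ u : V, IsUnit u ∧ x = (⟨π, hπ⟩ : V) ^ n * u := by
    intro x hx0
    have hx0' : (x : F) ≠ 0 := fun h => hx0 (Subtype.ext h)
    obtain ⟨n, h1, h2⟩ := key x x.2 hx0'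
    have hne : (π ^ n)⁻¹ * (x : F) ≠ 0 := mul_ne_zero (inv_ne_zero (pow_ne_zero n hπ0)) hx0'
    refine ⟨n, ⟨_, h1⟩, tv55_isUnit_of_inv_mem V ⟨_, h1⟩ hne h2, ?_⟩
    apply Subtype.ext
    show (x : F) = π ^ n * ((π ^ n)⁻¹ * (x : F))
    rw [← mul_assoc, mul_inv_cancel₀ (pow_ne_zero n hπ0), one_mul]
  have hnu : ¬ IsUnit (⟨π, hπ⟩ : V) := fun h => hπ' (tv55_inv_mem_of_isUnit V _ h)
  refine ⟨⟨π, hπ⟩, ?_, ?_⟩
  · refine ⟨hnu, ?_⟩
    intro a b hab
    have ha0 : a ≠ 0 := by
      rintro rfl
      rw [zero_mul] at hab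
      exact hπ0 (congrArg Subtype.val hab)
    have hb0 : b ≠ 0 := by
      rintro rfl
      rw [mul_zero] at hab
      exact hπ0 (congrArg Subtype.val hab)
    obtain ⟨n, u, hu, rfl⟩ := hassoc a ha0
    obtain ⟨m, u', hu', rfl⟩ := hassoc b hb0
    rcases Nat.eq_zero_or_pos n with hn | hn
    · left
      rw [hn, pow_zero, one_mul]
      exact hu
    rcases Nat.eq_zero_or_pos m with hm | hm
    · right
      rw [hm, pow_zero, one_mul]
      exact hu'
    exfalso
    apply hnu
    -- π = π^(n+m) u u' with n + m ≥ 2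
    have h1 : (⟨π, hπ⟩ : V) * ((⟨π, hπ⟩ : V) ^ (n + m - 2) * (u * u')) = 1 := by
      have hπV0 : (⟨π, hπ⟩ : V) ≠ 0 := fun h => hπ0 (congrArg Subtype.val h)
      apply mul_left_cancel₀ hπV0
      rw [mul_one]
      have h3 : n + m = (n + m - 2) + 2 := by omega
      calc (⟨π, hπ⟩ : V) * ((⟨π, hπ⟩ : V) * ((⟨π, hπ⟩ : V) ^ (n + m - 2) * (u * u')))
          = (⟨π, hπ⟩ : V) ^ ((n + m - 2) + 2) * (u * u') := by ring
        _ = (⟨π, hπ⟩ : V) ^ n * u * ((⟨π, hπ⟩ : V) ^ m * u') := by rw [← h3]; ring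
        _ = ⟨π, hπ⟩ := hab.symm
    exact IsUnit.of_mul_eq_one _ h1
  · intro x hx0
    obtain ⟨n, u, hu, rfl⟩ := hassoc x hx0
    obtain ⟨w, rfl⟩ := hu
    exact ⟨n, w, rfl⟩

end DVR

section Center

variable {C F : Type*} [CommRing C] [Field F] [Algebra C F]

theorem tv55_val_lt_one (V : ValuationSubring F) (x : F) (hx : x⁻¹ ∉ V) : V.valuation x < 1 := by
  by_contra h
  rw [not_lt] at h
  apply hx
  rw [← ValuationSubring.valuation_le_one_iff, map_inv₀]
  exact inv_le_one_of_one_le₀ h

theorem tv55_inv_not_mem (V : ValuationSubring F) (x : F) (hx0 : x ≠ 0) (hx : V.valuation x < 1) :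
    x⁻¹ ∉ V := by
  intro h
  rw [← ValuationSubring.valuation_le_one_iff, map_inv₀] at h
  have h0 : V.valuation x ≠ 0 := (Valuation.ne_zero_iff _).mpr hx0
  have h1 : (1 : _) ≤ V.valuation x := (inv_le_one₀ (zero_lt_iff.mpr h0)).mp h
  exact absurd hx (not_lt.mpr h1)

/-- The centre on `C` of a valuation subring `V` of `F` containing the image of `C`. -/
def tv55_center (V : ValuationSubring F) (hCV : ∀ c : C, algebraMap C F c ∈ V) : Ideal C where
  carrier := {c | V.valuation (algebraMap C F c) < 1}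
  add_mem' := by
    intro a b ha hb
    show V.valuation (algebraMap C F (a + b)) < 1
    rw [map_add]
    exact lt_of_le_of_lt (Valuation.map_add _ _ _) (max_lt ha hb)
  zero_mem' := by
    show V.valuation (algebraMap C F 0) < 1
    rw [map_zero, map_zero]
    exact zero_lt_one
  smul_mem' := by
    intro c a ha
    show V.valuation (algebraMap C F (c • a)) < 1
    rw [smul_eq_mul, map_mul, map_mul]
    have h1 : V.valuation (algebraMap C F c) ≤ 1 :=
      (ValuationSubring.valuation_le_one_iff V _).mpr (hCV c)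
    exact mul_lt_one_of_nonneg_of_lt_one_right h1 zero_le' ha

theorem tv55_mem_center (V : ValuationSubring F) (hCV : ∀ c : C, algebraMap C F c ∈ V) (c : C) :
    c ∈ tv55_center V hCV ↔ V.valuation (algebraMap C F c) < 1 :=
  Iff.rfl

theorem tv55_val_eq_one (V : ValuationSubring F) (hCV : ∀ c : C, algebraMap C F c ∈ V) (s : C)
    (hs : s ∉ tv55_center V hCV) : V.valuation (algebraMap C F s) = 1 := by
  rw [tv55_mem_center, not_lt] at hs
  exact le_antisymm ((ValuationSubring.valuation_le_one_iff V _).mpr (hCV s)) hs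

theorem tv55_center_isPrime (V : ValuationSubring F) (hCV : ∀ c : C, algebraMap C F c ∈ V) :
    (tv55_center V hCV).IsPrime := by
  refine ⟨?_, ?_⟩
  · intro h
    have h1 : (1 : C) ∈ tv55_center V hCV := by rw [h]; trivial
    rw [tv55_mem_center, map_one, map_one] at h1
    exact lt_irrefl _ h1
  · intro a b hab
    by_contra hcon
    rw [not_or] at hcon
    have ha := tv55_val_eq_one V hCV a hcon.1
    have hb := tv55_val_eq_one V hCV b hcon.2
    rw [tv55_mem_center, map_mul, map_mul, ha, hb, mul_one] at hab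
    exact lt_irrefl _ hab

/-- Fractions with denominator outside the centre lie in `V`. -/
theorem tv55_mem_of_frac (V : ValuationSubring F) (hCV : ∀ c : C, algebraMap C F c ∈ V) (y : F)
    (a s : C) (hs : s ∉ tv55_center V hCV)
    (h : y * algebraMap C F s = algebraMap C F a) : y ∈ V := by
  rw [← ValuationSubring.valuation_le_one_iff]
  have h1 := congrArg V.valuation h
  rw [map_mul, tv55_val_eq_one V hCV s hs, mul_one] at h1
  rw [h1]
  exact (ValuationSubring.valuation_le_one_iff V _).mpr (hCV a)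

/-- Over a Dedekind domain, `V` is the localisation at its centre. -/
theorem tv55_exists_frac [IsDomain C] [IsDedekindDomain C] [IsFractionRing C F]
    (V : ValuationSubring F) (hCV : ∀ c : C, algebraMap C F c ∈ V)
    (hP : tv55_center V hCV ≠ ⊥) (y : F) (hy : y ∈ V) :
    ∃ a s : C, s ∉ tv55_center V hCV ∧ y * algebraMap C F s = algebraMap C F a := by
  haveI := tv55_center_isPrime V hCV
  rcases tv55_dichotomy (tv55_center V hCV) hP y with h | ⟨a, s, ha, hs, has⟩
  · exact h
  · exfalso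
    apply hs
    rw [tv55_mem_center, ← has, map_mul]
    rw [tv55_mem_center] at ha
    exact mul_lt_one_of_nonneg_of_lt_one_right
      ((ValuationSubring.valuation_le_one_iff V _).mpr hy) zero_le' ha

end Center

section Inertia

/-- A `q`-th root, in the residue field of `P`, of an element of the residue field of `p` which
is not a `q`-th power there forces the inertia degree to be at least `q`. -/
theorem tv55_inertia_ge {R S : Type*} [CommRing R] [CommRing S] [Algebra R S] [Module.Finite R S]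
    (p : Ideal R) [p.IsMaximal] (P : Ideal S) [P.IsMaximal] [P.LiesOver p] (q : ℕ) (hq : q.Prime)
    (a : R) (hnp : ∀ c : R, c ^ q - a ∉ p) (c s : S) (hs : s ∉ P)
    (h : c ^ q - algebraMap R S a * s ^ q ∈ P) : q ≤ P.inertiaDeg R := by
  classical
  rw [Ideal.inertiaDeg_eq_of_isMaximal p P]
  letI : Field (R ⧸ p) := Ideal.Quotient.field p
  letI : Field (S ⧸ P) := Ideal.Quotient.field P
  have hs0 : Ideal.Quotient.mk P s ≠ 0 := by
    rwa [Ne, Ideal.Quotient.eq_zero_iff_mem]
  have hβ : (Ideal.Quotient.mk P c * (Ideal.Quotient.mk P s)⁻¹) ^ q =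
      algebraMap (R ⧸ p) (S ⧸ P) (Ideal.Quotient.mk p a) := by
    have h6 : Ideal.Quotient.mk P c ^ q =
        algebraMap (R ⧸ p) (S ⧸ P) (Ideal.Quotient.mk p a) * Ideal.Quotient.mk P s ^ q := by
      have h7 := (Ideal.Quotient.eq_zero_iff_mem).mpr h
      rw [map_sub, map_mul, map_pow, map_pow, sub_eq_zero] at h7
      rw [h7]
      rfl
    rw [mul_pow, h6, inv_pow, mul_assoc, mul_inv_cancel₀ (pow_ne_zero q hs0), mul_one]
  have hirr : Irreducible (X ^ q - Polynomial.C (Ideal.Quotient.mk p a) : (R ⧸ p)[X]) := by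
    apply X_pow_sub_C_irreducible_of_prime hq
    intro c' hc'
    obtain ⟨c0, rfl⟩ := Ideal.Quotient.mk_surjective c'
    apply hnp c0
    rw [← Ideal.Quotient.eq_zero_iff_mem, map_sub, map_pow, hc', sub_self]
  have hmin := minpoly.eq_of_irreducible_of_monic hirr
    (x := Ideal.Quotient.mk P c * (Ideal.Quotient.mk P s)⁻¹)
    (by rw [map_sub, aeval_X_pow, aeval_C, hβ, sub_self]) (monic_X_pow_sub_C _ hq.ne_zero)
  have hle := minpoly.natDegree_le (A := R ⧸ p)
    (Ideal.Quotient.mk P c * (Ideal.Quotient.mk P s)⁻¹)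
  rw [← hmin, natDegree_X_pow_sub_C] at hle
  exact hle

end Inertia

section Main

variable {F' F : Type*} [Field F'] [Field F] [Algebra F' F] [FiniteDimensional F' F]
  [Algebra.IsSeparable F' F]

/-- **Two valuation rings exhaust a degree `q + 1` extension.**  `V'` a discrete valuation ring
of `F'` with uniformiser `π`; `V₁ ≠ V₂` valuation subrings of `F` above `V'`; the residue field of
`V₂` contains a `q`-th root `b` of an element `a` of `V'` which is not a `q`-th power modulo `π`;
`[F : F'] ≤ q + 1`.  Then every element of `V₁ ⊓ V₂` is integral over `V'`. -/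
theorem tv55_integral_of_two
    (V' : ValuationSubring F') (π : F') (hπ : π ∈ V') (hπ' : π⁻¹ ∉ V')
    (hmax : ∀ x ∈ V', x⁻¹ ∉ V' → π⁻¹ * x ∈ V')
    (harch : ∀ x ∈ V', x ≠ 0 → ∃ n : ℕ, (π ^ n)⁻¹ * x ∉ V')
    (q : ℕ) (hq : q.Prime) (hdeg : Module.finrank F' F ≤ q + 1)
    (V₁ V₂ : ValuationSubring F)
    (h₁ : ∀ x ∈ V', algebraMap F' F x ∈ V₁) (h₂ : ∀ x ∈ V', algebraMap F' F x ∈ V₂)
    (hπ₁ : (algebraMap F' F π)⁻¹ ∉ V₁) (hπ₂ : (algebraMap F' F π)⁻¹ ∉ V₂)
    (hne : ∃ y ∈ V₁, y ∉ V₂)
    (a : F') (ha : a ∈ V') (b : F) (hb : b ∈ V₂)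
    (hab : (algebraMap F' F π)⁻¹ * (b ^ q - algebraMap F' F a) ∈ V₂)
    (hnp : ∀ c ∈ V', π⁻¹ * (c ^ q - a) ∉ V')
    (x : F) (hx₁ : x ∈ V₁) (hx₂ : x ∈ V₂) :
    ((algebraMap F' F).comp V'.subtype).IsIntegralElem x := by
  classical
  have hπ0 : π ≠ 0 := by
    rintro rfl
    apply hπ'
    rw [inv_zero]
    exact V'.zero_mem
  have hπF0 : algebraMap F' F π ≠ 0 := (_root_.map_ne_zero _).mpr hπ0
  haveI : IsDiscreteValuationRing V' := tv55_isDVR V' π hπ hπ' hmax harch
  letI : Algebra V' F := ((algebraMap F' F).comp V'.subtype).toAlgebra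
  haveI : IsScalarTower V' F' F := IsScalarTower.of_algebraMap_eq (fun _ => rfl)
  let D := integralClosure V' F
  haveI : IsDedekindDomain D := integralClosure.isDedekindDomain V' F' F
  haveI : Module.Finite V' D := IsIntegralClosure.finite V' F' F D
  haveI : IsFractionRing D F := integralClosure.isFractionRing_of_finite_extension F' F
  haveI : FaithfulSMul V' F := (faithfulSMul_iff_algebraMap_injective V' F).mpr
    ((algebraMap F' F).injective.comp Subtype.val_injective)
  haveI : Module.IsTorsionFree V' D := IsIntegralClosure.isTorsionFree V' F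
  haveI : Module.Flat V' D := inferInstance
  let p := IsLocalRing.maximalIdeal V'
  letI : Fintype (p.primesOver D) := Fintype.ofFinite _
  have hsum := Ideal.sum_ramification_inertia_eq_finrank p D
  rw [← IsFractionRing.finrank_eq V' F' D F] at hsum
  -- `D ⊆ V_i`
  have hint : ∀ V : ValuationSubring F, (∀ x ∈ V', algebraMap F' F x ∈ V) →
      ∀ c : D, algebraMap D F c ∈ V := by
    intro V hV c
    have hc : IsIntegral V' (algebraMap D F c) := c.2
    let g : V' →+* V :=
      ((algebraMap F' F).comp V'.subtype).codRestrict V.toSubring (fun x => hV x x.2)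
    letI : Algebra V' V := g.toAlgebra
    haveI : IsScalarTower V' V F := IsScalarTower.of_algebraMap_eq (fun _ => rfl)
    have hc' : IsIntegral V (algebraMap D F c) := hc.tower_top
    obtain ⟨y, hy⟩ := IsIntegrallyClosed.isIntegral_iff.mp hc'
    rw [← hy]
    exact y.2
  have hC₁ := hint V₁ h₁
  have hC₂ := hint V₂ h₂
  haveI hP₁p : (tv55_center V₁ hC₁).IsPrime := tv55_center_isPrime V₁ hC₁
  haveI hP₂p : (tv55_center V₂ hC₂).IsPrime := tv55_center_isPrime V₂ hC₂
  -- `π` lies in both centres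
  have hπC0 : algebraMap V' D ⟨π, hπ⟩ ≠ 0 := by
    intro h0
    apply hπF0
    have := congrArg (algebraMap D F) h0
    rw [map_zero] at this
    exact this
  have hπP₁ : algebraMap V' D ⟨π, hπ⟩ ∈ tv55_center V₁ hC₁ := tv55_val_lt_one V₁ _ hπ₁
  have hπP₂ : algebraMap V' D ⟨π, hπ⟩ ∈ tv55_center V₂ hC₂ := tv55_val_lt_one V₂ _ hπ₂
  have hP₁0 : tv55_center V₁ hC₁ ≠ ⊥ := by
    intro h
    rw [h, Ideal.mem_bot] at hπP₁
    exact hπC0 hπP₁
  have hP₂0 : tv55_center V₂ hC₂ ≠ ⊥ := by
    intro h
    rw [h, Ideal.mem_bot] at hπP₂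
    exact hπC0 hπP₂
  haveI hP₁m : (tv55_center V₁ hC₁).IsMaximal := Ideal.IsPrime.isMaximal hP₁p hP₁0
  haveI hP₂m : (tv55_center V₂ hC₂).IsMaximal := Ideal.IsPrime.isMaximal hP₂p hP₂0
  have hover : ∀ (P : Ideal D) [P.IsMaximal], P.LiesOver p := by
    intro P _
    haveI : (P.under V').IsMaximal := Ideal.IsMaximal.under V' P
    exact ⟨(IsLocalRing.eq_maximalIdeal ‹(P.under V').IsMaximal›).symm⟩
  haveI hP₁o : (tv55_center V₁ hC₁).LiesOver p := hover _
  haveI hP₂o : (tv55_center V₂ hC₂).LiesOver p := hover _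
  -- the centres are distinct
  have hP₁₂ : tv55_center V₁ hC₁ ≠ tv55_center V₂ hC₂ := by
    intro heq
    obtain ⟨y, hy1, hy2⟩ := hne
    obtain ⟨a', s, hs, has⟩ := tv55_exists_frac V₁ hC₁ hP₁0 y hy1
    apply hy2
    rw [heq] at hs
    exact tv55_mem_of_frac V₂ hC₂ y a' s hs has
  -- the inertia degree of the second centre is at least `q`
  have hf₂ : q ≤ (tv55_center V₂ hC₂).inertiaDeg V' := by
    obtain ⟨c, s, hs, hcs⟩ := tv55_exists_frac V₂ hC₂ hP₂0 b hb
    refine tv55_inertia_ge p (tv55_center V₂ hC₂) q hq ⟨a, ha⟩ ?_ c s hs ?_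
    · intro c0 h8
      apply hnp c0 c0.2
      have h9 : ¬ IsUnit (c0 ^ q - ⟨a, ha⟩ : V') := (IsLocalRing.mem_maximalIdeal _).mp h8
      by_cases h10 : ((c0 : F') ^ q - a) = 0
      · rw [h10, mul_zero]
        exact V'.zero_mem
      · apply hmax _ (sub_mem (pow_mem c0.2 q) ha)
        intro h11
        exact h9 (tv55_isUnit_of_inv_mem V' (c0 ^ q - ⟨a, ha⟩) h10 h11)
    · rw [tv55_mem_center]
      have h1 : algebraMap D F (c ^ q - algebraMap V' D ⟨a, ha⟩ * s ^ q) =
          algebraMap F' F π * ((algebraMap F' F π)⁻¹ * (b ^ q - algebraMap F' F a)) *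
            (algebraMap D F s) ^ q := by
        have h2 : algebraMap D F (algebraMap V' D ⟨a, ha⟩) = algebraMap F' F a := rfl
        rw [map_sub, map_mul, map_pow, map_pow, ← hcs, h2, ← mul_assoc,
          mul_inv_cancel₀ hπF0, one_mul]
        ring
      rw [h1, map_mul, map_mul]
      have h3 : V₂.valuation (algebraMap F' F π) < 1 := tv55_val_lt_one V₂ _ hπ₂
      have h4 : V₂.valuation ((algebraMap F' F π)⁻¹ * (b ^ q - algebraMap F' F a)) ≤ 1 :=
        (ValuationSubring.valuation_le_one_iff V₂ _).mpr hab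
      have h5 : V₂.valuation (algebraMap D F s ^ q) ≤ 1 :=
        (ValuationSubring.valuation_le_one_iff V₂ _).mpr (pow_mem (hC₂ s) q)
      calc V₂.valuation (algebraMap F' F π) *
            V₂.valuation ((algebraMap F' F π)⁻¹ * (b ^ q - algebraMap F' F a)) *
            V₂.valuation (algebraMap D F s ^ q)
          ≤ V₂.valuation (algebraMap F' F π) * 1 * 1 := by gcongr
        _ < 1 := by rw [mul_one, mul_one]; exact h3
  -- there is no third prime above `p`
  have hcount : ∀ (P : Ideal D) [P.IsMaximal],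
      P = tv55_center V₁ hC₁ ∨ P = tv55_center V₂ hC₂ := by
    intro P _
    haveI : P.LiesOver p := hover P
    by_contra hcon
    rw [not_or] at hcon
    let e₁ : p.primesOver D := ⟨tv55_center V₁ hC₁, ⟨inferInstance, inferInstance⟩⟩
    let e₂ : p.primesOver D := ⟨tv55_center V₂ hC₂, ⟨inferInstance, inferInstance⟩⟩
    let e₃ : p.primesOver D := ⟨P, ⟨inferInstance, inferInstance⟩⟩
    have h12 : e₁ ≠ e₂ := fun h => hP₁₂ (congrArg Subtype.val h)
    have h31 : e₃ ≠ e₁ := fun h => hcon.1 (congrArg Subtype.val h)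
    have h32 : e₃ ≠ e₂ := fun h => hcon.2 (congrArg Subtype.val h)
    have hle := Finset.sum_le_sum_of_subset
      (f := fun Q : p.primesOver D => Q.1.ramificationIdx V' * Q.1.inertiaDeg V')
      (Finset.subset_univ ({e₃, e₁, e₂} : Finset (p.primesOver D)))
    rw [hsum, Finset.sum_insert (by simp [h31, h32]), Finset.sum_insert (by simp [h12]),
      Finset.sum_singleton] at hle
    have t1 : 1 ≤ e₁.1.ramificationIdx V' * e₁.1.inertiaDeg V' :=
      Nat.mul_pos (Ideal.ramificationIdx_pos _ _) (Ideal.inertiaDeg_pos _ _)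
    have t2 : q ≤ e₂.1.ramificationIdx V' * e₂.1.inertiaDeg V' :=
      le_trans hf₂ (Nat.le_mul_of_pos_left _ (Ideal.ramificationIdx_pos _ _))
    have t3 : 1 ≤ e₃.1.ramificationIdx V' * e₃.1.inertiaDeg V' :=
      Nat.mul_pos (Ideal.ramificationIdx_pos _ _) (Ideal.inertiaDeg_pos _ _)
    omega
  -- conclusion: the denominator ideal of `x` is the unit ideal
  by_contra hx
  have hxC : x ∉ D := hx
  let I : Ideal D :=
    { carrier := {c | algebraMap D F c * x ∈ D}
      add_mem' := by
        intro c d hc hd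
        show algebraMap D F (c + d) * x ∈ D
        rw [map_add, add_mul]
        exact add_mem hc hd
      zero_mem' := by
        show algebraMap D F 0 * x ∈ D
        rw [map_zero, zero_mul]
        exact zero_mem D
      smul_mem' := by
        intro c d hd
        show algebraMap D F (c • d) * x ∈ D
        rw [smul_eq_mul, map_mul, mul_assoc]
        exact mul_mem c.2 hd }
  have hI : I ≠ ⊤ := by
    intro h
    have h1 : (1 : D) ∈ I := by rw [h]; trivial
    apply hxC
    have h2 : algebraMap D F 1 * x ∈ D := h1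
    rwa [map_one, one_mul] at h2
  obtain ⟨P, hPmax, hIP⟩ := Ideal.exists_le_maximal I hI
  haveI := hPmax
  rcases hcount P with h | h
  · obtain ⟨a', s, hs, has⟩ := tv55_exists_frac V₁ hC₁ hP₁0 x hx₁
    apply hs
    rw [← h]
    apply hIP
    show algebraMap D F s * x ∈ D
    rw [mul_comm, has]
    exact a'.2
  · obtain ⟨a', s, hs, has⟩ := tv55_exists_frac V₂ hC₂ hP₂0 x hx₂
    apply hs
    rw [← h]
    apply hIP
    show algebraMap D F s * x ∈ D
    rw [mul_comm, has]
    exact a'.2

end Main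

end Fermat.Agent.S34
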