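import Mathlib
import Fermat.Agent.S34.TwoVal55
import Fermat.Agent.S18.GaussPack55
import Fermat.Agent.S37.NormInst22
import Fermat.Agent.S37.Kronecker87

/-!
# S34 lab, package P1a, instance (helper55): the two Gauss valuations at level `M' * q`

`R` a discrete valuation ring with fraction field `K` of characteristic `0` and residue
characteristic `q`, `M'` prime to `q`.  On `F = modularFunctionFieldFullC K (M' * q)`:

* `V_∞ = c1g55_V R K (M' * q) hπ` (Gauss valuation of the `q`-expansion, level-free);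
* `V_0 = V_∞.comap w` for an Atkin–Lehner map `w` (`w ∘ α = β`, `w ∘ β = α`).

Both contain the Gauss ring `V' = c1g55_V R K M' hπ` of level `M'` and
`tv55_two_val` : every element of `V_∞ ⊓ V_0` is integral over `V'`
(so `V_∞`, `V_0` are the only valuation rings of `F` above `V'`).
-/

set_option autoImplicit false
set_option linter.style.haveILetI false
set_option linter.unusedSectionVars false

open ModularCurve IntermediateField

namespace Fermat.Agent.S34

open Fermat.Agent.S18 Fermat.Agent.S37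

section Arch

variable {R K κ : Type*} [CommRing R] [IsDomain R] [Field K] [Algebra R K] [IsFractionRing R K]
  [Field κ]
variable (res : R →+* κ) (π : R)

/-- If `π ^ m` divides `r • y` coefficientwise and `y` has nonzero reduction, then `π ^ m ∣ r`. -/
theorem tv55_pow_dvd (hres : ∀ r, res r = 0 ↔ π ∣ r) (hπ0 : π ≠ 0) (m : ℕ) :
    ∀ (r : R) (y z : LaurentSeries R), coeffMap res y ≠ 0 →
      HahnSeries.C r * y = HahnSeries.C (π ^ m) * z → π ^ m ∣ r := by
  induction m with
  | zero => intro r y z _ _; rw [pow_zero]; exact one_dvd r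
  | succ m ih =>
    intro r y z hy h
    have hπres : res π = 0 := (hres π).mpr dvd_rfl
    have h1 := congrArg (coeffMap res) h
    rw [map_mul, map_mul, gv85_coeffMap_C, gv85_coeffMap_C, map_pow, hπres, pow_succ, mul_zero,
      map_zero, zero_mul] at h1
    have h2 : (HahnSeries.C (res r) : LaurentSeries κ) = 0 :=
      (mul_eq_zero.mp h1).resolve_right hy
    have h3 : res r = 0 := by
      by_contra h3
      exact HahnSeries.C_ne_zero h3 h2
    obtain ⟨r₁, rfl⟩ := (hres r).mp h3
    have hC0 : (HahnSeries.C π : LaurentSeries R) ≠ 0 := HahnSeries.C_ne_zero hπ0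
    have h4 : HahnSeries.C r₁ * y = HahnSeries.C (π ^ m) * z := by
      apply mul_left_cancel₀ hC0
      rw [← mul_assoc, ← map_mul, h, pow_succ, map_mul]
      ring
    obtain ⟨u, hu⟩ := ih r₁ y z hy h4
    exact ⟨u, by rw [hu, pow_succ]; ring⟩

variable [ValuationRing R]

/-- **Archimedean property of the Gauss ring**: a nonzero element is not divisible by all powers
of `π`. -/
theorem tv55_gauss_arch (hres : ∀ r, res r = 0 ↔ π ∣ r) (hπ0 : π ≠ 0)
    (hfin : ∀ r : R, r ≠ 0 → ∃ n : ℕ, ¬ π ^ (n + 1) ∣ r)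
    (F : IntermediateField K (LaurentSeries K)) (hF : gv85_HF res F) (x : F) (hx0 : x ≠ 0) :
    ∃ n : ℕ, ((algebraMap K F (algebraMap R K π)) ^ n)⁻¹ * x ∉ gv85_V res F hF := by
  obtain ⟨a, b, c, hc, ha, hb, hab⟩ := hF x hx0
  obtain ⟨r, d, hd, rfl⟩ := IsFractionRing.div_surjective (A := R) c
  have hd0 : d ≠ 0 := nonZeroDivisors.ne_zero hd
  have hdK : algebraMap R K d ≠ 0 := IsFractionRing.to_map_ne_zero_of_mem_nonZeroDivisors hd
  have hr0 : r ≠ 0 := by
    rintro rfl
    rw [map_zero, zero_div] at hc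
    exact hc rfl
  have hπK : algebraMap R K π ≠ 0 := fun h =>
    hπ0 (IsFractionRing.injective R K (by rw [h, map_zero]))
  obtain ⟨n, hn⟩ := hfin r hr0
  refine ⟨n + 1, ?_⟩
  rintro ⟨s, t, hs, hst⟩
  apply hn
  refine tv55_pow_dvd res π hres hπ0 (n + 1) r (s * a) (HahnSeries.C d * t * b) ?_ ?_
  · rw [map_mul]
    exact mul_ne_zero hs ha
  · apply gv85_emb_injective (R := R) (K := K)
    have h1 : ((((algebraMap K F (algebraMap R K π)) ^ (n + 1))⁻¹ * x : F) : LaurentSeries K) =
        ((HahnSeries.C (algebraMap R K π)) ^ (n + 1))⁻¹ * (x : LaurentSeries K) := by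
      rw [← gv85_coe_algebraMap F]
      rfl
    rw [h1] at hst
    have hCπ : (HahnSeries.C (algebraMap R K π) : LaurentSeries K) ^ (n + 1) ≠ 0 :=
      pow_ne_zero _ (HahnSeries.C_ne_zero hπK)
    have hCd : (HahnSeries.C (algebraMap R K d) : LaurentSeries K) ≠ 0 := HahnSeries.C_ne_zero hdK
    have h2 : coeffMap (algebraMap R K) s * (x : LaurentSeries K) =
        (HahnSeries.C (algebraMap R K π)) ^ (n + 1) * coeffMap (algebraMap R K) t := by
      rw [← hst, ← mul_assoc, mul_comm _ (coeffMap (algebraMap R K) s), mul_assoc,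
        ← mul_assoc _ _ (x : LaurentSeries K), mul_inv_cancel₀ hCπ, one_mul]
    have h3 : HahnSeries.C (algebraMap R K d) * ((x : LaurentSeries K) *
        coeffMap (algebraMap R K) b) = HahnSeries.C (algebraMap R K r) *
          coeffMap (algebraMap R K) a := by
      rw [hab, ← mul_assoc, ← map_mul, mul_div_cancel₀ _ hdK]
    simp only [map_mul, map_pow, gv85_coeffMap_C]
    calc HahnSeries.C (algebraMap R K r) * (coeffMap (algebraMap R K) s *
          coeffMap (algebraMap R K) a)
        = coeffMap (algebraMap R K) s * (HahnSeries.C (algebraMap R K r) *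
          coeffMap (algebraMap R K) a) := by ring
      _ = coeffMap (algebraMap R K) s * (HahnSeries.C (algebraMap R K d) *
          ((x : LaurentSeries K) * coeffMap (algebraMap R K) b)) := by rw [h3]
      _ = HahnSeries.C (algebraMap R K d) * (coeffMap (algebraMap R K) s * (x : LaurentSeries K))
          * coeffMap (algebraMap R K) b := by ring
      _ = HahnSeries.C (algebraMap R K π) ^ (n + 1) * (HahnSeries.C (algebraMap R K d) *
          coeffMap (algebraMap R K) t * coeffMap (algebraMap R K) b) := by rw [h2]; ring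

end Arch

section Series

variable {κ : Type*} [Field κ]

theorem tv55_order_j : (jqModC κ).order = -1 := by
  have h1 : (jqModC κ).coeff (-1) = 1 := coeff_jqModC_neg_one κ
  have hne : jqModC κ ≠ 0 := jqModC_ne_zero_of_nontrivial κ
  apply le_antisymm
  · exact HahnSeries.order_le_of_coeff_ne_zero (by rw [h1]; exact one_ne_zero)
  · by_contra hlt
    rw [not_le] at hlt
    exact hne (HahnSeries.coeff_order_eq_zero.mp (coeff_jqModC_of_lt κ hlt))

/-- `j` is not a `q`-th power times a unit `q`-th power: `t ^ q = s ^ q * j` is impossible. -/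
theorem tv55_not_pow (q : ℕ) (hq : 2 ≤ q) (s t : LaurentSeries κ) (hs : s ≠ 0)
    (h : t ^ q = s ^ q * jqModC κ) : False := by
  have hj : jqModC κ ≠ 0 := jqModC_ne_zero_of_nontrivial κ
  have h1 := congrArg HahnSeries.order h
  rw [HahnSeries.order_pow, HahnSeries.order_mul (pow_ne_zero q hs) hj, HahnSeries.order_pow,
    tv55_order_j, nsmul_eq_mul, nsmul_eq_mul] at h1
  have h2 : (q : ℤ) * (s.order - t.order) = 1 := by rw [mul_sub, h1]; ring
  have h3 : (q : ℤ) ∣ 1 := Dvd.intro _ h2
  have h4 : (q : ℤ) ≤ 1 := Int.le_of_dvd one_pos h3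
  omega

/-- The coefficient of `q⁻¹` in `j(q^q)^q - j(q)` is `-1`. -/
theorem tv55_frob_ne (q : ℕ) [NeZero q] (hq : 2 ≤ q) :
    (qExpand κ q (jqModC κ)) ^ q - jqModC κ ≠ 0 := by
  intro h
  have h1 := congrArg (fun z : LaurentSeries κ => z.coeff (-1)) h
  simp only [HahnSeries.coeff_sub, HahnSeries.coeff_zero] at h1
  rw [← map_pow, qExpand_coeff_of_not_dvd q, coeff_jqModC_neg_one, zero_sub] at h1
  · exact one_ne_zero (neg_eq_zero.mp h1)
  · intro hdvd
    have h2 : (q : ℤ) ∣ 1 := (dvd_neg).mp hdvd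
    have h4 : (q : ℤ) ≤ 1 := Int.le_of_dvd one_pos h2
    omega

end Series

section Inst

variable (R K : Type) [CommRing R] [IsDomain R] [IsDiscreteValuationRing R] [Field K]
  [Algebra R K] [IsFractionRing R K] [CharZero K]
variable (M' q : ℕ) [NeZero M'] [NeZero q]

/-- Gauss membership is stable under `q ↦ q^n`. -/
theorem tv55_gauss_qExpand {κ : Type*} [Field κ] (res : R →+* κ) (n : ℕ) [NeZero n]
    (x : LaurentSeries K)
    (h : ∃ s t : LaurentSeries R, coeffMap res s ≠ 0 ∧
      coeffMap (algebraMap R K) s * x = coeffMap (algebraMap R K) t) :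
    ∃ s t : LaurentSeries R, coeffMap res s ≠ 0 ∧
      coeffMap (algebraMap R K) s * qExpand K n x = coeffMap (algebraMap R K) t := by
  obtain ⟨s, t, hs, hst⟩ := h
  refine ⟨qExpand R n s, qExpand R n t, ?_, ?_⟩
  · rw [coeffMap_qExpand]
    intro h0
    apply hs
    apply qExpand_injective (R := κ) n
    rw [h0, map_zero]
  · rw [coeffMap_qExpand, coeffMap_qExpand, ← map_mul, hst]

set_option maxHeartbeats 1600000 in
/-- Generic form of `tv55_two_val` for two nested fields of Laurent series. -/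
theorem tv55_two_val_aux {π : R} (hπ : Irreducible π) (hq : q.Prime) (hπq : π ∣ (q : R))
    (E E' : IntermediateField K (LaurentSeries K)) (hle : E ≤ E')
    (hE : gv85_HF (IsLocalRing.residue R) E) (hE' : gv85_HF (IsLocalRing.residue R) E')
    (hj : jqModC K ∈ E) (hjβ : qExpand K q (jqModC K) ∈ E')
    (hfd : @Module.Finite ↥E ↥E' _ _ (ni22_algebra hle).toModule)
    (hdeg : @Module.finrank ↥E ↥E' _ _ (ni22_algebra hle).toModule ≤ q + 1)
    (w : ↥E' →ₐ[K] ↥E')
    (hw1 : ∀ (x : ↥E) (y : ↥E'), (y : LaurentSeries K) = (x : LaurentSeries K) →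
      ((w y : ↥E') : LaurentSeries K) = qExpand K q (x : LaurentSeries K))
    (hw2 : ∀ (x : ↥E) (y : ↥E'), (y : LaurentSeries K) = qExpand K q (x : LaurentSeries K) →
      ((w y : ↥E') : LaurentSeries K) = (x : LaurentSeries K))
    (x : ↥E')
    (hx1 : x ∈ gv85_V (IsLocalRing.residue R) E' hE')
    (hx2 : w x ∈ gv85_V (IsLocalRing.residue R) E' hE') :
    ((IntermediateField.inclusion hle).toRingHom.comp
      (gv85_V (IsLocalRing.residue R) E hE).subtype).IsIntegralElem x := by
  classical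
  letI : Algebra ↥E ↥E' := ni22_algebra hle
  haveI : FiniteDimensional ↥E ↥E' := hfd
  haveI : CharZero ↥E := charZero_of_injective_algebraMap (algebraMap K ↥E).injective
  haveI : Algebra.IsSeparable ↥E ↥E' := inferInstance
  have hres := c1g55_hres hπ
  have hπ0 : π ≠ 0 := hπ.ne_zero
  have hfin := c1g55_hfin hπ
  -- residue characteristic
  haveI : Fact q.Prime := ⟨hq⟩
  haveI : CharP (IsLocalRing.ResidueField R) q := by
    apply (CharP.charP_iff_prime_eq_zero hq).mpr
    have h0 := (hres (q : R)).mpr hπq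
    rwa [map_natCast] at h0
  -- the integral series
  have hZ : coeffMap (IsLocalRing.residue R) (jqModC R ^ q - qExpand R q (jqModC R)) = 0 := by
    rw [map_sub, map_pow, coeffMap_qExpand, coeffMap_jqModC]
    have := kc87_jqModC_pow_char (IsLocalRing.ResidueField R) q
    rw [sub_eq_zero]
    exact this
  have hZ' : coeffMap (IsLocalRing.residue R) ((qExpand R q (jqModC R)) ^ q - jqModC R) ≠ 0 := by
    rw [map_sub, map_pow, coeffMap_qExpand, coeffMap_jqModC]
    exact tv55_frob_ne q hq.two_le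
  -- the elements
  let jα : ↥E' := ⟨jqModC K, hle hj⟩
  let jβ : ↥E' := ⟨qExpand K q (jqModC K), hjβ⟩
  let j' : ↥E := ⟨jqModC K, hj⟩
  have hwα : ((w jα : ↥E') : LaurentSeries K) = qExpand K q (jqModC K) := hw1 j' jα rfl
  have hwβ : ((w jβ : ↥E') : LaurentSeries K) = jqModC K := hw2 j' jβ rfl
  have hwπ : w ((algebraMap K ↥E' (algebraMap R K π))⁻¹) =
      (algebraMap K ↥E' (algebraMap R K π))⁻¹ := by
    rw [map_inv₀, AlgHom.commutes]
  have hinclπ : algebraMap ↥E ↥E' (algebraMap K ↥E (algebraMap R K π)) =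
      algebraMap K ↥E' (algebraMap R K π) := rfl
  have hinclj : algebraMap ↥E ↥E' j' = jα := rfl
  -- `π⁻¹ (jα ^ q - jβ) ∈ V_∞`
  have hy1 : (algebraMap K ↥E' (algebraMap R K π))⁻¹ * (jα ^ q - jβ) ∈
      gv85_V (IsLocalRing.residue R) E' hE' := by
    refine (gv85_gauss (IsLocalRing.residue R) π hres hπ0 E' hE' (jα ^ q - jβ)
      (jqModC R ^ q - qExpand R q (jqModC R)) ?_).mpr hZ
    rw [map_sub, map_pow, coeffMap_qExpand, coeffMap_jqModC]
    rfl
  -- `π⁻¹ (jβ ^ q - jα) ∉ V_∞`
  have hy2 : (algebraMap K ↥E' (algebraMap R K π))⁻¹ * (jβ ^ q - jα) ∉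
      gv85_V (IsLocalRing.residue R) E' hE' := by
    intro hmem
    refine hZ' ((gv85_gauss (IsLocalRing.residue R) π hres hπ0 E' hE' (jβ ^ q - jα)
      ((qExpand R q (jqModC R)) ^ q - jqModC R) ?_).mp hmem)
    rw [map_sub, map_pow, coeffMap_qExpand, coeffMap_jqModC]
    rfl
  have hwy1 : w ((algebraMap K ↥E' (algebraMap R K π))⁻¹ * (jα ^ q - jβ)) =
      (algebraMap K ↥E' (algebraMap R K π))⁻¹ * (jβ ^ q - jα) := by
    rw [map_mul, hwπ, map_sub, map_pow]
    congr 1
    apply Subtype.ext
    show ((w jα : ↥E') : LaurentSeries K) ^ q - ((w jβ : ↥E') : LaurentSeries K) = _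
    rw [hwα, hwβ]
    rfl
  have hwy2 : w ((algebraMap K ↥E' (algebraMap R K π))⁻¹ * (jβ ^ q - jα)) =
      (algebraMap K ↥E' (algebraMap R K π))⁻¹ * (jα ^ q - jβ) := by
    rw [map_mul, hwπ, map_sub, map_pow]
    congr 1
    apply Subtype.ext
    show ((w jβ : ↥E') : LaurentSeries K) ^ q - ((w jα : ↥E') : LaurentSeries K) = _
    rw [hwα, hwβ]
    rfl
  -- the hypotheses of the abstract theorem
  have A1 : algebraMap K ↥E (algebraMap R K π) ∈ gv85_V (IsLocalRing.residue R) E hE := by
    refine gv85_mem_V_of_integral (IsLocalRing.residue R) E hE _ (HahnSeries.C π) ?_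
    rw [gv85_coe_algebraMap, gv85_coeffMap_C]
  have A2 : (algebraMap K ↥E (algebraMap R K π))⁻¹ ∉ gv85_V (IsLocalRing.residue R) E hE :=
    gv85_pi_inv_not_mem (IsLocalRing.residue R) π hres hπ0 E hE
  have A3 : ∀ y ∈ gv85_V (IsLocalRing.residue R) E hE,
      y⁻¹ ∉ gv85_V (IsLocalRing.residue R) E hE →
      (algebraMap K ↥E (algebraMap R K π))⁻¹ * y ∈ gv85_V (IsLocalRing.residue R) E hE :=
    fun y hy hy' => gv85_hmax (IsLocalRing.residue R) π hres hπ0 E hE y hy hy'
  have A4 : ∀ y ∈ gv85_V (IsLocalRing.residue R) E hE, y ≠ 0 → ∃ n : ℕ,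
      ((algebraMap K ↥E (algebraMap R K π)) ^ n)⁻¹ * y ∉ gv85_V (IsLocalRing.residue R) E hE :=
    fun y _ hy0 => tv55_gauss_arch (IsLocalRing.residue R) π hres hπ0 hfin E hE y hy0
  have B1 : ∀ y ∈ gv85_V (IsLocalRing.residue R) E hE,
      algebraMap ↥E ↥E' y ∈ gv85_V (IsLocalRing.residue R) E' hE' := fun y hy => hy
  have B2 : ∀ y ∈ gv85_V (IsLocalRing.residue R) E hE,
      algebraMap ↥E ↥E' y ∈ (gv85_V (IsLocalRing.residue R) E' hE').comap (w : ↥E' →+* ↥E') := by
    intro y hy
    rw [ValuationSubring.mem_comap]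
    have h1 := hw1 y (algebraMap ↥E ↥E' y) rfl
    have h2 := tv55_gauss_qExpand R K (IsLocalRing.residue R) q (y : LaurentSeries K) hy
    rw [← h1] at h2
    exact h2
  have B3 : (algebraMap ↥E ↥E' (algebraMap K ↥E (algebraMap R K π)))⁻¹ ∉
      gv85_V (IsLocalRing.residue R) E' hE' := by
    rw [hinclπ]
    exact gv85_pi_inv_not_mem (IsLocalRing.residue R) π hres hπ0 E' hE'
  have B4 : (algebraMap ↥E ↥E' (algebraMap K ↥E (algebraMap R K π)))⁻¹ ∉
      (gv85_V (IsLocalRing.residue R) E' hE').comap (w : ↥E' →+* ↥E') := by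
    rw [hinclπ, ValuationSubring.mem_comap]
    show w ((algebraMap K ↥E' (algebraMap R K π))⁻¹) ∉ _
    rw [hwπ]
    exact gv85_pi_inv_not_mem (IsLocalRing.residue R) π hres hπ0 E' hE'
  have B5 : ∃ y ∈ gv85_V (IsLocalRing.residue R) E' hE',
      y ∉ (gv85_V (IsLocalRing.residue R) E' hE').comap (w : ↥E' →+* ↥E') := by
    refine ⟨_, hy1, ?_⟩
    rw [ValuationSubring.mem_comap]
    show w ((algebraMap K ↥E' (algebraMap R K π))⁻¹ * (jα ^ q - jβ)) ∉ _
    rw [hwy1]
    exact hy2
  have C1 : j' ∈ gv85_V (IsLocalRing.residue R) E hE :=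
    gv85_mem_V_of_integral (IsLocalRing.residue R) E hE j' (jqModC R) (coeffMap_jqModC _).symm
  have C2 : jβ ∈ (gv85_V (IsLocalRing.residue R) E' hE').comap (w : ↥E' →+* ↥E') := by
    rw [ValuationSubring.mem_comap]
    exact gv85_mem_V_of_integral (IsLocalRing.residue R) E' hE' (w jβ) (jqModC R)
      (by rw [coeffMap_jqModC]; exact hwβ)
  have C3 : (algebraMap ↥E ↥E' (algebraMap K ↥E (algebraMap R K π)))⁻¹ *
      (jβ ^ q - algebraMap ↥E ↥E' j') ∈
      (gv85_V (IsLocalRing.residue R) E' hE').comap (w : ↥E' →+* ↥E') := by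
    rw [hinclπ, hinclj, ValuationSubring.mem_comap]
    show w ((algebraMap K ↥E' (algebraMap R K π))⁻¹ * (jβ ^ q - jα)) ∈ _
    rw [hwy2]
    exact hy1
  have C4 : ∀ c ∈ gv85_V (IsLocalRing.residue R) E hE,
      (algebraMap K ↥E (algebraMap R K π))⁻¹ * (c ^ q - j') ∉
        gv85_V (IsLocalRing.residue R) E hE := by
    rintro c ⟨s, t, hs, hst⟩ ⟨s', t', hs', hst'⟩
    have hπK : algebraMap R K π ≠ 0 := fun h =>
      hπ0 (IsFractionRing.injective R K (by rw [h, map_zero]))
    have hCπ : (HahnSeries.C (algebraMap R K π) : LaurentSeries K) ≠ 0 :=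
      HahnSeries.C_ne_zero hπK
    have e1 : ((((algebraMap K ↥E (algebraMap R K π))⁻¹ * (c ^ q - j') : ↥E) : ↥E) :
        LaurentSeries K) =
        (HahnSeries.C (algebraMap R K π))⁻¹ * ((c : LaurentSeries K) ^ q - jqModC K) := by
      rw [gv85_coe_inv_mul]
      rfl
    rw [e1] at hst'
    have h2 : coeffMap (algebraMap R K) s' * ((c : LaurentSeries K) ^ q - jqModC K) =
        HahnSeries.C (algebraMap R K π) * coeffMap (algebraMap R K) t' := by
      rw [← hst']
      field_simp
    have h3 : coeffMap (algebraMap R K) (s' * (t ^ q - s ^ q * jqModC R)) =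
        coeffMap (algebraMap R K) (HahnSeries.C π * (s ^ q * t')) := by
      simp only [map_mul, map_sub, map_pow, gv85_coeffMap_C, coeffMap_jqModC]
      rw [← hst]
      calc coeffMap (algebraMap R K) s' * ((coeffMap (algebraMap R K) s * (c : LaurentSeries K)) ^ q
            - coeffMap (algebraMap R K) s ^ q * jqModC K)
          = coeffMap (algebraMap R K) s ^ q * (coeffMap (algebraMap R K) s' *
            ((c : LaurentSeries K) ^ q - jqModC K)) := by ring
        _ = HahnSeries.C (algebraMap R K π) * (coeffMap (algebraMap R K) s ^ q *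
            coeffMap (algebraMap R K) t') := by rw [h2]; ring
    have h4 := gv85_emb_injective h3
    have h5 := congrArg (coeffMap (IsLocalRing.residue R)) h4
    have hπres : IsLocalRing.residue R π = 0 := (hres π).mpr dvd_rfl
    simp only [map_mul, map_sub, map_pow, gv85_coeffMap_C, coeffMap_jqModC, hπres, map_zero,
      zero_mul] at h5
    have h6 := (mul_eq_zero.mp h5).resolve_left hs'
    exact tv55_not_pow q hq.two_le _ _ hs (sub_eq_zero.mp h6)
  exact tv55_integral_of_two (gv85_V (IsLocalRing.residue R) E hE)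
    (algebraMap K ↥E (algebraMap R K π)) A1 A2 A3 A4 q hq hdeg
    (gv85_V (IsLocalRing.residue R) E' hE')
    ((gv85_V (IsLocalRing.residue R) E' hE').comap (w : ↥E' →+* ↥E'))
    B1 B2 B3 B4 B5 j' C1 jβ C2 C3 C4 x hx1 hx2

/-- **The two Gauss valuations at level `M' * q` are the only valuation rings above the Gauss
valuation of level `M'`**: an element of `V_∞ ⊓ V_0` (`V_0 = w⁻¹ V_∞`) is integral over `V'`. -/
theorem tv55_two_val {π : R} (hπ : Irreducible π) (hq : q.Prime) (hqM : ¬ q ∣ M')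
    (hπq : π ∣ (q : R))
    (w : ↥(modularFunctionFieldFullC K (M' * q)) →ₐ[K] ↥(modularFunctionFieldFullC K (M' * q)))
    (hw1 : ∀ (x : ↥(modularFunctionFieldFullC K M'))
      (y : ↥(modularFunctionFieldFullC K (M' * q))),
      (y : LaurentSeries K) = (x : LaurentSeries K) →
      ((w y : ↥(modularFunctionFieldFullC K (M' * q))) : LaurentSeries K) =
        qExpand K q (x : LaurentSeries K))
    (hw2 : ∀ (x : ↥(modularFunctionFieldFullC K M'))
      (y : ↥(modularFunctionFieldFullC K (M' * q))),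
      (y : LaurentSeries K) = qExpand K q (x : LaurentSeries K) →
      ((w y : ↥(modularFunctionFieldFullC K (M' * q))) : LaurentSeries K) =
        (x : LaurentSeries K))
    (x : ↥(modularFunctionFieldFullC K (M' * q)))
    (hx1 : x ∈ c1g55_V R K (M' * q) hπ) (hx2 : w x ∈ c1g55_V R K (M' * q) hπ) :
    ((IntermediateField.inclusion (full_degeneracyC_le K (dvd_mul_right M' q))).toRingHom.comp
      (c1g55_V R K M' hπ).subtype).IsIntegralElem x := by
  have hle : modularFunctionFieldFullC K M' ≤ modularFunctionFieldFullC K (M' * q) :=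
    full_degeneracyC_le K (dvd_mul_right M' q)
  have hMK : ((M' * q : ℕ) : K) ≠ 0 := Nat.cast_ne_zero.mpr (NeZero.ne _)
  have hfd := ni22_finiteDimensional_fullC K (dvd_mul_right M' q) hMK
  have hdeg : @Module.finrank ↥(modularFunctionFieldFullC K M')
      ↥(modularFunctionFieldFullC K (M' * q)) _ _ (ni22_algebra hle).toModule ≤ q + 1 := by
    have h0 := ni22_finrank_eq_relfinrank hle
    have h1 := ni22_relfinrank K (dvd_mul_right M' q) hMK
    have hcop : Nat.Coprime M' q := ((Nat.Prime.coprime_iff_not_dvd hq).mpr hqM).symm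
    rw [Fermat.Agent.Lib.G0C.dedekindPsi_mul hcop] at h1
    have h2 := Fermat.Agent.Lib.G0C.dedekindPsi_prime_pow hq (e := 1) one_pos
    have h3 : dedekindPsi q = q + 1 := by simpa using h2
    rw [h3] at h1
    exact le_of_eq (h0.trans (Nat.eq_of_mul_eq_mul_left (ni22_psi_pos M') h1))
  exact tv55_two_val_aux R K q hπ hq hπq (modularFunctionFieldFullC K M')
    (modularFunctionFieldFullC K (M' * q)) hle (c1g55_HF R K M' hπ) (c1g55_HF R K (M' * q) hπ)
    (jqModC_mem_full K M') (jqModCd_mem_full K (M' * q) (dvd_mul_left q M')) hfd hdeg w hw1 hw2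
    x hx1 hx2

end Inst

end Fermat.Agent.S34
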