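import Mathlib
import Fermat.Agent.S34.TwoValInst55
import Fermat.Agent.S34.Iface47c
import Fermat.Agent.S34.ChartM15b

/-!
# S34 lab, package P1a, literal binding (helper55)

`tv55_WInt` : `cm15_WInt R K M' (M' * q) (dvd_mul_right M' q) hπ (s34i47c_W M' q hq hM' hπ)`,
i.e. every element of the canonical ring `W = V_∞ ⊓ V_0` of `F_K(M' q)` is integral over the Gauss
valuation ring `cm85_Vinf M' hπ` of the good level `M'` — the hypothesis `hWint` of
`cm15_sat_level2/3` (saturation of the charts in `W`).  Residue characteristic `q` enters as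
`π ∣ q` (`tv55_WInt`) or `¬ IsUnit (q : R)` (`tv55_WInt'`).
-/

set_option autoImplicit false
set_option linter.style.haveILetI false

open ModularCurve

namespace Fermat.Agent.S34

open Fermat.Agent.S18

local notation "Q̄" => AlgebraicClosure ℚ

section Bind

variable {R K : Type} [CommRing R] [IsDomain R] [IsDiscreteValuationRing R] [Field K]
  [Algebra R K] [IsFractionRing R K] [Algebra K Q̄]
  (M' q : ℕ) [NeZero M'] [NeZero q] (hq : q.Prime) (hM' : ¬ q ∣ M')

/-- **P1a, literal**: the canonical `W = V_∞ ⊓ V_0` at level `M' * q` is integral over the Gauss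
ring of level `M'`. -/
theorem tv55_WInt {π : R} (hπ : Irreducible π) (hπq : π ∣ (q : R)) :
    cm15_WInt R K M' (M' * q) (dvd_mul_right M' q) hπ (s34i47c_W M' q hq hM' hπ) := by
  intro y hy
  rw [s34i47c_mem_W] at hy
  haveI : CharZero K := RingHom.charZero (algebraMap K Q̄)
  exact tv55_two_val R K M' q hπ hq hM' hπq
    ((al97L_w (algebraMap K Q̄) M' q hq hM' :
      ↥(modularFunctionFieldFullC K (M' * q)) ≃ₐ[K] ↥(modularFunctionFieldFullC K (M' * q))) :
      ↥(modularFunctionFieldFullC K (M' * q)) →ₐ[K] ↥(modularFunctionFieldFullC K (M' * q)))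
    (al97L_w_alpha (algebraMap K Q̄) M' q hq hM') (al97L_w_beta (algebraMap K Q̄) M' q hq hM')
    y hy.1 hy.2

/-- The same with the residue characteristic in the form used by `s34i47c_FrameSat`. -/
theorem tv55_WInt' {π : R} (hπ : Irreducible π) (hqR : ¬ IsUnit (q : R)) :
    cm15_WInt R K M' (M' * q) (dvd_mul_right M' q) hπ (s34i47c_W M' q hq hM' hπ) := by
  refine tv55_WInt M' q hq hM' hπ ?_
  have h1 : (q : R) ∈ IsLocalRing.maximalIdeal R := (IsLocalRing.mem_maximalIdeal _).mpr hqR
  rwa [hπ.maximalIdeal_eq, Ideal.mem_span_singleton] at h1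

end Bind

end Fermat.Agent.S34
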