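import Fermat.Agent.S34.AtkinLehnerL97
import Fermat.Agent.S34.ChartM85
import Fermat.Agent.S37.Kronecker87
import Fermat.Agent.S18.SepLaurent
import Fermat.Agent.S42.GaloisK1_41

/-!
# S34 lab, package P1a (helper84, instance twin): `V_∞ ⊓ V_0` is a free `V'`-module

Level `M = M' q` (`q` prime, `q ∤ M'`), `R` a discrete valuation ring of residue characteristic `q`
with fraction field `K` of characteristic zero, `F = F(M)_K`, `E = F(M')_K ⊆ F` (inclusion of
`Q`-expansions), `V' ⊆ E` and `V_∞ ⊆ F` the Gauss valuation rings of the `Q`-expansion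
(`cm85_Vinf`), `w` the Atkin–Lehner involution of `F` (`al97L_w`), `V_0 = w⁻¹ V_∞`
(`tv84_V0`), `y = j(Q^q)`.

Main results:

* `tv84_G`, `tv84_red` : the ring of Gauss-integral Laurent series `G ⊆ K((Q))` (level-free) and
  its reduction homomorphism `G → κ((Q))`, with kernel `π G` (`tv84_red_eq_zero_iff`);
* `tv84_core_series` : the two-reduction lemma in `κ((Q))`;
* `tv84_linearIndependent`, `tv84_span` : `1, y, …, y^q` is an `E`-basis of `F`;
* `tv84_main` : every `x ∈ V_∞ ⊓ V_0` is `∑_{i ≤ q} c_i y^i` with `c_i ∈ V'`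
  (so `V_∞ ⊓ V_0 = ⊕ V' y^i`);
* `tv84_integral` : every `x ∈ V_∞ ⊓ V_0` is integral over `V'`.

No fundamental inequality, no residue fields: only the `Q`-expansion, the congruence
`j(Q^q) ≡ j(Q)^q mod q` and the degree `[F : E] = q + 1`.
-/

set_option autoImplicit false
set_option linter.style.haveILetI false

open ModularCurve

namespace Fermat.Agent.S34

open Fermat.Agent.S18 Fermat.Agent.S37

/-! ## 1. Gauss-integral Laurent series and their reduction -/

section tv84_red

variable {R K κ : Type*} [CommRing R] [IsDomain R] [Field K] [Algebra R K] [IsFractionRing R K]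
  [Field κ]
variable (res : R →+* κ)

omit [IsDomain R] in
/-- Two presentations `s x = t`, `s' x = t'` of the same series give the same quotient of
reductions. -/
theorem tv84_red_wd (s t s' t' : LaurentSeries R) (x : LaurentSeries K)
    (hs : coeffMap res s ≠ 0) (hs' : coeffMap res s' ≠ 0)
    (h : coeffMap (algebraMap R K) s * x = coeffMap (algebraMap R K) t)
    (h' : coeffMap (algebraMap R K) s' * x = coeffMap (algebraMap R K) t') :
    coeffMap res t / coeffMap res s = coeffMap res t' / coeffMap res s' := by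
  have e : s * t' = s' * t := by
    apply gv85_emb_injective (K := K)
    rw [map_mul, map_mul, ← h, ← h']
    ring
  have e' : coeffMap res s * coeffMap res t' = coeffMap res s' * coeffMap res t := by
    rw [← map_mul, ← map_mul, e]
  rw [div_eq_div_iff hs hs']
  linear_combination -e'

variable (K) in
/-- The ring `G` of **Gauss-integral Laurent series**: `x ∈ K((Q))` with `s x = t` for some
`s, t ∈ R((Q))`, `s̄ ≠ 0`.  (Level-free: the Gauss valuation ring `gv85_V res F hF` of an
intermediate field `F` is `F ∩ G`, see `tv84_mem_V_iff`.) -/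
def tv84_G : Subring (LaurentSeries K) where
  carrier := {x | ∃ s t : LaurentSeries R, coeffMap res s ≠ 0 ∧
    coeffMap (algebraMap R K) s * x = coeffMap (algebraMap R K) t}
  mul_mem' := by
    rintro x y ⟨s, t, hs, hst⟩ ⟨s', t', hs', hst'⟩
    refine ⟨s * s', t * t', ?_, ?_⟩
    · rw [map_mul]; exact mul_ne_zero hs hs'
    · rw [map_mul, map_mul, ← hst, ← hst']
      ring
  one_mem' := ⟨1, 1, by rw [map_one]; exact one_ne_zero, by simp⟩
  add_mem' := by
    rintro x y ⟨s, t, hs, hst⟩ ⟨s', t', hs', hst'⟩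
    refine ⟨s * s', s' * t + s * t', ?_, ?_⟩
    · rw [map_mul]; exact mul_ne_zero hs hs'
    · rw [map_mul, map_add, map_mul, map_mul, ← hst, ← hst']
      ring
  zero_mem' := ⟨1, 0, by rw [map_one]; exact one_ne_zero, by simp⟩
  neg_mem' := by
    rintro x ⟨s, t, hs, hst⟩
    refine ⟨s, -t, hs, ?_⟩
    rw [map_neg, ← hst]
    ring

omit [IsDomain R] [IsFractionRing R K] in
theorem tv84_mem_G (x : LaurentSeries K) :
    x ∈ tv84_G K res ↔ ∃ s t : LaurentSeries R, coeffMap res s ≠ 0 ∧
      coeffMap (algebraMap R K) s * x = coeffMap (algebraMap R K) t :=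
  Iff.rfl

/-- The Gauss valuation ring of `F` is `F ∩ G`. -/
theorem tv84_mem_V_iff [ValuationRing R] (F : IntermediateField K (LaurentSeries K))
    (hF : gv85_HF res F) (x : F) : x ∈ gv85_V res F hF ↔ (x : LaurentSeries K) ∈ tv84_G K res :=
  Iff.rfl

omit [IsDomain R] [IsFractionRing R K] in
/-- `R`-integral series are Gauss-integral. -/
theorem tv84_coeffMap_mem_G (y : LaurentSeries R) :
    coeffMap (algebraMap R K) y ∈ tv84_G K res :=
  ⟨1, y, by rw [map_one]; exact one_ne_zero, by rw [map_one, one_mul]⟩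

/-- The reduction of a Gauss-integral series (as a function). -/
noncomputable def tv84_redFun (x : tv84_G K res) : LaurentSeries κ :=
  coeffMap res (Classical.choose (Classical.choose_spec ((tv84_mem_G res x.1).mp x.2))) /
    coeffMap res (Classical.choose ((tv84_mem_G res x.1).mp x.2))

omit [IsDomain R] in
theorem tv84_redFun_eq (x : tv84_G K res) (s t : LaurentSeries R) (hs : coeffMap res s ≠ 0)
    (h : coeffMap (algebraMap R K) s * (x : LaurentSeries K) = coeffMap (algebraMap R K) t) :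
    tv84_redFun res x = coeffMap res t / coeffMap res s := by
  have hx := (tv84_mem_G res x.1).mp x.2
  exact tv84_red_wd res _ _ s t _ (Classical.choose_spec (Classical.choose_spec hx)).1 hs
    (Classical.choose_spec (Classical.choose_spec hx)).2 h

/-- **The reduction homomorphism** `G → κ((Q))`, `x = t / s ↦ t̄ / s̄`. -/
noncomputable def tv84_red : tv84_G K res →+* LaurentSeries κ where
  toFun := tv84_redFun res
  map_one' := by
    rw [tv84_redFun_eq res 1 1 1 (by rw [map_one]; exact one_ne_zero) (by simp)]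
    simp
  map_zero' := by
    rw [tv84_redFun_eq res 0 1 0 (by rw [map_one]; exact one_ne_zero) (by simp)]
    simp
  map_mul' := by
    intro x y
    obtain ⟨s, t, hs, hst⟩ := (tv84_mem_G res x.1).mp x.2
    obtain ⟨s', t', hs', hst'⟩ := (tv84_mem_G res y.1).mp y.2
    rw [tv84_redFun_eq res x s t hs hst, tv84_redFun_eq res y s' t' hs' hst',
      tv84_redFun_eq res (x * y) (s * s') (t * t')
        (by rw [map_mul]; exact mul_ne_zero hs hs')
        (by
          rw [map_mul, map_mul, ← hst, ← hst']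
          push_cast
          ring)]
    rw [map_mul, map_mul]
    field_simp
  map_add' := by
    intro x y
    obtain ⟨s, t, hs, hst⟩ := (tv84_mem_G res x.1).mp x.2
    obtain ⟨s', t', hs', hst'⟩ := (tv84_mem_G res y.1).mp y.2
    rw [tv84_redFun_eq res x s t hs hst, tv84_redFun_eq res y s' t' hs' hst',
      tv84_redFun_eq res (x + y) (s * s') (s' * t + s * t')
        (by rw [map_mul]; exact mul_ne_zero hs hs')
        (by
          rw [map_mul, map_add, map_mul, map_mul, ← hst, ← hst']
          push_cast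
          ring)]
    rw [map_add, map_mul, map_mul, map_mul]
    field_simp

omit [IsDomain R] in
theorem tv84_red_eq (x : tv84_G K res) (s t : LaurentSeries R) (hs : coeffMap res s ≠ 0)
    (h : coeffMap (algebraMap R K) s * (x : LaurentSeries K) = coeffMap (algebraMap R K) t) :
    tv84_red res x = coeffMap res t / coeffMap res s :=
  tv84_redFun_eq res x s t hs h

omit [IsDomain R] in
/-- The reduction of an `R`-integral series is its coefficientwise reduction. -/
theorem tv84_red_of_integral (x : tv84_G K res) (y : LaurentSeries R)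
    (hxy : (x : LaurentSeries K) = coeffMap (algebraMap R K) y) :
    tv84_red res x = coeffMap res y := by
  rw [tv84_red_eq res x 1 y (by rw [map_one]; exact one_ne_zero)
    (by rw [map_one, one_mul, hxy]), map_one, div_one]

/-- **The kernel of the reduction is `π G`.** -/
theorem tv84_red_eq_zero_iff (π : R) (hres : ∀ r, res r = 0 ↔ π ∣ r) (hπ0 : π ≠ 0)
    (x : tv84_G K res) :
    tv84_red res x = 0 ↔
      (HahnSeries.C (algebraMap R K π))⁻¹ * (x : LaurentSeries K) ∈ tv84_G K res := by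
  have hπK : algebraMap R K π ≠ 0 := fun h =>
    hπ0 (IsFractionRing.injective R K (by rw [h, map_zero]))
  have hC0 : (HahnSeries.C (algebraMap R K π) : LaurentSeries K) ≠ 0 := HahnSeries.C_ne_zero hπK
  constructor
  · intro h0
    obtain ⟨s, t, hs, hst⟩ := (tv84_mem_G res x.1).mp x.2
    rw [tv84_red_eq res x s t hs hst, div_eq_zero_iff] at h0
    have ht : coeffMap res t = 0 := h0.resolve_right hs
    obtain ⟨t', ht'⟩ := gv85_red_eq_zero res π hres hπ0 t ht
    refine ⟨s, t', hs, ?_⟩
    rw [mul_left_comm, hst, ht', map_mul, gv85_coeffMap_C, ← mul_assoc,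
      inv_mul_cancel₀ hC0, one_mul]
  · rintro ⟨s, t, hs, hst⟩
    have h1 : coeffMap (algebraMap R K) s * (x : LaurentSeries K) =
        coeffMap (algebraMap R K) (HahnSeries.C π * t) := by
      rw [map_mul, gv85_coeffMap_C, ← hst]
      field_simp
    rw [tv84_red_eq res x s (HahnSeries.C π * t) hs h1, gv85_red_C_mul res π hres t,
      zero_div]

omit [IsDomain R] in
/-- `π⁻¹ ∉ G`. -/
theorem tv84_pi_inv_not_mem_G (π : R) (hres : ∀ r, res r = 0 ↔ π ∣ r) (hπ0 : π ≠ 0) :
    (HahnSeries.C (algebraMap R K π) : LaurentSeries K)⁻¹ ∉ tv84_G K res := by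
  rintro ⟨s, t, hs, hst⟩
  have hπK : algebraMap R K π ≠ 0 := fun h =>
    hπ0 (IsFractionRing.injective R K (by rw [h, map_zero]))
  have hC0 : (HahnSeries.C (algebraMap R K π) : LaurentSeries K) ≠ 0 := HahnSeries.C_ne_zero hπK
  have h2 : coeffMap (algebraMap R K) s = coeffMap (algebraMap R K) (HahnSeries.C π * t) := by
    rw [map_mul, gv85_coeffMap_C, ← hst]
    field_simp
  have h3 := gv85_emb_injective h2
  apply hs
  rw [h3]
  exact gv85_red_C_mul res π hres t

end tv84_red

/-! ## 2. Laurent series over the residue field -/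

section tv84_series

variable {κ : Type*} [Field κ]

/-- `ord (f(Q^q)) = q · ord f`. -/
theorem tv84_order_qExpand (q : ℕ) [NeZero q] (z : LaurentSeries κ) (hz : z ≠ 0) :
    (qExpand κ q z).order = (q : ℤ) * z.order := by
  have hz' : qExpand κ q z ≠ 0 := fun h => hz (qExpand_injective q (by rw [h, map_zero]))
  apply le_antisymm
  · apply HahnSeries.order_le_of_coeff_ne_zero
    rw [qExpand_coeff_mul]
    exact fun h => hz (HahnSeries.coeff_order_eq_zero.mp h)
  · have h1 : (qExpand κ q z).coeff (qExpand κ q z).order ≠ 0 :=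
      fun h => hz' (HahnSeries.coeff_order_eq_zero.mp h)
    by_cases hd : (q : ℤ) ∣ (qExpand κ q z).order
    · obtain ⟨k, hk⟩ := hd
      have h2 : z.coeff k ≠ 0 := by
        rw [← qExpand_coeff_mul q z k, ← hk]
        exact h1
      have h3 : z.order ≤ k := HahnSeries.order_le_of_coeff_ne_zero h2
      rw [hk]
      exact mul_le_mul_of_nonneg_left h3 (by positivity)
    · exact absurd (qExpand_coeff_of_not_dvd q z hd) h1

/-- If `q ∤ ord t` and `∑_{r < q} t^r z_r(Q^q) = 0` then all `z_r` vanish. -/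
theorem tv84_eq_zero_of_sum_qExpand (q : ℕ) [NeZero q] (hq : q.Prime) (t : LaurentSeries κ)
    (ht : ¬ (q : ℤ) ∣ t.order) (z : ℕ → LaurentSeries κ)
    (h : ∑ r ∈ Finset.range q, t ^ r * qExpand κ q (z r) = 0) :
    ∀ r ∈ Finset.range q, z r = 0 := by
  classical
  have ht0 : t ≠ 0 := by
    rintro rfl
    exact ht (by simp)
  by_contra hcon
  push Not at hcon
  obtain ⟨r0, hr0, hz0⟩ := hcon
  set s : Finset ℕ := (Finset.range q).filter (fun r => z r ≠ 0) with hs
  have hsne : s.Nonempty := ⟨r0, Finset.mem_filter.mpr ⟨hr0, hz0⟩⟩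
  have hsum : ∑ r ∈ s, t ^ r * qExpand κ q (z r) =
      ∑ r ∈ Finset.range q, t ^ r * qExpand κ q (z r) := by
    rw [hs, Finset.sum_filter]
    refine Finset.sum_congr rfl fun r _ => ?_
    by_cases hzr : z r = 0
    · simp [hzr]
    · simp [hzr]
  have hne : ∀ r ∈ s, qExpand κ q (z r) ≠ 0 := fun r hr h0 =>
    (Finset.mem_filter.mp hr).2 (qExpand_injective q (by rw [h0, map_zero]))
  have hord : ∀ r ∈ s, (t ^ r * qExpand κ q (z r)).order =
      (r : ℤ) * t.order + (q : ℤ) * (z r).order := by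
    intro r hr
    have hzr : z r ≠ 0 := (Finset.mem_filter.mp hr).2
    rw [HahnSeries.order_mul (pow_ne_zero _ ht0) (hne r hr), HahnSeries.order_pow,
      tv84_order_qExpand q (z r) hzr, nsmul_eq_mul]
  refine rc5_sum_ne_zero_of_order_injOn s (fun r => t ^ r * qExpand κ q (z r)) hsne ?_ ?_
    (hsum.trans h)
  · intro r hr
    exact mul_ne_zero (pow_ne_zero _ ht0) (hne r hr)
  · intro r hr r' hr' hrr
    rw [hord r hr, hord r' hr'] at hrr
    have hlt : r < q := Finset.mem_range.mp (Finset.mem_filter.mp hr).1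
    have hlt' : r' < q := Finset.mem_range.mp (Finset.mem_filter.mp hr').1
    have hdvd : (q : ℤ) ∣ ((r : ℤ) - r') * t.order :=
      ⟨(z r').order - (z r).order, by linear_combination hrr⟩
    have hpr : Prime (q : ℤ) := Nat.prime_iff_prime_int.mp hq
    rcases hpr.dvd_or_dvd hdvd with h1 | h1
    · have h2 : (r : ℤ) - r' = 0 := Int.eq_zero_of_abs_lt_dvd h1 (by rw [abs_lt]; omega)
      omega
    · exact absurd h1 ht

/-- **The two-reduction lemma in `κ((Q))`.**  Let `J` have order `-1` and `J^q = J(Q^q)`.  If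
`∑_{i ≤ q} b_i (J^q)^i = 0` and `∑_{i ≤ q} b_i(Q^q) J^i = 0`, then all `b_i` vanish. -/
theorem tv84_core_series (q : ℕ) [NeZero q] (hq : q.Prime) (J : LaurentSeries κ)
    (hJord : J.order = -1) (hJq : J ^ q = qExpand κ q J) (b : ℕ → LaurentSeries κ)
    (h1 : ∑ i ∈ Finset.range (q + 1), b i * (J ^ q) ^ i = 0)
    (h2 : ∑ i ∈ Finset.range (q + 1), qExpand κ q (b i) * J ^ i = 0) :
    ∀ i ∈ Finset.range (q + 1), b i = 0 := by
  classical
  have hq2 : 2 ≤ q := hq.two_le
  have hJ0 : J ≠ 0 := by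
    rintro rfl
    simp at hJord
  have hnd : ¬ (q : ℤ) ∣ J.order := by
    rw [hJord]
    intro hd
    have h3 : (q : ℤ) ∣ 1 := (Int.dvd_neg).mp hd
    have h4 := Int.le_of_dvd one_pos h3
    omega
  -- second relation
  set z : ℕ → LaurentSeries κ := fun i => b i + (if i = 0 then b q * J else 0) with hz
  have hzsum : ∑ r ∈ Finset.range q, J ^ r * qExpand κ q (z r) = 0 := by
    rw [Finset.sum_range_succ, hJq, ← map_mul] at h2
    have e : ∀ r ∈ Finset.range q, J ^ r * qExpand κ q (z r) =
        qExpand κ q (b r) * J ^ r + (if r = 0 then qExpand κ q (b q * J) else 0) := by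
      intro r _
      by_cases hr : r = 0
      · subst hr
        simp only [hz, if_true, pow_zero, one_mul, mul_one, map_add]
      · simp only [hz, if_neg hr, add_zero]
        ring
    rw [Finset.sum_congr rfl e, Finset.sum_add_distrib, Finset.sum_ite_eq' (Finset.range q) 0,
      if_pos (Finset.mem_range.mpr (by omega))]
    exact h2
  have hz0 := tv84_eq_zero_of_sum_qExpand q hq J hnd z hzsum
  have hb : ∀ i, 1 ≤ i → i < q → b i = 0 := by
    intro i hi1 hiq
    have h3 := hz0 i (Finset.mem_range.mpr hiq)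
    simpa [hz, show i ≠ 0 by omega] using h3
  have hb0 : b 0 + b q * J = 0 := by
    have h3 := hz0 0 (Finset.mem_range.mpr (by omega))
    simpa [hz] using h3
  -- first relation
  have h1' : b 0 + b q * (J ^ q) ^ q = 0 := by
    rw [Finset.sum_range_succ, Finset.sum_eq_single 0] at h1
    · simpa using h1
    · intro i hi hi0
      rw [hb i (by omega) (Finset.mem_range.mp hi), zero_mul]
    · intro h0
      exact absurd (Finset.mem_range.mpr (by omega)) h0
  have hne : (J ^ q) ^ q - J ≠ 0 := by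
    intro h0
    have h3 : ((J ^ q) ^ q).order = J.order := by rw [sub_eq_zero.mp h0]
    rw [HahnSeries.order_pow, HahnSeries.order_pow, hJord] at h3
    simp only [nsmul_eq_mul] at h3
    have h4 : (q : ℤ) * (q : ℤ) = 1 := by linarith
    have h5 : (2 : ℤ) ≤ q := by exact_mod_cast hq2
    nlinarith
  have hbq : b q = 0 := by
    have h3 : b q * ((J ^ q) ^ q - J) = 0 := by linear_combination h1' - hb0
    exact (mul_eq_zero.mp h3).resolve_right hne
  have hb00 : b 0 = 0 := by
    rw [hbq, zero_mul, add_zero] at hb0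
    exact hb0
  intro i hi
  have hi' : i < q + 1 := Finset.mem_range.mp hi
  rcases Nat.eq_zero_or_pos i with rfl | hpos
  · exact hb00
  · rcases Nat.lt_or_ge i q with hlt | hge
    · exact hb i hpos hlt
    · have : i = q := by omega
      rw [this]
      exact hbq

/-- The order of the `j`-series is `-1`. -/
theorem tv84_order_jqModC : (jqModC κ).order = -1 := by
  have h1 : (jqModC κ).coeff (-1) ≠ 0 := by
    rw [coeff_jqModC_neg_one]
    exact one_ne_zero
  apply le_antisymm (HahnSeries.order_le_of_coeff_ne_zero h1)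
  by_contra hlt
  push Not at hlt
  have h0 : jqModC κ ≠ 0 := fun h => h1 (by rw [h, HahnSeries.coeff_zero])
  exact h0 (HahnSeries.coeff_order_eq_zero.mp (coeff_jqModC_of_lt κ hlt))

end tv84_series

/-! ## 3. Gauss-integral series: `Q ↦ Q^q`, constants, the two-reduction lemma -/

section tv84_gauss

variable {R K κ : Type*} [CommRing R] [IsDomain R] [Field K] [Algebra R K] [IsFractionRing R K]
  [Field κ]
variable (res : R →+* κ)

omit [IsDomain R] [IsFractionRing R K] [Algebra R K] in
theorem tv84_coeffMap_qExpand {S T : Type*} [CommRing S] [CommRing T] (f : S →+* T) (n : ℕ)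
    [NeZero n] (x : LaurentSeries S) : coeffMap f (qExpand S n x) = qExpand T n (coeffMap f x) := by
  ext k
  by_cases hk : (n : ℤ) ∣ k
  · obtain ⟨m, rfl⟩ := hk
    rw [coeffMap_coeff, qExpand_coeff_mul, qExpand_coeff_mul, coeffMap_coeff]
  · rw [coeffMap_coeff, qExpand_coeff_of_not_dvd n _ hk, qExpand_coeff_of_not_dvd n _ hk,
      map_zero]

omit [IsDomain R] [IsFractionRing R K] in
/-- `G` is stable under `Q ↦ Q^q`. -/
theorem tv84_qExpand_mem_G (q : ℕ) [NeZero q] (x : LaurentSeries K) (hx : x ∈ tv84_G K res) :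
    qExpand K q x ∈ tv84_G K res := by
  obtain ⟨s, t, hs, hst⟩ := hx
  refine ⟨qExpand R q s, qExpand R q t, ?_, ?_⟩
  · rw [tv84_coeffMap_qExpand]
    intro h
    exact hs (qExpand_injective q (by rw [h, map_zero]))
  · rw [tv84_coeffMap_qExpand, tv84_coeffMap_qExpand, ← hst, map_mul]

omit [IsDomain R] in
/-- The reduction commutes with `Q ↦ Q^q`. -/
theorem tv84_red_qExpand (q : ℕ) [NeZero q] (x : tv84_G K res)
    (hx' : qExpand K q (x : LaurentSeries K) ∈ tv84_G K res) :
    tv84_red res ⟨qExpand K q (x : LaurentSeries K), hx'⟩ = qExpand κ q (tv84_red res x) := by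
  obtain ⟨s, t, hs, hst⟩ := (tv84_mem_G res x.1).mp x.2
  have hs' : coeffMap res (qExpand R q s) ≠ 0 := by
    rw [tv84_coeffMap_qExpand]
    intro h
    exact hs (qExpand_injective q (by rw [h, map_zero]))
  have hst' : coeffMap (algebraMap R K) (qExpand R q s) * qExpand K q (x : LaurentSeries K) =
      coeffMap (algebraMap R K) (qExpand R q t) := by
    rw [tv84_coeffMap_qExpand, tv84_coeffMap_qExpand, ← hst, map_mul]
  rw [tv84_red_eq res ⟨_, hx'⟩ (qExpand R q s) (qExpand R q t) hs' hst',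
    tv84_red_eq res x s t hs hst, tv84_coeffMap_qExpand, tv84_coeffMap_qExpand, map_div₀]

omit [IsDomain R] [IsFractionRing R K] in
/-- The `j`-series is Gauss-integral. -/
theorem tv84_J_mem : jqModC K ∈ tv84_G K res := by
  rw [← coeffMap_jqModC (algebraMap R K)]
  exact tv84_coeffMap_mem_G res _

omit [IsDomain R] in
/-- The reduction of the `j`-series is the `j`-series. -/
theorem tv84_red_J (h : jqModC K ∈ tv84_G K res) :
    tv84_red res ⟨jqModC K, h⟩ = jqModC κ := by
  rw [tv84_red_of_integral res _ (jqModC R) (coeffMap_jqModC _).symm, coeffMap_jqModC]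

omit [IsDomain R] [IsFractionRing R K] in
/-- Constants of `R` are Gauss-integral. -/
theorem tv84_C_mem (r : R) : (HahnSeries.C (algebraMap R K r) : LaurentSeries K) ∈ tv84_G K res := by
  rw [← gv85_coeffMap_C]
  exact tv84_coeffMap_mem_G res _

end tv84_gauss

/-! ## 4. Discrete valuation rings: the core lemma and the scaling argument -/

section tv84_dvr

variable {R K : Type} [CommRing R] [IsDomain R] [IsDiscreteValuationRing R] [Field K]
  [Algebra R K] [IsFractionRing R K]

/-- Every series of `F(M)_K` becomes Gauss-integral after multiplication by a power of `π`. -/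
theorem tv84_arch {π : R} (hπ : Irreducible π) (M : ℕ) (x : LaurentSeries K)
    (hx : x ∈ modularFunctionFieldFullC K M) :
    ∃ n : ℕ, HahnSeries.C (algebraMap R K π) ^ n * x ∈ tv84_G K (IsLocalRing.residue R) := by
  by_cases hx0 : x = 0
  · exact ⟨0, by rw [hx0, mul_zero]; exact Subring.zero_mem _⟩
  obtain ⟨a, b, c, hc, ha, hb, hab⟩ := pk85_HF K M hπ ⟨x, hx⟩
    (fun h => hx0 (congrArg Subtype.val h))
  obtain ⟨r, d, hd, hrd⟩ := IsFractionRing.div_surjective (A := R) c
  have hd0 : d ≠ 0 := nonZeroDivisors.ne_zero hd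
  have hdK : algebraMap R K d ≠ 0 := fun h =>
    hd0 (IsFractionRing.injective R K (by rw [h, map_zero]))
  obtain ⟨n, u, hu⟩ := IsDiscreteValuationRing.eq_unit_mul_pow_irreducible hd0 hπ
  have hun : algebraMap R K (↑u) * algebraMap R K (↑u⁻¹) = 1 := by
    rw [← map_mul, Units.mul_inv, map_one]
  have key : algebraMap R K π ^ n * c = algebraMap R K (r * ↑u⁻¹) := by
    have hu' : algebraMap R K d = algebraMap R K ↑u * algebraMap R K π ^ n := by
      rw [hu, map_mul, map_pow]
    have hc' : c * algebraMap R K d = algebraMap R K r := by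
      rw [← hrd]
      field_simp
    rw [map_mul, ← hc', hu']
    linear_combination (-(algebraMap R K π ^ n * c)) * hun
  refine ⟨n, b, HahnSeries.C (r * ↑u⁻¹) * a, hb, ?_⟩
  have hab' : (x : LaurentSeries K) * coeffMap (algebraMap R K) b =
      HahnSeries.C c * coeffMap (algebraMap R K) a := hab
  rw [map_mul, gv85_coeffMap_C, ← key, map_mul, map_pow]
  linear_combination (HahnSeries.C (algebraMap R K π) ^ n : LaurentSeries K) * hab'

/-- **The core lemma**: if `∑_{i ≤ q} a_i y^i` and `∑_{i ≤ q} a_i(Q^q) j^i` (`y = j(Q^q)`,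
`a_i` Gauss-integral) are both divisible by `π`, then so are all `a_i`. -/
theorem tv84_core {π : R} (hπ : Irreducible π) (q : ℕ) [NeZero q] (hq : q.Prime)
    (hqR : ¬ IsUnit (q : R)) (a : ℕ → LaurentSeries K)
    (ha : ∀ i, a i ∈ tv84_G K (IsLocalRing.residue R))
    (h1 : (HahnSeries.C (algebraMap R K π))⁻¹ *
      ∑ i ∈ Finset.range (q + 1), a i * qExpand K q (jqModC K) ^ i ∈
        tv84_G K (IsLocalRing.residue R))
    (h2 : (HahnSeries.C (algebraMap R K π))⁻¹ *
      ∑ i ∈ Finset.range (q + 1), qExpand K q (a i) * jqModC K ^ i ∈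
        tv84_G K (IsLocalRing.residue R)) :
    ∀ i ∈ Finset.range (q + 1),
      (HahnSeries.C (algebraMap R K π))⁻¹ * a i ∈ tv84_G K (IsLocalRing.residue R) := by
  have : Fact q.Prime := ⟨hq⟩
  have : CharP (IsLocalRing.ResidueField R) q := by
    rw [CharP.charP_iff_prime_eq_zero hq]
    have h3 : (q : R) ∈ IsLocalRing.maximalIdeal R := (IsLocalRing.mem_maximalIdeal _).mpr hqR
    have h4 : IsLocalRing.residue R (q : R) = 0 := (IsLocalRing.residue_eq_zero_iff _).mpr h3
    rwa [map_natCast] at h4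
  have hJ : jqModC K ∈ tv84_G K (IsLocalRing.residue R) := tv84_J_mem _
  have hY : qExpand K q (jqModC K) ∈ tv84_G K (IsLocalRing.residue R) :=
    tv84_qExpand_mem_G _ q _ hJ
  have hρJ : tv84_red (IsLocalRing.residue R) ⟨jqModC K, hJ⟩ = jqModC _ := tv84_red_J _ hJ
  have hρY : tv84_red (IsLocalRing.residue R) ⟨qExpand K q (jqModC K), hY⟩ =
      qExpand _ q (jqModC _) :=
    (tv84_red_qExpand (IsLocalRing.residue R) q ⟨jqModC K, hJ⟩ hY).trans (by rw [hρJ])
  have hpow : jqModC (IsLocalRing.ResidueField R) ^ q = qExpand _ q (jqModC _) :=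
    kc87_jqModC_pow_char _ q
  have hS1 : ∑ i ∈ Finset.range (q + 1), a i * qExpand K q (jqModC K) ^ i ∈
      tv84_G K (IsLocalRing.residue R) :=
    Subring.sum_mem _ fun i _ => Subring.mul_mem _ (ha i) (Subring.pow_mem _ hY i)
  have hS2 : ∑ i ∈ Finset.range (q + 1), qExpand K q (a i) * jqModC K ^ i ∈
      tv84_G K (IsLocalRing.residue R) :=
    Subring.sum_mem _ fun i _ =>
      Subring.mul_mem _ (tv84_qExpand_mem_G _ q _ (ha i)) (Subring.pow_mem _ hJ i)
  have e1 : tv84_red (IsLocalRing.residue R) ⟨_, hS1⟩ =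
      ∑ i ∈ Finset.range (q + 1), tv84_red (IsLocalRing.residue R) ⟨a i, ha i⟩ *
        (jqModC (IsLocalRing.ResidueField R) ^ q) ^ i := by
    have h3 : (⟨_, hS1⟩ : tv84_G K (IsLocalRing.residue R)) =
        ∑ i ∈ Finset.range (q + 1), (⟨a i, ha i⟩ : tv84_G K (IsLocalRing.residue R)) *
          (⟨qExpand K q (jqModC K), hY⟩ : tv84_G K (IsLocalRing.residue R)) ^ i := by
      apply Subtype.ext
      simp only [AddSubmonoidClass.coe_finsetSum, MulMemClass.coe_mul, SubmonoidClass.coe_pow]
    rw [h3, map_sum]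
    refine Finset.sum_congr rfl fun i _ => ?_
    rw [map_mul, map_pow, hρY, hpow]
  have e2 : tv84_red (IsLocalRing.residue R) ⟨_, hS2⟩ =
      ∑ i ∈ Finset.range (q + 1),
        qExpand _ q (tv84_red (IsLocalRing.residue R) ⟨a i, ha i⟩) *
          jqModC (IsLocalRing.ResidueField R) ^ i := by
    have h3 : (⟨_, hS2⟩ : tv84_G K (IsLocalRing.residue R)) =
        ∑ i ∈ Finset.range (q + 1),
          (⟨qExpand K q (a i), tv84_qExpand_mem_G _ q _ (ha i)⟩ :
            tv84_G K (IsLocalRing.residue R)) *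
          (⟨jqModC K, hJ⟩ : tv84_G K (IsLocalRing.residue R)) ^ i := by
      apply Subtype.ext
      simp only [AddSubmonoidClass.coe_finsetSum, MulMemClass.coe_mul, SubmonoidClass.coe_pow]
    rw [h3, map_sum]
    refine Finset.sum_congr rfl fun i _ => ?_
    rw [map_mul, map_pow, hρJ]
    congr 1
    exact tv84_red_qExpand (IsLocalRing.residue R) q ⟨a i, ha i⟩ _
  have z1 : tv84_red (IsLocalRing.residue R) ⟨_, hS1⟩ = 0 :=
    (tv84_red_eq_zero_iff _ π (pk85_res_iff hπ) hπ.ne_zero ⟨_, hS1⟩).mpr h1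
  have z2 : tv84_red (IsLocalRing.residue R) ⟨_, hS2⟩ = 0 :=
    (tv84_red_eq_zero_iff _ π (pk85_res_iff hπ) hπ.ne_zero ⟨_, hS2⟩).mpr h2
  have hb := tv84_core_series q hq (jqModC (IsLocalRing.ResidueField R)) tv84_order_jqModC hpow
    (fun i => tv84_red (IsLocalRing.residue R) ⟨a i, ha i⟩) (e1 ▸ z1) (e2 ▸ z2)
  intro i hi
  exact (tv84_red_eq_zero_iff _ π (pk85_res_iff hπ) hπ.ne_zero ⟨a i, ha i⟩).mp (hb i hi)

/-- **The scaling argument**: if `c_i ∈ F(M')_K` and both `∑_{i ≤ q} c_i y^i` and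
`∑_{i ≤ q} c_i(Q^q) j^i` are Gauss-integral, then all `c_i` are Gauss-integral. -/
theorem tv84_scale {π : R} (hπ : Irreducible π) (M' q : ℕ) [NeZero q] (hq : q.Prime)
    (hqR : ¬ IsUnit (q : R)) (c : ℕ → LaurentSeries K)
    (hc : ∀ i, c i ∈ modularFunctionFieldFullC K M')
    (h1 : ∑ i ∈ Finset.range (q + 1), c i * qExpand K q (jqModC K) ^ i ∈
      tv84_G K (IsLocalRing.residue R))
    (h2 : ∑ i ∈ Finset.range (q + 1), qExpand K q (c i) * jqModC K ^ i ∈
      tv84_G K (IsLocalRing.residue R)) :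
    ∀ i ∈ Finset.range (q + 1), c i ∈ tv84_G K (IsLocalRing.residue R) := by
  classical
  have hπK : algebraMap R K π ≠ 0 := fun h =>
    hπ.ne_zero (IsFractionRing.injective R K (by rw [h, map_zero]))
  set P : LaurentSeries K := HahnSeries.C (algebraMap R K π) with hP
  have hP0 : P ≠ 0 := HahnSeries.C_ne_zero hπK
  have hPG : P ∈ tv84_G K (IsLocalRing.residue R) := tv84_C_mem _ π
  have hex : ∃ n : ℕ, ∀ i ∈ Finset.range (q + 1),
      P ^ n * c i ∈ tv84_G K (IsLocalRing.residue R) := by
    choose n hn using fun i => tv84_arch hπ M' (c i) (hc i)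
    refine ⟨∑ i ∈ Finset.range (q + 1), n i, fun i hi => ?_⟩
    have hle : n i ≤ ∑ j ∈ Finset.range (q + 1), n j :=
      Finset.single_le_sum (fun _ _ => Nat.zero_le _) hi
    obtain ⟨k, hk⟩ := Nat.exists_eq_add_of_le hle
    rw [hk, pow_add, mul_right_comm]
    exact Subring.mul_mem _ (hn i) (Subring.pow_mem _ hPG k)
  by_cases h0 : Nat.find hex = 0
  · intro i hi
    have h3 := Nat.find_spec hex i hi
    rw [h0, pow_zero, one_mul] at h3
    exact h3
  · exfalso
    obtain ⟨k, hk⟩ := Nat.exists_eq_succ_of_ne_zero h0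
    have hspec := Nat.find_spec hex
    rw [hk] at hspec
    apply Nat.find_min hex (m := k) (by omega)
    set a : ℕ → LaurentSeries K := fun i => if i < q + 1 then P ^ (k + 1) * c i else 0 with ha
    have haG : ∀ i, a i ∈ tv84_G K (IsLocalRing.residue R) := by
      intro i
      by_cases hi : i < q + 1
      · simp only [ha, if_pos hi]
        exact hspec i (Finset.mem_range.mpr hi)
      · simp only [ha, if_neg hi]
        exact Subring.zero_mem _
    have e1 : P⁻¹ * ∑ i ∈ Finset.range (q + 1), a i * qExpand K q (jqModC K) ^ i =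
        P ^ k * ∑ i ∈ Finset.range (q + 1), c i * qExpand K q (jqModC K) ^ i := by
      rw [Finset.mul_sum, Finset.mul_sum]
      refine Finset.sum_congr rfl fun i hi => ?_
      simp only [ha, if_pos (Finset.mem_range.mp hi)]
      rw [pow_succ]
      field_simp
    have e2 : P⁻¹ * ∑ i ∈ Finset.range (q + 1), qExpand K q (a i) * jqModC K ^ i =
        P ^ k * ∑ i ∈ Finset.range (q + 1), qExpand K q (c i) * jqModC K ^ i := by
      rw [Finset.mul_sum, Finset.mul_sum]
      refine Finset.sum_congr rfl fun i hi => ?_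
      simp only [ha, if_pos (Finset.mem_range.mp hi)]
      have hqP : qExpand K q P = P := qExpand_C q _
      rw [map_mul, map_pow, hqP, pow_succ]
      field_simp
    have hcore := tv84_core hπ q hq hqR a haG
      (by rw [e1]; exact Subring.mul_mem _ (Subring.pow_mem _ hPG k) h1)
      (by rw [e2]; exact Subring.mul_mem _ (Subring.pow_mem _ hPG k) h2)
    intro i hi
    have h3 := hcore i hi
    simp only [ha, if_pos (Finset.mem_range.mp hi)] at h3
    have e3 : P⁻¹ * (P ^ (k + 1) * c i) = P ^ k * c i := by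
      rw [pow_succ]
      field_simp
    rwa [e3] at h3

end tv84_dvr

/-! ## 5. The Atkin–Lehner involution on combinations of powers of `y` -/

section tv84_w

variable {K : Type} [Field K] (φ : K →+* Fermat.Agent.S24.Kbar) (M' q : ℕ) [NeZero M'] [NeZero q]
  (hq : q.Prime) (hqM' : ¬ q ∣ M')

/-- `w (∑ c_i y^i) = ∑ c_i(Q^q) j^i` for `c_i ∈ F(M')_K`. -/
theorem tv84_w_combo (c : ℕ → ↥(modularFunctionFieldFullC K M')) (n : ℕ)
    (x : ↥(modularFunctionFieldFullC K (M' * q)))
    (hx : (x : LaurentSeries K) =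
      ∑ i ∈ Finset.range n, (c i : LaurentSeries K) * qExpand K q (jqModC K) ^ i) :
    ((al97L_w φ M' q hq hqM' x : ↥(modularFunctionFieldFullC K (M' * q))) : LaurentSeries K) =
      ∑ i ∈ Finset.range n, qExpand K q (c i : LaurentSeries K) * jqModC K ^ i := by
  set j0 : ↥(modularFunctionFieldFullC K M') := ⟨jqModC K, jqModC_mem_full K M'⟩ with hj0
  have hx' : x = ∑ i ∈ Finset.range n, al97L_alpha K M' q (c i) * (al97L_beta K M' q j0) ^ i := by
    apply Subtype.ext
    rw [hx]
    simp only [AddSubmonoidClass.coe_finsetSum, MulMemClass.coe_mul, SubmonoidClass.coe_pow,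
      al97L_alpha_coe, al97L_beta_coe, hj0]
  rw [hx', map_sum]
  simp only [map_mul, map_pow, al97L_w_alpha_apply, al97L_w_beta_apply]
  simp only [AddSubmonoidClass.coe_finsetSum, MulMemClass.coe_mul, SubmonoidClass.coe_pow,
    al97L_alpha_coe, al97L_beta_coe, hj0]

end tv84_w

/-! ## 5b. Integrality from a finite spanning set (abstract) -/

section tv84_abs

/-- If every element of the subring `W ⊇ f(A)` is an `A`-combination of `1, y, …, y^(n-1)`
(`y ∈ W`), then `W` is integral over `A`. -/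
theorem tv84_integral_of_span {A B : Type*} [CommRing A] [CommRing B] (f : A →+* B)
    (W : Subring B) (hW : ∀ a, f a ∈ W) (y : B) (hy : y ∈ W) (n : ℕ)
    (h : ∀ z ∈ W, ∃ c : Fin n → A, z = ∑ i, f (c i) * y ^ (i : ℕ)) :
    ∀ z ∈ W, f.IsIntegralElem z := by
  letI : Algebra A B := f.toAlgebra
  let W' : Subalgebra A B := { W with algebraMap_mem' := hW }
  have hspan : Subalgebra.toSubmodule W' =
      Submodule.span A (Set.range fun i : Fin n => y ^ (i : ℕ)) := by
    apply le_antisymm
    · intro z hz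
      obtain ⟨c, hc⟩ := h z hz
      rw [hc]
      exact Submodule.sum_mem _ fun i _ =>
        Submodule.smul_mem _ (c i) (Submodule.subset_span ⟨i, rfl⟩)
    · rw [Submodule.span_le]
      rintro _ ⟨i, rfl⟩
      exact pow_mem (show y ∈ W' from hy) _
  have hfg : (Subalgebra.toSubmodule W').FG := by
    rw [hspan]
    exact Submodule.fg_span (Set.finite_range _)
  intro z hz
  exact IsIntegral.of_mem_of_fg W' hfg z hz

end tv84_abs

/-! ## 6. `1, y, …, y^q` is a basis of `F(M' q)_K` over `F(M')_K`; the main theorem -/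

section tv84_main

variable {R K : Type} [CommRing R] [IsDomain R] [IsDiscreteValuationRing R] [Field K]
  [Algebra R K] [IsFractionRing R K]
variable (M' q : ℕ) [NeZero M'] [NeZero q]

omit [NeZero M'] in
theorem tv84_C_eq_algebraMap (a : K) :
    (HahnSeries.C a : LaurentSeries K) = algebraMap K (LaurentSeries K) a := by
  rw [algebraMap_laurentSeries_eq_single, HahnSeries.C_apply]

/-- A vanishing combination `∑_{i ≤ q} c_i y^i = 0` with `c_i ∈ F(M')_K` is trivial. -/
theorem tv84_eq_zero_of_combo (φ : K →+* Fermat.Agent.S24.Kbar) (hq : q.Prime)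
    (hqM' : ¬ q ∣ M') {π : R} (hπ : Irreducible π) (hqR : ¬ IsUnit (q : R))
    (c : ℕ → ↥(modularFunctionFieldFullC K M'))
    (h : ∑ i ∈ Finset.range (q + 1),
      (c i : LaurentSeries K) * qExpand K q (jqModC K) ^ i = 0) :
    ∀ i ∈ Finset.range (q + 1), c i = 0 := by
  intro i₀ hi₀
  by_contra hne
  have hne' : (c i₀ : LaurentSeries K) ≠ 0 := fun h => hne (Subtype.ext h)
  have h2 : ∑ i ∈ Finset.range (q + 1),
      qExpand K q (c i : LaurentSeries K) * jqModC K ^ i = 0 := by
    have h3 := tv84_w_combo φ M' q hq hqM' c (q + 1) 0 (by rw [h]; rfl)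
    rw [← h3, map_zero]
    rfl
  have hπK : algebraMap R K π ≠ 0 := fun h =>
    hπ.ne_zero (IsFractionRing.injective R K (by rw [h, map_zero]))
  set P : LaurentSeries K := HahnSeries.C (algebraMap R K π) with hP
  have hP0 : P ≠ 0 := HahnSeries.C_ne_zero hπK
  have hPE : P ∈ modularFunctionFieldFullC K M' := by
    rw [hP, tv84_C_eq_algebraMap]
    exact IntermediateField.algebraMap_mem _ _
  have hqP : qExpand K q P = P := qExpand_C q _
  have hk : ∀ k : ℕ, P⁻¹ ^ k * (c i₀ : LaurentSeries K) ∈ tv84_G K (IsLocalRing.residue R) := by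
    intro k
    refine tv84_scale hπ M' q hq hqR (fun i => P⁻¹ ^ k * (c i : LaurentSeries K))
      (fun i => ?_) ?_ ?_ i₀ hi₀
    · exact (modularFunctionFieldFullC K M').mul_mem
        (pow_mem ((modularFunctionFieldFullC K M').inv_mem hPE) k) (c i).2
    · have h3 : ∑ i ∈ Finset.range (q + 1),
          P⁻¹ ^ k * (c i : LaurentSeries K) * qExpand K q (jqModC K) ^ i =
          P⁻¹ ^ k * ∑ i ∈ Finset.range (q + 1),
            (c i : LaurentSeries K) * qExpand K q (jqModC K) ^ i := by
        rw [Finset.mul_sum]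
        exact Finset.sum_congr rfl fun i _ => mul_assoc _ _ _
      rw [h3, h, mul_zero]
      exact Subring.zero_mem _
    · have h3 : ∑ i ∈ Finset.range (q + 1),
          qExpand K q (P⁻¹ ^ k * (c i : LaurentSeries K)) * jqModC K ^ i =
          P⁻¹ ^ k * ∑ i ∈ Finset.range (q + 1),
            qExpand K q (c i : LaurentSeries K) * jqModC K ^ i := by
        rw [Finset.mul_sum]
        refine Finset.sum_congr rfl fun i _ => ?_
        rw [map_mul, map_pow, map_inv₀, hqP, mul_assoc]
      rw [h3, h2, mul_zero]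
      exact Subring.zero_mem _
  obtain ⟨n, hn⟩ := tv84_arch hπ M' ((c i₀ : LaurentSeries K))⁻¹
    ((modularFunctionFieldFullC K M').inv_mem (c i₀).2)
  have h3 := Subring.mul_mem _ hn (hk (n + 1))
  have e : P ^ n * (c i₀ : LaurentSeries K)⁻¹ * (P⁻¹ ^ (n + 1) * (c i₀ : LaurentSeries K)) =
      P⁻¹ := by
    have hPn : P ^ n * P⁻¹ ^ n = 1 := by rw [← mul_pow, mul_inv_cancel₀ hP0, one_pow]
    have hcc : (c i₀ : LaurentSeries K)⁻¹ * (c i₀ : LaurentSeries K) = 1 := inv_mul_cancel₀ hne'
    rw [pow_succ]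
    linear_combination (P⁻¹ * (P ^ n * P⁻¹ ^ n)) * hcc + P⁻¹ * hPn
  rw [e] at h3
  exact tv84_pi_inv_not_mem_G _ π (pk85_res_iff hπ) hπ.ne_zero h3

/-- **`1, y, …, y^q` are linearly independent over `F(M')_K`** (`y = j(Q^q)`). -/
theorem tv84_linearIndependent (φ : K →+* Fermat.Agent.S24.Kbar) (hq : q.Prime)
    (hqM' : ¬ q ∣ M') {π : R} (hπ : Irreducible π) (hqR : ¬ IsUnit (q : R)) :
    LinearIndependent ↥(modularFunctionFieldFullC K M')
      (fun i : Fin (q + 1) => qExpand K q (jqModC K) ^ (i : ℕ)) := by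
  rw [Fintype.linearIndependent_iff]
  intro g hg i₀
  set c : ℕ → ↥(modularFunctionFieldFullC K M') :=
    fun i => if h : i < q + 1 then g ⟨i, h⟩ else 0 with hc
  have hci : ∀ i : Fin (q + 1), c i = g i := fun i => by
    show (if h : (i : ℕ) < q + 1 then g ⟨i, h⟩ else 0) = g i
    rw [dif_pos i.2]
  have hsum : ∑ i ∈ Finset.range (q + 1),
      (c i : LaurentSeries K) * qExpand K q (jqModC K) ^ i = 0 := by
    rw [← Fin.sum_univ_eq_sum_range
      (fun i => (c i : LaurentSeries K) * qExpand K q (jqModC K) ^ i) (q + 1), ← hg]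
    refine Finset.sum_congr rfl fun i _ => ?_
    rw [hci i]
    rfl
  have h3 := tv84_eq_zero_of_combo M' q φ hq hqM' hπ hqR c hsum i₀ (Finset.mem_range.mpr i₀.2)
  rw [← hci i₀]
  exact h3

/-- **`1, y, …, y^q` span `F(M' q)_K` over `F(M')_K`.** -/
theorem tv84_span (φ : K →+* Fermat.Agent.S24.Kbar) (hq : q.Prime)
    (hqM' : ¬ q ∣ M') {π : R} (hπ : Irreducible π) (hqR : ¬ IsUnit (q : R))
    (hK : ((M' * q : ℕ) : K) ≠ 0) (x : LaurentSeries K)
    (hx : x ∈ modularFunctionFieldFullC K (M' * q)) :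
    ∃ c : Fin (q + 1) → ↥(modularFunctionFieldFullC K M'),
      x = ∑ i, (c i : LaurentSeries K) * qExpand K q (jqModC K) ^ (i : ℕ) := by
  have hle : modularFunctionFieldFullC K M' ≤ modularFunctionFieldFullC K (M' * q) :=
    full_degeneracyC_le K (dvd_mul_right M' q)
  have hfin : Module.finrank ↥(modularFunctionFieldFullC K M')
      ↥(IntermediateField.extendScalars hle) = q + 1 := by
    rw [← IntermediateField.relfinrank_eq_finrank_of_le hle]
    exact Fermat.Agent.S42.gi41_relfinrank_prime K M' q hq hqM' hK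
  have hLI := tv84_linearIndependent M' q φ hq hqM' hπ hqR
  set S₁ : Submodule ↥(modularFunctionFieldFullC K M') (LaurentSeries K) :=
    Submodule.span ↥(modularFunctionFieldFullC K M')
      (Set.range fun i : Fin (q + 1) => qExpand K q (jqModC K) ^ (i : ℕ)) with hS₁
  set S₂ : Submodule ↥(modularFunctionFieldFullC K M') (LaurentSeries K) :=
    (IntermediateField.extendScalars hle).toSubalgebra.toSubmodule with hS₂
  have h12 : S₁ ≤ S₂ := by
    rw [hS₁, Submodule.span_le]
    rintro _ ⟨i, rfl⟩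
    show qExpand K q (jqModC K) ^ (i : ℕ) ∈ modularFunctionFieldFullC K (M' * q)
    exact pow_mem (jqModCd_mem_full K (M' * q) (dvd_mul_left q M')) _
  have hf1 : Module.finrank ↥(modularFunctionFieldFullC K M') ↥S₁ = q + 1 := by
    rw [hS₁, finrank_span_eq_card hLI, Fintype.card_fin]
  have hf2 : Module.finrank ↥(modularFunctionFieldFullC K M') ↥S₂ = q + 1 := hfin
  have : FiniteDimensional ↥(modularFunctionFieldFullC K M') ↥S₂ :=
    FiniteDimensional.of_finrank_pos (by rw [hf2]; omega)
  have heq : S₁ = S₂ := Submodule.eq_of_le_of_finrank_eq h12 (hf1.trans hf2.symm)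
  have hx' : x ∈ S₁ := by
    rw [heq]
    exact hx
  obtain ⟨c, hc⟩ := (Submodule.mem_span_range_iff_exists_fun _).mp hx'
  exact ⟨c, hc.symm⟩

/-- The second Gauss valuation ring `V_0 = w⁻¹ V_∞` of `F(M' q)_K`. -/
noncomputable def tv84_V0 (φ : K →+* Fermat.Agent.S24.Kbar) (hq : q.Prime) (hqM' : ¬ q ∣ M')
    {π : R} (hπ : Irreducible π) : ValuationSubring ↥(modularFunctionFieldFullC K (M' * q)) :=
  (cm85_Vinf (M' * q) hπ).comap
    ((al97L_w φ M' q hq hqM' : ↥(modularFunctionFieldFullC K (M' * q)) →ₐ[K]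
      ↥(modularFunctionFieldFullC K (M' * q))) :
      ↥(modularFunctionFieldFullC K (M' * q)) →+* ↥(modularFunctionFieldFullC K (M' * q)))

theorem tv84_mem_V0 (φ : K →+* Fermat.Agent.S24.Kbar) (hq : q.Prime) (hqM' : ¬ q ∣ M')
    {π : R} (hπ : Irreducible π) (x : ↥(modularFunctionFieldFullC K (M' * q))) :
    x ∈ tv84_V0 M' q φ hq hqM' hπ ↔ al97L_w φ M' q hq hqM' x ∈ cm85_Vinf (M' * q) hπ :=
  Iff.rfl

/-- **Main theorem (P1a)**: every `x ∈ V_∞ ⊓ V_0` is a combination `∑_{i ≤ q} c_i y^i` with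
`c_i` in the Gauss valuation ring `V'` of `F(M')_K`, `y = j(Q^q)`. -/
theorem tv84_main (φ : K →+* Fermat.Agent.S24.Kbar) (hq : q.Prime) (hqM' : ¬ q ∣ M')
    {π : R} (hπ : Irreducible π) (hqR : ¬ IsUnit (q : R)) (hK : ((M' * q : ℕ) : K) ≠ 0)
    (x : ↥(modularFunctionFieldFullC K (M' * q))) (hx : x ∈ cm85_Vinf (M' * q) hπ)
    (hwx : al97L_w φ M' q hq hqM' x ∈ cm85_Vinf (M' * q) hπ) :
    ∃ c : Fin (q + 1) → ↥(modularFunctionFieldFullC K M'),
      (∀ i, c i ∈ cm85_Vinf M' hπ) ∧
      (x : LaurentSeries K) =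
        ∑ i, (c i : LaurentSeries K) * qExpand K q (jqModC K) ^ (i : ℕ) := by
  obtain ⟨g, hg⟩ := tv84_span M' q φ hq hqM' hπ hqR hK (x : LaurentSeries K) x.2
  set c : ℕ → ↥(modularFunctionFieldFullC K M') :=
    fun i => if h : i < q + 1 then g ⟨i, h⟩ else 0 with hc
  have hci : ∀ i : Fin (q + 1), c i = g i := fun i => by
    show (if h : (i : ℕ) < q + 1 then g ⟨i, h⟩ else 0) = g i
    rw [dif_pos i.2]
  have hsum : (x : LaurentSeries K) = ∑ i ∈ Finset.range (q + 1),
      (c i : LaurentSeries K) * qExpand K q (jqModC K) ^ i := by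
    rw [← Fin.sum_univ_eq_sum_range
      (fun i => (c i : LaurentSeries K) * qExpand K q (jqModC K) ^ i) (q + 1), hg]
    refine Finset.sum_congr rfl fun i _ => ?_
    rw [hci i]
  have h1 : ∑ i ∈ Finset.range (q + 1),
      (c i : LaurentSeries K) * qExpand K q (jqModC K) ^ i ∈
        tv84_G K (IsLocalRing.residue R) := by
    rw [← hsum]
    exact hx
  have h2 : ∑ i ∈ Finset.range (q + 1),
      qExpand K q (c i : LaurentSeries K) * jqModC K ^ i ∈
        tv84_G K (IsLocalRing.residue R) := by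
    rw [← tv84_w_combo φ M' q hq hqM' c (q + 1) x hsum]
    exact hwx
  have h3 := tv84_scale hπ M' q hq hqR (fun i => (c i : LaurentSeries K)) (fun i => (c i).2) h1 h2
  refine ⟨g, fun i => ?_, hg⟩
  have h4 := h3 i (Finset.mem_range.mpr i.2)
  rw [hci i] at h4
  exact h4

/-- `α⁻¹ V_∞ = V'`. -/
theorem tv84_alpha_mem {π : R} (hπ : Irreducible π)
    (a : ↥(modularFunctionFieldFullC K M')) :
    al97L_alpha K M' q a ∈ cm85_Vinf (M' * q) hπ ↔ a ∈ cm85_Vinf M' hπ := by
  show ((al97L_alpha K M' q a : ↥(modularFunctionFieldFullC K (M' * q))) : LaurentSeries K) ∈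
    tv84_G K (IsLocalRing.residue R) ↔ (a : LaurentSeries K) ∈ tv84_G K (IsLocalRing.residue R)
  rw [al97L_alpha_coe]

/-- `β V' ⊆ V_∞`. -/
theorem tv84_beta_mem {π : R} (hπ : Irreducible π)
    (a : ↥(modularFunctionFieldFullC K M')) (ha : a ∈ cm85_Vinf M' hπ) :
    al97L_beta K M' q a ∈ cm85_Vinf (M' * q) hπ := by
  show ((al97L_beta K M' q a : ↥(modularFunctionFieldFullC K (M' * q))) : LaurentSeries K) ∈
    tv84_G K (IsLocalRing.residue R)
  rw [al97L_beta_coe]
  exact tv84_qExpand_mem_G _ q _ ha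

/-- **`V_∞ ⊓ V_0` is integral over `V'`** (along `α : F(M')_K → F(M' q)_K`). -/
theorem tv84_integral (φ : K →+* Fermat.Agent.S24.Kbar) (hq : q.Prime) (hqM' : ¬ q ∣ M')
    {π : R} (hπ : Irreducible π) (hqR : ¬ IsUnit (q : R)) (hK : ((M' * q : ℕ) : K) ≠ 0)
    (x : ↥(modularFunctionFieldFullC K (M' * q))) (hx : x ∈ cm85_Vinf (M' * q) hπ)
    (hwx : al97L_w φ M' q hq hqM' x ∈ cm85_Vinf (M' * q) hπ) :
    (((al97L_alpha K M' q : ↥(modularFunctionFieldFullC K M') →ₐ[K]
        ↥(modularFunctionFieldFullC K (M' * q))) :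
        ↥(modularFunctionFieldFullC K M') →+* ↥(modularFunctionFieldFullC K (M' * q))).comp
      (cm85_Vinf (K := K) M' hπ).subtype).IsIntegralElem x := by
  set j0 : ↥(modularFunctionFieldFullC K M') := ⟨jqModC K, jqModC_mem_full K M'⟩ with hj0
  have hj0V : j0 ∈ cm85_Vinf M' hπ := tv84_J_mem (K := K) (IsLocalRing.residue R)
  refine tv84_integral_of_span _
    ((cm85_Vinf (M' * q) hπ).toSubring ⊓ (tv84_V0 M' q φ hq hqM' hπ).toSubring) ?_
    (al97L_beta K M' q j0) ?_ (q + 1) ?_ x
    (Subring.mem_inf.mpr ⟨hx, (tv84_mem_V0 M' q φ hq hqM' hπ x).mpr hwx⟩)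
  · intro a
    have h1 : al97L_alpha K M' q (a : ↥(modularFunctionFieldFullC K M')) ∈
        cm85_Vinf (M' * q) hπ := (tv84_alpha_mem M' q hπ _).mpr a.2
    have h2 : al97L_w φ M' q hq hqM' (al97L_alpha K M' q (a : ↥(modularFunctionFieldFullC K M'))) ∈
        cm85_Vinf (M' * q) hπ := by
      rw [al97L_w_alpha_apply]
      exact tv84_beta_mem M' q hπ _ a.2
    exact Subring.mem_inf.mpr ⟨h1, (tv84_mem_V0 M' q φ hq hqM' hπ _).mpr h2⟩
  · have h1 : al97L_beta K M' q j0 ∈ cm85_Vinf (M' * q) hπ := tv84_beta_mem M' q hπ j0 hj0V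
    have h2 : al97L_w φ M' q hq hqM' (al97L_beta K M' q j0) ∈ cm85_Vinf (M' * q) hπ := by
      rw [al97L_w_beta_apply]
      exact (tv84_alpha_mem M' q hπ j0).mpr hj0V
    exact Subring.mem_inf.mpr ⟨h1, (tv84_mem_V0 M' q φ hq hqM' hπ _).mpr h2⟩
  · intro z hz
    obtain ⟨hz1, hz2⟩ := Subring.mem_inf.mp hz
    obtain ⟨c, hcV, hc⟩ := tv84_main M' q φ hq hqM' hπ hqR hK z hz1
      ((tv84_mem_V0 M' q φ hq hqM' hπ z).mp hz2)
    have hz' : z = ∑ i, al97L_alpha K M' q (c i) * (al97L_beta K M' q j0) ^ (i : ℕ) := by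
      apply Subtype.ext
      rw [hc]
      simp only [AddSubmonoidClass.coe_finsetSum, MulMemClass.coe_mul, SubmonoidClass.coe_pow,
        al97L_alpha_coe, al97L_beta_coe, hj0]
    exact ⟨fun i => ⟨c i, hcV i⟩, hz'⟩

end tv84_main

end Fermat.Agent.S34
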