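import Mathlib

/-!
# S34 lab, registry row 511 (P3e-UVAt glue), abstract part (A) -- twin (helper12)

Mathlib only.  `F` a field, `R → F`, `π : R`, `B` an `R`-subalgebra of `F` which is integrally
closed in `F` (for instance any chart `pk15_chart R S`), `V1 V2` subrings of `F` containing `B`
with the unit property `x ∈ V, π⁻¹ x ∉ V → x⁻¹ ∈ V`.

Data: `j U V : F` with `U`, `V` integral over `R[j]`, `U * V = π ^ e * ε` (`ε` a unit of `R`,
`1 ≤ e`), `π⁻¹ U ∉ V1`, `π⁻¹ V ∉ V2`.  If at a maximal ideal `n ∋ π` of `B` lying on both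
branches (`∀ x : B, π⁻¹ x ∈ V_i → x ∈ n`) the element `j` is regular (`∃ s ∉ n, s j ∈ B`), then
the numerators `u = s^k U`, `v = s^k V` lie in `B`, `u v = π ^ e * (unit at n)`, and
`π⁻¹ u ∉ V1`, `π⁻¹ v ∉ V2`: the UNFOLDED `sf79_UVAt` of registry row 470.

* `uv12_adjoin_clear` : every element of `R[j]` is pushed into `B` by a power of `s`.
* `uv12_clear`        : `U` integral over `R[j]`, `s ∈ B`, `s j ∈ B` ⟹ `∃ k, ∀ l ≥ k, s^l U ∈ B`.
* `uv12_at`           : the statement at one maximal ideal `n`.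
* `uv12_main`         : the statement for all `n` (unfolded `sf79_UVAt`).
* `uv12_main_val`     : the same for `V1 V2 : ValuationSubring F`.
* `uv12_main_inv`     : the same conclusion from `U⁻¹ ∈ V1`, `V⁻¹ ∈ V2` (subrings).
* `uv12_UVAt`         : literal twin of `uv17_UVAt` (UVAt17.lean), independent proof.
-/

namespace Fermat.Agent.S34

open Polynomial

section clear

variable {R F : Type*} [CommRing R] [Field F] [Algebra R F]

/-- every element of `R[j]` is pushed into `B` by all large powers of `s`, when `s ∈ B` and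
`s * j ∈ B`. -/
theorem uv12_adjoin_clear (B : Subalgebra R F) (s j : F) (hs : s ∈ B) (hsj : s * j ∈ B)
    (a : F) (ha : a ∈ Algebra.adjoin R ({j} : Set F)) :
    ∃ k : ℕ, ∀ l : ℕ, k ≤ l → s ^ l * a ∈ B := by
  induction ha using Algebra.adjoin_induction with
  | mem y hy =>
    rw [Set.mem_singleton_iff] at hy
    subst hy
    refine ⟨1, fun l hl => ?_⟩
    obtain ⟨d, rfl⟩ := Nat.exists_eq_add_of_le hl
    have h1 : s ^ (1 + d) * y = s ^ d * (s * y) := by ring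
    rw [h1]
    exact B.mul_mem (B.pow_mem hs d) hsj
  | algebraMap r =>
    exact ⟨0, fun l _ => B.mul_mem (B.pow_mem hs l) (B.algebraMap_mem r)⟩
  | add a b _ _ iha ihb =>
    obtain ⟨ka, hka⟩ := iha
    obtain ⟨kb, hkb⟩ := ihb
    refine ⟨max ka kb, fun l hl => ?_⟩
    rw [mul_add]
    exact B.add_mem (hka l (le_trans (le_max_left _ _) hl)) (hkb l (le_trans (le_max_right _ _) hl))
  | mul a b _ _ iha ihb =>
    obtain ⟨ka, hka⟩ := iha
    obtain ⟨kb, hkb⟩ := ihb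
    refine ⟨ka + kb, fun l hl => ?_⟩
    obtain ⟨d, rfl⟩ := Nat.exists_eq_add_of_le hl
    have h1 : s ^ (ka + kb + d) * (a * b) = (s ^ (ka + d) * a) * (s ^ kb * b) := by ring
    rw [h1]
    exact B.mul_mem (hka _ (Nat.le_add_right _ _)) (hkb _ le_rfl)

/-- clearing denominators: `U` integral over `R[j]`, `B` integrally closed in `F`, `s ∈ B`,
`s * j ∈ B`; then all large powers of `s` push `U` into `B`. -/
theorem uv12_clear (B : Subalgebra R F) (hBcl : ∀ x : F, IsIntegral B x → x ∈ B)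
    (s j : F) (hs : s ∈ B) (hsj : s * j ∈ B) (U : F)
    (hU : IsIntegral (Algebra.adjoin R ({j} : Set F)) U) :
    ∃ k : ℕ, ∀ l : ℕ, k ≤ l → s ^ l * U ∈ B := by
  classical
  obtain ⟨p, hp, hpU⟩ := hU
  set d := p.natDegree with hd
  -- a uniform exponent for all coefficients
  have hcoef : ∀ i : ℕ, ∃ k : ℕ, ∀ l : ℕ, k ≤ l → s ^ l * ((p.coeff i : Algebra.adjoin R ({j} : Set F)) : F) ∈ B :=
    fun i => uv12_adjoin_clear B s j hs hsj _ (p.coeff i).2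
  choose kf hkf using hcoef
  set K := (Finset.range (d + 1)).sup kf with hK
  have hKi : ∀ i : ℕ, i < d + 1 → kf i ≤ K := fun i hi =>
    Finset.le_sup (f := kf) (Finset.mem_range.mpr hi)
  refine ⟨K, fun l hl => ?_⟩
  apply hBcl
  -- the coefficients of the scaled equation
  have hc : ∀ i : ℕ, i < d →
      ((p.coeff i : Algebra.adjoin R ({j} : Set F)) : F) * (s ^ l) ^ (d - i) ∈ B := by
    intro i hi
    obtain ⟨m, hm⟩ : ∃ m : ℕ, d - i = m + 1 := ⟨d - i - 1, by omega⟩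
    have h1 : ((p.coeff i : Algebra.adjoin R ({j} : Set F)) : F) * (s ^ l) ^ (d - i)
        = (s ^ l * ((p.coeff i : Algebra.adjoin R ({j} : Set F)) : F)) * (s ^ l) ^ m := by
      rw [hm]; ring
    rw [h1]
    exact B.mul_mem (hkf i l (le_trans (hKi i (by omega)) hl)) (B.pow_mem (B.pow_mem hs l) m)
  let b : ℕ → B := fun i =>
    if hi : i < d then ⟨_, hc i hi⟩ else 0
  have hb : ∀ i : ℕ, i < d → ((b i : B) : F)
      = ((p.coeff i : Algebra.adjoin R ({j} : Set F)) : F) * (s ^ l) ^ (d - i) := by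
    intro i hi
    simp only [b, dif_pos hi]
  -- the monic polynomial over `B`
  let r : B[X] := ∑ i ∈ Finset.range d, C (b i) * X ^ i
  have hr : r.degree < (d : WithBot ℕ) := by
    refine lt_of_le_of_lt (degree_sum_le _ _) ?_
    refine (Finset.sup_lt_iff (WithBot.bot_lt_coe d)).mpr ?_
    intro i hi
    exact lt_of_le_of_lt (degree_C_mul_X_pow_le i (b i))
      (WithBot.coe_lt_coe.mpr (Finset.mem_range.mp hi))
  refine ⟨X ^ d + r, monic_X_pow_add hr, ?_⟩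
  -- the equation for `U`
  have hsum : ∑ i ∈ Finset.range d, ((p.coeff i : Algebra.adjoin R ({j} : Set F)) : F) * U ^ i
      + U ^ d = 0 := by
    have h0 := hpU
    rw [eval₂_eq_sum_range, Finset.sum_range_succ, ← hd] at h0
    have hlead : p.coeff d = 1 := hp.coeff_natDegree
    rw [hlead, map_one, one_mul] at h0
    exact h0
  have heval : eval₂ (algebraMap B F) (s ^ l * U) (X ^ d + r)
      = (s ^ l * U) ^ d + ∑ i ∈ Finset.range d, ((b i : B) : F) * (s ^ l * U) ^ i := by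
    simp only [r, eval₂_add, eval₂_X_pow, eval₂_finsetSum, eval₂_mul, eval₂_C]
    rfl
  rw [heval]
  have hterm : ∀ i ∈ Finset.range d, ((b i : B) : F) * (s ^ l * U) ^ i
      = (s ^ l) ^ d * (((p.coeff i : Algebra.adjoin R ({j} : Set F)) : F) * U ^ i) := by
    intro i hi
    have hi' : i < d := Finset.mem_range.mp hi
    rw [hb i hi']
    have h2 : (s ^ l) ^ d = (s ^ l) ^ (d - i) * (s ^ l) ^ i := by
      rw [← pow_add]
      congr 1
      omega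
    rw [h2]
    ring
  rw [Finset.sum_congr rfl hterm, ← Finset.mul_sum]
  have h3 : (s ^ l * U) ^ d = (s ^ l) ^ d * U ^ d := by ring
  rw [h3, ← mul_add, add_comm, hsum, mul_zero]

end clear

section main

variable {R F : Type*} [CommRing R] [Field F] [Algebra R F]

/-- **UVAt at one maximal ideal.**  The numerators of `U`, `V` at a point `n` of the chart `B`
lying on both branches, where `j` is regular. -/
theorem uv12_at (π : R) (B : Subalgebra R F) (hBcl : ∀ x : F, IsIntegral B x → x ∈ B)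
    (V1 V2 : Subring F) (hB1 : ∀ x ∈ B, x ∈ V1) (hB2 : ∀ x ∈ B, x ∈ V2)
    (hunit1 : ∀ x ∈ V1, (algebraMap R F π)⁻¹ * x ∉ V1 → x⁻¹ ∈ V1)
    (hunit2 : ∀ x ∈ V2, (algebraMap R F π)⁻¹ * x ∉ V2 → x⁻¹ ∈ V2)
    (j U V : F) (hU : IsIntegral (Algebra.adjoin R ({j} : Set F)) U)
    (hV : IsIntegral (Algebra.adjoin R ({j} : Set F)) V)
    (e : ℕ) (he : 1 ≤ e) (ε : R) (hε : IsUnit ε)
    (hUV : U * V = algebraMap R F (π ^ e * ε))
    (hU1 : (algebraMap R F π)⁻¹ * U ∉ V1) (hV2 : (algebraMap R F π)⁻¹ * V ∉ V2)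
    (n : Ideal B) (hn : n.IsPrime)
    (hn1 : ∀ x : B, (algebraMap R F π)⁻¹ * (x : F) ∈ V1 → x ∈ n)
    (hn2 : ∀ x : B, (algebraMap R F π)⁻¹ * (x : F) ∈ V2 → x ∈ n)
    (s : B) (hs : s ∉ n) (hsj : (s : F) * j ∈ B) :
    ∃ (u v s' : B) (e' : ℕ), s' ∉ n ∧ 1 ≤ e' ∧ u * v = (algebraMap R B π) ^ e' * s' ∧
      (algebraMap R F π)⁻¹ * (u : F) ∉ V1 ∧ (algebraMap R F π)⁻¹ * (v : F) ∉ V2 := by
  obtain ⟨k1, hk1⟩ := uv12_clear B hBcl (s : F) j s.2 hsj U hU
  obtain ⟨k2, hk2⟩ := uv12_clear B hBcl (s : F) j s.2 hsj V hV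
  set k := max k1 k2 with hk
  have hu : (s : F) ^ k * U ∈ B := hk1 k (le_max_left _ _)
  have hv : (s : F) ^ k * V ∈ B := hk2 k (le_max_right _ _)
  have hsk : s ^ k ∉ n := fun h => hs (hn.mem_of_pow_mem k h)
  have hεn : algebraMap R B ε ∉ n := fun h =>
    hn.ne_top (Ideal.eq_top_of_isUnit_mem _ h (hε.map (algebraMap R B)))
  have hs0 : ((s : F) ^ k) ≠ 0 := by
    intro h0
    apply hsk
    have : s ^ k = 0 := Subtype.ext (by simpa using h0)
    rw [this]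
    exact n.zero_mem
  refine ⟨⟨_, hu⟩, ⟨_, hv⟩, s ^ k * s ^ k * algebraMap R B ε, e, ?_, he, ?_, ?_, ?_⟩
  · intro h
    rcases hn.mem_or_mem h with h' | h'
    · rcases hn.mem_or_mem h' with h'' | h''
      · exact hsk h''
      · exact hsk h''
    · exact hεn h'
  · apply Subtype.ext
    have h1 : (((⟨_, hu⟩ : B) * (⟨_, hv⟩ : B) : B) : F) = ((s : F) ^ k * U) * ((s : F) ^ k * V) := rfl
    have h2 : ((((algebraMap R B π) ^ e * (s ^ k * s ^ k * algebraMap R B ε) : B)) : F)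
        = (algebraMap R F π) ^ e * ((s : F) ^ k * (s : F) ^ k * algebraMap R F ε) := rfl
    rw [h1, h2]
    have h3 : ((s : F) ^ k * U) * ((s : F) ^ k * V) = (s : F) ^ k * (s : F) ^ k * (U * V) := by ring
    rw [h3, hUV, map_mul, map_pow]
    ring
  · intro h
    apply hU1
    have hsV : ((s : F) ^ k) ∈ V1 := hB1 _ (B.pow_mem s.2 k)
    have hnot : (algebraMap R F π)⁻¹ * ((s : F) ^ k) ∉ V1 := fun h' => hsk (hn1 (s ^ k) h')
    have hinv := hunit1 _ hsV hnot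
    have h4 : (algebraMap R F π)⁻¹ * U
        = ((s : F) ^ k)⁻¹ * ((algebraMap R F π)⁻¹ * ((s : F) ^ k * U)) := by
      field_simp
    rw [h4]
    exact V1.mul_mem hinv h
  · intro h
    apply hV2
    have hsV : ((s : F) ^ k) ∈ V2 := hB2 _ (B.pow_mem s.2 k)
    have hnot : (algebraMap R F π)⁻¹ * ((s : F) ^ k) ∉ V2 := fun h' => hsk (hn2 (s ^ k) h')
    have hinv := hunit2 _ hsV hnot
    have h4 : (algebraMap R F π)⁻¹ * V
        = ((s : F) ^ k)⁻¹ * ((algebraMap R F π)⁻¹ * ((s : F) ^ k * V)) := by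
      field_simp
    rw [h4]
    exact V2.mul_mem hinv h

/-- **Row 511 (A), the unfolded `sf79_UVAt`.**  `hj` = `j` is regular at every maximal ideal
`n ∋ π` of `B` lying on both branches (registry row 491 (D)). -/
theorem uv12_main (π : R) (B : Subalgebra R F) (hBcl : ∀ x : F, IsIntegral B x → x ∈ B)
    (V1 V2 : Subring F) (hB1 : ∀ x ∈ B, x ∈ V1) (hB2 : ∀ x ∈ B, x ∈ V2)
    (hunit1 : ∀ x ∈ V1, (algebraMap R F π)⁻¹ * x ∉ V1 → x⁻¹ ∈ V1)
    (hunit2 : ∀ x ∈ V2, (algebraMap R F π)⁻¹ * x ∉ V2 → x⁻¹ ∈ V2)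
    (j U V : F) (hU : IsIntegral (Algebra.adjoin R ({j} : Set F)) U)
    (hV : IsIntegral (Algebra.adjoin R ({j} : Set F)) V)
    (e : ℕ) (he : 1 ≤ e) (ε : R) (hε : IsUnit ε)
    (hUV : U * V = algebraMap R F (π ^ e * ε))
    (hU1 : (algebraMap R F π)⁻¹ * U ∉ V1) (hV2 : (algebraMap R F π)⁻¹ * V ∉ V2)
    (hj : ∀ n : Ideal B, n.IsMaximal → algebraMap R B π ∈ n →
      (∀ x : B, (algebraMap R F π)⁻¹ * (x : F) ∈ V1 → x ∈ n) →
      (∀ x : B, (algebraMap R F π)⁻¹ * (x : F) ∈ V2 → x ∈ n) →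
      ∃ s : B, s ∉ n ∧ (s : F) * j ∈ B) :
    ∀ n : Ideal B, n.IsMaximal → algebraMap R B π ∈ n →
      (∀ x : B, (algebraMap R F π)⁻¹ * (x : F) ∈ V1 → x ∈ n) →
      (∀ x : B, (algebraMap R F π)⁻¹ * (x : F) ∈ V2 → x ∈ n) →
      ∃ (u v s : B) (e : ℕ), s ∉ n ∧ 1 ≤ e ∧ u * v = (algebraMap R B π) ^ e * s ∧
        (algebraMap R F π)⁻¹ * (u : F) ∉ V1 ∧ (algebraMap R F π)⁻¹ * (v : F) ∉ V2 := by
  intro n hn hπn hn1 hn2
  obtain ⟨s, hs, hsj⟩ := hj n hn hπn hn1 hn2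
  exact uv12_at π B hBcl V1 V2 hB1 hB2 hunit1 hunit2 j U V hU hV e he ε hε hUV hU1 hV2
    n hn.isPrime hn1 hn2 s hs hsj

/-- the unit property of a valuation subring whose maximal ideal is generated by `π`. -/
theorem uv12_unit_of_val (π : R) (W : ValuationSubring F)
    (hmax : ∀ x ∈ W, x⁻¹ ∉ W → (algebraMap R F π)⁻¹ * x ∈ W) :
    ∀ x ∈ W.toSubring, (algebraMap R F π)⁻¹ * x ∉ W.toSubring → x⁻¹ ∈ W.toSubring := by
  intro x hx hnot
  by_contra hinv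
  exact hnot (hmax x hx hinv)

/-- `uv12_main` for valuation subrings `V1 V2` (maximal ideals generated by `π`, in the
elementary form `x ∈ V, x⁻¹ ∉ V → π⁻¹ x ∈ V`). -/
theorem uv12_main_val (π : R) (B : Subalgebra R F) (hBcl : ∀ x : F, IsIntegral B x → x ∈ B)
    (V1 V2 : ValuationSubring F) (hB1 : ∀ x ∈ B, x ∈ V1) (hB2 : ∀ x ∈ B, x ∈ V2)
    (hmax1 : ∀ x ∈ V1, x⁻¹ ∉ V1 → (algebraMap R F π)⁻¹ * x ∈ V1)
    (hmax2 : ∀ x ∈ V2, x⁻¹ ∉ V2 → (algebraMap R F π)⁻¹ * x ∈ V2)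
    (j U V : F) (hU : IsIntegral (Algebra.adjoin R ({j} : Set F)) U)
    (hV : IsIntegral (Algebra.adjoin R ({j} : Set F)) V)
    (e : ℕ) (he : 1 ≤ e) (ε : R) (hε : IsUnit ε)
    (hUV : U * V = algebraMap R F (π ^ e * ε))
    (hU1 : (algebraMap R F π)⁻¹ * U ∉ V1) (hV2 : (algebraMap R F π)⁻¹ * V ∉ V2)
    (hj : ∀ n : Ideal B, n.IsMaximal → algebraMap R B π ∈ n →
      (∀ x : B, (algebraMap R F π)⁻¹ * (x : F) ∈ V1 → x ∈ n) →
      (∀ x : B, (algebraMap R F π)⁻¹ * (x : F) ∈ V2 → x ∈ n) →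
      ∃ s : B, s ∉ n ∧ (s : F) * j ∈ B) :
    ∀ n : Ideal B, n.IsMaximal → algebraMap R B π ∈ n →
      (∀ x : B, (algebraMap R F π)⁻¹ * (x : F) ∈ V1 → x ∈ n) →
      (∀ x : B, (algebraMap R F π)⁻¹ * (x : F) ∈ V2 → x ∈ n) →
      ∃ (u v s : B) (e : ℕ), s ∉ n ∧ 1 ≤ e ∧ u * v = (algebraMap R B π) ^ e * s ∧
        (algebraMap R F π)⁻¹ * (u : F) ∉ V1 ∧ (algebraMap R F π)⁻¹ * (v : F) ∉ V2 :=
  uv12_main π B hBcl V1.toSubring V2.toSubring hB1 hB2 (uv12_unit_of_val π V1 hmax1)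
    (uv12_unit_of_val π V2 hmax2) j U V hU hV e he ε hε hUV hU1 hV2 hj

/-- **UVAt, inverse form, for subrings.**  Same conclusion from `U⁻¹ ∈ V1`, `V⁻¹ ∈ V2`
(no unit property of `V1`, `V2`, no inclusion `B ⊆ V_i` needed). -/
theorem uv12_main_inv (π : R) (hπ0 : algebraMap R F π ≠ 0) (B : Subalgebra R F)
    (hBcl : ∀ x : F, IsIntegral B x → x ∈ B) (V1 V2 : Subring F)
    (j U V : F) (hU : IsIntegral (Algebra.adjoin R ({j} : Set F)) U)
    (hV : IsIntegral (Algebra.adjoin R ({j} : Set F)) V)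
    (e : ℕ) (he : 1 ≤ e) (ε : R) (hε : IsUnit ε)
    (hUV : U * V = algebraMap R F (π ^ e * ε))
    (hU1 : U⁻¹ ∈ V1) (hV2 : V⁻¹ ∈ V2)
    (hj : ∀ n : Ideal B, n.IsMaximal → algebraMap R B π ∈ n →
      (∀ x : B, (algebraMap R F π)⁻¹ * (x : F) ∈ V1 → x ∈ n) →
      (∀ x : B, (algebraMap R F π)⁻¹ * (x : F) ∈ V2 → x ∈ n) →
      ∃ s : B, s ∉ n ∧ (s : F) * j ∈ B) :
    ∀ n : Ideal B, n.IsMaximal → algebraMap R B π ∈ n →
      (∀ x : B, (algebraMap R F π)⁻¹ * (x : F) ∈ V1 → x ∈ n) →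
      (∀ x : B, (algebraMap R F π)⁻¹ * (x : F) ∈ V2 → x ∈ n) →
      ∃ (u v s : B) (e : ℕ), s ∉ n ∧ 1 ≤ e ∧ u * v = (algebraMap R B π) ^ e * s ∧
        (algebraMap R F π)⁻¹ * (u : F) ∉ V1 ∧ (algebraMap R F π)⁻¹ * (v : F) ∉ V2 := by
  intro n hn hπn hn1 hn2
  have hnp : n.IsPrime := hn.isPrime
  obtain ⟨s, hs, hsj⟩ := hj n hn hπn hn1 hn2
  obtain ⟨k1, hk1⟩ := uv12_clear B hBcl (s : F) j s.2 hsj U hU
  obtain ⟨k2, hk2⟩ := uv12_clear B hBcl (s : F) j s.2 hsj V hV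
  set k := max k1 k2 with hk
  have hu : (s : F) ^ k * U ∈ B := hk1 k (le_max_left _ _)
  have hv : (s : F) ^ k * V ∈ B := hk2 k (le_max_right _ _)
  have hsk : s ^ k ∉ n := fun h => hs (hnp.mem_of_pow_mem k h)
  have hεn : algebraMap R B ε ∉ n := fun h =>
    hnp.ne_top (Ideal.eq_top_of_isUnit_mem _ h (hε.map (algebraMap R B)))
  have hεF : algebraMap R F ε ≠ 0 := (hε.map (algebraMap R F)).ne_zero
  have hUV0 : U * V ≠ 0 := by
    rw [hUV, map_mul, map_pow]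
    exact mul_ne_zero (pow_ne_zero _ hπ0) hεF
  have hU0 : U ≠ 0 := left_ne_zero_of_mul hUV0
  have hV0 : V ≠ 0 := right_ne_zero_of_mul hUV0
  refine ⟨⟨_, hu⟩, ⟨_, hv⟩, s ^ k * s ^ k * algebraMap R B ε, e, ?_, he, ?_, ?_, ?_⟩
  · intro h
    rcases hnp.mem_or_mem h with h' | h'
    · rcases hnp.mem_or_mem h' with h'' | h''
      · exact hsk h''
      · exact hsk h''
    · exact hεn h'
  · apply Subtype.ext
    have h1 : (((⟨_, hu⟩ : B) * (⟨_, hv⟩ : B) : B) : F) = ((s : F) ^ k * U) * ((s : F) ^ k * V) := rfl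
    have h2 : ((((algebraMap R B π) ^ e * (s ^ k * s ^ k * algebraMap R B ε) : B)) : F)
        = (algebraMap R F π) ^ e * ((s : F) ^ k * (s : F) ^ k * algebraMap R F ε) := rfl
    rw [h1, h2]
    have h3 : ((s : F) ^ k * U) * ((s : F) ^ k * V) = (s : F) ^ k * (s : F) ^ k * (U * V) := by ring
    rw [h3, hUV, map_mul, map_pow]
    ring
  · intro h
    apply hsk
    apply hn1 (s ^ k)
    have h4 : (algebraMap R F π)⁻¹ * (((s ^ k : B) : B) : F)
        = ((algebraMap R F π)⁻¹ * ((s : F) ^ k * U)) * U⁻¹ := by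
      have h5 : (((s ^ k : B) : B) : F) = (s : F) ^ k := rfl
      rw [h5]
      field_simp
    rw [h4]
    exact V1.mul_mem h hU1
  · intro h
    apply hsk
    apply hn2 (s ^ k)
    have h4 : (algebraMap R F π)⁻¹ * (((s ^ k : B) : B) : F)
        = ((algebraMap R F π)⁻¹ * ((s : F) ^ k * V)) * V⁻¹ := by
      have h5 : (((s ^ k : B) : B) : F) = (s : F) ^ k := rfl
      rw [h5]
      field_simp
    rw [h4]
    exact V2.mul_mem h hV2

/-- literal twin of `uv17_UVAt` (valuation subrings, `U⁻¹ ∈ V1`, `V⁻¹ ∈ V2`), independent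
proof. -/
theorem uv12_UVAt (π : R) (hπ0 : algebraMap R F π ≠ 0) (B : Subalgebra R F)
    (hBint : ∀ z : F, IsIntegral B z → z ∈ B) (V1 V2 : ValuationSubring F)
    (j U V : F)
    (hU : IsIntegral (Algebra.adjoin R ({j} : Set F)) U)
    (hV : IsIntegral (Algebra.adjoin R ({j} : Set F)) V)
    (e : ℕ) (he : 1 ≤ e) (ε : R) (hε : IsUnit ε)
    (hUV : U * V = algebraMap R F (π ^ e * ε))
    (hU1 : U⁻¹ ∈ V1) (hV2 : V⁻¹ ∈ V2)
    (hj : ∀ n : Ideal B, n.IsMaximal → algebraMap R B π ∈ n →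
      (∀ x : B, (algebraMap R F π)⁻¹ * (x : F) ∈ V1 → x ∈ n) →
      (∀ x : B, (algebraMap R F π)⁻¹ * (x : F) ∈ V2 → x ∈ n) →
      ∃ s : B, s ∉ n ∧ (s : F) * j ∈ B) :
    ∀ n : Ideal B, n.IsMaximal → algebraMap R B π ∈ n →
      (∀ x : B, (algebraMap R F π)⁻¹ * (x : F) ∈ V1 → x ∈ n) →
      (∀ x : B, (algebraMap R F π)⁻¹ * (x : F) ∈ V2 → x ∈ n) →
      ∃ (u v s : B) (e : ℕ), s ∉ n ∧ 1 ≤ e ∧ u * v = (algebraMap R B π) ^ e * s ∧
        (algebraMap R F π)⁻¹ * (u : F) ∉ V1 ∧ (algebraMap R F π)⁻¹ * (v : F) ∉ V2 :=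
  uv12_main_inv π hπ0 B hBint V1.toSubring V2.toSubring j U V hU hV e he ε hε hUV hU1 hV2 hj

end main

end Fermat.Agent.S34
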