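import Fermat.Agent.S34.UVAt17
import Fermat.Agent.S34.DeltaQuot56b
import Fermat.Agent.S34.SpecFibre79

/-!
# S34 lab (helper17), registry row 511: `sf79_UVAt` on the canonical frame data

Canonical data of `Iface47c` at level `M' * q` (`q` prime, `q ∤ M'`) over a discrete valuation
ring `R` with fraction field `K` of characteristic zero, `π` a uniformizer, `q` a non-unit of `R`:
`V_∞ = cm85_Vinf (M' * q) hπ`, `V_0 = s34i47c_V0 M' q hq hM' hπ`, `j = rm90_j K (M' * q)`.

* `uv17c_UVAt`       : for every `R`-subalgebra `B` of `F = F_K(M' q)` integrally closed in `F`: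
  if `j` is regular at every maximal ideal `n ∋ π` of `B` lying on both branches (row 491 (D)),
  then the LITERAL `sf79_UVAt π B V_∞.toSubring V_0.toSubring` of `SpecFibre79` holds;
* `uv17c_UVAt_chart` : the same for the charts `B = pk15_chart R s` (no integrality hypothesis).

Proof: `dq56b_main` (helper56, package P4′ on the canonical data) + `uv17_UVAt`.

All names are prefixed `uv17c_`.
-/

set_option autoImplicit false
set_option linter.unusedSectionVars false

open ModularCurve AlgebraicCurve

namespace Fermat.Agent.S34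

open Fermat.Agent.S18

local notation "Q̄" => AlgebraicClosure ℚ

section uv17c

variable {R K : Type} [CommRing R] [IsDomain R] [IsDiscreteValuationRing R] [Field K] [CharZero K]
  [Algebra R K] [IsFractionRing R K] [Algebra K Q̄]
  (M' q : ℕ) [NeZero M'] [NeZero q] (hq : q.Prime) (hM' : ¬ q ∣ M')
  [Algebra R ↥(modularFunctionFieldFullC K (M' * q))]
  [IsScalarTower R K ↥(modularFunctionFieldFullC K (M' * q))] {π : R} (hπ : Irreducible π)

include hπ in
/-- The uniformizer is nonzero in `F`. -/
theorem uv17c_pi_ne_zero :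
    algebraMap R ↥(modularFunctionFieldFullC K (M' * q)) π ≠ 0 := by
  rw [IsScalarTower.algebraMap_apply R K ↥(modularFunctionFieldFullC K (M' * q))]
  intro h0
  have h1 : algebraMap R K π = 0 :=
    (algebraMap K ↥(modularFunctionFieldFullC K (M' * q))).injective (by rw [h0, map_zero])
  exact hπ.ne_zero ((IsFractionRing.injective R K) (by rw [h1, map_zero]))

/-- **`sf79_UVAt` on the canonical frame data**, for every `R`-subalgebra `B` of `F` which is
integrally closed in `F`, from the regularity of `j` at the points lying on both branches. -/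
theorem uv17c_UVAt (hqR : ¬ IsUnit (q : R))
    (B : Subalgebra R ↥(modularFunctionFieldFullC K (M' * q)))
    (hBint : ∀ z : ↥(modularFunctionFieldFullC K (M' * q)), IsIntegral B z → z ∈ B)
    (hj : ∀ n : Ideal B, n.IsMaximal → algebraMap R B π ∈ n →
      sf79_OnBr π B (cm85_Vinf (K := K) (M' * q) hπ).toSubring n →
      sf79_OnBr π B (s34i47c_V0 (K := K) M' q hq hM' hπ).toSubring n →
      ∃ s : B, s ∉ n ∧
        (s : ↥(modularFunctionFieldFullC K (M' * q))) * rm90_j K (M' * q) ∈ B) :
    sf79_UVAt π B (cm85_Vinf (K := K) (M' * q) hπ).toSubring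
      (s34i47c_V0 (K := K) M' q hq hM' hπ).toSubring := by
  obtain ⟨U, V, e, ε, hε, he, hUV, hU, hV, -, -, -, -, -, -, hU1, hV2⟩ :=
    dq56b_main (K := K) M' q hq hM' hπ hqR
  exact uv17_UVAt π (uv17c_pi_ne_zero M' q hπ) B hBint (cm85_Vinf (K := K) (M' * q) hπ)
    (s34i47c_V0 (K := K) M' q hq hM' hπ) (rm90_j K (M' * q)) U V hU hV e he ε hε hUV hU1 hV2 hj

/-- **`sf79_UVAt` on the canonical frame data for the charts** `B = pk15_chart R s`. -/
theorem uv17c_UVAt_chart (hqR : ¬ IsUnit (q : R))
    (s : Set ↥(modularFunctionFieldFullC K (M' * q)))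
    (hj : ∀ n : Ideal (pk15_chart R s), n.IsMaximal → algebraMap R (pk15_chart R s) π ∈ n →
      sf79_OnBr π (pk15_chart R s) (cm85_Vinf (K := K) (M' * q) hπ).toSubring n →
      sf79_OnBr π (pk15_chart R s) (s34i47c_V0 (K := K) M' q hq hM' hπ).toSubring n →
      ∃ t : pk15_chart R s, t ∉ n ∧
        (t : ↥(modularFunctionFieldFullC K (M' * q))) * rm90_j K (M' * q) ∈ pk15_chart R s) :
    sf79_UVAt π (pk15_chart R s) (cm85_Vinf (K := K) (M' * q) hπ).toSubring
      (s34i47c_V0 (K := K) M' q hq hM' hπ).toSubring :=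
  uv17c_UVAt M' q hq hM' hπ hqR (pk15_chart R s) (uv17_chart_intClosed s) hj

end uv17c

end Fermat.Agent.S34
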