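import Fermat.Agent.S34.UVAt17
import Fermat.Agent.S34.UVIntegral75
import Fermat.Agent.S34.AtkinLehnerVal97

/-!
# S34 lab (helper17), registry row 511: the glue `sf79_UVAt`, instance

Level `N * ℓ` (`ℓ` prime, `ℓ ∤ N`), `R` a discrete valuation ring with fraction field `K` in
which `ℓ` is a nonzero non-unit, `F = F(Nℓ)_K`, `V_∞ = c1g55_V R K (N * ℓ) hπ`,
`V_0 = al97V_V0 φ N ℓ hℓ hN hπ`, `j = rm90_j K (N * ℓ)`.

`uv17_UVAt_inst`: for every `R`-subalgebra `B` of `F` which is integrally closed in `F`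
(e.g. the charts `pk15_chart R {h}`, `{h⁻¹}`: `uv17_chart_intClosed`), given

* `xU`, `xV : F` with Laurent series `U = Δ(Q)/Δ(Q^ℓ)` and `V = ℓ^12 Δ(Q^ℓ)/Δ(Q)`
  (`uvi75_U ℓ`, `uvi75_V ℓ`; membership = package P4′),
* `w xU = xV` for the Atkin–Lehner involution `w = al97L_w` (package P4′ (d)),
* `hj`: `j` is regular at every maximal ideal `n ∋ π` of `B` lying on both branches
  (row 491 (D)),

the UNFOLDED statement `sf79_UVAt π B V_∞ V_0` of registry row 470 holds.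

All names are prefixed `uv17_`.
-/

set_option autoImplicit false
set_option linter.unusedSectionVars false
set_option linter.style.haveILetI false

namespace Fermat.Agent.S34

open ModularCurve AlgebraicCurve IntermediateField
open Fermat.Agent.S24 Fermat.Agent.S37 Fermat.Agent.S18

section

variable {R K : Type} [CommRing R] [IsDomain R] [IsDiscreteValuationRing R] [Field K]
  [Algebra R K] [IsFractionRing R K] (φ : K →+* Kbar)
variable (N ℓ : ℕ) [NeZero N] [NeZero ℓ] (hℓ : ℓ.Prime) (hN : ¬ ℓ ∣ N)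
  {π : R} (hπ : Irreducible π)
variable [Algebra R ↥(modularFunctionFieldFullC K (N * ℓ))]
  [IsScalarTower R K ↥(modularFunctionFieldFullC K (N * ℓ))]

/-- `xU * xV = ℓ ^ 12` in `F`. -/
theorem uv17_mul_eq (xU xV : ↥(modularFunctionFieldFullC K (N * ℓ)))
    (hxU : (xU : LaurentSeries K) = coeffMap (Int.castRingHom K) (uvi75_U ℓ))
    (hxV : (xV : LaurentSeries K) = coeffMap (Int.castRingHom K) (uvi75_V ℓ)) :
    xU * xV = (ℓ : ↥(modularFunctionFieldFullC K (N * ℓ))) ^ 12 := by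
  apply Subtype.ext
  have h1 : ((xU * xV : ↥(modularFunctionFieldFullC K (N * ℓ))) : LaurentSeries K) =
      (xU : LaurentSeries K) * (xV : LaurentSeries K) := rfl
  have h2 : (((ℓ : ↥(modularFunctionFieldFullC K (N * ℓ))) ^ 12 :
      ↥(modularFunctionFieldFullC K (N * ℓ))) : LaurentSeries K) = (ℓ : LaurentSeries K) ^ 12 := by
    push_cast
    rfl
  rw [h1, h2, hxU, hxV, ← map_mul, uvi75_U_mul_V, map_pow, map_natCast]

/-- **The glue `sf79_UVAt`, instance** (unfolded form of registry row 470) for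
`V_∞ = c1g55_V`, `V_0 = al97V_V0`. -/
theorem uv17_UVAt_inst (hℓR : ¬ IsUnit (ℓ : R)) (hℓ0 : (ℓ : R) ≠ 0)
    (B : Subalgebra R ↥(modularFunctionFieldFullC K (N * ℓ)))
    (hBint : ∀ z : ↥(modularFunctionFieldFullC K (N * ℓ)), IsIntegral B z → z ∈ B)
    (xU xV : ↥(modularFunctionFieldFullC K (N * ℓ)))
    (hxU : (xU : LaurentSeries K) = coeffMap (Int.castRingHom K) (uvi75_U ℓ))
    (hxV : (xV : LaurentSeries K) = coeffMap (Int.castRingHom K) (uvi75_V ℓ))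
    (hw : al97L_w φ N ℓ hℓ hN xU = xV)
    (hj : ∀ n : Ideal B, n.IsMaximal → algebraMap R B π ∈ n →
      (∀ x : B, (algebraMap R ↥(modularFunctionFieldFullC K (N * ℓ)) π)⁻¹ *
        (x : ↥(modularFunctionFieldFullC K (N * ℓ))) ∈ c1g55_V R K (N * ℓ) hπ → x ∈ n) →
      (∀ x : B, (algebraMap R ↥(modularFunctionFieldFullC K (N * ℓ)) π)⁻¹ *
        (x : ↥(modularFunctionFieldFullC K (N * ℓ))) ∈ al97V_V0 φ N ℓ hℓ hN hπ → x ∈ n) →
      ∃ s : B, s ∉ n ∧ (s : ↥(modularFunctionFieldFullC K (N * ℓ))) * rm90_j K (N * ℓ) ∈ B) :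
    ∀ n : Ideal B, n.IsMaximal → algebraMap R B π ∈ n →
      (∀ x : B, (algebraMap R ↥(modularFunctionFieldFullC K (N * ℓ)) π)⁻¹ *
        (x : ↥(modularFunctionFieldFullC K (N * ℓ))) ∈ c1g55_V R K (N * ℓ) hπ → x ∈ n) →
      (∀ x : B, (algebraMap R ↥(modularFunctionFieldFullC K (N * ℓ)) π)⁻¹ *
        (x : ↥(modularFunctionFieldFullC K (N * ℓ))) ∈ al97V_V0 φ N ℓ hℓ hN hπ → x ∈ n) →
      ∃ (u v s : B) (e : ℕ), s ∉ n ∧ 1 ≤ e ∧ u * v = (algebraMap R B π) ^ e * s ∧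
        (algebraMap R ↥(modularFunctionFieldFullC K (N * ℓ)) π)⁻¹ *
          (u : ↥(modularFunctionFieldFullC K (N * ℓ))) ∉ c1g55_V R K (N * ℓ) hπ ∧
        (algebraMap R ↥(modularFunctionFieldFullC K (N * ℓ)) π)⁻¹ *
          (v : ↥(modularFunctionFieldFullC K (N * ℓ))) ∉ al97V_V0 φ N ℓ hℓ hN hπ := by
  -- `ℓ = unit * π ^ n`, `n ≥ 1`
  obtain ⟨n, u, hu⟩ := IsDiscreteValuationRing.eq_unit_mul_pow_irreducible hℓ0 hπ
  have hn : 1 ≤ n := by
    rcases Nat.eq_zero_or_pos n with h0 | h0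
    · exfalso
      apply hℓR
      rw [hu, h0, pow_zero, mul_one]
      exact u.isUnit
    · exact h0
  have hπ0 : algebraMap R ↥(modularFunctionFieldFullC K (N * ℓ)) π ≠ 0 := by
    rw [IsScalarTower.algebraMap_apply R K ↥(modularFunctionFieldFullC K (N * ℓ))]
    intro h0
    have h1 : algebraMap R K π = 0 :=
      (map_eq_zero (algebraMap K ↥(modularFunctionFieldFullC K (N * ℓ)))).mp h0
    exact hπ.ne_zero ((map_eq_zero_iff _ (IsFractionRing.injective R K)).mp h1)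
  have hUV : xU * xV = algebraMap R ↥(modularFunctionFieldFullC K (N * ℓ))
      (π ^ (12 * n) * ((u ^ 12 : Rˣ) : R)) := by
    rw [uv17_mul_eq N ℓ xU xV hxU hxV]
    have h1 : (ℓ : ↥(modularFunctionFieldFullC K (N * ℓ))) =
        algebraMap R ↥(modularFunctionFieldFullC K (N * ℓ)) (ℓ : R) := (map_natCast _ ℓ).symm
    rw [h1, ← map_pow, hu]
    congr 1
    rw [mul_pow, ← pow_mul, Units.val_pow_eq_pow_val, mul_comm n 12, mul_comm]
  have hUunit := uvi75_gauss_unit (M := N * ℓ) hπ ℓ xU hxU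
  have hV2 : xV⁻¹ ∈ al97V_V0 φ N ℓ hℓ hN hπ := by
    rw [al97V_mem_V0, map_inv₀, ← hw, al97L_w_w]
    exact hUunit.2
  exact uv17_UVAt π hπ0 B hBint (c1g55_V R K (N * ℓ) hπ) (al97V_V0 φ N ℓ hℓ hN hπ)
    (rm90_j K (N * ℓ)) xU xV
    (uvi75_isIntegral_j_U (R := R) K (N * ℓ) ℓ hℓ xU hxU)
    (uvi75_isIntegral_j_V (R := R) K (N * ℓ) ℓ hℓ xV hxV)
    (12 * n) (by omega) ((u ^ 12 : Rˣ) : R) (u ^ 12).isUnit hUV hUunit.2 hV2 hj

end

end Fermat.Agent.S34
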