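import Fermat.Agent.S42.FunFieldBar79
import Fermat.Agent.S42.LevelOne27

/-!
# S34 lab, row P4' (d), analytic core (helper24): `w_q(U) * U = q ^ 12`

Let `N = M' * q` with `q` prime, `q ∤ M'`, let `L` be a field with a ring homomorphism
`ψ : L →+* ℂ`, let `F_L(N) = laurentBaseChange L (modularFunctionFieldFull N)` be the function
field of level `N` over `L` (Laurent series) and
`ev_ψ = ff79_evMer N ∘ ff79_bc ψ N : F_L(N) → mer95_MER` its embedding into the meromorphic
functions on `ℍ`.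

* `uvw24_W` : an Atkin–Lehner matrix `W = [[q x, -y], [M' q, q]]` (`q x + M' y = 1`, `det = q`).
* `uvw24_kleinJ_A`, `uvw24_kleinJ_B` : `j(e · Wτ) = j(e q · τ)` and `j(e q · Wτ) = j(e · τ)` for
  `e ∣ M'`.
* `uvw24_disc` : `Δ(Wτ) Δ(τ) = q ^ 12 Δ(qτ) Δ(q Wτ)`.
* `uvw24_ev_comp` : a ring endomorphism `w` of `F_L(N)` fixing the constants with
  `ev_ψ (w j(q^d)) = g • ev_ψ (j(q^d))` for all `d ∣ N` satisfies `ev_ψ (w f) = g • ev_ψ f`.
* `uvw24_main_frac` : if `w` fixes the constants and swaps `j(q^e) ↔ j(q^(e q))` (`e ∣ M'`), and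
  `u` is an element with `ev_ψ u = a / b = Δ(τ) / Δ(qτ)`, then `w u * u = q ^ 12`.
* `uvw24_main` : the same with `ev_ψ u` given by one holomorphic function.
-/

set_option autoImplicit false

open ModularCurve AlgebraicCurve MatrixGroups UpperHalfPlane ModularForm
open Fermat.Agent.S24 Fermat.Agent.S42

namespace Fermat.Agent.S34

noncomputable section

/-- An element of `SL(2, ℤ)` from its entries. -/
def uvw24_sl (a b c d : ℤ) (h : a * d - b * c = 1) : SL(2, ℤ) :=
  ⟨!![a, b; c, d], by rw [Matrix.det_fin_two_of]; exact h⟩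

theorem uvw24_sl_smul_coe (a b c d : ℤ) (h : a * d - b * c = 1) (τ : ℍ) :
    ((uvw24_sl a b c d h • τ : ℍ) : ℂ) = ((a : ℂ) * τ + b) / ((c : ℂ) * τ + d) := by
  rw [UpperHalfPlane.coe_specialLinearGroup_apply]
  simp [uvw24_sl]

theorem uvw24_sl_denom (a b c d : ℤ) (h : a * d - b * c = 1) (τ : ℍ) :
    denom (Matrix.SpecialLinearGroup.toGL ((Matrix.SpecialLinearGroup.map (Int.castRingHom ℝ))
      (uvw24_sl a b c d h))) (τ : ℂ) = (c : ℂ) * τ + d := by
  rw [ModularGroup.denom_apply]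
  simp [uvw24_sl]

theorem uvw24_sl_denom_ne (a b c d : ℤ) (h : a * d - b * c = 1) (τ : ℍ) :
    (c : ℂ) * τ + d ≠ 0 := by
  rw [← uvw24_sl_denom a b c d h τ]
  exact denom_ne_zero _ τ

/-- `Δ(γτ) = (cτ + d)^12 Δ(τ)`. -/
theorem uvw24_disc_sl (a b c d : ℤ) (h : a * d - b * c = 1) (τ : ℍ) :
    ModularForm.discriminant (uvw24_sl a b c d h • τ)
      = ((c : ℂ) * τ + d) ^ 12 * ModularForm.discriminant τ := by
  have h1 := l1j27_disc_smul (uvw24_sl a b c d h) τ
  rw [uvw24_sl_denom] at h1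
  have hne := uvw24_sl_denom_ne a b c d h τ
  rw [← h1, zpow_neg]
  have h2 : (((c : ℂ) * τ + d) ^ (12 : ℤ)) = ((c : ℂ) * τ + d) ^ 12 := by
    norm_cast
  rw [h2]
  field_simp

section W

variable (M' q : ℕ) (x y : ℤ)

/-- The Atkin–Lehner matrix `[[q x, -y], [M' q, q]]` of determinant `q`. -/
def uvw24_W (hq : 0 < q) (hxy : (q : ℤ) * x + (M' : ℤ) * y = 1) : GL(2, ℝ)⁺ :=
  mer95_gl !![(q : ℤ) * x, -y; (M' : ℤ) * q, q] (by
    rw [Matrix.det_fin_two_of]
    have h1 : (q : ℤ) * x * q - -y * ((M' : ℤ) * q) = q * ((q : ℤ) * x + (M' : ℤ) * y) := by ring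
    rw [h1, hxy, mul_one]
    exact_mod_cast hq)

theorem uvw24_W_smul_coe (hq : 0 < q) (hxy : (q : ℤ) * x + (M' : ℤ) * y = 1) (τ : ℍ) :
    ((uvw24_W M' q x y hq hxy • τ : ℍ) : ℂ)
      = ((q : ℂ) * x * τ - y) / ((M' : ℂ) * q * τ + q) := by
  unfold uvw24_W
  rw [mer95_gl_smul_coe]
  simp
  ring

/-- `j(e · Wτ) = j(e q · τ)` for `e ∣ M'`. -/
theorem uvw24_kleinJ_A (hq : 0 < q) (hxy : (q : ℤ) * x + (M' : ℤ) * y = 1) (e : ℕ) (he : e ∣ M')
    (he0 : e ≠ 0) (τ : ℍ) :
    kleinJ (scaleH e (uvw24_W M' q x y hq hxy • τ)) = kleinJ (scaleH (e * q) τ) := by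
  obtain ⟨k, rfl⟩ := he
  have hdet : x * (q : ℤ) - -((e : ℤ) * y) * (k : ℤ) = 1 := by
    have := hxy
    push_cast at this
    linarith
  have hpt : scaleH e (uvw24_W (e * k) q x y hq hxy • τ)
      = uvw24_sl x (-((e : ℤ) * y)) k q hdet • scaleH (e * q) τ := by
    apply UpperHalfPlane.ext
    rw [coe_scaleH e he0, uvw24_W_smul_coe, uvw24_sl_smul_coe,
      coe_scaleH (e * q) (Nat.mul_ne_zero he0 hq.ne')]
    rw [← mul_div_assoc]
    congr 1 <;> push_cast <;> ring
  rw [hpt, wpA1_kleinJ_smul]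

/-- `j(e q · Wτ) = j(e · τ)` for `e ∣ M'`. -/
theorem uvw24_kleinJ_B (hq : 0 < q) (hxy : (q : ℤ) * x + (M' : ℤ) * y = 1) (e : ℕ) (he : e ∣ M')
    (he0 : e ≠ 0) (τ : ℍ) :
    kleinJ (scaleH (e * q) (uvw24_W M' q x y hq hxy • τ)) = kleinJ (scaleH e τ) := by
  obtain ⟨k, rfl⟩ := he
  have hdet : (q : ℤ) * x * 1 - -((e : ℤ) * y) * (k : ℤ) = 1 := by
    have := hxy
    push_cast at this
    linarith
  have hq' : (q : ℂ) ≠ 0 := by exact_mod_cast hq.ne'
  have hpt : scaleH (e * q) (uvw24_W (e * k) q x y hq hxy • τ)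
      = uvw24_sl ((q : ℤ) * x) (-((e : ℤ) * y)) k 1 hdet • scaleH e τ := by
    apply UpperHalfPlane.ext
    rw [coe_scaleH (e * q) (Nat.mul_ne_zero he0 hq.ne'), uvw24_W_smul_coe, uvw24_sl_smul_coe,
      coe_scaleH e he0]
    have hne := uvw24_sl_denom_ne ((q : ℤ) * x) (-((e : ℤ) * y)) k 1 hdet (scaleH e τ)
    rw [coe_scaleH e he0] at hne
    have hne2 : ((e * k : ℕ) : ℂ) * q * τ + q ≠ 0 := by
      have h3 : ((e * k : ℕ) : ℂ) * q * τ + q = q * (((k : ℤ) : ℂ) * ((e : ℂ) * τ) + ((1 : ℤ) : ℂ)) := by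
        push_cast; ring
      rw [h3]
      exact mul_ne_zero hq' hne
    rw [← mul_div_assoc, div_eq_div_iff hne2 hne]
    push_cast
    ring
  rw [hpt, wpA1_kleinJ_smul]

/-- `Δ(Wτ) Δ(τ) = q ^ 12 Δ(qτ) Δ(q Wτ)`. -/
theorem uvw24_disc (hq : 0 < q) (hxy : (q : ℤ) * x + (M' : ℤ) * y = 1) (τ : ℍ) :
    ModularForm.discriminant (uvw24_W M' q x y hq hxy • τ) * ModularForm.discriminant τ
      = (q : ℂ) ^ 12 * ModularForm.discriminant (scaleH q τ)
        * ModularForm.discriminant (scaleH q (uvw24_W M' q x y hq hxy • τ)) := by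
  have hq' : (q : ℂ) ≠ 0 := by exact_mod_cast hq.ne'
  have hdet1 : x * (q : ℤ) - -y * (M' : ℤ) = 1 := by linarith
  have hdet2 : (q : ℤ) * x * 1 - -y * (M' : ℤ) = 1 := by linarith
  have hpt1 : uvw24_W M' q x y hq hxy • τ = uvw24_sl x (-y) M' q hdet1 • scaleH q τ := by
    apply UpperHalfPlane.ext
    rw [uvw24_W_smul_coe, uvw24_sl_smul_coe, coe_scaleH q hq.ne']
    congr 1 <;> push_cast <;> ring
  have hpt2 : scaleH q (uvw24_W M' q x y hq hxy • τ)
      = uvw24_sl ((q : ℤ) * x) (-y) M' 1 hdet2 • τ := by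
    apply UpperHalfPlane.ext
    rw [coe_scaleH q hq.ne', uvw24_W_smul_coe, uvw24_sl_smul_coe]
    have hne := uvw24_sl_denom_ne ((q : ℤ) * x) (-y) M' 1 hdet2 τ
    have hne2 : (M' : ℂ) * q * τ + q ≠ 0 := by
      have h3 : (M' : ℂ) * q * τ + q = q * (((M' : ℤ) : ℂ) * τ + ((1 : ℤ) : ℂ)) := by
        push_cast; ring
      rw [h3]
      exact mul_ne_zero hq' hne
    rw [← mul_div_assoc, div_eq_div_iff hne2 hne]
    push_cast
    ring
  rw [hpt2, uvw24_disc_sl]
  conv_lhs => rw [hpt1, uvw24_disc_sl]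
  rw [coe_scaleH q hq.ne']
  push_cast
  ring

end W

section Main

variable {L : Type*} [Field L] [Algebra ℚ L] (ψ : L →+* ℂ)

/-- **(L1)** A ring endomorphism `w` of the function field of level `N` over `L` which fixes the
constants and acts on the generators `j(q^d)` as the translation by `g` does after `ev_ψ`,
satisfies `ev_ψ ∘ w = g • ev_ψ`. -/
theorem uvw24_ev_comp {N : ℕ} [NeZero N]
    (w : ↥(laurentBaseChange L (modularFunctionFieldFull N)) →+*
      ↥(laurentBaseChange L (modularFunctionFieldFull N)))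
    (hwC : ∀ c : L, w (algebraMap L _ c) = algebraMap L _ c)
    (g : GL(2, ℝ)⁺)
    (hwJ : ∀ (d : ℕ) (hd : d ∣ N),
      ff79_evMer N (ff79_bc ψ N (w ⟨ff79_JJ L d, ff79_JJ_mem L N d hd⟩))
        = g • algebraMap mer95_O mer95_MER (ff79_jO d))
    (f : ↥(laurentBaseChange L (modularFunctionFieldFull N))) :
    ff79_evMer N (ff79_bc ψ N (w f)) = g • ff79_evMer N (ff79_bc ψ N f) := by
  have h : (((ff79_evMer N : ↥(laurentBaseChange ℂ (modularFunctionFieldFull N)) →+* mer95_MER).comp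
        (ff79_bc ψ N)).comp w)
      = (MulSemiringAction.toRingHom GL(2, ℝ)⁺ mer95_MER g).comp
          ((ff79_evMer N : ↥(laurentBaseChange ℂ (modularFunctionFieldFull N)) →+* mer95_MER).comp
            (ff79_bc ψ N)) := by
    apply ff79_ringHom_ext
    · intro c
      simp only [RingHom.comp_apply, RingHom.coe_coe]
      rw [hwC, ff79_bc_algebraMap, AlgHom.commutes]
      exact (mer95_smul_C g (ψ c)).symm
    · intro d
      simp only [RingHom.comp_apply, RingHom.coe_coe]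
      rw [hwJ d.1 (Nat.dvd_of_mem_divisors d.2),
        ff79_bc_JJ ψ N d.1 (Nat.dvd_of_mem_divisors d.2),
        ff79_evMer_gen N d.1 (Nat.dvd_of_mem_divisors d.2)]
      rfl
  exact congrArg (fun k => k f) h

/-- **(d), analytic core, fraction form.** Let `N = M' * q` with `q` prime, `q ∤ M'`. If a ring
endomorphism `w` of the function field of level `N` over `L` fixes the constants and swaps
`j(q^e)` and `j(q^(e q))` for every `e ∣ M'` (the algebraic Atkin–Lehner involution), and `u` is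
an element with `ev_ψ u = a / b`, where `a, b` are holomorphic on `ℍ` with
`a(τ) Δ(qτ) = b(τ) Δ(τ)` (i.e. `ev_ψ u = Δ(τ) / Δ(qτ)`), then `w u * u = q ^ 12`. -/
theorem uvw24_main_frac (M' q : ℕ) [NeZero M'] [NeZero q] (hq : q.Prime) (hqM : ¬ q ∣ M')
    (w : ↥(laurentBaseChange L (modularFunctionFieldFull (M' * q))) →+*
      ↥(laurentBaseChange L (modularFunctionFieldFull (M' * q))))
    (hwC : ∀ c : L, w (algebraMap L _ c) = algebraMap L _ c)
    (hw1 : ∀ (e : ℕ) (he : e ∣ M'),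
      ((w ⟨ff79_JJ L e, ff79_JJ_mem L (M' * q) e (Dvd.dvd.mul_right he q)⟩ :
        ↥(laurentBaseChange L (modularFunctionFieldFull (M' * q)))) : LaurentSeries L)
        = ff79_JJ L (e * q))
    (hw2 : ∀ (e : ℕ) (he : e ∣ M'),
      ((w ⟨ff79_JJ L (e * q), ff79_JJ_mem L (M' * q) (e * q) (Nat.mul_dvd_mul_right he q)⟩ :
        ↥(laurentBaseChange L (modularFunctionFieldFull (M' * q)))) : LaurentSeries L)
        = ff79_JJ L e)
    (u : ↥(laurentBaseChange L (modularFunctionFieldFull (M' * q))))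
    (a b : mer95_O) (hb : b ≠ 0)
    (hab : ∀ τ : ℍ, a.1 τ * ModularForm.discriminant (scaleH q τ)
      = b.1 τ * ModularForm.discriminant τ)
    (hev : ff79_evMer (M' * q) (ff79_bc ψ (M' * q) u) * algebraMap mer95_O mer95_MER b
      = algebraMap mer95_O mer95_MER a) :
    w u * u = (q : ↥(laurentBaseChange L (modularFunctionFieldFull (M' * q)))) ^ 12 := by
  have hq0 : 0 < q := hq.pos
  have hcop : IsCoprime (q : ℤ) (M' : ℤ) :=
    Nat.isCoprime_iff_coprime.mpr ((Nat.Prime.coprime_iff_not_dvd hq).mpr hqM)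
  obtain ⟨x, y, hxy0⟩ := hcop
  have hxy : (q : ℤ) * x + (M' : ℤ) * y = 1 := by linarith
  set W := uvw24_W M' q x y hq0 hxy with hW
  -- the action of `W⁻¹` on the generators
  have hjA : ∀ (e : ℕ), e ∣ M' → W⁻¹ • ff79_jO e = ff79_jO (e * q) := by
    intro e he
    have he0 : e ≠ 0 := fun h0 => NeZero.ne M' (by simpa [h0] using he)
    apply Subtype.ext
    funext τ
    rw [mer95_smul_apply, inv_inv, ff79_jO_apply, ff79_jO_apply]
    exact uvw24_kleinJ_A M' q x y hq0 hxy e he he0 τ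
  have hjB : ∀ (e : ℕ), e ∣ M' → W⁻¹ • ff79_jO (e * q) = ff79_jO e := by
    intro e he
    have he0 : e ≠ 0 := fun h0 => NeZero.ne M' (by simpa [h0] using he)
    apply Subtype.ext
    funext τ
    rw [mer95_smul_apply, inv_inv, ff79_jO_apply, ff79_jO_apply]
    exact uvw24_kleinJ_B M' q x y hq0 hxy e he he0 τ
  have hcomp := uvw24_ev_comp ψ w hwC W⁻¹ (by
    intro d hd
    by_cases hqd : q ∣ d
    · obtain ⟨e, rfl⟩ := hqd
      have he : e ∣ M' := by
        rw [mul_comm q e] at hd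
        exact Nat.dvd_of_mul_dvd_mul_right hq0 hd
      have hsub : w ⟨ff79_JJ L (q * e), ff79_JJ_mem L (M' * q) (q * e) hd⟩
          = ⟨ff79_JJ L e, ff79_JJ_mem L (M' * q) e (Dvd.dvd.mul_right he q)⟩ := by
        apply Subtype.ext
        have h2 := hw2 e he
        simp only [mul_comm e q] at h2
        exact h2
      rw [hsub, ff79_bc_JJ ψ (M' * q) e (Dvd.dvd.mul_right he q),
        ff79_evMer_gen (M' * q) e (Dvd.dvd.mul_right he q), mer95_smul_algebraMap,
        mul_comm q e, hjB e he]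
    · have he : d ∣ M' := by
        have hc : Nat.Coprime d q := (Nat.Prime.coprime_iff_not_dvd hq).mpr hqd |>.symm
        exact hc.dvd_of_dvd_mul_right hd
      have hsub : w ⟨ff79_JJ L d, ff79_JJ_mem L (M' * q) d hd⟩
          = ⟨ff79_JJ L (d * q), ff79_JJ_mem L (M' * q) (d * q) (Nat.mul_dvd_mul_right he q)⟩ := by
        apply Subtype.ext
        exact hw1 d he
      rw [hsub, ff79_bc_JJ ψ (M' * q) (d * q) (Nat.mul_dvd_mul_right he q),
        ff79_evMer_gen (M' * q) (d * q) (Nat.mul_dvd_mul_right he q),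
        mer95_smul_algebraMap, hjA d he])
  -- the translates of `a` and `b`
  have hu : (W⁻¹ • a) * a = (q : mer95_O) ^ 12 * ((W⁻¹ • b) * b) := by
    apply Subtype.ext
    funext τ
    have h1 := hab (W • τ)
    have h2 := hab τ
    have h3 := uvw24_disc M' q x y hq0 hxy τ
    rw [← hW] at h3
    have hne : ModularForm.discriminant (scaleH q (W • τ)) * ModularForm.discriminant (scaleH q τ)
        ≠ 0 := mul_ne_zero (discriminant_ne_zero _) (discriminant_ne_zero _)
    have hmul : a.1 (W • τ) * a.1 τ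
          * (ModularForm.discriminant (scaleH q (W • τ)) * ModularForm.discriminant (scaleH q τ))
        = (q : ℂ) ^ 12 * (b.1 (W • τ) * b.1 τ)
          * (ModularForm.discriminant (scaleH q (W • τ)) * ModularForm.discriminant (scaleH q τ)) := by
      linear_combination (a.1 τ * ModularForm.discriminant (scaleH q τ)) * h1
        + (b.1 (W • τ) * ModularForm.discriminant (W • τ)) * h2 + (b.1 (W • τ) * b.1 τ) * h3
    have hval := mul_right_cancel₀ hne hmul
    have hl : ((W⁻¹ • a) * a : mer95_O).1 τ = a.1 (W • τ) * a.1 τ := by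
      show (W⁻¹ • a).1 τ * a.1 τ = _
      rw [mer95_smul_apply, inv_inv]
    have hr : ((q : mer95_O) ^ 12 * ((W⁻¹ • b) * b) : mer95_O).1 τ
        = (q : ℂ) ^ 12 * (b.1 (W • τ) * b.1 τ) := by
      show ((q : mer95_O) ^ 12 : mer95_O).1 τ * ((W⁻¹ • b).1 τ * b.1 τ) = _
      rw [mer95_smul_apply, inv_inv]
      simp
    rw [hl, hr, hval]
  have hWb : W⁻¹ • b ≠ 0 := by
    intro h0
    apply hb
    have h1 : W • (W⁻¹ • b) = b := smul_inv_smul W b
    rw [← h1, h0, smul_zero]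
  have hX : algebraMap mer95_O mer95_MER ((W⁻¹ • b) * b) ≠ 0 :=
    mer95_algebraMap_ne_zero (mul_ne_zero hWb hb)
  -- translate the relation `ev u * b = a`
  have hev2 : ff79_evMer (M' * q) (ff79_bc ψ (M' * q) (w u))
        * algebraMap mer95_O mer95_MER (W⁻¹ • b)
      = algebraMap mer95_O mer95_MER (W⁻¹ • a) := by
    rw [hcomp u, ← mer95_smul_algebraMap, ← mer95_smul_algebraMap, ← smul_mul', hev]
  apply ff79_bc_injective ψ (M' * q)
  apply ff79_evMer_injective (M' * q)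
  rw [map_mul, map_mul, map_pow, map_pow, map_natCast, map_natCast]
  apply mul_right_cancel₀ hX
  have h4 : ff79_evMer (M' * q) (ff79_bc ψ (M' * q) (w u))
        * ff79_evMer (M' * q) (ff79_bc ψ (M' * q) u)
        * algebraMap mer95_O mer95_MER ((W⁻¹ • b) * b)
      = algebraMap mer95_O mer95_MER ((W⁻¹ • a) * a) := by
    rw [map_mul, map_mul, ← hev2, ← hev]
    ring
  rw [h4, hu, map_mul, map_pow, map_natCast]

/-- **(d), analytic core.** Same as `uvw24_main_frac`, with `ev_ψ u` given by a holomorphic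
function `uO` such that `uO(τ) Δ(qτ) = Δ(τ)`. -/
theorem uvw24_main (M' q : ℕ) [NeZero M'] [NeZero q] (hq : q.Prime) (hqM : ¬ q ∣ M')
    (w : ↥(laurentBaseChange L (modularFunctionFieldFull (M' * q))) →+*
      ↥(laurentBaseChange L (modularFunctionFieldFull (M' * q))))
    (hwC : ∀ c : L, w (algebraMap L _ c) = algebraMap L _ c)
    (hw1 : ∀ (e : ℕ) (he : e ∣ M'),
      ((w ⟨ff79_JJ L e, ff79_JJ_mem L (M' * q) e (Dvd.dvd.mul_right he q)⟩ :
        ↥(laurentBaseChange L (modularFunctionFieldFull (M' * q)))) : LaurentSeries L)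
        = ff79_JJ L (e * q))
    (hw2 : ∀ (e : ℕ) (he : e ∣ M'),
      ((w ⟨ff79_JJ L (e * q), ff79_JJ_mem L (M' * q) (e * q) (Nat.mul_dvd_mul_right he q)⟩ :
        ↥(laurentBaseChange L (modularFunctionFieldFull (M' * q)))) : LaurentSeries L)
        = ff79_JJ L e)
    (u : ↥(laurentBaseChange L (modularFunctionFieldFull (M' * q))))
    (uO : mer95_O)
    (huO : ∀ τ : ℍ, uO.1 τ * ModularForm.discriminant (scaleH q τ) = ModularForm.discriminant τ)
    (hev : ff79_evMer (M' * q) (ff79_bc ψ (M' * q) u) = algebraMap mer95_O mer95_MER uO) :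
    w u * u = (q : ↥(laurentBaseChange L (modularFunctionFieldFull (M' * q)))) ^ 12 := by
  refine uvw24_main_frac ψ M' q hq hqM w hwC hw1 hw2 u uO 1 one_ne_zero (fun τ => ?_) ?_
  · rw [huO τ]
    show ModularForm.discriminant τ = 1 * ModularForm.discriminant τ
    rw [one_mul]
  · rw [map_one, mul_one, hev]

end Main

end

end Fermat.Agent.S34
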