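import Fermat.Agent.S34.UVAtkin24
import Fermat.Agent.S34.AtkinLehnerL97

/-!
# S34 lab, row P4' (d) (helper24): `w_q(U) * U = q ^ 12` for the Atkin–Lehner involution of P1b

`al97L_w φ N q hq hN` is the Atkin–Lehner involution of `modularFunctionFieldFullC L (N * q)`
(helper97, `AtkinLehnerL97`), for a field `L` with `φ : L →+* ℚ̄`.  Let `Φ : ℚ̄ →+* ℂ`.

* `uvw24_wBar` : over `ℚ̄`: if `ev0 Φ u = a / b = Δ(τ) / Δ(qτ)` then `w̄ u * u = q ^ 12`.
* `uvw24_wL` : over `L`, with `u` evaluated through `al97L_iota φ`.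
* `uvw24_wL_of_C` : over `L`, with the analytic identification given on the complex base change
  `uC` of `u` (`(uC : ℂ((q))) = coeffMap (Φ ∘ φ) u`, `ev uC = Δ(τ) / Δ(qτ)`).
* `uvw24_wL_int` : integer-series form: if `S, S' ∈ ℤ((q))` with `S * S' = q ^ 12`, the complex
  function field contains an element with series `S` and `ev = Δ(τ) / Δ(qτ)`, and `u ∈ F(Nq)_L`
  has series `S`, then `w u` has series `S'` (and `w u * u = q ^ 12`).
-/

set_option autoImplicit false

open ModularCurve AlgebraicCurve MatrixGroups UpperHalfPlane ModularForm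
open Fermat.Agent.S24 Fermat.Agent.S37 Fermat.Agent.S18 Fermat.Agent.S42

namespace Fermat.Agent.S34

noncomputable section

variable (N q : ℕ) [NeZero N] [NeZero q] (hq : q.Prime) (hN : ¬ q ∣ N)

/-- **(d) over `ℚ̄`.** -/
theorem uvw24_wBar (Φ : Kbar →+* ℂ) (u : ↥(modularFunctionFieldBar (N * q)))
    (a b : mer95_O) (hb : b ≠ 0)
    (hab : ∀ τ : ℍ, a.1 τ * ModularForm.discriminant (scaleH q τ)
      = b.1 τ * ModularForm.discriminant τ)
    (hev : ff79_ev0 Φ (N * q) u * algebraMap mer95_O mer95_MER b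
      = algebraMap mer95_O mer95_MER a) :
    al97L_wBar N q hq hN u * u = (q : ↥(modularFunctionFieldBar (N * q))) ^ 12 := by
  refine uvw24_main_frac Φ N q hq hN
    (al97L_wBar N q hq hN : ↥(modularFunctionFieldBar (N * q)) →+* ↥(modularFunctionFieldBar (N * q)))
    (fun c => AlgHom.commutes _ c) ?_ ?_ u a b hb hab hev
  · intro e he
    have hqe : ¬ q ∣ e := fun h => hN (h.trans he)
    have h1 := al97L_wBar_gen N q hq hN e (Dvd.dvd.mul_right he q)
      ⟨ff79_JJ Kbar e, ff79_JJ_mem Kbar (N * q) e (Dvd.dvd.mul_right he q)⟩ rfl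
    rw [al97_swap_of_not_dvd hqe] at h1
    exact h1
  · intro e he
    have h1 := al97L_wBar_gen N q hq hN (e * q) (Nat.mul_dvd_mul_right he q)
      ⟨ff79_JJ Kbar (e * q), ff79_JJ_mem Kbar (N * q) (e * q) (Nat.mul_dvd_mul_right he q)⟩ rfl
    rw [al97_swap_of_dvd (Dvd.intro_left e rfl), Nat.mul_div_cancel _ hq.pos] at h1
    exact h1

variable {L : Type*} [Field L] (φ : L →+* Kbar)

/-- **(d) over `L`**, the analytic identification being given through `al97L_iota φ`. -/
theorem uvw24_wL (Φ : Kbar →+* ℂ) (u : ↥(modularFunctionFieldFullC L (N * q)))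
    (a b : mer95_O) (hb : b ≠ 0)
    (hab : ∀ τ : ℍ, a.1 τ * ModularForm.discriminant (scaleH q τ)
      = b.1 τ * ModularForm.discriminant τ)
    (hev : ff79_ev0 Φ (N * q) (al97L_iota φ (N * q) u) * algebraMap mer95_O mer95_MER b
      = algebraMap mer95_O mer95_MER a) :
    al97L_w φ N q hq hN u * u = (q : ↥(modularFunctionFieldFullC L (N * q))) ^ 12 := by
  apply al97L_iota_injective φ (N * q)
  rw [map_mul, al97L_w_iota, map_pow, map_natCast]
  exact uvw24_wBar N q hq hN Φ _ a b hb hab hev

/-- **(d) over `L`**, the analytic identification being given on the complex base change `uC`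
of `u`. -/
theorem uvw24_wL_of_C (Φ : Kbar →+* ℂ) (u : ↥(modularFunctionFieldFullC L (N * q)))
    (uC : ↥(laurentBaseChange ℂ (modularFunctionFieldFull (N * q))))
    (huC : (uC : LaurentSeries ℂ) = coeffMap (Φ.comp φ) (u : LaurentSeries L))
    (a b : mer95_O) (hb : b ≠ 0)
    (hab : ∀ τ : ℍ, a.1 τ * ModularForm.discriminant (scaleH q τ)
      = b.1 τ * ModularForm.discriminant τ)
    (hev : ff79_evMer (N * q) uC * algebraMap mer95_O mer95_MER b
      = algebraMap mer95_O mer95_MER a) :
    al97L_w φ N q hq hN u * u = (q : ↥(modularFunctionFieldFullC L (N * q))) ^ 12 := by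
  refine uvw24_wL N q hq hN φ Φ u a b hb hab ?_
  have h1 : ff79_bc Φ (N * q) (al97L_iota φ (N * q) u) = uC := by
    apply Subtype.ext
    rw [ff79_bc_coe, al97L_iota_coe, huC, coeffMap_coeffMap]
  rw [ff79_ev0_apply, h1]
  exact hev

/-- **(d), integer-series form.** Let `S, S' ∈ ℤ((q))` with `S * S' = q ^ 12`
(`S = Δ(Q)/Δ(Q^q)`, `S' = q^12 Δ(Q^q)/Δ(Q)`). If the complex function field of level `N q`
contains an element `uC` with Laurent series `S` and `ev uC = a / b = Δ(τ) / Δ(qτ)`, then for
every `u ∈ F(Nq)_L` with Laurent series `S`, the series of `w u` is `S'`. -/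
theorem uvw24_wL_int (Φ : Kbar →+* ℂ) (S S' : LaurentSeries ℤ)
    (hSS' : S * S' = (q : LaurentSeries ℤ) ^ 12)
    (uC : ↥(laurentBaseChange ℂ (modularFunctionFieldFull (N * q))))
    (huC : (uC : LaurentSeries ℂ) = coeffMap (Int.castRingHom ℂ) S)
    (a b : mer95_O) (hb : b ≠ 0)
    (hab : ∀ τ : ℍ, a.1 τ * ModularForm.discriminant (scaleH q τ)
      = b.1 τ * ModularForm.discriminant τ)
    (hev : ff79_evMer (N * q) uC * algebraMap mer95_O mer95_MER b
      = algebraMap mer95_O mer95_MER a)
    (u : ↥(modularFunctionFieldFullC L (N * q)))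
    (hu : (u : LaurentSeries L) = coeffMap (Int.castRingHom L) S) :
    al97L_w φ N q hq hN u * u = (q : ↥(modularFunctionFieldFullC L (N * q))) ^ 12 ∧
    ((al97L_w φ N q hq hN u : ↥(modularFunctionFieldFullC L (N * q))) : LaurentSeries L)
      = coeffMap (Int.castRingHom L) S' := by
  have hmain : al97L_w φ N q hq hN u * u = (q : ↥(modularFunctionFieldFullC L (N * q))) ^ 12 := by
    refine uvw24_wL_of_C N q hq hN φ Φ u uC ?_ a b hb hab hev
    rw [huC, hu, coeffMap_coeffMap]
    exact coeffMap_congr (RingHom.ext fun c => by simp) S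
  refine ⟨hmain, ?_⟩
  have h1 : ((al97L_w φ N q hq hN u : ↥(modularFunctionFieldFullC L (N * q))) : LaurentSeries L)
      * (u : LaurentSeries L) = (q : LaurentSeries L) ^ 12 := by
    have h := congrArg (fun z : ↥(modularFunctionFieldFullC L (N * q)) => (z : LaurentSeries L)) hmain
    simpa using h
  have h2 : coeffMap (Int.castRingHom L) S * coeffMap (Int.castRingHom L) S'
      = (q : LaurentSeries L) ^ 12 := by
    rw [← map_mul, hSS', map_pow, map_natCast]
  have hq0 : ((q : LaurentSeries L) ^ 12) ≠ 0 := by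
    have hqL : (q : L) ≠ 0 := by
      intro h0
      have h3 : φ (q : L) = 0 := by rw [h0, map_zero]
      rw [map_natCast] at h3
      exact (NeZero.ne q) (by exact_mod_cast h3)
    have h4 : (q : LaurentSeries L) = algebraMap L (LaurentSeries L) (q : L) := by
      rw [map_natCast]
    rw [h4]
    exact pow_ne_zero _ (fun h5 => hqL ((algebraMap L (LaurentSeries L)).injective (by rw [h5, map_zero])))
  have hu0 : (u : LaurentSeries L) ≠ 0 := by
    intro h0
    rw [h0, mul_zero] at h1
    exact hq0 h1.symm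
  apply mul_right_cancel₀ hu0
  rw [h1, mul_comm, hu, h2]

end

end Fermat.Agent.S34
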