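import Mathlib
import Fermat.Prelude.Def_CuspForm_HeckeGaloisRepDatum
import Fermat.Prelude.Def_GaloisRep_LocalConditions
import Fermat.Agent.S31.Endgame72
import Fermat.Agent.S31.HeckeSat42
import Fermat.Agent.S42.ThetaClosedZ31

/-!
# S34 lab, row P8 (endgame), independent twin (helper72)

`s34g72_unip` : in a Hecke-Galois datum of level `N` away from `S` (`p ∈ S`, primes of `N` in
`S`), the representation is unipotent on inertia at a prime `q ≠ p` as soon as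

`hU : ∀ n P, P.LiesOverPrime q → ∀ t ∈ P.inertiaSubgroupIn ℚ, ∀ x : JZero N, p ^ n • x = 0 →
        t • t • x - t • x - t • x + x = 0`

(i.e. `(t - 1)² = 0` on `J₀(N)[p ^ n]` for every inertia element `t` at `q`; no hypothesis
`q ∣ N` is needed).  This is the S31 endgame (`Endgame72`, on main) with the triviality of
inertia replaced by `hU`:

* on `J₀(N)[p ^ n]`: `V_j(T_ℓ, ℓ) y = τ y + τ⁻¹ y = 2 y` when `τ = σ ^ j` on a large number
  field, `σ` a Frobenius element at `ℓ` (Lucas + `ℓ ^ j ≡ 1 mod p ^ n` + `hU`);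
* saturation (`hs42_E34`) turns this into `π(V_j(T_ℓ, ℓ)) ≡ 2` modulo `𝔪 ^ k`;
* adic continuity gives `tr ρ(τ) ≡ tr ρ(σ ^ j) = π(V_j(T_ℓ, ℓ))` and
  `det ρ(τ) ≡ det ρ(σ ^ j) = ℓ ^ j ≡ 1`; Krull's intersection theorem and the rank-two formula
  `charpoly = X² - tr X + det` conclude.

All names are prefixed `s34g72_`.
-/

set_option autoImplicit false
set_option linter.unusedSectionVars false
set_option linter.unusedVariables false
set_option linter.style.longLine false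
set_option linter.style.haveILetI false

open CongruenceSubgroup ModularCurve ModularCurve.Period AlgebraicCurve Polynomial
open scoped MatrixGroups

namespace Fermat.Agent.S34

open Fermat.Agent.S16 Fermat.Agent.S42 Fermat.Agent.S31

local notation "Qb" => AlgebraicClosure ℚ
local notation "GQ" => AlgebraicClosure ℚ ≃ₐ[ℚ] AlgebraicClosure ℚ

/-! ### Generic algebra: determinants and characteristic polynomials in rank two -/

section Det

variable {A : Type*} [CommRing A] {V : Type*} [AddCommGroup V] [Module A V]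

/-- An endomorphism of a finite free module which is congruent to the identity modulo `I` has
determinant congruent to `1` modulo `I`. -/
theorem s34g72_det_sub_one_mem [Module.Free A V] [Module.Finite A V] (I : Ideal A)
    (f : Module.End A V) (hf : ∀ v, f v - v ∈ I • (⊤ : Submodule A V)) :
    LinearMap.det f - 1 ∈ I := by
  classical
  let b := Module.Free.chooseBasis A V
  rw [← LinearMap.det_toMatrix b f]
  have hmap : (LinearMap.toMatrix b b f).map (Ideal.Quotient.mk I) = 1 := by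
    ext i j
    rw [Matrix.map_apply, LinearMap.toMatrix_apply, Matrix.one_apply]
    have h1 : b.repr (f (b j)) i - (if i = j then (1 : A) else 0) ∈ I := by
      have h2 := s31g72_repr_mem b I (hf (b j)) i
      rw [map_sub, Finsupp.sub_apply, Module.Basis.repr_self, Finsupp.single_apply] at h2
      have h3 : (if j = i then (1 : A) else 0) = (if i = j then (1 : A) else 0) := by
        by_cases h : i = j
        · rw [if_pos h, if_pos h.symm]
        · rw [if_neg h, if_neg (fun h' => h h'.symm)]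
      rw [← h3]
      exact h2
    have h4 := (Ideal.Quotient.eq (I := I)).mpr h1
    rw [h4]
    by_cases h : i = j
    · rw [if_pos h, if_pos h, map_one]
    · rw [if_neg h, if_neg h, map_zero]
  have hdet : (Ideal.Quotient.mk I) (LinearMap.toMatrix b b f).det = 1 := by
    rw [RingHom.map_det, RingHom.mapMatrix_apply, hmap, Matrix.det_one]
  have h5 : (Ideal.Quotient.mk I) ((LinearMap.toMatrix b b f).det - 1) = 0 := by
    rw [map_sub, hdet, map_one, sub_self]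
  exact Ideal.Quotient.eq_zero_iff_mem.mp h5

/-- Characteristic polynomial of an endomorphism of a free module of rank two. -/
theorem s34g72_charpoly_rank_two [Nontrivial A] [Module.Free A V] [Module.Finite A V]
    (hV : Module.finrank A V = 2) (f : Module.End A V) :
    LinearMap.charpoly f = X ^ 2 - C (LinearMap.trace A V f) * X + C (LinearMap.det f) := by
  classical
  let b : Module.Basis (Fin 2) A V := Module.finBasisOfFinrankEq A V hV
  rw [← LinearMap.charpoly_toMatrix f b, Matrix.charpoly_fin_two,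
    ← LinearMap.trace_eq_matrix_trace A b f, LinearMap.det_toMatrix b f]

/-- The determinant from a characteristic polynomial `X² - a X + d` in rank two. -/
theorem s34g72_det_of_charpoly [Nontrivial A] [Module.Free A V] [Module.Finite A V]
    (hV : Module.finrank A V = 2) (f : Module.End A V) (a d : A)
    (h : LinearMap.charpoly f = X ^ 2 - C a * X + C d) : LinearMap.det f = d := by
  have h1 := s34g72_charpoly_rank_two hV f
  rw [h] at h1
  have h2 := congrArg (fun P : A[X] => P.coeff 0) h1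
  simp only [coeff_add, coeff_sub, coeff_X_pow, coeff_C_mul, coeff_X_zero, mul_zero, coeff_C_zero]
    at h2
  norm_num at h2
  exact h2.symm

end Det

section Continuity

variable {T : Type} [CommRing T] [IsLocalRing T]

/-- **Determinant congruence from adic continuity.**  If `g'⁻¹ * g` acts trivially modulo
`𝔪 ^ n` then `det ρ(g) ≡ det ρ(g')` modulo `𝔪 ^ n`. -/
theorem s34g72_det_sub_mem (ρ : GaloisRepAdic T) (n : ℕ) (g g' : GQ)
    (h : ∀ v : ρ.V, ρ.ρ (g'⁻¹ * g) v - v ∈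
      (IsLocalRing.maximalIdeal T ^ n) • (⊤ : Submodule T ρ.V)) :
    LinearMap.det (ρ.ρ g) - LinearMap.det (ρ.ρ g') ∈ IsLocalRing.maximalIdeal T ^ n := by
  have e : ρ.ρ g = ρ.ρ g' * ρ.ρ (g'⁻¹ * g) := by
    rw [← map_mul, mul_inv_cancel_left]
  have h1 := s34g72_det_sub_one_mem (IsLocalRing.maximalIdeal T ^ n) (ρ.ρ (g'⁻¹ * g)) h
  have e2 : LinearMap.det (ρ.ρ g) - LinearMap.det (ρ.ρ g')
      = LinearMap.det (ρ.ρ g') * (LinearMap.det (ρ.ρ (g'⁻¹ * g)) - 1) := by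
    rw [e, map_mul]
    ring
  rw [e2]
  exact Ideal.mul_mem_left _ _ h1

end Continuity

/-! ### The endgame -/

section Main

variable {p : ℕ} {N : ℕ} [NeZero N] {S : Finset ℕ}
  {𝒪 : Type} [CommRing 𝒪] [IsDomain 𝒪] [IsDiscreteValuationRing 𝒪]
  [IsAdicComplete (IsLocalRing.maximalIdeal 𝒪) 𝒪]
  {θ : CuspForm.heckeAlgebra N 2 (↑S : Set ℕ) →+* IsLocalRing.ResidueField 𝒪}
  {T : Type} [CommRing T] [IsLocalRing T] [IsNoetherianRing T]
  [IsAdicComplete (IsLocalRing.maximalIdeal T) T] [Algebra 𝒪 T] [IsLocalHom (algebraMap 𝒪 T)]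
  [Module.Finite 𝒪 T] [Module.Free 𝒪 T]

/-- **The Jacobian side.**  Let `y` be killed by `p ^ n` and fixed by the fixing group of a
normal subfield `E ⊇ μ_{p^n}`; let `τ` be in an inertia group at `q ≠ p`, equal on `E` to a power
`σ ^ j` of a Frobenius element at `ℓ ∤ N p`, and assume `(τ - 1)² = 0` on `J₀(N)[p ^ n]`.  Then
`V_j(T_ℓ, ℓ) y = 2 y`. -/
theorem s34g72_delta (N : ℕ) [NeZero N] {p : ℕ} (hp : p.Prime) (n : ℕ)
    (E : IntermediateField ℚ Qb) [Normal ℚ E]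
    (hEμ : ∀ z : Qb, z ^ (p ^ n) = 1 → z ∈ E)
    {ℓ : ℕ} (hℓ : ℓ.Prime) (hℓN : ¬ ℓ ∣ N) (hℓp : ℓ ≠ p)
    (A : ValuationSubring Qb) (hA : A.LiesOverPrime ℓ) (σ : GQ)
    (hσ : A.IsFrobeniusAt σ ℓ) (j : ℕ)
    {q : ℕ} (hq : q.Prime) (hqp : q ≠ p)
    (P : ValuationSubring Qb) (hP : P.LiesOverPrime q) (τ : GQ)
    (hτ : τ ∈ P.inertiaSubgroupIn ℚ)
    (hg : ∀ x ∈ E, τ x = (σ ^ j) x)
    (hU : ∀ x : JZero N, p ^ n • x = 0 → τ • τ • x - τ • x - τ • x + x = 0)
    (y : JZero N) (hy : p ^ n • y = 0)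
    (hyE : ∀ ρ : GQ, (∀ a ∈ E, ρ a = a) → ρ • y = y) :
    aeval (heckeOperatorBar N ⟨ℓ, hℓ⟩) (s31e60_lucV (ℓ : ℤ) j) y = y + y := by
  have hnd : ¬ ℓ ∣ p := fun hd => hℓp ((Nat.prime_dvd_prime_iff_eq hℓ hp).mp hd)
  have hcopℓ : Nat.Coprime ℓ (p ^ n) :=
    Nat.Coprime.pow_right n ((Nat.coprime_primes hℓ hp).mpr hℓp)
  have hcopq : Nat.Coprime q (p ^ n) :=
    Nat.Coprime.pow_right n ((Nat.coprime_primes hq hp).mpr hqp)
  have hm : 0 < p ^ n := pow_pos hp.pos n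
  rw [s31g72_lucas_jac N p ℓ hℓ hℓN hnd A hA σ hσ n j y hy]
  -- the two identifications
  have e1 : (σ ^ j) • y = τ • y := by
    have h := hyE _ (s31g72_fix_inv_mul E τ (σ ^ j) hg)
    rw [mul_smul, inv_smul_eq_iff] at h
    exact h.symm
  have e2 : (σ ^ j)⁻¹ • y = τ⁻¹ • y := by
    have h := hyE _ (s31g72_fix_mul_inv E τ (σ ^ j) hg)
    rw [mul_smul] at h
    rw [eq_inv_smul_iff]
    exact h
  rw [e1, e2]
  -- the cyclotomic congruence `ℓ ^ j ≡ 1`
  have hmod : ℓ ^ j ≡ 1 [MOD p ^ n] := by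
    obtain ⟨ζ, hζ⟩ := ru58_exists_primitiveRoot (p ^ n) hm
    have hz := hζ.pow_eq_one
    have h1 : τ ζ = ζ := ru58_inertia P hP τ hτ hm hcopq ζ hz
    have h2 : (σ ^ j) ζ = ζ ^ (ℓ ^ j) := ru58_frob_pow A hA σ hσ hm hcopℓ j ζ hz
    have h3 : ζ ^ (ℓ ^ j) = ζ ^ 1 := by
      rw [pow_one, ← h2, ← hg ζ (hEμ ζ hz), h1]
    exact (ru58_pow_eq_pow_iff hm hζ _ _).mp h3
  have hgy : p ^ n • (τ⁻¹ • y) = 0 := s31g72_smul_tors N _ _ y hy
  have hdvd : ((p ^ n : ℕ) : ℤ) ∣ (ℓ : ℤ) ^ j - 1 := by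
    have h := (Nat.modEq_iff_dvd.mp hmod.symm)
    push_cast at h ⊢
    exact h
  obtain ⟨d, hd⟩ := hdvd
  have hzero : ((ℓ : ℤ) ^ j - 1) • (τ⁻¹ • y) = 0 := by
    rw [hd, mul_comm, mul_smul, natCast_zsmul, hgy, smul_zero]
  have hsub : ((ℓ : ℤ) ^ j) • (τ⁻¹ • y) = τ⁻¹ • y := by
    rw [sub_smul, one_smul, sub_eq_zero] at hzero
    exact hzero
  rw [hsub]
  -- `hU` at `τ⁻¹ y`
  have h4 := hU (τ⁻¹ • y) hgy
  rw [smul_inv_smul] at h4
  -- `τ y - y - y + τ⁻¹ y = 0`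
  have h5 : τ • y + τ⁻¹ • y = y + y := by
    have h6 : τ • y + τ⁻¹ • y - (y + y) = τ • y - y - y + τ⁻¹ • y := by abel
    rw [← sub_eq_zero, h6]
    exact h4
  exact h5

/-- **S34 from (A), (B) and `hU`.** -/
theorem s34g72_main (hp : p.Prime)
    (hp𝒪 : (p : 𝒪) ∈ IsLocalRing.maximalIdeal 𝒪) (hpS : p ∈ S)
    (hNS : ∀ q : ℕ, q.Prime → q ∣ N → q ∈ S)
    (H : CuspForm.HeckeGaloisRepDatum N (↑S : Set ℕ) 𝒪 θ T)
    (hA : ∀ n : ℕ, s31g72_ThetaZ N (p ^ n))
    (hB : s31g72_Sat N (↑S : Set ℕ) p)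
    (q : ℕ) (hq : q.Prime) (hqp : q ≠ p)
    (hU : ∀ (n : ℕ) (P : ValuationSubring Qb), P.LiesOverPrime q →
      ∀ t ∈ P.inertiaSubgroupIn ℚ, ∀ x : JZero N, p ^ n • x = 0 →
        t • t • x - t • x - t • x + x = 0) :
    H.ρ.IsUnipotentOnInertiaAt q := by
  classical
  intro P hP τ hτ
  -- `p` lies in the maximal ideal of `T`
  have hpT : (p : T) ∈ IsLocalRing.maximalIdeal T := by
    have h1 : (p : T) = algebraMap 𝒪 T (p : 𝒪) := (map_natCast (algebraMap 𝒪 T) p).symm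
    rw [h1, IsLocalRing.mem_maximalIdeal, mem_nonunits_iff]
    intro hu
    exact ((IsLocalRing.mem_maximalIdeal _).mp hp𝒪) (isUnit_of_map_unit (algebraMap 𝒪 T) _ hu)
  obtain ⟨c, hc⟩ := hB
  -- Krull's intersection theorem
  have hkrull : ∀ d : T, (∀ k : ℕ, d ∈ IsLocalRing.maximalIdeal T ^ k) → d = 0 := by
    intro d hd
    have h := Ideal.iInf_pow_eq_bot_of_isLocalRing (IsLocalRing.maximalIdeal T)
      (Ideal.IsMaximal.ne_top inferInstance)
    have h2 : d ∈ ⨅ i, IsLocalRing.maximalIdeal T ^ i := (Ideal.mem_iInf).mpr hd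
    rw [h] at h2
    exact h2
  -- the two congruences at every level
  have hlevel : ∀ k : ℕ,
      LinearMap.trace T H.ρ.V (H.ρ.ρ τ) - 2 ∈ IsLocalRing.maximalIdeal T ^ k ∧
      LinearMap.det (H.ρ.ρ τ) - 1 ∈ IsLocalRing.maximalIdeal T ^ k := by
    intro k
    -- the level
    obtain ⟨Θ, htors, hker, hhec⟩ := hA (k + c)
    have hy : ∀ χ, p ^ (k + c) • Θ χ = 0 := fun χ => by
      have h := htors χ
      rw [natCast_zsmul] at h
      exact h
    -- generators of the lattice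
    haveI : Module.Finite ℤ ↥(parabolicHoms ℤ (Gamma0 N) ℤ) :=
      Module.Finite.iff_fg.mpr (m9e54_fg N)
    obtain ⟨s, hs⟩ :=
      (Module.Finite.fg_top : (⊤ : Submodule ℤ ↥(parabolicHoms ℤ (Gamma0 N) ℤ)).FG)
    -- the three number fields
    obtain ⟨F₁, hF₁fd, -, hF₁⟩ := os25_open_stab_galois N (s.image Θ)
    obtain ⟨F₂, hF₂fd, hF₂⟩ := H.ρ.isAdicContinuous k
    obtain ⟨F₃, hF₃fd, hF₃⟩ := ru58_exists_level (p ^ (k + c)) (pow_pos hp.pos (k + c))
    haveI := hF₁fd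
    haveI := hF₂fd
    haveI := hF₃fd
    -- a finite normal extension containing them
    have halg : Algebra.IsAlgebraic ℚ Qb := AlgebraicClosure.isAlgebraic ℚ
    haveI : IsAlgClosure ℚ Qb := ⟨inferInstance, halg⟩
    haveI : Normal ℚ Qb := IsAlgClosure.normal ℚ Qb
    let E₀ : IntermediateField ℚ Qb := F₁ ⊔ F₂ ⊔ F₃
    haveI : FiniteDimensional ℚ ↥(F₁ ⊔ F₂) := IntermediateField.finiteDimensional_sup F₁ F₂
    haveI : FiniteDimensional ℚ E₀ := IntermediateField.finiteDimensional_sup (F₁ ⊔ F₂) F₃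
    let E : IntermediateField ℚ Qb := IntermediateField.normalClosure ℚ E₀ Qb
    haveI hEfd : FiniteDimensional ℚ E := normalClosure.is_finiteDimensional ℚ E₀ Qb
    haveI hEn : Normal ℚ E := normalClosure.normal ℚ E₀ Qb
    have hE₀E : E₀ ≤ E := E₀.le_normalClosure
    have hF₁E : F₁ ≤ E := le_trans (le_trans le_sup_left le_sup_left) hE₀E
    have hF₂E : F₂ ≤ E := le_trans (le_trans le_sup_right le_sup_left) hE₀E
    have hF₃E : F₃ ≤ E := le_trans le_sup_right hE₀E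
    -- the classes `Θ χ` are fixed by the fixing group of `E`
    have hyE : ∀ χ, ∀ σ : GQ, (∀ a ∈ E, σ a = a) → σ • Θ χ = Θ χ := by
      intro χ σ hσ
      refine s31g72_fixed_of_span Θ s hs σ (fun x hx => ?_) χ
      exact hF₁ σ (fun a ha => hσ a (hF₁E ha)) (Θ x) (Finset.mem_image_of_mem Θ hx)
    -- the Frobenius element
    obtain ⟨ℓ, A, σ, j, hℓ, hℓS, hAl, hσ, hg⟩ := fp37_frob_pow_field E τ S
    have hℓN : ¬ ℓ ∣ N := fun h => hℓS (hNS ℓ hℓ h)
    have hℓp : ℓ ≠ p := fun h => hℓS (h ▸ hpS)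
    have hℓS' : ℓ ∉ (↑S : Set ℕ) := fun h => hℓS (Finset.mem_coe.mp h)
    have hfix : ∀ v : H.ρ.V, H.ρ.ρ ((σ ^ j)⁻¹ * τ) v - v ∈
        (IsLocalRing.maximalIdeal T ^ k) • (⊤ : Submodule T H.ρ.V) := fun v =>
      hF₂ _ (fun x hx => s31g72_fix_inv_mul E τ (σ ^ j) hg x (hF₂E hx)) v
    -- trace and determinant modulo `𝔪 ^ k`
    have ht := s31g72_trace_sub_mem H.ρ k τ (σ ^ j) hfix
    have hd := s34g72_det_sub_mem H.ρ k τ (σ ^ j) hfix
    rw [s31g72_trace_frob_pow H hℓ hℓN hℓS' A hAl σ hσ j] at ht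
    -- the determinant of the Frobenius power
    have hdetσ : LinearMap.det (H.ρ.ρ (σ ^ j)) = ((ℓ : T)) ^ j := by
      rw [map_pow, map_pow,
        s34g72_det_of_charpoly H.ρ.finrank_eq (H.ρ.ρ σ) _ _
          (H.charpoly_frob ℓ hℓ hℓN hℓS' A hAl σ hσ)]
    -- the cyclotomic congruence
    have hcopℓ : Nat.Coprime ℓ (p ^ (k + c)) :=
      Nat.Coprime.pow_right (k + c) ((Nat.coprime_primes hℓ hp).mpr hℓp)
    have hcopq : Nat.Coprime q (p ^ (k + c)) :=
      Nat.Coprime.pow_right (k + c) ((Nat.coprime_primes hq hp).mpr hqp)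
    have hm : 0 < p ^ (k + c) := pow_pos hp.pos (k + c)
    have hmod : ℓ ^ j ≡ 1 [MOD p ^ (k + c)] := by
      obtain ⟨ζ, hζ⟩ := ru58_exists_primitiveRoot (p ^ (k + c)) hm
      have hz := hζ.pow_eq_one
      have h1 : τ ζ = ζ := ru58_inertia P hP τ hτ hm hcopq ζ hz
      have h2 : (σ ^ j) ζ = ζ ^ (ℓ ^ j) := ru58_frob_pow A hAl σ hσ hm hcopℓ j ζ hz
      have h3 : ζ ^ (ℓ ^ j) = ζ ^ 1 := by
        rw [pow_one, ← h2, ← hg ζ (hF₃E (hF₃ ζ hz)), h1]
      exact (ru58_pow_eq_pow_iff hm hζ _ _).mp h3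
    have hℓj : ((ℓ : T)) ^ j - 1 ∈ IsLocalRing.maximalIdeal T ^ k := by
      have hdvd : ((p ^ (k + c) : ℕ) : ℤ) ∣ (ℓ : ℤ) ^ j - 1 := by
        have h := (Nat.modEq_iff_dvd.mp hmod.symm)
        push_cast at h ⊢
        exact h
      obtain ⟨d, hd'⟩ := hdvd
      have h1 : ((ℓ : T)) ^ j - 1 = (p : T) ^ (k + c) * (d : T) := by
        have h2 := congrArg (fun z : ℤ => (z : T)) hd'
        push_cast at h2
        exact h2
      rw [h1]
      refine Ideal.mul_mem_right _ _ ?_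
      exact Ideal.pow_le_pow_right (Nat.le_add_right k c) (Ideal.pow_mem_pow hpT (k + c))
    -- the relation element
    let w : Module.End ℤ ↥(parabolicHoms ℤ (Gamma0 N) ℤ) × CuspForm.heckeAlgebra N 2 (↑S : Set ℕ) :=
      (m9e54_TL N ⟨ℓ, hℓ, hℓN⟩, CuspForm.heckeAlgebra.T hℓ hℓN hℓS')
    have hw : w ∈ s31g72_gens N (↑S : Set ℕ) := ⟨ℓ, hℓ, hℓN, hℓS', rfl, fun x => rfl⟩
    let z := aeval w (s31e60_lucV (ℓ : ℤ) j) - 2
    have hz : z ∈ Algebra.adjoin ℤ (s31g72_gens N (↑S : Set ℕ)) := by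
      refine Subalgebra.sub_mem _
        (Algebra.adjoin_mono (Set.singleton_subset_iff.mpr hw)
          (Polynomial.aeval_mem_adjoin_singleton ℤ w)) ?_
      have h2 : (2 : Module.End ℤ ↥(parabolicHoms ℤ (Gamma0 N) ℤ) ×
          CuspForm.heckeAlgebra N 2 (↑S : Set ℕ)) = 1 + 1 := one_add_one_eq_two.symm
      rw [h2]
      exact Subalgebra.add_mem _ (Subalgebra.one_mem _) (Subalgebra.one_mem _)
    have hz1 : z.1 = aeval (m9e54_TL N ⟨ℓ, hℓ, hℓN⟩) (s31e60_lucV (ℓ : ℤ) j) - 2 := by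
      show (aeval w (s31e60_lucV (ℓ : ℤ) j) - 2).1 = _
      rw [Prod.fst_sub, s31g72_fst_aeval]
      rfl
    have hz2 : z.2 = aeval (CuspForm.heckeAlgebra.T hℓ hℓN hℓS') (s31e60_lucV (ℓ : ℤ) j) - 2 := by
      show (aeval w (s31e60_lucV (ℓ : ℤ) j) - 2).2 = _
      rw [Prod.snd_sub, s31g72_snd_aeval]
      rfl
    -- Hecke equivariance of `Θ`
    have hndl : ¬ ℓ ∣ N * p ^ (k + c) := by
      intro hd
      rcases (Nat.Prime.dvd_mul hℓ).mp hd with h | h
      · exact hℓN h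
      · exact hℓp ((Nat.prime_dvd_prime_iff_eq hℓ hp).mp (hℓ.dvd_of_dvd_pow h))
    have hΘT : ∀ x, Θ (m9e54_TL N ⟨ℓ, hℓ, hℓN⟩ x) = heckeOperatorBar N ⟨ℓ, hℓ⟩ (Θ x) := by
      intro x
      obtain ⟨hχ, he⟩ := hhec ⟨ℓ, hℓ⟩ hndl x
      exact he.symm
    -- the Jacobian side: `z.1` maps the lattice into `p ^ (k + c)` times itself
    have hzL : ∀ x : ↥(parabolicHoms ℤ (Gamma0 N) ℤ), ∃ y : ↥(parabolicHoms ℤ (Gamma0 N) ℤ),
        z.1 x = ((p : ℤ) ^ (k + c)) • y := by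
      intro x
      have h0 : Θ (z.1 x) = 0 := by
        have h2 : (2 : Module.End ℤ ↥(parabolicHoms ℤ (Gamma0 N) ℤ)) x = x + x := by
          have h3 : (2 : Module.End ℤ ↥(parabolicHoms ℤ (Gamma0 N) ℤ)) = 1 + 1 :=
            one_add_one_eq_two.symm
          rw [h3, LinearMap.add_apply, Module.End.one_apply]
        rw [hz1, LinearMap.sub_apply, map_sub, h2, map_add,
          s31g72_aeval_intertwine Θ _ _ hΘT, sub_eq_zero]
        exact s34g72_delta N hp (k + c) E (fun z hz => hF₃E (hF₃ z hz))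
          hℓ hℓN hℓp A hAl σ hσ j hq hqp P hP τ hτ hg (hU (k + c) P hP τ hτ)
          (Θ x) (hy x) (hyE x)
      obtain ⟨χ', hχ'⟩ := hker _ h0
      refine ⟨χ', ?_⟩
      rw [hχ', ← natCast_zsmul]
      push_cast
      rfl
    obtain ⟨t', ht'⟩ := hc k z hz hzL
    -- conclusion
    have hπ : H.π (aeval (CuspForm.heckeAlgebra.T hℓ hℓN hℓS') (s31e60_lucV (ℓ : ℤ) j)) - 2
        ∈ IsLocalRing.maximalIdeal T ^ k := by
      have h2 : H.π (aeval (CuspForm.heckeAlgebra.T hℓ hℓN hℓS') (s31e60_lucV (ℓ : ℤ) j)) - 2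
          = H.π z.2 := by
        rw [hz2, map_sub, map_ofNat]
      rw [h2, ht', map_zsmul, zsmul_eq_mul]
      refine Ideal.mul_mem_right _ _ ?_
      have h3 : (((p : ℤ) ^ k : ℤ) : T) = (p : T) ^ k := by push_cast; rfl
      rw [h3]
      exact Ideal.pow_mem_pow hpT k
    refine ⟨?_, ?_⟩
    · have hfin : LinearMap.trace T H.ρ.V (H.ρ.ρ τ) - 2
          = (LinearMap.trace T H.ρ.V (H.ρ.ρ τ)
              - H.π (aeval (CuspForm.heckeAlgebra.T hℓ hℓN hℓS') (s31e60_lucV (ℓ : ℤ) j)))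
            + (H.π (aeval (CuspForm.heckeAlgebra.T hℓ hℓN hℓS') (s31e60_lucV (ℓ : ℤ) j)) - 2) := by
        ring
      rw [hfin]
      exact Ideal.add_mem _ ht hπ
    · have hfin : LinearMap.det (H.ρ.ρ τ) - 1
          = (LinearMap.det (H.ρ.ρ τ) - LinearMap.det (H.ρ.ρ (σ ^ j)))
            + (((ℓ : T)) ^ j - 1) := by
        rw [hdetσ]; ring
      rw [hfin]
      exact Ideal.add_mem _ hd hℓj
  have htr : LinearMap.trace T H.ρ.V (H.ρ.ρ τ) = 2 :=
    sub_eq_zero.mp (hkrull _ fun k => (hlevel k).1)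
  have hdet : LinearMap.det (H.ρ.ρ τ) = 1 :=
    sub_eq_zero.mp (hkrull _ fun k => (hlevel k).2)
  rw [s34g72_charpoly_rank_two H.ρ.finrank_eq (H.ρ.ρ τ), htr, hdet]
  have h2 : (C (2 : T) : T[X]) = 2 := map_ofNat C 2
  rw [h2, map_one]
  ring

/-- **S34 from `hU` alone**: (A) is `thz31_closed_I_Theta_Z`, (B) is `hs42_E34` (both on
main). -/
theorem s34g72_unip (hp : p.Prime)
    (hp𝒪 : (p : 𝒪) ∈ IsLocalRing.maximalIdeal 𝒪) (hpS : p ∈ S)
    (hNS : ∀ q : ℕ, q.Prime → q ∣ N → q ∈ S)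
    (H : CuspForm.HeckeGaloisRepDatum N (↑S : Set ℕ) 𝒪 θ T)
    (q : ℕ) (hq : q.Prime) (hqp : q ≠ p)
    (hU : ∀ (n : ℕ) (P : ValuationSubring Qb), P.LiesOverPrime q →
      ∀ t ∈ P.inertiaSubgroupIn ℚ, ∀ x : JZero N, p ^ n • x = 0 →
        t • t • x - t • x - t • x + x = 0) :
    H.ρ.IsUnipotentOnInertiaAt q :=
  s34g72_main hp hp𝒪 hpS hNS H
    (fun n => haveI : NeZero (p ^ n) := ⟨pow_ne_zero n hp.ne_zero⟩
      Fermat.Agent.S42.thz31_closed_I_Theta_Z N (p ^ n))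
    (hs42_E34 N (↑S : Set ℕ) p hp) q hq hqp hU

end Main

end Fermat.Agent.S34
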