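import Mathlib
import Fermat.Agent.S34.Iface47

/-!
# S34 lab, package P5a (twin, helper43): (LS) ⟹ (UZ)

`uz43_main : s34i47_Pkg_UZ` — the literal package `Prop` of `Iface47`.

Let `n ∋ π` be a maximal ideal of the chart `B` with local coordinates `z, z'` as in
`s34i47_LocStr`, and `O` a `K`-rational horizontal valuation ring through `n`, with valuation
`v`.

* `uz43_value` : every `x ∈ B` has a value `r ∈ R` at `O` (`v (x - r) < 1`): the value
  `c ∈ K` given by rationality is integral, because otherwise `1 - c⁻¹ x` would be an element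
  of the centre of `O` which is a unit at `n`.
* `uz43_nakayama` : with `a, b ∈ π R` the values of `z, z'`, the centre `P = {v < 1}` satisfies
  `P ≤ (z - a, z' - b) + n P`, hence `r₀ P ≤ (z - a, z' - b)` for some `r₀ ∉ n`
  (determinant trick).
* at a node `s z z' = π ^ κ s'` the values satisfy `r_s a b = π ^ κ r_{s'}` and
  `a w₀ (z' - b) = D (z - a)` with `w₀ ∉ n` (`uz43_main`), so `t P ≤ (z - a)` with `t` a unit of
  every horizontal valuation ring through `n`.
* `uz43_final` : then `p = z - a` is a uniformiser of `O` (well-founded induction on the ideals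
  of the principal ideal ring `O`: every `x ∈ B` is `p ^ k` up to units of `O`), and a
  horizontal `O'` through `n` with `v' p < 1` has the same centre as `O` and hence equals `O`.
-/

set_option autoImplicit false

namespace Fermat.Agent.S34

section uz43_val

variable {F : Type*} [Field F]

/-- `v x < 1` iff `x` is zero or not invertible in `O`. -/
theorem uz43_lt_one_iff (O : ValuationSubring F) (x : F) :
    O.valuation x < 1 ↔ x = 0 ∨ x⁻¹ ∉ O := by
  rcases eq_or_ne x 0 with rfl | hx
  · simp
  · have h0 : 0 < O.valuation x := zero_lt_iff.mpr ((Valuation.ne_zero_iff _).mpr hx)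
    rw [← O.valuation_le_one_iff, map_inv₀, inv_le_one₀ h0, not_le]
    simp [hx]

theorem uz43_eq_one_of_mem (O : ValuationSubring F) (x : F) (hx0 : x ≠ 0) (hx : x ∈ O)
    (hx' : x⁻¹ ∈ O) : O.valuation x = 1 := by
  have h0 : 0 < O.valuation x := zero_lt_iff.mpr ((Valuation.ne_zero_iff _).mpr hx0)
  refine le_antisymm ((O.valuation_le_one_iff x).mpr hx) ?_
  have h1 := (O.valuation_le_one_iff x⁻¹).mpr hx'
  rwa [map_inv₀, inv_le_one₀ h0] at h1

theorem uz43_mul_lt_one (O : ValuationSubring F) (x y : F) (hx : O.valuation x < 1)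
    (hy : O.valuation y ≤ 1) : O.valuation (x * y) < 1 := by
  rw [map_mul]
  exact lt_of_le_of_lt (mul_le_mul_right hy _) (by simpa using hx)

theorem uz43_mul_lt_one' (O : ValuationSubring F) (x y : F) (hx : O.valuation x ≤ 1)
    (hy : O.valuation y < 1) : O.valuation (x * y) < 1 := by
  rw [mul_comm]
  exact uz43_mul_lt_one O y x hy hx

/-- comparison of exponents. -/
theorem uz43_crit {Γ : Type*} [LinearOrderedCommGroupWithZero Γ] (g c : Γ) (hg0 : 0 < g)
    (hg1 : g < 1) (k l : ℕ) (h : c * g ^ l = g ^ k) : c ≤ 1 ↔ l ≤ k := by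
  have hgl : 0 < g ^ l := pow_pos hg0 l
  constructor
  · intro hc
    by_contra hlk
    have h1 : g ^ l < g ^ k := pow_lt_pow_right_of_lt_one₀ hg0 hg1 (not_le.mp hlk)
    have h2 : c * g ^ l ≤ g ^ l := by simpa using mul_le_mul_left hc (g ^ l)
    rw [h] at h2
    exact absurd h1 (not_lt.mpr h2)
  · intro hlk
    have h1 : g ^ k ≤ g ^ l := pow_le_pow_right_of_le_one' hg1.le hlk
    rw [← h] at h1
    by_contra hc
    have h2 : 1 * g ^ l < c * g ^ l := mul_lt_mul_of_pos_right (not_le.mp hc) hgl
    rw [one_mul] at h2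
    exact absurd h1 (not_le.mpr h2)

theorem uz43_crit_lt {Γ : Type*} [LinearOrderedCommGroupWithZero Γ] (g c : Γ) (hg0 : 0 < g)
    (hg1 : g < 1) (k l : ℕ) (h : c * g ^ l = g ^ k) (hc : c < 1) : c ≤ g := by
  have hgl : 0 < g ^ l := pow_pos hg0 l
  have hlk : l < k := by
    by_contra hkl
    have h1 : g ^ l ≤ g ^ k := pow_le_pow_right_of_le_one' hg1.le (not_lt.mp hkl)
    have h2 : c * g ^ l < 1 * g ^ l := mul_lt_mul_of_pos_right hc hgl
    rw [one_mul, h] at h2
    exact absurd h1 (not_le.mpr h2)
  have hc' : c = g ^ (k - l) := by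
    apply mul_right_cancel₀ hgl.ne'
    rw [h, ← pow_add, Nat.sub_add_cancel hlk.le]
  rw [hc']
  calc g ^ (k - l) ≤ g ^ 1 := pow_le_pow_right_of_le_one' hg1.le (by omega)
    _ = g := pow_one g

end uz43_val

section uz43_chart

variable {R F : Type*} [CommRing R] [Field F] [Algebra R F]

theorem uz43_le_one (B : Subalgebra R F) (n : Ideal B) (O : ValuationSubring F)
    (hT : s34i47_Through B n O) (x : B) : O.valuation (x : F) ≤ 1 :=
  (O.valuation_le_one_iff _).mpr (hT.1 _ x.2)

/-- elements of `B` outside `n` are units of every `O` through `n`. -/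
theorem uz43_eq_one_of_notMem (B : Subalgebra R F) (n : Ideal B) (O : ValuationSubring F)
    (hT : s34i47_Through B n O) (x : B) (hx : x ∉ n) : O.valuation (x : F) = 1 := by
  have hx0 : (x : F) ≠ 0 := by
    intro h0
    apply hx
    have h1 : x = 0 := Subtype.ext h0
    rw [h1]
    exact n.zero_mem
  exact uz43_eq_one_of_mem O _ hx0 (hT.1 _ x.2) (hT.2 x hx)

theorem uz43_mem_of_lt_one (B : Subalgebra R F) (n : Ideal B) (O : ValuationSubring F)
    (hT : s34i47_Through B n O) (x : B) (hx : O.valuation (x : F) < 1) : x ∈ n := by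
  by_contra hxn
  rw [uz43_eq_one_of_notMem B n O hT x hxn] at hx
  exact lt_irrefl _ hx

/-- The centre of `O` on `B`. -/
def uz43_centre (B : Subalgebra R F) (O : ValuationSubring F) (hBO : ∀ x ∈ B, x ∈ O) :
    Ideal B where
  carrier := {x | O.valuation (x : F) < 1}
  add_mem' := fun {a b} ha hb => by
    show O.valuation ((a + b : B) : F) < 1
    rw [Subalgebra.coe_add]
    exact O.valuation.map_add_lt ha hb
  zero_mem' := by
    show O.valuation ((0 : B) : F) < 1
    simp
  smul_mem' := fun c x hx => by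
    show O.valuation ((c • x : B) : F) < 1
    rw [smul_eq_mul, Subalgebra.coe_mul]
    exact uz43_mul_lt_one' O _ _ ((O.valuation_le_one_iff _).mpr (hBO _ c.2)) hx

theorem uz43_mem_centre (B : Subalgebra R F) (O : ValuationSubring F) (hBO : ∀ x ∈ B, x ∈ O)
    (x : B) : x ∈ uz43_centre B O hBO ↔ O.valuation (x : F) < 1 := Iff.rfl

set_option synthInstance.maxHeartbeats 400000 in
/-- **Nakayama step**: the centre of `O` is generated at `n` by `z - a` and `z' - b`. -/
theorem uz43_nakayama (π : R) (B : Subalgebra R F) [IsNoetherianRing B] (n : Ideal B)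
    (hn : n.IsMaximal) (hπn : algebraMap R B π ∈ n) (O : ValuationSubring F)
    (hT : s34i47_Through B n O) (hπ1 : O.valuation (algebraMap R F π) = 1) (z z' : B)
    (hgen : ∀ x ∈ n, ∃ s : B, s ∉ n ∧
      ∃ a b c : B, s * x = a * z + b * z' + c * algebraMap R B π)
    (a₁ b₁ : R) (ha : O.valuation ((z : F) - algebraMap R F (π * a₁)) < 1)
    (hb : O.valuation ((z' : F) - algebraMap R F (π * b₁)) < 1) :
    ∃ r₀ : B, r₀ ∉ n ∧ ∀ x : B, O.valuation (x : F) < 1 →
      ∃ A C : B, r₀ * x =
        A * (z - algebraMap R B (π * a₁)) + C * (z' - algebraMap R B (π * b₁)) := by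
  classical
  set p : B := z - algebraMap R B (π * a₁) with hp
  set p' : B := z' - algebraMap R B (π * b₁) with hp'
  set P : Ideal B := uz43_centre B O hT.1 with hP
  have hPmem : ∀ x : B, x ∈ P ↔ O.valuation (x : F) < 1 := fun x => Iff.rfl
  have hpP : p ∈ P := by
    rw [hPmem]
    exact ha
  have hp'P : p' ∈ P := by
    rw [hPmem]
    exact hb
  have hPn : P ≤ n := fun x hx => uz43_mem_of_lt_one B n O hT x hx
  set I₀ : Ideal B := Ideal.span {p, p'} with hI₀
  have hpI : p ∈ I₀ := Ideal.subset_span (by simp)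
  have hp'I : p' ∈ I₀ := Ideal.subset_span (by simp)
  have hkey : P ≤ I₀ ⊔ n • P := by
    intro x hx
    obtain ⟨s, hs, α, β, γ, hsx⟩ := hgen x (hPn hx)
    obtain ⟨y, i, hi, hyi⟩ := hn.exists_inv hs
    set y₁ : B := α * algebraMap R B a₁ + β * algebraMap R B b₁ + γ with hy₁
    have e1 : s * x = α * p + β * p' + algebraMap R B π * y₁ := by
      rw [hsx, hp, hp', hy₁, map_mul, map_mul]
      ring
    have hy₁P : y₁ ∈ P := by
      have h2 : algebraMap R B π * y₁ ∈ P := by
        have h3 : algebraMap R B π * y₁ = s * x - α * p - β * p' := by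
          rw [e1]
          ring
        rw [h3]
        exact P.sub_mem (P.sub_mem (P.mul_mem_left _ hx) (P.mul_mem_left _ hpP))
          (P.mul_mem_left _ hp'P)
      rw [hPmem] at h2 ⊢
      have h3 : ((algebraMap R B π * y₁ : B) : F) = algebraMap R F π * (y₁ : F) := rfl
      rw [h3, map_mul, hπ1, one_mul] at h2
      exact h2
    have e2 : x = y * (α * p + β * p') + (y * algebraMap R B π) * y₁ + i * x := by
      have h3 : x = (y * s + i) * x := by rw [hyi, one_mul]
      calc x = (y * s + i) * x := h3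
        _ = y * (s * x) + i * x := by ring
        _ = y * (α * p + β * p') + (y * algebraMap R B π) * y₁ + i * x := by
          rw [e1]
          ring
    rw [e2]
    refine Submodule.add_mem _ (Submodule.add_mem _ (Submodule.mem_sup_left ?_)
      (Submodule.mem_sup_right ?_)) (Submodule.mem_sup_right ?_)
    · exact I₀.mul_mem_left _ (I₀.add_mem (I₀.mul_mem_left _ hpI) (I₀.mul_mem_left _ hp'I))
    · exact Submodule.smul_mem_smul (n.mul_mem_left _ hπn) hy₁P
    · exact Submodule.smul_mem_smul hi hx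
  set N : Submodule B (B ⧸ I₀) := Submodule.map (Submodule.mkQ I₀) P with hN
  have hNfg : N.FG := Submodule.FG.map _ (IsNoetherian.noetherian P)
  have hNle : N ≤ n • N := by
    have h1 : Submodule.map (Submodule.mkQ I₀) P ≤
        Submodule.map (Submodule.mkQ I₀) (I₀ ⊔ n • P) := Submodule.map_mono hkey
    rw [Submodule.map_sup, Submodule.mkQ_map_self, bot_sup_eq, Submodule.map_smul''] at h1
    exact h1
  obtain ⟨r₀, hr₀, hr₀N⟩ :=
    Submodule.exists_sub_one_mem_and_smul_eq_zero_of_fg_of_le_smul n N hNfg hNle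
  refine ⟨r₀, ?_, ?_⟩
  · intro hr₀n
    have h1 : (1 : B) ∈ n := by
      have h2 := n.sub_mem hr₀n hr₀
      simpa using h2
    exact hn.ne_top ((Ideal.eq_top_iff_one _).mpr h1)
  · intro x hx
    have h1 := hr₀N (Submodule.mkQ I₀ x) (Submodule.mem_map_of_mem ((hPmem x).mpr hx))
    have h2 : r₀ * x ∈ I₀ := by
      rw [← Submodule.Quotient.mk_eq_zero I₀]
      rw [← smul_eq_mul, Submodule.Quotient.mk_smul]
      exact h1
    obtain ⟨A, C, hAC⟩ := Ideal.mem_span_pair.mp h2
    exact ⟨A, C, hAC.symm⟩

end uz43_chart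

section uz43_final

variable {R F : Type*} [CommRing R] [Field F] [Algebra R F]

/-- **Final step**: if `t · P ≤ (p)` for the centre `P` of `O` (with `t` a unit at `n` times a
nonzero constant), then `p` is a uniformiser of `O` and a unit of every other horizontal
valuation ring through `n`. -/
theorem uz43_final (B : Subalgebra R F)
    (hfrac : ∀ x : F, ∃ a ∈ B, ∃ b ∈ B, b ≠ 0 ∧ x * b = a)
    (n : Ideal B) (O : ValuationSubring F) (hOtop : O ≠ ⊤) (hPIR : IsPrincipalIdealRing O)
    (hT : s34i47_Through B n O)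
    (hval : ∀ x : B, ∃ r : R, O.valuation ((x : F) - algebraMap R F r) < 1)
    (hconst : ∀ r : R, r ≠ 0 → O.valuation (algebraMap R F r) = 1)
    (p p' : B) (hp : O.valuation (p : F) < 1) (r₀ : B) (hr₀ : r₀ ∉ n)
    (hK : ∀ x : B, O.valuation (x : F) < 1 → ∃ A C : B, r₀ * x = A * p + C * p')
    (a₀ : R) (ha₀ : a₀ ≠ 0) (w D : B) (hw : w ∉ n)
    (hrel : algebraMap R B a₀ * w * p' = D * p) :
    (p : F) ≠ 0 ∧ (p : F) ∈ O ∧ (p : F)⁻¹ ∉ O ∧
      (∀ x ∈ O, x⁻¹ ∉ O → x * (p : F)⁻¹ ∈ O) ∧
      ∀ O' : ValuationSubring F, s34i47_Through B n O' →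
        (∀ r : R, r ≠ 0 → O'.valuation (algebraMap R F r) = 1) → O' ≠ O →
        (p : F) ∈ O' ∧ (p : F)⁻¹ ∈ O' := by
  classical
  have hle : ∀ x : B, O.valuation (x : F) ≤ 1 := uz43_le_one B n O hT
  set t : B := algebraMap R B a₀ * w * r₀ with ht
  have htF : (t : F) = algebraMap R F a₀ * (w : F) * (r₀ : F) := rfl
  -- `t · P ≤ (p)`
  have h8 : ∀ x : B, O.valuation (x : F) < 1 → ∃ E : B, t * x = E * p := by
    intro x hx
    obtain ⟨A, C, hAC⟩ := hK x hx
    refine ⟨algebraMap R B a₀ * w * A + C * D, ?_⟩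
    rw [ht]
    linear_combination (algebraMap R B a₀ * w) * hAC + C * hrel
  have hvt : ∀ O' : ValuationSubring F, s34i47_Through B n O' →
      (∀ r : R, r ≠ 0 → O'.valuation (algebraMap R F r) = 1) → O'.valuation (t : F) = 1 := by
    intro O' hT' hc'
    rw [htF, map_mul, map_mul, hc' a₀ ha₀, uz43_eq_one_of_notMem B n O' hT' w hw,
      uz43_eq_one_of_notMem B n O' hT' r₀ hr₀, one_mul, one_mul]
  have hvtO : O.valuation (t : F) = 1 := hvt O hT hconst
  have ht0 : (t : F) ≠ 0 := by
    intro h0
    rw [h0, map_zero] at hvtO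
    exact zero_ne_one hvtO
  have hcoe : ∀ {x y : B}, x = y → (x : F) = (y : F) := fun h => congrArg Subtype.val h
  -- `p ≠ 0`
  have hp0 : (p : F) ≠ 0 := by
    intro hp0
    obtain ⟨y, hy⟩ : ∃ y : F, y ∉ O := by
      by_contra hall
      exact hOtop (eq_top_iff.mpr fun x _ => not_not.mp (not_exists.mp hall x))
    have hy0 : y ≠ 0 := fun h => hy (h ▸ O.zero_mem)
    have hyi : O.valuation y⁻¹ < 1 := by
      rw [uz43_lt_one_iff]
      right
      rwa [inv_inv]
    obtain ⟨a', ha', b', hb', hb'0, hab⟩ := hfrac y⁻¹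
    have hva : O.valuation a' < 1 := by
      rw [← hab]
      exact uz43_mul_lt_one O _ _ hyi (hle ⟨b', hb'⟩)
    obtain ⟨E, hE⟩ := h8 ⟨a', ha'⟩ hva
    have hE' : (t : F) * a' = (E : F) * (p : F) := hcoe hE
    rw [hp0, mul_zero] at hE'
    have ha0 : a' = 0 := by
      rcases mul_eq_zero.mp hE' with h | h
      · exact absurd h ht0
      · exact h
    rw [ha0] at hab
    rcases mul_eq_zero.mp hab with h | h
    · exact inv_ne_zero hy0 h
    · exact hb'0 h
  have hvp0 : 0 < O.valuation (p : F) := zero_lt_iff.mpr ((Valuation.ne_zero_iff _).mpr hp0)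
  -- every nonzero element of `B` is `p ^ k` up to units of `O`
  have : IsPrincipalIdealRing O := hPIR
  have key : ∀ I : Ideal O, ∀ x : B, x ≠ 0 →
      Ideal.span {(⟨(x : F), hT.1 _ x.2⟩ : O)} = I →
      ∃ (k : ℕ) (T W : B), O.valuation (T : F) = 1 ∧ O.valuation (W : F) = 1 ∧
        T * x = W * p ^ k := by
    intro I
    refine WellFoundedGT.induction (motive := fun I : Ideal O => ∀ x : B, x ≠ 0 →
      Ideal.span {(⟨(x : F), hT.1 _ x.2⟩ : O)} = I →
      ∃ (k : ℕ) (T W : B), O.valuation (T : F) = 1 ∧ O.valuation (W : F) = 1 ∧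
        T * x = W * p ^ k) I ?_
    intro I ih x hx0 hxI
    rcases (hle x).lt_or_eq with hlt | heq
    · obtain ⟨E, hE⟩ := h8 x hlt
      have hEF : (t : F) * (x : F) = (E : F) * (p : F) := hcoe hE
      have hxF0 : (x : F) ≠ 0 := fun h => hx0 (Subtype.ext h)
      have hE0 : E ≠ 0 := by
        rintro rfl
        have h1 : (t : F) * (x : F) = 0 := by
          rw [hEF]
          simp
        rcases mul_eq_zero.mp h1 with h | h
        · exact ht0 h
        · exact hxF0 h
      have hEF0 : (E : F) ≠ 0 := fun h => hE0 (Subtype.ext h)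
      have hvE : O.valuation (x : F) = O.valuation (E : F) * O.valuation (p : F) := by
        have h1 := congrArg O.valuation hEF
        rw [map_mul, map_mul, hvtO, one_mul] at h1
        exact h1
      have hlt' : I < Ideal.span {(⟨(E : F), hT.1 _ E.2⟩ : O)} := by
        rw [← hxI]
        refine lt_of_le_not_ge ?_ ?_
        · rw [Ideal.span_singleton_le_span_singleton]
          have hmem : (p : F) * (t : F)⁻¹ ∈ O := by
            rw [← O.valuation_le_one_iff, map_mul, map_inv₀, hvtO, inv_one, mul_one]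
            exact hp.le
          refine ⟨⟨(p : F) * (t : F)⁻¹, hmem⟩, ?_⟩
          apply Subtype.ext
          show (x : F) = (E : F) * ((p : F) * (t : F)⁻¹)
          rw [← mul_assoc, ← hEF]
          field_simp
        · intro hle'
          rw [Ideal.span_singleton_le_span_singleton] at hle'
          obtain ⟨c, hc⟩ := hle'
          have hcF : (E : F) = (x : F) * (c : F) := congrArg Subtype.val hc
          have h1 : O.valuation (E : F) ≤ O.valuation (x : F) := by
            rw [hcF, map_mul]
            simpa using mul_le_mul_right ((O.valuation_le_one_iff _).mpr c.2) (O.valuation (x : F))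
          have hvE0 : 0 < O.valuation (E : F) :=
            zero_lt_iff.mpr ((Valuation.ne_zero_iff _).mpr hEF0)
          have h2 : O.valuation (E : F) * O.valuation (p : F) < O.valuation (E : F) * 1 :=
            mul_lt_mul_of_pos_left hp hvE0
          rw [mul_one, ← hvE] at h2
          exact absurd h1 (not_le.mpr h2)
      obtain ⟨k, T, W, hT1, hW1, hTW⟩ := ih _ hlt' E hE0 rfl
      refine ⟨k + 1, T * t, W, ?_, hW1, ?_⟩
      · rw [Subalgebra.coe_mul, map_mul, hT1, hvtO, one_mul]
      · rw [pow_succ]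
        linear_combination T * hE + p * hTW
    · exact ⟨0, 1, x, by simp, heq, by simp⟩
  have hstar : ∀ x : B, x ≠ 0 → ∃ (k : ℕ) (T W : B), O.valuation (T : F) = 1 ∧
      O.valuation (W : F) = 1 ∧ T * x = W * p ^ k := fun x hx0 => key _ x hx0 rfl
  have hvstar : ∀ (O' : ValuationSubring F) (x T W : B) (k : ℕ), O'.valuation (T : F) = 1 →
      O'.valuation (W : F) = 1 → T * x = W * p ^ k →
      O'.valuation (x : F) = O'.valuation (p : F) ^ k := by
    intro O' x T W k hT1 hW1 h
    have h1 : (T : F) * (x : F) = (W : F) * (p : F) ^ k := hcoe h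
    have h2 := congrArg O'.valuation h1
    rw [map_mul, map_mul, map_pow, hT1, hW1, one_mul, one_mul] at h2
    exact h2
  -- the relation `v y * v p ^ l = v p ^ k` for `y = a' / b'`
  have hfracval : ∀ y : F, y ≠ 0 → ∃ k l : ℕ,
      O.valuation y * O.valuation (p : F) ^ l = O.valuation (p : F) ^ k ∧
      ∀ O' : ValuationSubring F, (∀ x : B, O.valuation (x : F) = 1 → O'.valuation (x : F) = 1) →
        O'.valuation y * O'.valuation (p : F) ^ l = O'.valuation (p : F) ^ k := by
    intro y hy0
    obtain ⟨a', ha', b', hb', hb'0, hab⟩ := hfrac y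
    have ha'0 : a' ≠ 0 := by
      rw [← hab]
      exact mul_ne_zero hy0 hb'0
    obtain ⟨k, Ta, Wa, hTa, hWa, hka⟩ := hstar ⟨a', ha'⟩ (fun h => ha'0 (congrArg Subtype.val h))
    obtain ⟨l, Tb, Wb, hTb, hWb, hlb⟩ := hstar ⟨b', hb'⟩ (fun h => hb'0 (congrArg Subtype.val h))
    refine ⟨k, l, ?_, ?_⟩
    · have hva := hvstar O _ _ _ _ hTa hWa hka
      have hvb := hvstar O _ _ _ _ hTb hWb hlb
      rw [← hvb, ← hva, ← map_mul]
      exact congrArg O.valuation hab
    · intro O' hu
      have hva := hvstar O' _ _ _ _ (hu _ hTa) (hu _ hWa) hka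
      have hvb := hvstar O' _ _ _ _ (hu _ hTb) (hu _ hWb) hlb
      rw [← hvb, ← hva, ← map_mul]
      exact congrArg O'.valuation hab
  refine ⟨hp0, hT.1 _ p.2, ?_, ?_, ?_⟩
  · intro hpi
    have h1 := (uz43_lt_one_iff O (p : F)).mp hp
    rcases h1 with h1 | h1
    · exact hp0 h1
    · exact h1 hpi
  · intro y _ hyi
    have hy0 : y ≠ 0 := by
      rintro rfl
      exact hyi (by simp)
    have hvy : O.valuation y < 1 := (uz43_lt_one_iff O y).mpr (Or.inr hyi)
    obtain ⟨k, l, e, -⟩ := hfracval y hy0
    have h1 : O.valuation y ≤ O.valuation (p : F) := uz43_crit_lt _ _ hvp0 hp k l e hvy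
    rw [← O.valuation_le_one_iff, map_mul, map_inv₀]
    calc O.valuation y * (O.valuation (p : F))⁻¹
        ≤ O.valuation (p : F) * (O.valuation (p : F))⁻¹ := mul_le_mul_left h1 _
      _ = 1 := mul_inv_cancel₀ hvp0.ne'
  · intro O' hT' hconst' hne
    refine ⟨hT'.1 _ p.2, ?_⟩
    by_contra hpi
    have hp' : O'.valuation (p : F) < 1 := (uz43_lt_one_iff O' _).mpr (Or.inr hpi)
    have hvp0' : 0 < O'.valuation (p : F) := zero_lt_iff.mpr ((Valuation.ne_zero_iff _).mpr hp0)
    have hle' : ∀ x : B, O'.valuation (x : F) ≤ 1 := uz43_le_one B n O' hT'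
    have hvt' : O'.valuation (t : F) = 1 := hvt O' hT' hconst'
    have hPP' : ∀ x : B, O.valuation (x : F) < 1 → O'.valuation (x : F) < 1 := by
      intro x hx
      obtain ⟨E, hE⟩ := h8 x hx
      have hEF : (t : F) * (x : F) = (E : F) * (p : F) := hcoe hE
      have h1 := congrArg O'.valuation hEF
      rw [map_mul, hvt', one_mul] at h1
      rw [h1]
      exact uz43_mul_lt_one' O' _ _ (hle' E) hp'
    have hP'P : ∀ x : B, O'.valuation (x : F) < 1 → O.valuation (x : F) < 1 := by
      intro x hx
      obtain ⟨r, hr⟩ := hval x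
      have h1 : O'.valuation ((x : F) - algebraMap R F r) < 1 :=
        hPP' (x - algebraMap R B r) hr
      have h2 : O'.valuation (algebraMap R F r) < 1 := by
        have h3 : algebraMap R F r = (x : F) - ((x : F) - algebraMap R F r) := by ring
        rw [h3]
        exact O'.valuation.map_sub_lt hx h1
      have hr0 : r = 0 := by
        by_contra hr0
        rw [hconst' r hr0] at h2
        exact lt_irrefl _ h2
      rw [hr0, map_zero, sub_zero] at hr
      exact hr
    have hunit : ∀ x : B, O.valuation (x : F) = 1 → O'.valuation (x : F) = 1 := by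
      intro x hx
      rcases (hle' x).lt_or_eq with h | h
      · have h1 := hP'P x h
        rw [hx] at h1
        exact absurd h1 (lt_irrefl _)
      · exact h
    apply hne
    ext y
    by_cases hy0 : y = 0
    · rw [hy0]
      exact ⟨fun _ => O.zero_mem, fun _ => O'.zero_mem⟩
    · obtain ⟨k, l, e, e'⟩ := hfracval y hy0
      rw [← O'.valuation_le_one_iff, ← O.valuation_le_one_iff,
        uz43_crit _ _ hvp0' hp' k l (e' O' hunit), uz43_crit _ _ hvp0 hp k l e]

end uz43_final

section uz43_main

theorem uz43_algebraMap_ne_zero (K : Type*) {R F : Type*} [CommRing R] [IsDomain R] [Field K]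
    [Field F] [Algebra R K] [IsFractionRing R K] [Algebra R F] [Algebra K F]
    [IsScalarTower R K F] (r : R) (hr : r ≠ 0) : algebraMap R F r ≠ 0 := by
  rw [IsScalarTower.algebraMap_apply R K F]
  intro h0
  exact hr ((map_eq_zero_iff _ (IsFractionRing.injective R K)).mp
    ((map_eq_zero (algebraMap K F)).mp h0))

/-- nonzero constants are units of every horizontal valuation ring. -/
theorem uz43_val_const (K : Type*) {R F : Type*} [CommRing R] [IsDomain R]
    [IsDiscreteValuationRing R] [Field K] [Field F] [Algebra R K] [IsFractionRing R K]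
    [Algebra R F] [Algebra K F] [IsScalarTower R K F] (π : R) (hπ : Irreducible π)
    (O : ValuationSubring F)
    (hR : ∀ r : R, algebraMap R F r ∈ O) (hπO : (algebraMap R F π)⁻¹ ∈ O) (r : R)
    (hr : r ≠ 0) : O.valuation (algebraMap R F r) = 1 := by
  obtain ⟨j, u, rfl⟩ := IsDiscreteValuationRing.eq_unit_mul_pow_irreducible hr hπ
  have hπ1 : O.valuation (algebraMap R F π) = 1 :=
    uz43_eq_one_of_mem O _ (uz43_algebraMap_ne_zero K π hπ.ne_zero) (hR π) hπO
  have hu1 : O.valuation (algebraMap R F (u : R)) = 1 := by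
    refine uz43_eq_one_of_mem O _ (uz43_algebraMap_ne_zero K _ u.ne_zero) (hR _) ?_
    have h1 : (algebraMap R F (u : R))⁻¹ = algebraMap R F ((u⁻¹ : Rˣ) : R) := by
      apply inv_eq_of_mul_eq_one_right
      rw [← map_mul, Units.mul_inv, map_one]
    rw [h1]
    exact hR _
  rw [map_mul, map_pow, map_mul, map_pow, hπ1, hu1, one_pow, one_mul]

/-- every element of `B` has a value in `R` at a rational horizontal `O` through `n`. -/
theorem uz43_value (K : Type*) {R F : Type*} [CommRing R] [IsDomain R]
    [IsDiscreteValuationRing R] [Field K] [Field F] [Algebra R K] [IsFractionRing R K]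
    [Algebra R F] [Algebra K F] [IsScalarTower R K F] (π : R) (hπ : Irreducible π) (B : Subalgebra R F) (n : Ideal B)
    (hn : n.IsMaximal) (hπn : algebraMap R B π ∈ n) (O : ValuationSubring F)
    (hR : ∀ r : R, algebraMap R F r ∈ O) (hT : s34i47_Through B n O)
    (hRat : s34i47_IsRat K O) (x : B) :
    ∃ r : R, O.valuation ((x : F) - algebraMap R F r) < 1 := by
  obtain ⟨c, hc⟩ := hRat (x : F) (hT.1 _ x.2)
  have hc' : O.valuation ((x : F) - algebraMap K F c) < 1 := by
    rw [uz43_lt_one_iff]
    rcases hc with hc | hc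
    · left
      rw [hc, sub_self]
    · right
      exact hc
  by_cases hcR : ∃ r : R, algebraMap R K r = c
  · obtain ⟨r, hr⟩ := hcR
    refine ⟨r, ?_⟩
    rw [IsScalarTower.algebraMap_apply R K F, hr]
    exact hc'
  · exfalso
    have hc0 : c ≠ 0 := by
      rintro rfl
      exact hcR ⟨0, map_zero _⟩
    rcases ValuationRing.isInteger_or_isInteger R c with ⟨r, hr⟩ | ⟨d, hd⟩
    · exact hcR ⟨r, hr⟩
    · have hdu : ¬ IsUnit d := by
        intro hu
        obtain ⟨u, rfl⟩ := hu
        apply hcR
        refine ⟨((u⁻¹ : Rˣ) : R), ?_⟩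
        have h1 : algebraMap R K ((u⁻¹ : Rˣ) : R) * algebraMap R K (u : R) = 1 := by
          rw [← map_mul, Units.inv_mul, map_one]
        rw [hd] at h1
        have h2 : algebraMap R K ((u⁻¹ : Rˣ) : R) * c⁻¹ * c = c := by
          rw [h1, one_mul]
        rw [mul_assoc, inv_mul_cancel₀ hc0, mul_one] at h2
        exact h2
      have hdm : d ∈ IsLocalRing.maximalIdeal R := (IsLocalRing.mem_maximalIdeal d).mpr hdu
      rw [hπ.maximalIdeal_eq, Ideal.mem_span_singleton] at hdm
      obtain ⟨d', rfl⟩ := hdm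
      set y : B := 1 - algebraMap R B (π * d') * x with hy
      have hyF : (y : F) = algebraMap R F (π * d') * (algebraMap K F c - (x : F)) := by
        have h1 : (y : F) = 1 - algebraMap R F (π * d') * (x : F) := rfl
        have h2 : algebraMap R F (π * d') * algebraMap K F c = 1 := by
          rw [IsScalarTower.algebraMap_apply R K F, ← map_mul, hd, inv_mul_cancel₀ hc0, map_one]
        rw [h1, mul_sub, h2]
      have hvy : O.valuation (y : F) < 1 := by
        rw [hyF]
        refine uz43_mul_lt_one' O _ _ ((O.valuation_le_one_iff _).mpr (hR _)) ?_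
        rw [← neg_sub, Valuation.map_neg]
        exact hc'
      have hyn : y ∈ n := uz43_mem_of_lt_one B n O hT y hvy
      have h1 : algebraMap R B (π * d') * x ∈ n := by
        rw [map_mul, mul_assoc]
        exact n.mul_mem_right _ hπn
      have h2 : (1 : B) ∈ n := by
        have h3 := n.add_mem hyn h1
        rw [hy, sub_add_cancel] at h3
        exact h3
      exact hn.ne_top ((Ideal.eq_top_iff_one _).mpr h2)

end uz43_main

/-- **P5a**: the package `s34i47_Pkg_UZ` of `Iface47` holds. -/
theorem uz43_main : s34i47_Pkg_UZ := by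
  intro R K F _ _ _ _ _ _ _ _ _ _ π hπ B hNoeth hfrac hLS n hn hπn O hH hT hRat
  obtain ⟨hOtop, hPIR, hRO, hπO⟩ := hH
  have : IsNoetherianRing B := hNoeth
  obtain ⟨z, z', hz, hz', hgen, hcase⟩ := hLS n hn hπn
  have hconst : ∀ r : R, r ≠ 0 → O.valuation (algebraMap R F r) = 1 :=
    fun r hr => uz43_val_const K π hπ O hRO hπO r hr
  have hπ1 : O.valuation (algebraMap R F π) = 1 := hconst π hπ.ne_zero
  have hval : ∀ x : B, ∃ r : R, O.valuation ((x : F) - algebraMap R F r) < 1 :=
    uz43_value K π hπ B n hn hπn O hRO hT hRat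
  have hleO : ∀ x : B, O.valuation (x : F) ≤ 1 := uz43_le_one B n O hT
  have hconst_le : ∀ r : R, O.valuation (algebraMap R F r) ≤ 1 :=
    fun r => (O.valuation_le_one_iff _).mpr (hRO r)
  -- constants which lie in `n` are multiples of `π`
  have hconst_n : ∀ r : R, algebraMap R B r ∈ n → π ∣ r := by
    intro r hr
    by_contra hnd
    have hru : IsUnit r := by
      by_contra hnu
      have h1 : r ∈ IsLocalRing.maximalIdeal R := (IsLocalRing.mem_maximalIdeal r).mpr hnu
      rw [hπ.maximalIdeal_eq, Ideal.mem_span_singleton] at h1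
      exact hnd h1
    exact hn.ne_top (Ideal.eq_top_of_isUnit_mem _ hr (hru.map _))
  have hdvd : ∀ (x : B) (r : R), x ∈ n → O.valuation ((x : F) - algebraMap R F r) < 1 →
      π ∣ r := by
    intro x r hx hr
    have h1 : x - algebraMap R B r ∈ n := uz43_mem_of_lt_one B n O hT _ hr
    have h2 : algebraMap R B r ∈ n := by
      have h3 := n.sub_mem hx h1
      rw [sub_sub_cancel] at h3
      exact h3
    exact hconst_n r h2
  have hone : (1 : B) ∉ n := fun h => hn.ne_top ((Ideal.eq_top_iff_one _).mpr h)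
  obtain ⟨a, ha⟩ := hval z
  obtain ⟨a₁, rfl⟩ := hdvd z a hz ha
  rcases hcase with hsm | ⟨κ, s, s', hs, hs', hrel⟩
  · -- a smooth point of the special fibre: `z' = π`
    have hp'0 : z' - algebraMap R B (π * 1) = 0 := by
      rw [hsm, mul_one, sub_self]
    have hb : O.valuation ((z' : F) - algebraMap R F (π * 1)) < 1 := by
      have h1 : (z' : F) - algebraMap R F (π * 1) =
          ((z' - algebraMap R B (π * 1) : B) : F) := rfl
      rw [h1, hp'0]
      simp
    obtain ⟨r₀, hr₀, hK⟩ := uz43_nakayama π B n hn hπn O hT hπ1 z z' hgen a₁ 1 ha hb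
    obtain ⟨h1, h2, h3, h4, h5⟩ := uz43_final B hfrac n O hOtop hPIR hT hval hconst
      (z - algebraMap R B (π * a₁)) (z' - algebraMap R B (π * 1)) ha r₀ hr₀ hK
      1 one_ne_zero 1 0 hone (by rw [hp'0]; simp)
    refine ⟨_, h1, h2, h3, h4, ?_⟩
    intro O' hH' hT' hne
    exact h5 O' hT' (fun r hr => uz43_val_const K π hπ O' hH'.2.2.1 hH'.2.2.2 r hr) hne
  · -- a node: `s z z' = π ^ κ s'`
    obtain ⟨b, hb⟩ := hval z'
    obtain ⟨b₁, rfl⟩ := hdvd z' b hz' hb
    obtain ⟨r₀, hr₀, hK⟩ := uz43_nakayama π B n hn hπn O hT hπ1 z z' hgen a₁ b₁ ha hb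
    obtain ⟨rs, hrs⟩ := hval s
    obtain ⟨rs', hrs'⟩ := hval s'
    have hrs'n : algebraMap R B rs' ∉ n := by
      intro h
      apply hs'
      have h1 : s' - algebraMap R B rs' ∈ n := uz43_mem_of_lt_one B n O hT _ hrs'
      have h2 := n.add_mem h1 h
      rw [sub_add_cancel] at h2
      exact h2
    -- the values satisfy `r_s a b = π ^ κ r_{s'}`
    have hrelF : (s : F) * (z : F) * (z' : F) = algebraMap R F π ^ κ * (s' : F) :=
      congrArg Subtype.val hrel
    have h2R : rs * (π * a₁) * (π * b₁) = π ^ κ * rs' := by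
      by_contra hne
      have h0 : rs * (π * a₁) * (π * b₁) - π ^ κ * rs' ≠ 0 := sub_ne_zero.mpr hne
      have h1 := hconst _ h0
      have e : algebraMap R F (rs * (π * a₁) * (π * b₁) - π ^ κ * rs') =
          algebraMap R F (π ^ κ) * ((s' : F) - algebraMap R F rs') -
            ((s : F) - algebraMap R F rs) * ((z : F) * (z' : F)) -
            algebraMap R F rs * (z' : F) * ((z : F) - algebraMap R F (π * a₁)) -
            algebraMap R F (rs * (π * a₁)) * ((z' : F) - algebraMap R F (π * b₁)) := by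
        simp only [map_sub, map_mul, map_pow]
        linear_combination hrelF
      have h3 : O.valuation (algebraMap R F (rs * (π * a₁) * (π * b₁) - π ^ κ * rs')) < 1 := by
        rw [e]
        refine O.valuation.map_sub_lt (O.valuation.map_sub_lt (O.valuation.map_sub_lt ?_ ?_) ?_) ?_
        · exact uz43_mul_lt_one' O _ _ (hconst_le _) hrs'
        · refine uz43_mul_lt_one O _ _ hrs ?_
          rw [map_mul]
          exact mul_le_one' (hleO z) (hleO z')
        · refine uz43_mul_lt_one' O _ _ ?_ ha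
          rw [map_mul]
          exact mul_le_one' (hconst_le _) (hleO z')
        · exact uz43_mul_lt_one' O _ _ (hconst_le _) hb
      rw [h1] at h3
      exact lt_irrefl _ h3
    have h2B : algebraMap R B rs * algebraMap R B (π * a₁) * algebraMap R B (π * b₁) =
        algebraMap R B π ^ κ * algebraMap R B rs' := by
      rw [← map_mul, ← map_mul, ← map_pow, ← map_mul, h2R]
    obtain ⟨A₁, C₁, h3⟩ := hK (s - algebraMap R B rs) hrs
    obtain ⟨A₂, C₂, h4⟩ := hK (s' - algebraMap R B rs') hrs'
    have ha0 : π * a₁ ≠ 0 := by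
      intro h0
      rw [h0, mul_zero, zero_mul] at h2R
      have h5 : rs' = 0 := by
        rcases mul_eq_zero.mp h2R.symm with h | h
        · exact absurd h (pow_ne_zero _ hπ.ne_zero)
        · exact h
      apply hrs'n
      rw [h5, map_zero]
      exact n.zero_mem
    set w₀ : B := algebraMap R B rs' * r₀ * s +
      algebraMap R B (π * b₁) * (algebraMap R B rs' * C₁ - algebraMap R B rs * C₂) with hw₀
    have hw₀n : w₀ ∉ n := by
      intro h
      have h5 : algebraMap R B (π * b₁) * (algebraMap R B rs' * C₁ - algebraMap R B rs * C₂) ∈ n := by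
        rw [map_mul, mul_assoc]
        exact n.mul_mem_right _ hπn
      have h6 : algebraMap R B rs' * r₀ * s ∈ n := by
        have h7 := n.sub_mem h h5
        rw [hw₀, add_sub_cancel_right] at h7
        exact h7
      rcases hn.isPrime.mem_or_mem h6 with h7 | h7
      · rcases hn.isPrime.mem_or_mem h7 with h8 | h8
        · exact hrs'n h8
        · exact hr₀ h8
      · exact hs h7
    have hrelB : algebraMap R B (π * a₁) * w₀ * (z' - algebraMap R B (π * b₁)) =
        (-(algebraMap R B rs' * (algebraMap R B (π * a₁) * algebraMap R B (π * b₁) * A₁ +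
          r₀ * s * z' - algebraMap R B π ^ κ * A₂))) * (z - algebraMap R B (π * a₁)) := by
      rw [hw₀]
      linear_combination (algebraMap R B rs' * r₀) * hrel -
        (algebraMap R B rs' * algebraMap R B (π * a₁) * algebraMap R B (π * b₁)) * h3 -
        (algebraMap R B rs' * r₀ + (z' - algebraMap R B (π * b₁)) * C₂) * h2B +
        (algebraMap R B rs' * algebraMap R B π ^ κ) * h4
    obtain ⟨h1, h2, h3', h4', h5⟩ := uz43_final B hfrac n O hOtop hPIR hT hval hconst
      (z - algebraMap R B (π * a₁)) (z' - algebraMap R B (π * b₁)) ha r₀ hr₀ hK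
      (π * a₁) ha0 w₀ _ hw₀n hrelB
    refine ⟨_, h1, h2, h3', h4', ?_⟩
    intro O' hH' hT' hne
    exact h5 O' hT' (fun r hr => uz43_val_const K π hπ O' hH'.2.2.1 hH'.2.2.2 r hr) hne

end Fermat.Agent.S34
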