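import Mathlib
import Fermat.Agent.S18.LPGlue7
import Fermat.Agent.S34.Iface47d
import Fermat.Agent.S34.DeepNode3
import Fermat.Agent.S34.UniqueZero37

/-!
# S34 lab (helper37): package UZ′ of the second route — `(LS′) + (DOM) + (ST) ⟹ (UZ′)`

`uzd37_Pkg_UZD : s34i47d_Pkg_UZD`, literally the `Prop` of `Iface47d`.

At a closed point `n` of the special fibre of the chart `B`, `A := B_n` (`lp7_loc`).

* `uzd37_eval`: the evaluation `ρ_O : A → R` at a rational horizontal `O` through `n`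
  (a retraction of the structure map with `ker ρ_O = A ∩ 𝔪_O`); `uzd37_eval_unique`.
* `uzd37_core`: a local equation `ψ ∈ ker ρ_O`, `a · ker ρ_O ⊆ ψ A` (`0 ≠ a ∈ R`), which lies in
  no other prime avoiding `π`, is a uniformiser of `O` and a unit at every other `O'` through `n`.
* `uzd37_ext`: the extension to `A` of a prime `P ≤ n` of `B`.
* `uzd37_invariant`: the valuation ring of a deep point is stable under `σ` (`dn3_deep_invariant`
  + `dn3_deep_unique` + (DOM)).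
* smooth points: `uz37_core`; two-branch points: `dn3_main` for the non-deep points.
-/

set_option autoImplicit false

namespace Fermat.Agent.S34

open Fermat.Agent.S18

section aux

open IsLocalRing

/-- nonunits of `O` in a subring `A ⊆ O` are nonunits of `A`. -/
theorem uzd37_mem_max {F : Type*} [Field F] (A : Subring F) [IsLocalRing A]
    (O : ValuationSubring F) (hAO : ∀ x : A, (x : F) ∈ O) (x : A)
    (hx : O.valuation (x : F) < 1) : x ∈ maximalIdeal A := by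
  rw [IsLocalRing.mem_maximalIdeal, mem_nonunits_iff]
  intro hu
  obtain ⟨y, hxy⟩ := isUnit_iff_exists_inv.mp hu
  have hxy' : (x : F) * (y : F) = 1 := congrArg Subtype.val hxy
  have h1 : O.valuation (x : F) * O.valuation (y : F) = 1 := by
    rw [← map_mul, hxy', map_one]
  have h2 : O.valuation (x : F) * O.valuation (y : F) < 1 :=
    lt_of_le_of_lt (mul_le_of_le_one_right' ((O.valuation_le_one_iff _).mpr (hAO y))) hx
  exact absurd h1 (ne_of_lt h2)

/-- nonzero constants are units of a horizontal `O`. -/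
theorem uzd37_val_const (K : Type*) {R F : Type*} [CommRing R] [IsDomain R]
    [IsDiscreteValuationRing R] [Field K] [Field F] [Algebra R K] [IsFractionRing R K]
    [Algebra R F] [Algebra K F] [IsScalarTower R K F]
    (π : R) (hπ : Irreducible π) (O : ValuationSubring F)
    (hRO : ∀ r : R, algebraMap R F r ∈ O) (hπO : (algebraMap R F π)⁻¹ ∈ O) (r : R) (hr : r ≠ 0) :
    (algebraMap R F r)⁻¹ ∈ O ∧ O.valuation (algebraMap R F r) = 1 := by
  have hinj : Function.Injective (algebraMap R F) := uz37_algebraMap_injective R K F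
  have hr0 : algebraMap R F r ≠ 0 := by rw [Ne, map_eq_zero_iff _ hinj]; exact hr
  have h1 : (algebraMap R F r)⁻¹ ∈ O := by
    have : (algebraMap R F r)⁻¹ = algebraMap K F (algebraMap R K r)⁻¹ := by
      rw [map_inv₀, ← IsScalarTower.algebraMap_apply]
    rw [this]; exact uz37_K_le π hπ O hRO hπO _
  exact ⟨h1, uz37_val_eq_one O _ (hRO r) h1 hr0⟩

end aux

section eval

open IsLocalRing

variable {R K F : Type*} [CommRing R] [IsDomain R] [IsDiscreteValuationRing R] [Field K] [Field F]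
  [Algebra R K] [IsFractionRing R K] [Algebra R F] [Algebra K F] [IsScalarTower R K F]

/-- **The evaluation at a rational horizontal point**: a retraction `ρ : A → R` of the structure
map with `ker ρ = A ∩ 𝔪_O`. -/
theorem uzd37_eval (π : R) (hπ : Irreducible π) (A : Subring F) [Algebra R A] [IsLocalRing A]
    (hc : ∀ r : R, ((algebraMap R A r : A) : F) = algebraMap R F r)
    (hπA : algebraMap R A π ∈ maximalIdeal A)
    (O : ValuationSubring F) (hRO : ∀ r : R, algebraMap R F r ∈ O)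
    (hπO : (algebraMap R F π)⁻¹ ∈ O) (hAO : ∀ x : A, (x : F) ∈ O)
    (hrat : ∀ x ∈ O, ∃ c : K, x = algebraMap K F c ∨ (x - algebraMap K F c)⁻¹ ∉ O) :
    ∃ ρ : A →+* R, (∀ r : R, ρ (algebraMap R A r) = r) ∧
      ∀ x : A, ρ x = 0 ↔ O.valuation (x : F) < 1 := by
  classical
  have hv_le : ∀ x : A, O.valuation (x : F) ≤ 1 := fun x =>
    (O.valuation_le_one_iff _).mpr (hAO x)
  have hvR : ∀ r : R, r ≠ 0 → O.valuation (algebraMap R F r) = 1 := fun r hr =>
    (uzd37_val_const K π hπ O hRO hπO r hr).2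
  have hex : ∀ x : A, ∃ r : R, O.valuation ((x : F) - algebraMap R F r) < 1 := by
    intro x
    obtain ⟨c, hc'⟩ := hrat x (hAO x)
    have hvc : O.valuation ((x : F) - algebraMap K F c) < 1 := by
      rcases hc' with h | h
      · rw [h, sub_self, map_zero]; exact zero_lt_one
      · exact ((uz37_inv_not_mem_iff O _).mp h).2
    rcases uz37_dvr_dichotomy π hπ c with ⟨r, rfl⟩ | ⟨r₀, hr₀⟩
    · exact ⟨r, by rwa [IsScalarTower.algebraMap_apply R K F]⟩
    · exfalso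
      have hmem : x * algebraMap R A (π * r₀) - 1 ∈ maximalIdeal A := by
        apply uzd37_mem_max A O hAO
        have h1 : algebraMap K F c * algebraMap R F (π * r₀) = 1 := by
          rw [IsScalarTower.algebraMap_apply R K F, ← map_mul, hr₀, map_one]
        have h2 : ((x * algebraMap R A (π * r₀) - 1 : A) : F)
            = ((x : F) - algebraMap K F c) * algebraMap R F (π * r₀) := by
          show (x : F) * ((algebraMap R A (π * r₀) : A) : F) - 1 = _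
          rw [hc, sub_mul, h1]
        rw [h2, map_mul]
        exact lt_of_le_of_lt (mul_le_of_le_one_right'
          ((O.valuation_le_one_iff _).mpr (hRO _))) hvc
      have hmem2 : x * algebraMap R A (π * r₀) ∈ maximalIdeal A := by
        rw [map_mul, ← mul_assoc]
        exact Ideal.mul_mem_right _ _ (Ideal.mul_mem_left _ _ hπA)
      have h1 : (1 : A) ∈ maximalIdeal A := by
        have := Ideal.sub_mem _ hmem2 hmem
        rwa [sub_sub_cancel] at this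
      exact (IsLocalRing.mem_maximalIdeal _).mp h1 isUnit_one
  choose ρ₀f hρ₀f using hex
  have huniq : ∀ (x : A) (r : R), O.valuation ((x : F) - algebraMap R F r) < 1 →
      r = ρ₀f x := by
    intro x r hr
    by_contra hne
    have h1 : O.valuation (algebraMap R F (r - ρ₀f x)) = 1 := hvR _ (sub_ne_zero.mpr hne)
    have h2 : algebraMap R F (r - ρ₀f x)
        = ((x : F) - algebraMap R F (ρ₀f x)) - ((x : F) - algebraMap R F r) := by
      rw [map_sub]; ring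
    have h3 : O.valuation (algebraMap R F (r - ρ₀f x)) < 1 := by
      rw [h2]
      exact lt_of_le_of_lt (Valuation.map_sub _ _ _) (max_lt (hρ₀f x) hr)
    exact absurd h1 (ne_of_lt h3)
  let ρ₀ : A →+* R :=
    { toFun := ρ₀f
      map_one' := (huniq 1 1 (by
        show O.valuation ((1 : F) - algebraMap R F 1) < 1
        rw [map_one, sub_self, map_zero]; exact zero_lt_one)).symm
      map_mul' := fun x y => (huniq (x * y) (ρ₀f x * ρ₀f y) (by
        have h1 : ((x * y : A) : F) - algebraMap R F (ρ₀f x * ρ₀f y)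
            = (x : F) * ((y : F) - algebraMap R F (ρ₀f y))
              + algebraMap R F (ρ₀f y) * ((x : F) - algebraMap R F (ρ₀f x)) := by
          rw [map_mul]; push_cast; ring
        rw [h1]
        refine lt_of_le_of_lt (Valuation.map_add _ _ _) (max_lt ?_ ?_)
        · rw [map_mul]
          exact lt_of_le_of_lt (mul_le_of_le_one_left' (hv_le x)) (hρ₀f y)
        · rw [map_mul]
          exact lt_of_le_of_lt (mul_le_of_le_one_left'
            ((O.valuation_le_one_iff _).mpr (hRO _))) (hρ₀f x))).symm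
      map_zero' := (huniq 0 0 (by
        show O.valuation ((0 : F) - algebraMap R F 0) < 1
        rw [map_zero, sub_self, map_zero]; exact zero_lt_one)).symm
      map_add' := fun x y => (huniq (x + y) (ρ₀f x + ρ₀f y) (by
        have h1 : ((x + y : A) : F) - algebraMap R F (ρ₀f x + ρ₀f y)
            = ((x : F) - algebraMap R F (ρ₀f x)) + ((y : F) - algebraMap R F (ρ₀f y)) := by
          rw [map_add]; push_cast; ring
        rw [h1]
        exact lt_of_le_of_lt (Valuation.map_add _ _ _) (max_lt (hρ₀f x) (hρ₀f y)))).symm }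
  have hρ₀ : ∀ x, ρ₀ x = ρ₀f x := fun _ => rfl
  refine ⟨ρ₀, fun r => ?_, fun x => ⟨fun h => ?_, fun h => ?_⟩⟩
  · refine (huniq (algebraMap R A r) r ?_).symm
    rw [hc, sub_self, map_zero]; exact zero_lt_one
  · have := hρ₀f x
    rw [← hρ₀, h, map_zero, sub_zero] at this
    exact this
  · have h0 : (0 : R) = ρ₀f x := huniq x 0 (by rw [map_zero, sub_zero]; exact h)
    rw [hρ₀, ← h0]

omit [IsDomain R] [IsDiscreteValuationRing R] [Algebra R F] in
/-- the evaluation is determined by its kernel. -/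
theorem uzd37_eval_unique {A : Type*} [CommRing A] [Algebra R A]
    (ρ ρ' : A →+* R) (hρ : ∀ r : R, ρ (algebraMap R A r) = r)
    (hρ' : ∀ r : R, ρ' (algebraMap R A r) = r) (h : ∀ x : A, ρ x = 0 → ρ' x = 0) : ρ = ρ' := by
  ext x
  have h1 : ρ (x - algebraMap R A (ρ x)) = 0 := by rw [map_sub, hρ, sub_self]
  have h2 := h _ h1
  rw [map_sub, hρ', sub_eq_zero] at h2
  exact h2.symm

end eval

section core

open IsLocalRing

variable {R F : Type*} [CommRing R] [IsDomain R] [IsDiscreteValuationRing R] [Field F]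
  [Algebra R F]

/-- **From a local equation to the unique zero.**  `A ⊆ O` a subring with fraction field `F`,
`ρ : A → R` with `ker ρ = A ∩ 𝔪_O`, and `ψ ∈ ker ρ` with `a · ker ρ ⊆ ψ A` (`0 ≠ a ∈ R`) which
lies in no prime `≠ ker ρ` avoiding `π`.  Then `ψ` is a uniformiser of `O` and a unit of every
other valuation ring `O' ⊇ A` containing `π⁻¹`. -/
theorem uzd37_core (K : Type*) [Field K] [Algebra R K] [IsFractionRing R K] [Algebra K F]
    [IsScalarTower R K F] (π : R) (hπ : Irreducible π) (A : Subring F) [Algebra R A]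
    (hc : ∀ r : R, ((algebraMap R A r : A) : F) = algebraMap R F r)
    (hfrac : ∀ x : F, ∃ a ∈ A, ∃ b ∈ A, b ≠ 0 ∧ x * b = a)
    (O : ValuationSubring F) (hO : O ≠ ⊤) (hPIR : IsPrincipalIdealRing O)
    (hRO : ∀ r : R, algebraMap R F r ∈ O) (hπO : (algebraMap R F π)⁻¹ ∈ O)
    (hAO : ∀ x : A, (x : F) ∈ O)
    (ρ : A →+* R) (hker : ∀ x : A, ρ x = 0 ↔ O.valuation (x : F) < 1)
    (ψ : A) (a : R) (ha : a ≠ 0) (hψker : ρ ψ = 0)
    (hi : ∀ 𝔮 : Ideal A, 𝔮.IsPrime → algebraMap R A π ∉ 𝔮 → ψ ∈ 𝔮 → 𝔮 = RingHom.ker ρ)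
    (hii : ∀ x ∈ RingHom.ker ρ, ∃ c : A, algebraMap R A a * x = ψ * c) :
    ∃ p : F, p ≠ 0 ∧ p ∈ O ∧ p⁻¹ ∉ O ∧ (∀ x ∈ O, x⁻¹ ∉ O → x * p⁻¹ ∈ O) ∧
      ∀ O' : ValuationSubring F, (∀ x : A, (x : F) ∈ O') → (algebraMap R F π)⁻¹ ∈ O' → O' ≠ O →
        p ∈ O' ∧ p⁻¹ ∈ O' := by
  classical
  have : IsPrincipalIdealRing O := hPIR
  have hinj : Function.Injective (algebraMap R F) := uz37_algebraMap_injective R K F
  have hπF0 : algebraMap R F π ≠ 0 := by
    rw [Ne, map_eq_zero_iff _ hinj]; exact hπ.ne_zero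
  have haF0 : algebraMap R F a ≠ 0 := by
    rw [Ne, map_eq_zero_iff _ hinj]; exact ha
  have haO : (algebraMap R F a)⁻¹ ∈ O := (uzd37_val_const K π hπ O hRO hπO a ha).1
  have hv_le : ∀ x : A, O.valuation (x : F) ≤ 1 := fun x =>
    (O.valuation_le_one_iff _).mpr (hAO x)
  have hiiF : ∀ x : A, O.valuation (x : F) < 1 →
      ∃ c : A, algebraMap R F a * (x : F) = (ψ : F) * (c : F) := by
    intro x hx
    obtain ⟨c, hc'⟩ := hii x (RingHom.mem_ker.mpr ((hker x).mpr hx))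
    refine ⟨c, ?_⟩
    have := congrArg Subtype.val hc'
    rw [← hc]
    exact this
  have hψv : O.valuation (ψ : F) < 1 := (hker ψ).mp hψker
  -- `ψ ≠ 0`
  have hψ0 : (ψ : F) ≠ 0 := by
    intro h0
    obtain ⟨y, hy⟩ : ∃ y : F, y ∉ O := by
      by_contra hall
      apply hO
      rw [eq_top_iff]
      intro x _
      by_contra hx
      exact hall ⟨x, hx⟩
    have hy2 := (uz37_inv_not_mem_iff O y⁻¹).mp (by rw [inv_inv]; exact hy)
    obtain ⟨a', ha', b, hb, hb0, hab⟩ := hfrac y⁻¹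
    have hva : O.valuation a' < 1 := by
      rw [← hab, map_mul]
      exact lt_of_le_of_lt (mul_le_of_le_one_right'
        ((O.valuation_le_one_iff _).mpr (hAO ⟨b, hb⟩))) hy2.2
    obtain ⟨c, hc'⟩ := hiiF ⟨a', ha'⟩ hva
    rw [h0, zero_mul] at hc'
    have ha0' : a' = 0 := (mul_eq_zero.mp hc').resolve_left haF0
    rw [ha0'] at hab
    exact (mul_eq_zero.mp hab).elim hy2.1 hb0
  have hpinv : (ψ : F)⁻¹ ∉ O := (uz37_inv_not_mem_iff O _).mpr ⟨hψ0, hψv⟩
  -- Claim E: every element of `O` is a fraction with denominator a unit of `O`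
  have hE : ∀ (j : ℕ) (x : F), x ∈ O → ∀ (a' b : A), b ≠ 0 → x * (b : F) = a' →
      (¬ ∃ o ∈ O, (b : F) = (ψ : F) ^ j * o) →
      ∃ a'' b' : A, O.valuation (b' : F) = 1 ∧ x * (b' : F) = a'' := by
    intro j
    induction j with
    | zero =>
      intro x _ a' b _ _ hnot
      exact absurd ⟨(b : F), hAO b, by rw [pow_zero, one_mul]⟩ hnot
    | succ j ih =>
      intro x hx a' b hb0 hxb hnot
      by_cases hvb : O.valuation (b : F) = 1
      · exact ⟨a', b, hvb, hxb⟩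
      have hvb' : O.valuation (b : F) < 1 := lt_of_le_of_ne (hv_le b) hvb
      obtain ⟨b₁, hb₁F⟩ := hiiF b hvb'
      have hb0F : (b : F) ≠ 0 := fun h => hb0 (Subtype.ext h)
      have hb₁0 : b₁ ≠ 0 := by
        rintro rfl
        rw [ZeroMemClass.coe_zero, mul_zero] at hb₁F
        exact (mul_eq_zero.mp hb₁F).elim haF0 hb0F
      have hva' : O.valuation (a' : F) < 1 := by
        rw [← hxb, map_mul]
        exact lt_of_le_of_lt (mul_le_of_le_one_left'
          ((O.valuation_le_one_iff _).mpr hx)) hvb'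
      obtain ⟨a₁, ha₁F⟩ := hiiF a' hva'
      refine ih x hx a₁ b₁ hb₁0 ?_ ?_
      · have h1 : (ψ : F) * (x * (b₁ : F)) = (ψ : F) * (a₁ : F) := by
          rw [← ha₁F, ← hxb]
          linear_combination x * hb₁F.symm
        exact mul_left_cancel₀ hψ0 h1
      · rintro ⟨o, ho, hbo⟩
        apply hnot
        refine ⟨(algebraMap R F a)⁻¹ * o, O.mul_mem _ _ haO ho, ?_⟩
        have h2 : (b : F) = (algebraMap R F a)⁻¹ * ((ψ : F) * (b₁ : F)) := by
          rw [← hb₁F, ← mul_assoc, inv_mul_cancel₀ haF0, one_mul]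
        rw [h2, hbo]; ring
  have hE' : ∀ x ∈ O, ∃ a' b : A, O.valuation (b : F) = 1 ∧ x * (b : F) = a' := by
    intro x hx
    obtain ⟨a', ha', b, hb, hb0, hab⟩ := hfrac x
    -- Krull intersection in `O`
    have hkr : ∃ j : ℕ, ¬ ∃ o ∈ O, b = (ψ : F) ^ j * o := by
      by_contra hall
      rw [not_exists] at hall
      have hall' : ∀ j : ℕ, ∃ o ∈ O, b = (ψ : F) ^ j * o := fun j => not_not.mp (hall j)
      let pO : O := ⟨(ψ : F), hAO ψ⟩
      have hne : (Ideal.span {pO} : Ideal O) ≠ ⊤ := by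
        rw [Ne, Ideal.span_singleton_eq_top]
        intro hu
        obtain ⟨y, hy⟩ := isUnit_iff_exists_inv.mp hu
        have hy' : (ψ : F) * (y : F) = 1 := congrArg Subtype.val hy
        apply hpinv
        rw [← eq_inv_of_mul_eq_one_right hy']
        exact y.2
      have hbot := Ideal.iInf_pow_eq_bot_of_isLocalRing (Ideal.span {pO} : Ideal O) hne
      have hbmem : (⟨b, hAO ⟨b, hb⟩⟩ : O) ∈ (⨅ i : ℕ, (Ideal.span {pO} : Ideal O) ^ i) := by
        rw [Ideal.mem_iInf]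
        intro i
        obtain ⟨o, ho, hbo⟩ := hall' i
        rw [Ideal.span_singleton_pow, Ideal.mem_span_singleton']
        refine ⟨⟨o, ho⟩, Subtype.ext ?_⟩
        show o * (ψ : F) ^ i = b
        rw [hbo, mul_comm]
      rw [hbot, Ideal.mem_bot] at hbmem
      exact hb0 (congrArg Subtype.val hbmem)
    obtain ⟨j, hj⟩ := hkr
    exact hE j x hx ⟨a', ha'⟩ ⟨b, hb⟩ (fun h => hb0 (congrArg Subtype.val h)) hab hj
  -- `ψ` is a uniformiser of `O`
  have hunif : ∀ x ∈ O, x⁻¹ ∉ O → x * (ψ : F)⁻¹ ∈ O := by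
    intro x hx hxinv
    obtain ⟨hx0, hxv⟩ := (uz37_inv_not_mem_iff O x).mp hxinv
    obtain ⟨a', b, hvb, hab⟩ := hE' x hx
    have hb0 : (b : F) ≠ 0 := by
      intro h0; rw [h0, map_zero] at hvb; exact zero_ne_one hvb
    have hva : O.valuation (a' : F) < 1 := by
      rw [← hab, map_mul, hvb, mul_one]; exact hxv
    obtain ⟨c, hcF⟩ := hiiF a' hva
    have hbinv : (b : F)⁻¹ ∈ O := by
      rw [← O.valuation_le_one_iff, map_inv₀, hvb, inv_one]
    have hfin : x * (ψ : F)⁻¹ = (c : F) * (algebraMap R F a)⁻¹ * (b : F)⁻¹ := by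
      have hx' : x = (a' : F) * (b : F)⁻¹ := by rw [← hab]; field_simp
      have ha'' : (a' : F) = (ψ : F) * (c : F) * (algebraMap R F a)⁻¹ := by
        rw [← hcF, mul_comm (algebraMap R F a) (a' : F), mul_assoc,
          mul_inv_cancel₀ haF0, mul_one]
      rw [hx', ha'']
      field_simp
    rw [hfin]
    exact O.mul_mem _ _ (O.mul_mem _ _ (hAO c) haO) hbinv
  refine ⟨(ψ : F), hψ0, hAO ψ, hpinv, hunif, ?_⟩
  -- `ψ` is a unit of every other valuation ring containing `A` and `π⁻¹`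
  intro O' hAO' hπO' hne
  refine ⟨hAO' ψ, ?_⟩
  by_contra hp'
  apply hne
  let ιO' : A →+* O' := Subring.inclusion (fun x hx => hAO' ⟨x, hx⟩)
  have hιO' : ∀ x : A, ((ιO' x : O') : F) = x := fun _ => rfl
  have hunit' : ∀ x : A, IsUnit (ιO' x) → (x : F)⁻¹ ∈ O' := by
    intro x hu
    obtain ⟨y, hy⟩ := isUnit_iff_exists_inv.mp hu
    have hy' : (x : F) * (y : F) = 1 := congrArg Subtype.val hy
    rw [← eq_inv_of_mul_eq_one_right hy']
    exact y.2
  have h𝔮prime : ((maximalIdeal O').comap ιO').IsPrime := Ideal.comap_isPrime ιO' _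
  have hπ𝔮 : algebraMap R A π ∉ (maximalIdeal O').comap ιO' := by
    rw [Ideal.mem_comap, IsLocalRing.mem_maximalIdeal, mem_nonunits_iff, not_not]
    refine IsUnit.of_mul_eq_one (⟨(algebraMap R F π)⁻¹, hπO'⟩ : O') ?_
    apply Subtype.ext
    show ((algebraMap R A π : A) : F) * (algebraMap R F π)⁻¹ = 1
    rw [hc]
    exact mul_inv_cancel₀ hπF0
  have hψ𝔮 : ψ ∈ (maximalIdeal O').comap ιO' := by
    rw [Ideal.mem_comap, IsLocalRing.mem_maximalIdeal, mem_nonunits_iff]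
    intro hu
    exact hp' (hunit' ψ hu)
  have h𝔮 := hi _ h𝔮prime hπ𝔮 hψ𝔮
  have hunitb : ∀ b : A, O.valuation (b : F) = 1 → (b : F)⁻¹ ∈ O' := by
    intro b hvb
    apply hunit'
    by_contra hnu
    have hb𝔮 : b ∈ (maximalIdeal O').comap ιO' := by
      rw [Ideal.mem_comap, IsLocalRing.mem_maximalIdeal, mem_nonunits_iff]; exact hnu
    rw [h𝔮, RingHom.mem_ker, hker] at hb𝔮
    rw [hvb] at hb𝔮
    exact lt_irrefl _ hb𝔮
  have hle : O ≤ O' := by
    intro x hx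
    obtain ⟨a', b, hvb, hab⟩ := hE' x hx
    have hb0 : (b : F) ≠ 0 := by
      intro h0; rw [h0, map_zero] at hvb; exact zero_ne_one hvb
    have hx' : x = (a' : F) * (b : F)⁻¹ := by rw [← hab]; field_simp
    rw [hx']
    exact O'.mul_mem _ _ (hAO' a') (hunitb b hvb)
  apply le_antisymm _ hle
  intro y hy
  by_contra hyO
  have hyinv : y⁻¹ ∈ O := (O.mem_or_inv_mem y).resolve_left hyO
  have h1 : y⁻¹ * (ψ : F)⁻¹ ∈ O := hunif y⁻¹ hyinv (by rw [inv_inv]; exact hyO)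
  have hy0 : y ≠ 0 := by
    rintro rfl; exact hyO O.zero_mem
  apply hp'
  have h2 : (ψ : F)⁻¹ = y * (y⁻¹ * (ψ : F)⁻¹) := by
    rw [← mul_assoc, mul_inv_cancel₀ hy0, one_mul]
  rw [h2]
  exact O'.mul_mem _ _ hy (hle h1)

end core

section ext

variable {F : Type*} [Field F] (B : Subring F) (n : Ideal B) [hn : n.IsPrime]

/-- The extension to `B_n` of an ideal `P` of `B`. -/
def uzd37_ext (P : Ideal B) : Ideal (lp7_loc B n) where
  carrier := {x | ∃ s : B, s ∉ n ∧ ∃ t : B, t ∈ P ∧ (s : F) * (x : F) = t}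
  add_mem' := by
    rintro a b ⟨s, hs, t, ht, hst⟩ ⟨s', hs', t', ht', hst'⟩
    refine ⟨s * s', fun h => (hn.mem_or_mem h).elim hs hs', s' * t + s * t',
      P.add_mem (P.mul_mem_left _ ht) (P.mul_mem_left _ ht'), ?_⟩
    show ((s * s' : B) : F) * ((a : F) + (b : F)) = ((s' * t + s * t' : B) : F)
    push_cast
    rw [← hst, ← hst']
    ring
  zero_mem' := ⟨1, (Ideal.ne_top_iff_one n).mp hn.ne_top, 0, P.zero_mem, by simp⟩
  smul_mem' := by
    rintro c x ⟨s, hs, t, ht, hst⟩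
    obtain ⟨u, hu, hux⟩ := c.2
    refine ⟨u * s, fun h => (hn.mem_or_mem h).elim hu hs, ⟨_, hux⟩ * t, P.mul_mem_left _ ht, ?_⟩
    show ((u * s : B) : F) * ((c : F) * (x : F)) = (u : F) * (c : F) * (t : F)
    push_cast
    rw [← hst]; ring

theorem uzd37_mem_ext (P : Ideal B) (x : lp7_loc B n) :
    x ∈ uzd37_ext B n P ↔ ∃ s : B, s ∉ n ∧ ∃ t : B, t ∈ P ∧ (s : F) * (x : F) = t := Iff.rfl

theorem uzd37_coe_mem_ext (P : Ideal B) [hP : P.IsPrime] (hPn : P ≤ n) (b : B) :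
    (⟨(b : F), lp7_le_loc B n b b.2⟩ : lp7_loc B n) ∈ uzd37_ext B n P ↔ b ∈ P := by
  constructor
  · rintro ⟨s, hs, t, ht, hst⟩
    have h1 : s * b = t := Subtype.ext hst
    have h2 : s * b ∈ P := h1 ▸ ht
    exact (hP.mem_or_mem h2).resolve_left (fun h => hs (hPn h))
  · intro hb
    exact ⟨1, (Ideal.ne_top_iff_one n).mp hn.ne_top, b, hb, by simp⟩

theorem uzd37_ext_isPrime (P : Ideal B) [hP : P.IsPrime] (hPn : P ≤ n) :
    (uzd37_ext B n P).IsPrime := by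
  refine ⟨?_, ?_⟩
  · intro h
    have h1 : (1 : lp7_loc B n) ∈ uzd37_ext B n P := by rw [h]; trivial
    obtain ⟨s, hs, t, ht, hst⟩ := h1
    apply hs
    apply hPn
    have h2 : s = t := Subtype.ext (by simpa using hst)
    rw [h2]; exact ht
  · intro x y hxy
    obtain ⟨s, hs, t, ht, hst⟩ := hxy
    obtain ⟨u, hu, hux⟩ := x.2
    obtain ⟨u', hu', hu'y⟩ := y.2
    have hst' : (s : F) * ((x : F) * (y : F)) = t := hst
    have h1 : s * ((⟨_, hux⟩ : B) * (⟨_, hu'y⟩ : B)) = u * u' * t := by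
      apply Subtype.ext
      show (s : F) * ((u : F) * (x : F) * ((u' : F) * (y : F))) = (u : F) * (u' : F) * (t : F)
      rw [← hst']; ring
    have h2 : s * ((⟨_, hux⟩ : B) * (⟨_, hu'y⟩ : B)) ∈ P := by
      rw [h1]; exact P.mul_mem_left _ ht
    have h3 := (hP.mem_or_mem h2).resolve_left (fun h => hs (hPn h))
    rcases hP.mem_or_mem h3 with h | h
    · left; exact ⟨u, hu, ⟨_, hux⟩, h, rfl⟩
    · right; exact ⟨u', hu', ⟨_, hu'y⟩, h, rfl⟩

omit hn in
/-- `σ` maps `B_n` into itself if it maps `B` into itself and `σ s ∈ n → s ∈ n`. -/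
theorem uzd37_sigma_loc [hn : n.IsPrime] (σ : F ≃+* F) (hσB : ∀ x ∈ B, σ x ∈ B)
    (hσn : ∀ x : B, (⟨σ x, hσB x x.2⟩ : B) ∈ n → x ∈ n) (x : F) (hx : x ∈ lp7_loc B n) :
    σ x ∈ lp7_loc B n := by
  obtain ⟨s, hs, hsx⟩ := hx
  refine ⟨⟨σ s, hσB s s.2⟩, fun h => hs (hσn s h), ?_⟩
  show σ (s : F) * σ x ∈ B
  rw [← map_mul]; exact hσB _ hsx

end ext

section sigma

/-- the automorphism of `R` induced by an automorphism of `F` stabilising `R`. -/
theorem uzd37_sigmaR {R F : Type*} [CommRing R] [Field F] [Algebra R F]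
    (hinj : Function.Injective (algebraMap R F)) (σ : F ≃+* F)
    (h : ∀ r : R, ∃ r' : R, σ (algebraMap R F r) = algebraMap R F r')
    (h' : ∀ r : R, ∃ r' : R, σ.symm (algebraMap R F r) = algebraMap R F r') :
    ∃ σR : R ≃+* R, (∀ r : R, algebraMap R F (σR r) = σ (algebraMap R F r)) ∧
      ∀ r : R, algebraMap R F (σR.symm r) = σ.symm (algebraMap R F r) := by
  choose f hf using h
  choose g hg using h'
  have hfg : ∀ r, f (g r) = r := fun r =>
    hinj (by rw [← hf, ← hg, RingEquiv.apply_symm_apply])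
  have hgf : ∀ r, g (f r) = r := fun r =>
    hinj (by rw [← hg, ← hf, RingEquiv.symm_apply_apply])
  refine ⟨{ toFun := f, invFun := g, left_inv := hgf, right_inv := hfg,
            map_mul' := ?_, map_add' := ?_ }, fun r => (hf r).symm, fun r => (hg r).symm⟩
  · intro _ _
    apply hinj
    rw [← hf, map_mul, map_mul, map_mul, hf, hf]
  · intro _ _
    apply hinj
    rw [← hf, map_add, map_add, map_add, hf, hf]

/-- the automorphism of a subring `A` induced by an automorphism of `F` stabilising `A`. -/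
theorem uzd37_sigmaA {F : Type*} [Field F] (A : Subring F) (σ : F ≃+* F)
    (h : ∀ x ∈ A, σ x ∈ A) (h' : ∀ x ∈ A, σ.symm x ∈ A) :
    ∃ σA : A ≃+* A, (∀ x : A, ((σA x : A) : F) = σ x) ∧
      ∀ x : A, ((σA.symm x : A) : F) = σ.symm x :=
  ⟨{ toFun := fun x => ⟨σ x, h x x.2⟩
     invFun := fun x => ⟨σ.symm x, h' x x.2⟩
     left_inv := fun x => Subtype.ext (σ.symm_apply_apply x)
     right_inv := fun x => Subtype.ext (σ.apply_symm_apply x)
     map_mul' := fun _ _ => Subtype.ext (map_mul σ _ _)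
     map_add' := fun _ _ => Subtype.ext (map_add σ _ _) }, fun _ => rfl, fun _ => rfl⟩

variable {R F : Type*} [CommRing R] [Field F] [Algebra R F]

/-- **(ST)** for a subring `B` of `F`. -/
def uzd37_Stab (π : R) (B : Subring F) (σ : F ≃+* F) : Prop :=
  (∀ r : R, ∃ r' : R, σ (algebraMap R F r) = algebraMap R F r') ∧
  (∀ r : R, ∃ r' : R, σ.symm (algebraMap R F r) = algebraMap R F r') ∧
  (∀ x ∈ B, σ x ∈ B) ∧ (∀ x ∈ B, σ.symm x ∈ B) ∧
  (∀ x ∈ B, (algebraMap R F π)⁻¹ * (σ x - x) ∈ B)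

theorem uzd37_stab_symm (π : R) (B : Subring F) (σ : F ≃+* F) (h : uzd37_Stab π B σ) :
    uzd37_Stab π B σ.symm := by
  obtain ⟨h1, h2, h3, h4, h5⟩ := h
  refine ⟨h2, h1, h4, h3, ?_⟩
  intro x hx
  have h6 := h5 (σ.symm x) (h4 x hx)
  rw [RingEquiv.apply_symm_apply] at h6
  have h7 : (algebraMap R F π)⁻¹ * (σ.symm x - x) = -((algebraMap R F π)⁻¹ * (x - σ.symm x)) := by
    ring
  rw [h7]
  exact B.neg_mem h6

/-- under (ST), `σ x ∈ P ↔ x ∈ P` for every ideal `P ∋ π` of `B`. -/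
theorem uzd37_stab_mem (π : R) (hπ0 : algebraMap R F π ≠ 0) (B : Subring F)
    (hπB : algebraMap R F π ∈ B) (σ : F ≃+* F) (h : uzd37_Stab π B σ)
    (P : Ideal B) (hπP : (⟨algebraMap R F π, hπB⟩ : B) ∈ P) (x : B) :
    (⟨σ x, h.2.2.1 x x.2⟩ : B) ∈ P ↔ x ∈ P := by
  have h5 := h.2.2.2.2 x x.2
  have hrel : (⟨σ x, h.2.2.1 x x.2⟩ : B) = x + ⟨algebraMap R F π, hπB⟩ * ⟨_, h5⟩ := by
    apply Subtype.ext
    show σ (x : F) = (x : F) + algebraMap R F π * ((algebraMap R F π)⁻¹ * (σ (x : F) - x))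
    rw [← mul_assoc, mul_inv_cancel₀ hπ0, one_mul]; ring
  rw [hrel]
  constructor
  · intro hmem
    have := P.sub_mem hmem (P.mul_mem_right ⟨_, h5⟩ hπP)
    rwa [add_sub_cancel_right] at this
  · intro hx
    exact P.add_mem hx (P.mul_mem_right ⟨_, h5⟩ hπP)

end sigma

section deep

open IsLocalRing

variable {R F : Type*} [CommRing R] [IsDomain R] [IsDiscreteValuationRing R] [Field F]
  [Algebra R F]

/-- **The valuation ring of a deep point is mapped into itself** by every automorphism with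
(ST): the evaluation of `σ⁻¹ O` is `σ_R⁻¹ ∘ ρ ∘ σ_A`, again deep (`dn3_deep_invariant`), hence
equal to `ρ` (uniqueness of the deep point), and `O` is the localisation of `B` at its centre. -/
theorem uzd37_deep_map (hinj : Function.Injective (algebraMap R F)) (π : R) (hπ : Irreducible π)
    (B : Subring F) (hRB : ∀ r : R, algebraMap R F r ∈ B) (n : Ideal B) [hn : n.IsPrime]
    (hπn : (⟨algebraMap R F π, hRB π⟩ : B) ∈ n)
    [Algebra R (lp7_loc B n)]
    (hc : ∀ r : R, ((algebraMap R (lp7_loc B n) r : lp7_loc B n) : F) = algebraMap R F r)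
    (P₁ P₂ : Ideal B) (hπP₁ : (⟨algebraMap R F π, hRB π⟩ : B) ∈ P₁)
    (hπP₂ : (⟨algebraMap R F π, hRB π⟩ : B) ∈ P₂)
    (σ : F ≃+* F) (hσ : uzd37_Stab π B σ)
    (O : ValuationSubring F) (hBO : ∀ x ∈ B, x ∈ O)
    (hdom : ∀ x ∈ O, ∃ b : B, (b : F) ≠ 0 ∧ (b : F)⁻¹ ∈ O ∧ (b : F) * x ∈ B)
    (ρ : lp7_loc B n →+* R) (hρ : ∀ r : R, ρ (algebraMap R (lp7_loc B n) r) = r)
    (hker : ∀ x : lp7_loc B n, ρ x = 0 ↔ O.valuation (x : F) < 1)
    (hdeep : dn3_Deep (uzd37_ext B n P₁) (uzd37_ext B n P₂) π ρ)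
    (huniq : ∀ ρ' : lp7_loc B n →+* R, (∀ r : R, ρ' (algebraMap R (lp7_loc B n) r) = r) →
      dn3_Deep (uzd37_ext B n P₁) (uzd37_ext B n P₂) π ρ' → ρ = ρ') :
    ∀ x ∈ O, σ x ∈ O := by
  have hπF0 : algebraMap R F π ≠ 0 := by
    rw [Ne, map_eq_zero_iff _ hinj]; exact hπ.ne_zero
  have hσ' := uzd37_stab_symm π B σ hσ
  have hσn : ∀ x : B, (⟨σ x, hσ.2.2.1 x x.2⟩ : B) ∈ n → x ∈ n := fun x h =>
    (uzd37_stab_mem π hπF0 B (hRB π) σ hσ n hπn x).mp h
  have hσ'n : ∀ x : B, (⟨σ.symm x, hσ'.2.2.1 x x.2⟩ : B) ∈ n → x ∈ n := fun x h =>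
    (uzd37_stab_mem π hπF0 B (hRB π) σ.symm hσ' n hπn x).mp h
  have hσA : ∀ x ∈ lp7_loc B n, σ x ∈ lp7_loc B n := uzd37_sigma_loc B n σ hσ.2.2.1 hσn
  have hσA' : ∀ x ∈ lp7_loc B n, σ.symm x ∈ lp7_loc B n :=
    uzd37_sigma_loc B n σ.symm hσ'.2.2.1 hσ'n
  obtain ⟨σA, hσA1, hσA2⟩ := uzd37_sigmaA (lp7_loc B n) σ hσA hσA'
  obtain ⟨σR, hσR1, hσR2⟩ := uzd37_sigmaR hinj σ hσ.1 hσ.2.1
  have hcomm : ∀ r : R, σA.symm (algebraMap R (lp7_loc B n) r) =
      algebraMap R (lp7_loc B n) (σR.symm r) := by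
    intro r
    apply Subtype.ext
    rw [hσA2, hc, hc, hσR2]
  have hcomm' : ∀ r : R, σA (algebraMap R (lp7_loc B n) r) =
      algebraMap R (lp7_loc B n) (σR r) := by
    intro r
    apply Subtype.ext
    rw [hσA1, hc, hc, hσR1]
  have h𝔭 : ∀ P : Ideal B, (⟨algebraMap R F π, hRB π⟩ : B) ∈ P →
      ∀ x ∈ uzd37_ext B n P, σA.symm x ∈ uzd37_ext B n P := by
    rintro P hπP x ⟨s, hs, t, ht, hst⟩
    refine ⟨⟨σ.symm s, hσ'.2.2.1 s s.2⟩, fun h => hs (hσ'n s h), ⟨σ.symm t, hσ'.2.2.1 t t.2⟩,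
      (uzd37_stab_mem π hπF0 B (hRB π) σ.symm hσ' P hπP t).mpr ht, ?_⟩
    show σ.symm (s : F) * ((σA.symm x : lp7_loc B n) : F) = σ.symm (t : F)
    rw [hσA2, ← map_mul, hst]
  have hd' := dn3_deep_invariant π hπ (uzd37_ext B n P₁) (uzd37_ext B n P₂) σA.symm σR.symm
    hcomm (h𝔭 P₁ hπP₁) (h𝔭 P₂ hπP₂) ρ hdeep
  have heq := huniq _ (fun r => by
    show σR.symm (ρ (σA.symm.symm (algebraMap R (lp7_loc B n) r))) = r
    rw [RingEquiv.symm_symm, hcomm', hρ, RingEquiv.symm_apply_apply]) hd'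
  have hkey : ∀ x : lp7_loc B n, ρ (σA x) = 0 → ρ x = 0 := by
    intro x hx
    have h1 : ρ x = σR.symm (ρ (σA.symm.symm x)) := RingHom.congr_fun heq x
    rw [h1, RingEquiv.symm_symm, hx, map_zero]
  intro x hx
  obtain ⟨b, hb0, hbinv, hbx⟩ := hdom x hx
  have hvb : O.valuation (b : F) = 1 := uz37_val_eq_one O _ (hBO b b.2) hbinv hb0
  have hσb : O.valuation (σ (b : F)) = 1 := by
    by_contra hne
    have hlt : O.valuation (σ (b : F)) < 1 :=
      lt_of_le_of_ne ((O.valuation_le_one_iff _).mpr (hBO _ (hσ.2.2.1 b b.2))) hne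
    have h1 : ρ (σA ⟨b, lp7_le_loc B n b b.2⟩) = 0 := (hker _).mpr (by rw [hσA1]; exact hlt)
    have h3 : O.valuation (b : F) < 1 := (hker _).mp (hkey _ h1)
    rw [hvb] at h3
    exact lt_irrefl _ h3
  have hσb0 : σ (b : F) ≠ 0 := by
    intro h; rw [h, map_zero] at hσb; exact zero_ne_one hσb
  have hx' : σ x = (σ (b : F))⁻¹ * σ ((b : F) * x) := by
    rw [map_mul, ← mul_assoc, inv_mul_cancel₀ hσb0, one_mul]
  rw [hx']
  refine O.mul_mem _ _ ?_ (hBO _ (hσ.2.2.1 _ hbx))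
  rw [← O.valuation_le_one_iff, map_inv₀, hσb, inv_one]

end deep

section node

open IsLocalRing

variable {R F : Type*} [CommRing R] [IsDomain R] [IsDiscreteValuationRing R] [Field F]
  [Algebra R F]

/-- **(UZ′) at a two-branch point.**  `Dp` is the set of the valuation rings of the deep points
(`dn3_Deep`, at most one); every other rational horizontal `O` through `n` has a local equation
(`dn3_main`), which has the unique-zero property (`uzd37_core`). -/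
theorem uzd37_node (K : Type*) [Field K] [Algebra R K] [IsFractionRing R K] [Algebra K F]
    [IsScalarTower R K F] (π : R) (hπ : Irreducible π) (B : Subring F) [IsNoetherianRing B]
    (hRB : ∀ r : R, algebraMap R F r ∈ B)
    (hfrac : ∀ x : F, ∃ a ∈ B, ∃ b ∈ B, b ≠ 0 ∧ x * b = a)
    (n : Ideal B) [hn : n.IsPrime] (hπn : (⟨algebraMap R F π, hRB π⟩ : B) ∈ n)
    (P₁ P₂ : Ideal B) [hP₁ : P₁.IsPrime] [hP₂ : P₂.IsPrime]
    (hπP₁ : (⟨algebraMap R F π, hRB π⟩ : B) ∈ P₁) (hπP₂ : (⟨algebraMap R F π, hRB π⟩ : B) ∈ P₂)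
    (z z' : B) (hz : z ∈ n) (hz' : z' ∈ n)
    (hgen : ∀ x ∈ n, ∃ s : B, s ∉ n ∧ ∃ a b c : B,
      (s : F) * (x : F) = (a : F) * z + (b : F) * z' + (c : F) * algebraMap R F π)
    (hP₁n : P₁ ≤ n) (hP₂n : P₂ ≤ n) (hzP₁ : z ∈ P₁) (hzP₂ : z ∉ P₂) (hz'P₂ : z' ∈ P₂)
    (hz'P₁ : z' ∉ P₁) (hzz : ∃ c : B, (z : F) * (z' : F) = algebraMap R F π * (c : F))
    (hdom : ∀ O : ValuationSubring F, O ≠ ⊤ → IsPrincipalIdealRing O →
      (∀ r : R, algebraMap R F r ∈ O) → (algebraMap R F π)⁻¹ ∈ O → (∀ x ∈ B, x ∈ O) →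
      ∀ x ∈ O, ∃ b : B, (b : F) ≠ 0 ∧ (b : F)⁻¹ ∈ O ∧ (b : F) * x ∈ B)
    (σ τ : F ≃+* F) (hσ : uzd37_Stab π B σ) (hτ : uzd37_Stab π B τ) :
    ∃ Dp : Set (ValuationSubring F),
      (∀ O ∈ Dp, (∀ x : F, x ∈ O ↔ σ x ∈ O) ∧ (∀ x : F, x ∈ O ↔ τ x ∈ O)) ∧
      ∀ O : ValuationSubring F, O ≠ ⊤ → IsPrincipalIdealRing O →
        (∀ r : R, algebraMap R F r ∈ O) → (algebraMap R F π)⁻¹ ∈ O → (∀ x ∈ B, x ∈ O) →
        (∀ x : B, x ∉ n → (x : F)⁻¹ ∈ O) →
        (∀ x ∈ O, ∃ c : K, x = algebraMap K F c ∨ (x - algebraMap K F c)⁻¹ ∉ O) → O ∉ Dp →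
        ∃ p : F, p ≠ 0 ∧ p ∈ O ∧ p⁻¹ ∉ O ∧ (∀ x ∈ O, x⁻¹ ∉ O → x * p⁻¹ ∈ O) ∧
          ∀ O' : ValuationSubring F, (∀ x ∈ B, x ∈ O') → (∀ x : B, x ∉ n → (x : F)⁻¹ ∈ O') →
            (algebraMap R F π)⁻¹ ∈ O' → O' ≠ O → p ∈ O' ∧ p⁻¹ ∈ O' := by
  classical
  have hinj : Function.Injective (algebraMap R F) := uz37_algebraMap_injective R K F
  have : IsNoetherianRing (lp7_loc B n) := lp7_loc_isNoetherianRing B n
  have h1n : (1 : B) ∉ n := (Ideal.ne_top_iff_one n).mp hn.ne_top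
  let ιR : R →+* lp7_loc B n :=
    (algebraMap R F).codRestrict (lp7_loc B n) (fun r => lp7_le_loc B n _ (hRB r))
  let _ : Algebra R (lp7_loc B n) := ιR.toAlgebra
  have hc : ∀ r : R, ((algebraMap R (lp7_loc B n) r : lp7_loc B n) : F) = algebraMap R F r :=
    fun _ => rfl
  let ι : B →+* lp7_loc B n := Subring.inclusion (fun x hx => lp7_le_loc B n x hx)
  have hι : ∀ b : B, ((ι b : lp7_loc B n) : F) = b := fun _ => rfl
  have hιπ : algebraMap R (lp7_loc B n) π = ι ⟨algebraMap R F π, hRB π⟩ := Subtype.ext rfl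
  have hιmax : ∀ b : B, b ∈ n → ι b ∈ maximalIdeal (lp7_loc B n) := by
    intro b hb
    rw [uz37_mem_max_iff]
    exact ⟨1, h1n, b, hb, by simp [hι]⟩
  have hπmax : algebraMap R (lp7_loc B n) π ∈ maximalIdeal (lp7_loc B n) := by
    rw [hιπ]; exact hιmax _ hπn
  -- the maximal ideal of `B_n`
  have hmax : maximalIdeal (lp7_loc B n) =
      Ideal.span {algebraMap R (lp7_loc B n) π, ι z, ι z'} := by
    apply le_antisymm
    · intro x hx
      obtain ⟨s, hs, t, ht, hst⟩ := (uz37_mem_max_iff B n x).mp hx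
      obtain ⟨s₁, hs₁, a, b, c, habc⟩ := hgen t ht
      have hss : s₁ * s ∉ n := fun h => (hn.mem_or_mem h).elim hs₁ hs
      have hs0 := lp7_ne_zero_of_not_mem B n s hs
      have hs₁0 := lp7_ne_zero_of_not_mem B n s₁ hs₁
      have hx' : x = (⟨((s₁ * s : B) : F)⁻¹, lp7_inv_mem_loc B n _ hss⟩ : lp7_loc B n) *
          (ι a * ι z + ι b * ι z' + ι c * algebraMap R (lp7_loc B n) π) := by
        apply Subtype.ext
        show (x : F) = ((s₁ * s : B) : F)⁻¹ *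
          ((a : F) * z + (b : F) * z' + (c : F) * algebraMap R F π)
        rw [← habc, ← hst]
        push_cast
        field_simp
      rw [hx']
      refine Ideal.mul_mem_left _ _ (Ideal.add_mem _ (Ideal.add_mem _ ?_ ?_) ?_)
      · exact Ideal.mul_mem_left _ _ (Ideal.subset_span (by simp))
      · exact Ideal.mul_mem_left _ _ (Ideal.subset_span (by simp))
      · exact Ideal.mul_mem_left _ _ (Ideal.subset_span (by simp))
    · rw [Ideal.span_le]
      rintro x (rfl | rfl | rfl)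
      · exact hπmax
      · exact hιmax z hz
      · exact hιmax z' hz'
  -- the two vertical primes of `B_n`
  have h𝔭 : (uzd37_ext B n P₁).IsPrime := uzd37_ext_isPrime B n P₁ hP₁n
  have h𝔭' : (uzd37_ext B n P₂).IsPrime := uzd37_ext_isPrime B n P₂ hP₂n
  have hπ𝔭 : algebraMap R (lp7_loc B n) π ∈ uzd37_ext B n P₁ := by
    rw [hιπ]; exact (uzd37_coe_mem_ext B n P₁ hP₁n _).mpr hπP₁
  have hπ𝔭' : algebraMap R (lp7_loc B n) π ∈ uzd37_ext B n P₂ := by
    rw [hιπ]; exact (uzd37_coe_mem_ext B n P₂ hP₂n _).mpr hπP₂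
  have hz𝔭 : ι z ∈ uzd37_ext B n P₁ := (uzd37_coe_mem_ext B n P₁ hP₁n z).mpr hzP₁
  have hz𝔭' : ι z ∉ uzd37_ext B n P₂ := fun h => hzP₂ ((uzd37_coe_mem_ext B n P₂ hP₂n z).mp h)
  have hz'𝔭' : ι z' ∈ uzd37_ext B n P₂ := (uzd37_coe_mem_ext B n P₂ hP₂n z').mpr hz'P₂
  have hz'𝔭 : ι z' ∉ uzd37_ext B n P₁ := fun h =>
    hz'P₁ ((uzd37_coe_mem_ext B n P₁ hP₁n z').mp h)
  have hzzA : algebraMap R (lp7_loc B n) π ∣ ι z * ι z' := by
    obtain ⟨c, hc'⟩ := hzz
    exact ⟨ι c, Subtype.ext hc'⟩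
  -- `B_n ⊆ O'` for every valuation subring through `n`
  have hDle : ∀ O' : ValuationSubring F, (∀ x ∈ B, x ∈ O') →
      (∀ x : B, x ∉ n → (x : F)⁻¹ ∈ O') → ∀ x : lp7_loc B n, (x : F) ∈ O' := by
    intro O' h1 h2 x
    obtain ⟨s, hs, hsx⟩ := x.2
    have hs0 := lp7_ne_zero_of_not_mem B n s hs
    have : (x : F) = (s : F)⁻¹ * ((s : F) * x) := by field_simp
    rw [this]; exact O'.mul_mem _ _ (h2 s hs) (h1 _ hsx)
  have hfracA : ∀ x : F, ∃ a ∈ lp7_loc B n, ∃ b ∈ lp7_loc B n, b ≠ 0 ∧ x * b = a := by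
    intro x
    obtain ⟨a', ha', b, hb, hb0, hab⟩ := hfrac x
    exact ⟨a', lp7_le_loc B n a' ha', b, lp7_le_loc B n b hb, hb0, hab⟩
  refine ⟨{O | O ≠ ⊤ ∧ IsPrincipalIdealRing O ∧ (∀ r : R, algebraMap R F r ∈ O) ∧
      (algebraMap R F π)⁻¹ ∈ O ∧ (∀ x ∈ B, x ∈ O) ∧
      ∃ ρ : lp7_loc B n →+* R, (∀ r : R, ρ (algebraMap R (lp7_loc B n) r) = r) ∧
        (∀ x : lp7_loc B n, ρ x = 0 ↔ O.valuation (x : F) < 1) ∧
        dn3_Deep (uzd37_ext B n P₁) (uzd37_ext B n P₂) π ρ}, ?_, ?_⟩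
  · rintro O ⟨hO, hPIR, hRO, hπO, hBO, ρ, hρ, hker, hdeep⟩
    have huniq : ∀ ρ' : lp7_loc B n →+* R,
        (∀ r : R, ρ' (algebraMap R (lp7_loc B n) r) = r) →
        dn3_Deep (uzd37_ext B n P₁) (uzd37_ext B n P₂) π ρ' → ρ = ρ' := fun ρ' hρ' hd' =>
      dn3_deep_unique π hπ _ _ hπ𝔭 hπ𝔭' (ι z) (ι z') hz𝔭 hz'𝔭' hz𝔭' hz'𝔭 hmax hzzA ρ ρ'
        hρ hρ' hdeep hd'
    have hdomO := hdom O hO hPIR hRO hπO hBO
    have key : ∀ s : F ≃+* F, uzd37_Stab π B s → ∀ x : F, x ∈ O ↔ s x ∈ O := by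
      intro s hs x
      constructor
      · exact uzd37_deep_map hinj π hπ B hRB n hπn hc P₁ P₂ hπP₁ hπP₂ s hs O hBO hdomO ρ hρ
          hker hdeep huniq x
      · intro h
        have := uzd37_deep_map hinj π hπ B hRB n hπn hc P₁ P₂ hπP₁ hπP₂ s.symm
          (uzd37_stab_symm π B s hs) O hBO hdomO ρ hρ hker hdeep huniq _ h
        rwa [RingEquiv.symm_apply_apply] at this
    exact ⟨key σ hσ, key τ hτ⟩
  · intro O hO hPIR hRO hπO hBO hthr hrat hnotin
    have hAO := hDle O hBO hthr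
    obtain ⟨ρ, hρ, hker⟩ := uzd37_eval π hπ (lp7_loc B n) hc hπmax O hRO hπO hAO hrat
    have hnd : ¬ dn3_Deep (uzd37_ext B n P₁) (uzd37_ext B n P₂) π ρ := fun hd =>
      hnotin ⟨hO, hPIR, hRO, hπO, hBO, ρ, hρ, hker, hd⟩
    obtain ⟨ψ, hψ, a, ha, hloc⟩ := dn3_main π hπ _ _ hπ𝔭 hπ𝔭' (ι z) (ι z') hz𝔭 hz'𝔭' hz𝔭'
      hz'𝔭 hmax hzzA ρ hρ hnd
    obtain ⟨p, hp0, hpO, hpinv, hunif, hother⟩ := uzd37_core K π hπ (lp7_loc B n) hc hfracA O
      hO hPIR hRO hπO hAO ρ hker ψ a ha (RingHom.mem_ker.mp hψ)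
      (fun 𝔮 h𝔮 hπ𝔮 hψ𝔮 => @dn3_eq_ker_of_mem _ _ _ _ _ _ _ π hπ ρ hρ ψ a ha hloc 𝔮 h𝔮 hπ𝔮 hψ𝔮)
      hloc
    exact ⟨p, hp0, hpO, hpinv, hunif, fun O' hBO' hthr' hπO' hne =>
      hother O' (hDle O' hBO' hthr') hπO' hne⟩

end node

section pkg

/-- **Package UZ′** (second route): `(LS′) + (DOM) + (ST) ⟹ (UZ′)`, literally the `Prop` of
`Iface47d`. -/
theorem uzd37_Pkg_UZD : s34i47d_Pkg_UZD := by
  intro R K F _ _ _ _ _ _ _ _ _ _ π hπ B hN hfrac P₁ P₂ hP₁ hP₂ hπP₁ hπP₂ hLS hDom σ τ hσ hτ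
    n hn hπn
  obtain ⟨z, z', hz, hz', hgen, hcase⟩ := hLS n hn hπn
  have hnp : (show Ideal B.toSubring from n).IsPrime := hn.isPrime
  have hgen' : ∀ x ∈ n, ∃ s : B, s ∉ n ∧ ∃ a b c : B,
      (s : F) * (x : F) = (a : F) * z + (b : F) * z' + (c : F) * algebraMap R F π := by
    intro x hx
    obtain ⟨s, hs, a, b, c, h⟩ := hgen x hx
    exact ⟨s, hs, a, b, c, congrArg Subtype.val h⟩
  rcases hcase with hsm | ⟨hP₁n, hP₂n, hzP₁, hzP₂, hz'P₂, hz'P₁, c, hc⟩
  · -- a smooth point of the special fibre: no deep point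
    refine ⟨∅, fun O hO => absurd hO (Set.notMem_empty O), ?_⟩
    intro O hO hthr hrat _
    obtain ⟨hOtop, hPIR, hRO, hπO⟩ := hO
    obtain ⟨hBO, hthr'⟩ := hthr
    have hcase' : (z' : F) = algebraMap R F π ∨ ∃ (κ : ℕ) (s s' : B), s ∉ n ∧ s' ∉ n ∧
        (s : F) * z * z' = algebraMap R F π ^ κ * s' := by
      left; rw [hsm]; rfl
    obtain ⟨p, hp0, hpO, hpinv, hunif, hother⟩ :=
      @uz37_core R K F _ _ _ _ _ _ _ _ _ _ π hπ B.toSubring hN (fun r => B.algebraMap_mem r) hfrac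
        n hnp hπn z z' hz hz' hgen' hcase' O hOtop hPIR hRO hπO hBO hthr' hrat
    refine ⟨p, hp0, hpO, hpinv, hunif, ?_⟩
    intro O' hO' hthrO' hne
    exact hother O' hthrO'.1 hthrO'.2 hO'.2.2.2 hne
  · -- a two-branch point
    obtain ⟨Dp, hDp, hmain⟩ :=
      @uzd37_node R F _ _ _ _ _ K _ _ _ _ _ π hπ B.toSubring hN (fun r => B.algebraMap_mem r)
        hfrac n hnp hπn P₁ P₂ hP₁ hP₂ hπP₁ hπP₂ z z' hz hz' hgen' hP₁n hP₂n hzP₁ hzP₂ hz'P₂
        hz'P₁ ⟨c, congrArg Subtype.val hc⟩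
        (fun O hO hPIR hRO hπO hBO => hDom O ⟨hO, hPIR, hRO, hπO⟩ hBO) σ τ hσ hτ
    refine ⟨Dp, hDp, ?_⟩
    intro O hO hthr hrat hnotin
    obtain ⟨p, hp0, hpO, hpinv, hunif, hother⟩ :=
      hmain O hO.1 hO.2.1 hO.2.2.1 hO.2.2.2 hthr.1 hthr.2 hrat hnotin
    exact ⟨p, hp0, hpO, hpinv, hunif, fun O' hO' hthrO' hne =>
      hother O' hthrO'.1 hthrO'.2 hO'.2.2.2 hne⟩

end pkg

end Fermat.Agent.S34
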