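import Mathlib
import Fermat.Agent.S34.Iface47d
import Fermat.Agent.S34.UniqueZero37
import Fermat.Agent.S34.PointsNode91
import Fermat.Agent.S34.DeepNode3
import Fermat.Agent.S34.PkgLD32

/-!
# S34 lab, second route (helper74): the package `s34i47d_Pkg_UZD`

`uzd74_pkg_UZD : s34i47d_Pkg_UZD` — the LITERAL interface Prop of `Iface47d`:
(LS′) + (DOM) + (ST) ⟹ (UZ′), the unique-zero property away from the deep points, WITHOUT any
exact node equation.

At a closed point `n` of the special fibre of the chart `B`: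

* smooth alternative (`z' = π`): `Dp = ∅` and the uniformiser is `z - ρ z` (`uz37_core`, helper37).
* two-branch alternative: `A := B_n = lp7_loc B n ⊆ F` (S18), with the two vertical primes
  `𝔭 = P₁ A`, `𝔭' = P₂ A` (`uzd74_ext`), `𝔪_A = (π, z, z')` (`uzd74_max_eq`), `π ∣ z z'`.
  A rational horizontal `O` through `n` has an evaluation `ρ : A →+* R` (`pn91_exists_rho`,
  helper91).  `Dp :=` the horizontal `O` through `n` with a DEEP evaluation (`dn3_Deep`, helper3).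
  - `O ∉ Dp`: `dn3_main` gives `P ∈ ker ρ`, `a ≠ 0` with `a · ker ρ ⊆ P A`; by (DOM) `P` is a
    uniformiser of `O`; if `P` is a non-unit of another horizontal `O'` through `n`, the centre
    of `O'` on `A` is `ker ρ` (`dn3_eq_ker_of_mem`), so `O' = O` by (DOM).
  - `O ∈ Dp`, `σ` with (ST): `O.comap σ` is horizontal through `n` with evaluation
    `σ_R⁻¹ ∘ ρ ∘ σ_A`, which is deep (`dn3_deep_invariant`), hence equal to `ρ`
    (`dn3_deep_unique`); so `O.comap σ` and `O` have the same centre and are equal by (DOM).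
-/

set_option autoImplicit false

namespace Fermat.Agent.S34

open Fermat.Agent.S18 IsLocalRing

section Ext

variable {F : Type*} [Field F] (B : Subring F) (n : Ideal B) [hn : n.IsPrime]

/-- The extension `P B_n` of an ideal `P` of `B` to the localisation `B_n ⊆ F`. -/
def uzd74_ext (P : Ideal B) : Ideal (lp7_loc B n) where
  carrier := {x | ∃ s : B, s ∉ n ∧ ∃ t : B, t ∈ P ∧ (s : F) * (x : F) = t}
  add_mem' := by
    rintro x y ⟨s, hs, t, ht, hst⟩ ⟨s', hs', t', ht', hst'⟩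
    refine ⟨s * s', fun h => (hn.mem_or_mem h).elim hs hs', s' * t + s * t',
      P.add_mem (P.mul_mem_left _ ht) (P.mul_mem_left _ ht'), ?_⟩
    show ((s * s' : B) : F) * ((x : F) + (y : F)) = ((s' * t + s * t' : B) : F)
    push_cast
    rw [← hst, ← hst']
    ring
  zero_mem' := ⟨1, (Ideal.ne_top_iff_one n).mp hn.ne_top, 0, P.zero_mem, by simp⟩
  smul_mem' := by
    rintro c x ⟨s, hs, t, ht, hst⟩
    obtain ⟨sc, hsc, hc⟩ := c.2
    refine ⟨sc * s, fun h => (hn.mem_or_mem h).elim hsc hs, ⟨_, hc⟩ * t,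
      P.mul_mem_left _ ht, ?_⟩
    show ((sc * s : B) : F) * ((c : F) * (x : F)) = (((⟨_, hc⟩ : B) * t : B) : F)
    push_cast
    rw [← hst]
    ring

theorem uzd74_mem_ext (P : Ideal B) (x : lp7_loc B n) :
    x ∈ uzd74_ext B n P ↔ ∃ s : B, s ∉ n ∧ ∃ t : B, t ∈ P ∧ (s : F) * (x : F) = t := Iff.rfl

theorem uzd74_ext_isPrime (P : Ideal B) [hP : P.IsPrime] (hPn : P ≤ n) :
    (uzd74_ext B n P).IsPrime := by
  refine ⟨?_, ?_⟩
  · intro htop
    have h1 : (1 : lp7_loc B n) ∈ uzd74_ext B n P := by rw [htop]; trivial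
    obtain ⟨s, hs, t, ht, hst⟩ := h1
    apply hs
    have : s = t := Subtype.ext (by simpa using hst)
    rw [this]; exact hPn ht
  · intro x y hxy
    obtain ⟨s, hs, t, ht, hst⟩ := hxy
    obtain ⟨s₁, hs₁, hx⟩ := x.2
    obtain ⟨s₂, hs₂, hy⟩ := y.2
    have hsP : s ∉ P := fun h => hs (hPn h)
    have hst' : (s : F) * ((x : F) * (y : F)) = t := hst
    have hprod : s * ((⟨_, hx⟩ : B) * (⟨_, hy⟩ : B)) = s₁ * s₂ * t := by
      apply Subtype.ext
      show (s : F) * (((s₁ : F) * (x : F)) * ((s₂ : F) * (y : F))) = (s₁ : F) * (s₂ : F) * (t : F)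
      rw [← hst']
      ring
    have h2 : s * ((⟨_, hx⟩ : B) * (⟨_, hy⟩ : B)) ∈ P := by
      rw [hprod]; exact P.mul_mem_left _ ht
    rcases hP.mem_or_mem h2 with h | h
    · exact absurd h hsP
    · rcases hP.mem_or_mem h with h | h
      · left; exact ⟨s₁, hs₁, ⟨_, hx⟩, h, rfl⟩
      · right; exact ⟨s₂, hs₂, ⟨_, hy⟩, h, rfl⟩

theorem uzd74_ext_mem_iff (P : Ideal B) [hP : P.IsPrime] (hPn : P ≤ n) (b : B)
    (hb : (b : F) ∈ lp7_loc B n) :
    (⟨(b : F), hb⟩ : lp7_loc B n) ∈ uzd74_ext B n P ↔ b ∈ P := by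
  constructor
  · rintro ⟨s, hs, t, ht, hst⟩
    have h1 : s * b = t := Subtype.ext hst
    have h2 : s * b ∈ P := h1 ▸ ht
    exact (hP.mem_or_mem h2).resolve_left (fun h => hs (hPn h))
  · intro h
    exact ⟨1, (Ideal.ne_top_iff_one n).mp hn.ne_top, b, h, by simp⟩

/-- `𝔪_{B_n} = (π, z, z')` from the elementwise generation clause of (LS′). -/
theorem uzd74_max_eq (p z z' : B) (hp : p ∈ n) (hz : z ∈ n) (hz' : z' ∈ n)
    (hgen : ∀ x ∈ n, ∃ s : B, s ∉ n ∧ ∃ a b c : B,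
      (s : F) * (x : F) = (a : F) * z + (b : F) * z' + (c : F) * p) :
    maximalIdeal (lp7_loc B n) =
      Ideal.span ({⟨(p : F), lp7_le_loc B n _ p.2⟩, ⟨(z : F), lp7_le_loc B n _ z.2⟩,
        ⟨(z' : F), lp7_le_loc B n _ z'.2⟩} : Set (lp7_loc B n)) := by
  have h1n : (1 : B) ∉ n := (Ideal.ne_top_iff_one n).mp hn.ne_top
  apply le_antisymm
  · intro x hx
    rw [uz37_mem_max_iff] at hx
    obtain ⟨s, hs, t, ht, hst⟩ := hx
    obtain ⟨s', hs', a, b, c, habc⟩ := hgen t ht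
    have hss' : s' * s ∉ n := fun h => (hn.mem_or_mem h).elim hs' hs
    have hss0 : ((s' * s : B) : F) ≠ 0 := lp7_ne_zero_of_not_mem B n _ hss'
    let u : lp7_loc B n := ⟨((s' * s : B) : F)⁻¹, lp7_inv_mem_loc B n _ hss'⟩
    rw [dn3_mem_span_triple]
    refine ⟨u * ⟨(c : F), lp7_le_loc B n _ c.2⟩, u * ⟨(a : F), lp7_le_loc B n _ a.2⟩,
      u * ⟨(b : F), lp7_le_loc B n _ b.2⟩, ?_⟩
    apply Subtype.ext
    show (x : F) = ((s' * s : B) : F)⁻¹ * (c : F) * (p : F) + ((s' * s : B) : F)⁻¹ * (a : F) * (z : F)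
      + ((s' * s : B) : F)⁻¹ * (b : F) * (z' : F)
    have h3 : ((s' * s : B) : F) * (x : F) = (a : F) * z + (b : F) * z' + (c : F) * p := by
      push_cast
      rw [mul_assoc, hst, habc]
    field_simp
    linear_combination h3
  · rw [Ideal.span_le]
    intro x hx
    rcases hx with rfl | rfl | rfl
    · exact (uz37_mem_max_iff B n _).mpr ⟨1, h1n, p, hp, by simp⟩
    · exact (uz37_mem_max_iff B n _).mpr ⟨1, h1n, z, hz, by simp⟩
    · exact (uz37_mem_max_iff B n _).mpr ⟨1, h1n, z', hz', by simp⟩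

end Ext

section Centre

variable {F : Type*} [Field F]

theorem uzd74_mul_lt_one (O : ValuationSubring F) (x y : F) (hx : O.valuation x ≤ 1)
    (hy : O.valuation y < 1) : O.valuation (x * y) < 1 := by
  rw [map_mul]
  exact lt_of_le_of_lt (mul_le_of_le_one_left' hx) hy

/-- The centre of `O` on a subring `A ⊆ O`. -/
def uzd74_centre (A : Subring F) (O : ValuationSubring F) (hAO : ∀ x ∈ A, x ∈ O) : Ideal A where
  carrier := {x | O.valuation (x : F) < 1}
  add_mem' := fun {a b} ha hb => by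
    show O.valuation ((a : F) + (b : F)) < 1
    exact O.valuation.map_add_lt ha hb
  zero_mem' := by
    show O.valuation ((0 : A) : F) < 1
    simp
  smul_mem' := fun c x hx => by
    show O.valuation ((c : F) * (x : F)) < 1
    exact uzd74_mul_lt_one O _ _ ((O.valuation_le_one_iff _).mpr (hAO _ c.2)) hx

theorem uzd74_centre_isPrime (A : Subring F) (O : ValuationSubring F) (hAO : ∀ x ∈ A, x ∈ O) :
    (uzd74_centre A O hAO).IsPrime := by
  refine ⟨?_, ?_⟩
  · intro htop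
    have h1 : (1 : A) ∈ uzd74_centre A O hAO := by rw [htop]; trivial
    have h2 : O.valuation ((1 : A) : F) < 1 := h1
    simp at h2
  · intro x y hxy
    have h : O.valuation ((x : F) * (y : F)) < 1 := hxy
    rw [map_mul] at h
    by_contra hcon
    push Not at hcon
    have hx1 : O.valuation (x : F) = 1 :=
      le_antisymm ((O.valuation_le_one_iff _).mpr (hAO _ x.2)) (not_lt.mp hcon.1)
    have hy1 : O.valuation (y : F) = 1 :=
      le_antisymm ((O.valuation_le_one_iff _).mpr (hAO _ y.2)) (not_lt.mp hcon.2)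
    rw [hx1, hy1, one_mul] at h
    exact lt_irrefl _ h

/-- The valuation of `O.comap σ`. -/
theorem uzd74_val_comap_lt (O : ValuationSubring F) (σ : F ≃+* F) (y : F) :
    (O.comap (σ : F →+* F)).valuation y < 1 ↔ O.valuation (σ y) < 1 := by
  by_cases hy : y = 0
  · subst hy; simp
  · have hσy : σ y ≠ 0 := by simpa using hy
    have h1 := uz37_inv_not_mem_iff (O.comap (σ : F →+* F)) y
    have h2 := uz37_inv_not_mem_iff O (σ y)
    have h3 : y⁻¹ ∈ O.comap (σ : F →+* F) ↔ (σ y)⁻¹ ∈ O := by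
      show (σ : F →+* F) y⁻¹ ∈ O ↔ _
      rw [map_inv₀]; rfl
    constructor
    · intro h
      exact (h2.mp (fun hc => (h1.mpr ⟨hy, h⟩) (h3.mpr hc))).2
    · intro h
      exact (h1.mp (fun hc => (h2.mpr ⟨hσy, h⟩) (h3.mp hc))).2

/-- The restriction of an automorphism of `F` to a stable subring. -/
def uzd74_equiv (A : Subring F) (σ : F ≃+* F) (h1 : ∀ x ∈ A, σ x ∈ A)
    (h2 : ∀ x ∈ A, σ.symm x ∈ A) : A ≃+* A where
  toFun x := ⟨σ x, h1 x x.2⟩
  invFun x := ⟨σ.symm x, h2 x x.2⟩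
  left_inv x := Subtype.ext (σ.symm_apply_apply x)
  right_inv x := Subtype.ext (σ.apply_symm_apply x)
  map_mul' x y := Subtype.ext (map_mul σ (x : F) (y : F))
  map_add' x y := Subtype.ext (map_add σ (x : F) (y : F))

/-- The automorphism of `R` induced by an automorphism of `F` stabilising the image of `R`. -/
noncomputable def uzd74_equivR {R : Type*} [CommRing R] [Algebra R F]
    (hinj : Function.Injective (algebraMap R F)) (σ : F ≃+* F)
    (h1 : ∀ r : R, ∃ r' : R, σ (algebraMap R F r) = algebraMap R F r')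
    (h2 : ∀ r : R, ∃ r' : R, σ.symm (algebraMap R F r) = algebraMap R F r') : R ≃+* R where
  toFun r := Classical.choose (h1 r)
  invFun r := Classical.choose (h2 r)
  left_inv r := by
    apply hinj
    rw [← Classical.choose_spec (h2 _), ← Classical.choose_spec (h1 r), σ.symm_apply_apply]
  right_inv r := by
    apply hinj
    rw [← Classical.choose_spec (h1 _), ← Classical.choose_spec (h2 r), σ.apply_symm_apply]
  map_mul' x y := by
    apply hinj
    have hxy := Classical.choose_spec (h1 (x * y))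
    have hx := Classical.choose_spec (h1 x)
    have hy := Classical.choose_spec (h1 y)
    calc algebraMap R F (Classical.choose (h1 (x * y))) = σ (algebraMap R F (x * y)) := hxy.symm
      _ = σ (algebraMap R F x) * σ (algebraMap R F y) :=
          (congrArg σ (map_mul (algebraMap R F) x y)).trans (map_mul σ _ _)
      _ = algebraMap R F (Classical.choose (h1 x)) * algebraMap R F (Classical.choose (h1 y)) :=
          congrArg₂ (· * ·) hx hy
      _ = algebraMap R F (Classical.choose (h1 x) * Classical.choose (h1 y)) :=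
          (map_mul (algebraMap R F) _ _).symm
  map_add' x y := by
    apply hinj
    have hxy := Classical.choose_spec (h1 (x + y))
    have hx := Classical.choose_spec (h1 x)
    have hy := Classical.choose_spec (h1 y)
    calc algebraMap R F (Classical.choose (h1 (x + y))) = σ (algebraMap R F (x + y)) := hxy.symm
      _ = σ (algebraMap R F x) + σ (algebraMap R F y) :=
          (congrArg σ (map_add (algebraMap R F) x y)).trans (map_add σ _ _)
      _ = algebraMap R F (Classical.choose (h1 x)) + algebraMap R F (Classical.choose (h1 y)) :=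
          congrArg₂ (· + ·) hx hy
      _ = algebraMap R F (Classical.choose (h1 x) + Classical.choose (h1 y)) :=
          (map_add (algebraMap R F) _ _).symm

theorem uzd74_equivR_spec {R : Type*} [CommRing R] [Algebra R F]
    (hinj : Function.Injective (algebraMap R F)) (σ : F ≃+* F)
    (h1 : ∀ r : R, ∃ r' : R, σ (algebraMap R F r) = algebraMap R F r')
    (h2 : ∀ r : R, ∃ r' : R, σ.symm (algebraMap R F r) = algebraMap R F r') (r : R) :
    algebraMap R F (uzd74_equivR hinj σ h1 h2 r) = σ (algebraMap R F r) :=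
  (Classical.choose_spec (h1 r)).symm

theorem uzd74_equivR_symm_spec {R : Type*} [CommRing R] [Algebra R F]
    (hinj : Function.Injective (algebraMap R F)) (σ : F ≃+* F)
    (h1 : ∀ r : R, ∃ r' : R, σ (algebraMap R F r) = algebraMap R F r')
    (h2 : ∀ r : R, ∃ r' : R, σ.symm (algebraMap R F r) = algebraMap R F r') (r : R) :
    algebraMap R F ((uzd74_equivR hinj σ h1 h2).symm r) = σ.symm (algebraMap R F r) :=
  (Classical.choose_spec (h2 r)).symm

end Centre

section Node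

variable {R K F : Type*} [CommRing R] [IsDomain R] [IsDiscreteValuationRing R] [Field K] [Field F]
  [Algebra R K] [IsFractionRing R K] [Algebra R F] [Algebra K F] [IsScalarTower R K F]

/-- (ST) of `Iface47d` for a subring. -/
def uzd74_StabS (π : R) (B : Subring F) (σ : F ≃+* F) : Prop :=
  (∀ r : R, ∃ r' : R, σ (algebraMap R F r) = algebraMap R F r') ∧
  (∀ r : R, ∃ r' : R, σ.symm (algebraMap R F r) = algebraMap R F r') ∧
  (∀ x ∈ B, σ x ∈ B) ∧ (∀ x ∈ B, σ.symm x ∈ B) ∧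
  (∀ x ∈ B, (algebraMap R F π)⁻¹ * (σ x - x) ∈ B)

omit [IsDomain R] [IsDiscreteValuationRing R] in
/-- Under (ST), every ideal of `B` containing `π` is stable under `σ` and `σ⁻¹`. -/
theorem uzd74_stab_mem (π : R) (B : Subring F) (hπ0 : algebraMap R F π ≠ 0)
    (hRB : ∀ r : R, algebraMap R F r ∈ B) (σ : F ≃+* F) (hS : uzd74_StabS π B σ)
    (I : Ideal B) (hπI : (⟨algebraMap R F π, hRB π⟩ : B) ∈ I) (x : B) :
    ((⟨σ x, hS.2.2.1 x x.2⟩ : B) ∈ I ↔ x ∈ I) ∧
      ((⟨σ.symm x, hS.2.2.2.1 x x.2⟩ : B) ∈ I ↔ x ∈ I) := by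
  obtain ⟨hσR, hσR', hσB, hσB', hσ1⟩ := hS
  have key : ∀ y : B, ∃ d : B,
      (⟨σ y, hσB y y.2⟩ : B) = y + ⟨algebraMap R F π, hRB π⟩ * d := by
    intro y
    refine ⟨⟨_, hσ1 y y.2⟩, Subtype.ext ?_⟩
    show σ (y : F) = (y : F) + algebraMap R F π * ((algebraMap R F π)⁻¹ * (σ (y : F) - y))
    field_simp
    ring
  constructor
  · obtain ⟨d, hd⟩ := key x
    rw [hd]
    constructor
    · intro h
      have := I.sub_mem h (I.mul_mem_right d hπI)
      simpa using this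
    · intro h
      exact I.add_mem h (I.mul_mem_right d hπI)
  · obtain ⟨d, hd⟩ := key ⟨σ.symm x, hσB' x x.2⟩
    have hd' : x = (⟨σ.symm x, hσB' x x.2⟩ : B) + ⟨algebraMap R F π, hRB π⟩ * d := by
      rw [← hd]
      exact Subtype.ext (σ.apply_symm_apply _).symm
    constructor
    · intro h
      rw [hd']
      exact I.add_mem h (I.mul_mem_right d hπI)
    · intro h
      have h2 : (⟨σ.symm x, hσB' x x.2⟩ : B) = x - ⟨algebraMap R F π, hRB π⟩ * d :=
        eq_sub_of_add_eq hd'.symm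
      rw [h2]
      exact I.sub_mem h (I.mul_mem_right d hπI)

set_option maxHeartbeats 1600000 in
/-- **(UZ′) at a two-branch point.**  See the module docstring. -/
theorem uzd74_node (π : R) (hπ : Irreducible π) (B : Subring F) [IsNoetherianRing B]
    (hRB : ∀ r : R, algebraMap R F r ∈ B)
    (n : Ideal B) [hn : n.IsPrime] (hπn : (⟨algebraMap R F π, hRB π⟩ : B) ∈ n)
    (P₁ P₂ : Ideal B) [hP₁ : P₁.IsPrime] [hP₂ : P₂.IsPrime]
    (hπ1 : (⟨algebraMap R F π, hRB π⟩ : B) ∈ P₁) (hπ2 : (⟨algebraMap R F π, hRB π⟩ : B) ∈ P₂)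
    (h1n : P₁ ≤ n) (h2n : P₂ ≤ n)
    (z z' : B) (hz : z ∈ n) (hz' : z' ∈ n)
    (hgen : ∀ x ∈ n, ∃ s : B, s ∉ n ∧ ∃ a b c : B,
      (s : F) * (x : F) = (a : F) * z + (b : F) * z' + (c : F) * algebraMap R F π)
    (hz1 : z ∈ P₁) (hz2 : z ∉ P₂) (hz'2 : z' ∈ P₂) (hz'1 : z' ∉ P₁)
    (hzz : ∃ c : B, (z : F) * z' = algebraMap R F π * c)
    (hDom : ∀ O : ValuationSubring F, s34i47_IsHoriz π O → (∀ x ∈ B, x ∈ O) →
      ∀ x ∈ O, ∃ b : B, (b : F) ≠ 0 ∧ (b : F)⁻¹ ∈ O ∧ (b : F) * x ∈ B)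
    (σ τ : F ≃+* F) (hSσ : uzd74_StabS π B σ) (hSτ : uzd74_StabS π B τ) :
    ∃ Dp : Set (ValuationSubring F),
      (∀ O ∈ Dp, (∀ x : F, x ∈ O ↔ σ x ∈ O) ∧ (∀ x : F, x ∈ O ↔ τ x ∈ O)) ∧
      ∀ O : ValuationSubring F, s34i47_IsHoriz π O → (∀ x ∈ B, x ∈ O) →
        (∀ x : B, x ∉ n → (x : F)⁻¹ ∈ O) → s34i47_IsRat K O → O ∉ Dp →
        ∃ p : F, p ≠ 0 ∧ p ∈ O ∧ p⁻¹ ∉ O ∧ (∀ x ∈ O, x⁻¹ ∉ O → x * p⁻¹ ∈ O) ∧
          ∀ O' : ValuationSubring F, s34i47_IsHoriz π O' → (∀ x ∈ B, x ∈ O') →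
            (∀ x : B, x ∉ n → (x : F)⁻¹ ∈ O') → O' ≠ O → p ∈ O' ∧ p⁻¹ ∈ O' := by
  classical
  haveI : IsNoetherianRing (lp7_loc B n) := lp7_loc_isNoetherianRing B n
  have hinj : Function.Injective (algebraMap R F) := uz37_algebraMap_injective R K F
  have hπF0 : algebraMap R F π ≠ 0 := by
    rw [Ne, map_eq_zero_iff _ hinj]; exact hπ.ne_zero
  -- the local ring `A = B_n` as an `R`-algebra
  let ιR : R →+* lp7_loc B n :=
    (algebraMap R F).codRestrict (lp7_loc B n) (fun r => lp7_le_loc B n _ (hRB r))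
  letI algRA : Algebra R (lp7_loc B n) := ιR.toAlgebra
  let ι : B → lp7_loc B n := fun b => ⟨(b : F), lp7_le_loc B n _ b.2⟩
  -- the two vertical primes
  haveI h𝔭 : (uzd74_ext B n P₁).IsPrime := uzd74_ext_isPrime B n P₁ h1n
  haveI h𝔭' : (uzd74_ext B n P₂).IsPrime := uzd74_ext_isPrime B n P₂ h2n
  have hπ𝔭 : algebraMap R (lp7_loc B n) π ∈ uzd74_ext B n P₁ :=
    (uzd74_ext_mem_iff B n P₁ h1n ⟨_, hRB π⟩ _).mpr hπ1
  have hπ𝔭' : algebraMap R (lp7_loc B n) π ∈ uzd74_ext B n P₂ :=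
    (uzd74_ext_mem_iff B n P₂ h2n ⟨_, hRB π⟩ _).mpr hπ2
  have hzA : ι z ∈ uzd74_ext B n P₁ := (uzd74_ext_mem_iff B n P₁ h1n z _).mpr hz1
  have hzA' : ι z ∉ uzd74_ext B n P₂ :=
    fun h => hz2 ((uzd74_ext_mem_iff B n P₂ h2n z _).mp h)
  have hz'A : ι z' ∈ uzd74_ext B n P₂ := (uzd74_ext_mem_iff B n P₂ h2n z' _).mpr hz'2
  have hz'A' : ι z' ∉ uzd74_ext B n P₁ :=
    fun h => hz'1 ((uzd74_ext_mem_iff B n P₁ h1n z' _).mp h)
  have hmax : maximalIdeal (lp7_loc B n) =
      Ideal.span ({algebraMap R (lp7_loc B n) π, ι z, ι z'} : Set (lp7_loc B n)) :=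
    uzd74_max_eq B n ⟨_, hRB π⟩ z z' hπn hz hz' hgen
  have hzzA : algebraMap R (lp7_loc B n) π ∣ ι z * ι z' := by
    obtain ⟨c, hc⟩ := hzz
    exact ⟨ι c, Subtype.ext hc⟩
  have hπmax : algebraMap R (lp7_loc B n) π ∈ maximalIdeal (lp7_loc B n) := by
    rw [hmax]; exact Ideal.subset_span (by simp)
  -- `A ⊆ O'` for every valuation ring through `n`
  have hAle : ∀ O' : ValuationSubring F, (∀ x ∈ B, x ∈ O') →
      (∀ x : B, x ∉ n → (x : F)⁻¹ ∈ O') → ∀ x ∈ lp7_loc B n, x ∈ O' := by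
    intro O' h1 h2 x hx
    obtain ⟨s, hs, hsx⟩ := hx
    have hs0 := lp7_ne_zero_of_not_mem B n s hs
    have : x = (s : F)⁻¹ * ((s : F) * x) := by field_simp
    rw [this]; exact O'.mul_mem _ _ (h2 s hs) (h1 _ hsx)
  -- the evaluation at a rational horizontal `O` through `n`
  have hρex : ∀ O : ValuationSubring F, (∀ r : R, algebraMap R F r ∈ O) →
      (algebraMap R F π)⁻¹ ∈ O → (∀ x ∈ B, x ∈ O) → (∀ x : B, x ∉ n → (x : F)⁻¹ ∈ O) →
      s34i47_IsRat K O →
      ∃ ρ : lp7_loc B n →+* R, (∀ r : R, ρ (algebraMap R (lp7_loc B n) r) = r) ∧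
        ∀ x : lp7_loc B n, ρ x = 0 ↔ O.valuation (x : F) < 1 := by
    intro O hRO hπO hBO hthr hrat
    refine pn91_exists_rho hπ hπF0 (lp7_loc B n) (fun r => lp7_le_loc B n _ (hRB r)) hπmax O
      (hAle O hBO hthr) hπO ?_
    intro x hx
    obtain ⟨c, hc⟩ := hrat x (hAle O hBO hthr x hx)
    obtain ⟨r, s, hs, rfl⟩ := IsFractionRing.div_surjective (A := R) c
    refine ⟨r, s, nonZeroDivisors.ne_zero hs, ?_⟩
    have e : algebraMap K F (algebraMap R K r / algebraMap R K s) =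
        algebraMap R F r / algebraMap R F s := by
      rw [map_div₀, ← IsScalarTower.algebraMap_apply, ← IsScalarTower.algebraMap_apply]
    rw [← e]
    rcases hc with h | h
    · rw [h, sub_self, map_zero]; exact zero_lt_one
    · exact ((uz37_inv_not_mem_iff O _).mp h).2
  -- (DOM): a horizontal `O` is determined by its centre
  have hle_of_centre : ∀ O O' : ValuationSubring F, s34i47_IsHoriz π O → (∀ x ∈ B, x ∈ O) →
      (∀ x ∈ B, x ∈ O') →
      (∀ b : B, O'.valuation (b : F) < 1 → O.valuation (b : F) < 1) → O ≤ O' := by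
    intro O O' hO hBO hBO' hc x hx
    obtain ⟨b, hb0, hbinv, hbx⟩ := hDom O hO hBO x hx
    have hv : O.valuation (b : F) = 1 := uz37_val_eq_one O _ (hBO _ b.2) hbinv hb0
    have hbinv' : (b : F)⁻¹ ∈ O' := by
      by_contra hcon
      have h1 := hc b ((uz37_inv_not_mem_iff O' _).mp hcon).2
      rw [hv] at h1
      exact lt_irrefl _ h1
    have : x = (b : F)⁻¹ * ((b : F) * x) := by field_simp
    rw [this]; exact O'.mul_mem _ _ hbinv' (hBO' _ hbx)
  -- the deep points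
  let Dp : Set (ValuationSubring F) := {O | s34i47_IsHoriz π O ∧ (∀ x ∈ B, x ∈ O) ∧
    (∀ x : B, x ∉ n → (x : F)⁻¹ ∈ O) ∧
    ∃ ρ : lp7_loc B n →+* R, (∀ r : R, ρ (algebraMap R (lp7_loc B n) r) = r) ∧
      (∀ x : lp7_loc B n, ρ x = 0 ↔ O.valuation (x : F) < 1) ∧
      dn3_Deep (uzd74_ext B n P₁) (uzd74_ext B n P₂) π ρ}
  -- a deep point is fixed by every automorphism with (ST)
  have hfix : ∀ ς : F ≃+* F, uzd74_StabS π B ς → ∀ O ∈ Dp, ∀ x : F, x ∈ O ↔ ς x ∈ O := by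
    rintro ς hS O ⟨hO, hBO, hthr, ρ, hρ, hρ0, hdeep⟩
    have hςR := hS.1
    have hςR' := hS.2.1
    have hςB := hS.2.2.1
    have hςB' := hS.2.2.2.1
    have hstab := uzd74_stab_mem π B hπF0 hRB ς hS
    have hςA : ∀ x ∈ lp7_loc B n, ς x ∈ lp7_loc B n := by
      rintro x ⟨s, hs, hsx⟩
      refine ⟨⟨ς s, hςB s s.2⟩, fun h => hs ((hstab n hπn s).1.mp h), ?_⟩
      show ς (s : F) * ς x ∈ B
      rw [← map_mul]; exact hςB _ hsx
    have hςA' : ∀ x ∈ lp7_loc B n, ς.symm x ∈ lp7_loc B n := by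
      rintro x ⟨s, hs, hsx⟩
      refine ⟨⟨ς.symm s, hςB' s s.2⟩, fun h => hs ((hstab n hπn s).2.mp h), ?_⟩
      show ς.symm (s : F) * ς.symm x ∈ B
      rw [← map_mul]; exact hςB' _ hsx
    let σA : lp7_loc B n ≃+* lp7_loc B n := uzd74_equiv (lp7_loc B n) ς hςA hςA'
    let σR : R ≃+* R := uzd74_equivR hinj ς hςR hςR'
    have hcompat : ∀ r : R, σA.symm (algebraMap R (lp7_loc B n) r) =
        algebraMap R (lp7_loc B n) (σR.symm r) := by
      intro r
      apply Subtype.ext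
      show ς.symm (algebraMap R F r) = algebraMap R F (σR.symm r)
      exact (uzd74_equivR_symm_spec hinj ς hςR hςR' r).symm
    have hcompat' : ∀ r : R, σA (algebraMap R (lp7_loc B n) r) =
        algebraMap R (lp7_loc B n) (σR r) := by
      intro r
      apply Subtype.ext
      show ς (algebraMap R F r) = algebraMap R F (σR r)
      exact (uzd74_equivR_spec hinj ς hςR hςR' r).symm
    have hprime : ∀ (P : Ideal B), (⟨algebraMap R F π, hRB π⟩ : B) ∈ P →
        ∀ x ∈ uzd74_ext B n P, σA.symm x ∈ uzd74_ext B n P := by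
      rintro P hπP x ⟨s, hs, t, ht, hst⟩
      refine ⟨⟨ς.symm s, hςB' s s.2⟩, fun h => hs ((hstab n hπn s).2.mp h),
        ⟨ς.symm t, hςB' t t.2⟩, (hstab P hπP t).2.mpr ht, ?_⟩
      show ς.symm (s : F) * ς.symm (x : F) = ς.symm (t : F)
      rw [← map_mul, hst]
    have hdeep' := dn3_deep_invariant π hπ (uzd74_ext B n P₁) (uzd74_ext B n P₂) σA.symm σR.symm
      hcompat (hprime P₁ hπ1) (hprime P₂ hπ2) ρ hdeep
    have hρ' : ∀ r : R, ((σR.symm : R →+* R).comp
        (ρ.comp (σA.symm.symm : lp7_loc B n →+* lp7_loc B n)))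
        (algebraMap R (lp7_loc B n) r) = r := by
      intro r
      show σR.symm (ρ (σA.symm.symm (algebraMap R (lp7_loc B n) r))) = r
      rw [RingEquiv.symm_symm, hcompat', hρ, RingEquiv.symm_apply_apply]
    have heq := dn3_deep_unique π hπ (uzd74_ext B n P₁) (uzd74_ext B n P₂) hπ𝔭 hπ𝔭' (ι z) (ι z')
      hzA hz'A hzA' hz'A' hmax hzzA _ ρ hρ' hρ hdeep' hdeep
    have hcen : ∀ x : lp7_loc B n, O.valuation (ς (x : F)) < 1 ↔ O.valuation (x : F) < 1 := by
      intro x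
      have h1 : σR.symm (ρ (σA.symm.symm x)) = ρ x :=
        congrArg (fun φ : lp7_loc B n →+* R => φ x) heq
      rw [RingEquiv.symm_symm] at h1
      have h2 : O.valuation (ς (x : F)) < 1 ↔ ρ (σA x) = 0 := (hρ0 (σA x)).symm
      rw [h2, ← hρ0 x, ← h1]
      constructor
      · intro h; rw [h, map_zero]
      · intro h; exact (map_eq_zero_iff _ σR.symm.injective).mp h
    have hO' : s34i47_IsHoriz π (O.comap (ς : F →+* F)) := pld32_comap_isHoriz π hπ ς hςR O hO
    have hBO' : ∀ x ∈ B, x ∈ O.comap (ς : F →+* F) := fun x hx => hBO _ (hςB x hx)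
    have hc1 : ∀ b : B, (O.comap (ς : F →+* F)).valuation (b : F) < 1 ↔
        O.valuation (b : F) < 1 := by
      intro b
      rw [uzd74_val_comap_lt]
      exact hcen (ι b)
    have heqO : O.comap (ς : F →+* F) = O := le_antisymm
      (hle_of_centre _ O hO' hBO' hBO (fun b h => (hc1 b).mpr h))
      (hle_of_centre O _ hO hBO hBO' (fun b h => (hc1 b).mp h))
    intro x
    have h2 : x ∈ O.comap (ς : F →+* F) ↔ x ∈ O := by rw [heqO]
    exact h2.symm
  refine ⟨Dp, fun O hOD => ⟨hfix σ hSσ O hOD, hfix τ hSτ O hOD⟩, ?_⟩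
  intro O hO hBO hthr hrat hOD
  have hRO := hO.2.2.1
  have hπO := hO.2.2.2
  obtain ⟨ρ, hρ, hρ0⟩ := hρex O hRO hπO hBO hthr hrat
  have hnd : ¬ dn3_Deep (uzd74_ext B n P₁) (uzd74_ext B n P₂) π ρ :=
    fun hd => hOD ⟨hO, hBO, hthr, ρ, hρ, hρ0, hd⟩
  obtain ⟨P, hPker, a, ha0, hPa⟩ := dn3_main π hπ (uzd74_ext B n P₁) (uzd74_ext B n P₂) hπ𝔭 hπ𝔭'
    (ι z) (ι z') hzA hz'A hzA' hz'A' hmax hzzA ρ hρ hnd
  have hAO := hAle O hBO hthr
  have hva : O.valuation (algebraMap R F a) = 1 := pn91_val_const hπ hπF0 O hRO hπO ha0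
  have ha0F : algebraMap R F a ≠ 0 := pn91_algebraMap_ne_zero hπ hπF0 ha0
  have hainv : (algebraMap R F a)⁻¹ ∈ O := (pn91_mem_of_val_eq_one O hva).2
  have hPv : O.valuation (P : F) < 1 := (hρ0 P).mp (RingHom.mem_ker.mp hPker)
  -- every nonunit of `O` gives an element of `ker ρ`
  have hkey : ∀ x ∈ O, x⁻¹ ∉ O → ∃ (b : B) (w : lp7_loc B n), (b : F) ≠ 0 ∧ (b : F)⁻¹ ∈ O ∧
      algebraMap R F a * ((b : F) * x) = (P : F) * (w : F) := by
    intro x hx hxinv
    obtain ⟨hx0, hxv⟩ := (uz37_inv_not_mem_iff O x).mp hxinv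
    obtain ⟨b, hb0, hbinv, hbx⟩ := hDom O hO hBO x hx
    let y : lp7_loc B n := ⟨(b : F) * x, lp7_le_loc B n _ hbx⟩
    have hyv : O.valuation (y : F) < 1 :=
      uzd74_mul_lt_one O _ _ ((O.valuation_le_one_iff _).mpr (hBO _ b.2)) hxv
    obtain ⟨w, hw⟩ := hPa y (RingHom.mem_ker.mpr ((hρ0 y).mpr hyv))
    exact ⟨b, w, hb0, hbinv, congrArg Subtype.val hw⟩
  have hP0 : (P : F) ≠ 0 := by
    intro hP0
    apply hO.1
    rw [eq_top_iff]
    intro y _
    by_contra hyO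
    have hy0 : y ≠ 0 := by rintro rfl; exact hyO O.zero_mem
    have hyinv : y⁻¹ ∈ O := (O.mem_or_inv_mem y).resolve_left hyO
    obtain ⟨b, w, hb0, -, hw⟩ := hkey y⁻¹ hyinv (by rw [inv_inv]; exact hyO)
    rw [hP0, zero_mul] at hw
    rcases mul_eq_zero.mp hw with h | h
    · exact ha0F h
    · rcases mul_eq_zero.mp h with h | h
      · exact hb0 h
      · exact inv_ne_zero hy0 h
  refine ⟨(P : F), hP0, hAO _ P.2, ?_, ?_, ?_⟩
  · exact (uz37_inv_not_mem_iff O _).mpr ⟨hP0, hPv⟩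
  · intro x hx hxinv
    obtain ⟨b, w, hb0, hbinv, hw⟩ := hkey x hx hxinv
    have e : x * (P : F)⁻¹ = (w : F) * ((algebraMap R F a)⁻¹ * (b : F)⁻¹) := by
      field_simp
      linear_combination hw
    rw [e]
    exact O.mul_mem _ _ (hAO _ w.2) (O.mul_mem _ _ hainv hbinv)
  · intro O' hO' hBO' hthr' hne
    have hAO' := hAle O' hBO' hthr'
    refine ⟨hAO' _ P.2, ?_⟩
    by_contra hPinv
    have hPv' : O'.valuation (P : F) < 1 := ((uz37_inv_not_mem_iff O' _).mp hPinv).2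
    haveI h𝔮 : (uzd74_centre (lp7_loc B n) O' hAO').IsPrime := uzd74_centre_isPrime _ _ _
    have hπ𝔮 : algebraMap R (lp7_loc B n) π ∉ uzd74_centre (lp7_loc B n) O' hAO' := by
      intro h
      have h1 : O'.valuation (algebraMap R F π) < 1 := h
      rw [pn91_val_const hπ hπF0 O' hO'.2.2.1 hO'.2.2.2 hπ.ne_zero] at h1
      exact lt_irrefl _ h1
    have hq := dn3_eq_ker_of_mem π hπ ρ hρ P a ha0 hPa (uzd74_centre (lp7_loc B n) O' hAO')
      hπ𝔮 hPv'
    have hc : ∀ x : lp7_loc B n, O'.valuation (x : F) < 1 ↔ O.valuation (x : F) < 1 := by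
      intro x
      have h1 : x ∈ uzd74_centre (lp7_loc B n) O' hAO' ↔ x ∈ RingHom.ker ρ := by rw [hq]
      rw [RingHom.mem_ker, hρ0] at h1
      exact h1
    exact hne (le_antisymm
      (hle_of_centre O' O hO' hBO' hBO (fun b h => (hc (ι b)).mpr h))
      (hle_of_centre O O' hO hBO hBO' (fun b h => (hc (ι b)).mp h)))

end Node

/-- **Package (UZ′)** of the second route: the literal Prop `s34i47d_Pkg_UZD`. -/
theorem uzd74_pkg_UZD : s34i47d_Pkg_UZD := by
  intro R K F _ _ _ _ _ _ _ _ _ _ π hπ B hN hfrac P₁ P₂ hP₁ hP₂ hπ1 hπ2 hLS hDom σ τ hSσ hSτ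
    n hn hπn
  obtain ⟨z, z', hz, hz', hgen, hcase⟩ := hLS n hn hπn
  have hnp : (show Ideal B.toSubring from n).IsPrime := hn.isPrime
  have hgen' : ∀ x ∈ n, ∃ s : B, s ∉ n ∧ ∃ a b c : B,
      (s : F) * (x : F) = (a : F) * z + (b : F) * z' + (c : F) * algebraMap R F π := by
    intro x hx
    obtain ⟨s, hs, a, b, c, h⟩ := hgen x hx
    exact ⟨s, hs, a, b, c, congrArg Subtype.val h⟩
  rcases hcase with hsm | ⟨h1n, h2n, hz1, hz2, hz'2, hz'1, c, hc⟩
  · -- smooth alternative: no deep point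
    refine ⟨∅, fun O hO => absurd hO (Set.notMem_empty O), ?_⟩
    intro O hO hthr hrat _
    obtain ⟨hOtop, hPIR, hRO, hπO⟩ := hO
    obtain ⟨hBO, hthr'⟩ := hthr
    obtain ⟨p, hp0, hpO, hpinv, hunif, hother⟩ :=
      @uz37_core R K F _ _ _ _ _ _ _ _ _ _ π hπ B.toSubring hN (fun r => B.algebraMap_mem r) hfrac
        n hnp hπn z z' hz hz' hgen' (Or.inl (by rw [hsm]; rfl)) O hOtop hPIR hRO hπO hBO hthr'
        hrat
    exact ⟨p, hp0, hpO, hpinv, hunif,
      fun O' hO' hthrO' hne => hother O' hthrO'.1 hthrO'.2 hO'.2.2.2 hne⟩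
  · -- two-branch alternative
    obtain ⟨Dp, hDp, hUZ⟩ :=
      @uzd74_node R K F _ _ _ _ _ _ _ _ _ _ π hπ B.toSubring hN (fun r => B.algebraMap_mem r)
        n hnp hπn P₁ P₂ hP₁ hP₂ hπ1 hπ2 h1n h2n z z' hz hz' hgen' hz1 hz2 hz'2 hz'1
        ⟨c, congrArg Subtype.val hc⟩ hDom σ τ hSσ hSτ
    refine ⟨Dp, hDp, ?_⟩
    intro O hO hthr hrat hOD
    obtain ⟨p, hp0, hpO, hpinv, hunif, hother⟩ := hUZ O hO hthr.1 hthr.2 hrat hOD
    exact ⟨p, hp0, hpO, hpinv, hunif,
      fun O' hO' hthrO' hne => hother O' hO' hthrO'.1 hthrO'.2 hne⟩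

end Fermat.Agent.S34
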